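import Mathlib

/-!
# RC leaf, part 1: tent functions and the product partition of unity on `ℤ^r ⊂ ℝ^r`
-/

set_option autoImplicit false

namespace C14

/-- the tent function `max 0 (1 - |t|)` -/
noncomputable def rcTent (t : ℝ) : ℝ := max 0 (1 - |t|)

theorem rcTent_nonneg (t : ℝ) : 0 ≤ rcTent t := le_max_left _ _

theorem rcTent_le_one (t : ℝ) : rcTent t ≤ 1 := by
  unfold rcTent
  exact max_le zero_le_one (by linarith [abs_nonneg t])

theorem rcTent_eq_zero {t : ℝ} (h : 1 ≤ |t|) : rcTent t = 0 := by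
  unfold rcTent
  exact max_eq_left (by linarith)

theorem rcTent_ne_zero {t : ℝ} (h : rcTent t ≠ 0) : |t| < 1 := by
  by_contra h'
  exact h (rcTent_eq_zero (not_lt.mp h'))

theorem rcTent_lip (t t' : ℝ) : |rcTent t - rcTent t'| ≤ |t - t'| := by
  unfold rcTent
  have h1 : |max 0 (1 - |t|) - max 0 (1 - |t'|)| ≤ |(1 - |t|) - (1 - |t'|)| := by
    have := abs_max_sub_max_le_abs (1 - |t|) (1 - |t'|) (0 : ℝ)
    rwa [max_comm (1 - |t|) 0, max_comm (1 - |t'|) 0] at this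
  have h2 : |(1 - |t|) - (1 - |t'|)| ≤ |t - t'| := by
    have : (1 - |t|) - (1 - |t'|) = |t'| - |t| := by ring
    rw [this]
    have := abs_abs_sub_abs_le_abs_sub t' t
    rwa [abs_sub_comm t' t] at this
  exact h1.trans h2

/-- the two integer translates that matter -/
theorem rcTent_sum_two (t : ℝ) :
    rcTent (t + ((-⌊t⌋ : ℤ) : ℝ)) + rcTent (t + ((-⌊t⌋ - 1 : ℤ) : ℝ)) = 1 := by
  have h0 := Int.fract_nonneg t
  have h1 := Int.fract_lt_one t
  have e1 : t + ((-⌊t⌋ : ℤ) : ℝ) = Int.fract t := by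
    rw [Int.fract]; push_cast; ring
  have e2 : t + ((-⌊t⌋ - 1 : ℤ) : ℝ) = Int.fract t - 1 := by
    rw [Int.fract]; push_cast; ring
  rw [e1, e2]
  unfold rcTent
  rw [abs_of_nonneg h0, abs_of_nonpos (by linarith), max_eq_right (by linarith),
    max_eq_right (by linarith)]
  ring

theorem rcTent_int_ne_zero {t : ℝ} {k : ℤ} (h : rcTent (t + (k : ℝ)) ≠ 0) :
    k = -⌊t⌋ ∨ k = -⌊t⌋ - 1 := by
  have h' := rcTent_ne_zero h
  rw [abs_lt] at h'
  have h0 := Int.fract_nonneg t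
  have h1 := Int.fract_lt_one t
  have e : t = ⌊t⌋ + Int.fract t := (Int.floor_add_fract t).symm
  have h2 : (-1 : ℝ) < ((⌊t⌋ + k : ℤ) : ℝ) + Int.fract t := by
    push_cast; linarith [h'.1]
  have h3 : ((⌊t⌋ + k : ℤ) : ℝ) + Int.fract t < 1 := by
    push_cast; linarith [h'.2]
  have h4 : (-2 : ℝ) < ((⌊t⌋ + k : ℤ) : ℝ) := by linarith
  have h5 : ((⌊t⌋ + k : ℤ) : ℝ) < 1 := by linarith
  have h6 : -2 < ⌊t⌋ + k := by exact_mod_cast h4
  have h7 : ⌊t⌋ + k < 1 := by exact_mod_cast h5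
  omega

/-- product of tent functions -/
noncomputable def rcPsi {r : ℕ} (c : Fin r → ℝ) : ℝ := ∏ i, rcTent (c i)

theorem rcPsi_nonneg {r : ℕ} (c : Fin r → ℝ) : 0 ≤ rcPsi c :=
  Finset.prod_nonneg fun _ _ => rcTent_nonneg _

theorem rcPsi_le_one {r : ℕ} (c : Fin r → ℝ) : rcPsi c ≤ 1 :=
  Finset.prod_le_one (fun _ _ => rcTent_nonneg _) (fun _ _ => rcTent_le_one _)

theorem rcPsi_ne_zero {r : ℕ} {c : Fin r → ℝ} (h : rcPsi c ≠ 0) (i : Fin r) : |c i| < 1 := by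
  apply rcTent_ne_zero
  intro h0
  exact h (Finset.prod_eq_zero (Finset.mem_univ i) h0)

theorem rc_prod_lip {ι : Type*} (s : Finset ι) (f g : ι → ℝ)
    (hf0 : ∀ i ∈ s, 0 ≤ f i) (hf1 : ∀ i ∈ s, f i ≤ 1)
    (hg0 : ∀ i ∈ s, 0 ≤ g i) (hg1 : ∀ i ∈ s, g i ≤ 1) :
    |∏ i ∈ s, f i - ∏ i ∈ s, g i| ≤ ∑ i ∈ s, |f i - g i| := by
  classical
  induction s using Finset.induction_on with
  | empty => simp
  | insert a s ha ih =>
    rw [Finset.prod_insert ha, Finset.prod_insert ha, Finset.sum_insert ha]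
    have hf0' : ∀ i ∈ s, 0 ≤ f i := fun i hi => hf0 i (Finset.mem_insert_of_mem hi)
    have hf1' : ∀ i ∈ s, f i ≤ 1 := fun i hi => hf1 i (Finset.mem_insert_of_mem hi)
    have hg0' : ∀ i ∈ s, 0 ≤ g i := fun i hi => hg0 i (Finset.mem_insert_of_mem hi)
    have hg1' : ∀ i ∈ s, g i ≤ 1 := fun i hi => hg1 i (Finset.mem_insert_of_mem hi)
    have ih' := ih hf0' hf1' hg0' hg1'
    have hP0 : 0 ≤ ∏ i ∈ s, f i := Finset.prod_nonneg hf0'
    have hP1 : ∏ i ∈ s, f i ≤ 1 := Finset.prod_le_one hf0' hf1'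
    have hga0 := hg0 a (Finset.mem_insert_self a s)
    have hga1 := hg1 a (Finset.mem_insert_self a s)
    have e : f a * ∏ i ∈ s, f i - g a * ∏ i ∈ s, g i =
        (f a - g a) * ∏ i ∈ s, f i + g a * (∏ i ∈ s, f i - ∏ i ∈ s, g i) := by ring
    rw [e]
    calc |(f a - g a) * ∏ i ∈ s, f i + g a * (∏ i ∈ s, f i - ∏ i ∈ s, g i)|
        ≤ |(f a - g a) * ∏ i ∈ s, f i| + |g a * (∏ i ∈ s, f i - ∏ i ∈ s, g i)| := abs_add_le _ _
      _ = |f a - g a| * (∏ i ∈ s, f i) + g a * |∏ i ∈ s, f i - ∏ i ∈ s, g i| := by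
          rw [abs_mul, abs_mul, abs_of_nonneg hP0, abs_of_nonneg hga0]
      _ ≤ |f a - g a| * 1 + 1 * ∑ i ∈ s, |f i - g i| := by
          gcongr
      _ = |f a - g a| + ∑ i ∈ s, |f i - g i| := by ring

theorem rcPsi_lip {r : ℕ} (c c' : Fin r → ℝ) : |rcPsi c - rcPsi c'| ≤ ∑ i, |c i - c' i| := by
  unfold rcPsi
  refine (rc_prod_lip Finset.univ _ _ (fun _ _ => rcTent_nonneg _) (fun _ _ => rcTent_le_one _)
    (fun _ _ => rcTent_nonneg _) (fun _ _ => rcTent_le_one _)).trans ?_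
  exact Finset.sum_le_sum fun i _ => rcTent_lip _ _

/-- partition of unity, finite form: the translates of `rcPsi` by `ℤ^r` vanish outside a finite
box and sum to `1` over it -/
theorem rcPsi_box {r : ℕ} (c : Fin r → ℝ) : ∃ box : Finset (Fin r → ℤ),
    (∀ k : Fin r → ℤ, k ∉ box → rcPsi (fun i => c i + (k i : ℝ)) = 0) ∧
    ∑ k ∈ box, rcPsi (fun i => c i + (k i : ℝ)) = 1 := by
  classical
  let box : Finset (Fin r → ℤ) :=
    Fintype.piFinset fun i => ({-⌊c i⌋, -⌊c i⌋ - 1} : Finset ℤ)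
  refine ⟨box, ?_, ?_⟩
  · intro k hk
    by_contra h
    apply hk
    rw [Fintype.mem_piFinset]
    intro i
    have h2 : rcTent (c i + (k i : ℝ)) ≠ 0 := by
      intro h0
      exact h (Finset.prod_eq_zero (Finset.mem_univ i) h0)
    rcases rcTent_int_ne_zero h2 with h3 | h3
    · simp [h3]
    · simp [h3]
  · unfold rcPsi
    rw [← Finset.prod_univ_sum (fun i => ({-⌊c i⌋, -⌊c i⌋ - 1} : Finset ℤ))
      (fun i (j : ℤ) => rcTent (c i + (j : ℝ)))]
    apply Finset.prod_eq_one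
    intro i _
    rw [Finset.sum_pair (by omega)]
    exact rcTent_sum_two (c i)

/-- partition of unity: the translates of `rcPsi` by `ℤ^r` sum to `1` -/
theorem rcPsi_hasSum {r : ℕ} (c : Fin r → ℝ) :
    HasSum (fun k : Fin r → ℤ => rcPsi (fun i => c i + (k i : ℝ))) 1 := by
  obtain ⟨box, hsupp, hsum⟩ := rcPsi_box c
  have key : HasSum (fun k : Fin r → ℤ => rcPsi (fun i => c i + (k i : ℝ)))
      (∑ k ∈ box, rcPsi (fun i => c i + (k i : ℝ))) :=
    hasSum_sum_of_ne_finset_zero hsupp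
  rwa [hsum] at key

end C14
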