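import Mathlib
import Fermat.Agent.Lib.C14_RCW_Tent

/-!
# RC leaf, part 2: the unit-orbit weight on `𝓞 K` and its orbit sums
-/

set_option autoImplicit false

open scoped NumberField
open NumberField NumberField.InfinitePlace NumberField.Units NumberField.Units.dirichletUnitTheorem
  NumberField.mixedEmbedding Module

namespace C14

open scoped Classical

section
variable (K : Type*) [Field K] [NumberField K]

/-- coordinates on the log space with respect to the basis given by a fundamental system of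
units -/
noncomputable def rcCoord : logSpace K →ₗ[ℝ] (Fin (rank K) → ℝ) :=
  (((basisUnitLattice K).ofZLatticeBasis ℝ (unitLattice K)).equivFun).toLinearMap

theorem rcCoord_basis (i : Fin (rank K)) :
    rcCoord K ((basisUnitLattice K i : unitLattice K) : logSpace K) = Pi.single i 1 := by
  unfold rcCoord
  funext j
  simp only [LinearEquiv.coe_coe, Basis.equivFun_apply]
  rw [Basis.ofZLatticeBasis_repr_apply]
  simp [Finsupp.single_apply, Pi.single_apply, eq_comm]

theorem rcCoord_logEmbedding (ζ : torsion K) (k : Fin (rank K) → ℤ) :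
    rcCoord K (logEmbedding K (Additive.ofMul ((ζ : (𝓞 K)ˣ) * ∏ i, fundSystem K i ^ k i))) =
      fun i => (k i : ℝ) := by
  have h1 : logEmbedding K (Additive.ofMul ((ζ : (𝓞 K)ˣ) * ∏ i, fundSystem K i ^ k i)) =
      ∑ i, (k i : ℝ) • ((basisUnitLattice K i : unitLattice K) : logSpace K) := by
    rw [ofMul_mul, map_add, (logEmbedding_eq_zero_iff (K := K)).mpr ζ.2, zero_add, ofMul_prod,
      map_sum]
    refine Finset.sum_congr rfl fun i _ => ?_
    rw [ofMul_zpow, map_zsmul, logEmbedding_fundSystem, ← Int.cast_smul_eq_zsmul ℝ]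
  rw [h1, map_sum]
  funext j
  simp only [map_smul, rcCoord_basis, Finset.sum_apply, Pi.smul_apply, smul_eq_mul]
  rw [Finset.sum_eq_single j]
  · simp
  · intro i _ hij
    simp [hij.symm]
  · intro h
    exact absurd (Finset.mem_univ j) h

/-- the decomposition of units as (root of unity) × (exponent vector) -/
noncomputable def rcUnitEquiv : torsion K × (Fin (rank K) → ℤ) ≃ (𝓞 K)ˣ :=
  Equiv.ofBijective (fun ζe => (ζe.1 : (𝓞 K)ˣ) * ∏ i, fundSystem K i ^ ζe.2 i) (by
    constructor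
    · intro x y hxy
      obtain ⟨z, _, hz⟩ := exist_unique_eq_mul_prod K
        ((x.1 : (𝓞 K)ˣ) * ∏ i, fundSystem K i ^ x.2 i)
      have hx := hz x rfl
      have hy := hz y hxy
      rw [hx, hy]
    · intro u
      obtain ⟨z, hz, _⟩ := exist_unique_eq_mul_prod K u
      exact ⟨z, hz.symm⟩)

theorem rcUnitEquiv_apply (ζe : torsion K × (Fin (rank K) → ℤ)) :
    rcUnitEquiv K ζe = (ζe.1 : (𝓞 K)ˣ) * ∏ i, fundSystem K i ^ ζe.2 i := rfl

/-- the unit-orbit weight -/
noncomputable def rcW (s : ℝ) (a : 𝓞 K) : ℝ :=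
  if a = 0 then 0 else
    (Ideal.absNorm (Ideal.span {a}) : ℝ) ^ (-s) *
      rcPsi (rcCoord K (logMap (mixedEmbedding K (a : K))))

theorem rcW_zero (s : ℝ) : rcW K s 0 = 0 := by simp [rcW]

theorem rcW_nonneg (s : ℝ) (a : 𝓞 K) : 0 ≤ rcW K s a := by
  unfold rcW
  split_ifs
  · exact le_rfl
  · exact mul_nonneg (Real.rpow_nonneg (Nat.cast_nonneg _) _) (rcPsi_nonneg _)

theorem rc_norm_ne_zero {a : 𝓞 K} (ha : a ≠ 0) :
    mixedEmbedding.norm (mixedEmbedding K (a : K)) ≠ 0 := by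
  rw [norm_eq_norm]
  simpa using ha

theorem rc_logMap_unit_mul (u : (𝓞 K)ˣ) {a : 𝓞 K} (ha : a ≠ 0) :
    logMap (mixedEmbedding K (((u : 𝓞 K) * a : 𝓞 K) : K)) =
      logEmbedding K (Additive.ofMul u) + logMap (mixedEmbedding K (a : K)) := by
  have := logMap_unit_smul u (rc_norm_ne_zero K ha)
  rw [← this, unitSMul_smul, ← map_mul]
  simp

/-- orbit sums of the weight -/
theorem rcW_orbit (s : ℝ) (a : 𝓞 K) (ha : a ≠ 0) :
    HasSum (fun u : (𝓞 K)ˣ => rcW K s ((u : 𝓞 K) * a))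
      ((torsionOrder K : ℝ) * (Ideal.absNorm (Ideal.span {a}) : ℝ) ^ (-s)) := by
  classical
  have : Fintype (torsion K) := Fintype.ofFinite (torsion K)
  rw [← (rcUnitEquiv K).hasSum_iff]
  set c : Fin (rank K) → ℝ := rcCoord K (logMap (mixedEmbedding K (a : K))) with hc
  have hfun : ∀ ζe : torsion K × (Fin (rank K) → ℤ),
      ((fun u : (𝓞 K)ˣ => rcW K s ((u : 𝓞 K) * a)) ∘ (rcUnitEquiv K)) ζe =
        (Ideal.absNorm (Ideal.span {a}) : ℝ) ^ (-s) * rcPsi (fun i => c i + (ζe.2 i : ℝ)) := by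
    intro ζe
    have hne : ((rcUnitEquiv K ζe : (𝓞 K)ˣ) : 𝓞 K) * a ≠ 0 :=
      mul_ne_zero (Units.ne_zero _) ha
    have hspan : Ideal.span {((rcUnitEquiv K ζe : (𝓞 K)ˣ) : 𝓞 K) * a} = Ideal.span {a} :=
      Ideal.span_singleton_mul_left_unit (Units.isUnit _) a
    simp only [Function.comp_apply, rcW, if_neg hne, hspan]
    congr 2
    rw [rc_logMap_unit_mul K _ ha, map_add, rcUnitEquiv_apply, rcCoord_logEmbedding]
    funext i
    simp only [Pi.add_apply, hc]
    ring
  obtain ⟨box, hsupp, hsum⟩ := rcPsi_box c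
  have key : HasSum ((fun u : (𝓞 K)ˣ => rcW K s ((u : 𝓞 K) * a)) ∘ (rcUnitEquiv K))
      (∑ ζe ∈ (Finset.univ : Finset (torsion K)) ×ˢ box,
        ((fun u : (𝓞 K)ˣ => rcW K s ((u : 𝓞 K) * a)) ∘ (rcUnitEquiv K)) ζe) := by
    apply hasSum_sum_of_ne_finset_zero
    intro ζe hζe
    rw [hfun, hsupp ζe.2, mul_zero]
    intro h
    exact hζe (Finset.mem_product.mpr ⟨Finset.mem_univ _, h⟩)
  convert key using 1
  rw [Finset.sum_product]
  simp only [hfun]
  rw [Finset.sum_const, ← Finset.mul_sum, hsum, mul_one, Finset.card_univ, nsmul_eq_mul,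
    torsionOrder, Nat.card_eq_fintype_card]

end

end C14
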