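import Mathlib
import Fermat.Agent.Lib.C14_RCW_Orbit

/-!
# RC leaf, part 3: the weight as a function of the vector of absolute values;
support and Lipschitz estimates
-/

set_option autoImplicit false

open scoped NumberField
open NumberField NumberField.InfinitePlace NumberField.Units NumberField.Units.dirichletUnitTheorem
  NumberField.mixedEmbedding Module

namespace C14

open scoped Classical

theorem rc_log_sub_le {a x y : ℝ} (ha : 0 < a) (hx : a ≤ x) (hy : a ≤ y) :
    |Real.log x - Real.log y| ≤ |x - y| / a := by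
  have hx0 : 0 < x := lt_of_lt_of_le ha hx
  have hy0 : 0 < y := lt_of_lt_of_le ha hy
  have key : ∀ u v : ℝ, a ≤ u → a ≤ v → Real.log u - Real.log v ≤ |u - v| / a := by
    intro u v hu hv
    have hu0 : 0 < u := lt_of_lt_of_le ha hu
    have hv0 : 0 < v := lt_of_lt_of_le ha hv
    have h1 : Real.log u - Real.log v = Real.log (u / v) := (Real.log_div hu0.ne' hv0.ne').symm
    have h2 : Real.log (u / v) ≤ u / v - 1 := Real.log_le_sub_one_of_pos (div_pos hu0 hv0)
    have h3 : u / v - 1 = (u - v) / v := by field_simp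
    have h4 : (u - v) / v ≤ |u - v| / v := by gcongr; exact le_abs_self _
    have h5 : |u - v| / v ≤ |u - v| / a := by gcongr
    linarith
  rw [abs_le]
  constructor
  · have := key y x hy hx
    rw [abs_sub_comm] at this
    linarith
  · exact key x y hx hy

theorem rc_exp_sub_le (x y : ℝ) :
    |Real.exp (-x) - Real.exp (-y)| ≤ |x - y| * Real.exp (-(min x y)) := by
  have key : ∀ u v : ℝ, u ≤ v → |Real.exp (-u) - Real.exp (-v)| ≤ (v - u) * Real.exp (-u) := by
    intro u v huv
    have h1 : Real.exp (-v) = Real.exp (-u) * Real.exp (-(v - u)) := by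
      rw [← Real.exp_add]; congr 1; ring
    have h2 : 1 - (v - u) ≤ Real.exp (-(v - u)) := by
      have := Real.add_one_le_exp (-(v - u))
      linarith
    have h3 : Real.exp (-(v - u)) ≤ 1 := by
      rw [Real.exp_le_one_iff]; linarith
    have hpos := Real.exp_pos (-u)
    rw [h1, abs_le]
    constructor
    · nlinarith
    · nlinarith
  rcases le_total x y with h | h
  · rw [min_eq_left h, abs_sub_comm x y, abs_of_nonneg (sub_nonneg.mpr h)]
    exact key x y h
  · rw [min_eq_right h, abs_of_nonneg (sub_nonneg.mpr h), abs_sub_comm]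
    exact key y x h

section
variable (K : Type*) [Field K] [NumberField K]

/-- the "norm" of a vector of absolute values -/
noncomputable def rcP (v : InfinitePlace K → ℝ) : ℝ := ∏ w, v w ^ mult w

/-- the log vector of a vector of absolute values -/
noncomputable def rcL (v : InfinitePlace K → ℝ) : logSpace K := fun w =>
  mult w.val * (Real.log (v w.val) - Real.log (rcP K v) * (finrank ℚ K : ℝ)⁻¹)

/-- the weight as a function of the vector of absolute values -/
noncomputable def rcG (s : ℝ) (v : InfinitePlace K → ℝ) : ℝ :=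
  rcP K v ^ (-s) * rcPsi (rcCoord K (rcL K v))

theorem rc_absNorm_eq (a : 𝓞 K) :
    (Ideal.absNorm (Ideal.span {a}) : ℝ) = rcP K (fun w => w (a : K)) := by
  unfold rcP
  rw [prod_eq_abs_norm, Ideal.absNorm_span_singleton, ← Algebra.coe_norm_int]
  simp [Nat.cast_natAbs]

theorem rc_logMap_eq (a : 𝓞 K) :
    logMap (mixedEmbedding K (a : K)) = rcL K (fun w => w (a : K)) := by
  funext w
  simp only [logMap_apply, normAtPlace_apply, mixedEmbedding.norm_apply, rcL, rcP]

theorem rcW_eq_rcG (s : ℝ) {a : 𝓞 K} (ha : a ≠ 0) :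
    rcW K s a = rcG K s (fun w => w (a : K)) := by
  unfold rcW rcG
  rw [if_neg ha, rc_absNorm_eq, rc_logMap_eq]

theorem rc_log_rcP (v : InfinitePlace K → ℝ) (hv : ∀ w, 0 < v w) :
    Real.log (rcP K v) = ∑ w, (mult w : ℝ) * Real.log (v w) := by
  unfold rcP
  rw [Real.log_prod (fun w _ => pow_ne_zero _ (hv w).ne')]
  exact Finset.sum_congr rfl fun w _ => Real.log_pow _ _

theorem rc_rcP_ge {a : ℝ} (ha : 0 ≤ a) (v : InfinitePlace K → ℝ) (hv : ∀ w, a ≤ v w) :
    a ^ finrank ℚ K ≤ rcP K v := by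
  unfold rcP
  rw [← sum_mult_eq, ← Finset.prod_pow_eq_pow_sum]
  exact Finset.prod_le_prod (fun w _ => pow_nonneg ha _) (fun w _ => pow_le_pow_left₀ ha (hv w) _)

theorem rc_rcP_pos (v : InfinitePlace K → ℝ) (hv : ∀ w, 0 < v w) : 0 < rcP K v :=
  Finset.prod_pos fun w _ => pow_pos (hv w) _

/-- the normalized logs `t_w = log v_w - log P / n` have weighted sum zero -/
theorem rc_sum_mult_t (v : InfinitePlace K → ℝ) (hv : ∀ w, 0 < v w) :
    ∑ w : InfinitePlace K, (mult w : ℝ) *
      (Real.log (v w) - Real.log (rcP K v) * (finrank ℚ K : ℝ)⁻¹) = 0 := by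
  have hn : (finrank ℚ K : ℝ) ≠ 0 := Nat.cast_ne_zero.mpr (finrank_pos).ne'
  simp_rw [mul_sub]
  rw [Finset.sum_sub_distrib, ← rc_log_rcP K v hv, ← Finset.sum_mul]
  have : (∑ w : InfinitePlace K, (mult w : ℝ)) = (finrank ℚ K : ℝ) := by
    rw [← Nat.cast_sum, sum_mult_eq]
  rw [this]
  field_simp
  ring

/-- support: where the weight does not vanish, all absolute values are comparable -/
theorem rc_supp : ∃ c₀ : ℝ, 0 < c₀ ∧ c₀ ≤ 1 ∧ ∀ v : InfinitePlace K → ℝ, (∀ w, 0 < v w) →
    rcPsi (rcCoord K (rcL K v)) ≠ 0 → ∀ w w', c₀ * v w' ≤ v w := by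
  set B := (basisUnitLattice K).ofZLatticeBasis ℝ (unitLattice K) with hB
  set R' : ℝ := ∑ i, ‖B i‖ with hR'
  have hR'0 : 0 ≤ R' := Finset.sum_nonneg fun i _ => norm_nonneg _
  set N₀ : ℝ := (Fintype.card (InfinitePlace K) : ℝ) with hN₀
  have hN₀1 : 1 ≤ N₀ := by
    rw [hN₀]; exact_mod_cast Fintype.card_pos
  set R'' : ℝ := N₀ * R' with hR''
  have hR''0 : 0 ≤ R'' := mul_nonneg (by linarith) hR'0
  have hR'R'' : R' ≤ R'' := by rw [hR'']; nlinarith
  refine ⟨Real.exp (-(2 * R'')), Real.exp_pos _, ?_, ?_⟩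
  · rw [Real.exp_le_one_iff]; linarith
  intro v hv hne w w'
  set y := rcL K v with hy
  -- norm bound on y
  have hcoord : ∀ i, |rcCoord K y i| < 1 := fun i => rcPsi_ne_zero hne i
  have hysum : y = ∑ i, (rcCoord K y i) • B i := (B.sum_equivFun y).symm
  have hynorm : ‖y‖ ≤ R' := by
    conv_lhs => rw [hysum]
    refine (norm_sum_le _ _).trans ?_
    rw [hR']
    refine Finset.sum_le_sum fun i _ => ?_
    rw [_root_.norm_smul, Real.norm_eq_abs]
    calc |rcCoord K y i| * ‖B i‖ ≤ 1 * ‖B i‖ := by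
          gcongr
          exact (hcoord i).le
      _ = ‖B i‖ := one_mul _
  set t : InfinitePlace K → ℝ := fun w =>
    Real.log (v w) - Real.log (rcP K v) * (finrank ℚ K : ℝ)⁻¹ with ht
  have hyw : ∀ w : {w : InfinitePlace K // w ≠ w₀}, y w = mult w.val * t w.val := fun w => rfl
  have ht1 : ∀ w : InfinitePlace K, w ≠ w₀ → |t w| ≤ R' := by
    intro w hw
    have h1 : |y ⟨w, hw⟩| ≤ ‖y‖ := by
      have := norm_le_pi_norm y ⟨w, hw⟩
      rwa [Real.norm_eq_abs] at this
    rw [hyw, abs_mul] at h1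
    have h2 : (1 : ℝ) ≤ |(mult w : ℝ)| := by
      rw [abs_of_nonneg (Nat.cast_nonneg _)]; exact one_le_mult
    have h3 : |t w| ≤ |(mult w : ℝ)| * |t w| := by
      nlinarith [abs_nonneg (t w)]
    linarith
  have hsum0 := rc_sum_mult_t K v hv
  rw [Fintype.sum_eq_add_sum_subtype_ne _ w₀] at hsum0
  have ht0 : |t w₀| ≤ R'' := by
    have h1 : (mult (w₀ : InfinitePlace K) : ℝ) * t w₀ =
        -∑ w : {w : InfinitePlace K // w ≠ w₀}, (mult w.val : ℝ) * t w.val := by
      linarith
    have h2 : |∑ w : {w : InfinitePlace K // w ≠ w₀}, (mult w.val : ℝ) * t w.val| ≤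
        ∑ w : {w : InfinitePlace K // w ≠ w₀}, R' := by
      refine (Finset.abs_sum_le_sum_abs _ _).trans (Finset.sum_le_sum fun w _ => ?_)
      have h1 : |y w| ≤ ‖y‖ := by
        have := norm_le_pi_norm y w
        rwa [Real.norm_eq_abs] at this
      rw [hyw] at h1
      linarith
    have h3 : (∑ w : {w : InfinitePlace K // w ≠ w₀}, R') ≤ R'' := by
      rw [Finset.sum_const, nsmul_eq_mul, hR'']
      gcongr
      rw [hN₀]
      exact_mod_cast Fintype.card_subtype_le _
    have h4 : |(mult (w₀ : InfinitePlace K) : ℝ) * t w₀| ≤ R'' := by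
      rw [h1, abs_neg]; linarith
    rw [abs_mul] at h4
    have h5 : (1 : ℝ) ≤ |(mult (w₀ : InfinitePlace K) : ℝ)| := by
      rw [abs_of_nonneg (Nat.cast_nonneg _)]; exact one_le_mult
    nlinarith [abs_nonneg (t w₀)]
  have htall : ∀ w : InfinitePlace K, |t w| ≤ R'' := by
    intro w
    by_cases hw : w = w₀
    · rw [hw]; exact ht0
    · exact (ht1 w hw).trans hR'R''
  have h1 : Real.log (v w') - 2 * R'' ≤ Real.log (v w) := by
    have e : Real.log (v w) - Real.log (v w') = t w - t w' := by simp only [ht]; ring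
    have a1 := abs_le.mp (htall w)
    have a2 := abs_le.mp (htall w')
    linarith
  have h2 : Real.exp (Real.log (v w') - 2 * R'') ≤ Real.exp (Real.log (v w)) :=
    Real.exp_le_exp.mpr h1
  rw [Real.exp_log (hv w), Real.exp_sub, Real.exp_log (hv w')] at h2
  rw [Real.exp_neg, mul_comm]
  exact h2

end

end C14
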