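import Mathlib
import Fermat.Agent.Lib.C14_RCW_Lip

/-!
# RC leaf, part 4: the Lipschitz estimate for the weight
-/

set_option autoImplicit false

open scoped NumberField
open NumberField NumberField.InfinitePlace NumberField.Units NumberField.Units.dirichletUnitTheorem
  NumberField.mixedEmbedding Module

namespace C14

open scoped Classical

theorem rc_alg (n r Cc δ a A : ℝ) (ha : a ≠ 0) (hA : A ≠ 0) :
    (2 * (n * (δ / a))) * A⁻¹ * 1 + A⁻¹ * (r * (Cc * (4 * (δ / a)))) =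
      (2 * n + 4 * r * Cc) * δ / (A * a) := by
  field_simp

section
variable (K : Type*) [Field K] [NumberField K]

omit [NumberField K] in
theorem rc_mult_le_two (w : InfinitePlace K) : (mult w : ℝ) ≤ 2 := by
  unfold mult
  split_ifs <;> norm_num

theorem rc_coord_bound : ∃ Cc : ℝ, 0 ≤ Cc ∧ ∀ (y : logSpace K) (i : Fin (rank K)),
    |rcCoord K y i| ≤ Cc * ‖y‖ := by
  refine ⟨‖LinearMap.toContinuousLinearMap (rcCoord K)‖, norm_nonneg _, fun y i => ?_⟩
  have h1 : ‖rcCoord K y i‖ ≤ ‖rcCoord K y‖ := norm_le_pi_norm (rcCoord K y) i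
  have h2 : ‖rcCoord K y‖ ≤ ‖LinearMap.toContinuousLinearMap (rcCoord K)‖ * ‖y‖ :=
    (LinearMap.toContinuousLinearMap (rcCoord K)).le_opNorm y
  rw [Real.norm_eq_abs] at h1
  exact h1.trans h2

theorem rc_lip : ∃ C : ℝ, 0 ≤ C ∧ ∀ s : ℝ, 1 ≤ s → s ≤ 2 → ∀ (a δ : ℝ), 1 ≤ a →
    ∀ v v' : InfinitePlace K → ℝ, (∀ w, a ≤ v w) → (∀ w, a ≤ v' w) →
    (∀ w, |v w - v' w| ≤ δ) →
    |rcG K s v - rcG K s v'| ≤ C * δ / a ^ (finrank ℚ K + 1) := by
  obtain ⟨Cc, hCc0, hCc⟩ := rc_coord_bound K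
  set n : ℕ := finrank ℚ K with hn
  have hnpos : 0 < n := finrank_pos
  have hnR : (0 : ℝ) < (n : ℝ) := Nat.cast_pos.mpr hnpos
  refine ⟨2 * n + 4 * (rank K) * Cc, by positivity, ?_⟩
  intro s hs1 hs2 a δ ha v v' hv hv' hδ
  have ha0 : 0 < a := by linarith
  have hv0 : ∀ w, 0 < v w := fun w => lt_of_lt_of_le ha0 (hv w)
  have hv'0 : ∀ w, 0 < v' w := fun w => lt_of_lt_of_le ha0 (hv' w)
  have hδ0 : 0 ≤ δ := (abs_nonneg _).trans (hδ w₀)
  have hlog : ∀ w, |Real.log (v w) - Real.log (v' w)| ≤ δ / a := fun w =>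
    (rc_log_sub_le ha0 (hv w) (hv' w)).trans (div_le_div_of_nonneg_right (hδ w) ha0.le)
  have hsummult : (∑ w : InfinitePlace K, (mult w : ℝ)) = (n : ℝ) := by
    rw [← Nat.cast_sum, sum_mult_eq]
  have hlogP : |Real.log (rcP K v) - Real.log (rcP K v')| ≤ n * (δ / a) := by
    rw [rc_log_rcP K v hv0, rc_log_rcP K v' hv'0, ← Finset.sum_sub_distrib]
    refine (Finset.abs_sum_le_sum_abs _ _).trans ?_
    rw [← hsummult, Finset.sum_mul]
    refine Finset.sum_le_sum fun w _ => ?_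
    rw [← mul_sub, abs_mul, abs_of_nonneg (Nat.cast_nonneg _)]
    exact mul_le_mul_of_nonneg_left (hlog w) (Nat.cast_nonneg _)
  have hPpos := rc_rcP_pos K v hv0
  have hP'pos := rc_rcP_pos K v' hv'0
  have hPge : a ^ n ≤ rcP K v := rc_rcP_ge K ha0.le v hv
  have hP'ge : a ^ n ≤ rcP K v' := rc_rcP_ge K ha0.le v' hv'
  have hanpos : 0 < a ^ n := pow_pos ha0 n
  have hloga : 0 ≤ Real.log a := Real.log_nonneg ha
  have hlogPge : n * Real.log a ≤ Real.log (rcP K v) := by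
    rw [← Real.log_pow]; exact Real.log_le_log hanpos hPge
  have hlogP'ge : n * Real.log a ≤ Real.log (rcP K v') := by
    rw [← Real.log_pow]; exact Real.log_le_log hanpos hP'ge
  have hnloga : 0 ≤ n * Real.log a := mul_nonneg hnR.le hloga
  have hx : n * Real.log a ≤ s * Real.log (rcP K v) := by nlinarith
  have hx' : n * Real.log a ≤ s * Real.log (rcP K v') := by nlinarith
  have hexpn : Real.exp (-(n * Real.log a)) = (a ^ n)⁻¹ := by
    rw [Real.exp_neg, Real.exp_nat_mul, Real.exp_log ha0]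
  have hPs : rcP K v ^ (-s) = Real.exp (-(s * Real.log (rcP K v))) := by
    rw [Real.rpow_def_of_pos hPpos]; congr 1; ring
  have hP's : rcP K v' ^ (-s) = Real.exp (-(s * Real.log (rcP K v'))) := by
    rw [Real.rpow_def_of_pos hP'pos]; congr 1; ring
  have h1 : |rcP K v ^ (-s) - rcP K v' ^ (-s)| ≤ (2 * (n * (δ / a))) * (a ^ n)⁻¹ := by
    rw [hPs, hP's]
    refine (rc_exp_sub_le _ _).trans ?_
    have e1 : |s * Real.log (rcP K v) - s * Real.log (rcP K v')| ≤ 2 * (n * (δ / a)) := by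
      rw [← mul_sub, abs_mul, abs_of_nonneg (by linarith : (0 : ℝ) ≤ s)]
      have : 0 ≤ n * (δ / a) := by positivity
      nlinarith [abs_nonneg (Real.log (rcP K v) - Real.log (rcP K v'))]
    have e2 : Real.exp (-(min (s * Real.log (rcP K v)) (s * Real.log (rcP K v')))) ≤
        (a ^ n)⁻¹ := by
      rw [← hexpn, Real.exp_le_exp, neg_le_neg_iff]
      exact le_min hx hx'
    exact mul_le_mul e1 e2 (Real.exp_pos _).le (by positivity)
  have h2 : rcP K v' ^ (-s) ≤ (a ^ n)⁻¹ := by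
    rw [hP's, ← hexpn, Real.exp_le_exp, neg_le_neg_iff]
    exact hx'
  have h2' : 0 ≤ rcP K v' ^ (-s) := Real.rpow_nonneg hP'pos.le _
  have h3 : ‖rcL K v - rcL K v'‖ ≤ 4 * (δ / a) := by
    rw [pi_norm_le_iff_of_nonneg (by positivity)]
    intro w
    rw [Real.norm_eq_abs]
    simp only [Pi.sub_apply, rcL]
    rw [← mul_sub, abs_mul, abs_of_nonneg (Nat.cast_nonneg _)]
    have e1 := hlog w.val
    have e2 : |Real.log (rcP K v) * (n : ℝ)⁻¹ - Real.log (rcP K v') * (n : ℝ)⁻¹| ≤ δ / a := by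
      rw [← sub_mul, abs_mul, abs_of_nonneg (inv_nonneg.mpr hnR.le)]
      calc |Real.log (rcP K v) - Real.log (rcP K v')| * (n : ℝ)⁻¹
          ≤ (n * (δ / a)) * (n : ℝ)⁻¹ := by gcongr
        _ = δ / a := by field_simp
    have e3 : |Real.log (v w.val) - Real.log (rcP K v) * (n : ℝ)⁻¹ -
        (Real.log (v' w.val) - Real.log (rcP K v') * (n : ℝ)⁻¹)| ≤ 2 * (δ / a) := by
      have : Real.log (v w.val) - Real.log (rcP K v) * (n : ℝ)⁻¹ -
          (Real.log (v' w.val) - Real.log (rcP K v') * (n : ℝ)⁻¹) =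
          (Real.log (v w.val) - Real.log (v' w.val)) -
          (Real.log (rcP K v) * (n : ℝ)⁻¹ - Real.log (rcP K v') * (n : ℝ)⁻¹) := by ring
      rw [this]
      refine (abs_sub _ _).trans ?_
      linarith
    have e4 := rc_mult_le_two K w.val
    have e5 : (0 : ℝ) ≤ (mult w.val : ℝ) := Nat.cast_nonneg _
    have e6 : 0 ≤ δ / a := by positivity
    nlinarith [abs_nonneg (Real.log (v w.val) - Real.log (rcP K v) * (n : ℝ)⁻¹ -
        (Real.log (v' w.val) - Real.log (rcP K v') * (n : ℝ)⁻¹))]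
  have h4 : |rcPsi (rcCoord K (rcL K v)) - rcPsi (rcCoord K (rcL K v'))| ≤
      (rank K : ℝ) * (Cc * (4 * (δ / a))) := by
    refine (rcPsi_lip _ _).trans ?_
    have : ∀ i ∈ (Finset.univ : Finset (Fin (rank K))),
        |rcCoord K (rcL K v) i - rcCoord K (rcL K v') i| ≤ Cc * (4 * (δ / a)) := by
      intro i _
      have e : rcCoord K (rcL K v) i - rcCoord K (rcL K v') i =
          rcCoord K (rcL K v - rcL K v') i := by
        rw [map_sub]; rfl
      rw [e]
      exact (hCc _ i).trans (mul_le_mul_of_nonneg_left h3 hCc0)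
    refine (Finset.sum_le_sum this).trans ?_
    rw [Finset.sum_const, nsmul_eq_mul, Finset.card_univ, Fintype.card_fin]
  have hΨ0 := rcPsi_nonneg (rcCoord K (rcL K v))
  have hΨ1 := rcPsi_le_one (rcCoord K (rcL K v))
  unfold rcG
  have e : rcP K v ^ (-s) * rcPsi (rcCoord K (rcL K v)) -
      rcP K v' ^ (-s) * rcPsi (rcCoord K (rcL K v')) =
      (rcP K v ^ (-s) - rcP K v' ^ (-s)) * rcPsi (rcCoord K (rcL K v)) +
      rcP K v' ^ (-s) * (rcPsi (rcCoord K (rcL K v)) - rcPsi (rcCoord K (rcL K v'))) := by ring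
  rw [e]
  refine (abs_add_le _ _).trans ?_
  rw [abs_mul, abs_mul, abs_of_nonneg hΨ0, abs_of_nonneg h2']
  have hinv : 0 ≤ (a ^ n)⁻¹ := inv_nonneg.mpr hanpos.le
  have hda : 0 ≤ δ / a := by positivity
  calc |rcP K v ^ (-s) - rcP K v' ^ (-s)| * rcPsi (rcCoord K (rcL K v)) +
        rcP K v' ^ (-s) * |rcPsi (rcCoord K (rcL K v)) - rcPsi (rcCoord K (rcL K v'))|
      ≤ (2 * (n * (δ / a))) * (a ^ n)⁻¹ * 1 +
        (a ^ n)⁻¹ * ((rank K : ℝ) * (Cc * (4 * (δ / a)))) := by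
        gcongr
    _ = (2 * n + 4 * (rank K) * Cc) * δ / a ^ (n + 1) := by
        rw [pow_succ]
        exact rc_alg _ _ _ _ _ _ ha0.ne' hanpos.ne'

end

end C14
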