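import Mathlib
import Fermat.Agent.Lib.C14_RCW_Lip2

/-!
# RC leaf, part 5: lattice sums over `𝓞 K` (collision-free copy of `C14_RCW_Lat`)
-/

set_option autoImplicit false

open scoped NumberField
open NumberField NumberField.InfinitePlace NumberField.Units NumberField.Units.dirichletUnitTheorem
  NumberField.mixedEmbedding Module

namespace C14

open scoped Classical

theorem rcw_zeta_le {σ : ℝ} (hσ : 1 < σ) : ∑' k : ℕ, (k : ℝ) ^ (-σ) ≤ 1 + 1 / (σ - 1) := by
  have hsum : Summable (fun k : ℕ => (k : ℝ) ^ (-σ)) := Real.summable_nat_rpow.mpr (by linarith)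
  rw [hsum.tsum_eq_zero_add]
  have h0 : ((0 : ℕ) : ℝ) ^ (-σ) = 0 := by
    rw [Nat.cast_zero, Real.zero_rpow (by linarith)]
  rw [h0, zero_add]
  have h1 : (fun k : ℕ => ((k + 1 : ℕ) : ℝ) ^ (-σ)) = fun k : ℕ => 1 / ((k : ℝ) + 1) ^ σ := by
    funext k
    rw [Real.rpow_neg (Nat.cast_nonneg _), one_div]
    push_cast
    rfl
  rw [h1]
  have h2 := ZetaAsymptotics.zeta_limit_aux1 hσ
  have h3 : 0 ≤ ZetaAsymptotics.termTSum σ :=
    tsum_nonneg fun n => ZetaAsymptotics.term_nonneg (n + 1) σ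
  nlinarith

section
variable (K : Type*) [Field K] [NumberField K]

theorem rcw_place_le_norm (a : K) (w : InfinitePlace K) : w a ≤ ‖mixedEmbedding K a‖ := by
  rw [norm_eq_sup'_normAtPlace, ← normAtPlace_apply w a]
  exact Finset.le_sup' (fun w => normAtPlace w (mixedEmbedding K a)) (Finset.mem_univ w)

theorem rcw_exists_place_eq_norm (a : K) : ∃ w : InfinitePlace K, w a = ‖mixedEmbedding K a‖ := by
  rw [norm_eq_sup'_normAtPlace]
  obtain ⟨w, _, hw⟩ := Finset.exists_mem_eq_sup' Finset.univ_nonempty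
    (fun w => normAtPlace w (mixedEmbedding K a))
  exact ⟨w, by rw [hw, normAtPlace_apply]⟩

theorem rcw_place_sub_le (a b : K) (w : InfinitePlace K) : |w a - w b| ≤ w (a - b) := by
  rw [← norm_embedding_eq w a, ← norm_embedding_eq w b, ← norm_embedding_eq w (a - b), map_sub]
  exact abs_norm_sub_norm_le _ _

/-- the bijection between `𝓞 K` and its image lattice in the mixed space -/
noncomputable def rcwLatEquiv : 𝓞 K ≃ (mixedEmbedding.integerLattice K) :=
  Equiv.ofBijective (fun a => ⟨mixedEmbedding K (a : K), ⟨a, rfl⟩⟩) (by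
    constructor
    · intro a b hab
      have h : mixedEmbedding K (a : K) = mixedEmbedding K (b : K) := congrArg Subtype.val hab
      exact RingOfIntegers.coe_injective (mixedEmbedding_injective K h)
    · rintro ⟨x, a, rfl⟩
      exact ⟨a, rfl⟩)

theorem rcwLatEquiv_norm (a : 𝓞 K) : ‖rcwLatEquiv K a‖ = ‖mixedEmbedding K (a : K)‖ := rfl

theorem rcw_finrank_lat : finrank ℤ (mixedEmbedding.integerLattice K) = finrank ℚ K := by
  rw [ZLattice.rank ℝ, mixedEmbedding.finrank]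

theorem rcw_summable_norm (r : ℝ) (hr : r < -(finrank ℚ K : ℝ)) :
    Summable (fun a : 𝓞 K => ‖mixedEmbedding K (a : K)‖ ^ r) := by
  have h := ZLattice.summable_norm_rpow (mixedEmbedding.integerLattice K) r
    (by rw [rcw_finrank_lat]; exact hr)
  exact (rcwLatEquiv K).summable_iff.mpr h

theorem rcw_tsum_norm_le : ∃ A : ℝ, 0 < A ∧ ∀ r : ℝ, r < -(finrank ℚ K : ℝ) →
    ∑' a : 𝓞 K, ‖mixedEmbedding K (a : K)‖ ^ r ≤
      A ^ r * ∑' k : ℕ, (k : ℝ) ^ ((finrank ℚ K : ℝ) - 1 + r) := by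
  refine ⟨ZLattice.tsumNormRPowBound (mixedEmbedding.integerLattice K),
    ZLattice.tsumNormRPowBound_pos _, fun r hr => ?_⟩
  have h := ZLattice.tsum_norm_rpow_le (mixedEmbedding.integerLattice K) r
    (by rw [rcw_finrank_lat]; exact hr)
  rw [rcw_finrank_lat] at h
  rw [← (rcwLatEquiv K).tsum_eq (fun z : mixedEmbedding.integerLattice K => ‖z‖ ^ r)] at h
  exact h

theorem rcwW_le_one {s : ℝ} (hs : 0 ≤ s) (a : 𝓞 K) : rcW K s a ≤ 1 := by
  unfold rcW
  split_ifs with ha
  · exact zero_le_one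
  · have h1 : (1 : ℝ) ≤ (Ideal.absNorm (Ideal.span {a}) : ℝ) := by
      have : Ideal.absNorm (Ideal.span {a}) ≠ 0 := by
        rw [Ne, Ideal.absNorm_eq_zero_iff, Ideal.span_singleton_eq_bot]
        exact ha
      exact_mod_cast Nat.one_le_iff_ne_zero.mpr this
    have h2 : (Ideal.absNorm (Ideal.span {a}) : ℝ) ^ (-s) ≤ 1 :=
      Real.rpow_le_one_of_one_le_of_nonpos h1 (by linarith)
    have h3 := rcPsi_le_one (rcCoord K (logMap (mixedEmbedding K (a : K))))
    have h4 := rcPsi_nonneg (rcCoord K (logMap (mixedEmbedding K (a : K))))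
    have h5 : 0 ≤ (Ideal.absNorm (Ideal.span {a}) : ℝ) ^ (-s) :=
      Real.rpow_nonneg (Nat.cast_nonneg _) _
    nlinarith

omit [NumberField K] in
theorem rcw_place_pos {a : 𝓞 K} (ha : a ≠ 0) (w : InfinitePlace K) : 0 < w (a : K) := by
  rw [InfinitePlace.pos_iff]
  exact_mod_cast ha

theorem rcw_norm_pos {a : 𝓞 K} (ha : a ≠ 0) : 0 < ‖mixedEmbedding K (a : K)‖ := by
  rw [norm_pos_iff, Ne, map_eq_zero]
  exact_mod_cast ha

end

end C14
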