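import Fermat.Agent.Lib.C14_RC_Growth
import Fermat.Agent.Lib.C14_RCW_Fin

/-!
# RC leaf, final form: ray class L-functions are bounded near `s = 1`

`C14.RC_bdd` in the blueprint shape, from the bookkeeping (`C14.rc_bdd_of_exists_weight4`) and the
unit-orbit weight (`C14.rcw_weight4`).
-/

set_option autoImplicit false

open scoped NumberField
open IsDedekindDomain

namespace C14

/-- **RC**: the L-function of a nontrivial (wide) ray class character modulo `m` is bounded on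
`(1, 2)`. -/
theorem RC_bdd (F : Type*) [Field F] [NumberField F] (m : ℕ) (hm : 0 < m)
    (f : HeightOneSpectrum (𝓞 F) → ℂ)
    (hf0 : ∀ v, (m : 𝓞 F) ∈ v.asIdeal → f v = 0)
    (hf1 : ∀ v, (m : 𝓞 F) ∉ v.asIdeal → ‖f v‖ = 1)
    (hray : ∀ α : 𝓞 F, α ≠ 0 → α - 1 ∈ Ideal.span {(m : 𝓞 F)} →
      ext F f (Ideal.span {α}) = 1)
    (hnt : ∃ v, (m : 𝓞 F) ∉ v.asIdeal ∧ f v ≠ 1) :
    ∃ C : ℝ, ∀ s : ℝ, 1 < s → s < 2 → ‖Lfun F f s‖ ≤ C :=
  rc_bdd_of_exists_weight4 F (rcw_weight4 F) m hm f hf0 hf1 hray hnt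

end C14
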