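import Fermat.Agent.Lib.C14_AL_Recip
import Fermat.Agent.Lib.C14_RC_Final

/-!
# Leaf AL: reciprocity by cyclotomic crossing (closed form)

`C14.AL_recip`, exactly as in the blueprint: for `L/K` cyclic of prime degree `p ≥ 3`, unramified
everywhere, `K = ℚ(ζ_p)`, `L/ℚ` Galois and non-abelian, and a nontrivial class character `χ` of
`K` of exponent `p` that is trivial on the primes splitting in `L`: every character of
`Gal(L/K)` composed with the Frobenius map is trivial on principal ideals.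
-/

set_option autoImplicit false

open scoped NumberField
open IsDedekindDomain Module

namespace C14

theorem AL_recip (p : ℕ) [Fact p.Prime] (hp3 : 3 ≤ p)
    (K L : Type) [Field K] [NumberField K] [Field L] [NumberField L] [Algebra K L]
    [IsGalois K L] [IsCyclotomicExtension {p} ℚ K] [IsGalois ℚ L]
    (hdeg : finrank K L = p) (hunr : ∀ v : HeightOneSpectrum (𝓞 K), UnramIn K L v)
    (hnonab : ¬ ∀ g h : L ≃ₐ[ℚ] L, g * h = h * g)
    (χ : HeightOneSpectrum (𝓞 K) → ℂ) (hχp : ∀ v, χ v ^ p = 1)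
    (hχs : ∀ v, SplitsIn K L v → χ v = 1)
    (hχP : ∀ α : 𝓞 K, α ≠ 0 → ext K χ (Ideal.span {α}) = 1) (hχnt : ∃ v, χ v ≠ 1)
    (φ : (L ≃ₐ[K] L) →* ℂˣ) (α : 𝓞 K) (hα : α ≠ 0) :
    ext K (fun v => (φ (frob K L v) : ℂ)) (Ideal.span {α}) = 1 :=
  AL_recip_of_rc (fun F _ _ m hm f h0 h1 hray hnt => RC_bdd F m hm f h0 h1 hray hnt)
    p hp3 K L hdeg hunr hnonab χ hχp hχs hχP hχnt φ α hα

end C14
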