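import Fermat.Agent.Lib.C14_GExt

/-!
# AL-X: the abstract "cyclic comparison" lemma (second inequality in group form)

`C14.al_cyclic_of`: for a Galois extension `M/F` of number fields, a modulus `q`, and a map
`c` from primes of `F` to a finite abelian group which is a (wide) ray class character mod `q`
trivial on the primes splitting completely in `M`: if some value `c w₀` has order at least
`[M : F]`, then every value `c w` (`w ∤ q`) is a power of `c w₀`.

The two analytic inputs (`Z_second_ineq`, `RC_bdd` of the blueprint) are hypotheses here.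
-/

set_option autoImplicit false

open scoped NumberField
open IsDedekindDomain Module

namespace C14

open Classical in
theorem al_cyclic_of (F M : Type*) [Field F] [NumberField F] [Field M] [NumberField M]
    [Algebra F M] (q : ℕ) (hq : 0 < q)
    {A : Type} [CommGroup A] [Finite A] (c : HeightOneSpectrum (𝓞 F) → A)
    (hsplit : ∀ w, (q : 𝓞 F) ∉ w.asIdeal → SplitsIn F M w → c w = 1)
    (hray : ∀ γ : 𝓞 F, γ ≠ 0 → γ - 1 ∈ Ideal.span {(q : 𝓞 F)} →
      gext F c (Ideal.span {γ}) = 1)
    (w₀ : HeightOneSpectrum (𝓞 F)) (hw₀ : (q : 𝓞 F) ∉ w₀.asIdeal)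
    (hord : finrank F M ≤ orderOf (c w₀))
    (hZ4 : ∀ {Y : Type} [CommGroup Y] [Finite Y]
      (c : HeightOneSpectrum (𝓞 F) → Y) (S : Set (HeightOneSpectrum (𝓞 F))), S.Finite →
      (∀ v, v ∉ S → SplitsIn F M v → c v = 1) →
      (∀ θ : Y →* ℂˣ, θ ≠ 1 → ∃ C : ℝ, ∀ s : ℝ, 1 < s → s < 2 →
        ‖Lfun F (fun v => if v ∈ S then 0 else (θ (c v) : ℂ)) s‖ ≤ C) →
      Nat.card Y ≤ finrank F M)
    (hRC : ∀ f : HeightOneSpectrum (𝓞 F) → ℂ,
      (∀ v, (q : 𝓞 F) ∈ v.asIdeal → f v = 0) →
      (∀ v, (q : 𝓞 F) ∉ v.asIdeal → ‖f v‖ = 1) →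
      (∀ α : 𝓞 F, α ≠ 0 → α - 1 ∈ Ideal.span {(q : 𝓞 F)} →
        ext F f (Ideal.span {α}) = 1) →
      (∃ v, (q : 𝓞 F) ∉ v.asIdeal ∧ f v ≠ 1) →
      ∃ C : ℝ, ∀ s : ℝ, 1 < s → s < 2 → ‖Lfun F f s‖ ≤ C) :
    ∀ w, (q : 𝓞 F) ∉ w.asIdeal → ∃ k : ℕ, c w = c w₀ ^ k := by
  -- the finite set of primes dividing `q`
  have hq0 : (q : 𝓞 F) ≠ 0 := by
    exact_mod_cast hq.ne'
  set S : Set (HeightOneSpectrum (𝓞 F)) := {w | (q : 𝓞 F) ∈ w.asIdeal} with hS
  have hSfin : S.Finite := by
    have hne : Ideal.span {(q : 𝓞 F)} ≠ ⊥ := by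
      rw [Ne, Ideal.span_singleton_eq_bot]; exact hq0
    refine (Ideal.finite_factors hne).subset ?_
    intro w hw
    show w.asIdeal ∣ Ideal.span {(q : 𝓞 F)}
    rw [Ideal.dvd_iff_le, Ideal.span_singleton_le_iff_mem]
    exact hw
  -- the modified map and the subgroup it generates
  set c₀ : HeightOneSpectrum (𝓞 F) → A := fun w => if w ∈ S then 1 else c w with hc₀
  set Y : Subgroup A := Subgroup.closure (Set.range c₀) with hY
  set c' : HeightOneSpectrum (𝓞 F) → Y := fun w => ⟨c₀ w, Subgroup.subset_closure ⟨w, rfl⟩⟩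
    with hc'
  have hc₀_of : ∀ w, w ∉ S → c₀ w = c w := fun w hw => by simp [hc₀, hw]
  have hc₀_in : ∀ w, w ∈ S → c₀ w = 1 := fun w hw => by simp [hc₀, hw]
  have hgen : Subgroup.closure (Set.range c') = ⊤ := by
    rw [eq_top_iff]
    rintro ⟨y, hy⟩ -
    induction hy using Subgroup.closure_induction with
    | mem x hx =>
      obtain ⟨w, rfl⟩ := hx
      exact Subgroup.subset_closure ⟨w, rfl⟩
    | one => exact Subgroup.one_mem _
    | mul x y hx hy ihx ihy => exact Subgroup.mul_mem _ ihx ihy
    | inv x hx ihx => exact Subgroup.inv_mem _ ihx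
  have hcard : Nat.card Y ≤ finrank F M := by
    refine hZ4 c' S hSfin ?_ ?_
    · intro v hv hsp
      apply Subtype.ext
      show c₀ v = 1
      rw [hc₀_of v hv]
      exact hsplit v hv hsp
    · intro θ hθ
      apply hRC
      · intro v hv
        have : v ∈ S := hv
        simp [this]
      · intro v hv
        have hvS : v ∉ S := hv
        simp only [hvS, if_false]
        have hfin : (θ (c' v)) ^ Nat.card Y = 1 := by
          rw [← map_pow, pow_card_eq_one', map_one]
        have h2 : ((θ (c' v) : ℂˣ) : ℂ) ^ Nat.card Y = 1 := by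
          rw [← Units.val_pow_eq_pow_val, hfin, Units.val_one]
        exact Complex.norm_eq_one_of_pow_eq_one h2 Nat.card_pos.ne'
      · intro α hα hα1
        have hne : Ideal.span {α} ≠ (⊥ : Ideal (𝓞 F)) := by
          rw [Ne, Ideal.span_singleton_eq_bot]; exact hα
        have hnotS : ∀ v : HeightOneSpectrum (𝓞 F), Ideal.span {α} ≤ v.asIdeal → v ∉ S := by
          intro v hv hvS
          have hαv : α ∈ v.asIdeal := hv (Ideal.subset_span rfl)
          have h1 : α - 1 ∈ v.asIdeal := by
            have : Ideal.span {(q : 𝓞 F)} ≤ v.asIdeal := by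
              rw [Ideal.span_singleton_le_iff_mem]; exact hvS
            exact this hα1
          have : (1 : 𝓞 F) ∈ v.asIdeal := by
            have := v.asIdeal.sub_mem hαv h1
            simpa using this
          exact v.isPrime.ne_top ((Ideal.eq_top_iff_one _).mpr this)
        rw [ext_congr F (g := fun w => ((θ (c' w) : ℂˣ) : ℂ)) (fun v hv => by
          simp [hnotS v hv]), ext_comp_hom F θ c' hne]
        have hg1 : gext F c' (Ideal.span {α}) = 1 := by
          apply Subtype.ext
          have h1 := map_gext F Y.subtype c' hne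
          rw [Subgroup.coe_subtype] at h1
          rw [h1, Subgroup.coe_one]
          rw [gext_congr F hne (h' := c) (fun v hv => ?_)]
          · exact hray α hα hα1
          · show c₀ v = c v
            exact hc₀_of v (hnotS v hv)
        rw [hg1, map_one, Units.val_one]
      · -- nontriviality
        by_contra hcon
        push Not at hcon
        apply hθ
        have : ∀ v, θ (c' v) = 1 := by
          intro v
          by_cases hvS : v ∈ S
          · have : c' v = 1 := Subtype.ext (hc₀_in v hvS)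
            rw [this, map_one]
          · have := hcon v hvS
            simp only [hvS, if_false] at this
            exact Units.ext this
        apply MonoidHom.eq_of_eqOn_dense hgen
        rintro _ ⟨v, rfl⟩
        simpa using this v
  -- conclusion
  set y₀ : Y := c' w₀ with hy₀
  have hw₀S : w₀ ∉ S := hw₀
  have hy₀val : (y₀ : A) = c w₀ := hc₀_of w₀ hw₀S
  have ho : orderOf y₀ = orderOf (c w₀) := by
    rw [← hy₀val, Subgroup.orderOf_coe]
  have hle : Nat.card Y ≤ orderOf y₀ := by rw [ho]; exact hcard.trans hord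
  have hle' : orderOf y₀ ≤ Nat.card Y := orderOf_le_card
  have htop : Subgroup.zpowers y₀ = ⊤ := by
    apply Subgroup.eq_top_of_card_eq
    rw [Nat.card_zpowers]
    exact le_antisymm hle' hle
  intro w hw
  have hwS : w ∉ S := hw
  have hmem : c' w ∈ Subgroup.zpowers y₀ := by rw [htop]; trivial
  rw [← mem_powers_iff_mem_zpowers] at hmem
  obtain ⟨k, hk⟩ := hmem
  refine ⟨k, ?_⟩
  have := congrArg (Subtype.val) hk
  simp only [SubmonoidClass.coe_pow] at this
  rw [hy₀val] at this
  rw [← hc₀_of w hwS]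
  exact this.symm

end C14
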