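/-
C14 (S14 route), leaf AL, arithmetic part: admissible moduli.
For an odd prime `p`, an integer `a ≥ 2` and `e ≥ 1` there is a prime `q ≠ p`, `q ∤ a`, such that
`a` has multiplicative order exactly `p ^ e` modulo `q` (a prime factor of `Φ_{p^e}(a)`).
-/
import Mathlib

set_option autoImplicit false

namespace C14

/-- the value `Φ_{p^(n+1)}(a) = ∑_{i<p} (a^(p^n))^i` -/
def alPhi (p n a : ℕ) : ℕ := ∑ i ∈ Finset.range p, (a ^ p ^ n) ^ i

theorem al_phi_gt (p n a : ℕ) (hp : 2 ≤ p) (ha : 2 ≤ a) : p < alPhi p n a := by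
  have hb : 2 ≤ a ^ p ^ n := by
    calc 2 ≤ a := ha
      _ = a ^ 1 := (pow_one a).symm
      _ ≤ a ^ p ^ n := Nat.pow_le_pow_right (by omega) (Nat.one_le_pow _ _ (by omega))
  have h1 : ∑ _i ∈ Finset.range p, 1 < alPhi p n a := by
    apply Finset.sum_lt_sum
    · intro i _
      exact Nat.one_le_pow _ _ (by omega)
    · exact ⟨1, Finset.mem_range.mpr (by omega), by rw [pow_one]; omega⟩
  simpa using h1

theorem al_phi_not_sq_dvd (p n a : ℕ) (hp : p.Prime) (hp2 : p ≠ 2) : ¬ p ^ 2 ∣ alPhi p n a := by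
  intro h
  have : Fact p.Prime := ⟨hp⟩
  set b := a ^ p ^ n with hb
  have hΦ : alPhi p n a = ∑ i ∈ Finset.range p, b ^ i := rfl
  -- `b ≡ 1 mod p`
  have hb1 : (b : ZMod p) = 1 := by
    by_contra hne
    have h0 : ((alPhi p n a : ℕ) : ZMod p) = 0 :=
      (ZMod.natCast_eq_zero_iff _ _).mpr (dvd_trans (Dvd.intro_left (p ^ 1) (by ring)) h)
    rw [hΦ] at h0
    push_cast at h0
    have h1 : ((b : ZMod p) - 1) * ∑ i ∈ Finset.range p, (b : ZMod p) ^ i = (b : ZMod p) ^ p - 1 :=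
      mul_geom_sum _ _
    rw [h0, mul_zero, ZMod.pow_card] at h1
    exact hne (sub_eq_zero.mp h1.symm)
  have hdvd : (p : ℤ) ∣ (b : ℤ) - 1 := by
    have h2 : (((b : ℤ) - 1 : ℤ) : ZMod p) = 0 := by
      push_cast
      rw [hb1, sub_self]
    exact (ZMod.intCast_zmod_eq_zero_iff_dvd _ _).mp h2
  obtain ⟨c, hc⟩ := hdvd
  have hbc : (b : ℤ) = 1 + p * c := by linarith
  have hodd : Odd p := hp.odd_of_ne_two hp2
  have h3 := odd_sq_dvd_geom_sum₂_sub (R := ℤ) (1 : ℤ) c hodd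
  simp only [one_pow, mul_one] at h3
  rw [← hbc] at h3
  have h4 : ((p : ℤ)) ^ 2 ∣ ((alPhi p n a : ℕ) : ℤ) := by
    exact_mod_cast h
  have h5 : ((alPhi p n a : ℕ) : ℤ) = ∑ i ∈ Finset.range p, (b : ℤ) ^ i := by
    rw [hΦ]; push_cast; rfl
  rw [h5] at h4
  have h6 : ((p : ℤ)) ^ 2 ∣ (p : ℤ) := by
    have := dvd_sub h4 h3
    simpa using this
  have h7 : p ^ 2 ∣ p := by exact_mod_cast h6
  have h8 := Nat.le_of_dvd hp.pos h7
  have : 2 ≤ p := hp.two_le
  nlinarith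

theorem al_exists_prime (p n a : ℕ) (hp : p.Prime) (hp2 : p ≠ 2) (ha : 2 ≤ a) :
    ∃ q : ℕ, q.Prime ∧ q ≠ p ∧ q ∣ alPhi p n a := by
  by_contra hcon
  push Not at hcon
  have hgt := al_phi_gt p n a hp.two_le ha
  have hpow := Nat.eq_prime_pow_of_unique_prime_dvd (n := alPhi p n a) (p := p) (by omega)
    (fun {d} hd hdvd => by
      by_contra hne
      exact hcon d hd hne hdvd)
  set k := (alPhi p n a).primeFactorsList.length with hk
  have hk1 : k ≤ 1 := by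
    by_contra hk2
    push Not at hk2
    apply al_phi_not_sq_dvd p n a hp hp2
    rw [hpow]
    exact pow_dvd_pow p hk2
  have : alPhi p n a ≤ p := by
    rw [hpow]
    calc p ^ k ≤ p ^ 1 := Nat.pow_le_pow_right hp.pos hk1
      _ = p := pow_one p
  omega

theorem al_orderOf (p n a q : ℕ) (hp : p.Prime) (hq : q.Prime) (hqp : q ≠ p)
    (hdvd : q ∣ alPhi p n a) : orderOf (a : ZMod q) = p ^ (n + 1) := by
  have : Fact q.Prime := ⟨hq⟩
  have hne : ((p ^ (n + 1) : ℕ) : ZMod q) ≠ 0 := by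
    rw [Ne, ZMod.natCast_eq_zero_iff]
    intro h
    exact hqp ((Nat.prime_dvd_prime_iff_eq hq hp).mp (hq.dvd_of_dvd_pow h))
  have : NeZero ((p ^ (n + 1) : ℕ) : ZMod q) := ⟨hne⟩
  have hroot : (Polynomial.cyclotomic (p ^ (n + 1)) (ZMod q)).IsRoot (a : ZMod q) := by
    rw [Polynomial.IsRoot.def, Polynomial.cyclotomic_prime_pow_eq_geom_sum hp,
      Polynomial.eval_finsetSum]
    have h0 : ((alPhi p n a : ℕ) : ZMod q) = 0 := (ZMod.natCast_eq_zero_iff _ _).mpr hdvd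
    rw [alPhi] at h0
    push_cast at h0
    simpa using h0
  exact (Polynomial.isRoot_cyclotomic_iff.mp hroot).eq_orderOf.symm

/-- admissible modulus with prescribed order `p ^ e`. -/
theorem al_arith (p : ℕ) (hp : p.Prime) (hp2 : p ≠ 2) (a : ℕ) (ha : 2 ≤ a) (e : ℕ) (he : 1 ≤ e) :
    ∃ q : ℕ, q.Prime ∧ q ≠ p ∧ ¬ q ∣ a ∧ orderOf (a : ZMod q) = p ^ e := by
  obtain ⟨n, rfl⟩ : ∃ n, e = n + 1 := ⟨e - 1, by omega⟩
  obtain ⟨q, hq, hqp, hdvd⟩ := al_exists_prime p n a hp hp2 ha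
  have hord := al_orderOf p n a q hp hq hqp hdvd
  refine ⟨q, hq, hqp, ?_, hord⟩
  intro hqa
  have : Fact q.Prime := ⟨hq⟩
  have h0 : (a : ZMod q) = 0 := (ZMod.natCast_eq_zero_iff _ _).mpr hqa
  have h1 := pow_orderOf_eq_one (a : ZMod q)
  rw [hord, h0, zero_pow (pow_pos hp.pos _).ne'] at h1
  exact zero_ne_one h1

/-- admissible modulus outside a given finite set. -/
theorem al_arith_avoid (p : ℕ) (hp : p.Prime) (hp2 : p ≠ 2) (a : ℕ) (ha : 2 ≤ a)
    (S : Finset ℕ) :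
    ∃ q : ℕ, q.Prime ∧ q ≠ p ∧ ¬ q ∣ a ∧ q ∉ S ∧
      ∃ e : ℕ, 1 ≤ e ∧ orderOf (a : ZMod q) = p ^ e := by
  choose f hf using fun e : ℕ => al_arith p hp hp2 a ha (e + 1) (by omega)
  by_contra hcon
  push Not at hcon
  have hmaps : ∀ e ∈ Finset.range (S.card + 1), f e ∈ S := by
    intro e _
    by_contra hnot
    exact hcon (f e) (hf e).1 (hf e).2.1 (hf e).2.2.1 hnot (e + 1) (by omega) (hf e).2.2.2
  obtain ⟨x, _, y, _, hxy, hfxy⟩ :=
    Finset.exists_ne_map_eq_of_card_lt_of_maps_to (by simp) hmaps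
  have h1 := (hf x).2.2.2
  have h2 := (hf y).2.2.2
  rw [hfxy, h2] at h1
  exact hxy (by have := Nat.pow_right_injective hp.two_le h1; omega)

/-- unit form of the order statement, and `p ∣ q - 1`. -/
theorem al_arith_unit (p a q e : ℕ) (hq : q.Prime) (he : 1 ≤ e)
    (hord : orderOf (a : ZMod q) = p ^ e) (hcop : a.Coprime q) :
    orderOf (ZMod.unitOfCoprime a hcop) = p ^ e ∧ p ∣ q - 1 := by
  have : Fact q.Prime := ⟨hq⟩
  have h1 : orderOf (ZMod.unitOfCoprime a hcop) = p ^ e := by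
    rw [← orderOf_units, ZMod.coe_unitOfCoprime, hord]
  refine ⟨h1, ?_⟩
  have h2 : orderOf (ZMod.unitOfCoprime a hcop) ∣ Fintype.card (ZMod q)ˣ := orderOf_dvd_card
  rw [h1, ZMod.card_units] at h2
  exact dvd_trans (dvd_pow_self p (by omega)) h2

end C14
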