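import Fermat.Agent.Lib.C14_Defs

/-!
# Basic API for `C14.cnt` and `C14.ext`
-/

set_option autoImplicit false

open scoped NumberField
open IsDedekindDomain

namespace C14

variable (F : Type*) [Field F] [NumberField F]

theorem cnt_def (v : HeightOneSpectrum (𝓞 F)) (a : Ideal (𝓞 F)) :
    cnt F v a = (Associates.mk v.asIdeal).count (Associates.mk a).factors := rfl

theorem cnt_mul (v : HeightOneSpectrum (𝓞 F)) {a b : Ideal (𝓞 F)} (ha : a ≠ ⊥) (hb : b ≠ ⊥) :
    cnt F v (a * b) = cnt F v a + cnt F v b := by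
  unfold cnt
  rw [← Associates.mk_mul_mk]
  exact Associates.count_mul (Associates.mk_ne_zero.mpr ha) (Associates.mk_ne_zero.mpr hb)
    v.associates_irreducible

theorem cnt_one (v : HeightOneSpectrum (𝓞 F)) : cnt F v 1 = 0 := by
  unfold cnt
  rw [Associates.mk_one, Associates.factors_one]
  exact Associates.count_zero v.associates_irreducible

theorem cnt_top (v : HeightOneSpectrum (𝓞 F)) : cnt F v ⊤ = 0 := by
  rw [← Ideal.one_eq_top]; exact cnt_one F v

theorem cnt_self (v : HeightOneSpectrum (𝓞 F)) : cnt F v v.asIdeal = 1 :=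
  Associates.count_self v.associates_irreducible

theorem cnt_of_ne {v w : HeightOneSpectrum (𝓞 F)} (h : v ≠ w) : cnt F v w.asIdeal = 0 := by
  unfold cnt
  apply Associates.count_eq_zero_of_ne v.associates_irreducible w.associates_irreducible
  intro h'
  apply h
  have : v.asIdeal = w.asIdeal := by
    have := Associates.mk_eq_mk_iff_associated.mp h'
    exact associated_iff_eq.mp this
  exact HeightOneSpectrum.ext this

theorem cnt_prime (v w : HeightOneSpectrum (𝓞 F)) [DecidableEq (HeightOneSpectrum (𝓞 F))] :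
    cnt F v w.asIdeal = if v = w then 1 else 0 := by
  split_ifs with h
  · subst h; exact cnt_self F v
  · exact cnt_of_ne F h

theorem cnt_pow (v : HeightOneSpectrum (𝓞 F)) {a : Ideal (𝓞 F)} (ha : a ≠ ⊥) (n : ℕ) :
    cnt F v (a ^ n) = n * cnt F v a := by
  unfold cnt
  rw [Associates.mk_pow]
  exact Associates.count_pow (Associates.mk_ne_zero.mpr ha) v.associates_irreducible n

theorem cnt_ne_zero_iff (v : HeightOneSpectrum (𝓞 F)) {a : Ideal (𝓞 F)} (ha : a ≠ ⊥) :
    cnt F v a ≠ 0 ↔ a ≤ v.asIdeal := by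
  unfold cnt
  rw [Associates.count_ne_zero_iff_dvd ha v.irreducible, Ideal.dvd_iff_le]

theorem finite_cnt_support {a : Ideal (𝓞 F)} (ha : a ≠ ⊥) :
    {v : HeightOneSpectrum (𝓞 F) | cnt F v a ≠ 0}.Finite := by
  have h := Ideal.finite_factors ha
  refine h.subset ?_
  intro v hv
  have hv' : cnt F v a ≠ 0 := hv
  rw [cnt_ne_zero_iff F v ha] at hv'
  exact Ideal.dvd_iff_le.mpr hv'

theorem finite_mulSupport_ext (f : HeightOneSpectrum (𝓞 F) → ℂ) {a : Ideal (𝓞 F)} (ha : a ≠ ⊥) :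
    (Function.mulSupport fun v : HeightOneSpectrum (𝓞 F) => f v ^ cnt F v a).Finite := by
  refine (finite_cnt_support F ha).subset ?_
  intro v hv
  rw [Function.mem_mulSupport] at hv
  show cnt F v a ≠ 0
  intro h0
  apply hv
  rw [h0, pow_zero]

@[simp] theorem ext_bot (f : HeightOneSpectrum (𝓞 F) → ℂ) : ext F f ⊥ = 0 := by
  simp [ext]

theorem ext_of_ne_bot (f : HeightOneSpectrum (𝓞 F) → ℂ) {a : Ideal (𝓞 F)} (ha : a ≠ ⊥) :
    ext F f a = ∏ᶠ v : HeightOneSpectrum (𝓞 F), f v ^ cnt F v a := by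
  simp [ext, ha]

@[simp] theorem ext_top (f : HeightOneSpectrum (𝓞 F) → ℂ) : ext F f ⊤ = 1 := by
  rw [ext_of_ne_bot F f (by simp : (⊤ : Ideal (𝓞 F)) ≠ ⊥)]
  simp only [cnt_top, pow_zero, finprod_one]

theorem ext_one (f : HeightOneSpectrum (𝓞 F) → ℂ) : ext F f 1 = 1 := by
  rw [Ideal.one_eq_top]; exact ext_top F f

theorem ext_mul (f : HeightOneSpectrum (𝓞 F) → ℂ) (a b : Ideal (𝓞 F)) :
    ext F f (a * b) = ext F f a * ext F f b := by
  by_cases ha : a = ⊥
  · subst ha; simp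
  by_cases hb : b = ⊥
  · subst hb; simp
  have hab : a * b ≠ ⊥ := mul_ne_zero ha hb
  rw [ext_of_ne_bot F f hab, ext_of_ne_bot F f ha, ext_of_ne_bot F f hb,
    ← finprod_mul_distrib (finite_mulSupport_ext F f ha) (finite_mulSupport_ext F f hb)]
  refine finprod_congr fun v => ?_
  rw [cnt_mul F v ha hb, pow_add]

theorem ext_pow (f : HeightOneSpectrum (𝓞 F) → ℂ) (a : Ideal (𝓞 F)) (n : ℕ) :
    ext F f (a ^ n) = ext F f a ^ n := by
  induction n with
  | zero => simp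
  | succ n ih => rw [pow_succ, pow_succ, ext_mul, ih]

theorem ext_prime (f : HeightOneSpectrum (𝓞 F) → ℂ) (v : HeightOneSpectrum (𝓞 F)) :
    ext F f v.asIdeal = f v := by
  classical
  rw [ext_of_ne_bot F f v.ne_bot, finprod_eq_single _ v]
  · rw [cnt_self, pow_one]
  · intro w hw
    rw [cnt_of_ne F hw, pow_zero]

/-- the multiplicative monoid hom underlying `ext` -/
noncomputable def extHom (f : HeightOneSpectrum (𝓞 F) → ℂ) : Ideal (𝓞 F) →* ℂ where
  toFun := ext F f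
  map_one' := ext_one F f
  map_mul' := ext_mul F f

theorem ext_prod {ι : Type*} (f : HeightOneSpectrum (𝓞 F) → ℂ) (s : Finset ι)
    (a : ι → Ideal (𝓞 F)) : ext F f (∏ i ∈ s, a i) = ∏ i ∈ s, ext F f (a i) :=
  map_prod (extHom F f) a s

/-- uniqueness: a multiplicative function on ideals vanishing at `⊥` is the `ext` of its values
on primes -/
theorem ext_unique (ρ : Ideal (𝓞 F) → ℂ) (h0 : ρ ⊥ = 0) (h1 : ρ 1 = 1)
    (hmul : ∀ a b, ρ (a * b) = ρ a * ρ b) (a : Ideal (𝓞 F)) :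
    ρ a = ext F (fun v => ρ v.asIdeal) a := by
  by_cases ha : a = ⊥
  · subst ha; simp [h0]
  let R : Ideal (𝓞 F) →* ℂ := { toFun := ρ, map_one' := h1, map_mul' := hmul }
  have hfin := Ideal.hasFiniteMulSupport (R := 𝓞 F) ha
  have key : ρ a = R (∏ᶠ v : HeightOneSpectrum (𝓞 F), v.maxPowDividing a) := by
    rw [Ideal.finprod_heightOneSpectrum_factorization ha]; rfl
  rw [key, R.map_finprod hfin, ext_of_ne_bot F _ ha]
  refine finprod_congr fun v => ?_
  change ρ (v.asIdeal ^ _) = ρ v.asIdeal ^ cnt F v a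
  have hpow : ∀ (b : Ideal (𝓞 F)) (n : ℕ), ρ (b ^ n) = ρ b ^ n := fun b n => map_pow R b n
  rw [hpow]; rfl

theorem ext_fun_mul (f g : HeightOneSpectrum (𝓞 F) → ℂ) (a : Ideal (𝓞 F)) :
    ext F (fun v => f v * g v) a = ext F f a * ext F g a := by
  have := ext_unique F (fun a => ext F f a * ext F g a) (by simp) (by simp)
    (fun a b => by simp only [ext_mul]; ring) a
  simp only [ext_prime] at this
  exact this.symm

theorem ext_fun_pow (f : HeightOneSpectrum (𝓞 F) → ℂ) (n : ℕ) (a : Ideal (𝓞 F)) (ha : a ≠ ⊥) :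
    ext F (fun v => f v ^ n) a = ext F f a ^ n := by
  rw [ext_of_ne_bot F _ ha, ext_of_ne_bot F _ ha, finprod_pow (finite_mulSupport_ext F f ha)]
  refine finprod_congr fun v => ?_
  rw [← pow_mul, ← pow_mul, mul_comm]

theorem ext_fun_one {a : Ideal (𝓞 F)} (ha : a ≠ ⊥) : ext F (fun _ => (1 : ℂ)) a = 1 := by
  rw [ext_of_ne_bot F _ ha]; simp

theorem ext_congr {f g : HeightOneSpectrum (𝓞 F) → ℂ} {a : Ideal (𝓞 F)}
    (h : ∀ v, a ≤ v.asIdeal → f v = g v) : ext F f a = ext F g a := by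
  by_cases ha : a = ⊥
  · subst ha; simp
  rw [ext_of_ne_bot F _ ha, ext_of_ne_bot F _ ha]
  refine finprod_congr fun v => ?_
  by_cases hv : cnt F v a = 0
  · rw [hv, pow_zero, pow_zero]
  · rw [h v ((cnt_ne_zero_iff F v ha).mp hv)]

theorem norm_ext_le {f : HeightOneSpectrum (𝓞 F) → ℂ} (hf : ∀ v, ‖f v‖ ≤ 1) (a : Ideal (𝓞 F)) :
    ‖ext F f a‖ ≤ 1 := by
  by_cases ha : a = ⊥
  · subst ha; simp
  rw [ext_of_ne_bot F _ ha, finprod_eq_prod _ (finite_mulSupport_ext F f ha), norm_prod]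
  apply Finset.prod_le_one
  · intro v _; exact norm_nonneg _
  · intro v _; rw [norm_pow]; exact pow_le_one₀ (norm_nonneg _) (hf v)

theorem ext_eq_zero_iff {f : HeightOneSpectrum (𝓞 F) → ℂ} {a : Ideal (𝓞 F)} :
    ext F f a = 0 ↔ a = ⊥ ∨ ∃ v, a ≤ v.asIdeal ∧ f v = 0 := by
  constructor
  · intro h
    by_cases ha : a = ⊥
    · exact Or.inl ha
    right
    rw [ext_of_ne_bot F _ ha, finprod_eq_prod _ (finite_mulSupport_ext F f ha),
      Finset.prod_eq_zero_iff] at h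
    obtain ⟨v, _, hv⟩ := h
    have hc : cnt F v a ≠ 0 := by
      intro h0; rw [h0, pow_zero] at hv; exact one_ne_zero hv
    exact ⟨v, (cnt_ne_zero_iff F v ha).mp hc, (pow_eq_zero_iff hc).mp hv⟩
  · rintro (rfl | ⟨v, hv, hf⟩)
    · simp
    · by_cases ha : a = ⊥
      · subst ha; simp
      obtain ⟨b, rfl⟩ := Ideal.dvd_iff_le.mpr hv
      rw [ext_mul, ext_prime, hf, zero_mul]

theorem norm_ext_eq_one {f : HeightOneSpectrum (𝓞 F) → ℂ} {a : Ideal (𝓞 F)} (ha : a ≠ ⊥)
    (hf : ∀ v, a ≤ v.asIdeal → ‖f v‖ = 1) : ‖ext F f a‖ = 1 := by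
  rw [ext_of_ne_bot F _ ha, finprod_eq_prod _ (finite_mulSupport_ext F f ha), norm_prod]
  apply Finset.prod_eq_one
  intro v _
  rw [norm_pow]
  by_cases hc : cnt F v a = 0
  · rw [hc, pow_zero]
  · rw [hf v ((cnt_ne_zero_iff F v ha).mp hc), one_pow]

end C14
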