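/-
C14 (S14 route), leaf AL: the assembly.

* `al_asm_key`: AL-key (`frob v₁ = frob v₂ ^ k ⇒ χ v₁ = χ v₂ ^ k` for inert `v₁`, `v₂`) from
  AL-b (cyclotomic crossing at one admissible modulus) and AL-c (Chebotarev-lite), both taken as
  hypotheses.
* `al_asm_recip_of_key`: the conclusion of the blueprint's `AL_recip` from AL-key.
* `AL_recip_of`: the conclusion of `AL_recip` from AL-b and AL-c.
-/
import Fermat.Agent.Lib.C14_Frob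
import Fermat.Agent.Lib.C14_Ext
import Fermat.Agent.Lib.C14_AL_Arith

set_option autoImplicit false

open scoped NumberField
open IsDedekindDomain Module

namespace C14

/-- `t`-th powers are injective on `p`-th roots of unity when `p ∤ t`. -/
theorem al_asm_pow_inj (p t : ℕ) (hp : p.Prime) (hpt : ¬ p ∣ t) (x y : ℂ) (hx : x ^ p = 1)
    (hy : y ^ p = 1) (h : x ^ t = y ^ t) : x = y := by
  have hy0 : y ≠ 0 := by
    rintro rfl
    rw [zero_pow hp.ne_zero] at hy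
    exact zero_ne_one hy
  have h1 : (x / y) ^ t = 1 := by
    rw [div_pow, h, div_self (pow_ne_zero _ hy0)]
  have h2 : (x / y) ^ p = 1 := by
    rw [div_pow, hx, hy, div_one]
  have h3 : orderOf (x / y) ∣ Nat.gcd t p :=
    Nat.dvd_gcd (orderOf_dvd_of_pow_eq_one h1) (orderOf_dvd_of_pow_eq_one h2)
  have h4 : Nat.gcd t p = 1 := by
    rw [Nat.gcd_comm]
    exact (Nat.Prime.coprime_iff_not_dvd hp).mpr hpt
  rw [h4, Nat.dvd_one, orderOf_eq_one_iff] at h3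
  exact (div_eq_one_iff_eq hy0).mp h3

section

variable (p : ℕ) [hp : Fact p.Prime]
  (K L : Type) [Field K] [NumberField K] [Field L] [NumberField L] [Algebra K L] [IsGalois K L]

omit hp in
theorem al_asm_card (hdeg : finrank K L = p) : Nat.card (L ≃ₐ[K] L) = p := by
  rw [IsGalois.card_aut_eq_finrank, hdeg]

/-- `Gal(L/K)` of prime order is commutative. -/
theorem al_asm_comm (hdeg : finrank K L = p) : ∀ g h : L ≃ₐ[K] L, g * h = h * g := by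
  have hcard := al_asm_card p K L hdeg
  have hcyc : IsCyclic (L ≃ₐ[K] L) := isCyclic_of_prime_card hcard
  intro g h
  obtain ⟨s, hs⟩ := hcyc.exists_generator
  obtain ⟨a, rfl⟩ := Subgroup.mem_zpowers_iff.mp (hs g)
  obtain ⟨b, rfl⟩ := Subgroup.mem_zpowers_iff.mp (hs h)
  rw [← zpow_add, ← zpow_add, add_comm]

/-- The conclusion of `AL_recip` from AL-key. -/
theorem al_asm_recip_of_key (hdeg : finrank K L = p)
    (hunr : ∀ v : HeightOneSpectrum (𝓞 K), UnramIn K L v)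
    (χ : HeightOneSpectrum (𝓞 K) → ℂ) (hχp : ∀ v, χ v ^ p = 1)
    (hχs : ∀ v, SplitsIn K L v → χ v = 1)
    (hχP : ∀ α : 𝓞 K, α ≠ 0 → ext K χ (Ideal.span {α}) = 1) (hχnt : ∃ v, χ v ≠ 1)
    (hkey : ∀ (v₁ v₂ : HeightOneSpectrum (𝓞 K)) (k : ℕ), frob K L v₁ ≠ 1 → frob K L v₂ ≠ 1 →
      frob K L v₁ = frob K L v₂ ^ k → χ v₁ = χ v₂ ^ k)
    (φ : (L ≃ₐ[K] L) →* ℂˣ) (α : 𝓞 K) (hα : α ≠ 0) :
    ext K (fun v => (φ (frob K L v) : ℂ)) (Ideal.span {α}) = 1 := by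
  have hab := al_asm_comm p K L hdeg
  have hcard := al_asm_card p K L hdeg
  have hne : Ideal.span {α} ≠ ⊥ := by rwa [Ne, Ideal.span_singleton_eq_bot]
  obtain ⟨v₁, hv₁⟩ := hχnt
  have hv₁' : frob K L v₁ ≠ 1 := fun h =>
    hv₁ (hχs v₁ ((frob_eq_one_iff K L hab v₁ (hunr v₁)).mp h))
  have hc₀prim : IsPrimitiveRoot (χ v₁) p := by
    have h3 : orderOf (χ v₁) = p := orderOf_eq_prime (hχp v₁) hv₁
    have h4 := IsPrimitiveRoot.orderOf (χ v₁)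
    rwa [h3] at h4
  have hd : ((φ (frob K L v₁) : ℂˣ) : ℂ) ^ p = 1 := by
    have h5 : frob K L v₁ ^ p = 1 := by
      rw [← hcard]; exact pow_card_eq_one'
    rw [← Units.val_pow_eq_pow_val, ← map_pow, h5, map_one, Units.val_one]
  obtain ⟨j, -, hj⟩ := hc₀prim.eq_pow_of_pow_eq_one hd
  have hpt : ∀ v, ((φ (frob K L v) : ℂˣ) : ℂ) = χ v ^ j := by
    intro v
    by_cases hv : frob K L v = 1
    · rw [hv, map_one, Units.val_one,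
        hχs v ((frob_eq_one_iff K L hab v (hunr v)).mp hv), one_pow]
    · obtain ⟨k, hk⟩ := mem_powers_of_prime_card hcard hv₁' (g' := frob K L v)
      have hk' : frob K L v₁ ^ k = frob K L v := hk
      have hχv : χ v = χ v₁ ^ k := hkey v v₁ k hv hv₁' hk'.symm
      rw [← hk', map_pow, Units.val_pow_eq_pow_val, ← hj, hχv, ← pow_mul, ← pow_mul, mul_comm]
  rw [ext_congr K (g := fun v => χ v ^ j) (fun v _ => hpt v), ext_fun_pow K χ j _ hne,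
    hχP α hα, one_pow]

omit [IsGalois K L] in
/-- AL-key from AL-b and AL-c. -/
theorem al_asm_key (hp2 : p ≠ 2)
    (χ : HeightOneSpectrum (𝓞 K) → ℂ) (hχp : ∀ v, χ v ^ p = 1)
    (hb : ∀ (v : HeightOneSpectrum (𝓞 K)) (q s : ℕ), frob K L v ≠ 1 → q.Prime → 1 ≤ s →
      orderOf ((Ideal.absNorm v.asIdeal : ℕ) : ZMod q) = p ^ s →
      ∀ (r : HeightOneSpectrum (𝓞 K)) (k : ℕ), (q : 𝓞 K) ∉ r.asIdeal →
        frob K L r = frob K L v ^ k →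
        ((Ideal.absNorm r.asIdeal : ℕ) : ZMod q) = ((Ideal.absNorm v.asIdeal : ℕ) : ZMod q) ^ k →
        χ r = χ v ^ k)
    (hc : ∀ (m : ℕ), 0 < m → m.Coprime p → ∀ σ : L ≃ₐ[K] L, σ ≠ 1 → ∀ c : ℕ, c.Coprime m →
      ∃ (r : HeightOneSpectrum (𝓞 K)) (t : ℕ), (m : 𝓞 K) ∉ r.asIdeal ∧ ¬ p ∣ t ∧
        frob K L r = σ ^ t ∧ ((Ideal.absNorm r.asIdeal : ℕ) : ZMod m) = (c : ZMod m) ^ t) :
    ∀ (v₁ v₂ : HeightOneSpectrum (𝓞 K)) (k : ℕ), frob K L v₁ ≠ 1 → frob K L v₂ ≠ 1 →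
      frob K L v₁ = frob K L v₂ ^ k → χ v₁ = χ v₂ ^ k := by
  intro v₁ v₂ k h1 h2 hk
  have ha₁ : 2 ≤ Ideal.absNorm v₁.asIdeal := frob_one_lt_absNorm K v₁
  have ha₂ : 2 ≤ Ideal.absNorm v₂.asIdeal := frob_one_lt_absNorm K v₂
  obtain ⟨q₂, hq₂, hq₂p, hq₂a, hord₂⟩ :=
    al_arith p hp.out hp2 (Ideal.absNorm v₂.asIdeal) ha₂ 1 le_rfl
  obtain ⟨q₁, hq₁, hq₁p, hq₁a, hq₁S, e₁, he₁, hord₁⟩ :=
    al_arith_avoid p hp.out hp2 (Ideal.absNorm v₁.asIdeal) ha₁ {q₂}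
  have hq₁₂ : q₁ ≠ q₂ := by simpa using hq₁S
  have hcop12 : q₁.Coprime q₂ := (Nat.coprime_primes hq₁ hq₂).mpr hq₁₂
  obtain ⟨c, hc1, hc2⟩ := Nat.chineseRemainder hcop12
    (Ideal.absNorm v₁.asIdeal) (Ideal.absNorm v₂.asIdeal ^ k)
  have hcq₁ : c.Coprime q₁ := by
    rw [Nat.Coprime, hc1.gcd_eq, Nat.gcd_comm]
    exact (Nat.Prime.coprime_iff_not_dvd hq₁).mpr hq₁a
  have hcq₂ : c.Coprime q₂ := by
    rw [Nat.Coprime, hc2.gcd_eq, Nat.gcd_comm]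
    exact (Nat.Prime.coprime_iff_not_dvd hq₂).mpr (fun h => hq₂a (hq₂.dvd_of_dvd_pow h))
  have hcm : c.Coprime (q₁ * q₂) := Nat.Coprime.mul_right hcq₁ hcq₂
  have hmp : (q₁ * q₂).Coprime p :=
    Nat.Coprime.mul_left ((Nat.coprime_primes hq₁ hp.out).mpr hq₁p)
      ((Nat.coprime_primes hq₂ hp.out).mpr hq₂p)
  obtain ⟨r, t, hr, hpt, hfr, hNr⟩ :=
    hc (q₁ * q₂) (Nat.mul_pos hq₁.pos hq₂.pos) hmp (frob K L v₁) h1 c hcm
  have hNr' : Ideal.absNorm r.asIdeal ≡ c ^ t [MOD q₁ * q₂] := by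
    rw [← ZMod.natCast_eq_natCast_iff]
    push_cast
    exact hNr
  have hNr1 : ((Ideal.absNorm r.asIdeal : ℕ) : ZMod q₁)
      = ((Ideal.absNorm v₁.asIdeal : ℕ) : ZMod q₁) ^ t := by
    have h3 : Ideal.absNorm r.asIdeal ≡ Ideal.absNorm v₁.asIdeal ^ t [MOD q₁] :=
      (Nat.ModEq.of_mul_right q₂ hNr').trans (hc1.pow t)
    have h4 := (ZMod.natCast_eq_natCast_iff _ _ _).mpr h3
    rw [h4]
    push_cast
    rfl
  have hNr2 : ((Ideal.absNorm r.asIdeal : ℕ) : ZMod q₂)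
      = ((Ideal.absNorm v₂.asIdeal : ℕ) : ZMod q₂) ^ (k * t) := by
    have h3 : Ideal.absNorm r.asIdeal ≡ (Ideal.absNorm v₂.asIdeal ^ k) ^ t [MOD q₂] :=
      (Nat.ModEq.of_mul_left q₁ hNr').trans (hc2.pow t)
    have h4 := (ZMod.natCast_eq_natCast_iff _ _ _).mpr h3
    rw [h4]
    push_cast
    rw [pow_mul]
  have hr1 : (q₁ : 𝓞 K) ∉ r.asIdeal := fun h =>
    hr (by push_cast; exact Ideal.mul_mem_right _ _ h)
  have hr2 : (q₂ : 𝓞 K) ∉ r.asIdeal := fun h =>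
    hr (by push_cast; exact Ideal.mul_mem_left _ _ h)
  have e1 : χ r = χ v₁ ^ t := hb v₁ q₁ e₁ h1 hq₁ he₁ hord₁ r t hr1 hfr hNr1
  have e2 : χ r = χ v₂ ^ (k * t) :=
    hb v₂ q₂ 1 h2 hq₂ le_rfl hord₂ r (k * t) hr2 (by rw [hfr, hk, pow_mul]) hNr2
  have e3 : χ v₁ ^ t = (χ v₂ ^ k) ^ t := by rw [← e1, e2, pow_mul]
  exact al_asm_pow_inj p t hp.out hpt (χ v₁) (χ v₂ ^ k) (hχp v₁)
    (by rw [← pow_mul, mul_comm, pow_mul, hχp, one_pow]) e3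

/-- The conclusion of the blueprint's `AL_recip` from AL-b and AL-c. -/
theorem AL_recip_of (hp3 : 3 ≤ p) (hdeg : finrank K L = p)
    (hunr : ∀ v : HeightOneSpectrum (𝓞 K), UnramIn K L v)
    (χ : HeightOneSpectrum (𝓞 K) → ℂ) (hχp : ∀ v, χ v ^ p = 1)
    (hχs : ∀ v, SplitsIn K L v → χ v = 1)
    (hχP : ∀ α : 𝓞 K, α ≠ 0 → ext K χ (Ideal.span {α}) = 1) (hχnt : ∃ v, χ v ≠ 1)
    (hb : ∀ (v : HeightOneSpectrum (𝓞 K)) (q s : ℕ), frob K L v ≠ 1 → q.Prime → 1 ≤ s →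
      orderOf ((Ideal.absNorm v.asIdeal : ℕ) : ZMod q) = p ^ s →
      ∀ (r : HeightOneSpectrum (𝓞 K)) (k : ℕ), (q : 𝓞 K) ∉ r.asIdeal →
        frob K L r = frob K L v ^ k →
        ((Ideal.absNorm r.asIdeal : ℕ) : ZMod q) = ((Ideal.absNorm v.asIdeal : ℕ) : ZMod q) ^ k →
        χ r = χ v ^ k)
    (hc : ∀ (m : ℕ), 0 < m → m.Coprime p → ∀ σ : L ≃ₐ[K] L, σ ≠ 1 → ∀ c : ℕ, c.Coprime m →
      ∃ (r : HeightOneSpectrum (𝓞 K)) (t : ℕ), (m : 𝓞 K) ∉ r.asIdeal ∧ ¬ p ∣ t ∧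
        frob K L r = σ ^ t ∧ ((Ideal.absNorm r.asIdeal : ℕ) : ZMod m) = (c : ZMod m) ^ t)
    (φ : (L ≃ₐ[K] L) →* ℂˣ) (α : 𝓞 K) (hα : α ≠ 0) :
    ext K (fun v => (φ (frob K L v) : ℂ)) (Ideal.span {α}) = 1 :=
  al_asm_recip_of_key p K L hdeg hunr χ hχp hχs hχP hχnt
    (al_asm_key p K L (by omega) χ hχp hb hc) φ α hα

end

end C14
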