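import Fermat.Agent.Lib.C14_Pull

/-!
# Group-valued multiplicative extension `C14.gext`
-/

set_option autoImplicit false

open scoped NumberField
open IsDedekindDomain

namespace C14

variable (F : Type*) [Field F] [NumberField F]

/-- multiplicative extension of a function on primes with values in a commutative group
(junk value `1` at the zero ideal) -/
noncomputable def gext {A : Type*} [CommGroup A] (h : HeightOneSpectrum (𝓞 F) → A)
    (a : Ideal (𝓞 F)) : A :=
  ∏ᶠ w : HeightOneSpectrum (𝓞 F), h w ^ cnt F w a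

variable {A : Type*} [CommGroup A]

theorem finite_mulSupport_gext (h : HeightOneSpectrum (𝓞 F) → A) {a : Ideal (𝓞 F)}
    (ha : a ≠ ⊥) :
    (Function.mulSupport fun w : HeightOneSpectrum (𝓞 F) => h w ^ cnt F w a).Finite := by
  refine (finite_cnt_support F ha).subset ?_
  intro v hv
  rw [Function.mem_mulSupport] at hv
  show cnt F v a ≠ 0
  intro h0
  apply hv
  rw [h0, pow_zero]

theorem gext_top (h : HeightOneSpectrum (𝓞 F) → A) : gext F h ⊤ = 1 := by
  unfold gext
  simp only [cnt_top, pow_zero, finprod_one]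

theorem gext_one (h : HeightOneSpectrum (𝓞 F) → A) : gext F h 1 = 1 := by
  rw [Ideal.one_eq_top]; exact gext_top F h

theorem gext_mul (h : HeightOneSpectrum (𝓞 F) → A) {a b : Ideal (𝓞 F)} (ha : a ≠ ⊥)
    (hb : b ≠ ⊥) : gext F h (a * b) = gext F h a * gext F h b := by
  unfold gext
  rw [← finprod_mul_distrib (finite_mulSupport_gext F h ha) (finite_mulSupport_gext F h hb)]
  refine finprod_congr fun v => ?_
  rw [cnt_mul F v ha hb, pow_add]

theorem gext_prime (h : HeightOneSpectrum (𝓞 F) → A) (v : HeightOneSpectrum (𝓞 F)) :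
    gext F h v.asIdeal = h v := by
  classical
  unfold gext
  rw [finprod_eq_single _ v]
  · rw [cnt_self, pow_one]
  · intro w hw
    rw [cnt_of_ne F hw, pow_zero]

theorem gext_pow (h : HeightOneSpectrum (𝓞 F) → A) {a : Ideal (𝓞 F)} (ha : a ≠ ⊥) (n : ℕ) :
    gext F h (a ^ n) = gext F h a ^ n := by
  induction n with
  | zero => simp [gext_top]
  | succ n ih => rw [pow_succ, pow_succ, gext_mul F h (pow_ne_zero n ha) ha, ih]

theorem map_gext {B : Type*} [CommGroup B] (θ : A →* B) (h : HeightOneSpectrum (𝓞 F) → A)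
    {a : Ideal (𝓞 F)} (ha : a ≠ ⊥) :
    θ (gext F h a) = gext F (fun w => θ (h w)) a := by
  unfold gext
  rw [θ.map_finprod (finite_mulSupport_gext F h ha)]
  refine finprod_congr fun v => ?_
  rw [map_pow]

theorem gext_congr {h h' : HeightOneSpectrum (𝓞 F) → A} {a : Ideal (𝓞 F)} (ha : a ≠ ⊥)
    (hh : ∀ v, a ≤ v.asIdeal → h v = h' v) : gext F h a = gext F h' a := by
  unfold gext
  refine finprod_congr fun v => ?_
  by_cases hv : cnt F v a = 0
  · rw [hv, pow_zero, pow_zero]
  · rw [hh v ((cnt_ne_zero_iff F v ha).mp hv)]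

theorem gext_mul_fun (h h' : HeightOneSpectrum (𝓞 F) → A) {a : Ideal (𝓞 F)} (ha : a ≠ ⊥) :
    gext F (fun w => h w * h' w) a = gext F h a * gext F h' a := by
  unfold gext
  rw [← finprod_mul_distrib (finite_mulSupport_gext F h ha) (finite_mulSupport_gext F h' ha)]
  refine finprod_congr fun v => ?_
  rw [mul_pow]

theorem gext_const_one {a : Ideal (𝓞 F)} : gext F (fun _ => (1 : A)) a = 1 := by
  unfold gext
  simp

/-- `gext` of a pair is the pair of `gext`s -/
theorem gext_prod {B : Type*} [CommGroup B] (h : HeightOneSpectrum (𝓞 F) → A)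
    (h' : HeightOneSpectrum (𝓞 F) → B) {a : Ideal (𝓞 F)} (ha : a ≠ ⊥) :
    gext F (fun w => (h w, h' w)) a = (gext F h a, gext F h' a) := by
  have h1 := map_gext F (MonoidHom.fst A B) (fun w => (h w, h' w)) ha
  have h2 := map_gext F (MonoidHom.snd A B) (fun w => (h w, h' w)) ha
  exact Prod.ext h1 h2

/-- uniqueness: a function on ideals that is multiplicative on nonzero ideals is the `gext` of
its values on primes -/
theorem gext_unique (ρ : Ideal (𝓞 F) → A) (h1 : ρ ⊤ = 1)
    (hmul : ∀ a b : Ideal (𝓞 F), a ≠ ⊥ → b ≠ ⊥ → ρ (a * b) = ρ a * ρ b)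
    {a : Ideal (𝓞 F)} (ha : a ≠ ⊥) : ρ a = gext F (fun v => ρ v.asIdeal) a := by
  -- induction on the number of prime factors, via `ext`-free argument
  classical
  induction a using UniqueFactorizationMonoid.induction_on_prime with
  | h₁ => exact absurd rfl ha
  | h₂ x hx =>
    have : x = ⊤ := by rwa [Ideal.isUnit_iff] at hx
    rw [this, h1, gext_top]
  | h₃ b P hb hP ih =>
    have hP0 : P ≠ ⊥ := hP.ne_zero
    have hPprime : P.IsPrime := Ideal.isPrime_of_prime hP
    let v : HeightOneSpectrum (𝓞 F) := ⟨P, hPprime, hP0⟩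
    rw [hmul P b hP0 hb, gext_mul F _ hP0 hb, ih hb]
    congr 1
    exact (gext_prime F (fun v => ρ v.asIdeal) v).symm

/-- relation with the complex-valued `ext` -/
theorem ext_eq_gext (h : HeightOneSpectrum (𝓞 F) → ℂˣ) {a : Ideal (𝓞 F)} (ha : a ≠ ⊥) :
    ext F (fun w => (h w : ℂ)) a = ((gext F h a : ℂˣ) : ℂ) := by
  rw [ext_of_ne_bot F _ ha]
  unfold gext
  have := (Units.coeHom ℂ).map_finprod (finite_mulSupport_gext F h ha)
  rw [Units.coeHom_apply] at this
  rw [this]
  refine finprod_congr fun v => ?_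
  simp

theorem ext_comp_hom (θ : A →* ℂˣ) (h : HeightOneSpectrum (𝓞 F) → A) {a : Ideal (𝓞 F)}
    (ha : a ≠ ⊥) :
    ext F (fun w => ((θ (h w) : ℂˣ) : ℂ)) a = ((θ (gext F h a) : ℂˣ) : ℂ) := by
  rw [ext_eq_gext F (fun w => θ (h w)) ha, map_gext F θ h ha]

open Classical in
/-- the absolute norm of a prime as a unit of `ZMod q` (junk value `1` if not a unit) -/
noncomputable def nrmUnit (q : ℕ) (w : HeightOneSpectrum (𝓞 F)) : (ZMod q)ˣ :=
  if h : IsUnit ((Ideal.absNorm w.asIdeal : ℕ) : ZMod q) then h.unit else 1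

theorem coe_nrmUnit (q : ℕ) (w : HeightOneSpectrum (𝓞 F))
    (h : IsUnit ((Ideal.absNorm w.asIdeal : ℕ) : ZMod q)) :
    ((nrmUnit F q w : (ZMod q)ˣ) : ZMod q) = ((Ideal.absNorm w.asIdeal : ℕ) : ZMod q) := by
  unfold nrmUnit
  rw [dif_pos h]
  rfl

theorem coe_gext_nrmUnit (q : ℕ) {a : Ideal (𝓞 F)} (ha : a ≠ ⊥)
    (hcop : IsUnit ((Ideal.absNorm a : ℕ) : ZMod q)) :
    ((gext F (nrmUnit F q) a : (ZMod q)ˣ) : ZMod q) = ((Ideal.absNorm a : ℕ) : ZMod q) := by
  classical
  induction a using UniqueFactorizationMonoid.induction_on_prime with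
  | h₁ => exact absurd rfl ha
  | h₂ x hx =>
    have : x = ⊤ := by rwa [Ideal.isUnit_iff] at hx
    rw [this, gext_top]
    simp
  | h₃ b P hb hP ih =>
    have hP0 : P ≠ ⊥ := hP.ne_zero
    have hPprime : P.IsPrime := Ideal.isPrime_of_prime hP
    let v : HeightOneSpectrum (𝓞 F) := ⟨P, hPprime, hP0⟩
    have hmul : ((Ideal.absNorm (P * b) : ℕ) : ZMod q) =
        ((Ideal.absNorm P : ℕ) : ZMod q) * ((Ideal.absNorm b : ℕ) : ZMod q) := by
      rw [map_mul, Nat.cast_mul]
    rw [hmul] at hcop ⊢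
    have hu := IsUnit.mul_iff.mp hcop
    rw [gext_mul F _ hP0 hb, Units.val_mul, ih hb hu.2]
    congr 1
    have := gext_prime F (nrmUnit F q) v
    rw [show P = v.asIdeal from rfl, this]
    exact coe_nrmUnit F q v hu.1

/-- for `γ ≡ 1 mod q`, the norm-unit `gext` of the principal ideal `(γ)` is `±1` -/
theorem gext_nrmUnit_principal (q : ℕ) (γ : 𝓞 F) (hγ : γ ≠ 0)
    (h : γ - 1 ∈ Ideal.span {(q : 𝓞 F)}) :
    gext F (nrmUnit F q) (Ideal.span {γ}) = 1 ∨ gext F (nrmUnit F q) (Ideal.span {γ}) = -1 := by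
  have hne : Ideal.span {γ} ≠ (⊥ : Ideal (𝓞 F)) := by
    rw [Ne, Ideal.span_singleton_eq_bot]; exact hγ
  have h1 := norm_int_cast_eq_one F q γ h
  have habs : ((Ideal.absNorm (Ideal.span {γ}) : ℕ) : ZMod q) = 1 ∨
      ((Ideal.absNorm (Ideal.span {γ}) : ℕ) : ZMod q) = -1 := by
    rw [Ideal.absNorm_span_singleton]
    rcases Int.natAbs_eq (Algebra.norm ℤ γ) with h2 | h2
    · left; rw [← h1]; conv_rhs => rw [h2]
      simp
    · right; rw [← h1]; conv_rhs => rw [h2]
      simp
  rcases habs with h3 | h3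
  · left
    apply Units.ext
    rw [coe_gext_nrmUnit F q hne (by rw [h3]; exact isUnit_one), h3]; rfl
  · right
    apply Units.ext
    rw [coe_gext_nrmUnit F q hne (by rw [h3]; exact isUnit_one.neg), h3]; rfl

end C14
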