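/-
C14 (S14 route), leaf AL, step AL-b: the "character package".

For number fields `K ⊂ F`, a function `χ` on primes of `K` with `χ ^ p = 1`, a modulus `q` and an
exponent `u`, the map `alChar : primes of F → rootsOfUnity p ℂ × (ZMod q)ˣ`,
`w ↦ (χ (w ∩ K) ^ f(w | K), (N w) ^ u)`.

* `al_char_ray`: it is a ray class character mod `q` (`u` even, `ext K χ` trivial on principal
  ideals) — the hypothesis `hray` of `al_cyclic_of`;
* `al_char_order`: `p ^ s ≤ orderOf (alChar w₀)` when `N w₀` has order `p ^ s` mod `q`, `p ∤ u`;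
* `al_char_final`: from `alChar w = alChar w₀ ^ k'` and `N (w ∩ K) = N (w₀ ∩ K) ^ k` mod `q`
  (degree one primes) conclude `χ (w ∩ K) = χ (w₀ ∩ K) ^ k`.
-/
import Fermat.Agent.Lib.C14_GExt

set_option autoImplicit false

open scoped NumberField
open IsDedekindDomain

namespace C14

section

variable (K F : Type*) [Field K] [NumberField K] [Field F] [NumberField F] [Algebra K F]
variable (p q u : ℕ) [NeZero p] (χ : HeightOneSpectrum (𝓞 K) → ℂ) (hχp : ∀ v, χ v ^ p = 1)

include hχp in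
omit [NeZero p] [NumberField K] [NumberField F] in
theorem al_char_pull_pow (w : HeightOneSpectrum (𝓞 F)) : pull K F χ w ^ p = 1 := by
  unfold pull
  rw [← pow_mul, mul_comm, pow_mul, hχp, one_pow]

include hχp in
omit [NumberField K] [NumberField F] in
theorem al_char_pull_ne_zero (w : HeightOneSpectrum (𝓞 F)) : pull K F χ w ≠ 0 := by
  intro h
  have h1 := al_char_pull_pow K F p χ hχp w
  rw [h, zero_pow (NeZero.ne p)] at h1
  exact zero_ne_one h1

/-- the `χ`-coordinate, as a `p`-th root of unity -/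
noncomputable def alChi (w : HeightOneSpectrum (𝓞 F)) : rootsOfUnity p ℂ :=
  ⟨Units.mk0 (pull K F χ w) (al_char_pull_ne_zero K F p χ hχp w), by
    rw [mem_rootsOfUnity]
    apply Units.ext
    rw [Units.val_pow_eq_pow_val, Units.val_mk0, Units.val_one]
    exact al_char_pull_pow K F p χ hχp w⟩

theorem al_chi_coe (w : HeightOneSpectrum (𝓞 F)) :
    (((alChi K F p χ hχp w : rootsOfUnity p ℂ) : ℂˣ) : ℂ) = pull K F χ w := rfl

/-- the character `w ↦ (χ (w ∩ K) ^ f(w | K), (N w) ^ u)` -/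
noncomputable def alChar (w : HeightOneSpectrum (𝓞 F)) : rootsOfUnity p ℂ × (ZMod q)ˣ :=
  (alChi K F p χ hχp w, nrmUnit F q w ^ u)

theorem al_char_fst (w : HeightOneSpectrum (𝓞 F)) :
    (((alChar K F p q u χ hχp w).1 : ℂˣ) : ℂ) =
      χ (under K F w) ^ (w.asIdeal.inertiaDeg (𝓞 K)) := rfl

theorem al_char_snd (w : HeightOneSpectrum (𝓞 F)) :
    (alChar K F p q u χ hχp w).2 = nrmUnit F q w ^ u := rfl

/-- `alChar` is a (wide) ray class character mod `q`. -/
theorem al_char_ray (hu : Even u)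
    (hχP : ∀ α : 𝓞 K, α ≠ 0 → ext K χ (Ideal.span {α}) = 1) (γ : 𝓞 F) (hγ : γ ≠ 0)
    (h : γ - 1 ∈ Ideal.span {(q : 𝓞 F)}) :
    gext F (alChar K F p q u χ hχp) (Ideal.span {γ}) = 1 := by
  have hne : Ideal.span {γ} ≠ (⊥ : Ideal (𝓞 F)) := by
    rw [Ne, Ideal.span_singleton_eq_bot]; exact hγ
  have h0 : alChar K F p q u χ hχp = fun w => (alChi K F p χ hχp w, nrmUnit F q w ^ u) := rfl
  rw [h0, gext_prod F _ _ hne]
  refine Prod.ext ?_ ?_
  · show gext F (alChi K F p χ hχp) (Ideal.span {γ}) = 1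
    have h1 := ext_comp_hom F (rootsOfUnity p ℂ).subtype (alChi K F p χ hχp) hne
    have h2 : (fun w => (((rootsOfUnity p ℂ).subtype (alChi K F p χ hχp w) : ℂˣ) : ℂ))
        = pull K F χ := rfl
    rw [h2, ext_pull_principal K F χ hχP γ hγ] at h1
    apply Subtype.ext
    apply Units.ext
    exact h1.symm
  · show gext F (fun w => nrmUnit F q w ^ u) (Ideal.span {γ}) = 1
    have h1 := map_gext F (powMonoidHom u : (ZMod q)ˣ →* (ZMod q)ˣ) (nrmUnit F q) hne
    have h2 : (fun w => (powMonoidHom u : (ZMod q)ˣ →* (ZMod q)ˣ) (nrmUnit F q w))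
        = fun w => nrmUnit F q w ^ u := rfl
    rw [h2] at h1
    rw [← h1, powMonoidHom_apply]
    rcases gext_nrmUnit_principal F q γ hγ h with h3 | h3
    · rw [h3, one_pow]
    · rw [h3, Even.neg_one_pow hu]

/-- the norm unit of a prime whose norm is a unit mod `q` -/
theorem al_char_nrmUnit_order (w₀ : HeightOneSpectrum (𝓞 F)) (n : ℕ) (hn : 0 < n)
    (hord : orderOf ((Ideal.absNorm w₀.asIdeal : ℕ) : ZMod q) = n) :
    ((nrmUnit F q w₀ : (ZMod q)ˣ) : ZMod q) = ((Ideal.absNorm w₀.asIdeal : ℕ) : ZMod q) ∧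
      orderOf (nrmUnit F q w₀) = n := by
  have hunit : IsUnit ((Ideal.absNorm w₀.asIdeal : ℕ) : ZMod q) := by
    have h1 := pow_orderOf_eq_one ((Ideal.absNorm w₀.asIdeal : ℕ) : ZMod q)
    rw [hord] at h1
    exact IsUnit.of_pow_eq_one h1 hn.ne'
  have hcoe := coe_nrmUnit F q w₀ hunit
  refine ⟨hcoe, ?_⟩
  rw [← orderOf_units, hcoe, hord]

/-- the order of `alChar w₀` is at least the order of `N w₀` mod `q` when that is a power of `p`
and `p ∤ u`. -/
theorem al_char_order (hp : p.Prime) (hu : ¬ p ∣ u) (s : ℕ) (w₀ : HeightOneSpectrum (𝓞 F))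
    (hord : orderOf ((Ideal.absNorm w₀.asIdeal : ℕ) : ZMod q) = p ^ s) :
    p ^ s ≤ orderOf (alChar K F p q u χ hχp w₀) := by
  obtain ⟨-, h1⟩ := al_char_nrmUnit_order F q w₀ (p ^ s) (pow_pos hp.pos s) hord
  have hcop : (orderOf (nrmUnit F q w₀)).Coprime u := by
    rw [h1]
    exact Nat.Coprime.pow_left s ((Nat.Prime.coprime_iff_not_dvd hp).mpr hu)
  have h2 : orderOf (nrmUnit F q w₀ ^ u) = p ^ s := by
    rw [hcop.orderOf_pow, h1]
  have h3 : orderOf (alChar K F p q u χ hχp w₀)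
      = (orderOf (alChar K F p q u χ hχp w₀).1).lcm (orderOf (alChar K F p q u χ hχp w₀).2) :=
    Prod.orderOf _
  have h4 : 0 < orderOf (alChar K F p q u χ hχp w₀).1 := by
    rw [orderOf_pos_iff, isOfFinOrder_iff_pow_eq_one]
    refine ⟨p, hp.pos, ?_⟩
    have := (alChar K F p q u χ hχp w₀).1.2
    rw [mem_rootsOfUnity] at this
    apply Subtype.ext
    simpa using this
  have h5 : orderOf (alChar K F p q u χ hχp w₀).2 = p ^ s := h2
  rw [h3, h5]
  exact Nat.le_of_dvd (Nat.lcm_pos h4 (pow_pos hp.pos s)) (Nat.dvd_lcm_right _ _)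

/-- the end of AL-b: compare the two coordinates. -/
theorem al_char_final (hp : p.Prime) (hu : ¬ p ∣ u) (s : ℕ) (hs : 1 ≤ s)
    (w₀ w : HeightOneSpectrum (𝓞 F)) (k k' : ℕ)
    (hc : alChar K F p q u χ hχp w = alChar K F p q u χ hχp w₀ ^ k')
    (hf₀ : w₀.asIdeal.inertiaDeg (𝓞 K) = 1) (hf : w.asIdeal.inertiaDeg (𝓞 K) = 1)
    (hord : orderOf ((Ideal.absNorm (under K F w₀).asIdeal : ℕ) : ZMod q) = p ^ s)
    (hN : ((Ideal.absNorm (under K F w).asIdeal : ℕ) : ZMod q)
      = ((Ideal.absNorm (under K F w₀).asIdeal : ℕ) : ZMod q) ^ k) :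
    χ (under K F w) = χ (under K F w₀) ^ k := by
  have hN₀ : Ideal.absNorm w₀.asIdeal = Ideal.absNorm (under K F w₀).asIdeal := by
    have : w₀.asIdeal.LiesOver (under K F w₀).asIdeal := ⟨rfl⟩
    rw [← Ideal.absNorm_pow_inertiaDeg (under K F w₀).asIdeal w₀.asIdeal, hf₀, pow_one]
  have hNw : Ideal.absNorm w.asIdeal = Ideal.absNorm (under K F w).asIdeal := by
    have : w.asIdeal.LiesOver (under K F w).asIdeal := ⟨rfl⟩
    rw [← Ideal.absNorm_pow_inertiaDeg (under K F w).asIdeal w.asIdeal, hf, pow_one]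
  -- the unit `y = N w₀`
  obtain ⟨hy, hyord⟩ := al_char_nrmUnit_order F q w₀ (p ^ s) (pow_pos hp.pos s)
    (by rw [hN₀]; exact hord)
  -- `N w` is the unit `y ^ k`
  have hwunit : IsUnit ((Ideal.absNorm w.asIdeal : ℕ) : ZMod q) := by
    rw [hNw, hN, ← hN₀, ← hy]
    exact (Units.isUnit _).pow k
  have hw : nrmUnit F q w = nrmUnit F q w₀ ^ k := by
    apply Units.ext
    rw [coe_nrmUnit F q w hwunit, Units.val_pow_eq_pow_val, hy, hNw, hN, hN₀]
  -- second coordinates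
  have h2 : nrmUnit F q w ^ u = (nrmUnit F q w₀ ^ u) ^ k' := by
    have := congrArg Prod.snd hc
    simpa [alChar] using this
  rw [hw, ← pow_mul, ← pow_mul] at h2
  have h3 : k * u ≡ u * k' [MOD p ^ s] := by
    rw [← hyord]
    exact pow_eq_pow_iff_modEq.mp h2
  have h4 : k ≡ k' [MOD p ^ s] := by
    have hcop : (p ^ s).gcd u = 1 :=
      Nat.Coprime.pow_left s ((Nat.Prime.coprime_iff_not_dvd hp).mpr hu)
    have h3' : k * u ≡ k' * u [MOD p ^ s] := by rwa [mul_comm k' u]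
    exact Nat.ModEq.cancel_right_of_coprime hcop h3'
  have h5 : k ≡ k' [MOD p] := h4.of_dvd (dvd_pow_self p (by omega))
  -- first coordinates
  have h1 : χ (under K F w) = χ (under K F w₀) ^ k' := by
    have h6 := congrArg (fun x : rootsOfUnity p ℂ × (ZMod q)ˣ => (((x.1 : ℂˣ) : ℂ))) hc
    beta_reduce at h6
    rw [al_char_fst, hf, pow_one] at h6
    rw [h6]
    have h7 : (((alChar K F p q u χ hχp w₀ ^ k').1 : ℂˣ) : ℂ)
        = (((alChar K F p q u χ hχp w₀).1 : ℂˣ) : ℂ) ^ k' := by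
      simp
    rw [h7, al_char_fst, hf₀, pow_one]
  rw [h1, pow_eq_pow_mod k (hχp _), pow_eq_pow_mod k' (hχp _)]
  congr 1
  exact h5.symm

end

end C14
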