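/-
C14 (S14 route), leaf AL, step AL-b: complements to the character package `C14_AL_Char`.

* `al_char_final_abs`: the end lemma of AL-b with the norm hypotheses stated for the primes of `F`
  themselves (`Ideal.absNorm w.asIdeal`), as consumed by `C14.al_b`;
* `al_char_finite`: the value group `rootsOfUnity p ℂ × (ZMod q)ˣ` is finite;
* `al_char_one_of`: `alChar w = 1` from `pull K F χ w = 1` and `nrmUnit F q w = 1`.
-/
import Fermat.Agent.Lib.C14_AL_Char

set_option autoImplicit false

open scoped NumberField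
open IsDedekindDomain

namespace C14

section

variable (K F : Type*) [Field K] [NumberField K] [Field F] [NumberField F] [Algebra K F]
variable (p q u : ℕ) [NeZero p] (χ : HeightOneSpectrum (𝓞 K) → ℂ) (hχp : ∀ v, χ v ^ p = 1)

/-- the end of AL-b, with norms of the primes of `F`. -/
theorem al_char_final_abs (hp : p.Prime) (hu : ¬ p ∣ u) (s : ℕ) (hs : 1 ≤ s)
    (w₀ w : HeightOneSpectrum (𝓞 F)) (k k' : ℕ)
    (hc : alChar K F p q u χ hχp w = alChar K F p q u χ hχp w₀ ^ k')
    (hf₀ : w₀.asIdeal.inertiaDeg (𝓞 K) = 1) (hf : w.asIdeal.inertiaDeg (𝓞 K) = 1)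
    (hord : orderOf ((Ideal.absNorm w₀.asIdeal : ℕ) : ZMod q) = p ^ s)
    (hN : ((Ideal.absNorm w.asIdeal : ℕ) : ZMod q)
      = ((Ideal.absNorm w₀.asIdeal : ℕ) : ZMod q) ^ k) :
    χ (under K F w) = χ (under K F w₀) ^ k := by
  have hN₀ : Ideal.absNorm w₀.asIdeal = Ideal.absNorm (under K F w₀).asIdeal := by
    have : w₀.asIdeal.LiesOver (under K F w₀).asIdeal := ⟨rfl⟩
    rw [← Ideal.absNorm_pow_inertiaDeg (under K F w₀).asIdeal w₀.asIdeal, hf₀, pow_one]
  have hNw : Ideal.absNorm w.asIdeal = Ideal.absNorm (under K F w).asIdeal := by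
    have : w.asIdeal.LiesOver (under K F w).asIdeal := ⟨rfl⟩
    rw [← Ideal.absNorm_pow_inertiaDeg (under K F w).asIdeal w.asIdeal, hf, pow_one]
  rw [hN₀] at hord
  rw [hN₀, hNw] at hN
  exact al_char_final K F p q u χ hχp hp hu s hs w₀ w k k' hc hf₀ hf hord hN

omit [NumberField K] in
/-- `alChar w = 1` from its two coordinates. -/
theorem al_char_one_of (w : HeightOneSpectrum (𝓞 F)) (h1 : pull K F χ w = 1)
    (h2 : nrmUnit F q w = 1) : alChar K F p q u χ hχp w = 1 := by
  refine Prod.ext ?_ ?_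
  · apply Subtype.ext
    apply Units.ext
    exact h1
  · show nrmUnit F q w ^ u = 1
    rw [h2, one_pow]

end

/-- the value group of `alChar` is finite. -/
theorem al_char_finite (p q : ℕ) [NeZero p] [NeZero q] :
    Finite (rootsOfUnity p ℂ × (ZMod q)ˣ) := inferInstance

example (p q : ℕ) [NeZero p] [NeZero q] : CommGroup (rootsOfUnity p ℂ × (ZMod q)ˣ) := inferInstance
example (p q : ℕ) [Fact p.Prime] [Fact q.Prime] : Finite (rootsOfUnity p ℂ × (ZMod q)ˣ) :=
  inferInstance

end C14
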