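import Mathlib

/-!
# Shared definitions for the S14 ("CFT-lite") development

Everything is phrased with *functions on primes* `HeightOneSpectrum (𝓞 F) → ℂ`, their completely
multiplicative extension `C14.ext` to integral ideals, and the Dirichlet series `C14.Lfun`.
-/

set_option autoImplicit false

open scoped NumberField
open IsDedekindDomain

namespace C14

section
variable (F : Type*) [Field F] [NumberField F]

/-- exponent of the prime `v` in the integral ideal `a` -/
noncomputable def cnt (v : HeightOneSpectrum (𝓞 F)) (a : Ideal (𝓞 F)) : ℕ :=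
  (Associates.mk v.asIdeal).count (Associates.mk a).factors

/-- completely multiplicative extension of a function on primes to integral ideals
(value `0` at the zero ideal) -/
noncomputable def ext (f : HeightOneSpectrum (𝓞 F) → ℂ) (a : Ideal (𝓞 F)) : ℂ :=
  if a = ⊥ then 0 else ∏ᶠ v : HeightOneSpectrum (𝓞 F), f v ^ cnt F v a

/-- the Dirichlet series `∑_a ext f a · N(a)^(-s)` over all integral ideals, real `s` -/
noncomputable def Lfun (f : HeightOneSpectrum (𝓞 F) → ℂ) (s : ℝ) : ℂ :=
  ∑' a : Ideal (𝓞 F), ext F f a * (((Ideal.absNorm a : ℝ) ^ (-s) : ℝ) : ℂ)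

/-- absolute norm of a prime, as a real number -/
noncomputable def nrm (v : HeightOneSpectrum (𝓞 F)) : ℝ := (Ideal.absNorm v.asIdeal : ℝ)

end

section
variable (F M : Type*) [Field F] [NumberField F] [Field M] [NumberField M] [Algebra F M]

/-- `v` splits completely in `M`: every prime of `M` above `v` has `e = f = 1`. -/
def SplitsIn (v : HeightOneSpectrum (𝓞 F)) : Prop :=
  ∀ w : Ideal (𝓞 M), w.IsPrime → w.comap (algebraMap (𝓞 F) (𝓞 M)) = v.asIdeal →
    w.ramificationIdx (𝓞 F) = 1 ∧ w.inertiaDeg (𝓞 F) = 1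

/-- `v` is unramified in `M`: every prime of `M` above `v` has `e = 1`. -/
def UnramIn (v : HeightOneSpectrum (𝓞 F)) : Prop :=
  ∀ w : Ideal (𝓞 M), w.IsPrime → w.comap (algebraMap (𝓞 F) (𝓞 M)) = v.asIdeal →
    w.ramificationIdx (𝓞 F) = 1

/-- `g` is a Frobenius element at `v` (for all primes of `M` above `v`):
`g x ≡ x ^ N(v)` modulo every prime `w` of `M` above `v`, for all integers `x` of `M`. -/
def IsFrob (v : HeightOneSpectrum (𝓞 F)) (g : M ≃ₐ[F] M) : Prop :=
  ∀ w : Ideal (𝓞 M), w.IsPrime → w.comap (algebraMap (𝓞 F) (𝓞 M)) = v.asIdeal →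
    ∀ x : 𝓞 M, ∃ y ∈ w, (y : M) = g (x : M) - (x : M) ^ Ideal.absNorm v.asIdeal

open Classical in
/-- the Frobenius element at `v` in `Gal(M/F)` (meaningful for `M/F` abelian and `v` unramified;
junk value `1` otherwise) -/
noncomputable def frob (v : HeightOneSpectrum (𝓞 F)) : M ≃ₐ[F] M :=
  if h : ∃ g : M ≃ₐ[F] M, IsFrob F M v g then h.choose else 1

end

section
variable (K : Type*) [Field K] [NumberField K]

/-- the prime `τ⁻¹(v)` (preimage of `v` under the automorphism `τ` of `K`) -/
noncomputable def galPrime (τ : K ≃ₐ[ℚ] K) (v : HeightOneSpectrum (𝓞 K)) :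
    HeightOneSpectrum (𝓞 K) where
  asIdeal := v.asIdeal.comap (NumberField.RingOfIntegers.mapRingEquiv (τ : K ≃+* K))
  isPrime := Ideal.comap_isPrime _ _
  ne_bot := by
    intro h
    apply v.ne_bot
    have := Ideal.map_comap_of_surjective
      (NumberField.RingOfIntegers.mapRingEquiv (τ : K ≃+* K))
      (NumberField.RingOfIntegers.mapRingEquiv (τ : K ≃+* K)).surjective v.asIdeal
    rw [h, Ideal.map_bot] at this
    exact this.symm

theorem mem_galPrime (τ : K ≃ₐ[ℚ] K) (v : HeightOneSpectrum (𝓞 K)) (x : 𝓞 K) :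
    x ∈ (galPrime K τ v).asIdeal ↔
      NumberField.RingOfIntegers.mapRingEquiv (τ : K ≃+* K) x ∈ v.asIdeal := Iff.rfl

open Classical in
/-- the automorphism `σ_t : ζ ↦ ζ ^ t` of the `p`-th cyclotomic field `K`
(junk value `1` if no such automorphism exists, i.e. if `p ∣ t`) -/
noncomputable def sig (p : ℕ) (t : ℕ) : K ≃ₐ[ℚ] K :=
  if h : ∃ τ : K ≃ₐ[ℚ] K, ∀ ζ : K, IsPrimitiveRoot ζ p → τ ζ = ζ ^ t then h.choose else 1

end

end C14
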