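import Mathlib
import Fermat.Agent.Lib.C14_Defs

set_option autoImplicit false
set_option linter.style.haveILetI false
open scoped NumberField
open IsDedekindDomain Module Polynomial

namespace C14

theorem al_exists_splitting_ne_zero (K L : Type*) [Field K] [Field L] [Algebra K L]
    [Normal K L] [FiniteDimensional K L] :
    ∃ g : K[X], g ≠ 0 ∧ IsSplittingField K L g := by
  obtain ⟨g, hg⟩ := Normal.exists_isSplittingField K L
  by_cases h0 : g = 0
  · subst h0
    refine ⟨1, one_ne_zero, ⟨?_, ?_⟩⟩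
    · simp
    · have h1 := hg.adjoin_rootSet'
      simpa using h1
  · exact ⟨g, h0, hg⟩

theorem al_pow_val_natCast {R : Type*} [Monoid R] {ζ : R} {m : ℕ} [NeZero m] (hζ : ζ ^ m = 1)
    (k : ℕ) : ζ ^ ((k : ZMod m).val) = ζ ^ k := by
  rw [ZMod.val_natCast]
  conv_rhs => rw [← Nat.mod_add_div k m, pow_add, pow_mul, hζ, one_pow, mul_one]

section cross
variable {K L Ω : Type*} [Field K] [Field L] [Field Ω] [Algebra K L] [Algebra K Ω]
  [Algebra L Ω] [IsScalarTower K L Ω]

/-- `L(ζ_m)/K` is Galois when `L/K` is. -/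
theorem al_isGalois_top [CharZero K] [FiniteDimensional K L] [IsGalois K L] (m : ℕ) [NeZero m]
    [IsCyclotomicExtension {m} L Ω] : IsGalois K Ω := by
  obtain ⟨g, hg0, hg⟩ := al_exists_splitting_ne_zero K L
  haveI := hg
  haveI : IsSplittingField L Ω ((X ^ m - 1 : K[X]).map (algebraMap K L)) := by
    have := IsCyclotomicExtension.isSplittingField_X_pow_sub_one m L Ω
    simpa using this
  haveI : IsSplittingField K Ω (g * (X ^ m - 1)) :=
    IsSplittingField.mul (F := K) (K := L) Ω g (X ^ m - 1) hg0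
      (X_pow_sub_C_ne_zero (NeZero.pos m) (1 : K))
  haveI : Normal K Ω := Normal.of_isSplittingField (g * (X ^ m - 1))
  exact ⟨⟩

variable (m : ℕ) [NeZero m] [IsCyclotomicExtension {m} L Ω] [Normal K L]

/-- An automorphism of `L(ζ_m)` over `K` is determined by its restriction to `L` and its action
on `ζ_m`. -/
theorem al_cross_eq_one {ζ : Ω} (hζ : IsPrimitiveRoot ζ m) (g : Ω ≃ₐ[K] Ω)
    (h1 : AlgEquiv.restrictNormalHom L g = 1) (h2 : g ζ = ζ) : g = 1 := by
  have hL : ∀ x : L, g (algebraMap L Ω x) = algebraMap L Ω x := by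
    intro x
    have := AlgEquiv.restrictNormal_commutes g L x
    rw [← this]
    have h3 : g.restrictNormal L = 1 := h1
    rw [h3]; rfl
  let φ₁ : Ω →ₐ[L] Ω := { (g : Ω →+* Ω) with commutes' := hL }
  have hφ : φ₁ = AlgHom.id L Ω := by
    apply AlgHom.ext_of_adjoin_eq_top (IsCyclotomicExtension.adjoin_primitive_root_eq_top hζ)
    intro x hx
    rw [Set.mem_singleton_iff] at hx
    subst hx
    exact h2
  ext x
  exact congrArg (fun f : Ω →ₐ[L] Ω => f x) hφ

theorem al_cross_ext {ζ : Ω} (hζ : IsPrimitiveRoot ζ m) (g h : Ω ≃ₐ[K] Ω)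
    (h1 : AlgEquiv.restrictNormalHom L g = AlgEquiv.restrictNormalHom L h) (h2 : g ζ = h ζ) :
    g = h := by
  have : h⁻¹ * g = 1 := by
    apply al_cross_eq_one (L := L) m hζ
    · have e1 : AlgEquiv.restrictNormalHom (F := K) (K₁ := Ω) L (h⁻¹ * g) =
          (AlgEquiv.restrictNormalHom (F := K) (K₁ := Ω) L h)⁻¹ *
            AlgEquiv.restrictNormalHom (F := K) (K₁ := Ω) L g := by
        rw [map_mul, map_inv]
      rw [e1, h1, inv_mul_cancel]
    · rw [AlgEquiv.mul_apply, h2]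
      exact h.symm_apply_apply ζ
  exact (inv_mul_eq_one.mp this).symm

theorem al_cross_apply_zeta {ζ : Ω} (hζ : IsPrimitiveRoot ζ m) (g : Ω ≃ₐ[K] Ω) :
    g ζ = ζ ^ ((hζ.autToPow K g : (ZMod m)ˣ) : ZMod m).val :=
  (hζ.autToPow_spec K g).symm

theorem al_cross_ext' {ζ : Ω} (hζ : IsPrimitiveRoot ζ m) (g h : Ω ≃ₐ[K] Ω)
    (h1 : AlgEquiv.restrictNormalHom L g = AlgEquiv.restrictNormalHom L h)
    (h2 : hζ.autToPow K g = hζ.autToPow K h) : g = h := by
  apply al_cross_ext (L := L) m hζ g h h1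
  rw [al_cross_apply_zeta m hζ, al_cross_apply_zeta m hζ, h2]

include m in
/-- `Gal(L(ζ_m)/K)` is commutative when `Gal(L/K)` is. -/
theorem al_cross_comm (hab : ∀ a b : L ≃ₐ[K] L, a * b = b * a) (g h : Ω ≃ₐ[K] Ω) :
    g * h = h * g := by
  obtain ⟨ζ, hζ⟩ := IsCyclotomicExtension.exists_isPrimitiveRoot L Ω (Set.mem_singleton m)
    (NeZero.ne m)
  apply al_cross_ext' (L := L) m hζ
  · have e1 : ∀ a b : Ω ≃ₐ[K] Ω, AlgEquiv.restrictNormalHom (F := K) (K₁ := Ω) L (a * b) =
        AlgEquiv.restrictNormalHom (F := K) (K₁ := Ω) L a *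
          AlgEquiv.restrictNormalHom (F := K) (K₁ := Ω) L b := fun a b => map_mul _ a b
    rw [e1, e1, hab]
  · rw [map_mul, map_mul, mul_comm]

end cross
theorem al_fix_adjoin {K Ω : Type*} [Field K] [Field Ω] [Algebra K Ω] (g : Ω ≃ₐ[K] Ω) (ζ : Ω)
    (hζalg : IsAlgebraic K ζ) (h : g ζ = ζ) : ∀ x ∈ IntermediateField.adjoin K {ζ}, g x = x := by
  intro x hx
  have h1 : (IntermediateField.adjoin K {ζ}).toSubalgebra ≤
      AlgHom.equalizer (g : Ω →ₐ[K] Ω) (AlgHom.id K Ω) := by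
    rw [IntermediateField.adjoin_simple_toSubalgebra_of_isAlgebraic hζalg]
    apply Algebra.adjoin_le
    intro y hy
    rw [Set.mem_singleton_iff] at hy
    subst hy
    exact h
  exact h1 hx

theorem al_autToPow_eq_one_iff {K Ω : Type*} [Field K] [Field Ω] [Algebra K Ω] (m : ℕ) [NeZero m]
    {ζ : Ω} (hζ : IsPrimitiveRoot ζ m) (g : Ω ≃ₐ[K] Ω) : hζ.autToPow K g = 1 ↔ g ζ = ζ := by
  have h2 := hζ.autToPow_spec K g
  have h1 : ζ ^ ((1 : ZMod m)).val = ζ := by
    have := al_pow_val_natCast (m := m) hζ.pow_eq_one 1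
    rwa [Nat.cast_one, pow_one] at this
  constructor
  · intro h
    rw [h] at h2
    rw [← h2]
    exact h1
  · intro h
    rw [h] at h2
    have h3 := hζ.pow_inj (ZMod.val_lt _) (ZMod.val_lt _) (h2.trans h1.symm)
    apply Units.ext
    exact ZMod.val_injective m h3

section surj
variable {p : ℕ} [Fact p.Prime]
  {K L Ω : Type*} [Field K] [Field L] [Field Ω] [NumberField K] [NumberField L] [NumberField Ω]
  [Algebra K L] [Algebra K Ω] [Algebra L Ω] [IsScalarTower K L Ω]
  [IsGalois K L] [IsCyclotomicExtension {p} ℚ K] [IsGalois ℚ L]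
  (m : ℕ) [NeZero m] [IsCyclotomicExtension {m} L Ω]

include p in
/-- the degree of `K(ζ_m)` over `K = ℚ(ζ_p)` is at least `φ(m)` when `m` is prime to `p` -/
theorem al_cross_deg_ge (hm : m.Coprime p) {ζ : Ω} (hζ : IsPrimitiveRoot ζ m) :
    m.totient ≤ finrank K (IntermediateField.adjoin K {ζ}) := by
  have hp : p.Prime := Fact.out
  haveI : NeZero p := ⟨hp.ne_zero⟩
  set E : IntermediateField K Ω := IntermediateField.adjoin K {ζ} with hE
  have hx : IsPrimitiveRoot (algebraMap K E (IsCyclotomicExtension.zeta p ℚ K)) p :=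
    (IsCyclotomicExtension.zeta_spec p ℚ K).map_of_injective (algebraMap K E).injective
  have hy : IsPrimitiveRoot (⟨ζ, IntermediateField.mem_adjoin_simple_self K ζ⟩ : E) m := by
    apply IsPrimitiveRoot.of_map_of_injective (f := algebraMap E Ω) ?_ (algebraMap E Ω).injective
    exact hζ
  have hlcm : Nat.lcm p m = p * m := (Nat.Coprime.symm hm).lcm_eq_mul
  have hirr : Irreducible (cyclotomic (Nat.lcm p m) ℚ) :=
    cyclotomic.irreducible_rat (by rw [hlcm]; exact Nat.mul_pos hp.pos (NeZero.pos m))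
  have h1 := IsPrimitiveRoot.lcm_totient_le_finrank (K := ℚ) hx hy hirr
  have h2 : finrank ℚ K = p.totient :=
    IsCyclotomicExtension.finrank K (cyclotomic.irreducible_rat hp.pos)
  have h3 : finrank ℚ K * finrank K E = finrank ℚ E := Module.finrank_mul_finrank ℚ K E
  rw [hlcm, Nat.totient_mul (Nat.Coprime.symm hm), ← h3, h2] at h1
  exact Nat.le_of_mul_le_mul_left h1 (Nat.totient_pos.mpr hp.pos)

omit [IsGalois ℚ L] in
include p L in
/-- Claim A: every unit mod `m` is the cyclotomic character of an element of `Gal(L(ζ_m)/K)`. -/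
theorem al_cross_cyc_surj (hm : m.Coprime p) {ζ : Ω} (hζ : IsPrimitiveRoot ζ m) (c : (ZMod m)ˣ) :
    ∃ g : Ω ≃ₐ[K] Ω, hζ.autToPow K g = c := by
  haveI : IsGalois K Ω := al_isGalois_top (L := L) m
  set E : IntermediateField K Ω := IntermediateField.adjoin K {ζ} with hE
  set cyc := hζ.autToPow K (S := Ω) with hcyc
  have hker : E.fixingSubgroup = cyc.ker := by
    ext g
    rw [IntermediateField.mem_fixingSubgroup_iff, MonoidHom.mem_ker, hcyc,
      al_autToPow_eq_one_iff m hζ g]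
    constructor
    · intro h
      exact h ζ (IntermediateField.mem_adjoin_simple_self K ζ)
    · intro h x hx
      exact al_fix_adjoin g ζ (hζ.isIntegral (NeZero.pos m)).tower_top.isAlgebraic h x hx
  have h1 : Nat.card cyc.ker * cyc.ker.index = Nat.card (Ω ≃ₐ[K] Ω) := Subgroup.card_mul_index _
  rw [Subgroup.index_ker, ← hker, IsGalois.card_fixingSubgroup_eq_finrank,
    IsGalois.card_aut_eq_finrank] at h1
  have h2 : finrank K E * finrank E Ω = finrank K Ω := Module.finrank_mul_finrank K E Ω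
  have h3 : Nat.card cyc.range = finrank K E := by
    have hpos : 0 < finrank E Ω := Module.finrank_pos
    rw [← h2, mul_comm] at h1
    exact Nat.eq_of_mul_eq_mul_right hpos h1
  have h4 : cyc.range = ⊤ := by
    rw [← Subgroup.card_eq_iff_eq_top]
    apply le_antisymm (Subgroup.card_le_card_group _)
    rw [h3, Nat.card_eq_fintype_card, ZMod.card_units_eq_totient]
    exact al_cross_deg_ge (p := p) m hm hζ
  have : c ∈ cyc.range := by rw [h4]; trivial
  exact this

include p in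
/-- Claim B: some element of `Gal(L(ζ_m)/K)` fixes `ζ_m` and is nontrivial on `L`
(because `L/ℚ` is not abelian). -/
theorem al_cross_exists_fix (hnonab : ¬ ∀ g h : L ≃ₐ[ℚ] L, g * h = h * g)
    {ζ : Ω} (hζ : IsPrimitiveRoot ζ m) :
    ∃ g : Ω ≃ₐ[K] Ω, g ζ = ζ ∧ AlgEquiv.restrictNormalHom L g ≠ 1 := by
  by_contra hcon
  push Not at hcon
  apply hnonab
  have hp : p.Prime := Fact.out
  haveI : NeZero p := ⟨hp.ne_zero⟩
  haveI : IsGalois K Ω := al_isGalois_top (L := L) m
  haveI : IsGalois ℚ Ω := al_isGalois_top (K := ℚ) (L := L) m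
  set E : IntermediateField K Ω := IntermediateField.adjoin K {ζ} with hE
  have hbot : E.fixingSubgroup = ⊥ := by
    rw [eq_bot_iff]
    intro g hg
    rw [IntermediateField.mem_fixingSubgroup_iff] at hg
    have h1 := hg ζ (IntermediateField.mem_adjoin_simple_self K ζ)
    rw [Subgroup.mem_bot]
    exact al_cross_eq_one (L := L) m hζ g (hcon g h1) h1
  have htop : E = ⊤ := by
    rw [← IsGalois.fixedField_fixingSubgroup E, hbot, IntermediateField.fixedField_bot]
  have hadj : Algebra.adjoin K {ζ} = ⊤ := by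
    have h1 := IntermediateField.adjoin_simple_toSubalgebra_of_isAlgebraic
      (F := K) (hζ.isIntegral (NeZero.pos m)).tower_top.isAlgebraic
    rw [← h1, ← hE, htop, IntermediateField.top_toSubalgebra]
  haveI hcycK : IsCyclotomicExtension {m} K Ω := by
    refine (IsCyclotomicExtension.iff_singleton m K Ω).mpr ⟨⟨ζ, hζ⟩, fun x => ?_⟩
    have hx : x ∈ Algebra.adjoin K {ζ} := by rw [hadj]; exact Algebra.mem_top
    have hsub : ({ζ} : Set Ω) ⊆ {b | b ^ m = 1} := by
      intro y hy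
      rw [Set.mem_singleton_iff] at hy
      subst hy
      exact hζ.pow_eq_one
    exact Algebra.adjoin_mono hsub hx
  haveI hcycQ : IsCyclotomicExtension ({p} ∪ {m}) ℚ Ω :=
    IsCyclotomicExtension.trans {p} {m} ℚ K Ω (algebraMap K Ω).injective
  have hcomm : ∀ a b : Ω ≃ₐ[ℚ] Ω, a * b = b * a := by
    haveI := IsCyclotomicExtension.isMulCommutative ({p} ∪ {m}) ℚ Ω
    intro a b
    exact mul_comm' a b
  intro g h
  obtain ⟨g', rfl⟩ := AlgEquiv.restrictNormalHom_surjective (F := ℚ) (K₁ := L) Ω g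
  obtain ⟨h', rfl⟩ := AlgEquiv.restrictNormalHom_surjective (F := ℚ) (K₁ := L) Ω h
  rw [← map_mul, ← map_mul, hcomm]

include p in
/-- `Gal(L(ζ_m)/K) → Gal(L/K) × (ℤ/m)ˣ` is onto (`K = ℚ(ζ_p)`, `[L:K] = p`, `L/ℚ` not abelian,
`m` prime to `p`). -/
theorem al_cross_surj (hdeg : finrank K L = p) (hnonab : ¬ ∀ g h : L ≃ₐ[ℚ] L, g * h = h * g)
    (hm : m.Coprime p) {ζ : Ω} (hζ : IsPrimitiveRoot ζ m) (σ : L ≃ₐ[K] L) (c : (ZMod m)ˣ) :
    ∃ g : Ω ≃ₐ[K] Ω, AlgEquiv.restrictNormalHom L g = σ ∧ hζ.autToPow K g = c := by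
  obtain ⟨g₁, hg₁⟩ := al_cross_cyc_surj (p := p) (K := K) (L := L) m hm hζ c
  obtain ⟨g₀, hg₀, hg₀'⟩ := al_cross_exists_fix (p := p) (K := K) (L := L) m hnonab hζ
  have hcard : Nat.card (L ≃ₐ[K] L) = p := by rw [IsGalois.card_aut_eq_finrank, hdeg]
  haveI : Fact (Nat.card (L ≃ₐ[K] L)).Prime := by rw [hcard]; infer_instance
  have htop : Subgroup.zpowers (AlgEquiv.restrictNormalHom (F := K) (K₁ := Ω) L g₀) = ⊤ := by
    rcases Subgroup.eq_bot_or_eq_top_of_prime_card
      (Subgroup.zpowers (AlgEquiv.restrictNormalHom (F := K) (K₁ := Ω) L g₀)) with h | h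
    · exfalso
      apply hg₀'
      have := Subgroup.mem_zpowers (AlgEquiv.restrictNormalHom (F := K) (K₁ := Ω) L g₀)
      rw [h, Subgroup.mem_bot] at this
      exact this
    · exact h
  have hmem : σ * (AlgEquiv.restrictNormalHom (F := K) (K₁ := Ω) L g₁)⁻¹ ∈
      Subgroup.zpowers (AlgEquiv.restrictNormalHom (F := K) (K₁ := Ω) L g₀) := by
    rw [htop]; trivial
  obtain ⟨k, hk⟩ := Subgroup.mem_zpowers_iff.mp hmem
  refine ⟨g₀ ^ k * g₁, ?_, ?_⟩
  · have e1 : AlgEquiv.restrictNormalHom (F := K) (K₁ := Ω) L (g₀ ^ k * g₁) =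
        (AlgEquiv.restrictNormalHom (F := K) (K₁ := Ω) L g₀) ^ k *
          AlgEquiv.restrictNormalHom (F := K) (K₁ := Ω) L g₁ := by
      rw [map_mul, map_zpow]
    rw [e1, hk, inv_mul_cancel_right]
  · have h0 : hζ.autToPow K g₀ = 1 := (al_autToPow_eq_one_iff m hζ g₀).mpr hg₀
    rw [map_mul, map_zpow, h0, one_zpow, one_mul, hg₁]

end surj
end C14
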