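import Mathlib

/-!
# S14, AL-b helper: the fixed field of a cyclic subgroup

For a finite Galois extension `Ω / K` and `g0 ∈ Gal(Ω/K)`, with `F` the fixed field of `⟨g0⟩`:
* `al_fix_finrank` : `[Ω : F] = orderOf g0`;
* `al_fix_exists_pow` : every `h ∈ Gal(Ω/F)` acts as a power `g0 ^ k` (`k : ℕ`);
* `al_fix_fixed` : powers of `g0` fix `F` pointwise;
* `al_fix_isGalois` : if `Gal(Ω/K)` is commutative, `F / K` is Galois;
* `al_fix_card` : `Nat.card Gal(Ω/F) = orderOf g0`.
-/

set_option autoImplicit false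
set_option linter.unusedSectionVars false

namespace C14

section
variable {K Ω : Type*} [Field K] [Field Ω] [Algebra K Ω] [FiniteDimensional K Ω] [IsGalois K Ω]

/-- `[Ω : Ω^{⟨g0⟩}] = orderOf g0`. -/
theorem al_fix_finrank (g0 : Ω ≃ₐ[K] Ω) :
    Module.finrank (IntermediateField.fixedField (Subgroup.zpowers g0)) Ω = orderOf g0 := by
  rw [IntermediateField.finrank_fixedField_eq_card, Nat.card_zpowers]

/-- `#Gal(Ω / Ω^{⟨g0⟩}) = orderOf g0`. -/
theorem al_fix_card (g0 : Ω ≃ₐ[K] Ω) :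
    Nat.card (Ω ≃ₐ[IntermediateField.fixedField (Subgroup.zpowers g0)] Ω) = orderOf g0 := by
  rw [IsGalois.card_aut_eq_finrank, al_fix_finrank]

/-- Every automorphism of `Ω` over the fixed field of `⟨g0⟩` is a power of `g0`. -/
theorem al_fix_exists_pow (g0 : Ω ≃ₐ[K] Ω)
    (h : Ω ≃ₐ[IntermediateField.fixedField (Subgroup.zpowers g0)] Ω) :
    ∃ k : ℕ, ∀ x : Ω, h x = (g0 ^ k) x := by
  have h1 : h.restrictScalars K ∈
      (IntermediateField.fixedField (Subgroup.zpowers g0)).fixingSubgroup := by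
    rw [IntermediateField.mem_fixingSubgroup_iff]
    intro x hx
    exact h.commutes ⟨x, hx⟩
  rw [IntermediateField.fixingSubgroup_fixedField] at h1
  have h2 : h.restrictScalars K ∈ Submonoid.powers g0 :=
    (isOfFinOrder_of_finite g0).mem_powers_iff_mem_zpowers.mpr h1
  obtain ⟨k, hk⟩ := Submonoid.mem_powers_iff _ _ |>.mp h2
  refine ⟨k, fun x => ?_⟩
  rw [hk]
  rfl

/-- Powers of `g0` fix the fixed field of `⟨g0⟩` pointwise. -/
theorem al_fix_fixed (g0 : Ω ≃ₐ[K] Ω) (k : ℕ)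
    (x : IntermediateField.fixedField (Subgroup.zpowers g0)) : (g0 ^ k) (x : Ω) = x := by
  have h1 : g0 ^ k ∈ Subgroup.zpowers g0 := Subgroup.npow_mem_zpowers g0 k
  exact (IntermediateField.mem_fixedField_iff _ _).mp x.2 _ h1

/-- An element of `Gal(Ω/K)` fixing the fixed field of `⟨g0⟩` pointwise is a power of `g0`. -/
theorem al_fix_pow_of_fixed (g0 g : Ω ≃ₐ[K] Ω)
    (hg : ∀ x : IntermediateField.fixedField (Subgroup.zpowers g0), g (x : Ω) = x) :
    ∃ k : ℕ, g = g0 ^ k := by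
  have h1 : g ∈ (IntermediateField.fixedField (Subgroup.zpowers g0)).fixingSubgroup := by
    rw [IntermediateField.mem_fixingSubgroup_iff]
    intro x hx
    exact hg ⟨x, hx⟩
  rw [IntermediateField.fixingSubgroup_fixedField] at h1
  have h2 : g ∈ Submonoid.powers g0 :=
    (isOfFinOrder_of_finite g0).mem_powers_iff_mem_zpowers.mpr h1
  obtain ⟨k, hk⟩ := Submonoid.mem_powers_iff _ _ |>.mp h2
  exact ⟨k, hk.symm⟩

/-- If `Gal(Ω/K)` is commutative, the fixed field of `⟨g0⟩` is Galois over `K`. -/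
theorem al_fix_isGalois (hab : ∀ a b : Ω ≃ₐ[K] Ω, a * b = b * a) (g0 : Ω ≃ₐ[K] Ω) :
    IsGalois K (IntermediateField.fixedField (Subgroup.zpowers g0)) := by
  have : (Subgroup.zpowers g0).Normal := by
    constructor
    intro n hn g
    rw [hab g n, mul_assoc, mul_inv_cancel, mul_one]
    exact hn
  exact IsGalois.of_fixedField_normal_subgroup (Subgroup.zpowers g0)

end

end C14
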