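import Fermat.Agent.Lib.C14_FrobExtra

/-!
# S14 development, leaf FROB: Frobenius calculus at the level of `IsFrob`
(no unramifiedness hypotheses)

* `C14.frob_isFrob_restrict`: restriction to a subextension;
* `C14.frob_isFrob_apply_of_pow_eq_one`: action on roots of unity;
* `C14.frob_isFrob_inertiaDeg_of_fixed`: primes of a field fixed by a Frobenius have degree one;
* `C14.frob_isFrob_baseChange`, `C14.frob_isFrob_of_baseChange`: base change.
-/

set_option autoImplicit false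

open scoped NumberField Pointwise
open IsDedekindDomain Module

namespace C14

section single

variable (F M : Type*) [Field F] [NumberField F] [Field M] [NumberField M] [Algebra F M]

/-- if the identity is a Frobenius power `x ↦ x ^ (N v) ^ k` at `w`, then `f(w|v) ≤ k` -/
theorem frob_inertiaDeg_le_of_frobPow_one {G : Type*} [Group G] [MulSemiringAction G (𝓞 M)]
    (v : HeightOneSpectrum (𝓞 F)) (w : Ideal (𝓞 M)) (hw : w.IsPrime)
    (hwv : w.comap (algebraMap (𝓞 F) (𝓞 M)) = v.asIdeal) (k : ℕ) (hk : 0 < k)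
    (h : FrobPow (1 : G) w (Ideal.absNorm v.asIdeal ^ k)) : w.inertiaDeg (𝓞 F) ≤ k := by
  have hN := frob_one_lt_absNorm F v
  have hNk : 1 < Ideal.absNorm v.asIdeal ^ k := Nat.one_lt_pow hk.ne' hN
  obtain ⟨-, h2⟩ := frob_card_quot_le w hNk h
  rw [frob_card_quot_over F M v w hw hwv] at h2
  exact (Nat.pow_le_pow_iff_right hN).mp h2

/-- if the identity is a Frobenius at `w`, then `f(w|v) = 1` -/
theorem frob_inertiaDeg_eq_one_of_frobPow_one {G : Type*} [Group G] [MulSemiringAction G (𝓞 M)]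
    (v : HeightOneSpectrum (𝓞 F)) (w : Ideal (𝓞 M)) (hw : w.IsPrime)
    (hwv : w.comap (algebraMap (𝓞 F) (𝓞 M)) = v.asIdeal)
    (h : FrobPow (1 : G) w (Ideal.absNorm v.asIdeal)) : w.inertiaDeg (𝓞 F) = 1 := by
  have h1 : FrobPow (1 : G) w (Ideal.absNorm v.asIdeal ^ 1) := by rwa [pow_one]
  have h2 := frob_inertiaDeg_le_of_frobPow_one F M v w hw hwv 1 one_pos h1
  have hpos : 0 < w.inertiaDeg (𝓞 F) := Ideal.inertiaDeg_pos w (𝓞 F)
  omega

/-- the absolute norm of a prime of degree one -/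
theorem frob_absNorm_of_inertiaDeg_eq_one (v : HeightOneSpectrum (𝓞 F)) (w : Ideal (𝓞 M))
    (hw : w.IsPrime) (hwv : w.comap (algebraMap (𝓞 F) (𝓞 M)) = v.asIdeal)
    (hf : w.inertiaDeg (𝓞 F) = 1) : Ideal.absNorm w = Ideal.absNorm v.asIdeal := by
  have : w.LiesOver v.asIdeal := ⟨hwv.symm⟩
  rw [← Ideal.absNorm_pow_inertiaDeg v.asIdeal w, hf, pow_one]

/-- **Roots of unity** (`IsFrob` version, no ramification hypothesis). -/
theorem frob_isFrob_apply_of_pow_eq_one [IsGalois F M]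
    (v : HeightOneSpectrum (𝓞 F)) (g : M ≃ₐ[F] M) (hg : IsFrob F M v g) (m : ℕ)
    (hm : (m : 𝓞 F) ∉ v.asIdeal) (ζ : M) (hζ : ζ ^ m = 1) :
    g ζ = ζ ^ Ideal.absNorm v.asIdeal := by
  have hm0 : m ≠ 0 := by
    rintro rfl
    exact hm (by simp)
  have hint : IsIntegral ℤ ζ :=
    IsIntegral.of_pow (Nat.pos_of_ne_zero hm0) (by rw [hζ]; exact isIntegral_one)
  obtain ⟨w, hw, hwv⟩ := frob_exists_prime_over F M v
  have hg' := (frob_isFrob_iff F M v g).mp hg w hw hwv
  have hA : IsArithFrobAt (𝓞 F) g w := by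
    intro y
    have := hg' y
    rw [← frob_card_quot F v, ← hwv] at this
    exact this
  have hmw : ((m : ℕ) : 𝓞 M) ∉ w := by
    intro h
    apply hm
    rw [← hwv, Ideal.mem_comap, map_natCast]
    exact h
  have hζ' : (⟨ζ, hint⟩ : 𝓞 M) ^ m = 1 := by
    apply NumberField.RingOfIntegers.ext
    exact hζ
  have h := AlgHom.IsArithFrobAt.apply_of_pow_eq_one hA hζ' hmw
  have h' := congrArg (fun y : 𝓞 M => (y : M)) h
  rw [← frob_card_quot F v, ← hwv]
  exact h'

/-- powers of a Frobenius on roots of unity -/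
theorem frob_isFrob_pow_apply_of_pow_eq_one [IsGalois F M]
    (v : HeightOneSpectrum (𝓞 F)) (g : M ≃ₐ[F] M) (hg : IsFrob F M v g) (m : ℕ)
    (hm : (m : 𝓞 F) ∉ v.asIdeal) (ζ : M) (hζ : ζ ^ m = 1) (k : ℕ) :
    (g ^ k) ζ = ζ ^ (Ideal.absNorm v.asIdeal ^ k) := by
  induction k with
  | zero => simp
  | succ k ih =>
    rw [pow_succ, AlgEquiv.mul_apply, frob_isFrob_apply_of_pow_eq_one F M v g hg m hm ζ hζ,
      map_pow, ih, ← pow_mul, pow_succ]

end single

section tower

variable (F M' M : Type*) [Field F] [NumberField F] [Field M'] [NumberField M']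
  [Field M] [NumberField M] [Algebra F M'] [Algebra M' M] [Algebra F M] [IsScalarTower F M' M]

/-- **Restriction** (`IsFrob` version, no ramification hypothesis): if `g'` is the restriction of
the Frobenius `g` to the subextension `M'`, then `g'` is a Frobenius. -/
theorem frob_isFrob_restrict (v : HeightOneSpectrum (𝓞 F)) (g : M ≃ₐ[F] M)
    (hg : IsFrob F M v g) (g' : M' ≃ₐ[F] M')
    (hg' : ∀ x : M', algebraMap M' M (g' x) = g (algebraMap M' M x)) : IsFrob F M' v g' := by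
  rw [frob_isFrob_iff]
  intro w' hw' hwv'
  obtain ⟨w, hw, hww'⟩ := frob_exists_prime_over_ideal M' M w' hw'
  have hwv : w.comap (algebraMap (𝓞 F) (𝓞 M)) = v.asIdeal := by
    rw [frob_comap_tower F M' M, hww', hwv']
  have h1 := (frob_isFrob_iff F M v g).mp hg w hw hwv
  intro x
  have h2 := h1 (algebraMap (𝓞 M') (𝓞 M) x)
  rw [← hww', Ideal.mem_comap, map_sub, map_pow]
  convert h2 using 2
  apply NumberField.RingOfIntegers.ext
  exact hg' (x : M')

/-- **Fixed field**: if the Frobenius `g` at `v` fixes `M'` pointwise, then every prime of `M'`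
above `v` has inertia degree one. -/
theorem frob_isFrob_inertiaDeg_of_fixed (v : HeightOneSpectrum (𝓞 F)) (g : M ≃ₐ[F] M)
    (hg : IsFrob F M v g) (hfix : ∀ x : M', g (algebraMap M' M x) = algebraMap M' M x)
    (w' : Ideal (𝓞 M')) (hw' : w'.IsPrime)
    (hwv' : w'.comap (algebraMap (𝓞 F) (𝓞 M')) = v.asIdeal) : w'.inertiaDeg (𝓞 F) = 1 := by
  have h1 : IsFrob F M' v (1 : M' ≃ₐ[F] M') :=
    frob_isFrob_restrict F M' M v g hg 1 (fun x => by rw [AlgEquiv.one_apply, hfix])
  exact frob_inertiaDeg_eq_one_of_frobPow_one F M' v w' hw' hwv'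
    ((frob_isFrob_iff F M' v 1).mp h1 w' hw' hwv')

/-- same, as a statement about absolute norms -/
theorem frob_isFrob_absNorm_of_fixed (v : HeightOneSpectrum (𝓞 F)) (g : M ≃ₐ[F] M)
    (hg : IsFrob F M v g) (hfix : ∀ x : M', g (algebraMap M' M x) = algebraMap M' M x)
    (w' : Ideal (𝓞 M')) (hw' : w'.IsPrime)
    (hwv' : w'.comap (algebraMap (𝓞 F) (𝓞 M')) = v.asIdeal) :
    Ideal.absNorm w' = Ideal.absNorm v.asIdeal :=
  frob_absNorm_of_inertiaDeg_eq_one F M' v w' hw' hwv'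
    (frob_isFrob_inertiaDeg_of_fixed F M' M v g hg hfix w' hw' hwv')

/-- **Base change** (`IsFrob` version): the `f(w|v)`-th power of a Frobenius at `v`, viewed in
`Gal(M/M')`, is a Frobenius at `w`. -/
theorem frob_isFrob_baseChange (v : HeightOneSpectrum (𝓞 F)) (g : M ≃ₐ[F] M)
    (hg : IsFrob F M v g) (w : HeightOneSpectrum (𝓞 M'))
    (hwv : w.asIdeal.comap (algebraMap (𝓞 F) (𝓞 M')) = v.asIdeal)
    (h : M ≃ₐ[M'] M) (hh : ∀ x : M, h x = (g ^ w.asIdeal.inertiaDeg (𝓞 F)) x) :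
    IsFrob M' M w h := by
  rw [frob_isFrob_iff]
  intro P hP hPw
  have hPv : P.comap (algebraMap (𝓞 F) (𝓞 M)) = v.asIdeal := by
    rw [frob_comap_tower F M' M, hPw, hwv]
  have : w.asIdeal.LiesOver v.asIdeal := ⟨hwv.symm⟩
  have hN : Ideal.absNorm v.asIdeal ^ w.asIdeal.inertiaDeg (𝓞 F) = Ideal.absNorm w.asIdeal :=
    Ideal.absNorm_pow_inertiaDeg v.asIdeal w.asIdeal
  have h3 := ((frob_isFrob_iff F M v g).mp hg P hP hPv).pow (w.asIdeal.inertiaDeg (𝓞 F))
  rw [hN] at h3
  intro x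
  have h4 := h3 x
  convert h4 using 2
  apply NumberField.RingOfIntegers.ext
  exact hh (x : M)

/-- **Descent of a Frobenius from a degree-one prime**: if `w` is a prime of `M'` of degree one
over `v`, and `M/F` is abelian, then a Frobenius at `w` in `Gal(M/M')` is a Frobenius at `v`
in `Gal(M/F)`. -/
theorem frob_isFrob_of_baseChange [IsGalois F M] (hab : ∀ g h : M ≃ₐ[F] M, g * h = h * g)
    (v : HeightOneSpectrum (𝓞 F)) (w : HeightOneSpectrum (𝓞 M'))
    (hwv : w.asIdeal.comap (algebraMap (𝓞 F) (𝓞 M')) = v.asIdeal)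
    (hf : w.asIdeal.inertiaDeg (𝓞 F) = 1) (h : M ≃ₐ[M'] M) (hh : IsFrob M' M w h)
    (g : M ≃ₐ[F] M) (hg : ∀ x : M, g x = h x) : IsFrob F M v g := by
  obtain ⟨P, hP, hPw⟩ := frob_exists_prime_over M' M w
  have hPv : P.comap (algebraMap (𝓞 F) (𝓞 M)) = v.asIdeal := by
    rw [frob_comap_tower F M' M, hPw, hwv]
  have hN : Ideal.absNorm w.asIdeal = Ideal.absNorm v.asIdeal :=
    frob_absNorm_of_inertiaDeg_eq_one F M' v w.asIdeal w.isPrime hwv hf
  have h1 := (frob_isFrob_iff M' M w h).mp hh P hP hPw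
  rw [hN] at h1
  have h2 : FrobPow g P (Ideal.absNorm v.asIdeal) := by
    intro x
    have h3 := h1 x
    convert h3 using 2
    apply NumberField.RingOfIntegers.ext
    exact hg (x : M)
  rw [frob_isFrob_iff]
  intro P' hP' hPv'
  exact frob_pow_all F M hab v P P' hP hP' hPv hPv' h2

end tower

end C14
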