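import Fermat.Agent.Lib.C14_Z_NotSplit

set_option autoImplicit false

open scoped NumberField
open IsDedekindDomain Filter Topology Module

namespace C14

/-! ### Characters of a finite abelian group -/

section chars
variable {Y : Type*} [CommGroup Y] [Finite Y]

theorem z_finite_dual : Finite (Y →* ℂˣ) := by
  have : NeZero (Monoid.exponent Y) := ⟨Monoid.exponent_ne_zero_of_finite⟩
  exact Finite.of_equiv Y
    (CommGroup.monoidHom_mulEquiv_of_hasEnoughRootsOfUnity Y ℂ).some.symm.toEquiv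

theorem z_card_dual : Nat.card (Y →* ℂˣ) = Nat.card Y := by
  have : NeZero (Monoid.exponent Y) := ⟨Monoid.exponent_ne_zero_of_finite⟩
  exact CommGroup.card_monoidHom_of_hasEnoughRootsOfUnity Y ℂ

theorem z_norm_char (θ : Y →* ℂˣ) (y : Y) : ‖((θ y : ℂˣ) : ℂ)‖ = 1 := by
  have h1 : y ^ Nat.card Y = 1 := pow_card_eq_one'
  have h2 : ((θ y : ℂˣ) : ℂ) ^ Nat.card Y = 1 := by
    rw [← Units.val_pow_eq_pow_val, ← map_pow, h1, map_one, Units.val_one]
  exact Complex.norm_eq_one_of_pow_eq_one h2 Nat.card_pos.ne'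

theorem z_sum_char [Fintype (Y →* ℂˣ)] (y : Y) [Decidable (y = 1)] :
    ∑ θ : Y →* ℂˣ, ((θ y : ℂˣ) : ℂ) = if y = 1 then (Nat.card Y : ℂ) else 0 := by
  have : NeZero (Monoid.exponent Y) := ⟨Monoid.exponent_ne_zero_of_finite⟩
  split_ifs with hy
  · subst hy
    simp only [map_one, Units.val_one, Finset.sum_const, Finset.card_univ, nsmul_eq_mul, mul_one]
    rw [← z_card_dual (Y := Y), Nat.card_eq_fintype_card]
  · obtain ⟨θ₀, hθ₀⟩ := CommGroup.exists_apply_ne_one_of_hasEnoughRootsOfUnity Y ℂ hy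
    have h1 : ∑ θ : Y →* ℂˣ, ((θ y : ℂˣ) : ℂ)
        = ((θ₀ y : ℂˣ) : ℂ) * ∑ θ : Y →* ℂˣ, ((θ y : ℂˣ) : ℂ) := by
      rw [Finset.mul_sum, ← Equiv.sum_comp (Equiv.mulLeft θ₀)]
      refine Finset.sum_congr rfl fun θ _ => ?_
      rw [Equiv.coe_mulLeft, MonoidHom.mul_apply, Units.val_mul]
    have h2 : (((θ₀ y : ℂˣ) : ℂ) - 1) * ∑ θ : Y →* ℂˣ, ((θ y : ℂˣ) : ℂ) = 0 := by
      rw [sub_mul, one_mul, ← h1, sub_self]
    rcases mul_eq_zero.mp h2 with h | h
    · exfalso
      apply hθ₀
      apply Units.ext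
      rw [Units.val_one]
      exact sub_eq_zero.mp h
    · exact h

end chars

/-! ### Z4: the second inequality in character form -/

section second
variable (F : Type*) [Field F] [NumberField F]
variable (M : Type*) [Field M] [NumberField M] [Algebra F M]

open Classical in
/-- Z4: second inequality in character form -/
theorem Z_second_ineq [IsGalois F M] {Y : Type} [CommGroup Y] [Finite Y]
    (c : HeightOneSpectrum (𝓞 F) → Y) (S : Set (HeightOneSpectrum (𝓞 F))) (hS : S.Finite)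
    (hsplit : ∀ v, v ∉ S → SplitsIn F M v → c v = 1)
    (hbdd : ∀ θ : Y →* ℂˣ, θ ≠ 1 → ∃ C : ℝ, ∀ s : ℝ, 1 < s → s < 2 →
        ‖Lfun F (fun v => if v ∈ S then 0 else (θ (c v) : ℂ)) s‖ ≤ C) :
    Nat.card Y ≤ finrank F M := by
  have hfinD := z_finite_dual (Y := Y)
  have hfinT := Fintype.ofFinite (Y →* ℂˣ)
  set f : (Y →* ℂˣ) → HeightOneSpectrum (𝓞 F) → ℂ :=
    fun θ v => if v ∈ S then 0 else (θ (c v) : ℂ) with hf
  have hf1 : ∀ θ v, ‖f θ v‖ ≤ 1 := by
    intro θ v
    simp only [hf]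
    split_ifs
    · simp
    · rw [z_norm_char]
  have hC : ∀ θ : Y →* ℂˣ, ∃ C : ℝ, θ ≠ 1 → ∀ s : ℝ, 1 < s → s < 2 →
      ‖Lfun F (f θ) s‖ ≤ C := by
    intro θ
    by_cases h : θ = 1
    · exact ⟨0, fun h' => absurd h h'⟩
    · obtain ⟨C, hC⟩ := hbdd θ h
      exact ⟨C, fun _ => hC⟩
  choose Cf hCf using hC
  obtain ⟨CF, hCF⟩ := Z_prime_sum F
  obtain ⟨CM, hCM⟩ := Z_prime_sum M
  obtain ⟨C', hC'⟩ := z_split_lower F M
  by_contra hlt
  rw [not_le] at hlt
  have hkn : (finrank F M : ℝ) + 1 ≤ (Nat.card Y : ℝ) := by exact_mod_cast hlt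
  have hn0 : (0 : ℝ) < (finrank F M : ℝ) := by exact_mod_cast finrank_pos
  have hk0 : (0 : ℝ) ≤ (Nat.card Y : ℝ) := Nat.cast_nonneg _
  set D : ℝ := ∑ θ : Y →* ℂˣ, |Real.log (Cf θ)| with hD
  set sS : ℝ := (hS.toFinset.card : ℝ) with hsS
  have main : ∀ s : ℝ, 1 < s → s < 2 →
      (Nat.card Y : ℝ) * z_splitSum F M s
        ≤ Real.log (1 / (s - 1)) + (CF + z_C2 F + D + (Nat.card Y : ℝ) * sS
          + (Nat.card Y : ℝ) * z_C2 F) := by
    intro s hs1 hs2
    set x : HeightOneSpectrum (𝓞 F) → ℝ := fun v => nrm F v ^ (-s) with hx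
    set a : HeightOneSpectrum (𝓞 F) → ℝ :=
      fun v => if v ∈ S then 0 else if c v = 1 then x v else 0 with ha
    have hx0 : ∀ v, 0 ≤ x v := fun v => Real.rpow_nonneg (z_nrm_pos F v).le _
    have ha0 : ∀ v, 0 ≤ a v := by
      intro v
      simp only [ha]
      split_ifs
      · exact le_rfl
      · exact hx0 v
      · exact le_rfl
    have hale : ∀ v, a v ≤ x v := by
      intro v
      simp only [ha]
      split_ifs
      · exact hx0 v
      · exact le_rfl
      · exact hx0 v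
    have hasum : Summable a := Summable.of_nonneg_of_le ha0 hale (Z_summable_primes F s hs1)
    -- orthogonality
    have hb : ∀ v, ∑ θ : Y →* ℂˣ, (f θ v).re * x v = (Nat.card Y : ℝ) * a v := by
      intro v
      rw [← Finset.sum_mul, ← Complex.re_sum]
      by_cases hv : v ∈ S
      · simp [hf, ha, hv]
      · have h1 : ∑ θ : Y →* ℂˣ, f θ v = ∑ θ : Y →* ℂˣ, ((θ (c v) : ℂˣ) : ℂ) :=
          Finset.sum_congr rfl (fun θ _ => by simp [hf, hv])
        rw [h1, z_sum_char]
        by_cases hc : c v = 1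
        · simp [ha, hv, hc]
        · simp [ha, hv, hc]
    -- lower bound
    have hlow : (Nat.card Y : ℝ) * ∑' v, a v - (Nat.card Y : ℝ) * z_C2 F
        ≤ ∑ θ : Y →* ℂˣ, Real.log ‖Lfun F (f θ) s‖ := by
      have h1 : ∀ θ : Y →* ℂˣ,
          ∑' v, (f θ v).re * x v - z_C2 F ≤ Real.log ‖Lfun F (f θ) s‖ := by
        intro θ
        have h2 := (abs_le.mp (z_log_Lfun F (f θ) (hf1 θ) s hs1).2).1
        linarith
      have h2 : ∑ θ : Y →* ℂˣ, (∑' v, (f θ v).re * x v - z_C2 F)
          = (Nat.card Y : ℝ) * ∑' v, a v - (Nat.card Y : ℝ) * z_C2 F := by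
        rw [Finset.sum_sub_distrib, Finset.sum_const, Finset.card_univ, nsmul_eq_mul,
          ← Summable.tsum_finsetSum (fun θ _ => z_summable_re F (f θ) (hf1 θ) s hs1),
          tsum_congr hb, tsum_mul_left, ← Nat.card_eq_fintype_card, z_card_dual]
      rw [← h2]
      exact Finset.sum_le_sum fun θ _ => h1 θ
    -- upper bound
    have hup : ∑ θ : Y →* ℂˣ, Real.log ‖Lfun F (f θ) s‖ ≤ (∑' v, x v + z_C2 F) + D := by
      have h1 : ∀ θ : Y →* ℂˣ, Real.log ‖Lfun F (f θ) s‖
          ≤ (if θ = 1 then (∑' v, x v + z_C2 F) else 0) + |Real.log (Cf θ)| := by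
        intro θ
        have hL := z_log_Lfun F (f θ) (hf1 θ) s hs1
        by_cases hθ : θ = 1
        · rw [if_pos hθ]
          have h3 := (abs_le.mp hL.2).2
          have h4 : ∑' v, (f θ v).re * x v ≤ ∑' v, x v := by
            refine (z_summable_re F (f θ) (hf1 θ) s hs1).tsum_le_tsum (fun v => ?_)
              (Z_summable_primes F s hs1)
            calc (f θ v).re * x v ≤ 1 * x v :=
                  mul_le_mul_of_nonneg_right ((Complex.re_le_norm _).trans (hf1 θ v)) (hx0 v)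
              _ = x v := one_mul _
          have h5 := abs_nonneg (Real.log (Cf θ))
          linarith
        · rw [if_neg hθ, zero_add]
          have hpos : 0 < ‖Lfun F (f θ) s‖ := norm_pos_iff.mpr hL.1
          have hle := hCf θ hθ s hs1 hs2
          exact (Real.log_le_log hpos hle).trans (le_abs_self _)
      calc ∑ θ : Y →* ℂˣ, Real.log ‖Lfun F (f θ) s‖
          ≤ ∑ θ : Y →* ℂˣ, ((if θ = 1 then (∑' v, x v + z_C2 F) else 0)
            + |Real.log (Cf θ)|) := Finset.sum_le_sum fun θ _ => h1 θ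
        _ = (∑' v, x v + z_C2 F) + D := by
            rw [Finset.sum_add_distrib, Finset.sum_ite_eq' Finset.univ (1 : Y →* ℂˣ),
              if_pos (Finset.mem_univ _)]
    -- split primes are among the primes with `c v = 1`
    have hc : z_splitSum F M s ≤ ∑' v, a v + sS := by
      refine Real.tsum_le_of_sum_le (z_splitTerm_nonneg F M s) fun T => ?_
      have hpt : ∀ v, z_splitTerm F M s v
          ≤ a v + (if v ∈ hS.toFinset then (1 : ℝ) else 0) := by
        intro v
        by_cases hv : v ∈ S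
        · have h1 : v ∈ hS.toFinset := by rwa [Set.Finite.mem_toFinset]
          rw [if_pos h1]
          have h2 := z_splitTerm_le F M s v
          have h3 := z_nrm_rpow_le_half F v s hs1.le
          have h4 := ha0 v
          linarith
        · have h1 : v ∉ hS.toFinset := by rwa [Set.Finite.mem_toFinset]
          rw [if_neg h1, add_zero]
          by_cases hsp : SplitsIn F M v
          · rw [z_splitTerm_of_splits F M s hsp]
            simp [ha, hv, hsplit v hv hsp, hx]
          · rw [z_splitTerm_of_not F M s hsp]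
            exact ha0 v
      calc ∑ v ∈ T, z_splitTerm F M s v
          ≤ ∑ v ∈ T, (a v + (if v ∈ hS.toFinset then (1 : ℝ) else 0)) :=
            Finset.sum_le_sum fun v _ => hpt v
        _ = ∑ v ∈ T, a v + ∑ v ∈ T, (if v ∈ hS.toFinset then (1 : ℝ) else 0) :=
            Finset.sum_add_distrib
        _ ≤ ∑' v, a v + sS := by
            refine add_le_add (hasum.sum_le_tsum T (fun v _ => ha0 v)) ?_
            rw [← Finset.sum_filter, Finset.sum_const, nsmul_eq_mul, mul_one]
            have : T.filter (fun v => v ∈ hS.toFinset) ⊆ hS.toFinset :=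
              fun v hv => (Finset.mem_filter.mp hv).2
            have hcard := Finset.card_le_card this
            rw [hsS]
            exact_mod_cast hcard
    have hF := (abs_le.mp (hCF s hs1 hs2)).2
    have h7 : (Nat.card Y : ℝ) * z_splitSum F M s ≤ (Nat.card Y : ℝ) * (∑' v, a v + sS) :=
      mul_le_mul_of_nonneg_left hc hk0
    have h8 : ∑' v, x v - Real.log (1 / (s - 1)) ≤ CF := hF
    linarith
  -- the contradiction as `s → 1`
  set K1 : ℝ := CF + z_C2 F + D + (Nat.card Y : ℝ) * sS + (Nat.card Y : ℝ) * z_C2 F with hK1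
  obtain ⟨s, hs1, hs2, hs3⟩ := z_log_unbounded ((Nat.card Y : ℝ) - (finrank F M : ℝ))
    ((finrank F M : ℝ) * K1 + (Nat.card Y : ℝ) * (CM + C')) (by linarith)
  have h1 := main s hs1 hs2
  have h2 := hC' s hs1
  have h3 := (abs_le.mp (hCM s hs1 hs2)).1
  have e1 : (Nat.card Y : ℝ) * (Real.log (1 / (s - 1)) - CM - C')
      ≤ (Nat.card Y : ℝ) * ((finrank F M : ℝ) * z_splitSum F M s) :=
    mul_le_mul_of_nonneg_left (by linarith) hk0
  have e2 : (finrank F M : ℝ) * ((Nat.card Y : ℝ) * z_splitSum F M s)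
      ≤ (finrank F M : ℝ) * (Real.log (1 / (s - 1)) + K1) :=
    mul_le_mul_of_nonneg_left h1 hn0.le
  have e3 : (Nat.card Y : ℝ) * ((finrank F M : ℝ) * z_splitSum F M s)
      = (finrank F M : ℝ) * ((Nat.card Y : ℝ) * z_splitSum F M s) := by ring
  nlinarith

end second

end C14
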