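import Fermat.Agent.Lib.C14_ALX
import Fermat.Agent.Lib.C14_AL_Cross
import Fermat.Agent.Lib.C14_FrobIs
import Fermat.Agent.Lib.C14_AL_Asm
import Fermat.Agent.Lib.C14_AL_Fix
import Fermat.Agent.Lib.C14_Z_Second
import Fermat.Agent.Lib.C14_AL_Char2

/-!
# AL-b: cyclotomic crossing at one admissible modulus
-/

set_option autoImplicit false
set_option linter.style.haveILetI false
set_option linter.unusedSectionVars false

open scoped NumberField
open IsDedekindDomain Module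

namespace C14

/-- exponents of a primitive root are determined mod `q` -/
theorem alb_pow_eq_pow_iff {R : Type*} [CommMonoid R] {ζ : R} {q : ℕ} [NeZero q]
    (hζ : IsPrimitiveRoot ζ q) (a b : ℕ) : ζ ^ a = ζ ^ b ↔ (a : ZMod q) = (b : ZMod q) := by
  rw [← al_pow_val_natCast hζ.pow_eq_one a, ← al_pow_val_natCast hζ.pow_eq_one b]
  constructor
  · intro h
    exact ZMod.val_injective q (hζ.pow_inj (ZMod.val_lt _) (ZMod.val_lt _) h)
  · intro h
    rw [h]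

/-- a rational prime `q` with `N v ≠ 0` mod `q` does not lie in `v` -/
theorem alb_not_mem (K : Type*) [Field K] [NumberField K] (v : HeightOneSpectrum (𝓞 K)) (q : ℕ)
    (hq : q.Prime) (h : ((Ideal.absNorm v.asIdeal : ℕ) : ZMod q) ≠ 0) :
    (q : 𝓞 K) ∉ v.asIdeal := by
  intro hqv
  apply h
  have h1 : Ideal.span {(q : 𝓞 K)} ≤ v.asIdeal := by
    rw [Ideal.span_singleton_le_iff_mem]; exact hqv
  have h2 := Ideal.absNorm_dvd_absNorm_of_le h1
  rw [Ideal.absNorm_span_singleton] at h2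
  have h3 : (Algebra.norm ℤ (q : 𝓞 K)) = (q : ℤ) ^ finrank ℤ (𝓞 K) := by
    have : (q : 𝓞 K) = algebraMap ℤ (𝓞 K) (q : ℤ) := by simp
    rw [this, Algebra.norm_algebraMap]
  rw [h3, Int.natAbs_pow, Int.natAbs_natCast] at h2
  obtain ⟨i, -, hi⟩ := (Nat.dvd_prime_pow hq).mp h2
  have hi0 : i ≠ 0 := by
    rintro rfl
    rw [pow_zero] at hi
    exact (frob_one_lt_absNorm K v).ne' hi
  rw [ZMod.natCast_eq_zero_iff, hi]
  exact dvd_pow_self q hi0

section crossfrob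

variable (p : ℕ) [hp : Fact p.Prime] (K L Ω : Type) [Field K] [NumberField K] [Field L]
  [NumberField L] [Field Ω] [NumberField Ω] [Algebra K L] [Algebra K Ω] [Algebra L Ω]
  [IsScalarTower K L Ω] [IsGalois K L] [IsGalois K Ω] (q : ℕ) [NeZero q]
  [IsCyclotomicExtension {q} L Ω]

/-- the restriction to `L` of a Frobenius element of `L(ζ_q)/K` is the Frobenius of `L/K` -/
theorem alb_res (v : HeightOneSpectrum (𝓞 K)) (hv : UnramIn K L v) (g : Ω ≃ₐ[K] Ω)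
    (hg : IsFrob K Ω v g) : AlgEquiv.restrictNormalHom L g = frob K L v := by
  apply frob_unique K L v hv
  exact frob_isFrob_restrict K L Ω v g hg _ (fun x => AlgEquiv.restrictNormal_commutes g L x)

/-- comparing two Frobenius elements of `L(ζ_q)/K` through their coordinates -/
theorem alb_eq_pow {ζ : Ω} (hζ : IsPrimitiveRoot ζ q) (v r : HeightOneSpectrum (𝓞 K))
    (hv : UnramIn K L v) (hr : UnramIn K L r)
    (hqv : (q : 𝓞 K) ∉ v.asIdeal) (hqr : (q : 𝓞 K) ∉ r.asIdeal)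
    (g₀ gr : Ω ≃ₐ[K] Ω) (hg₀ : IsFrob K Ω v g₀) (hgr : IsFrob K Ω r gr) (k : ℕ)
    (hfr : frob K L r = frob K L v ^ k)
    (hNr : ((Ideal.absNorm r.asIdeal : ℕ) : ZMod q) =
      ((Ideal.absNorm v.asIdeal : ℕ) : ZMod q) ^ k) : gr = g₀ ^ k := by
  apply al_cross_ext (L := L) q hζ
  · have e1 : AlgEquiv.restrictNormalHom (F := K) (K₁ := Ω) L (g₀ ^ k) =
        (AlgEquiv.restrictNormalHom (F := K) (K₁ := Ω) L g₀) ^ k := map_pow _ _ _
    rw [e1, alb_res K L Ω r hr gr hgr, alb_res K L Ω v hv g₀ hg₀, hfr]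
  · rw [frob_isFrob_apply_of_pow_eq_one K Ω r gr hgr q hqr ζ hζ.pow_eq_one,
      frob_isFrob_pow_apply_of_pow_eq_one K Ω v g₀ hg₀ q hqv ζ hζ.pow_eq_one k,
      alb_pow_eq_pow_iff hζ]
    push_cast
    exact hNr

/-- the order of the Frobenius element of `v` in `Gal(L(ζ_q)/K)` -/
theorem alb_orderOf {ζ : Ω} (hζ : IsPrimitiveRoot ζ q)
    (hcard : Nat.card (L ≃ₐ[K] L) = p)
    (v : HeightOneSpectrum (𝓞 K)) (hv : UnramIn K L v) (hfv : frob K L v ≠ 1)
    (s : ℕ) (hs : 1 ≤ s)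
    (hord : orderOf ((Ideal.absNorm v.asIdeal : ℕ) : ZMod q) = p ^ s)
    (hqv : (q : 𝓞 K) ∉ v.asIdeal)
    (g₀ : Ω ≃ₐ[K] Ω) (hg₀ : IsFrob K Ω v g₀) : orderOf g₀ = p ^ s := by
  have hpp : p.Prime := hp.out
  have hfp : frob K L v ^ p = 1 := by rw [← hcard]; exact pow_card_eq_one'
  have hof : orderOf (frob K L v) = p := orderOf_eq_prime hfp hfv
  have key : ∀ n : ℕ, g₀ ^ n = 1 ↔ p ^ s ∣ n := by
    intro n
    constructor
    · intro h
      have h1 : (g₀ ^ n) ζ = ζ := by rw [h]; rfl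
      rw [frob_isFrob_pow_apply_of_pow_eq_one K Ω v g₀ hg₀ q hqv ζ hζ.pow_eq_one n] at h1
      have h2 : ζ ^ Ideal.absNorm v.asIdeal ^ n = ζ ^ 1 := by rw [h1, pow_one]
      rw [alb_pow_eq_pow_iff hζ] at h2
      push_cast at h2
      rw [← hord]
      exact orderOf_dvd_of_pow_eq_one h2
    · intro h
      apply al_cross_ext (L := L) q hζ
      · have e1 : AlgEquiv.restrictNormalHom (F := K) (K₁ := Ω) L (g₀ ^ n) =
            (AlgEquiv.restrictNormalHom (F := K) (K₁ := Ω) L g₀) ^ n := map_pow _ _ _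
        rw [e1, alb_res K L Ω v hv g₀ hg₀, map_one]
        apply orderOf_dvd_iff_pow_eq_one.mp
        rw [hof]
        exact (dvd_pow_self p (by omega)).trans h
      · rw [frob_isFrob_pow_apply_of_pow_eq_one K Ω v g₀ hg₀ q hqv ζ hζ.pow_eq_one n]
        have h2 : ζ ^ Ideal.absNorm v.asIdeal ^ n = ζ ^ 1 := by
          rw [alb_pow_eq_pow_iff hζ]
          push_cast
          apply orderOf_dvd_iff_pow_eq_one.mp
          rw [hord]
          exact h
        rw [h2, pow_one]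
        rfl
  exact Nat.dvd_antisymm (orderOf_dvd_of_pow_eq_one ((key _).mpr dvd_rfl))
    ((key _).mp (pow_orderOf_eq_one g₀))

end crossfrob

section fixed

variable (p : ℕ) [hp : Fact p.Prime] (K L Ω : Type) [Field K] [NumberField K] [Field L]
  [NumberField L] [Field Ω] [NumberField Ω] [Algebra K L] [Algebra K Ω] [Algebra L Ω]
  [IsScalarTower K L Ω] [IsGalois K L] [IsGalois K Ω] (F : IntermediateField K Ω)

/-- a prime of `F` of degree one above `v`, when a Frobenius element of `v` fixes `F` -/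
theorem alb_exists_deg_one (v : HeightOneSpectrum (𝓞 K)) (g : Ω ≃ₐ[K] Ω) (hg : IsFrob K Ω v g)
    (hfix : ∀ x : F, g (algebraMap F Ω x) = algebraMap F Ω x) :
    ∃ w : HeightOneSpectrum (𝓞 F), under K F w = v ∧ w.asIdeal.inertiaDeg (𝓞 K) = 1 ∧
      Ideal.absNorm w.asIdeal = Ideal.absNorm v.asIdeal := by
  obtain ⟨P, hP, hPv⟩ := frob_exists_prime_over K Ω v
  have hP0 : P ≠ ⊥ := frob_prime_ne_bot K Ω v P hPv
  let W : HeightOneSpectrum (𝓞 Ω) := ⟨P, hP, hP0⟩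
  let w : HeightOneSpectrum (𝓞 F) := under F Ω W
  have hwv : w.asIdeal.comap (algebraMap (𝓞 K) (𝓞 F)) = v.asIdeal := by
    rw [← hPv, frob_comap_tower K F Ω P]
    rfl
  refine ⟨w, ?_, ?_, ?_⟩
  · apply HeightOneSpectrum.ext
    exact hwv
  · exact frob_isFrob_inertiaDeg_of_fixed K F Ω v g hg hfix w.asIdeal w.isPrime hwv
  · exact frob_isFrob_absNorm_of_fixed K F Ω v g hg hfix w.asIdeal w.isPrime hwv

/-- a prime of `F` that splits completely in `Ω` has norm `≡ 1` modulo `q` -/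
theorem alb_split_norm (q : ℕ) [NeZero q] {ζ : Ω} (hζ : IsPrimitiveRoot ζ q)
    (w : HeightOneSpectrum (𝓞 F)) (hqw : (q : 𝓞 F) ∉ w.asIdeal) (hsp : SplitsIn F Ω w) :
    ((Ideal.absNorm w.asIdeal : ℕ) : ZMod q) = 1 := by
  have h1 : IsFrob F Ω w 1 := by
    rw [frob_isFrob_iff]
    intro P hP hPw
    have hP0 : P ≠ ⊥ := frob_prime_ne_bot F Ω w P hPw
    haveI := hP
    haveI : Finite (𝓞 Ω ⧸ P) := Ideal.finiteQuotientOfFreeOfNeBot P hP0
    have h2 := frob_one_of_card (G := Ω ≃ₐ[F] Ω) P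
    rw [frob_card_quot_over F Ω w P hP hPw, (hsp P hP hPw).2, pow_one] at h2
    exact h2
  have h3 := frob_isFrob_apply_of_pow_eq_one F Ω w 1 h1 q hqw ζ hζ.pow_eq_one
  rw [AlgEquiv.one_apply] at h3
  have h4 : ζ ^ Ideal.absNorm w.asIdeal = ζ ^ 1 := by rw [← h3, pow_one]
  rw [alb_pow_eq_pow_iff hζ] at h4
  simpa using h4

/-- for a prime `w` of `F` that splits completely in `Ω`, the Frobenius of the prime of `K` below
satisfies `frob ^ f(w) = 1` in `Gal(L/K)` -/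
theorem alb_split_frob (hab : ∀ g h : L ≃ₐ[K] L, g * h = h * g)
    (hunr : ∀ v : HeightOneSpectrum (𝓞 K), UnramIn K L v)
    (w : HeightOneSpectrum (𝓞 F)) (hsp : SplitsIn F Ω w) :
    frob K L (under K F w) ^ (w.asIdeal.inertiaDeg (𝓞 K)) = 1 := by
  set r := under K F w with hr
  obtain ⟨P, hP, hPw⟩ := frob_exists_prime_over F Ω w
  have hP0 : P ≠ ⊥ := frob_prime_ne_bot F Ω w P hPw
  haveI := hP
  haveI : Finite (𝓞 Ω ⧸ P) := Ideal.finiteQuotientOfFreeOfNeBot P hP0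
  have hwr : w.asIdeal.comap (algebraMap (𝓞 K) (𝓞 F)) = r.asIdeal := rfl
  have hPr : P.comap (algebraMap (𝓞 K) (𝓞 Ω)) = r.asIdeal := by
    rw [frob_comap_tower K F Ω P, hPw, hwr]
  -- the cardinality of the residue field of `P`
  have hcard : Nat.card (𝓞 Ω ⧸ P) =
      Ideal.absNorm r.asIdeal ^ (w.asIdeal.inertiaDeg (𝓞 K)) := by
    rw [frob_card_quot_over F Ω w P hP hPw, (hsp P hP hPw).2, pow_one, ← frob_card_quot F w,
      frob_card_quot_over K F r w.asIdeal w.isPrime hwr]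
  set Q : Ideal (𝓞 L) := P.comap (algebraMap (𝓞 L) (𝓞 Ω)) with hQ
  have hQp : Q.IsPrime := Ideal.comap_isPrime _ _
  have hQr : Q.comap (algebraMap (𝓞 K) (𝓞 L)) = r.asIdeal := by
    rw [← hPr, frob_comap_tower K L Ω P]
  have h1 : FrobPow (frob K L r ^ (w.asIdeal.inertiaDeg (𝓞 K))) Q
      (Ideal.absNorm r.asIdeal ^ (w.asIdeal.inertiaDeg (𝓞 K))) :=
    (frob_frobPow K L hab r (hunr r) Q hQp hQr).pow _
  have h2 : FrobPow (1 : L ≃ₐ[K] L) Q
      (Ideal.absNorm r.asIdeal ^ (w.asIdeal.inertiaDeg (𝓞 K))) := by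
    intro x
    have h3 := frob_one_of_card (G := Ω ≃ₐ[K] Ω) P (algebraMap (𝓞 L) (𝓞 Ω) x)
    rw [one_smul, hcard] at h3
    rw [one_smul, hQ, Ideal.mem_comap, map_sub, map_pow]
    exact h3
  exact frob_pow_unique K L r (hunr r) Q hQp hQr h1 h2

end fixed


section main

variable (p : ℕ) [hp : Fact p.Prime] (K L Ω : Type) [Field K] [NumberField K] [Field L]
  [NumberField L] [Field Ω] [NumberField Ω] [Algebra K L] [Algebra K Ω] [Algebra L Ω]
  [IsScalarTower K L Ω] [IsGalois K L] [IsGalois K Ω]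

/-- hsplit -/
theorem alb_split (F : IntermediateField K Ω) (q : ℕ) [NeZero q] {ζ : Ω}
    (hζ : IsPrimitiveRoot ζ q) (hcard : Nat.card (L ≃ₐ[K] L) = p)
    (hab : ∀ g h : L ≃ₐ[K] L, g * h = h * g)
    (hunr : ∀ v : HeightOneSpectrum (𝓞 K), UnramIn K L v)
    (χ : HeightOneSpectrum (𝓞 K) → ℂ) (hχp : ∀ v, χ v ^ p = 1)
    (hχs : ∀ v, SplitsIn K L v → χ v = 1) (u : ℕ)
    (w : HeightOneSpectrum (𝓞 F)) (hqw : (q : 𝓞 F) ∉ w.asIdeal) (hsp : SplitsIn F Ω w) :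
    alChar K F p q u χ hχp w = 1 := by
  have hpp : p.Prime := hp.out
  apply Prod.ext
  · -- the `χ`-coordinate
    apply Subtype.ext
    apply Units.ext
    rw [al_char_fst]
    show χ (under K F w) ^ (w.asIdeal.inertiaDeg (𝓞 K)) = 1
    have h1 := alb_split_frob K L Ω F hab hunr w hsp
    by_cases hf : frob K L (under K F w) = 1
    · rw [hχs _ ((frob_eq_one_iff K L hab _ (hunr _)).mp hf), one_pow]
    · have hfp : frob K L (under K F w) ^ p = 1 := by rw [← hcard]; exact pow_card_eq_one'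
      have hof : orderOf (frob K L (under K F w)) = p := orderOf_eq_prime hfp hf
      have h2 : p ∣ w.asIdeal.inertiaDeg (𝓞 K) := by
        rw [← hof]; exact orderOf_dvd_of_pow_eq_one h1
      obtain ⟨t, ht⟩ := h2
      rw [ht, pow_mul, hχp, one_pow]
  · -- the norm coordinate
    rw [al_char_snd]
    show nrmUnit F q w ^ u = 1
    have h1 := alb_split_norm K Ω F q hζ w hqw hsp
    have h2 : nrmUnit F q w = 1 := by
      apply Units.ext
      rw [coe_nrmUnit F q w (by rw [h1]; exact isUnit_one), h1]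
      rfl
    rw [h2, one_pow]

theorem alb_aux (q : ℕ) [hqf : Fact q.Prime] [IsCyclotomicExtension {q} L Ω]
    (hp3 : 3 ≤ p) (hdeg : finrank K L = p)
    (hunr : ∀ v : HeightOneSpectrum (𝓞 K), UnramIn K L v)
    (χ : HeightOneSpectrum (𝓞 K) → ℂ) (hχp : ∀ v, χ v ^ p = 1)
    (hχs : ∀ v, SplitsIn K L v → χ v = 1)
    (hχP : ∀ α : 𝓞 K, α ≠ 0 → ext K χ (Ideal.span {α}) = 1)
    (hRC : ∀ (F : Type) [Field F] [NumberField F] (m : ℕ), 0 < m →
      ∀ f : HeightOneSpectrum (𝓞 F) → ℂ,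
      (∀ v, (m : 𝓞 F) ∈ v.asIdeal → f v = 0) →
      (∀ v, (m : 𝓞 F) ∉ v.asIdeal → ‖f v‖ = 1) →
      (∀ α : 𝓞 F, α ≠ 0 → α - 1 ∈ Ideal.span {(m : 𝓞 F)} →
        ext F f (Ideal.span {α}) = 1) →
      (∃ v, (m : 𝓞 F) ∉ v.asIdeal ∧ f v ≠ 1) →
      ∃ C : ℝ, ∀ s : ℝ, 1 < s → s < 2 → ‖Lfun F f s‖ ≤ C)
    (v : HeightOneSpectrum (𝓞 K)) (s : ℕ) (hfv : frob K L v ≠ 1) (hs : 1 ≤ s)
    (hord : orderOf ((Ideal.absNorm v.asIdeal : ℕ) : ZMod q) = p ^ s)
    (r : HeightOneSpectrum (𝓞 K)) (k : ℕ) (hqr : (q : 𝓞 K) ∉ r.asIdeal)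
    (hfr : frob K L r = frob K L v ^ k)
    (hNr : ((Ideal.absNorm r.asIdeal : ℕ) : ZMod q) =
      ((Ideal.absNorm v.asIdeal : ℕ) : ZMod q) ^ k) : χ r = χ v ^ k := by
  have hpp : p.Prime := hp.out
  have hq : q.Prime := hqf.out
  haveI : NeZero q := ⟨hq.ne_zero⟩
  haveI : NeZero p := ⟨hpp.ne_zero⟩
  have hab := al_asm_comm p K L hdeg
  have hcard := al_asm_card p K L hdeg
  have habΩ : ∀ g h : Ω ≃ₐ[K] Ω, g * h = h * g := al_cross_comm (L := L) q hab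
  obtain ⟨ζ, hζ⟩ := IsCyclotomicExtension.exists_isPrimitiveRoot L Ω (S := {q})
    (Set.mem_singleton q) (NeZero.ne q)
  have hNv0 : ((Ideal.absNorm v.asIdeal : ℕ) : ZMod q) ≠ 0 := by
    intro h0
    rw [h0] at hord
    have h1 : (0 : ZMod q) ^ (p ^ s) = 1 := by rw [← hord]; exact pow_orderOf_eq_one _
    rw [zero_pow (pow_ne_zero _ hpp.ne_zero)] at h1
    exact zero_ne_one h1
  have hqv := alb_not_mem K v q hq hNv0
  obtain ⟨g₀, hg₀⟩ := frob_exists K Ω habΩ v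
  have hog : orderOf g₀ = p ^ s :=
    alb_orderOf p K L Ω q hζ hcard v (hunr v) hfv s hs hord hqv g₀ hg₀
  obtain ⟨gr, hgr⟩ := frob_exists K Ω habΩ r
  have hgr_eq : gr = g₀ ^ k :=
    alb_eq_pow K L Ω q hζ v r (hunr v) (hunr r) hqv hqr g₀ gr hg₀ hgr k hfr hNr
  -- the fixed field of `g₀`
  let F : IntermediateField K Ω := IntermediateField.fixedField (Subgroup.zpowers g₀)
  have hFdeg : finrank F Ω = p ^ s := by rw [al_fix_finrank, hog]
  have hfix0 : ∀ x : F, g₀ (algebraMap F Ω x) = algebraMap F Ω x := fun x => by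
    simpa using al_fix_fixed g₀ 1 x
  have hfixr : ∀ x : F, gr (algebraMap F Ω x) = algebraMap F Ω x := fun x => by
    rw [hgr_eq]; exact al_fix_fixed g₀ k x
  obtain ⟨w₀, hw₀v, hw₀f, hw₀N⟩ := alb_exists_deg_one K Ω F v g₀ hg₀ hfix0
  obtain ⟨wr, hwrr, hwrf, hwrN⟩ := alb_exists_deg_one K Ω F r gr hgr hfixr
  have hqw₀ : (q : 𝓞 F) ∉ w₀.asIdeal := alb_not_mem F w₀ q hq (by rw [hw₀N]; exact hNv0)
  have hqwr : (q : 𝓞 F) ∉ wr.asIdeal :=
    alb_not_mem F wr q hq (by rw [hwrN, hNr]; exact pow_ne_zero _ hNv0)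
  have hp2 : ¬ p ∣ 2 := by
    intro h
    have := Nat.le_of_dvd (by norm_num) h
    omega
  have hordc : finrank F Ω ≤ orderOf (alChar K F p q 2 χ hχp w₀) := by
    rw [hFdeg]
    exact al_char_order K F p q 2 χ hχp hpp hp2 s w₀ (by rw [hw₀N]; exact hord)
  obtain ⟨k', hk'⟩ := al_cyclic_of F Ω q hq.pos (alChar K F p q 2 χ hχp)
    (fun w hqw hsp => alb_split p K L Ω F q hζ hcard hab hunr χ hχp hχs 2 w hqw hsp)
    (fun γ hγ h => al_char_ray K F p q 2 χ hχp even_two hχP γ hγ h) w₀ hqw₀ hordc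
    (fun c S hS h1 h2 => Z_second_ineq F Ω c S hS h1 h2) (hRC F q hq.pos) wr hqwr
  have hfin := al_char_final_abs K F p q 2 χ hχp hpp hp2 s hs w₀ wr k k' hk' hw₀f hwrf
    (by rw [hw₀N]; exact hord) (by rw [hwrN, hw₀N]; exact hNr)
  rw [hwrr, hw₀v] at hfin
  exact hfin

end main


section final

variable (p : ℕ) [hp : Fact p.Prime] (K L : Type) [Field K] [NumberField K] [Field L]
  [NumberField L] [Algebra K L] [IsGalois K L]

/-- **AL-b**: the cyclotomic crossing at one admissible modulus, in the shape of the hypothesis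
`hb` of `AL_recip_of` (the blueprint's `RC_bdd` is a hypothesis here). -/
theorem al_b (hp3 : 3 ≤ p) (hdeg : finrank K L = p)
    (hunr : ∀ v : HeightOneSpectrum (𝓞 K), UnramIn K L v)
    (χ : HeightOneSpectrum (𝓞 K) → ℂ) (hχp : ∀ v, χ v ^ p = 1)
    (hχs : ∀ v, SplitsIn K L v → χ v = 1)
    (hχP : ∀ α : 𝓞 K, α ≠ 0 → ext K χ (Ideal.span {α}) = 1)
    (hRC : ∀ (F : Type) [Field F] [NumberField F] (m : ℕ), 0 < m →
      ∀ f : HeightOneSpectrum (𝓞 F) → ℂ,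
      (∀ v, (m : 𝓞 F) ∈ v.asIdeal → f v = 0) →
      (∀ v, (m : 𝓞 F) ∉ v.asIdeal → ‖f v‖ = 1) →
      (∀ α : 𝓞 F, α ≠ 0 → α - 1 ∈ Ideal.span {(m : 𝓞 F)} →
        ext F f (Ideal.span {α}) = 1) →
      (∃ v, (m : 𝓞 F) ∉ v.asIdeal ∧ f v ≠ 1) →
      ∃ C : ℝ, ∀ s : ℝ, 1 < s → s < 2 → ‖Lfun F f s‖ ≤ C) :
    ∀ (v : HeightOneSpectrum (𝓞 K)) (q s : ℕ), frob K L v ≠ 1 → q.Prime → 1 ≤ s →
      orderOf ((Ideal.absNorm v.asIdeal : ℕ) : ZMod q) = p ^ s →
      ∀ (r : HeightOneSpectrum (𝓞 K)) (k : ℕ), (q : 𝓞 K) ∉ r.asIdeal →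
        frob K L r = frob K L v ^ k →
        ((Ideal.absNorm r.asIdeal : ℕ) : ZMod q) = ((Ideal.absNorm v.asIdeal : ℕ) : ZMod q) ^ k →
        χ r = χ v ^ k := by
  intro v q s hfv hq hs hord r k hqr hfr hNr
  haveI : Fact q.Prime := ⟨hq⟩
  haveI : NeZero q := ⟨hq.ne_zero⟩
  haveI : IsGalois K (CyclotomicField q L) := al_isGalois_top (L := L) q
  exact alb_aux p K L (CyclotomicField q L) q hp3 hdeg hunr χ hχp hχs hχP hRC v s hfv hs hord
    r k hqr hfr hNr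

end final

end C14
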