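import Fermat.Agent.Lib.C14_Ext

/-!
# Pulling back functions on primes along an extension `F/K` (AL-Y), and Dirichlet characters
of the absolute norm (AL-Z)
-/

set_option autoImplicit false

open scoped NumberField
open IsDedekindDomain

namespace C14

section under
variable (K F : Type*) [Field K] [NumberField K] [Field F] [NumberField F] [Algebra K F]

/-- the prime of `K` below the prime `w` of `F` -/
noncomputable def under (w : HeightOneSpectrum (𝓞 F)) : HeightOneSpectrum (𝓞 K) where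
  asIdeal := w.asIdeal.under (𝓞 K)
  isPrime := Ideal.IsPrime.under (𝓞 K) w.asIdeal
  ne_bot := Ideal.under_ne_bot (𝓞 K) w.ne_bot

theorem under_asIdeal (w : HeightOneSpectrum (𝓞 F)) :
    (under K F w).asIdeal = w.asIdeal.comap (algebraMap (𝓞 K) (𝓞 F)) := rfl

/-- the pull-back of a function on primes of `K` to primes of `F`:
`w ↦ χ (w ∩ K) ^ f(w | w ∩ K)` -/
noncomputable def pull (χ : HeightOneSpectrum (𝓞 K) → ℂ) (w : HeightOneSpectrum (𝓞 F)) : ℂ :=
  χ (under K F w) ^ (w.asIdeal.inertiaDeg (𝓞 K))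

theorem relNorm_prime (w : HeightOneSpectrum (𝓞 F)) :
    Ideal.relNorm (𝓞 K) w.asIdeal = (under K F w).asIdeal ^ (w.asIdeal.inertiaDeg (𝓞 K)) := by
  have : w.asIdeal.LiesOver (under K F w).asIdeal := ⟨rfl⟩
  have : w.asIdeal.IsMaximal := w.isMaximal
  have : (under K F w).asIdeal.IsMaximal := (under K F w).isMaximal
  exact Ideal.relNorm_eq_pow_of_isMaximal w.asIdeal (under K F w).asIdeal

/-- `ext` of the pull-back is `ext ∘ relNorm` -/
theorem ext_pull (χ : HeightOneSpectrum (𝓞 K) → ℂ) (a : Ideal (𝓞 F)) :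
    ext F (pull K F χ) a = ext K χ (Ideal.relNorm (𝓞 K) a) := by
  have h := ext_unique F (fun a => ext K χ (Ideal.relNorm (𝓞 K) a))
    (by simp) (by simp) (fun a b => by simp only [map_mul, ext_mul]) a
  rw [h]
  congr 1
  funext w
  simp only [relNorm_prime, ext_pow, ext_prime]
  rfl

/-- if `ext K χ` is trivial on nonzero principal ideals, so is `ext F (pull χ)` -/
theorem ext_pull_principal (χ : HeightOneSpectrum (𝓞 K) → ℂ)
    (hχ : ∀ α : 𝓞 K, α ≠ 0 → ext K χ (Ideal.span {α}) = 1) (γ : 𝓞 F) (hγ : γ ≠ 0) :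
    ext F (pull K F χ) (Ideal.span {γ}) = 1 := by
  rw [ext_pull, Ideal.relNorm_singleton]
  apply hχ
  rw [Ne, Algebra.intNorm_eq_zero]
  exact hγ

end under

section dirichlet
variable (F : Type*) [Field F] [NumberField F]

/-- the function `w ↦ ψ (N w mod m)` on primes, for a Dirichlet character `ψ` mod `m` -/
noncomputable def dchar (m : ℕ) (ψ : DirichletCharacter ℂ m) (w : HeightOneSpectrum (𝓞 F)) : ℂ :=
  ψ ((Ideal.absNorm w.asIdeal : ℕ) : ZMod m)

theorem ext_dchar (m : ℕ) (ψ : DirichletCharacter ℂ m) (a : Ideal (𝓞 F)) (ha : a ≠ ⊥) :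
    ext F (dchar F m ψ) a = ψ ((Ideal.absNorm a : ℕ) : ZMod m) := by
  classical
  have h := ext_unique F (fun a => if a = ⊥ then 0 else ψ ((Ideal.absNorm a : ℕ) : ZMod m))
    (by simp) (by simp) (fun a b => by
      by_cases ha : a = ⊥
      · simp [ha]
      by_cases hb : b = ⊥
      · simp [hb]
      have hab : a * b ≠ ⊥ := mul_ne_zero ha hb
      simp only [ha, hb, hab, if_false, map_mul, Nat.cast_mul]) a
  simp only [ha, if_false] at h
  rw [h]
  congr 1
  funext w
  simp [dchar, w.ne_bot]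

theorem norm_int_cast_eq_one (m : ℕ) (γ : 𝓞 F) (h : γ - 1 ∈ Ideal.span {(m : 𝓞 F)}) :
    ((Algebra.norm ℤ γ : ℤ) : ZMod m) = 1 := by
  classical
  obtain ⟨β, hβ⟩ := Ideal.mem_span_singleton'.mp h
  have hγ : γ = 1 + β * (m : 𝓞 F) := by rw [hβ]; ring
  let b := Module.Free.chooseBasis ℤ (𝓞 F)
  rw [Algebra.norm_eq_matrix_det b]
  have e : ((Algebra.leftMulMatrix b γ).det : ZMod m) =
      (Int.castRingHom (ZMod m)) (Algebra.leftMulMatrix b γ).det := rfl
  rw [e, RingHom.map_det, hγ]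
  have : (Int.castRingHom (ZMod m)).mapMatrix (Algebra.leftMulMatrix b (1 + β * (m : 𝓞 F))) = 1 := by
    rw [map_add, map_mul, map_one, map_natCast, map_add, map_mul, map_one, map_natCast]
    simp
  rw [this, Matrix.det_one]

theorem ext_dchar_principal (m : ℕ) (ψ : DirichletCharacter ℂ m) (hψ : ψ (-1) = 1) (γ : 𝓞 F)
    (hγ : γ ≠ 0) (h : γ - 1 ∈ Ideal.span {(m : 𝓞 F)}) :
    ext F (dchar F m ψ) (Ideal.span {γ}) = 1 := by
  have hne : Ideal.span {γ} ≠ (⊥ : Ideal (𝓞 F)) := by
    rw [Ne, Ideal.span_singleton_eq_bot]; exact hγ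
  rw [ext_dchar F m ψ _ hne, Ideal.absNorm_span_singleton]
  have h1 := norm_int_cast_eq_one F m γ h
  rcases Int.natAbs_eq (Algebra.norm ℤ γ) with h2 | h2
  · have : (((Algebra.norm ℤ γ).natAbs : ℕ) : ZMod m) = 1 := by
      rw [← h1]; conv_rhs => rw [h2]
      simp
    rw [this, map_one]
  · have : (((Algebra.norm ℤ γ).natAbs : ℕ) : ZMod m) = -1 := by
      rw [← h1]; conv_rhs => rw [h2]
      simp
    rw [this, hψ]

end dirichlet

end C14
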