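import Fermat.Agent.Lib.C14_FrobIs
import Fermat.Agent.Lib.C14_Pull
import Fermat.Agent.Lib.C14_GExt

/-!
# S14, AL-b helper: the `hsplit` input of `al_cyclic_of`

For a prime `w` of `F` splitting completely in `Ω`:
* `al_split_nrm`: `N w ≡ 1 mod q` if `Ω` contains a primitive `q`-th root of unity, `w ∤ q`;
* `al_split_pull`: `pull K F χ w = 1` for a function `χ` on the primes of `K` with `χ ^ p = 1`
  that is trivial on the primes split in the unramified degree `p` extension `L / K`, `L ⊆ Ω`.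
-/

set_option autoImplicit false

open scoped NumberField Pointwise
open IsDedekindDomain Module

namespace C14

/-- the identity is a Frobenius at a completely split prime -/
theorem al_split_isFrob_one (F Ω : Type*) [Field F] [NumberField F] [Field Ω] [NumberField Ω]
    [Algebra F Ω] (w : HeightOneSpectrum (𝓞 F)) (hs : SplitsIn F Ω w) :
    IsFrob F Ω w (1 : Ω ≃ₐ[F] Ω) := by
  rw [frob_isFrob_iff]
  intro W hW hWw
  have hfin : Finite (𝓞 Ω ⧸ W) :=
    Ideal.finiteQuotientOfFreeOfNeBot W (frob_prime_ne_bot F Ω w W hWw)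
  have h := frob_one_of_card (G := Ω ≃ₐ[F] Ω) W
  rwa [frob_card_quot_over F Ω w W hW hWw, (hs W hW hWw).2, pow_one] at h

/-- **(S1)** a prime `w ∤ q` of `F` splitting completely in an extension containing a primitive
`q`-th root of unity has `N w ≡ 1 mod q`. -/
theorem al_split_nrm (F Ω : Type*) [Field F] [NumberField F] [Field Ω] [NumberField Ω]
    [Algebra F Ω] [IsGalois F Ω] (q : ℕ) (ζ : Ω) (hζ : IsPrimitiveRoot ζ q)
    (w : HeightOneSpectrum (𝓞 F)) (hq : (q : 𝓞 F) ∉ w.asIdeal) (hs : SplitsIn F Ω w) :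
    ((Ideal.absNorm w.asIdeal : ℕ) : ZMod q) = 1 := by
  have hq0 : q ≠ 0 := by
    rintro rfl
    exact hq (by simp)
  have h1 := frob_isFrob_apply_of_pow_eq_one F Ω w 1 (al_split_isFrob_one F Ω w hs) q hq ζ
    hζ.pow_eq_one
  rw [AlgEquiv.one_apply] at h1
  have h2 : ζ ^ 1 = ζ ^ Ideal.absNorm w.asIdeal := by rw [pow_one]; exact h1
  have h3 := (hζ.isOfFinOrder hq0).pow_eq_pow_iff_modEq.mp h2
  rw [← hζ.eq_orderOf] at h3
  have h4 := (ZMod.natCast_eq_natCast_iff _ _ _).mpr h3
  rw [← h4]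
  simp

/-- corollary of (S1) in terms of `nrmUnit` -/
theorem al_split_nrmUnit (F Ω : Type*) [Field F] [NumberField F] [Field Ω] [NumberField Ω]
    [Algebra F Ω] [IsGalois F Ω] (q : ℕ) (ζ : Ω) (hζ : IsPrimitiveRoot ζ q)
    (w : HeightOneSpectrum (𝓞 F)) (hq : (q : 𝓞 F) ∉ w.asIdeal) (hs : SplitsIn F Ω w) :
    nrmUnit F q w = 1 := by
  have h1 := al_split_nrm F Ω q ζ hζ w hq hs
  apply Units.ext
  rw [coe_nrmUnit F q w (by rw [h1]; exact isUnit_one), h1, Units.val_one]

/-- **(S2)** the pull-back to `F` of a function `χ` on primes of `K` with `χ ^ p = 1`, trivial on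
the primes that split in the unramified degree `p` extension `L / K`, is trivial on the primes of
`F` that split completely in an extension `Ω ⊇ L, F`. -/
theorem al_split_pull (p : ℕ) (hp : p.Prime) (K L F Ω : Type*)
    [Field K] [NumberField K] [Field L] [NumberField L] [Field F] [NumberField F]
    [Field Ω] [NumberField Ω] [Algebra K L] [Algebra K F] [Algebra K Ω] [Algebra L Ω]
    [Algebra F Ω] [IsScalarTower K L Ω] [IsScalarTower K F Ω] [IsGalois K L]
    (hdeg : finrank K L = p) (hunr : ∀ v : HeightOneSpectrum (𝓞 K), UnramIn K L v)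
    (χ : HeightOneSpectrum (𝓞 K) → ℂ) (hχp : ∀ v, χ v ^ p = 1)
    (hχs : ∀ v, SplitsIn K L v → χ v = 1)
    (w : HeightOneSpectrum (𝓞 F)) (hs : SplitsIn F Ω w) : pull K F χ w = 1 := by
  have hcard' : Nat.card (L ≃ₐ[K] L) = p := by
    rw [IsGalois.card_aut_eq_finrank, hdeg]
  have hab : ∀ g h : L ≃ₐ[K] L, g * h = h * g := by
    have : Fact p.Prime := ⟨hp⟩
    have hcyc : IsCyclic (L ≃ₐ[K] L) := isCyclic_of_prime_card hcard'
    intro g h
    obtain ⟨s, hs⟩ := hcyc.exists_generator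
    obtain ⟨a, rfl⟩ := Subgroup.mem_zpowers_iff.mp (hs g)
    obtain ⟨b, rfl⟩ := Subgroup.mem_zpowers_iff.mp (hs h)
    rw [← zpow_add, ← zpow_add, add_comm]
  -- a prime `W` of `Ω` above `w`, and the prime `P` of `L` below it
  obtain ⟨W, hW, hWw⟩ := frob_exists_prime_over F Ω w
  have hPprime : (W.comap (algebraMap (𝓞 L) (𝓞 Ω))).IsPrime := Ideal.comap_isPrime _ _
  have hPr : (W.comap (algebraMap (𝓞 L) (𝓞 Ω))).comap (algebraMap (𝓞 K) (𝓞 L)) =
      (under K F w).asIdeal := by
    rw [← frob_comap_tower K L Ω, frob_comap_tower K F Ω, hWw]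
    rfl
  -- the residue field of `W` has `N r ^ f` elements
  have hcard : Nat.card (𝓞 Ω ⧸ W) =
      Ideal.absNorm (under K F w).asIdeal ^ w.asIdeal.inertiaDeg (𝓞 K) := by
    rw [frob_card_quot_over F Ω w W hW hWw, (hs W hW hWw).2, pow_one, ← frob_card_quot F w,
      frob_card_quot_over K F (under K F w) w.asIdeal w.isPrime rfl]
  have hfin : Finite (𝓞 Ω ⧸ W) :=
    Ideal.finiteQuotientOfFreeOfNeBot W (frob_prime_ne_bot F Ω w W hWw)
  have h1 := frob_one_of_card (G := Ω ≃ₐ[F] Ω) W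
  rw [hcard] at h1
  -- the identity of `L` is a Frobenius power with exponent `N r ^ f` at `P`
  have h2 : FrobPow (1 : L ≃ₐ[K] L) (W.comap (algebraMap (𝓞 L) (𝓞 Ω)))
      (Ideal.absNorm (under K F w).asIdeal ^ w.asIdeal.inertiaDeg (𝓞 K)) := by
    intro y
    have h3 := h1 (algebraMap (𝓞 L) (𝓞 Ω) y)
    rw [one_smul] at h3 ⊢
    rw [Ideal.mem_comap, map_sub, map_pow]
    exact h3
  -- so is the power of the Frobenius of `r`
  have h4 := (frob_frobPow K L hab (under K F w) (hunr _) _ hPprime hPr).pow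
    (w.asIdeal.inertiaDeg (𝓞 K))
  have h5 : frob K L (under K F w) ^ w.asIdeal.inertiaDeg (𝓞 K) = 1 :=
    frob_pow_unique K L (under K F w) (hunr _) _ hPprime hPr h4 h2
  unfold pull
  by_cases h6 : frob K L (under K F w) = 1
  · rw [hχs _ ((frob_eq_one_iff K L hab _ (hunr _)).mp h6), one_pow]
  · have hord : orderOf (frob K L (under K F w)) = p := by
      have hdvd : orderOf (frob K L (under K F w)) ∣ p := by
        rw [← hcard']
        exact orderOf_dvd_natCard _
      rcases (Nat.dvd_prime hp).mp hdvd with h7 | h7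
      · exact absurd (orderOf_eq_one_iff.mp h7) h6
      · exact h7
    have hdvd : p ∣ w.asIdeal.inertiaDeg (𝓞 K) := by
      rw [← hord]
      exact orderOf_dvd_of_pow_eq_one h5
    obtain ⟨c, hc⟩ := hdvd
    rw [hc, pow_mul, hχp, one_pow]

end C14
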