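import Fermat.Agent.Lib.C14_AL_C
import Fermat.Agent.Lib.C14_AL_Cross
import Fermat.Agent.Lib.C14_AL_Fix
import Fermat.Agent.Lib.C14_AL_Split
import Fermat.Agent.Lib.C14_AL_Char2
import Fermat.Agent.Lib.C14_ALX
import Fermat.Agent.Lib.C14_Z_Second

/-!
# S14 development, AL-b (second, independent assembly): `C14.al_b2`

`v` a prime of `K` with `frob K L v ≠ 1`, `q` a prime such that `N v` has order `p ^ s` mod `q`
(`s ≥ 1`).  If `r ∤ q` is a prime of `K` with `frob r = frob v ^ k` and `N r ≡ N v ^ k mod q`,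
then `χ r = χ v ^ k`, for every class character `χ` of exponent `p` trivial on the primes
splitting in `L`.

Proof: `Ω = L(ζ_q)`, `g0` a Frobenius of `v` in the abelian group `Gal(Ω/K)`; it has order `p ^ s`.
Let `F` be the fixed field of `g0`; `v` and `r` have primes `w₀`, `w` of degree one in `F`
(the Frobenius of `r` is `g0 ^ k`).  The character `alChar` of `F` is a ray class character mod
`q`, trivial on the primes splitting in `Ω`, and `alChar w₀` has order `≥ p ^ s = [Ω : F]`; by the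
second inequality (`al_cyclic_of`) `alChar w` is a power of `alChar w₀`, and comparing the two
coordinates gives the claim (`al_char_final_abs`).
-/

set_option autoImplicit false

open scoped NumberField
open IsDedekindDomain Module

namespace C14

/-- a prime whose norm has finite order mod `q` does not contain `q` -/
theorem alb2_not_mem (K : Type*) [Field K] [NumberField K] (v : HeightOneSpectrum (𝓞 K))
    (q n : ℕ) (hn : 0 < n) (hord : orderOf ((Ideal.absNorm v.asIdeal : ℕ) : ZMod q) = n) :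
    (q : 𝓞 K) ∉ v.asIdeal := by
  intro hq
  have hN : ((Ideal.absNorm v.asIdeal : ℕ) : 𝓞 K) ∈ v.asIdeal := Ideal.absNorm_mem v.asIdeal
  have h1 : ((Ideal.absNorm v.asIdeal : ℕ) : ZMod q) ^ n = 1 := by
    rw [← hord]
    exact pow_orderOf_eq_one _
  have h2 : (Ideal.absNorm v.asIdeal) ^ n ≡ 1 [MOD q] := by
    rw [← ZMod.natCast_eq_natCast_iff]
    push_cast
    exact h1
  obtain ⟨b, hb⟩ := Nat.modEq_iff_dvd.mp h2.symm
  have h4 : (1 : 𝓞 K) = ((Ideal.absNorm v.asIdeal : ℕ) : 𝓞 K) ^ n - (q : 𝓞 K) * (b : 𝓞 K) := by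
    have := congrArg (Int.cast : ℤ → 𝓞 K) hb
    push_cast at this
    rw [← this]
    ring
  apply v.isPrime.ne_top
  rw [Ideal.eq_top_iff_one, h4]
  exact v.asIdeal.sub_mem (v.asIdeal.pow_mem_of_mem hN n hn) (v.asIdeal.mul_mem_right _ hq)

/-- **AL-b** (with `RC_bdd` as a hypothesis). -/
theorem al_b2
    (hRC : ∀ (F : Type) [Field F] [NumberField F] (m : ℕ), 0 < m →
      ∀ f : HeightOneSpectrum (𝓞 F) → ℂ,
      (∀ v, (m : 𝓞 F) ∈ v.asIdeal → f v = 0) →
      (∀ v, (m : 𝓞 F) ∉ v.asIdeal → ‖f v‖ = 1) →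
      (∀ α : 𝓞 F, α ≠ 0 → α - 1 ∈ Ideal.span {(m : 𝓞 F)} → ext F f (Ideal.span {α}) = 1) →
      (∃ v, (m : 𝓞 F) ∉ v.asIdeal ∧ f v ≠ 1) →
      ∃ C : ℝ, ∀ s : ℝ, 1 < s → s < 2 → ‖Lfun F f s‖ ≤ C)
    (p : ℕ) [Fact p.Prime] (hp3 : 3 ≤ p)
    (K L : Type) [Field K] [NumberField K] [Field L] [NumberField L] [Algebra K L] [IsGalois K L]
    (hdeg : finrank K L = p) (hunr : ∀ v : HeightOneSpectrum (𝓞 K), UnramIn K L v)
    (χ : HeightOneSpectrum (𝓞 K) → ℂ) (hχp : ∀ v, χ v ^ p = 1)
    (hχs : ∀ v, SplitsIn K L v → χ v = 1)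
    (hχP : ∀ α : 𝓞 K, α ≠ 0 → ext K χ (Ideal.span {α}) = 1)
    (v : HeightOneSpectrum (𝓞 K)) (q s : ℕ) (hv : frob K L v ≠ 1) (hq : q.Prime) (hs : 1 ≤ s)
    (hord : orderOf ((Ideal.absNorm v.asIdeal : ℕ) : ZMod q) = p ^ s)
    (r : HeightOneSpectrum (𝓞 K)) (k : ℕ) (hqr : (q : 𝓞 K) ∉ r.asIdeal)
    (hfr : frob K L r = frob K L v ^ k)
    (hNr : ((Ideal.absNorm r.asIdeal : ℕ) : ZMod q) =
      ((Ideal.absNorm v.asIdeal : ℕ) : ZMod q) ^ k) :
    χ r = χ v ^ k := by
  classical
  have hp : p.Prime := Fact.out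
  have : NeZero p := ⟨hp.ne_zero⟩
  have : Fact q.Prime := ⟨hq⟩
  have : NeZero q := ⟨hq.ne_zero⟩
  have hcard : Nat.card (L ≃ₐ[K] L) = p := by rw [IsGalois.card_aut_eq_finrank, hdeg]
  have habL : ∀ g h : L ≃ₐ[K] L, g * h = h * g := al_c_comm_of_prime_card hcard
  -- the top field `Ω = L(ζ_q)`
  have hgal : IsGalois K (CyclotomicField q L) := al_isGalois_top (K := K) (L := L) q
  have hab : ∀ g h : CyclotomicField q L ≃ₐ[K] CyclotomicField q L, g * h = h * g :=
    al_c_comm K L (CyclotomicField q L) habL q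
  obtain ⟨ζ, hζ⟩ := IsCyclotomicExtension.exists_isPrimitiveRoot L (CyclotomicField q L)
    (Set.mem_singleton q) hq.ne_zero
  have hqv : (q : 𝓞 K) ∉ v.asIdeal := alb2_not_mem K v q (p ^ s) (pow_pos hp.pos s) hord
  -- description of the Frobenius elements of `Ω/K`
  have hdesc : ∀ (r' : HeightOneSpectrum (𝓞 K)) (g : CyclotomicField q L ≃ₐ[K] CyclotomicField q L),
      IsFrob K (CyclotomicField q L) r' g → (q : 𝓞 K) ∉ r'.asIdeal →
      (∀ x : L, g (algebraMap L (CyclotomicField q L) x) =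
        algebraMap L (CyclotomicField q L) (frob K L r' x)) ∧
      g ζ = ζ ^ Ideal.absNorm r'.asIdeal := by
    intro r' g hg hq'
    refine ⟨fun x => ?_, frob_isFrob_apply_of_pow_eq_one K (CyclotomicField q L) r' g hg q hq' ζ
      hζ.pow_eq_one⟩
    have h1 : IsFrob K L r' (g.restrictNormal L) :=
      frob_isFrob_restrict K L (CyclotomicField q L) r' g hg _
        (fun x => AlgEquiv.restrictNormal_commutes g L x)
    have h2 := frob_unique K L r' (hunr r') _ h1
    rw [← h2, AlgEquiv.restrictNormal_commutes]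
  obtain ⟨g0, hg0⟩ := frob_exists K (CyclotomicField q L) hab v
  obtain ⟨hg0L, hg0ζ⟩ := hdesc v g0 hg0 hqv
  -- powers of `g0`
  have hpow : ∀ n : ℕ,
      (∀ x : L, (g0 ^ n) (algebraMap L (CyclotomicField q L) x) =
        algebraMap L (CyclotomicField q L) ((frob K L v ^ n) x)) ∧
      (g0 ^ n) ζ = ζ ^ (Ideal.absNorm v.asIdeal ^ n) := by
    intro n
    induction n with
    | zero => exact ⟨fun x => by simp, by simp⟩
    | succ n ih =>
      refine ⟨fun x => ?_, ?_⟩
      · rw [pow_succ, pow_succ, AlgEquiv.mul_apply, AlgEquiv.mul_apply, hg0L, ih.1]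
      · rw [pow_succ, AlgEquiv.mul_apply, hg0ζ, map_pow, ih.2, ← pow_mul, pow_succ]
  -- the order of `g0`
  have hordσ : orderOf (frob K L v) = p := by
    have h3 : orderOf (frob K L v) ∣ p := hcard ▸ orderOf_dvd_natCard (frob K L v)
    rcases (Nat.dvd_prime hp).mp h3 with h4 | h4
    · exact absurd (orderOf_eq_one_iff.mp h4) hv
    · exact h4
  have horder : orderOf g0 = p ^ s := by
    apply Nat.dvd_antisymm
    · apply orderOf_dvd_of_pow_eq_one
      have h1 : frob K L v ^ (p ^ s) = 1 := by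
        obtain ⟨s', rfl⟩ : ∃ s', s = s' + 1 := ⟨s - 1, by omega⟩
        rw [pow_succ, pow_mul', ← hordσ, pow_orderOf_eq_one, one_pow]
      have h2 : ζ ^ (Ideal.absNorm v.asIdeal ^ (p ^ s)) = ζ := by
        have h3 : (Ideal.absNorm v.asIdeal) ^ (p ^ s) ≡ 1 [MOD q] := by
          rw [← ZMod.natCast_eq_natCast_iff]
          push_cast
          rw [← hord]
          exact pow_orderOf_eq_one _
        rw [al_c_pow_mod hζ.pow_eq_one h3, pow_one]
      have key := al_c_ext L (CyclotomicField q L) q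
        ((g0 ^ (p ^ s) : CyclotomicField q L ≃ₐ[K] CyclotomicField q L) :
          CyclotomicField q L →+* CyclotomicField q L)
        ((1 : CyclotomicField q L ≃ₐ[K] CyclotomicField q L) :
          CyclotomicField q L →+* CyclotomicField q L) ζ hζ
        (by
          intro x
          change (g0 ^ (p ^ s)) (algebraMap L (CyclotomicField q L) x) =
            algebraMap L (CyclotomicField q L) x
          rw [(hpow _).1, h1, AlgEquiv.one_apply])
        (by
          change (g0 ^ (p ^ s)) ζ = ζ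
          rw [(hpow _).2, h2])
      ext x
      exact DFunLike.congr_fun key x
    · rw [← hord]
      apply orderOf_dvd_of_pow_eq_one
      have h1 := (hpow (orderOf g0)).2
      rw [pow_orderOf_eq_one, AlgEquiv.one_apply] at h1
      have h2 : ζ ^ 1 = ζ ^ (Ideal.absNorm v.asIdeal ^ orderOf g0) := by rw [pow_one]; exact h1
      have h3 := (hζ.isOfFinOrder hq.ne_zero).pow_eq_pow_iff_modEq.mp h2
      rw [← hζ.eq_orderOf] at h3
      have h4 := (ZMod.natCast_eq_natCast_iff _ _ _).mpr h3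
      push_cast at h4
      exact h4.symm
  -- the fixed field of `g0`
  let F : IntermediateField K (CyclotomicField q L) :=
    IntermediateField.fixedField (Subgroup.zpowers g0)
  have hFΩ : finrank ↥F (CyclotomicField q L) = p ^ s := by
    rw [← horder]
    exact al_fix_finrank g0
  have hfix0 : ∀ x : ↥F, g0 (algebraMap ↥F (CyclotomicField q L) x) =
      algebraMap ↥F (CyclotomicField q L) x := fun x => by
    have := al_fix_fixed g0 1 x
    rwa [pow_one] at this
  -- a degree-one prime of `F` above `v`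
  obtain ⟨w₀i, hw₀p, hw₀v⟩ := frob_exists_prime_over K ↥F v
  let w₀ : HeightOneSpectrum (𝓞 ↥F) := ⟨w₀i, hw₀p, frob_prime_ne_bot K ↥F v w₀i hw₀v⟩
  have hf₀ : w₀.asIdeal.inertiaDeg (𝓞 K) = 1 :=
    frob_isFrob_inertiaDeg_of_fixed K ↥F (CyclotomicField q L) v g0 hg0 hfix0 w₀i hw₀p hw₀v
  have hN₀ : Ideal.absNorm w₀.asIdeal = Ideal.absNorm v.asIdeal :=
    frob_absNorm_of_inertiaDeg_eq_one K ↥F v w₀i hw₀p hw₀v hf₀
  have hu₀ : under K ↥F w₀ = v := HeightOneSpectrum.ext hw₀v
  -- the Frobenius at `r` is `g0 ^ k`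
  obtain ⟨gr, hgr⟩ := frob_exists K (CyclotomicField q L) hab r
  obtain ⟨hgrL, hgrζ⟩ := hdesc r gr hgr hqr
  have hgr_eq : gr = g0 ^ k := by
    have key := al_c_ext L (CyclotomicField q L) q
      ((gr : CyclotomicField q L ≃ₐ[K] CyclotomicField q L) :
        CyclotomicField q L →+* CyclotomicField q L)
      ((g0 ^ k : CyclotomicField q L ≃ₐ[K] CyclotomicField q L) :
        CyclotomicField q L →+* CyclotomicField q L) ζ hζ
      (by
        intro x
        change gr (algebraMap L (CyclotomicField q L) x) =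
          (g0 ^ k) (algebraMap L (CyclotomicField q L) x)
        rw [hgrL, (hpow k).1, hfr])
      (by
        change gr ζ = (g0 ^ k) ζ
        rw [hgrζ, (hpow k).2]
        refine al_c_pow_mod hζ.pow_eq_one ?_
        rw [← ZMod.natCast_eq_natCast_iff]
        push_cast
        exact hNr)
    ext x
    exact DFunLike.congr_fun key x
  have hfixr : ∀ x : ↥F, gr (algebraMap ↥F (CyclotomicField q L) x) =
      algebraMap ↥F (CyclotomicField q L) x := fun x => by
    rw [hgr_eq]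
    exact al_fix_fixed g0 k x
  obtain ⟨wi, hwp, hwr⟩ := frob_exists_prime_over K ↥F r
  let w : HeightOneSpectrum (𝓞 ↥F) := ⟨wi, hwp, frob_prime_ne_bot K ↥F r wi hwr⟩
  have hf : w.asIdeal.inertiaDeg (𝓞 K) = 1 :=
    frob_isFrob_inertiaDeg_of_fixed K ↥F (CyclotomicField q L) r gr hgr hfixr wi hwp hwr
  have hN : Ideal.absNorm w.asIdeal = Ideal.absNorm r.asIdeal :=
    frob_absNorm_of_inertiaDeg_eq_one K ↥F r wi hwp hwr hf
  have hu : under K ↥F w = r := HeightOneSpectrum.ext hwr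
  -- `q` is not in `w₀`, `w`
  have hq_of : ∀ (r' : HeightOneSpectrum (𝓞 K)) (w' : Ideal (𝓞 ↥F)),
      w'.comap (algebraMap (𝓞 K) (𝓞 ↥F)) = r'.asIdeal → (q : 𝓞 K) ∉ r'.asIdeal →
      (q : 𝓞 ↥F) ∉ w' := by
    intro r' w' h1 h2 h3
    apply h2
    rw [← h1, Ideal.mem_comap, map_natCast]
    exact h3
  have hqw₀ : (q : 𝓞 ↥F) ∉ w₀.asIdeal := hq_of v w₀i hw₀v hqv
  have hqw : (q : 𝓞 ↥F) ∉ w.asIdeal := hq_of r wi hwr hqr
  -- the character and the second inequality
  have hu2 : ¬ p ∣ 2 := by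
    intro h
    have := Nat.le_of_dvd (by norm_num) h
    omega
  have hcyc := al_cyclic_of ↥F (CyclotomicField q L) q hq.pos (alChar K ↥F p q 2 χ hχp)
    (fun w' hq' hs' => al_char_one_of K ↥F p q 2 χ hχp w'
      (al_split_pull p hp K L ↥F (CyclotomicField q L) hdeg hunr χ hχp hχs w' hs')
      (al_split_nrmUnit ↥F (CyclotomicField q L) q ζ hζ w' hq' hs'))
    (al_char_ray K ↥F p q 2 χ hχp even_two hχP)
    w₀ hqw₀
    (by
      rw [hFΩ]
      exact al_char_order K ↥F p q 2 χ hχp hp hu2 s w₀ (by rw [hN₀]; exact hord))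
    (fun c S hS hsp hbdd => Z_second_ineq ↥F (CyclotomicField q L) c S hS hsp hbdd)
    (hRC ↥F q hq.pos)
  obtain ⟨k', hk'⟩ := hcyc w hqw
  have hfin := al_char_final_abs K ↥F p q 2 χ hχp hp hu2 s hs w₀ w k k' hk' hf₀ hf
    (by rw [hN₀]; exact hord) (by rw [hN, hN₀]; exact hNr)
  rw [hu, hu₀] at hfin
  exact hfin

end C14
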