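import Fermat.Agent.Lib.C14_FrobCheb

/-!
# S14 development, AL-c: "Chebotarev-lite" for `L(ζ_m)/K`

`K = ℚ(ζ_p)`, `L/K` cyclic of degree `p`, `L/ℚ` Galois and non-abelian, `m` prime to `p`,
`Ω = L(ζ_m)`.  Then `Gal(Ω/K) → Gal(L/K) × (ℤ/m)ˣ` is onto (`C14.al_c_onto`), `Gal(Ω/K)` is
abelian (`C14.al_c_comm`), and hence (`C14.al_c`) for every `σ ≠ 1` in `Gal(L/K)` and every `c`
prime to `m` there are a prime `r ∤ m` of `K` and `t` prime to `p` with `frob r = σ ^ t` and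
`N r ≡ c ^ t mod m`.
-/

set_option autoImplicit false

open scoped NumberField
open IsDedekindDomain Module Polynomial

namespace C14

/-- powers of an `m`-th root of unity only depend on the exponent mod `m` -/
theorem al_c_pow_mod {M : Type*} [Monoid M] {x : M} {m a c : ℕ} (hx : x ^ m = 1)
    (h : a ≡ c [MOD m]) : x ^ a = x ^ c := by
  have key : ∀ n : ℕ, x ^ n = x ^ (n % m) := fun n => by
    conv_lhs => rw [← Nat.div_add_mod n m, pow_add, pow_mul, hx, one_pow, one_mul]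
  rw [key a, key c, h]

/-- in a group of prime order any two elements commute -/
theorem al_c_comm_of_prime_card {G : Type*} [Group G] {p : ℕ} [Fact p.Prime]
    (hcard : Nat.card G = p) (g h : G) : g * h = h * g := by
  by_cases hg : g = 1
  · simp [hg]
  obtain ⟨j, rfl⟩ := Subgroup.mem_zpowers_iff.mp (mem_zpowers_of_prime_card hcard hg (g' := h))
  exact (Commute.zpow_right (Commute.refl g) j).eq

section ext

variable (L Ω : Type*) [Field L] [Field Ω] [Algebra L Ω]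

/-- two ring homomorphisms out of `Ω = L(ζ_m)` agreeing on `L` and on `ζ_m` are equal -/
theorem al_c_ext (m : ℕ) [NeZero m] [IsCyclotomicExtension {m} L Ω] {R : Type*} [Semiring R]
    (f f' : Ω →+* R) (ζ : Ω) (hζ : IsPrimitiveRoot ζ m)
    (hL : ∀ x : L, f (algebraMap L Ω x) = f' (algebraMap L Ω x)) (hz : f ζ = f' ζ) :
    f = f' := by
  have htop := IsCyclotomicExtension.adjoin_primitive_root_eq_top (A := L) (B := Ω) hζ
  ext x
  have hx : x ∈ Algebra.adjoin L {ζ} := by rw [htop]; trivial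
  induction hx using Algebra.adjoin_induction with
  | mem y hy => rw [Set.mem_singleton_iff.mp hy]; exact hz
  | algebraMap r => exact hL r
  | add y z _ _ hy hz => rw [map_add, map_add, hy, hz]
  | mul y z _ _ hy hz => rw [map_mul, map_mul, hy, hz]

/-- `L(ζ_m)` is normal over `ℚ` if `L` is -/
theorem al_c_normal [NumberField L] [NumberField Ω] [Normal ℚ L] (m : ℕ) [NeZero m]
    [IsCyclotomicExtension {m} L Ω] : Normal ℚ Ω := by
  obtain ⟨q, hq⟩ := Normal.exists_isSplittingField ℚ L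
  have h1 : IsSplittingField L Ω ((cyclotomic m ℚ).map (algebraMap ℚ L)) := by
    rw [map_cyclotomic]
    exact IsCyclotomicExtension.splitting_field_cyclotomic m L Ω
  by_cases hq0 : q = 0
  · subst hq0
    have hq1 : IsSplittingField ℚ L (1 : ℚ[X]) := by
      refine ⟨by simp, ?_⟩
      have := hq.adjoin_rootSet
      simpa using this
    have := IsSplittingField.mul (F := ℚ) (K := L) Ω (1 : ℚ[X]) (cyclotomic m ℚ) one_ne_zero
      (cyclotomic_ne_zero m ℚ)
    exact Normal.of_isSplittingField ((1 : ℚ[X]) * cyclotomic m ℚ)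
  · have := IsSplittingField.mul (F := ℚ) (K := L) Ω q (cyclotomic m ℚ) hq0 (cyclotomic_ne_zero m ℚ)
    exact Normal.of_isSplittingField (q * cyclotomic m ℚ)

end ext

section toK

variable (K Ω : Type*) [Field K] [CharZero K] [Field Ω] [CharZero Ω] [Algebra K Ω]

/-- a `ℚ`-automorphism fixing a primitive `p`-th root of unity of `K = ℚ(ζ_p)` fixes `K` -/
theorem al_c_fixK (p : ℕ) [NeZero p] [IsCyclotomicExtension {p} ℚ K] (ζp : K)
    (hζp : IsPrimitiveRoot ζp p) (τ : Ω ≃ₐ[ℚ] Ω)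
    (h : τ (algebraMap K Ω ζp) = algebraMap K Ω ζp) (x : K) :
    τ (algebraMap K Ω x) = algebraMap K Ω x := by
  have htop := IsCyclotomicExtension.adjoin_primitive_root_eq_top (A := ℚ) (B := K) hζp
  have := AlgHom.ext_of_adjoin_eq_top htop
    (φ₁ := (τ : Ω →ₐ[ℚ] Ω).comp (IsScalarTower.toAlgHom ℚ K Ω))
    (φ₂ := IsScalarTower.toAlgHom ℚ K Ω) (by
      intro y hy
      rw [Set.mem_singleton_iff.mp hy]
      exact h)
  exact DFunLike.congr_fun this x

/-- a `ℚ`-automorphism fixing `K`, as a `K`-automorphism -/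
noncomputable def al_c_toK (τ : Ω ≃ₐ[ℚ] Ω) (h : ∀ x : K, τ (algebraMap K Ω x) = algebraMap K Ω x) :
    Ω ≃ₐ[K] Ω :=
  AlgEquiv.ofRingEquiv (f := (τ : Ω ≃+* Ω)) h

theorem al_c_toK_apply (τ : Ω ≃ₐ[ℚ] Ω) (h : ∀ x : K, τ (algebraMap K Ω x) = algebraMap K Ω x)
    (x : Ω) : al_c_toK K Ω τ h x = τ x := rfl

end toK

section cross

variable (K L Ω : Type*) [Field K] [NumberField K] [Field L] [NumberField L] [Field Ω]
  [NumberField Ω] [Algebra K L] [Algebra K Ω] [Algebra L Ω] [IsScalarTower K L Ω]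

/-- **cyclotomic part is onto**: for `c` prime to `m` there is a `K`-automorphism of `Ω`
raising all `m`-th roots of unity to the `c`-th power. -/
theorem al_c_cyc (p : ℕ) [Fact p.Prime] [IsCyclotomicExtension {p} ℚ K] [Normal ℚ Ω]
    (m : ℕ) [NeZero m] (hmp : m.Coprime p) (ζ : Ω) (hζ : IsPrimitiveRoot ζ m)
    (c : ℕ) (hc : c.Coprime m) :
    ∃ g : Ω ≃ₐ[K] Ω, ∀ x : Ω, x ^ m = 1 → g x = x ^ c := by
  have hp : p.Prime := Fact.out
  have : NeZero p := ⟨hp.ne_zero⟩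
  have hm0 : m ≠ 0 := NeZero.ne m
  obtain ⟨ζp, hζp⟩ := IsCyclotomicExtension.exists_isPrimitiveRoot ℚ K
    (Set.mem_singleton p) hp.ne_zero
  have hζp' : IsPrimitiveRoot (algebraMap K Ω ζp) p :=
    hζp.map_of_injective (FaithfulSMul.algebraMap_injective K Ω)
  -- a primitive `p m`-th root of unity
  set ξ : Ω := algebraMap K Ω ζp * ζ with hξ
  have hξprim : IsPrimitiveRoot ξ (p * m) := by
    have h1 : orderOf ξ = p * m := by
      rw [hξ, (Commute.all _ _).orderOf_mul_eq_mul_orderOf_of_coprime, ← hζp'.eq_orderOf,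
        ← hζ.eq_orderOf]
      rw [← hζp'.eq_orderOf, ← hζ.eq_orderOf]
      exact hmp.symm
    rw [← h1]
    exact IsPrimitiveRoot.orderOf ξ
  -- the exponent
  obtain ⟨a, ha1, hac⟩ := Nat.chineseRemainder hmp.symm 1 c
  have hacop : a.Coprime (p * m) := by
    apply Nat.Coprime.mul_right
    · have := ha1.gcd_eq
      rw [Nat.Coprime, this]
      exact Nat.gcd_one_left p
    · have := hac.gcd_eq
      rw [Nat.Coprime, this]
      exact hc
  have hpm0 : 0 < p * m := Nat.mul_pos hp.pos (Nat.pos_of_ne_zero hm0)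
  have hconj : IsConjRoot ℚ (ξ ^ a) ξ := by
    unfold IsConjRoot
    rw [← cyclotomic_eq_minpoly_rat (hξprim.pow_of_coprime a hacop) hpm0,
      ← cyclotomic_eq_minpoly_rat hξprim hpm0]
  obtain ⟨τ, hτ⟩ := isConjRoot_iff_exists_algEquiv.mp hconj
  -- `ξ ^ m` and `ξ ^ p`
  have hξm : ξ ^ m = algebraMap K Ω (ζp ^ m) := by
    rw [hξ, mul_pow, hζ.pow_eq_one, mul_one, map_pow]
  have hξp : ξ ^ p = ζ ^ p := by
    rw [hξ, mul_pow, hζp'.pow_eq_one, one_mul]
  -- `τ` fixes `K`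
  have hfix0 : τ (algebraMap K Ω (ζp ^ m)) = algebraMap K Ω (ζp ^ m) := by
    have hη : (algebraMap K Ω (ζp ^ m)) ^ p = 1 := by
      rw [← map_pow, ← pow_mul, mul_comm, pow_mul, hζp.pow_eq_one, one_pow, map_one]
    rw [← hξm, map_pow, hτ, ← pow_mul, mul_comm a m, pow_mul, hξm]
    exact (al_c_pow_mod hη ha1).trans (pow_one _)
  have hfix : ∀ x : K, τ (algebraMap K Ω x) = algebraMap K Ω x :=
    al_c_fixK K Ω p (ζp ^ m) (hζp.pow_of_coprime m hmp) τ hfix0
  refine ⟨al_c_toK K Ω τ hfix, fun x hx => ?_⟩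
  rw [al_c_toK_apply]
  -- `ζ ^ p` is a primitive `m`-th root of unity
  have hζ' : IsPrimitiveRoot (ζ ^ p) m := hζ.pow_of_coprime p hmp.symm
  obtain ⟨j, -, rfl⟩ := hζ'.eq_pow_of_pow_eq_one hx
  have h1 : τ (ζ ^ p) = (ζ ^ p) ^ a := by
    rw [← hξp, map_pow, hτ, ← pow_mul, mul_comm a p, pow_mul]
  rw [map_pow, h1, ← pow_mul, mul_comm a j, pow_mul]
  exact al_c_pow_mod (by rw [← pow_mul, mul_comm, pow_mul, hζ'.pow_eq_one, one_pow]) hac

/-- **the kernel of the cyclotomic part is not trivial on `L`**: if `L/ℚ` is not abelian, some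
`K`-automorphism of `Ω` fixes all roots of unity of order dividing `m` but moves `L`. -/
theorem al_c_ker (p : ℕ) [Fact p.Prime] [IsCyclotomicExtension {p} ℚ K] [Normal ℚ Ω]
    (hnonab : ¬ ∀ g h : L ≃ₐ[ℚ] L, g * h = h * g) (m : ℕ) (hm : 0 < m) :
    ∃ γ : Ω ≃ₐ[K] Ω, (∀ x : Ω, x ^ m = 1 → γ x = x) ∧
      ∃ y : L, γ (algebraMap L Ω y) ≠ algebraMap L Ω y := by
  have hp : p.Prime := Fact.out
  have : NeZero p := ⟨hp.ne_zero⟩
  obtain ⟨ζp, hζp⟩ := IsCyclotomicExtension.exists_isPrimitiveRoot ℚ K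
    (Set.mem_singleton p) hp.ne_zero
  simp only [not_forall] at hnonab
  obtain ⟨τ₁, τ₂, hne⟩ := hnonab
  set α : Ω ≃ₐ[ℚ] Ω := τ₁.liftNormal Ω * τ₂.liftNormal Ω with hα
  set β : Ω ≃ₐ[ℚ] Ω := τ₂.liftNormal Ω * τ₁.liftNormal Ω with hβ
  -- `α` and `β` agree on roots of unity
  have hroot : ∀ (n : ℕ) (x : Ω), 0 < n → x ^ n = 1 → α x = β x := by
    intro n x hn hx
    have ho : 0 < orderOf x := orderOf_pos_iff.mpr (isOfFinOrder_iff_pow_eq_one.mpr ⟨n, hn, hx⟩)
    have : NeZero (orderOf x) := ⟨ho.ne'⟩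
    have hprim := IsPrimitiveRoot.orderOf x
    obtain ⟨a, -, ha⟩ := hprim.eq_pow_of_pow_eq_one (ξ := τ₁.liftNormal Ω x)
      (by rw [← map_pow, pow_orderOf_eq_one, map_one])
    obtain ⟨b, -, hb⟩ := hprim.eq_pow_of_pow_eq_one (ξ := τ₂.liftNormal Ω x)
      (by rw [← map_pow, pow_orderOf_eq_one, map_one])
    rw [hα, hβ, AlgEquiv.mul_apply, AlgEquiv.mul_apply, ← hb, ← ha, map_pow, map_pow, ← ha, ← hb,
      ← pow_mul, ← pow_mul, mul_comm]
  set γ₀ : Ω ≃ₐ[ℚ] Ω := β⁻¹ * α with hγ₀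
  have hγroot : ∀ (n : ℕ) (x : Ω), 0 < n → x ^ n = 1 → γ₀ x = x := by
    intro n x hn hx
    rw [hγ₀, AlgEquiv.mul_apply, hroot n x hn hx]
    exact β.symm_apply_apply x
  have hfix : ∀ x : K, γ₀ (algebraMap K Ω x) = algebraMap K Ω x :=
    al_c_fixK K Ω p ζp hζp γ₀ (hγroot p _ hp.pos (by rw [← map_pow, hζp.pow_eq_one, map_one]))
  refine ⟨al_c_toK K Ω γ₀ hfix, fun x hx => ?_, ?_⟩
  · rw [al_c_toK_apply]
    exact hγroot m x hm hx
  · by_contra hall
    simp only [not_exists, not_not] at hall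
    apply hne
    ext y
    have h1 := hall y
    rw [al_c_toK_apply, hγ₀, AlgEquiv.mul_apply] at h1
    have h2 : α (algebraMap L Ω y) = β (algebraMap L Ω y) := by
      have := congrArg β h1
      rwa [show β (β⁻¹ (α (algebraMap L Ω y))) = α (algebraMap L Ω y) from
        β.apply_symm_apply _] at this
    rw [hα, hβ, AlgEquiv.mul_apply, AlgEquiv.mul_apply, AlgEquiv.liftNormal_commutes,
      AlgEquiv.liftNormal_commutes, AlgEquiv.liftNormal_commutes,
      AlgEquiv.liftNormal_commutes] at h2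
    exact FaithfulSMul.algebraMap_injective L Ω h2

/-- **onto**: every pair (automorphism of `L/K`, exponent prime to `m`) is realised by an
element of `Gal(Ω/K)`. -/
theorem al_c_onto (p : ℕ) [Fact p.Prime] [IsCyclotomicExtension {p} ℚ K] [IsGalois K L]
    [Normal ℚ L] (hdeg : finrank K L = p) (hnonab : ¬ ∀ g h : L ≃ₐ[ℚ] L, g * h = h * g)
    (m : ℕ) [NeZero m] (hmp : m.Coprime p) [IsCyclotomicExtension {m} L Ω]
    (σ : L ≃ₐ[K] L) (c : ℕ) (hc : c.Coprime m) :
    ∃ g : Ω ≃ₐ[K] Ω, (∀ x : L, g (algebraMap L Ω x) = algebraMap L Ω (σ x)) ∧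
      ∀ x : Ω, x ^ m = 1 → g x = x ^ c := by
  have hm0 : m ≠ 0 := NeZero.ne m
  have hnΩ : Normal ℚ Ω := al_c_normal L Ω m
  have hnK : Normal K Ω := Normal.tower_top_of_normal ℚ K Ω
  obtain ⟨ζ, hζ⟩ := IsCyclotomicExtension.exists_isPrimitiveRoot L Ω (Set.mem_singleton m) hm0
  obtain ⟨g₁, hg₁⟩ := al_c_cyc K Ω p m hmp ζ hζ c hc
  obtain ⟨γ, hγ, y, hy⟩ := al_c_ker K L Ω p hnonab m (Nat.pos_of_ne_zero hm0)
  have hcard : Nat.card (L ≃ₐ[K] L) = p := by
    rw [IsGalois.card_aut_eq_finrank, hdeg]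
  have hσ₀ : AlgEquiv.restrictNormalHom L γ ≠ 1 := by
    intro h1
    apply hy
    have h2 := AlgEquiv.restrictNormal_commutes γ L y
    rw [← h2]
    have h3 : γ.restrictNormal L = 1 := h1
    rw [h3, AlgEquiv.one_apply]
  obtain ⟨j, hj⟩ := Subgroup.mem_zpowers_iff.mp
    (mem_zpowers_of_prime_card hcard hσ₀ (g' := σ * (AlgEquiv.restrictNormalHom L g₁)⁻¹))
  refine ⟨γ ^ j * g₁, fun x => ?_, fun x hx => ?_⟩
  · have h1 : AlgEquiv.restrictNormalHom L (γ ^ j * g₁) = σ := by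
      rw [map_mul, map_zpow, hj, inv_mul_cancel_right]
    have h2 := AlgEquiv.restrictNormal_commutes (γ ^ j * g₁) L x
    rw [← h2]
    have h3 : (γ ^ j * g₁).restrictNormal L = σ := h1
    rw [h3]
  · rw [AlgEquiv.mul_apply, hg₁ x hx]
    have hxc : (x ^ c) ^ m = 1 := by rw [← pow_mul, mul_comm, pow_mul, hx, one_pow]
    have hmem : γ ∈ MulAction.stabilizer (Ω ≃ₐ[K] Ω) (x ^ c) :=
      MulAction.mem_stabilizer_iff.mpr (hγ _ hxc)
    exact MulAction.mem_stabilizer_iff.mp (Subgroup.zpow_mem _ hmem j)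

/-- **`Gal(Ω/K)` is abelian** when `Gal(L/K)` is. -/
theorem al_c_comm [Normal K L] (habL : ∀ g h : L ≃ₐ[K] L, g * h = h * g)
    (m : ℕ) [NeZero m] [IsCyclotomicExtension {m} L Ω] (g h : Ω ≃ₐ[K] Ω) : g * h = h * g := by
  have hm0 : m ≠ 0 := NeZero.ne m
  obtain ⟨ζ, hζ⟩ := IsCyclotomicExtension.exists_isPrimitiveRoot L Ω (Set.mem_singleton m) hm0
  have key := al_c_ext L Ω m ((g * h : Ω ≃ₐ[K] Ω) : Ω →+* Ω) ((h * g : Ω ≃ₐ[K] Ω) : Ω →+* Ω) ζ hζ
    (by
      intro x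
      change g (h (algebraMap L Ω x)) = h (g (algebraMap L Ω x))
      rw [← AlgEquiv.restrictNormal_commutes h L x, ← AlgEquiv.restrictNormal_commutes g L x,
        ← AlgEquiv.restrictNormal_commutes g L, ← AlgEquiv.restrictNormal_commutes h L]
      exact congrArg (algebraMap L Ω)
        (DFunLike.congr_fun (habL (g.restrictNormal L) (h.restrictNormal L)) x))
    (by
      change g (h ζ) = h (g ζ)
      obtain ⟨a, -, ha⟩ := hζ.eq_pow_of_pow_eq_one (ξ := g ζ)
        (by rw [← map_pow, hζ.pow_eq_one, map_one])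
      obtain ⟨b, -, hb⟩ := hζ.eq_pow_of_pow_eq_one (ξ := h ζ)
        (by rw [← map_pow, hζ.pow_eq_one, map_one])
      rw [← hb, ← ha, map_pow, map_pow, ← ha, ← hb, ← pow_mul, ← pow_mul, mul_comm])
  ext x
  exact DFunLike.congr_fun key x

end cross

/-- the primes of `K` dividing a nonzero integer are finite in number -/
theorem al_c_finite_dvd (K : Type*) [Field K] [NumberField K] (m : ℕ) (hm : m ≠ 0) :
    {r : HeightOneSpectrum (𝓞 K) | (m : 𝓞 K) ∈ r.asIdeal}.Finite := by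
  have h0 : Ideal.span {(m : 𝓞 K)} ≠ 0 := by
    rw [Ne, Ideal.zero_eq_bot, Ideal.span_singleton_eq_bot]
    exact_mod_cast hm
  refine (Ideal.finite_factors h0).subset ?_
  intro r hr
  exact Ideal.dvd_span_singleton.mpr hr

/-- **AL-c**: for `σ ≠ 1` in `Gal(L/K)`, `m` prime to `p` and `c` prime to `m` there are a prime
`r ∤ m` of `K` and `t` prime to `p` with `frob r = σ ^ t` and `N r ≡ c ^ t mod m`. -/
theorem al_c
    (hZ : ∀ (F M : Type) [Field F] [NumberField F] [Field M] [NumberField M] [Algebra F M]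
      [IsGalois F M], 1 < finrank F M → ∀ S : Set (HeightOneSpectrum (𝓞 F)), S.Finite →
      ∃ v : HeightOneSpectrum (𝓞 F), v ∉ S ∧ (Ideal.absNorm v.asIdeal).Prime ∧
        UnramIn F M v ∧ ¬ SplitsIn F M v)
    (p : ℕ) [Fact p.Prime]
    (K L : Type) [Field K] [NumberField K] [Field L] [NumberField L] [Algebra K L]
    [IsGalois K L] [IsCyclotomicExtension {p} ℚ K] [IsGalois ℚ L]
    (hdeg : finrank K L = p) (hunr : ∀ v : HeightOneSpectrum (𝓞 K), UnramIn K L v)
    (hnonab : ¬ ∀ g h : L ≃ₐ[ℚ] L, g * h = h * g)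
    (m : ℕ) (hm : 0 < m) (hmp : m.Coprime p) (σ : L ≃ₐ[K] L) (hσ : σ ≠ 1)
    (c : ℕ) (hc : c.Coprime m) :
    ∃ (r : HeightOneSpectrum (𝓞 K)) (t : ℕ), (m : 𝓞 K) ∉ r.asIdeal ∧ ¬ p ∣ t ∧
      frob K L r = σ ^ t ∧ ((Ideal.absNorm r.asIdeal : ℕ) : ZMod m) = (c : ZMod m) ^ t := by
  have hp : p.Prime := Fact.out
  have : NeZero m := ⟨hm.ne'⟩
  have hnΩ : Normal ℚ (CyclotomicField m L) := al_c_normal L (CyclotomicField m L) m
  have hnK : Normal K (CyclotomicField m L) := Normal.tower_top_of_normal ℚ K _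
  have hgal : IsGalois K (CyclotomicField m L) := ⟨⟩
  have hcard : Nat.card (L ≃ₐ[K] L) = p := by
    rw [IsGalois.card_aut_eq_finrank, hdeg]
  have hab : ∀ g h : CyclotomicField m L ≃ₐ[K] CyclotomicField m L, g * h = h * g :=
    al_c_comm K L (CyclotomicField m L) (al_c_comm_of_prime_card hcard) m
  obtain ⟨ζ, hζ⟩ := IsCyclotomicExtension.exists_isPrimitiveRoot L (CyclotomicField m L)
    (Set.mem_singleton m) hm.ne'
  obtain ⟨g, hgL, hgζ⟩ := al_c_onto K L (CyclotomicField m L) p hdeg hnonab m hmp σ c hc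
  -- restriction of powers of `g`
  have hres : ∀ (t : ℕ) (x : L), algebraMap L (CyclotomicField m L) ((σ ^ t) x) =
      (g ^ t) (algebraMap L (CyclotomicField m L) x) := by
    intro t
    induction t with
    | zero => intro x; simp
    | succ t ih =>
      intro x
      rw [pow_succ, pow_succ, AlgEquiv.mul_apply, AlgEquiv.mul_apply, hgL, ih]
  -- `p ∣ orderOf g`
  have hpg : p ∣ orderOf g := by
    have h1 : σ ^ orderOf g = 1 := by
      ext x
      apply FaithfulSMul.algebraMap_injective L (CyclotomicField m L)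
      rw [hres, pow_orderOf_eq_one, AlgEquiv.one_apply, AlgEquiv.one_apply]
    have h2 : orderOf σ = p := by
      have h3 : orderOf σ ∣ p := hcard ▸ orderOf_dvd_natCard σ
      rcases (Nat.dvd_prime hp).mp h3 with h4 | h4
      · exact absurd (orderOf_eq_one_iff.mp h4) hσ
      · exact h4
    rw [← h2]
    exact orderOf_dvd_of_pow_eq_one h1
  obtain ⟨r, t, hrS, hpt, -, hFrob⟩ := frob_exists_pow hZ K (CyclotomicField m L) hab g p hp hpg
    {r : HeightOneSpectrum (𝓞 K) | (m : 𝓞 K) ∈ r.asIdeal} (al_c_finite_dvd K m hm.ne')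
  have hmr : (m : 𝓞 K) ∉ r.asIdeal := hrS
  refine ⟨r, t, hmr, hpt, ?_, ?_⟩
  · exact (frob_unique K L r (hunr r) (σ ^ t)
      (frob_isFrob_restrict K L (CyclotomicField m L) r (g ^ t) hFrob (σ ^ t) (hres t))).symm
  · have h1 := frob_isFrob_apply_of_pow_eq_one K (CyclotomicField m L) r (g ^ t) hFrob m hmr ζ
      hζ.pow_eq_one
    have h2 : ∀ (t : ℕ) (x : CyclotomicField m L), x ^ m = 1 → (g ^ t) x = x ^ (c ^ t) := by
      intro t
      induction t with
      | zero => intro x _; simp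
      | succ t ih =>
        intro x hx
        rw [pow_succ, AlgEquiv.mul_apply, hgζ x hx,
          ih (x ^ c) (by rw [← pow_mul, mul_comm, pow_mul, hx, one_pow]), ← pow_mul, pow_succ,
          mul_comm]
    rw [h2 t ζ hζ.pow_eq_one] at h1
    have h3 : c ^ t ≡ Ideal.absNorm r.asIdeal [MOD m] := by
      have hfo : IsOfFinOrder ζ := isOfFinOrder_iff_pow_eq_one.mpr ⟨m, hm, hζ.pow_eq_one⟩
      have := hfo.pow_eq_pow_iff_modEq.mp h1
      rwa [← hζ.eq_orderOf] at this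
    have h4 := (ZMod.natCast_eq_natCast_iff _ _ _).mpr h3
    rw [← h4, Nat.cast_pow]

end C14
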