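import Fermat.Agent.Lib.C14_Z_Split

set_option autoImplicit false

open scoped NumberField
open IsDedekindDomain Filter Topology Module

namespace C14

/-! ### Primes of absolute degree one -/

section degone
variable (F : Type*) [Field F] [NumberField F]

/-- the residue characteristic of a prime -/
noncomputable def z_char (v : HeightOneSpectrum (𝓞 F)) : ℕ :=
  Ideal.absNorm (Ideal.under ℤ v.asIdeal)

theorem z_char_prime (v : HeightOneSpectrum (𝓞 F)) : (z_char F v).Prime := by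
  have : NeZero v.asIdeal := ⟨v.ne_bot⟩
  exact Nat.absNorm_under_prime v.asIdeal

theorem z_char_liesOver (v : HeightOneSpectrum (𝓞 F)) :
    v.asIdeal.LiesOver (Ideal.span {((z_char F v : ℕ) : ℤ)}) :=
  Int.liesOver_span_absNorm v.asIdeal

theorem z_absNorm_eq_char_pow (v : HeightOneSpectrum (𝓞 F)) :
    Ideal.absNorm v.asIdeal = z_char F v ^ v.asIdeal.inertiaDeg ℤ := by
  have := z_char_liesOver F v
  exact (Ideal.pow_inertiaDeg (z_char F v) v.asIdeal).symm

theorem z_prime_of_inertiaDeg_one (v : HeightOneSpectrum (𝓞 F))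
    (h : v.asIdeal.inertiaDeg ℤ = 1) : (Ideal.absNorm v.asIdeal).Prime := by
  rw [z_absNorm_eq_char_pow, h, pow_one]
  exact z_char_prime F v

theorem z_char_fiber_card_le (T : Finset (HeightOneSpectrum (𝓞 F))) (p : ℕ)
    (hT : ∀ v ∈ T, z_char F v = p) : T.card ≤ Module.finrank ℚ F := by
  rcases T.eq_empty_or_nonempty with rfl | ⟨v0, hv0⟩
  · simp
  have hp : p.Prime := hT v0 hv0 ▸ z_char_prime F v0
  have : (Ideal.span {(p : ℤ)}).IsPrime :=
    (Ideal.span_singleton_prime (by exact_mod_cast hp.ne_zero)).mpr (Nat.prime_iff_prime_int.mp hp)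
  have : Finite ((Ideal.span {(p : ℤ)}).primesOver (𝓞 F)) :=
    (Algebra.QuasiFinite.finite_primesOver _).to_subtype
  rw [← NumberField.RingOfIntegers.rank F]
  refine z_card_le_finrank (Ideal.span {(p : ℤ)}) T fun v hv => ?_
  rw [← hT v hv]
  exact z_char_liesOver F v

theorem z_summable_nat_sq : Summable fun m : ℕ => (m : ℝ) ^ (-(2 : ℝ)) :=
  Real.summable_nat_rpow.mpr (by norm_num)

/-- the primes of absolute degree `≥ 2` contribute a bounded amount -/
theorem z_deg_ge_two_le (v : HeightOneSpectrum (𝓞 F)) (h : v.asIdeal.inertiaDeg ℤ ≠ 1)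
    (s : ℝ) (hs : 1 ≤ s) : nrm F v ^ (-s) ≤ ((z_char F v : ℕ) : ℝ) ^ (-(2 : ℝ)) := by
  have hf : 2 ≤ v.asIdeal.inertiaDeg ℤ := by
    have := Ideal.inertiaDeg_pos v.asIdeal ℤ
    omega
  have hp := (z_char_prime F v).two_le
  have hp' : (2 : ℝ) ≤ (z_char F v : ℝ) := by exact_mod_cast hp
  have h1 : ((z_char F v : ℕ) : ℝ) ^ 2 ≤ nrm F v := by
    rw [nrm, z_absNorm_eq_char_pow]
    have := Nat.pow_le_pow_right (by omega : 1 ≤ z_char F v) hf
    exact_mod_cast this
  have h2 : nrm F v ^ (-s) ≤ (((z_char F v : ℕ) : ℝ) ^ 2) ^ (-s) :=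
    Real.rpow_le_rpow_of_nonpos (by positivity) h1 (by linarith)
  have h3 : (((z_char F v : ℕ) : ℝ) ^ 2) ^ (-s) = ((z_char F v : ℕ) : ℝ) ^ (-(2 * s)) := by
    rw [← Real.rpow_natCast, ← Real.rpow_mul (by linarith)]
    congr 1
    push_cast
    ring
  have h4 : ((z_char F v : ℕ) : ℝ) ^ (-(2 * s)) ≤ ((z_char F v : ℕ) : ℝ) ^ (-(2 : ℝ)) :=
    Real.rpow_le_rpow_of_exponent_le (by linarith) (by linarith)
  linarith

theorem z_sum_char_le (T : Finset (HeightOneSpectrum (𝓞 F))) :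
    ∑ v ∈ T, ((z_char F v : ℕ) : ℝ) ^ (-(2 : ℝ))
      ≤ (Module.finrank ℚ F : ℝ) * ∑' m : ℕ, (m : ℝ) ^ (-(2 : ℝ)) :=
  z_sum_fiber_le (z_char F) (Module.finrank ℚ F) (fun T' p hT' => z_char_fiber_card_le F T' p hT')
    (fun m : ℕ => (m : ℝ) ^ (-(2 : ℝ))) (fun m => Real.rpow_nonneg (Nat.cast_nonneg m) _)
    z_summable_nat_sq T

end degone

theorem z_log_unbounded (a b : ℝ) (ha : 0 < a) :
    ∃ s : ℝ, 1 < s ∧ s < 2 ∧ b < a * Real.log (1 / (s - 1)) := by
  have hx : 0 < |b| / a + 1 := by positivity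
  refine ⟨1 + Real.exp (-(|b| / a + 1)), by linarith [Real.exp_pos (-(|b| / a + 1))], ?_, ?_⟩
  · have : Real.exp (-(|b| / a + 1)) < 1 := by
      rw [Real.exp_lt_one_iff]
      linarith
    linarith
  · rw [add_sub_cancel_left, one_div, Real.log_inv, Real.log_exp, neg_neg]
    have h1 : a * (|b| / a + 1) = |b| + a := by
      field_simp
    rw [h1]
    linarith [le_abs_self b]

/-! ### Z5: a non-split prime of degree one -/

section notsplit
variable (F : Type*) [Field F] [NumberField F]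
variable (M : Type*) [Field M] [NumberField M] [Algebra F M]

/-- the primes of `F` that are not unramified in `M` form a finite set -/
theorem z_finite_not_unram : {v : HeightOneSpectrum (𝓞 F) | ¬ UnramIn F M v}.Finite := by
  refine ((z_finite_ramified F M).image (z_below F M)).subset fun v hv => ?_
  have hv' : ¬ UnramIn F M v := hv
  simp only [UnramIn, not_forall] at hv'
  obtain ⟨w, hw, hwv, he⟩ := hv'
  have hne : w ≠ ⊥ := fun h => by
    rw [h, Ideal.comap_bot_of_injective _ (FaithfulSMul.algebraMap_injective (𝓞 F) (𝓞 M))] at hwv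
    exact v.ne_bot hwv.symm
  exact ⟨⟨w, hw, hne⟩, he, HeightOneSpectrum.ext hwv⟩

/-- Z5: a non-split prime of absolute degree one outside a finite set -/
theorem Z_exists_not_split [IsGalois F M] (h : 1 < finrank F M)
    (S : Set (HeightOneSpectrum (𝓞 F))) (hS : S.Finite) :
    ∃ v : HeightOneSpectrum (𝓞 F), v ∉ S ∧ (Ideal.absNorm v.asIdeal).Prime ∧
      UnramIn F M v ∧ ¬ SplitsIn F M v := by
  classical
  by_contra hcon
  have hall : ∀ v : HeightOneSpectrum (𝓞 F), v ∉ S → (Ideal.absNorm v.asIdeal).Prime →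
      UnramIn F M v → SplitsIn F M v := by
    intro v h1 h2 h3
    by_contra h4
    exact hcon ⟨v, h1, h2, h3, h4⟩
  set E : Finset (HeightOneSpectrum (𝓞 F)) :=
    hS.toFinset ∪ (z_finite_not_unram F M).toFinset with hE
  have hE1 : ∀ v, v ∉ E → v ∉ S ∧ UnramIn F M v := by
    intro v hv
    rw [hE, Finset.mem_union, not_or, Set.Finite.mem_toFinset, Set.Finite.mem_toFinset] at hv
    exact ⟨hv.1, not_not.mp hv.2⟩
  obtain ⟨CF, hCF⟩ := Z_prime_sum F
  obtain ⟨CM, hCM⟩ := Z_prime_sum M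
  have hn1 : (1 : ℝ) < (finrank F M : ℝ) := by exact_mod_cast h
  set C1 : ℝ := (E.card : ℝ) + (finrank ℚ F : ℝ) * ∑' m : ℕ, (m : ℝ) ^ (-(2 : ℝ)) with hC1
  have key : ∀ s : ℝ, 1 < s →
      ∑' v : HeightOneSpectrum (𝓞 F), nrm F v ^ (-s) ≤ z_splitSum F M s + C1 := by
    intro s hs
    refine Real.tsum_le_of_sum_le (fun v => Real.rpow_nonneg (z_nrm_pos F v).le _) fun T => ?_
    have hpt : ∀ v : HeightOneSpectrum (𝓞 F), nrm F v ^ (-s)
        ≤ z_splitTerm F M s v + (if v ∈ E then (1 : ℝ) else 0)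
          + ((z_char F v : ℕ) : ℝ) ^ (-(2 : ℝ)) := by
      intro v
      have hnn1 := z_splitTerm_nonneg F M s v
      have hnn2 : (0 : ℝ) ≤ (if v ∈ E then (1 : ℝ) else 0) := by split_ifs <;> norm_num
      have hnn3 : (0 : ℝ) ≤ ((z_char F v : ℕ) : ℝ) ^ (-(2 : ℝ)) :=
        Real.rpow_nonneg (Nat.cast_nonneg _) _
      by_cases hvE : v ∈ E
      · rw [if_pos hvE]
        have := z_nrm_rpow_le_half F v s hs.le
        linarith
      · by_cases hf : v.asIdeal.inertiaDeg ℤ = 1
        · have hspl := hall v (hE1 v hvE).1 (z_prime_of_inertiaDeg_one F v hf) (hE1 v hvE).2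
          rw [z_splitTerm_of_splits F M s hspl]
          linarith
        · have := z_deg_ge_two_le F v hf s hs.le
          linarith
    calc ∑ v ∈ T, nrm F v ^ (-s)
        ≤ ∑ v ∈ T, (z_splitTerm F M s v + (if v ∈ E then (1 : ℝ) else 0)
          + ((z_char F v : ℕ) : ℝ) ^ (-(2 : ℝ))) := Finset.sum_le_sum fun v _ => hpt v
      _ = ∑ v ∈ T, z_splitTerm F M s v + ∑ v ∈ T, (if v ∈ E then (1 : ℝ) else 0)
          + ∑ v ∈ T, ((z_char F v : ℕ) : ℝ) ^ (-(2 : ℝ)) := by
          rw [Finset.sum_add_distrib, Finset.sum_add_distrib]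
      _ ≤ z_splitSum F M s + (E.card : ℝ)
          + (finrank ℚ F : ℝ) * ∑' m : ℕ, (m : ℝ) ^ (-(2 : ℝ)) := by
          refine add_le_add (add_le_add ?_ ?_) (z_sum_char_le F T)
          · exact (z_summable_splitTerm F M s hs).sum_le_tsum T
              (fun v _ => z_splitTerm_nonneg F M s v)
          · rw [← Finset.sum_filter, Finset.sum_const, nsmul_eq_mul, mul_one]
            have : T.filter (fun v => v ∈ E) ⊆ E := fun v hv => (Finset.mem_filter.mp hv).2
            exact_mod_cast Finset.card_le_card this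
      _ = _ := by rw [hC1]; ring
  obtain ⟨s, hs1, hs2, hs3⟩ := z_log_unbounded ((finrank F M : ℝ) - 1)
    (CM + (finrank F M : ℝ) * (CF + C1)) (by linarith)
  have h1 := (abs_le.mp (hCF s hs1 hs2)).1
  have h2 := (abs_le.mp (hCM s hs1 hs2)).2
  have h3 := key s hs1
  have h4 := z_split_upper F M s hs1
  have h5 : (finrank F M : ℝ) * (∑' v : HeightOneSpectrum (𝓞 F), nrm F v ^ (-s) - C1)
      ≤ (finrank F M : ℝ) * z_splitSum F M s :=
    mul_le_mul_of_nonneg_left (by linarith) (by linarith)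
  have h6 : (finrank F M : ℝ) * (Real.log (1 / (s - 1)) - CF)
      ≤ (finrank F M : ℝ) * ∑' v : HeightOneSpectrum (𝓞 F), nrm F v ^ (-s) :=
    mul_le_mul_of_nonneg_left (by linarith) (by linarith)
  nlinarith

end notsplit

end C14
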