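import Fermat.Agent.Lib.C14_AL_C
import Fermat.Agent.Lib.C14_Z_NotSplit

/-!
# S14 development, AL-c in closed form (`C14.AL_c`), and the closed Chebotarev-lite
`C14.frob_exists_pow'`
-/

set_option autoImplicit false

open scoped NumberField
open IsDedekindDomain Module

namespace C14

/-- Chebotarev-lite for cyclic subgroups (closed form of `frob_exists_pow`). -/
theorem frob_exists_pow' (K Ω : Type) [Field K] [NumberField K] [Field Ω] [NumberField Ω]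
    [Algebra K Ω] [IsGalois K Ω] (hab : ∀ g h : Ω ≃ₐ[K] Ω, g * h = h * g) (g : Ω ≃ₐ[K] Ω) (p : ℕ)
    (hp : p.Prime) (hpg : p ∣ orderOf g) (S : Set (HeightOneSpectrum (𝓞 K))) (hS : S.Finite) :
    ∃ (r : HeightOneSpectrum (𝓞 K)) (t : ℕ), r ∉ S ∧ ¬ p ∣ t ∧
      (Ideal.absNorm r.asIdeal).Prime ∧ IsFrob K Ω r (g ^ t) :=
  frob_exists_pow (fun F M _ _ _ _ _ _ h S hS => Z_exists_not_split F M h S hS)
    K Ω hab g p hp hpg S hS

/-- **AL-c** (closed form): for `σ ≠ 1` in `Gal(L/K)`, `m` prime to `p` and `c` prime to `m`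
there are a prime `r ∤ m` of `K` and `t` prime to `p` with `frob r = σ ^ t` and
`N r ≡ c ^ t mod m`. -/
theorem AL_c (p : ℕ) [Fact p.Prime]
    (K L : Type) [Field K] [NumberField K] [Field L] [NumberField L] [Algebra K L]
    [IsGalois K L] [IsCyclotomicExtension {p} ℚ K] [IsGalois ℚ L]
    (hdeg : finrank K L = p) (hunr : ∀ v : HeightOneSpectrum (𝓞 K), UnramIn K L v)
    (hnonab : ¬ ∀ g h : L ≃ₐ[ℚ] L, g * h = h * g) :
    ∀ (m : ℕ), 0 < m → m.Coprime p → ∀ σ : L ≃ₐ[K] L, σ ≠ 1 → ∀ c : ℕ, c.Coprime m →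
      ∃ (r : HeightOneSpectrum (𝓞 K)) (t : ℕ), (m : 𝓞 K) ∉ r.asIdeal ∧ ¬ p ∣ t ∧
        frob K L r = σ ^ t ∧ ((Ideal.absNorm r.asIdeal : ℕ) : ZMod m) = (c : ZMod m) ^ t :=
  al_c (fun F M _ _ _ _ _ _ h S hS => Z_exists_not_split F M h S hS) p K L hdeg hunr hnonab

end C14
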