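import Fermat.Agent.Lib.C14_AL_B
import Fermat.Agent.Lib.C14_AL_C2

/-!
# AL: reciprocity by cyclotomic crossing, with `RC_bdd` as the only hypothesis

`C14.AL_recip_of_rc` is the blueprint's `AL_recip` with one extra hypothesis `hRC`
(the blueprint's `RC_bdd`, quantified over number fields `F : Type`).
-/

set_option autoImplicit false

open scoped NumberField
open IsDedekindDomain Module

namespace C14

theorem AL_recip_of_rc
    (hRC : ∀ (F : Type) [Field F] [NumberField F] (m : ℕ), 0 < m →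
      ∀ f : HeightOneSpectrum (𝓞 F) → ℂ,
      (∀ v, (m : 𝓞 F) ∈ v.asIdeal → f v = 0) →
      (∀ v, (m : 𝓞 F) ∉ v.asIdeal → ‖f v‖ = 1) →
      (∀ α : 𝓞 F, α ≠ 0 → α - 1 ∈ Ideal.span {(m : 𝓞 F)} →
        ext F f (Ideal.span {α}) = 1) →
      (∃ v, (m : 𝓞 F) ∉ v.asIdeal ∧ f v ≠ 1) →
      ∃ C : ℝ, ∀ s : ℝ, 1 < s → s < 2 → ‖Lfun F f s‖ ≤ C)
    (p : ℕ) [Fact p.Prime] (hp3 : 3 ≤ p)
    (K L : Type) [Field K] [NumberField K] [Field L] [NumberField L] [Algebra K L]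
    [IsGalois K L] [IsCyclotomicExtension {p} ℚ K] [IsGalois ℚ L]
    (hdeg : finrank K L = p) (hunr : ∀ v : HeightOneSpectrum (𝓞 K), UnramIn K L v)
    (hnonab : ¬ ∀ g h : L ≃ₐ[ℚ] L, g * h = h * g)
    (χ : HeightOneSpectrum (𝓞 K) → ℂ) (hχp : ∀ v, χ v ^ p = 1)
    (hχs : ∀ v, SplitsIn K L v → χ v = 1)
    (hχP : ∀ α : 𝓞 K, α ≠ 0 → ext K χ (Ideal.span {α}) = 1) (hχnt : ∃ v, χ v ≠ 1)
    (φ : (L ≃ₐ[K] L) →* ℂˣ) (α : 𝓞 K) (hα : α ≠ 0) :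
    ext K (fun v => (φ (frob K L v) : ℂ)) (Ideal.span {α}) = 1 :=
  AL_recip_of p K L hp3 hdeg hunr χ hχp hχs hχP hχnt
    (al_b p K L hp3 hdeg hunr χ hχp hχs hχP hRC) (AL_c p K L hdeg hunr hnonab) φ α hα

end C14
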