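import Fermat.Agent.Lib.C14_Ext

/-!
# S14 core: assembly of the leaves (first inequality, reciprocity, Stickelberger, density)

`C14.core_of` derives `False` from the existence of `L/K` (unramified cyclic of degree `p` over
`K = ℚ(ζ_p)`, `L/ℚ` Galois, `ω⁻¹`-action) given the leaf theorems as hypotheses.
-/

set_option autoImplicit false

open scoped NumberField
open IsDedekindDomain Module

namespace C14

theorem core_sum_Icc (n : ℕ) : (∑ t ∈ Finset.Icc 1 n, t) * 2 = n * (n + 1) := by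
  induction n with
  | zero => simp
  | succ n ih =>
    rw [Finset.sum_Icc_succ_top (by omega), add_mul, ih]; ring

theorem core_coprime (p : ℕ) (hp : p.Prime) (hp3 : 3 ≤ p) :
    Nat.Coprime (∑ t ∈ Finset.Icc 1 ((p - 1) / 2), t) p := by
  rw [Nat.coprime_comm, Nat.Prime.coprime_iff_not_dvd hp]
  intro hdvd
  have h2 : p ∣ (∑ t ∈ Finset.Icc 1 ((p - 1) / 2), t) * 2 := Dvd.dvd.mul_right hdvd 2
  rw [core_sum_Icc] at h2
  rcases (Nat.Prime.dvd_mul hp).mp h2 with h | h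
  · have := Nat.le_of_dvd (by omega) h
    omega
  · have := Nat.le_of_dvd (by omega) h
    omega

theorem core_algEquiv_pow_conj {K L : Type*} [Field K] [Field L] [Algebra K L] [Algebra ℚ L]
    (τ : L ≃ₐ[ℚ] L) (g h : L ≃ₐ[K] L) (hh : ∀ x : L, h x = τ.symm (g (τ x))) (n : ℕ) (y : L) :
    (h ^ n) y = τ.symm ((g ^ n) (τ y)) := by
  induction n generalizing y with
  | zero => simp
  | succ n ih =>
    rw [pow_succ', pow_succ', AlgEquiv.mul_apply, AlgEquiv.mul_apply, ih, hh]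
    simp

theorem core_of (p : ℕ) [Fact p.Prime] (hp3 : 3 ≤ p)
    (K L : Type) [Field K] [NumberField K] [Field L] [NumberField L] [Algebra K L]
    [IsGalois K L] [IsCyclotomicExtension {p} ℚ K] [IsGalois ℚ L]
    (hdeg : finrank K L = p)
    (hact : ∀ (τ : L ≃ₐ[ℚ] L) (g : L ≃ₐ[K] L) (a : ℕ),
      (∀ ζ : L, ζ ^ p = 1 → τ ζ = ζ ^ a) → ∀ x : L, τ ((g ^ a) (τ.symm x)) = g x)
    (hZ5 : ∀ S : Set (HeightOneSpectrum (𝓞 K)), S.Finite →
      ∃ v : HeightOneSpectrum (𝓞 K), v ∉ S ∧ (Ideal.absNorm v.asIdeal).Prime ∧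
        UnramIn K L v ∧ ¬ SplitsIn K L v)
    (hFI : ∃ χ : HeightOneSpectrum (𝓞 K) → ℂ, (∀ v, χ v ^ p = 1) ∧
      (∀ v, SplitsIn K L v → χ v = 1) ∧
      (∀ α : 𝓞 K, α ≠ 0 → ext K χ (Ideal.span {α}) = 1) ∧ (∃ v, χ v ≠ 1))
    (hAL : (¬ ∀ g h : L ≃ₐ[ℚ] L, g * h = h * g) →
      ∀ χ : HeightOneSpectrum (𝓞 K) → ℂ, (∀ v, χ v ^ p = 1) →
      (∀ v, SplitsIn K L v → χ v = 1) →
      (∀ α : 𝓞 K, α ≠ 0 → ext K χ (Ideal.span {α}) = 1) → (∃ v, χ v ≠ 1) →
      ∀ (φ : (L ≃ₐ[K] L) →* ℂˣ) (α : 𝓞 K), α ≠ 0 →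
        ext K (fun v => (φ (frob K L v) : ℂ)) (Ideal.span {α}) = 1)
    (hST : ∀ v : HeightOneSpectrum (𝓞 K), (Ideal.absNorm v.asIdeal).Prime →
      Ideal.absNorm v.asIdeal ≠ p →
      ∃ J : 𝓞 K, J ≠ 0 ∧ ∀ g : HeightOneSpectrum (𝓞 K) → ℂ,
        ext K g (Ideal.span {J}) =
          ∏ t ∈ Finset.Icc 1 ((p - 1) / 2), g (galPrime K (sig K p t) v))
    (hsig : ∀ t : ℕ, ¬ p ∣ t → ∀ ζ : K, IsPrimitiveRoot ζ p → sig K p t ζ = ζ ^ t)
    (hfrob1 : (∀ g h : L ≃ₐ[K] L, g * h = h * g) → ∀ v : HeightOneSpectrum (𝓞 K),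
      UnramIn K L v → (frob K L v = 1 ↔ SplitsIn K L v))
    (hfrobG : (∀ g h : L ≃ₐ[K] L, g * h = h * g) → ∀ (τ : L ≃ₐ[ℚ] L) (τK : K ≃ₐ[ℚ] K),
      (∀ x : K, τ (algebraMap K L x) = algebraMap K L (τK x)) →
      ∀ v : HeightOneSpectrum (𝓞 K), UnramIn K L v → ∀ x : L,
        frob K L (galPrime K τK v) x = τ.symm (frob K L v (τ x))) :
    False := by
  classical
  have hp : p.Prime := Fact.out
  have : NeZero p := ⟨hp.ne_zero⟩
  -- the Galois group has order `p`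
  have hcard : Nat.card (L ≃ₐ[K] L) = p := by rw [IsGalois.card_aut_eq_finrank, hdeg]
  have : IsCyclic (L ≃ₐ[K] L) := isCyclic_of_prime_card hcard
  have hab : ∀ g h : L ≃ₐ[K] L, g * h = h * g := fun g h =>
    (IsCyclic.commGroup (α := L ≃ₐ[K] L)).mul_comm g h
  have hpow : ∀ g : L ≃ₐ[K] L, g ^ p = 1 := fun g => by
    rw [← hcard]; exact pow_card_eq_one'
  -- a primitive root of unity in `K` and in `L`
  obtain ⟨ζ₀, hζ₀⟩ : ∃ ζ₀ : K, IsPrimitiveRoot ζ₀ p :=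
    IsCyclotomicExtension.exists_isPrimitiveRoot ℚ K (Set.mem_singleton p) (NeZero.ne p)
  have hζL : IsPrimitiveRoot (algebraMap K L ζ₀) p :=
    hζ₀.map_of_injective (algebraMap K L).injective
  -- lifts of `σ_t`
  have hlift : ∀ t : ℕ, ¬ p ∣ t → ∀ ζ : L, ζ ^ p = 1 →
      ((sig K p t).liftNormal L) ζ = ζ ^ t := by
    intro t ht ζ hζ
    obtain ⟨i, -, rfl⟩ := hζL.eq_pow_of_pow_eq_one hζ
    rw [map_pow, AlgEquiv.liftNormal_commutes, hsig t ht ζ₀ hζ₀, map_pow, ← pow_mul, ← pow_mul,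
      mul_comm]
  -- an inert prime of degree one, not above `p`
  have hSfin : {v : HeightOneSpectrum (𝓞 K) | Ideal.absNorm v.asIdeal = p}.Finite := by
    have h := Ideal.finite_setOfPred_absNorm_eq (S := 𝓞 K) (n := p)
    refine Set.Finite.of_finite_image (f := fun v : HeightOneSpectrum (𝓞 K) => v.asIdeal)
      (h.subset ?_) (fun v _ w _ hvw => HeightOneSpectrum.ext hvw)
    rintro _ ⟨v, hv, rfl⟩
    exact hv
  obtain ⟨v, hvS, hvprime, hvun, hvns⟩ := hZ5 _ hSfin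
  have hvp : Ideal.absNorm v.asIdeal ≠ p := hvS
  have hg : frob K L v ≠ 1 := fun h => hvns ((hfrob1 hab v hvun).mp h)
  -- a character detecting `frob v`
  obtain ⟨φ, hφ⟩ : ∃ φ : (L ≃ₐ[K] L) →* ℂˣ, φ (frob K L v) ≠ 1 := by
    let _ : CommGroup (L ≃ₐ[K] L) := IsCyclic.commGroup
    exact CommGroup.exists_apply_ne_one_of_hasEnoughRootsOfUnity (L ≃ₐ[K] L) ℂ hg
  -- `L/ℚ` is not abelian
  have h2 : ¬ p ∣ 2 := fun h => by have := Nat.le_of_dvd (by norm_num) h; omega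
  have hnonab : ¬ ∀ g h : L ≃ₐ[ℚ] L, g * h = h * g := by
    intro hc
    apply hg
    set g := frob K L v with hgdef
    set τ := (sig K p 2).liftNormal L with hτ
    have h1 := hact τ g 2 (hlift 2 h2)
    have h3 := hc τ ((g.restrictScalars ℚ) ^ 2)
    have h4 : ∀ x : L, (g ^ 2) x = g x := by
      intro x
      have e1 := h1 x
      have e2 : τ (((g.restrictScalars ℚ) ^ 2) (τ.symm x)) =
          ((g.restrictScalars ℚ) ^ 2) (τ (τ.symm x)) := by
        have := congrArg (fun f : L ≃ₐ[ℚ] L => f (τ.symm x)) h3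
        simpa [AlgEquiv.mul_apply] using this
      have e3 : ∀ y : L, ((g.restrictScalars ℚ) ^ 2) y = (g ^ 2) y := by
        intro y; simp [pow_two, AlgEquiv.mul_apply]
      rw [e3, e3] at e2
      rw [e2] at e1
      simpa using e1
    have h5 : g ^ 2 = g := AlgEquiv.ext h4
    have h6 : g * g = g * 1 := by rw [mul_one, ← pow_two]; exact h5
    exact mul_left_cancel h6
  obtain ⟨χ, hχ1, hχ2, hχ3, hχ4⟩ := hFI
  have hrec := hAL hnonab χ hχ1 hχ2 hχ3 hχ4 φ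
  obtain ⟨J, hJ0, hJ⟩ := hST v hvprime hvp
  have e1 := hrec J hJ0
  rw [hJ] at e1
  have hfac : ∀ t ∈ Finset.Icc 1 ((p - 1) / 2),
      (φ (frob K L (galPrime K (sig K p t) v)) : ℂ) = (φ (frob K L v) : ℂ) ^ t := by
    intro t ht
    rw [Finset.mem_Icc] at ht
    have htp : ¬ p ∣ t := fun h => by have := Nat.le_of_dvd (by omega) h; omega
    set τ := (sig K p t).liftNormal L with hτ
    set g := frob K L v with hgdef
    set h := frob K L (galPrime K (sig K p t) v) with hhdef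
    have hh : ∀ x : L, h x = τ.symm (g (τ x)) :=
      hfrobG hab τ (sig K p t) (fun x => AlgEquiv.liftNormal_commutes _ L x) v hvun
    have h1 := hact τ h t (hlift t htp)
    have h2 : h = g ^ t := by
      apply AlgEquiv.ext
      intro x
      rw [← h1 x, core_algEquiv_pow_conj τ g h hh]
      simp
    rw [h2, map_pow, Units.val_pow_eq_pow_val]
  rw [Finset.prod_congr rfl hfac, Finset.prod_pow_eq_pow_sum] at e1
  have e2 : (φ (frob K L v) : ℂ) ^ p = 1 := by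
    rw [← Units.val_pow_eq_pow_val, ← map_pow, hpow, map_one, Units.val_one]
  have e3 : (φ (frob K L v) : ℂ) ^ (Nat.gcd (∑ t ∈ Finset.Icc 1 ((p - 1) / 2), t) p) = 1 :=
    pow_gcd_eq_one.mpr ⟨e1, e2⟩
  rw [core_coprime p hp hp3, pow_one] at e3
  exact hφ (Units.ext e3)

end C14
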