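import Mathlib

/-!
# S14 leaf FI, part 2: ideal bookkeeping for unramified cyclic extensions

For an unramified cyclic extension `L / K` of number fields, the norm map on class groups is not
surjective as soon as the unit index computation of part 1 is available
(`C14.fi_norm_not_surj`).  All declarations live in the namespace `C14` with prefix `fi`.
-/

set_option autoImplicit false
set_option linter.unusedSectionVars false

namespace C14

open NumberField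
open scoped Pointwise nonZeroDivisors

section lift

variable {R : Type*} [CommRing R] [IsDedekindDomain R] {H : Type*} [Monoid H]

/-- lift a monoid hom on nonzero ideals which is constant on ideal classes to the class group -/
noncomputable def fiLift (g : (Ideal R)⁰ →* H)
    (hg : ∀ I J : (Ideal R)⁰, ClassGroup.mk0 I = ClassGroup.mk0 J → g I = g J) :
    ClassGroup R →* H :=
  (Con.lift (Con.ker (ClassGroup.mk0 (R := R))) g (fun I J h => hg I J h)).comp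
    (Con.quotientKerEquivOfSurjective (ClassGroup.mk0 (R := R))
      ClassGroup.mk0_surjective).symm.toMonoidHom

theorem fiLift_mk0 (g : (Ideal R)⁰ →* H)
    (hg : ∀ I J : (Ideal R)⁰, ClassGroup.mk0 I = ClassGroup.mk0 J → g I = g J) (I : (Ideal R)⁰) :
    fiLift g hg (ClassGroup.mk0 I) = g I := by
  unfold fiLift
  have h1 : (Con.quotientKerEquivOfSurjective (ClassGroup.mk0 (R := R))
      ClassGroup.mk0_surjective).symm (ClassGroup.mk0 I) =
      ((I : (Ideal R)⁰) : (Con.ker (ClassGroup.mk0 (R := R))).Quotient) := by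
    rw [MulEquiv.symm_apply_eq]
    rfl
  rw [MonoidHom.comp_apply]
  erw [h1]
  rfl

theorem fi_mem_nzd {I : Ideal R} : I ∈ (Ideal R)⁰ ↔ I ≠ ⊥ := by
  rw [mem_nonZeroDivisors_iff_ne_zero, Ideal.zero_eq_bot]

theorem fi_span_ne_bot {x : R} (hx : x ≠ 0) : Ideal.span {x} ≠ (⊥ : Ideal R) := by
  rwa [Ne, Ideal.span_singleton_eq_bot]

/-- principal ideals have trivial class -/
theorem fi_mk0_span {x : R} (hx : x ≠ 0) :
    ClassGroup.mk0 ⟨Ideal.span {x}, fi_mem_nzd.mpr (fi_span_ne_bot hx)⟩ = 1 := by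
  rw [ClassGroup.mk0_eq_one_iff]
  exact ⟨⟨x, rfl⟩⟩

end lift

variable {K L : Type} [Field K] [NumberField K] [Field L] [NumberField L] [Algebra K L]
  [IsGalois K L]

/-! ### The three maps on nonzero ideals -/

/-- the Galois action on nonzero ideals -/
noncomputable def fiSigI (σ : L ≃ₐ[K] L) : (Ideal (𝓞 L))⁰ →* (Ideal (𝓞 L))⁰ where
  toFun I := ⟨σ • (I : Ideal (𝓞 L)), by
    rw [fi_mem_nzd]
    intro h
    have h2 : σ⁻¹ • (σ • (I : Ideal (𝓞 L))) = σ⁻¹ • (⊥ : Ideal (𝓞 L)) := by rw [h]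
    rw [inv_smul_smul, Ideal.smul_bot] at h2
    exact fi_mem_nzd.mp I.2 h2⟩
  map_one' := Subtype.ext (smul_one σ)
  map_mul' I J := Subtype.ext (smul_mul' σ (I : Ideal (𝓞 L)) (J : Ideal (𝓞 L)))

@[simp] theorem fiSigI_coe (σ : L ≃ₐ[K] L) (I : (Ideal (𝓞 L))⁰) :
    ((fiSigI σ I : (Ideal (𝓞 L))⁰) : Ideal (𝓞 L)) = σ • (I : Ideal (𝓞 L)) := rfl

variable (K L) in
/-- the relative norm on nonzero ideals -/
noncomputable def fiNormI : (Ideal (𝓞 L))⁰ →* (Ideal (𝓞 K))⁰ where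
  toFun I := ⟨Ideal.relNorm (𝓞 K) (I : Ideal (𝓞 L)), by
    rw [fi_mem_nzd, Ne, Ideal.relNorm_eq_bot_iff]
    exact fi_mem_nzd.mp I.2⟩
  map_one' := Subtype.ext (map_one (Ideal.relNorm (𝓞 K)))
  map_mul' I J := Subtype.ext (map_mul (Ideal.relNorm (𝓞 K)) _ _)

@[simp] theorem fiNormI_coe (I : (Ideal (𝓞 L))⁰) :
    ((fiNormI K L I : (Ideal (𝓞 K))⁰) : Ideal (𝓞 K)) =
      Ideal.relNorm (𝓞 K) (I : Ideal (𝓞 L)) := rfl

variable (K L) in
/-- extension of nonzero ideals -/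
noncomputable def fiExtI : (Ideal (𝓞 K))⁰ →* (Ideal (𝓞 L))⁰ where
  toFun a := ⟨(a : Ideal (𝓞 K)).map (algebraMap (𝓞 K) (𝓞 L)), by
    rw [fi_mem_nzd, Ne,
      Ideal.map_eq_bot_iff_of_injective (FaithfulSMul.algebraMap_injective (𝓞 K) (𝓞 L))]
    exact fi_mem_nzd.mp a.2⟩
  map_one' := Subtype.ext (by
    show Ideal.map _ (1 : Ideal (𝓞 K)) = 1
    rw [Ideal.one_eq_top, Ideal.map_top, Ideal.one_eq_top])
  map_mul' a b := Subtype.ext (Ideal.map_mul _ _ _)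

@[simp] theorem fiExtI_coe (a : (Ideal (𝓞 K))⁰) :
    ((fiExtI K L a : (Ideal (𝓞 L))⁰) : Ideal (𝓞 L)) =
      (a : Ideal (𝓞 K)).map (algebraMap (𝓞 K) (𝓞 L)) := rfl

theorem fi_smul_span (σ : L ≃ₐ[K] L) (x : 𝓞 L) :
    σ • (Ideal.span {x} : Ideal (𝓞 L)) = Ideal.span {σ • x} := by
  rw [Ideal.smul_closure, Set.smul_set_singleton]

/-! ### The three maps on class groups -/

/-- the Galois action on the class group -/
noncomputable def fiSigC (σ : L ≃ₐ[K] L) : ClassGroup (𝓞 L) →* ClassGroup (𝓞 L) :=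
  fiLift (ClassGroup.mk0.comp (fiSigI σ)) (by
    intro I J h
    rw [ClassGroup.mk0_eq_mk0_iff] at h
    obtain ⟨x, y, hx, hy, hxy⟩ := h
    rw [MonoidHom.comp_apply, MonoidHom.comp_apply, ClassGroup.mk0_eq_mk0_iff]
    refine ⟨σ • x, σ • y, (smul_ne_zero_iff_ne σ).mpr hx, (smul_ne_zero_iff_ne σ).mpr hy, ?_⟩
    rw [fiSigI_coe, fiSigI_coe, ← fi_smul_span, ← fi_smul_span, ← smul_mul', ← smul_mul',
      hxy])

theorem fiSigC_mk0 (σ : L ≃ₐ[K] L) (I : (Ideal (𝓞 L))⁰) :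
    fiSigC σ (ClassGroup.mk0 I) = ClassGroup.mk0 (fiSigI σ I) :=
  fiLift_mk0 _ _ I

variable (K L) in
/-- the norm on class groups -/
noncomputable def fiNormC : ClassGroup (𝓞 L) →* ClassGroup (𝓞 K) :=
  fiLift (ClassGroup.mk0.comp (fiNormI K L)) (by
    intro I J h
    rw [ClassGroup.mk0_eq_mk0_iff] at h
    obtain ⟨x, y, hx, hy, hxy⟩ := h
    rw [MonoidHom.comp_apply, MonoidHom.comp_apply, ClassGroup.mk0_eq_mk0_iff]
    refine ⟨Algebra.intNorm (𝓞 K) (𝓞 L) x, Algebra.intNorm (𝓞 K) (𝓞 L) y,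
      by rwa [Ne, Algebra.intNorm_eq_zero], by rwa [Ne, Algebra.intNorm_eq_zero], ?_⟩
    rw [fiNormI_coe, fiNormI_coe, ← Ideal.relNorm_singleton, ← Ideal.relNorm_singleton,
      ← map_mul, ← map_mul, hxy])

theorem fiNormC_mk0 (I : (Ideal (𝓞 L))⁰) :
    fiNormC K L (ClassGroup.mk0 I) = ClassGroup.mk0 (fiNormI K L I) :=
  fiLift_mk0 _ _ I

variable (K L) in
/-- extension of ideal classes -/
noncomputable def fiExtC : ClassGroup (𝓞 K) →* ClassGroup (𝓞 L) :=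
  fiLift (ClassGroup.mk0.comp (fiExtI K L)) (by
    intro I J h
    rw [ClassGroup.mk0_eq_mk0_iff] at h
    obtain ⟨x, y, hx, hy, hxy⟩ := h
    rw [MonoidHom.comp_apply, MonoidHom.comp_apply, ClassGroup.mk0_eq_mk0_iff]
    have hinj := FaithfulSMul.algebraMap_injective (𝓞 K) (𝓞 L)
    refine ⟨algebraMap (𝓞 K) (𝓞 L) x, algebraMap (𝓞 K) (𝓞 L) y,
      fun h0 => hx (hinj (by rw [h0, map_zero])), fun h0 => hy (hinj (by rw [h0, map_zero])), ?_⟩
    have e : ∀ z : 𝓞 K, (Ideal.span {algebraMap (𝓞 K) (𝓞 L) z} : Ideal (𝓞 L)) =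
        (Ideal.span {z}).map (algebraMap (𝓞 K) (𝓞 L)) := by
      intro z
      rw [Ideal.map_span, Set.image_singleton]
    rw [fiExtI_coe, fiExtI_coe, e, e, ← Ideal.map_mul, ← Ideal.map_mul, hxy])

theorem fiExtC_mk0 (a : (Ideal (𝓞 K))⁰) :
    fiExtC K L (ClassGroup.mk0 a) = ClassGroup.mk0 (fiExtI K L a) :=
  fiLift_mk0 _ _ a

/-- the norm is Galois invariant -/
theorem fiNormC_SigC (σ : L ≃ₐ[K] L) (c : ClassGroup (𝓞 L)) :
    fiNormC K L (fiSigC σ c) = fiNormC K L c := by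
  obtain ⟨I, rfl⟩ := ClassGroup.mk0_surjective c
  rw [fiSigC_mk0, fiNormC_mk0, fiNormC_mk0]
  congr 1
  apply Subtype.ext
  rw [fiNormI_coe, fiNormI_coe, fiSigI_coe, Ideal.relNorm_smul]

/-- norm after extension is the `[L : K]`-th power -/
theorem fiNormC_ExtC (c : ClassGroup (𝓞 K)) :
    fiNormC K L (fiExtC K L c) = c ^ Module.finrank K L := by
  obtain ⟨a, rfl⟩ := ClassGroup.mk0_surjective c
  rw [fiExtC_mk0, fiNormC_mk0, ← map_pow]
  congr 1
  apply Subtype.ext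
  rw [fiNormI_coe, fiExtI_coe, Ideal.relNorm_algebraMap]
  have h : Module.finrank (𝓞 K) (𝓞 L) = Module.finrank K L :=
    (IsFractionRing.finrank_eq (𝓞 K) K (𝓞 L) L).symm
  rw [h]
  rfl


/-! ### Invariant ideals descend -/

/-- every prime of `K` is unramified in `L` -/
def FiUnram (K L : Type) [Field K] [NumberField K] [Field L] [NumberField L] [Algebra K L] :
    Prop :=
  ∀ q : Ideal (𝓞 K), q.IsMaximal → Squarefree (q.map (algebraMap (𝓞 K) (𝓞 L)))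

theorem fi_isGaloisGroup : IsGaloisGroup (L ≃ₐ[K] L) (𝓞 K) (𝓞 L) :=
  IsGaloisGroup.of_isFractionRing (L ≃ₐ[K] L) (𝓞 K) (𝓞 L) K L

theorem fi_smul_map (σ : L ≃ₐ[K] L) (a : Ideal (𝓞 K)) :
    σ • (a.map (algebraMap (𝓞 K) (𝓞 L))) = a.map (algebraMap (𝓞 K) (𝓞 L)) := by
  rw [Ideal.pointwise_smul_def, Ideal.map_map]
  congr 1
  ext x
  simp

/-- **invariant ideals descend** in an unramified Galois extension -/
theorem fi_inv_descend (hur : FiUnram K L) (A : Ideal (𝓞 L)) (hA : A ≠ ⊥)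
    (hinv : ∀ σ : L ≃ₐ[K] L, σ • A = A) :
    ∃ a : Ideal (𝓞 K), a.map (algebraMap (𝓞 K) (𝓞 L)) = A := by
  have := fi_isGaloisGroup (K := K) (L := L)
  induction A using WellFoundedGT.induction with
  | _ A ih =>
  by_cases htop : A = ⊤
  · exact ⟨⊤, by rw [Ideal.map_top, htop]⟩
  obtain ⟨Q, hQmax, hAQ⟩ := Ideal.exists_le_maximal A htop
  set q : Ideal (𝓞 K) := Q.under (𝓞 K) with hq
  have hqmax : q.IsMaximal := Ideal.isMaximal_comap_of_isIntegral_of_isMaximal Q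
  set qL : Ideal (𝓞 L) := q.map (algebraMap (𝓞 K) (𝓞 L)) with hqL
  have hQprime : Q.IsPrime := hQmax.isPrime
  have hQover : Q.LiesOver q := ⟨rfl⟩
  have hqLne : qL ≠ ⊥ := (hur q hqmax).ne_zero
  -- `A` is contained in every prime above `q`
  have hAle : A ≤ qL := by
    rw [← Ideal.dvd_iff_le,
      UniqueFactorizationMonoid.dvd_iff_normalizedFactors_le_normalizedFactors hqLne hA,
      Multiset.le_iff_subset
        ((UniqueFactorizationMonoid.squarefree_iff_nodup_normalizedFactors hqLne).mp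
          (hur q hqmax))]
    intro J hJ
    rw [Ideal.mem_normalizedFactors_iff hqLne] at hJ
    obtain ⟨hJprime, hJle⟩ := hJ
    rw [Ideal.mem_normalizedFactors_iff hA]
    refine ⟨hJprime, ?_⟩
    have hJover : J.LiesOver q := by
      refine ⟨?_⟩
      refine hqmax.eq_of_le ?_ ?_
      · exact (Ideal.IsPrime.under (𝓞 K) J).ne_top
      · exact Ideal.map_le_iff_le_comap.mp hJle
    obtain ⟨σ, hσ⟩ := Ideal.exists_smul_eq_of_isGaloisGroup q Q J (L ≃ₐ[K] L)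
    rw [← hσ, ← hinv σ]
    exact Ideal.pointwise_smul_le_pointwise_smul_iff.mpr hAQ
  obtain ⟨A', hA'⟩ := Ideal.dvd_iff_le.mpr hAle
  have hA'ne : A' ≠ ⊥ := by
    rintro rfl
    rw [Ideal.mul_bot] at hA'
    exact hA hA'
  have hqLtop : qL ≠ ⊤ := by
    intro h
    have : qL ≤ Q := Ideal.map_le_iff_le_comap.mpr le_rfl
    rw [h] at this
    exact hQmax.ne_top (top_le_iff.mp this)
  have hlt : A < A' := by
    refine lt_of_le_of_ne ?_ ?_
    · rw [hA']; exact Ideal.mul_le_right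
    · intro h
      have h2 : qL * A' = 1 * A' := by rw [one_mul, ← hA', h]
      have h3 : qL = 1 := mul_right_cancel₀ hA'ne h2
      exact hqLtop (h3.trans Ideal.one_eq_top)
  have hinv' : ∀ σ : L ≃ₐ[K] L, σ • A' = A' := by
    intro σ
    have h1 := hinv σ
    rw [hA', smul_mul', fi_smul_map] at h1
    exact mul_left_cancel₀ hqLne h1
  obtain ⟨a', ha'⟩ := ih A' hlt hA'ne hinv'
  exact ⟨q * a', by rw [Ideal.map_mul, ha', hA']⟩


/-! ### Hilbert 90 -/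

/-- Hilbert 90 in integral form: a norm one element is `g / σ g` with `g` a nonzero integer. -/
theorem fi_h90 [IsCyclic (L ≃ₐ[K] L)] (σ : L ≃ₐ[K] L)
    (hσ : ∀ τ : L ≃ₐ[K] L, τ ∈ Subgroup.zpowers σ) {z : L} (hz : Algebra.norm K z = 1) :
    ∃ g : 𝓞 L, g ≠ 0 ∧ (g : L) = z * σ (g : L) := by
  obtain ⟨y, hy⟩ := groupCohomology.exists_div_of_norm_eq_one hσ hz
  have hyalg : IsAlgebraic ℤ (y : L) :=
    (IsFractionRing.isAlgebraic_iff ℤ ℚ L).mpr (Algebra.IsAlgebraic.isAlgebraic (y : L))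
  obtain ⟨d, hd, hint⟩ := hyalg.exists_integral_multiple
  have hσy : σ (y : L) ≠ 0 := (map_ne_zero σ).mpr y.ne_zero
  have hyz : (y : L) = z * σ (y : L) := by
    rw [← hy]
    field_simp
  refine ⟨⟨d • (y : L), hint⟩, ?_, ?_⟩
  · intro h
    have h2 : (d • (y : L)) = 0 := congrArg (fun t : 𝓞 L => (t : L)) h
    rw [zsmul_eq_mul] at h2
    rcases mul_eq_zero.mp h2 with h3 | h3
    · exact hd (by exact_mod_cast h3)
    · exact y.ne_zero h3
  · show d • (y : L) = z * σ (d • (y : L))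
    rw [map_zsmul, mul_smul_comm, ← hyz]

/-- an ideal fixed by a generator is fixed by the whole group -/
theorem fi_inv_of_gen (σ : L ≃ₐ[K] L) (hσ : ∀ τ : L ≃ₐ[K] L, τ ∈ Subgroup.zpowers σ)
    (A : Ideal (𝓞 L)) (h : σ • A = A) (τ : L ≃ₐ[K] L) : τ • A = A := by
  have h1 : σ ∈ MulAction.stabilizer (L ≃ₐ[K] L) A := MulAction.mem_stabilizer_iff.mpr h
  have h2 : Subgroup.zpowers σ ≤ MulAction.stabilizer (L ≃ₐ[K] L) A :=
    (Subgroup.zpowers_le).mpr h1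
  exact MulAction.mem_stabilizer_iff.mp (h2 (hσ τ))

/-- **Lemma B**: an ideal with `σ B = (Y / X) B` and `N(Y / X)` the norm of a unit lies in an
extended class. -/
theorem fi_lemB (hur : FiUnram K L) [IsCyclic (L ≃ₐ[K] L)] (σ : L ≃ₐ[K] L)
    (hσ : ∀ τ : L ≃ₐ[K] L, τ ∈ Subgroup.zpowers σ)
    (B : Ideal (𝓞 L)) (hB : B ≠ ⊥) (X Y : 𝓞 L) (hX : X ≠ 0)
    (hXY : Ideal.span {X} * (σ • B) = Ideal.span {Y} * B) (ε : (𝓞 L)ˣ)
    (hN : Algebra.norm K (Y : L) = Algebra.norm K (X : L) * Algebra.norm K ((ε : 𝓞 L) : L)) :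
    ∃ b : (Ideal (𝓞 K))⁰,
      fiExtC K L (ClassGroup.mk0 b) = ClassGroup.mk0 ⟨B, fi_mem_nzd.mpr hB⟩ := by
  have hXL : (X : L) ≠ 0 := (map_ne_zero_iff _ RingOfIntegers.coe_injective).mpr hX
  have hεL : ((ε : 𝓞 L) : L) ≠ 0 :=
    (map_ne_zero_iff _ RingOfIntegers.coe_injective).mpr ε.ne_zero
  have hNX : Algebra.norm K (X : L) ≠ 0 := Algebra.norm_ne_zero_iff.mpr hXL
  have hNε : Algebra.norm K ((ε : 𝓞 L) : L) ≠ 0 := Algebra.norm_ne_zero_iff.mpr hεL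
  have hz : Algebra.norm K ((Y : L) * ((X : L) * ((ε : 𝓞 L) : L))⁻¹) = 1 := by
    rw [map_mul, Algebra.norm_inv, map_mul, hN]
    exact mul_inv_cancel₀ (mul_ne_zero hNX hNε)
  obtain ⟨g, hg0, hg⟩ := fi_h90 σ hσ hz
  -- `g * X * ε = Y * σ g`
  have hrel : g * X * (ε : 𝓞 L) = Y * (σ • g) := by
    apply RingOfIntegers.coe_injective
    show (g : L) * (X : L) * ((ε : 𝓞 L) : L) = (Y : L) * σ (g : L)
    conv_lhs => rw [hg]
    field_simp
  set C : Ideal (𝓞 L) := Ideal.span {g} * B with hC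
  have hCne : C ≠ ⊥ := mul_ne_zero (fi_span_ne_bot hg0) hB
  have hXne : (Ideal.span {X} : Ideal (𝓞 L)) ≠ ⊥ := fi_span_ne_bot hX
  have hσC : σ • C = C := by
    apply mul_left_cancel₀ hXne
    calc Ideal.span {X} * σ • C = Ideal.span {σ • g} * (Ideal.span {X} * (σ • B)) := by
          rw [hC, smul_mul', fi_smul_span]; ring
      _ = Ideal.span {Y * (σ • g)} * B := by
          rw [hXY, ← Ideal.span_singleton_mul_span_singleton]; ring
      _ = Ideal.span {g * X} * B := by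
          rw [← hrel, Ideal.span_singleton_mul_right_unit ε.isUnit]
      _ = Ideal.span {X} * C := by
          rw [hC, ← Ideal.span_singleton_mul_span_singleton]; ring
  obtain ⟨b, hb⟩ := fi_inv_descend hur C hCne (fi_inv_of_gen σ hσ C hσC)
  have hbne : b ≠ ⊥ := by
    rintro rfl
    rw [Ideal.map_bot] at hb
    exact hCne hb.symm
  refine ⟨⟨b, fi_mem_nzd.mpr hbne⟩, ?_⟩
  rw [fiExtC_mk0]
  have e1 : fiExtI K L ⟨b, fi_mem_nzd.mpr hbne⟩ =
      (⟨Ideal.span {g}, fi_mem_nzd.mpr (fi_span_ne_bot hg0)⟩ : (Ideal (𝓞 L))⁰) *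
        ⟨B, fi_mem_nzd.mpr hB⟩ := Subtype.ext hb
  rw [e1, map_mul, fi_mk0_span hg0, one_mul]

/-! ### Fixed classes -/

/-- the relation "`c` is a `σ`-fixed class with multiplier of norm `u`" -/
def FiP (σ : L ≃ₐ[K] L) (c : ClassGroup (𝓞 L)) (u : (𝓞 K)ˣ) : Prop :=
  ∃ (A : (Ideal (𝓞 L))⁰) (x y : 𝓞 L), ClassGroup.mk0 A = c ∧ x ≠ 0 ∧ y ≠ 0 ∧
    Ideal.span {x} * (σ • (A : Ideal (𝓞 L))) = Ideal.span {y} * (A : Ideal (𝓞 L)) ∧
    Algebra.norm K (y : L) = Algebra.norm K (x : L) * ((u : 𝓞 K) : K)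

theorem fi_norm_coe (x : 𝓞 L) :
    Algebra.norm K (x : L) = ((Algebra.intNorm (𝓞 K) (𝓞 L) x : 𝓞 K) : K) :=
  (Algebra.algebraMap_intNorm (A := 𝓞 K) (K := K) (L := L) (B := 𝓞 L) x).symm

theorem fi_P_exists (σ : L ≃ₐ[K] L) (c : ClassGroup (𝓞 L)) (hc : fiSigC σ c = c) :
    ∃ u : (𝓞 K)ˣ, FiP σ c u := by
  obtain ⟨A, rfl⟩ := ClassGroup.mk0_surjective c
  rw [fiSigC_mk0, ClassGroup.mk0_eq_mk0_iff] at hc
  obtain ⟨x, y, hx, hy, h⟩ := hc
  rw [fiSigI_coe] at h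
  have h2 := congrArg (Ideal.relNorm (𝓞 K)) h
  rw [map_mul, map_mul, Ideal.relNorm_singleton, Ideal.relNorm_singleton, Ideal.relNorm_smul]
    at h2
  have hA : Ideal.relNorm (𝓞 K) (A : Ideal (𝓞 L)) ≠ 0 := by
    rw [Ideal.zero_eq_bot, Ne, Ideal.relNorm_eq_bot_iff]
    exact fi_mem_nzd.mp A.2
  have h3 := mul_right_cancel₀ hA h2
  obtain ⟨u, hu⟩ := Ideal.span_singleton_eq_span_singleton.mp h3
  refine ⟨u, A, x, y, rfl, hx, hy, h, ?_⟩
  rw [fi_norm_coe, fi_norm_coe, ← hu]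
  rfl

theorem fi_P_fibre (hur : FiUnram K L) [IsCyclic (L ≃ₐ[K] L)] (σ : L ≃ₐ[K] L)
    (hσ : ∀ τ : L ≃ₐ[K] L, τ ∈ Subgroup.zpowers σ) (c c' : ClassGroup (𝓞 L)) (u u' : (𝓞 K)ˣ)
    (h : FiP σ c u) (h' : FiP σ c' u') (ε : (𝓞 L)ˣ)
    (hε : Algebra.norm K ((ε : 𝓞 L) : L) = ((u : 𝓞 K) : K) * ((u' : 𝓞 K) : K)⁻¹) :
    c * c'⁻¹ ∈ (fiExtC K L).range := by
  obtain ⟨A, x, y, rfl, hx, hy, hA, hN⟩ := h
  obtain ⟨A', x', y', rfl, hx', hy', hA', hN'⟩ := h'
  obtain ⟨A'', hA''⟩ := ClassGroup.mk0_surjective (ClassGroup.mk0 A')⁻¹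
  have hprin : ((A' : Ideal (𝓞 L)) * (A'' : Ideal (𝓞 L))).IsPrincipal := by
    have h1 : ClassGroup.mk0 (A' * A'') = 1 := by rw [map_mul, hA'', mul_inv_cancel]
    exact (ClassGroup.mk0_eq_one_iff (A' * A'').2).mp h1
  obtain ⟨⟨a, ha⟩⟩ := hprin
  have ha' : (A' : Ideal (𝓞 L)) * (A'' : Ideal (𝓞 L)) = Ideal.span {a} := ha
  have hA'ne : (A' : Ideal (𝓞 L)) ≠ ⊥ := fi_mem_nzd.mp A'.2
  have hA''ne : (A'' : Ideal (𝓞 L)) ≠ ⊥ := fi_mem_nzd.mp A''.2
  have ha0 : a ≠ 0 := by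
    rintro rfl
    rw [Set.singleton_zero, Ideal.span_zero] at ha'
    exact mul_ne_zero hA'ne hA''ne ha'
  have hσa : σ • (A' : Ideal (𝓞 L)) * σ • (A'' : Ideal (𝓞 L)) = Ideal.span {σ • a} := by
    rw [← smul_mul', ha', fi_smul_span]
  have hσA'ne : σ • (A' : Ideal (𝓞 L)) ≠ ⊥ := fi_mem_nzd.mp (fiSigI σ A').2
  -- the multiplier of `A''`
  have hA''rel : Ideal.span {y' * a} * σ • (A'' : Ideal (𝓞 L)) =
      Ideal.span {x' * σ • a} * (A'' : Ideal (𝓞 L)) := by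
    apply mul_right_cancel₀ hσA'ne
    calc Ideal.span {y' * a} * σ • (A'' : Ideal (𝓞 L)) * σ • (A' : Ideal (𝓞 L))
        = Ideal.span {y'} * Ideal.span {a} *
            (σ • (A' : Ideal (𝓞 L)) * σ • (A'' : Ideal (𝓞 L))) := by
          rw [← Ideal.span_singleton_mul_span_singleton]; ring
      _ = Ideal.span {σ • a} * (A'' : Ideal (𝓞 L)) * (Ideal.span {y'} * (A' : Ideal (𝓞 L))) := by
          rw [hσa, ← ha']; ring
      _ = Ideal.span {x' * σ • a} * (A'' : Ideal (𝓞 L)) * σ • (A' : Ideal (𝓞 L)) := by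
          rw [← hA', ← Ideal.span_singleton_mul_span_singleton]; ring
  set B : Ideal (𝓞 L) := (A : Ideal (𝓞 L)) * (A'' : Ideal (𝓞 L)) with hB
  have hBne : B ≠ ⊥ := mul_ne_zero (fi_mem_nzd.mp A.2) hA''ne
  have hσa0 : σ • a ≠ 0 := (smul_ne_zero_iff_ne σ).mpr ha0
  have hrel : Ideal.span {x * (y' * a)} * σ • B = Ideal.span {y * (x' * σ • a)} * B := by
    have e1 : (Ideal.span {x * (y' * a)} : Ideal (𝓞 L)) =
        Ideal.span {x} * Ideal.span {y' * a} :=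
      (Ideal.span_singleton_mul_span_singleton _ _).symm
    have e2 : (Ideal.span {y * (x' * σ • a)} : Ideal (𝓞 L)) =
        Ideal.span {y} * Ideal.span {x' * σ • a} :=
      (Ideal.span_singleton_mul_span_singleton _ _).symm
    rw [hB, smul_mul', e1, e2]
    calc Ideal.span {x} * Ideal.span {y' * a} *
          (σ • (A : Ideal (𝓞 L)) * σ • (A'' : Ideal (𝓞 L)))
        = (Ideal.span {x} * σ • (A : Ideal (𝓞 L))) *
            (Ideal.span {y' * a} * σ • (A'' : Ideal (𝓞 L))) := by ring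
      _ = Ideal.span {y} * Ideal.span {x' * σ • a} *
            ((A : Ideal (𝓞 L)) * (A'' : Ideal (𝓞 L))) := by rw [hA, hA''rel]; ring
  have hnorm : Algebra.norm K ((y * (x' * σ • a) : 𝓞 L) : L) =
      Algebra.norm K ((x * (y' * a) : 𝓞 L) : L) * Algebra.norm K ((ε : 𝓞 L) : L) := by
    have e1 : Algebra.norm K ((σ • a : 𝓞 L) : L) = Algebra.norm K (a : L) :=
      Algebra.norm_eq_of_algEquiv σ (a : L)
    have hu' : ((u' : 𝓞 K) : K) ≠ 0 :=
      (map_ne_zero_iff _ RingOfIntegers.coe_injective).mpr u'.ne_zero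
    simp only [map_mul]
    rw [hN, hN', e1, hε]
    field_simp
  obtain ⟨b, hb⟩ := fi_lemB hur σ hσ B hBne (x * (y' * a)) (y * (x' * σ • a))
    (mul_ne_zero hx (mul_ne_zero hy' ha0)) hrel ε hnorm
  refine ⟨ClassGroup.mk0 b, ?_⟩
  rw [hb, ← hA'', ← map_mul]
  rfl

/-! ### Capitulation -/

/-- the relation "the unit `η` is `σ g / g` with `(g) = a O_L`" -/
def FiS (σ : L ≃ₐ[K] L) (η : (𝓞 L)ˣ) (a : (Ideal (𝓞 K))⁰) : Prop :=
  ∃ g : 𝓞 L, g ≠ 0 ∧ σ • g = (η : 𝓞 L) * g ∧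
    (a : Ideal (𝓞 K)).map (algebraMap (𝓞 K) (𝓞 L)) = Ideal.span {g}

theorem fi_S_exists (hur : FiUnram K L) [IsCyclic (L ≃ₐ[K] L)] (σ : L ≃ₐ[K] L)
    (hσ : ∀ τ : L ≃ₐ[K] L, τ ∈ Subgroup.zpowers σ) (η : (𝓞 L)ˣ)
    (hη : Algebra.norm K ((η : 𝓞 L) : L) = 1) : ∃ a : (Ideal (𝓞 K))⁰, FiS σ η a := by
  have hηL : ((η : 𝓞 L) : L) ≠ 0 :=
    (map_ne_zero_iff _ RingOfIntegers.coe_injective).mpr η.ne_zero
  have hz : Algebra.norm K ((η : 𝓞 L) : L)⁻¹ = 1 := by rw [Algebra.norm_inv, hη, inv_one]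
  obtain ⟨g, hg0, hg⟩ := fi_h90 σ hσ hz
  have hrel : σ • g = (η : 𝓞 L) * g := by
    apply RingOfIntegers.coe_injective
    show σ (g : L) = ((η : 𝓞 L) : L) * (g : L)
    conv_rhs => rw [hg]
    field_simp
  have hinv : σ • (Ideal.span {g} : Ideal (𝓞 L)) = Ideal.span {g} := by
    rw [fi_smul_span, hrel, Ideal.span_singleton_mul_left_unit η.isUnit]
  obtain ⟨a, ha⟩ := fi_inv_descend hur _ (fi_span_ne_bot hg0) (fi_inv_of_gen σ hσ _ hinv)
  have hane : a ≠ ⊥ := by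
    rintro rfl
    rw [Ideal.map_bot] at ha
    exact fi_span_ne_bot hg0 ha.symm
  exact ⟨⟨a, fi_mem_nzd.mpr hane⟩, g, hg0, hrel, ha⟩

theorem fi_S_ker (σ : L ≃ₐ[K] L) (η : (𝓞 L)ˣ) (a : (Ideal (𝓞 K))⁰) (h : FiS σ η a) :
    fiExtC K L (ClassGroup.mk0 a) = 1 := by
  obtain ⟨g, hg0, -, ha⟩ := h
  rw [fiExtC_mk0]
  have e : fiExtI K L a = ⟨Ideal.span {g}, fi_mem_nzd.mpr (fi_span_ne_bot hg0)⟩ :=
    Subtype.ext ha
  rw [e, fi_mk0_span hg0]

theorem fi_S_fibre (σ : L ≃ₐ[K] L) (η η' : (𝓞 L)ˣ) (a a' : (Ideal (𝓞 K))⁰)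
    (h : FiS σ η a) (h' : FiS σ η' a') (hcl : ClassGroup.mk0 a = ClassGroup.mk0 a') :
    ∃ ε : (𝓞 L)ˣ, (((η⁻¹ * η' : (𝓞 L)ˣ) : 𝓞 L) : L) =
      σ ((ε : 𝓞 L) : L) / ((ε : 𝓞 L) : L) := by
  obtain ⟨g, hg0, hg, ha⟩ := h
  obtain ⟨g', hg'0, hg', ha'⟩ := h'
  rw [ClassGroup.mk0_eq_mk0_iff] at hcl
  obtain ⟨x, y, hx, hy, hxy⟩ := hcl
  have h1 := congrArg (Ideal.map (algebraMap (𝓞 K) (𝓞 L))) hxy
  rw [Ideal.map_mul, Ideal.map_mul, ha, ha', Ideal.map_span, Ideal.map_span,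
    Set.image_singleton, Set.image_singleton, Ideal.span_singleton_mul_span_singleton,
    Ideal.span_singleton_mul_span_singleton] at h1
  obtain ⟨ε, hε⟩ := Ideal.span_singleton_eq_span_singleton.mp h1
  refine ⟨ε, ?_⟩
  -- apply `σ` to `x g ε = y g'`
  have h2 := congrArg (fun t : 𝓞 L => σ • t) hε
  simp only [smul_mul', smul_algebraMap] at h2
  rw [hg, hg'] at h2
  have h2' : algebraMap (𝓞 K) (𝓞 L) x * ((η : 𝓞 L) * g) * σ • (ε : 𝓞 L) =
      (η' : 𝓞 L) * (algebraMap (𝓞 K) (𝓞 L) x * g * (ε : 𝓞 L)) := by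
    rw [hε, h2]; ring
  have h3 : ((algebraMap (𝓞 K) (𝓞 L) x : 𝓞 L) : L) * (((η : 𝓞 L) : L) * (g : L)) *
      σ ((ε : 𝓞 L) : L) =
      ((η' : 𝓞 L) : L) * (((algebraMap (𝓞 K) (𝓞 L) x : 𝓞 L) : L) * (g : L) * ((ε : 𝓞 L) : L)) :=
    congrArg (fun t : 𝓞 L => (t : L)) h2'
  have hxL : ((algebraMap (𝓞 K) (𝓞 L) x : 𝓞 L) : L) ≠ 0 :=
    (map_ne_zero_iff _ RingOfIntegers.coe_injective).mpr
      ((map_ne_zero_iff _ (FaithfulSMul.algebraMap_injective (𝓞 K) (𝓞 L))).mpr hx)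
  have hgL : (g : L) ≠ 0 := (map_ne_zero_iff _ RingOfIntegers.coe_injective).mpr hg0
  have hηL : ((η : 𝓞 L) : L) ≠ 0 :=
    (map_ne_zero_iff _ RingOfIntegers.coe_injective).mpr η.ne_zero
  have hεL : ((ε : 𝓞 L) : L) ≠ 0 :=
    (map_ne_zero_iff _ RingOfIntegers.coe_injective).mpr ε.ne_zero
  have hinv : (((η⁻¹ : (𝓞 L)ˣ) : 𝓞 L) : L) = ((η : 𝓞 L) : L)⁻¹ := by
    apply eq_inv_of_mul_eq_one_left
    rw [← map_mul, ← Units.val_mul, inv_mul_cancel, Units.val_one, map_one]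
  have h4 : ((η' : 𝓞 L) : L) * ((ε : 𝓞 L) : L) = ((η : 𝓞 L) : L) * σ ((ε : 𝓞 L) : L) := by
    apply mul_left_cancel₀ (mul_ne_zero hxL hgL)
    linear_combination -h3
  have hmul : (((η⁻¹ * η' : (𝓞 L)ˣ) : 𝓞 L) : L) = ((η : 𝓞 L) : L)⁻¹ * ((η' : 𝓞 L) : L) := by
    rw [← hinv]; rfl
  rw [eq_div_iff hεL, hmul, mul_assoc, h4, inv_mul_cancel_left₀ hηL]

/-! ### Counting -/

section counting

/-- in a finite commutative group, the image of a hom killed by `s / 1` is at most the number of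
fixed points of `s` -/
theorem fi_card_range_le {G H : Type*} [CommGroup G] [Finite G] [Group H] (s : G →* G)
    (N : G →* H) (hN : ∀ c, N (s c) = N c) :
    Nat.card N.range ≤ Nat.card {c : G // s c = c} := by
  classical
  let D : G →* G := s / MonoidHom.id G
  have hD : ∀ c, D c = s c / c := fun c => rfl
  have hle : D.range ≤ N.ker := by
    rintro _ ⟨c, rfl⟩
    rw [MonoidHom.mem_ker, hD, map_div, hN, div_self']
  have h1 : N.ker.index ∣ D.range.index := Subgroup.index_dvd_of_le hle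
  have h2 : N.ker.index = Nat.card N.range := Subgroup.index_ker N
  have h3 : D.ker.index = Nat.card D.range := Subgroup.index_ker D
  have h4 : Nat.card D.ker * D.ker.index = Nat.card G := Subgroup.card_mul_index D.ker
  have h5 : Nat.card D.range * D.range.index = Nat.card G := Subgroup.card_mul_index D.range
  have hpos : 0 < Nat.card D.range := Nat.card_pos
  have h6 : D.range.index = Nat.card D.ker := by
    apply Nat.eq_of_mul_eq_mul_left hpos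
    rw [h5, ← h4, h3, mul_comm]
  have h7 : Nat.card D.ker = Nat.card {c : G // s c = c} := by
    apply Nat.card_congr
    refine Equiv.subtypeEquivRight fun c => ?_
    rw [MonoidHom.mem_ker, hD, div_eq_one]
  rw [← h2, ← h7, ← h6]
  have hidx : D.range.index ≠ 0 := Subgroup.index_ne_zero_of_finite
  exact Nat.le_of_dvd (Nat.pos_of_ne_zero hidx) h1

/-- abstract fibre count -/
theorem fi_card_fibre {α β G : Type*} [Group G] [Finite β] (J : Subgroup G) [Finite J]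
    (e : α → G) (he : Function.Injective e) (θ : α → β)
    (h : ∀ a a', θ a = θ a' → e a * (e a')⁻¹ ∈ J) :
    Nat.card α ≤ Nat.card β * Nat.card J := by
  classical
  rcases isEmpty_or_nonempty α with hα | hα
  · rw [Nat.card_of_isEmpty]; exact Nat.zero_le _
  have hb : ∀ a, θ (Function.invFun θ (θ a)) = θ a := fun a => Function.invFun_eq ⟨a, rfl⟩
  let f : α → β × J := fun a => (θ a, ⟨e a * (e (Function.invFun θ (θ a)))⁻¹, h _ _ (hb a).symm⟩)
  have hf : Function.Injective f := by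
    intro a a' haa
    have h1 : θ a = θ a' := congrArg Prod.fst haa
    have h2 := congrArg (fun t : β × J => (t.2 : G)) haa
    simp only [f] at h2
    rw [h1] at h2
    exact he (mul_right_cancel h2)
  calc Nat.card α ≤ Nat.card (β × J) := Nat.card_le_card_of_injective f hf
    _ = Nat.card β * Nat.card J := Nat.card_prod β J

end counting

/-- **the norm on class groups is not surjective** for an unramified cyclic extension, given the
unit index computation. -/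
theorem fi_norm_not_surj (hur : FiUnram K L) [IsCyclic (L ≃ₐ[K] L)] (σ : L ≃ₐ[K] L)
    (hσ : ∀ τ : L ≃ₐ[K] L, τ ∈ Subgroup.zpowers σ)
    (Z B : Subgroup (𝓞 L)ˣ) (NE : Subgroup (𝓞 K)ˣ)
    (hZ : ∀ η : (𝓞 L)ˣ, η ∈ Z → Algebra.norm K ((η : 𝓞 L) : L) = 1)
    (hB : ∀ η : (𝓞 L)ˣ, (∃ ε : (𝓞 L)ˣ, ((η : 𝓞 L) : L) = σ ((ε : 𝓞 L) : L) / ((ε : 𝓞 L) : L)) →
      η ∈ B)
    (hNE : ∀ u : (𝓞 K)ˣ, u ∈ NE →
      ∃ ε : (𝓞 L)ˣ, Algebra.norm K ((ε : 𝓞 L) : L) = ((u : 𝓞 K) : K))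
    (p : ℕ) (hp : 2 ≤ p) (hidx : NE.index ≠ 0) (hcard : B.relIndex Z = p * NE.index) :
    (fiNormC K L).range ≠ ⊤ := by
  classical
  -- (1) the range of the norm is at most the number of fixed classes
  have h1 := fi_card_range_le (fiSigC σ) (fiNormC K L) (fiNormC_SigC σ)
  -- (2) the number of fixed classes
  have hfi : NE.FiniteIndex := ⟨hidx⟩
  have hfin : Finite ((𝓞 K)ˣ ⧸ NE) := Subgroup.finite_quotient_of_finiteIndex
  have hex : ∀ c : {c : ClassGroup (𝓞 L) // fiSigC σ c = c}, ∃ u : (𝓞 K)ˣ, FiP σ c.1 u :=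
    fun c => fi_P_exists σ c.1 c.2
  have h2 : Nat.card {c : ClassGroup (𝓞 L) // fiSigC σ c = c} ≤
      Nat.card ((𝓞 K)ˣ ⧸ NE) * Nat.card (fiExtC K L).range := by
    refine fi_card_fibre (fiExtC K L).range (fun c => c.1) Subtype.val_injective
      (fun c => ((hex c).choose : (𝓞 K)ˣ ⧸ NE)) ?_
    intro c c' hcc
    have hmem : (hex c').choose⁻¹ * (hex c).choose ∈ NE := QuotientGroup.eq.mp hcc.symm
    obtain ⟨ε, hε⟩ := hNE _ hmem
    refine fi_P_fibre hur σ hσ c.1 c'.1 _ _ (hex c).choose_spec (hex c').choose_spec ε ?_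
    rw [hε]
    have hu' : (((hex c').choose : 𝓞 K) : K) ≠ 0 :=
      (map_ne_zero_iff _ RingOfIntegers.coe_injective).mpr (hex c').choose.ne_zero
    have hinv : ((((hex c').choose⁻¹ : (𝓞 K)ˣ) : 𝓞 K) : K) * (((hex c').choose : 𝓞 K) : K) = 1 := by
      have : ((((hex c').choose⁻¹ : (𝓞 K)ˣ) : 𝓞 K)) * (((hex c').choose : 𝓞 K)) = 1 := by
        rw [← Units.val_mul, inv_mul_cancel, Units.val_one]
      exact congrArg (fun t : 𝓞 K => (t : K)) this
    have hmul : ((((hex c').choose⁻¹ * (hex c).choose : (𝓞 K)ˣ) : 𝓞 K) : K) =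
        ((((hex c').choose⁻¹ : (𝓞 K)ˣ) : 𝓞 K) : K) * (((hex c).choose : 𝓞 K) : K) := rfl
    rw [hmul, eq_inv_of_mul_eq_one_left hinv, mul_comm]
  -- (3) capitulation
  have hex3 : ∀ q : Z ⧸ B.subgroupOf Z, ∃ a : (Ideal (𝓞 K))⁰, FiS σ (q.out : (𝓞 L)ˣ) a :=
    fun q => fi_S_exists hur σ hσ _ (hZ _ q.out.2)
  have h3 : B.relIndex Z ≤ Nat.card (fiExtC K L).ker := by
    let f : Z ⧸ B.subgroupOf Z → (fiExtC K L).ker := fun q =>
      ⟨ClassGroup.mk0 (hex3 q).choose, fi_S_ker σ _ _ (hex3 q).choose_spec⟩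
    have hf : Function.Injective f := by
      intro q q' hqq
      have hcl : ClassGroup.mk0 (hex3 q).choose = ClassGroup.mk0 (hex3 q').choose :=
        congrArg Subtype.val hqq
      obtain ⟨ε, hε⟩ := fi_S_fibre σ _ _ _ _ (hex3 q).choose_spec (hex3 q').choose_spec hcl
      have hmem : ((q.out : (𝓞 L)ˣ))⁻¹ * (q'.out : (𝓞 L)ˣ) ∈ B := hB _ ⟨ε, hε⟩
      have : (q.out : Z ⧸ B.subgroupOf Z) = (q'.out : Z ⧸ B.subgroupOf Z) := by
        rw [QuotientGroup.eq, Subgroup.mem_subgroupOf]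
        exact hmem
      rwa [QuotientGroup.out_eq', QuotientGroup.out_eq'] at this
    exact Nat.card_le_card_of_injective f hf
  -- (4) combine
  have h4 : Nat.card (fiExtC K L).ker * Nat.card (fiExtC K L).range =
      Nat.card (ClassGroup (𝓞 K)) := by
    rw [← Subgroup.index_ker, Subgroup.card_mul_index]
  intro htop
  have h5 : Nat.card (fiNormC K L).range = Nat.card (ClassGroup (𝓞 K)) := by
    rw [htop]; exact Subgroup.card_top
  have hNEidx : Nat.card ((𝓞 K)ˣ ⧸ NE) = NE.index := rfl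
  rw [hNEidx] at h2
  rw [hcard] at h3
  have hpos : 0 < Nat.card (ClassGroup (𝓞 K)) := Nat.card_pos
  have hpos2 : 0 < NE.index := Nat.pos_of_ne_zero hidx
  have hposr : 0 < Nat.card (fiExtC K L).range := Nat.card_pos
  -- h := #Cl_K ≤ idx * r,  p * idx ≤ k,  k * r = h
  have h6 : Nat.card (ClassGroup (𝓞 K)) ≤ NE.index * Nat.card (fiExtC K L).range :=
    h5 ▸ (h1.trans h2)
  have h7 : p * NE.index * Nat.card (fiExtC K L).range ≤ Nat.card (ClassGroup (𝓞 K)) := by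
    rw [← h4]
    exact Nat.mul_le_mul_right _ h3
  have h8 : 2 * (NE.index * Nat.card (fiExtC K L).range) ≤
      NE.index * Nat.card (fiExtC K L).range := by
    calc 2 * (NE.index * Nat.card (fiExtC K L).range)
        ≤ p * (NE.index * Nat.card (fiExtC K L).range) := Nat.mul_le_mul_right _ hp
      _ = p * NE.index * Nat.card (fiExtC K L).range := (mul_assoc _ _ _).symm
      _ ≤ Nat.card (ClassGroup (𝓞 K)) := h7
      _ ≤ NE.index * Nat.card (fiExtC K L).range := h6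
  have h9 : 0 < NE.index * Nat.card (fiExtC K L).range := Nat.mul_pos hpos2 hposr
  omega

end C14

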