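import Mathlib

set_option autoImplicit false

/-!
# Herbrand-type index computation for a cyclic group of prime order (abstract part)

For a finitely generated abelian group `M` with an endomorphism `s` with `s ^ p = 1`,
`N = ∑_{i<p} s^i`, `F = ker (1 - s)`, `Z = ker N`:
`[Z : (1 - s) M] * p ^ rank F = p ^ c * [F : N M]` whenever `rank M = rank F + (p - 1) * c`.
-/

open Finset Polynomial

section C14H

variable {A : Type*} [AddCommGroup A]

/-- Kernel/cokernel bookkeeping for a composition of endomorphisms (unconditional). -/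
theorem c14h_comp (φ ψ : A →+ A) :
    (φ.comp ψ).range.index * Nat.card φ.ker * Nat.card ψ.ker
      = φ.range.index * ψ.range.index * Nat.card (φ.comp ψ).ker := by
  have h1 : (φ.comp ψ).range = ψ.range.map φ := (AddMonoidHom.map_range φ ψ).symm
  have h2 : (ψ.range.map φ).relIndex φ.range * φ.range.index = (ψ.range.map φ).index :=
    AddSubgroup.relIndex_mul_index (AddSubgroup.map_le_range φ ψ.range)
  have h3 : (ψ.range.map φ).relIndex φ.range = (ψ.range ⊔ φ.ker).index := by
    have := AddSubgroup.relIndex_map_map φ ψ.range ⊤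
    rw [← AddMonoidHom.range_eq_map, top_sup_eq, AddSubgroup.relIndex_top_right] at this
    exact this
  have h4 : ψ.range.relIndex (ψ.range ⊔ φ.ker) * (ψ.range ⊔ φ.ker).index = ψ.range.index :=
    AddSubgroup.relIndex_mul_index le_sup_left
  have h5 : ψ.range.relIndex (ψ.range ⊔ φ.ker) = ψ.range.relIndex φ.ker :=
    AddSubgroup.relIndex_sup_left _ _
  have h6 : Nat.card ↥(ψ.range ⊓ φ.ker) * ψ.range.relIndex φ.ker = Nat.card φ.ker := by
    have := AddSubgroup.relIndex_mul_relIndex (H := (⊥ : AddSubgroup A)) (K := ψ.range ⊓ φ.ker)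
      (L := φ.ker) bot_le inf_le_right
    rw [AddSubgroup.relIndex_bot_left, AddSubgroup.relIndex_bot_left,
      AddSubgroup.inf_relIndex_right] at this
    exact this
  have h7 : (φ.comp ψ).ker = φ.ker.comap ψ := (AddMonoidHom.comap_ker φ ψ).symm
  have h8 : ψ.ker.relIndex (φ.ker.comap ψ) = Nat.card ↥(ψ.range ⊓ φ.ker) := by
    rw [AddSubgroup.relIndex_ker, AddSubgroup.map_comap_eq]
  have h9 : Nat.card ψ.ker * ψ.ker.relIndex (φ.ker.comap ψ) = Nat.card ↥(φ.ker.comap ψ) := by
    have := AddSubgroup.relIndex_mul_relIndex (H := (⊥ : AddSubgroup A)) (K := ψ.ker)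
      (L := φ.ker.comap ψ) bot_le (by
        intro x hx
        rw [AddSubgroup.mem_comap, (AddMonoidHom.mem_ker).1 hx]
        exact φ.ker.zero_mem)
    rw [AddSubgroup.relIndex_bot_left, AddSubgroup.relIndex_bot_left] at this
    exact this
  rw [h1, ← h2, h3, ← h4, h5, ← h6, h7, ← h9, h8]
  ring

/-- the endomorphism attached to a polynomial in `s` -/
noncomputable def c14hEv (s : Module.End ℤ A) (P : ℤ[X]) : A →+ A := (aeval s P).toAddMonoidHom

theorem c14hEv_mul (s : Module.End ℤ A) (P Q : ℤ[X]) :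
    c14hEv s (P * Q) = (c14hEv s P).comp (c14hEv s Q) := by
  unfold c14hEv
  rw [map_mul]
  rfl

theorem c14hEv_one (s : Module.End ℤ A) : c14hEv s 1 = AddMonoidHom.id A := by
  unfold c14hEv
  rw [map_one]
  rfl

theorem c14h_prod (s : Module.End ℤ A) {ι : Type*} (S : Finset ι) (P : ι → ℤ[X])
    (hfin : Finite (c14hEv s (∏ k ∈ S, P k)).ker) :
    (c14hEv s (∏ k ∈ S, P k)).range.index * ∏ k ∈ S, Nat.card (c14hEv s (P k)).ker
      = (∏ k ∈ S, (c14hEv s (P k)).range.index) * Nat.card (c14hEv s (∏ k ∈ S, P k)).ker := by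
  classical
  induction S using Finset.induction_on with
  | empty =>
    simp only [prod_empty, c14hEv_one]
    rw [AddMonoidHom.range_eq_top.2 (fun x => ⟨x, rfl⟩), AddSubgroup.index_top]
    have : (AddMonoidHom.id A).ker = ⊥ := by
      ext x; simp
    rw [this, AddSubgroup.card_bot]
  | insert a S ha ih =>
    rw [prod_insert ha, prod_insert ha, prod_insert ha] at *
    rw [c14hEv_mul] at *
    have hle : (c14hEv s (∏ k ∈ S, P k)).ker ≤
        ((c14hEv s (P a)).comp (c14hEv s (∏ k ∈ S, P k))).ker := by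
      intro x hx
      rw [AddMonoidHom.mem_ker] at hx ⊢
      rw [AddMonoidHom.comp_apply, hx, map_zero]
    have hfin' : Finite (c14hEv s (∏ k ∈ S, P k)).ker :=
      Finite.of_injective (AddSubgroup.inclusion hle) (AddSubgroup.inclusion_injective hle)
    have ih' := ih hfin'
    have hk : Nat.card (c14hEv s (∏ k ∈ S, P k)).ker ≠ 0 := Nat.card_pos.ne'
    have hc := c14h_comp (c14hEv s (P a)) (c14hEv s (∏ k ∈ S, P k))
    apply Nat.eq_of_mul_eq_mul_right (Nat.pos_of_ne_zero hk)
    calc _ = ((c14hEv s (P a)).comp (c14hEv s (∏ k ∈ S, P k))).range.index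
            * Nat.card (c14hEv s (P a)).ker
            * Nat.card (c14hEv s (∏ k ∈ S, P k)).ker
            * ∏ k ∈ S, Nat.card (c14hEv s (P k)).ker := by ring
      _ = (c14hEv s (P a)).range.index
            * Nat.card ((c14hEv s (P a)).comp (c14hEv s (∏ k ∈ S, P k))).ker
            * ((c14hEv s (∏ k ∈ S, P k)).range.index
              * ∏ k ∈ S, Nat.card (c14hEv s (P k)).ker) := by
        rw [hc]; ring
      _ = _ := by rw [ih']; ring

theorem c14h_cyclo_dvd {p : ℕ} (hp : p.Prime) :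
    cyclotomic p ℤ ∣ (∏ k ∈ range (p - 1), (1 - X ^ (k + 1)) - C (p : ℤ) : ℤ[X]) := by
  have hζ : IsPrimitiveRoot (Complex.exp (2 * Real.pi * Complex.I / p)) p :=
    Complex.isPrimitiveRoot_exp p hp.ne_zero
  rw [Polynomial.cyclotomic_eq_minpoly hζ hp.pos]
  apply minpoly.isIntegrallyClosed_dvd (hζ.isIntegral hp.pos)
  have hp1 : p - 1 + 1 = p := Nat.sub_add_cancel hp.one_le
  have hζ' : IsPrimitiveRoot (Complex.exp (2 * Real.pi * Complex.I / p)) (p - 1 + 1) := by
    rw [hp1]; exact hζ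
  have := hζ'.prod_one_sub_pow_eq_order
  simp only [map_sub, map_prod, map_one, map_pow, aeval_X, aeval_C]
  rw [this]
  have : ((p - 1 : ℕ) : ℂ) + 1 = (p : ℂ) := by
    rw [← Nat.cast_one (R := ℂ), ← Nat.cast_add, hp1]
  rw [this]
  simp

/-- On a group killed by the norm, `∏_{k=1}^{p-1} (1 - s^k) = p`. -/
theorem c14hEv_prod_eq {p : ℕ} (hp : p.Prime) (s : Module.End ℤ A)
    (hN : ∑ i ∈ range p, s ^ i = 0) (x : A) :
    c14hEv s (∏ k ∈ range (p - 1), (1 - X ^ (k + 1))) x = p • x := by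
  have : Fact p.Prime := ⟨hp⟩
  obtain ⟨h, hh⟩ := c14h_cyclo_dvd hp
  have h1 : (∏ k ∈ range (p - 1), (1 - X ^ (k + 1)) : ℤ[X]) =
      C (p : ℤ) + cyclotomic p ℤ * h := by
    rw [← hh]; ring
  have h2 : aeval s (cyclotomic p ℤ) = 0 := by
    rw [Polynomial.cyclotomic_prime ℤ p]
    simp only [map_sum, map_pow, aeval_X]
    exact hN
  unfold c14hEv
  rw [h1, map_add, map_mul, h2, zero_mul, add_zero, aeval_C]
  simp

theorem c14hEv_one_sub_pow (s : Module.End ℤ A) (m : ℕ) :
    c14hEv s (1 - X ^ m) = (1 - s ^ m : Module.End ℤ A).toAddMonoidHom := by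
  unfold c14hEv
  simp

theorem c14h_pow_eq_one {p : ℕ} (s : Module.End ℤ A)
    (hN : ∑ i ∈ range p, s ^ i = 0) : s ^ p = 1 := by
  have := mul_neg_geom_sum s p
  rw [hN, mul_zero] at this
  exact (sub_eq_zero.1 this.symm).symm

theorem c14h_range_mul_le (f g : Module.End ℤ A) :
    (f * g).toAddMonoidHom.range ≤ f.toAddMonoidHom.range := by
  rintro _ ⟨x, rfl⟩
  exact ⟨g x, rfl⟩

theorem c14h_ker_le_ker_mul (f g : Module.End ℤ A) :
    g.toAddMonoidHom.ker ≤ (f * g).toAddMonoidHom.ker := by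
  intro x hx
  rw [AddMonoidHom.mem_ker] at hx ⊢
  show f (g x) = 0
  have hx' : g x = 0 := hx
  rw [hx', map_zero]

/-- for `1 ≤ m < p`, `1 - s^m` and `1 - s` have the same range and kernel when `s^p = 1`. -/
theorem c14h_same {p : ℕ} (hp : p.Prime) (s : Module.End ℤ A) (hs : s ^ p = 1)
    {m : ℕ} (hm1 : 1 ≤ m) (hmp : m < p) :
    (1 - s ^ m : Module.End ℤ A).toAddMonoidHom.range
        = (1 - s : Module.End ℤ A).toAddMonoidHom.range ∧
    (1 - s ^ m : Module.End ℤ A).toAddMonoidHom.ker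
        = (1 - s : Module.End ℤ A).toAddMonoidHom.ker := by
  have hcop : Nat.Coprime m p := by
    rw [Nat.coprime_comm, hp.coprime_iff_not_dvd]
    intro hdvd
    have := Nat.le_of_dvd (by omega) hdvd
    omega
  obtain ⟨m', -, hm'⟩ := Nat.exists_mul_mod_eq_one_of_coprime hcop hp.one_lt
  have hpow : (s ^ m) ^ m' = s := by
    rw [← pow_mul]
    have h1 : m * m' = p * (m * m' / p) + 1 := by
      have := Nat.div_add_mod (m * m') p
      omega
    rw [h1, pow_succ, pow_mul, hs, one_pow, one_mul]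
  have e1 : (1 - s ^ m : Module.End ℤ A) = (1 - s) * ∑ i ∈ range m, s ^ i :=
    (mul_neg_geom_sum s m).symm
  have e2 : (1 - s ^ m : Module.End ℤ A) = (∑ i ∈ range m, s ^ i) * (1 - s) :=
    (geom_sum_mul_neg s m).symm
  have e3 : (1 - s : Module.End ℤ A) = (1 - s ^ m) * ∑ i ∈ range m', (s ^ m) ^ i := by
    rw [mul_neg_geom_sum, hpow]
  have e4 : (1 - s : Module.End ℤ A) = (∑ i ∈ range m', (s ^ m) ^ i) * (1 - s ^ m) := by
    rw [geom_sum_mul_neg, hpow]
  refine ⟨le_antisymm ?_ ?_, le_antisymm ?_ ?_⟩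
  · rw [e1]; exact c14h_range_mul_le _ _
  · rw [e3]; exact c14h_range_mul_le _ _
  · rw [e4]; exact c14h_ker_le_ker_mul _ _
  · rw [e2]; exact c14h_ker_le_ker_mul _ _

/-- `[A : pA] = p ^ rank A * |A[p]|` for a finitely generated abelian group. -/
theorem c14h_L1 [Module.Finite ℤ A] {p : ℕ} (hp : p ≠ 0) (φ : A →+ A) (hφ : ∀ x, φ x = p • x) :
    φ.range.index = p ^ Module.finrank ℤ A * Nat.card φ.ker ∧ Nat.card φ.ker ≠ 0 := by
  classical
  set T : Submodule ℤ A := Submodule.torsion ℤ A with hT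
  set Tg : AddSubgroup A := T.toAddSubgroup with hTg
  have hTtors : Module.IsTorsion ℤ T := Submodule.torsion_isTorsion
  have : Finite T := Module.finite_of_fg_torsion T hTtors
  have : Finite Tg := (inferInstance : Finite T)
  have hmemT : ∀ x : A, x ∈ Tg ↔ ∃ a : ℤ, a ≠ 0 ∧ a • x = 0 := by
    intro x
    rw [hTg, Submodule.mem_toAddSubgroup, hT, Submodule.mem_torsion_iff]
    constructor
    · rintro ⟨a, ha⟩
      exact ⟨a, nonZeroDivisors.coe_ne_zero a, ha⟩
    · rintro ⟨a, ha0, ha⟩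
      exact ⟨⟨a, mem_nonZeroDivisors_of_ne_zero ha0⟩, ha⟩
  have F2 : φ.ker ≤ Tg := by
    intro x hx
    rw [AddMonoidHom.mem_ker, hφ] at hx
    rw [hmemT]
    exact ⟨p, by exact_mod_cast hp, by rw [natCast_zsmul]; exact hx⟩
  have F3 : Tg.comap φ = Tg := by
    ext x
    rw [AddSubgroup.mem_comap, hmemT, hmemT, hφ]
    constructor
    · rintro ⟨a, ha0, ha⟩
      refine ⟨a * p, mul_ne_zero ha0 (by exact_mod_cast hp), ?_⟩
      rw [mul_smul, natCast_zsmul]; exact ha
    · rintro ⟨a, ha0, ha⟩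
      refine ⟨a, ha0, ?_⟩
      rw [smul_comm, ha, smul_zero]
  have hfinker : Finite φ.ker :=
    Finite.of_injective (AddSubgroup.inclusion F2) (AddSubgroup.inclusion_injective F2)
  have hk0 : Nat.card φ.ker ≠ 0 := Nat.card_pos.ne'
  refine ⟨?_, hk0⟩
  have S1 : φ.range.relIndex (φ.range ⊔ Tg) * (φ.range ⊔ Tg).index = φ.range.index :=
    AddSubgroup.relIndex_mul_index le_sup_left
  have S2 : φ.range.relIndex (φ.range ⊔ Tg) = φ.range.relIndex Tg :=
    AddSubgroup.relIndex_sup_left _ _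
  have S3 : φ.range ⊓ Tg = Tg.map φ := by
    have := AddSubgroup.map_comap_eq φ Tg
    rw [F3] at this
    exact this.symm
  have hmaple : Tg.map φ ≤ Tg := by
    rw [← S3]; exact inf_le_right
  have S4 : Nat.card ↥(Tg.map φ) * (Tg.map φ).relIndex Tg = Nat.card Tg := by
    have := AddSubgroup.relIndex_mul_relIndex (H := (⊥ : AddSubgroup A)) (K := Tg.map φ)
      (L := Tg) bot_le hmaple
    rw [AddSubgroup.relIndex_bot_left, AddSubgroup.relIndex_bot_left] at this
    exact this
  have S5 : Nat.card φ.ker * Nat.card ↥(Tg.map φ) = Nat.card Tg := by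
    have := AddSubgroup.relIndex_mul_relIndex (H := (⊥ : AddSubgroup A)) (K := φ.ker)
      (L := Tg) bot_le F2
    rw [AddSubgroup.relIndex_bot_left, AddSubgroup.relIndex_bot_left,
      AddSubgroup.relIndex_ker] at this
    exact this
  have hmapfin : Finite ↥(Tg.map φ) :=
    Finite.of_injective (AddSubgroup.inclusion hmaple) (AddSubgroup.inclusion_injective hmaple)
  have hm0 : Nat.card ↥(Tg.map φ) ≠ 0 := Nat.card_pos.ne'
  have S45 : φ.range.relIndex Tg = Nat.card φ.ker := by
    rw [← AddSubgroup.inf_relIndex_right, S3]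
    apply Nat.eq_of_mul_eq_mul_left (Nat.pos_of_ne_zero hm0)
    rw [S4, ← S5, mul_comm]
  -- the torsion-free quotient
  let f : (A ⧸ T) →ₗ[ℤ] (A ⧸ T) := (p : ℤ) • LinearMap.id
  have hfinj : Function.Injective f := by
    intro x y hxy
    have h : (p : ℤ) • (x - y) = 0 := by
      have : (p : ℤ) • x = (p : ℤ) • y := hxy
      rw [smul_sub, this, sub_self]
    rcases smul_eq_zero.1 h with h | h
    · exact absurd h (by exact_mod_cast hp)
    · exact sub_eq_zero.1 h
  have S7 : Nat.card ((A ⧸ T) ⧸ LinearMap.range f) = p ^ Module.finrank ℤ (A ⧸ T) := by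
    have := Submodule.natAbs_det_equiv (LinearMap.range f) (LinearEquiv.ofInjective f hfinj)
    rw [← this]
    have hcomp : (LinearMap.range f).subtype ∘ₗ
        AddMonoidHom.toIntLinearMap
          ((LinearEquiv.ofInjective f hfinj : (A ⧸ T) →+ LinearMap.range f)) = f := by
      ext x
      rfl
    rw [hcomp, LinearMap.det_smul, LinearMap.det_id, mul_one, Int.natAbs_pow, Int.natAbs_natCast]
  have S8 : Module.finrank ℤ (A ⧸ T) = Module.finrank ℤ A := by
    have := Submodule.finrank_quotient_add_finrank T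
    rw [hTtors.finrank_eq_zero, add_zero] at this
    exact this
  have S6 : (φ.range ⊔ Tg).index = Nat.card ((A ⧸ T) ⧸ LinearMap.range f) := by
    have h := AddSubgroup.index_map φ.range (T.mkQ.toAddMonoidHom)
    have hker : (T.mkQ.toAddMonoidHom).ker = Tg := by
      ext x
      rw [AddMonoidHom.mem_ker]
      simp [hTg]
    have hrange : (T.mkQ.toAddMonoidHom).range = ⊤ := by
      rw [AddMonoidHom.range_eq_top]
      exact T.mkQ_surjective
    rw [hker, hrange, AddSubgroup.index_top, mul_one] at h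
    rw [← h]
    have hmap : φ.range.map (T.mkQ.toAddMonoidHom) = (LinearMap.range f).toAddSubgroup := by
      ext y
      constructor
      · rintro ⟨x, ⟨z, rfl⟩, rfl⟩
        refine ⟨T.mkQ z, ?_⟩
        simp [f, hφ]
      · rintro ⟨w, rfl⟩
        obtain ⟨z, rfl⟩ := T.mkQ_surjective w
        refine ⟨φ z, ⟨z, rfl⟩, ?_⟩
        simp [f, hφ]
    rw [hmap]
    rfl
  rw [← S1, S2, S45, S6, S7, S8, mul_comm]

/-- If the norm `∑_{i<p} s^i` vanishes on `A`, then
`[A : (1-s)A]^(p-1) = p^(rank A) * |ker (1-s)|^(p-1)`. -/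
theorem c14h_L2 [Module.Finite ℤ A] {p : ℕ} (hp : p.Prime) (s : Module.End ℤ A)
    (hN : ∑ i ∈ range p, s ^ i = 0) :
    (1 - s : Module.End ℤ A).toAddMonoidHom.range.index ^ (p - 1)
      = p ^ Module.finrank ℤ A
        * Nat.card (1 - s : Module.End ℤ A).toAddMonoidHom.ker ^ (p - 1) := by
  have hs : s ^ p = 1 := c14h_pow_eq_one s hN
  set φ := c14hEv s (∏ k ∈ range (p - 1), (1 - X ^ (k + 1))) with hφdef
  have hφ : ∀ x, φ x = p • x := c14hEv_prod_eq hp s hN
  obtain ⟨hidx, hk0⟩ := c14h_L1 hp.ne_zero φ hφ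
  have hfin : Finite φ.ker := Nat.finite_of_card_ne_zero hk0
  have hprod := c14h_prod s (range (p - 1)) (fun k => (1 - X ^ (k + 1) : ℤ[X])) hfin
  have hsame : ∀ k ∈ range (p - 1),
      (c14hEv s (1 - X ^ (k + 1))).range = (1 - s : Module.End ℤ A).toAddMonoidHom.range ∧
      (c14hEv s (1 - X ^ (k + 1))).ker = (1 - s : Module.End ℤ A).toAddMonoidHom.ker := by
    intro k hk
    rw [c14hEv_one_sub_pow]
    have := mem_range.1 hk
    exact c14h_same hp s hs (by omega) (by omega)
  have e1 : ∏ k ∈ range (p - 1), Nat.card (c14hEv s (1 - X ^ (k + 1))).ker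
      = Nat.card (1 - s : Module.End ℤ A).toAddMonoidHom.ker ^ (p - 1) := by
    calc _ = ∏ _k ∈ range (p - 1), Nat.card (1 - s : Module.End ℤ A).toAddMonoidHom.ker :=
          prod_congr rfl (fun k hk => by rw [(hsame k hk).2])
      _ = _ := by rw [prod_const, card_range]
  have e2 : ∏ k ∈ range (p - 1), (c14hEv s (1 - X ^ (k + 1))).range.index
      = (1 - s : Module.End ℤ A).toAddMonoidHom.range.index ^ (p - 1) := by
    calc _ = ∏ _k ∈ range (p - 1), (1 - s : Module.End ℤ A).toAddMonoidHom.range.index :=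
          prod_congr rfl (fun k hk => by rw [(hsame k hk).1])
      _ = _ := by rw [prod_const, card_range]
  rw [e1, e2, ← hφdef, hidx] at hprod
  apply Nat.eq_of_mul_eq_mul_right (Nat.pos_of_ne_zero hk0)
  rw [← hprod]
  ring

end C14H

section C14HMain

variable {M : Type*} [AddCommGroup M]

/-- rank of a submodule with torsion quotient -/
theorem c14h_finrank_of_le [Module.Finite ℤ M] (N P : Submodule ℤ M) (hNP : N ≤ P)
    {n : ℕ} (hn : n ≠ 0) (h : ∀ x ∈ P, n • x ∈ N) :
    Module.finrank ℤ N = Module.finrank ℤ P := by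
  have e : (N.comap P.subtype) ≃ₗ[ℤ] N := Submodule.comapSubtypeEquivOfLe hNP
  have h1 := Submodule.finrank_quotient_add_finrank (N.comap P.subtype)
  have htors : Module.IsTorsion ℤ (P ⧸ N.comap P.subtype) := by
    intro x
    obtain ⟨y, rfl⟩ := (N.comap P.subtype).mkQ_surjective x
    refine ⟨⟨(n : ℤ), mem_nonZeroDivisors_of_ne_zero (by exact_mod_cast hn)⟩, ?_⟩
    show (n : ℤ) • (N.comap P.subtype).mkQ y = 0
    rw [← map_smul, Submodule.mkQ_apply, Submodule.Quotient.mk_eq_zero, Submodule.mem_comap]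
    have := h y.1 y.2
    simpa using this
  rw [htors.finrank_eq_zero, zero_add] at h1
  rw [← h1, e.finrank_eq]

theorem c14h_main [Module.Finite ℤ M] {p : ℕ} (hp : p.Prime)
    (s : Module.End ℤ M) (hs : s ^ p = 1) (a c : ℕ)
    (ha : Module.finrank ℤ (LinearMap.ker (1 - s)) = a)
    (hM : Module.finrank ℤ M = a + (p - 1) * c) :
    (LinearMap.range (∑ i ∈ range p, s ^ i)).toAddSubgroup.relIndex
        (LinearMap.ker (1 - s)).toAddSubgroup ≠ 0 ∧
    (LinearMap.range (1 - s)).toAddSubgroup.relIndex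
        (LinearMap.ker (∑ i ∈ range p, s ^ i)).toAddSubgroup * p ^ a
      = p ^ c * (LinearMap.range (∑ i ∈ range p, s ^ i)).toAddSubgroup.relIndex
        (LinearMap.ker (1 - s)).toAddSubgroup := by
  classical
  set Nm : Module.End ℤ M := ∑ i ∈ range p, s ^ i with hNm
  set D : Module.End ℤ M := 1 - s with hD
  set FL := LinearMap.ker D with hFL
  set ZL := LinearMap.ker Nm with hZL
  set F := FL.toAddSubgroup with hF
  set Z := ZL.toAddSubgroup with hZ
  set B := (LinearMap.range D).toAddSubgroup with hB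
  set NM := (LinearMap.range Nm).toAddSubgroup with hNM
  set Dg : M →+ M := D.toAddMonoidHom with hDg
  set Nmg : M →+ M := Nm.toAddMonoidHom with hNmg
  have hDN : D * Nm = 0 := by
    rw [hD, hNm, mul_neg_geom_sum, hs, sub_self]
  have hND : Nm * D = 0 := by
    rw [hD, hNm, geom_sum_mul_neg, hs, sub_self]
  have hsN : Nm * s = s * Nm := by
    rw [hNm, Finset.sum_mul, Finset.mul_sum]
    exact Finset.sum_congr rfl (fun i _ => by rw [← pow_succ, ← pow_succ'])
  have hmemF : ∀ x, x ∈ F ↔ s x = x := by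
    intro x
    rw [hF, Submodule.mem_toAddSubgroup, hFL, LinearMap.mem_ker, hD]
    simp only [LinearMap.sub_apply, Module.End.one_apply]
    rw [sub_eq_zero, eq_comm]
  have hmemZ : ∀ x, x ∈ Z ↔ Nm x = 0 := by
    intro x
    rw [hZ, Submodule.mem_toAddSubgroup, hZL, LinearMap.mem_ker]
  have hpowF : ∀ x, s x = x → ∀ i : ℕ, (s ^ i) x = x := by
    intro x hx i
    induction i with
    | zero => simp
    | succ i ih => rw [pow_succ, Module.End.mul_apply, hx, ih]
  have hNmF : ∀ x ∈ F, Nm x = p • x := by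
    intro x hx
    rw [hmemF] at hx
    rw [hNm, LinearMap.sum_apply]
    rw [Finset.sum_congr rfl (fun i _ => hpowF x hx i), Finset.sum_const, card_range]
  have hBZ : B ≤ Z := by
    rintro _ ⟨x, rfl⟩
    rw [hmemZ]
    have : (Nm * D) x = 0 := by rw [hND]; rfl
    exact this
  have hNMF : NM ≤ F := by
    rintro _ ⟨x, rfl⟩
    rw [hF, Submodule.mem_toAddSubgroup, hFL, LinearMap.mem_ker]
    have : (D * Nm) x = 0 := by rw [hDN]; rfl
    exact this
  have hDgker : Dg.ker = F := by
    ext x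
    rw [AddMonoidHom.mem_ker, hF, Submodule.mem_toAddSubgroup, hFL, LinearMap.mem_ker]
    rfl
  have hNmgker : Nmg.ker = Z := by
    ext x
    rw [AddMonoidHom.mem_ker, hmemZ]
    rfl
  have hDgrange : (⊤ : AddSubgroup M).map Dg = B := by
    ext x
    simp only [AddSubgroup.mem_map, AddSubgroup.mem_top, true_and]
    rfl
  have hNmgrange : (⊤ : AddSubgroup M).map Nmg = NM := by
    ext x
    simp only [AddSubgroup.mem_map, AddSubgroup.mem_top, true_and]
    rfl
  -- index computations in `M`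
  have hZDB : Z.map Dg ≤ B := by
    rw [← hDgrange]; exact AddSubgroup.map_mono le_top
  have hFNNM : F.map Nmg ≤ NM := by
    rw [← hNmgrange]; exact AddSubgroup.map_mono le_top
  have ia : (Z.map Dg).relIndex B * B.relIndex Z = (Z.map Dg).relIndex Z :=
    AddSubgroup.relIndex_mul_relIndex _ _ _ hZDB hBZ
  have ib : (Z.map Dg).relIndex B = (Z ⊔ F).index := by
    have := AddSubgroup.relIndex_map_map Dg Z ⊤
    rw [hDgrange, hDgker, top_sup_eq, AddSubgroup.relIndex_top_right] at this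
    exact this
  have ic : (F.map Nmg).relIndex NM * NM.relIndex F = (F.map Nmg).relIndex F :=
    AddSubgroup.relIndex_mul_relIndex _ _ _ hFNNM hNMF
  have id' : (F.map Nmg).relIndex NM = (Z ⊔ F).index := by
    have := AddSubgroup.relIndex_map_map Nmg F ⊤
    rw [hNmgrange, hNmgker, top_sup_eq, AddSubgroup.relIndex_top_right, sup_comm] at this
    exact this
  -- the restriction of `s` to `Z`
  have hstab : ∀ x ∈ ZL, s x ∈ ZL := by
    intro x hx
    rw [hZL, LinearMap.mem_ker] at hx ⊢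
    have : (Nm * s) x = 0 := by
      rw [hsN, Module.End.mul_apply, hx, map_zero]
    exact this
  set sZ : Module.End ℤ ZL := s.restrict hstab with hsZ
  have hsZpow : ∀ (i : ℕ) (z : ZL), (((sZ ^ i) z : ZL) : M) = (s ^ i) (z : M) := by
    intro i
    induction i with
    | zero => intro z; simp
    | succ i ih =>
      intro z
      rw [pow_succ, Module.End.mul_apply, ih, pow_succ, Module.End.mul_apply]
      rfl
  have hNZ : ∑ i ∈ range p, sZ ^ i = 0 := by
    ext z
    rw [LinearMap.sum_apply]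
    simp only [LinearMap.zero_apply, ZeroMemClass.coe_zero]
    rw [AddSubmonoidClass.coe_finsetSum]
    rw [Finset.sum_congr rfl (fun i _ => hsZpow i z)]
    have hz : Nm (z : M) = 0 := z.2
    rw [hNm, LinearMap.sum_apply] at hz
    exact hz
  have L2 := c14h_L2 hp sZ hNZ
  set gZ : ZL →+ ZL := (1 - sZ : Module.End ℤ ZL).toAddMonoidHom with hgZ
  have hinjZ : Function.Injective (ZL.subtype.toAddMonoidHom) := ZL.subtype_injective
  have hgZapply : ∀ z : ZL, ((gZ z : ZL) : M) = Dg (z : M) := by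
    intro z
    rfl
  have T1 : gZ.range.index = (Z.map Dg).relIndex Z := by
    have := AddSubgroup.relIndex_map_map_of_injective gZ.range ⊤ hinjZ
    rw [AddSubgroup.relIndex_top_right] at this
    rw [← this]
    congr 1
    · ext x
      constructor
      · rintro ⟨_, ⟨z, rfl⟩, rfl⟩
        exact ⟨(z : M), z.2, (hgZapply z).symm⟩
      · rintro ⟨y, hy, rfl⟩
        exact ⟨gZ ⟨y, hy⟩, ⟨⟨y, hy⟩, rfl⟩, hgZapply ⟨y, hy⟩⟩
    · ext x
      constructor
      · rintro ⟨z, -, rfl⟩
        exact z.2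
      · intro hx
        exact ⟨⟨x, hx⟩, trivial, rfl⟩
  have hkerZ : gZ.ker.map ZL.subtype.toAddMonoidHom = F ⊓ Z := by
    ext x
    rw [AddSubgroup.mem_map, AddSubgroup.mem_inf]
    constructor
    · rintro ⟨z, hz, rfl⟩
      rw [AddMonoidHom.mem_ker] at hz
      refine ⟨?_, z.2⟩
      rw [← hDgker, AddMonoidHom.mem_ker]
      have := hgZapply z
      rw [hz] at this
      exact this.symm
    · rintro ⟨hxF, hxZ⟩
      refine ⟨⟨x, hxZ⟩, ?_, rfl⟩
      rw [AddMonoidHom.mem_ker]
      apply Subtype.ext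
      rw [hgZapply]
      rw [← hDgker, AddMonoidHom.mem_ker] at hxF
      exact hxF
  have T2 : Nat.card gZ.ker = Nat.card ↥(F ⊓ Z) := by
    rw [← AddSubgroup.card_map_of_injective hinjZ, hkerZ]
  -- multiplication by `p` on `F`
  set φF : FL →+ FL := nsmulAddMonoidHom p with hφF
  obtain ⟨L1, hκ0⟩ := c14h_L1 hp.ne_zero φF (fun x => rfl)
  have hinjF : Function.Injective (FL.subtype.toAddMonoidHom) := FL.subtype_injective
  have T3 : φF.range.index = (F.map Nmg).relIndex F := by
    have := AddSubgroup.relIndex_map_map_of_injective φF.range ⊤ hinjF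
    rw [AddSubgroup.relIndex_top_right] at this
    rw [← this]
    congr 1
    · ext x
      constructor
      · rintro ⟨_, ⟨z, rfl⟩, rfl⟩
        refine ⟨(z : M), z.2, ?_⟩
        show Nm (z : M) = _
        rw [hNmF _ z.2]
        rfl
      · rintro ⟨y, hy, rfl⟩
        refine ⟨φF ⟨y, hy⟩, ⟨⟨y, hy⟩, rfl⟩, ?_⟩
        show _ = Nm y
        rw [hNmF _ hy]
        rfl
    · ext x
      constructor
      · rintro ⟨z, -, rfl⟩
        exact z.2
      · intro hx
        exact ⟨⟨x, hx⟩, trivial, rfl⟩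
  have hkerF : φF.ker.map FL.subtype.toAddMonoidHom = F ⊓ Z := by
    ext x
    rw [AddSubgroup.mem_map, AddSubgroup.mem_inf]
    constructor
    · rintro ⟨z, hz, rfl⟩
      rw [AddMonoidHom.mem_ker] at hz
      refine ⟨z.2, ?_⟩
      rw [hmemZ]
      show Nm (z : M) = 0
      rw [hNmF _ z.2]
      have : ((φF z : FL) : M) = 0 := by rw [hz]; rfl
      exact this
    · rintro ⟨hxF, hxZ⟩
      refine ⟨⟨x, hxF⟩, ?_, rfl⟩
      rw [AddMonoidHom.mem_ker]
      apply Subtype.ext
      show p • x = 0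
      rw [← hNmF _ hxF]
      exact (hmemZ x).1 hxZ
  have T4 : Nat.card φF.ker = Nat.card ↥(F ⊓ Z) := by
    rw [← AddSubgroup.card_map_of_injective hinjF, hkerF]
  -- ranks
  have hrankZ : Module.finrank ℤ ZL = (p - 1) * c := by
    have h1 := Submodule.finrank_quotient_add_finrank ZL
    have h2 : Module.finrank ℤ (M ⧸ ZL) = Module.finrank ℤ (LinearMap.range Nm) :=
      (Nm.quotKerEquivRange).finrank_eq
    have h3 : Module.finrank ℤ (LinearMap.range Nm) = Module.finrank ℤ FL := by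
      apply c14h_finrank_of_le (LinearMap.range Nm) FL _ hp.ne_zero
      · intro x hx
        exact ⟨x, hNmF x hx⟩
      · intro x hx
        exact hNMF hx
    rw [h2, h3, ha, hM] at h1
    omega
  -- final arithmetic
  set κ := Nat.card ↥(F ⊓ Z) with hκ
  set idx := (Z ⊔ F).index with hidx
  set H1 := B.relIndex Z with hH1
  set H0 := NM.relIndex F with hH0
  rw [T4] at L1 hκ0
  rw [T3, ← ic, id', ha] at L1
  rw [T1, T2, ← ia, ib, hrankZ] at L2
  have hp1 : p - 1 ≠ 0 := by have := hp.two_le; omega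
  have L2' : idx * H1 = p ^ c * κ := by
    apply Nat.pow_left_injective hp1
    show (idx * H1) ^ (p - 1) = (p ^ c * κ) ^ (p - 1)
    rw [L2, mul_pow, ← pow_mul, mul_comm c (p - 1)]
  have hpos : p ^ a * κ ≠ 0 := mul_ne_zero (pow_ne_zero _ hp.ne_zero) hκ0
  have hidx0 : idx ≠ 0 := by
    intro h0
    rw [h0, zero_mul] at L1
    exact hpos L1.symm
  have hH00 : H0 ≠ 0 := by
    intro h0
    rw [h0, mul_zero] at L1
    exact hpos L1.symm
  refine ⟨hH00, ?_⟩
  apply Nat.eq_of_mul_eq_mul_right (Nat.pos_of_ne_zero (mul_ne_zero hidx0 hκ0))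
  calc H1 * p ^ a * (idx * κ) = (idx * H1) * (p ^ a * κ) := by ring
    _ = (p ^ c * κ) * (idx * H0) := by rw [L2', L1]
    _ = p ^ c * H0 * (idx * κ) := by ring

end C14HMain
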