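import Mathlib
import Fermat.Agent.Lib.C14_Herbrand

/-!
# FI-1: the Herbrand unit index for a cyclic extension of odd prime degree

`c14u_unit_index`: for number fields `L/K`, Galois of odd prime degree `p`, `σ ≠ 1` in the
Galois group: `[ker N : (σ - 1) E_L] = p * [E_K : N E_L]` (in particular the right side is
finite).
-/

set_option autoImplicit false

open NumberField Finset

section C14UCoe

variable {L : Type*} [Field L]

theorem c14u_coe_mul (a b : (𝓞 L)ˣ) :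
    (((a * b : (𝓞 L)ˣ) : 𝓞 L) : L) = ((a : 𝓞 L) : L) * ((b : 𝓞 L) : L) := rfl

theorem c14u_coe_one : (((1 : (𝓞 L)ˣ) : 𝓞 L) : L) = 1 := rfl

theorem c14u_coe_ne_zero (a : (𝓞 L)ˣ) : ((a : 𝓞 L) : L) ≠ 0 := NumberField.Units.coe_ne_zero a

theorem c14u_coe_inv (a : (𝓞 L)ˣ) :
    (((a⁻¹ : (𝓞 L)ˣ) : 𝓞 L) : L) = (((a : 𝓞 L) : L))⁻¹ := by
  apply eq_inv_of_mul_eq_one_right
  rw [← c14u_coe_mul, mul_inv_cancel, c14u_coe_one]

theorem c14u_norm_inv {K : Type*} [Field K] [Algebra K L] (x : L) (hx : x ≠ 0) :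
    Algebra.norm K x⁻¹ = (Algebra.norm K x)⁻¹ := by
  apply eq_inv_of_mul_eq_one_left
  rw [← map_mul, inv_mul_cancel₀ hx, map_one]

end C14UCoe

section C14U

variable (K L : Type*) [Field K] [Field L] [Algebra K L]

/-- norm-one units of `L` (relative to `K`) -/
def c14uZ : Subgroup (𝓞 L)ˣ where
  carrier := {η | Algebra.norm K ((η : 𝓞 L) : L) = 1}
  mul_mem' := by
    intro a b ha hb
    have ha' : Algebra.norm K ((a : 𝓞 L) : L) = 1 := ha
    have hb' : Algebra.norm K ((b : 𝓞 L) : L) = 1 := hb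
    show Algebra.norm K (((a * b : (𝓞 L)ˣ) : 𝓞 L) : L) = 1
    rw [c14u_coe_mul, map_mul, ha', hb', one_mul]
  one_mem' := by
    show Algebra.norm K (((1 : (𝓞 L)ˣ) : 𝓞 L) : L) = 1
    rw [c14u_coe_one, map_one]
  inv_mem' := by
    intro a ha
    have ha' : Algebra.norm K ((a : 𝓞 L) : L) = 1 := ha
    show Algebra.norm K (((a⁻¹ : (𝓞 L)ˣ) : 𝓞 L) : L) = 1
    rw [c14u_coe_inv, c14u_norm_inv _ (c14u_coe_ne_zero a), ha', inv_one]

/-- units of the form `σ ε / ε` -/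
def c14uB (σ : L ≃ₐ[K] L) : Subgroup (𝓞 L)ˣ where
  carrier := {η | ∃ ε : (𝓞 L)ˣ, ((η : 𝓞 L) : L) = σ ((ε : 𝓞 L) : L) / ((ε : 𝓞 L) : L)}
  mul_mem' := by
    rintro a b ⟨e, he⟩ ⟨f, hf⟩
    refine ⟨e * f, ?_⟩
    rw [c14u_coe_mul, he, hf, c14u_coe_mul, map_mul]
    have h1 := c14u_coe_ne_zero e
    have h2 := c14u_coe_ne_zero f
    field_simp
  one_mem' := by
    refine ⟨1, ?_⟩
    rw [c14u_coe_one, map_one, div_one]
  inv_mem' := by
    rintro a ⟨e, he⟩
    refine ⟨e⁻¹, ?_⟩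
    rw [c14u_coe_inv, c14u_coe_inv, he, map_inv₀, inv_div, inv_div_inv]

/-- norms of units of `L` -/
def c14uNE : Subgroup (𝓞 K)ˣ where
  carrier := {u | ∃ ε : (𝓞 L)ˣ, Algebra.norm K ((ε : 𝓞 L) : L) = ((u : 𝓞 K) : K)}
  mul_mem' := by
    rintro a b ⟨e, he⟩ ⟨f, hf⟩
    refine ⟨e * f, ?_⟩
    rw [c14u_coe_mul, map_mul, he, hf, c14u_coe_mul]
  one_mem' := by
    refine ⟨1, ?_⟩
    rw [c14u_coe_one, map_one, c14u_coe_one]
  inv_mem' := by
    rintro a ⟨e, he⟩
    refine ⟨e⁻¹, ?_⟩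
    rw [c14u_coe_inv, c14u_norm_inv _ (c14u_coe_ne_zero e), he, c14u_coe_inv]

variable {K L}

theorem c14u_mem_Z (η : (𝓞 L)ˣ) : η ∈ c14uZ K L ↔ Algebra.norm K ((η : 𝓞 L) : L) = 1 := Iff.rfl

theorem c14u_mem_B (σ : L ≃ₐ[K] L) (η : (𝓞 L)ˣ) :
    η ∈ c14uB K L σ ↔
      ∃ ε : (𝓞 L)ˣ, ((η : 𝓞 L) : L) = σ ((ε : 𝓞 L) : L) / ((ε : 𝓞 L) : L) := Iff.rfl

theorem c14u_mem_NE (u : (𝓞 K)ˣ) :
    u ∈ c14uNE K L ↔ ∃ ε : (𝓞 L)ˣ, Algebra.norm K ((ε : 𝓞 L) : L) = ((u : 𝓞 K) : K) := Iff.rfl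

end C14U

section C14UGal

variable {K L : Type*} [Field K] [Field L] [Algebra K L] [FiniteDimensional K L] [IsGalois K L]

theorem c14u_orderOf {p : ℕ} (hp : p.Prime) (hdeg : Module.finrank K L = p)
    (σ : L ≃ₐ[K] L) (hσ : σ ≠ 1) : orderOf σ = p := by
  have : Fact p.Prime := ⟨hp⟩
  have hcard : Nat.card (L ≃ₐ[K] L) = p := by rw [IsGalois.card_aut_eq_finrank, hdeg]
  have h1 : σ ^ p = 1 := by rw [← hcard]; exact pow_card_eq_one'
  exact orderOf_eq_prime h1 hσ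

open Classical in
theorem c14u_image_pow {p : ℕ} (hp : p.Prime) (hdeg : Module.finrank K L = p)
    (σ : L ≃ₐ[K] L) (hσ : σ ≠ 1) :
    (range p).image (fun i => σ ^ i) = (Finset.univ : Finset (L ≃ₐ[K] L)) := by
  classical
  have hord := c14u_orderOf hp hdeg σ hσ
  have hinj : Set.InjOn (fun i : ℕ => σ ^ i) (range p : Set ℕ) := by
    intro i hi j hj hij
    have hi' : i < orderOf σ := by rw [hord]; exact mem_range.1 hi
    have hj' : j < orderOf σ := by rw [hord]; exact mem_range.1 hj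
    exact pow_injOn_Iio_orderOf hi' hj' hij
  apply Finset.eq_univ_of_card
  rw [Finset.card_image_of_injOn hinj, card_range, ← Nat.card_eq_fintype_card,
    IsGalois.card_aut_eq_finrank, hdeg]

theorem c14u_exists_pow {p : ℕ} (hp : p.Prime) (hdeg : Module.finrank K L = p)
    (σ : L ≃ₐ[K] L) (hσ : σ ≠ 1) (τ : L ≃ₐ[K] L) : ∃ i, σ ^ i = τ := by
  classical
  have h := c14u_image_pow hp hdeg σ hσ
  have hτ : τ ∈ (range p).image (fun i => σ ^ i) := by rw [h]; exact mem_univ τ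
  obtain ⟨i, -, hi⟩ := mem_image.1 hτ
  exact ⟨i, hi⟩

theorem c14u_prod_pow {p : ℕ} (hp : p.Prime) (hdeg : Module.finrank K L = p)
    (σ : L ≃ₐ[K] L) (hσ : σ ≠ 1) (x : L) :
    ∏ i ∈ range p, (σ ^ i) x = algebraMap K L (Algebra.norm K x) := by
  classical
  have hord := c14u_orderOf hp hdeg σ hσ
  have hinj : Set.InjOn (fun i : ℕ => σ ^ i) (range p : Set ℕ) := by
    intro i hi j hj hij
    have hi' : i < orderOf σ := by rw [hord]; exact mem_range.1 hi
    have hj' : j < orderOf σ := by rw [hord]; exact mem_range.1 hj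
    exact pow_injOn_Iio_orderOf hi' hj' hij
  rw [Algebra.norm_eq_prod_automorphisms, ← c14u_image_pow hp hdeg σ hσ,
    Finset.prod_image hinj]

theorem c14u_fixed_all {p : ℕ} (hp : p.Prime) (hdeg : Module.finrank K L = p)
    (σ : L ≃ₐ[K] L) (hσ : σ ≠ 1) (x : L) (hx : σ x = x) : ∀ τ : L ≃ₐ[K] L, τ x = x := by
  intro τ
  obtain ⟨i, rfl⟩ := c14u_exists_pow hp hdeg σ hσ τ
  induction i with
  | zero => simp
  | succ i ih => rw [pow_succ, AlgEquiv.mul_apply, hx, ih]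

end C14UGal

section C14UAct

variable {K L : Type*} [Field K] [Field L] [Algebra K L]

/-- the action of `σ` on the units of `𝓞 L` -/
noncomputable def c14uAct (σ : L ≃ₐ[K] L) : (𝓞 L)ˣ →* (𝓞 L)ˣ :=
  Units.map (RingOfIntegers.mapRingHom (σ : L →+* L)).toMonoidHom

theorem c14uAct_coe (σ : L ≃ₐ[K] L) (u : (𝓞 L)ˣ) :
    ((c14uAct σ u : 𝓞 L) : L) = σ ((u : 𝓞 L) : L) := rfl

/-- the same action as an endomorphism of the additive group of units -/
noncomputable def c14uS (σ : L ≃ₐ[K] L) : Module.End ℤ (Additive (𝓞 L)ˣ) :=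
  (MonoidHom.toAdditive (c14uAct σ)).toIntLinearMap

theorem c14uS_apply (σ : L ≃ₐ[K] L) (u : (𝓞 L)ˣ) :
    c14uS σ (Additive.ofMul u) = Additive.ofMul (c14uAct σ u) := rfl

theorem c14uS_pow (σ : L ≃ₐ[K] L) (i : ℕ) (u : (𝓞 L)ˣ) :
    (((Additive.toMul ((c14uS σ ^ i) (Additive.ofMul u)) : (𝓞 L)ˣ) : 𝓞 L) : L)
      = (σ ^ i) ((u : 𝓞 L) : L) := by
  induction i generalizing u with
  | zero => simp
  | succ i ih =>
    rw [pow_succ, Module.End.mul_apply, c14uS_apply, ih, c14uAct_coe, pow_succ,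
      AlgEquiv.mul_apply]

/-- the coercion of units into the field, as a monoid hom -/
noncomputable def c14uCoeHom (L : Type*) [Field L] : (𝓞 L)ˣ →* L :=
  ((algebraMap (𝓞 L) L : 𝓞 L →+* L) : 𝓞 L →* L).comp (Units.coeHom (𝓞 L))

theorem c14uCoeHom_apply (u : (𝓞 L)ˣ) : c14uCoeHom L u = ((u : 𝓞 L) : L) := rfl

theorem c14u_coe_inj {u v : (𝓞 L)ˣ} (h : ((u : 𝓞 L) : L) = ((v : 𝓞 L) : L)) : u = v :=
  NumberField.Units.coe_injective L h

theorem c14uS_sum (σ : L ≃ₐ[K] L) (p : ℕ) (u : (𝓞 L)ˣ) :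
    (((Additive.toMul ((∑ i ∈ range p, c14uS σ ^ i) (Additive.ofMul u)) : (𝓞 L)ˣ) : 𝓞 L) : L)
      = ∏ i ∈ range p, (σ ^ i) ((u : 𝓞 L) : L) := by
  rw [LinearMap.sum_apply, toMul_sum, ← c14uCoeHom_apply, map_prod]
  exact Finset.prod_congr rfl (fun i _ => c14uS_pow σ i u)

/-- the inclusion of the units of `𝓞 K` -/
noncomputable def c14uIota (K L : Type*) [Field K] [Field L] [Algebra K L] :
    (𝓞 K)ˣ →* (𝓞 L)ˣ :=
  Units.map ((algebraMap (𝓞 K) (𝓞 L) : 𝓞 K →+* 𝓞 L) : 𝓞 K →* 𝓞 L)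

theorem c14uIota_coe (u : (𝓞 K)ˣ) :
    ((c14uIota K L u : 𝓞 L) : L) = algebraMap K L ((u : 𝓞 K) : K) := rfl

theorem c14uIota_injective : Function.Injective (c14uIota K L) := by
  intro u v h
  apply c14u_coe_inj
  have := congrArg (fun w : (𝓞 L)ˣ => ((w : 𝓞 L) : L)) h
  simp only [c14uIota_coe] at this
  exact (algebraMap K L).injective this

end C14UAct

section C14UMain

variable {K L : Type*} [Field K] [Field L] [NumberField K] [NumberField L] [Algebra K L]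
  [IsGalois K L]

/-- a unit of `L` fixed by a generator of the Galois group comes from `K` -/
theorem c14u_fixed_unit {p : ℕ} (hp : p.Prime) (hdeg : Module.finrank K L = p)
    (σ : L ≃ₐ[K] L) (hσ : σ ≠ 1) (η : (𝓞 L)ˣ) (hη : σ ((η : 𝓞 L) : L) = ((η : 𝓞 L) : L)) :
    ∃ u : (𝓞 K)ˣ, c14uIota K L u = η := by
  have hfix := c14u_fixed_all hp hdeg σ hσ _ hη
  have hηinv : σ (((η⁻¹ : (𝓞 L)ˣ) : 𝓞 L) : L) = (((η⁻¹ : (𝓞 L)ˣ) : 𝓞 L) : L) := by
    rw [c14u_coe_inv, map_inv₀, hη]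
  have hfix' := c14u_fixed_all hp hdeg σ hσ _ hηinv
  obtain ⟨x, hx⟩ := (IsGalois.mem_range_algebraMap_iff_fixed _).2 hfix
  obtain ⟨y, hy⟩ := (IsGalois.mem_range_algebraMap_iff_fixed _).2 hfix'
  have hxint : IsIntegral ℤ x := by
    rw [← isIntegral_algebraMap_iff (algebraMap K L).injective, hx]
    exact RingOfIntegers.isIntegral_coe _
  have hyint : IsIntegral ℤ y := by
    rw [← isIntegral_algebraMap_iff (algebraMap K L).injective, hy]
    exact RingOfIntegers.isIntegral_coe _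
  have hxy : x * y = 1 := by
    apply (algebraMap K L).injective
    rw [map_mul, hx, hy, map_one, ← c14u_coe_mul, mul_inv_cancel, c14u_coe_one]
  let x' : 𝓞 K := ⟨x, hxint⟩
  let y' : 𝓞 K := ⟨y, hyint⟩
  have hxy' : x' * y' = 1 := by
    apply RingOfIntegers.coe_injective
    exact hxy
  refine ⟨Units.mkOfMulEqOne x' y' hxy', ?_⟩
  apply c14u_coe_inj
  rw [c14uIota_coe]
  exact hx

/-- **Herbrand unit index** for a cyclic extension of odd prime degree:
`[ker N : (σ-1) E_L] = p * [E_K : N E_L]`. -/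
theorem c14u_unit_index {p : ℕ} (hp : p.Prime) (hp2 : p ≠ 2) (hdeg : Module.finrank K L = p)
    (σ : L ≃ₐ[K] L) (hσ : σ ≠ 1) :
    (c14uNE K L).index ≠ 0 ∧
      (c14uB K L σ).relIndex (c14uZ K L) = p * (c14uNE K L).index := by
  classical
  set s := c14uS σ with hs_def
  have hord := c14u_orderOf hp hdeg σ hσ
  have hσp : σ ^ p = 1 := by rw [← hord]; exact pow_orderOf_eq_one σ
  have hofMul : ∀ x : Additive (𝓞 L)ˣ, ∃ u : (𝓞 L)ˣ, Additive.ofMul u = x :=
    fun x => ⟨Additive.toMul x, rfl⟩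
  have hs : s ^ p = 1 := by
    apply LinearMap.ext
    intro x
    obtain ⟨u, rfl⟩ := hofMul x
    have h := c14uS_pow σ p u
    rw [hσp] at h
    have h2 : Additive.toMul ((s ^ p) (Additive.ofMul u)) = u := c14u_coe_inj h
    exact Additive.toMul.injective h2
  set N : Module.End ℤ (Additive (𝓞 L)ˣ) := ∑ i ∈ range p, s ^ i with hN
  have hNcoe : ∀ u : (𝓞 L)ˣ, (((Additive.toMul (N (Additive.ofMul u)) : (𝓞 L)ˣ) : 𝓞 L) : L)
      = algebraMap K L (Algebra.norm K ((u : 𝓞 L) : L)) := by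
    intro u
    rw [hN, c14uS_sum, c14u_prod_pow hp hdeg σ hσ]
  have hDcoe : ∀ u : (𝓞 L)ˣ, (((Additive.toMul ((1 - s) (Additive.ofMul u)) : (𝓞 L)ˣ) : 𝓞 L) : L)
      = ((u : 𝓞 L) : L) / σ ((u : 𝓞 L) : L) := by
    intro u
    have : (1 - s) (Additive.ofMul u) = Additive.ofMul (u / c14uAct σ u) := rfl
    rw [this, toMul_ofMul, div_eq_mul_inv, c14u_coe_mul, c14u_coe_inv, c14uAct_coe, div_eq_mul_inv]
  -- identification of the four subgroups
  have hZ : (LinearMap.ker N).toAddSubgroup = Subgroup.toAddSubgroup (c14uZ K L) := by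
    ext x
    obtain ⟨u, rfl⟩ := hofMul x
    rw [Submodule.mem_toAddSubgroup, LinearMap.mem_ker]
    show _ ↔ u ∈ c14uZ K L
    rw [c14u_mem_Z]
    constructor
    · intro h
      have h1 := hNcoe u
      rw [h] at h1
      have h2 : algebraMap K L (Algebra.norm K ((u : 𝓞 L) : L)) = algebraMap K L 1 := by
        rw [← h1, map_one]; rfl
      exact (algebraMap K L).injective h2
    · intro h
      have h1 := hNcoe u
      rw [h, map_one] at h1
      have h2 : Additive.toMul (N (Additive.ofMul u)) = 1 := c14u_coe_inj h1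
      exact Additive.toMul.injective h2
  have hB : (LinearMap.range (1 - s)).toAddSubgroup = Subgroup.toAddSubgroup (c14uB K L σ) := by
    ext x
    obtain ⟨η, rfl⟩ := hofMul x
    rw [Submodule.mem_toAddSubgroup, LinearMap.mem_range]
    show _ ↔ η ∈ c14uB K L σ
    rw [c14u_mem_B]
    constructor
    · rintro ⟨y, hy⟩
      obtain ⟨ε, rfl⟩ := hofMul y
      refine ⟨ε⁻¹, ?_⟩
      have h1 := hDcoe ε
      rw [hy, toMul_ofMul] at h1
      rw [h1, c14u_coe_inv, map_inv₀]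
      have h3 := c14u_coe_ne_zero ε
      have h4 : σ ((ε : 𝓞 L) : L) ≠ 0 := by
        rw [Ne, map_eq_zero_iff σ σ.injective]; exact h3
      field_simp
    · rintro ⟨ε, hε⟩
      refine ⟨Additive.ofMul ε⁻¹, ?_⟩
      apply Additive.toMul.injective
      apply c14u_coe_inj
      rw [hDcoe, toMul_ofMul, hε, c14u_coe_inv, map_inv₀]
      have h3 := c14u_coe_ne_zero ε
      have h4 : σ ((ε : 𝓞 L) : L) ≠ 0 := by
        rw [Ne, map_eq_zero_iff σ σ.injective]; exact h3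
      field_simp
  have hFmem : ∀ η : (𝓞 L)ˣ, (1 - s) (Additive.ofMul η) = 0 ↔
      σ ((η : 𝓞 L) : L) = ((η : 𝓞 L) : L) := by
    intro η
    have h3 := c14u_coe_ne_zero η
    constructor
    · intro h
      have h1 := hDcoe η
      rw [h] at h1
      have h2 : (1 : L) = ((η : 𝓞 L) : L) / σ ((η : 𝓞 L) : L) := h1
      have h4 : σ ((η : 𝓞 L) : L) ≠ 0 := by
        rw [Ne, map_eq_zero_iff σ σ.injective]; exact h3
      field_simp at h2
      exact h2
    · intro h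
      apply Additive.toMul.injective
      apply c14u_coe_inj
      rw [hDcoe, h, div_self h3]
      rfl
  have hF : (LinearMap.ker (1 - s)).toAddSubgroup
      = Subgroup.toAddSubgroup (c14uIota K L).range := by
    ext x
    obtain ⟨η, rfl⟩ := hofMul x
    rw [Submodule.mem_toAddSubgroup, LinearMap.mem_ker, hFmem]
    show _ ↔ η ∈ (c14uIota K L).range
    rw [MonoidHom.mem_range]
    constructor
    · intro h
      exact c14u_fixed_unit hp hdeg σ hσ η h
    · rintro ⟨u, rfl⟩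
      rw [c14uIota_coe, AlgEquiv.commutes]
  have hNM : (LinearMap.range N).toAddSubgroup
      = Subgroup.toAddSubgroup ((c14uNE K L).map (c14uIota K L)) := by
    ext x
    obtain ⟨η, rfl⟩ := hofMul x
    rw [Submodule.mem_toAddSubgroup, LinearMap.mem_range]
    show _ ↔ η ∈ (c14uNE K L).map (c14uIota K L)
    rw [Subgroup.mem_map]
    constructor
    · rintro ⟨y, hy⟩
      obtain ⟨ε, rfl⟩ := hofMul y
      have h1 := hNcoe ε
      rw [hy, toMul_ofMul] at h1
      have hfix : σ ((η : 𝓞 L) : L) = ((η : 𝓞 L) : L) := by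
        rw [h1, AlgEquiv.commutes]
      obtain ⟨u, hu⟩ := c14u_fixed_unit hp hdeg σ hσ η hfix
      refine ⟨u, ?_, hu⟩
      rw [c14u_mem_NE]
      refine ⟨ε, ?_⟩
      apply (algebraMap K L).injective
      rw [← h1, ← hu, c14uIota_coe]
    · rintro ⟨u, hu, rfl⟩
      rw [c14u_mem_NE] at hu
      obtain ⟨ε, hε⟩ := hu
      refine ⟨Additive.ofMul ε, ?_⟩
      apply Additive.toMul.injective
      apply c14u_coe_inj
      rw [hNcoe, hε, toMul_ofMul, c14uIota_coe]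
  -- ranks
  have hodd : Odd (Module.finrank K L) := by
    rw [hdeg]; exact hp.odd_of_ne_two hp2
  have : IsUnramifiedAtInfinitePlaces K L := IsUnramifiedAtInfinitePlaces_of_odd_finrank hodd
  have hcard : Fintype.card (InfinitePlace L) = Fintype.card (InfinitePlace K) * p := by
    rw [IsUnramifiedAtInfinitePlaces.card_infinitePlace K L, hdeg]
  set r := Fintype.card (InfinitePlace K) with hr
  have hrpos : 0 < r := Fintype.card_pos
  have hM : Module.finrank ℤ (Additive (𝓞 L)ˣ) = (r - 1) + (p - 1) * r := by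
    rw [NumberField.Units.finrank_eq, NumberField.Units.rank, hcard]
    obtain ⟨q, rfl⟩ : ∃ q, p = q + 1 := ⟨p - 1, (Nat.sub_add_cancel hp.one_le).symm⟩
    obtain ⟨t, ht⟩ : ∃ t, r = t + 1 := ⟨r - 1, (Nat.sub_add_cancel hrpos).symm⟩
    rw [ht]
    simp only [Nat.add_sub_cancel]
    have : (t + 1) * (q + 1) = t + q * (t + 1) + 1 := by ring
    rw [this, Nat.add_sub_cancel]
  have ha : Module.finrank ℤ (LinearMap.ker (1 - s)) = r - 1 := by
    let f : Additive (𝓞 K)ˣ →ₗ[ℤ] Additive (𝓞 L)ˣ :=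
      (MonoidHom.toAdditive (c14uIota K L)).toIntLinearMap
    have hf : Function.Injective f := by
      intro x y hxy
      exact Additive.toMul.injective (c14uIota_injective (congrArg Additive.toMul hxy))
    have hrange : LinearMap.range f = LinearMap.ker (1 - s) := by
      apply Submodule.toAddSubgroup_injective
      rw [hF]
      ext x
      obtain ⟨η, rfl⟩ := hofMul x
      rw [Submodule.mem_toAddSubgroup, LinearMap.mem_range]
      show _ ↔ η ∈ (c14uIota K L).range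
      rw [MonoidHom.mem_range]
      constructor
      · rintro ⟨y, hy⟩
        exact ⟨Additive.toMul y, congrArg Additive.toMul hy⟩
      · rintro ⟨u, rfl⟩
        exact ⟨Additive.ofMul u, rfl⟩
    rw [← hrange, ← (LinearEquiv.ofInjective f hf).finrank_eq, NumberField.Units.finrank_eq,
      NumberField.Units.rank]
  obtain ⟨h0, h1⟩ := c14h_main hp s hs (r - 1) r ha hM
  rw [← hN, hNM, hF, hB, hZ, Subgroup.relIndex_toAddSubgroup, Subgroup.relIndex_toAddSubgroup,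
    MonoidHom.range_eq_map,
    Subgroup.relIndex_map_map_of_injective _ _ c14uIota_injective,
    Subgroup.relIndex_top_right] at h1
  rw [← hN, hNM, hF, Subgroup.relIndex_toAddSubgroup, MonoidHom.range_eq_map,
    Subgroup.relIndex_map_map_of_injective _ _ c14uIota_injective,
    Subgroup.relIndex_top_right] at h0
  refine ⟨h0, ?_⟩
  have hpr : p ^ r = p * p ^ (r - 1) := by
    rw [← pow_succ', Nat.sub_add_cancel hrpos]
  rw [hpr] at h1
  apply Nat.eq_of_mul_eq_mul_right (pow_pos hp.pos (r - 1))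
  rw [h1]
  ring

/-- `c14u_unit_index` in terms of cardinalities of quotients. -/
theorem c14u_unit_index_card {p : ℕ} (hp : p.Prime) (hp2 : p ≠ 2)
    (hdeg : Module.finrank K L = p) (σ : L ≃ₐ[K] L) (hσ : σ ≠ 1) :
    Finite ((𝓞 K)ˣ ⧸ c14uNE K L) ∧
      p * Nat.card ((𝓞 K)ˣ ⧸ c14uNE K L)
        = Nat.card (↥(c14uZ K L) ⧸ (c14uB K L σ).subgroupOf (c14uZ K L)) := by
  obtain ⟨h0, h1⟩ := c14u_unit_index hp hp2 hdeg σ hσ
  refine ⟨Subgroup.index_ne_zero_iff_finite.1 h0, ?_⟩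
  rw [← Subgroup.index_eq_card, ← h1]
  rfl

end C14UMain
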