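import Mathlib
import Fermat.Agent.Lib.C14_Defs
import Fermat.Agent.Lib.C14_Ext
import Fermat.Agent.Lib.C14_UnitIndex
import Fermat.Agent.Lib.C14_FI_Ideal

/-!
# S14 leaf FI: the first inequality, as existence of a class character

`C14.FI_char`: for `L / K` unramified Galois of odd prime degree `p` there is a nontrivial
character of the ideal class group of `K`, of exponent `p`, which is trivial on the primes
splitting completely in `L` (and on principal ideals).
-/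

set_option autoImplicit false
set_option linter.unusedSectionVars false

open scoped NumberField
open IsDedekindDomain Module

namespace C14

open NumberField
open scoped Pointwise nonZeroDivisors

section
variable {K L : Type} [Field K] [NumberField K] [Field L] [NumberField L] [Algebra K L]
  [IsGalois K L]

/-- all primes unramified (in the sense of `UnramIn`) gives squarefree extended primes -/
theorem fi_unram_of_unramIn (hunr : ∀ v : HeightOneSpectrum (𝓞 K), UnramIn K L v) :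
    FiUnram K L := by
  classical
  intro q hq
  have hq0 : q ≠ ⊥ := Ring.ne_bot_of_isMaximal_of_not_isField hq (RingOfIntegers.not_isField K)
  have hqLne : q.map (algebraMap (𝓞 K) (𝓞 L)) ≠ ⊥ := by
    rw [Ne, Ideal.map_eq_bot_iff_of_injective (FaithfulSMul.algebraMap_injective (𝓞 K) (𝓞 L))]
    exact hq0
  rw [UniqueFactorizationMonoid.squarefree_iff_nodup_normalizedFactors hqLne,
    Multiset.nodup_iff_count_le_one]
  intro J
  by_cases hJ : J ∈ UniqueFactorizationMonoid.normalizedFactors (q.map (algebraMap (𝓞 K) (𝓞 L)))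
  · rw [Ideal.mem_normalizedFactors_iff hqLne] at hJ
    obtain ⟨hJprime, hJle⟩ := hJ
    have hcomap : J.comap (algebraMap (𝓞 K) (𝓞 L)) = q :=
      (hq.eq_of_le (Ideal.comap_ne_top _ hJprime.ne_top) (Ideal.map_le_iff_le_comap.mp hJle)).symm
    have hJover : J.LiesOver q := ⟨hcomap.symm⟩
    have h1 := hunr ⟨q, hq.isPrime, hq0⟩ J hJprime hcomap
    rw [Ideal.IsDedekindDomain.ramificationIdx_eq_normalizedFactors_count q J hqLne] at h1
    exact h1.le
  · rw [Multiset.count_eq_zero_of_notMem hJ]; exact Nat.zero_le _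

/-- a completely split prime is a norm -/
theorem fi_split_mem_range (v : HeightOneSpectrum (𝓞 K)) (hv : SplitsIn K L v) :
    ClassGroup.mk0 ⟨v.asIdeal, fi_mem_nzd.mpr v.ne_bot⟩ ∈ (fiNormC K L).range := by
  have hvmax : v.asIdeal.IsMaximal := v.isMaximal
  obtain ⟨w, hwmax, hwover⟩ :=
    Ideal.exists_maximal_ideal_liesOver_of_isIntegral (S := 𝓞 L) v.asIdeal
  have hwprime := hwmax.isPrime
  have hcomap : w.comap (algebraMap (𝓞 K) (𝓞 L)) = v.asIdeal := (hwover.over).symm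
  obtain ⟨-, hf⟩ := hv w hwprime hcomap
  have hnorm : Ideal.relNorm (𝓞 K) w = v.asIdeal := by
    rw [Ideal.relNorm_eq_pow_of_isMaximal w v.asIdeal, hf, pow_one]
  have hw0 : w ≠ ⊥ := by
    rintro rfl
    rw [Ideal.relNorm_bot] at hnorm
    exact v.ne_bot hnorm.symm
  refine ⟨ClassGroup.mk0 ⟨w, fi_mem_nzd.mpr hw0⟩, ?_⟩
  rw [fiNormC_mk0]
  congr 1
  exact Subtype.ext hnorm

end

section rho
variable {K : Type} [Field K] [NumberField K]

open Classical in
/-- the function on ideals attached to a class group character -/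
noncomputable def fiRho (ψ : ClassGroup (𝓞 K) →* ℂˣ) (a : Ideal (𝓞 K)) : ℂ :=
  if h : a = ⊥ then 0 else ((ψ (ClassGroup.mk0 ⟨a, fi_mem_nzd.mpr h⟩) : ℂˣ) : ℂ)

theorem fiRho_bot (ψ : ClassGroup (𝓞 K) →* ℂˣ) : fiRho ψ ⊥ = 0 := by
  unfold fiRho
  rw [dif_pos rfl]

theorem fiRho_of_ne (ψ : ClassGroup (𝓞 K) →* ℂˣ) {a : Ideal (𝓞 K)} (h : a ≠ ⊥) :
    fiRho ψ a = ((ψ (ClassGroup.mk0 ⟨a, fi_mem_nzd.mpr h⟩) : ℂˣ) : ℂ) := by
  unfold fiRho
  rw [dif_neg h]

theorem fiRho_one (ψ : ClassGroup (𝓞 K) →* ℂˣ) : fiRho ψ 1 = 1 := by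
  have h1 : (1 : Ideal (𝓞 K)) ≠ ⊥ := one_ne_zero
  rw [fiRho_of_ne ψ h1]
  have : (⟨1, fi_mem_nzd.mpr h1⟩ : (Ideal (𝓞 K))⁰) = 1 := rfl
  rw [this, map_one, map_one, Units.val_one]

theorem fiRho_mul (ψ : ClassGroup (𝓞 K) →* ℂˣ) (a b : Ideal (𝓞 K)) :
    fiRho ψ (a * b) = fiRho ψ a * fiRho ψ b := by
  by_cases ha : a = ⊥
  · rw [ha, Ideal.bot_mul, fiRho_bot, zero_mul]
  by_cases hb : b = ⊥
  · rw [hb, Ideal.mul_bot, fiRho_bot, mul_zero]
  have hab : a * b ≠ ⊥ := mul_ne_zero ha hb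
  rw [fiRho_of_ne ψ ha, fiRho_of_ne ψ hb, fiRho_of_ne ψ hab, ← Units.val_mul, ← map_mul,
    ← map_mul]
  rfl

theorem fiRho_ext (ψ : ClassGroup (𝓞 K) →* ℂˣ) (a : Ideal (𝓞 K)) :
    ext K (fun v => fiRho ψ v.asIdeal) a = fiRho ψ a :=
  (ext_unique K (fiRho ψ) (fiRho_bot ψ) (fiRho_one ψ) (fiRho_mul ψ) a).symm

end rho

/-- a cyclic group of prime order has a generator different from one -/
theorem fi_exists_gen {G : Type*} [Group G] {p : ℕ} (hp : p.Prime) (hcard : Nat.card G = p) :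
    ∃ σ : G, σ ≠ 1 ∧ ∀ τ : G, τ ∈ Subgroup.zpowers σ := by
  have : Fact p.Prime := ⟨hp⟩
  have : IsCyclic G := isCyclic_of_prime_card hcard
  obtain ⟨σ, hσ⟩ := IsCyclic.exists_generator (α := G)
  refine ⟨σ, ?_, hσ⟩
  rintro rfl
  have hsub : Subsingleton G := by
    refine ⟨fun a b => ?_⟩
    have ha := hσ a
    have hb := hσ b
    rw [Subgroup.zpowers_one_eq_bot, Subgroup.mem_bot] at ha hb
    rw [ha, hb]
  have : Nat.card G = 1 := Nat.card_unique
  rw [hcard] at this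
  exact hp.one_lt.ne' this

/-- **FI**: the first inequality, as existence of a class character. -/
theorem FI_char (p : ℕ) [Fact p.Prime] (hp3 : 3 ≤ p)
    (K L : Type) [Field K] [NumberField K] [Field L] [NumberField L] [Algebra K L]
    [IsGalois K L] [IsCyclotomicExtension {p} ℚ K]
    (hdeg : finrank K L = p) (hunr : ∀ v : HeightOneSpectrum (𝓞 K), UnramIn K L v) :
    ∃ χ : HeightOneSpectrum (𝓞 K) → ℂ, (∀ v, χ v ^ p = 1) ∧
      (∀ v, SplitsIn K L v → χ v = 1) ∧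
      (∀ α : 𝓞 K, α ≠ 0 → ext K χ (Ideal.span {α}) = 1) ∧ (∃ v, χ v ≠ 1) := by
  classical
  have hp : p.Prime := Fact.out
  have hcard : Nat.card (L ≃ₐ[K] L) = p := by rw [IsGalois.card_aut_eq_finrank, hdeg]
  obtain ⟨σ, hσ1, hσ⟩ := fi_exists_gen hp hcard
  have : IsCyclic (L ≃ₐ[K] L) := isCyclic_of_prime_card hcard
  obtain ⟨hidx, hrel⟩ := c14u_unit_index hp (by omega) hdeg σ hσ1
  have hns : (fiNormC K L).range ≠ ⊤ :=
    fi_norm_not_surj (fi_unram_of_unramIn hunr) σ hσ (c14uZ K L) (c14uB K L σ) (c14uNE K L)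
      (fun η h => (c14u_mem_Z η).mp h) (fun η h => (c14u_mem_B σ η).mpr h)
      (fun u h => (c14u_mem_NE u).mp h) p hp.two_le hidx hrel
  -- a nontrivial character of the cokernel
  obtain ⟨c₀, hc₀⟩ : ∃ c₀ : ClassGroup (𝓞 K), c₀ ∉ (fiNormC K L).range := by
    by_contra hcon
    exact hns (top_le_iff.mp fun c _ => by_contra fun hc => hcon ⟨c, hc⟩)
  have ha : (QuotientGroup.mk c₀ : ClassGroup (𝓞 K) ⧸ (fiNormC K L).range) ≠ 1 := by
    rwa [Ne, QuotientGroup.eq_one_iff]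
  obtain ⟨φ, hφ⟩ := CommGroup.exists_apply_ne_one_of_hasEnoughRootsOfUnity
    (ClassGroup (𝓞 K) ⧸ (fiNormC K L).range) ℂ ha
  set ψ : ClassGroup (𝓞 K) →* ℂˣ := φ.comp (QuotientGroup.mk' (fiNormC K L).range) with hψ
  have hψrange : ∀ c ∈ (fiNormC K L).range, ψ c = 1 := by
    intro c hc
    rw [hψ, MonoidHom.comp_apply, QuotientGroup.mk'_apply,
      (QuotientGroup.eq_one_iff c).mpr hc, map_one]
  have hψpow : ∀ c, ψ c ^ p = 1 := by
    intro c
    rw [← map_pow, ← hdeg, ← fiNormC_ExtC (L := L) c]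
    exact hψrange _ ⟨_, rfl⟩
  refine ⟨fun v => fiRho ψ v.asIdeal, ?_, ?_, ?_, ?_⟩
  · intro v
    show fiRho ψ v.asIdeal ^ p = 1
    rw [fiRho_of_ne ψ v.ne_bot, ← Units.val_pow_eq_pow_val, hψpow, Units.val_one]
  · intro v hv
    show fiRho ψ v.asIdeal = 1
    rw [fiRho_of_ne ψ v.ne_bot, hψrange _ (fi_split_mem_range v hv), Units.val_one]
  · intro α hα
    rw [fiRho_ext, fiRho_of_ne ψ (fi_span_ne_bot hα), fi_mk0_span hα, map_one, Units.val_one]
  · by_contra hcon0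
    have hcon : ∀ v : HeightOneSpectrum (𝓞 K), fiRho ψ v.asIdeal = 1 :=
      fun v => by_contra fun hv => hcon0 ⟨v, hv⟩
    apply hφ
    obtain ⟨a, ha⟩ := ClassGroup.mk0_surjective c₀
    have h1 : ext K (fun v => fiRho ψ v.asIdeal) (a : Ideal (𝓞 K)) = 1 := by
      have : (fun v : HeightOneSpectrum (𝓞 K) => fiRho ψ v.asIdeal) = fun _ => (1 : ℂ) :=
        funext hcon
      rw [this, ext_fun_one K (fi_mem_nzd.mp a.2)]
    rw [fiRho_ext, fiRho_of_ne ψ (fi_mem_nzd.mp a.2)] at h1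
    have h2 : ψ (ClassGroup.mk0 a) = 1 := Units.ext h1
    rw [ha] at h2
    exact h2

end C14
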