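import Fermat.Agent.Lib.C14_Defs

/-!
# S14 development, leaf FROB: Frobenius elements in abelian extensions of number fields

`C14.FrobPow σ Q n`: `σ` acts on `B` as `x ↦ x ^ n` modulo the ideal `Q`.
Main results: `C14.frob_spec`, `C14.frob_unique`, `C14.frob_eq_one_iff`.
-/

set_option autoImplicit false

open scoped NumberField Pointwise
open IsDedekindDomain Module

namespace C14

section general

variable {B : Type*} [CommRing B] {G : Type*} [Group G] [MulSemiringAction G B]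

/-- `σ` acts as `x ↦ x ^ n` modulo `Q`. -/
def FrobPow (σ : G) (Q : Ideal B) (n : ℕ) : Prop := ∀ x : B, σ • x - x ^ n ∈ Q

theorem FrobPow.one_one (Q : Ideal B) : FrobPow (1 : G) Q 1 := fun x => by simp

theorem FrobPow.mul {σ τ : G} {Q : Ideal B} {n m : ℕ} (hσ : FrobPow σ Q n)
    (hτ : FrobPow τ Q m) : FrobPow (σ * τ) Q (m * n) := fun x => by
  have h1 : σ • (τ • x) - (τ • x) ^ n ∈ Q := hσ (τ • x)
  have h2 : (τ • x) ^ n - (x ^ m) ^ n ∈ Q :=
    Q.mem_of_dvd (sub_dvd_pow_sub_pow _ _ n) (hτ x)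
  have h3 := Q.add_mem h1 h2
  rw [mul_smul, pow_mul]
  convert h3 using 1
  ring

theorem FrobPow.pow {σ : G} {Q : Ideal B} {n : ℕ} (hσ : FrobPow σ Q n) (k : ℕ) :
    FrobPow (σ ^ k) Q (n ^ k) := by
  induction k with
  | zero => simpa using FrobPow.one_one (G := G) Q
  | succ k ih =>
    rw [pow_succ, pow_succ, mul_comm (n ^ k) n]
    exact ih.mul hσ

theorem FrobPow.mul_inv_mem_inertia {σ τ : G} {Q : Ideal B} {n : ℕ} (hσ : FrobPow σ Q n)
    (hτ : FrobPow τ Q n) : σ * τ⁻¹ ∈ Q.toAddSubgroup.inertia G := fun x => by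
  have h1 := hσ (τ⁻¹ • x)
  have h2 := hτ (τ⁻¹ • x)
  rw [smul_inv_smul] at h2
  have h3 := Q.sub_mem h1 h2
  have h4 : σ • τ⁻¹ • x - (τ⁻¹ • x) ^ n - (x - (τ⁻¹ • x) ^ n) = σ • τ⁻¹ • x - x := by ring
  rw [h4] at h3
  rw [mul_smul]
  exact h3

/-- Uniqueness of the Frobenius when the inertia group is trivial. -/
theorem FrobPow.eq_of_inertia_eq_bot {σ τ : G} {Q : Ideal B} {n : ℕ}
    (hI : Q.toAddSubgroup.inertia G = ⊥) (hσ : FrobPow σ Q n) (hτ : FrobPow τ Q n) :
    σ = τ := by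
  have h := hσ.mul_inv_mem_inertia hτ
  rw [hI, Subgroup.mem_bot] at h
  exact mul_inv_eq_one.mp h

theorem FrobPow.conj {σ : G} {Q : Ideal B} {n : ℕ} (hσ : FrobPow σ Q n) (τ : G) :
    FrobPow (τ * σ * τ⁻¹) (τ • Q) n := fun x => by
  rw [Ideal.pointwise_smul_eq_comap, Ideal.mem_comap]
  have h := hσ (τ⁻¹ • x)
  simpa [smul_sub, mul_smul] using h

/-- Restriction along an equivariant ring homomorphism. -/
theorem FrobPow.comap {C : Type*} [CommRing C] {H : Type*} [Group H] [MulSemiringAction H C]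
    (φ : B →+* C) (r : H → G) (hr : ∀ (h : H) (b : B), φ (r h • b) = h • φ b)
    {h : H} {Q : Ideal C} {n : ℕ} (hh : FrobPow h Q n) :
    FrobPow (r h) (Q.comap φ) n := fun b => by
  rw [Ideal.mem_comap, map_sub, map_pow, hr]
  exact hh (φ b)

/-- A domain all of whose elements satisfy `y ^ n = y` has at most `n` elements. -/
theorem frob_card_le_of_pow_eq {D : Type*} [CommRing D] [IsDomain D] {n : ℕ} (hn : 1 < n)
    (hall : ∀ y : D, y ^ n = y) : Finite D ∧ Nat.card D ≤ n := by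
  classical
  have hdeg : (Polynomial.X ^ n - Polynomial.X : Polynomial D).natDegree = n := by
    have h1 : (Polynomial.X : Polynomial D).degree < (Polynomial.X ^ n : Polynomial D).degree := by
      rw [Polynomial.degree_X_pow, Polynomial.degree_X]
      exact_mod_cast hn
    rw [Polynomial.natDegree_eq_of_degree_eq (Polynomial.degree_sub_eq_left_of_degree_lt h1),
      Polynomial.natDegree_X_pow]
  have hP : (Polynomial.X ^ n - Polynomial.X : Polynomial D) ≠ 0 :=
    Polynomial.ne_zero_of_natDegree_gt (n := 1) (by rw [hdeg]; exact hn)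
  have hroot : ∀ y : D, y ∈ (Polynomial.X ^ n - Polynomial.X : Polynomial D).roots :=
    fun y => by
      rw [Polynomial.mem_roots hP, Polynomial.IsRoot.def, Polynomial.eval_sub,
        Polynomial.eval_pow, Polynomial.eval_X, hall y, sub_self]
  have hfin : Finite D :=
    Finite.of_injective (fun y : D =>
      (⟨y, Multiset.mem_toFinset.mpr (hroot y)⟩ :
        (Polynomial.X ^ n - Polynomial.X : Polynomial D).roots.toFinset))
      (fun a b hab => congrArg Subtype.val hab)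
  refine ⟨hfin, ?_⟩
  have := Fintype.ofFinite D
  rw [Nat.card_eq_fintype_card]
  calc Fintype.card D = (Finset.univ : Finset D).card := rfl
    _ ≤ (Polynomial.X ^ n - Polynomial.X : Polynomial D).roots.toFinset.card :=
        Finset.card_le_card fun y _ => Multiset.mem_toFinset.mpr (hroot y)
    _ ≤ Multiset.card (Polynomial.X ^ n - Polynomial.X : Polynomial D).roots :=
        Multiset.toFinset_card_le _
    _ ≤ (Polynomial.X ^ n - Polynomial.X : Polynomial D).natDegree :=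
        Polynomial.card_roots' _
    _ = n := hdeg

/-- If the identity is a Frobenius power `x ↦ x ^ n` at the prime `Q`, then `B ⧸ Q` has at
most `n` elements. -/
theorem frob_card_quot_le (Q : Ideal B) [Q.IsPrime] {n : ℕ} (hn : 1 < n)
    (h : FrobPow (1 : G) Q n) : Finite (B ⧸ Q) ∧ Nat.card (B ⧸ Q) ≤ n := by
  refine frob_card_le_of_pow_eq hn fun y => ?_
  obtain ⟨x, rfl⟩ := Ideal.Quotient.mk_surjective y
  have := h x
  rw [one_smul] at this
  rw [← map_pow, eq_comm, Ideal.Quotient.eq]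
  exact this

/-- In a finite residue field of cardinality `n`, the identity is a Frobenius power `x ↦ x ^ n`. -/
theorem frob_one_of_card (Q : Ideal B) [Q.IsPrime] [Finite (B ⧸ Q)] :
    FrobPow (1 : G) Q (Nat.card (B ⧸ Q)) := fun x => by
  have hf : IsField (B ⧸ Q) := Finite.isField_of_domain (B ⧸ Q)
  letI : Field (B ⧸ Q) := hf.toField
  have := Fintype.ofFinite (B ⧸ Q)
  rw [one_smul, ← Ideal.Quotient.eq, map_pow, Nat.card_eq_fintype_card, FiniteField.pow_card]

end general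

section nf

variable (F M : Type*) [Field F] [NumberField F] [Field M] [NumberField M] [Algebra F M]

/-- `IsFrob` in terms of the action on the ring of integers. -/
theorem frob_isFrob_iff (v : HeightOneSpectrum (𝓞 F)) (g : M ≃ₐ[F] M) :
    IsFrob F M v g ↔ ∀ w : Ideal (𝓞 M), w.IsPrime →
      w.comap (algebraMap (𝓞 F) (𝓞 M)) = v.asIdeal → FrobPow g w (Ideal.absNorm v.asIdeal) := by
  constructor
  · intro h w hw hwv x
    obtain ⟨y, hy, hyx⟩ := h w hw hwv x
    have : y = g • x - x ^ Ideal.absNorm v.asIdeal := by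
      apply NumberField.RingOfIntegers.ext
      rw [hyx]
      rfl
    rw [← this]
    exact hy
  · intro h w hw hwv x
    exact ⟨g • x - x ^ Ideal.absNorm v.asIdeal, h w hw hwv x, rfl⟩

/-- there is a prime above `v` -/
theorem frob_exists_prime_over (v : HeightOneSpectrum (𝓞 F)) :
    ∃ w : Ideal (𝓞 M), w.IsPrime ∧ w.comap (algebraMap (𝓞 F) (𝓞 M)) = v.asIdeal := by
  obtain ⟨Q, -, hQ, hQv⟩ := Ideal.exists_ideal_over_prime_of_isIntegral v.asIdeal
    (⊥ : Ideal (𝓞 M)) (by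
      rw [Ideal.comap_bot_of_injective _ (FaithfulSMul.algebraMap_injective (𝓞 F) (𝓞 M))]
      exact bot_le)
  exact ⟨Q, hQ, hQv⟩

theorem frob_prime_ne_bot (v : HeightOneSpectrum (𝓞 F)) (w : Ideal (𝓞 M))
    (hwv : w.comap (algebraMap (𝓞 F) (𝓞 M)) = v.asIdeal) : w ≠ ⊥ := by
  rintro rfl
  rw [Ideal.comap_bot_of_injective _ (FaithfulSMul.algebraMap_injective (𝓞 F) (𝓞 M))] at hwv
  exact v.ne_bot hwv.symm

theorem frob_card_quot (v : HeightOneSpectrum (𝓞 F)) :
    Nat.card (𝓞 F ⧸ v.asIdeal) = Ideal.absNorm v.asIdeal := by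
  rw [Ideal.absNorm_apply, Submodule.cardQuot_apply]

theorem frob_card_quot_over (v : HeightOneSpectrum (𝓞 F)) (w : Ideal (𝓞 M)) (hw : w.IsPrime)
    (hwv : w.comap (algebraMap (𝓞 F) (𝓞 M)) = v.asIdeal) :
    Nat.card (𝓞 M ⧸ w) = Ideal.absNorm v.asIdeal ^ w.inertiaDeg (𝓞 F) := by
  have : w.LiesOver v.asIdeal := ⟨hwv.symm⟩
  rw [Ideal.absNorm_pow_inertiaDeg v.asIdeal w, Ideal.absNorm_apply, Submodule.cardQuot_apply]

theorem frob_one_lt_absNorm (v : HeightOneSpectrum (𝓞 F)) : 1 < Ideal.absNorm v.asIdeal := by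
  have h1 : Ideal.absNorm v.asIdeal ≠ 1 := by
    rw [Ne, Ideal.absNorm_eq_one_iff]
    exact v.isPrime.ne_top
  have h0 : Ideal.absNorm v.asIdeal ≠ 0 := by
    rw [Ne, Ideal.absNorm_eq_zero_iff]
    exact v.ne_bot
  omega

variable [IsGalois F M]

/-- the inertia group at an unramified prime is trivial -/
theorem frob_inertia_eq_bot (v : HeightOneSpectrum (𝓞 F)) (w : Ideal (𝓞 M)) (hw : w.IsPrime)
    (hwv : w.comap (algebraMap (𝓞 F) (𝓞 M)) = v.asIdeal) (he : w.ramificationIdx (𝓞 F) = 1) :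
    w.toAddSubgroup.inertia (M ≃ₐ[F] M) = ⊥ := by
  have : w.LiesOver v.asIdeal := ⟨hwv.symm⟩
  have h : Nat.card (w.inertia (M ≃ₐ[F] M)) = 1 := by
    rw [Ideal.card_inertia_eq_ramificationIdxIn (G := M ≃ₐ[F] M) v.asIdeal w,
      Ideal.ramificationIdxIn_eq_ramificationIdx v.asIdeal w (M ≃ₐ[F] M), he]
  exact Subgroup.eq_bot_of_card_eq _ h

/-- Uniqueness of Frobenius powers at an unramified prime. -/
theorem frob_pow_unique (v : HeightOneSpectrum (𝓞 F)) (hv : UnramIn F M v)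
    (w : Ideal (𝓞 M)) (hw : w.IsPrime) (hwv : w.comap (algebraMap (𝓞 F) (𝓞 M)) = v.asIdeal)
    {g h : M ≃ₐ[F] M} {n : ℕ} (hg : FrobPow g w n) (hh : FrobPow h w n) : g = h :=
  FrobPow.eq_of_inertia_eq_bot (frob_inertia_eq_bot F M v w hw hwv (hv w hw hwv)) hg hh

/-- In an abelian extension, a Frobenius at one prime above `v` is a Frobenius at all of them. -/
theorem frob_pow_all (hab : ∀ g h : M ≃ₐ[F] M, g * h = h * g)
    (v : HeightOneSpectrum (𝓞 F)) (w w' : Ideal (𝓞 M)) (hw : w.IsPrime) (hw' : w'.IsPrime)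
    (hwv : w.comap (algebraMap (𝓞 F) (𝓞 M)) = v.asIdeal)
    (hwv' : w'.comap (algebraMap (𝓞 F) (𝓞 M)) = v.asIdeal)
    {g : M ≃ₐ[F] M} {n : ℕ} (hg : FrobPow g w n) : FrobPow g w' n := by
  have : w.LiesOver v.asIdeal := ⟨hwv.symm⟩
  have : w'.LiesOver v.asIdeal := ⟨hwv'.symm⟩
  obtain ⟨τ, rfl⟩ := Ideal.exists_smul_eq_of_isGaloisGroup v.asIdeal w w' (M ≃ₐ[F] M)
  have h := hg.conj τ
  rwa [hab τ g, mul_inv_cancel_right] at h

theorem frob_exists (hab : ∀ g h : M ≃ₐ[F] M, g * h = h * g)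
    (v : HeightOneSpectrum (𝓞 F)) : ∃ g : M ≃ₐ[F] M, IsFrob F M v g := by
  obtain ⟨w, hw, hwv⟩ := frob_exists_prime_over F M v
  have hfin : Finite (𝓞 M ⧸ w) :=
    Ideal.finiteQuotientOfFreeOfNeBot w (frob_prime_ne_bot F M v w hwv)
  obtain ⟨σ, hσ⟩ := IsArithFrobAt.exists_of_isInvariant (𝓞 F) (M ≃ₐ[F] M) w
  refine ⟨σ, (frob_isFrob_iff F M v σ).mpr fun w' hw' hwv' => ?_⟩
  have h1 : FrobPow σ w (Ideal.absNorm v.asIdeal) := by
    intro x
    have := hσ x
    rwa [Ideal.under_def, hwv, frob_card_quot] at this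
  exact frob_pow_all F M hab v w w' hw hw' hwv hwv' h1

theorem frob_spec (hab : ∀ g h : M ≃ₐ[F] M, g * h = h * g)
    (v : HeightOneSpectrum (𝓞 F)) (hv : UnramIn F M v) : IsFrob F M v (frob F M v) := by
  have h := frob_exists F M hab v
  unfold frob
  rw [dif_pos h]
  exact h.choose_spec

theorem frob_unique (v : HeightOneSpectrum (𝓞 F)) (hv : UnramIn F M v)
    (g : M ≃ₐ[F] M) (hg : IsFrob F M v g) : g = frob F M v := by
  have h : ∃ g : M ≃ₐ[F] M, IsFrob F M v g := ⟨g, hg⟩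
  have hf : IsFrob F M v (frob F M v) := by
    unfold frob
    rw [dif_pos h]
    exact h.choose_spec
  obtain ⟨w, hw, hwv⟩ := frob_exists_prime_over F M v
  exact frob_pow_unique F M v hv w hw hwv ((frob_isFrob_iff F M v g).mp hg w hw hwv)
    ((frob_isFrob_iff F M v _).mp hf w hw hwv)

/-- `frob` as a Frobenius power at each prime above `v`. -/
theorem frob_frobPow (hab : ∀ g h : M ≃ₐ[F] M, g * h = h * g)
    (v : HeightOneSpectrum (𝓞 F)) (hv : UnramIn F M v)
    (w : Ideal (𝓞 M)) (hw : w.IsPrime) (hwv : w.comap (algebraMap (𝓞 F) (𝓞 M)) = v.asIdeal) :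
    FrobPow (frob F M v) w (Ideal.absNorm v.asIdeal) :=
  (frob_isFrob_iff F M v _).mp (frob_spec F M hab v hv) w hw hwv

theorem frob_eq_one_iff (hab : ∀ g h : M ≃ₐ[F] M, g * h = h * g)
    (v : HeightOneSpectrum (𝓞 F)) (hv : UnramIn F M v) :
    frob F M v = 1 ↔ SplitsIn F M v := by
  constructor
  · intro h1 w hw hwv
    refine ⟨hv w hw hwv, ?_⟩
    have hF := frob_frobPow F M hab v hv w hw hwv
    rw [h1] at hF
    have hN := frob_one_lt_absNorm F v
    obtain ⟨-, hle⟩ := frob_card_quot_le w hN hF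
    rw [frob_card_quot_over F M v w hw hwv] at hle
    have hpos : 0 < w.inertiaDeg (𝓞 F) := Ideal.inertiaDeg_pos w (𝓞 F)
    by_contra hne
    have h2 : 2 ≤ w.inertiaDeg (𝓞 F) := by omega
    have h3 : Ideal.absNorm v.asIdeal ^ 2 ≤ Ideal.absNorm v.asIdeal ^ w.inertiaDeg (𝓞 F) :=
      Nat.pow_le_pow_right (by omega) h2
    nlinarith
  · intro hs
    symm
    apply frob_unique F M v hv
    rw [frob_isFrob_iff]
    intro w hw hwv
    have hfin : Finite (𝓞 M ⧸ w) :=
      Ideal.finiteQuotientOfFreeOfNeBot w (frob_prime_ne_bot F M v w hwv)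
    have h := frob_one_of_card (G := M ≃ₐ[F] M) w
    rwa [frob_card_quot_over F M v w hw hwv, (hs w hw hwv).2, pow_one] at h

end nf

end C14
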