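import Fermat.Agent.Lib.C14_FrobIs
import Fermat.Agent.Lib.C14_Pull

/-!
# S14 development: "Chebotarev-lite" for cyclic subgroups of an abelian Galois group

`C14.frob_exists_pow`: in an abelian extension `Ω/K`, for `g ∈ Gal(Ω/K)` of order divisible by
the prime `p`, there is a prime `r` of `K` (outside a given finite set, of absolute degree one)
having a Frobenius of the form `g ^ t` with `p ∤ t`.  (Input: existence of non-split primes of
absolute degree one in nontrivial Galois extensions, `Z_exists_not_split`.)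
-/

set_option autoImplicit false

open scoped NumberField Pointwise
open IsDedekindDomain Module

namespace C14

/-- the identity being a Frobenius at an unramified prime means that the prime splits -/
theorem frob_splitsIn_of_isFrob_one (F M : Type*) [Field F] [NumberField F] [Field M]
    [NumberField M] [Algebra F M] (v : HeightOneSpectrum (𝓞 F)) (hv : UnramIn F M v)
    (h1 : IsFrob F M v 1) : SplitsIn F M v := fun w hw hwv =>
  ⟨hv w hw hwv, frob_inertiaDeg_eq_one_of_frobPow_one F M v w hw hwv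
    ((frob_isFrob_iff F M v 1).mp h1 w hw hwv)⟩

/-- finitely many primes lie above a finite set of primes -/
theorem frob_finite_over (K F : Type*) [Field K] [NumberField K] [Field F] [NumberField F]
    [Algebra K F] (S : Set (HeightOneSpectrum (𝓞 K))) (hS : S.Finite) :
    {P : HeightOneSpectrum (𝓞 F) | under K F P ∈ S}.Finite := by
  have h : {P : HeightOneSpectrum (𝓞 F) | under K F P ∈ S} =
      ⋃ r ∈ S, {P : HeightOneSpectrum (𝓞 F) | under K F P = r} := by
    ext P
    simp
  rw [h]
  refine hS.biUnion fun r _ => ?_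
  have hfin : (r.asIdeal.primesOver (𝓞 F)).Finite := Algebra.QuasiFinite.finite_primesOver _
  refine Set.Finite.of_finite_image (f := fun P : HeightOneSpectrum (𝓞 F) => P.asIdeal)
    (hfin.subset ?_) (fun a _ b _ h => HeightOneSpectrum.ext h)
  rintro _ ⟨P, hP, rfl⟩
  exact ⟨P.isPrime, ⟨by rw [← hP]; rfl⟩⟩

/-- **Chebotarev-lite** for cyclic subgroups. -/
theorem frob_exists_pow
    (hZ : ∀ (F M : Type) [Field F] [NumberField F] [Field M] [NumberField M] [Algebra F M]
      [IsGalois F M], 1 < finrank F M → ∀ S : Set (HeightOneSpectrum (𝓞 F)), S.Finite →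
      ∃ v : HeightOneSpectrum (𝓞 F), v ∉ S ∧ (Ideal.absNorm v.asIdeal).Prime ∧
        UnramIn F M v ∧ ¬ SplitsIn F M v)
    (K Ω : Type) [Field K] [NumberField K] [Field Ω] [NumberField Ω] [Algebra K Ω]
    [IsGalois K Ω] (hab : ∀ g h : Ω ≃ₐ[K] Ω, g * h = h * g) (g : Ω ≃ₐ[K] Ω) (p : ℕ)
    (hp : p.Prime) (hpg : p ∣ orderOf g) (S : Set (HeightOneSpectrum (𝓞 K))) (hS : S.Finite) :
    ∃ (r : HeightOneSpectrum (𝓞 K)) (t : ℕ), r ∉ S ∧ ¬ p ∣ t ∧
      (Ideal.absNorm r.asIdeal).Prime ∧ IsFrob K Ω r (g ^ t) := by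
  classical
  have hn0 : 0 < orderOf g := orderOf_pos g
  let H : Subgroup (Ω ≃ₐ[K] Ω) := Subgroup.zpowers g
  let H' : Subgroup (Ω ≃ₐ[K] Ω) := Subgroup.zpowers (g ^ p)
  have hH'H : H' ≤ H := by
    rw [Subgroup.zpowers_le]
    exact Subgroup.pow_mem _ (Subgroup.mem_zpowers g) p
  let F' : IntermediateField K Ω := IntermediateField.fixedField H
  let M' : IntermediateField K Ω := IntermediateField.fixedField H'
  have hFM : F' ≤ M' := IntermediateField.fixedField_le hH'H
  let M'' : IntermediateField ↥F' Ω := IntermediateField.extendScalars hFM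
  have hab' : ∀ a b : Ω ≃ₐ[↥F'] Ω, a * b = b * a := by
    intro a b
    ext y
    exact DFunLike.congr_fun (hab (a.restrictScalars K) (b.restrictScalars K)) y
  -- `M''/F'` is Galois
  have hgal : IsGalois ↥F' ↥M'' := by
    have hnorm : (M''.fixingSubgroup).Normal :=
      ⟨fun a ha b => by rw [hab' b a, mul_inv_cancel_right]; exact ha⟩
    have h1 := IsGalois.of_fixedField_normal_subgroup (K := ↥F') (L := Ω) M''.fixingSubgroup
    rwa [IsGalois.fixedField_fixingSubgroup] at h1
  -- degrees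
  have hdF : finrank ↥F' Ω = orderOf g := by
    rw [IntermediateField.finrank_fixedField_eq_card H, Nat.card_zpowers]
  have hdM : finrank ↥M'' Ω = orderOf g / p := by
    have h1 : finrank ↥M' Ω = Nat.card H' := IntermediateField.finrank_fixedField_eq_card H'
    have h2 : orderOf (g ^ p) = orderOf g / p := by
      rw [orderOf_pow' g hp.ne_zero, Nat.gcd_eq_right hpg]
    rw [Nat.card_zpowers, h2] at h1
    exact h1
  have hdeg : 1 < finrank ↥F' ↥M'' := by
    have h1 : finrank ↥F' ↥M'' * finrank ↥M'' Ω = finrank ↥F' Ω := Module.finrank_mul_finrank _ _ _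
    rw [hdF, hdM] at h1
    have h2 : orderOf g / p < orderOf g := Nat.div_lt_self hn0 hp.one_lt
    by_contra hle
    have h3 : finrank ↥F' ↥M'' = 0 ∨ finrank ↥F' ↥M'' = 1 := by omega
    rcases h3 with h3 | h3
    · rw [h3, zero_mul] at h1
      omega
    · rw [h3, one_mul] at h1
      omega
  obtain ⟨P, hPS, hPprime, hPunr, hPns⟩ := hZ ↥F' ↥M'' hdeg
    {P : HeightOneSpectrum (𝓞 ↥F') | under K ↥F' P ∈ S} (frob_finite_over K ↥F' S hS)
  -- the Frobenius at `P` in `Gal(Ω/F')`
  obtain ⟨h₀, hh₀⟩ := frob_exists ↥F' Ω hab' P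
  have hmem : h₀.restrictScalars K ∈ H := by
    have h1 : h₀.restrictScalars K ∈ F'.fixingSubgroup := by
      rw [IntermediateField.mem_fixingSubgroup_iff]
      intro x hx
      exact h₀.commutes ⟨x, hx⟩
    rwa [IntermediateField.fixingSubgroup_fixedField] at h1
  obtain ⟨t, ht⟩ : ∃ t : ℕ, g ^ t = h₀.restrictScalars K := by
    have h1 := (mem_powers_iff_mem_zpowers (x := g) (y := h₀.restrictScalars K)).mpr hmem
    exact (Submonoid.mem_powers_iff _ _).mp h1
  have hpt : ¬ p ∣ t := by
    rintro ⟨j, rfl⟩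
    apply hPns
    apply frob_splitsIn_of_isFrob_one ↥F' ↥M'' P hPunr
    refine frob_isFrob_restrict ↥F' ↥M'' Ω P h₀ hh₀ 1 ?_
    intro x
    rw [AlgEquiv.one_apply]
    have hx : (x : Ω) ∈ M' := x.2
    have h2 := (IntermediateField.mem_fixedField_iff H' (x : Ω)).mp hx (h₀.restrictScalars K)
      (by rw [← ht, pow_mul]; exact Subgroup.pow_mem _ (Subgroup.mem_zpowers _) j)
    exact h2.symm
  have hf : P.asIdeal.inertiaDeg (𝓞 K) = 1 := by
    have : P.asIdeal.LiesOver (under K ↥F' P).asIdeal := ⟨rfl⟩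
    have hN := Ideal.absNorm_pow_inertiaDeg (under K ↥F' P).asIdeal P.asIdeal
    exact ((Nat.Prime.pow_eq_iff hPprime).mp hN).2
  refine ⟨under K ↥F' P, t, hPS, hpt, ?_, ?_⟩
  · rw [← frob_absNorm_of_inertiaDeg_eq_one K ↥F' (under K ↥F' P) P.asIdeal P.isPrime rfl hf]
    exact hPprime
  · exact frob_isFrob_of_baseChange K ↥F' Ω hab (under K ↥F' P) P rfl hf h₀ hh₀ (g ^ t)
      (fun x => by rw [ht]; rfl)

end C14
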