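import Fermat.Agent.Lib.C14_FrobGal

/-!
# S14 development, leaf FROB: functoriality of Frobenius elements

* `C14.frob_unramIn_bot`, `C14.frob_unramIn_top`: unramifiedness in towers;
* `C14.frob_restrict`: restriction to a Galois subextension;
* `C14.frob_baseChange`: base change to an intermediate field;
* `C14.frob_orderOf`: the order of the Frobenius is the inertia degree;
* `C14.frob_apply_of_pow_eq_one`: action on roots of unity.
-/

set_option autoImplicit false

open scoped NumberField Pointwise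
open IsDedekindDomain Module

namespace C14

section tower

variable (F M' M : Type*) [Field F] [NumberField F] [Field M'] [NumberField M']
  [Field M] [NumberField M] [Algebra F M'] [Algebra M' M] [Algebra F M] [IsScalarTower F M' M]

/-- a prime of the top field above a prime of the middle field lies above the prime below -/
theorem frob_comap_tower (w : Ideal (𝓞 M)) :
    w.comap (algebraMap (𝓞 F) (𝓞 M)) =
      (w.comap (algebraMap (𝓞 M') (𝓞 M))).comap (algebraMap (𝓞 F) (𝓞 M')) := by
  rw [Ideal.comap_comap, ← IsScalarTower.algebraMap_eq]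

/-- there is a prime of the top field above a given nonzero prime of the middle field -/
theorem frob_exists_prime_over_ideal (w' : Ideal (𝓞 M')) (hw' : w'.IsPrime) :
    ∃ w : Ideal (𝓞 M), w.IsPrime ∧ w.comap (algebraMap (𝓞 M') (𝓞 M)) = w' := by
  obtain ⟨Q, -, hQ, hQv⟩ := Ideal.exists_ideal_over_prime_of_isIntegral w'
    (⊥ : Ideal (𝓞 M)) (by
      rw [Ideal.comap_bot_of_injective _ (FaithfulSMul.algebraMap_injective (𝓞 M') (𝓞 M))]
      exact bot_le)
  exact ⟨Q, hQ, hQv⟩

/-- unramified in `M` implies unramified in the subextension `M'` -/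
theorem frob_unramIn_bot (v : HeightOneSpectrum (𝓞 F)) (hv : UnramIn F M v) :
    UnramIn F M' v := by
  intro w' hw' hwv'
  obtain ⟨w, hw, hww'⟩ := frob_exists_prime_over_ideal M' M w' hw'
  have hwv : w.comap (algebraMap (𝓞 F) (𝓞 M)) = v.asIdeal := by
    rw [frob_comap_tower F M' M, hww', hwv']
  have : w.LiesOver w' := ⟨hww'.symm⟩
  have h1 := hv w hw hwv
  rw [Ideal.ramificationIdx_tower (R := 𝓞 F) w' w] at h1
  exact Nat.eq_one_of_mul_eq_one_right h1

/-- unramified in `M` implies that the primes of the intermediate field `M'` above `v` are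
unramified in `M` -/
theorem frob_unramIn_top (v : HeightOneSpectrum (𝓞 F)) (hv : UnramIn F M v)
    (w : HeightOneSpectrum (𝓞 M'))
    (hwv : w.asIdeal.comap (algebraMap (𝓞 F) (𝓞 M')) = v.asIdeal) : UnramIn M' M w := by
  intro P hP hPw
  have hPv : P.comap (algebraMap (𝓞 F) (𝓞 M)) = v.asIdeal := by
    rw [frob_comap_tower F M' M, hPw, hwv]
  have : P.LiesOver w.asIdeal := ⟨hPw.symm⟩
  have h1 := hv P hP hPv
  rw [Ideal.ramificationIdx_tower (R := 𝓞 F) w.asIdeal P] at h1
  exact Nat.eq_one_of_mul_eq_one_left h1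

/-- **Restriction**: the Frobenius of `M/F` restricts to the Frobenius of `M'/F`. -/
theorem frob_restrict [IsGalois F M] [IsGalois F M']
    (hab : ∀ g h : M ≃ₐ[F] M, g * h = h * g)
    (v : HeightOneSpectrum (𝓞 F)) (hv : UnramIn F M v) (x : M') :
    algebraMap M' M (frob F M' v x) = frob F M v (algebraMap M' M x) := by
  have hF : IsFrob F M' v ((frob F M v).restrictNormal M') := by
    rw [frob_isFrob_iff]
    intro w' hw' hwv'
    obtain ⟨w, hw, hww'⟩ := frob_exists_prime_over_ideal M' M w' hw'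
    have hwv : w.comap (algebraMap (𝓞 F) (𝓞 M)) = v.asIdeal := by
      rw [frob_comap_tower F M' M, hww', hwv']
    have h1 := frob_frobPow F M hab v hv w hw hwv
    have h2 := FrobPow.comap (algebraMap (𝓞 M') (𝓞 M))
      (fun g : M ≃ₐ[F] M => g.restrictNormal M') (by
        intro h b
        apply NumberField.RingOfIntegers.ext
        exact AlgEquiv.restrictNormal_commutes h M' (b : M')) h1
    rwa [hww'] at h2
  rw [← frob_unique F M' v (frob_unramIn_bot F M' M v hv) _ hF,
    AlgEquiv.restrictNormal_commutes]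

/-- **Base change**: for `F ⊆ M' ⊆ M` with `M/F` abelian and `w` a prime of `M'` above `v`,
the Frobenius of `w` in `M/M'` is the `f(w|v)`-th power of the Frobenius of `v` in `M/F`. -/
theorem frob_baseChange [IsGalois F M]
    (hab : ∀ g h : M ≃ₐ[F] M, g * h = h * g)
    (v : HeightOneSpectrum (𝓞 F)) (hv : UnramIn F M v) (w : HeightOneSpectrum (𝓞 M'))
    (hwv : w.asIdeal.comap (algebraMap (𝓞 F) (𝓞 M')) = v.asIdeal) (x : M) :
    frob M' M w x = (frob F M v ^ w.asIdeal.inertiaDeg (𝓞 F)) x := by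
  have : IsGalois M' M := IsGalois.tower_top_of_isGalois F M' M
  have hab' : ∀ g h : M ≃ₐ[M'] M, g * h = h * g := by
    intro g h
    ext y
    exact DFunLike.congr_fun (hab (g.restrictScalars F) (h.restrictScalars F)) y
  obtain ⟨P, hP, hPw⟩ := frob_exists_prime_over M' M w
  have hPv : P.comap (algebraMap (𝓞 F) (𝓞 M)) = v.asIdeal := by
    rw [frob_comap_tower F M' M, hPw, hwv]
  have h1 : FrobPow (frob M' M w) P (Ideal.absNorm w.asIdeal) :=
    (frob_isFrob_iff M' M w _).mp (frob_spec_ab M' M hab' w) P hP hPw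
  have h2 : FrobPow ((frob M' M w).restrictScalars F) P (Ideal.absNorm w.asIdeal) :=
    fun y => h1 y
  have : w.asIdeal.LiesOver v.asIdeal := ⟨hwv.symm⟩
  have hN : Ideal.absNorm v.asIdeal ^ w.asIdeal.inertiaDeg (𝓞 F) = Ideal.absNorm w.asIdeal :=
    Ideal.absNorm_pow_inertiaDeg v.asIdeal w.asIdeal
  have h3 := (frob_frobPow F M hab v hv P hP hPv).pow (w.asIdeal.inertiaDeg (𝓞 F))
  rw [hN] at h3
  have h4 := frob_pow_unique F M v hv P hP hPv h2 h3
  rw [← h4]
  rfl

end tower

section single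

variable (F M : Type*) [Field F] [NumberField F] [Field M] [NumberField M] [Algebra F M]
  [IsGalois F M]

/-- a power of the Frobenius is trivial iff the exponent is a multiple of the inertia degree -/
theorem frob_pow_eq_one_iff (hab : ∀ g h : M ≃ₐ[F] M, g * h = h * g)
    (v : HeightOneSpectrum (𝓞 F)) (hv : UnramIn F M v)
    (w : Ideal (𝓞 M)) (hw : w.IsPrime) (hwv : w.comap (algebraMap (𝓞 F) (𝓞 M)) = v.asIdeal)
    (k : ℕ) : frob F M v ^ k = 1 ↔ w.inertiaDeg (𝓞 F) ∣ k := by
  have hN := frob_one_lt_absNorm F v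
  have hfin : Finite (𝓞 M ⧸ w) :=
    Ideal.finiteQuotientOfFreeOfNeBot w (frob_prime_ne_bot F M v w hwv)
  have hcard := frob_card_quot_over F M v w hw hwv
  have hpos : 0 < w.inertiaDeg (𝓞 F) := Ideal.inertiaDeg_pos w (𝓞 F)
  have hg := frob_frobPow F M hab v hv w hw hwv
  -- `frob ^ f = 1`
  have hf : frob F M v ^ w.inertiaDeg (𝓞 F) = 1 := by
    have h1 := hg.pow (w.inertiaDeg (𝓞 F))
    have h2 := frob_one_of_card (G := M ≃ₐ[F] M) w
    rw [hcard] at h2
    exact frob_pow_unique F M v hv w hw hwv h1 h2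
  -- `frob ^ j = 1` with `0 < j` forces `f ≤ j`
  have hle : ∀ j : ℕ, 0 < j → frob F M v ^ j = 1 → w.inertiaDeg (𝓞 F) ≤ j := by
    intro j hj hj1
    have h1 := hg.pow j
    rw [hj1] at h1
    have hNj : 1 < Ideal.absNorm v.asIdeal ^ j := Nat.one_lt_pow hj.ne' hN
    obtain ⟨-, h2⟩ := frob_card_quot_le w hNj h1
    rw [hcard] at h2
    exact (Nat.pow_le_pow_iff_right hN).mp h2
  constructor
  · intro hk
    have h1 : frob F M v ^ (k % w.inertiaDeg (𝓞 F)) = 1 := by
      have h2 : frob F M v ^ k =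
          (frob F M v ^ w.inertiaDeg (𝓞 F)) ^ (k / w.inertiaDeg (𝓞 F)) *
            frob F M v ^ (k % w.inertiaDeg (𝓞 F)) := by
        rw [← pow_mul, ← pow_add, Nat.div_add_mod]
      rw [hk, hf, one_pow, one_mul] at h2
      exact h2.symm
    by_contra hnd
    have h3 : 0 < k % w.inertiaDeg (𝓞 F) :=
      Nat.pos_of_ne_zero fun h0 => hnd (Nat.dvd_of_mod_eq_zero h0)
    have h4 := hle _ h3 h1
    have h5 := Nat.mod_lt k hpos
    omega
  · rintro ⟨c, rfl⟩
    rw [pow_mul, hf, one_pow]

/-- **Order**: the order of the Frobenius is the inertia degree. -/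
theorem frob_orderOf (hab : ∀ g h : M ≃ₐ[F] M, g * h = h * g)
    (v : HeightOneSpectrum (𝓞 F)) (hv : UnramIn F M v)
    (w : Ideal (𝓞 M)) (hw : w.IsPrime) (hwv : w.comap (algebraMap (𝓞 F) (𝓞 M)) = v.asIdeal) :
    orderOf (frob F M v) = w.inertiaDeg (𝓞 F) := by
  apply Nat.dvd_antisymm
  · exact orderOf_dvd_of_pow_eq_one
      ((frob_pow_eq_one_iff F M hab v hv w hw hwv _).mpr dvd_rfl)
  · exact (frob_pow_eq_one_iff F M hab v hv w hw hwv _).mp (pow_orderOf_eq_one _)

/-- **Roots of unity**: the Frobenius raises roots of unity of order prime to `v` to the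
power `N v`. -/
theorem frob_apply_of_pow_eq_one (hab : ∀ g h : M ≃ₐ[F] M, g * h = h * g)
    (v : HeightOneSpectrum (𝓞 F)) (hv : UnramIn F M v) (m : ℕ)
    (hm : (m : 𝓞 F) ∉ v.asIdeal) (ζ : M) (hζ : ζ ^ m = 1) :
    frob F M v ζ = ζ ^ Ideal.absNorm v.asIdeal := by
  have hm0 : m ≠ 0 := by
    rintro rfl
    exact hm (by simp)
  have hint : IsIntegral ℤ ζ :=
    IsIntegral.of_pow (Nat.pos_of_ne_zero hm0) (by rw [hζ]; exact isIntegral_one)
  obtain ⟨w, hw, hwv⟩ := frob_exists_prime_over F M v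
  have hg := frob_frobPow F M hab v hv w hw hwv
  have hA : IsArithFrobAt (𝓞 F) (frob F M v) w := by
    intro y
    have := hg y
    rw [← frob_card_quot F v, ← hwv] at this
    exact this
  have hmw : ((m : ℕ) : 𝓞 M) ∉ w := by
    intro h
    apply hm
    rw [← hwv, Ideal.mem_comap, map_natCast]
    exact h
  have hζ' : (⟨ζ, hint⟩ : 𝓞 M) ^ m = 1 := by
    apply NumberField.RingOfIntegers.ext
    exact hζ
  have h := AlgHom.IsArithFrobAt.apply_of_pow_eq_one hA hζ' hmw
  have h' := congrArg (fun y : 𝓞 M => (y : M)) h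
  rw [← frob_card_quot F v, ← hwv]
  exact h'

/-- powers of the Frobenius on roots of unity -/
theorem frob_pow_apply_of_pow_eq_one (hab : ∀ g h : M ≃ₐ[F] M, g * h = h * g)
    (v : HeightOneSpectrum (𝓞 F)) (hv : UnramIn F M v) (m : ℕ)
    (hm : (m : 𝓞 F) ∉ v.asIdeal) (ζ : M) (hζ : ζ ^ m = 1) (k : ℕ) :
    (frob F M v ^ k) ζ = ζ ^ (Ideal.absNorm v.asIdeal ^ k) := by
  induction k with
  | zero => simp
  | succ k ih =>
    rw [pow_succ, AlgEquiv.mul_apply, frob_apply_of_pow_eq_one F M hab v hv m hm ζ hζ, map_pow,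
      ih, ← pow_mul, pow_succ]

end single

end C14
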