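import Fermat.Agent.Lib.C14_Frob

/-!
# S14 development, leaf FROB: Galois equivariance of Frobenius elements (`C14.frob_galPrime`)
-/

set_option autoImplicit false

open scoped NumberField Pointwise
open IsDedekindDomain Module

namespace C14

/-- `frob` is a Frobenius element in an abelian extension (no ramification hypothesis needed). -/
theorem frob_spec_ab (F M : Type*) [Field F] [NumberField F] [Field M] [NumberField M]
    [Algebra F M] [IsGalois F M] (hab : ∀ g h : M ≃ₐ[F] M, g * h = h * g)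
    (v : HeightOneSpectrum (𝓞 F)) : IsFrob F M v (frob F M v) := by
  have h := frob_exists F M hab v
  unfold frob
  rw [dif_pos h]
  exact h.choose_spec

/-- the absolute norm is invariant under ring automorphisms -/
theorem frob_absNorm_comap {R : Type*} [CommRing R] [IsDedekindDomain R]
    [Module.Free ℤ R] (e : R ≃+* R) (I : Ideal R) :
    Ideal.absNorm (I.comap (e : R →+* R)) = Ideal.absNorm I := by
  rw [Ideal.absNorm_apply, Ideal.absNorm_apply, Submodule.cardQuot_apply, Submodule.cardQuot_apply]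
  exact Nat.card_congr (Ideal.quotientEquiv (I.comap (e : R →+* R)) I e
    (Ideal.map_comap_of_surjective _ e.surjective I).symm).toEquiv

section conj

variable (K L : Type*) [Field K] [NumberField K] [Field L] [NumberField L] [Algebra K L]

/-- conjugation of a `K`-automorphism `g` of `L` by an automorphism `τ` of `L` preserving `K`:
`x ↦ τ (g (τ⁻¹ x))` -/
noncomputable def frob_conj (τ : L ≃ₐ[ℚ] L) (τK : K ≃ₐ[ℚ] K)
    (hτ : ∀ x : K, τ (algebraMap K L x) = algebraMap K L (τK x)) (g : L ≃ₐ[K] L) : L ≃ₐ[K] L :=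
  AlgEquiv.ofRingEquiv
    (f := ((τ.symm : L ≃+* L).trans (g : L ≃+* L)).trans (τ : L ≃+* L)) (by
      intro k
      have h1 : τ.symm (algebraMap K L k) = algebraMap K L (τK.symm k) := by
        rw [AlgEquiv.symm_apply_eq, hτ, AlgEquiv.apply_symm_apply]
      change τ (g (τ.symm (algebraMap K L k))) = algebraMap K L k
      rw [h1, AlgEquiv.commutes, hτ, AlgEquiv.apply_symm_apply])

theorem frob_conj_apply (τ : L ≃ₐ[ℚ] L) (τK : K ≃ₐ[ℚ] K)
    (hτ : ∀ x : K, τ (algebraMap K L x) = algebraMap K L (τK x)) (g : L ≃ₐ[K] L) (x : L) :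
    frob_conj K L τ τK hτ g x = τ (g (τ.symm x)) := rfl

end conj

/-- FROB: Galois equivariance (`L/K` abelian, `τ` an automorphism of `L` over `ℚ`,
`τK` its restriction to `K`) -/
theorem frob_galPrime (K L : Type*) [Field K] [NumberField K] [Field L] [NumberField L]
    [Algebra K L] [IsGalois K L] (hab : ∀ g h : L ≃ₐ[K] L, g * h = h * g)
    (τ : L ≃ₐ[ℚ] L) (τK : K ≃ₐ[ℚ] K) (hτ : ∀ x : K, τ (algebraMap K L x) = algebraMap K L (τK x))
    (v : HeightOneSpectrum (𝓞 K)) (hv : UnramIn K L v) (x : L) :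
    frob K L (galPrime K τK v) x = τ.symm (frob K L v (τ x)) := by
  set v' := galPrime K τK v with hv'
  set σL := NumberField.RingOfIntegers.mapRingEquiv (τ : L ≃+* L) with hσL
  set σK := NumberField.RingOfIntegers.mapRingEquiv (τK : K ≃+* K) with hσK
  obtain ⟨w', hw', hwv'⟩ := frob_exists_prime_over K L v'
  -- the prime `w = τ(w')` above `v`
  have hw : (w'.comap (σL.symm : 𝓞 L →+* 𝓞 L)).IsPrime := Ideal.comap_isPrime _ _
  have hcomm : ∀ k : 𝓞 K, σL.symm (algebraMap (𝓞 K) (𝓞 L) k) =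
      algebraMap (𝓞 K) (𝓞 L) (σK.symm k) := by
    intro k
    apply NumberField.RingOfIntegers.ext
    change τ.symm (algebraMap K L (k : K)) = algebraMap K L (τK.symm (k : K))
    rw [AlgEquiv.symm_apply_eq, hτ, AlgEquiv.apply_symm_apply]
  have hwv : (w'.comap (σL.symm : 𝓞 L →+* 𝓞 L)).comap (algebraMap (𝓞 K) (𝓞 L)) = v.asIdeal := by
    ext k
    rw [Ideal.mem_comap, Ideal.mem_comap]
    change σL.symm (algebraMap (𝓞 K) (𝓞 L) k) ∈ w' ↔ _
    rw [hcomm, ← Ideal.mem_comap, hwv', hv', mem_galPrime]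
    change σK (σK.symm k) ∈ v.asIdeal ↔ _
    rw [RingEquiv.apply_symm_apply]
  -- transport the Frobenius at `v'` to `w`
  have h1 : FrobPow (frob K L v') w' (Ideal.absNorm v'.asIdeal) :=
    (frob_isFrob_iff K L v' _).mp (frob_spec_ab K L hab v') w' hw' hwv'
  have h2 : FrobPow (frob_conj K L τ τK hτ (frob K L v')) (w'.comap (σL.symm : 𝓞 L →+* 𝓞 L))
      (Ideal.absNorm v'.asIdeal) := by
    refine FrobPow.comap (σL.symm : 𝓞 L →+* 𝓞 L) (frob_conj K L τ τK hτ) ?_ h1
    intro h b
    apply NumberField.RingOfIntegers.ext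
    change τ.symm (τ (h (τ.symm (b : L)))) = h (τ.symm (b : L))
    rw [AlgEquiv.symm_apply_apply]
  have hN : Ideal.absNorm v'.asIdeal = Ideal.absNorm v.asIdeal :=
    frob_absNorm_comap (σK) v.asIdeal
  rw [hN] at h2
  have h3 := frob_frobPow K L hab v hv _ hw hwv
  have h4 := frob_pow_unique K L v hv _ hw hwv h2 h3
  rw [← h4, frob_conj_apply, AlgEquiv.symm_apply_apply, AlgEquiv.symm_apply_apply]

end C14
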