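import Mathlib
import Fermat.Agent.Lib.C14_RCW_Lat

/-!
# RC leaf, part 6: translation and growth bounds for the unit-orbit weight; the interface
theorem `C14.rc_weight`
-/

set_option autoImplicit false

open scoped NumberField
open NumberField NumberField.InfinitePlace NumberField.Units NumberField.Units.dirichletUnitTheorem
  NumberField.mixedEmbedding Module

namespace C14

open scoped Classical

section
variable (K : Type*) [Field K] [NumberField K]

set_option maxHeartbeats 800000 in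
/-- pointwise translation estimate away from the origin -/
theorem rc_translate_pointwise (x0 : 𝓞 K) : ∃ C₂ : ℝ, 0 ≤ C₂ ∧ ∀ s : ℝ, 1 ≤ s → s ≤ 2 →
    ∀ α : 𝓞 K, α ≠ 0 →
      |rcW K s (α + x0) - rcW K s α| ≤
        C₂ * ‖mixedEmbedding K (α : K)‖ ^ (-((finrank ℚ K : ℝ) + 1)) := by
  obtain ⟨c₀, hc₀pos, hc₀1, hsupp⟩ := rc_supp K
  obtain ⟨C, hC0, hlip⟩ := rc_lip K
  set n : ℕ := finrank ℚ K with hn
  set d : ℝ := ‖mixedEmbedding K (x0 : K)‖ with hd
  have hd0 : 0 ≤ d := norm_nonneg _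
  set R₀ : ℝ := 4 * (d + 1) / c₀ with hR₀
  have hR₀pos : 0 < R₀ := by positivity
  have hcR : c₀ / 4 * R₀ = d + 1 := by
    rw [hR₀]; field_simp
  have hR₀d : 4 * (d + 1) ≤ R₀ := by
    rw [hR₀, le_div_iff₀ hc₀pos]
    nlinarith
  refine ⟨max (C * d * (4 / c₀) ^ (n + 1)) (R₀ ^ (n + 1)), by positivity, ?_⟩
  intro s hs1 hs2 α hα
  have hnorm_pos := rc_norm_pos K hα
  set ρ : ℝ := ‖mixedEmbedding K (α : K)‖ with hρ
  have hrpow : ρ ^ (-((n : ℝ) + 1)) = (ρ ^ (n + 1))⁻¹ := by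
    rw [Real.rpow_neg hnorm_pos.le]
    congr 1
    rw [← Real.rpow_natCast]
    push_cast
    rfl
  rw [hrpow]
  have hρn : 0 < ρ ^ (n + 1) := pow_pos hnorm_pos _
  rcases lt_or_ge ρ R₀ with hlt | hge
  · -- small norm: trivial bound
    have h1 : |rcW K s (α + x0) - rcW K s α| ≤ 1 := by
      rw [abs_le]
      have a1 := rcW_nonneg K s (α + x0)
      have a2 := rcW_nonneg K s α
      have a3 := rcW_le_one K (by linarith : (0 : ℝ) ≤ s) (α + x0)
      have a4 := rcW_le_one K (by linarith : (0 : ℝ) ≤ s) α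
      constructor <;> linarith
    have h2 : (1 : ℝ) ≤ R₀ ^ (n + 1) * (ρ ^ (n + 1))⁻¹ := by
      rw [← div_eq_mul_inv, le_div_iff₀ hρn, one_mul]
      exact pow_le_pow_left₀ hnorm_pos.le hlt.le _
    calc |rcW K s (α + x0) - rcW K s α| ≤ 1 := h1
      _ ≤ R₀ ^ (n + 1) * (ρ ^ (n + 1))⁻¹ := h2
      _ ≤ max (C * d * (4 / c₀) ^ (n + 1)) (R₀ ^ (n + 1)) * (ρ ^ (n + 1))⁻¹ := by
          gcongr
          exact le_max_right _ _
  · -- large norm
    have hαx : α + x0 ≠ 0 := by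
      intro h0
      have e : (α : K) = -(x0 : K) := by
        have : ((α + x0 : 𝓞 K) : K) = 0 := by rw [h0]; rfl
        push_cast at this
        linear_combination this
      have : ρ = d := by
        rw [hρ, hd, e, map_neg, norm_neg]
      linarith
    rw [rcW_eq_rcG K s hαx, rcW_eq_rcG K s hα]
    set v : InfinitePlace K → ℝ := fun w => w (α : K) with hv
    set v' : InfinitePlace K → ℝ := fun w => w ((α + x0 : 𝓞 K) : K) with hv'
    have hvpos : ∀ w, 0 < v w := fun w => rc_place_pos K hα w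
    have hv'pos : ∀ w, 0 < v' w := fun w => rc_place_pos K hαx w
    have hδ : ∀ w, |v' w - v w| ≤ d := by
      intro w
      have h1 := rc_place_sub_le K ((α + x0 : 𝓞 K) : K) (α : K) w
      have h2 : ((α + x0 : 𝓞 K) : K) - (α : K) = (x0 : K) := by push_cast; ring
      rw [h2] at h1
      exact h1.trans (rc_place_le_norm K (x0 : K) w)
    have hvle : ∀ w, v w ≤ ρ := fun w => rc_place_le_norm K (α : K) w
    by_cases hΨ : rcPsi (rcCoord K (rcL K v)) = 0 ∧ rcPsi (rcCoord K (rcL K v')) = 0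
    · have e1 : rcG K s v' = 0 := by unfold rcG; rw [hΨ.2, mul_zero]
      have e2 : rcG K s v = 0 := by unfold rcG; rw [hΨ.1, mul_zero]
      rw [e1, e2, sub_zero, abs_zero]
      exact mul_nonneg (le_max_of_le_right (pow_nonneg hR₀pos.le _)) (inv_nonneg.mpr hρn.le)
    · set a : ℝ := c₀ / 4 * ρ with ha
      have ha1 : 1 ≤ a := by
        have : c₀ / 4 * R₀ ≤ c₀ / 4 * ρ := by gcongr
        linarith
      have hρd : 4 * (d + 1) ≤ ρ := hR₀d.trans hge
      have hc₀ρ : d + 1 ≤ c₀ / 4 * ρ := by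
        have : c₀ / 4 * R₀ ≤ c₀ / 4 * ρ := by gcongr
        linarith
      have hboth : (∀ w, a ≤ v' w) ∧ (∀ w, a ≤ v w) := by
        rw [not_and_or] at hΨ
        rcases hΨ with h | h
        · -- the weight at α is nonzero
          obtain ⟨wm, hwm⟩ := rc_exists_place_eq_norm K (α : K)
          have hv1 : ∀ w, c₀ * ρ ≤ v w := fun w => by
            have := hsupp v hvpos h w wm
            rwa [show v wm = ρ from hwm] at this
          refine ⟨fun w => ?_, fun w => ?_⟩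
          · have h1 := abs_le.mp (hδ w)
            have h2 := hv1 w
            rw [ha]; nlinarith
          · have h2 := hv1 w
            rw [ha]; nlinarith
        · -- the weight at α + x0 is nonzero
          obtain ⟨wm, hwm⟩ := rc_exists_place_eq_norm K ((α + x0 : 𝓞 K) : K)
          have hnorm' : ρ - d ≤ ‖mixedEmbedding K ((α + x0 : 𝓞 K) : K)‖ := by
            have e : ((α + x0 : 𝓞 K) : K) = (α : K) + (x0 : K) := by push_cast; ring
            rw [e, map_add]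
            have := norm_sub_norm_le (mixedEmbedding K (α : K)) (-(mixedEmbedding K (x0 : K)))
            rw [norm_neg, sub_neg_eq_add] at this
            exact this
          have hv1 : ∀ w, c₀ * (ρ - d) ≤ v' w := fun w => by
            have := hsupp v' hv'pos h w wm
            rw [show v' wm = ‖mixedEmbedding K ((α + x0 : 𝓞 K) : K)‖ from hwm] at this
            exact (mul_le_mul_of_nonneg_left hnorm' hc₀pos.le).trans this
          refine ⟨fun w => ?_, fun w => ?_⟩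
          · have h2 := hv1 w
            rw [ha]; nlinarith
          · have h1 := abs_le.mp (hδ w)
            have h2 := hv1 w
            rw [ha]; nlinarith
      have key := hlip s hs1 hs2 a d ha1 v' v hboth.1 hboth.2 hδ
      have e : C * d / a ^ (n + 1) = C * d * (4 / c₀) ^ (n + 1) * (ρ ^ (n + 1))⁻¹ := by
        rw [ha, mul_pow, div_pow, div_pow]
        field_simp
      rw [e] at key
      refine key.trans ?_
      gcongr
      exact le_max_left _ _

/-- (T) translation bound -/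
theorem rc_translate (x0 : 𝓞 K) : ∃ C : ℝ, ∀ s : ℝ, 1 ≤ s → s ≤ 2 →
    Summable (fun a : 𝓞 K => |rcW K s (a + x0) - rcW K s a|) ∧
    ∑' a : 𝓞 K, |rcW K s (a + x0) - rcW K s a| ≤ C := by
  obtain ⟨C₂, hC₂0, hpt⟩ := rc_translate_pointwise K x0
  set n : ℕ := finrank ℚ K with hn
  have hsumm := rc_summable_norm K (-((n : ℝ) + 1)) (by linarith)
  set g : 𝓞 K → ℝ := fun a =>
    (if a = 0 then 1 else 0) + C₂ * ‖mixedEmbedding K (a : K)‖ ^ (-((n : ℝ) + 1)) with hg
  have hgsumm : Summable g := by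
    refine Summable.add ?_ (hsumm.mul_left C₂)
    refine summable_of_ne_finset_zero (s := {0}) (fun b hb => ?_)
    rw [Finset.mem_singleton] at hb
    exact if_neg hb
  refine ⟨∑' a, g a, fun s hs1 hs2 => ?_⟩
  have hle : ∀ a : 𝓞 K, |rcW K s (a + x0) - rcW K s a| ≤ g a := by
    intro a
    by_cases ha : a = 0
    · subst ha
      have h1 : |rcW K s (0 + x0) - rcW K s 0| ≤ 1 := by
        rw [abs_le]
        have a1 := rcW_nonneg K s (0 + x0)
        have a2 := rcW_nonneg K s 0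
        have a3 := rcW_le_one K (by linarith : (0 : ℝ) ≤ s) (0 + x0)
        have a4 := rcW_le_one K (by linarith : (0 : ℝ) ≤ s) 0
        constructor <;> linarith
      have h2 : 0 ≤ C₂ * ‖mixedEmbedding K ((0 : 𝓞 K) : K)‖ ^ (-((n : ℝ) + 1)) :=
        mul_nonneg hC₂0 (Real.rpow_nonneg (norm_nonneg _) _)
      have h3 : g 0 = 1 + C₂ * ‖mixedEmbedding K ((0 : 𝓞 K) : K)‖ ^ (-((n : ℝ) + 1)) := by
        simp only [hg, if_true]
      rw [h3]
      linarith
    · have h1 := hpt s hs1 hs2 a ha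
      have h3 : g a = 0 + C₂ * ‖mixedEmbedding K (a : K)‖ ^ (-((n : ℝ) + 1)) := by
        simp only [hg, if_neg ha]
      rw [h3, zero_add]
      exact h1
  have hs : Summable (fun a : 𝓞 K => |rcW K s (a + x0) - rcW K s a|) :=
    Summable.of_nonneg_of_le (fun a => abs_nonneg _) hle hgsumm
  exact ⟨hs, hs.tsum_le_tsum hle hgsumm⟩

/-- (G) growth bound -/
theorem rc_growth : ∃ C : ℝ, ∀ s : ℝ, 1 < s → s ≤ 2 →
    Summable (rcW K s) ∧ ∑' a : 𝓞 K, rcW K s a ≤ C / (s - 1) := by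
  obtain ⟨c₀, hc₀pos, hc₀1, hsupp⟩ := rc_supp K
  obtain ⟨A, hApos, hA⟩ := rc_tsum_norm_le K
  set n : ℕ := finrank ℚ K with hn
  have hnpos : 0 < n := finrank_pos
  have hn1 : (1 : ℝ) ≤ n := by exact_mod_cast hnpos
  set A₂ : ℝ := (max 1 A⁻¹) ^ (2 * (n : ℝ)) with hA₂
  have hA₂0 : 0 ≤ A₂ := Real.rpow_nonneg (le_max_of_le_left zero_le_one) _
  set c₂ : ℝ := c₀ ^ (-(2 * (n : ℝ))) with hc₂
  have hc₂0 : 0 ≤ c₂ := Real.rpow_nonneg hc₀pos.le _
  refine ⟨2 * c₂ * A₂, fun s hs1 hs2 => ?_⟩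
  have hs0 : 0 < s - 1 := by linarith
  have hr : -((n : ℝ) * s) < -(n : ℝ) := by nlinarith
  have hsumm := rc_summable_norm K (-((n : ℝ) * s)) hr
  have hpt : ∀ a : 𝓞 K, rcW K s a ≤
      c₂ * ‖mixedEmbedding K (a : K)‖ ^ (-((n : ℝ) * s)) := by
    intro a
    by_cases ha : a = 0
    · subst ha
      rw [rcW_zero]
      exact mul_nonneg hc₂0 (Real.rpow_nonneg (norm_nonneg _) _)
    · rw [rcW_eq_rcG K s ha]
      by_cases hΨ : rcPsi (rcCoord K (rcL K (fun w => w (a : K)))) = 0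
      · unfold rcG
        rw [hΨ, mul_zero]
        exact mul_nonneg hc₂0 (Real.rpow_nonneg (norm_nonneg _) _)
      · obtain ⟨wm, hwm⟩ := rc_exists_place_eq_norm K (a : K)
        have hρpos : 0 < ‖mixedEmbedding K (a : K)‖ := rc_norm_pos K ha
        have hv1 : ∀ w : InfinitePlace K, c₀ * ‖mixedEmbedding K (a : K)‖ ≤ w (a : K) := by
          intro w
          have := hsupp (fun w => w (a : K)) (fun w => rc_place_pos K ha w) hΨ w wm
          rwa [hwm] at this
        have hcρ : 0 < c₀ * ‖mixedEmbedding K (a : K)‖ := mul_pos hc₀pos hρpos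
        have hP : (c₀ * ‖mixedEmbedding K (a : K)‖) ^ n ≤ rcP K (fun w => w (a : K)) :=
          rc_rcP_ge K hcρ.le _ hv1
        have hPs : rcP K (fun w => w (a : K)) ^ (-s) ≤
            ((c₀ * ‖mixedEmbedding K (a : K)‖) ^ n) ^ (-s) :=
          Real.rpow_le_rpow_of_nonpos (pow_pos hcρ n) hP (by linarith)
        have e : ((c₀ * ‖mixedEmbedding K (a : K)‖) ^ n) ^ (-s) =
            c₀ ^ (-((n : ℝ) * s)) * ‖mixedEmbedding K (a : K)‖ ^ (-((n : ℝ) * s)) := by
          rw [← Real.rpow_natCast, ← Real.rpow_mul hcρ.le, Real.mul_rpow hc₀pos.le hρpos.le]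
          congr 2 <;> ring
        have hc : c₀ ^ (-((n : ℝ) * s)) ≤ c₂ :=
          Real.rpow_le_rpow_of_exponent_ge hc₀pos hc₀1 (by nlinarith)
        have hΨ1 := rcPsi_le_one (rcCoord K (rcL K (fun w => w (a : K))))
        have hΨ0 := rcPsi_nonneg (rcCoord K (rcL K (fun w => w (a : K))))
        have hPs0 : 0 ≤ rcP K (fun w => w (a : K)) ^ (-s) :=
          Real.rpow_nonneg (rc_rcP_pos K _ (fun w => rc_place_pos K ha w)).le _
        have hρs0 : 0 ≤ ‖mixedEmbedding K (a : K)‖ ^ (-((n : ℝ) * s)) :=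
          Real.rpow_nonneg hρpos.le _
        unfold rcG
        calc rcP K (fun w => w (a : K)) ^ (-s) *
              rcPsi (rcCoord K (rcL K (fun w => w (a : K))))
            ≤ rcP K (fun w => w (a : K)) ^ (-s) * 1 := mul_le_mul_of_nonneg_left hΨ1 hPs0
          _ = rcP K (fun w => w (a : K)) ^ (-s) := mul_one _
          _ ≤ c₀ ^ (-((n : ℝ) * s)) * ‖mixedEmbedding K (a : K)‖ ^ (-((n : ℝ) * s)) :=
              hPs.trans e.le
          _ ≤ c₂ * ‖mixedEmbedding K (a : K)‖ ^ (-((n : ℝ) * s)) :=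
              mul_le_mul_of_nonneg_right hc hρs0
  have hWsumm : Summable (rcW K s) :=
    Summable.of_nonneg_of_le (rcW_nonneg K s) hpt (hsumm.mul_left _)
  refine ⟨hWsumm, ?_⟩
  have h1 : ∑' a, rcW K s a ≤
      c₂ * ∑' a : 𝓞 K, ‖mixedEmbedding K (a : K)‖ ^ (-((n : ℝ) * s)) := by
    rw [← tsum_mul_left]
    exact hWsumm.tsum_le_tsum hpt (hsumm.mul_left _)
  have h2 := hA (-((n : ℝ) * s)) hr
  have h3 : A ^ (-((n : ℝ) * s)) ≤ A₂ := by
    rw [Real.rpow_neg hApos.le, ← Real.inv_rpow hApos.le]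
    calc (A⁻¹) ^ ((n : ℝ) * s) ≤ (max 1 A⁻¹) ^ ((n : ℝ) * s) :=
          Real.rpow_le_rpow (inv_nonneg.mpr hApos.le) (le_max_right _ _) (by positivity)
      _ ≤ (max 1 A⁻¹) ^ (2 * (n : ℝ)) :=
          Real.rpow_le_rpow_of_exponent_le (le_max_left _ _) (by nlinarith)
  have h4 : ∑' k : ℕ, (k : ℝ) ^ ((n : ℝ) - 1 + -((n : ℝ) * s)) ≤ 2 / (s - 1) := by
    have e : (n : ℝ) - 1 + -((n : ℝ) * s) = -(1 + n * (s - 1)) := by ring
    rw [e]
    have hσ : 1 < 1 + (n : ℝ) * (s - 1) := by nlinarith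
    refine (rc_zeta_le hσ).trans ?_
    have e2 : 1 + (n : ℝ) * (s - 1) - 1 = n * (s - 1) := by ring
    rw [e2]
    have a1 : 1 ≤ 1 / (s - 1) := by
      rw [le_div_iff₀ hs0]; linarith
    have a2 : 1 / ((n : ℝ) * (s - 1)) ≤ 1 / (s - 1) := by
      apply one_div_le_one_div_of_le hs0
      nlinarith
    have e3 : 2 / (s - 1) = 1 / (s - 1) + 1 / (s - 1) := by ring
    linarith
  have hT0 : 0 ≤ ∑' k : ℕ, (k : ℝ) ^ ((n : ℝ) - 1 + -((n : ℝ) * s)) :=
    tsum_nonneg fun k => Real.rpow_nonneg (Nat.cast_nonneg _) _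
  calc ∑' a, rcW K s a
      ≤ c₂ * (A ^ (-((n : ℝ) * s)) * ∑' k : ℕ, (k : ℝ) ^ ((n : ℝ) - 1 + -((n : ℝ) * s))) :=
        h1.trans (mul_le_mul_of_nonneg_left h2 hc₂0)
    _ ≤ c₂ * (A₂ * (2 / (s - 1))) :=
        mul_le_mul_of_nonneg_left (mul_le_mul h3 h4 hT0 hA₂0) hc₂0
    _ = 2 * c₂ * A₂ / (s - 1) := by ring

/-- **RC, analytic interface**: a nonnegative weight on `𝓞 K` whose unit-orbit sums are
`torsionOrder * |N a|^(-s)`, with uniformly summable translation differences and total mass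
`O(1/(s-1))`. -/
theorem rc_weight : ∃ W : ℝ → 𝓞 K → ℝ,
    (∀ s a, 0 ≤ W s a) ∧ (∀ s, W s 0 = 0) ∧
    (∀ s (a : 𝓞 K), a ≠ 0 → HasSum (fun u : (𝓞 K)ˣ => W s ((u : 𝓞 K) * a))
      ((torsionOrder K : ℝ) * (Ideal.absNorm (Ideal.span {a}) : ℝ) ^ (-s))) ∧
    (∀ x0 : 𝓞 K, ∃ C : ℝ, ∀ s : ℝ, 1 ≤ s → s ≤ 2 →
      Summable (fun a : 𝓞 K => |W s (a + x0) - W s a|) ∧
      ∑' a : 𝓞 K, |W s (a + x0) - W s a| ≤ C) ∧
    (∃ C : ℝ, ∀ s : ℝ, 1 < s → s ≤ 2 → Summable (W s) ∧ ∑' a : 𝓞 K, W s a ≤ C / (s - 1)) :=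
  ⟨rcW K, rcW_nonneg K, rcW_zero K, rcW_orbit K, rc_translate K, rc_growth K⟩

end

end C14
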