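import Fermat.Agent.Lib.C14_RC_Book
import Fermat.Agent.Lib.C14_RCW

/-!
# Leaf RC of the S14 blueprint: ray class L-functions are bounded near `s = 1`

`C14.rc_bdd_alt`: the blueprint statement of leaf RC, obtained from the bookkeeping half
(`C14_RC_Book`, twist trick over the class group with an abstract unit-orbit weight) applied to the
weight `C14.rc_weight` (`C14_RCW`).  The OFFICIAL leaf theorem `C14.RC_bdd` lives in
`C14_RC_Final` (same statement, via `rc_bdd_of_exists_weight4` and `rcw_weight4`); this file is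
an independent second derivation under a different name and is not needed by S14.

NOTE: do not import `C14_RC_Growth` together with this file (it repeats the names
`rc_growth`, `rc_zeta_le` of `C14_RCW`, `C14_RCW_Lat` with different content).
-/

set_option autoImplicit false

open scoped NumberField
open IsDedekindDomain

namespace C14

/-- Leaf RC (second derivation): the Dirichlet series of a non-trivial ray class character
mod `m` is bounded on `(1, 2)`. -/
theorem rc_bdd_alt (F : Type*) [Field F] [NumberField F] (m : ℕ) (hm : 0 < m)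
    (f : HeightOneSpectrum (𝓞 F) → ℂ)
    (hf0 : ∀ v, (m : 𝓞 F) ∈ v.asIdeal → f v = 0)
    (hf1 : ∀ v, (m : 𝓞 F) ∉ v.asIdeal → ‖f v‖ = 1)
    (hray : ∀ α : 𝓞 F, α ≠ 0 → α - 1 ∈ Ideal.span {(m : 𝓞 F)} →
      ext F f (Ideal.span {α}) = 1)
    (hnt : ∃ v, (m : 𝓞 F) ∉ v.asIdeal ∧ f v ≠ 1) :
    ∃ C : ℝ, ∀ s : ℝ, 1 < s → s < 2 → ‖Lfun F f s‖ ≤ C :=
  rc_bdd_of_exists_weight F (rc_weight F) m hm f hf0 hf1 hray hnt

end C14
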