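import Mathlib
import Fermat.Agent.Lib.C14_Ext

/-!
# RC bookkeeping (S14, leaf RC)

From an abstract "unit-orbit weight" `W : ℝ → 𝓞 K → ℝ` (non-negative, `W s 0 = 0`, unit-orbit sums
`= torsionOrder * N(a)^(-s)`, translation estimate, growth `≤ C/(s-1)`), the Dirichlet series of a
non-trivial ray class character is bounded on `(1, 2]`.
-/

set_option autoImplicit false
set_option linter.unusedSectionVars false
set_option linter.style.haveILetI false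

open scoped NumberField nonZeroDivisors

namespace C14

/-- sum over a group = finite sum over cosets (chosen representatives) of sums over the subgroup -/
theorem rc_tsum_cosets {G : Type*} [AddCommGroup G] (H : AddSubgroup G) [Fintype (G ⧸ H)]
    (r : G ⧸ H → G) (hr : ∀ q, (QuotientAddGroup.mk (r q) : G ⧸ H) = q)
    (F : G → ℂ) (hF : Summable F) :
    ∑' g, F g = ∑ q : G ⧸ H, ∑' h : H, F (r q + h) := by
  let e : (G ⧸ H) × H ≃ G :=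
    { toFun := fun p => r p.1 + p.2
      invFun := fun g => (QuotientAddGroup.mk g, ⟨-r (QuotientAddGroup.mk g) + g, by
        rw [← QuotientAddGroup.eq]; exact hr _⟩)
      left_inv := by
        rintro ⟨q, h⟩
        have h1 : (QuotientAddGroup.mk (r q + (h : G)) : G ⧸ H) = q := by
          rw [QuotientAddGroup.mk_add, hr]
          have : (QuotientAddGroup.mk (h : G) : G ⧸ H) = 0 :=
            (QuotientAddGroup.eq_zero_iff _).mpr h.2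
          rw [this, add_zero]
        ext
        · exact h1
        · simp only [h1]; abel
      right_inv := by
        intro g
        simp }
  rw [← e.tsum_eq F]
  have hs : Summable (fun p : (G ⧸ H) × H => F (e p)) := (e.summable_iff (f := F)).mpr hF
  rw [hs.tsum_prod, tsum_fintype]
  rfl

/-- the coset comparison: `∑_{K₀} c·W = [K₀ : H₀] · ∑_{H₀} c·W + O(∑_{reps} T)` when the cosets
of `H₀` in `K₀` have representatives in a subgroup `M₀` of periods of `c`. -/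
theorem rc_coset_key {G : Type*} [AddCommGroup G] (H₀ K₀ M₀ : AddSubgroup G) (hHK : H₀ ≤ K₀)
    (hn : H₀.relIndex K₀ ≠ 0)
    (hsup : ∀ x ∈ K₀, ∃ y ∈ M₀, y ∈ K₀ ∧ x - y ∈ H₀) :
    ∃ R : Finset G, ∀ (c : G → ℂ) (W T : G → ℝ), (∀ x, ‖c x‖ ≤ 1) →
      (∀ x, ∀ y ∈ M₀, c (x + y) = c x) → (∀ x, 0 ≤ W x) → Summable W →
      (∀ y, Summable (fun x => |W (x + y) - W x|) ∧ ∑' x, |W (x + y) - W x| ≤ T y) →
      ‖∑' x : K₀, c x * W x - (H₀.relIndex K₀ : ℂ) * ∑' x : H₀, c x * W x‖ ≤ ∑ y ∈ R, T y := by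
  classical
  let H : AddSubgroup K₀ := H₀.addSubgroupOf K₀
  have hcard : Nat.card (K₀ ⧸ H) = H₀.relIndex K₀ := rfl
  have : Finite (K₀ ⧸ H) := Nat.finite_of_card_ne_zero (by rw [hcard]; exact hn)
  have : Fintype (K₀ ⧸ H) := Fintype.ofFinite _
  -- the section
  have hex : ∀ q : K₀ ⧸ H, ∃ y : K₀, (y : G) ∈ M₀ ∧ (QuotientAddGroup.mk y : K₀ ⧸ H) = q := by
    intro q
    obtain ⟨x, rfl⟩ := QuotientAddGroup.mk_surjective q
    obtain ⟨y, hyM, hyK, hxy⟩ := hsup x x.2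
    refine ⟨⟨y, hyK⟩, hyM, ?_⟩
    rw [QuotientAddGroup.eq]
    show (-(⟨y, hyK⟩ : K₀) + x : K₀) ∈ H₀.addSubgroupOf K₀
    rw [AddSubgroup.mem_addSubgroupOf]
    have : ((-(⟨y, hyK⟩ : K₀) + x : K₀) : G) = (x : G) - y := by
      push_cast; abel
    rw [this]; exact hxy
  choose r hrM hr using hex
  have hrinj : Function.Injective (fun q => (r q : G)) := by
    intro q q' h
    have : r q = r q' := Subtype.ext h
    rw [← hr q, ← hr q', this]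
  refine ⟨Finset.univ.image (fun q => (r q : G)), ?_⟩
  intro c W T hc1 hcM hW0 hWs hT
  rw [Finset.sum_image (fun q _ q' _ h => hrinj h)]
  -- summability facts
  have hFs : Summable (fun x : G => c x * (W x : ℂ)) := by
    refine Summable.of_norm_bounded hWs (fun x => ?_)
    rw [norm_mul, Complex.norm_real, Real.norm_of_nonneg (hW0 x)]
    exact mul_le_of_le_one_left (hW0 x) (hc1 x)
  have hFK : Summable (fun x : K₀ => c x * (W x : ℂ)) := hFs.subtype _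
  have hFH : Summable (fun x : H₀ => c x * (W x : ℂ)) := hFs.subtype _
  have e := AddSubgroup.addSubgroupOfEquivOfLe hHK
  -- decomposition
  have h1 : ∑' x : K₀, c x * (W x : ℂ)
      = ∑ q : K₀ ⧸ H, ∑' h : H₀, c h * (W ((h : G) + r q) : ℂ) := by
    rw [rc_tsum_cosets H r hr (fun x : K₀ => c x * (W x : ℂ)) hFK]
    refine Finset.sum_congr rfl (fun q _ => ?_)
    rw [← (AddSubgroup.addSubgroupOfEquivOfLe hHK).tsum_eq]
    refine tsum_congr (fun h => ?_)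
    have hcoe : (((AddSubgroup.addSubgroupOfEquivOfLe hHK).toEquiv h : H₀) : G)
        = ((h : K₀) : G) := rfl
    rw [hcoe]
    have h2 : ((r q + (h : K₀) : K₀) : G) = ((h : K₀) : G) + (r q : G) := by
      push_cast; abel
    rw [h2, hcM _ _ (hrM q)]
  have h3 : (H₀.relIndex K₀ : ℂ) * ∑' x : H₀, c x * (W x : ℂ)
      = ∑ q : K₀ ⧸ H, ∑' h : H₀, c h * (W (h : G) : ℂ) := by
    rw [Finset.sum_const, Finset.card_univ, ← Nat.card_eq_fintype_card, hcard, nsmul_eq_mul]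
  rw [h1, h3, ← Finset.sum_sub_distrib]
  refine (norm_sum_le _ _).trans (Finset.sum_le_sum (fun q _ => ?_))
  have hsumq : Summable (fun x : G => |W (x + r q) - W x|) := (hT (r q)).1
  have hsumq' : Summable (fun h : H₀ => |W ((h : G) + r q) - W h|) := hsumq.subtype _
  have hS1 : Summable (fun h : H₀ => c h * (W ((h : G) + r q) : ℂ)) := by
    have hWq : Summable (fun x : G => W (x + r q)) :=
      hWs.comp_injective (add_left_injective (r q : G))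
    have hWq' : Summable (fun h : H₀ => W ((h : G) + r q)) := hWq.subtype _
    refine Summable.of_norm_bounded hWq' (fun h => ?_)
    rw [norm_mul, Complex.norm_real, Real.norm_of_nonneg (hW0 _)]
    exact mul_le_of_le_one_left (hW0 _) (hc1 _)
  rw [← hS1.tsum_sub hFH]
  have hnb : ∀ h : H₀, ‖c h * (W ((h : G) + r q) : ℂ) - c h * (W (h : G) : ℂ)‖
      ≤ |W ((h : G) + r q) - W h| := by
    intro h
    rw [← mul_sub, norm_mul, ← Complex.ofReal_sub, Complex.norm_real, Real.norm_eq_abs]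
    exact mul_le_of_le_one_left (abs_nonneg _) (hc1 _)
  calc ‖∑' h : H₀, (c h * (W ((h : G) + r q) : ℂ) - c h * (W (h : G) : ℂ))‖
      ≤ ∑' h : H₀, ‖c h * (W ((h : G) + r q) : ℂ) - c h * (W (h : G) : ℂ)‖ :=
        norm_tsum_le_tsum_norm (Summable.of_nonneg_of_le (fun _ => norm_nonneg _) hnb hsumq')
    _ ≤ ∑' h : H₀, |W ((h : G) + r q) - W h| :=
        Summable.tsum_le_tsum hnb (Summable.of_nonneg_of_le (fun _ => norm_nonneg _) hnb hsumq')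
          hsumq'
    _ ≤ ∑' x : G, |W (x + r q) - W x| :=
        Summable.tsum_subtype_le _ _ (fun _ => abs_nonneg _) hsumq
    _ ≤ T (r q) := (hT (r q)).2

section
variable {K : Type*} [Field K] [NumberField K]

theorem rc_orbit (J : Ideal (𝓞 K)) (hJ : J ≠ ⊥) (W : 𝓞 K → ℝ) (s : ℝ)
    (hW0 : ∀ a, 0 ≤ W a) (hWz : W 0 = 0)
    (hWu : ∀ a : 𝓞 K, a ≠ 0 → HasSum (fun u : (𝓞 K)ˣ => W ((u : 𝓞 K) * a))
      ((NumberField.Units.torsionOrder K : ℝ) * (Ideal.absNorm (Ideal.span {a}) : ℝ) ^ (-s)))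
    (hWs : Summable W) (g : Ideal (𝓞 K) → ℂ) (hg : ∀ I, ‖g I‖ ≤ 1) :
    Summable (fun I : {I : Ideal (𝓞 K) // I ≠ ⊥ ∧ (I * J).IsPrincipal} =>
        (Ideal.absNorm ((I : Ideal (𝓞 K)) * J) : ℝ) ^ (-s)) ∧
    ∑' x : J, g (Ideal.span {(x : 𝓞 K)}) * (W x : ℂ)
      = (NumberField.Units.torsionOrder K : ℂ) *
        ∑' I : {I : Ideal (𝓞 K) // I ≠ ⊥ ∧ (I * J).IsPrincipal},
          g ((I : Ideal (𝓞 K)) * J) *
            (((Ideal.absNorm ((I : Ideal (𝓞 K)) * J) : ℝ) ^ (-s) : ℝ) : ℂ) := by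
  classical
  set P := {I : Ideal (𝓞 K) // I ≠ ⊥ ∧ (I * J).IsPrincipal} with hP
  set T := {x : 𝓞 K // x ≠ 0 ∧ x ∈ J} with hT
  have hw : (NumberField.Units.torsionOrder K : ℝ) ≠ 0 :=
    Nat.cast_ne_zero.mpr (NumberField.Units.torsionOrder_ne_zero K)
  -- generators
  have hgen : ∀ I : P, ∃ γ : 𝓞 K, Ideal.span {γ} = (I : Ideal (𝓞 K)) * J := by
    intro I
    obtain ⟨γ, hγ⟩ := I.2.2
    exact ⟨γ, by rw [hγ]⟩
  choose γ hγ using hgen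
  have hγ0 : ∀ I : P, γ I ≠ 0 := by
    intro I h0
    have := hγ I
    rw [h0, Ideal.span_singleton_eq_bot.mpr rfl] at this
    exact (mul_ne_zero I.2.1 hJ) this.symm
  have hγJ : ∀ I : P, γ I ∈ J := by
    intro I
    have h1 : γ I ∈ (I : Ideal (𝓞 K)) * J := by
      rw [← hγ I]; exact Ideal.mem_span_singleton_self _
    exact (Ideal.mul_le_inf.trans inf_le_right : (I : Ideal (𝓞 K)) * J ≤ J) h1
  -- the bijection
  let φ : P × (𝓞 K)ˣ → T := fun p => ⟨(p.2 : 𝓞 K) * γ p.1,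
    mul_ne_zero (Units.ne_zero _) (hγ0 _), Ideal.mul_mem_left _ _ (hγJ _)⟩
  have hφspan : ∀ p : P × (𝓞 K)ˣ, Ideal.span {((φ p : T) : 𝓞 K)} = (p.1 : Ideal (𝓞 K)) * J := by
    intro p
    rw [← hγ p.1]
    exact Ideal.span_singleton_eq_span_singleton.mpr
      ⟨p.2⁻¹, by show (p.2 : 𝓞 K) * γ p.1 * ((p.2⁻¹ : (𝓞 K)ˣ) : 𝓞 K) = γ p.1
                 rw [mul_comm, ← mul_assoc, Units.inv_mul, one_mul]⟩
  have hφbij : Function.Bijective φ := by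
    constructor
    · rintro ⟨I, u⟩ ⟨I', u'⟩ h
      have h1 : (I : Ideal (𝓞 K)) * J = (I' : Ideal (𝓞 K)) * J := by
        rw [← hφspan (I, u), ← hφspan (I', u'), h]
      have h2 : I = I' := Subtype.ext (mul_right_cancel₀ hJ h1)
      subst h2
      have h3 : (u : 𝓞 K) * γ I = (u' : 𝓞 K) * γ I := congrArg (fun t : T => (t : 𝓞 K)) h
      have h4 : (u : 𝓞 K) = u' := mul_right_cancel₀ (hγ0 I) h3
      rw [Units.ext h4]
    · rintro ⟨x, hx0, hxJ⟩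
      have h1 : J ∣ Ideal.span {x} :=
        Ideal.dvd_iff_le.mpr ((Ideal.span_singleton_le_iff_mem _).mpr hxJ)
      obtain ⟨I, hI⟩ := h1
      have hI0 : I ≠ ⊥ := by
        rintro rfl
        rw [Ideal.mul_bot] at hI
        exact hx0 (Ideal.span_singleton_eq_bot.mp hI)
      have hIJ : I * J = Ideal.span {x} := by rw [hI, mul_comm]
      let I' : P := ⟨I, hI0, ⟨x, by rw [hIJ]⟩⟩
      have h2 : Ideal.span {γ I'} = Ideal.span {x} := by rw [hγ I']; exact hIJ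
      obtain ⟨u, hu⟩ := Ideal.span_singleton_eq_span_singleton.mp h2
      refine ⟨(I', u), Subtype.ext ?_⟩
      show (u : 𝓞 K) * γ I' = x
      rw [mul_comm]; exact hu
  let e : P × (𝓞 K)ˣ ≃ T := Equiv.ofBijective φ hφbij
  -- summability
  have hWT : Summable (fun x : T => W x) := hWs.subtype _
  have hWp : Summable (fun p : P × (𝓞 K)ˣ => W ((p.2 : 𝓞 K) * γ p.1)) :=
    (e.summable_iff (f := fun x : T => W x)).mpr hWT
  have hinner : ∀ I : P, HasSum (fun u : (𝓞 K)ˣ => W ((u : 𝓞 K) * γ I))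
      ((NumberField.Units.torsionOrder K : ℝ) *
        (Ideal.absNorm ((I : Ideal (𝓞 K)) * J) : ℝ) ^ (-s)) := by
    intro I
    have := hWu (γ I) (hγ0 I)
    rwa [hγ I] at this
  have hsum1 : Summable (fun I : P => (Ideal.absNorm ((I : Ideal (𝓞 K)) * J) : ℝ) ^ (-s)) := by
    have h1 := hWp.prod
    have h2 : (fun I : P => ∑' u : (𝓞 K)ˣ, W ((u : 𝓞 K) * γ I))
        = fun I : P => (NumberField.Units.torsionOrder K : ℝ) *
          (Ideal.absNorm ((I : Ideal (𝓞 K)) * J) : ℝ) ^ (-s) :=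
      funext fun I => (hinner I).tsum_eq
    rw [h2] at h1
    exact (summable_mul_left_iff hw).mp h1
  refine ⟨hsum1, ?_⟩
  -- the identity
  set h : 𝓞 K → ℂ := fun x => g (Ideal.span {x}) * (W x : ℂ) with hh
  have hhs : Summable h := by
    refine Summable.of_norm_bounded hWs (fun x => ?_)
    rw [hh, norm_mul, Complex.norm_real, Real.norm_of_nonneg (hW0 x)]
    exact mul_le_of_le_one_left (hW0 x) (hg _)
  have hind : ∑' x : J, h x = ∑' x : T, h x := by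
    have e1 : ∑' x : J, h x = ∑' x : ((J : Set (𝓞 K))), h x := rfl
    have e2 : ∑' x : T, h x = ∑' x : ({x : 𝓞 K | x ≠ 0 ∧ x ∈ J} : Set (𝓞 K)), h x := rfl
    rw [e1, e2, tsum_subtype (J : Set (𝓞 K)) h, tsum_subtype {x : 𝓞 K | x ≠ 0 ∧ x ∈ J} h]
    refine tsum_congr (fun x => ?_)
    by_cases hx : x = 0
    · subst hx
      simp [Set.indicator, hh, hWz]
    · simp [Set.indicator, hx]
  show ∑' x : J, h x = _
  rw [hind, ← e.tsum_eq (fun x : T => h x)]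
  have hhp : Summable (fun p : P × (𝓞 K)ˣ => h (e p)) :=
    (e.summable_iff (f := fun x : T => h x)).mpr (hhs.subtype _)
  rw [hhp.tsum_prod, ← tsum_mul_left]
  refine tsum_congr (fun I => ?_)
  have h5 : ∀ u : (𝓞 K)ˣ, h (e (I, u))
      = g ((I : Ideal (𝓞 K)) * J) * ((W ((u : 𝓞 K) * γ I) : ℝ) : ℂ) := by
    intro u
    show g (Ideal.span {((φ (I, u) : T) : 𝓞 K)}) * _ = _
    rw [hφspan (I, u)]
    rfl
  simp_rw [h5]
  rw [tsum_mul_left]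
  have h6 : ∑' u : (𝓞 K)ˣ, ((W ((u : 𝓞 K) * γ I) : ℝ) : ℂ)
      = (((NumberField.Units.torsionOrder K : ℝ) *
        (Ideal.absNorm ((I : Ideal (𝓞 K)) * J) : ℝ) ^ (-s) : ℝ) : ℂ) := by
    rw [← Complex.ofReal_tsum, (hinner I).tsum_eq]
  rw [h6]
  push_cast
  ring

theorem rc_class_reps (m : Ideal (𝓞 K)) (hm : m ≠ ⊥) :
    ∃ 𝒥 : ClassGroup (𝓞 K) → Ideal (𝓞 K), ∀ C, 𝒥 C ≠ ⊥ ∧ 𝒥 C ⊔ m = ⊤ ∧
      ∀ (I : Ideal (𝓞 K)) (hI : I ∈ (Ideal (𝓞 K))⁰),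
        (I * 𝒥 C).IsPrincipal ↔ ClassGroup.mk0 ⟨I, hI⟩ = C := by
  classical
  have key : ∀ C : ClassGroup (𝓞 K), ∃ J' : (Ideal (𝓞 K))⁰,
      ClassGroup.mk0 J' = C⁻¹ ∧ (J' : Ideal (𝓞 K)) ⊔ m = ⊤ := by
    intro C
    by_cases hmt : m = ⊤
    · obtain ⟨J', hJ'⟩ := ClassGroup.mk0_surjective C⁻¹
      exact ⟨J', hJ', by rw [hmt]; exact sup_top_eq _⟩
    · obtain ⟨J₀, hJ₀⟩ := ClassGroup.mk0_surjective C
      have hJ₀0 : (J₀ : Ideal (𝓞 K)) ≠ ⊥ := mem_nonZeroDivisors_iff_ne_zero.mp J₀.2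
      obtain ⟨α, hα⟩ := IsDedekindDomain.exists_sup_span_eq
        (Ideal.mul_le_inf.trans inf_le_left : (J₀ : Ideal (𝓞 K)) * m ≤ J₀) (mul_ne_zero hJ₀0 hm)
      have h1 : (J₀ : Ideal (𝓞 K)) ∣ Ideal.span {α} :=
        Ideal.dvd_iff_le.mpr (by rw [← hα]; exact le_sup_right)
      obtain ⟨J', hJ'⟩ := h1
      have h2 : (J₀ : Ideal (𝓞 K)) * (m ⊔ J') = (J₀ : Ideal (𝓞 K)) * ⊤ := by
        rw [Ideal.mul_sup, ← hJ', hα, Ideal.mul_top]
      have h3 : m ⊔ J' = ⊤ := mul_left_cancel₀ hJ₀0 h2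
      have hJ'0 : J' ≠ ⊥ := by
        rintro rfl
        exact hmt (by rwa [sup_bot_eq] at h3)
      have hJ'm : J' ∈ (Ideal (𝓞 K))⁰ := mem_nonZeroDivisors_iff_ne_zero.mpr hJ'0
      refine ⟨⟨J', hJ'm⟩, ?_, by rw [sup_comm]; exact h3⟩
      have hmem : (J₀ : Ideal (𝓞 K)) * J' ∈ (Ideal (𝓞 K))⁰ := mul_mem J₀.2 hJ'm
      have h5 : (J₀ * ⟨J', hJ'm⟩ : (Ideal (𝓞 K))⁰) = ⟨(J₀ : Ideal (𝓞 K)) * J', hmem⟩ :=
        Subtype.ext (Submonoid.coe_mul _ _ _)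
      have h6 : ClassGroup.mk0 (⟨(J₀ : Ideal (𝓞 K)) * J', hmem⟩ : (Ideal (𝓞 K))⁰) = 1 := by
        rw [ClassGroup.mk0_eq_one_iff]
        exact ⟨α, by rw [← hJ']⟩
      rw [← h5, map_mul, hJ₀] at h6
      exact eq_inv_of_mul_eq_one_right h6
  choose 𝒥 h𝒥 using key
  refine ⟨fun C => (𝒥 C : Ideal (𝓞 K)), fun C => ⟨mem_nonZeroDivisors_iff_ne_zero.mp (𝒥 C).2,
    (h𝒥 C).2, fun I hI => ?_⟩⟩
  have hmem : I * (𝒥 C : Ideal (𝓞 K)) ∈ (Ideal (𝓞 K))⁰ := mul_mem hI (𝒥 C).2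
  have h5 : ((⟨I, hI⟩ : (Ideal (𝓞 K))⁰) * 𝒥 C) = ⟨I * (𝒥 C : Ideal (𝓞 K)), hmem⟩ :=
    Subtype.ext (Submonoid.coe_mul _ _ _)
  rw [← ClassGroup.mk0_eq_one_iff hmem, ← h5, map_mul, (h𝒥 C).1, mul_inv_eq_one]

theorem rc_relIndex (J a : Ideal (𝓞 K)) (hJ : J ≠ ⊥) :
    (J * a).toAddSubgroup.relIndex J.toAddSubgroup = Ideal.absNorm a := by
  have h1 := AddSubgroup.relIndex_mul_index
    (H := (J * a).toAddSubgroup) (K := J.toAddSubgroup)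
    (by
      intro x hx
      exact (Ideal.mul_le_inf.trans inf_le_left : J * a ≤ J) hx)
  have h2 : ∀ I : Ideal (𝓞 K), I.toAddSubgroup.index = Ideal.absNorm I := by
    intro I
    rw [Ideal.absNorm_apply, Submodule.cardQuot_apply]
    rfl
  rw [h2, h2, map_mul] at h1
  have h3 : Ideal.absNorm J ≠ 0 := by
    rw [Ne, Ideal.absNorm_eq_zero_iff]; exact hJ
  rw [mul_comm] at h1
  exact Nat.eq_of_mul_eq_mul_left (Nat.pos_of_ne_zero h3) h1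

theorem rc_reps (J a m : Ideal (𝓞 K)) (ham : a ⊔ m = ⊤) :
    ∀ x ∈ J.toAddSubgroup, ∃ y ∈ m.toAddSubgroup, y ∈ J.toAddSubgroup ∧
      x - y ∈ (J * a).toAddSubgroup := by
  intro x hx
  have h1 : J = J * a ⊔ J * m := by rw [← Ideal.mul_sup, ham, Ideal.mul_top]
  have hx' : x ∈ J * a ⊔ J * m := by rw [← h1]; exact hx
  obtain ⟨u, hu, v, hv, rfl⟩ := Submodule.mem_sup.mp hx'
  refine ⟨v, (Ideal.mul_le_inf.trans inf_le_right : J * m ≤ m) hv,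
    (Ideal.mul_le_inf.trans inf_le_left : J * m ≤ J) hv, ?_⟩
  have : u + v - v = u := by ring
  rw [this]; exact hu

theorem rc_periodic (m : Ideal (𝓞 K)) (χ : Ideal (𝓞 K) → ℂ)
    (hmul : ∀ I J, χ (I * J) = χ I * χ J) (hbd : ∀ I, ‖χ I‖ ≤ 1)
    (hcop : ∀ I, I ⊔ m ≠ ⊤ → χ I = 0)
    (hone : ∀ a : 𝓞 K, a ≠ 0 → a - 1 ∈ m → χ (Ideal.span {a}) = 1) :
    ∃ c : 𝓞 K → ℂ, (∀ x, ‖c x‖ ≤ 1) ∧ (∀ x, ∀ y ∈ m, c (x + y) = c x) ∧
      (∀ x, x ≠ 0 → c x = χ (Ideal.span {x})) := by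
  classical
  refine ⟨fun x => if x ∈ m then (if m = ⊤ then 1 else 0) else χ (Ideal.span {x}), ?_, ?_, ?_⟩
  · intro x
    dsimp only
    split_ifs
    · simp
    · simp
    · exact hbd _
  · intro x y hy
    have hiff : x + y ∈ m ↔ x ∈ m := by
      constructor
      · intro h
        have := m.sub_mem h hy
        simpa using this
      · intro h; exact m.add_mem h hy
    dsimp only
    by_cases hx : x ∈ m
    · rw [if_pos hx, if_pos (hiff.mpr hx)]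
    · rw [if_neg hx, if_neg (fun h => hx (hiff.mp h))]
      have hx0 : x ≠ 0 := fun h => hx (h ▸ m.zero_mem)
      have hxy0 : x + y ≠ 0 := fun h => hx (hiff.mp (h ▸ m.zero_mem))
      by_cases hc : Ideal.span {x} ⊔ m = ⊤
      · -- invert x mod m
        have h1 : (1 : 𝓞 K) ∈ Ideal.span {x} ⊔ m := by rw [hc]; trivial
        obtain ⟨u, hu, v, hv, huv⟩ := Submodule.mem_sup.mp h1
        obtain ⟨δ, rfl⟩ := Ideal.mem_span_singleton'.mp hu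
        have hδ0 : δ ≠ 0 := by
          rintro rfl
          rw [zero_mul, zero_add] at huv
          apply hx
          have : x = x * v := by rw [huv, mul_one]
          rw [this]; exact m.mul_mem_left _ hv
        have e1 : χ (Ideal.span {δ * x}) = 1 := by
          refine hone _ (mul_ne_zero hδ0 hx0) ?_
          have : δ * x - 1 = -v := by rw [← huv]; ring
          rw [this]; exact m.neg_mem hv
        have e2 : χ (Ideal.span {δ * (x + y)}) = 1 := by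
          refine hone _ (mul_ne_zero hδ0 hxy0) ?_
          have : δ * (x + y) - 1 = δ * y - v := by rw [← huv]; ring
          rw [this]; exact m.sub_mem (m.mul_mem_left _ hy) hv
        rw [← Ideal.span_singleton_mul_span_singleton, hmul] at e1 e2
        have hδ : χ (Ideal.span {δ}) ≠ 0 := by
          intro h; rw [h, zero_mul] at e1; exact zero_ne_one e1
        exact mul_left_cancel₀ hδ (e2.trans e1.symm)
      · have hc' : Ideal.span {x + y} ⊔ m ≠ ⊤ := by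
          intro h
          apply hc
          rw [eq_top_iff, ← h]
          refine sup_le ?_ le_sup_right
          rw [Ideal.span_singleton_le_iff_mem]
          exact (Ideal.span {x} ⊔ m).add_mem
            (Ideal.mem_sup_left (Ideal.mem_span_singleton_self x)) (Ideal.mem_sup_right hy)
        rw [hcop _ hc, hcop _ hc']
  · intro x hx0
    dsimp only
    by_cases hx : x ∈ m
    · rw [if_pos hx]
      by_cases hmt : m = ⊤
      · rw [if_pos hmt]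
        exact (hone x hx0 (by rw [hmt]; trivial)).symm
      · rw [if_neg hmt]
        refine (hcop _ ?_).symm
        intro h
        apply hmt
        rw [eq_top_iff, ← h]
        exact sup_le ((Ideal.span_singleton_le_iff_mem _).mpr hx) le_rfl
    · rw [if_neg hx]

theorem rc_rpow_sub (A : ℝ) (hA : 1 ≤ A) (s : ℝ) (hs1 : 1 ≤ s) (hs2 : s ≤ 2) :
    |A ^ s - A| ≤ A ^ 2 * Real.log A * (s - 1) := by
  have hA0 : 0 < A := by linarith
  have hlog : 0 ≤ Real.log A := Real.log_nonneg hA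
  have h1 : A ^ s = A * A ^ (s - 1) := by
    rw [← Real.rpow_one_add' hA0.le (by linarith)]
    congr 1; ring
  have h2 : A ^ (s - 1) = Real.exp ((s - 1) * Real.log A) := by
    rw [Real.rpow_def_of_pos hA0, mul_comm]
  set x := (s - 1) * Real.log A with hx
  have hx0 : 0 ≤ x := mul_nonneg (by linarith) hlog
  have hxle : x ≤ Real.log A := by
    rw [hx]; nlinarith
  -- e^x - 1 ≤ x e^x
  have h3 : Real.exp x - 1 ≤ x * Real.exp x := by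
    have := Real.add_one_le_exp (-x)
    have hpos := Real.exp_pos x
    have h4 : Real.exp (-x) * Real.exp x = 1 := by rw [← Real.exp_add]; simp
    nlinarith
  have h5 : Real.exp x ≤ A := by
    calc Real.exp x ≤ Real.exp (Real.log A) := Real.exp_le_exp.mpr hxle
      _ = A := Real.exp_log hA0
  have h6 : 1 ≤ Real.exp x := Real.one_le_exp hx0
  rw [h1, h2, abs_of_nonneg (by nlinarith)]
  have h7 : x * Real.exp x ≤ x * A := mul_le_mul_of_nonneg_left h5 hx0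
  have : A * Real.exp x - A ≤ A * (x * A) := by nlinarith
  calc A * Real.exp x - A ≤ A * (x * A) := this
    _ = A ^ 2 * Real.log A * (s - 1) := by rw [hx]; ring

theorem rc_partition {ι : Type*} [Fintype ι] (𝒥 : ι → Ideal (𝓞 K))
    (huniq : ∀ I : Ideal (𝓞 K), I ≠ ⊥ → ∃! i, (I * 𝒥 i).IsPrincipal)
    (f : Ideal (𝓞 K) → ℂ) (hf0 : f ⊥ = 0)
    (hs : ∀ i, Summable (fun I : {I : Ideal (𝓞 K) // I ≠ ⊥ ∧ (I * 𝒥 i).IsPrincipal} => f I)) :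
    Summable f ∧
      ∑' I, f I = ∑ i, ∑' I : {I : Ideal (𝓞 K) // I ≠ ⊥ ∧ (I * 𝒥 i).IsPrincipal}, f I := by
  classical
  set S : ι → Set (Ideal (𝓞 K)) := fun i => {I | I ≠ ⊥ ∧ (I * 𝒥 i).IsPrincipal} with hS
  have hfeq : f = fun I => ∑ i, (S i).indicator f I := by
    funext I
    by_cases hI : I = ⊥
    · subst hI
      rw [hf0]
      symm
      refine Finset.sum_eq_zero (fun i _ => ?_)
      exact Set.indicator_of_notMem (fun h => h.1 rfl) _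
    · obtain ⟨i₀, hi₀, hu⟩ := huniq I hI
      rw [Finset.sum_eq_single i₀]
      · exact (Set.indicator_of_mem (show I ∈ S i₀ from ⟨hI, hi₀⟩) _).symm
      · intro i _ hne
        exact Set.indicator_of_notMem (fun h => hne (hu i h.2)) _
      · intro h; exact absurd (Finset.mem_univ _) h
  have hsi : ∀ i, Summable ((S i).indicator f) := fun i =>
    summable_subtype_iff_indicator.mp (hs i)
  constructor
  · rw [hfeq]
    exact summable_sum (fun i _ => hsi i)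
  · conv_lhs => rw [hfeq]
    rw [Summable.tsum_finsetSum (fun i _ => hsi i)]
    refine Finset.sum_congr rfl (fun i _ => ?_)
    exact (tsum_subtype (S i) f).symm

/-- `D_J(s) = w · χ(J) · N(J)^(-s) · Z_J(s)` -/
theorem rc_DZ (χ : Ideal (𝓞 K) → ℂ) (hmul : ∀ I J, χ (I * J) = χ I * χ J)
    (hbd : ∀ I, ‖χ I‖ ≤ 1) (c : 𝓞 K → ℂ) (hcχ : ∀ x, x ≠ 0 → c x = χ (Ideal.span {x}))
    (J : Ideal (𝓞 K)) (hJ : J ≠ ⊥) (W : 𝓞 K → ℝ) (s : ℝ)
    (hW0 : ∀ a, 0 ≤ W a) (hWz : W 0 = 0)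
    (hWu : ∀ a : 𝓞 K, a ≠ 0 → HasSum (fun u : (𝓞 K)ˣ => W ((u : 𝓞 K) * a))
      ((NumberField.Units.torsionOrder K : ℝ) * (Ideal.absNorm (Ideal.span {a}) : ℝ) ^ (-s)))
    (hWs : Summable W) :
    Summable (fun I : {I : Ideal (𝓞 K) // I ≠ ⊥ ∧ (I * J).IsPrincipal} =>
        (Ideal.absNorm (I : Ideal (𝓞 K)) : ℝ) ^ (-s)) ∧
    ∑' x : J, c x * (W x : ℂ)
      = (NumberField.Units.torsionOrder K : ℂ) * χ J * (((Ideal.absNorm J : ℝ) ^ (-s) : ℝ) : ℂ) *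
        ∑' I : {I : Ideal (𝓞 K) // I ≠ ⊥ ∧ (I * J).IsPrincipal},
          χ (I : Ideal (𝓞 K)) * (((Ideal.absNorm (I : Ideal (𝓞 K)) : ℝ) ^ (-s) : ℝ) : ℂ) := by
  obtain ⟨h1, h2⟩ := rc_orbit J hJ W s hW0 hWz hWu hWs χ hbd
  have hNJ : (0 : ℝ) < (Ideal.absNorm J : ℝ) := by
    have : Ideal.absNorm J ≠ 0 := by rw [Ne, Ideal.absNorm_eq_zero_iff]; exact hJ
    exact_mod_cast Nat.pos_of_ne_zero this
  have hsplit : ∀ I : Ideal (𝓞 K), (Ideal.absNorm (I * J) : ℝ) ^ (-s)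
      = (Ideal.absNorm I : ℝ) ^ (-s) * (Ideal.absNorm J : ℝ) ^ (-s) := by
    intro I
    rw [map_mul, Nat.cast_mul, Real.mul_rpow (Nat.cast_nonneg _) (Nat.cast_nonneg _)]
  constructor
  · simp_rw [hsplit] at h1
    exact (summable_mul_right_iff (Real.rpow_pos_of_pos hNJ _).ne').mp h1
  · have e1 : ∑' x : J, c x * (W x : ℂ) = ∑' x : J, χ (Ideal.span {(x : 𝓞 K)}) * (W x : ℂ) := by
      refine tsum_congr (fun x => ?_)
      by_cases hx : (x : 𝓞 K) = 0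
      · rw [hx, hWz]; simp
      · rw [hcχ _ hx]
    rw [e1, h2]
    have e3 : ∀ I : {I : Ideal (𝓞 K) // I ≠ ⊥ ∧ (I * J).IsPrincipal},
        χ ((I : Ideal (𝓞 K)) * J) *
          (((Ideal.absNorm ((I : Ideal (𝓞 K)) * J) : ℝ) ^ (-s) : ℝ) : ℂ)
        = (χ J * (((Ideal.absNorm J : ℝ) ^ (-s) : ℝ) : ℂ)) *
          (χ (I : Ideal (𝓞 K)) * (((Ideal.absNorm (I : Ideal (𝓞 K)) : ℝ) ^ (-s) : ℝ) : ℂ)) := by
      intro I
      rw [hmul, hsplit]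
      push_cast
      ring
    simp_rw [e3]
    rw [tsum_mul_left]
    ring

/-- comparison of the two class sums attached to `J` and `J * a` -/
theorem rc_pair (m : Ideal (𝓞 K)) (χ : Ideal (𝓞 K) → ℂ)
    (hmul : ∀ I J, χ (I * J) = χ I * χ J) (hbd : ∀ I, ‖χ I‖ ≤ 1)
    (a : Ideal (𝓞 K)) (ha0 : a ≠ ⊥) (ham : a ⊔ m = ⊤)
    (c : 𝓞 K → ℂ) (hc1 : ∀ x, ‖c x‖ ≤ 1) (hcper : ∀ x, ∀ y ∈ m, c (x + y) = c x)
    (hcχ : ∀ x, x ≠ 0 → c x = χ (Ideal.span {x}))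
    (W : ℝ → 𝓞 K → ℝ) (hW0 : ∀ s a, 0 ≤ W s a) (hWz : ∀ s, W s 0 = 0)
    (hWu : ∀ s (a : 𝓞 K), a ≠ 0 → HasSum (fun u : (𝓞 K)ˣ => W s ((u : 𝓞 K) * a))
      ((NumberField.Units.torsionOrder K : ℝ) * (Ideal.absNorm (Ideal.span {a}) : ℝ) ^ (-s)))
    (T : 𝓞 K → ℝ) (hT : ∀ x0 : 𝓞 K, ∀ s, 1 ≤ s → s ≤ 2 →
      Summable (fun a => |W s (a + x0) - W s a|) ∧ ∑' a, |W s (a + x0) - W s a| ≤ T x0)
    (Cg : ℝ) (hCg : ∀ s, 1 < s → s ≤ 2 → Summable (W s) ∧ ∑' a, W s a ≤ Cg / (s - 1))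
    (J : Ideal (𝓞 K)) (hJ : J ≠ ⊥) (hχJ : χ J ≠ 0) :
    ∃ B : ℝ, ∀ s : ℝ, 1 < s → s ≤ 2 →
      ‖χ a * ∑' I : {I : Ideal (𝓞 K) // I ≠ ⊥ ∧ (I * (J * a)).IsPrincipal},
          χ (I : Ideal (𝓞 K)) * (((Ideal.absNorm (I : Ideal (𝓞 K)) : ℝ) ^ (-s) : ℝ) : ℂ)
        - ∑' I : {I : Ideal (𝓞 K) // I ≠ ⊥ ∧ (I * J).IsPrincipal},
          χ (I : Ideal (𝓞 K)) * (((Ideal.absNorm (I : Ideal (𝓞 K)) : ℝ) ^ (-s) : ℝ) : ℂ)‖ ≤ B := by
  classical
  have hJa : J * a ≠ ⊥ := mul_ne_zero hJ ha0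
  have hle : (J * a).toAddSubgroup ≤ J.toAddSubgroup := fun x hx =>
    (Ideal.mul_le_inf.trans inf_le_left : J * a ≤ J) hx
  have hrel := rc_relIndex J a hJ
  have hNa0 : Ideal.absNorm a ≠ 0 := by rw [Ne, Ideal.absNorm_eq_zero_iff]; exact ha0
  have hNJ0 : Ideal.absNorm J ≠ 0 := by rw [Ne, Ideal.absNorm_eq_zero_iff]; exact hJ
  obtain ⟨R, hR⟩ := rc_coset_key (J * a).toAddSubgroup J.toAddSubgroup m.toAddSubgroup hle
    (by rw [hrel]; exact hNa0) (rc_reps J a m ham)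
  set A : ℝ := (Ideal.absNorm a : ℝ) with hA
  set NJ : ℝ := (Ideal.absNorm J : ℝ) with hNJ
  have hA1 : 1 ≤ A := by
    rw [hA]; exact_mod_cast Nat.one_le_iff_ne_zero.mpr hNa0
  have hNJ1 : 1 ≤ NJ := by
    rw [hNJ]; exact_mod_cast Nat.one_le_iff_ne_zero.mpr hNJ0
  set w : ℝ := (NumberField.Units.torsionOrder K : ℝ) with hw
  have hw0 : 0 < w := by
    rw [hw]; exact_mod_cast Nat.pos_of_ne_zero (NumberField.Units.torsionOrder_ne_zero K)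
  refine ⟨NJ ^ (2 : ℝ) / (w * ‖χ J‖) * (A ^ 2 * Real.log A * Cg + ∑ y ∈ R, T y), ?_⟩
  intro s hs1 hs2
  obtain ⟨hWs, hWg⟩ := hCg s hs1 hs2
  -- the two D's
  set D₁ : ℂ := ∑' x : J, c x * (W s x : ℂ) with hD₁
  set D₂ : ℂ := ∑' x : (J * a : Ideal (𝓞 K)), c x * (W s x : ℂ) with hD₂
  obtain ⟨-, e1⟩ := rc_DZ χ hmul hbd c hcχ J hJ (W s) s (hW0 s) (hWz s) (hWu s) hWs
  obtain ⟨-, e2⟩ := rc_DZ χ hmul hbd c hcχ (J * a) hJa (W s) s (hW0 s) (hWz s) (hWu s) hWs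
  rw [← hD₁] at e1
  rw [← hD₂] at e2
  set Z₁ : ℂ := ∑' I : {I : Ideal (𝓞 K) // I ≠ ⊥ ∧ (I * J).IsPrincipal},
          χ (I : Ideal (𝓞 K)) * (((Ideal.absNorm (I : Ideal (𝓞 K)) : ℝ) ^ (-s) : ℝ) : ℂ) with hZ₁
  set Z₂ : ℂ := ∑' I : {I : Ideal (𝓞 K) // I ≠ ⊥ ∧ (I * (J * a)).IsPrincipal},
          χ (I : Ideal (𝓞 K)) * (((Ideal.absNorm (I : Ideal (𝓞 K)) : ℝ) ^ (-s) : ℝ) : ℂ) with hZ₂
  -- coset comparison
  have hkey : ‖D₁ - (A : ℂ) * D₂‖ ≤ ∑ y ∈ R, T y := by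
    have := hR c (W s) T hc1 (fun x y hy => hcper x y hy) (hW0 s) hWs
      (fun y => hT y s hs1.le hs2)
    rw [hrel] at this
    exact this
  -- bound on D₂
  have hD₂b : ‖D₂‖ ≤ Cg / (s - 1) := by
    have hsub : Summable (fun x : (J * a : Ideal (𝓞 K)) => W s x) := hWs.subtype _
    have hnb : ∀ x : (J * a : Ideal (𝓞 K)), ‖c x * (W s x : ℂ)‖ ≤ W s x := by
      intro x
      rw [norm_mul, Complex.norm_real, Real.norm_of_nonneg (hW0 s _)]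
      exact mul_le_of_le_one_left (hW0 s _) (hc1 _)
    have hsn : Summable (fun x : (J * a : Ideal (𝓞 K)) => ‖c x * (W s x : ℂ)‖) :=
      Summable.of_nonneg_of_le (fun _ => norm_nonneg _) hnb hsub
    calc ‖D₂‖ ≤ ∑' x : (J * a : Ideal (𝓞 K)), ‖c x * (W s x : ℂ)‖ := norm_tsum_le_tsum_norm hsn
      _ ≤ ∑' x : (J * a : Ideal (𝓞 K)), W s x := Summable.tsum_le_tsum hnb hsn hsub
      _ ≤ ∑' x : 𝓞 K, W s x := Summable.tsum_subtype_le _ _ (hW0 s) hWs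
      _ ≤ Cg / (s - 1) := hWg
  -- algebra
  have hNJpos : 0 < NJ := by linarith
  have hApos : 0 < A := by linarith
  set p : ℂ := ((NJ ^ (-s) : ℝ) : ℂ) with hp
  set q : ℂ := ((A ^ (-s) : ℝ) : ℂ) with hq
  set p' : ℂ := ((NJ ^ s : ℝ) : ℂ) with hp'
  set q' : ℂ := ((A ^ s : ℝ) : ℂ) with hq'
  have hpp : p * p' = 1 := by
    rw [hp, hp', ← Complex.ofReal_mul, ← Real.rpow_add hNJpos]; simp
  have hqq : q * q' = 1 := by
    rw [hq, hq', ← Complex.ofReal_mul, ← Real.rpow_add hApos]; simp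
  have e1' : D₁ = (w : ℂ) * χ J * p * Z₁ := e1
  have e2' : D₂ = (w : ℂ) * (χ J * χ a) * (p * q) * Z₂ := by
    rw [e2, hmul, map_mul, Nat.cast_mul, Real.mul_rpow (Nat.cast_nonneg _) (Nat.cast_nonneg _)]
    push_cast
    rfl
  have hwχ : (w : ℂ) * χ J ≠ 0 := mul_ne_zero (by exact_mod_cast hw0.ne') hχJ
  have hmain : χ a * Z₂ - Z₁ = p' / ((w : ℂ) * χ J) * (q' * D₂ - D₁) := by
    rw [div_mul_eq_mul_div, eq_div_iff hwχ, e1', e2']
    linear_combination ((w : ℂ) * χ J * Z₁ - (w : ℂ) * χ J * χ a * Z₂ * (q * q')) * hpp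
      - (w : ℂ) * χ J * χ a * Z₂ * hqq
  rw [hmain, norm_mul]
  have hn1 : ‖p' / ((w : ℂ) * χ J)‖ ≤ NJ ^ (2 : ℝ) / (w * ‖χ J‖) := by
    rw [norm_div, norm_mul, hp', Complex.norm_real, Complex.norm_real, Real.norm_of_nonneg hw0.le,
      Real.norm_of_nonneg (Real.rpow_nonneg hNJpos.le _)]
    exact div_le_div_of_nonneg_right (Real.rpow_le_rpow_of_exponent_le hNJ1 hs2)
      (mul_nonneg hw0.le (norm_nonneg _))
  have hn2 : ‖q' * D₂ - D₁‖ ≤ A ^ 2 * Real.log A * Cg + ∑ y ∈ R, T y := by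
    have h3 : q' * D₂ - D₁ = ((A ^ s - A : ℝ) : ℂ) * D₂ - (D₁ - (A : ℂ) * D₂) := by
      rw [hq']; push_cast; ring
    rw [h3]
    refine (norm_sub_le _ _).trans (add_le_add ?_ hkey)
    rw [norm_mul, Complex.norm_real, Real.norm_eq_abs]
    have h4 := rc_rpow_sub A hA1 s hs1.le hs2
    have hs0 : 0 < s - 1 := by linarith
    calc |A ^ s - A| * ‖D₂‖ ≤ (A ^ 2 * Real.log A * (s - 1)) * (Cg / (s - 1)) :=
          mul_le_mul h4 hD₂b (norm_nonneg _) ((abs_nonneg _).trans h4)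
      _ = A ^ 2 * Real.log A * Cg := by field_simp
  exact mul_le_mul hn1 hn2 (norm_nonneg _)
    (div_nonneg (Real.rpow_nonneg hNJpos.le _) (mul_nonneg hw0.le (norm_nonneg _)))

/-- **RC, abstract form**: for a non-trivial (wide) ray class character `χ` mod `m`, given a
unit-orbit weight `W`, the Dirichlet series `∑ χ(I) N(I)^(-s)` converges and is bounded on
`(1, 2]`. -/
theorem rc_chi (m : Ideal (𝓞 K)) (hm : m ≠ ⊥) (χ : Ideal (𝓞 K) → ℂ)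
    (hmul : ∀ I J, χ (I * J) = χ I * χ J) (hbd : ∀ I, ‖χ I‖ ≤ 1)
    (hcop : ∀ I, I ⊔ m ≠ ⊤ → χ I = 0)
    (hunit : ∀ I, I ≠ ⊥ → I ⊔ m = ⊤ → χ I ≠ 0)
    (hone : ∀ a : 𝓞 K, a ≠ 0 → a - 1 ∈ m → χ (Ideal.span {a}) = 1)
    (hnt : ∃ I, I ≠ ⊥ ∧ I ⊔ m = ⊤ ∧ χ I ≠ 1)
    (W : ℝ → 𝓞 K → ℝ) (hW0 : ∀ s a, 0 ≤ W s a) (hWz : ∀ s, W s 0 = 0)
    (hWu : ∀ s (a : 𝓞 K), a ≠ 0 → HasSum (fun u : (𝓞 K)ˣ => W s ((u : 𝓞 K) * a))
      ((NumberField.Units.torsionOrder K : ℝ) * (Ideal.absNorm (Ideal.span {a}) : ℝ) ^ (-s)))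
    (hWt : ∀ x0 : 𝓞 K, ∃ C : ℝ, ∀ s : ℝ, 1 ≤ s → s ≤ 2 →
      Summable (fun a => |W s (a + x0) - W s a|) ∧ ∑' a, |W s (a + x0) - W s a| ≤ C)
    (hWg : ∃ C : ℝ, ∀ s : ℝ, 1 < s → s ≤ 2 → Summable (W s) ∧ ∑' a, W s a ≤ C / (s - 1)) :
    ∃ C : ℝ, ∀ s : ℝ, 1 < s → s ≤ 2 →
      Summable (fun I : Ideal (𝓞 K) => χ I * (((Ideal.absNorm I : ℝ) ^ (-s) : ℝ) : ℂ)) ∧
      ‖∑' I : Ideal (𝓞 K), χ I * (((Ideal.absNorm I : ℝ) ^ (-s) : ℝ) : ℂ)‖ ≤ C := by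
  classical
  obtain ⟨a, ha0, ham, hχa⟩ := hnt
  obtain ⟨c, hc1, hcper, hcχ⟩ := rc_periodic m χ hmul hbd hcop hone
  obtain ⟨𝒥, h𝒥⟩ := rc_class_reps m hm
  choose T hT using hWt
  obtain ⟨Cg, hCg⟩ := hWg
  have hpair := fun C : ClassGroup (𝓞 K) =>
    rc_pair m χ hmul hbd a ha0 ham c hc1 hcper hcχ W hW0 hWz hWu T hT Cg hCg (𝒥 C) (h𝒥 C).1
      (hunit _ (h𝒥 C).1 (h𝒥 C).2.1)
  choose B hB using hpair
  have hχa1 : χ a - 1 ≠ 0 := sub_ne_zero.mpr hχa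
  refine ⟨(∑ C, B C) / ‖χ a - 1‖, fun s hs1 hs2 => ?_⟩
  obtain ⟨hWs, -⟩ := hCg s hs1 hs2
  set f : Ideal (𝓞 K) → ℂ := fun I => χ I * (((Ideal.absNorm I : ℝ) ^ (-s) : ℝ) : ℂ) with hf
  have hf0 : f ⊥ = 0 := by
    rw [hf]
    simp [Ideal.absNorm_bot, Real.zero_rpow (by linarith : -s ≠ 0)]
  -- summability on each piece
  have hsum : ∀ J : Ideal (𝓞 K), J ≠ ⊥ →
      Summable (fun I : {I : Ideal (𝓞 K) // I ≠ ⊥ ∧ (I * J).IsPrincipal} => f I) := by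
    intro J hJ
    obtain ⟨h1, -⟩ := rc_DZ χ hmul hbd c hcχ J hJ (W s) s (hW0 s) (hWz s) (hWu s) hWs
    refine Summable.of_norm_bounded h1 (fun I => ?_)
    show ‖χ (I : Ideal (𝓞 K)) * (((Ideal.absNorm (I : Ideal (𝓞 K)) : ℝ) ^ (-s) : ℝ) : ℂ)‖ ≤ _
    rw [norm_mul, Complex.norm_real, Real.norm_of_nonneg (Real.rpow_nonneg (Nat.cast_nonneg _) _)]
    exact mul_le_of_le_one_left (Real.rpow_nonneg (Nat.cast_nonneg _) _) (hbd _)
  have hI0 : ∀ I : Ideal (𝓞 K), I ≠ ⊥ → I ∈ (Ideal (𝓞 K))⁰ :=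
    fun I hI => mem_nonZeroDivisors_iff_ne_zero.mpr hI
  have hu1 : ∀ I : Ideal (𝓞 K), I ≠ ⊥ → ∃! C, (I * 𝒥 C).IsPrincipal := by
    intro I hI
    refine ⟨ClassGroup.mk0 ⟨I, hI0 I hI⟩, ((h𝒥 _).2.2 I (hI0 I hI)).mpr rfl, fun C hC => ?_⟩
    exact (((h𝒥 C).2.2 I (hI0 I hI)).mp hC).symm
  have hu2 : ∀ I : Ideal (𝓞 K), I ≠ ⊥ → ∃! C, (I * (𝒥 C * a)).IsPrincipal := by
    intro I hI
    have hIa : I * a ≠ ⊥ := mul_ne_zero hI ha0
    have hrw : ∀ C, I * (𝒥 C * a) = (I * a) * 𝒥 C := fun C => by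
      rw [mul_comm (𝒥 C) a, mul_assoc]
    refine ⟨ClassGroup.mk0 ⟨I * a, hI0 _ hIa⟩, ?_, fun C hC => ?_⟩
    · show (I * (𝒥 _ * a)).IsPrincipal
      rw [hrw]; exact ((h𝒥 _).2.2 (I * a) (hI0 _ hIa)).mpr rfl
    · have hC' : (I * (𝒥 C * a)).IsPrincipal := hC
      rw [hrw] at hC'
      exact (((h𝒥 C).2.2 (I * a) (hI0 _ hIa)).mp hC').symm
  obtain ⟨hS1, hL1⟩ := rc_partition 𝒥 hu1 f hf0 (fun C => hsum _ (h𝒥 C).1)
  obtain ⟨-, hL2⟩ := rc_partition (fun C => 𝒥 C * a) hu2 f hf0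
    (fun C => hsum _ (mul_ne_zero (h𝒥 C).1 ha0))
  refine ⟨hS1, ?_⟩
  have hcomb : (χ a - 1) * ∑' I, f I
      = ∑ C, (χ a * ∑' I : {I : Ideal (𝓞 K) // I ≠ ⊥ ∧ (I * (𝒥 C * a)).IsPrincipal}, f I
        - ∑' I : {I : Ideal (𝓞 K) // I ≠ ⊥ ∧ (I * 𝒥 C).IsPrincipal}, f I) := by
    rw [sub_mul, one_mul, Finset.sum_sub_distrib, ← Finset.mul_sum, ← hL1]
    congr 2
  have hnorm : ‖(χ a - 1) * ∑' I, f I‖ ≤ ∑ C, B C := by
    rw [hcomb]
    exact (norm_sum_le _ _).trans (Finset.sum_le_sum (fun C _ => hB C s hs1 hs2))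
  rw [norm_mul] at hnorm
  rw [le_div_iff₀ (norm_pos_iff.mpr hχa1), mul_comm]
  exact hnorm

end

open IsDedekindDomain in
/-- **RC in the blueprint form, from an abstract weight.** -/
theorem rc_bdd_of_weight (F : Type*) [Field F] [NumberField F] (m : ℕ) (hm : 0 < m)
    (f : HeightOneSpectrum (𝓞 F) → ℂ)
    (hf0 : ∀ v, (m : 𝓞 F) ∈ v.asIdeal → f v = 0)
    (hf1 : ∀ v, (m : 𝓞 F) ∉ v.asIdeal → ‖f v‖ = 1)
    (hray : ∀ α : 𝓞 F, α ≠ 0 → α - 1 ∈ Ideal.span {(m : 𝓞 F)} →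
      ext F f (Ideal.span {α}) = 1)
    (hnt : ∃ v, (m : 𝓞 F) ∉ v.asIdeal ∧ f v ≠ 1)
    (W : ℝ → 𝓞 F → ℝ) (hW0 : ∀ s a, 0 ≤ W s a) (hWz : ∀ s, W s 0 = 0)
    (hWu : ∀ s (a : 𝓞 F), a ≠ 0 → HasSum (fun u : (𝓞 F)ˣ => W s ((u : 𝓞 F) * a))
      ((NumberField.Units.torsionOrder F : ℝ) * (Ideal.absNorm (Ideal.span {a}) : ℝ) ^ (-s)))
    (hWt : ∀ x0 : 𝓞 F, ∃ C : ℝ, ∀ s : ℝ, 1 ≤ s → s ≤ 2 →
      Summable (fun a => |W s (a + x0) - W s a|) ∧ ∑' a, |W s (a + x0) - W s a| ≤ C)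
    (hWg : ∃ C : ℝ, ∀ s : ℝ, 1 < s → s ≤ 2 → Summable (W s) ∧ ∑' a, W s a ≤ C / (s - 1)) :
    ∃ C : ℝ, ∀ s : ℝ, 1 < s → s < 2 → ‖Lfun F f s‖ ≤ C := by
  classical
  have hm0 : (m : 𝓞 F) ≠ 0 := Nat.cast_ne_zero.mpr hm.ne'
  have hmbot : Ideal.span {(m : 𝓞 F)} ≠ ⊥ := by
    rw [Ne, Ideal.span_singleton_eq_bot]; exact hm0
  have hfle : ∀ v, ‖f v‖ ≤ 1 := by
    intro v
    by_cases hv : (m : 𝓞 F) ∈ v.asIdeal
    · rw [hf0 v hv]; simp
    · exact (hf1 v hv).le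
  have hmem : ∀ v : HeightOneSpectrum (𝓞 F), (m : 𝓞 F) ∈ v.asIdeal ↔
      Ideal.span {(m : 𝓞 F)} ≤ v.asIdeal := fun v => (Ideal.span_singleton_le_iff_mem _).symm
  have h1 : ∀ I : Ideal (𝓞 F), I ⊔ Ideal.span {(m : 𝓞 F)} ≠ ⊤ → ext F f I = 0 := by
    intro I hI
    by_cases hIb : I = ⊥
    · rw [hIb]; exact ext_bot F f
    obtain ⟨P, hP, hle⟩ := Ideal.exists_le_maximal _ hI
    have hPb : P ≠ ⊥ := by
      rintro rfl
      exact hIb (le_bot_iff.mp (le_sup_left.trans hle))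
    let v : HeightOneSpectrum (𝓞 F) := ⟨P, hP.isPrime, hPb⟩
    exact (ext_eq_zero_iff F).mpr (Or.inr ⟨v, le_sup_left.trans hle,
      hf0 v ((hmem v).mpr (le_sup_right.trans hle))⟩)
  have h2 : ∀ I : Ideal (𝓞 F), I ≠ ⊥ → I ⊔ Ideal.span {(m : 𝓞 F)} = ⊤ → ext F f I ≠ 0 := by
    intro I hIb hI h0
    have h1 : ‖ext F f I‖ = 1 := by
      refine norm_ext_eq_one F hIb (fun v hv => hf1 v (fun hmv => ?_))
      have : (⊤ : Ideal (𝓞 F)) ≤ v.asIdeal := by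
        rw [← hI]; exact sup_le hv ((hmem v).mp hmv)
      exact v.isPrime.ne_top (top_le_iff.mp this)
    rw [h0, norm_zero] at h1
    exact zero_ne_one h1
  have h3 : ∃ I : Ideal (𝓞 F), I ≠ ⊥ ∧ I ⊔ Ideal.span {(m : 𝓞 F)} = ⊤ ∧ ext F f I ≠ 1 := by
    obtain ⟨v, hv, hfv⟩ := hnt
    refine ⟨v.asIdeal, v.ne_bot, ?_, by rw [ext_prime]; exact hfv⟩
    by_contra hne
    have := v.isMaximal.eq_of_le hne le_sup_left
    apply hv
    rw [hmem v]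
    calc Ideal.span {(m : 𝓞 F)} ≤ v.asIdeal ⊔ Ideal.span {(m : 𝓞 F)} := le_sup_right
      _ = v.asIdeal := this.symm
  obtain ⟨C, hC⟩ := rc_chi (Ideal.span {(m : 𝓞 F)}) hmbot (ext F f) (ext_mul F f)
    (norm_ext_le F hfle) h1 h2 hray h3 W hW0 hWz hWu hWt hWg
  exact ⟨C, fun s hs1 hs2 => (hC s hs1 hs2.le).2⟩

open IsDedekindDomain in
/-- **RC in the blueprint form, from the existence of a unit-orbit weight** (the existential is
exactly the statement of the analytic half). -/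
theorem rc_bdd_of_exists_weight (F : Type*) [Field F] [NumberField F]
    (hW : ∃ W : ℝ → 𝓞 F → ℝ, (∀ s a, 0 ≤ W s a) ∧ (∀ s, W s 0 = 0) ∧
      (∀ s (a : 𝓞 F), a ≠ 0 → HasSum (fun u : (𝓞 F)ˣ => W s ((u : 𝓞 F) * a))
        ((NumberField.Units.torsionOrder F : ℝ) *
          (Ideal.absNorm (Ideal.span {a}) : ℝ) ^ (-s))) ∧
      (∀ x0 : 𝓞 F, ∃ C : ℝ, ∀ s : ℝ, 1 ≤ s → s ≤ 2 →
        Summable (fun a => |W s (a + x0) - W s a|) ∧ ∑' a, |W s (a + x0) - W s a| ≤ C) ∧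
      (∃ C : ℝ, ∀ s : ℝ, 1 < s → s ≤ 2 → Summable (W s) ∧ ∑' a, W s a ≤ C / (s - 1)))
    (m : ℕ) (hm : 0 < m) (f : HeightOneSpectrum (𝓞 F) → ℂ)
    (hf0 : ∀ v, (m : 𝓞 F) ∈ v.asIdeal → f v = 0)
    (hf1 : ∀ v, (m : 𝓞 F) ∉ v.asIdeal → ‖f v‖ = 1)
    (hray : ∀ α : 𝓞 F, α ≠ 0 → α - 1 ∈ Ideal.span {(m : 𝓞 F)} →
      ext F f (Ideal.span {α}) = 1)
    (hnt : ∃ v, (m : 𝓞 F) ∉ v.asIdeal ∧ f v ≠ 1) :
    ∃ C : ℝ, ∀ s : ℝ, 1 < s → s < 2 → ‖Lfun F f s‖ ≤ C := by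
  obtain ⟨W, hW0, hWz, hWu, hWt, hWg⟩ := hW
  exact rc_bdd_of_weight F m hm f hf0 hf1 hray hnt W hW0 hWz hWu hWt hWg

end C14
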