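import Mathlib

/-!
# RC: geometric lemmas on the mixed space (cone property, Lipschitz estimates)
-/

set_option autoImplicit false

open scoped NumberField
open NumberField NumberField.mixedEmbedding NumberField.InfinitePlace
open NumberField.Units NumberField.Units.dirichletUnitTheorem Module
open scoped Classical

namespace C14

section
variable (K : Type*) [Field K] [NumberField K]

/-- (L0a) -/
theorem rc_normAtPlace_le (w : InfinitePlace K) (x : mixedSpace K) : normAtPlace w x ≤ ‖x‖ := by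
  classical
  rw [norm_eq_sup'_normAtPlace]
  exact Finset.le_sup' (fun w => normAtPlace w x) (Finset.mem_univ w)

/-- (L0) `normAtPlace w` is `1`-Lipschitz -/
theorem rc_normAtPlace_sub (w : InfinitePlace K) (x y : mixedSpace K) :
    |normAtPlace w x - normAtPlace w y| ≤ ‖x - y‖ := by
  have h1 : normAtPlace w x ≤ normAtPlace w (x - y) + normAtPlace w y := by
    have := normAtPlace_add_le w (x - y) y
    rwa [sub_add_cancel] at this
  have h2 : normAtPlace w y ≤ normAtPlace w (y - x) + normAtPlace w x := by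
    have := normAtPlace_add_le w (y - x) x
    rwa [sub_add_cancel] at this
  have h3 := rc_normAtPlace_le K w (x - y)
  have h4 := rc_normAtPlace_le K w (y - x)
  rw [norm_sub_rev] at h4
  rw [abs_le]
  constructor <;> linarith

/-- the mixed norm is at least `ρ ^ n` when all places are at least `ρ` -/
theorem rc_norm_ge (ρ : ℝ) (hρ : 0 ≤ ρ) (x : mixedSpace K) (hx : ∀ w, ρ ≤ normAtPlace w x) :
    ρ ^ finrank ℚ K ≤ mixedEmbedding.norm x := by
  rw [mixedEmbedding.norm_apply, ← sum_mult_eq, ← Finset.prod_pow_eq_pow_sum]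
  exact Finset.prod_le_prod (fun w _ => pow_nonneg hρ _)
    (fun w _ => pow_le_pow_left₀ hρ (hx w) _)

/-- `log` is `1/ρ`-Lipschitz on `[ρ, ∞)` -/
theorem rc_log_lip (ρ : ℝ) (hρ : 0 < ρ) (a b : ℝ) (ha : ρ ≤ a) (hb : ρ ≤ b) :
    |Real.log a - Real.log b| ≤ |a - b| / ρ := by
  have key : ∀ a b : ℝ, ρ ≤ b → b ≤ a → |Real.log a - Real.log b| ≤ |a - b| / ρ := by
    intro a b hb hab
    have hb0 : 0 < b := lt_of_lt_of_le hρ hb
    have ha0 : 0 < a := lt_of_lt_of_le hb0 hab
    have h1 : Real.log b ≤ Real.log a := Real.log_le_log hb0 hab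
    rw [abs_of_nonneg (by linarith), abs_of_nonneg (by linarith)]
    have h2 : Real.log a - Real.log b = Real.log (a / b) := (Real.log_div ha0.ne' hb0.ne').symm
    have h3 : Real.log (a / b) ≤ a / b - 1 := Real.log_le_sub_one_of_pos (div_pos ha0 hb0)
    have h4 : a / b - 1 = (a - b) / b := by field_simp
    rw [h2]
    refine h3.trans ?_
    rw [h4]
    exact div_le_div_of_nonneg_left (by linarith) hρ hb
  rcases le_total b a with h | h
  · exact key a b hb h
  · rw [abs_sub_comm, abs_sub_comm a b]; exact key b a ha h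

/-- `log (mixedEmbedding.norm x) = ∑ mult w * log (normAtPlace w x)` -/
theorem rc_log_norm (x : mixedSpace K) (hx : ∀ w, 0 < normAtPlace w x) :
    Real.log (mixedEmbedding.norm x) = ∑ w, (mult w : ℝ) * Real.log (normAtPlace w x) := by
  rw [mixedEmbedding.norm_apply, Real.log_prod (fun w _ => pow_ne_zero _ (hx w).ne')]
  exact Finset.sum_congr rfl (fun w _ => Real.log_pow _ _)

/-- `log ∘ norm` is `n/ρ`-Lipschitz on the region where all places are `≥ ρ` -/
theorem rc_log_norm_lip (ρ : ℝ) (hρ : 0 < ρ) (x y : mixedSpace K)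
    (hx : ∀ w, ρ ≤ normAtPlace w x) (hy : ∀ w, ρ ≤ normAtPlace w y) :
    |Real.log (mixedEmbedding.norm x) - Real.log (mixedEmbedding.norm y)|
      ≤ finrank ℚ K * ‖x - y‖ / ρ := by
  rw [rc_log_norm K x (fun w => lt_of_lt_of_le hρ (hx w)),
    rc_log_norm K y (fun w => lt_of_lt_of_le hρ (hy w)), ← Finset.sum_sub_distrib]
  refine (Finset.abs_sum_le_sum_abs _ _).trans ?_
  have h1 : ∀ w ∈ (Finset.univ : Finset (InfinitePlace K)),
      |(mult w : ℝ) * Real.log (normAtPlace w x) - (mult w : ℝ) * Real.log (normAtPlace w y)|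
        ≤ (mult w : ℝ) * (‖x - y‖ / ρ) := by
    intro w _
    rw [← mul_sub, abs_mul, abs_of_nonneg (Nat.cast_nonneg _)]
    refine mul_le_mul_of_nonneg_left ?_ (Nat.cast_nonneg _)
    refine (rc_log_lip ρ hρ _ _ (hx w) (hy w)).trans ?_
    exact div_le_div_of_nonneg_right (rc_normAtPlace_sub K w x y) hρ.le
  refine (Finset.sum_le_sum h1).trans ?_
  rw [← Finset.sum_mul, ← Nat.cast_sum, sum_mult_eq, mul_div_assoc]

/-- (L1) `logMap` is `4/ρ`-Lipschitz on the region where all places are `≥ ρ` -/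
theorem rc_logMap_lip (ρ : ℝ) (hρ : 0 < ρ) (x y : mixedSpace K)
    (hx : ∀ w, ρ ≤ normAtPlace w x) (hy : ∀ w, ρ ≤ normAtPlace w y) :
    ‖logMap x - logMap y‖ ≤ 4 * ‖x - y‖ / ρ := by
  have hn : (0 : ℝ) < finrank ℚ K := Nat.cast_pos.mpr finrank_pos
  have h0 : 0 ≤ 4 * ‖x - y‖ / ρ := by positivity
  rw [pi_norm_le_iff_of_nonneg h0]
  intro w
  rw [Pi.sub_apply, logMap_apply, logMap_apply, Real.norm_eq_abs]
  have h1 := rc_log_lip ρ hρ _ _ (hx w.val) (hy w.val)
  have h2 := rc_normAtPlace_sub K w.val x y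
  have h3 := rc_log_norm_lip K ρ hρ x y hx hy
  have hm1 : (0 : ℝ) ≤ mult w.val := Nat.cast_nonneg _
  have hm2 : (mult w.val : ℝ) ≤ 2 := by
    have : mult w.val ≤ 2 := by unfold mult; split_ifs <;> norm_num
    exact_mod_cast this
  have e : (mult w.val : ℝ) * (Real.log (normAtPlace w.val x) -
        Real.log (mixedEmbedding.norm x) * (finrank ℚ K : ℝ)⁻¹) -
      (mult w.val : ℝ) * (Real.log (normAtPlace w.val y) -
        Real.log (mixedEmbedding.norm y) * (finrank ℚ K : ℝ)⁻¹)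
      = (mult w.val : ℝ) * ((Real.log (normAtPlace w.val x) - Real.log (normAtPlace w.val y)) -
        (Real.log (mixedEmbedding.norm x) - Real.log (mixedEmbedding.norm y)) *
          (finrank ℚ K : ℝ)⁻¹) := by ring
  rw [e, abs_mul, abs_of_nonneg hm1]
  have h4 : |(Real.log (normAtPlace w.val x) - Real.log (normAtPlace w.val y)) -
        (Real.log (mixedEmbedding.norm x) - Real.log (mixedEmbedding.norm y)) *
          (finrank ℚ K : ℝ)⁻¹| ≤ 2 * (‖x - y‖ / ρ) := by
    refine (abs_sub _ _).trans ?_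
    rw [abs_mul, abs_of_nonneg (inv_nonneg.mpr hn.le)]
    have h5 : |Real.log (normAtPlace w.val x) - Real.log (normAtPlace w.val y)| ≤ ‖x - y‖ / ρ :=
      h1.trans (div_le_div_of_nonneg_right h2 hρ.le)
    have h6 : |Real.log (mixedEmbedding.norm x) - Real.log (mixedEmbedding.norm y)| *
        (finrank ℚ K : ℝ)⁻¹ ≤ ‖x - y‖ / ρ := by
      rw [← div_eq_mul_inv, div_le_iff₀ hn]
      calc _ ≤ (finrank ℚ K : ℝ) * ‖x - y‖ / ρ := h3
        _ = ‖x - y‖ / ρ * (finrank ℚ K : ℝ) := by ring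
    linarith
  calc (mult w.val : ℝ) * _ ≤ 2 * (2 * (‖x - y‖ / ρ)) :=
        mul_le_mul hm2 h4 (abs_nonneg _) (by norm_num)
    _ = 4 * ‖x - y‖ / ρ := by ring

/-- `|e^(-s u) - e^(-s v)| ≤ e^(-s min(u,v)) · s · |u - v|` -/
theorem rc_exp_lip (s : ℝ) (hs : 0 ≤ s) (u v : ℝ) :
    |Real.exp (-(s * u)) - Real.exp (-(s * v))|
      ≤ Real.exp (-(s * min u v)) * (s * |u - v|) := by
  have key : ∀ u v : ℝ, u ≤ v → |Real.exp (-(s * u)) - Real.exp (-(s * v))|
      ≤ Real.exp (-(s * u)) * (s * (v - u)) := by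
    intro u v huv
    have h1 : Real.exp (-(s * v)) ≤ Real.exp (-(s * u)) := by
      apply Real.exp_le_exp.mpr
      nlinarith
    rw [abs_of_nonneg (by linarith)]
    have h2 : Real.exp (-(s * v)) = Real.exp (-(s * u)) * Real.exp (-(s * (v - u))) := by
      rw [← Real.exp_add]; congr 1; ring
    have h3 := Real.add_one_le_exp (-(s * (v - u)))
    have h4 := Real.exp_pos (-(s * u))
    rw [h2]
    nlinarith
  rcases le_total u v with h | h
  · rw [min_eq_left h]
    have : |u - v| = v - u := by rw [abs_sub_comm, abs_of_nonneg (by linarith)]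
    rw [this]; exact key u v h
  · rw [min_eq_right h]
    have : |u - v| = u - v := abs_of_nonneg (by linarith)
    rw [this, abs_sub_comm]; exact key v u h

/-- (L2) `norm ^ (-s)` is Lipschitz on the region where all places are `≥ ρ` -/
theorem rc_norm_rpow_lip (ρ : ℝ) (hρ : 0 < ρ) (x y : mixedSpace K)
    (hx : ∀ w, ρ ≤ normAtPlace w x) (hy : ∀ w, ρ ≤ normAtPlace w y) (s : ℝ) (hs : 0 ≤ s) :
    |mixedEmbedding.norm x ^ (-s) - mixedEmbedding.norm y ^ (-s)|
      ≤ s * finrank ℚ K * ρ ^ (-(finrank ℚ K * s + 1)) * ‖x - y‖ := by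
  have hρn : 0 < ρ ^ finrank ℚ K := pow_pos hρ _
  have hNx := rc_norm_ge K ρ hρ.le x hx
  have hNy := rc_norm_ge K ρ hρ.le y hy
  have hNx0 : 0 < mixedEmbedding.norm x := lt_of_lt_of_le hρn hNx
  have hNy0 : 0 < mixedEmbedding.norm y := lt_of_lt_of_le hρn hNy
  set Lx := Real.log (mixedEmbedding.norm x) with hLx
  set Ly := Real.log (mixedEmbedding.norm y) with hLy
  have ex : mixedEmbedding.norm x ^ (-s) = Real.exp (-(s * Lx)) := by
    rw [Real.rpow_def_of_pos hNx0]; congr 1; ring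
  have ey : mixedEmbedding.norm y ^ (-s) = Real.exp (-(s * Ly)) := by
    rw [Real.rpow_def_of_pos hNy0]; congr 1; ring
  have hlog : Real.log (ρ ^ finrank ℚ K) = finrank ℚ K * Real.log ρ := Real.log_pow _ _
  have hLx' : finrank ℚ K * Real.log ρ ≤ Lx := by
    rw [← hlog]; exact Real.log_le_log hρn hNx
  have hLy' : finrank ℚ K * Real.log ρ ≤ Ly := by
    rw [← hlog]; exact Real.log_le_log hρn hNy
  have hmin : finrank ℚ K * Real.log ρ ≤ min Lx Ly := le_min hLx' hLy'
  have h1 := rc_exp_lip s hs Lx Ly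
  have h2 := rc_log_norm_lip K ρ hρ x y hx hy
  have h3 : Real.exp (-(s * min Lx Ly)) ≤ ρ ^ (-(finrank ℚ K * s : ℝ)) := by
    rw [Real.rpow_def_of_pos hρ]
    apply Real.exp_le_exp.mpr
    nlinarith
  have h4 : ρ ^ (-(finrank ℚ K * s + 1 : ℝ)) = ρ ^ (-(finrank ℚ K * s : ℝ)) * ρ⁻¹ := by
    rw [neg_add, Real.rpow_add hρ, Real.rpow_neg_one]
  rw [ex, ey]
  refine h1.trans ?_
  have h5 : 0 ≤ s * |Lx - Ly| := mul_nonneg hs (abs_nonneg _)
  have h6 : s * |Lx - Ly| ≤ s * (finrank ℚ K * ‖x - y‖ / ρ) := mul_le_mul_of_nonneg_left h2 hs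
  calc Real.exp (-(s * min Lx Ly)) * (s * |Lx - Ly|)
      ≤ ρ ^ (-(finrank ℚ K * s : ℝ)) * (s * (finrank ℚ K * ‖x - y‖ / ρ)) :=
        mul_le_mul h3 h6 h5 (Real.rpow_nonneg hρ.le _)
    _ = s * finrank ℚ K * ρ ^ (-(finrank ℚ K * s + 1)) * ‖x - y‖ := by
        rw [h4]; field_simp

/-- (C) the cone lemma: if `logMap x` is bounded then all places of `x` are comparable
to `‖x‖`. -/
theorem rc_cone (β : ℝ) : ∃ κ : ℝ, 0 < κ ∧ ∀ x : mixedSpace K, mixedEmbedding.norm x ≠ 0 →
    ‖logMap x‖ ≤ β → ∀ w : InfinitePlace K, κ * ‖x‖ ≤ normAtPlace w x := by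
  set c : ℝ := (Fintype.card {w : InfinitePlace K // w ≠ w₀} : ℝ) with hc
  have hc0 : 0 ≤ c := Nat.cast_nonneg _
  refine ⟨Real.exp (-(2 * ((c + 1) * β))), Real.exp_pos _, fun x hx hβ w => ?_⟩
  have hβ0 : 0 ≤ β := (norm_nonneg _).trans hβ
  have hn : (0 : ℝ) < finrank ℚ K := Nat.cast_pos.mpr finrank_pos
  have ha : ∀ w, 0 < normAtPlace w x := fun w =>
    lt_of_le_of_ne (normAtPlace_nonneg w x) (Ne.symm (mixedEmbedding.norm_ne_zero_iff.mp hx w))
  set L := Real.log (mixedEmbedding.norm x) with hL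
  set d : InfinitePlace K → ℝ := fun w => Real.log (normAtPlace w x) - L * (finrank ℚ K : ℝ)⁻¹
    with hd
  have hcoord : ∀ w : {w : InfinitePlace K // w ≠ w₀}, |(mult w.val : ℝ) * d w.val| ≤ β := by
    intro w
    have h1 : ‖logMap x w‖ ≤ ‖logMap x‖ := norm_le_pi_norm _ w
    rw [logMap_apply, Real.norm_eq_abs] at h1
    exact h1.trans hβ
  have hd1 : ∀ w : InfinitePlace K, w ≠ w₀ → |d w| ≤ β := by
    intro w hw
    have h1 := hcoord ⟨w, hw⟩
    rw [abs_mul, abs_of_nonneg (Nat.cast_nonneg _)] at h1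
    have h2 : (1 : ℝ) ≤ mult w := one_le_mult
    nlinarith [abs_nonneg (d w)]
  have hsum : ∑ w, (mult w : ℝ) * d w = 0 := by
    have h1 : ∑ w, (mult w : ℝ) * d w
        = ∑ w, (mult w : ℝ) * Real.log (normAtPlace w x)
          - (∑ w : InfinitePlace K, (mult w : ℝ)) * (L * (finrank ℚ K : ℝ)⁻¹) := by
      rw [Finset.sum_mul, ← Finset.sum_sub_distrib]
      exact Finset.sum_congr rfl (fun w _ => by rw [hd]; ring)
    rw [h1, ← rc_log_norm K x ha, ← Nat.cast_sum, sum_mult_eq (K := K), ← hL]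
    field_simp
    ring
  have hd0 : |d w₀| ≤ c * β := by
    rw [Fintype.sum_eq_add_sum_subtype_ne _ w₀] at hsum
    have h1 : (mult (w₀ : InfinitePlace K) : ℝ) * d w₀
        = - ∑ w : {w : InfinitePlace K // w ≠ w₀}, (mult w.val : ℝ) * d w.val := by linarith
    have h2 : |(mult (w₀ : InfinitePlace K) : ℝ) * d w₀| ≤ c * β := by
      rw [h1, abs_neg]
      refine (Finset.abs_sum_le_sum_abs _ _).trans ?_
      refine (Finset.sum_le_sum (fun w _ => hcoord w)).trans ?_
      rw [Finset.sum_const, Finset.card_univ, nsmul_eq_mul]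
    rw [abs_mul, abs_of_nonneg (Nat.cast_nonneg _)] at h2
    have h3 : (1 : ℝ) ≤ mult (w₀ : InfinitePlace K) := one_le_mult
    nlinarith [abs_nonneg (d w₀)]
  have hdall : ∀ w : InfinitePlace K, |d w| ≤ (c + 1) * β := by
    intro w
    by_cases hw : w = w₀
    · rw [hw]; nlinarith
    · have := hd1 w hw; nlinarith
  -- compare places
  have hcmp : ∀ w' : InfinitePlace K,
      normAtPlace w' x ≤ Real.exp (2 * ((c + 1) * β)) * normAtPlace w x := by
    intro w'
    have h1 := (abs_le.mp (hdall w')).2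
    have h2 := (abs_le.mp (hdall w)).1
    have h3 : Real.log (normAtPlace w' x) - Real.log (normAtPlace w x) ≤ 2 * ((c + 1) * β) := by
      have : Real.log (normAtPlace w' x) - Real.log (normAtPlace w x) = d w' - d w := by
        rw [hd]; ring
      rw [this]; linarith
    have h4 : Real.log (normAtPlace w' x)
        ≤ Real.log (Real.exp (2 * ((c + 1) * β)) * normAtPlace w x) := by
      rw [Real.log_mul (Real.exp_pos _).ne' (ha w).ne', Real.log_exp]; linarith
    exact (Real.log_le_log_iff (ha w') (mul_pos (Real.exp_pos _) (ha w))).mp h4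
  have hnorm : ‖x‖ ≤ Real.exp (2 * ((c + 1) * β)) * normAtPlace w x := by
    rw [norm_eq_sup'_normAtPlace, Finset.sup'_le_iff]
    exact fun w' _ => hcmp w'
  have hexp : Real.exp (-(2 * ((c + 1) * β))) * Real.exp (2 * ((c + 1) * β)) = 1 := by
    rw [← Real.exp_add]; simp
  calc Real.exp (-(2 * ((c + 1) * β))) * ‖x‖
      ≤ Real.exp (-(2 * ((c + 1) * β))) * (Real.exp (2 * ((c + 1) * β)) * normAtPlace w x) :=
        mul_le_mul_of_nonneg_left hnorm (Real.exp_pos _).le
    _ = normAtPlace w x := by rw [← mul_assoc, hexp, one_mul]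

end

end C14
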