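import Mathlib

/-!
# S14 development, leaf RC: geometry of the support cone in the mixed space
-/

set_option autoImplicit false

open scoped NumberField
open NumberField NumberField.InfinitePlace NumberField.mixedEmbedding
open NumberField.Units NumberField.Units.dirichletUnitTheorem Module

namespace C14

section cone
variable {K : Type*} [Field K] [NumberField K]

/-- the normalized logarithmic coordinate at any place (including `w₀`) -/
noncomputable def rcLam (x : mixedSpace K) (w : InfinitePlace K) : ℝ :=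
  mult w * (Real.log (normAtPlace w x) - Real.log (mixedEmbedding.norm x) * (finrank ℚ K : ℝ)⁻¹)

theorem rc_cone_log_norm (x : mixedSpace K) (hx : mixedEmbedding.norm x ≠ 0) :
    Real.log (mixedEmbedding.norm x)
      = ∑ w : InfinitePlace K, (mult w : ℝ) * Real.log (normAtPlace w x) := by
  rw [mixedEmbedding.norm_apply, Real.log_prod]
  · refine Finset.sum_congr rfl fun w _ => ?_
    rw [Real.log_pow]
  · intro w _
    exact pow_ne_zero _ (mixedEmbedding.norm_ne_zero_iff.mp hx w)

theorem rc_cone_sum_lam (x : mixedSpace K) (hx : mixedEmbedding.norm x ≠ 0) :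
    ∑ w : InfinitePlace K, rcLam x w = 0 := by
  have hn : ((finrank ℚ K : ℕ) : ℝ) ≠ 0 := Nat.cast_ne_zero.mpr finrank_pos.ne'
  have h1 : ∑ w : InfinitePlace K, (mult w : ℝ) = (finrank ℚ K : ℝ) := by
    rw [← Nat.cast_sum, sum_mult_eq]
  simp only [rcLam, mul_sub, Finset.sum_sub_distrib]
  rw [← rc_cone_log_norm x hx, ← Finset.sum_mul, h1]
  field_simp
  ring

theorem rc_cone_lam_eq (x : mixedSpace K) (w : {w : InfinitePlace K // w ≠ w₀}) :
    rcLam x w.1 = logMap x w := rfl

open scoped Classical in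
theorem rc_cone_lam_le (x : mixedSpace K) (hx : mixedEmbedding.norm x ≠ 0) (β : ℝ)
    (hβ : ‖logMap x‖ ≤ β) (w : InfinitePlace K) :
    |rcLam x w| ≤ (Fintype.card (InfinitePlace K) : ℝ) * β := by
  have hβ0 : 0 ≤ β := (norm_nonneg _).trans hβ
  have hcard : (1 : ℝ) ≤ (Fintype.card (InfinitePlace K) : ℝ) := by
    exact_mod_cast Fintype.card_pos
  have hne : ∀ v : {w : InfinitePlace K // w ≠ w₀}, |rcLam x v.1| ≤ β := by
    intro v
    rw [rc_cone_lam_eq]
    exact (norm_le_pi_norm (logMap x) v).trans hβ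
  by_cases hw : w = w₀
  · have hsum := rc_cone_sum_lam x hx
    rw [Fintype.sum_eq_add_sum_subtype_ne _ (w₀ : InfinitePlace K)] at hsum
    have h2 : rcLam x w = - ∑ v : {w : InfinitePlace K // w ≠ w₀}, rcLam x v.1 := by
      rw [hw]
      linarith
    rw [h2, abs_neg]
    calc |∑ v : {w : InfinitePlace K // w ≠ w₀}, rcLam x v.1|
        ≤ ∑ v : {w : InfinitePlace K // w ≠ w₀}, |rcLam x v.1| := Finset.abs_sum_le_sum_abs _ _
      _ ≤ ∑ _v : {w : InfinitePlace K // w ≠ w₀}, β := Finset.sum_le_sum fun v _ => hne v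
      _ = (Fintype.card {w : InfinitePlace K // w ≠ w₀} : ℝ) * β := by
          rw [Finset.sum_const, Finset.card_univ, nsmul_eq_mul]
      _ ≤ (Fintype.card (InfinitePlace K) : ℝ) * β := by
          refine mul_le_mul_of_nonneg_right ?_ hβ0
          exact_mod_cast Fintype.card_subtype_le _
  · calc |rcLam x w| ≤ β := hne ⟨w, hw⟩
      _ = 1 * β := (one_mul β).symm
      _ ≤ (Fintype.card (InfinitePlace K) : ℝ) * β := mul_le_mul_of_nonneg_right hcard hβ0

open scoped Classical in
/-- (C1) on the support of a compactly supported function of `logMap`, all the absolute values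
are comparable to the sup norm. -/
theorem rc_cone_support (K : Type*) [Field K] [NumberField K] (β : ℝ) :
    ∃ κ : ℝ, 0 < κ ∧ κ ≤ 1 ∧ ∀ x : mixedSpace K,
    mixedEmbedding.norm x ≠ 0 → ‖logMap x‖ ≤ β →
      ∀ w : InfinitePlace K, κ * ‖x‖ ≤ normAtPlace w x := by
  refine ⟨Real.exp (-(2 * ((Fintype.card (InfinitePlace K) : ℝ) * |β|))), Real.exp_pos _, ?_, ?_⟩
  · rw [Real.exp_le_one_iff]
    have : 0 ≤ (Fintype.card (InfinitePlace K) : ℝ) * |β| := by positivity
    linarith
  intro x hx hβ w
  have hβ0 : 0 ≤ β := (norm_nonneg _).trans hβ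
  rw [abs_of_nonneg hβ0]
  set B := (Fintype.card (InfinitePlace K) : ℝ) * β with hB
  have hpos : ∀ v : InfinitePlace K, 0 < normAtPlace v x := fun v =>
    lt_of_le_of_ne (normAtPlace_nonneg v x) (Ne.symm (mixedEmbedding.norm_ne_zero_iff.mp hx v))
  -- `|log t_v - L/n| ≤ B`
  have hlog : ∀ v : InfinitePlace K,
      |Real.log (normAtPlace v x) - Real.log (mixedEmbedding.norm x) * (finrank ℚ K : ℝ)⁻¹|
        ≤ B := by
    intro v
    have h1 := rc_cone_lam_le x hx β hβ v
    rw [rcLam, abs_mul, Nat.abs_cast] at h1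
    have h2 : (1 : ℝ) ≤ (mult v : ℝ) := one_le_mult
    calc |Real.log (normAtPlace v x) - Real.log (mixedEmbedding.norm x) * (finrank ℚ K : ℝ)⁻¹|
        = 1 * |Real.log (normAtPlace v x)
          - Real.log (mixedEmbedding.norm x) * (finrank ℚ K : ℝ)⁻¹| := (one_mul _).symm
      _ ≤ (mult v : ℝ) * |Real.log (normAtPlace v x)
          - Real.log (mixedEmbedding.norm x) * (finrank ℚ K : ℝ)⁻¹| :=
          mul_le_mul_of_nonneg_right h2 (abs_nonneg _)
      _ ≤ B := h1
  -- compare any two places
  have hcmp : ∀ v : InfinitePlace K,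
      Real.exp (-(2 * B)) * normAtPlace v x ≤ normAtPlace w x := by
    intro v
    have hv := abs_le.mp (hlog v)
    have hw := abs_le.mp (hlog w)
    have h3 : Real.log (normAtPlace v x) - 2 * B ≤ Real.log (normAtPlace w x) := by linarith
    have h4 : Real.exp (Real.log (normAtPlace v x) - 2 * B)
        ≤ Real.exp (Real.log (normAtPlace w x)) := Real.exp_le_exp.mpr h3
    rw [Real.exp_log (hpos w), sub_eq_add_neg, Real.exp_add, Real.exp_log (hpos v)] at h4
    linarith
  rw [norm_eq_sup'_normAtPlace]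
  obtain ⟨v, -, hv⟩ := Finset.exists_mem_eq_sup' Finset.univ_nonempty
    (fun w : InfinitePlace K => normAtPlace w x)
  rw [hv]
  exact hcmp v

end cone

end C14
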