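import Mathlib

set_option autoImplicit false

open IsDedekindDomain Finset

namespace C14

section euler
variable {R : Type*} [CommRing R] [IsDedekindDomain R]

/-- the ideal `∏_{v ∈ T} v ^ e v` -/
noncomputable def z_phi (T : Finset (HeightOneSpectrum R)) (e : T → ℕ) : Ideal R :=
  ∏ v : T, v.1.asIdeal ^ e v

theorem z_not_dvd_of_ne {v w : HeightOneSpectrum R} (h : v ≠ w) : ¬ v.asIdeal ∣ w.asIdeal := by
  intro hd
  rw [Ideal.dvd_iff_le] at hd
  exact h (HeightOneSpectrum.ext (w.isMaximal.eq_of_le v.isPrime.ne_top hd)).symm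

theorem z_emultiplicity_self (v : HeightOneSpectrum R) :
    emultiplicity v.asIdeal v.asIdeal = 1 := by
  have hp : Prime v.asIdeal := v.prime
  exact (FiniteMultiplicity.of_prime_left hp hp.ne_zero).emultiplicity_self

theorem z_emultiplicity_phi (T : Finset (HeightOneSpectrum R)) (e : T → ℕ) (v0 : T) :
    emultiplicity v0.1.asIdeal (z_phi T e) = e v0 := by
  have hp : Prime v0.1.asIdeal := v0.1.prime
  rw [z_phi, Finset.emultiplicity_prod hp, Finset.sum_eq_single v0]
  · rw [emultiplicity_pow hp, z_emultiplicity_self, mul_one]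
  · intro v _ hv
    rw [emultiplicity_pow hp]
    have : emultiplicity v0.1.asIdeal v.1.asIdeal = 0 := by
      rw [emultiplicity_eq_zero]
      exact z_not_dvd_of_ne (fun h => hv (Subtype.ext h).symm)
    rw [this, mul_zero]
  · intro h
    exact absurd (Finset.mem_univ _) h

theorem z_emultiplicity_phi_of_not_mem (T : Finset (HeightOneSpectrum R)) (e : T → ℕ)
    (v0 : HeightOneSpectrum R) (hv0 : v0 ∉ T) :
    emultiplicity v0.asIdeal (z_phi T e) = 0 := by
  have hp : Prime v0.asIdeal := v0.prime
  rw [z_phi, Finset.emultiplicity_prod hp]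
  refine Finset.sum_eq_zero fun v _ => ?_
  rw [emultiplicity_pow hp]
  have : emultiplicity v0.asIdeal v.1.asIdeal = 0 := by
    rw [emultiplicity_eq_zero]
    exact z_not_dvd_of_ne (fun h => hv0 (h ▸ v.2))
  rw [this, mul_zero]

theorem z_phi_injective (T : Finset (HeightOneSpectrum R)) : Function.Injective (z_phi T) := by
  intro e e' h
  funext v
  have h1 := z_emultiplicity_phi T e v
  rw [h, z_emultiplicity_phi T e' v] at h1
  exact_mod_cast h1.symm

theorem z_phi_ne_bot (T : Finset (HeightOneSpectrum R)) (e : T → ℕ) : z_phi T e ≠ ⊥ := by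
  rw [z_phi, ← Ideal.zero_eq_bot, Finset.prod_ne_zero_iff]
  intro v _
  exact pow_ne_zero _ v.1.ne_bot

open Classical in
/-- the finite set of ideals `∏_{v ∈ T} v ^ e v` with all `e v ≤ K` -/
noncomputable def z_box (T : Finset (HeightOneSpectrum R)) (K : ℕ) : Finset (Ideal R) :=
  (Fintype.piFinset (fun _ : T => range (K + 1))).image (z_phi T)

theorem z_bot_not_mem_box (T : Finset (HeightOneSpectrum R)) (K : ℕ) : (⊥ : Ideal R) ∉ z_box T K := by
  classical
  intro h
  rw [z_box, Finset.mem_image] at h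
  obtain ⟨e, _, he⟩ := h
  exact z_phi_ne_bot T e he

theorem z_mem_box {I : Ideal R} (hI : I ≠ ⊥) (T : Finset (HeightOneSpectrum R)) (K : ℕ)
    (hT : ∀ v : HeightOneSpectrum R, v.asIdeal ∣ I → v ∈ T)
    (hK : ∀ v : HeightOneSpectrum R, multiplicity v.asIdeal I ≤ K) : I ∈ z_box T K := by
  classical
  rw [z_box, Finset.mem_image]
  refine ⟨fun v => multiplicity v.1.asIdeal I, ?_, ?_⟩
  · rw [Fintype.mem_piFinset]
    intro v
    rw [Finset.mem_range]
    exact Nat.lt_succ_of_le (hK v.1)
  · have h1 := Ideal.finprod_heightOneSpectrum_pow_multiplicity hI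
    rw [finprod_eq_prod_of_mulSupport_subset (s := T)] at h1
    · rw [z_phi]
      exact (Finset.prod_coe_sort T (fun v => v.asIdeal ^ multiplicity v.asIdeal I)).trans h1
    · intro v hv
      rw [Function.mem_mulSupport] at hv
      refine hT v ?_
      by_contra hnd
      apply hv
      rw [multiplicity_eq_zero.mpr hnd, pow_zero]

theorem z_finite_euler {G : Type*} [FunLike G (Ideal R) ℂ] [MonoidHomClass G (Ideal R) ℂ] (g : G)
    (T : Finset (HeightOneSpectrum R)) (K : ℕ) :
    ∏ v ∈ T, ∑ k ∈ range (K + 1), g v.asIdeal ^ k = ∑ I ∈ z_box T K, g I := by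
  classical
  rw [z_box, Finset.sum_image (fun e _ e' _ h => z_phi_injective T h),
    ← Finset.prod_coe_sort T, Finset.prod_univ_sum]
  refine Finset.sum_congr rfl fun e _ => ?_
  rw [z_phi, map_prod]
  refine Finset.prod_congr rfl fun v _ => ?_
  rw [map_pow]

theorem z_norm_lt_one (g : Ideal R →*₀ ℂ) (hsum : Summable fun I => ‖g I‖)
    (v : HeightOneSpectrum R) : ‖g v.asIdeal‖ < 1 := by
  have hinj : Function.Injective (fun k : ℕ => v.asIdeal ^ k) :=
    pow_injective_of_not_isUnit v.prime.not_isUnit v.ne_bot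
  have h1 := hsum.comp_injective hinj
  have h2 : Summable (fun k : ℕ => ‖g v.asIdeal‖ ^ k) := by
    refine h1.congr fun k => ?_
    simp only [Function.comp_apply, map_pow, norm_pow]
  have h3 := summable_geometric_iff_norm_lt_one.mp h2
  rwa [norm_norm] at h3

/-- **Euler product** for a completely multiplicative function on the ideals of a Dedekind
domain, absolutely summable: the finite Euler products tend to the sum over all ideals. -/
theorem z_tendsto_euler (g : Ideal R →*₀ ℂ) (hsum : Summable fun I => ‖g I‖) :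
    Filter.Tendsto (fun T : Finset (HeightOneSpectrum R) => ∏ v ∈ T, (1 - g v.asIdeal)⁻¹)
      Filter.atTop (nhds (∑' I, g I)) := by
  classical
  have hA : HasSum (fun I => g I) (∑' I, g I) := hsum.of_norm.hasSum
  rw [HasSum, SummationFilter.unconditional_filter, Metric.tendsto_atTop] at hA
  rw [Metric.tendsto_atTop]
  intro ε hε
  obtain ⟨U, hU⟩ := hA (ε / 2) (half_pos hε)
  -- primes dividing a nonzero member of `U`
  let T₀ : Finset (HeightOneSpectrum R) :=
    U.biUnion fun I => if h : I = ⊥ then ∅ else (Ideal.finite_factors h).toFinset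
  -- bound for the exponents
  let K₀ : ℕ := ∑ I ∈ U, if h : I = ⊥ then 0 else
    ∑ v ∈ (Ideal.finite_factors h).toFinset, multiplicity v.asIdeal I
  refine ⟨T₀, fun T hT => ?_⟩
  have hbox : ∀ K, K₀ ≤ K → ∀ I ∈ U, I ≠ ⊥ → I ∈ z_box T K := by
    intro K hK I hIU hI
    refine z_mem_box hI T K (fun v hv => hT ?_) (fun v => ?_)
    · rw [Finset.mem_biUnion]
      refine ⟨I, hIU, ?_⟩
      rw [dif_neg hI, Set.Finite.mem_toFinset]
      exact hv
    · by_cases hv : v.asIdeal ∣ I
      · refine le_trans ?_ hK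
        have h1 : (if h : I = ⊥ then 0 else
            ∑ v ∈ (Ideal.finite_factors h).toFinset, multiplicity v.asIdeal I) ≤ K₀ :=
          Finset.single_le_sum (f := fun I => if h : I = ⊥ then 0 else
            ∑ v ∈ (Ideal.finite_factors h).toFinset, multiplicity v.asIdeal I)
            (fun _ _ => Nat.zero_le _) hIU
        refine le_trans ?_ h1
        rw [dif_neg hI]
        exact Finset.single_le_sum (f := fun v : HeightOneSpectrum R => multiplicity v.asIdeal I)
          (fun _ _ => Nat.zero_le _) (by rw [Set.Finite.mem_toFinset]; exact hv)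
      · rw [multiplicity_eq_zero.mpr hv]
        exact Nat.zero_le _
  have hdist : ∀ K, K₀ ≤ K →
      dist (∏ v ∈ T, ∑ k ∈ range (K + 1), g v.asIdeal ^ k) (∑' I, g I) < ε / 2 := by
    intro K hK
    have h1 : ∏ v ∈ T, ∑ k ∈ range (K + 1), g v.asIdeal ^ k = ∑ I ∈ z_box T K ∪ U, g I := by
      rw [z_finite_euler g T K]
      refine Finset.sum_subset Finset.subset_union_left fun I hI hI' => ?_
      rcases Finset.mem_union.mp hI with h | h
      · exact absurd h hI'
      · by_cases hI0 : I = ⊥
        · rw [hI0]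
          exact map_zero g
        · exact absurd (hbox K hK I h hI0) hI'
    rw [h1]
    exact hU _ Finset.subset_union_right
  have hlim : Filter.Tendsto (fun K : ℕ => ∏ v ∈ T, ∑ k ∈ range (K + 1), g v.asIdeal ^ k)
      Filter.atTop (nhds (∏ v ∈ T, (1 - g v.asIdeal)⁻¹)) := by
    refine tendsto_finsetProd T fun v _ => ?_
    have h2 := (hasSum_geometric_of_norm_lt_one (z_norm_lt_one g hsum v)).tendsto_sum_nat
    exact h2.comp (Filter.tendsto_add_atTop_nat 1)
  have hle : dist (∏ v ∈ T, (1 - g v.asIdeal)⁻¹) (∑' I, g I) ≤ ε / 2 := by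
    refine le_of_tendsto (Filter.Tendsto.dist hlim tendsto_const_nhds) ?_
    filter_upwards [Filter.eventually_ge_atTop K₀] with K hK
    exact (hdist K hK).le
  linarith

end euler

end C14
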