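import Fermat.Agent.Lib.C14_Ext
import Fermat.Agent.Lib.C14_Z_Euler

set_option autoImplicit false

open scoped NumberField
open IsDedekindDomain Filter Topology

namespace C14

section zeta
variable (F : Type*) [Field F] [NumberField F]

/-- the Dirichlet series of the Dedekind zeta function converges for real `s > 1` -/
theorem z_lseriesSummable (s : ℝ) (hs : 1 < s) :
    LSeriesSummable (fun n : ℕ => ((Nat.card {I : Ideal (𝓞 F) // Ideal.absNorm I = n} : ℝ) : ℂ))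
      (s : ℂ) := by
  have hlim : Tendsto (fun n : ℕ =>
      (∑ k ∈ Finset.Icc 1 n, (Nat.card {I : Ideal (𝓞 F) // Ideal.absNorm I = k} : ℝ)) / (n : ℝ))
      atTop (𝓝 (NumberField.dedekindZeta_residue F)) := by
    refine ((NumberField.Ideal.tendsto_norm_le_div_atTop₀ F).comp tendsto_natCast_atTop_atTop).congr fun n ↦ ?_
    simp only [Function.comp_apply, Nat.cast_le, ← Nat.cast_sum]
    congr
    rw [← add_left_inj 1, ← Ideal.card_norm_le_eq_card_norm_le_add_one,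
      show Finset.Icc 1 n = Finset.Ioc 0 n from Finset.Icc_succ_left_eq_Ioc _ _,
      show 1 = Nat.card {I : Ideal (𝓞 F) // Ideal.absNorm I = 0} by
        simp [Ideal.absNorm_eq_zero_iff],
      Finset.sum_Ioc_add_eq_sum_Icc (n.zero_le),
      ← Finset.card_preimage_eq_sum_card_image_eq (fun k _ ↦ Ideal.finite_setOfPred_absNorm_eq k)]
    simp [Set.coe_eq_subtype]
  refine LSeriesSummable_of_sum_norm_bigO_and_nonneg ?_ (fun _ => Nat.cast_nonneg _) zero_le_one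
    (by simpa using hs)
  exact Asymptotics.isBigO_atTop_natCast_rpow_of_tendsto_div_rpow (by simpa using hlim)

/-- the coefficients of the Dedekind zeta function (number of ideals of norm `n`) -/
noncomputable def z_coef (n : ℕ) : ℝ := (Nat.card {I : Ideal (𝓞 F) // Ideal.absNorm I = n} : ℝ)

theorem z_fiber_tsum (s : ℝ) (n : ℕ) :
    ∑' y : {I : Ideal (𝓞 F) // Ideal.absNorm I = n}, (Ideal.absNorm (y : Ideal (𝓞 F)) : ℝ) ^ (-s)
      = z_coef F n * (n : ℝ) ^ (-s) := by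
  have h : ∀ y : {I : Ideal (𝓞 F) // Ideal.absNorm I = n},
      (Ideal.absNorm (y : Ideal (𝓞 F)) : ℝ) ^ (-s) = (n : ℝ) ^ (-s) := fun y => by rw [y.2]
  simp_rw [h]
  rw [tsum_const, nsmul_eq_mul, z_coef]

theorem z_term_eq (s : ℝ) (hs : s ≠ 0) (n : ℕ) :
    LSeries.term (fun n : ℕ => ((z_coef F n : ℝ) : ℂ)) (s : ℂ) n
      = ((z_coef F n * (n : ℝ) ^ (-s) : ℝ) : ℂ) := by
  rw [LSeries.term_of_ne_zero' (by exact_mod_cast hs), Complex.ofReal_mul,
    Complex.ofReal_cpow (Nat.cast_nonneg n), Complex.ofReal_neg, Complex.cpow_neg,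
    Complex.ofReal_natCast, div_eq_mul_inv]

theorem z_summable_coef (s : ℝ) (hs : 1 < s) :
    Summable fun n : ℕ => z_coef F n * (n : ℝ) ^ (-s) := by
  have h0 : Summable (LSeries.term (fun n : ℕ => ((z_coef F n : ℝ) : ℂ)) (s : ℂ)) :=
    z_lseriesSummable F s hs
  have h1 := h0.norm
  refine h1.congr fun n => ?_
  rw [z_term_eq F s (by linarith), Complex.norm_real, Real.norm_eq_abs, abs_of_nonneg]
  exact mul_nonneg (Nat.cast_nonneg _) (Real.rpow_nonneg (Nat.cast_nonneg n) _)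

theorem z_summable_sigma (s : ℝ) (hs : 1 < s) :
    Summable fun p : (Σ n : ℕ, {I : Ideal (𝓞 F) // Ideal.absNorm I = n}) =>
      (Ideal.absNorm (p.2 : Ideal (𝓞 F)) : ℝ) ^ (-s) := by
  refine (summable_sigma_of_nonneg (fun x => Real.rpow_nonneg (Nat.cast_nonneg _) _)).mpr ⟨?_, ?_⟩
  · intro n
    have : Finite {I : Ideal (𝓞 F) // Ideal.absNorm I = n} :=
      (Ideal.finite_setOfPred_absNorm_eq n).to_subtype
    exact Summable.of_finite
  · refine (z_summable_coef F s hs).congr fun n => ?_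
    exact (z_fiber_tsum F s n).symm

/-- summability of `N(a)^(-s)` over all ideals, `s > 1` -/
theorem z_summable_ideals (s : ℝ) (hs : 1 < s) :
    Summable fun a : Ideal (𝓞 F) => (Ideal.absNorm a : ℝ) ^ (-s) :=
  (Equiv.sigmaFiberEquiv (fun a : Ideal (𝓞 F) => Ideal.absNorm a)).summable_iff.mp
    (z_summable_sigma F s hs)

/-- the real Dedekind zeta sum -/
noncomputable def z_zeta (s : ℝ) : ℝ := ∑' a : Ideal (𝓞 F), (Ideal.absNorm a : ℝ) ^ (-s)

theorem z_zeta_eq_tsum_coef (s : ℝ) (hs : 1 < s) :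
    z_zeta F s = ∑' n : ℕ, z_coef F n * (n : ℝ) ^ (-s) := by
  have h1 : z_zeta F s = ∑' p : (Σ n : ℕ, {I : Ideal (𝓞 F) // Ideal.absNorm I = n}),
      (Ideal.absNorm (p.2 : Ideal (𝓞 F)) : ℝ) ^ (-s) :=
    ((Equiv.sigmaFiberEquiv (fun a : Ideal (𝓞 F) => Ideal.absNorm a)).tsum_eq
      (fun a : Ideal (𝓞 F) => (Ideal.absNorm a : ℝ) ^ (-s))).symm
  rw [h1, Summable.tsum_sigma' (fun n => ?_) (z_summable_sigma F s hs)]
  · refine tsum_congr fun n => ?_
    exact z_fiber_tsum F s n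
  · have : Finite {I : Ideal (𝓞 F) // Ideal.absNorm I = n} :=
      (Ideal.finite_setOfPred_absNorm_eq n).to_subtype
    exact Summable.of_finite

theorem z_dedekindZeta_eq (s : ℝ) (hs : 1 < s) :
    NumberField.dedekindZeta F (s : ℂ) = ((z_zeta F s : ℝ) : ℂ) := by
  rw [z_zeta_eq_tsum_coef F s hs, Complex.ofReal_tsum]
  show LSeries (fun n : ℕ => ((z_coef F n : ℝ) : ℂ)) (s : ℂ) = _
  rw [LSeries]
  refine tsum_congr fun n => ?_
  exact z_term_eq F s (by linarith) n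

theorem z_tendsto_zeta :
    Tendsto (fun s : ℝ => (s - 1) * z_zeta F s) (𝓝[>] 1)
      (𝓝 (NumberField.dedekindZeta_residue F)) := by
  have h := NumberField.tendsto_sub_one_mul_dedekindZeta_nhdsGT F
  have h2 := (Complex.continuous_re.tendsto _).comp h
  rw [Complex.ofReal_re] at h2
  refine h2.congr' ?_
  filter_upwards [self_mem_nhdsWithin] with s hs
  rw [Function.comp_apply, z_dedekindZeta_eq F s hs, ← Complex.ofReal_one, ← Complex.ofReal_sub,
    ← Complex.ofReal_mul, Complex.ofReal_re]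

/-! ### The Euler product for `Lfun` -/

theorem z_two_le_absNorm (v : HeightOneSpectrum (𝓞 F)) : 2 ≤ Ideal.absNorm v.asIdeal := by
  have h0 : Ideal.absNorm v.asIdeal ≠ 0 := by
    rw [Ne, Ideal.absNorm_eq_zero_iff]
    exact v.ne_bot
  have h1 : Ideal.absNorm v.asIdeal ≠ 1 := by
    rw [Ne, Ideal.absNorm_eq_one_iff]
    exact v.isPrime.ne_top
  omega

theorem z_two_le_nrm (v : HeightOneSpectrum (𝓞 F)) : 2 ≤ nrm F v := by
  have := z_two_le_absNorm F v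
  rw [nrm]
  exact_mod_cast this

theorem z_nrm_pos (v : HeightOneSpectrum (𝓞 F)) : 0 < nrm F v := by
  have := z_two_le_nrm F v
  linarith

theorem z_nrm_rpow_le_half (v : HeightOneSpectrum (𝓞 F)) (s : ℝ) (hs : 1 ≤ s) :
    nrm F v ^ (-s) ≤ 1 / 2 := by
  have h2 := z_two_le_nrm F v
  calc nrm F v ^ (-s) ≤ (2 : ℝ) ^ (-s) :=
        Real.rpow_le_rpow_of_nonpos (by norm_num) h2 (by linarith)
    _ ≤ (2 : ℝ) ^ (-1 : ℝ) := Real.rpow_le_rpow_of_exponent_le (by norm_num) (by linarith)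
    _ = 1 / 2 := by rw [Real.rpow_neg_one]; norm_num

theorem z_nrm_rpow_anti (v : HeightOneSpectrum (𝓞 F)) {s t : ℝ} (hst : s ≤ t) :
    nrm F v ^ (-t) ≤ nrm F v ^ (-s) :=
  Real.rpow_le_rpow_of_exponent_le (by have := z_two_le_nrm F v; linarith) (by linarith)

theorem Z_summable_primes (s : ℝ) (hs : 1 < s) :
    Summable fun v : HeightOneSpectrum (𝓞 F) => nrm F v ^ (-s) :=
  (z_summable_ideals F s hs).comp_injective (fun _ _ h => HeightOneSpectrum.ext h)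

/-- the completely multiplicative function `a ↦ ext f a * N(a)^(-s)` -/
noncomputable def z_gHom (f : HeightOneSpectrum (𝓞 F) → ℂ) (s : ℝ) :
    Ideal (𝓞 F) →*₀ ℂ where
  toFun a := ext F f a * (((Ideal.absNorm a : ℝ) ^ (-s) : ℝ) : ℂ)
  map_zero' := by
    rw [Ideal.zero_eq_bot, ext_bot, zero_mul]
  map_one' := by
    rw [ext_one, Ideal.one_eq_top, Ideal.absNorm_top, Nat.cast_one, Real.one_rpow,
      Complex.ofReal_one, mul_one]
  map_mul' a b := by
    rw [ext_mul, map_mul, Nat.cast_mul, Real.mul_rpow (Nat.cast_nonneg _) (Nat.cast_nonneg _),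
      Complex.ofReal_mul]
    ring

theorem z_gHom_apply (f : HeightOneSpectrum (𝓞 F) → ℂ) (s : ℝ) (a : Ideal (𝓞 F)) :
    z_gHom F f s a = ext F f a * (((Ideal.absNorm a : ℝ) ^ (-s) : ℝ) : ℂ) := rfl

theorem z_gHom_prime (f : HeightOneSpectrum (𝓞 F) → ℂ) (s : ℝ)
    (v : HeightOneSpectrum (𝓞 F)) :
    z_gHom F f s v.asIdeal = f v * ((nrm F v ^ (-s) : ℝ) : ℂ) := by
  rw [z_gHom_apply, ext_prime, nrm]

theorem z_summable_gHom (f : HeightOneSpectrum (𝓞 F) → ℂ) (hf : ∀ v, ‖f v‖ ≤ 1) (s : ℝ)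
    (hs : 1 < s) : Summable fun a => ‖z_gHom F f s a‖ := by
  refine Summable.of_nonneg_of_le (fun a => norm_nonneg _) (fun a => ?_) (z_summable_ideals F s hs)
  rw [z_gHom_apply, norm_mul, Complex.norm_real, Real.norm_eq_abs,
    abs_of_nonneg (Real.rpow_nonneg (Nat.cast_nonneg _) _)]
  calc ‖ext F f a‖ * (Ideal.absNorm a : ℝ) ^ (-s) ≤ 1 * (Ideal.absNorm a : ℝ) ^ (-s) :=
        mul_le_mul_of_nonneg_right (norm_ext_le F hf a) (Real.rpow_nonneg (Nat.cast_nonneg _) _)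
    _ = _ := one_mul _

/-- summability of the terms of `Lfun` -/
theorem z_summable_Lfun (f : HeightOneSpectrum (𝓞 F) → ℂ) (hf : ∀ v, ‖f v‖ ≤ 1) (s : ℝ)
    (hs : 1 < s) :
    Summable fun a : Ideal (𝓞 F) => ext F f a * (((Ideal.absNorm a : ℝ) ^ (-s) : ℝ) : ℂ) :=
  (z_summable_gHom F f hf s hs).of_norm

/-- **Euler product** for `Lfun` -/
theorem z_tendsto_Lfun (f : HeightOneSpectrum (𝓞 F) → ℂ) (hf : ∀ v, ‖f v‖ ≤ 1) (s : ℝ)
    (hs : 1 < s) :
    Tendsto (fun T : Finset (HeightOneSpectrum (𝓞 F)) =>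
      ∏ v ∈ T, (1 - f v * ((nrm F v ^ (-s) : ℝ) : ℂ))⁻¹) atTop (𝓝 (Lfun F f s)) := by
  have h := z_tendsto_euler (z_gHom F f s) (z_summable_gHom F f hf s hs)
  simp only [z_gHom_prime] at h
  exact h

/-! ### The logarithm of the Euler product -/

theorem z_log_bound {z : ℂ} (hz : ‖z‖ ≤ 1 / 2) :
    |Real.log ‖(1 - z)⁻¹‖ - z.re| ≤ ‖z‖ ^ 2 := by
  have h1 := Complex.norm_log_one_sub_inv_sub_self_le (z := z) (by linarith)
  have h2 : |(Complex.log (1 - z)⁻¹ - z).re| ≤ ‖Complex.log (1 - z)⁻¹ - z‖ := Complex.abs_re_le_norm _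
  rw [Complex.sub_re, Complex.log_re] at h2
  refine h2.trans (h1.trans ?_)
  have h3 : (1 - ‖z‖)⁻¹ ≤ 2 := by
    rw [inv_le_comm₀ (by linarith) (by norm_num)]
    linarith
  have h4 : 0 ≤ ‖z‖ ^ 2 := sq_nonneg _
  nlinarith

theorem z_one_sub_ne_zero {z : ℂ} (hz : ‖z‖ ≤ 1 / 2) : (1 - z)⁻¹ ≠ 0 := by
  refine inv_ne_zero (sub_ne_zero.mpr fun h => ?_)
  rw [← h, norm_one] at hz
  linarith

theorem z_norm_term_le (f : HeightOneSpectrum (𝓞 F) → ℂ) (hf : ∀ v, ‖f v‖ ≤ 1) (s : ℝ)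
    (v : HeightOneSpectrum (𝓞 F)) :
    ‖f v * ((nrm F v ^ (-s) : ℝ) : ℂ)‖ ≤ nrm F v ^ (-s) := by
  rw [norm_mul, Complex.norm_real, Real.norm_eq_abs,
    abs_of_nonneg (Real.rpow_nonneg (z_nrm_pos F v).le _)]
  calc ‖f v‖ * nrm F v ^ (-s) ≤ 1 * nrm F v ^ (-s) :=
        mul_le_mul_of_nonneg_right (hf v) (Real.rpow_nonneg (z_nrm_pos F v).le _)
    _ = _ := one_mul _

/-- the constant in `Z_log_Lfun` -/
noncomputable def z_C2 : ℝ := ∑' v : HeightOneSpectrum (𝓞 F), nrm F v ^ (-(2 : ℝ))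

theorem z_sq_le (f : HeightOneSpectrum (𝓞 F) → ℂ) (hf : ∀ v, ‖f v‖ ≤ 1) (s : ℝ) (hs : 1 ≤ s)
    (v : HeightOneSpectrum (𝓞 F)) :
    ‖f v * ((nrm F v ^ (-s) : ℝ) : ℂ)‖ ^ 2 ≤ nrm F v ^ (-(2 : ℝ)) := by
  have h1 := z_norm_term_le F f hf s v
  have h2 : (nrm F v ^ (-s)) ^ 2 = nrm F v ^ (-(2 * s)) := by
    rw [← Real.rpow_natCast, ← Real.rpow_mul (z_nrm_pos F v).le]
    congr 1
    push_cast
    ring
  calc ‖f v * ((nrm F v ^ (-s) : ℝ) : ℂ)‖ ^ 2 ≤ (nrm F v ^ (-s)) ^ 2 :=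
        pow_le_pow_left₀ (norm_nonneg _) h1 2
    _ = nrm F v ^ (-(2 * s)) := h2
    _ ≤ nrm F v ^ (-(2 : ℝ)) := z_nrm_rpow_anti F v (by linarith)

theorem z_finite_log_bound (f : HeightOneSpectrum (𝓞 F) → ℂ) (hf : ∀ v, ‖f v‖ ≤ 1) (s : ℝ)
    (hs : 1 ≤ s) (T : Finset (HeightOneSpectrum (𝓞 F))) :
    |Real.log ‖∏ v ∈ T, (1 - f v * ((nrm F v ^ (-s) : ℝ) : ℂ))⁻¹‖
      - ∑ v ∈ T, (f v).re * nrm F v ^ (-s)| ≤ z_C2 F := by
  have hhalf : ∀ v, ‖f v * ((nrm F v ^ (-s) : ℝ) : ℂ)‖ ≤ 1 / 2 := fun v =>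
    (z_norm_term_le F f hf s v).trans (z_nrm_rpow_le_half F v s hs)
  rw [norm_prod, Real.log_prod (fun v _ => norm_ne_zero_iff.mpr (z_one_sub_ne_zero (hhalf v))),
    ← Finset.sum_sub_distrib]
  calc |∑ v ∈ T, (Real.log ‖(1 - f v * ((nrm F v ^ (-s) : ℝ) : ℂ))⁻¹‖ - (f v).re * nrm F v ^ (-s))|
      ≤ ∑ v ∈ T, |Real.log ‖(1 - f v * ((nrm F v ^ (-s) : ℝ) : ℂ))⁻¹‖
          - (f v).re * nrm F v ^ (-s)| := Finset.abs_sum_le_sum_abs _ _
    _ ≤ ∑ v ∈ T, nrm F v ^ (-(2 : ℝ)) := by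
        refine Finset.sum_le_sum fun v _ => ?_
        have h1 := z_log_bound (hhalf v)
        rw [Complex.re_mul_ofReal] at h1
        exact h1.trans (z_sq_le F f hf s hs v)
    _ ≤ z_C2 F := (Z_summable_primes F 2 (by norm_num)).sum_le_tsum T
        (fun v _ => Real.rpow_nonneg (z_nrm_pos F v).le _)

theorem z_summable_re (f : HeightOneSpectrum (𝓞 F) → ℂ) (hf : ∀ v, ‖f v‖ ≤ 1) (s : ℝ)
    (hs : 1 < s) : Summable fun v : HeightOneSpectrum (𝓞 F) => (f v).re * nrm F v ^ (-s) := by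
  refine Summable.of_norm_bounded (Z_summable_primes F s hs) fun v => ?_
  rw [norm_mul, Real.norm_eq_abs, Real.norm_eq_abs,
    abs_of_nonneg (Real.rpow_nonneg (z_nrm_pos F v).le _)]
  calc |(f v).re| * nrm F v ^ (-s) ≤ 1 * nrm F v ^ (-s) :=
        mul_le_mul_of_nonneg_right ((Complex.abs_re_le_norm _).trans (hf v))
          (Real.rpow_nonneg (z_nrm_pos F v).le _)
    _ = _ := one_mul _

/-- Euler product in logarithmic form, for a fixed `s > 1`, with the explicit constant -/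
theorem z_log_Lfun (f : HeightOneSpectrum (𝓞 F) → ℂ) (hf : ∀ v, ‖f v‖ ≤ 1) (s : ℝ)
    (hs : 1 < s) :
    Lfun F f s ≠ 0 ∧
      |Real.log ‖Lfun F f s‖ - ∑' v : HeightOneSpectrum (𝓞 F), (f v).re * nrm F v ^ (-s)|
        ≤ z_C2 F := by
  have hP := z_tendsto_Lfun F f hf s hs
  have hA : Tendsto (fun T : Finset (HeightOneSpectrum (𝓞 F)) =>
      ∑ v ∈ T, (f v).re * nrm F v ^ (-s)) atTop
      (𝓝 (∑' v : HeightOneSpectrum (𝓞 F), (f v).re * nrm F v ^ (-s))) := by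
    have := (z_summable_re F f hf s hs).hasSum
    rwa [HasSum, SummationFilter.unconditional_filter] at this
  have hfin := z_finite_log_bound F f hf s hs.le
  set A := ∑' v : HeightOneSpectrum (𝓞 F), (f v).re * nrm F v ^ (-s) with hAdef
  have hhalf : ∀ v, ‖f v * ((nrm F v ^ (-s) : ℝ) : ℂ)‖ ≤ 1 / 2 := fun v =>
    (z_norm_term_le F f hf s v).trans (z_nrm_rpow_le_half F v s hs.le)
  -- lower bound for the norms of the partial products
  have hlow : ∀ᶠ T : Finset (HeightOneSpectrum (𝓞 F)) in atTop,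
      Real.exp (A - 1 - z_C2 F) ≤ ‖∏ v ∈ T, (1 - f v * ((nrm F v ^ (-s) : ℝ) : ℂ))⁻¹‖ := by
    have h1 : ∀ᶠ T : Finset (HeightOneSpectrum (𝓞 F)) in atTop,
        A - 1 < ∑ v ∈ T, (f v).re * nrm F v ^ (-s) :=
      hA.eventually (lt_mem_nhds (by linarith))
    filter_upwards [h1] with T hT
    have h2 := hfin T
    have h3 : 0 < ‖∏ v ∈ T, (1 - f v * ((nrm F v ^ (-s) : ℝ) : ℂ))⁻¹‖ := by
      rw [norm_pos_iff, Finset.prod_ne_zero_iff]
      exact fun v _ => z_one_sub_ne_zero (hhalf v)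
    have h4 := (abs_le.mp h2).1
    rw [← Real.le_log_iff_exp_le h3]
    linarith
  have hnorm : Tendsto (fun T : Finset (HeightOneSpectrum (𝓞 F)) =>
      ‖∏ v ∈ T, (1 - f v * ((nrm F v ^ (-s) : ℝ) : ℂ))⁻¹‖) atTop (𝓝 ‖Lfun F f s‖) := hP.norm
  have hpos : 0 < ‖Lfun F f s‖ :=
    lt_of_lt_of_le (Real.exp_pos _) (ge_of_tendsto hnorm hlow)
  refine ⟨norm_pos_iff.mp hpos, ?_⟩
  have hlog : Tendsto (fun T : Finset (HeightOneSpectrum (𝓞 F)) =>
      Real.log ‖∏ v ∈ T, (1 - f v * ((nrm F v ^ (-s) : ℝ) : ℂ))⁻¹‖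
        - ∑ v ∈ T, (f v).re * nrm F v ^ (-s)) atTop (𝓝 (Real.log ‖Lfun F f s‖ - A)) :=
    ((Real.continuousAt_log hpos.ne').tendsto.comp hnorm).sub hA
  exact le_of_tendsto hlog.abs (Eventually.of_forall hfin)

/-- EP: Euler product in logarithmic form, uniform in `f` -/
theorem Z_log_Lfun : ∃ C : ℝ, ∀ f : HeightOneSpectrum (𝓞 F) → ℂ, (∀ v, ‖f v‖ ≤ 1) →
    ∀ s : ℝ, 1 < s → s < 2 →
      Lfun F f s ≠ 0 ∧
      |Real.log ‖Lfun F f s‖ - ∑' v : HeightOneSpectrum (𝓞 F), (f v).re * nrm F v ^ (-s)| ≤ C :=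
  ⟨z_C2 F, fun f hf s hs _ => z_log_Lfun F f hf s hs⟩

/-! ### The prime sum `∑_v N(v)^(-s)` -/

theorem z_absNorm_rpow_anti (a : Ideal (𝓞 F)) {s t : ℝ} (hs : 0 < s) (hst : s ≤ t) :
    (Ideal.absNorm a : ℝ) ^ (-t) ≤ (Ideal.absNorm a : ℝ) ^ (-s) := by
  rcases Nat.eq_zero_or_pos (Ideal.absNorm a) with h | h
  · rw [h, Nat.cast_zero, Real.zero_rpow (by linarith), Real.zero_rpow (by linarith)]
  · exact Real.rpow_le_rpow_of_exponent_le (by exact_mod_cast h) (by linarith)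

theorem z_zeta_anti {s t : ℝ} (hs : 1 < s) (hst : s ≤ t) : z_zeta F t ≤ z_zeta F s :=
  (z_summable_ideals F t (by linarith)).tsum_le_tsum
    (fun a => z_absNorm_rpow_anti F a (by linarith) hst) (z_summable_ideals F s hs)

theorem z_one_le_zeta {s : ℝ} (hs : 1 < s) : 1 ≤ z_zeta F s := by
  have h := (z_summable_ideals F s hs).le_tsum (⊤ : Ideal (𝓞 F))
    (fun a _ => Real.rpow_nonneg (Nat.cast_nonneg _) _)
  rw [Ideal.absNorm_top, Nat.cast_one, Real.one_rpow] at h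
  exact h

theorem z_Lfun_one (s : ℝ) (hs : 1 < s) :
    Lfun F (fun _ => 1) s = ((z_zeta F s : ℝ) : ℂ) := by
  rw [Lfun, z_zeta, Complex.ofReal_tsum]
  refine tsum_congr fun a => ?_
  by_cases ha : a = ⊥
  · rw [ha, ext_bot, zero_mul, Ideal.absNorm_bot, Nat.cast_zero, Real.zero_rpow (by linarith),
      Complex.ofReal_zero]
  · rw [ext_fun_one F ha, one_mul]

theorem z_log_zeta_bound : ∃ C : ℝ, ∀ s : ℝ, 1 < s → s < 2 →
    |Real.log (z_zeta F s) - Real.log (1 / (s - 1))| ≤ C := by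
  have hρ := NumberField.dedekindZeta_residue_pos F
  set ρ := NumberField.dedekindZeta_residue F with hρdef
  have h1 : ∀ᶠ s : ℝ in 𝓝[>] 1, (s - 1) * z_zeta F s ∈ Set.Ioo (ρ / 2) (2 * ρ) :=
    (z_tendsto_zeta F).eventually (Ioo_mem_nhds (by linarith) (by linarith))
  obtain ⟨u, hu1, hu⟩ := mem_nhdsGT_iff_exists_Ioo_subset.mp h1
  have hu1' : (1 : ℝ) < u := hu1
  set u' := min u 2 with hu'def
  have hu'1 : 1 < u' := lt_min hu1' (by norm_num)
  have hu'2 : u' ≤ 2 := min_le_right _ _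
  set s₀ := (1 + u') / 2 with hs₀def
  have hs₀1 : 1 < s₀ := by rw [hs₀def]; linarith
  have hs₀u : s₀ < u' := by rw [hs₀def]; linarith
  refine ⟨(|Real.log (ρ / 2)| + |Real.log (2 * ρ)|) +
    (Real.log (z_zeta F s₀) + Real.log (1 / (u' - 1))), fun s hs1 hs2 => ?_⟩
  have hζ1 := z_one_le_zeta F hs1
  have hζs₀ := z_one_le_zeta F hs₀1
  have hl0 : 0 ≤ Real.log (z_zeta F s₀) := Real.log_nonneg hζs₀
  have hl1 : 0 ≤ Real.log (1 / (u' - 1)) := by
    refine Real.log_nonneg ?_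
    rw [le_div_iff₀ (by linarith)]
    linarith
  have hsub : Real.log (1 / (s - 1)) = - Real.log (s - 1) := by
    rw [one_div, Real.log_inv]
  by_cases hsu : s < u'
  · have hmem : (s - 1) * z_zeta F s ∈ Set.Ioo (ρ / 2) (2 * ρ) :=
      hu ⟨hs1, lt_of_lt_of_le hsu (min_le_left _ _)⟩
    have hlog : Real.log ((s - 1) * z_zeta F s) = Real.log (z_zeta F s) - Real.log (1 / (s - 1)) := by
      rw [Real.log_mul (by linarith) (by linarith), hsub]
      ring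
    rw [← hlog]
    have hlo : Real.log (ρ / 2) ≤ Real.log ((s - 1) * z_zeta F s) :=
      Real.log_le_log (by linarith) hmem.1.le
    have hhi : Real.log ((s - 1) * z_zeta F s) ≤ Real.log (2 * ρ) :=
      Real.log_le_log (lt_trans (by linarith) hmem.1) hmem.2.le
    rw [abs_le]
    constructor
    · have := neg_abs_le (Real.log (ρ / 2))
      have := abs_nonneg (Real.log (2 * ρ))
      linarith
    · have := le_abs_self (Real.log (2 * ρ))
      have := abs_nonneg (Real.log (ρ / 2))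
      linarith
  · have hsu' : u' ≤ s := not_lt.mp hsu
    have h2 : z_zeta F s ≤ z_zeta F s₀ := z_zeta_anti F hs₀1 (by linarith)
    have h3 : Real.log (z_zeta F s) ≤ Real.log (z_zeta F s₀) := Real.log_le_log (by linarith) h2
    have h4 : 0 ≤ Real.log (z_zeta F s) := Real.log_nonneg hζ1
    have h5 : Real.log (1 / (s - 1)) ≤ Real.log (1 / (u' - 1)) := by
      refine Real.log_le_log (by rw [one_div]; exact inv_pos.mpr (by linarith)) ?_
      exact one_div_le_one_div_of_le (by linarith) (by linarith)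
    have h6 : 0 ≤ Real.log (1 / (s - 1)) := by
      refine Real.log_nonneg ?_
      rw [le_div_iff₀ (by linarith)]
      linarith
    have := abs_nonneg (Real.log (ρ / 2))
    have := abs_nonneg (Real.log (2 * ρ))
    rw [abs_le]
    constructor <;> linarith

/-- Z1 -/
theorem Z_prime_sum : ∃ C : ℝ, ∀ s : ℝ, 1 < s → s < 2 →
    |∑' v : HeightOneSpectrum (𝓞 F), nrm F v ^ (-s) - Real.log (1 / (s - 1))| ≤ C := by
  obtain ⟨C, hC⟩ := z_log_zeta_bound F
  refine ⟨z_C2 F + C, fun s hs1 hs2 => ?_⟩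
  have h1 := (z_log_Lfun F (fun _ => 1) (fun _ => by simp) s hs1).2
  rw [z_Lfun_one F s hs1, Complex.norm_real, Real.norm_eq_abs, Real.log_abs] at h1
  simp only [Complex.one_re, one_mul] at h1
  have h2 := hC s hs1 hs2
  have h3 : ∑' v : HeightOneSpectrum (𝓞 F), nrm F v ^ (-s) - Real.log (1 / (s - 1))
      = -(Real.log (z_zeta F s) - ∑' v : HeightOneSpectrum (𝓞 F), nrm F v ^ (-s))
        + (Real.log (z_zeta F s) - Real.log (1 / (s - 1))) := by ring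
  rw [h3]
  refine (abs_add_le _ _).trans ?_
  rw [abs_neg]
  exact add_le_add h1 h2

end zeta

end C14
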