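import Fermat.Agent.Lib.C14_RC_Book
import Fermat.Agent.Lib.C14_Z_Zeta

/-!
# RC: the growth bound (G) of a unit-orbit weight is automatic

`rc_growth`: (W1) `W ≥ 0`, (W2) `W s 0 = 0`, (W3) unit-orbit sums `= torsionOrder * N(a)^(-s)`
imply `Summable (W s)` and `∑' a, W s a ≤ C/(s-1)` on `(1, 2]` (via `ζ_F(s) ≤ C/(s-1)`).
`rc_bdd_of_exists_weight4`: the blueprint's `RC_bdd` from a weight with (W1)–(W3) and the
translation estimate (T) only.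
-/

set_option autoImplicit false
set_option linter.unusedSectionVars false

open scoped NumberField nonZeroDivisors

namespace C14

section
variable (F : Type*) [Field F] [NumberField F]


/-- `ζ_F(s) ≤ C/(s-1)` on `(1, 2]` -/
theorem rc_zeta_le : ∃ C : ℝ, ∀ s : ℝ, 1 < s → s ≤ 2 → z_zeta F s ≤ C / (s - 1) := by
  obtain ⟨C, hC⟩ := z_log_zeta_bound F
  have key : ∀ s : ℝ, 1 < s → s < 2 → z_zeta F s ≤ Real.exp C / (s - 1) := by
    intro s hs1 hs2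
    have h1 := (abs_le.mp (hC s hs1 hs2)).2
    have hζ : 0 < z_zeta F s := lt_of_lt_of_le one_pos (z_one_le_zeta F hs1)
    have hs0 : 0 < s - 1 := by linarith
    have h2 : Real.log (z_zeta F s) ≤ Real.log (Real.exp C / (s - 1)) := by
      rw [Real.log_div (Real.exp_pos C).ne' hs0.ne', Real.log_exp]
      rw [one_div, Real.log_inv] at h1
      linarith
    exact (Real.log_le_log_iff hζ (div_pos (Real.exp_pos C) hs0)).mp h2
  refine ⟨2 * Real.exp C, fun s hs1 hs2 => ?_⟩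
  have hs0 : 0 < s - 1 := by linarith
  rcases lt_or_eq_of_le hs2 with h | h
  · refine (key s hs1 h).trans ?_
    exact div_le_div_of_nonneg_right (by linarith [Real.exp_pos C]) hs0.le
  · subst h
    have h3 := key (3 / 2) (by norm_num) (by norm_num)
    have h4 : z_zeta F 2 ≤ z_zeta F (3 / 2) := z_zeta_anti F (by norm_num) (by norm_num)
    have h5 : Real.exp C / (3 / 2 - 1) = 2 * Real.exp C / (2 - 1) := by ring
    rw [← h5]; exact h4.trans h3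

/-- the bijection `(nonzero principal ideals) × units ≃ nonzero elements` -/
theorem rc_gen_equiv :
    ∃ (γ : {I : Ideal (𝓞 F) // I ≠ ⊥ ∧ I.IsPrincipal} → 𝓞 F)
      (e : {I : Ideal (𝓞 F) // I ≠ ⊥ ∧ I.IsPrincipal} × (𝓞 F)ˣ ≃ {x : 𝓞 F // x ≠ 0}),
      (∀ I, Ideal.span {γ I} = (I : Ideal (𝓞 F))) ∧ (∀ I, γ I ≠ 0) ∧
        ∀ p, ((e p : {x : 𝓞 F // x ≠ 0}) : 𝓞 F) = (p.2 : 𝓞 F) * γ p.1 := by
  classical
  set P := {I : Ideal (𝓞 F) // I ≠ ⊥ ∧ I.IsPrincipal} with hP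
  have hgen : ∀ I : P, ∃ γ : 𝓞 F, Ideal.span {γ} = (I : Ideal (𝓞 F)) := by
    intro I
    obtain ⟨γ, hγ⟩ := I.2.2
    exact ⟨γ, by rw [hγ]⟩
  choose γ hγ using hgen
  have hγ0 : ∀ I : P, γ I ≠ 0 := by
    intro I h0
    have := hγ I
    rw [h0, Ideal.span_singleton_eq_bot.mpr rfl] at this
    exact I.2.1 this.symm
  let φ : P × (𝓞 F)ˣ → {x : 𝓞 F // x ≠ 0} := fun p => ⟨(p.2 : 𝓞 F) * γ p.1,
    mul_ne_zero (Units.ne_zero _) (hγ0 _)⟩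
  have hφspan : ∀ p : P × (𝓞 F)ˣ,
      Ideal.span {((φ p : {x : 𝓞 F // x ≠ 0}) : 𝓞 F)} = (p.1 : Ideal (𝓞 F)) := by
    intro p
    rw [← hγ p.1]
    exact Ideal.span_singleton_eq_span_singleton.mpr
      ⟨p.2⁻¹, by show (p.2 : 𝓞 F) * γ p.1 * ((p.2⁻¹ : (𝓞 F)ˣ) : 𝓞 F) = γ p.1
                 rw [mul_comm, ← mul_assoc, Units.inv_mul, one_mul]⟩
  have hφbij : Function.Bijective φ := by
    constructor
    · rintro ⟨I, u⟩ ⟨I', u'⟩ h
      have h1 : (I : Ideal (𝓞 F)) = (I' : Ideal (𝓞 F)) := by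
        rw [← hφspan (I, u), ← hφspan (I', u'), h]
      have h2 : I = I' := Subtype.ext h1
      subst h2
      have h3 : (u : 𝓞 F) * γ I = (u' : 𝓞 F) * γ I :=
        congrArg (fun t : {x : 𝓞 F // x ≠ 0} => (t : 𝓞 F)) h
      have h4 : (u : 𝓞 F) = u' := mul_right_cancel₀ (hγ0 I) h3
      rw [Units.ext h4]
    · rintro ⟨x, hx0⟩
      have hI0 : Ideal.span {x} ≠ ⊥ := by
        rw [Ne, Ideal.span_singleton_eq_bot]; exact hx0
      let I' : P := ⟨Ideal.span {x}, hI0, ⟨x, rfl⟩⟩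
      have h2 : Ideal.span {γ I'} = Ideal.span {x} := hγ I'
      obtain ⟨u, hu⟩ := Ideal.span_singleton_eq_span_singleton.mp h2
      refine ⟨(I', u), Subtype.ext ?_⟩
      show (u : 𝓞 F) * γ I' = x
      rw [mul_comm]; exact hu
  exact ⟨γ, Equiv.ofBijective φ hφbij, hγ, hγ0, fun p => rfl⟩

/-- **(G) from (W1)–(W3)**: the growth bound for a unit-orbit weight follows from the orbit sums
and the bound `ζ_F(s) ≤ C/(s-1)`. -/
theorem rc_growth (W : ℝ → 𝓞 F → ℝ) (hW0 : ∀ s a, 0 ≤ W s a) (hWz : ∀ s, W s 0 = 0)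
    (hWu : ∀ s (a : 𝓞 F), a ≠ 0 → HasSum (fun u : (𝓞 F)ˣ => W s ((u : 𝓞 F) * a))
      ((NumberField.Units.torsionOrder F : ℝ) * (Ideal.absNorm (Ideal.span {a}) : ℝ) ^ (-s))) :
    ∃ C : ℝ, ∀ s : ℝ, 1 < s → s ≤ 2 → Summable (W s) ∧ ∑' a, W s a ≤ C / (s - 1) := by
  classical
  obtain ⟨C, hC⟩ := rc_zeta_le F
  obtain ⟨γ, e, hγ, hγ0, he⟩ := rc_gen_equiv F
  set w : ℝ := (NumberField.Units.torsionOrder F : ℝ) with hw
  have hw0 : 0 ≤ w := Nat.cast_nonneg _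
  refine ⟨w * C, fun s hs1 hs2 => ?_⟩
  have hinner : ∀ I : {I : Ideal (𝓞 F) // I ≠ ⊥ ∧ I.IsPrincipal}, HasSum (fun u : (𝓞 F)ˣ => W s ((u : 𝓞 F) * γ I))
      (w * (Ideal.absNorm (I : Ideal (𝓞 F)) : ℝ) ^ (-s)) := by
    intro I
    have := hWu s (γ I) (hγ0 I)
    rwa [hγ I] at this
  have hzs := z_summable_ideals F s hs1
  have hsP : Summable (fun I : {I : Ideal (𝓞 F) // I ≠ ⊥ ∧ I.IsPrincipal} => w * (Ideal.absNorm (I : Ideal (𝓞 F)) : ℝ) ^ (-s)) :=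
    (hzs.subtype _).mul_left w
  have hprod : Summable (fun p : {I : Ideal (𝓞 F) // I ≠ ⊥ ∧ I.IsPrincipal} × (𝓞 F)ˣ => W s ((p.2 : 𝓞 F) * γ p.1)) := by
    rw [summable_prod_of_nonneg (fun p => hW0 s _)]
    refine ⟨fun I => (hinner I).summable, ?_⟩
    refine hsP.congr (fun I => ?_)
    exact (hinner I).tsum_eq.symm
  have hT : Summable (fun x : {x : 𝓞 F // x ≠ 0} => W s x) := by
    refine (e.summable_iff (f := fun x : {x : 𝓞 F // x ≠ 0} => W s x)).mp ?_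
    refine hprod.congr (fun p => ?_)
    show W s _ = W s ((e p : {x : 𝓞 F // x ≠ 0}) : 𝓞 F)
    rw [he]
  have hind : ({x : 𝓞 F | x ≠ 0} : Set (𝓞 F)).indicator (W s) = W s := by
    funext x
    by_cases hx : x = 0
    · subst hx; simp [hWz]
    · simp [Set.indicator, hx]
  have hWs : Summable (W s) := by
    rw [← hind]
    exact summable_subtype_iff_indicator.mp hT
  refine ⟨hWs, ?_⟩
  have e1 : ∑' a, W s a = ∑' x : {x : 𝓞 F // x ≠ 0}, W s x := by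
    have := tsum_subtype ({x : 𝓞 F | x ≠ 0} : Set (𝓞 F)) (W s)
    rw [hind] at this
    exact this.symm
  have e2 : ∑' x : {x : 𝓞 F // x ≠ 0}, W s x
      = ∑' p : {I : Ideal (𝓞 F) // I ≠ ⊥ ∧ I.IsPrincipal} × (𝓞 F)ˣ, W s ((p.2 : 𝓞 F) * γ p.1) := by
    rw [← e.tsum_eq (fun x : {x : 𝓞 F // x ≠ 0} => W s x)]
    refine tsum_congr (fun p => ?_)
    rw [he]
  have e3 : ∑' p : {I : Ideal (𝓞 F) // I ≠ ⊥ ∧ I.IsPrincipal} × (𝓞 F)ˣ, W s ((p.2 : 𝓞 F) * γ p.1)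
      = ∑' I : {I : Ideal (𝓞 F) // I ≠ ⊥ ∧ I.IsPrincipal}, w * (Ideal.absNorm (I : Ideal (𝓞 F)) : ℝ) ^ (-s) := by
    rw [hprod.tsum_prod]
    exact tsum_congr (fun I => (hinner I).tsum_eq)
  rw [e1, e2, e3, tsum_mul_left, mul_div_assoc]
  refine mul_le_mul_of_nonneg_left ?_ hw0
  refine le_trans ?_ (hC s hs1 hs2)
  exact Summable.tsum_subtype_le _ _ (fun a => Real.rpow_nonneg (Nat.cast_nonneg _) _) hzs

open IsDedekindDomain in
/-- **RC in the blueprint form, from a weight with (W1), (W2), (W3), (T)** (growth is automatic). -/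
theorem rc_bdd_of_exists_weight4
    (hW : ∃ W : ℝ → 𝓞 F → ℝ, (∀ s a, 0 ≤ W s a) ∧ (∀ s, W s 0 = 0) ∧
      (∀ s (a : 𝓞 F), a ≠ 0 → HasSum (fun u : (𝓞 F)ˣ => W s ((u : 𝓞 F) * a))
        ((NumberField.Units.torsionOrder F : ℝ) *
          (Ideal.absNorm (Ideal.span {a}) : ℝ) ^ (-s))) ∧
      (∀ x0 : 𝓞 F, ∃ C : ℝ, ∀ s : ℝ, 1 ≤ s → s ≤ 2 →
        Summable (fun a => |W s (a + x0) - W s a|) ∧ ∑' a, |W s (a + x0) - W s a| ≤ C))
    (m : ℕ) (hm : 0 < m) (f : HeightOneSpectrum (𝓞 F) → ℂ)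
    (hf0 : ∀ v, (m : 𝓞 F) ∈ v.asIdeal → f v = 0)
    (hf1 : ∀ v, (m : 𝓞 F) ∉ v.asIdeal → ‖f v‖ = 1)
    (hray : ∀ α : 𝓞 F, α ≠ 0 → α - 1 ∈ Ideal.span {(m : 𝓞 F)} →
      ext F f (Ideal.span {α}) = 1)
    (hnt : ∃ v, (m : 𝓞 F) ∉ v.asIdeal ∧ f v ≠ 1) :
    ∃ C : ℝ, ∀ s : ℝ, 1 < s → s < 2 → ‖Lfun F f s‖ ≤ C := by
  obtain ⟨W, hW0, hWz, hWu, hWt⟩ := hW
  exact rc_bdd_of_weight F m hm f hf0 hf1 hray hnt W hW0 hWz hWu hWt (rc_growth F W hW0 hWz hWu)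

end

end C14
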