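/-
C14 (S14 route), leaf ST: Stickelberger-lite for `ℚ(ζ_p)`.

For a prime `ℓ ≠ p` and a ring homomorphism `φ : 𝓞 K → ZMod ℓ` (a degree one prime `v` of
`K = ℚ(ζ_p)`), the Jacobi sum `J = J(χ, χ)` of the character `χ x ≡ x ^ ((ℓ - 1) / p)` mod `v`
satisfies `J * J' = ℓ` and `φ (σ_t J) = 0 ↔ 2 * t < p` (`st_core`); hence
`(J) = ∏_{1 ≤ t ≤ (p-1)/2} σ_t⁻¹(v)` (`st_span_eq`), which gives the blueprint leaf `ST_jacobi`.
Also `sig_spec` (`sig K p t ζ = ζ ^ t`).
-/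
import Fermat.Agent.Lib.C14_Ext

set_option autoImplicit false

open NumberField IsCyclotomicExtension.Rat

namespace C14

section PowSum

variable {ℓ : ℕ} [hℓ : Fact ℓ.Prime]

/-- Power sums over a prime field. -/
theorem st_sum_pow (k : ℕ) (hk : k ≠ 0) :
    (∑ x : ZMod ℓ, x ^ k) = if ℓ - 1 ∣ k then -1 else 0 := by
  classical
  have h1 := FiniteField.sum_pow_units (ZMod ℓ) k
  rw [ZMod.card] at h1
  rw [← h1]
  let φ : (ZMod ℓ)ˣ ↪ ZMod ℓ := ⟨fun x ↦ x, Units.val_injective⟩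
  have hmap : Finset.univ.map φ = Finset.univ \ {0} := by
    ext x
    simp only [Finset.mem_map, Finset.mem_univ, Function.Embedding.coeFn_mk, true_and,
      Finset.mem_sdiff, Finset.mem_singleton, φ]
    exact isUnit_iff_ne_zero
  calc ∑ x : ZMod ℓ, x ^ k = ∑ x ∈ Finset.univ \ {(0 : ZMod ℓ)}, x ^ k := by
        rw [← Finset.sum_sdiff ({0} : Finset (ZMod ℓ)).subset_univ, Finset.sum_singleton,
          zero_pow hk, add_zero]
    _ = ∑ x : (ZMod ℓ)ˣ, ((x : ZMod ℓ) ^ k) := by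
        rw [← hmap, Finset.sum_map]; rfl

theorem st_choose_ne_zero (a j : ℕ) (ha : a < ℓ) (hj : j ≤ a) :
    (a.choose j : ZMod ℓ) ≠ 0 := by
  intro h
  rw [ZMod.natCast_eq_zero_iff] at h
  have h2 : ℓ ∣ a.factorial := by
    rw [← Nat.choose_mul_factorial_mul_factorial hj]
    exact Dvd.dvd.mul_right (Dvd.dvd.mul_right h _) _
  rw [hℓ.out.dvd_factorial] at h2
  omega

/-- The key power sum: `∑ x^a (1-x)^a` vanishes in `𝔽_ℓ` iff `2a < ℓ - 1` (for `1 ≤ a < ℓ - 1`). -/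
theorem st_powsum (a : ℕ) (ha : 1 ≤ a) (ha' : a < ℓ - 1) :
    (∑ x : ZMod ℓ, x ^ a * (1 - x) ^ a = 0) ↔ 2 * a < ℓ - 1 := by
  have hexp : ∀ x : ZMod ℓ, x ^ a * (1 - x) ^ a
      = ∑ j ∈ Finset.range (a + 1), ((-1) ^ j * (a.choose j : ZMod ℓ)) * x ^ (a + j) := by
    intro x
    have h1 : (1 - x) = (-x) + 1 := by ring
    rw [h1, add_pow, Finset.mul_sum]
    refine Finset.sum_congr rfl fun j _ => ?_
    rw [one_pow, neg_pow]; ring
  simp_rw [hexp]
  rw [Finset.sum_comm]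
  simp_rw [← Finset.mul_sum]
  have hS : ∀ j ∈ Finset.range (a + 1),
      ((-1) ^ j * (a.choose j : ZMod ℓ)) * ∑ x : ZMod ℓ, x ^ (a + j)
        = if j = ℓ - 1 - a then -((-1) ^ j * (a.choose j : ZMod ℓ)) else 0 := by
    intro j hj
    have hj' : j ≤ a := by simpa [Nat.lt_succ_iff] using hj
    rw [st_sum_pow (a + j) (by omega)]
    have hiff : (ℓ - 1 ∣ a + j) ↔ j = ℓ - 1 - a := by
      constructor
      · rintro ⟨c, hc⟩
        have hc1 : c = 1 := by
          rcases c with _ | _ | c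
          · omega
          · rfl
          · exfalso
            have : (ℓ - 1) * (c + 1 + 1) ≥ (ℓ - 1) * 2 := Nat.mul_le_mul_left _ (by omega)
            omega
        rw [hc1, mul_one] at hc
        omega
      · intro h
        have : a + j = ℓ - 1 := by omega
        rw [this]
    by_cases hc : j = ℓ - 1 - a
    · rw [if_pos (hiff.mpr hc), if_pos hc]; ring
    · rw [if_neg (fun h => hc (hiff.mp h)), if_neg hc]; ring
  rw [Finset.sum_congr rfl hS, Finset.sum_ite_eq' (Finset.range (a + 1)) (ℓ - 1 - a)]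
  constructor
  · intro h
    by_contra hcon
    have hmem : ℓ - 1 - a ∈ Finset.range (a + 1) := by
      rw [Finset.mem_range]; omega
    rw [if_pos hmem, neg_eq_zero] at h
    rcases mul_eq_zero.mp h with h | h
    · exact absurd h (pow_ne_zero _ (neg_ne_zero.mpr one_ne_zero))
    · exact st_choose_ne_zero a _ (by omega) (by omega) h
  · intro h
    have hmem : ℓ - 1 - a ∉ Finset.range (a + 1) := by
      rw [Finset.mem_range]; omega
    rw [if_neg hmem]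

end PowSum

section Core

variable {p : ℕ} [hp : Fact p.Prime] {K : Type*} [Field K] [NumberField K]
  [hK : IsCyclotomicExtension {p} ℚ K] {ℓ : ℕ} [hℓ : Fact ℓ.Prime]

/-- the chosen primitive `p`-th root of unity in `𝓞 K`. -/
noncomputable def stZeta (p : ℕ) [Fact p.Prime] (K : Type*) [Field K] [NumberField K]
    [IsCyclotomicExtension {p} ℚ K] : 𝓞 K :=
  (IsCyclotomicExtension.zeta_spec p ℚ K).toInteger

theorem st_zeta_prim : IsPrimitiveRoot (stZeta p K) p :=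
  (IsCyclotomicExtension.zeta_spec p ℚ K).toInteger_isPrimitiveRoot

theorem st_zeta_prim' : IsPrimitiveRoot ((stZeta p K : 𝓞 K) : K) p :=
  IsCyclotomicExtension.zeta_spec p ℚ K

theorem st_prim_mod (φ : 𝓞 K →+* ZMod ℓ) (hℓp : ℓ ≠ p) :
    IsPrimitiveRoot (φ (stZeta p K)) p := by
  have hζ := st_zeta_prim (p := p) (K := K)
  have h1 : (φ (stZeta p K)) ^ p = 1 := by rw [← map_pow, hζ.pow_eq_one, map_one]
  have h2 : φ (stZeta p K) ≠ 1 := by
    intro h
    have hs := hζ.geom_sum_eq_zero hp.out.one_lt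
    have h3 := congrArg φ hs
    rw [map_sum] at h3
    simp only [map_pow, h, one_pow, Finset.sum_const, Finset.card_range, nsmul_eq_mul, mul_one,
      map_zero] at h3
    rw [ZMod.natCast_eq_zero_iff] at h3
    exact hℓp ((Nat.prime_dvd_prime_iff_eq hℓ.out hp.out).mp h3)
  have h3 : orderOf (φ (stZeta p K)) = p := orderOf_eq_prime h1 h2
  have h4 := IsPrimitiveRoot.orderOf (φ (stZeta p K))
  rwa [h3] at h4

theorem st_p_dvd (φ : 𝓞 K →+* ZMod ℓ) (hℓp : ℓ ≠ p) : p ∣ ℓ - 1 := by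
  have hξ := st_prim_mod φ hℓp
  apply hξ.dvd_of_pow_eq_one
  apply ZMod.pow_card_sub_one_eq_one
  intro h0
  have := hξ.pow_eq_one
  rw [h0, zero_pow hp.out.ne_zero] at this
  exact zero_ne_one this

theorem st_exists_char (φ : 𝓞 K →+* ZMod ℓ) (hℓp : ℓ ≠ p) (hp3 : 3 ≤ p) :
    ∃ χ : MulChar (ZMod ℓ) (𝓞 K),
      (∀ x : ZMod ℓ, φ (χ x) = x ^ ((ℓ - 1) / p)) ∧
      (∀ x : ZMod ℓ, χ x = 0 ∨ (χ x) ^ p = 1) ∧
      χ ≠ 1 ∧ χ * χ ≠ 1 := by
  classical
  have hζ : IsPrimitiveRoot (stZeta p K) p := st_zeta_prim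
  have hξ : IsPrimitiveRoot (φ (stZeta p K)) p := st_prim_mod φ hℓp
  have hdvd : p ∣ ℓ - 1 := st_p_dvd φ hℓp
  obtain ⟨d, hpd⟩ := hdvd
  have hdiv : (ℓ - 1) / p = d := by rw [hpd]; exact Nat.mul_div_cancel_left d hp.out.pos
  rw [hdiv]
  have hℓ2 := hℓ.out.two_le
  have hd1 : 1 ≤ d := by
    rcases Nat.eq_zero_or_pos d with h | h
    · rw [h, mul_zero] at hpd; omega
    · exact h
  obtain ⟨g, hg⟩ := IsCyclic.exists_generator (α := (ZMod ℓ)ˣ)
  have hgord : orderOf g = ℓ - 1 := by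
    rw [orderOf_eq_card_of_forall_mem_zpowers hg, Nat.card_eq_fintype_card, ZMod.card_units]
  have hgd : ((g : ZMod ℓ) ^ d) ^ p = 1 := by
    rw [← pow_mul, mul_comm, ← hpd]; exact ZMod.pow_card_sub_one_eq_one (Units.ne_zero g)
  obtain ⟨a, ha, hag⟩ := hξ.eq_pow_of_pow_eq_one hgd
  have hζu : IsUnit (stZeta p K) := hζ.isUnit hp.out.ne_zero
  let u : (𝓞 K)ˣ := hζu.unit ^ a
  have huval : (u : 𝓞 K) = stZeta p K ^ a := by simp [u]
  have hu : u ∈ rootsOfUnity (Fintype.card (ZMod ℓ)ˣ) (𝓞 K) := by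
    rw [mem_rootsOfUnity, ZMod.card_units, hpd]
    ext
    rw [Units.val_pow_eq_pow_val, huval, ← pow_mul, mul_comm a, mul_assoc, pow_mul,
      hζ.pow_eq_one, one_pow, Units.val_one]
  let χ : MulChar (ZMod ℓ) (𝓞 K) := MulChar.ofRootOfUnity hu hg
  have hχg : χ g = u := MulChar.ofRootOfUnity_spec hu hg
  have key : ∀ x : (ZMod ℓ)ˣ, ∃ k : ℕ, χ x = stZeta p K ^ (a * k) ∧
      ((x : ZMod ℓ)) ^ d = (φ (stZeta p K)) ^ (a * k) := by
    intro x
    obtain ⟨k, hk⟩ := mem_powers_iff_mem_zpowers.mpr (hg x)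
    refine ⟨k, ?_, ?_⟩
    · rw [← hk, Units.val_pow_eq_pow_val, map_pow, hχg, huval, pow_mul]
    · rw [← hk, Units.val_pow_eq_pow_val, pow_mul, hag, ← pow_mul, ← pow_mul, mul_comm]
  refine ⟨χ, ?_, ?_, ?_, ?_⟩
  · intro x
    by_cases hx : x = 0
    · subst hx; rw [MulChar.map_zero, map_zero, zero_pow (by omega)]
    · obtain ⟨k, hk1, hk2⟩ := key (Units.mk0 x hx)
      simp only [Units.val_mk0] at hk1 hk2
      rw [hk1, map_pow, hk2]
  · intro x
    by_cases hx : x = 0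
    · left; subst hx; exact MulChar.map_zero χ
    · right
      obtain ⟨k, hk1, _⟩ := key (Units.mk0 x hx)
      simp only [Units.val_mk0] at hk1
      rw [hk1, ← pow_mul, mul_comm, pow_mul, hζ.pow_eq_one, one_pow]
  · intro h
    have h1 : χ g = 1 := by rw [h]; exact MulChar.one_apply_coe g
    rw [hχg, huval] at h1
    have h2 : (g : ZMod ℓ) ^ d = 1 := by rw [← hag, ← map_pow, h1, map_one]
    have h3 : g ^ d = 1 := by ext; rw [Units.val_pow_eq_pow_val, h2, Units.val_one]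
    have h4 := orderOf_dvd_of_pow_eq_one h3
    rw [hgord, hpd] at h4
    have h5 := Nat.le_of_dvd (by omega) h4
    have : 3 * d ≤ p * d := Nat.mul_le_mul_right d hp3
    omega
  · intro h
    have h1 : χ g * χ g = 1 := by rw [← MulChar.mul_apply, h]; exact MulChar.one_apply_coe g
    rw [hχg, huval] at h1
    have h2 : (g : ZMod ℓ) ^ d * (g : ZMod ℓ) ^ d = 1 := by
      rw [← hag, ← map_pow, ← map_mul, h1, map_one]
    have h3 : g ^ (2 * d) = 1 := by
      ext; rw [Units.val_pow_eq_pow_val, two_mul, pow_add, h2, Units.val_one]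
    have h4 := orderOf_dvd_of_pow_eq_one h3
    rw [hgord, hpd] at h4
    have h5 := Nat.le_of_dvd (by omega) h4
    have : 3 * d ≤ p * d := Nat.mul_le_mul_right d hp3
    omega

/-- an automorphism sending `ζ` to `ζ ^ t` acts as `y ↦ y ^ t` on `p`-th roots of unity. -/
theorem st_map_root (τ : K ≃ₐ[ℚ] K) (t : ℕ) (ht : t ≠ 0)
    (hτ : τ (stZeta p K : K) = (stZeta p K : K) ^ t) (y : 𝓞 K) (hy : y = 0 ∨ y ^ p = 1) :
    RingOfIntegers.mapRingEquiv (τ : K ≃+* K) y = y ^ t := by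
  rcases hy with rfl | hy
  · rw [map_zero, zero_pow ht]
  · obtain ⟨i, -, rfl⟩ := (st_zeta_prim (p := p) (K := K)).eq_pow_of_pow_eq_one hy
    apply RingOfIntegers.coe_injective
    change τ (algebraMap (𝓞 K) K (stZeta p K ^ i)) = algebraMap (𝓞 K) K ((stZeta p K ^ i) ^ t)
    rw [map_pow, map_pow, map_pow, map_pow, ← RingOfIntegers.coe_eq_algebraMap, hτ, ← pow_mul,
      ← pow_mul, mul_comm]

omit hK in
theorem st_inv_apply (χ : MulChar (ZMod ℓ) (𝓞 K)) (hχ2 : ∀ x : ZMod ℓ, χ x = 0 ∨ (χ x) ^ p = 1)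
    (y : ZMod ℓ) : χ⁻¹ y = (χ y) ^ (p - 1) := by
  have hp2 := hp.out.two_le
  by_cases hy : y = 0
  · subst hy
    rw [MulChar.map_zero, MulChar.map_zero, zero_pow (by omega)]
  · have hu : IsUnit y := isUnit_iff_ne_zero.mpr hy
    have h1 : χ⁻¹ y * χ y = 1 := by
      rw [← MulChar.mul_apply, MulChar.inv_mul, MulChar.one_apply hu]
    rcases hχ2 y with h0 | h0
    · rw [h0, mul_zero] at h1; exact absurd h1 zero_ne_one
    · have h2 : (χ y) ^ p = χ y * (χ y) ^ (p - 1) := by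
        rw [← pow_succ']; congr 1; omega
      calc χ⁻¹ y = χ⁻¹ y * (χ y) ^ p := by rw [h0, mul_one]
        _ = (χ⁻¹ y * χ y) * (χ y) ^ (p - 1) := by rw [h2, mul_assoc]
        _ = (χ y) ^ (p - 1) := by rw [h1, one_mul]

/-- The Jacobi sum core: `J * J' = ℓ`, `φ (τ_t J) = 0 ↔ 2 t < p`, and `J' = τ_{-1} J`. -/
theorem st_core (φ : 𝓞 K →+* ZMod ℓ) (hℓp : ℓ ≠ p) (hp3 : 3 ≤ p) :
    ∃ J J' : 𝓞 K, J * J' = (ℓ : 𝓞 K) ∧
      (∀ (τ : K ≃ₐ[ℚ] K) (t : ℕ), 1 ≤ t → t < p →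
        τ (stZeta p K : K) = (stZeta p K : K) ^ t →
        (φ (RingOfIntegers.mapRingEquiv (τ : K ≃+* K) J) = 0 ↔ 2 * t < p)) ∧
      (∀ (τ : K ≃ₐ[ℚ] K), τ (stZeta p K : K) = (stZeta p K : K) ^ (p - 1) →
        J' = RingOfIntegers.mapRingEquiv (τ : K ≃+* K) J) := by
  classical
  obtain ⟨χ, hχ1, hχ2, hχ3, hχ4⟩ := st_exists_char (K := K) φ hℓp hp3
  have hdvd : p ∣ ℓ - 1 := st_p_dvd φ hℓp
  obtain ⟨d, hpd⟩ := hdvd
  have hdiv : (ℓ - 1) / p = d := by rw [hpd]; exact Nat.mul_div_cancel_left d hp.out.pos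
  rw [hdiv] at hχ1
  have hℓ2 := hℓ.out.two_le
  have hd1 : 1 ≤ d := by
    rcases Nat.eq_zero_or_pos d with h | h
    · rw [h, mul_zero] at hpd; omega
    · exact h
  have hmap : ∀ (τ : K ≃ₐ[ℚ] K) (t : ℕ), t ≠ 0 →
      τ (stZeta p K : K) = (stZeta p K : K) ^ t →
      RingOfIntegers.mapRingEquiv (τ : K ≃+* K) (jacobiSum χ χ)
        = ∑ x : ZMod ℓ, (χ x) ^ t * (χ (1 - x)) ^ t := by
    intro τ t ht hτ
    rw [jacobiSum, map_sum]
    refine Finset.sum_congr rfl fun x _ => ?_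
    rw [map_mul, st_map_root τ t ht hτ _ (hχ2 x), st_map_root τ t ht hτ _ (hχ2 (1 - x))]
  refine ⟨jacobiSum χ χ, jacobiSum χ⁻¹ χ⁻¹, ?_, ?_, ?_⟩
  · have hinj := FaithfulSMul.algebraMap_injective (𝓞 K) K
    apply hinj
    rw [map_mul, ← jacobiSum_ringHomComp, ← jacobiSum_ringHomComp, ← MulChar.ringHomComp_inv,
      map_natCast]
    have hchar : ringChar K ≠ ringChar (ZMod ℓ) := by
      rw [ringChar.eq_zero, ZMod.ringChar_zmod_n]; exact hℓ.out.ne_zero.symm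
    have h := jacobiSum_mul_jacobiSum_inv (F := ZMod ℓ) (F' := K) hchar
      ((MulChar.ringHomComp_ne_one_iff hinj).mpr hχ3)
      ((MulChar.ringHomComp_ne_one_iff hinj).mpr hχ3)
      (by rw [← MulChar.ringHomComp_mul]; exact (MulChar.ringHomComp_ne_one_iff hinj).mpr hχ4)
    rw [h, ZMod.card]
  · intro τ t ht1 htp hτ
    rw [hmap τ t (by omega) hτ, map_sum]
    have hterm : ∀ x : ZMod ℓ, φ ((χ x) ^ t * (χ (1 - x)) ^ t)
        = x ^ (d * t) * (1 - x) ^ (d * t) := by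
      intro x; rw [map_mul, map_pow, map_pow, hχ1, hχ1, ← pow_mul, ← pow_mul]
    simp_rw [hterm]
    have hlt : d * t < ℓ - 1 := by
      rw [hpd, mul_comm p d]; exact Nat.mul_lt_mul_of_pos_left htp (by omega)
    rw [st_powsum (d * t) (Nat.mul_pos (by omega) (by omega)) hlt, hpd]
    constructor
    · intro h
      by_contra hcon
      have : p * d ≤ 2 * t * d := Nat.mul_le_mul_right d (by omega)
      nlinarith
    · intro h
      have : 2 * t * d < p * d := Nat.mul_lt_mul_of_pos_right h (by omega)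
      nlinarith
  · intro τ hτ
    have hp2 := hp.out.two_le
    rw [hmap τ (p - 1) (by omega) hτ, jacobiSum]
    refine Finset.sum_congr rfl fun x _ => ?_
    rw [st_inv_apply χ hχ2, st_inv_apply χ hχ2]

end Core

/-! ### The automorphisms `sig K p t` -/

section Sig

variable (p : ℕ) [hp : Fact p.Prime] (K : Type*) [Field K] [NumberField K]
  [hK : IsCyclotomicExtension {p} ℚ K]

theorem st_exists_sig (t : ℕ) (ht : ¬ p ∣ t) :
    ∃ τ : K ≃ₐ[ℚ] K, ∀ ζ : K, IsPrimitiveRoot ζ p → τ ζ = ζ ^ t := by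
  have hcop : t.Coprime p := ((Nat.Prime.coprime_iff_not_dvd hp.out).mpr ht).symm
  refine ⟨(galEquivZMod p K).symm (ZMod.unitOfCoprime t hcop), fun ζ hζ => ?_⟩
  rw [galEquivZMod_apply_of_pow_eq p K _ hζ.pow_eq_one, MulEquiv.apply_symm_apply,
    ZMod.coe_unitOfCoprime, ZMod.val_natCast, ← pow_eq_pow_mod t hζ.pow_eq_one]

theorem sig_spec (t : ℕ) (ht : ¬ p ∣ t) (ζ : K) (hζ : IsPrimitiveRoot ζ p) :
    sig K p t ζ = ζ ^ t := by
  have h := st_exists_sig p K t ht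
  rw [sig, dif_pos h]
  exact h.choose_spec ζ hζ

end Sig

/-! ### The ideal generated by the Jacobi sum -/

section Ideal

variable {p : ℕ} [hp : Fact p.Prime] {K : Type*} [Field K] [NumberField K]
  [hK : IsCyclotomicExtension {p} ℚ K] {ℓ : ℕ} [hℓ : Fact ℓ.Prime]

omit hK hp in
theorem st_absNorm_ker (ψ : 𝓞 K →+* ZMod ℓ) : Ideal.absNorm (RingHom.ker ψ) = ℓ := by
  rw [Ideal.absNorm_apply, Submodule.cardQuot_apply,
    Nat.card_congr (RingHom.quotientKerEquivOfSurjective (ZMod.ringHom_surjective ψ)).toEquiv,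
    Nat.card_eq_fintype_card, ZMod.card]

omit hK hp in
/-- a prime of norm `ℓ` is the kernel of a ring homomorphism to `ZMod ℓ`. -/
theorem st_exists_hom (I : Ideal (𝓞 K)) (hI : Ideal.absNorm I = ℓ) :
    ∃ φ : 𝓞 K →+* ZMod ℓ, RingHom.ker φ = I := by
  have hcard : Nat.card (𝓞 K ⧸ I) = ℓ := by
    rw [← hI, Ideal.absNorm_apply, Submodule.cardQuot_apply]
  have : Finite (𝓞 K ⧸ I) := Nat.finite_of_card_ne_zero (by rw [hcard]; exact hℓ.out.ne_zero)
  let _ : Fintype (𝓞 K ⧸ I) := Fintype.ofFinite _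
  have hcard' : Fintype.card (𝓞 K ⧸ I) = ℓ := by rw [← Nat.card_eq_fintype_card, hcard]
  let e : ZMod ℓ ≃+* (𝓞 K ⧸ I) := ZMod.ringEquivOfPrime _ hℓ.out hcard'
  refine ⟨(e.symm : (𝓞 K ⧸ I) →+* ZMod ℓ).comp (Ideal.Quotient.mk I), ?_⟩
  ext x
  rw [RingHom.mem_ker, RingHom.comp_apply, RingHom.coe_coe, map_eq_zero_iff _ e.symm.injective,
    Ideal.Quotient.eq_zero_iff_mem]

/-- the ring homomorphism `φ ∘ τ` attached to the prime `τ⁻¹(v)`. -/
noncomputable def stHom (φ : 𝓞 K →+* ZMod ℓ) (τ : K ≃ₐ[ℚ] K) : 𝓞 K →+* ZMod ℓ :=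
  φ.comp (RingOfIntegers.mapRingEquiv (τ : K ≃+* K) : 𝓞 K →+* 𝓞 K)

omit hK hp in
theorem st_hom_apply (φ : 𝓞 K →+* ZMod ℓ) (τ : K ≃ₐ[ℚ] K) (x : 𝓞 K) :
    stHom φ τ x = φ (RingOfIntegers.mapRingEquiv (τ : K ≃+* K) x) := rfl

omit hK hp in
theorem st_ker_hom (φ : 𝓞 K →+* ZMod ℓ) (τ : K ≃ₐ[ℚ] K) (v : IsDedekindDomain.HeightOneSpectrum (𝓞 K))
    (hφ : RingHom.ker φ = v.asIdeal) :
    RingHom.ker (stHom φ τ) = (galPrime K τ v).asIdeal := by
  ext x
  rw [RingHom.mem_ker, st_hom_apply, mem_galPrime, ← hφ, RingHom.mem_ker]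

end Ideal

/-! ### Main theorem of the leaf ST -/

section Main

open IsDedekindDomain

variable (p : ℕ) [hp : Fact p.Prime] (K : Type*) [Field K] [NumberField K]
  [hK : IsCyclotomicExtension {p} ℚ K]

/-- Stickelberger-lite: for a prime `v` of `ℚ(ζ_p)` of prime norm `ℓ ≠ p`, the product of the
conjugates `σ_t⁻¹(v)`, `1 ≤ t ≤ (p-1)/2`, is the principal ideal generated by a Jacobi sum. -/
theorem st_span_eq (hp3 : 3 ≤ p) (v : HeightOneSpectrum (𝓞 K))
    (hv : (Ideal.absNorm v.asIdeal).Prime) (hvp : Ideal.absNorm v.asIdeal ≠ p) :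
    ∃ J : 𝓞 K, J ≠ 0 ∧
      Ideal.span {J} = ∏ t ∈ Finset.Icc 1 ((p - 1) / 2), (galPrime K (sig K p t) v).asIdeal := by
  classical
  set ℓ := Ideal.absNorm v.asIdeal with hℓdef
  have : Fact ℓ.Prime := ⟨hv⟩
  obtain ⟨φ, hφ⟩ := st_exists_hom (ℓ := ℓ) v.asIdeal rfl
  obtain ⟨J, J', hJJ, hJ1, hJ2⟩ := st_core (p := p) (K := K) φ hvp hp3
  have hζ' : IsPrimitiveRoot ((stZeta p K : 𝓞 K) : K) p := st_zeta_prim'
  have hp2 := hp.out.two_le
  have hsig : ∀ t : ℕ, 1 ≤ t → t < p →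
      sig K p t ((stZeta p K : 𝓞 K) : K) = ((stZeta p K : 𝓞 K) : K) ^ t := by
    intro t h1 h2
    exact sig_spec p K t (Nat.not_dvd_of_pos_of_lt h1 h2) _ hζ'
  obtain ⟨m, hpm⟩ : ∃ m, p = 2 * m + 1 := by
    have hodd : Odd p := hp.out.odd_of_ne_two (by omega)
    obtain ⟨k, hk⟩ := hodd
    exact ⟨k, hk⟩
  have hm : (p - 1) / 2 = m := by omega
  rw [hm]
  have hmem : ∀ t ∈ Finset.Icc 1 m, J ∈ (galPrime K (sig K p t) v).asIdeal := by
    intro t ht
    rw [Finset.mem_Icc] at ht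
    rw [mem_galPrime, ← hφ, RingHom.mem_ker,
      hJ1 (sig K p t) t ht.1 (by omega) (hsig t ht.1 (by omega))]
    omega
  have hinj : ∀ s t : ℕ, 1 ≤ s → s < p → 1 ≤ t → t < p →
      (galPrime K (sig K p s) v).asIdeal = (galPrime K (sig K p t) v).asIdeal → s = t := by
    intro s t hs1 hs2 ht1 ht2 h
    rw [← st_ker_hom φ (sig K p s) v hφ, ← st_ker_hom φ (sig K p t) v hφ] at h
    have h2 := ZMod.ringHom_eq_of_ker_eq _ _ h
    have h3 := DFunLike.congr_fun h2 (stZeta p K)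
    rw [st_hom_apply, st_hom_apply,
      st_map_root _ s (by omega) (hsig s hs1 hs2) _ (Or.inr st_zeta_prim.pow_eq_one),
      st_map_root _ t (by omega) (hsig t ht1 ht2) _ (Or.inr st_zeta_prim.pow_eq_one),
      map_pow, map_pow] at h3
    exact (st_prim_mod φ hvp).pow_inj hs2 ht2 h3
  have hnorm : ∀ t : ℕ, Ideal.absNorm (galPrime K (sig K p t) v).asIdeal = ℓ := by
    intro t
    rw [← st_ker_hom φ (sig K p t) v hφ, st_absNorm_ker]
  have hℓ0 : (ℓ : 𝓞 K) ≠ 0 := Nat.cast_ne_zero.mpr hv.ne_zero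
  have hJ0 : J ≠ 0 := by
    rintro rfl
    rw [zero_mul] at hJJ
    exact hℓ0 hJJ.symm
  have hNJ : Ideal.absNorm (Ideal.span {J}) = ℓ ^ m := by
    have h1 : Ideal.absNorm (Ideal.span {J}) * Ideal.absNorm (Ideal.span {J'}) = ℓ ^ (2 * m) := by
      rw [← map_mul, Ideal.span_singleton_mul_span_singleton, hJJ, Ideal.absNorm_span_natCast,
        RingOfIntegers.rank,
        IsCyclotomicExtension.finrank K (Polynomial.cyclotomic.irreducible_rat hp.out.pos),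
        Nat.totient_prime hp.out]
      congr 1
      omega
    have h2 : Ideal.absNorm (Ideal.span {J'}) = Ideal.absNorm (Ideal.span {J}) := by
      rw [hJ2 (sig K p (p - 1)) (hsig (p - 1) (by omega) (by omega)),
        Ideal.absNorm_span_singleton, Ideal.absNorm_span_singleton]
      congr 1
      exact Algebra.norm_eq_of_algEquiv
        (RingOfIntegers.mapRingEquiv ((sig K p (p - 1)) : K ≃+* K)).toIntAlgEquiv J
    rw [h2, ← sq, pow_mul'] at h1
    exact Nat.pow_left_injective (by norm_num : (2 : ℕ) ≠ 0) h1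
  have hdvd : ∏ t ∈ Finset.Icc 1 m, (galPrime K (sig K p t) v).asIdeal ∣ Ideal.span {J} := by
    apply Finset.prod_dvd_of_coprime
    · intro s hs t ht hst
      have hs' := Finset.mem_Icc.mp hs
      have ht' := Finset.mem_Icc.mp ht
      have := (galPrime K (sig K p s) v).isMaximal
      have := (galPrime K (sig K p t) v).isMaximal
      exact Ideal.isCoprime_of_isMaximal
        (fun h => hst (hinj s t hs'.1 (by omega) ht'.1 (by omega) h))
    · intro t ht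
      exact Ideal.dvd_span_singleton.mpr (hmem t ht)
  obtain ⟨I', hI'⟩ := hdvd
  have hprodnorm :
      Ideal.absNorm (∏ t ∈ Finset.Icc 1 m, (galPrime K (sig K p t) v).asIdeal) = ℓ ^ m := by
    rw [map_prod, Finset.prod_congr rfl (fun t _ => hnorm t), Finset.prod_const, Nat.card_Icc]
    congr 1
  have hI'1 : I' = ⊤ := by
    rw [← Ideal.absNorm_eq_one_iff]
    have h := congrArg Ideal.absNorm hI'
    rw [map_mul, hNJ, hprodnorm] at h
    have hpos : 0 < ℓ ^ m := pow_pos hv.pos m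
    exact (Nat.eq_of_mul_eq_mul_left hpos (by rw [mul_one]; exact h)).symm
  refine ⟨J, hJ0, ?_⟩
  rw [hI', hI'1, ← Ideal.one_eq_top, mul_one]

end Main

/-- Leaf ST of the blueprint. -/
theorem ST_jacobi (p : ℕ) [Fact p.Prime] (hp3 : 3 ≤ p) (K : Type*) [Field K] [NumberField K]
    [IsCyclotomicExtension {p} ℚ K] (v : IsDedekindDomain.HeightOneSpectrum (𝓞 K))
    (hv : (Ideal.absNorm v.asIdeal).Prime) (hvp : Ideal.absNorm v.asIdeal ≠ p) :
    ∃ J : 𝓞 K, J ≠ 0 ∧ ∀ g : IsDedekindDomain.HeightOneSpectrum (𝓞 K) → ℂ,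
      ext K g (Ideal.span {J}) =
        ∏ t ∈ Finset.Icc 1 ((p - 1) / 2), g (galPrime K (sig K p t) v) := by
  obtain ⟨J, hJ0, hJ⟩ := st_span_eq p K hp3 v hv hvp
  refine ⟨J, hJ0, fun g => ?_⟩
  rw [hJ, ext_prod]
  exact Finset.prod_congr rfl fun t _ => ext_prime K g _

end C14
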