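import Mathlib
import Fermat.Prelude.Def_ExtCitation_AdmissibleExtension_v2

/-!
# S14, leaf T (part 1): the group theory of a non-split admissible extension

For an admissible extension `C ⊂ V` (trivial sub, cyclotomic quotient) we define
the additive character `a : ker χ → ZMod p` measuring the unipotent part and prove:
* elements acting trivially on `V` have `χ = 1`;
* `a` is additive, its kernel is the kernel of the action;
* `a (τ σ τ⁻¹) = χ(τ)⁻¹ a(σ)`;
* if `a = 0` then the extension splits globally.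
-/

set_option autoImplicit false
set_option linter.unusedSectionVars false

namespace C14

open ExtCitation

local notation "Qb" => AlgebraicClosure ℚ
local notation "GQ" => (AlgebraicClosure ℚ ≃ₐ[ℚ] AlgebraicClosure ℚ)

variable (p : ℕ) [Fact p.Prime]

/-- The mod `p` cyclotomic character on `Gal(Qb/ℚ)` with values in `(ZMod p)ˣ`. -/
noncomputable def t_chiU : GQ →* (ZMod p)ˣ :=
  haveI : NeZero p := ⟨(Fact.out : p.Prime).ne_zero⟩
  (modularCyclotomicCharacter (AlgebraicClosure ℚ) (card_rootsOfUnity_eq_self p)).comp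
    (MulSemiringAction.toRingAut GQ Qb)

theorem t_chiU_val (σ : GQ) : ((t_chiU p σ : (ZMod p)ˣ) : ZMod p).val = cycloExp p σ := by
  rfl

theorem t_cycloExp_cast (σ : GQ) : ((cycloExp p σ : ℕ) : ZMod p) = (t_chiU p σ : ZMod p) := by
  have : NeZero p := ⟨(Fact.out : p.Prime).ne_zero⟩
  rw [← t_chiU_val, ZMod.natCast_zmod_val]

theorem t_apply_root (σ : GQ) {ζ : Qb} (hζ : ζ ^ p = 1) : σ ζ = ζ ^ cycloExp p σ := by
  have : NeZero p := ⟨(Fact.out : p.Prime).ne_zero⟩
  have hp0 : p ≠ 0 := (Fact.out : p.Prime).ne_zero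
  have hu : IsUnit ζ := IsUnit.of_pow_eq_one hζ hp0
  obtain ⟨u, rfl⟩ := hu
  have hmem : u ∈ rootsOfUnity p Qb := by
    rw [mem_rootsOfUnity]
    exact Units.ext (by simpa using hζ)
  have := modularCyclotomicCharacter.spec (AlgebraicClosure ℚ) (card_rootsOfUnity_eq_self p)
    (MulSemiringAction.toRingAut GQ Qb σ) hmem
  simpa [cycloExp] using this

section V

variable {p}
variable {V : Type} [AddCommGroup V] [Module (ZMod p) V]
  [DistribMulAction (AlgebraicClosure ℚ ≃ₐ[ℚ] AlgebraicClosure ℚ) V]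
  [SMulCommClass (AlgebraicClosure ℚ ≃ₐ[ℚ] AlgebraicClosure ℚ) (ZMod p) V]
  {C : Submodule (ZMod p) V}

/-- A coordinate frame for an admissible extension: `c₀` spans `C`, `x₀` spans `V` modulo `C`. -/
theorem t_frame (h : IsAdmissibleExtension p V C) :
    ∃ x₀ c₀ : V, x₀ ∉ C ∧ c₀ ∈ C ∧ c₀ ≠ 0 ∧ (∀ c ∈ C, ∃ k : ZMod p, c = k • c₀) ∧
      (∀ x : V, ∃ k : ZMod p, x - k • x₀ ∈ C) := by
  have hp : p.Prime := Fact.out
  have hVfin : Finite V := Nat.finite_of_card_ne_zero (by rw [h.card_total]; exact pow_ne_zero 2 hp.ne_zero)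
  have hCfin : Finite C := Nat.finite_of_card_ne_zero (by rw [h.card_sub]; exact hp.ne_zero)
  -- a nonzero element of `C`
  obtain ⟨c₀, hc₀C, hc₀⟩ : ∃ c₀ ∈ C, c₀ ≠ 0 := by
    by_contra hcon
    push Not at hcon
    have hsub : Subsingleton C := ⟨fun a b => by
      apply Subtype.ext
      rw [hcon a a.2, hcon b b.2]⟩
    have := h.card_sub
    rw [Nat.card_of_subsingleton (0 : C)] at this
    exact hp.one_lt.ne this
  -- an element outside `C`
  obtain ⟨x₀, hx₀⟩ : ∃ x₀ : V, x₀ ∉ C := by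
    by_contra hcon
    push Not at hcon
    have hC : C = ⊤ := by
      ext x
      simp [hcon x]
    have h1 := h.card_sub
    have h2 := h.card_total
    rw [hC] at h1
    have h3 : Nat.card (⊤ : Submodule (ZMod p) V) = Nat.card V :=
      Nat.card_congr (Equiv.Set.univ V)
    rw [h3, h2] at h1
    have : p * p = p * 1 := by rw [mul_one, ← sq]; exact h1
    have := Nat.eq_of_mul_eq_mul_left hp.pos this
    exact hp.one_lt.ne' this
  refine ⟨x₀, c₀, hx₀, hc₀C, hc₀, ?_, ?_⟩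
  · -- `k ↦ k • c₀` is a bijection `ZMod p → C`
    let f : ZMod p → C := fun k => ⟨k • c₀, C.smul_mem k hc₀C⟩
    have hf : Function.Injective f := by
      intro k l hkl
      have h1 : k • c₀ = l • c₀ := congrArg Subtype.val hkl
      have h2 : (k - l) • c₀ = 0 := by rw [sub_smul, h1, sub_self]
      rcases smul_eq_zero.mp h2 with h3 | h3
      · exact sub_eq_zero.mp h3
      · exact absurd h3 hc₀
    have hcard : Nat.card (ZMod p) = Nat.card C := by rw [Nat.card_zmod, h.card_sub]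
    have hbij : Function.Bijective f :=
      (Nat.bijective_iff_injective_and_card f).mpr ⟨hf, hcard⟩
    intro c hc
    obtain ⟨k, hk⟩ := hbij.2 ⟨c, hc⟩
    exact ⟨k, (congrArg Subtype.val hk).symm⟩
  · let f : ZMod p × C → V := fun kc => kc.1 • x₀ + (kc.2 : V)
    have hf : Function.Injective f := by
      rintro ⟨k, c⟩ ⟨l, d⟩ hkl
      have h1 : k • x₀ + (c : V) = l • x₀ + (d : V) := hkl
      have h2 : (k - l) • x₀ = (d : V) - (c : V) := by
        rw [sub_smul, sub_eq_sub_iff_add_eq_add, h1, add_comm]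
      by_cases hkl' : k = l
      · subst hkl'
        rw [sub_self, zero_smul] at h2
        have : (d : V) = (c : V) := sub_eq_zero.mp h2.symm
        rw [Prod.mk.injEq]
        exact ⟨rfl, Subtype.ext this.symm⟩
      · exfalso
        apply hx₀
        have h3 : (k - l) • x₀ ∈ C := by
          rw [h2]
          exact C.sub_mem d.2 c.2
        have h4 := C.smul_mem (k - l)⁻¹ h3
        rwa [smul_smul, inv_mul_cancel₀ (sub_ne_zero.mpr hkl'), one_smul] at h4
    have hcard : Nat.card (ZMod p × C) = Nat.card V := by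
      rw [Nat.card_prod, Nat.card_zmod, h.card_sub, h.card_total, sq]
    have hbij : Function.Bijective f :=
      (Nat.bijective_iff_injective_and_card f).mpr ⟨hf, hcard⟩
    intro x
    obtain ⟨⟨k, c⟩, hk⟩ := hbij.2 x
    refine ⟨k, ?_⟩
    have h1 : k • x₀ + (c : V) = x := hk
    rw [← h1]
    simp

/-- Coordinates on an admissible extension: `σ x₀ = χ(σ) x₀ + a(σ) c₀`. -/
structure TFrame (C : Submodule (ZMod p) V) (x₀ c₀ : V)
    (a : (AlgebraicClosure ℚ ≃ₐ[ℚ] AlgebraicClosure ℚ) → ZMod p) : Prop where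
  x_notMem : x₀ ∉ C
  c_mem : c₀ ∈ C
  c_ne : c₀ ≠ 0
  span_c : ∀ c ∈ C, ∃ k : ZMod p, c = k • c₀
  span_x : ∀ x : V, ∃ k : ZMod p, x - k • x₀ ∈ C
  fix_c : ∀ σ : (AlgebraicClosure ℚ ≃ₐ[ℚ] AlgebraicClosure ℚ), σ • c₀ = c₀
  act_x : ∀ σ : (AlgebraicClosure ℚ ≃ₐ[ℚ] AlgebraicClosure ℚ),
    σ • x₀ = (t_chiU p σ : ZMod p) • x₀ + a σ • c₀

theorem t_exists_frame (h : IsAdmissibleExtension p V C) :
    ∃ (x₀ c₀ : V) (a : (AlgebraicClosure ℚ ≃ₐ[ℚ] AlgebraicClosure ℚ) → ZMod p),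
      TFrame C x₀ c₀ a := by
  obtain ⟨x₀, c₀, hx₀, hc₀C, hc₀, hspanc, hspanx⟩ := t_frame h
  have hex : ∀ σ : GQ, ∃ k : ZMod p, σ • x₀ - (t_chiU p σ : ZMod p) • x₀ = k • c₀ := by
    intro σ
    have h1 := h.cyclo_quot σ x₀
    rw [t_cycloExp_cast] at h1
    exact hspanc _ h1
  choose a ha using hex
  refine ⟨x₀, c₀, a, hx₀, hc₀C, hc₀, hspanc, hspanx, fun σ => h.fixed_sub σ c₀ hc₀C, fun σ => ?_⟩
  rw [← ha σ]
  abel

variable {x₀ c₀ : V} {a : (AlgebraicClosure ℚ ≃ₐ[ℚ] AlgebraicClosure ℚ) → ZMod p}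

theorem TFrame.smul_c (F : TFrame C x₀ c₀ a) (σ : GQ) (k : ZMod p) :
    σ • (k • c₀) = k • c₀ := by
  rw [smul_comm, F.fix_c]

/-- The cocycle relation. -/
theorem TFrame.cocycle (F : TFrame C x₀ c₀ a) (σ τ : GQ) :
    a (σ * τ) = (t_chiU p τ : ZMod p) * a σ + a τ := by
  have h1 : (σ * τ) • x₀ = σ • τ • x₀ := mul_smul σ τ x₀
  rw [F.act_x (σ * τ), F.act_x τ, smul_add, F.smul_c, smul_comm σ _ x₀, F.act_x σ, map_mul,
    Units.val_mul, smul_add, smul_smul, smul_smul] at h1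
  have h2 : (a (σ * τ) - ((t_chiU p τ : ZMod p) * a σ + a τ)) • c₀ = 0 := by
    rw [sub_smul, add_smul]
    rw [mul_comm ((t_chiU p σ : ZMod p)) _] at h1
    rw [add_assoc] at h1
    have h3 := add_left_cancel h1
    rw [h3, sub_self]
  rcases smul_eq_zero.mp h2 with h3 | h3
  · exact sub_eq_zero.mp h3
  · exact absurd h3 F.c_ne

theorem TFrame.a_one (F : TFrame C x₀ c₀ a) : a 1 = 0 := by
  have h := F.cocycle 1 1
  rw [mul_one, map_one, Units.val_one, one_mul] at h
  exact left_eq_add.mp h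

theorem TFrame.a_inv (F : TFrame C x₀ c₀ a) (τ : GQ) :
    a τ⁻¹ = -(((t_chiU p τ)⁻¹ : (ZMod p)ˣ) : ZMod p) * a τ := by
  have h := F.cocycle τ τ⁻¹
  rw [mul_inv_cancel, F.a_one, map_inv] at h
  linear_combination -h

/-- The conjugation formula on `ker χ`. -/
theorem TFrame.a_conj (F : TFrame C x₀ c₀ a) (τ σ : GQ) (hσ : t_chiU p σ = 1) :
    a (τ * σ * τ⁻¹) = (((t_chiU p τ)⁻¹ : (ZMod p)ˣ) : ZMod p) * a σ := by
  rw [F.cocycle, F.cocycle, F.a_inv, hσ, map_inv]
  simp only [Units.val_one]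
  ring

/-- Additivity on `ker χ`. -/
theorem TFrame.a_mul (F : TFrame C x₀ c₀ a) (σ τ : GQ) (hτ : t_chiU p τ = 1) :
    a (σ * τ) = a σ + a τ := by
  rw [F.cocycle, hτ, Units.val_one, one_mul]

/-- The action on `V` in coordinates. -/
theorem TFrame.act (F : TFrame C x₀ c₀ a) (σ : GQ) (k l : ZMod p) :
    σ • (k • x₀ + l • c₀) = (k * (t_chiU p σ : ZMod p)) • x₀ + (k * a σ + l) • c₀ := by
  rw [smul_add, F.smul_c, smul_comm σ k x₀, F.act_x, smul_add, smul_smul, smul_smul, add_smul,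
    add_assoc]

theorem TFrame.exists_coords (F : TFrame C x₀ c₀ a) (x : V) :
    ∃ k l : ZMod p, x = k • x₀ + l • c₀ := by
  obtain ⟨k, hk⟩ := F.span_x x
  obtain ⟨l, hl⟩ := F.span_c _ hk
  exact ⟨k, l, by rw [← hl]; abel⟩

/-- The kernel of the action is `{χ = 1, a = 0}`. -/
theorem TFrame.trivial_iff (F : TFrame C x₀ c₀ a) (σ : GQ) :
    (∀ v : V, σ • v = v) ↔ t_chiU p σ = 1 ∧ a σ = 0 := by
  constructor
  · intro h
    have h1 := F.act_x σ
    rw [h x₀] at h1
    -- `(1 - χ) x₀ = a c₀ ∈ C`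
    have h2 : (1 - (t_chiU p σ : ZMod p)) • x₀ = a σ • c₀ := by
      rw [sub_smul, one_smul]
      nth_rewrite 1 [h1]
      abel
    have hχ : (t_chiU p σ : ZMod p) = 1 := by
      by_contra hne
      apply F.x_notMem
      have h3 : (1 - (t_chiU p σ : ZMod p)) • x₀ ∈ C := by
        rw [h2]
        exact C.smul_mem _ F.c_mem
      have h4 := C.smul_mem (1 - (t_chiU p σ : ZMod p))⁻¹ h3
      rwa [smul_smul, inv_mul_cancel₀ (sub_ne_zero.mpr (Ne.symm hne)), one_smul] at h4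
    refine ⟨Units.ext hχ, ?_⟩
    rw [hχ, sub_self, zero_smul] at h2
    rcases smul_eq_zero.mp h2.symm with h3 | h3
    · exact h3
    · exact absurd h3 F.c_ne
  · rintro ⟨hχ, ha⟩ v
    obtain ⟨k, l, rfl⟩ := F.exists_coords v
    rw [F.act, hχ, ha]
    simp

/-- If the unipotent part vanishes on `ker χ` and `χ` is nontrivial, the extension splits. -/
theorem TFrame.splits (F : TFrame C x₀ c₀ a)
    (h0 : ∀ σ : GQ, t_chiU p σ = 1 → a σ = 0)
    (σ₁ : GQ) (hσ₁ : t_chiU p σ₁ ≠ 1) : SplitsGlobally C := by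
  set u : ZMod p := (t_chiU p σ₁ : ZMod p) with hu
  have hu1 : u - 1 ≠ 0 := by
    intro h
    apply hσ₁
    exact Units.ext (sub_eq_zero.mp h)
  set t : ZMod p := a σ₁ / (u - 1) with ht
  -- `a` is the coboundary of `t`
  have hcob : ∀ σ : GQ, a σ = t * ((t_chiU p σ : ZMod p) - 1) := by
    intro σ
    have hγ : t_chiU p (σ₁⁻¹ * σ⁻¹ * σ₁ * σ) = 1 := by
      simp only [map_mul, map_inv]
      rw [mul_comm (t_chiU p σ₁)⁻¹, mul_assoc, mul_assoc, ← mul_assoc (t_chiU p σ₁)⁻¹]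
      simp
    have h1 : σ * σ₁ = σ₁ * σ * (σ₁⁻¹ * σ⁻¹ * σ₁ * σ)⁻¹ := by group
    have hγ' : t_chiU p (σ₁⁻¹ * σ⁻¹ * σ₁ * σ)⁻¹ = 1 := by rw [map_inv, hγ, inv_one]
    have h2 : a (σ * σ₁) = a (σ₁ * σ) := by
      rw [h1, F.a_mul _ _ hγ', h0 _ hγ', add_zero]
    rw [F.cocycle, F.cocycle, ← hu] at h2
    rw [ht]
    field_simp
    linear_combination h2
  refine ⟨Submodule.span (ZMod p) {x₀ + t • c₀}, ?_, ?_⟩
  · intro σ x hx
    obtain ⟨k, rfl⟩ := Submodule.mem_span_singleton.mp hx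
    have h1 : σ • (k • (x₀ + t • c₀)) = (k * (t_chiU p σ : ZMod p)) • (x₀ + t • c₀) := by
      have h2 : k • (x₀ + t • c₀) = k • x₀ + (k * t) • c₀ := by rw [smul_add, smul_smul]
      rw [h2, F.act, hcob σ, smul_add, smul_smul]
      congr 2
      ring
    rw [h1]
    exact Submodule.smul_mem _ _ (Submodule.mem_span_singleton_self _)
  · rw [isCompl_iff]
    constructor
    · rw [Submodule.disjoint_def]
      intro x hxC hx
      obtain ⟨k, rfl⟩ := Submodule.mem_span_singleton.mp hx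
      by_cases hk : k = 0
      · rw [hk, zero_smul]
      · exfalso
        apply F.x_notMem
        have h1 := C.smul_mem k⁻¹ hxC
        rw [smul_smul, inv_mul_cancel₀ hk, one_smul] at h1
        have h2 := C.sub_mem h1 (C.smul_mem t F.c_mem)
        simpa using h2
    · rw [codisjoint_iff, eq_top_iff]
      intro x _
      obtain ⟨k, l, rfl⟩ := F.exists_coords x
      have h1 : k • x₀ + l • c₀ = (l - k * t) • c₀ + k • (x₀ + t • c₀) := by
        rw [smul_add, smul_smul, sub_smul]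
        abel
      rw [h1]
      exact Submodule.add_mem_sup (C.smul_mem _ F.c_mem)
        (Submodule.smul_mem _ _ (Submodule.mem_span_singleton_self _))

end V

/-- For `p ≠ 2` the mod `p` cyclotomic character of `ℚ` is nontrivial. -/
theorem t_chiU_nontrivial (p : ℕ) [Fact p.Prime] (hp2 : p ≠ 2) :
    ∃ σ : GQ, t_chiU p σ ≠ 1 := by
  have hp : p.Prime := Fact.out
  have : NeZero p := ⟨hp.ne_zero⟩
  have : NeZero (p : Qb) := ⟨by exact_mod_cast hp.ne_zero⟩
  obtain ⟨ζ, hζ⟩ := HasEnoughRootsOfUnity.exists_primitiveRoot Qb p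
  by_contra hcon
  push Not at hcon
  have hfix : ∀ σ : GQ, σ ζ = ζ := by
    intro σ
    have h1 := t_apply_root p σ hζ.pow_eq_one
    rw [← t_chiU_val, hcon σ, Units.val_one, ZMod.val_one'' (by
      intro h; exact hp.one_lt.ne' h), pow_one] at h1
    exact h1
  have hQ : IsGalois ℚ Qb := by
    have : IsAlgClosure ℚ Qb := ⟨inferInstance, AlgebraicClosure.isAlgebraic ℚ⟩
    exact IsAlgClosure.isGalois ℚ Qb
  have h1 : ζ ∈ (⊥ : IntermediateField ℚ Qb) := by
    rw [InfiniteGalois.mem_bot_iff_fixed]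
    exact hfix
  obtain ⟨q, hq⟩ := IntermediateField.mem_bot.mp h1
  have h2 : q ^ p = 1 := by
    have h3 : (algebraMap ℚ Qb) (q ^ p) = (algebraMap ℚ Qb) 1 := by
      rw [map_pow, hq, hζ.pow_eq_one, map_one]
    exact (algebraMap ℚ Qb).injective h3
  have hodd : Odd p := hp.odd_of_ne_two hp2
  have h4 : q = 1 := by
    have := hodd.strictMono_pow (R := ℚ)
    apply this.injective
    simp only
    rw [h2, one_pow]
  rw [h4, map_one] at hq
  exact hζ.ne_one hp.one_lt hq.symm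

section Main

variable {p}
variable {V : Type} [AddCommGroup V] [Module (ZMod p) V]
  [DistribMulAction (AlgebraicClosure ℚ ≃ₐ[ℚ] AlgebraicClosure ℚ) V]
  [SMulCommClass (AlgebraicClosure ℚ ≃ₐ[ℚ] AlgebraicClosure ℚ) (ZMod p) V]
  {C : Submodule (ZMod p) V}

/-- **Leaf T, group form.** A non-split admissible extension yields an open normal subgroup `N`
of `Gal(Qb/ℚ)` (the kernel of the action), contained in `ker χ`, and an additive character
`α : ker χ → ZMod p` with kernel `N`, nontrivial, on which conjugation acts through `χ⁻¹`;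
all inertia groups meet `ker χ` inside `N`, and so do the decomposition groups over `p`. -/
theorem t_group (hadm : IsAdmissibleExtensionCts p V C) (hns : ¬ SplitsGlobally C)
    (hp2 : p ≠ 2) :
    ∃ (N : Subgroup (AlgebraicClosure ℚ ≃ₐ[ℚ] AlgebraicClosure ℚ))
      (α : (AlgebraicClosure ℚ ≃ₐ[ℚ] AlgebraicClosure ℚ) → ZMod p),
      N.Normal ∧ IsOpen (N : Set (AlgebraicClosure ℚ ≃ₐ[ℚ] AlgebraicClosure ℚ)) ∧
      (∀ σ, σ ∈ N ↔ t_chiU p σ = 1 ∧ α σ = 0) ∧
      (∀ σ τ, t_chiU p τ = 1 → α (σ * τ) = α σ + α τ) ∧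
      (∀ τ σ, t_chiU p σ = 1 →
        α (τ * σ * τ⁻¹) = (((t_chiU p τ)⁻¹ : (ZMod p)ˣ) : ZMod p) * α σ) ∧
      (∃ σ, t_chiU p σ = 1 ∧ α σ ≠ 0) ∧
      (∀ ℓ : ℕ, ℓ.Prime → ∀ A : ValuationSubring (AlgebraicClosure ℚ), A.LiesOverPrime ℓ →
        ∀ σ ∈ A.inertiaSubgroupIn ℚ, t_chiU p σ = 1 → σ ∈ N) ∧
      (∀ A : ValuationSubring (AlgebraicClosure ℚ), A.LiesOverPrime p →
        ∀ σ ∈ A.decompositionSubgroup ℚ, t_chiU p σ = 1 → σ ∈ N) := by
  have hp : p.Prime := Fact.out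
  have h := hadm.toIsAdmissibleExtension
  obtain ⟨x₀, c₀, a, F⟩ := t_exists_frame h
  let N : Subgroup GQ := (MulAction.toPermHom GQ V).ker
  have hN : ∀ σ : GQ, σ ∈ N ↔ ∀ v : V, σ • v = v := by
    intro σ
    rw [MonoidHom.mem_ker, Equiv.Perm.ext_iff]
    rfl
  have hN' : ∀ σ : GQ, σ ∈ N ↔ t_chiU p σ = 1 ∧ a σ = 0 := fun σ =>
    (hN σ).trans (F.trivial_iff σ)
  refine ⟨N, a, MonoidHom.normal_ker _, ?_, hN', fun σ τ hτ => F.a_mul σ τ hτ,
    fun τ σ hσ => F.a_conj τ σ hσ, ?_, ?_, ?_⟩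
  · have h1 := hadm.open_kernel
    have h2 : (N : Set GQ) = {σ : GQ | ∀ v : V, σ • v = v} := by
      ext σ
      exact hN σ
    rw [h2]
    exact h1
  · by_contra hcon
    push Not at hcon
    obtain ⟨σ₁, hσ₁⟩ := t_chiU_nontrivial p hp2
    exact hns (F.splits hcon σ₁ hσ₁)
  · intro ℓ hℓ A hA σ hσ hχ
    by_cases hℓp : ℓ = p
    · rw [hℓp] at hA
      -- inertia is contained in the decomposition group, which splits the extension
      obtain ⟨C', hC', hcompl⟩ := h.locally_split A hA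
      obtain ⟨⟨σ', hσ'D⟩, -, rfl⟩ := Subgroup.mem_map.mp hσ
      rw [hN]
      intro v
      have hv : v ∈ C ⊔ C' := by rw [hcompl.sup_eq_top]; trivial
      obtain ⟨c, hc, c', hc', rfl⟩ := Submodule.mem_sup.mp hv
      have h1 : σ' • c = c := h.fixed_sub σ' c hc
      have h2 : σ' • c' - c' ∈ C := by
        have := h.cyclo_quot σ' c'
        rw [t_cycloExp_cast] at this
        have hχ' : t_chiU p σ' = 1 := hχ
        rwa [hχ', Units.val_one, one_smul] at this
      have h3 : σ' • c' - c' ∈ C' := C'.sub_mem (hC' σ' hσ'D c' hc') hc'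
      have h4 : σ' • c' - c' = 0 := by
        have := hcompl.disjoint
        rw [Submodule.disjoint_def] at this
        exact this _ h2 h3
      change σ' • (c + c') = c + c'
      rw [smul_add, h1, sub_eq_zero.mp h4]
    · rw [hN]
      exact h.unramified_outside ℓ hℓ hℓp A hA σ hσ
  · intro A hA σ hσD hχ
    obtain ⟨C', hC', hcompl⟩ := h.locally_split A hA
    rw [hN]
    intro v
    have hv : v ∈ C ⊔ C' := by rw [hcompl.sup_eq_top]; trivial
    obtain ⟨c, hc, c', hc', rfl⟩ := Submodule.mem_sup.mp hv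
    have h1 : σ • c = c := h.fixed_sub σ c hc
    have h2 : σ • c' - c' ∈ C := by
      have := h.cyclo_quot σ c'
      rw [t_cycloExp_cast] at this
      rwa [hχ, Units.val_one, one_smul] at this
    have h3 : σ • c' - c' ∈ C' := C'.sub_mem (hC' σ hσD c' hc') hc'
    have h4 : σ • c' - c' = 0 := by
      have := hcompl.disjoint
      rw [Submodule.disjoint_def] at this
      exact this _ h2 h3
    rw [smul_add, h1, sub_eq_zero.mp h4]

end Main

end C14
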