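import Mathlib
import Fermat.Prelude.Def_EllipticCurve_FrobeniusTrace

set_option autoImplicit false
set_option linter.style.haveILetI false

namespace Fermat.Agent.H8

open ValuationSubring Polynomial

/-! ### Elements integral over `ℤ` inside a valuation subring -/

section General

variable {K : Type*} [Field K]

theorem mem_valuationSubring_of_isIntegral (A : ValuationSubring K) {x : K}
    (hx : IsIntegral ℤ x) : x ∈ A := by
  have h1 : IsIntegral A x := hx.tower_top
  obtain ⟨y, hy⟩ := IsIntegrallyClosed.isIntegral_iff.mp h1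
  rw [← hy]
  exact y.2

/-- Key induction: a root in `A` of a polynomial with integral coefficients, one of which is a unit
of `A`, is a quotient of two integral elements with denominator a unit of `A`. -/
theorem exists_integral_frac_aux (A : ValuationSubring K) {x : K} (hx : x ∈ A) :
    ∀ (n : ℕ) (f : (integralClosure ℤ K)[X]), f.natDegree ≤ n → aeval x f = 0 →
      (∃ i, ((f.coeff i : integralClosure ℤ K) : K) ∉ A.nonunits) →
      ∃ s b : integralClosure ℤ K, (s : K) ∉ A.nonunits ∧ x * (s : K) = (b : K) := by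
  intro n
  induction n with
  | zero =>
    intro f hf h0 ⟨i, hi⟩
    exfalso
    rw [Polynomial.eq_C_of_natDegree_le_zero hf] at h0 hi
    rw [aeval_C] at h0
    have hc : f.coeff 0 = 0 := by
      have := (FaithfulSMul.algebraMap_injective (integralClosure ℤ K) K)
      exact this (by rw [h0, map_zero])
    rw [hc] at hi
    simp only [map_zero, coeff_zero, ZeroMemClass.coe_zero] at hi
    exact hi ((A.coe_mem_nonunits_iff (a := 0)).mpr (Ideal.zero_mem _))
  | succ n ih =>
    intro f hf h0 ⟨i, hi⟩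
    set c : integralClosure ℤ K := f.coeff (n + 1) with hc
    -- `c • x` is integral over `ℤ`
    have hcx : IsIntegral ℤ ((c : K) * x) := by
      by_cases hdeg : f.natDegree = n + 1
      · have h1 : IsIntegral (integralClosure ℤ K) (f.leadingCoeff • x) :=
          isIntegral_leadingCoeff_smul f x h0
        have h2 : f.leadingCoeff = c := by rw [Polynomial.leadingCoeff, hdeg]
        rw [h2] at h1
        have h3 : c • x = (c : K) * x := rfl
        rw [h3] at h1
        exact isIntegral_trans _ h1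
      · have hlt : f.natDegree < n + 1 := lt_of_le_of_ne hf hdeg
        have : c = 0 := Polynomial.coeff_eq_zero_of_natDegree_lt hlt
        rw [this]
        simp only [ZeroMemClass.coe_zero, zero_mul]
        exact isIntegral_zero
    by_cases hcu : (c : K) ∈ A.nonunits
    · -- lower the degree
      let y : integralClosure ℤ K := ⟨(c : K) * x, hcx⟩
      have hy : (y : K) ∈ A.nonunits := by
        have h1 : (⟨(c : K), mem_valuationSubring_of_isIntegral A c.2⟩ : A) ∈
            IsLocalRing.maximalIdeal A := A.coe_mem_nonunits_iff.mp hcu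
        have h2 := Ideal.mul_mem_right (⟨x, hx⟩ : A) _ h1
        exact A.coe_mem_nonunits_iff.mpr h2
      let f' : (integralClosure ℤ K)[X] := f - C c * X ^ (n + 1) + C y * X ^ n
      have hf' : f'.natDegree ≤ n := by
        rw [Polynomial.natDegree_le_iff_coeff_eq_zero]
        intro N hN
        simp only [f', coeff_add, coeff_sub, coeff_C_mul, coeff_X_pow]
        rcases Nat.lt_or_ge (n + 1) N with h | h
        · have : f.coeff N = 0 :=
            Polynomial.coeff_eq_zero_of_natDegree_lt (lt_of_le_of_lt hf h)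
          rw [this, if_neg (by omega), if_neg (by omega)]
          simp
        · have hN' : N = n + 1 := by omega
          subst hN'
          rw [if_pos rfl, if_neg (by omega)]
          simp [hc]
      have h0' : aeval x f' = 0 := by
        simp only [f', map_add, map_sub, map_mul, aeval_C, map_pow, aeval_X, h0, zero_sub]
        have e1 : algebraMap (integralClosure ℤ K) K c = (c : K) := rfl
        have e2 : algebraMap (integralClosure ℤ K) K y = (c : K) * x := rfl
        rw [e1, e2]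
        ring
      refine ih f' hf' h0' ?_
      have hi' : i ≠ n + 1 := by
        rintro rfl
        exact hi hcu
      by_cases hin : i = n
      · refine ⟨n, ?_⟩
        subst hin
        have hcoef : f'.coeff i = f.coeff i + y := by
          simp [f', coeff_add, coeff_sub, coeff_C_mul, coeff_X_pow]
        rw [hcoef]
        intro hmem
        apply hi
        have h1 : (⟨((f.coeff i + y : integralClosure ℤ K) : K),
            mem_valuationSubring_of_isIntegral A (f.coeff i + y).2⟩ : A) ∈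
            IsLocalRing.maximalIdeal A := A.coe_mem_nonunits_iff.mp hmem
        have h2 : (⟨(y : K), mem_valuationSubring_of_isIntegral A y.2⟩ : A) ∈
            IsLocalRing.maximalIdeal A := A.coe_mem_nonunits_iff.mp hy
        have h3 := Ideal.sub_mem _ h1 h2
        have h4 : (⟨((f.coeff i : integralClosure ℤ K) : K),
            mem_valuationSubring_of_isIntegral A (f.coeff i).2⟩ : A) ∈
            IsLocalRing.maximalIdeal A := by
          convert h3 using 1
          apply Subtype.ext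
          simp
        exact A.coe_mem_nonunits_iff.mpr h4
      · refine ⟨i, ?_⟩
        simp only [f', coeff_add, coeff_sub, coeff_C_mul, coeff_X_pow]
        rw [if_neg hi', if_neg hin]
        simpa using hi
    · exact ⟨c, ⟨(c : K) * x, hcx⟩, hcu, mul_comm _ _⟩

theorem exists_integral_frac [CharZero K] (A : ValuationSubring K) {ℓ : ℕ} (hℓ : ℓ.Prime)
    (hA : (ℓ : K) ∈ A.nonunits) {x : K} (hxalg : IsAlgebraic ℤ x) (hx : x ∈ A) :
    ∃ s b : K, IsIntegral ℤ s ∧ IsIntegral ℤ b ∧ s ∉ A.nonunits ∧ x * s = b := by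
  obtain ⟨f₀, hf₀, hf₀x⟩ := hxalg
  have hprim := Polynomial.isPrimitive_primPart f₀
  have hx0 : aeval x f₀.primPart = 0 := Polynomial.aeval_primPart_eq_zero hf₀ hf₀x
  obtain ⟨i, hi⟩ : ∃ i, ¬ (ℓ : ℤ) ∣ f₀.primPart.coeff i := by
    by_contra hcon
    push Not at hcon
    have h1 : C (ℓ : ℤ) ∣ f₀.primPart := (Polynomial.C_dvd_iff_dvd_coeff _ _).mpr hcon
    have h2 := hprim _ h1
    rw [Int.isUnit_iff] at h2
    have := hℓ.two_le
    omega
  let f : (integralClosure ℤ K)[X] := f₀.primPart.map (algebraMap ℤ (integralClosure ℤ K))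
  have hfx : aeval x f = 0 := by
    rw [Polynomial.aeval_map_algebraMap]
    exact hx0
  have hunit : ((f.coeff i : integralClosure ℤ K) : K) ∉ A.nonunits := by
    intro hmem
    simp only [f, coeff_map] at hmem
    have hcop : IsCoprime (f₀.primPart.coeff i) (ℓ : ℤ) := by
      rw [Int.isCoprime_iff_gcd_eq_one]
      have := (Nat.Prime.coprime_iff_not_dvd hℓ).mpr
        (fun h : ℓ ∣ (f₀.primPart.coeff i).natAbs => hi (Int.natCast_dvd.mpr h))
      rw [Int.gcd_comm]
      simpa [Int.gcd, Nat.coprime_iff_gcd_eq_one] using this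
    obtain ⟨u, v, huv⟩ := hcop
    have h1 : ((f₀.primPart.coeff i : ℤ) : K) ∈ A.nonunits := by
      simpa using hmem
    have hA1 : (⟨((f₀.primPart.coeff i : ℤ) : K), intCast_mem A _⟩ : A) ∈
        IsLocalRing.maximalIdeal A := A.coe_mem_nonunits_iff.mp h1
    have hA2 : (⟨(ℓ : K), A.nonunits_subset hA⟩ : A) ∈ IsLocalRing.maximalIdeal A :=
      A.coe_mem_nonunits_iff.mp hA
    have h3 : (1 : A) ∈ IsLocalRing.maximalIdeal A := by
      have := Ideal.add_mem _ (Ideal.mul_mem_left _ (u : A) hA1) (Ideal.mul_mem_left _ (v : A) hA2)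
      convert this using 1
      apply Subtype.ext
      have := congrArg (fun z : ℤ => (z : K)) huv
      push_cast at this ⊢
      exact this.symm
    exact (Ideal.ne_top_iff_one _).mp (IsLocalRing.maximalIdeal.isMaximal A).ne_top h3
  obtain ⟨s, b, hs, hxs⟩ := exists_integral_frac_aux A hx f.natDegree f le_rfl hfx ⟨i, hunit⟩
  exact ⟨s, b, s.2, b.2, hs, hxs⟩

end General

/-! ### The absolute Galois group of `ℚ` acting on algebraic integers -/

local notation "Qb" => AlgebraicClosure ℚ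

theorem isAlgebraic_Qb : Algebra.IsAlgebraic ℚ Qb := AlgebraicClosure.isAlgebraic ℚ

theorem isAlgClosure_Qb : IsAlgClosure ℚ Qb := ⟨inferInstance, isAlgebraic_Qb⟩

theorem isGalois_Qb : IsGalois ℚ Qb := by
  have := isAlgClosure_Qb
  exact IsAlgClosure.isGalois ℚ Qb

attribute [local instance] isAlgebraic_Qb isAlgClosure_Qb isGalois_Qb

/-- The subring of algebraic integers of `Qb`. -/
noncomputable def Zb : Subring Qb := (integralClosure ℤ Qb).toSubring

theorem mem_Zb {x : Qb} : x ∈ Zb ↔ IsIntegral ℤ x := Iff.rfl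

instance instIsInvariantSubringZb : IsInvariantSubring (Qb ≃ₐ[ℚ] Qb) Zb where
  smul_mem σ x hx := by
    have h : IsIntegral ℤ x := hx
    exact h.map σ

theorem coe_smul_Zb (σ : Qb ≃ₐ[ℚ] Qb) (y : Zb) : ((σ • y : Zb) : Qb) = σ (y : Qb) := rfl

instance instIsInvariantZb : Algebra.IsInvariant ℤ Zb (Qb ≃ₐ[ℚ] Qb) where
  isInvariant b hb := by
    have h1 : (b : Qb) ∈ (⊥ : IntermediateField ℚ Qb) := by
      rw [InfiniteGalois.mem_bot_iff_fixed]
      intro σ
      exact congrArg Subtype.val (hb σ)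
    obtain ⟨q, hq⟩ := IntermediateField.mem_bot.mp h1
    have h2 : IsIntegral ℤ q := by
      have h3 : IsIntegral ℤ (b : Qb) := b.2
      rw [← hq] at h3
      exact (isIntegral_algebraMap_iff (algebraMap ℚ Qb).injective).mp h3
    obtain ⟨n, hn⟩ := IsIntegrallyClosed.isIntegral_iff.mp h2
    refine ⟨n, Subtype.ext ?_⟩
    rw [← hq, ← hn]
    simp

theorem exists_valuationSubring_liesOver (ℓ : ℕ) (hℓ : ℓ.Prime) :
    ∃ A : ValuationSubring Qb, A.LiesOverPrime ℓ := by
  have hne : Ideal.span {(ℓ : Zb)} ≠ ⊤ := by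
    intro h
    rw [Ideal.span_singleton_eq_top] at h
    obtain ⟨u, hu⟩ := h.exists_right_inv
    have h1 : (ℓ : Qb) * (u : Qb) = 1 := by
      have := congrArg (fun z : Zb => (z : Qb)) hu
      simpa using this
    have hℓ0 : (ℓ : Qb) ≠ 0 := by exact_mod_cast hℓ.ne_zero
    have h2 : (u : Qb) = algebraMap ℚ Qb ((ℓ : ℚ)⁻¹) := by
      rw [map_inv₀, map_natCast]
      field_simp
      linear_combination h1
    have h3 : IsIntegral ℤ ((ℓ : ℚ)⁻¹) := by
      have h4 : IsIntegral ℤ (u : Qb) := u.2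
      rw [h2] at h4
      exact (isIntegral_algebraMap_iff (algebraMap ℚ Qb).injective).mp h4
    obtain ⟨n, hn⟩ := IsIntegrallyClosed.isIntegral_iff.mp h3
    rw [eq_intCast] at hn
    have hℓQ : (ℓ : ℚ) ≠ 0 := by exact_mod_cast hℓ.ne_zero
    have h5 : ((ℓ * n : ℤ) : ℚ) = ((1 : ℤ) : ℚ) := by
      push_cast
      rw [hn]
      field_simp
    have h6 : (ℓ : ℤ) * n = 1 := by exact_mod_cast h5
    have h7 : (ℓ : ℤ) ∣ 1 := ⟨n, h6.symm⟩
    have h8 := Int.le_of_dvd one_pos h7
    have := hℓ.two_le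
    omega
  obtain ⟨B, -, hB'⟩ := Ideal.image_subset_nonunits_valuationSubring _ hne
  exact ⟨B, hB' ⟨(ℓ : Zb), Ideal.subset_span rfl, by simp⟩⟩

theorem zb_le_valuationSubring (A : ValuationSubring Qb) : Zb ≤ A.toSubring :=
  fun _ hx => mem_valuationSubring_of_isIntegral A hx

theorem continuousSMul_Zb [TopologicalSpace Zb] [DiscreteTopology Zb] :
    ContinuousSMul (Qb ≃ₐ[ℚ] Qb) Zb := by
  rw [continuousSMul_iff_stabilizer_isOpen]
  intro y
  have h := stabilizer_isOpen_of_isIntegral (K := ℚ) (L := Qb) (y : Qb)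
  convert h using 1
  ext σ
  simp only [SetLike.mem_coe, MulAction.mem_stabilizer_iff]
  constructor
  · intro h'
    exact congrArg Subtype.val h'
  · intro h'
    exact Subtype.ext h'

open scoped Pointwise in
/-- Existence of a Frobenius element on the algebraic integers. -/
theorem exists_frob_Zb (A : ValuationSubring Qb) (ℓ : ℕ) (hℓ : ℓ.Prime)
    (hA : (ℓ : Qb) ∈ A.nonunits) :
    ∃ σ : Qb ≃ₐ[ℚ] Qb,
      (∀ y : Qb, IsIntegral ℤ y → (σ y ∈ A.nonunits ↔ y ∈ A.nonunits)) ∧
      (∀ y : Qb, IsIntegral ℤ y → σ y - y ^ ℓ ∈ A.nonunits) := by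
  letI : TopologicalSpace Zb := ⊥
  haveI : DiscreteTopology Zb := ⟨rfl⟩
  haveI : ContinuousSMul (Qb ≃ₐ[ℚ] Qb) Zb := continuousSMul_Zb
  let ι : Zb →+* A := Subring.inclusion (zb_le_valuationSubring A)
  let Q : Ideal Zb := (IsLocalRing.maximalIdeal A).comap ι
  have hQmem : ∀ y : Zb, y ∈ Q ↔ (y : Qb) ∈ A.nonunits := by
    intro y
    rw [Ideal.mem_comap, ← A.coe_mem_nonunits_iff]
    rfl
  haveI hQprime : Q.IsPrime := Ideal.comap_isPrime ι _
  let P : Ideal ℤ := Q.under ℤ
  have hℓP : (ℓ : ℤ) ∈ P := by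
    change algebraMap ℤ Zb (ℓ : ℤ) ∈ Q
    rw [hQmem]
    simpa using hA
  haveI hPprime : P.IsPrime := Ideal.comap_isPrime _ _
  have hP0 : P ≠ ⊥ := by
    intro h
    rw [h, Ideal.mem_bot] at hℓP
    exact hℓ.ne_zero (by exact_mod_cast hℓP)
  haveI hPmax : P.IsMaximal := hPprime.isMaximal hP0
  haveI : Algebra.IsIntegral ℤ Zb := Algebra.IsInvariant.isIntegral_of_profinite (G := Qb ≃ₐ[ℚ] Qb)
  haveI hQmax : Q.IsMaximal := Ideal.isMaximal_of_isIntegral_of_isMaximal_comap Q hPmax
  letI := Ideal.Quotient.field Q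
  letI := Ideal.Quotient.field P
  haveI : Fact ℓ.Prime := ⟨hℓ⟩
  haveI hchar : CharP (Zb ⧸ Q) ℓ := by
    rw [CharP.charP_iff_prime_eq_zero hℓ]
    have : ((ℓ : Zb) : Zb ⧸ Q) = 0 := by
      rw [Ideal.Quotient.eq_zero_iff_mem, hQmem]
      simpa using hA
    simpa using this
  haveI : Finite (ℤ ⧸ P) := Ideal.finiteQuotientOfFreeOfNeBot P hP0
  haveI : PerfectField (Zb ⧸ Q) := Algebra.IsAlgebraic.perfectField (ℤ ⧸ P)
  let l : (Zb ⧸ Q) ≃ₐ[ℤ ⧸ P] (Zb ⧸ Q) :=
    { frobeniusEquiv (Zb ⧸ Q) ℓ with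
      commutes' := by
        intro r
        obtain ⟨n, rfl⟩ := Ideal.Quotient.mk_surjective r
        change frobenius (Zb ⧸ Q) ℓ _ = _
        have : algebraMap (ℤ ⧸ P) (Zb ⧸ Q) (Ideal.Quotient.mk P n) = ((n : ℤ) : Zb ⧸ Q) := by
          simp
        rw [this, map_intCast] }
  obtain ⟨⟨σ, hσ⟩, hl⟩ := Ideal.Quotient.stabilizerHom_surjective_of_profinite
    (G := Qb ≃ₐ[ℚ] Qb) P Q l
  refine ⟨σ, ?_, ?_⟩
  · intro y hy
    have h1 : (σ • (⟨y, hy⟩ : Zb)) ∈ σ • Q ↔ (⟨y, hy⟩ : Zb) ∈ Q :=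
      Ideal.smul_mem_pointwise_smul_iff
    rw [MulAction.mem_stabilizer_iff.mp hσ, hQmem, hQmem] at h1
    exact h1
  · intro y hy
    have h1 := congrArg (fun e => e (Ideal.Quotient.mk Q ⟨y, hy⟩)) hl
    simp only [Ideal.Quotient.stabilizerHom_apply] at h1
    have h2 : l (Ideal.Quotient.mk Q ⟨y, hy⟩) = Ideal.Quotient.mk Q (⟨y, hy⟩ ^ ℓ) := by
      rw [map_pow]
      rfl
    rw [h2, Ideal.Quotient.eq, hQmem] at h1
    exact h1

open scoped Pointwise in
/-- **Existence of Frobenius elements** in the absolute Galois group of `ℚ`. -/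
theorem exists_isFrobeniusAt (ℓ : ℕ) (hℓ : ℓ.Prime) :
    ∃ A : ValuationSubring (AlgebraicClosure ℚ), A.LiesOverPrime ℓ ∧
      ∃ σ : AlgebraicClosure ℚ ≃ₐ[ℚ] AlgebraicClosure ℚ, A.IsFrobeniusAt σ ℓ := by
  obtain ⟨A, hA⟩ := exists_valuationSubring_liesOver ℓ hℓ
  refine ⟨A, hA, ?_⟩
  obtain ⟨σ, hσ1, hσ2⟩ := exists_frob_Zb A ℓ hℓ hA
  have hfrac : ∀ x ∈ A, ∃ s b : Qb, IsIntegral ℤ s ∧ IsIntegral ℤ b ∧ s ∉ A.nonunits ∧
      x * s = b := fun x hx =>
    exists_integral_frac A hℓ hA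
      ((IsFractionRing.isAlgebraic_iff ℤ ℚ Qb).mpr (Algebra.IsAlgebraic.isAlgebraic x)) hx
  have hval1 : ∀ s : Qb, IsIntegral ℤ s → s ∉ A.nonunits → A.valuation s = 1 := by
    intro s hs hsu
    have h1 : A.valuation s ≤ 1 :=
      (A.valuation_le_one_iff s).mpr (mem_valuationSubring_of_isIntegral A hs)
    rw [A.mem_nonunits_iff, not_lt] at hsu
    exact le_antisymm h1 hsu
  have hstab : ∀ τ : Qb ≃ₐ[ℚ] Qb,
      (∀ y, IsIntegral ℤ y → (τ y ∈ A.nonunits ↔ y ∈ A.nonunits)) → ∀ x ∈ A, τ x ∈ A := by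
    intro τ hτ x hx
    obtain ⟨s, b, hs, hb, hsu, hxs⟩ := hfrac x hx
    have hτs : A.valuation (τ s) = 1 :=
      hval1 (τ s) (hs.map τ) (fun h => hsu ((hτ s hs).mp h))
    have hτb : A.valuation (τ b) ≤ 1 :=
      (A.valuation_le_one_iff _).mpr (mem_valuationSubring_of_isIntegral A (hb.map τ))
    have h1 : τ x * τ s = τ b := by rw [← map_mul, hxs]
    rw [← A.valuation_le_one_iff]
    have h2 := congrArg A.valuation h1
    rw [map_mul, hτs, mul_one] at h2
    rw [h2]
    exact hτb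
  have hσinv : ∀ y, IsIntegral ℤ y → (σ⁻¹ y ∈ A.nonunits ↔ y ∈ A.nonunits) := by
    intro y hy
    have h1 := hσ1 (σ⁻¹ y) (hy.map σ⁻¹)
    have h2 : σ (σ⁻¹ y) = y := AlgEquiv.apply_symm_apply σ y
    rw [h2] at h1
    exact h1.symm
  have hσD : σ ∈ A.decompositionSubgroup ℚ := by
    change σ • A = A
    ext x
    rw [ValuationSubring.mem_smul_pointwise_iff_exists]
    constructor
    · rintro ⟨s, hs, rfl⟩
      exact hstab σ hσ1 s hs
    · intro hx
      refine ⟨σ⁻¹ x, hstab σ⁻¹ hσinv x hx, ?_⟩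
      exact AlgEquiv.apply_symm_apply σ x
  refine ⟨σ, hσD, ?_⟩
  intro x
  obtain ⟨a, rfl⟩ := IsLocalRing.residue_surjective x
  rw [← IsLocalRing.ResidueField.residue_smul, ← map_pow, ← sub_eq_zero, ← map_sub,
    IsLocalRing.residue_eq_zero_iff, ← A.coe_mem_nonunits_iff]
  change σ (a : Qb) - (a : Qb) ^ ℓ ∈ A.nonunits
  obtain ⟨s, b, hs, hb, hsu, hxs⟩ := hfrac a a.2
  have hvs : A.valuation s = 1 := hval1 s hs hsu
  have hvσs : A.valuation (σ s) = 1 :=
    hval1 (σ s) (hs.map σ) (fun h => hsu ((hσ1 s hs).mp h))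
  have hvb : A.valuation b ≤ 1 :=
    (A.valuation_le_one_iff _).mpr (mem_valuationSubring_of_isIntegral A hb)
  have h1 : σ (a : Qb) * σ s = σ b := by rw [← map_mul, hxs]
  have hid : (σ (a : Qb) - (a : Qb) ^ ℓ) * (σ s * s ^ ℓ) =
      (σ b - b ^ ℓ) * s ^ ℓ - b ^ ℓ * (σ s - s ^ ℓ) := by
    rw [← h1, ← hxs]
    ring
  have h2 : A.valuation ((σ b - b ^ ℓ) * s ^ ℓ - b ^ ℓ * (σ s - s ^ ℓ)) < 1 := by
    apply Valuation.map_sub_lt
    · rw [map_mul, map_pow, hvs, one_pow, mul_one]
      exact A.mem_nonunits_iff.mp (hσ2 b hb)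
    · rw [map_mul, map_pow]
      calc A.valuation b ^ ℓ * A.valuation (σ s - s ^ ℓ)
          ≤ 1 * A.valuation (σ s - s ^ ℓ) := by
            gcongr
            exact pow_le_one₀ zero_le hvb
        _ = A.valuation (σ s - s ^ ℓ) := one_mul _
        _ < 1 := A.mem_nonunits_iff.mp (hσ2 s hs)
  rw [← hid, map_mul, map_mul, map_pow, hvs, hvσs, one_pow, mul_one, mul_one] at h2
  exact A.mem_nonunits_iff.mpr h2

end Fermat.Agent.H8
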