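import Mathlib
import Fermat.Prelude.Def_FLTPrelim_Ramification
import Fermat.Agent.Lib.H8_Frobenius

/-!
# WP-M (S13): a nontrivial finite quotient of `Gal(Qb/ℚ)` is ramified somewhere

`gm_ramified`: if `U` is a proper normal subgroup of `Gal(Qb/ℚ)` containing the pointwise
stabiliser of a finite set, then there is a prime `ℓ` such that for every valuation subring
`A` of `Qb` over `ℓ` the inertia group of `A` is not contained in `U`.
(Minkowski's theorem plus lifting of inertia along `Gal(Qb/ℚ) → Gal(M/ℚ)`.)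
-/

set_option autoImplicit false

namespace Fermat.Agent.GM

open Fermat.Agent.H8

local notation "Qb" => AlgebraicClosure ℚ
local notation "GQ" => (AlgebraicClosure ℚ ≃ₐ[ℚ] AlgebraicClosure ℚ)

attribute [local instance] isAlgebraic_Qb isAlgClosure_Qb isGalois_Qb

/-- The field cut out by `U`: finite Galois over `ℚ`, of degree `> 1`, with group `U`. -/
theorem gm_field (U : Subgroup GQ) [hUn : U.Normal] (S : Finset Qb)
    (hS : ∀ σ : GQ, (∀ s ∈ S, σ s = s) → σ ∈ U) (hU : U ≠ ⊤) :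
    ∃ M : IntermediateField ℚ Qb, M.fixingSubgroup = U ∧ FiniteDimensional ℚ M ∧ IsGalois ℚ M ∧
      1 < Module.finrank ℚ M := by
  classical
  let E₀ : IntermediateField ℚ Qb := IntermediateField.adjoin ℚ (S : Set Qb)
  have : FiniteDimensional ℚ E₀ :=
    IntermediateField.finiteDimensional_adjoin (fun x _ => Algebra.IsIntegral.isIntegral x)
  have hE₀U : E₀.fixingSubgroup ≤ U := by
    intro σ hσ
    apply hS
    intro s hs
    exact (IntermediateField.mem_fixingSubgroup_iff _ _).mp hσ s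
      (IntermediateField.subset_adjoin ℚ _ hs)
  have hUopen : IsOpen (U : Set GQ) := Subgroup.isOpen_mono hE₀U E₀.fixingSubgroup_isOpen
  have hUclosed : IsClosed (U : Set GQ) := Subgroup.isClosed_of_isOpen U hUopen
  let Uc : ClosedSubgroup GQ := ⟨U, hUclosed⟩
  let M : IntermediateField ℚ Qb := IntermediateField.fixedField U
  have hMU : M.fixingSubgroup = U := InfiniteGalois.fixingSubgroup_fixedField Uc
  have hfin : FiniteDimensional ℚ M := by
    rw [← InfiniteGalois.isOpen_iff_finite, hMU]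
    exact hUopen
  have hgal : IsGalois ℚ M := by
    have h := (InfiniteGalois.normal_iff_isGalois M).mp (by rw [hMU]; exact hUn)
    exact h
  refine ⟨M, hMU, hfin, hgal, ?_⟩
  by_contra hcon
  have hpos : 0 < Module.finrank ℚ M := Module.finrank_pos
  have h1 : Module.finrank ℚ M = 1 := by omega
  have hbot : M = ⊥ := IntermediateField.finrank_eq_one_iff.mp h1
  apply hU
  rw [← hMU, hbot, IntermediateField.fixingSubgroup_bot]

open NumberField in
/-- Minkowski + the finite-level inertia element. -/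
theorem gm_finite (M : IntermediateField ℚ Qb) [FiniteDimensional ℚ M] [IsGalois ℚ M]
    (h1 : 1 < Module.finrank ℚ M) :
    ∃ ℓ : ℕ, ℓ.Prime ∧ ∀ A : ValuationSubring Qb, A.LiesOverPrime ℓ →
      ∃ g : M ≃ₐ[ℚ] M, g ≠ 1 ∧
        ∀ m : M, IsIntegral ℤ m → ((g m : M) : Qb) - (m : Qb) ∈ A.nonunits := by
  have hNF : NumberField M := ⟨⟩
  obtain ⟨ℓ, hℓ, H⟩ := NumberField.exists_not_isUnramifiedAt_int_of_isGalois (K := M)
    (𝒪 := 𝓞 M) h1
  refine ⟨ℓ, hℓ, fun A hA => ?_⟩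
  -- the prime of `𝓞 M` below `A`
  have hint : ∀ x : 𝓞 M, IsIntegral ℤ (((x : M) : Qb)) := fun x =>
    (NumberField.RingOfIntegers.isIntegral_coe x).map (IsScalarTower.toAlgHom ℤ M Qb)
  let ι₀ : 𝓞 M →+* Zb :=
    RingHom.codRestrict ((algebraMap M Qb).comp (algebraMap (𝓞 M) M)) Zb hint
  let ι : 𝓞 M →+* A := (Subring.inclusion (zb_le_valuationSubring A)).comp ι₀
  let P : Ideal (𝓞 M) := (IsLocalRing.maximalIdeal A).comap ι
  have hPmem : ∀ x : 𝓞 M, x ∈ P ↔ ((x : M) : Qb) ∈ A.nonunits := by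
    intro x
    rw [Ideal.mem_comap, ← A.coe_mem_nonunits_iff]
    rfl
  have hPprime : P.IsPrime := Ideal.comap_isPrime ι _
  have hℓP : ((ℓ : ℕ) : 𝓞 M) ∈ P := by
    rw [hPmem]
    have hA' : ((ℓ : ℕ) : Qb) ∈ A.nonunits := hA
    simpa using hA'
  have hram := H P hPprime hℓP
  -- the inertia group of `P` is nontrivial
  have := IsIntegralClosure.isDedekindDomain ℤ ℚ M (𝓞 M)
  have := IsIntegralClosure.isFractionRing_of_finite_extension ℤ ℚ M (𝓞 M)
  have := IsIntegralClosure.finite ℤ ℚ M (𝓞 M)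
  let _ : MulSemiringAction (M ≃ₐ[ℚ] M) (𝓞 M) := IsIntegralClosure.MulSemiringAction ℤ ℚ M (𝓞 M)
  have := IsGaloisGroup.of_isFractionRing (M ≃ₐ[ℚ] M) ℤ (𝓞 M) ℚ M
  have hcard : Nat.card (P.inertia (M ≃ₐ[ℚ] M)) ≠ 1 := by
    rw [Ideal.card_inertia_eq_ramificationIdxIn (P.under ℤ) P,
      Ideal.ramificationIdxIn_eq_ramificationIdx (P.under ℤ) P (M ≃ₐ[ℚ] M),
      Ne, Ideal.ramificationIdx_eq_one_iff]
    exact hram
  obtain ⟨g, hg, hg1⟩ : ∃ g ∈ P.inertia (M ≃ₐ[ℚ] M), g ≠ 1 := by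
    by_contra hcon
    push Not at hcon
    apply hcard
    rw [← Subgroup.eq_bot_iff_card, Subgroup.eq_bot_iff_forall]
    exact hcon
  refine ⟨g, hg1, fun m hm => ?_⟩
  obtain ⟨x, rfl⟩ : ∃ x : 𝓞 M, (x : M) = m := ⟨⟨m, hm⟩, rfl⟩
  have h2 := (hPmem (g • x - x)).mp (hg x)
  have h3 : ((g • x : 𝓞 M) : M) = g (x : M) :=
    algebraMap_galRestrict_apply ℤ g x
  rw [← h3]
  simpa using h2

theorem nonunits_sub {A : ValuationSubring Qb} {a b : Qb} (ha : a ∈ A.nonunits)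
    (hb : b ∈ A.nonunits) : a - b ∈ A.nonunits := by
  rw [A.mem_nonunits_iff] at ha hb ⊢
  exact Valuation.map_sub_lt _ ha hb

theorem nonunits_add {A : ValuationSubring Qb} {a b : Qb} (ha : a ∈ A.nonunits)
    (hb : b ∈ A.nonunits) : a + b ∈ A.nonunits := by
  rw [A.mem_nonunits_iff] at ha hb ⊢
  exact Valuation.map_add_lt _ ha hb

theorem nonunits_iff_of_sub {A : ValuationSubring Qb} {a b : Qb} (h : a - b ∈ A.nonunits) :
    a ∈ A.nonunits ↔ b ∈ A.nonunits := by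
  constructor
  · intro ha
    have := nonunits_sub ha h
    simpa using this
  · intro hb
    have := nonunits_add h hb
    simpa using this

theorem mul_mem_nonunits_of_mem {A : ValuationSubring Qb} {a b : Qb} (ha : a ∈ A)
    (hb : b ∈ A.nonunits) : a * b ∈ A.nonunits := by
  rw [A.mem_nonunits_iff] at hb ⊢
  rw [map_mul]
  have h1 : A.valuation a ≤ 1 := (A.valuation_le_one_iff a).mpr ha
  calc A.valuation a * A.valuation b ≤ 1 * A.valuation b := by gcongr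
    _ = A.valuation b := one_mul _
    _ < 1 := hb

open scoped Pointwise in
/-- An automorphism acting trivially on the algebraic integers modulo the maximal ideal of `A`
lies in the inertia group of `A`. -/
theorem mem_inertiaSubgroupIn_of_integral (A : ValuationSubring Qb) (ℓ : ℕ) (hℓ : ℓ.Prime)
    (hA : A.LiesOverPrime ℓ) (σ : GQ)
    (h : ∀ y : Qb, IsIntegral ℤ y → σ y - y ∈ A.nonunits) : σ ∈ A.inertiaSubgroupIn ℚ := by
  have hA' : ((ℓ : ℕ) : Qb) ∈ A.nonunits := hA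
  have hσ1 : ∀ y : Qb, IsIntegral ℤ y → (σ y ∈ A.nonunits ↔ y ∈ A.nonunits) :=
    fun y hy => nonunits_iff_of_sub (h y hy)
  have hfrac : ∀ x ∈ A, ∃ s b : Qb, IsIntegral ℤ s ∧ IsIntegral ℤ b ∧ s ∉ A.nonunits ∧
      x * s = b := fun x hx =>
    exists_integral_frac A hℓ hA'
      ((IsFractionRing.isAlgebraic_iff ℤ ℚ Qb).mpr (Algebra.IsAlgebraic.isAlgebraic x)) hx
  have hval1 : ∀ s : Qb, IsIntegral ℤ s → s ∉ A.nonunits → A.valuation s = 1 := by
    intro s hs hsu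
    have h1 : A.valuation s ≤ 1 :=
      (A.valuation_le_one_iff s).mpr (mem_valuationSubring_of_isIntegral A hs)
    rw [A.mem_nonunits_iff, not_lt] at hsu
    exact le_antisymm h1 hsu
  have hstab : ∀ τ : GQ,
      (∀ y, IsIntegral ℤ y → (τ y ∈ A.nonunits ↔ y ∈ A.nonunits)) → ∀ x ∈ A, τ x ∈ A := by
    intro τ hτ x hx
    obtain ⟨s, b, hs, hb, hsu, hxs⟩ := hfrac x hx
    have hτs : A.valuation (τ s) = 1 :=
      hval1 (τ s) (hs.map τ) (fun h => hsu ((hτ s hs).mp h))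
    have hτb : A.valuation (τ b) ≤ 1 :=
      (A.valuation_le_one_iff _).mpr (mem_valuationSubring_of_isIntegral A (hb.map τ))
    have h1 : τ x * τ s = τ b := by rw [← map_mul, hxs]
    rw [← A.valuation_le_one_iff]
    have h2 := congrArg A.valuation h1
    rw [map_mul, hτs, mul_one] at h2
    rw [h2]
    exact hτb
  have hσinv : ∀ y, IsIntegral ℤ y → (σ⁻¹ y ∈ A.nonunits ↔ y ∈ A.nonunits) := by
    intro y hy
    have h1 := hσ1 (σ⁻¹ y) (hy.map σ⁻¹)
    have h2 : σ (σ⁻¹ y) = y := AlgEquiv.apply_symm_apply σ y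
    rw [h2] at h1
    exact h1.symm
  have hσD : σ ∈ A.decompositionSubgroup ℚ := by
    change σ • A = A
    ext x
    rw [ValuationSubring.mem_smul_pointwise_iff_exists]
    constructor
    · rintro ⟨s, hs, rfl⟩
      exact hstab σ hσ1 s hs
    · intro hx
      refine ⟨σ⁻¹ x, hstab σ⁻¹ hσinv x hx, ?_⟩
      exact AlgEquiv.apply_symm_apply σ x
  have hres : ∀ a : Qb, a ∈ A → σ a - a ∈ A.nonunits := by
    intro a ha
    obtain ⟨s, b, hs, hb, hsu, hxs⟩ := hfrac a ha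
    have hvs : A.valuation s = 1 := hval1 s hs hsu
    have hvσs : A.valuation (σ s) = 1 :=
      hval1 (σ s) (hs.map σ) (fun h => hsu ((hσ1 s hs).mp h))
    have h1 : σ a * σ s = σ b := by rw [← map_mul, hxs]
    have hid : (σ a - a) * (σ s * s) = (σ b - b) * s - b * (σ s - s) := by
      rw [← h1, ← hxs]
      ring
    have h2 : A.valuation ((σ b - b) * s - b * (σ s - s)) < 1 := by
      have e1 : (σ b - b) * s ∈ A.nonunits := by
        rw [mul_comm]
        exact mul_mem_nonunits_of_mem (mem_valuationSubring_of_isIntegral A hs) (h b hb)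
      have e2 : b * (σ s - s) ∈ A.nonunits :=
        mul_mem_nonunits_of_mem (mem_valuationSubring_of_isIntegral A hb) (h s hs)
      exact A.mem_nonunits_iff.mp (nonunits_sub e1 e2)
    rw [← hid, map_mul, map_mul, hvs, hvσs, mul_one, mul_one] at h2
    exact A.mem_nonunits_iff.mpr h2
  refine Subgroup.mem_map.mpr ⟨⟨σ, hσD⟩, ?_, rfl⟩
  change (⟨σ, hσD⟩ : A.decompositionSubgroup ℚ) ∈
    MonoidHom.ker (MulSemiringAction.toRingAut (A.decompositionSubgroup ℚ)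
      (IsLocalRing.ResidueField A))
  rw [MonoidHom.mem_ker]
  ext x
  obtain ⟨a, rfl⟩ := IsLocalRing.residue_surjective x
  change (⟨σ, hσD⟩ : A.decompositionSubgroup ℚ) • IsLocalRing.residue A a = IsLocalRing.residue A a
  rw [← IsLocalRing.ResidueField.residue_smul, ← sub_eq_zero, ← map_sub,
    IsLocalRing.residue_eq_zero_iff, ← A.coe_mem_nonunits_iff]
  exact hres (a : Qb) a.2

theorem nonunits_sub_comm {A : ValuationSubring Qb} {a b : Qb} (h : a - b ∈ A.nonunits) :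
    b - a ∈ A.nonunits := by
  rw [A.mem_nonunits_iff] at h ⊢
  rwa [Valuation.map_sub_swap]

set_option linter.style.haveILetI false in
set_option maxHeartbeats 800000 in
set_option synthInstance.maxHeartbeats 200000 in
open scoped Pointwise in
/-- Lifting a finite-level inertia element to the inertia group of `A`. -/
theorem gm_lift (M : IntermediateField ℚ Qb) [FiniteDimensional ℚ M] [IsGalois ℚ M]
    (A : ValuationSubring Qb) (ℓ : ℕ) (hℓ : ℓ.Prime) (hA : A.LiesOverPrime ℓ)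
    (g : M ≃ₐ[ℚ] M)
    (hg : ∀ m : M, IsIntegral ℤ m → ((g m : M) : Qb) - (m : Qb) ∈ A.nonunits) :
    ∃ σ : GQ, σ ∈ A.inertiaSubgroupIn ℚ ∧ ∀ m : M, σ (m : Qb) = ((g m : M) : Qb) := by
  classical
  letI : TopologicalSpace Zb := ⊥
  haveI : DiscreteTopology Zb := ⟨rfl⟩
  haveI : ContinuousSMul GQ Zb := continuousSMul_Zb
  -- the subgroup `H = Gal(Qb/M)`
  let H : Subgroup GQ := M.fixingSubgroup
  have hHclosed : IsClosed (H : Set GQ) := InfiniteGalois.fixingSubgroup_isClosed M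
  haveI : CompactSpace H := isCompact_iff_compactSpace.mp hHclosed.isCompact
  have hHfix : ∀ (τ : H) (m : M), (τ : GQ) (m : Qb) = (m : Qb) := fun τ m =>
    (IntermediateField.mem_fixingSubgroup_iff M _).mp τ.2 m m.2
  -- the ring of `H`-invariant algebraic integers
  let O' : Subring Zb := FixedPoints.subring Zb H
  haveI : SMulCommClass H O' Zb := ⟨fun τ a b => by
    change τ • ((a : Zb) * b) = (a : Zb) * τ • b
    rw [smul_mul', a.2 τ]⟩
  haveI : Algebra.IsInvariant O' Zb H := ⟨fun b hb => ⟨⟨b, hb⟩, rfl⟩⟩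
  have hO'M : ∀ x : Zb, x ∈ O' → ∃ m : M, IsIntegral ℤ m ∧ (m : Qb) = (x : Qb) := by
    intro x hx
    have h1 : (x : Qb) ∈ IntermediateField.fixedField M.fixingSubgroup := by
      rw [IntermediateField.mem_fixedField_iff]
      intro f hf
      exact congrArg Subtype.val (hx ⟨f, hf⟩)
    rw [InfiniteGalois.fixedField_fixingSubgroup] at h1
    refine ⟨⟨x, h1⟩, ?_, rfl⟩
    exact (isIntegral_algebraMap_iff (algebraMap M Qb).injective).mp x.2
  -- a lift of `g`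
  let σ₀ : GQ := g.liftNormal Qb
  have hσ₀ : ∀ m : M, σ₀ (m : Qb) = ((g m : M) : Qb) := fun m =>
    AlgEquiv.liftNormal_commutes g Qb m
  have hσ₀inv : ∀ m : M, σ₀⁻¹ (m : Qb) = ((g.symm m : M) : Qb) := by
    intro m
    have h1 := hσ₀ (g.symm m)
    rw [AlgEquiv.apply_symm_apply] at h1
    rw [← h1]
    exact AlgEquiv.symm_apply_apply σ₀ _
  have hkey : ∀ x : Zb, x ∈ O' → σ₀ (x : Qb) - (x : Qb) ∈ A.nonunits := by
    intro x hx
    obtain ⟨m, hm, hmx⟩ := hO'M x hx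
    rw [← hmx, hσ₀]
    exact hg m hm
  have hkey' : ∀ x : Zb, x ∈ O' → σ₀⁻¹ (x : Qb) - (x : Qb) ∈ A.nonunits := by
    intro x hx
    obtain ⟨m, hm, hmx⟩ := hO'M x hx
    have h1 := hg (g.symm m) (hm.map g.symm)
    rw [AlgEquiv.apply_symm_apply] at h1
    rw [← hmx, hσ₀inv]
    exact nonunits_sub_comm h1
  -- the primes
  let ι : Zb →+* A := Subring.inclusion (zb_le_valuationSubring A)
  let Q : Ideal Zb := (IsLocalRing.maximalIdeal A).comap ι
  have hQmem : ∀ y : Zb, y ∈ Q ↔ (y : Qb) ∈ A.nonunits := by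
    intro y
    rw [Ideal.mem_comap, ← A.coe_mem_nonunits_iff]
    rfl
  haveI hQprime : Q.IsPrime := Ideal.comap_isPrime ι _
  let Q₀ : Ideal Zb := Q.comap (MulSemiringAction.toRingHom GQ Zb σ₀⁻¹)
  haveI hQ₀prime : Q₀.IsPrime := Ideal.comap_isPrime _ _
  have hQ₀mem : ∀ y : Zb, y ∈ Q₀ ↔ σ₀⁻¹ (y : Qb) ∈ A.nonunits := by
    intro y
    rw [Ideal.mem_comap, hQmem]
    rfl
  have hunder : Q₀.under O' = Q.under O' := by
    ext x
    rw [Ideal.under_def, Ideal.under_def, Ideal.mem_comap, Ideal.mem_comap]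
    change (x : Zb) ∈ Q₀ ↔ (x : Zb) ∈ Q
    rw [hQ₀mem, hQmem]
    exact nonunits_iff_of_sub (hkey' x x.2)
  obtain ⟨τ, hτ⟩ := Algebra.IsInvariant.exists_smul_of_under_eq_of_profinite (A := O') (G := H)
    Q₀ Q hunder
  let σ₁ : GQ := (τ : GQ) * σ₀
  have hσ₁Q : ∀ y : Zb, (σ₁ (y : Qb) ∈ A.nonunits ↔ (y : Qb) ∈ A.nonunits) := by
    intro y
    have h1 : (σ₁ • y : Zb) ∈ Q ↔ τ⁻¹ • (σ₁ • y : Zb) ∈ Q₀ := by
      conv_lhs => rw [hτ]
      exact Ideal.mem_pointwise_smul_iff_inv_smul_mem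
    rw [hQmem, hQ₀mem] at h1
    have h2 : σ₀⁻¹ (((τ⁻¹ • (σ₁ • y : Zb) : Zb)) : Qb) = (y : Qb) := by
      change σ₀⁻¹ ((τ : GQ)⁻¹ (((τ : GQ) * σ₀) (y : Qb))) = (y : Qb)
      simp [AlgEquiv.mul_apply]
    rw [h2] at h1
    exact h1
  have hσ₁stab : σ₁ ∈ MulAction.stabilizer GQ Q := by
    rw [MulAction.mem_stabilizer_iff]
    ext y
    rw [Ideal.mem_pointwise_smul_iff_inv_smul_mem, hQmem, hQmem]
    have h1 := hσ₁Q (σ₁⁻¹ • y)
    have h2 : σ₁ (((σ₁⁻¹ • y : Zb)) : Qb) = (y : Qb) := by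
      change σ₁ (σ₁⁻¹ (y : Qb)) = (y : Qb)
      exact AlgEquiv.apply_symm_apply σ₁ _
    rw [h2] at h1
    exact h1.symm
  -- `σ₁` agrees with `g` on `M`
  have hσ₁M : ∀ m : M, σ₁ (m : Qb) = ((g m : M) : Qb) := by
    intro m
    change (τ : GQ) (σ₀ (m : Qb)) = _
    rw [hσ₀, hHfix]
  -- the induced automorphism of the residue field
  let φ : (Zb ⧸ Q) ≃ₐ[ℤ ⧸ Q.under ℤ] (Zb ⧸ Q) :=
    Ideal.Quotient.stabilizerHom Q (Q.under ℤ) GQ ⟨σ₁, hσ₁stab⟩
  have hφ : ∀ y : Zb, φ (Ideal.Quotient.mk Q y) = Ideal.Quotient.mk Q (σ₁ • y) := fun y => rfl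
  let φ' : (Zb ⧸ Q) ≃ₐ[O' ⧸ Q.under O'] (Zb ⧸ Q) :=
    AlgEquiv.ofRingEquiv (f := φ.toRingEquiv) (by
      intro x
      obtain ⟨x, rfl⟩ := Ideal.Quotient.mk_surjective x
      rw [Ideal.Quotient.algebraMap_mk_of_liesOver]
      change φ (Ideal.Quotient.mk Q (x : Zb)) = Ideal.Quotient.mk Q (x : Zb)
      rw [hφ, Ideal.Quotient.eq, hQmem]
      obtain ⟨m, hm, hmx⟩ := hO'M x x.2
      change σ₁ ((x : Zb) : Qb) - ((x : Zb) : Qb) ∈ A.nonunits
      rw [← hmx, hσ₁M]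
      exact hg m hm)
  obtain ⟨⟨τ', hτ'⟩, hτ'φ⟩ :=
    Ideal.Quotient.stabilizerHom_surjective_of_profinite (G := H) (Q.under O') Q φ'
  have hτ'Q : ∀ y : Zb, (τ' : GQ) (y : Qb) - σ₁ (y : Qb) ∈ A.nonunits := by
    intro y
    have h1 := DFunLike.congr_fun hτ'φ (Ideal.Quotient.mk Q y)
    have h2 : Ideal.Quotient.mk Q (τ' • y) = Ideal.Quotient.mk Q (σ₁ • y) := h1
    rw [Ideal.Quotient.eq, hQmem] at h2
    exact h2
  have hτ'inv : ∀ z : Zb, (z : Qb) ∈ A.nonunits → (τ' : GQ)⁻¹ (z : Qb) ∈ A.nonunits := by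
    intro z hz
    have h0 : τ' • Q = Q := hτ'
    have h1 : z ∈ τ' • Q := by
      rw [h0]
      exact (hQmem z).mpr hz
    have h2 : τ'⁻¹ • z ∈ Q := Ideal.mem_pointwise_smul_iff_inv_smul_mem.mp h1
    rw [hQmem] at h2
    exact h2
  let σ : GQ := (τ' : GQ)⁻¹ * σ₁
  refine ⟨σ, ?_, ?_⟩
  · apply mem_inertiaSubgroupIn_of_integral A ℓ hℓ hA σ
    intro y hy
    have h1 := hτ'Q ⟨y, hy⟩
    have h2 := hτ'inv (σ₁ • (⟨y, hy⟩ : Zb) - τ' • (⟨y, hy⟩ : Zb)) (nonunits_sub_comm h1)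
    have h3 : (τ' : GQ)⁻¹ ((σ₁ • (⟨y, hy⟩ : Zb) - τ' • (⟨y, hy⟩ : Zb) : Zb) : Qb) = σ y - y := by
      change (τ' : GQ)⁻¹ (σ₁ y - (τ' : GQ) y) = (τ' : GQ)⁻¹ (σ₁ y) - y
      rw [map_sub]
      congr 1
      exact AlgEquiv.symm_apply_apply (τ' : GQ) y
    rw [h3] at h2
    exact h2
  · intro m
    change (τ' : GQ)⁻¹ (σ₁ (m : Qb)) = _
    rw [hσ₁M]
    have h1 := hHfix τ'⁻¹ (g m)
    exact h1

/-- **WP-M**: a proper normal subgroup of `Gal(Qb/ℚ)` containing the pointwise stabiliser of a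
finite set fails to contain some inertia group at every place over a suitable prime `ℓ`. -/
theorem gm_ramified (U : Subgroup (AlgebraicClosure ℚ ≃ₐ[ℚ] AlgebraicClosure ℚ)) [U.Normal]
    (S : Finset (AlgebraicClosure ℚ))
    (hS : ∀ σ : AlgebraicClosure ℚ ≃ₐ[ℚ] AlgebraicClosure ℚ, (∀ s ∈ S, σ s = s) → σ ∈ U)
    (hU : U ≠ ⊤) :
    ∃ ℓ : ℕ, ℓ.Prime ∧ ∀ A : ValuationSubring (AlgebraicClosure ℚ), A.LiesOverPrime ℓ →
      ∃ σ ∈ A.inertiaSubgroupIn ℚ, σ ∉ U := by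
  obtain ⟨M, hMU, hfin, hgal, h1⟩ := gm_field U S hS hU
  obtain ⟨ℓ, hℓ, H⟩ := gm_finite M h1
  refine ⟨ℓ, hℓ, fun A hA => ?_⟩
  obtain ⟨g, hg1, hg⟩ := H A hA
  obtain ⟨σ, hσI, hσg⟩ := gm_lift M A ℓ hℓ hA g hg
  refine ⟨σ, hσI, fun hσU => hg1 ?_⟩
  rw [← hMU] at hσU
  ext m
  have h2 := (IntermediateField.mem_fixingSubgroup_iff M σ).mp hσU m m.2
  rw [hσg m] at h2
  exact h2

end Fermat.Agent.GM
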