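import Mathlib
import Fermat.Prelude.Def_ExtCitation_AdmissibleExtension_v2
import Fermat.Agent.Lib.C14_Defs
import Fermat.Agent.Lib.C14_T_Group
import Fermat.Agent.Lib.GM_Main

/-!
# S14, leaf T (part 2): from the group data to number fields
-/

set_option autoImplicit false
set_option linter.unusedSectionVars false

open scoped NumberField
open IsDedekindDomain Module

namespace C14

open Fermat.Agent.H8 Fermat.Agent.GM

local notation "Qb" => AlgebraicClosure ℚ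
local notation "GQ" => (AlgebraicClosure ℚ ≃ₐ[ℚ] AlgebraicClosure ℚ)

attribute [local instance] isAlgebraic_Qb isAlgClosure_Qb isGalois_Qb

variable (p : ℕ) [Fact p.Prime]

/-- `χ(σ) = a` as soon as `σ ζ = ζ ^ a` for a primitive `p`-th root of unity `ζ`. -/
theorem t_chiU_eq_of_apply {ζ : Qb} (hζ : IsPrimitiveRoot ζ p) (σ : GQ) (a : ℕ)
    (h : σ ζ = ζ ^ a) : (t_chiU p σ : ZMod p) = (a : ZMod p) := by
  have h1 := t_apply_root p σ hζ.pow_eq_one
  rw [h] at h1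
  have hp : p.Prime := Fact.out
  have h2 : a ≡ ExtCitation.cycloExp p σ [MOD p] := by
    have h3 := (hζ.isOfFinOrder hp.ne_zero).pow_eq_pow_iff_modEq.mp h1
    rwa [← hζ.eq_orderOf] at h3
  rw [← t_cycloExp_cast]
  exact ((ZMod.natCast_eq_natCast_iff _ _ _).mpr h2).symm

theorem t_chiU_eq_one_iff {ζ : Qb} (hζ : IsPrimitiveRoot ζ p) (σ : GQ) :
    t_chiU p σ = 1 ↔ σ ζ = ζ := by
  have hp : p.Prime := Fact.out
  constructor
  · intro h
    have h1 := t_apply_root p σ hζ.pow_eq_one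
    rw [← t_chiU_val, h, Units.val_one, ZMod.val_one'' (by
      intro h'; exact hp.one_lt.ne' h'), pow_one] at h1
    exact h1
  · intro h
    have h1 := t_chiU_eq_of_apply p hζ σ 1 (by rw [pow_one]; exact h)
    exact Units.ext (by rw [h1]; simp)

/-- `[ker χ : N] = p`. -/
theorem t_relIndex (N : Subgroup GQ) (α : GQ → ZMod p)
    (hN : ∀ σ, σ ∈ N ↔ t_chiU p σ = 1 ∧ α σ = 0)
    (hadd : ∀ σ τ, t_chiU p τ = 1 → α (σ * τ) = α σ + α τ)
    (hnt : ∃ σ, t_chiU p σ = 1 ∧ α σ ≠ 0) :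
    N.relIndex (t_chiU p).ker = p := by
  have hp : p.Prime := Fact.out
  have h1 : α 1 = 0 := ((hN 1).mp N.one_mem).2
  let φ : (t_chiU p).ker →* Multiplicative (ZMod p) :=
    { toFun := fun σ => Multiplicative.ofAdd (α σ)
      map_one' := by
        change Multiplicative.ofAdd (α 1) = 1
        rw [h1]; rfl
      map_mul' := fun σ τ => by
        rw [← ofAdd_add]
        congr 1
        exact hadd σ τ (MonoidHom.mem_ker.mp τ.2) }
  have hφ : ∀ σ : (t_chiU p).ker, φ σ = Multiplicative.ofAdd (α σ) := fun σ => rfl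
  have hker : φ.ker = N.subgroupOf (t_chiU p).ker := by
    ext σ
    rw [MonoidHom.mem_ker, Subgroup.mem_subgroupOf, hN, hφ]
    constructor
    · intro h
      exact ⟨MonoidHom.mem_ker.mp σ.2, h⟩
    · intro h
      exact congrArg Multiplicative.ofAdd h.2
  have hsurj : Function.Surjective φ := by
    obtain ⟨σ₀, hσ₀, hα₀⟩ := hnt
    intro k
    let σ₀' : (t_chiU p).ker := ⟨σ₀, MonoidHom.mem_ker.mpr hσ₀⟩
    refine ⟨σ₀' ^ (Multiplicative.toAdd k * (α σ₀)⁻¹).val, ?_⟩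
    have : NeZero p := ⟨hp.ne_zero⟩
    rw [map_pow, hφ]
    change Multiplicative.ofAdd (α σ₀) ^ _ = k
    rw [← ofAdd_nsmul, nsmul_eq_mul, ZMod.natCast_zmod_val, mul_assoc, inv_mul_cancel₀ hα₀,
      mul_one]
    rfl
  rw [Subgroup.relIndex, ← hker, Subgroup.index_ker, MonoidHom.range_eq_top.mpr hsurj,
    Nat.card_congr (Subgroup.topEquiv (G := Multiplicative (ZMod p))).toEquiv]
  change Nat.card (ZMod p) = p
  rw [Nat.card_zmod]

/-- The commutator relation `τ g^a τ⁻¹ g⁻¹ ∈ N` when `χ(g) = 1` and `χ(τ) = a`. -/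
theorem t_comm_mem (N : Subgroup GQ) (α : GQ → ZMod p)
    (hN : ∀ σ, σ ∈ N ↔ t_chiU p σ = 1 ∧ α σ = 0)
    (hadd : ∀ σ τ, t_chiU p τ = 1 → α (σ * τ) = α σ + α τ)
    (hconj : ∀ τ σ, t_chiU p σ = 1 →
        α (τ * σ * τ⁻¹) = (((t_chiU p τ)⁻¹ : (ZMod p)ˣ) : ZMod p) * α σ)
    (τ g : GQ) (a : ℕ) (hg : t_chiU p g = 1) (hτ : (t_chiU p τ : ZMod p) = (a : ZMod p)) :
    τ * g ^ a * τ⁻¹ * g⁻¹ ∈ N := by
  have h1 : α 1 = 0 := ((hN 1).mp N.one_mem).2
  have hga : t_chiU p (g ^ a) = 1 := by rw [map_pow, hg, one_pow]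
  have hginv : t_chiU p g⁻¹ = 1 := by rw [map_inv, hg, inv_one]
  have hpow : ∀ n : ℕ, α (g ^ n) = (n : ZMod p) * α g := by
    intro n
    induction n with
    | zero => simp [h1]
    | succ n ih => rw [pow_succ, hadd _ _ hg, ih]; push_cast; ring
  have hinv : α g⁻¹ = -α g := by
    have h2 := hadd g g⁻¹ hginv
    rw [mul_inv_cancel, h1] at h2
    linear_combination -h2
  rw [hN]
  constructor
  · rw [map_mul, map_mul, map_mul, hga, hginv, map_inv]
    simp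
  · rw [hadd _ _ hginv, hconj τ _ hga, hpow, hinv, ← hτ, ← mul_assoc, ← Units.val_mul,
      inv_mul_cancel, Units.val_one, one_mul, add_neg_cancel]

/-- Trivial inertia (elementwise) implies ramification index one. -/
theorem t_ramIdx_eq_one (K L : Type) [Field K] [Field L] [NumberField K] [NumberField L]
    [Algebra K L] [IsGalois K L] (w : Ideal (𝓞 L)) [hwp : w.IsPrime]
    (h : ∀ g : L ≃ₐ[K] L, (∀ x : 𝓞 L, ∃ y ∈ w, (y : L) = g x - x) → g = 1) :
    w.ramificationIdx (𝓞 K) = 1 := by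
  let _ : MulSemiringAction (L ≃ₐ[K] L) (𝓞 L) :=
    IsIntegralClosure.MulSemiringAction (𝓞 K) K L (𝓞 L)
  have := IsGaloisGroup.of_isFractionRing (L ≃ₐ[K] L) (𝓞 K) (𝓞 L) K L
  have hcard : Nat.card (w.inertia (L ≃ₐ[K] L)) = 1 := by
    rw [← Subgroup.eq_bot_iff_card, Subgroup.eq_bot_iff_forall]
    intro g hg
    apply h g
    intro x
    refine ⟨g • x - x, hg x, ?_⟩
    have h3 : ((g • x : 𝓞 L) : L) = g (x : L) := algebraMap_galRestrict_apply (𝓞 K) g x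
    rw [← h3]
    simp
  rw [← Ideal.ramificationIdxIn_eq_ramificationIdx (w.under (𝓞 K)) w (L ≃ₐ[K] L),
    ← Ideal.card_inertia_eq_ramificationIdxIn (G := L ≃ₐ[K] L) (w.under (𝓞 K)) w]
  exact hcard

section Field

variable {p}
variable (L₀ : IntermediateField ℚ (AlgebraicClosure ℚ))

theorem t_fix_iff {ζ : Qb} (hζL : ζ ∈ L₀) (g : L₀ ≃ₐ[ℚ] L₀) :
    g ∈ (IntermediateField.adjoin ℚ {(⟨ζ, hζL⟩ : L₀)}).fixingSubgroup ↔
      g ⟨ζ, hζL⟩ = ⟨ζ, hζL⟩ := by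
  rw [IntermediateField.mem_fixingSubgroup_iff]
  constructor
  · intro h
    exact h _ (IntermediateField.subset_adjoin ℚ _ (Set.mem_singleton _))
  · intro h x hx
    induction hx using IntermediateField.adjoin_induction with
    | mem x hx => rw [Set.mem_singleton_iff.mp hx]; exact h
    | algebraMap x => exact g.commutes x
    | add x y _ _ hx hy => rw [map_add, hx, hy]
    | inv x _ hx => rw [map_inv₀, hx]
    | mul x y _ _ hx hy => rw [map_mul, hx, hy]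

variable [FiniteDimensional ℚ L₀] [IsGalois ℚ L₀]

theorem t_restrict_apply (σ : GQ) (x : L₀) :
    ((AlgEquiv.restrictNormalHom (F := ℚ) (K₁ := Qb) L₀ σ x : L₀) : Qb) = σ (x : Qb) :=
  AlgEquiv.restrictNormal_commutes σ L₀ x

theorem t_finrank {N : Subgroup GQ} {α : GQ → ZMod p}
    (hLN : L₀.fixingSubgroup = N)
    (hN : ∀ σ, σ ∈ N ↔ t_chiU p σ = 1 ∧ α σ = 0)
    (hadd : ∀ σ τ, t_chiU p τ = 1 → α (σ * τ) = α σ + α τ)
    (hnt : ∃ σ, t_chiU p σ = 1 ∧ α σ ≠ 0)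
    {ζ : Qb} (hζ : IsPrimitiveRoot ζ p) (hζL : ζ ∈ L₀) :
    finrank (IntermediateField.adjoin ℚ {(⟨ζ, hζL⟩ : L₀)}) L₀ = p := by
  have hfix : (IntermediateField.adjoin ℚ {(⟨ζ, hζL⟩ : L₀)}).fixingSubgroup =
      (t_chiU p).ker.map (AlgEquiv.restrictNormalHom (F := ℚ) (K₁ := Qb) L₀) := by
    ext g
    rw [t_fix_iff, Subgroup.mem_map]
    constructor
    · intro hg
      obtain ⟨σ, rfl⟩ := AlgEquiv.restrictNormalHom_surjective (F := ℚ) (K₁ := L₀) Qb g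
      refine ⟨σ, ?_, rfl⟩
      rw [MonoidHom.mem_ker, t_chiU_eq_one_iff p hζ]
      have h1 := t_restrict_apply L₀ σ ⟨ζ, hζL⟩
      rw [hg] at h1
      exact h1.symm
    · rintro ⟨σ, hσ, rfl⟩
      apply Subtype.ext
      rw [t_restrict_apply]
      exact (t_chiU_eq_one_iff p hζ σ).mp (MonoidHom.mem_ker.mp hσ)
  have hnorm : Normal ℚ L₀ := IsGalois.to_normal
  have hker : (AlgEquiv.restrictNormalHom (F := ℚ) (K₁ := Qb) L₀).ker = L₀.fixingSubgroup :=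
    @IntermediateField.restrictNormalHom_ker ℚ Qb _ _ _ L₀ hnorm
  rw [← IsGalois.card_fixingSubgroup_eq_finrank, hfix, ← Subgroup.relIndex_ker, hker, hLN]
  exact t_relIndex p N α hN hadd hnt

theorem t_act {N : Subgroup GQ} {α : GQ → ZMod p}
    (hLN : L₀.fixingSubgroup = N)
    (hN : ∀ σ, σ ∈ N ↔ t_chiU p σ = 1 ∧ α σ = 0)
    (hadd : ∀ σ τ, t_chiU p τ = 1 → α (σ * τ) = α σ + α τ)
    (hconj : ∀ τ σ, t_chiU p σ = 1 →
        α (τ * σ * τ⁻¹) = (((t_chiU p τ)⁻¹ : (ZMod p)ˣ) : ZMod p) * α σ)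
    {ζ : Qb} (hζ : IsPrimitiveRoot ζ p) (hζL : ζ ∈ L₀)
    (τ : L₀ ≃ₐ[ℚ] L₀) (g : L₀ ≃ₐ[IntermediateField.adjoin ℚ {(⟨ζ, hζL⟩ : L₀)}] L₀) (a : ℕ)
    (ha : ∀ z : L₀, z ^ p = 1 → τ z = z ^ a) (x : L₀) :
    τ ((g ^ a) (τ.symm x)) = g x := by
  obtain ⟨στ, rfl⟩ := AlgEquiv.restrictNormalHom_surjective (F := ℚ) (K₁ := L₀) Qb τ
  obtain ⟨σg, hσg⟩ := AlgEquiv.restrictNormalHom_surjective (F := ℚ) (K₁ := L₀) Qb
    (g.restrictScalars ℚ)
  have hg_apply : ∀ y : L₀, ((g y : L₀) : Qb) = σg (y : Qb) := by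
    intro y
    rw [← t_restrict_apply L₀ σg y, hσg]
    rfl
  have hgpow : ∀ (n : ℕ) (y : L₀), (((g ^ n) y : L₀) : Qb) = (σg ^ n) (y : Qb) := by
    intro n
    induction n with
    | zero => intro y; simp
    | succ n ih =>
      intro y
      rw [pow_succ, pow_succ, AlgEquiv.mul_apply, AlgEquiv.mul_apply, ih, hg_apply]
  have hχg : t_chiU p σg = 1 := by
    rw [t_chiU_eq_one_iff p hζ]
    have h1 := hg_apply ⟨ζ, hζL⟩
    have h2 : g ⟨ζ, hζL⟩ = ⟨ζ, hζL⟩ :=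
      g.commutes ⟨⟨ζ, hζL⟩, IntermediateField.subset_adjoin ℚ _ (Set.mem_singleton _)⟩
    rw [h2] at h1
    exact h1.symm
  have hχτ : (t_chiU p στ : ZMod p) = (a : ZMod p) := by
    apply t_chiU_eq_of_apply p hζ
    have h1 := ha ⟨ζ, hζL⟩ (Subtype.ext (by simpa using hζ.pow_eq_one))
    have h2 := t_restrict_apply L₀ στ ⟨ζ, hζL⟩
    rw [h1] at h2
    simpa using h2.symm
  have hmem := t_comm_mem p N α hN hadd hconj στ σg a hχg hχτ
  rw [← hLN, IntermediateField.mem_fixingSubgroup_iff] at hmem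
  apply Subtype.ext
  rw [t_restrict_apply, hgpow, hg_apply]
  have h3 : ((((AlgEquiv.restrictNormalHom (F := ℚ) (K₁ := Qb) L₀ στ).symm x : L₀)) : Qb) =
      στ⁻¹ (x : Qb) := by
    rw [← t_restrict_apply L₀ στ⁻¹ x, map_inv]
    rfl
  rw [h3]
  have h4 := hmem (σg (x : Qb)) (by rw [← hg_apply]; exact (g x).2)
  simp only [AlgEquiv.mul_apply] at h4
  have h5 : σg⁻¹ (σg (x : Qb)) = (x : Qb) := AlgEquiv.symm_apply_apply σg _
  rw [h5] at h4
  exact h4

/-- An automorphism of `L₀` fixing `ζ` that acts trivially on the integers of `L₀` modulo the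
maximal ideal of a valuation subring `A` of `Qb` (over a prime `ℓ`) is trivial. -/
theorem t_inertia_trivial {N : Subgroup GQ}
    (hLN : L₀.fixingSubgroup = N)
    (hin : ∀ ℓ : ℕ, ℓ.Prime → ∀ A : ValuationSubring (AlgebraicClosure ℚ), A.LiesOverPrime ℓ →
        ∀ σ ∈ A.inertiaSubgroupIn ℚ, t_chiU p σ = 1 → σ ∈ N)
    {ζ : Qb} (hζ : IsPrimitiveRoot ζ p) (hζL : ζ ∈ L₀)
    (g : L₀ ≃ₐ[ℚ] L₀) (hgζ : g ⟨ζ, hζL⟩ = ⟨ζ, hζL⟩)
    (A : ValuationSubring Qb) (ℓ : ℕ) (hℓ : ℓ.Prime) (hA : A.LiesOverPrime ℓ)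
    (hg : ∀ m : L₀, IsIntegral ℤ m → ((g m : L₀) : Qb) - (m : Qb) ∈ A.nonunits) : g = 1 := by
  obtain ⟨σ, hσI, hσg⟩ := gm_lift L₀ A ℓ hℓ hA g hg
  have hχ : t_chiU p σ = 1 := by
    rw [t_chiU_eq_one_iff p hζ]
    have h1 := hσg ⟨ζ, hζL⟩
    rw [hgζ] at h1
    exact h1
  have hσN := hin ℓ hℓ A hA σ hσI hχ
  rw [← hLN, IntermediateField.mem_fixingSubgroup_iff] at hσN
  ext m
  have h1 := hσg m
  rw [hσN m m.2] at h1
  exact congrArg Subtype.val (Subtype.ext h1.symm : g m = m)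

omit [FiniteDimensional ℚ L₀] [IsGalois ℚ L₀] in
/-- A valuation subring of `Qb` whose maximal ideal cuts out a given maximal ideal of `𝓞 L₀`. -/
theorem t_exists_val [NumberField L₀] (w : Ideal (𝓞 L₀)) (hw : w.IsMaximal) :
    ∃ A : ValuationSubring Qb, ∀ x : 𝓞 L₀, x ∈ w ↔ (((x : L₀) : Qb)) ∈ A.nonunits := by
  let ι : 𝓞 L₀ →+* Qb := (algebraMap L₀ Qb).comp (algebraMap (𝓞 L₀) L₀)
  have hι : ∀ x : 𝓞 L₀, ι x = (((x : L₀) : Qb)) := fun x => rfl
  have hιinj : Function.Injective ι :=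
    (algebraMap L₀ Qb).injective.comp NumberField.RingOfIntegers.coe_injective
  let I : Ideal ι.range := w.map ι.rangeRestrict
  have hI : I ≠ ⊤ := by
    intro h
    have h1 : (1 : ι.range) ∈ I := by rw [h]; trivial
    rw [Ideal.mem_map_iff_of_surjective _ ι.rangeRestrict_surjective] at h1
    obtain ⟨x, hx, hx1⟩ := h1
    have h2 : ι x = 1 := congrArg Subtype.val hx1
    have h3 : x = 1 := hιinj (by rw [h2, map_one])
    exact hw.ne_top ((Ideal.eq_top_iff_one w).mpr (h3 ▸ hx))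
  obtain ⟨B, hB, hB'⟩ := Ideal.image_subset_nonunits_valuationSubring I hI
  have hint : ∀ x : 𝓞 L₀, ι x ∈ B := fun x => hB (ι.mem_range_self x)
  let ιB : 𝓞 L₀ →+* B := ι.codRestrict B.toSubring hint
  let P : Ideal (𝓞 L₀) := (IsLocalRing.maximalIdeal B).comap ιB
  have hPmem : ∀ x : 𝓞 L₀, x ∈ P ↔ ι x ∈ B.nonunits := by
    intro x
    rw [Ideal.mem_comap, ← B.coe_mem_nonunits_iff]
    rfl
  have hPprime : P.IsPrime := Ideal.comap_isPrime ιB _
  have hle : w ≤ P := by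
    intro x hx
    rw [hPmem]
    exact hB' ⟨ι.rangeRestrict x, Ideal.mem_map_of_mem _ hx, rfl⟩
  have hPw : w = P := hw.eq_of_le hPprime.ne_top hle
  refine ⟨B, fun x => ?_⟩
  rw [hPw, hPmem, hι]

/-- `L₀ / ℚ(ζ)` is unramified at every prime. -/
theorem t_unram {N : Subgroup GQ}
    (hLN : L₀.fixingSubgroup = N)
    (hin : ∀ ℓ : ℕ, ℓ.Prime → ∀ A : ValuationSubring (AlgebraicClosure ℚ), A.LiesOverPrime ℓ →
        ∀ σ ∈ A.inertiaSubgroupIn ℚ, t_chiU p σ = 1 → σ ∈ N)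
    {ζ : Qb} (hζ : IsPrimitiveRoot ζ p) (hζL : ζ ∈ L₀) [NumberField L₀]
    (v : HeightOneSpectrum (𝓞 (IntermediateField.adjoin ℚ {(⟨ζ, hζL⟩ : L₀)}))) :
    UnramIn (IntermediateField.adjoin ℚ {(⟨ζ, hζL⟩ : L₀)}) L₀ v := by
  intro w hwp hwv
  have hw0 : w ≠ ⊥ := by
    intro h
    apply v.ne_bot
    rw [← hwv, h]
    exact Ideal.comap_bot_of_injective _ (FaithfulSMul.algebraMap_injective _ _)
  have hwmax : w.IsMaximal := hwp.isMaximal hw0
  obtain ⟨A, hA⟩ := t_exists_val L₀ w hwmax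
  have : NeZero w := ⟨hw0⟩
  have hℓ : (Ideal.absNorm (Ideal.under ℤ w)).Prime := Nat.absNorm_under_prime w
  have hℓw : ((Ideal.absNorm (Ideal.under ℤ w) : ℕ) : 𝓞 L₀) ∈ w := Int.absNorm_under_mem w
  have hAℓ : A.LiesOverPrime (Ideal.absNorm (Ideal.under ℤ w)) := by
    have h1 := (hA _).mp hℓw
    have h2 : (((((Ideal.absNorm (Ideal.under ℤ w) : ℕ) : 𝓞 L₀) : L₀)) : Qb) =
        ((Ideal.absNorm (Ideal.under ℤ w) : ℕ) : Qb) := by simp
    rw [h2] at h1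
    exact h1
  apply t_ramIdx_eq_one
  intro g hg
  have hg1 : g.restrictScalars ℚ = 1 := by
    apply t_inertia_trivial L₀ hLN hin hζ hζL (g.restrictScalars ℚ) ?_ A _ hℓ hAℓ
    · intro m hm
      obtain ⟨y, hy, hyg⟩ := hg ⟨m, hm⟩
      have h1 := (hA y).mp hy
      rw [hyg] at h1
      exact h1
    · exact g.commutes ⟨⟨ζ, hζL⟩, IntermediateField.subset_adjoin ℚ _ (Set.mem_singleton _)⟩
  ext x
  have h1 : (g.restrictScalars ℚ) x = x := by rw [hg1]; rfl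
  exact congrArg Subtype.val h1

end Field

/-- **Leaf T**: the Ext-vanishing statement `ExtVanishingCts p` follows from the non-existence of
an everywhere unramified cyclic degree `p` extension `L` of `K = ℚ(ζ_p)`, Galois over `ℚ`, on
whose Galois group `Gal(K/ℚ)` acts through the inverse cyclotomic character. -/
theorem T_translate (p : ℕ) [Fact p.Prime] (h3 : 3 ≤ p)
    (hcore : ∀ (K L : Type) [Field K] [NumberField K] [Field L] [NumberField L] [Algebra K L]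
      [IsGalois K L] [IsCyclotomicExtension {p} ℚ K] [IsGalois ℚ L],
      finrank K L = p → (∀ v : HeightOneSpectrum (𝓞 K), UnramIn K L v) →
      (∀ (τ : L ≃ₐ[ℚ] L) (g : L ≃ₐ[K] L) (a : ℕ),
        (∀ ζ : L, ζ ^ p = 1 → τ ζ = ζ ^ a) → ∀ x : L, τ ((g ^ a) (τ.symm x)) = g x) → False) :
    ExtCitation.ExtVanishingCts p := by
  intro V _ _ _ _ C hadm
  by_contra hns
  have hp : p.Prime := Fact.out
  have hp2 : p ≠ 2 := by omega
  obtain ⟨N, α, hNn, hNo, hN, hadd, hconj, hnt, hin, -⟩ := t_group hadm hns hp2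
  -- the field cut out by `N`
  have hNclosed : IsClosed (N : Set GQ) := Subgroup.isClosed_of_isOpen N hNo
  let L₀ : IntermediateField ℚ Qb := IntermediateField.fixedField N
  have hLN : L₀.fixingSubgroup = N := InfiniteGalois.fixingSubgroup_fixedField ⟨N, hNclosed⟩
  have hfin : FiniteDimensional ℚ L₀ := by
    rw [← InfiniteGalois.isOpen_iff_finite, hLN]
    exact hNo
  have hgal : IsGalois ℚ L₀ := by
    have h := (InfiniteGalois.normal_iff_isGalois L₀).mp (by rw [hLN]; exact hNn)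
    exact h
  have hNF : NumberField L₀ := ⟨⟩
  have : NeZero p := ⟨hp.ne_zero⟩
  have : NeZero (p : Qb) := ⟨by exact_mod_cast hp.ne_zero⟩
  obtain ⟨ζ, hζ⟩ := HasEnoughRootsOfUnity.exists_primitiveRoot Qb p
  have hζL : ζ ∈ L₀ := by
    rw [IntermediateField.mem_fixedField_iff]
    intro σ hσ
    exact (t_chiU_eq_one_iff p hζ σ).mp ((hN σ).mp hσ).1
  have hζL' : IsPrimitiveRoot (⟨ζ, hζL⟩ : L₀) p :=
    IsPrimitiveRoot.of_map_of_injective (f := algebraMap L₀ Qb) hζ (algebraMap L₀ Qb).injective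
  have hcyc : IsCyclotomicExtension {p} ℚ (IntermediateField.adjoin ℚ {(⟨ζ, hζL⟩ : L₀)}) :=
    hζL'.intermediateField_adjoin_isCyclotomicExtension ℚ
  exact hcore (IntermediateField.adjoin ℚ {(⟨ζ, hζL⟩ : L₀)}) L₀
    (t_finrank L₀ hLN hN hadd hnt hζ hζL) (t_unram L₀ hLN hin hζ hζL)
    (fun τ g a ha x => t_act L₀ hLN hN hadd hconj hζ hζL τ g a ha x)

end C14
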