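import Fermat.Agent.Lib.C14_Z_Zeta

set_option autoImplicit false

open scoped NumberField
open IsDedekindDomain Filter Topology

attribute [local instance] FractionRing.liftAlgebra

namespace C14

/-! ### Fiberwise bounds for sums -/

/-- If all fibres of `π` have at most `c` elements, then `∑_{w ∈ W} h (π w) ≤ c · ∑' h`. -/
theorem z_sum_fiber_le {α β : Type*} (π : α → β) (c : ℕ)
    (hc : ∀ (W : Finset α) (b : β), (∀ w ∈ W, π w = b) → W.card ≤ c)
    (h : β → ℝ) (h0 : ∀ b, 0 ≤ h b) (hs : Summable h) (W : Finset α) :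
    ∑ w ∈ W, h (π w) ≤ c * ∑' b, h b := by
  classical
  rw [← Finset.sum_fiberwise_of_maps_to (t := W.image π) (g := π)
    (fun w hw => Finset.mem_image_of_mem π hw)]
  calc ∑ b ∈ W.image π, ∑ w ∈ W with π w = b, h (π w)
      ≤ ∑ b ∈ W.image π, (c : ℝ) * h b := by
        refine Finset.sum_le_sum fun b _ => ?_
        rw [Finset.sum_congr rfl (fun w hw => by rw [(Finset.mem_filter.mp hw).2] :
          ∀ w ∈ W.filter (fun w => π w = b), h (π w) = h b), Finset.sum_const, nsmul_eq_mul]
        refine mul_le_mul_of_nonneg_right ?_ (h0 b)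
        exact_mod_cast hc _ b (fun w hw => (Finset.mem_filter.mp hw).2)
    _ = c * ∑ b ∈ W.image π, h b := by rw [Finset.mul_sum]
    _ ≤ c * ∑' b, h b :=
        mul_le_mul_of_nonneg_left (hs.sum_le_tsum _ (fun b _ => h0 b)) (Nat.cast_nonneg c)

/-- a finite set of primes of a Dedekind domain `S` lying over the same prime `p` of `R` has at
most `[S : R]` elements -/
theorem z_card_le_finrank {R S : Type*} [CommRing R] [IsDomain R] [CommRing S]
    [IsDedekindDomain S] [Algebra R S] [Module.Finite R S] [Module.Flat R S]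
    (p : Ideal R) [p.IsPrime] [Finite (p.primesOver S)] (W : Finset (HeightOneSpectrum S))
    (hW : ∀ w ∈ W, w.asIdeal.LiesOver p) : W.card ≤ Module.finrank R S := by
  classical
  have : Fintype (p.primesOver S) := Fintype.ofFinite _
  have hsum := Ideal.sum_ramification_inertia_eq_finrank p S
  have h1 : Fintype.card (p.primesOver S) ≤ Module.finrank R S := by
    rw [← hsum, Fintype.card, Finset.card_eq_sum_ones]
    refine Finset.sum_le_sum fun q _ => ?_
    have h1 := Ideal.ramificationIdx_pos q.1 R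
    have h2 := Ideal.inertiaDeg_pos q.1 R
    exact Nat.one_le_iff_ne_zero.mpr (Nat.mul_ne_zero h1.ne' h2.ne')
  let φ : W → p.primesOver S := fun w => ⟨w.1.asIdeal, w.1.isPrime, hW w.1 w.2⟩
  have hφ : Function.Injective φ := fun a b hab =>
    Subtype.ext (HeightOneSpectrum.ext (congrArg Subtype.val hab))
  calc W.card = Fintype.card W := (Fintype.card_coe W).symm
    _ ≤ Fintype.card (p.primesOver S) := Fintype.card_le_of_injective φ hφ
    _ ≤ _ := h1

section split
variable (F M : Type*) [Field F] [NumberField F] [Field M] [NumberField M] [Algebra F M]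

/-- the prime of `F` below a prime of `M` -/
noncomputable def z_below (w : HeightOneSpectrum (𝓞 M)) : HeightOneSpectrum (𝓞 F) where
  asIdeal := w.asIdeal.comap (algebraMap (𝓞 F) (𝓞 M))
  isPrime := Ideal.comap_isPrime _ _
  ne_bot := Ideal.under_ne_bot (𝓞 F) w.ne_bot

theorem z_below_asIdeal (w : HeightOneSpectrum (𝓞 M)) :
    (z_below F M w).asIdeal = w.asIdeal.comap (algebraMap (𝓞 F) (𝓞 M)) := rfl

theorem z_liesOver (w : HeightOneSpectrum (𝓞 M)) :
    w.asIdeal.LiesOver (z_below F M w).asIdeal := ⟨rfl⟩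

theorem z_absNorm_below (w : HeightOneSpectrum (𝓞 M)) :
    Ideal.absNorm w.asIdeal
      = Ideal.absNorm (z_below F M w).asIdeal ^ w.asIdeal.inertiaDeg (𝓞 F) := by
  have := z_liesOver F M w
  exact (Ideal.absNorm_pow_inertiaDeg (z_below F M w).asIdeal w.asIdeal).symm

theorem z_inertiaDeg_pos (w : HeightOneSpectrum (𝓞 M)) : 0 < w.asIdeal.inertiaDeg (𝓞 F) :=
  Ideal.inertiaDeg_pos w.asIdeal (𝓞 F)

theorem z_nrm_eq (w : HeightOneSpectrum (𝓞 M)) (hf : w.asIdeal.inertiaDeg (𝓞 F) = 1) :
    nrm M w = nrm F (z_below F M w) := by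
  rw [nrm, nrm, z_absNorm_below F M w, hf, pow_one]

theorem z_nrm_sq_le (w : HeightOneSpectrum (𝓞 M)) (hf : 2 ≤ w.asIdeal.inertiaDeg (𝓞 F)) :
    nrm F (z_below F M w) ^ 2 ≤ nrm M w := by
  rw [nrm, nrm, z_absNorm_below F M w]
  have h1 : 1 ≤ Ideal.absNorm (z_below F M w).asIdeal := by
    have := z_two_le_absNorm F (z_below F M w)
    omega
  have := Nat.pow_le_pow_right h1 hf
  exact_mod_cast this

theorem z_fiber_card_le (W : Finset (HeightOneSpectrum (𝓞 M))) (v : HeightOneSpectrum (𝓞 F))
    (hW : ∀ w ∈ W, z_below F M w = v) : W.card ≤ Module.finrank F M := by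
  rw [IsFractionRing.finrank_eq (𝓞 F) F (𝓞 M) M]
  refine z_card_le_finrank v.asIdeal W fun w hw => ?_
  rw [← hW w hw]
  exact z_liesOver F M w

/-- a split prime has exactly `[M : F]` primes above it -/
theorem z_exists_fiber_of_splits (v : HeightOneSpectrum (𝓞 F)) (hv : SplitsIn F M v) :
    ∃ W : Finset (HeightOneSpectrum (𝓞 M)), W.card = Module.finrank F M ∧
      ∀ w ∈ W, z_below F M w = v := by
  classical
  have : Fintype (v.asIdeal.primesOver (𝓞 M)) := Fintype.ofFinite _
  have hsum := Ideal.sum_ramification_inertia_eq_finrank v.asIdeal (𝓞 M)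
  rw [← IsFractionRing.finrank_eq (𝓞 F) F (𝓞 M) M] at hsum
  have hcard : Fintype.card (v.asIdeal.primesOver (𝓞 M)) = Module.finrank F M := by
    rw [← hsum, Fintype.card, Finset.card_eq_sum_ones]
    refine Finset.sum_congr rfl fun q _ => ?_
    have h := hv q.1 q.2.1 (q.2.2.over.symm)
    rw [h.1, h.2]
  have hne : ∀ q : v.asIdeal.primesOver (𝓞 M), q.1 ≠ ⊥ := fun q h => by
    have h2 := q.2.2.over
    rw [h, Ideal.under_def,
      Ideal.comap_bot_of_injective _ (FaithfulSMul.algebraMap_injective (𝓞 F) (𝓞 M))] at h2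
    exact v.ne_bot h2
  let ψ : v.asIdeal.primesOver (𝓞 M) → HeightOneSpectrum (𝓞 M) :=
    fun q => ⟨q.1, q.2.1, hne q⟩
  have hψ : Function.Injective ψ := fun a b hab =>
    Subtype.ext (congrArg HeightOneSpectrum.asIdeal hab)
  refine ⟨Finset.univ.image ψ, ?_, ?_⟩
  · rw [Finset.card_image_of_injective _ hψ, Finset.card_univ, hcard]
  · intro w hw
    obtain ⟨q, -, rfl⟩ := Finset.mem_image.mp hw
    exact HeightOneSpectrum.ext (q.2.2.over.symm)

/-- in a Galois extension, above a non-split prime every prime has `e ≠ 1` or `f ≠ 1` -/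
theorem z_not_splits_imp [IsGalois F M] (w : HeightOneSpectrum (𝓞 M))
    (hv : ¬ SplitsIn F M (z_below F M w)) :
    w.asIdeal.ramificationIdx (𝓞 F) ≠ 1 ∨ w.asIdeal.inertiaDeg (𝓞 F) ≠ 1 := by
  by_contra hcon
  rw [not_or, not_not, not_not] at hcon
  apply hv
  intro w' hw' hw'v
  have h1 : w.asIdeal.LiesOver (z_below F M w).asIdeal := z_liesOver F M w
  have h2 : w'.LiesOver (z_below F M w).asIdeal := ⟨hw'v.symm⟩
  obtain ⟨τ, rfl⟩ := Ideal.exists_smul_eq_of_isGaloisGroup (z_below F M w).asIdeal w.asIdeal w'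
    (M ≃ₐ[F] M)
  rw [Ideal.ramificationIdx_smul, Ideal.inertiaDeg_smul]
  exact hcon

/-- only finitely many primes of `M` are ramified over `F` -/
theorem z_finite_ramified :
    {w : HeightOneSpectrum (𝓞 M) | w.asIdeal.ramificationIdx (𝓞 F) ≠ 1}.Finite := by
  have hD : differentIdeal (𝓞 F) (𝓞 M) ≠ ⊥ := differentIdeal_ne_bot
  refine (Ideal.finite_factors hD).subset fun w hw => ?_
  show w.asIdeal ∣ differentIdeal (𝓞 F) (𝓞 M)
  rw [dvd_differentIdeal_iff]
  intro hun
  exact hw (Ideal.ramificationIdx_eq_one_iff.mpr hun)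

/-! ### The sum over split primes -/

open Classical in
/-- `N(v)^(-s)` if `v` splits completely in `M`, and `0` otherwise -/
noncomputable def z_splitTerm (s : ℝ) (v : HeightOneSpectrum (𝓞 F)) : ℝ :=
  if SplitsIn F M v then nrm F v ^ (-s) else 0

theorem z_splitTerm_of_splits (s : ℝ) {v : HeightOneSpectrum (𝓞 F)} (hv : SplitsIn F M v) :
    z_splitTerm F M s v = nrm F v ^ (-s) := if_pos hv

theorem z_splitTerm_of_not (s : ℝ) {v : HeightOneSpectrum (𝓞 F)} (hv : ¬ SplitsIn F M v) :
    z_splitTerm F M s v = 0 := if_neg hv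

theorem z_splitTerm_nonneg (s : ℝ) (v : HeightOneSpectrum (𝓞 F)) : 0 ≤ z_splitTerm F M s v := by
  by_cases hv : SplitsIn F M v
  · rw [z_splitTerm_of_splits F M s hv]
    exact Real.rpow_nonneg (z_nrm_pos F v).le _
  · rw [z_splitTerm_of_not F M s hv]

theorem z_splitTerm_le (s : ℝ) (v : HeightOneSpectrum (𝓞 F)) :
    z_splitTerm F M s v ≤ nrm F v ^ (-s) := by
  by_cases hv : SplitsIn F M v
  · rw [z_splitTerm_of_splits F M s hv]
  · rw [z_splitTerm_of_not F M s hv]
    exact Real.rpow_nonneg (z_nrm_pos F v).le _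

theorem z_summable_splitTerm (s : ℝ) (hs : 1 < s) : Summable (z_splitTerm F M s) :=
  Summable.of_nonneg_of_le (z_splitTerm_nonneg F M s) (z_splitTerm_le F M s)
    (Z_summable_primes F s hs)

/-- the sum of `N(v)^(-s)` over the primes of `F` splitting completely in `M` -/
noncomputable def z_splitSum (s : ℝ) : ℝ := ∑' v : HeightOneSpectrum (𝓞 F), z_splitTerm F M s v

theorem z_splitSum_nonneg (s : ℝ) : 0 ≤ z_splitSum F M s :=
  tsum_nonneg (z_splitTerm_nonneg F M s)

/-- upper bound for the split primes: `n · ∑_{v split} N v^(-s) ≤ ∑_w N w^(-s)` -/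
theorem z_split_upper (s : ℝ) (hs : 1 < s) :
    (Module.finrank F M : ℝ) * z_splitSum F M s
      ≤ ∑' w : HeightOneSpectrum (𝓞 M), nrm M w ^ (-s) := by
  classical
  have hn : 0 < (Module.finrank F M : ℝ) := by exact_mod_cast Module.finrank_pos
  have hsumM := Z_summable_primes M s hs
  have key : ∀ T : Finset (HeightOneSpectrum (𝓞 F)),
      ∑ v ∈ T, z_splitTerm F M s v
        ≤ (∑' w : HeightOneSpectrum (𝓞 M), nrm M w ^ (-s)) / (Module.finrank F M : ℝ) := by
    intro T
    rw [le_div_iff₀ hn, mul_comm]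
    let Wf : HeightOneSpectrum (𝓞 F) → Finset (HeightOneSpectrum (𝓞 M)) := fun v =>
      if h : SplitsIn F M v then (z_exists_fiber_of_splits F M v h).choose else ∅
    have hWf1 : ∀ v, SplitsIn F M v → (Wf v).card = Module.finrank F M := fun v h => by
      simp only [Wf, dif_pos h]
      exact (z_exists_fiber_of_splits F M v h).choose_spec.1
    have hWf2 : ∀ v, ∀ w ∈ Wf v, z_below F M w = v := fun v w hw => by
      by_cases h : SplitsIn F M v
      · simp only [Wf, dif_pos h] at hw
        exact (z_exists_fiber_of_splits F M v h).choose_spec.2 w hw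
      · simp only [Wf, dif_neg h] at hw
        exact absurd hw (Finset.notMem_empty w)
    have h1 : ∀ v ∈ T, (Module.finrank F M : ℝ) * z_splitTerm F M s v
        = ∑ w ∈ Wf v, nrm M w ^ (-s) := by
      intro v _
      by_cases h : SplitsIn F M v
      · rw [z_splitTerm_of_splits F M s h]
        have h2 : ∀ w ∈ Wf v, nrm M w ^ (-s) = nrm F v ^ (-s) := by
          intro w hw
          have hwv := hWf2 v w hw
          have hf := (h w.asIdeal w.isPrime (by rw [← hwv]; rfl)).2
          rw [z_nrm_eq F M w hf, hwv]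
        rw [Finset.sum_congr rfl h2, Finset.sum_const, nsmul_eq_mul, hWf1 v h]
      · rw [z_splitTerm_of_not F M s h, mul_zero]
        simp only [Wf, dif_neg h, Finset.sum_empty]
    rw [Finset.mul_sum, Finset.sum_congr rfl h1, ← Finset.sum_biUnion]
    · exact hsumM.sum_le_tsum _ (fun w _ => Real.rpow_nonneg (z_nrm_pos M w).le _)
    · intro v _ v' _ hvv'
      rw [Function.onFun, Finset.disjoint_left]
      intro w hw hw'
      exact hvv' ((hWf2 v w hw).symm.trans (hWf2 v' w hw'))
  have h2 := Real.tsum_le_of_sum_le (z_splitTerm_nonneg F M s) key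
  rw [le_div_iff₀ hn, mul_comm] at h2
  exact h2

/-- lower bound for the split primes in a Galois extension:
`∑_w N w^(-s) ≤ n · ∑_{v split} N v^(-s) + C` -/
theorem z_split_lower [IsGalois F M] : ∃ C : ℝ, ∀ s : ℝ, 1 < s →
    ∑' w : HeightOneSpectrum (𝓞 M), nrm M w ^ (-s)
      ≤ (Module.finrank F M : ℝ) * z_splitSum F M s + C := by
  classical
  refine ⟨((z_finite_ramified F M).toFinset.card : ℝ) + (Module.finrank F M : ℝ) * z_C2 F,
    fun s hs => ?_⟩
  refine Real.tsum_le_of_sum_le (fun w => Real.rpow_nonneg (z_nrm_pos M w).le _) fun W => ?_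
  -- pointwise bound
  have hpt : ∀ w : HeightOneSpectrum (𝓞 M), nrm M w ^ (-s)
      ≤ z_splitTerm F M s (z_below F M w)
        + (if w.asIdeal.ramificationIdx (𝓞 F) ≠ 1 then (1 : ℝ) else 0)
        + nrm F (z_below F M w) ^ (-(2 : ℝ)) := by
    intro w
    have hnn1 : 0 ≤ z_splitTerm F M s (z_below F M w) := z_splitTerm_nonneg F M s _
    have hnn2 : (0 : ℝ) ≤ (if w.asIdeal.ramificationIdx (𝓞 F) ≠ 1 then (1 : ℝ) else 0) := by
      split_ifs <;> norm_num
    have hnn3 : 0 ≤ nrm F (z_below F M w) ^ (-(2 : ℝ)) :=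
      Real.rpow_nonneg (z_nrm_pos F _).le _
    by_cases hv : SplitsIn F M (z_below F M w)
    · have hf := (hv w.asIdeal w.isPrime rfl).2
      rw [z_splitTerm_of_splits F M s hv, z_nrm_eq F M w hf]
      linarith
    · rcases z_not_splits_imp F M w hv with he | hf
      · rw [if_pos he]
        have := z_nrm_rpow_le_half M w s hs.le
        linarith
      · have hf2 : 2 ≤ w.asIdeal.inertiaDeg (𝓞 F) := by
          have := z_inertiaDeg_pos F M w
          omega
        have h1 := z_nrm_sq_le F M w hf2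
        have hpos := z_nrm_pos F (z_below F M w)
        have h2 : nrm M w ^ (-s) ≤ (nrm F (z_below F M w) ^ 2) ^ (-s) :=
          Real.rpow_le_rpow_of_nonpos (by positivity) h1 (by linarith)
        have h3 : (nrm F (z_below F M w) ^ 2) ^ (-s) = nrm F (z_below F M w) ^ (-(2 * s)) := by
          rw [← Real.rpow_natCast, ← Real.rpow_mul hpos.le]
          congr 1
          push_cast
          ring
        have h4 : nrm F (z_below F M w) ^ (-(2 * s)) ≤ nrm F (z_below F M w) ^ (-(2 : ℝ)) :=
          z_nrm_rpow_anti F _ (by linarith)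
        linarith
  calc ∑ w ∈ W, nrm M w ^ (-s)
      ≤ ∑ w ∈ W, (z_splitTerm F M s (z_below F M w)
        + (if w.asIdeal.ramificationIdx (𝓞 F) ≠ 1 then (1 : ℝ) else 0)
        + nrm F (z_below F M w) ^ (-(2 : ℝ))) := Finset.sum_le_sum fun w _ => hpt w
    _ = ∑ w ∈ W, z_splitTerm F M s (z_below F M w)
        + ∑ w ∈ W, (if w.asIdeal.ramificationIdx (𝓞 F) ≠ 1 then (1 : ℝ) else 0)
        + ∑ w ∈ W, nrm F (z_below F M w) ^ (-(2 : ℝ)) := by
        rw [Finset.sum_add_distrib, Finset.sum_add_distrib]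
    _ ≤ (Module.finrank F M : ℝ) * z_splitSum F M s
        + ((z_finite_ramified F M).toFinset.card : ℝ)
        + (Module.finrank F M : ℝ) * z_C2 F := by
        refine add_le_add (add_le_add ?_ ?_) ?_
        · exact z_sum_fiber_le (z_below F M) (Module.finrank F M)
            (fun W' v hW' => z_fiber_card_le F M W' v hW') (z_splitTerm F M s)
            (z_splitTerm_nonneg F M s) (z_summable_splitTerm F M s hs) W
        · rw [← Finset.sum_filter, Finset.sum_const, nsmul_eq_mul, mul_one]
          have : W.filter (fun w => w.asIdeal.ramificationIdx (𝓞 F) ≠ 1)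
              ⊆ (z_finite_ramified F M).toFinset := by
            intro w hw
            rw [Set.Finite.mem_toFinset]
            exact (Finset.mem_filter.mp hw).2
          exact_mod_cast Finset.card_le_card this
        · exact z_sum_fiber_le (z_below F M) (Module.finrank F M)
            (fun W' v hW' => z_fiber_card_le F M W' v hW')
            (fun v => nrm F v ^ (-(2 : ℝ)))
            (fun v => Real.rpow_nonneg (z_nrm_pos F v).le _)
            (Z_summable_primes F 2 (by norm_num)) W
    _ = _ := by ring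

end split

end C14
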