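/-
S53 project (universal deformation ring): shared definitions.
Everything lives in `Fermat.Agent.DR`.
-/
import Mathlib
import Fermat.Prelude.Def_GaloisRep_DeformationRingData
import Fermat.Prelude.Def_GaloisRep_DeformationCondition

set_option autoImplicit false

noncomputable section

namespace Fermat.Agent.DR

open IsLocalRing GaloisRep

/-! ## Abstract part: functors of tuples on test algebras -/

section Abstract

variable (𝒪 : Type) [CommRing 𝒪] [IsLocalRing 𝒪]

/-- The `𝒪`-algebra structure on `k[ε]` used by `GaloisRep.TangentFinite`. -/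
@[reducible] def dualAlg : Algebra 𝒪 (DualNumber (ResidueField 𝒪)) :=
  ((algebraMap (ResidueField 𝒪) (DualNumber (ResidueField 𝒪))).comp
    (algebraMap 𝒪 (ResidueField 𝒪))).toAlgebra

variable {ι : Type}

/-- A tuple `x : ι → A` is *tight* if its coordinates generate `A` as an `𝒪`-algebra. -/
def IsTight {A : Type} [CommRing A] [Algebra 𝒪 A] (x : ι → A) : Prop :=
  Algebra.adjoin 𝒪 (Set.range x) = ⊤

/-- Axioms on a "functor of tuples" `P` on Artinian test algebras that make it pro-representable. -/
structure PFData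
    (P : ∀ (A : Type) [CommRing A] [IsLocalRing A] [Algebra 𝒪 A], (ι → A) → Prop)
    (base : ι → 𝒪) : Prop where
  /-- all points have the same residue -/
  base_mem : ∀ (A : Type) [CommRing A] [IsLocalRing A] [Algebra 𝒪 A],
    IsArtinianTestAlgebra 𝒪 A → ∀ x : ι → A, P A x →
      ∀ i, x i - algebraMap 𝒪 A (base i) ∈ maximalIdeal A
  /-- functoriality -/
  map : ∀ (A B : Type) [CommRing A] [IsLocalRing A] [Algebra 𝒪 A]
    [CommRing B] [IsLocalRing B] [Algebra 𝒪 B],
    IsArtinianTestAlgebra 𝒪 A → IsArtinianTestAlgebra 𝒪 B →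
    ∀ (φ : A →ₐ[𝒪] B) (x : ι → A), P A x → P B (fun i => φ (x i))
  /-- a tuple in `Q ↪ A × B` is a point as soon as both projections are points
  (descent along injections + fibre products over `k`) -/
  joint : ∀ (A B Q : Type) [CommRing A] [IsLocalRing A] [Algebra 𝒪 A]
    [CommRing B] [IsLocalRing B] [Algebra 𝒪 B] [CommRing Q] [IsLocalRing Q] [Algebra 𝒪 Q],
    IsArtinianTestAlgebra 𝒪 A → IsArtinianTestAlgebra 𝒪 B → IsArtinianTestAlgebra 𝒪 Q →
    ∀ (pA : Q →ₐ[𝒪] A) (pB : Q →ₐ[𝒪] B),
      (∀ q q' : Q, pA q = pA q' → pB q = pB q' → q = q') →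
      ∀ z : ι → Q, P A (fun i => pA (z i)) → P B (fun i => pB (z i)) → P Q z
  /-- finitely many points over `k[ε]` -/
  tangent : letI := dualAlg 𝒪
    Finite {x : ι → DualNumber (ResidueField 𝒪) // P (DualNumber (ResidueField 𝒪)) x}
  /-- there is a point over the residue field -/
  point : ∃ x : ι → ResidueField 𝒪, P (ResidueField 𝒪) x

end Abstract

/-! ## Galois part: matrix-valued lifts as tuples -/

section Galois

/-- The absolute Galois group of `ℚ`. -/
abbrev Gal : Type := AlgebraicClosure ℚ ≃ₐ[ℚ] AlgebraicClosure ℚ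

/-- Index type of the coordinates of a matrix-valued map `Gal → M₂(A)`. -/
abbrev Idx : Type := Gal × Fin 2 × Fin 2

variable {A : Type}

/-- The matrix family attached to a tuple. -/
def mat (x : Idx → A) (g : Gal) : Matrix (Fin 2) (Fin 2) A :=
  Matrix.of fun i j => x (g, i, j)

/-- The tuple attached to a matrix family. -/
def tup (M : Gal → Matrix (Fin 2) (Fin 2) A) : Idx → A := fun p => M p.1 p.2.1 p.2.2

@[simp] theorem mat_apply (x : Idx → A) (g : Gal) (i j : Fin 2) : mat x g i j = x (g, i, j) := rfl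

@[simp] theorem mat_tup (M : Gal → Matrix (Fin 2) (Fin 2) A) : mat (tup M) = M := by
  funext g; ext i j; rfl

@[simp] theorem tup_mat (x : Idx → A) : tup (mat x) = x := by
  funext ⟨g, i, j⟩; rfl

/-- The tuple is multiplicative. -/
def IsHom [CommRing A] (x : Idx → A) : Prop :=
  mat x 1 = 1 ∧ ∀ g h : Gal, mat x (g * h) = mat x g * mat x h

/-- Adic continuity of the tuple. -/
def IsCont (A : Type) [CommRing A] [IsLocalRing A] (x : Idx → A) : Prop :=
  ∀ n : ℕ, ∃ L : IntermediateField ℚ (AlgebraicClosure ℚ), FiniteDimensional ℚ L ∧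
    ∀ σ : Gal, (∀ z ∈ L, σ z = z) →
      ∀ i j, mat x σ i j - (1 : Matrix (Fin 2) (Fin 2) A) i j ∈ maximalIdeal A ^ n

variable {𝒪 : Type} [CommRing 𝒪]

/-- The tuple is congruent to `base` modulo the maximal ideal. -/
def IsBase [CommRing A] [IsLocalRing A] [Algebra 𝒪 A] (base : Idx → 𝒪) (x : Idx → A) : Prop :=
  ∀ p, x p - algebraMap 𝒪 A (base p) ∈ maximalIdeal A

/-- The standard representation on `A²` attached to a multiplicative continuous tuple. -/
def stdRep (A : Type) [CommRing A] [IsLocalRing A] (x : Idx → A) (h1 : IsHom x)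
    (h2 : IsCont A x) : GaloisRepAdic A where
  V := Fin 2 → A
  finrank_eq := by simp
  ρ :=
    { toFun := fun g => Matrix.toLin' (mat x g)
      map_one' := by rw [h1.1, Matrix.toLin'_one]; rfl
      map_mul' := fun g h => by rw [h1.2, Matrix.toLin'_mul]; rfl }
  isAdicContinuous := by
    intro n
    obtain ⟨L, hL, hσ⟩ := h2 n
    refine ⟨L, hL, fun σ hσL v => ?_⟩
    have key : ∀ i, (Matrix.toLin' (mat x σ) v - v) i ∈ maximalIdeal A ^ n := by
      intro i
      have : (Matrix.toLin' (mat x σ) v - v) i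
          = ∑ j, (mat x σ i j - (1 : Matrix (Fin 2) (Fin 2) A) i j) * v j := by
        rw [Pi.sub_apply, Matrix.toLin'_apply]
        simp only [Matrix.mulVec, dotProduct, sub_mul, Finset.sum_sub_distrib, Matrix.one_apply,
          ite_mul, one_mul, zero_mul, Finset.sum_ite_eq, Finset.mem_univ, if_true]
      rw [this]
      exact Ideal.sum_mem _ fun j _ => Ideal.mul_mem_right _ _ (hσ σ hσL i j)
    have hdecomp : (Matrix.toLin' (mat x σ) v - v)
        = ∑ i, (Matrix.toLin' (mat x σ) v - v) i • (Pi.single i (1 : A) : Fin 2 → A) := by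
      funext i
      simp [Finset.sum_apply, Pi.single_apply]
    show Matrix.toLin' (mat x σ) v - v ∈ _
    rw [hdecomp]
    exact Submodule.sum_mem _ fun i _ => Submodule.smul_mem_smul (key i) Submodule.mem_top

end Galois

end Fermat.Agent.DR
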