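/-
S53 project, module PF-1: toolkit for Artinian test algebras (which are FINITE rings when the
residue field of `𝒪` is finite).
-/
import Fermat.Agent.Lib.DR_Defs

set_option autoImplicit false
set_option linter.unusedSectionVars false
set_option linter.style.haveILetI false

noncomputable section

namespace Fermat.Agent.DR

open IsLocalRing GaloisRep

variable {𝒪 : Type} [CommRing 𝒪] [IsLocalRing 𝒪]
variable {A : Type} [CommRing A] [IsLocalRing A] [Algebra 𝒪 A]
variable {B : Type} [CommRing B] [IsLocalRing B] [Algebra 𝒪 B]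

/-- Every element of a test algebra is (image of an element of `𝒪`) + (element of the maximal
ideal). -/
theorem test_decomp (hA : IsArtinianTestAlgebra 𝒪 A) (a : A) :
    ∃ c : 𝒪, a - algebraMap 𝒪 A c ∈ maximalIdeal A := by
  obtain ⟨c, hc⟩ := hA.residue_surjective (residue A a)
  refine ⟨c, ?_⟩
  rw [← residue_eq_zero_iff, map_sub, sub_eq_zero]
  exact hc.symm

/-- The maximal ideal of a test algebra is nilpotent. -/
theorem test_exists_pow (hA : IsArtinianTestAlgebra 𝒪 A) : ∃ n : ℕ, maximalIdeal A ^ n = ⊥ := by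
  haveI := hA.isArtinian
  have h := IsArtinianRing.isNilpotent_jacobson_bot (R := A)
  rw [IsLocalRing.jacobson_eq_maximalIdeal ⊥ bot_ne_top] at h
  exact h

theorem test_isNilpotent (hA : IsArtinianTestAlgebra 𝒪 A) {a : A} (ha : a ∈ maximalIdeal A) :
    IsNilpotent a := by
  obtain ⟨n, hn⟩ := test_exists_pow hA
  refine ⟨n, ?_⟩
  have h := Ideal.pow_mem_pow ha n
  rw [hn] at h
  exact h

/-- Test algebras are finite rings (the residue field of `𝒪` being finite). -/
theorem test_finite [Finite (ResidueField 𝒪)] (hA : IsArtinianTestAlgebra 𝒪 A) : Finite A := by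
  haveI := hA.isArtinian
  haveI := hA.isLocalHom
  have hsurj : Function.Surjective (ResidueField.map (algebraMap 𝒪 A)) := by
    intro x
    obtain ⟨c, hc⟩ := hA.residue_surjective x
    exact ⟨residue 𝒪 c, hc⟩
  haveI : Finite (ResidueField A) := Finite.of_surjective _ hsurj
  haveI : Finite (A ⧸ maximalIdeal A) := ‹Finite (ResidueField A)›
  obtain ⟨n, hn⟩ := test_exists_pow hA
  haveI := Ideal.finite_quotient_pow (IsNoetherian.noetherian (maximalIdeal A)) n
  rw [hn] at this
  exact Finite.of_equiv _ (RingEquiv.quotientBot A).toEquiv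

/-- Any `𝒪`-algebra homomorphism from a local `𝒪`-algebra to a test algebra is local. -/
theorem algHom_isLocalHom_of_test (hB : IsArtinianTestAlgebra 𝒪 B) (φ : A →ₐ[𝒪] B) :
    IsLocalHom (φ : A →+* B) := by
  have hsurj : Function.Surjective ((residue B).comp (φ : A →+* B)) := by
    intro x
    obtain ⟨c, hc⟩ := hB.residue_surjective x
    refine ⟨algebraMap 𝒪 A c, ?_⟩
    rw [RingHom.comp_apply, RingHom.coe_coe, AlgHom.commutes]
    exact hc
  have hmax : (RingHom.ker ((residue B).comp (φ : A →+* B))).IsMaximal :=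
    RingHom.ker_isMaximal_of_surjective _ hsurj
  have hker : RingHom.ker ((residue B).comp (φ : A →+* B)) = maximalIdeal A :=
    IsLocalRing.eq_maximalIdeal hmax
  refine ⟨fun a ha => ?_⟩
  by_contra hna
  have hmem : a ∈ maximalIdeal A := (IsLocalRing.mem_maximalIdeal a).mpr hna
  rw [← hker, RingHom.mem_ker, RingHom.comp_apply, residue_eq_zero_iff] at hmem
  exact (IsLocalRing.mem_maximalIdeal _).mp hmem ha

/-- Recognition principle: a nontrivial finite `𝒪`-algebra in which every element is a scalar plus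
a nilpotent is a test algebra. -/
theorem test_of_decomp (Q : Type) [CommRing Q] [Algebra 𝒪 Q] [Finite Q] [Nontrivial Q]
    (h : ∀ q : Q, ∃ c : 𝒪, IsNilpotent (q - algebraMap 𝒪 Q c)) :
    ∃ _ : IsLocalRing Q, IsArtinianTestAlgebra 𝒪 Q := by
  have hunit : ∀ (c : 𝒪) (q : Q), IsUnit c → IsNilpotent (q - algebraMap 𝒪 Q c) → IsUnit q := by
    intro c q hc hn
    have h1 : IsUnit (algebraMap 𝒪 Q c) := hc.map _
    have h2 := hn.isUnit_add_left_of_commute h1 (Commute.all _ _)
    rwa [add_sub_cancel] at h2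
  have hloc : IsLocalRing Q := by
    refine IsLocalRing.of_isUnit_or_isUnit_one_sub_self fun q => ?_
    obtain ⟨c, hc⟩ := h q
    rcases IsLocalRing.isUnit_or_isUnit_one_sub_self c with hu | hu
    · exact Or.inl (hunit c q hu hc)
    · refine Or.inr (hunit (1 - c) (1 - q) hu ?_)
      have : 1 - q - algebraMap 𝒪 Q (1 - c) = -(q - algebraMap 𝒪 Q c) := by
        rw [map_sub, map_one]; ring
      rw [this]
      exact hc.neg
  refine ⟨hloc, ?_, ?_, inferInstance⟩
  · refine ⟨fun c hc => ?_⟩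
    by_contra hnc
    obtain ⟨v, hv⟩ := hc.exists_right_inv
    obtain ⟨d, hd⟩ := h v
    -- `1 - c * d` is a unit of `𝒪` whose image is nilpotent
    have hcd : IsUnit (1 - c * d) := by
      rcases IsLocalRing.isUnit_or_isUnit_one_sub_self (c * d) with hu | hu
      · exact absurd (isUnit_of_mul_isUnit_left hu) hnc
      · exact hu
    have hnil : IsNilpotent (algebraMap 𝒪 Q (1 - c * d)) := by
      have : algebraMap 𝒪 Q (1 - c * d) = algebraMap 𝒪 Q c * (v - algebraMap 𝒪 Q d) := by
        rw [map_sub, map_one, map_mul, mul_sub, hv]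
      rw [this]
      exact (Commute.all _ _).isNilpotent_mul_left hd
    exact (hcd.map (algebraMap 𝒪 Q)).not_isNilpotent hnil
  · intro x
    obtain ⟨q, rfl⟩ := residue_surjective (R := Q) x
    obtain ⟨c, hc⟩ := h q
    refine ⟨c, ?_⟩
    have hmem : q - algebraMap 𝒪 Q c ∈ maximalIdeal Q := by
      rw [IsLocalRing.mem_maximalIdeal]
      exact fun hu => hu.not_isNilpotent hc
    rw [← residue_eq_zero_iff, map_sub, sub_eq_zero] at hmem
    exact hmem.symm

/-- Subalgebras of test algebras are test algebras. -/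
theorem test_subalgebra [Finite (ResidueField 𝒪)] (hA : IsArtinianTestAlgebra 𝒪 A)
    (S : Subalgebra 𝒪 A) : ∃ _ : IsLocalRing S, IsArtinianTestAlgebra 𝒪 S := by
  haveI := test_finite hA
  refine test_of_decomp S fun s => ?_
  obtain ⟨c, hc⟩ := test_decomp hA (s : A)
  obtain ⟨n, hn⟩ := test_isNilpotent hA hc
  refine ⟨c, n, ?_⟩
  apply Subtype.ext
  simpa using hn

/-- Proper quotients of test algebras are test algebras. -/
theorem test_quotient [Finite (ResidueField 𝒪)] (hA : IsArtinianTestAlgebra 𝒪 A)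
    (I : Ideal A) (hI : I ≠ ⊤) : ∃ _ : IsLocalRing (A ⧸ I), IsArtinianTestAlgebra 𝒪 (A ⧸ I) := by
  haveI := test_finite hA
  haveI : Nontrivial (A ⧸ I) := Ideal.Quotient.nontrivial_iff.mpr hI
  haveI : Finite (A ⧸ I) := Finite.of_surjective _ (Ideal.Quotient.mk_surjective (I := I))
  refine test_of_decomp (A ⧸ I) fun q => ?_
  obtain ⟨a, rfl⟩ := Ideal.Quotient.mk_surjective q
  obtain ⟨c, hc⟩ := test_decomp hA a
  refine ⟨c, ?_⟩
  have h := (test_isNilpotent hA hc).map (Ideal.Quotient.mk I)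
  rwa [map_sub] at h

/-- Subalgebras of `A × B` lying inside the fibre product over the residue field are test
algebras. -/
theorem test_prod_subalgebra [Finite (ResidueField 𝒪)] (hA : IsArtinianTestAlgebra 𝒪 A)
    (hB : IsArtinianTestAlgebra 𝒪 B) (S : Subalgebra 𝒪 (A × B))
    (hS : ∀ s ∈ S, s.1 ∈ maximalIdeal A ↔ s.2 ∈ maximalIdeal B) :
    ∃ _ : IsLocalRing S, IsArtinianTestAlgebra 𝒪 S := by
  haveI := test_finite hA
  haveI := test_finite hB
  refine test_of_decomp S fun s => ?_
  obtain ⟨c, hc⟩ := test_decomp hA (s : A × B).1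
  refine ⟨c, ?_⟩
  have hmem : (s - algebraMap 𝒪 S c : S).1 ∈ S := (s - algebraMap 𝒪 S c).2
  have h1 : ((s - algebraMap 𝒪 S c : S) : A × B).1 ∈ maximalIdeal A := by
    simpa using hc
  have h2 : ((s - algebraMap 𝒪 S c : S) : A × B).2 ∈ maximalIdeal B := (hS _ hmem).mp h1
  obtain ⟨n, hn⟩ := test_isNilpotent hA h1
  obtain ⟨m, hm⟩ := test_isNilpotent hB h2
  refine ⟨n + m, ?_⟩
  apply Subtype.ext
  apply Prod.ext
  · simp only [SubmonoidClass.coe_pow, ZeroMemClass.coe_zero, Prod.fst_zero]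
    rw [pow_add, Prod.fst_mul, Prod.pow_fst, hn, zero_mul]
  · simp only [SubmonoidClass.coe_pow, ZeroMemClass.coe_zero, Prod.snd_zero]
    rw [pow_add, Prod.snd_mul, Prod.pow_snd (c := m), hm, mul_zero]

/-- The residue field is a test algebra. -/
theorem test_residueField : IsArtinianTestAlgebra 𝒪 (ResidueField 𝒪) := by
  refine ⟨?_, ?_, inferInstance⟩
  · exact inferInstanceAs (IsLocalHom (residue 𝒪))
  · intro x
    obtain ⟨y, rfl⟩ := residue_surjective (R := ResidueField 𝒪) x
    obtain ⟨c, rfl⟩ := residue_surjective (R := 𝒪) y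
    exact ⟨c, rfl⟩

/-- The dual numbers (with the algebra structure of `TangentFinite`) are a test algebra. -/
theorem test_dualNumber :
    letI := dualAlg 𝒪
    IsArtinianTestAlgebra 𝒪 (DualNumber (ResidueField 𝒪)) := by
  letI := dualAlg 𝒪
  have halg : ∀ c : 𝒪, algebraMap 𝒪 (DualNumber (ResidueField 𝒪)) c
      = TrivSqZeroExt.inl (residue 𝒪 c) := fun c => rfl
  refine ⟨⟨fun c hc => ?_⟩, ?_, ?_⟩
  · rw [halg, TrivSqZeroExt.isUnit_iff_isUnit_fst, TrivSqZeroExt.fst_inl] at hc
    by_contra hnc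
    have : residue 𝒪 c = 0 := (residue_eq_zero_iff c).mpr ((IsLocalRing.mem_maximalIdeal c).mpr hnc)
    rw [this] at hc
    exact not_isUnit_zero hc
  · intro x
    obtain ⟨y, rfl⟩ := residue_surjective (R := DualNumber (ResidueField 𝒪)) x
    obtain ⟨c, hc⟩ := residue_surjective (R := 𝒪) y.fst
    refine ⟨c, ?_⟩
    have hmem : y - algebraMap 𝒪 (DualNumber (ResidueField 𝒪)) c
        ∈ maximalIdeal (DualNumber (ResidueField 𝒪)) := by
      rw [IsLocalRing.mem_maximalIdeal, mem_nonunits_iff, TrivSqZeroExt.isUnit_iff_isUnit_fst,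
        halg, TrivSqZeroExt.fst_sub, TrivSqZeroExt.fst_inl, hc, sub_self]
      exact not_isUnit_zero
    rw [← residue_eq_zero_iff, map_sub, sub_eq_zero] at hmem
    exact hmem.symm
  · haveI : Module.Finite (ResidueField 𝒪) (DualNumber (ResidueField 𝒪)) :=
      Module.Finite.equiv (M := ResidueField 𝒪 × ResidueField 𝒪)
        (LinearEquiv.refl (ResidueField 𝒪) (ResidueField 𝒪 × ResidueField 𝒪))
    exact IsArtinianRing.of_finite (ResidueField 𝒪) (DualNumber (ResidueField 𝒪))

/-- The level (nilpotency index of the maximal ideal) passes to sub-objects. -/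
theorem level_of_injective (hA : IsArtinianTestAlgebra 𝒪 A) (hB : IsArtinianTestAlgebra 𝒪 B)
    (φ : A →ₐ[𝒪] B) (hφ : Function.Injective φ) {n : ℕ} (h : maximalIdeal B ^ n = ⊥) :
    maximalIdeal A ^ n = ⊥ := by
  haveI := algHom_isLocalHom_of_test hB φ
  have hle : (maximalIdeal A).map (φ : A →+* B) ≤ maximalIdeal B := by
    rw [Ideal.map_le_iff_le_comap]
    intro a ha
    exact map_nonunit (φ : A →+* B) a ha
  rw [eq_bot_iff]
  intro a ha
  have h1 : (φ : A →+* B) a ∈ ((maximalIdeal A) ^ n).map (φ : A →+* B) :=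
    Ideal.mem_map_of_mem _ ha
  rw [Ideal.map_pow] at h1
  have h2 := Ideal.pow_right_mono hle n h1
  rw [h, Ideal.mem_bot] at h2
  rw [Ideal.mem_bot]
  exact hφ (by rw [map_zero]; exact h2)

/-- The level passes to quotients. -/
theorem level_of_surjective (hA : IsArtinianTestAlgebra 𝒪 A) (hB : IsArtinianTestAlgebra 𝒪 B)
    (φ : A →ₐ[𝒪] B) (hφ : Function.Surjective φ) {n : ℕ} (h : maximalIdeal A ^ n = ⊥) :
    maximalIdeal B ^ n = ⊥ := by
  have hle : maximalIdeal B ≤ (maximalIdeal A).map (φ : A →+* B) := by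
    intro b hb
    obtain ⟨a, rfl⟩ := hφ b
    refine Ideal.mem_map_of_mem _ ?_
    rw [IsLocalRing.mem_maximalIdeal]
    intro hu
    exact (IsLocalRing.mem_maximalIdeal _).mp hb (hu.map φ)
  have h1 : maximalIdeal B ^ n ≤ ((maximalIdeal A) ^ n).map (φ : A →+* B) := by
    rw [Ideal.map_pow]
    exact Ideal.pow_right_mono hle n
  rw [h, Ideal.map_bot] at h1
  exact le_bot_iff.mp h1

/-- An algebra hom out of a tight tuple is determined by its values on the coordinates. -/
theorem algHom_ext_of_tight {ι : Type} {C : Type} [CommRing C] [Algebra 𝒪 C] {x : ι → A}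
    (hx : IsTight 𝒪 x) {φ ψ : A →ₐ[𝒪] C} (h : ∀ i, φ (x i) = ψ (x i)) : φ = ψ := by
  refine AlgHom.ext_of_adjoin_eq_top hx ?_
  rintro _ ⟨i, rfl⟩
  exact h i

/-- An algebra hom sending a tuple onto a tight tuple is surjective. -/
theorem surjective_of_tight {ι : Type} {C : Type} [CommRing C] [Algebra 𝒪 C] {y : ι → C}
    (φ : A →ₐ[𝒪] C) (x : ι → A) (hy : IsTight 𝒪 y) (h : ∀ i, φ (x i) = y i) :
    Function.Surjective φ := by
  rw [← AlgHom.range_eq_top, eq_top_iff, ← hy]
  refine Algebra.adjoin_le ?_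
  rintro _ ⟨i, rfl⟩
  exact ⟨x i, h i⟩

end Fermat.Agent.DR
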