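/-
S53 project (helper2): passage from Artinian test algebras to complete Noetherian local algebras.
* `complete_algHom_isLocalHom`: `𝒪`-algebra homs into a local `𝒪`-algebra with residue field `k`
  are local;
* `complete_quotient_test`: `A ⧸ 𝔪 ^ (n+1)` is a test algebra of level `n+1`;
* `complete_exists_unique_algHom`: a tuple-preserving hom into a complete algebra exists uniquely
  as soon as it does so modulo every power of the ideal.
-/
import Fermat.Agent.Lib.DR_Test

set_option autoImplicit false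
set_option linter.unusedSectionVars false
set_option linter.style.haveILetI false

noncomputable section

namespace Fermat.Agent.DR

open IsLocalRing GaloisRep

section

variable {𝒪 : Type} [CommRing 𝒪] [IsLocalRing 𝒪]
variable {A : Type} [CommRing A] [IsLocalRing A] [Algebra 𝒪 A]
variable {B : Type} [CommRing B] [IsLocalRing B] [Algebra 𝒪 B]

/-- Any `𝒪`-algebra homomorphism from a local `𝒪`-algebra to a local `𝒪`-algebra whose residue
field is a quotient of `𝒪` is local. -/
theorem complete_algHom_isLocalHom (hB : Function.Surjective (residue B ∘ algebraMap 𝒪 B))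
    (φ : A →ₐ[𝒪] B) : IsLocalHom (φ : A →+* B) := by
  have hsurj : Function.Surjective ((residue B).comp (φ : A →+* B)) := by
    intro x
    obtain ⟨c, hc⟩ := hB x
    refine ⟨algebraMap 𝒪 A c, ?_⟩
    rw [RingHom.comp_apply, RingHom.coe_coe, AlgHom.commutes]
    exact hc
  have hmax : (RingHom.ker ((residue B).comp (φ : A →+* B))).IsMaximal :=
    RingHom.ker_isMaximal_of_surjective _ hsurj
  have hker : RingHom.ker ((residue B).comp (φ : A →+* B)) = maximalIdeal A :=
    IsLocalRing.eq_maximalIdeal hmax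
  refine ⟨fun a ha => ?_⟩
  by_contra hna
  have hmem : a ∈ maximalIdeal A := (IsLocalRing.mem_maximalIdeal a).mpr hna
  rw [← hker, RingHom.mem_ker, RingHom.comp_apply, residue_eq_zero_iff] at hmem
  exact (IsLocalRing.mem_maximalIdeal _).mp hmem ha

/-- An `𝒪`-algebra hom between local algebras (target with residue field a quotient of `𝒪`) maps
the maximal ideal into the maximal ideal. -/
theorem complete_algHom_mem_maximalIdeal (hB : Function.Surjective (residue B ∘ algebraMap 𝒪 B))
    (φ : A →ₐ[𝒪] B) {a : A} (ha : a ∈ maximalIdeal A) : φ a ∈ maximalIdeal B := by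
  haveI := complete_algHom_isLocalHom hB φ
  exact map_nonunit (φ : A →+* B) a ha

/-- The quotients `A ⧸ 𝔪 ^ (n+1)` of a Noetherian local `𝒪`-algebra with residue field `k` are
Artinian test algebras of level `n + 1`. -/
theorem complete_quotient_test [IsNoetherianRing A] (hloc : IsLocalHom (algebraMap 𝒪 A))
    (hres : Function.Surjective (residue A ∘ algebraMap 𝒪 A)) (n : ℕ) :
    ∃ _ : IsLocalRing (A ⧸ maximalIdeal A ^ (n + 1)),
      IsArtinianTestAlgebra 𝒪 (A ⧸ maximalIdeal A ^ (n + 1)) ∧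
      maximalIdeal (A ⧸ maximalIdeal A ^ (n + 1)) ^ (n + 1) = ⊥ := by
  set I : Ideal A := maximalIdeal A ^ (n + 1) with hI
  have hIle : I ≤ maximalIdeal A := Ideal.pow_le_self (Nat.succ_ne_zero n)
  have hIne : I ≠ ⊤ := fun h => (IsLocalRing.maximalIdeal.isMaximal A).ne_top
    (top_le_iff.mp (h ▸ hIle))
  haveI : Nontrivial (A ⧸ I) := Ideal.Quotient.nontrivial_iff.mpr hIne
  have hlocQ : IsLocalRing (A ⧸ I) :=
    IsLocalRing.of_surjective' (Ideal.Quotient.mk I) Ideal.Quotient.mk_surjective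
  -- `mk` maps `𝔪` into the nonunits
  have hmk : ∀ a ∈ maximalIdeal A, Ideal.Quotient.mk I a ∈ maximalIdeal (A ⧸ I) := by
    intro a ha
    rw [IsLocalRing.mem_maximalIdeal]
    intro hu
    obtain ⟨b, hb⟩ := hu.exists_right_inv
    obtain ⟨b, rfl⟩ := Ideal.Quotient.mk_surjective b
    rw [← map_mul, ← map_one (Ideal.Quotient.mk I), Ideal.Quotient.eq] at hb
    have h1 : (1 : A) ∈ maximalIdeal A := by
      have h2 : a * b - 1 ∈ maximalIdeal A := hIle hb
      have h3 : a * b ∈ maximalIdeal A := Ideal.mul_mem_right _ _ ha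
      have h4 := Ideal.sub_mem _ h3 h2
      rwa [sub_sub_cancel] at h4
    exact (IsLocalRing.maximalIdeal.isMaximal A).ne_top ((Ideal.eq_top_iff_one _).mpr h1)
  have hmax : maximalIdeal (A ⧸ I) = (maximalIdeal A).map (Ideal.Quotient.mk I) := by
    apply le_antisymm
    · intro b hb
      obtain ⟨a, rfl⟩ := Ideal.Quotient.mk_surjective b
      refine Ideal.mem_map_of_mem _ ?_
      rw [IsLocalRing.mem_maximalIdeal]
      intro hu
      exact (IsLocalRing.mem_maximalIdeal _).mp hb (hu.map _)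
    · rw [Ideal.map_le_iff_le_comap]
      exact fun a ha => hmk a ha
  have hlevel : maximalIdeal (A ⧸ I) ^ (n + 1) = ⊥ := by
    rw [hmax, ← Ideal.map_pow, ← hI, Ideal.map_quotient_self]
  refine ⟨hlocQ, ⟨?_, ?_, ?_⟩, hlevel⟩
  · refine ⟨fun c hc => ?_⟩
    by_contra hnc
    have h1 : algebraMap 𝒪 A c ∈ maximalIdeal A := by
      rw [IsLocalRing.mem_maximalIdeal]
      intro hu
      exact hnc (hloc.map_nonunit c hu)
    exact (IsLocalRing.mem_maximalIdeal _).mp (hmk _ h1) hc
  · intro x
    obtain ⟨q, rfl⟩ := residue_surjective (R := A ⧸ I) x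
    obtain ⟨a, rfl⟩ := Ideal.Quotient.mk_surjective q
    obtain ⟨c, hc⟩ := hres (residue A a)
    refine ⟨c, ?_⟩
    have h1 : a - algebraMap 𝒪 A c ∈ maximalIdeal A := by
      rw [← residue_eq_zero_iff, map_sub, sub_eq_zero]
      exact hc.symm
    have h2 := hmk _ h1
    rw [← residue_eq_zero_iff, map_sub, map_sub, sub_eq_zero] at h2
    exact h2.symm
  · exact (isArtinianRing_iff_isNilpotent_maximalIdeal (A ⧸ I)).mpr ⟨n + 1, hlevel⟩

end

section lift

variable {𝒪 : Type} [CommRing 𝒪] {R : Type} [CommRing R] [Algebra 𝒪 R]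
  {A : Type} [CommRing A] [Algebra 𝒪 A] {ι : Type}

/-- If `A` is `I`-adically complete and, modulo every `I ^ (n+1)`, there is a unique `𝒪`-algebra
hom `R → A ⧸ I ^ (n+1)` carrying the tuple `xu` to (the image of) the tuple `xA`, then there is a
unique `𝒪`-algebra hom `R → A` carrying `xu` to `xA`. -/
theorem complete_exists_unique_algHom (I : Ideal A) [IsAdicComplete I A] (xu : ι → R)
    (xA : ι → A)
    (h : ∀ n : ℕ, ∃! φ : R →ₐ[𝒪] A ⧸ I ^ (n + 1),
      ∀ i, φ (xu i) = Ideal.Quotient.mk (I ^ (n + 1)) (xA i)) :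
    ∃! φ : R →ₐ[𝒪] A, ∀ i, φ (xu i) = xA i := by
  -- the statement for all `n`, including the zero ring `A ⧸ I ^ 0`
  have H : ∀ n : ℕ, ∃! φ : R →ₐ[𝒪] A ⧸ I ^ n, ∀ i, φ (xu i) = Ideal.Quotient.mk (I ^ n) (xA i) := by
    intro n
    cases n with
    | zero =>
      haveI : Subsingleton (A ⧸ I ^ 0) := by
        rw [pow_zero, Ideal.one_eq_top]
        exact Ideal.Quotient.subsingleton_iff.mpr rfl
      obtain ⟨φ, -, -⟩ := h 0
      refine ⟨(Ideal.Quotient.factorₐ 𝒪 (Ideal.pow_le_pow_right (Nat.zero_le 1))).comp φ,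
        fun i => Subsingleton.elim _ _, fun ψ _ => AlgHom.ext fun r => Subsingleton.elim _ _⟩
    | succ n => exact h n
  choose f hf hfuniq using H
  have hcompat : ∀ {m n : ℕ} (hle : m ≤ n),
      (Ideal.Quotient.factorₐ 𝒪 (Ideal.pow_le_pow_right hle)).comp (f n) = f m := by
    intro m n hle
    refine hfuniq m _ fun i => ?_
    rw [AlgHom.comp_apply, hf n i]
    rfl
  have hmk : ∀ (φ : R →ₐ[𝒪] A) (n : ℕ) (r : R),
      (Ideal.Quotient.mkₐ 𝒪 (I ^ n)).comp φ r = Ideal.Quotient.mk (I ^ n) (φ r) := fun _ _ _ => rfl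
  refine ⟨IsAdicComplete.liftAlgHom I f hcompat, fun i => ?_, fun ψ hψ => ?_⟩
  · have hsub : ∀ n : ℕ, IsAdicComplete.liftAlgHom I f hcompat (xu i) - xA i ∈ I ^ n := by
      intro n
      rw [← Ideal.Quotient.eq, ← hf n i]
      exact IsAdicComplete.mk_liftAlgHom I f hcompat n (xu i)
    have hzero : IsAdicComplete.liftAlgHom I f hcompat (xu i) - xA i = 0 := by
      refine IsHausdorff.haus (inferInstance : IsHausdorff I A) _ fun n => ?_
      rw [SModEq.zero, smul_eq_mul, Ideal.mul_top]
      exact hsub n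
    exact sub_eq_zero.mp hzero
  · refine IsAdicComplete.algHom_ext I fun n => ?_
    rw [IsAdicComplete.mkₐ_comp_liftAlgHom]
    refine hfuniq n _ fun i => ?_
    rw [hmk, hψ i]

end lift

end Fermat.Agent.DR
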