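/-
helper6: basic definitions for the universal deformation ring (S53).
Matrix-valued Galois representations, standard representations, normal forms.
-/
import Mathlib
import Fermat.Prelude.Def_GaloisRep_DeformationRingData
import Fermat.Prelude.Def_GaloisRep_DeformationCondition

set_option autoImplicit false

noncomputable section

namespace Fermat.Agent.Lib.H6D

open IsLocalRing

/-- The absolute Galois group of `ℚ`. -/
abbrev GQ : Type := AlgebraicClosure ℚ ≃ₐ[ℚ] AlgebraicClosure ℚ

/-- `2 × 2` matrices. -/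
abbrev M2 (A : Type) : Type := Matrix (Fin 2) (Fin 2) A

section Std

variable (A : Type) [CommRing A] [IsLocalRing A]

/-- Adic continuity of a matrix valued homomorphism. -/
def MatCont (r : GQ →* M2 A) : Prop :=
  ∀ n : ℕ, ∃ L : IntermediateField ℚ (AlgebraicClosure ℚ), FiniteDimensional ℚ L ∧
    ∀ σ : GQ, (∀ x ∈ L, σ x = x) → ∀ i j, (r σ - 1) i j ∈ maximalIdeal A ^ n

/-- The action on `Fin 2 → A` attached to a matrix valued homomorphism. -/
def stdHom (r : GQ →* M2 A) : GQ →* Module.End A (Fin 2 → A) where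
  toFun σ := Matrix.toLin' (r σ)
  map_one' := by rw [map_one, Matrix.toLin'_one]; rfl
  map_mul' σ τ := by rw [map_mul, Matrix.toLin'_mul]; rfl

omit [IsLocalRing A] in
variable {A} in
theorem stdHom_apply (r : GQ →* M2 A) (σ : GQ) (v : Fin 2 → A) :
    stdHom A r σ v = (r σ).mulVec v := rfl

omit [IsLocalRing A] in
variable {A} in
theorem mem_smul_top_of_forall_coord (I : Ideal A) (w : Fin 2 → A) (hw : ∀ i, w i ∈ I) :
    w ∈ I • (⊤ : Submodule A (Fin 2 → A)) := by
  have hsum : w = ∑ i, w i • (Pi.single i (1 : A) : Fin 2 → A) := by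
    funext j
    simp [Finset.sum_apply, Pi.single_apply]
  rw [hsum]
  exact Submodule.sum_mem _ fun i _ => Submodule.smul_mem_smul (hw i) Submodule.mem_top

omit [IsLocalRing A] in
variable {A} in
theorem coord_mem_of_mem_smul_top (I : Ideal A) (w : Fin 2 → A)
    (hw : w ∈ I • (⊤ : Submodule A (Fin 2 → A))) (i : Fin 2) : w i ∈ I := by
  refine Submodule.smul_induction_on (p := fun x => x i ∈ I) hw ?_ ?_
  · intro a ha v _
    simpa using Ideal.mul_mem_right _ _ ha
  · intro x y hx hy
    simpa using Ideal.add_mem _ hx hy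

/-- The standard representation on `Fin 2 → A` attached to a continuous matrix valued
homomorphism. -/
def stdRep (r : GQ →* M2 A) (hr : MatCont A r) : GaloisRepAdic A where
  V := Fin 2 → A
  finrank_eq := Module.finrank_fin_fun A
  ρ := stdHom A r
  isAdicContinuous := by
    intro n
    obtain ⟨L, hL, h⟩ := hr n
    refine ⟨L, hL, fun σ hσ v => mem_smul_top_of_forall_coord _ _ fun i => ?_⟩
    have h1 : (stdHom A r σ v - v) i = ∑ j, (r σ - 1) i j * v j := by
      rw [stdHom_apply, Pi.sub_apply, Matrix.mulVec, dotProduct]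
      simp only [Matrix.sub_apply, sub_mul, Finset.sum_sub_distrib, Matrix.one_apply,
        ite_mul, one_mul, zero_mul, Finset.sum_ite_eq, Finset.mem_univ, if_true]
    rw [h1]
    exact Ideal.sum_mem _ fun j _ => Ideal.mul_mem_right _ _ (h σ hσ i j)

variable {A} in
/-- Conjugation of a matrix valued homomorphism by an invertible matrix. -/
def conjHom (γ : (M2 A)ˣ) (r : GQ →* M2 A) : GQ →* M2 A where
  toFun σ := (γ : M2 A) * r σ * ((γ⁻¹ : (M2 A)ˣ) : M2 A)
  map_one' := by rw [map_one, mul_one, Units.mul_inv]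
  map_mul' σ τ := by
    rw [map_mul]
    calc (γ : M2 A) * (r σ * r τ) * ((γ⁻¹ : (M2 A)ˣ) : M2 A)
        = (γ : M2 A) * r σ * (((γ⁻¹ : (M2 A)ˣ) : M2 A) * (γ : M2 A)) * r τ *
            ((γ⁻¹ : (M2 A)ˣ) : M2 A) := by rw [Units.inv_mul, mul_one]; simp only [mul_assoc]
      _ = _ := by simp only [mul_assoc]

omit [IsLocalRing A] in
variable {A} in
theorem conjHom_apply (γ : (M2 A)ˣ) (r : GQ →* M2 A) (σ : GQ) :
    conjHom γ r σ = (γ : M2 A) * r σ * ((γ⁻¹ : (M2 A)ˣ) : M2 A) := rfl

variable {A} in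
/-- Pushforward of a matrix valued homomorphism along a ring homomorphism. -/
def mapHom {B : Type} [CommRing B] (φ : A →+* B) (r : GQ →* M2 A) : GQ →* M2 B :=
  (φ.mapMatrix : M2 A →+* M2 B).toMonoidHom.comp r

omit [IsLocalRing A] in
variable {A} in
theorem mapHom_apply {B : Type} [CommRing B] (φ : A →+* B) (r : GQ →* M2 A) (σ : GQ)
    (i j : Fin 2) : mapHom φ r σ i j = φ (r σ i j) := rfl

end Std

section NF

variable (𝒪 : Type) [CommRing 𝒪] [IsLocalRing 𝒪]

/-- Data used to normalise lifts: entrywise lifts `c` of the residual matrices and two finitely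
supported families `a`, `b` of coefficients such that `∑ a g • c g` reduces to `diag(0,1)` and
`∑ b g • c g` has `(1,0)`-entry reducing to `1`. -/
structure NFData where
  c : GQ → M2 𝒪
  a : GQ →₀ 𝒪
  b : GQ →₀ 𝒪
  hU00 : (a.sum fun g x => x • c g) 0 0 ∈ maximalIdeal 𝒪
  hU01 : (a.sum fun g x => x • c g) 0 1 ∈ maximalIdeal 𝒪
  hU10 : (a.sum fun g x => x • c g) 1 0 ∈ maximalIdeal 𝒪
  hU11 : (a.sum fun g x => x • c g) 1 1 - 1 ∈ maximalIdeal 𝒪
  hW10 : (b.sum fun g x => x • c g) 1 0 - 1 ∈ maximalIdeal 𝒪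

variable {𝒪}
variable (A : Type) [CommRing A] [IsLocalRing A] [Algebra 𝒪 A]

/-- `r` lifts the residual matrices: entrywise congruent to `c` modulo the maximal ideal. -/
def IsLift (c : GQ → M2 𝒪) (r : GQ →* M2 A) : Prop :=
  ∀ g i j, r g i j - algebraMap 𝒪 A (c g i j) ∈ maximalIdeal A

variable {A} in
/-- The linear combination `∑ a g • r g`. -/
def Uof (a : GQ →₀ 𝒪) (r : GQ →* M2 A) : M2 A := a.sum fun g x => x • r g

/-- Normal form: `∑ a g • r g` is diagonal and `∑ b g • r g` has `(1,0)`-entry `1`. -/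
def IsNF (D : NFData 𝒪) (r : GQ →* M2 A) : Prop :=
  Uof D.a r 0 1 = 0 ∧ Uof D.a r 1 0 = 0 ∧ Uof D.b r 1 0 = 1

/-- Normalised deformations of type `𝒟` with values in `A`. -/
structure IsDefNF (D : NFData 𝒪)
    (𝒟 : ∀ ⦃A : Type⦄ [CommRing A] [IsLocalRing A] [Algebra 𝒪 A], GaloisRepAdic A → Prop)
    (r : GQ →* M2 A) : Prop where
  cont : MatCont A r
  lift : IsLift A D.c r
  nf : IsNF A D r
  isType : 𝒟 (stdRep A r cont)

end NF

section Aug

variable (𝒪 : Type) [CommRing 𝒪] [IsLocalRing 𝒪]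

/-- The `𝒪`-algebra structure on the dual numbers over the residue field used in
`GaloisRep.TangentFinite`. -/
@[reducible] def dualAlg : Algebra 𝒪 (DualNumber (ResidueField 𝒪)) :=
  ((algebraMap (ResidueField 𝒪) (DualNumber (ResidueField 𝒪))).comp
    (algebraMap 𝒪 (ResidueField 𝒪))).toAlgebra

/-- The dual numbers `k[ε]` over the residue field `k` of `𝒪`, as a type synonym carrying
exactly the `𝒪`-algebra structure used in `GaloisRep.TangentFinite`. -/
def KE : Type := DualNumber (ResidueField 𝒪)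

instance : CommRing (KE 𝒪) := inferInstanceAs (CommRing (DualNumber (ResidueField 𝒪)))

instance : IsLocalRing (KE 𝒪) := inferInstanceAs (IsLocalRing (DualNumber (ResidueField 𝒪)))

instance : Algebra 𝒪 (KE 𝒪) := dualAlg 𝒪

theorem KE.algebraMap_apply (c : 𝒪) :
    algebraMap 𝒪 (KE 𝒪) c = (TrivSqZeroExt.inl (residue 𝒪 c) : DualNumber (ResidueField 𝒪)) :=
  rfl

end Aug

end Fermat.Agent.Lib.H6D
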