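/-
helper5: rigidifying frame for an absolutely irreducible residual representation (S53).
-/
import Mathlib
import Fermat.Prelude.Def_GaloisRep_Residual
import Fermat.Agent.Lib.H6_DefBasic

set_option autoImplicit false

open IsLocalRing TensorProduct
open Fermat.Agent.Lib.H6D

namespace Fermat.Agent.Lib.H5D

section Residual

variable {k : Type} [Field k] (ρ : ResidualGaloisRep k)

/-- Absolute irreducibility forbids a stable line spanned by a rational vector. -/
lemma exists_not_mem_span (habs : ρ.IsAbsolutelyIrreducible) (v : ρ.V) (hv : v ≠ 0) :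
    ∃ g : GQ, ρ.ρ g v ∉ Submodule.span k {v} := by
  by_contra hcon
  push Not at hcon
  have hinj : Function.Injective (TensorProduct.mk k (AlgebraicClosure k) ρ.V 1) :=
    Module.Flat.tensorProduct_mk_injective k ρ.V (AlgebraicClosure k)
  have hw : (1 : AlgebraicClosure k) ⊗ₜ[k] v ≠ 0 := by
    intro h
    apply hv
    apply hinj
    simpa using h
  have hstab : ∀ σ : GQ, ∀ x ∈ Submodule.span (AlgebraicClosure k)
      {(1 : AlgebraicClosure k) ⊗ₜ[k] v},
      (ρ.baseChange (AlgebraicClosure k)).ρ σ x ∈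
        Submodule.span (AlgebraicClosure k) {(1 : AlgebraicClosure k) ⊗ₜ[k] v} := by
    intro σ x hx
    obtain ⟨c, rfl⟩ := Submodule.mem_span_singleton.mp hx
    obtain ⟨a, ha⟩ := Submodule.mem_span_singleton.mp (hcon σ)
    rw [map_smul]
    refine Submodule.smul_mem _ _ ?_
    show (ρ.ρ σ).baseChange (AlgebraicClosure k) (1 ⊗ₜ v) ∈ _
    rw [LinearMap.baseChange_tmul, ← ha, TensorProduct.tmul_smul]
    exact Submodule.smul_of_tower_mem _ a (Submodule.mem_span_singleton_self _)
  rcases habs _ hstab with h | h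
  · apply hw
    have := Submodule.mem_span_singleton_self (R := AlgebraicClosure k)
      ((1 : AlgebraicClosure k) ⊗ₜ[k] v)
    rw [h] at this
    simpa using this
  · have h1 : Module.finrank (AlgebraicClosure k) (AlgebraicClosure k ⊗[k] ρ.V) = 2 := by
      rw [Module.finrank_baseChange, ρ.finrank_eq]
    have h2 : Module.finrank (AlgebraicClosure k)
        (Submodule.span (AlgebraicClosure k) {(1 : AlgebraicClosure k) ⊗ₜ[k] v}) = 1 :=
      finrank_span_singleton hw
    rw [h, finrank_top, h1] at h2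
    omega

/-- A basis in which `ρ g₂` is a companion matrix. -/
lemma exists_companion_basis (habs : ρ.IsAbsolutelyIrreducible) :
    ∃ (e : Module.Basis (Fin 2) k ρ.V) (g₂ : GQ), ρ.ρ g₂ (e 0) = e 1 := by
  have hnt : Nontrivial ρ.V :=
    Module.nontrivial_of_finrank_pos (R := k) (by rw [ρ.finrank_eq]; norm_num)
  obtain ⟨v, hv⟩ := exists_ne (0 : ρ.V)
  obtain ⟨g, hg⟩ := exists_not_mem_span ρ habs v hv
  have hli : LinearIndependent k ![v, ρ.ρ g v] := by
    rw [LinearIndependent.pair_iff' hv]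
    intro a ha
    exact hg (Submodule.mem_span_singleton.mpr ⟨a, ha⟩)
  refine ⟨basisOfLinearIndependentOfCardEqFinrank hli (by simp [ρ.finrank_eq]), g, ?_⟩
  simp [coe_basisOfLinearIndependentOfCardEqFinrank]

/-- Some element does not commute with `ρ g₂`. -/
lemma exists_not_commute (habs : ρ.IsAbsolutelyIrreducible)
    (e : Module.Basis (Fin 2) k ρ.V) (g₂ : GQ) (he : ρ.ρ g₂ (e 0) = e 1) :
    ∃ g₃ : GQ, ρ.ρ g₂ * ρ.ρ g₃ ≠ ρ.ρ g₃ * ρ.ρ g₂ := by
  by_contra hcon
  push Not at hcon
  have hnt : Nontrivial (AlgebraicClosure k ⊗[k] ρ.V) :=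
    Module.nontrivial_of_finrank_pos (R := AlgebraicClosure k)
      (by rw [Module.finrank_baseChange, ρ.finrank_eq]; norm_num)
  obtain ⟨μ, hμ⟩ := Module.End.exists_eigenvalue
    ((ρ.ρ g₂).baseChange (AlgebraicClosure k))
  have hstab : ∀ σ : GQ, ∀ x ∈ Module.End.eigenspace
      ((ρ.ρ g₂).baseChange (AlgebraicClosure k)) μ,
      (ρ.baseChange (AlgebraicClosure k)).ρ σ x ∈ Module.End.eigenspace
        ((ρ.ρ g₂).baseChange (AlgebraicClosure k)) μ := by
    intro σ x hx
    rw [Module.End.mem_eigenspace_iff] at hx ⊢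
    have hc : (ρ.ρ g₂).baseChange (AlgebraicClosure k) ∘ₗ
        (ρ.ρ σ).baseChange (AlgebraicClosure k) =
        (ρ.ρ σ).baseChange (AlgebraicClosure k) ∘ₗ
          (ρ.ρ g₂).baseChange (AlgebraicClosure k) := by
      rw [← LinearMap.baseChange_comp, ← LinearMap.baseChange_comp]
      congr 1
      exact hcon σ
    show (ρ.ρ g₂).baseChange (AlgebraicClosure k)
      ((ρ.ρ σ).baseChange (AlgebraicClosure k) x) = μ • (ρ.ρ σ).baseChange (AlgebraicClosure k) x
    rw [← LinearMap.comp_apply, hc, LinearMap.comp_apply, hx, map_smul]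
  rcases habs _ hstab with h | h
  · exact hμ h
  · have h1 : (1 : AlgebraicClosure k) ⊗ₜ[k] e 0 ∈ Module.End.eigenspace
        ((ρ.ρ g₂).baseChange (AlgebraicClosure k)) μ := by
      rw [h]; exact Submodule.mem_top
    rw [Module.End.mem_eigenspace_iff, LinearMap.baseChange_tmul, he] at h1
    have h2 := congrArg
      (fun x => (Algebra.TensorProduct.basis (AlgebraicClosure k) e).repr x 1) h1
    rw [← Algebra.TensorProduct.basis_apply, ← Algebra.TensorProduct.basis_apply] at h2
    simp at h2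

end Residual

section Frame

variable (𝒪 : Type) [CommRing 𝒪] [IsLocalRing 𝒪]

/-- Rigidifying data attached to an absolutely irreducible residual representation:
a basis in which `ρbar g₂` is a companion matrix, an element `g₃` and a matrix position
at which the commutator of `ρbar g₂` and `ρbar g₃` does not vanish, and an entrywise
set-theoretic lift `rt` of the matrices of `ρbar` to `𝒪`. -/
structure Frame (ρbar : ResidualGaloisRep (ResidueField 𝒪)) where
  e : Module.Basis (Fin 2) (ResidueField 𝒪) ρbar.V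
  rt : GQ → M2 𝒪
  rt_res : ∀ σ i j, residue 𝒪 (rt σ i j) = LinearMap.toMatrix e e (ρbar.ρ σ) i j
  g₂ : GQ
  g₃ : GQ
  i₀ : Fin 2
  j₀ : Fin 2
  rt_g₂_00 : rt g₂ 0 0 = 0
  rt_g₂_10 : rt g₂ 1 0 = 1
  comm_unit : IsUnit ((rt g₂ * rt g₃ - rt g₃ * rt g₂) i₀ j₀)

variable {𝒪}

theorem exists_frame (ρbar : ResidualGaloisRep (ResidueField 𝒪))
    (habs : ρbar.IsAbsolutelyIrreducible) : Nonempty (Frame 𝒪 ρbar) := by
  classical
  obtain ⟨e, g₂, he⟩ := exists_companion_basis ρbar habs
  obtain ⟨g₃, hg₃⟩ := exists_not_commute ρbar habs e g₂ he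
  have h00 : LinearMap.toMatrix e e (ρbar.ρ g₂) 0 0 = 0 := by
    rw [LinearMap.toMatrix_apply, he]; simp
  have h10 : LinearMap.toMatrix e e (ρbar.ρ g₂) 1 0 = 1 := by
    rw [LinearMap.toMatrix_apply, he]; simp
  have hne : LinearMap.toMatrix e e (ρbar.ρ g₂) * LinearMap.toMatrix e e (ρbar.ρ g₃) -
      LinearMap.toMatrix e e (ρbar.ρ g₃) * LinearMap.toMatrix e e (ρbar.ρ g₂) ≠ 0 := by
    intro h
    rw [sub_eq_zero, ← LinearMap.toMatrix_mul, ← LinearMap.toMatrix_mul] at h
    exact hg₃ ((LinearMap.toMatrix e e).injective h)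
  obtain ⟨i₀, j₀, hij⟩ : ∃ i j, (LinearMap.toMatrix e e (ρbar.ρ g₂) *
      LinearMap.toMatrix e e (ρbar.ρ g₃) -
      LinearMap.toMatrix e e (ρbar.ρ g₃) * LinearMap.toMatrix e e (ρbar.ρ g₂)) i j ≠ 0 := by
    by_contra h
    push Not at h
    exact hne (Matrix.ext h)
  let lift : ResidueField 𝒪 → 𝒪 := fun x =>
    if x = 0 then 0 else if x = 1 then 1 else (residue_surjective x).choose
  have hlift : ∀ x, residue 𝒪 (lift x) = x := by
    intro x
    by_cases h0 : x = 0
    · simp [lift, h0]
    · by_cases h1 : x = 1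
      · simp [lift, h1]
      · simp only [lift, h0, h1, if_false]
        exact (residue_surjective x).choose_spec
  have hmap : ∀ σ, ((LinearMap.toMatrix e e (ρbar.ρ σ)).map lift).map (residue 𝒪) =
      LinearMap.toMatrix e e (ρbar.ρ σ) := by
    intro σ
    ext i j
    simp [hlift]
  refine ⟨{ e := e
            rt := fun σ => (LinearMap.toMatrix e e (ρbar.ρ σ)).map lift
            rt_res := fun σ i j => by simp [hlift]
            g₂ := g₂
            g₃ := g₃
            i₀ := i₀
            j₀ := j₀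
            rt_g₂_00 := by simp [h00, lift]
            rt_g₂_10 := by simp [h10, lift]
            comm_unit := ?_ }⟩
  rw [← IsLocalRing.notMem_maximalIdeal, ← IsLocalRing.residue_eq_zero_iff]
  have h : (residue 𝒪).mapMatrix (((LinearMap.toMatrix e e (ρbar.ρ g₂)).map lift) *
      ((LinearMap.toMatrix e e (ρbar.ρ g₃)).map lift) -
      ((LinearMap.toMatrix e e (ρbar.ρ g₃)).map lift) *
      ((LinearMap.toMatrix e e (ρbar.ρ g₂)).map lift)) =
      LinearMap.toMatrix e e (ρbar.ρ g₂) * LinearMap.toMatrix e e (ρbar.ρ g₃) -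
      LinearMap.toMatrix e e (ρbar.ρ g₃) * LinearMap.toMatrix e e (ρbar.ρ g₂) := by
    rw [map_sub, map_mul, map_mul]
    simp only [RingHom.mapMatrix_apply, hmap]
  have h' := congrFun (congrFun h i₀) j₀
  rw [RingHom.mapMatrix_apply, Matrix.map_apply] at h'
  rw [h']
  exact hij

end Frame

end Fermat.Agent.Lib.H5D
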