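/-
S53 project, module G-1 (helper5): the rigidifying frame of an absolutely irreducible residual
representation, in the vocabulary of `DR_Defs`.  The proofs live in `H5_Frame.lean`.
-/
import Mathlib
import Fermat.Agent.Lib.DR_Defs
import Fermat.Agent.Lib.H5_Frame

set_option autoImplicit false

namespace Fermat.Agent.DR

open IsLocalRing

/-- Rigidifying data attached to an absolutely irreducible residual representation `ρbar`:
* `e` : a basis of `ρbar.V`;
* `rt : Gal → M₂(𝒪)` : an entrywise set-theoretic lift of the matrices of `ρbar` in the basis `e`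
  (`rt_res`);
* `g₂ g₃ : Gal`, `i₀ j₀ : Fin 2` with `rt g₂ 0 0 = 0`, `rt g₂ 1 0 = 1` (so `ρbar g₂` is a
  companion matrix) and `(rt g₂ * rt g₃ - rt g₃ * rt g₂) i₀ j₀` a unit (`comm_unit`). -/
abbrev Frame (𝒪 : Type) [CommRing 𝒪] [IsLocalRing 𝒪]
    (ρbar : ResidualGaloisRep (ResidueField 𝒪)) : Type :=
  Fermat.Agent.Lib.H5D.Frame 𝒪 ρbar

theorem exists_frame {𝒪 : Type} [CommRing 𝒪] [IsLocalRing 𝒪]
    (ρbar : ResidualGaloisRep (ResidueField 𝒪)) (habs : ρbar.IsAbsolutelyIrreducible) :
    Nonempty (Frame 𝒪 ρbar) :=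
  Fermat.Agent.Lib.H5D.exists_frame ρbar habs

end Fermat.Agent.DR
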