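/-
helper5: normal form ("companion slice") for lifts of an absolutely irreducible residual
representation: uniqueness over any local ring, existence over adically complete local rings.
-/
import Mathlib
import Fermat.Agent.Lib.H5_Frame

set_option autoImplicit false

open IsLocalRing
open Fermat.Agent.Lib.H6D

namespace Fermat.Agent.Lib.H5D

section

variable {𝒪 : Type} [CommRing 𝒪] [IsLocalRing 𝒪] {ρbar : ResidualGaloisRep (ResidueField 𝒪)}
variable (F : Frame 𝒪 ρbar) (A : Type) [CommRing A] [IsLocalRing A] [Algebra 𝒪 A]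

/-- A matrix valued homomorphism is *normalized* (with respect to the frame `F`) if it lifts the
residual matrices, its value at `g₂` is a companion matrix and the `(i₀, j₀)` entry of its value
at `g₃` is the fixed constant coming from `𝒪`. -/
structure Frame.IsNormalized (r : GQ →* M2 A) : Prop where
  lift : IsLift A F.rt r
  n₁ : r F.g₂ 0 0 = 0
  n₂ : r F.g₂ 1 0 = 1
  n₃ : r F.g₃ F.i₀ F.j₀ = algebraMap 𝒪 A (F.rt F.g₃ F.i₀ F.j₀)

variable {A}

omit [IsLocalRing 𝒪] in
/-- Reformulation of `IsLift` through the residue field. -/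
theorem isLift_iff_mapMatrix (c : GQ → M2 𝒪) (r : GQ →* M2 A) :
    IsLift A c r ↔ ∀ g, (residue A).mapMatrix (r g) =
      ((residue A).comp (algebraMap 𝒪 A)).mapMatrix (c g) := by
  constructor
  · intro h g
    ext i j
    simp only [RingHom.mapMatrix_apply, Matrix.map_apply, RingHom.comp_apply]
    rw [← sub_eq_zero, ← map_sub, residue_eq_zero_iff]
    exact h g i j
  · intro h g i j
    have := congrFun (congrFun (h g) i) j
    simp only [RingHom.mapMatrix_apply, Matrix.map_apply, RingHom.comp_apply] at this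
    rw [← residue_eq_zero_iff, map_sub, this, sub_self]

variable {F}

/-- **Uniqueness of the normal form.** Two normalized homomorphisms which are conjugate by an
invertible matrix are equal. -/
theorem Frame.normalized_unique {r r' : GQ →* M2 A} (hr : F.IsNormalized A r)
    (hr' : F.IsNormalized A r') (P Q : M2 A) (hPQ : P * Q = 1) (hQP : Q * P = 1)
    (h : ∀ σ, P * r σ = r' σ * P) : r' = r := by
  -- Step 1: `r g₂ = r' g₂`
  have hC' : r' F.g₂ = P * r F.g₂ * Q := by rw [h, mul_assoc, hPQ, mul_one]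
  have htr : Matrix.trace (r' F.g₂) = Matrix.trace (r F.g₂) := by
    rw [hC', Matrix.trace_mul_cycle, hQP, one_mul]
  have hdet : Matrix.det (r' F.g₂) = Matrix.det (r F.g₂) := by
    rw [hC', Matrix.det_mul, Matrix.det_mul, mul_right_comm, ← Matrix.det_mul, hPQ,
      Matrix.det_one, one_mul]
  have e11 : r' F.g₂ 1 1 = r F.g₂ 1 1 := by
    simpa [Matrix.trace_fin_two, hr.n₁, hr'.n₁] using htr
  have e01 : r' F.g₂ 0 1 = r F.g₂ 0 1 := by
    rw [Matrix.det_fin_two, Matrix.det_fin_two, hr.n₁, hr'.n₁, hr.n₂, hr'.n₂] at hdet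
    linear_combination -hdet
  have hCeq : r' F.g₂ = r F.g₂ := by
    ext i j
    fin_cases i <;> fin_cases j
    · exact hr'.n₁.trans hr.n₁.symm
    · exact e01
    · exact hr'.n₂.trans hr.n₂.symm
    · exact e11
  -- Step 2: `P = p + s C`
  have hcomm := h F.g₂
  rw [hCeq] at hcomm
  have h00 := congrFun (congrFun hcomm 0) 0
  have h10 := congrFun (congrFun hcomm 1) 0
  simp only [Matrix.mul_apply, Fin.sum_univ_two, hr.n₁, hr.n₂, mul_zero, mul_one, zero_add,
    zero_mul, one_mul] at h00 h10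
  have hP : P = P 0 0 • (1 : M2 A) + P 1 0 • r F.g₂ := by
    ext i j
    fin_cases i <;> fin_cases j
    · simp [hr.n₁]
    · simp [h00, mul_comm]
    · simp [hr.n₂]
    · simp [h10, mul_comm]
  -- Step 3: the key identity
  have key : ∀ σ, P 0 0 • (r σ - r' σ) = P 1 0 • (r' σ * r F.g₂ - r F.g₂ * r σ) := by
    intro σ
    have h1 := h σ
    rw [hP] at h1
    simp only [add_mul, mul_add, Matrix.smul_mul, Matrix.mul_smul, one_mul, mul_one] at h1
    rw [smul_sub, smul_sub, sub_eq_sub_iff_add_eq_add, h1, add_comm]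
  -- Step 4: the commutator entry is a unit
  have hunit : IsUnit ((r' F.g₃ * r F.g₂ - r F.g₂ * r F.g₃) F.i₀ F.j₀) := by
    have h1 : (residue A).mapMatrix (r' F.g₃ * r F.g₂ - r F.g₂ * r F.g₃) =
        ((residue A).comp (algebraMap 𝒪 A)).mapMatrix
          (F.rt F.g₃ * F.rt F.g₂ - F.rt F.g₂ * F.rt F.g₃) := by
      rw [map_sub, map_mul, map_mul, map_sub, map_mul, map_mul,
        (isLift_iff_mapMatrix F.rt r).mp hr.lift, (isLift_iff_mapMatrix F.rt r).mp hr.lift,
        (isLift_iff_mapMatrix F.rt r').mp hr'.lift]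
    have h2 := congrFun (congrFun h1 F.i₀) F.j₀
    simp only [RingHom.mapMatrix_apply, Matrix.map_apply] at h2
    have h3 : IsUnit ((F.rt F.g₃ * F.rt F.g₂ - F.rt F.g₂ * F.rt F.g₃) F.i₀ F.j₀) := by
      have := F.comm_unit.neg
      rwa [← Matrix.neg_apply, neg_sub] at this
    have h4 := h3.map ((residue A).comp (algebraMap 𝒪 A))
    rw [← h2] at h4
    exact isUnit_of_map_unit (residue A) _ h4
  have hs : P 1 0 = 0 := by
    have h1 := congrFun (congrFun (key F.g₃) F.i₀) F.j₀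
    simp only [Matrix.smul_apply, smul_eq_mul] at h1
    rw [Matrix.sub_apply (r F.g₃), hr.n₃, hr'.n₃, sub_self, mul_zero] at h1
    exact (hunit.mul_left_eq_zero).mp h1.symm
  -- Step 5: `P` is an invertible scalar
  have hP' : P = P 0 0 • (1 : M2 A) := by rw [hP, hs, zero_smul, add_zero]; simp
  have hp : IsUnit (P 0 0) := by
    have h1 := congrFun (congrFun hPQ 0) 0
    rw [hP'] at h1
    simp only [Matrix.smul_mul, one_mul, Matrix.smul_apply, smul_eq_mul, Matrix.one_apply_eq]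
      at h1
    exact IsUnit.of_mul_eq_one _ h1
  ext σ : 1
  have h1 := key σ
  rw [hs, zero_smul] at h1
  have h2 : r σ - r' σ = 0 := by
    ext i j
    have h3 := congrFun (congrFun h1 i) j
    simp only [Matrix.smul_apply, smul_eq_mul, Matrix.zero_apply] at h3
    exact (hp.mul_right_eq_zero).mp h3
  exact (sub_eq_zero.mp h2).symm

omit [IsLocalRing 𝒪] in
/-- Conjugating by a matrix which is residually the identity preserves `IsLift`. -/
theorem isLift_conjHom (c : GQ → M2 𝒪) {r : GQ →* M2 A} (hr : IsLift A c r) (γ : (M2 A)ˣ)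
    (hγ : (residue A).mapMatrix (γ : M2 A) = 1) : IsLift A c (conjHom γ r) := by
  rw [isLift_iff_mapMatrix] at hr ⊢
  intro g
  have h1 : (residue A).mapMatrix ((γ⁻¹ : (M2 A)ˣ) : M2 A) = 1 := by
    have h2 : (residue A).mapMatrix (γ : M2 A) *
        (residue A).mapMatrix ((γ⁻¹ : (M2 A)ˣ) : M2 A) = 1 := by
      rw [← map_mul, Units.mul_inv, map_one]
    rwa [hγ, one_mul] at h2
  rw [conjHom_apply, map_mul, map_mul, hγ, h1, one_mul, mul_one, hr g]

omit [IsLocalRing A] in
theorem conjHom_mul (γ₁ γ₂ : (M2 A)ˣ) (r : GQ →* M2 A) :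
    conjHom (γ₂ * γ₁) r = conjHom γ₂ (conjHom γ₁ r) := by
  ext σ : 1
  simp only [conjHom_apply, Units.val_mul, mul_inv_rev, mul_assoc]

/-- Conjugation preserves continuity. -/
theorem matCont_conjHom {r : GQ →* M2 A} (hr : MatCont A r) (γ : (M2 A)ˣ) :
    MatCont A (conjHom γ r) := by
  intro n
  obtain ⟨L, hL, h⟩ := hr n
  refine ⟨L, hL, fun σ hσ i j => ?_⟩
  have h1 : conjHom γ r σ - 1 = (γ : M2 A) * (r σ - 1) * ((γ⁻¹ : (M2 A)ˣ) : M2 A) := by
    rw [conjHom_apply, mul_sub, sub_mul, mul_one, Units.mul_inv]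
  rw [h1]
  simp only [Matrix.mul_apply]
  refine Ideal.sum_mem _ fun a _ => Ideal.mul_mem_right _ _ (Ideal.sum_mem _ fun b _ => ?_)
  exact Ideal.mul_mem_left _ _ (h σ hσ b a)

/-- Step 1 of the normalization: make the value at `g₂` a companion matrix. -/
theorem Frame.exists_companion {r : GQ →* M2 A} (hr : IsLift A F.rt r) :
    ∃ γ : (M2 A)ˣ, (residue A).mapMatrix (γ : M2 A) = 1 ∧
      conjHom γ r F.g₂ 0 0 = 0 ∧ conjHom γ r F.g₂ 1 0 = 1 := by
  have ha : residue A (r F.g₂ 0 0) = 0 := by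
    have := hr F.g₂ 0 0
    rwa [F.rt_g₂_00, map_zero, sub_zero, ← residue_eq_zero_iff] at this
  have hu : residue A (r F.g₂ 1 0) = 1 := by
    have := hr F.g₂ 1 0
    rwa [F.rt_g₂_10, map_one, ← residue_eq_zero_iff, map_sub, map_one, sub_eq_zero] at this
  have hunit : IsUnit (r F.g₂ 1 0) :=
    isUnit_of_map_unit (residue A) _ (by rw [hu]; exact isUnit_one)
  obtain ⟨v, hv⟩ := hunit.exists_right_inv
  have hv1 : residue A v = 1 := by
    have := congrArg (residue A) hv
    rwa [map_mul, hu, one_mul, map_one] at this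
  refine ⟨⟨!![1, -(r F.g₂ 0 0) * v; 0, v], !![1, r F.g₂ 0 0; 0, r F.g₂ 1 0], ?_, ?_⟩, ?_, ?_, ?_⟩
  · ext i j
    fin_cases i <;> fin_cases j
    · simp
    · simp; linear_combination -(r F.g₂ 0 0) * hv
    · simp
    · simp; linear_combination hv
  · ext i j
    fin_cases i <;> fin_cases j
    · simp
    · simp
    · simp
    · simp; linear_combination hv
  · ext i j
    fin_cases i <;> fin_cases j
    · simp
    · simp [ha]
    · simp
    · simp [hv1]
  · simp only [conjHom_apply, Matrix.mul_apply, Fin.sum_univ_two]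
    simp
    linear_combination -(r F.g₂ 0 0) * hv
  · simp only [conjHom_apply, Matrix.mul_apply, Fin.sum_univ_two]
    simp
    linear_combination hv

/-- Step 2 of the normalization: keeping the companion matrix at `g₂`, adjust the `(i₀, j₀)` entry
at `g₃` (a quadratic equation solved by Hensel's lemma). -/
theorem Frame.exists_adjust [IsAdicComplete (maximalIdeal A) A] {r : GQ →* M2 A}
    (hr : IsLift A F.rt r) (h₁ : r F.g₂ 0 0 = 0) (h₂ : r F.g₂ 1 0 = 1) :
    ∃ γ : (M2 A)ˣ, (residue A).mapMatrix (γ : M2 A) = 1 ∧ conjHom γ r F.g₂ = r F.g₂ ∧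
      conjHom γ r F.g₃ F.i₀ F.j₀ = algebraMap 𝒪 A (F.rt F.g₃ F.i₀ F.j₀) := by
  obtain ⟨Cm, hCm⟩ : ∃ Cm, Cm = r F.g₂ := ⟨_, rfl⟩
  obtain ⟨M, hM⟩ : ∃ M, M = r F.g₃ := ⟨_, rfl⟩
  obtain ⟨c, hc⟩ : ∃ c, c = algebraMap 𝒪 A (F.rt F.g₃ F.i₀ F.j₀) := ⟨_, rfl⟩
  rw [← hCm] at h₁ h₂
  obtain ⟨t, ht⟩ : ∃ t, t = Cm 1 1 := ⟨_, rfl⟩
  obtain ⟨d, hd⟩ : ∃ d, d = -Cm 0 1 := ⟨_, rfl⟩
  obtain ⟨m, hm⟩ : ∃ m, m = M F.i₀ F.j₀ := ⟨_, rfl⟩
  obtain ⟨κ, hκ⟩ : ∃ κ, κ = (Cm * M - M * Cm) F.i₀ F.j₀ := ⟨_, rfl⟩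
  obtain ⟨v, hv⟩ : ∃ v, v = (t • (Cm * M) - Cm * M * Cm) F.i₀ F.j₀ := ⟨_, rfl⟩
  obtain ⟨p₀, hp₀⟩ : ∃ p₀, p₀ = m - c := ⟨_, rfl⟩
  obtain ⟨p₁, hp₁⟩ : ∃ p₁, p₁ = κ + t * (m - c) := ⟨_, rfl⟩
  obtain ⟨p₂, hp₂⟩ : ∃ p₂, p₂ = v - c * d := ⟨_, rfl⟩
  have hp₀m : p₀ ∈ maximalIdeal A := by
    rw [hp₀, hm, hc, hM]; exact hr F.g₃ F.i₀ F.j₀
  have hp₁u : IsUnit p₁ := by
    have h1 : (residue A).mapMatrix (Cm * M - M * Cm) =
        ((residue A).comp (algebraMap 𝒪 A)).mapMatrix
          (F.rt F.g₂ * F.rt F.g₃ - F.rt F.g₃ * F.rt F.g₂) := by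
      rw [map_sub, map_mul, map_mul, map_sub, map_mul, map_mul, hCm, hM,
        (isLift_iff_mapMatrix F.rt r).mp hr, (isLift_iff_mapMatrix F.rt r).mp hr]
    have h2 := congrFun (congrFun h1 F.i₀) F.j₀
    simp only [RingHom.mapMatrix_apply, Matrix.map_apply] at h2
    have h4 := F.comm_unit.map ((residue A).comp (algebraMap 𝒪 A))
    rw [← h2, ← hκ] at h4
    refine isUnit_of_map_unit (residue A) _ ?_
    have h5 : residue A p₁ = residue A κ := by
      rw [hp₁, map_add, map_mul, ← hp₀, (residue_eq_zero_iff p₀).mpr hp₀m, mul_zero, add_zero]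
    rw [h5]; exact h4
  -- Hensel's lemma for the monic quadratic `Y² + p₁ Y + p₀ p₂` near `-p₁`
  obtain ⟨Y, hY, hY0⟩ := HenselianRing.is_henselian (I := maximalIdeal A)
    (Polynomial.X ^ 2 + Polynomial.C p₁ * Polynomial.X + Polynomial.C (p₀ * p₂))
    (by monicity!) (-p₁)
    (by
      have : Polynomial.eval (-p₁) (Polynomial.X ^ 2 + Polynomial.C p₁ * Polynomial.X +
          Polynomial.C (p₀ * p₂)) = p₀ * p₂ := by
        simp; ring
      rw [this]; exact Ideal.mul_mem_right _ _ hp₀m)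
    (by
      have : Polynomial.eval (-p₁) (Polynomial.derivative (Polynomial.X ^ 2 +
          Polynomial.C p₁ * Polynomial.X + Polynomial.C (p₀ * p₂))) = -p₁ := by
        simp; ring
      rw [this]; exact hp₁u.neg.map _)
  have hYroot : Y ^ 2 + p₁ * Y + p₀ * p₂ = 0 := by
    have := hY
    simp only [Polynomial.IsRoot, Polynomial.eval_add, Polynomial.eval_pow, Polynomial.eval_X,
      Polynomial.eval_mul, Polynomial.eval_C] at this
    exact this
  have hYu : IsUnit Y := by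
    rw [← IsLocalRing.notMem_maximalIdeal]
    intro hYm
    have : p₁ ∈ maximalIdeal A := by
      have h1 := Ideal.sub_mem _ hY0 hYm
      simpa using h1
    exact (IsLocalRing.notMem_maximalIdeal.mpr hp₁u) this
  obtain ⟨w, hw⟩ := hYu.exists_right_inv
  obtain ⟨y, hy⟩ : ∃ y, y = p₀ * w := ⟨_, rfl⟩
  have hym : y ∈ maximalIdeal A := by rw [hy]; exact Ideal.mul_mem_right _ _ hp₀m
  have hy0 : residue A y = 0 := (residue_eq_zero_iff y).mpr hym
  have hE : p₀ + p₁ * y + p₂ * y ^ 2 = 0 := by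
    rw [hy]
    linear_combination (p₀ * w ^ 2) * hYroot - (p₀ * (1 + w * Y) + p₁ * p₀ * w) * hw
  obtain ⟨N, hN⟩ : ∃ N, N = 1 + y * t + y ^ 2 * d := ⟨_, rfl⟩
  have hNu : IsUnit N := by
    refine isUnit_of_map_unit (residue A) _ ?_
    rw [hN]
    simp [hy0]
  obtain ⟨n', hn'⟩ := hNu.exists_right_inv
  have hn'1 : residue A n' = 1 := by
    have := congrArg (residue A) hn'
    rw [hN] at this
    simpa [hy0] using this
  -- the conjugating matrix and its inverse
  have hPP' : (1 + y • Cm) * ((1 + y * t) • (1 : M2 A) - y • Cm) = N • (1 : M2 A) := by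
    ext i j
    fin_cases i <;> fin_cases j <;>
      simp [Matrix.mul_apply, Fin.sum_univ_two, h₁, h₂, hN, ← ht] <;> (try rw [hd]) <;> ring
  have hP'P : ((1 + y * t) • (1 : M2 A) - y • Cm) * (1 + y • Cm) = N • (1 : M2 A) := by
    ext i j
    fin_cases i <;> fin_cases j <;>
      simp [Matrix.mul_apply, Fin.sum_univ_two, h₁, h₂, hN, ← ht] <;> (try rw [hd]) <;> ring
  have hcommC : (1 + y • Cm) * Cm = Cm * (1 + y • Cm) := by
    rw [add_mul, mul_add, one_mul, mul_one, Matrix.smul_mul, Matrix.mul_smul]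
  refine ⟨⟨1 + y • Cm, n' • ((1 + y * t) • (1 : M2 A) - y • Cm), ?_, ?_⟩, ?_, ?_, ?_⟩
  · rw [Matrix.mul_smul, hPP', smul_smul, mul_comm, hn', one_smul]
  · rw [Matrix.smul_mul, hP'P, smul_smul, mul_comm, hn', one_smul]
  · ext i j
    simp only [RingHom.mapMatrix_apply, Matrix.map_apply, Matrix.add_apply, Matrix.smul_apply,
      smul_eq_mul, map_add, map_mul, hy0, zero_mul, add_zero]
    fin_cases i <;> fin_cases j <;> simp
  · rw [conjHom_apply, ← hCm]
    show (1 + y • Cm) * Cm * (n' • ((1 + y * t) • (1 : M2 A) - y • Cm)) = Cm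
    rw [hcommC, mul_assoc, Matrix.mul_smul, hPP', smul_smul, mul_comm, hn', one_smul, mul_one]
  · rw [conjHom_apply, ← hM, ← hc]
    show ((1 + y • Cm) * M * (n' • ((1 + y * t) • (1 : M2 A) - y • Cm))) F.i₀ F.j₀ = c
    have hMI : (1 + y • Cm) * M * ((1 + y * t) • (1 : M2 A) - y • Cm) =
        M + y • (t • M + (Cm * M - M * Cm)) + (y ^ 2) • (t • (Cm * M) - Cm * M * Cm) := by
      simp only [add_mul, mul_add, mul_sub, one_mul, mul_one, Matrix.smul_mul,
        Matrix.mul_smul, smul_add, smul_sub, smul_smul, add_smul]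
      module
    rw [Matrix.mul_smul, hMI]
    simp only [Matrix.smul_apply, Matrix.add_apply, smul_eq_mul]
    rw [← hκ, ← hv, ← hm]
    have h3 : m + y * (t * m + κ) + y ^ 2 * v = c * N := by
      rw [hN]
      rw [hp₀, hp₁, hp₂] at hE
      linear_combination hE
    rw [h3]
    linear_combination c * hn'

/-- **Existence of the normal form.** Over an adically complete local `𝒪`-algebra every lift
of the residual matrices is conjugate, by a matrix which is residually the identity, to a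
normalized homomorphism. -/
theorem Frame.exists_normalized [IsAdicComplete (maximalIdeal A) A] {r : GQ →* M2 A}
    (hr : IsLift A F.rt r) :
    ∃ γ : (M2 A)ˣ, (residue A).mapMatrix (γ : M2 A) = 1 ∧ F.IsNormalized A (conjHom γ r) := by
  obtain ⟨γ₁, hγ₁, h1, h2⟩ := F.exists_companion hr
  have hr₁ := isLift_conjHom F.rt hr γ₁ hγ₁
  obtain ⟨γ₂, hγ₂, h3, h4⟩ := F.exists_adjust hr₁ h1 h2
  refine ⟨γ₂ * γ₁, by rw [Units.val_mul, map_mul, hγ₁, hγ₂, one_mul], ?_⟩
  rw [conjHom_mul]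
  exact ⟨isLift_conjHom F.rt hr₁ γ₂ hγ₂, by rw [h3]; exact h1, by rw [h3]; exact h2, h4⟩

/-- Variant of `Frame.normalized_unique` phrased with `conjHom`. -/
theorem Frame.normalized_unique' {r r' : GQ →* M2 A} (hr : F.IsNormalized A r)
    (hr' : F.IsNormalized A r') (γ : (M2 A)ˣ) (h : r' = conjHom γ r) : r' = r := by
  refine Frame.normalized_unique hr hr' (γ : M2 A) ((γ⁻¹ : (M2 A)ˣ) : M2 A) (Units.mul_inv γ)
    (Units.inv_mul γ) fun σ => ?_
  rw [h, conjHom_apply, mul_assoc, mul_assoc, Units.inv_mul, mul_one]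

section Transport

variable {A' : Type} [CommRing A'] [IsLocalRing A'] [Algebra 𝒪 A']

omit [IsLocalRing 𝒪] in
/-- `IsLift` is preserved by local `𝒪`-algebra homomorphisms. -/
theorem isLift_mapHom (c : GQ → M2 𝒪) {r : GQ →* M2 A} (hr : IsLift A c r) (φ : A →ₐ[𝒪] A')
    (hφ : IsLocalHom (φ : A →+* A')) : IsLift A' c (mapHom (φ : A →+* A') r) := by
  intro g i j
  have h1 : mapHom (φ : A →+* A') r g i j - algebraMap 𝒪 A' (c g i j) =
      φ (r g i j - algebraMap 𝒪 A (c g i j)) := by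
    rw [mapHom_apply, map_sub, AlgHom.commutes]; rfl
  rw [h1]
  exact map_nonunit (φ : A →+* A') _ (hr g i j)

omit [IsLocalRing 𝒪] in
/-- `IsLift` is reflected by `𝒪`-algebra homomorphisms. -/
theorem isLift_of_mapHom (c : GQ → M2 𝒪) {r : GQ →* M2 A} (φ : A →ₐ[𝒪] A')
    (h : IsLift A' c (mapHom (φ : A →+* A') r)) : IsLift A c r := by
  intro g i j
  have h1 : mapHom (φ : A →+* A') r g i j - algebraMap 𝒪 A' (c g i j) =
      φ (r g i j - algebraMap 𝒪 A (c g i j)) := by
    rw [mapHom_apply, map_sub, AlgHom.commutes]; rfl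
  have h2 := h g i j
  rw [h1] at h2
  rw [IsLocalRing.mem_maximalIdeal, mem_nonunits_iff] at h2 ⊢
  exact fun hu => h2 (hu.map φ)

/-- Normalized homomorphisms are preserved by local `𝒪`-algebra homomorphisms. -/
theorem Frame.IsNormalized.map {r : GQ →* M2 A} (hr : F.IsNormalized A r) (φ : A →ₐ[𝒪] A')
    (hφ : IsLocalHom (φ : A →+* A')) : F.IsNormalized A' (mapHom (φ : A →+* A') r) where
  lift := isLift_mapHom F.rt hr.lift φ hφ
  n₁ := by rw [mapHom_apply, hr.n₁, map_zero]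
  n₂ := by rw [mapHom_apply, hr.n₂, map_one]
  n₃ := by rw [mapHom_apply, hr.n₃]; exact φ.commutes _

/-- Normalized homomorphisms are reflected by injective `𝒪`-algebra homomorphisms. -/
theorem Frame.IsNormalized.of_map {r : GQ →* M2 A} (φ : A →ₐ[𝒪] A')
    (hinj : Function.Injective φ) (h : F.IsNormalized A' (mapHom (φ : A →+* A') r)) :
    F.IsNormalized A r where
  lift := isLift_of_mapHom F.rt φ h.lift
  n₁ := hinj (by have := h.n₁; rw [mapHom_apply] at this; rw [map_zero]; exact this)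
  n₂ := hinj (by have := h.n₂; rw [mapHom_apply] at this; rw [map_one]; exact this)
  n₃ := hinj (by have := h.n₃; rw [mapHom_apply] at this; rw [AlgHom.commutes]; exact this)

omit [Algebra 𝒪 A] [Algebra 𝒪 A'] in
/-- Continuity is preserved by local ring homomorphisms. -/
theorem matCont_mapHom {r : GQ →* M2 A} (hr : MatCont A r) (φ : A →+* A')
    (hφ : IsLocalHom φ) : MatCont A' (mapHom φ r) := by
  intro n
  obtain ⟨L, hL, h⟩ := hr n
  refine ⟨L, hL, fun σ hσ i j => ?_⟩
  have hmap : (maximalIdeal A ^ n).map φ ≤ maximalIdeal A' ^ n := by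
    rw [Ideal.map_pow]
    exact Ideal.pow_right_mono (Ideal.map_le_iff_le_comap.mpr fun a ha =>
      Ideal.mem_comap.mpr (map_nonunit φ a ha)) n
  have h1 : (mapHom φ r σ - 1) i j = φ ((r σ - 1) i j) := by
    rw [Matrix.sub_apply, mapHom_apply, Matrix.sub_apply, map_sub]
    congr 1
    by_cases hij : i = j
    · subst hij; simp
    · simp [hij]
  rw [h1]
  exact hmap (Ideal.mem_map_of_mem φ (h σ hσ i j))

omit [Algebra 𝒪 A] [Algebra 𝒪 A'] in
/-- Continuity is reflected by injective ring homomorphisms into a local ring with nilpotent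
maximal ideal. -/
theorem matCont_of_mapHom {r : GQ →* M2 A} (φ : A →+* A') (hinj : Function.Injective φ)
    (hnil : ∃ N : ℕ, maximalIdeal A' ^ N = ⊥) (h : MatCont A' (mapHom φ r)) : MatCont A r := by
  obtain ⟨N, hN⟩ := hnil
  obtain ⟨L, hL, h0⟩ := h N
  intro n
  refine ⟨L, hL, fun σ hσ i j => ?_⟩
  have h1 : (mapHom φ r σ - 1) i j = φ ((r σ - 1) i j) := by
    rw [Matrix.sub_apply, mapHom_apply, Matrix.sub_apply, map_sub]
    congr 1
    by_cases hij : i = j
    · subst hij; simp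
    · simp [hij]
  have h2 := h0 σ hσ i j
  rw [hN, Ideal.mem_bot, h1] at h2
  have h3 : (r σ - 1) i j = 0 := hinj (by rw [h2, map_zero])
  rw [h3]
  exact Ideal.zero_mem _

end Transport

end

end Fermat.Agent.Lib.H5D
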