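/-
S53 project, module G-2 (helper5): the companion-slice normal form of lifts, in the vocabulary of
`DR_Defs` (unbundled matrix families `r : Gal → M₂(A)`).  The proofs live in `H5_Normal.lean`.
-/
import Mathlib
import Fermat.Agent.Lib.DR_Frame
import Fermat.Agent.Lib.H5_Normal

set_option autoImplicit false

namespace Fermat.Agent.DR

open IsLocalRing
open Fermat.Agent.Lib

section

variable {𝒪 : Type} [CommRing 𝒪] [IsLocalRing 𝒪] {ρbar : ResidualGaloisRep (ResidueField 𝒪)}
variable (F : Frame 𝒪 ρbar) {A : Type} [CommRing A] [IsLocalRing A] [Algebra 𝒪 A]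

/-- `r` is multiplicative and lifts the residual matrices of the frame. -/
structure Frame.IsLift (r : Gal → Matrix (Fin 2) (Fin 2) A) : Prop where
  map_one : r 1 = 1
  map_mul : ∀ σ τ, r (σ * τ) = r σ * r τ
  res : ∀ σ i j, r σ i j - algebraMap 𝒪 A (F.rt σ i j) ∈ maximalIdeal A

/-- `r` is a lift in normal form: `r g₂` is a companion matrix and the `(i₀, j₀)` entry of
`r g₃` is the constant `algebraMap 𝒪 A (rt g₃ i₀ j₀)`. -/
structure Frame.IsNormalized (r : Gal → Matrix (Fin 2) (Fin 2) A) : Prop extends F.IsLift r where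
  n₁ : r F.g₂ 0 0 = 0
  n₂ : r F.g₂ 1 0 = 1
  n₃ : r F.g₃ F.i₀ F.j₀ = algebraMap 𝒪 A (F.rt F.g₃ F.i₀ F.j₀)

variable {F}

/-- The bundled homomorphism of a lift. -/
def Frame.IsLift.nfHom {r : Gal → Matrix (Fin 2) (Fin 2) A} (h : F.IsLift r) :
    H6D.GQ →* H6D.M2 A where
  toFun := r
  map_one' := h.map_one
  map_mul' := h.map_mul

theorem Frame.IsNormalized.nf_bundled {r : Gal → Matrix (Fin 2) (Fin 2) A}
    (h : F.IsNormalized r) : H5D.Frame.IsNormalized F A h.toIsLift.nfHom :=
  ⟨h.res, h.n₁, h.n₂, h.n₃⟩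

/-- **Uniqueness of the normal form** (any local `𝒪`-algebra, arbitrary invertible `P`). -/
theorem Frame.normalized_unique {r r' : Gal → Matrix (Fin 2) (Fin 2) A}
    (hr : F.IsNormalized r) (hr' : F.IsNormalized r')
    (P Q : Matrix (Fin 2) (Fin 2) A) (hPQ : P * Q = 1) (hQP : Q * P = 1)
    (h : ∀ σ, P * r σ = r' σ * P) : r = r' := by
  have h1 := H5D.Frame.normalized_unique hr.nf_bundled hr'.nf_bundled P Q hPQ hQP h
  funext σ
  exact (DFunLike.congr_fun h1 σ).symm

/-- **Existence of the normal form** over an adically complete local `𝒪`-algebra. -/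
theorem Frame.exists_normalized [IsAdicComplete (maximalIdeal A) A]
    {r : Gal → Matrix (Fin 2) (Fin 2) A} (hr : F.IsLift r) :
    ∃ P Q : Matrix (Fin 2) (Fin 2) A, P * Q = 1 ∧ Q * P = 1 ∧
      (∀ i j, (P - 1) i j ∈ maximalIdeal A) ∧ F.IsNormalized (fun σ => P * r σ * Q) := by
  obtain ⟨γ, hγ, hn⟩ := H5D.Frame.exists_normalized (F := F) (r := hr.nfHom) hr.res
  refine ⟨(γ : H6D.M2 A), ((γ⁻¹ : (H6D.M2 A)ˣ) : H6D.M2 A), Units.mul_inv γ, Units.inv_mul γ,
    fun i j => ?_, ?_⟩
  · have h1 := congrFun (congrFun hγ i) j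
    rw [RingHom.mapMatrix_apply, Matrix.map_apply] at h1
    rw [← residue_eq_zero_iff, Matrix.sub_apply, map_sub, h1]
    by_cases hij : i = j
    · subst hij; simp
    · simp [hij]
  · exact
      { map_one := (H6D.conjHom γ hr.nfHom).map_one
        map_mul := (H6D.conjHom γ hr.nfHom).map_mul
        res := hn.lift
        n₁ := hn.n₁
        n₂ := hn.n₂
        n₃ := hn.n₃ }

section Transport

variable {A' : Type} [CommRing A'] [IsLocalRing A'] [Algebra 𝒪 A']

/-- Lifts are preserved by local `𝒪`-algebra homomorphisms (applied entrywise). -/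
theorem Frame.IsLift.map {r : Gal → Matrix (Fin 2) (Fin 2) A} (h : F.IsLift r)
    (φ : A →ₐ[𝒪] A') (hφ : IsLocalHom (φ : A →+* A')) :
    F.IsLift (fun σ => (r σ).map φ) where
  map_one := by
    show (φ : A →+* A').mapMatrix (r 1) = 1
    rw [h.map_one, _root_.map_one]
  map_mul σ τ := by
    show (φ : A →+* A').mapMatrix (r (σ * τ)) =
      (φ : A →+* A').mapMatrix (r σ) * (φ : A →+* A').mapMatrix (r τ)
    rw [h.map_mul, _root_.map_mul]
  res σ i j := by
    have h1 : (r σ).map φ i j - algebraMap 𝒪 A' (F.rt σ i j) =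
        φ (r σ i j - algebraMap 𝒪 A (F.rt σ i j)) := by
      rw [Matrix.map_apply, map_sub, AlgHom.commutes]
    rw [h1]
    exact map_nonunit (φ : A →+* A') _ (h.res σ i j)

/-- Normalized lifts are preserved by local `𝒪`-algebra homomorphisms (applied entrywise). -/
theorem Frame.IsNormalized.map {r : Gal → Matrix (Fin 2) (Fin 2) A} (h : F.IsNormalized r)
    (φ : A →ₐ[𝒪] A') (hφ : IsLocalHom (φ : A →+* A')) :
    F.IsNormalized (fun σ => (r σ).map φ) where
  toIsLift := h.toIsLift.map φ hφ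
  n₁ := by rw [Matrix.map_apply, h.n₁, map_zero]
  n₂ := by rw [Matrix.map_apply, h.n₂, map_one]
  n₃ := by rw [Matrix.map_apply, h.n₃]; exact φ.commutes _

variable {B : Type} [CommRing B] [IsLocalRing B] [Algebra 𝒪 B]

/-- Lifts are reflected by a jointly injective pair of `𝒪`-algebra homomorphisms. -/
theorem Frame.IsLift.of_joint (pA : A →ₐ[𝒪] A') (pB : A →ₐ[𝒪] B)
    (hinj : ∀ q q' : A, pA q = pA q' → pB q = pB q' → q = q')
    {z : Gal → Matrix (Fin 2) (Fin 2) A} (hA : F.IsLift (fun σ => (z σ).map pA))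
    (hB : F.IsLift (fun σ => (z σ).map pB)) : F.IsLift z where
  map_one := by
    ext i j
    refine hinj _ _ ?_ ?_
    · have := congrFun (congrFun hA.map_one i) j
      rw [Matrix.map_apply] at this
      rw [this]
      by_cases hij : i = j
      · subst hij; simp
      · simp [hij]
    · have := congrFun (congrFun hB.map_one i) j
      rw [Matrix.map_apply] at this
      rw [this]
      by_cases hij : i = j
      · subst hij; simp
      · simp [hij]
  map_mul σ τ := by
    ext i j
    refine hinj _ _ ?_ ?_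
    · have := congrFun (congrFun (hA.map_mul σ τ) i) j
      rw [Matrix.map_apply] at this
      rw [this]
      show ((pA : A →+* A').mapMatrix (z σ) * (pA : A →+* A').mapMatrix (z τ)) i j = _
      rw [← _root_.map_mul]; rfl
    · have := congrFun (congrFun (hB.map_mul σ τ) i) j
      rw [Matrix.map_apply] at this
      rw [this]
      show ((pB : A →+* B).mapMatrix (z σ) * (pB : A →+* B).mapMatrix (z τ)) i j = _
      rw [← _root_.map_mul]; rfl
  res σ i j := by
    have h1 : (z σ).map pA i j - algebraMap 𝒪 A' (F.rt σ i j) =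
        pA (z σ i j - algebraMap 𝒪 A (F.rt σ i j)) := by
      rw [Matrix.map_apply, map_sub, AlgHom.commutes]
    have h2 := hA.res σ i j
    rw [h1] at h2
    rw [IsLocalRing.mem_maximalIdeal, mem_nonunits_iff] at h2 ⊢
    exact fun hu => h2 (IsUnit.map pA hu)

/-- Normalized lifts are reflected by a jointly injective pair of `𝒪`-algebra homomorphisms
(take `pB = pA` for a single injective homomorphism). -/
theorem Frame.IsNormalized.of_joint (pA : A →ₐ[𝒪] A') (pB : A →ₐ[𝒪] B)
    (hinj : ∀ q q' : A, pA q = pA q' → pB q = pB q' → q = q')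
    {z : Gal → Matrix (Fin 2) (Fin 2) A} (hA : F.IsNormalized (fun σ => (z σ).map pA))
    (hB : F.IsNormalized (fun σ => (z σ).map pB)) : F.IsNormalized z where
  toIsLift := Frame.IsLift.of_joint pA pB hinj hA.toIsLift hB.toIsLift
  n₁ := hinj _ _ (by have := hA.n₁; rw [Matrix.map_apply] at this; rw [this, map_zero])
    (by have := hB.n₁; rw [Matrix.map_apply] at this; rw [this, map_zero])
  n₂ := hinj _ _ (by have := hA.n₂; rw [Matrix.map_apply] at this; rw [this, map_one])
    (by have := hB.n₂; rw [Matrix.map_apply] at this; rw [this, map_one])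
  n₃ := hinj _ _ (by have := hA.n₃; rw [Matrix.map_apply] at this; rw [this, AlgHom.commutes])
    (by have := hB.n₃; rw [Matrix.map_apply] at this; rw [this, AlgHom.commutes])

end Transport

end

/-! ### Extras on continuity (tuple vocabulary of `DR_Defs`) -/

section Cont

variable {A : Type} [CommRing A] [IsLocalRing A]

omit [CommRing A] [IsLocalRing A] in
theorem nf_mat_map {A' : Type} (φ : A → A') (x : Idx → A) (g : Gal) :
    mat (fun p => φ (x p)) g = (mat x g).map φ := rfl

/-- Conjugation preserves continuity. -/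
theorem nf_isCont_conj {x : Idx → A} (hx : IsCont A x) (P Q : Matrix (Fin 2) (Fin 2) A)
    (hPQ : P * Q = 1) : IsCont A (tup fun σ => P * mat x σ * Q) := by
  intro n
  obtain ⟨L, hL, h⟩ := hx n
  refine ⟨L, hL, fun σ hσ i j => ?_⟩
  rw [mat_tup, ← Matrix.sub_apply]
  have h1 : P * mat x σ * Q - 1 = P * (mat x σ - 1) * Q := by
    rw [mul_sub, sub_mul, mul_one, hPQ]
  rw [h1]
  simp only [Matrix.mul_apply]
  refine Ideal.sum_mem _ fun a _ => Ideal.mul_mem_right _ _ (Ideal.sum_mem _ fun b _ => ?_)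
  exact Ideal.mul_mem_left _ _ (by rw [Matrix.sub_apply]; exact h σ hσ b a)

/-- Continuity is preserved by local ring homomorphisms. -/
theorem nf_isCont_map {A' : Type} [CommRing A'] [IsLocalRing A'] {x : Idx → A}
    (hx : IsCont A x) (φ : A →+* A') (hφ : IsLocalHom φ) : IsCont A' (fun p => φ (x p)) := by
  intro n
  obtain ⟨L, hL, h⟩ := hx n
  refine ⟨L, hL, fun σ hσ i j => ?_⟩
  have hmap : (maximalIdeal A ^ n).map φ ≤ maximalIdeal A' ^ n := by
    rw [Ideal.map_pow]
    exact Ideal.pow_right_mono (Ideal.map_le_iff_le_comap.mpr fun a ha =>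
      Ideal.mem_comap.mpr (map_nonunit φ a ha)) n
  have h1 : mat (fun p => φ (x p)) σ i j - (1 : Matrix (Fin 2) (Fin 2) A') i j =
      φ (mat x σ i j - (1 : Matrix (Fin 2) (Fin 2) A) i j) := by
    rw [map_sub]
    congr 1
    by_cases hij : i = j
    · subst hij; simp
    · simp [hij]
  rw [h1]
  exact hmap (Ideal.mem_map_of_mem φ (h σ hσ i j))

/-- Continuity is reflected by a jointly injective pair of ring homomorphisms into local rings
with nilpotent maximal ideals. -/
theorem nf_isCont_of_joint {A' B : Type} [CommRing A'] [IsLocalRing A'] [CommRing B]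
    [IsLocalRing B] (pA : A →+* A') (pB : A →+* B)
    (hinj : ∀ q q' : A, pA q = pA q' → pB q = pB q' → q = q')
    (hnilA : ∃ N : ℕ, maximalIdeal A' ^ N = ⊥) (hnilB : ∃ N : ℕ, maximalIdeal B ^ N = ⊥)
    {z : Idx → A} (hA : IsCont A' (fun p => pA (z p))) (hB : IsCont B (fun p => pB (z p))) :
    IsCont A z := by
  obtain ⟨NA, hNA⟩ := hnilA
  obtain ⟨NB, hNB⟩ := hnilB
  obtain ⟨LA, hLA, hA0⟩ := hA NA
  obtain ⟨LB, hLB, hB0⟩ := hB NB
  intro n
  refine ⟨LA ⊔ LB, IntermediateField.finiteDimensional_sup LA LB, fun σ hσ i j => ?_⟩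
  have key : ∀ {C : Type} [CommRing C] (φ : A →+* C),
      mat (fun p => φ (z p)) σ i j - (1 : Matrix (Fin 2) (Fin 2) C) i j =
        φ (mat z σ i j - (1 : Matrix (Fin 2) (Fin 2) A) i j) := by
    intro C _ φ
    rw [map_sub]
    congr 1
    by_cases hij : i = j
    · subst hij; simp
    · simp [hij]
  have h1 := hA0 σ (fun a ha => hσ a ((le_sup_left : LA ≤ LA ⊔ LB) ha)) i j
  have h2 := hB0 σ (fun a ha => hσ a ((le_sup_right : LB ≤ LA ⊔ LB) ha)) i j
  rw [hNA, Ideal.mem_bot, key pA] at h1
  rw [hNB, Ideal.mem_bot, key pB] at h2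
  have h3 : mat z σ i j - (1 : Matrix (Fin 2) (Fin 2) A) i j = 0 :=
    hinj _ _ (by rw [h1, map_zero]) (by rw [h2, map_zero])
  rw [h3]
  exact Ideal.zero_mem _

end Cont

end Fermat.Agent.DR
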