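/-
S53 project, module G-3a: dictionary between tuples and `GaloisRepAdic`:
base change, equivalence ⟺ conjugation, the representation over the residue field.
-/
import Fermat.Agent.Lib.DR_Defs

set_option autoImplicit false

noncomputable section

namespace Fermat.Agent.DR

open IsLocalRing GaloisRep
open scoped TensorProduct

section Map

variable {A B : Type} [CommRing A] [CommRing B]

theorem mat_map (φ : A →+* B) (x : Idx → A) (g : Gal) :
    mat (fun p => φ (x p)) g = (mat x g).map φ := by
  ext i j; rfl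

theorem isHom_map (φ : A →+* B) {x : Idx → A} (hx : IsHom x) : IsHom (fun p => φ (x p)) := by
  refine ⟨?_, fun g h => ?_⟩
  · rw [mat_map, hx.1, Matrix.map_one _ (map_zero φ) (map_one φ)]
  · rw [mat_map, hx.2, Matrix.map_mul, ← mat_map, ← mat_map]

variable [IsLocalRing A] [IsLocalRing B]

theorem isCont_map (φ : A →+* B) (hφ : IsLocalHom φ) {x : Idx → A} (hx : IsCont A x) :
    IsCont B (fun p => φ (x p)) := by
  intro n
  obtain ⟨L, hL, h⟩ := hx n
  refine ⟨L, hL, fun σ hσ i j => ?_⟩
  have hmap : (maximalIdeal A ^ n).map φ ≤ maximalIdeal B ^ n := by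
    rw [Ideal.map_pow]
    exact Ideal.pow_right_mono (Ideal.map_le_iff_le_comap.mpr fun a ha =>
      Ideal.mem_comap.mpr (haveI := hφ; map_nonunit φ a ha)) n
  have h1 : mat (fun p => φ (x p)) σ i j - (1 : Matrix (Fin 2) (Fin 2) B) i j
      = φ (mat x σ i j - (1 : Matrix (Fin 2) (Fin 2) A) i j) := by
    rw [map_sub]
    congr 1
    simp only [Matrix.one_apply]
    split_ifs <;> simp
  rw [h1]
  exact hmap (Ideal.mem_map_of_mem φ (h σ hσ i j))

omit [IsLocalRing A] [IsLocalRing B] in
private theorem stdRep_bc_aux [Algebra A B] (M : Matrix (Fin 2) (Fin 2) A)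
    (v : B ⊗[A] (Fin 2 → A)) :
    TensorProduct.piScalarRight A B B (Fin 2) ((Matrix.toLin' M).baseChange B v) =
      Matrix.toLin' (M.map (algebraMap A B)) (TensorProduct.piScalarRight A B B (Fin 2) v) := by
  induction v using TensorProduct.induction_on with
  | zero => simp only [map_zero]
  | tmul b w =>
    rw [LinearMap.baseChange_tmul, TensorProduct.piScalarRight_apply,
      TensorProduct.piScalarRight_apply]
    funext i
    simp only [TensorProduct.piScalarRightHom_tmul, Matrix.toLin'_apply, Matrix.mulVec,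
      dotProduct, Matrix.map_apply, Algebra.smul_def, map_sum, map_mul,
      Finset.sum_mul, mul_assoc]
  | add a b ha hb => simp only [map_add, ha, hb]

/-- Base change of a standard representation is the standard representation of the image
tuple. -/
theorem stdRep_baseChange (φ : A →+* B) (hφ : IsLocalHom φ) (x : Idx → A) (h1 : IsHom x)
    (h2 : IsCont A x) (h1' : IsHom (fun p => φ (x p))) (h2' : IsCont B (fun p => φ (x p))) :
    ((stdRep A x h1 h2).baseChangeAlong φ hφ).IsEquiv (stdRep B (fun p => φ (x p)) h1' h2') := by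
  let _ : Algebra A B := φ.toAlgebra
  refine ⟨{ toLinearEquiv := TensorProduct.piScalarRight A B B (Fin 2), map_apply := ?_ }⟩
  intro σ v
  have := stdRep_bc_aux (B := B) (mat x σ) v
  rw [show (mat x σ).map (algebraMap A B) = mat (fun p => φ (x p)) σ from (mat_map φ x σ).symm]
    at this
  exact this

end Map

section Conj

variable {A : Type} [CommRing A] [IsLocalRing A]

/-- Two standard representations are equivalent iff the matrix families are conjugate. -/
theorem stdRep_isEquiv_iff (x x' : Idx → A) (h1 : IsHom x) (h2 : IsCont A x) (h1' : IsHom x')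
    (h2' : IsCont A x') :
    (stdRep A x h1 h2).IsEquiv (stdRep A x' h1' h2') ↔
      ∃ P Q : Matrix (Fin 2) (Fin 2) A, P * Q = 1 ∧ Q * P = 1 ∧
        ∀ g, P * mat x g = mat x' g * P := by
  constructor
  · rintro ⟨e⟩
    let f : (Fin 2 → A) ≃ₗ[A] (Fin 2 → A) := e.toLinearEquiv
    refine ⟨LinearMap.toMatrix' f.toLinearMap, LinearMap.toMatrix' f.symm.toLinearMap, ?_, ?_,
      fun g => ?_⟩
    · rw [← LinearMap.toMatrix'_comp, LinearEquiv.comp_symm, LinearMap.toMatrix'_id]
    · rw [← LinearMap.toMatrix'_comp, LinearEquiv.symm_comp, LinearMap.toMatrix'_id]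
    · have hg : f.toLinearMap ∘ₗ Matrix.toLin' (mat x g) =
          Matrix.toLin' (mat x' g) ∘ₗ f.toLinearMap :=
        LinearMap.ext fun (v : Fin 2 → A) => e.map_apply g v
      have := congrArg LinearMap.toMatrix' hg
      rwa [LinearMap.toMatrix'_comp, LinearMap.toMatrix'_comp, LinearMap.toMatrix'_toLin',
        LinearMap.toMatrix'_toLin'] at this
  · rintro ⟨P, Q, hPQ, hQP, h⟩
    refine ⟨{ toLinearEquiv := Matrix.toLin'OfInv hQP hPQ, map_apply := fun g v => ?_ }⟩
    have key : ∀ w : Fin 2 → A, Matrix.toLin' P (Matrix.toLin' (mat x g) w) =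
        Matrix.toLin' (mat x' g) (Matrix.toLin' P w) := by
      intro w
      rw [← LinearMap.comp_apply, ← Matrix.toLin'_mul, h g, Matrix.toLin'_mul,
        LinearMap.comp_apply]
    exact key v

/-- Conjugating a tuple by an invertible matrix preserves continuity. -/
theorem isCont_conj {P Q : Matrix (Fin 2) (Fin 2) A} (hPQ : P * Q = 1) {x : Idx → A}
    (hx : IsCont A x) : IsCont A (tup fun g => P * mat x g * Q) := by
  intro n
  obtain ⟨L, hL, h⟩ := hx n
  refine ⟨L, hL, fun σ hσ i j => ?_⟩
  have h1 : mat (tup fun g => P * mat x g * Q) σ - 1 = P * (mat x σ - 1) * Q := by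
    rw [mat_tup, mul_sub, sub_mul, mul_one, hPQ]
  have h2 : mat (tup fun g => P * mat x g * Q) σ i j - (1 : Matrix (Fin 2) (Fin 2) A) i j
      = (P * (mat x σ - 1) * Q) i j := by
    rw [← h1]; rfl
  rw [h2, Matrix.mul_apply]
  refine Ideal.sum_mem _ fun l _ => Ideal.mul_mem_right _ _ ?_
  rw [Matrix.mul_apply]
  exact Ideal.sum_mem _ fun m _ => Ideal.mul_mem_left _ _ (h σ hσ m l)

omit [IsLocalRing A] in
theorem isHom_conj {P Q : Matrix (Fin 2) (Fin 2) A} (hPQ : P * Q = 1) (hQP : Q * P = 1)
    {x : Idx → A} (hx : IsHom x) : IsHom (tup fun g => P * mat x g * Q) := by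
  refine ⟨?_, fun g h => ?_⟩
  · rw [mat_tup, hx.1, mul_one, hPQ]
  · rw [mat_tup, hx.2]
    calc P * (mat x g * mat x h) * Q = P * mat x g * (Q * P) * mat x h * Q := by
          rw [hQP, mul_one]; simp only [mul_assoc]
      _ = P * mat x g * Q * (P * mat x h * Q) := by simp only [mul_assoc]

/-- The conjugated tuple gives an equivalent representation. -/
theorem stdRep_conj_isEquiv {P Q : Matrix (Fin 2) (Fin 2) A} (hPQ : P * Q = 1) (hQP : Q * P = 1)
    (x : Idx → A) (h1 : IsHom x) (h2 : IsCont A x)
    (h1' : IsHom (tup fun g => P * mat x g * Q)) (h2' : IsCont A (tup fun g => P * mat x g * Q)) :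
    (stdRep A x h1 h2).IsEquiv (stdRep A (tup fun g => P * mat x g * Q) h1' h2') := by
  rw [stdRep_isEquiv_iff]
  refine ⟨P, Q, hPQ, hQP, fun g => ?_⟩
  rw [mat_tup, mul_assoc, mul_assoc, hQP, mul_one]

end Conj

section Field

variable {k : Type} [Field k] (ρbar : ResidualGaloisRep k) (b : Module.Basis (Fin 2) k ρbar.V)

/-- The tuple of matrix entries of `ρbar` in the basis `b`. -/
def resTuple : Idx → k := fun p => LinearMap.toMatrix b b (ρbar.ρ p.1) p.2.1 p.2.2

theorem mat_resTuple (g : Gal) : mat (resTuple ρbar b) g = LinearMap.toMatrix b b (ρbar.ρ g) := by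
  ext i j; rfl

theorem isHom_resTuple : IsHom (resTuple ρbar b) := by
  refine ⟨?_, fun g h => ?_⟩
  · rw [mat_resTuple, map_one]; exact LinearMap.toMatrix_one b
  · rw [mat_resTuple, mat_resTuple, mat_resTuple, map_mul]; exact LinearMap.toMatrix_mul b _ _

theorem isCont_resTuple : IsCont k (resTuple ρbar b) := by
  intro n
  obtain ⟨L, hL, h⟩ := ρbar.factorsThroughFiniteLevel
  refine ⟨L, hL, fun σ hσ i j => ?_⟩
  have : mat (resTuple ρbar b) σ = 1 := by
    rw [mat_resTuple, h σ hσ]; exact LinearMap.toMatrix_one b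
  rw [this, sub_self]
  exact Ideal.zero_mem _

/-- Over the residue field, the standard representation of the matrix entries of `ρbar` is
`ρbar` itself. -/
theorem stdRep_resTuple_isEquiv (h1 : IsHom (resTuple ρbar b)) (h2 : IsCont k (resTuple ρbar b)) :
    (stdRep k (resTuple ρbar b) h1 h2).IsEquiv (GaloisRepAdic.ofResidualGaloisRep ρbar) := by
  refine ⟨GaloisRepAdic.Equiv.symm
    { toLinearEquiv := b.equivFun, map_apply := fun σ v => ?_ }⟩
  have key : ∀ w : ρbar.V, b.equivFun (ρbar.ρ σ w) =
      Matrix.toLin' (mat (resTuple ρbar b) σ) (b.equivFun w) := by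
    intro w
    rw [mat_resTuple, Matrix.toLin'_apply]
    exact (LinearMap.toMatrix_mulVec_repr b b (ρbar.ρ σ) w).symm
  exact key v

end Field

end Fermat.Agent.DR
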