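/-
S53 project: the Galois tuple functor `GalP` (shared definition for the modules
DR_GalX / DR_GalTan / DR_Final).
-/
import Fermat.Agent.Lib.DR_Normal
import Fermat.Agent.Lib.DR_StdRep

set_option autoImplicit false

noncomputable section

namespace Fermat.Agent.DR

open IsLocalRing GaloisRep

/-- The Galois tuple functor: `x : Idx → A` is a point if it is multiplicative, continuous,
in normal form with respect to the frame `F`, and its standard representation is of type `𝒟`.
The base tuple is `tup F.rt`. -/
def GalP {𝒪 : Type} [CommRing 𝒪] [IsLocalRing 𝒪] {ρbar : ResidualGaloisRep (ResidueField 𝒪)}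
    (F : Frame 𝒪 ρbar)
    (𝒟 : ∀ ⦃A : Type⦄ [CommRing A] [IsLocalRing A] [Algebra 𝒪 A], GaloisRepAdic A → Prop) :
    ∀ (A : Type) [CommRing A] [IsLocalRing A] [Algebra 𝒪 A], (Idx → A) → Prop :=
  fun A _ _ _ x => ∃ (h1 : IsHom x) (h2 : IsCont A x),
    F.IsNormalized (mat x) ∧ 𝒟 (stdRep A x h1 h2)

end Fermat.Agent.DR
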