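/-
S53 project, module PF-2: consequences of tangent finiteness.
A fixed finite set of coordinates generates every tight point; hence tight points of bounded
level have bounded cardinality.  (helper8)

Main auxiliary result: the square-zero lemma `tan_exists_two_homs` (a proper subalgebra of a test
algebra is detected by two distinct homomorphisms to the dual numbers).
-/
import Fermat.Agent.Lib.DR_Test

set_option autoImplicit false
set_option linter.style.haveILetI false
set_option linter.unusedSectionVars false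

noncomputable section

namespace Fermat.Agent.DR

open IsLocalRing GaloisRep

section SquareZero

variable {𝒪 : Type} [CommRing 𝒪] [IsLocalRing 𝒪]
variable {A : Type} [CommRing A] [IsLocalRing A] [Algebra 𝒪 A]

/-- The residue field of a test algebra is the residue field of `𝒪`. -/
theorem tan_exists_resEquiv (hA : IsArtinianTestAlgebra 𝒪 A) :
    ∃ e : ResidueField A ≃+* ResidueField 𝒪,
      ∀ c : 𝒪, e (residue A (algebraMap 𝒪 A c)) = residue 𝒪 c := by
  haveI := hA.isLocalHom
  have hbij : Function.Bijective (ResidueField.map (algebraMap 𝒪 A)) := by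
    refine ⟨(ResidueField.map (algebraMap 𝒪 A)).injective, fun y => ?_⟩
    obtain ⟨c, hc⟩ := hA.residue_surjective y
    exact ⟨residue 𝒪 c, by rw [ResidueField.map_residue]; exact hc⟩
  refine ⟨(RingEquiv.ofBijective _ hbij).symm, fun c => ?_⟩
  rw [RingEquiv.symm_apply_eq]
  exact (ResidueField.map_residue _ c).symm

/-- An algebra homomorphism to the dual numbers from a residue homomorphism and a derivation. -/
theorem tan_exists_dualHom (ρ : A →+* ResidueField 𝒪)
    (hρ : ∀ c : 𝒪, ρ (algebraMap 𝒪 A c) = residue 𝒪 c)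
    (δ : A → ResidueField 𝒪) (hδa : ∀ a b, δ (a + b) = δ a + δ b)
    (hδ : ∀ a b, δ (a * b) = ρ a * δ b + ρ b * δ a)
    (hδc : ∀ c : 𝒪, δ (algebraMap 𝒪 A c) = 0) :
    letI := dualAlg 𝒪
    ∃ t : A →ₐ[𝒪] DualNumber (ResidueField 𝒪),
      ∀ a, t a = TrivSqZeroExt.inl (ρ a) + TrivSqZeroExt.inr (δ a) := by
  letI := dualAlg 𝒪
  have hδ0 : δ 0 = 0 := by
    have := hδa 0 0
    rw [add_zero] at this
    exact left_eq_add.mp this
  have hδ1 : δ 1 = 0 := by
    have := hδc 1
    rwa [map_one] at this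
  refine ⟨{ toFun := fun a => TrivSqZeroExt.inl (ρ a) + TrivSqZeroExt.inr (δ a)
            map_one' := ?_, map_mul' := ?_, map_zero' := ?_, map_add' := ?_, commutes' := ?_ },
    fun a => rfl⟩
  · rw [map_one, hδ1]; simp
  · intro a b
    apply TrivSqZeroExt.ext
    · simp
    · simp [hδ a b, mul_comm]
  · rw [map_zero, hδ0]; simp
  · intro a b
    rw [map_add, hδa]
    apply TrivSqZeroExt.ext <;> simp
  · intro c
    rw [hρ, hδc]
    apply TrivSqZeroExt.ext
    · simp; rfl
    · simp; rfl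


/-- If every element of the maximal ideal is congruent modulo `𝔪²` to an element of the
subalgebra `B`, then `B = ⊤`. -/
theorem tan_subalgebra_eq_top (hA : IsArtinianTestAlgebra 𝒪 A) (B : Subalgebra 𝒪 A)
    (h : ∀ m ∈ maximalIdeal A, ∃ b ∈ B, m - b ∈ maximalIdeal A ^ 2) : B = ⊤ := by
  have claim : ∀ n : ℕ, 1 ≤ n → ∀ x ∈ maximalIdeal A ^ n,
      ∃ b ∈ B, x - b ∈ maximalIdeal A ^ (n + 1) := by
    intro n hn
    induction n, hn using Nat.le_induction with
    | base =>
      intro x hx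
      rw [pow_one] at hx
      exact h x hx
    | succ n hn ih =>
      intro x hx
      rw [pow_succ] at hx
      refine Submodule.mul_induction_on hx ?_ ?_
      · intro y hy z hz
        obtain ⟨b₁, hb₁, h₁⟩ := ih y hy
        obtain ⟨b₂, hb₂, h₂⟩ := h z hz
        refine ⟨b₁ * b₂, B.mul_mem hb₁ hb₂, ?_⟩
        have hb₁m : b₁ ∈ maximalIdeal A ^ n := by
          have e : b₁ = y - (y - b₁) := by ring
          rw [e]
          exact Ideal.sub_mem _ hy (Ideal.pow_le_pow_right (Nat.le_succ n) h₁)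
        have e : y * z - b₁ * b₂ = (y - b₁) * z + b₁ * (z - b₂) := by ring
        rw [e]
        refine Ideal.add_mem _ ?_ ?_
        · rw [pow_succ (maximalIdeal A) (n + 1)]
          exact Ideal.mul_mem_mul h₁ hz
        · have e2 : maximalIdeal A ^ (n + 1 + 1) = maximalIdeal A ^ n * maximalIdeal A ^ 2 := by
            rw [← pow_add]
          rw [e2]
          exact Ideal.mul_mem_mul hb₁m h₂
      · rintro x y ⟨b₁, hb₁, h₁⟩ ⟨b₂, hb₂, h₂⟩
        refine ⟨b₁ + b₂, B.add_mem hb₁ hb₂, ?_⟩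
        have e : x + y - (b₁ + b₂) = (x - b₁) + (y - b₂) := by ring
        rw [e]
        exact Ideal.add_mem _ h₁ h₂
  obtain ⟨N, hN⟩ := test_exists_pow hA
  have down : ∀ k n : ℕ, 1 ≤ n → N ≤ n + k → ∀ x ∈ maximalIdeal A ^ n, x ∈ B := by
    intro k
    induction k with
    | zero =>
      intro n _ hNn x hx
      have hx' : x ∈ maximalIdeal A ^ N := Ideal.pow_le_pow_right (by omega) hx
      rw [hN] at hx'
      rw [(Submodule.mem_bot A).mp hx']
      exact B.zero_mem
    | succ k ih =>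
      intro n hn hNn x hx
      obtain ⟨b, hb, hxb⟩ := claim n hn x hx
      have hmem := ih (n + 1) (by omega) (by omega) _ hxb
      have e : x = (x - b) + b := by ring
      rw [e]
      exact B.add_mem hmem hb
  rw [eq_top_iff]
  intro a _
  obtain ⟨c, hc⟩ := test_decomp hA a
  have h1 := down N 1 le_rfl (by omega) _ (by rwa [pow_one])
  have e : a = (a - algebraMap 𝒪 A c) + algebraMap 𝒪 A c := by ring
  rw [e]
  exact B.add_mem h1 (B.algebraMap_mem c)


/-- **Square-zero lemma.** If `B` is a proper subalgebra of a test algebra `A`, there are two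
distinct `𝒪`-algebra homomorphisms `A → k[ε]` which agree on `B`. -/
theorem tan_exists_two_homs (hA : IsArtinianTestAlgebra 𝒪 A) (B : Subalgebra 𝒪 A) (hB : B ≠ ⊤) :
    letI := dualAlg 𝒪
    ∃ t₁ t₂ : A →ₐ[𝒪] DualNumber (ResidueField 𝒪), t₁ ≠ t₂ ∧ ∀ b ∈ B, t₁ b = t₂ b := by
  letI := dualAlg 𝒪
  obtain ⟨e, he⟩ := tan_exists_resEquiv hA
  let ρ : A →+* ResidueField 𝒪 := (e : ResidueField A →+* ResidueField 𝒪).comp (residue A)
  have hρ : ∀ c : 𝒪, ρ (algebraMap 𝒪 A c) = residue 𝒪 c := he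
  have hρ0 : ∀ a : A, a ∈ maximalIdeal A → ρ a = 0 := by
    intro a ha
    show e (residue A a) = 0
    rw [(residue_eq_zero_iff a).mpr ha, map_zero]
  have hρc : ∀ (a : A) (c : 𝒪), a - algebraMap 𝒪 A c ∈ maximalIdeal A →
      ρ (algebraMap 𝒪 A c) = ρ a := by
    intro a c h
    have := hρ0 _ h
    rw [map_sub, sub_eq_zero] at this
    exact this.symm
  -- the cotangent space
  let toCot : maximalIdeal A →ₗ[A] CotangentSpace A := (maximalIdeal A).toCotangent
  let S : Set (CotangentSpace A) := {v | ∃ m : maximalIdeal A, (m : A) ∈ B ∧ toCot m = v}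
  let W : Submodule (ResidueField A) (CotangentSpace A) := Submodule.span (ResidueField A) S
  have hWS : ∀ v ∈ W, v ∈ S := by
    intro v hv
    refine Submodule.span_induction ?_ ?_ ?_ ?_ hv
    · intro x hx
      exact hx
    · exact ⟨0, B.zero_mem, map_zero _⟩
    · rintro x y _ _ ⟨m, hm, rfl⟩ ⟨m', hm', rfl⟩
      exact ⟨m + m', B.add_mem hm hm', map_add _ _ _⟩
    · rintro r x _ ⟨m, hm, rfl⟩
      obtain ⟨a, rfl⟩ := residue_surjective r
      obtain ⟨c, hc⟩ := test_decomp hA a
      refine ⟨algebraMap 𝒪 A c • m, ?_, ?_⟩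
      · show (algebraMap 𝒪 A c) * (m : A) ∈ B
        exact B.mul_mem (B.algebraMap_mem c) hm
      · rw [map_smul]
        have hr : residue A a = residue A (algebraMap 𝒪 A c) := by
          rw [← sub_eq_zero, ← map_sub, residue_eq_zero_iff]
          exact hc
        rw [hr]
        rfl
  by_cases hW : W = ⊤
  · exfalso
    apply hB
    apply tan_subalgebra_eq_top hA B
    intro m hm
    have hmem : toCot ⟨m, hm⟩ ∈ W := by rw [hW]; trivial
    obtain ⟨m', hm', e'⟩ := hWS _ hmem
    refine ⟨m', hm', ?_⟩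
    have h0 : toCot (⟨m, hm⟩ - m') = 0 := by rw [map_sub, e', sub_self]
    rw [Ideal.toCotangent_eq_zero] at h0
    exact h0
  · obtain ⟨v, hv⟩ : ∃ v, v ∉ W := by
      by_contra hcon
      push Not at hcon
      exact hW (eq_top_iff.mpr fun x _ => hcon x)
    obtain ⟨f, hfv, hfW⟩ := Submodule.exists_dual_map_eq_bot_of_notMem hv inferInstance
    -- the functional on the maximal ideal
    let lam : maximalIdeal A →+ ResidueField 𝒪 :=
      (e : ResidueField A →+ ResidueField 𝒪).comp
        ((f : CotangentSpace A →+ ResidueField A).comp (toCot : maximalIdeal A →+ CotangentSpace A))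
    have lam_apply : ∀ m, lam m = e (f (toCot m)) := fun m => rfl
    have L2 : ∀ (a : A) (m : maximalIdeal A), lam (a • m) = ρ a * lam m := by
      intro a m
      rw [lam_apply, lam_apply, map_smul]
      have : (a • toCot m : CotangentSpace A) = residue A a • toCot m := rfl
      rw [this, map_smul, smul_eq_mul, map_mul]
      rfl
    have L3 : ∀ m : maximalIdeal A, (m : A) ∈ B → lam m = 0 := by
      intro m hm
      have h1 : toCot m ∈ W := Submodule.subset_span ⟨m, hm, rfl⟩
      have h2 : f (toCot m) ∈ Submodule.map f W := Submodule.mem_map_of_mem h1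
      rw [hfW, Submodule.mem_bot] at h2
      rw [lam_apply, h2, map_zero]
    have L5 : ∀ m : maximalIdeal A, (m : A) ∈ maximalIdeal A ^ 2 → lam m = 0 := by
      intro m hm
      have : toCot m = 0 := (Ideal.toCotangent_eq_zero _ m).mpr hm
      rw [lam_apply, this, map_zero, map_zero]
    obtain ⟨m₀, hm₀⟩ : ∃ m₀ : maximalIdeal A, lam m₀ ≠ 0 := by
      obtain ⟨m₀, rfl⟩ := Ideal.toCotangent_surjective _ v
      refine ⟨m₀, ?_⟩
      rw [lam_apply]
      intro h0
      apply hfv
      exact (map_eq_zero_iff e e.injective).mp h0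
    -- the derivation
    have hdec := test_decomp hA
    let cc : A → 𝒪 := fun a => Classical.choose (hdec a)
    have hcc : ∀ a, a - algebraMap 𝒪 A (cc a) ∈ maximalIdeal A := fun a =>
      Classical.choose_spec (hdec a)
    let δ : A → ResidueField 𝒪 := fun a => lam ⟨a - algebraMap 𝒪 A (cc a), hcc a⟩
    have D0 : ∀ (a : A) (c' : 𝒪) (h' : a - algebraMap 𝒪 A c' ∈ maximalIdeal A),
        δ a = lam ⟨a - algebraMap 𝒪 A c', h'⟩ := by
      intro a c' h'
      show lam ⟨a - algebraMap 𝒪 A (cc a), hcc a⟩ = lam ⟨a - algebraMap 𝒪 A c', h'⟩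
      rw [← sub_eq_zero, ← map_sub]
      apply L3
      show (a - algebraMap 𝒪 A (cc a)) - (a - algebraMap 𝒪 A c') ∈ B
      have e1 : (a - algebraMap 𝒪 A (cc a)) - (a - algebraMap 𝒪 A c')
          = algebraMap 𝒪 A (c' - cc a) := by
        rw [map_sub]; ring
      rw [e1]
      exact B.algebraMap_mem _
    have D1 : ∀ a b, δ (a + b) = δ a + δ b := by
      intro a b
      have h' : (a + b) - algebraMap 𝒪 A (cc a + cc b) ∈ maximalIdeal A := by
        have e1 : (a + b) - algebraMap 𝒪 A (cc a + cc b)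
            = (a - algebraMap 𝒪 A (cc a)) + (b - algebraMap 𝒪 A (cc b)) := by
          rw [map_add]; ring
        rw [e1]
        exact Ideal.add_mem _ (hcc a) (hcc b)
      rw [D0 (a + b) (cc a + cc b) h']
      show _ = lam ⟨a - algebraMap 𝒪 A (cc a), hcc a⟩ + lam ⟨b - algebraMap 𝒪 A (cc b), hcc b⟩
      rw [← map_add]
      congr 1
      apply Subtype.ext
      show (a + b) - algebraMap 𝒪 A (cc a + cc b)
        = (a - algebraMap 𝒪 A (cc a)) + (b - algebraMap 𝒪 A (cc b))
      rw [map_add]; ring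
    have D2 : ∀ a b, δ (a * b) = ρ a * δ b + ρ b * δ a := by
      intro a b
      have hprod : (a - algebraMap 𝒪 A (cc a)) * (b - algebraMap 𝒪 A (cc b)) ∈
          maximalIdeal A ^ 2 := by
        rw [pow_two]
        exact Ideal.mul_mem_mul (hcc a) (hcc b)
      have e1 : a * b - algebraMap 𝒪 A (cc a * cc b)
          = (a - algebraMap 𝒪 A (cc a)) * (b - algebraMap 𝒪 A (cc b))
            + algebraMap 𝒪 A (cc a) * (b - algebraMap 𝒪 A (cc b))
            + algebraMap 𝒪 A (cc b) * (a - algebraMap 𝒪 A (cc a)) := by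
        rw [map_mul]; ring
      have h' : a * b - algebraMap 𝒪 A (cc a * cc b) ∈ maximalIdeal A := by
        rw [e1]
        refine Ideal.add_mem _ (Ideal.add_mem _ ?_ ?_) ?_
        · exact Ideal.mul_mem_left _ _ (hcc b)
        · exact Ideal.mul_mem_left _ _ (hcc b)
        · exact Ideal.mul_mem_left _ _ (hcc a)
      rw [D0 (a * b) (cc a * cc b) h']
      have e2 : (⟨a * b - algebraMap 𝒪 A (cc a * cc b), h'⟩ : maximalIdeal A)
          = ⟨(a - algebraMap 𝒪 A (cc a)) * (b - algebraMap 𝒪 A (cc b)),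
              Ideal.pow_le_self two_ne_zero hprod⟩
            + algebraMap 𝒪 A (cc a) • ⟨b - algebraMap 𝒪 A (cc b), hcc b⟩
            + algebraMap 𝒪 A (cc b) • ⟨a - algebraMap 𝒪 A (cc a), hcc a⟩ := by
        apply Subtype.ext
        exact e1
      rw [e2, map_add, map_add, L5 _ hprod, L2, L2, hρc a (cc a) (hcc a), hρc b (cc b) (hcc b),
        zero_add]
    have D3 : ∀ c : 𝒪, δ (algebraMap 𝒪 A c) = 0 := by
      intro c
      have h' : algebraMap 𝒪 A c - algebraMap 𝒪 A c ∈ maximalIdeal A := by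
        rw [sub_self]; exact Ideal.zero_mem _
      rw [D0 _ c h']
      apply L3
      show algebraMap 𝒪 A c - algebraMap 𝒪 A c ∈ B
      rw [sub_self]
      exact B.zero_mem
    have D4 : ∀ b ∈ B, δ b = 0 := by
      intro b hb
      apply L3
      show b - algebraMap 𝒪 A (cc b) ∈ B
      exact B.sub_mem hb (B.algebraMap_mem _)
    have D5 : δ (m₀ : A) ≠ 0 := by
      have h' : (m₀ : A) - algebraMap 𝒪 A 0 ∈ maximalIdeal A := by
        rw [map_zero, sub_zero]; exact m₀.2
      rw [D0 _ 0 h']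
      have : (⟨(m₀ : A) - algebraMap 𝒪 A 0, h'⟩ : maximalIdeal A) = m₀ := by
        apply Subtype.ext
        show (m₀ : A) - algebraMap 𝒪 A 0 = m₀
        rw [map_zero, sub_zero]
      rw [this]
      exact hm₀
    obtain ⟨t₁, ht₁⟩ := tan_exists_dualHom ρ hρ (fun _ => 0) (fun _ _ => by simp)
      (fun _ _ => by simp) (fun _ => rfl)
    obtain ⟨t₂, ht₂⟩ := tan_exists_dualHom ρ hρ δ D1 D2 D3
    refine ⟨t₁, t₂, ?_, ?_⟩
    · intro h12
      apply D5
      have := congrArg TrivSqZeroExt.snd (congrArg (fun t => t (m₀ : A)) h12)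
      simp only [ht₁, ht₂] at this
      simpa using this.symm
    · intro b hb
      rw [ht₁, ht₂, D4 b hb]

end SquareZero

variable {𝒪 : Type} [CommRing 𝒪] [IsDomain 𝒪] [IsDiscreteValuationRing 𝒪]
  [Finite (ResidueField 𝒪)]
variable {ι : Type}
  {P : ∀ (A : Type) [CommRing A] [IsLocalRing A] [Algebra 𝒪 A], (ι → A) → Prop} {base : ι → 𝒪}

/-- There is a finite set `s` of coordinates such that every tight point is already generated by
its coordinates in `s`. -/
theorem exists_finite_gen (h : PFData 𝒪 P base) :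
    ∃ s : Finset ι, ∀ (A : Type) [CommRing A] [IsLocalRing A] [Algebra 𝒪 A],
      IsArtinianTestAlgebra 𝒪 A → ∀ x : ι → A, P A x → IsTight 𝒪 x →
        Algebra.adjoin 𝒪 (x '' (s : Set ι)) = ⊤ := by
  classical
  letI := dualAlg 𝒪
  haveI hfin : Finite {x : ι → DualNumber (ResidueField 𝒪) //
      P (DualNumber (ResidueField 𝒪)) x} := h.tangent
  haveI : Fintype {x : ι → DualNumber (ResidueField 𝒪) //
      P (DualNumber (ResidueField 𝒪)) x} := Fintype.ofFinite _
  let pick : {x : ι → DualNumber (ResidueField 𝒪) // P (DualNumber (ResidueField 𝒪)) x} ×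
      {x : ι → DualNumber (ResidueField 𝒪) // P (DualNumber (ResidueField 𝒪)) x} → Finset ι :=
    fun p => if hne : p.1.1 ≠ p.2.1 then {Classical.choose (Function.ne_iff.mp hne)} else ∅
  refine ⟨Finset.univ.biUnion pick, ?_⟩
  intro A _ _ _ hA x hx htight
  by_contra hne
  obtain ⟨t₁, t₂, h12, hB⟩ := tan_exists_two_homs hA
    (Algebra.adjoin 𝒪 (x '' ((Finset.univ.biUnion pick : Finset ι) : Set ι))) hne
  have hdual : IsArtinianTestAlgebra 𝒪 (DualNumber (ResidueField 𝒪)) := test_dualNumber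
  have hy : (fun i => t₁ (x i)) ≠ (fun i => t₂ (x i)) := by
    intro heq
    apply h12
    exact algHom_ext_of_tight htight (fun i => congrFun heq i)
  have hspec := Classical.choose_spec (Function.ne_iff.mp hy)
  have hmem : Classical.choose (Function.ne_iff.mp hy) ∈ Finset.univ.biUnion pick := by
    rw [Finset.mem_biUnion]
    refine ⟨(⟨fun i => t₁ (x i), h.map A _ hA hdual t₁ x hx⟩,
      ⟨fun i => t₂ (x i), h.map A _ hA hdual t₂ x hx⟩), Finset.mem_univ _, ?_⟩
    simp only [pick]
    rw [dif_pos hy]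
    exact Finset.mem_singleton_self _
  apply hspec
  exact hB _ (Algebra.subset_adjoin ⟨_, hmem, rfl⟩)

omit [IsDomain 𝒪] [IsDiscreteValuationRing 𝒪] [Finite (ResidueField 𝒪)] in
/-- Monomials of bounded exponents in nilpotent generators span the algebra. -/
theorem tan_span_monomials {A : Type} [CommRing A] [IsLocalRing A] [Algebra 𝒪 A]
    (n : ℕ) (hn : maximalIdeal A ^ n = ⊥) (s : Finset ι) (x : ι → A) (b : ι → 𝒪)
    (hb : ∀ i, x i - algebraMap 𝒪 A (b i) ∈ maximalIdeal A)
    (hgen : Algebra.adjoin 𝒪 (x '' (s : Set ι)) = ⊤) :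
    Submodule.span 𝒪 (Set.range fun e : s → Fin n =>
      ∏ i : s, (x i - algebraMap 𝒪 A (b i)) ^ (e i : ℕ)) = ⊤ := by
  classical
  have hn1 : 1 ≤ n := by
    rcases Nat.eq_zero_or_pos n with h0 | h0
    · exfalso
      rw [h0, pow_zero, Ideal.one_eq_top] at hn
      exact top_ne_bot hn
    · exact h0
  set mono : (s → Fin n) → A := fun e => ∏ i : s, (x i - algebraMap 𝒪 A (b i)) ^ (e i : ℕ)
    with hmono
  set M : Submodule 𝒪 A := Submodule.span 𝒪 (Set.range mono) with hM
  have hpow0 : ∀ (i : ι) (k : ℕ), n ≤ k → (x i - algebraMap 𝒪 A (b i)) ^ k = 0 := by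
    intro i k hk
    have h1 : (x i - algebraMap 𝒪 A (b i)) ^ k ∈ maximalIdeal A ^ n :=
      Ideal.pow_le_pow_right hk (Ideal.pow_mem_pow (hb i) k)
    rw [hn] at h1
    exact (Submodule.mem_bot A).mp h1
  have h_one : (1 : A) ∈ M := by
    apply Submodule.subset_span
    refine ⟨fun _ => ⟨0, hn1⟩, ?_⟩
    simp [hmono]
  have h_mul : ∀ a a' : A, a ∈ M → a' ∈ M → a * a' ∈ M := by
    intro a a' ha ha'
    have hmm : a * a' ∈ M * M := Submodule.mul_mem_mul ha ha'
    rw [hM, Submodule.span_mul_span] at hmm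
    refine Submodule.span_le.mpr ?_ hmm
    rintro _ ⟨_, ⟨e, rfl⟩, _, ⟨e', rfl⟩, rfl⟩
    show mono e * mono e' ∈ M
    have hprod : mono e * mono e'
        = ∏ i : s, (x i - algebraMap 𝒪 A (b i)) ^ ((e i : ℕ) + (e' i : ℕ)) := by
      simp only [hmono, ← Finset.prod_mul_distrib, pow_add]
    by_cases hlt : ∀ i, (e i : ℕ) + (e' i : ℕ) < n
    · apply Submodule.subset_span
      refine ⟨fun i => ⟨(e i : ℕ) + (e' i : ℕ), hlt i⟩, ?_⟩
      rw [hprod]
    · push Not at hlt
      obtain ⟨i, hi⟩ := hlt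
      rw [hprod, Finset.prod_eq_zero (Finset.mem_univ i) (hpow0 _ _ hi)]
      exact M.zero_mem
  have h_gen : ∀ i ∈ s, x i - algebraMap 𝒪 A (b i) ∈ M := by
    intro i hi
    rcases Nat.lt_or_ge 1 n with h1 | h1
    · apply Submodule.subset_span
      refine ⟨fun j => if j = ⟨i, hi⟩ then ⟨1, h1⟩ else ⟨0, hn1⟩, ?_⟩
      show ∏ j : s, (x j - algebraMap 𝒪 A (b j)) ^
        ((if j = ⟨i, hi⟩ then (⟨1, h1⟩ : Fin n) else ⟨0, hn1⟩ : Fin n) : ℕ) = _
      rw [Finset.prod_eq_single (⟨i, hi⟩ : s)]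
      · simp
      · intro j _ hj
        simp [hj]
      · intro hni
        exact absurd (Finset.mem_univ _) hni
    · have := hpow0 i 1 h1
      rw [pow_one] at this
      rw [this]
      exact M.zero_mem
  have hle : Algebra.adjoin 𝒪 (x '' (s : Set ι)) ≤ M.toSubalgebra h_one h_mul := by
    apply Algebra.adjoin_le
    rintro _ ⟨i, hi, rfl⟩
    show x i ∈ M
    have e1 : x i = (x i - algebraMap 𝒪 A (b i)) + b i • (1 : A) := by
      rw [Algebra.smul_def, mul_one]; ring
    rw [e1]
    exact M.add_mem (h_gen i hi) (M.smul_mem _ h_one)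
  rw [hgen] at hle
  rw [eq_top_iff]
  intro a _
  exact hle (Algebra.mem_top : a ∈ (⊤ : Subalgebra 𝒪 A))

/-- Tight points of level `n` have bounded cardinality. -/
theorem exists_card_bound (h : PFData 𝒪 P base) (n : ℕ) :
    ∃ c : ℕ, ∀ (A : Type) [CommRing A] [IsLocalRing A] [Algebra 𝒪 A],
      IsArtinianTestAlgebra 𝒪 A → maximalIdeal A ^ n = ⊥ → ∀ x : ι → A, P A x → IsTight 𝒪 x →
        Nat.card A ≤ c := by
  classical
  obtain ⟨s, hs⟩ := exists_finite_gen h
  haveI : Finite (𝒪 ⧸ maximalIdeal 𝒪) := inferInstanceAs (Finite (ResidueField 𝒪))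
  haveI hfinq : Finite (𝒪 ⧸ maximalIdeal 𝒪 ^ n) :=
    Ideal.finite_quotient_pow (IsNoetherian.noetherian _) n
  refine ⟨Nat.card ((s → Fin n) → 𝒪 ⧸ maximalIdeal 𝒪 ^ n), ?_⟩
  intro A _ _ _ hA hn x hx htight
  haveI := hA.isLocalHom
  have hspan := tan_span_monomials n hn s x base (h.base_mem A hA x hx) (hs A hA x hx htight)
  set mono : (s → Fin n) → A := fun e => ∏ i : s, (x i - algebraMap 𝒪 A (base i)) ^ (e i : ℕ)
    with hmono
  -- the algebra map kills `𝔪_𝒪 ^ n`
  have hkill : ∀ c c' : 𝒪, c - c' ∈ maximalIdeal 𝒪 ^ n → algebraMap 𝒪 A c = algebraMap 𝒪 A c' := by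
    intro c c' hcc
    have h1 : algebraMap 𝒪 A (c - c') ∈ (maximalIdeal 𝒪 ^ n).map (algebraMap 𝒪 A) :=
      Ideal.mem_map_of_mem _ hcc
    rw [Ideal.map_pow] at h1
    have h2 : (maximalIdeal 𝒪).map (algebraMap 𝒪 A) ≤ maximalIdeal A :=
      Ideal.map_le_iff_le_comap.mpr fun a ha => map_nonunit (algebraMap 𝒪 A) a ha
    have h3 := Ideal.pow_right_mono h2 n h1
    rw [hn] at h3
    have h4 := (Submodule.mem_bot A).mp h3
    rw [map_sub, sub_eq_zero] at h4
    exact h4
  let Ψ : ((s → Fin n) → 𝒪 ⧸ maximalIdeal 𝒪 ^ n) → A :=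
    fun f => ∑ e, algebraMap 𝒪 A (Quotient.out (f e)) * mono e
  have hΨ : Function.Surjective Ψ := by
    intro a
    have ha : a ∈ Submodule.span 𝒪 (Set.range mono) := by rw [hspan]; trivial
    obtain ⟨g, hg⟩ := (Submodule.mem_span_range_iff_exists_fun 𝒪).mp ha
    refine ⟨fun e => Ideal.Quotient.mk _ (g e), ?_⟩
    rw [← hg]
    apply Finset.sum_congr rfl
    intro e _
    rw [Algebra.smul_def]
    congr 1
    apply hkill
    rw [← Ideal.Quotient.eq]
    exact Quotient.out_eq _
  exact Nat.card_le_card_of_surjective Ψ hΨ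

end Fermat.Agent.DR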