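/-
S53 project, module PF-3: the tower of universal level-`n` objects.
-/
import Fermat.Agent.Lib.DR_Tangent

set_option autoImplicit false

noncomputable section

namespace Fermat.Agent.DR

open IsLocalRing GaloisRep

section
variable {𝒪 : Type} [CommRing 𝒪] [IsLocalRing 𝒪]
variable {ι : Type}
  {P : ∀ (A : Type) [CommRing A] [IsLocalRing A] [Algebra 𝒪 A], (ι → A) → Prop} {base : ι → 𝒪}

/-- The point over the residue field is a tight point of every level `n ≥ 1`. -/
theorem level_exists_point (h : PFData 𝒪 P base) (n : ℕ) (hn : 1 ≤ n) :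
    ∃ x : ι → ResidueField 𝒪, maximalIdeal (ResidueField 𝒪) ^ n = ⊥ ∧
      P (ResidueField 𝒪) x ∧ IsTight 𝒪 x := by
  obtain ⟨x, hx⟩ := h.point
  refine ⟨x, ?_, hx, ?_⟩
  · rw [IsLocalRing.maximalIdeal_eq_bot]
    exact Ideal.bot_pow (by omega)
  · refine eq_top_iff.mpr fun a _ => ?_
    obtain ⟨c, rfl⟩ := IsLocalRing.residue_surjective a
    exact Subalgebra.algebraMap_mem _ c

/-- A scalar lies in the maximal ideal of a test algebra iff it lies in the maximal ideal of `𝒪`. -/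
theorem level_algebraMap_mem_iff {A : Type} [CommRing A] [IsLocalRing A] [Algebra 𝒪 A]
    (hA : IsArtinianTestAlgebra 𝒪 A) (c : 𝒪) :
    algebraMap 𝒪 A c ∈ maximalIdeal A ↔ c ∈ maximalIdeal 𝒪 := by
  have hloc := hA.isLocalHom
  constructor
  · intro hc
    rw [IsLocalRing.mem_maximalIdeal, mem_nonunits_iff] at hc ⊢
    exact fun hu => hc (hu.map _)
  · intro hc
    rw [IsLocalRing.mem_maximalIdeal, mem_nonunits_iff] at hc ⊢
    exact fun hu => hc (isUnit_of_map_unit (algebraMap 𝒪 A) c hu)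

/-- Elements of the subalgebra of `A × B` generated by a pair of points have the same residue. -/
theorem level_adjoin_residue (h : PFData 𝒪 P base)
    {A : Type} [CommRing A] [IsLocalRing A] [Algebra 𝒪 A]
    {B : Type} [CommRing B] [IsLocalRing B] [Algebra 𝒪 B]
    (hA : IsArtinianTestAlgebra 𝒪 A) (hB : IsArtinianTestAlgebra 𝒪 B)
    (x : ι → A) (y : ι → B) (hx : P A x) (hy : P B y) (s : A × B)
    (hs : s ∈ Algebra.adjoin 𝒪 (Set.range fun i => (x i, y i))) :
    ∃ c : 𝒪, s.1 - algebraMap 𝒪 A c ∈ maximalIdeal A ∧ s.2 - algebraMap 𝒪 B c ∈ maximalIdeal B := by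
  induction hs using Algebra.adjoin_induction with
  | mem s hs =>
    obtain ⟨i, rfl⟩ := hs
    exact ⟨base i, h.base_mem A hA x hx i, h.base_mem B hB y hy i⟩
  | algebraMap r =>
    refine ⟨r, ?_, ?_⟩
    · simp
    · simp
  | add s t _ _ hs ht =>
    obtain ⟨c, hc1, hc2⟩ := hs
    obtain ⟨d, hd1, hd2⟩ := ht
    refine ⟨c + d, ?_, ?_⟩
    · have : (s + t).1 - algebraMap 𝒪 A (c + d) =
          (s.1 - algebraMap 𝒪 A c) + (t.1 - algebraMap 𝒪 A d) := by
        rw [map_add, Prod.fst_add]; ring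
      rw [this]
      exact Ideal.add_mem _ hc1 hd1
    · have : (s + t).2 - algebraMap 𝒪 B (c + d) =
          (s.2 - algebraMap 𝒪 B c) + (t.2 - algebraMap 𝒪 B d) := by
        rw [map_add, Prod.snd_add]; ring
      rw [this]
      exact Ideal.add_mem _ hc2 hd2
  | mul s t _ _ hs ht =>
    obtain ⟨c, hc1, hc2⟩ := hs
    obtain ⟨d, hd1, hd2⟩ := ht
    refine ⟨c * d, ?_, ?_⟩
    · have : (s * t).1 - algebraMap 𝒪 A (c * d) =
          (s.1 - algebraMap 𝒪 A c) * t.1 + algebraMap 𝒪 A c * (t.1 - algebraMap 𝒪 A d) := by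
        rw [map_mul, Prod.fst_mul]; ring
      rw [this]
      exact Ideal.add_mem _ (Ideal.mul_mem_right _ _ hc1) (Ideal.mul_mem_left _ _ hd1)
    · have : (s * t).2 - algebraMap 𝒪 B (c * d) =
          (s.2 - algebraMap 𝒪 B c) * t.2 + algebraMap 𝒪 B c * (t.2 - algebraMap 𝒪 B d) := by
        rw [map_mul, Prod.snd_mul]; ring
      rw [this]
      exact Ideal.add_mem _ (Ideal.mul_mem_right _ _ hc2) (Ideal.mul_mem_left _ _ hd2)

/-- The joint point: the subalgebra of `A × B` generated by a pair of points of level `n`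
is again a tight point of level `n`. -/
theorem level_joint [Finite (ResidueField 𝒪)] (h : PFData 𝒪 P base) {n : ℕ}
    {A : Type} [CommRing A] [IsLocalRing A] [Algebra 𝒪 A]
    {B : Type} [CommRing B] [IsLocalRing B] [Algebra 𝒪 B]
    (hA : IsArtinianTestAlgebra 𝒪 A) (hB : IsArtinianTestAlgebra 𝒪 B)
    (hAn : maximalIdeal A ^ n = ⊥) (hBn : maximalIdeal B ^ n = ⊥)
    (x : ι → A) (y : ι → B) (hx : P A x) (hy : P B y) :
    ∃ (C : Type) (_ : CommRing C) (_ : IsLocalRing C) (_ : Algebra 𝒪 C) (z : ι → C)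
      (pA : C →ₐ[𝒪] A) (pB : C →ₐ[𝒪] B),
      IsArtinianTestAlgebra 𝒪 C ∧ maximalIdeal C ^ n = ⊥ ∧ P C z ∧ IsTight 𝒪 z ∧
      (∀ i, pA (z i) = x i) ∧ (∀ i, pB (z i) = y i) := by
  set S : Subalgebra 𝒪 (A × B) := Algebra.adjoin 𝒪 (Set.range fun i => (x i, y i)) with hS
  have hres := level_adjoin_residue h hA hB x y hx hy
  have hiff : ∀ s ∈ S, s.1 ∈ maximalIdeal A ↔ s.2 ∈ maximalIdeal B := by
    intro s hs
    obtain ⟨c, hc1, hc2⟩ := hres s hs
    have e1 : s.1 ∈ maximalIdeal A ↔ algebraMap 𝒪 A c ∈ maximalIdeal A := by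
      constructor
      · intro h1
        have := Ideal.sub_mem _ h1 hc1
        simpa using this
      · intro h1
        have := Ideal.add_mem _ hc1 h1
        simpa using this
    have e2 : s.2 ∈ maximalIdeal B ↔ algebraMap 𝒪 B c ∈ maximalIdeal B := by
      constructor
      · intro h1
        have := Ideal.sub_mem _ h1 hc2
        simpa using this
      · intro h1
        have := Ideal.add_mem _ hc2 h1
        simpa using this
    rw [e1, e2, level_algebraMap_mem_iff hA, level_algebraMap_mem_iff hB]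
  obtain ⟨hloc, htest⟩ := test_prod_subalgebra hA hB S hiff
  let pA : S →ₐ[𝒪] A := (AlgHom.fst 𝒪 A B).comp S.val
  let pB : S →ₐ[𝒪] B := (AlgHom.snd 𝒪 A B).comp S.val
  let z : ι → S := fun i => ⟨(x i, y i), Algebra.subset_adjoin ⟨i, rfl⟩⟩
  have hinj : ∀ q q' : S, pA q = pA q' → pB q = pB q' → q = q' := by
    intro q q' h1 h2
    exact Subtype.ext (Prod.ext h1 h2)
  refine ⟨S, inferInstance, hloc, inferInstance, z, pA, pB, htest, ?_, ?_, ?_,
    fun i => rfl, fun i => rfl⟩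
  · -- the level
    have hlocA : IsLocalHom (pA : S →+* A) := algHom_isLocalHom_of_test hA pA
    have hlocB : IsLocalHom (pB : S →+* B) := algHom_isLocalHom_of_test hB pB
    have hmA : (maximalIdeal S).map (pA : S →+* A) ≤ maximalIdeal A :=
      Ideal.map_le_iff_le_comap.mpr fun a ha => Ideal.mem_comap.mpr (map_nonunit _ a ha)
    have hmB : (maximalIdeal S).map (pB : S →+* B) ≤ maximalIdeal B :=
      Ideal.map_le_iff_le_comap.mpr fun a ha => Ideal.mem_comap.mpr (map_nonunit _ a ha)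
    rw [eq_bot_iff]
    intro c hc
    have h1 : pA c = 0 := by
      have h3 : (pA : S →+* A) c ∈ (maximalIdeal S ^ n).map (pA : S →+* A) :=
        Ideal.mem_map_of_mem _ hc
      rw [Ideal.map_pow] at h3
      have h4 := Ideal.pow_right_mono hmA n h3
      rw [hAn] at h4
      simpa using h4
    have h2 : pB c = 0 := by
      have h3 : (pB : S →+* B) c ∈ (maximalIdeal S ^ n).map (pB : S →+* B) :=
        Ideal.mem_map_of_mem _ hc
      rw [Ideal.map_pow] at h3
      have h4 := Ideal.pow_right_mono hmB n h3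
      rw [hBn] at h4
      simpa using h4
    exact hinj c 0 (by rw [h1, map_zero]) (by rw [h2, map_zero])
  · exact h.joint A B S hA hB htest pA pB hinj z hx hy
  · show Algebra.adjoin 𝒪 (Set.range z) = ⊤
    have hrange : Set.range z =
        ((↑) : S → A × B) ⁻¹' (Set.range fun i => (x i, y i)) := by
      ext ⟨c, hc⟩
      constructor
      · rintro ⟨i, hi⟩
        exact ⟨i, congrArg Subtype.val hi⟩
      · rintro ⟨i, hi⟩
        exact ⟨i, Subtype.ext hi⟩
    rw [hrange]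
    exact Algebra.adjoin_adjoin_coe_preimage

end

/-- The tower of universal objects: `R n` is universal among points over test algebras `B` with
`𝔪_B ^ (n+1) = 0`. -/
structure Tower (𝒪 : Type) [CommRing 𝒪] [IsLocalRing 𝒪] {ι : Type}
    (P : ∀ (A : Type) [CommRing A] [IsLocalRing A] [Algebra 𝒪 A], (ι → A) → Prop) : Type 1 where
  R : ℕ → Type
  [cr : ∀ n, CommRing (R n)]
  [loc : ∀ n, IsLocalRing (R n)]
  [alg : ∀ n, Algebra 𝒪 (R n)]
  x : ∀ n, ι → R n
  test : ∀ n, IsArtinianTestAlgebra 𝒪 (R n)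
  level : ∀ n, maximalIdeal (R n) ^ (n + 1) = ⊥
  pt : ∀ n, P (R n) (x n)
  tight : ∀ n, IsTight 𝒪 (x n)
  univ : ∀ (n : ℕ) (B : Type) [CommRing B] [IsLocalRing B] [Algebra 𝒪 B],
    IsArtinianTestAlgebra 𝒪 B → maximalIdeal B ^ (n + 1) = ⊥ → ∀ y : ι → B, P B y →
      ∃ φ : R n →ₐ[𝒪] B, ∀ i, φ (x n i) = y i
  p : ∀ n, R (n + 1) →ₐ[𝒪] R n
  p_x : ∀ n i, p n (x (n + 1) i) = x n i
  p_surj : ∀ n, Function.Surjective (p n)
  p_ker : ∀ n, RingHom.ker (p n : R (n + 1) →+* R n) = maximalIdeal (R (n + 1)) ^ (n + 1)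

attribute [instance] Tower.cr Tower.loc Tower.alg

variable {𝒪 : Type} [CommRing 𝒪] [IsDomain 𝒪] [IsDiscreteValuationRing 𝒪]
  [Finite (ResidueField 𝒪)]
variable {ι : Type}
  {P : ∀ (A : Type) [CommRing A] [IsLocalRing A] [Algebra 𝒪 A], (ι → A) → Prop} {base : ι → 𝒪}

/-- Universal object of level `n ≥ 1` (a tight point of maximal cardinality). -/
theorem exists_universal_level (h : PFData 𝒪 P base) (n : ℕ) (hn : 1 ≤ n) :
    ∃ (A : Type) (_ : CommRing A) (_ : IsLocalRing A) (_ : Algebra 𝒪 A) (x : ι → A),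
      IsArtinianTestAlgebra 𝒪 A ∧ maximalIdeal A ^ n = ⊥ ∧ P A x ∧ IsTight 𝒪 x ∧
      ∀ (B : Type) [CommRing B] [IsLocalRing B] [Algebra 𝒪 B],
        IsArtinianTestAlgebra 𝒪 B → maximalIdeal B ^ n = ⊥ → ∀ y : ι → B, P B y →
          ∃ φ : A →ₐ[𝒪] B, ∀ i, φ (x i) = y i := by
  obtain ⟨c, hc⟩ := exists_card_bound h n
  let S : Set ℕ := {m | ∃ (A : Type) (_ : CommRing A) (_ : IsLocalRing A) (_ : Algebra 𝒪 A)
      (x : ι → A), IsArtinianTestAlgebra 𝒪 A ∧ maximalIdeal A ^ n = ⊥ ∧ P A x ∧ IsTight 𝒪 x ∧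
        Nat.card A = m}
  have hne : S.Nonempty := by
    obtain ⟨x, h1, h2, h3⟩ := level_exists_point h n hn
    exact ⟨_, ResidueField 𝒪, inferInstance, inferInstance, inferInstance, x, test_residueField,
      h1, h2, h3, rfl⟩
  have hbdd : BddAbove S := by
    refine ⟨c, ?_⟩
    rintro m ⟨A, _, _, _, x, hA, hAn, hx, ht, rfl⟩
    exact hc A hA hAn x hx ht
  obtain ⟨A, iA1, iA2, iA3, x, hA, hAn, hx, ht, hcard⟩ := Nat.sSup_mem hne hbdd
  refine ⟨A, iA1, iA2, iA3, x, hA, hAn, hx, ht, ?_⟩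
  intro B _ _ _ hB hBn y hy
  obtain ⟨C, iC1, iC2, iC3, z, pA, pB, hC, hCn, hz, hzt, hpA, hpB⟩ :=
    level_joint h hA hB hAn hBn x y hx hy
  have hsurj : Function.Surjective pA := surjective_of_tight pA z ht hpA
  have hle : Nat.card C ≤ Nat.card A := by
    rw [hcard]
    exact le_csSup hbdd ⟨C, iC1, iC2, iC3, z, hC, hCn, hz, hzt, rfl⟩
  have hfinC : Finite C := test_finite hC
  have hbij : Function.Bijective pA := hsurj.bijective_of_nat_card_le hle
  let e : C ≃ₐ[𝒪] A := AlgEquiv.ofBijective pA hbij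
  refine ⟨pB.comp (e.symm : A →ₐ[𝒪] C), fun i => ?_⟩
  have h1 : e.symm (x i) = z i := by
    rw [← hpA i]
    exact e.symm_apply_apply (z i)
  show pB (e.symm (x i)) = y i
  rw [h1, hpB]

/-- The maximal ideal of a quotient by a proper ideal of level `m` has level `m`. -/
theorem level_quotient {A : Type} [CommRing A] [IsLocalRing A] (I : Ideal A)
    [IsLocalRing (A ⧸ I)] (m : ℕ) (hI : maximalIdeal A ^ m ≤ I) :
    maximalIdeal (A ⧸ I) ^ m = ⊥ := by
  have hle : maximalIdeal (A ⧸ I) ≤ (maximalIdeal A).map (Ideal.Quotient.mk I) := by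
    intro q hq
    obtain ⟨a, rfl⟩ := Ideal.Quotient.mk_surjective q
    refine Ideal.mem_map_of_mem _ ?_
    rw [IsLocalRing.mem_maximalIdeal, mem_nonunits_iff] at hq ⊢
    exact fun hu => hq (hu.map _)
  rw [eq_bot_iff]
  refine (Ideal.pow_right_mono hle m).trans ?_
  rw [← Ideal.map_pow]
  refine (Ideal.map_mono hI).trans ?_
  rw [Ideal.map_quotient_self]

theorem exists_tower (h : PFData 𝒪 P base) : Nonempty (Tower 𝒪 P) := by
  choose R cr loc alg x hx using fun n : ℕ => exists_universal_level h (n + 1) (Nat.succ_pos n)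
  have htest : ∀ n, IsArtinianTestAlgebra 𝒪 (R n) := fun n => (hx n).1
  have hlevel : ∀ n, maximalIdeal (R n) ^ (n + 1) = ⊥ := fun n => (hx n).2.1
  have hpt : ∀ n, P (R n) (x n) := fun n => (hx n).2.2.1
  have htight : ∀ n, IsTight 𝒪 (x n) := fun n => (hx n).2.2.2.1
  have huniv : ∀ (n : ℕ) (B : Type) [CommRing B] [IsLocalRing B] [Algebra 𝒪 B],
      IsArtinianTestAlgebra 𝒪 B → maximalIdeal B ^ (n + 1) = ⊥ → ∀ y : ι → B, P B y →
        ∃ φ : R n →ₐ[𝒪] B, ∀ i, φ (x n i) = y i := fun n => (hx n).2.2.2.2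
  have hlevel' : ∀ n, maximalIdeal (R n) ^ (n + 1 + 1) = ⊥ := fun n => by
    rw [pow_succ, hlevel n, Ideal.bot_mul]
  choose p hp using fun n => huniv (n + 1) (R n) (htest n) (hlevel' n) (x n) (hpt n)
  have hsurj : ∀ n, Function.Surjective (p n) := fun n =>
    surjective_of_tight (p n) (x (n + 1)) (htight n) (hp n)
  refine ⟨{ R := R, x := x, test := htest, level := hlevel, pt := hpt, tight := htight,
            univ := huniv, p := p, p_x := hp, p_surj := hsurj, p_ker := ?_ }⟩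
  intro n
  apply le_antisymm
  · -- the kernel is contained in `𝔪 ^ (n+1)`
    set I : Ideal (R (n + 1)) := maximalIdeal (R (n + 1)) ^ (n + 1) with hI
    have hIne : I ≠ ⊤ := by
      intro htop
      have h1 : I ≤ maximalIdeal (R (n + 1)) := Ideal.pow_le_self (Nat.succ_ne_zero n)
      rw [htop] at h1
      exact (IsLocalRing.maximalIdeal.isMaximal (R (n + 1))).ne_top (top_le_iff.mp h1)
    obtain ⟨hlocQ, htestQ⟩ := test_quotient (htest (n + 1)) I hIne
    have hlevelQ : maximalIdeal (R (n + 1) ⧸ I) ^ (n + 1) = ⊥ :=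
      level_quotient I (n + 1) le_rfl
    have hy : P (R (n + 1) ⧸ I) (fun i => Ideal.Quotient.mkₐ 𝒪 I (x (n + 1) i)) :=
      h.map (R (n + 1)) (R (n + 1) ⧸ I) (htest (n + 1)) htestQ (Ideal.Quotient.mkₐ 𝒪 I)
        (x (n + 1)) (hpt (n + 1))
    obtain ⟨ψ, hψ⟩ := huniv n (R (n + 1) ⧸ I) htestQ hlevelQ _ hy
    have hcomp : ψ.comp (p n) = Ideal.Quotient.mkₐ 𝒪 I :=
      algHom_ext_of_tight (htight (n + 1)) (fun i => by
        rw [AlgHom.comp_apply, hp n i, hψ i])
    intro a ha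
    rw [RingHom.mem_ker] at ha
    have h1 : Ideal.Quotient.mkₐ 𝒪 I a = 0 := by
      rw [← hcomp, AlgHom.comp_apply]
      have : p n a = 0 := ha
      rw [this, map_zero]
    exact Ideal.Quotient.eq_zero_iff_mem.mp h1
  · -- `𝔪 ^ (n+1)` is killed
    have hloc : IsLocalHom (p n : R (n + 1) →+* R n) := algHom_isLocalHom_of_test (htest n) (p n)
    have hm : (maximalIdeal (R (n + 1))).map (p n : R (n + 1) →+* R n) ≤ maximalIdeal (R n) :=
      Ideal.map_le_iff_le_comap.mpr fun a ha => Ideal.mem_comap.mpr (map_nonunit _ a ha)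
    intro a ha
    rw [RingHom.mem_ker]
    have h3 : (p n : R (n + 1) →+* R n) a ∈
        (maximalIdeal (R (n + 1)) ^ (n + 1)).map (p n : R (n + 1) →+* R n) :=
      Ideal.mem_map_of_mem _ ha
    rw [Ideal.map_pow] at h3
    have h4 := Ideal.pow_right_mono hm (n + 1) h3
    rw [hlevel n] at h4
    simpa using h4

end Fermat.Agent.DR
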