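/-
helper6: the power series ring `𝒪⟦Y_s : s ∈ σ⟧` over a complete local ring, `σ` finite:
completeness for its maximal ideal, finiteness of the quotients, evaluation homomorphisms into
Artinian local algebras (used for the universal deformation ring, S53).
-/
import Mathlib

set_option autoImplicit false
set_option linter.unusedSectionVars false

noncomputable section

namespace Fermat.Agent.Lib.H6D

open IsLocalRing MvPowerSeries

section General

variable {σ : Type} [Finite σ] {R : Type} [CommRing R]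

/-- A power series whose truncation in total degree `< N` vanishes lies in the `N`-th power of
the ideal of the variables (as a module over the polynomial ring). -/
theorem mem_pow_idealOfVars_smul_top_of_truncTotal_eq_zero (N : ℕ) (g : MvPowerSeries σ R)
    (hg : truncTotal N g = 0) :
    g ∈ (MvPolynomial.idealOfVars σ R ^ N • ⊤ :
      Submodule (MvPolynomial σ R) (MvPowerSeries σ R)) := by
  have h1 : toAdicCompletion σ R g ∈ (MvPolynomial.idealOfVars σ R ^ N • ⊤ :
      Submodule (MvPolynomial σ R)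
        (AdicCompletion (MvPolynomial.idealOfVars σ R) (MvPolynomial σ R))) := by
    rw [AdicCompletion.pow_smul_top_eq_ker_eval (MvPolynomial.idealOfVars_fg σ R),
      LinearMap.mem_ker, AdicCompletion.eval_apply, toAdicCompletion_apply_eq_mk_truncTotal, hg,
      map_zero]
  have h2 := Submodule.mem_map_of_mem (f := (toAdicCompletionAlgEquiv σ R).symm.toLinearMap) h1
  rw [Submodule.map_smul''] at h2
  have h3 : (toAdicCompletionAlgEquiv σ R).symm.toLinearMap (toAdicCompletion σ R g) = g := by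
    rw [← toAdicCompletionAlgEquiv_apply]
    exact (toAdicCompletionAlgEquiv σ R).symm_apply_apply g
  rw [h3] at h2
  exact Submodule.smul_mono le_rfl le_top h2

theorem truncTotal_sub_coe_truncTotal (N : ℕ) (f : MvPowerSeries σ R) :
    truncTotal N (f - ((truncTotal N f : MvPolynomial σ R) : MvPowerSeries σ R)) = 0 := by
  ext x
  by_cases hx : Finsupp.degree x < N
  · rw [coeff_truncTotal _ hx, map_sub, MvPolynomial.coeff_coe, coeff_truncTotal _ hx, sub_self,
      MvPolynomial.coeff_zero]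
  · rw [coeff_truncTotal_eq_zero _ (not_lt.mp hx), MvPolynomial.coeff_zero]

/-- Every power series is a polynomial modulo the `N`-th power of the ideal of the variables. -/
theorem sub_coe_truncTotal_mem (N : ℕ) (f : MvPowerSeries σ R) :
    f - ((truncTotal N f : MvPolynomial σ R) : MvPowerSeries σ R) ∈
      (MvPolynomial.idealOfVars σ R ^ N • ⊤ :
        Submodule (MvPolynomial σ R) (MvPowerSeries σ R)) :=
  mem_pow_idealOfVars_smul_top_of_truncTotal_eq_zero N _ (truncTotal_sub_coe_truncTotal N f)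

/-- A ring homomorphism sending the variables into an ideal `𝔞` sends the `N`-th power of the
ideal of the variables into `𝔞 ^ N`. -/
theorem map_mem_pow_of_mem_pow_idealOfVars_smul_top {A : Type} [CommRing A]
    (π : MvPowerSeries σ R →+* A) (𝔞 : Ideal A) (hπ : ∀ s, π (X s) ∈ 𝔞) (N : ℕ)
    (x : MvPowerSeries σ R)
    (hx : x ∈ (MvPolynomial.idealOfVars σ R ^ N • ⊤ :
      Submodule (MvPolynomial σ R) (MvPowerSeries σ R))) : π x ∈ 𝔞 ^ N := by
  have hmap : ∀ p ∈ MvPolynomial.idealOfVars σ R ^ N,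
      π ((p : MvPolynomial σ R) : MvPowerSeries σ R) ∈ 𝔞 ^ N := by
    intro p hp
    have h1 : (MvPolynomial.idealOfVars σ R).map
        (π.comp (MvPolynomial.coeToMvPowerSeries.ringHom (σ := σ) (R := R))) ≤ 𝔞 := by
      rw [MvPolynomial.idealOfVars, Ideal.map_span, Ideal.span_le]
      rintro _ ⟨_, ⟨s, rfl⟩, rfl⟩
      simpa using hπ s
    have h2 := Ideal.mem_map_of_mem
      (π.comp (MvPolynomial.coeToMvPowerSeries.ringHom (σ := σ) (R := R))) hp
    rw [Ideal.map_pow] at h2
    exact Ideal.pow_right_mono h1 N h2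
  refine Submodule.smul_induction_on hx ?_ ?_
  · intro p hp h _
    have : p • h = ((p : MvPolynomial σ R) : MvPowerSeries σ R) * h := by
      rw [Algebra.smul_def]; rfl
    rw [this, map_mul]
    exact Ideal.mul_mem_right _ _ (hmap p hp)
  · intro a b ha hb
    rw [map_add]
    exact Ideal.add_mem _ ha hb

end General

section Local

variable (𝒪 : Type) [CommRing 𝒪] [IsLocalRing 𝒪] (σ : Type) [Finite σ]

theorem mvPowerSeries_algebraMap_eq_C (c : 𝒪) :
    algebraMap 𝒪 (MvPowerSeries σ 𝒪) c = C c := rfl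

theorem mvPowerSeries_mem_maximalIdeal_iff (f : MvPowerSeries σ 𝒪) :
    f ∈ maximalIdeal (MvPowerSeries σ 𝒪) ↔ constantCoeff f ∈ maximalIdeal 𝒪 := by
  rw [mem_maximalIdeal, mem_maximalIdeal, mem_nonunits_iff, mem_nonunits_iff,
    isUnit_iff_constantCoeff]

theorem mvPowerSeries_isLocalHom_algebraMap :
    IsLocalHom (algebraMap 𝒪 (MvPowerSeries σ 𝒪)) := by
  refine ⟨fun c hc => ?_⟩
  rw [isUnit_iff_constantCoeff, mvPowerSeries_algebraMap_eq_C, constantCoeff_C] at hc
  exact hc

theorem mvPowerSeries_residue_surjective :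
    Function.Surjective (residue (MvPowerSeries σ 𝒪) ∘ algebraMap 𝒪 (MvPowerSeries σ 𝒪)) := by
  intro y
  obtain ⟨f, rfl⟩ := residue_surjective y
  refine ⟨constantCoeff f, ?_⟩
  rw [Function.comp_apply]
  refine Ideal.Quotient.eq.mpr ?_
  rw [mvPowerSeries_mem_maximalIdeal_iff, mvPowerSeries_algebraMap_eq_C, map_sub, constantCoeff_C,
    sub_self]
  exact zero_mem _

theorem mvPowerSeries_X_mem (s : σ) :
    (X s : MvPowerSeries σ 𝒪) ∈ maximalIdeal (MvPowerSeries σ 𝒪) := by
  rw [mvPowerSeries_mem_maximalIdeal_iff, constantCoeff_X]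
  exact zero_mem _

theorem mvPowerSeries_C_mem (c : 𝒪) (hc : c ∈ maximalIdeal 𝒪) :
    (C c : MvPowerSeries σ 𝒪) ∈ maximalIdeal (MvPowerSeries σ 𝒪) := by
  rw [mvPowerSeries_mem_maximalIdeal_iff]
  simpa using hc

theorem mvPowerSeries_finite_quotient [IsNoetherianRing 𝒪] [Finite (ResidueField 𝒪)] (n : ℕ) :
    Finite (MvPowerSeries σ 𝒪 ⧸ maximalIdeal (MvPowerSeries σ 𝒪) ^ n) := by
  have hloc := mvPowerSeries_isLocalHom_algebraMap 𝒪 σ
  have hsurj : Function.Surjective
      (ResidueField.map (algebraMap 𝒪 (MvPowerSeries σ 𝒪))) := by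
    intro y
    obtain ⟨c, hc⟩ := mvPowerSeries_residue_surjective 𝒪 σ y
    exact ⟨residue 𝒪 c, by rw [ResidueField.map_residue]; exact hc⟩
  have hfin : Finite (MvPowerSeries σ 𝒪 ⧸ maximalIdeal (MvPowerSeries σ 𝒪)) :=
    Finite.of_surjective _ hsurj
  exact Ideal.finite_quotient_pow (IsNoetherian.noetherian _) n

end Local

section Eval

variable (𝒪 : Type) [CommRing 𝒪] [IsLocalRing 𝒪] (σ : Type) [Finite σ]

theorem exists_pow_maximalIdeal_eq_bot (A : Type) [CommRing A] [IsLocalRing A]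
    [IsArtinianRing A] : ∃ N, maximalIdeal A ^ N = ⊥ := by
  have h := IsArtinianRing.isNilpotent_jacobson_bot (R := A)
  rw [jacobson_eq_maximalIdeal ⊥ bot_ne_top] at h
  exact h

/-- Evaluation homomorphisms: the variables can be sent to arbitrary elements of the maximal
ideal of an Artinian local `𝒪`-algebra. -/
theorem mvPowerSeries_exists_algHom (A : Type) [CommRing A] [IsLocalRing A] [Algebra 𝒪 A]
    [IsArtinianRing A] (m : σ → A) (hm : ∀ s, m s ∈ maximalIdeal A) :
    ∃ π : MvPowerSeries σ 𝒪 →ₐ[𝒪] A, ∀ s, π (X s) = m s := by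
  obtain ⟨N, hN⟩ := exists_pow_maximalIdeal_eq_bot A
  let ev : MvPolynomial σ 𝒪 →ₐ[𝒪] A := MvPolynomial.aeval m
  have hker : ∀ p ∈ MvPolynomial.idealOfVars σ 𝒪 ^ N, ev.toRingHom p = 0 := by
    intro p hp
    have h1 : (MvPolynomial.idealOfVars σ 𝒪).map ev.toRingHom ≤ maximalIdeal A := by
      rw [MvPolynomial.idealOfVars, Ideal.map_span, Ideal.span_le]
      rintro _ ⟨_, ⟨s, rfl⟩, rfl⟩
      simpa [ev] using hm s
    have h2 := Ideal.mem_map_of_mem ev.toRingHom hp
    rw [Ideal.map_pow] at h2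
    have h3 := Ideal.pow_right_mono h1 N h2
    rw [hN] at h3
    exact h3
  let q : MvPolynomial σ 𝒪 ⧸ MvPolynomial.idealOfVars σ 𝒪 ^ N →+* A :=
    Ideal.Quotient.lift _ ev.toRingHom hker
  let πr : MvPowerSeries σ 𝒪 →+* A := q.comp (truncTotalAlgHom σ 𝒪 N).toRingHom
  have hcoe : ∀ p : MvPolynomial σ 𝒪, πr (p : MvPowerSeries σ 𝒪) = ev p := by
    intro p
    show q (truncTotalAlgHom σ 𝒪 N (p : MvPowerSeries σ 𝒪)) = ev p
    have : truncTotalAlgHom σ 𝒪 N (p : MvPowerSeries σ 𝒪) =
        Ideal.Quotient.mk (MvPolynomial.idealOfVars σ 𝒪 ^ N) p :=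
      (truncTotalAlgHom σ 𝒪 N).commutes p
    rw [this]
    rfl
  refine ⟨{ toRingHom := πr, commutes' := fun c => ?_ }, fun s => ?_⟩
  · have : (algebraMap 𝒪 (MvPowerSeries σ 𝒪) c) =
        ((MvPolynomial.C c : MvPolynomial σ 𝒪) : MvPowerSeries σ 𝒪) := by
      rw [MvPolynomial.coe_C]; rfl
    show πr _ = _
    rw [this, hcoe]
    simp [ev]
  · show πr (X s) = m s
    rw [← MvPolynomial.coe_X, hcoe]
    simp [ev]

/-- An `𝒪`-algebra homomorphism to an Artinian local ring sending the variables into the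
maximal ideal is determined by the images of the variables. -/
theorem mvPowerSeries_algHom_ext (A : Type) [CommRing A] [IsLocalRing A] [Algebra 𝒪 A]
    [IsArtinianRing A] (π π' : MvPowerSeries σ 𝒪 →ₐ[𝒪] A)
    (hπ : ∀ s, π (X s) ∈ maximalIdeal A)
    (h : ∀ s, π (X s) = π' (X s)) : π = π' := by
  obtain ⟨N, hN⟩ := exists_pow_maximalIdeal_eq_bot A
  have hpoly : π.comp (MvPolynomial.coeToMvPowerSeries.algHom 𝒪) =
      π'.comp (MvPolynomial.coeToMvPowerSeries.algHom 𝒪) :=
    MvPolynomial.algHom_ext fun s => by simpa using h s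
  have hkill : ∀ ψ : MvPowerSeries σ 𝒪 →ₐ[𝒪] A, (∀ s, ψ (X s) ∈ maximalIdeal A) →
      ∀ f, ψ f = ψ ((truncTotal N f : MvPolynomial σ 𝒪) : MvPowerSeries σ 𝒪) := by
    intro ψ hψ f
    have h1 := map_mem_pow_of_mem_pow_idealOfVars_smul_top ψ.toRingHom (maximalIdeal A) hψ N _
      (sub_coe_truncTotal_mem N f)
    rw [hN, Ideal.mem_bot] at h1
    have h2 : ψ f - ψ ((truncTotal N f : MvPolynomial σ 𝒪) : MvPowerSeries σ 𝒪) = 0 := by
      rw [← map_sub]; exact h1
    exact sub_eq_zero.mp h2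
  refine AlgHom.ext fun f => ?_
  rw [hkill π hπ f, hkill π' (fun s => h s ▸ hπ s) f]
  exact DFunLike.congr_fun hpoly (truncTotal N f)

/-- An `𝒪`-algebra homomorphism to a local `𝒪`-algebra (with local structure map) sending the
variables into the maximal ideal is a local homomorphism. -/
theorem mvPowerSeries_algHom_mem_maximalIdeal (A : Type) [CommRing A] [IsLocalRing A]
    [Algebra 𝒪 A] [IsLocalHom (algebraMap 𝒪 A)] (π : MvPowerSeries σ 𝒪 →ₐ[𝒪] A)
    (hπ : ∀ s, π (X s) ∈ maximalIdeal A) (x : MvPowerSeries σ 𝒪)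
    (hx : x ∈ maximalIdeal (MvPowerSeries σ 𝒪)) : π x ∈ maximalIdeal A := by
  have htr : truncTotal 1 (x - C (constantCoeff x)) = 0 := by
    ext α
    by_cases hα : Finsupp.degree α < 1
    · have hα0 : α = 0 := by
        have : Finsupp.degree α = 0 := by omega
        exact (Finsupp.degree_eq_zero_iff α).mp this
      subst hα0
      rw [coeff_truncTotal _ hα, MvPolynomial.coeff_zero, map_sub, coeff_zero_eq_constantCoeff_apply,
        coeff_zero_eq_constantCoeff_apply, constantCoeff_C, sub_self]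
    · rw [coeff_truncTotal_eq_zero _ (not_lt.mp hα), MvPolynomial.coeff_zero]
  have h1 := map_mem_pow_of_mem_pow_idealOfVars_smul_top π.toRingHom (maximalIdeal A) hπ 1 _
    (mem_pow_idealOfVars_smul_top_of_truncTotal_eq_zero 1 _ htr)
  rw [pow_one] at h1
  have h2 : π (C (constantCoeff x)) ∈ maximalIdeal A := by
    rw [← mvPowerSeries_algebraMap_eq_C, AlgHom.commutes]
    exact map_nonunit (algebraMap 𝒪 A) _ ((mvPowerSeries_mem_maximalIdeal_iff 𝒪 σ x).mp hx)
  have h3 : π x = π (x - C (constantCoeff x)) + π (C (constantCoeff x)) := by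
    rw [← map_add, sub_add_cancel]
  rw [h3]
  exact Ideal.add_mem _ h1 h2

end Eval

section Complete

variable (𝒪 : Type) [CommRing 𝒪] [IsLocalRing 𝒪] (σ : Type) [Finite σ]

/-- Coefficients of elements of the `n`-th power of the maximal ideal. -/
theorem mvPowerSeries_coeff_mem_of_mem_pow (n : ℕ) (f : MvPowerSeries σ 𝒪)
    (hf : f ∈ maximalIdeal (MvPowerSeries σ 𝒪) ^ n) (α : σ →₀ ℕ) :
    coeff α f ∈ maximalIdeal 𝒪 ^ (n - Finsupp.degree α) := by
  classical
  induction n generalizing f α with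
  | zero => simp
  | succ n ih =>
    rw [pow_succ'] at hf
    refine Submodule.mul_induction_on hf ?_ ?_
    · intro x hx y hy
      rw [coeff_mul]
      refine Ideal.sum_mem _ fun p hp => ?_
      rw [Finset.HasAntidiagonal.mem_antidiagonal] at hp
      have hdeg : Finsupp.degree p.1 + Finsupp.degree p.2 = Finsupp.degree α := by
        rw [← map_add, hp]
      by_cases h0 : p.1 = 0
      · have hp2 : p.2 = α := by rw [h0, zero_add] at hp; exact hp
        rw [h0, hp2, coeff_zero_eq_constantCoeff_apply]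
        have h1 : constantCoeff x ∈ maximalIdeal 𝒪 :=
          (mvPowerSeries_mem_maximalIdeal_iff 𝒪 σ x).mp hx
        have h2 := ih y hy α
        have h3 : constantCoeff x * coeff α y ∈
            maximalIdeal 𝒪 ^ (1 + (n - Finsupp.degree α)) := by
          rw [pow_add, pow_one]; exact Ideal.mul_mem_mul h1 h2
        exact Ideal.pow_le_pow_right (by omega) h3
      · have hd1 : Finsupp.degree p.1 ≠ 0 := fun h => h0 ((Finsupp.degree_eq_zero_iff _).mp h)
        have h2 := ih y hy p.2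
        exact Ideal.mul_mem_left _ _ (Ideal.pow_le_pow_right (by omega) h2)
    · intro x y hx hy
      rw [map_add]; exact Ideal.add_mem _ hx hy

/-- A power series whose low degree coefficients lie in the appropriate powers of the maximal
ideal of `𝒪` lies in the `n`-th power of the maximal ideal. -/
theorem mvPowerSeries_mem_pow_of_coeff_mem (n : ℕ) (f : MvPowerSeries σ 𝒪)
    (hf : ∀ α : σ →₀ ℕ, Finsupp.degree α < n →
      coeff α f ∈ maximalIdeal 𝒪 ^ (n - Finsupp.degree α)) :
    f ∈ maximalIdeal (MvPowerSeries σ 𝒪) ^ n := by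
  classical
  have h1 : f - ((truncTotal n f : MvPolynomial σ 𝒪) : MvPowerSeries σ 𝒪) ∈
      maximalIdeal (MvPowerSeries σ 𝒪) ^ n :=
    map_mem_pow_of_mem_pow_idealOfVars_smul_top (RingHom.id _) (maximalIdeal _)
      (mvPowerSeries_X_mem 𝒪 σ) n _ (sub_coe_truncTotal_mem n f)
  have h2 : ((truncTotal n f : MvPolynomial σ 𝒪) : MvPowerSeries σ 𝒪) ∈
      maximalIdeal (MvPowerSeries σ 𝒪) ^ n := by
    rw [MvPolynomial.as_sum (truncTotal n f)]
    have hcoe : ∀ p : MvPolynomial σ 𝒪, (p : MvPowerSeries σ 𝒪) =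
        MvPolynomial.coeToMvPowerSeries.ringHom p := fun _ => rfl
    rw [hcoe, map_sum]
    refine Ideal.sum_mem _ fun v hv => ?_
    have hvdeg : Finsupp.degree v < n := by
      by_contra hcon
      exact (MvPolynomial.mem_support_iff.mp hv) (coeff_truncTotal_eq_zero f (not_lt.mp hcon))
    rw [coeff_truncTotal _ hvdeg, MvPolynomial.monomial_eq, map_mul, ← hcoe, MvPolynomial.coe_C]
    have hC : (C (coeff v f) : MvPowerSeries σ 𝒪) ∈
        maximalIdeal (MvPowerSeries σ 𝒪) ^ (n - Finsupp.degree v) := by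
      have hmap : (maximalIdeal 𝒪).map (C : 𝒪 →+* MvPowerSeries σ 𝒪) ≤
          maximalIdeal (MvPowerSeries σ 𝒪) := by
        rw [Ideal.map_le_iff_le_comap]
        intro c hc
        exact mvPowerSeries_C_mem 𝒪 σ c hc
      have h := Ideal.mem_map_of_mem (C : 𝒪 →+* MvPowerSeries σ 𝒪) (hf v hvdeg)
      rw [Ideal.map_pow] at h
      exact Ideal.pow_right_mono hmap _ h
    have hX : MvPolynomial.coeToMvPowerSeries.ringHom
        (v.prod fun s e => (MvPolynomial.X s : MvPolynomial σ 𝒪) ^ e) ∈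
        maximalIdeal (MvPowerSeries σ 𝒪) ^ (Finsupp.degree v) := by
      rw [Finsupp.prod, map_prod]
      have hd : Finsupp.degree v = ∑ s ∈ v.support, v s := rfl
      rw [hd, ← Finset.prod_pow_eq_pow_sum]
      refine Ideal.prod_mem_prod fun s _ => ?_
      rw [map_pow, ← hcoe, MvPolynomial.coe_X]
      exact Ideal.pow_mem_pow (mvPowerSeries_X_mem 𝒪 σ s) _
    have h := Ideal.mul_mem_mul hC hX
    rwa [← pow_add, Nat.sub_add_cancel hvdeg.le] at h
  have h3 : f = (f - ((truncTotal n f : MvPolynomial σ 𝒪) : MvPowerSeries σ 𝒪)) +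
      ((truncTotal n f : MvPolynomial σ 𝒪) : MvPowerSeries σ 𝒪) := by ring
  rw [h3]
  exact Ideal.add_mem _ h1 h2

/-- The power series with prescribed coefficients. -/
def mvPowerSeriesOfCoeff (L : (σ →₀ ℕ) → 𝒪) : MvPowerSeries σ 𝒪 := L

theorem coeff_mvPowerSeriesOfCoeff (L : (σ →₀ ℕ) → 𝒪) (α : σ →₀ ℕ) :
    coeff α (mvPowerSeriesOfCoeff 𝒪 σ L) = L α := rfl

/-- The power series ring in finitely many variables over a complete Noetherian local ring is
complete for its maximal ideal. -/
theorem mvPowerSeries_isAdicComplete [IsNoetherianRing 𝒪] [IsAdicComplete (maximalIdeal 𝒪) 𝒪] :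
    IsAdicComplete (maximalIdeal (MvPowerSeries σ 𝒪)) (MvPowerSeries σ 𝒪) := by
  have hH : IsHausdorff (maximalIdeal (MvPowerSeries σ 𝒪)) (MvPowerSeries σ 𝒪) := inferInstance
  have hP : IsPrecomplete (maximalIdeal (MvPowerSeries σ 𝒪)) (MvPowerSeries σ 𝒪) := by
    refine ⟨fun f hf => ?_⟩
    have hf' : ∀ m n, m ≤ n → f m - f n ∈ maximalIdeal (MvPowerSeries σ 𝒪) ^ m := by
      intro m n hmn
      have h := hf hmn
      rwa [SModEq.sub_mem, smul_eq_mul, Ideal.mul_top] at h
    have hc : ∀ α : σ →₀ ℕ, ∃ L : 𝒪, ∀ n,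
        coeff α (f (n + Finsupp.degree α)) - L ∈ maximalIdeal 𝒪 ^ n := by
      intro α
      obtain ⟨L, hL⟩ := IsPrecomplete.prec' (I := maximalIdeal 𝒪) (M := 𝒪)
        (fun n => coeff α (f (n + Finsupp.degree α))) (by
          intro m n hmn
          rw [SModEq.sub_mem, smul_eq_mul, Ideal.mul_top, ← map_sub]
          have h := mvPowerSeries_coeff_mem_of_mem_pow 𝒪 σ _ _
            (hf' (m + Finsupp.degree α) (n + Finsupp.degree α) (by omega)) α
          rwa [Nat.add_sub_cancel] at h)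
      refine ⟨L, fun n => ?_⟩
      have h := hL n
      rwa [SModEq.sub_mem, smul_eq_mul, Ideal.mul_top] at h
    choose L hL using hc
    refine ⟨mvPowerSeriesOfCoeff 𝒪 σ L, fun n => ?_⟩
    rw [SModEq.sub_mem, smul_eq_mul, Ideal.mul_top]
    refine mvPowerSeries_mem_pow_of_coeff_mem 𝒪 σ n _ fun α hα => ?_
    rw [map_sub, coeff_mvPowerSeriesOfCoeff]
    have h := hL α (n - Finsupp.degree α)
    rw [Nat.sub_add_cancel hα.le] at h
    exact h
  exact { toIsHausdorff := hH, toIsPrecomplete := hP }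

end Complete

end Fermat.Agent.Lib.H6D
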