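/-
S53 project, module PF-4: the inverse limit of a tower of test algebras as a quotient of a power
series ring (pure commutative algebra, independent of the rest).
-/
import Fermat.Agent.Lib.DR_Defs
import Fermat.Agent.Lib.H6_MvPS

set_option autoImplicit false

noncomputable section

namespace Fermat.Agent.DR

open IsLocalRing GaloisRep

section Chain

variable {S : Type} [CommRing S] (𝔛 : Ideal S) [IsPrecomplete 𝔛 S]

/-- A sequence whose successive differences lie in `𝔛 ^ n` has a limit. -/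
private theorem lim_exists_limit (f : ℕ → S) (hf : ∀ n, f (n + 1) - f n ∈ 𝔛 ^ n) :
    ∃ l, ∀ n, l - f n ∈ 𝔛 ^ n := by
  have hcauchy : ∀ m n, m ≤ n → f n - f m ∈ 𝔛 ^ m := by
    intro m n hmn
    induction n, hmn using Nat.le_induction with
    | base => simp
    | succ n hmn ih =>
      have : f (n + 1) - f m = (f (n + 1) - f n) + (f n - f m) := by ring
      rw [this]
      exact Ideal.add_mem _ (Ideal.pow_le_pow_right hmn (hf n)) ih
  obtain ⟨L, hL⟩ := IsPrecomplete.prec' (I := 𝔛) (M := S) f (by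
    intro m n hmn
    rw [SModEq.sub_mem, smul_eq_mul, Ideal.mul_top, ← neg_sub]
    exact (Ideal.neg_mem_iff _).mpr (hcauchy m n hmn))
  refine ⟨L, fun n => ?_⟩
  have h := hL n
  rw [SModEq.sub_mem, smul_eq_mul, Ideal.mul_top] at h
  rw [← neg_sub]
  exact (Ideal.neg_mem_iff _).mpr h

variable (K : ℕ → Ideal S) (hK1 : ∀ n, 𝔛 ^ (n + 1) ≤ K n) (hK2 : ∀ n, K (n + 1) ≤ K n)
  (hK3 : ∀ n, K n ≤ K (n + 1) ⊔ 𝔛 ^ (n + 1))

include hK2 in
private theorem lim_anti {m n : ℕ} (h : m ≤ n) : K n ≤ K m := by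
  induction n, h using Nat.le_induction with
  | base => exact le_rfl
  | succ n _ ih => exact (hK2 n).trans ih

include hK1 hK2 hK3

/-- Chevalley for a chain: `K n ≤ (⨅ m, K m) ⊔ 𝔛 ^ (n + 1)`. -/
private theorem lim_chev (n : ℕ) (x : S) (hx : x ∈ K n) :
    ∃ z ∈ ⨅ m, K m, x - z ∈ 𝔛 ^ (n + 1) := by
  classical
  have hstep : ∀ j (y : S), y ∈ K (n + j) → ∃ y' ∈ K (n + j + 1), y - y' ∈ 𝔛 ^ (n + j + 1) := by
    intro j y hy
    obtain ⟨k, hk, w, hw, hkw⟩ := Submodule.mem_sup.mp (hK3 (n + j) hy)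
    refine ⟨k, hk, ?_⟩
    have : y - k = w := by rw [← hkw]; ring
    rw [this]
    exact hw
  let seq : (j : ℕ) → {y : S // y ∈ K (n + j)} := fun j =>
    Nat.rec (motive := fun j => {y : S // y ∈ K (n + j)}) ⟨x, hx⟩
      (fun j p => ⟨Classical.choose (hstep j p.1 p.2),
        (Classical.choose_spec (hstep j p.1 p.2)).1⟩) j
  have hseq : ∀ j, (seq j).1 - (seq (j + 1)).1 ∈ 𝔛 ^ (n + j + 1) := fun j =>
    (Classical.choose_spec (hstep j (seq j).1 (seq j).2)).2
  have hseq0 : (seq 0).1 = x := rfl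
  have htel : ∀ j, x - (seq j).1 ∈ 𝔛 ^ (n + 1) := by
    intro j
    induction j with
    | zero => simp [hseq0]
    | succ j ih =>
      have : x - (seq (j + 1)).1 = (x - (seq j).1) + ((seq j).1 - (seq (j + 1)).1) := by ring
      rw [this]
      exact Ideal.add_mem _ ih (Ideal.pow_le_pow_right (by omega) (hseq j))
  obtain ⟨l, hl⟩ := lim_exists_limit 𝔛 (fun j => (seq j).1) (fun j => by
    rw [← neg_sub]
    exact (Ideal.neg_mem_iff _).mpr (Ideal.pow_le_pow_right (by omega) (hseq j)))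
  refine ⟨l, ?_, ?_⟩
  · rw [Ideal.mem_iInf]
    intro m
    have h1 : l - (seq (m + 1)).1 ∈ K m := hK1 m (hl (m + 1))
    have h2 : (seq (m + 1)).1 ∈ K m := lim_anti K hK2 (by omega) (seq (m + 1)).2
    have : l = (l - (seq (m + 1)).1) + (seq (m + 1)).1 := by ring
    rw [this]
    exact Ideal.add_mem _ h1 h2
  · have : x - l = (x - (seq (n + 1)).1) - (l - (seq (n + 1)).1) := by ring
    rw [this]
    exact Ideal.sub_mem _ (htel (n + 1)) (hl (n + 1))

/-- Mittag-Leffler for a chain: compatible residue classes come from a single element. -/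
private theorem lim_ml (y : ℕ → S) (hy : ∀ n, y (n + 1) - y n ∈ K n) :
    ∃ l, ∀ n, l - y n ∈ K n := by
  classical
  have hdec : ∀ n, ∃ z ∈ ⨅ m, K m, (y (n + 1) - y n) - z ∈ 𝔛 ^ (n + 1) := fun n =>
    lim_chev 𝔛 K hK1 hK2 hK3 n _ (hy n)
  choose z hzJ hz using hdec
  let w : ℕ → S := fun n => y n - ∑ i ∈ Finset.range n, z i
  have hw' : ∀ n, w (n + 1) - w n ∈ 𝔛 ^ (n + 1) := by
    intro n
    have : w (n + 1) - w n = (y (n + 1) - y n) - z n := by
      simp only [w, Finset.sum_range_succ]; ring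
    rw [this]
    exact hz n
  obtain ⟨l, hl⟩ := lim_exists_limit 𝔛 w
    (fun n => Ideal.pow_le_pow_right (Nat.le_succ n) (hw' n))
  refine ⟨l, fun n => ?_⟩
  have h1 : l - w n ∈ 𝔛 ^ (n + 1) := by
    have : l - w n = (l - w (n + 1)) + (w (n + 1) - w n) := by ring
    rw [this]
    exact Ideal.add_mem _ (hl (n + 1)) (hw' n)
  have h2 : ∑ i ∈ Finset.range n, z i ∈ K n :=
    Ideal.sum_mem _ fun i _ => (Ideal.mem_iInf.mp (hzJ i)) n
  have : l - y n = (l - w n) - ∑ i ∈ Finset.range n, z i := by simp only [w]; ring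
  rw [this]
  exact Ideal.sub_mem _ (hK1 n h1) h2

end Chain

set_option linter.unusedVariables false in
/-- Inverse limit lemma. `R n` test algebras of level `n+1`, surjective transition maps with
kernel `𝔪 ^ (n+1)`, compatible finite families `t n` generating the maximal ideals.  Then the
limit exists as a complete Noetherian local `𝒪`-algebra `L` (a quotient of `MvPowerSeries σ 𝒪`). -/
theorem exists_limit {𝒪 : Type} [CommRing 𝒪] [IsLocalRing 𝒪] [IsNoetherianRing 𝒪]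
    (R : ℕ → Type) [∀ n, CommRing (R n)] [∀ n, IsLocalRing (R n)] [∀ n, Algebra 𝒪 (R n)]
    (htest : ∀ n, IsArtinianTestAlgebra 𝒪 (R n))
    (hlevel : ∀ n, maximalIdeal (R n) ^ (n + 1) = ⊥)
    (p : ∀ n, R (n + 1) →ₐ[𝒪] R n) (hp : ∀ n, Function.Surjective (p n))
    (hker : ∀ n, RingHom.ker (p n : R (n + 1) →+* R n) = maximalIdeal (R (n + 1)) ^ (n + 1))
    {σ : Type} [Finite σ] (t : ∀ n, σ → R n) (ht : ∀ n s, p n (t (n + 1) s) = t n s)
    (hgen : ∀ n, Algebra.adjoin 𝒪 (Set.range (t n)) = ⊤)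
    (hspan : ∀ n, Ideal.span (Set.range (t n)) = maximalIdeal (R n)) :
    ∃ (L : Type) (_ : CommRing L) (_ : IsLocalRing L) (_ : IsNoetherianRing L)
      (_ : IsAdicComplete (maximalIdeal L) L) (_ : Algebra 𝒪 L)
      (_ : IsLocalHom (algebraMap 𝒪 L)),
      Function.Surjective (residue L ∘ algebraMap 𝒪 L) ∧
      ∃ q : ∀ n, L →ₐ[𝒪] R n,
        (∀ n, Function.Surjective (q n)) ∧
        (∀ n, (p n).comp (q (n + 1)) = q n) ∧
        (∀ n, RingHom.ker (q n : L →+* R n) = maximalIdeal L ^ (n + 1)) ∧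
        (∀ a : ∀ n, R n, (∀ n, p n (a (n + 1)) = a n) → ∃ l : L, ∀ n, q n l = a n) := by
  classical
  have hart : ∀ n, IsArtinianRing (R n) := fun n => (htest n).isArtinian
  have htm : ∀ n s, t n s ∈ maximalIdeal (R n) := fun n s => by
    rw [← hspan n]; exact Ideal.subset_span ⟨s, rfl⟩
  -- evaluation maps
  have hπex : ∀ n, ∃ π : MvPowerSeries σ 𝒪 →ₐ[𝒪] R n, ∀ s, π (MvPowerSeries.X s) = t n s :=
    fun n =>
      have := hart n
      Fermat.Agent.Lib.H6D.mvPowerSeries_exists_algHom 𝒪 σ (R n) (t n) (htm n)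
  choose π hπ using hπex
  have hcompat : ∀ n, (p n).comp (π (n + 1)) = π n := by
    intro n
    have := hart n
    refine Fermat.Agent.Lib.H6D.mvPowerSeries_algHom_ext 𝒪 σ (R n) _ _ (fun s => ?_) (fun s => ?_)
    · rw [AlgHom.comp_apply, hπ, ht]; exact htm n s
    · rw [AlgHom.comp_apply, hπ, ht, hπ]
  have hcompat' : ∀ n x, p n (π (n + 1) x) = π n x := fun n x =>
    DFunLike.congr_fun (hcompat n) x
  have hπsurj : ∀ n, Function.Surjective (π n) := by
    intro n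
    have h1 : Algebra.adjoin 𝒪 (Set.range (t n)) ≤ (π n).range := by
      refine Algebra.adjoin_le ?_
      rintro _ ⟨s, rfl⟩
      exact ⟨MvPowerSeries.X s, hπ n s⟩
    rw [hgen n] at h1
    intro y
    exact h1 Algebra.mem_top
  let 𝔛 : Ideal (MvPowerSeries σ 𝒪) := Ideal.span (Set.range MvPowerSeries.X)
  have hprec : IsPrecomplete 𝔛 (MvPowerSeries σ 𝒪) := inferInstance
  have hmap : ∀ n, 𝔛.map (π n : MvPowerSeries σ 𝒪 →+* R n) = maximalIdeal (R n) := by
    intro n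
    rw [Ideal.map_span, ← hspan n]
    congr 1
    ext y
    constructor
    · rintro ⟨_, ⟨s, rfl⟩, rfl⟩
      exact ⟨s, (hπ n s).symm⟩
    · rintro ⟨s, rfl⟩
      exact ⟨_, ⟨s, rfl⟩, hπ n s⟩
  let K : ℕ → Ideal (MvPowerSeries σ 𝒪) := fun n =>
    RingHom.ker (π n : MvPowerSeries σ 𝒪 →+* R n)
  have hKmem : ∀ n x, x ∈ K n ↔ π n x = 0 := fun n x => Iff.rfl
  have hK1 : ∀ n, 𝔛 ^ (n + 1) ≤ K n := by
    intro n x hx
    have h1 := Ideal.mem_map_of_mem (π n : MvPowerSeries σ 𝒪 →+* R n) hx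
    rw [Ideal.map_pow, hmap n, hlevel n] at h1
    exact (hKmem n x).mpr h1
  have hK2 : ∀ n, K (n + 1) ≤ K n := by
    intro n x hx
    rw [hKmem] at hx ⊢
    rw [← hcompat', hx, map_zero]
  have hK3 : ∀ n, K n ≤ K (n + 1) ⊔ 𝔛 ^ (n + 1) := by
    intro n x hx
    have h1 : π (n + 1) x ∈ RingHom.ker (p n : R (n + 1) →+* R n) := by
      rw [RingHom.mem_ker]
      exact (hcompat' n x).trans ((hKmem n x).mp hx)
    rw [hker n, ← hmap (n + 1), ← Ideal.map_pow] at h1
    obtain ⟨y, hy, hyx⟩ := (Ideal.mem_map_iff_of_surjective _ (hπsurj (n + 1))).mp h1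
    have hx' : x = (x - y) + y := by ring
    rw [hx']
    refine Ideal.add_mem _ (Ideal.mem_sup_left ?_) (Ideal.mem_sup_right hy)
    rw [hKmem, map_sub]
    exact sub_eq_zero.mpr hyx.symm
  let J : Ideal (MvPowerSeries σ 𝒪) := ⨅ n, K n
  have hJK : ∀ n, J ≤ K n := fun n => iInf_le K n
  have hJtop : J ≠ ⊤ := by
    intro h
    have h1 : (1 : MvPowerSeries σ 𝒪) ∈ K 0 := hJK 0 (h ▸ Submodule.mem_top)
    rw [hKmem, map_one] at h1
    exact one_ne_zero h1
  have hnt : Nontrivial (MvPowerSeries σ 𝒪 ⧸ J) := Ideal.Quotient.nontrivial_iff.mpr hJtop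
  have hLloc : IsLocalRing (MvPowerSeries σ 𝒪 ⧸ J) :=
    IsLocalRing.of_surjective' (Ideal.Quotient.mk J) Ideal.Quotient.mk_surjective
  let q : ∀ n, (MvPowerSeries σ 𝒪 ⧸ J) →ₐ[𝒪] R n := fun n =>
    Ideal.Quotient.liftₐ J (π n) (fun x hx => (hKmem n x).mp (hJK n hx))
  have hq : ∀ n x, q n (Ideal.Quotient.mk J x) = π n x := fun n x => rfl
  have hqsurj : ∀ n, Function.Surjective (q n) := by
    intro n y
    obtain ⟨x, rfl⟩ := hπsurj n y
    exact ⟨Ideal.Quotient.mk J x, hq n x⟩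
  have hqcompat' : ∀ n l, p n (q (n + 1) l) = q n l := by
    intro n l
    obtain ⟨x, rfl⟩ := Ideal.Quotient.mk_surjective l
    rw [hq, hq, hcompat']
  have hqloc : ∀ n, IsLocalHom (q n : (MvPowerSeries σ 𝒪 ⧸ J) →+* R n) := fun n =>
    IsLocalHom.of_surjective _ (hqsurj n)
  have hmkloc : IsLocalHom (Ideal.Quotient.mk J) :=
    IsLocalHom.of_surjective _ Ideal.Quotient.mk_surjective
  have h𝔛L : 𝔛.map (Ideal.Quotient.mk J) ≤ maximalIdeal (MvPowerSeries σ 𝒪 ⧸ J) := by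
    rw [Ideal.map_span, Ideal.span_le]
    rintro _ ⟨_, ⟨s, rfl⟩, rfl⟩
    exact map_nonunit (Ideal.Quotient.mk J) _ (Fermat.Agent.Lib.H6D.mvPowerSeries_X_mem 𝒪 σ s)
  have hqker : ∀ n, RingHom.ker (q n : (MvPowerSeries σ 𝒪 ⧸ J) →+* R n) =
      maximalIdeal (MvPowerSeries σ 𝒪 ⧸ J) ^ (n + 1) := by
    intro n
    apply le_antisymm
    · intro l hl
      obtain ⟨x, rfl⟩ := Ideal.Quotient.mk_surjective l
      have hx : x ∈ K n := by
        rw [hKmem, ← hq]
        exact hl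
      obtain ⟨z, hz, hxz⟩ := lim_chev 𝔛 K hK1 hK2 hK3 n x hx
      have h1 : Ideal.Quotient.mk J x = Ideal.Quotient.mk J (x - z) := by
        rw [map_sub, Ideal.Quotient.eq_zero_iff_mem.mpr hz, sub_zero]
      rw [h1]
      have h2 := Ideal.mem_map_of_mem (Ideal.Quotient.mk J) hxz
      rw [Ideal.map_pow] at h2
      exact Ideal.pow_right_mono h𝔛L _ h2
    · intro l hl
      have := hqloc n
      have h1 := Ideal.mem_map_of_mem (q n : (MvPowerSeries σ 𝒪 ⧸ J) →+* R n) hl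
      rw [Ideal.map_pow] at h1
      have h2 := Ideal.pow_right_mono
        (map_maximalIdeal_le (q n : (MvPowerSeries σ 𝒪 ⧸ J) →+* R n)) (n + 1) h1
      rw [hlevel n] at h2
      exact h2
  have hqlift : ∀ a : ∀ n, R n, (∀ n, p n (a (n + 1)) = a n) →
      ∃ l : MvPowerSeries σ 𝒪 ⧸ J, ∀ n, q n l = a n := by
    intro a ha
    have hy : ∀ n, ∃ y, π n y = a n := fun n => hπsurj n (a n)
    choose y hy using hy
    have hyK : ∀ n, y (n + 1) - y n ∈ K n := by
      intro n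
      rw [hKmem, map_sub, ← hcompat', hy, hy, ha, sub_self]
    obtain ⟨l, hl⟩ := lim_ml 𝔛 K hK1 hK2 hK3 y hyK
    refine ⟨Ideal.Quotient.mk J l, fun n => ?_⟩
    rw [hq, ← hy n]
    have h1 := (hKmem n _).mp (hl n)
    rw [map_sub] at h1
    exact sub_eq_zero.mp h1
  have hH : IsHausdorff (maximalIdeal (MvPowerSeries σ 𝒪 ⧸ J)) (MvPowerSeries σ 𝒪 ⧸ J) :=
    inferInstance
  have hP : IsPrecomplete (maximalIdeal (MvPowerSeries σ 𝒪 ⧸ J)) (MvPowerSeries σ 𝒪 ⧸ J) := by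
    refine ⟨fun f hf => ?_⟩
    have hf' : ∀ n, f (n + 1) - f (n + 2) ∈
        maximalIdeal (MvPowerSeries σ 𝒪 ⧸ J) ^ (n + 1) := by
      intro n
      have h := hf (Nat.le_succ (n + 1))
      rwa [SModEq.sub_mem, smul_eq_mul, Ideal.mul_top] at h
    obtain ⟨l, hl⟩ := hqlift (fun n => q n (f (n + 1))) (by
      intro n
      rw [hqcompat']
      have h1 : f (n + 1) - f (n + 2) ∈
          RingHom.ker (q n : (MvPowerSeries σ 𝒪 ⧸ J) →+* R n) := by
        rw [hqker n]; exact hf' n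
      rw [RingHom.mem_ker, map_sub] at h1
      exact (sub_eq_zero.mp h1).symm)
    refine ⟨l, fun n => ?_⟩
    rw [SModEq.sub_mem, smul_eq_mul, Ideal.mul_top]
    cases n with
    | zero => simp
    | succ n =>
      rw [← hqker n, RingHom.mem_ker, map_sub]
      exact sub_eq_zero.mpr (hl n).symm
  have hcomplete : IsAdicComplete (maximalIdeal (MvPowerSeries σ 𝒪 ⧸ J))
      (MvPowerSeries σ 𝒪 ⧸ J) := { toIsHausdorff := hH, toIsPrecomplete := hP }
  have hlochom : IsLocalHom (algebraMap 𝒪 (MvPowerSeries σ 𝒪 ⧸ J)) := by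
    refine ⟨fun c hc => ?_⟩
    have h1 : IsUnit (q 0 (algebraMap 𝒪 (MvPowerSeries σ 𝒪 ⧸ J) c)) := hc.map (q 0)
    rw [AlgHom.commutes] at h1
    exact (htest 0).isLocalHom.map_nonunit c h1
  have hres : Function.Surjective
      (residue (MvPowerSeries σ 𝒪 ⧸ J) ∘ algebraMap 𝒪 (MvPowerSeries σ 𝒪 ⧸ J)) := by
    intro y
    obtain ⟨l, rfl⟩ := residue_surjective y
    obtain ⟨c, hc⟩ := (htest 0).residue_surjective (residue (R 0) (q 0 l))
    refine ⟨c, ?_⟩
    rw [Function.comp_apply] at hc ⊢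
    have h1 : algebraMap 𝒪 (R 0) c - q 0 l ∈ maximalIdeal (R 0) := Ideal.Quotient.eq.mp hc
    refine Ideal.Quotient.eq.mpr ?_
    by_contra hcon
    have hu : IsUnit (algebraMap 𝒪 (MvPowerSeries σ 𝒪 ⧸ J) c - l) := by
      rw [mem_maximalIdeal, mem_nonunits_iff, not_not] at hcon
      exact hcon
    have hu' := hu.map (q 0)
    rw [map_sub, AlgHom.commutes] at hu'
    exact h1 hu'
  exact ⟨MvPowerSeries σ 𝒪 ⧸ J, inferInstance, hLloc, inferInstance, hcomplete, inferInstance,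
    hlochom, hres, q, hqsurj, fun n => AlgHom.ext (hqcompat' n), hqker, hqlift⟩

end Fermat.Agent.DR
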