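/-
S53 project, module PF-5: pro-representability of a functor of tuples.
-/
import Fermat.Agent.Lib.DR_Level
import Fermat.Agent.Lib.DR_Limit

set_option autoImplicit false

noncomputable section

namespace Fermat.Agent.DR

open IsLocalRing GaloisRep

variable {𝒪 : Type} [CommRing 𝒪] [IsDomain 𝒪] [IsDiscreteValuationRing 𝒪]
  [Finite (ResidueField 𝒪)]
variable {ι : Type}
  {P : ∀ (A : Type) [CommRing A] [IsLocalRing A] [Algebra 𝒪 A], (ι → A) → Prop} {base : ι → 𝒪}

omit [Finite (ResidueField 𝒪)] in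
/-- An algebra hom from a local algebra to a test algebra of level `m` kills the `m`-th power of
the maximal ideal. -/
theorem prorep_pow_le_ker {L B : Type} [CommRing L] [IsLocalRing L] [Algebra 𝒪 L]
    [CommRing B] [IsLocalRing B] [Algebra 𝒪 B]
    (hB : IsArtinianTestAlgebra 𝒪 B) (φ : L →ₐ[𝒪] B) {m : ℕ} (hm : maximalIdeal B ^ m = ⊥) :
    maximalIdeal L ^ m ≤ RingHom.ker (φ : L →+* B) := by
  have := algHom_isLocalHom_of_test hB φ
  have h1 : (maximalIdeal L ^ m).map (φ : L →+* B) ≤ maximalIdeal B ^ m := by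
    rw [Ideal.map_pow]
    exact Ideal.pow_right_mono (map_maximalIdeal_le _) m
  rw [hm, le_bot_iff, Ideal.map_eq_bot_iff_le_ker] at h1
  exact h1

omit [Finite (ResidueField 𝒪)] in
/-- If a family in the maximal ideal, containing the image of a uniformizer, generates a test
algebra as an algebra, then it generates the maximal ideal as an ideal. -/
theorem prorep_span_eq {A : Type} [CommRing A] [IsLocalRing A] [Algebra 𝒪 A]
    (_hA : IsArtinianTestAlgebra 𝒪 A) {σ : Type} (t : σ → A) (ϖ : 𝒪)
    (hϖ : maximalIdeal 𝒪 = Ideal.span {ϖ}) (s₀ : σ) (hs₀ : t s₀ = algebraMap 𝒪 A ϖ)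
    (htm : ∀ s, t s ∈ maximalIdeal A) (hgen : Algebra.adjoin 𝒪 (Set.range t) = ⊤) :
    Ideal.span (Set.range t) = maximalIdeal A := by
  have hle : Ideal.span (Set.range t) ≤ maximalIdeal A := by
    rw [Ideal.span_le]
    rintro _ ⟨s, rfl⟩
    exact htm s
  refine le_antisymm hle fun a ha => ?_
  have key : ∀ a : A, ∃ c : 𝒪, a - algebraMap 𝒪 A c ∈ Ideal.span (Set.range t) := by
    intro a
    have ha : a ∈ Algebra.adjoin 𝒪 (Set.range t) := by rw [hgen]; trivial
    induction ha using Algebra.adjoin_induction with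
    | mem x hx => exact ⟨0, by simpa using Ideal.subset_span hx⟩
    | algebraMap r => exact ⟨r, by simp⟩
    | add x y _ _ hx hy =>
      obtain ⟨c, hc⟩ := hx
      obtain ⟨d, hd⟩ := hy
      refine ⟨c + d, ?_⟩
      have : x + y - algebraMap 𝒪 A (c + d) = (x - algebraMap 𝒪 A c) + (y - algebraMap 𝒪 A d) := by
        rw [map_add]; ring
      rw [this]
      exact Ideal.add_mem _ hc hd
    | mul x y _ _ hx hy =>
      obtain ⟨c, hc⟩ := hx
      obtain ⟨d, hd⟩ := hy
      refine ⟨c * d, ?_⟩
      have : x * y - algebraMap 𝒪 A (c * d) =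
          (x - algebraMap 𝒪 A c) * y + algebraMap 𝒪 A c * (y - algebraMap 𝒪 A d) := by
        rw [map_mul]; ring
      rw [this]
      exact Ideal.add_mem _ (Ideal.mul_mem_right _ _ hc) (Ideal.mul_mem_left _ _ hd)
  obtain ⟨c, hc⟩ := key a
  have hcm : algebraMap 𝒪 A c ∈ maximalIdeal A := by
    have := Ideal.sub_mem _ ha (hle hc)
    simpa using this
  have hc' : c ∈ maximalIdeal 𝒪 := by
    by_contra hcu
    have hu : IsUnit c := by
      rw [mem_maximalIdeal, mem_nonunits_iff, not_not] at hcu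
      exact hcu
    exact hcm (hu.map (algebraMap 𝒪 A))
  rw [hϖ, Ideal.mem_span_singleton] at hc'
  obtain ⟨c', rfl⟩ := hc'
  have h2 : algebraMap 𝒪 A (ϖ * c') ∈ Ideal.span (Set.range t) := by
    rw [map_mul, ← hs₀]
    exact Ideal.mul_mem_right _ _ (Ideal.subset_span ⟨s₀, rfl⟩)
  have := Ideal.add_mem _ hc h2
  simpa using this

/-- Pro-representability: there is a complete Noetherian local `𝒪`-algebra `R` with a universal
tuple `xu`. -/
theorem exists_prorep (h : PFData 𝒪 P base) :
    ∃ (R : Type) (_ : CommRing R) (_ : IsLocalRing R) (_ : IsNoetherianRing R)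
      (_ : IsAdicComplete (maximalIdeal R) R) (_ : Algebra 𝒪 R)
      (_ : IsLocalHom (algebraMap 𝒪 R)),
      Function.Surjective (residue R ∘ algebraMap 𝒪 R) ∧
      ∃ xu : ι → R,
        (∀ (B : Type) [CommRing B] [IsLocalRing B] [Algebra 𝒪 B], IsArtinianTestAlgebra 𝒪 B →
          ∀ q : R →ₐ[𝒪] B, Function.Surjective q → P B (fun i => q (xu i))) ∧
        (∀ (B : Type) [CommRing B] [IsLocalRing B] [Algebra 𝒪 B], IsArtinianTestAlgebra 𝒪 B →
          ∀ y : ι → B, P B y → ∃! φ : R →ₐ[𝒪] B, ∀ i, φ (xu i) = y i) := by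
  classical
  obtain ⟨T⟩ := exists_tower h
  obtain ⟨s, hs⟩ := exists_finite_gen h
  obtain ⟨ϖ, hϖ⟩ := IsDiscreteValuationRing.exists_irreducible 𝒪
  have hϖm : maximalIdeal 𝒪 = Ideal.span {ϖ} := hϖ.maximalIdeal_eq
  -- the finite family of generators: the uniformizer and the centred coordinates in `s`
  let t : ∀ n, Option s → T.R n := fun n o =>
    o.elim (algebraMap 𝒪 (T.R n) ϖ) (fun i => T.x n i - algebraMap 𝒪 (T.R n) (base i))
  have ht : ∀ n o, T.p n (t (n + 1) o) = t n o := by
    intro n o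
    cases o with
    | none => exact (T.p n).commutes ϖ
    | some i =>
      show T.p n (T.x (n + 1) i - algebraMap 𝒪 (T.R (n + 1)) (base i)) =
        T.x n i - algebraMap 𝒪 (T.R n) (base i)
      rw [map_sub, T.p_x, (T.p n).commutes]
  have htm : ∀ n o, t n o ∈ maximalIdeal (T.R n) := by
    intro n o
    cases o with
    | none =>
      have := (T.test n).isLocalHom
      refine map_nonunit (algebraMap 𝒪 (T.R n)) ϖ ?_
      rw [hϖm]
      exact Ideal.mem_span_singleton_self ϖ
    | some i => exact h.base_mem (T.R n) (T.test n) (T.x n) (T.pt n) i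
  have hgen : ∀ n, Algebra.adjoin 𝒪 (Set.range (t n)) = ⊤ := by
    intro n
    rw [eq_top_iff, ← hs (T.R n) (T.test n) (T.x n) (T.pt n) (T.tight n)]
    refine Algebra.adjoin_le ?_
    rintro _ ⟨i, hi, rfl⟩
    have h1 : t n (some ⟨i, hi⟩) ∈ Algebra.adjoin 𝒪 (Set.range (t n)) :=
      Algebra.subset_adjoin ⟨_, rfl⟩
    have h2 := Subalgebra.add_mem _ h1
      (Subalgebra.algebraMap_mem (Algebra.adjoin 𝒪 (Set.range (t n))) (base i))
    have h3 : t n (some ⟨i, hi⟩) + algebraMap 𝒪 (T.R n) (base i) = T.x n i := by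
      show T.x n i - algebraMap 𝒪 (T.R n) (base i) + algebraMap 𝒪 (T.R n) (base i) = T.x n i
      ring
    rw [h3] at h2
    exact h2
  have hspan : ∀ n, Ideal.span (Set.range (t n)) = maximalIdeal (T.R n) := fun n =>
    prorep_span_eq (T.test n) (t n) ϖ hϖm none rfl (htm n) (hgen n)
  obtain ⟨L, i1, i2, i3, i4, i5, i6, hres, q, hqs, hqc, hqk, hql⟩ :=
    exists_limit T.R T.test T.level T.p T.p_surj T.p_ker t ht hgen hspan
  choose xu hxu using fun i => hql (fun n => T.x n i) (fun n => T.p_x n i)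
  refine ⟨L, i1, i2, i3, i4, i5, i6, hres, xu, ?_, ?_⟩
  · intro B _ _ _ hB q' _
    obtain ⟨m, hm⟩ := test_exists_pow hB
    cases m with
    | zero =>
      rw [pow_zero, Ideal.one_eq_top] at hm
      exact absurd hm top_ne_bot
    | succ n =>
      have hle : RingHom.ker (q n).toRingHom ≤ RingHom.ker q'.toRingHom := by
        have := prorep_pow_le_ker hB q' hm
        rw [← hqk n] at this
        exact this
      have hψ : ∀ l, AlgHom.liftOfSurjective (q n) (hqs n) q' hle (q n l) = q' l :=
        AlgHom.liftOfSurjective_apply _ _ _ _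
      have h1 := h.map (T.R n) B (T.test n) hB (AlgHom.liftOfSurjective (q n) (hqs n) q' hle)
        (T.x n) (T.pt n)
      have h2 : (fun i => q' (xu i)) =
          fun i => AlgHom.liftOfSurjective (q n) (hqs n) q' hle (T.x n i) := by
        funext i
        rw [← hxu i n, hψ]
      rw [h2]
      exact h1
  · intro B _ _ _ hB y hy
    obtain ⟨m, hm⟩ := test_exists_pow hB
    cases m with
    | zero =>
      rw [pow_zero, Ideal.one_eq_top] at hm
      exact absurd hm top_ne_bot
    | succ n =>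
      obtain ⟨φ₀, hφ₀⟩ := T.univ n B hB hm y hy
      refine ⟨φ₀.comp (q n), fun i => ?_, fun φ' hφ' => ?_⟩
      · rw [AlgHom.comp_apply, hxu i n, hφ₀ i]
      · have hle : RingHom.ker (q n).toRingHom ≤ RingHom.ker φ'.toRingHom := by
          have := prorep_pow_le_ker hB φ' hm
          rw [← hqk n] at this
          exact this
        have h1 : (AlgHom.liftOfSurjective (q n) (hqs n) φ' hle).comp (q n) = φ' :=
          AlgHom.liftOfSurjective_comp _ _ _ _
        rw [← h1]
        congr 1
        refine algHom_ext_of_tight (T.tight n) fun i => ?_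
        rw [← hxu i n, AlgHom.liftOfSurjective_apply, hφ' i, hxu i n, hφ₀ i]

end Fermat.Agent.DR
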