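/-
S53 project, module G-3b: the residual representation of a standard representation, and the
existence of a matrix model with prescribed residual matrices.
-/
import Fermat.Agent.Lib.DR_Defs

set_option autoImplicit false
set_option linter.style.haveILetI false
set_option linter.unusedSectionVars false

noncomputable section

namespace Fermat.Agent.DR

open IsLocalRing GaloisRep
open scoped TensorProduct

variable {k : Type} [Field k] (ρbar : ResidualGaloisRep k) (b : Module.Basis (Fin 2) k ρbar.V)
variable {A : Type} [CommRing A] [IsLocalRing A]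

/-- If the residues of the matrices `mat x g` are the matrices of `ρbar` (in the basis `b`, pushed
along `ψ`), then the residual representation of `stdRep x` is `ρbar` base-changed along `ψ`. -/
theorem stdRep_residual (ψ : k →+* ResidueField A) (x : Idx → A) (h1 : IsHom x) (h2 : IsCont A x)
    (hres : ∀ g i j, residue A (x (g, i, j)) = ψ (LinearMap.toMatrix b b (ρbar.ρ g) i j)) :
    (stdRep A x h1 h2).residual.IsEquiv (ρbar.baseChangeAlong ψ) := by
  classical
  letI : Algebra k (ResidueField A) := ψ.toAlgebra
  let B₁ : Module.Basis (Fin 2) (ResidueField A) (ResidueField A ⊗[A] (Fin 2 → A)) :=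
    Algebra.TensorProduct.basis (ResidueField A) (Pi.basisFun A (Fin 2))
  let B₂ : Module.Basis (Fin 2) (ResidueField A) (ResidueField A ⊗[k] ρbar.V) :=
    Algebra.TensorProduct.basis (ResidueField A) b
  refine ⟨⟨B₁.equiv B₂ (Equiv.refl _), fun σ v => ?_⟩⟩
  let f₁ : (ResidueField A ⊗[A] (Fin 2 → A)) →ₗ[ResidueField A] (ResidueField A ⊗[A] (Fin 2 → A)) :=
    (Matrix.toLin' (mat x σ)).baseChange (ResidueField A)
  let f₂ : (ResidueField A ⊗[k] ρbar.V) →ₗ[ResidueField A] (ResidueField A ⊗[k] ρbar.V) :=
    (ρbar.ρ σ).baseChange (ResidueField A)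
  have key : (B₁.equiv B₂ (Equiv.refl _)).toLinearMap ∘ₗ f₁
      = f₂ ∘ₗ (B₁.equiv B₂ (Equiv.refl _)).toLinearMap := by
    apply B₁.ext
    intro j
    have e1 : f₁ (B₁ j) = ∑ i, residue A (x (σ, i, j)) • B₁ i := by
      simp only [f₁, B₁, Algebra.TensorProduct.basis_apply, LinearMap.baseChange_tmul]
      have hv : Matrix.toLin' (mat x σ) (Pi.basisFun A (Fin 2) j)
          = ∑ i, x (σ, i, j) • Pi.basisFun A (Fin 2) i := by
        funext i
        simp [Matrix.toLin'_apply, Matrix.mulVec, dotProduct, Pi.basisFun_apply, Pi.single_apply,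
          Finset.sum_apply]
      rw [hv, TensorProduct.tmul_sum]
      refine Finset.sum_congr rfl fun i _ => ?_
      rw [TensorProduct.tmul_smul, TensorProduct.smul_tmul', Algebra.smul_def, mul_one,
        TensorProduct.smul_tmul', smul_eq_mul, mul_one]
      rfl
    have e2 : f₂ (B₂ j) = ∑ i, ψ (LinearMap.toMatrix b b (ρbar.ρ σ) i j) • B₂ i := by
      simp only [f₂, B₂, Algebra.TensorProduct.basis_apply, LinearMap.baseChange_tmul]
      have hv : ρbar.ρ σ (b j) = ∑ i, LinearMap.toMatrix b b (ρbar.ρ σ) i j • b i := by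
        simp only [LinearMap.toMatrix_apply]
        exact (b.sum_repr _).symm
      rw [hv, TensorProduct.tmul_sum]
      refine Finset.sum_congr rfl fun i _ => ?_
      rw [TensorProduct.tmul_smul, TensorProduct.smul_tmul', Algebra.smul_def, mul_one,
        TensorProduct.smul_tmul', smul_eq_mul, mul_one]
      rfl
    rw [LinearMap.comp_apply, LinearMap.comp_apply, e1, LinearEquiv.coe_coe,
      Module.Basis.equiv_apply, Equiv.refl_apply, e2, map_sum]
    refine Finset.sum_congr rfl fun i _ => ?_
    rw [map_smul, Module.Basis.equiv_apply, Equiv.refl_apply, hres]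
  exact LinearMap.congr_fun key v

/-- coordinates of an element of `I • ⊤` lie in `I`. -/
theorem res_repr_mem_of_mem_smul_top {V : Type} [AddCommGroup V] [Module A V]
    (c : Module.Basis (Fin 2) A V) (I : Ideal A) {w : V}
    (hw : w ∈ I • (⊤ : Submodule A V)) (i : Fin 2) : c.repr w i ∈ I := by
  refine Submodule.smul_induction_on (p := fun w => c.repr w i ∈ I) hw ?_ ?_
  · intro a ha m _
    rw [map_smul, Finsupp.smul_apply, smul_eq_mul]
    exact Ideal.mul_mem_right _ _ ha
  · intro y z hy hz
    rw [map_add, Finsupp.add_apply]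
    exact Ideal.add_mem _ hy hz

/-- Every `ρ : GaloisRepAdic A` whose residual representation is `ρbar` (base-changed along `ψ`)
is equivalent to `stdRep x` for a tuple `x` whose residues are exactly the matrices of `ρbar`. -/
theorem exists_stdRep_of_residual (ψ : k →+* ResidueField A) (ρ : GaloisRepAdic A)
    (hρ : ρ.residual.IsEquiv (ρbar.baseChangeAlong ψ)) :
    ∃ (x : Idx → A) (h1 : IsHom x) (h2 : IsCont A x),
      (∀ g i j, residue A (x (g, i, j)) = ψ (LinearMap.toMatrix b b (ρbar.ρ g) i j)) ∧
      (stdRep A x h1 h2).IsEquiv ρ := by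
  classical
  obtain ⟨e⟩ := hρ
  letI : Algebra k (ResidueField A) := ψ.toAlgebra
  let B₂ : Module.Basis (Fin 2) (ResidueField A) (ResidueField A ⊗[k] ρbar.V) :=
    Algebra.TensorProduct.basis (ResidueField A) b
  let E : (ResidueField A ⊗[A] ρ.V) ≃ₗ[ResidueField A] (ResidueField A ⊗[k] ρbar.V) :=
    e.toLinearEquiv
  have hE : ∀ (σ : Gal) (w : ResidueField A ⊗[A] ρ.V),
      E ((ρ.ρ σ).baseChange (ResidueField A) w)
        = (ρbar.ρ σ).baseChange (ResidueField A) (E w) := e.map_apply
  let W : Module.Basis (Fin 2) (ResidueField A) (ResidueField A ⊗[A] ρ.V) := B₂.map E.symm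
  have hsurj : Function.Surjective (TensorProduct.mk A (ResidueField A) ρ.V 1) :=
    TensorProduct.mk_surjective A ρ.V (ResidueField A) IsLocalRing.residue_surjective
  choose v hv using fun i => hsurj (W i)
  have hcomp : (TensorProduct.mk A (ResidueField A) ρ.V 1 ∘ v) = W := funext hv
  haveI : Module.FinitePresentation A ρ.V := Module.finitePresentation_of_projective A ρ.V
  obtain ⟨c, hc⟩ := Module.exists_basis_of_basis_baseChange v
    (by rw [hcomp]; exact W.linearIndependent) (by rw [hcomp]; exact W.span_eq)
    (Module.Flat.rTensor_preserves_injective_linearMap (maximalIdeal A).subtype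
      Subtype.val_injective)
  let M : Gal → Matrix (Fin 2) (Fin 2) A := fun g => LinearMap.toMatrix c c (ρ.ρ g)
  have hM1 : IsHom (tup M) := by
    rw [IsHom, mat_tup]
    exact ⟨by simp only [M, map_one]; exact LinearMap.toMatrix_one c,
      fun g h => by simp only [M, map_mul]; exact LinearMap.toMatrix_mul c (ρ.ρ g) (ρ.ρ h)⟩
  have hM2 : IsCont A (tup M) := by
    intro n
    obtain ⟨L, hL, hσ⟩ := ρ.isAdicContinuous n
    refine ⟨L, hL, fun σ hσL i j => ?_⟩
    rw [mat_tup]
    have h1 : M σ i j - (1 : Matrix (Fin 2) (Fin 2) A) i j = c.repr (ρ.ρ σ (c j) - c j) i := by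
      simp only [M, LinearMap.toMatrix_apply, map_sub, Finsupp.sub_apply, Module.Basis.repr_self,
        Matrix.one_apply, Finsupp.single_apply]
      congr 1
      by_cases hij : i = j
      · simp [hij]
      · simp [hij, Ne.symm hij]
    rw [h1]
    exact res_repr_mem_of_mem_smul_top c _ (hσ σ hσL (c j)) i
  refine ⟨tup M, hM1, hM2, ?_, ?_⟩
  · intro g i j
    show residue A (M g i j) = _
    -- the base-changed basis is `W`
    have hCW : Algebra.TensorProduct.basis (ResidueField A) c = W := by
      apply Module.Basis.eq_of_apply_eq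
      intro i
      rw [Algebra.TensorProduct.basis_apply, hc, ← hv i]
      rfl
    have h1 : residue A (M g i j)
        = LinearMap.toMatrix W W ((ρ.ρ g).baseChange (ResidueField A)) i j := by
      rw [← hCW, LinearMap.toMatrix_baseChange]
      rfl
    have h2 : LinearMap.toMatrix W W ((ρ.ρ g).baseChange (ResidueField A)) i j
        = LinearMap.toMatrix B₂ B₂ ((ρbar.ρ g).baseChange (ResidueField A)) i j := by
      rw [LinearMap.toMatrix_apply, LinearMap.toMatrix_apply]
      have h3 : (ρ.ρ g).baseChange (ResidueField A) (W j)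
          = E.symm ((ρbar.ρ g).baseChange (ResidueField A) (B₂ j)) := by
        apply E.injective
        rw [hE, LinearEquiv.apply_symm_apply]
        simp [W]
      rw [h3]
      simp [W]
    rw [h1, h2, LinearMap.toMatrix_baseChange]
    rfl
  · have key : ∀ (σ : Gal) (w : Fin 2 → A),
        c.equivFun.symm (Matrix.toLin' (M σ) w) = ρ.ρ σ (c.equivFun.symm w) := by
      intro σ w
      rw [Matrix.toLin'_apply]
      have h1 := LinearMap.toMatrix_mulVec_repr c c (ρ.ρ σ) (c.equivFun.symm w)
      have h2 : (c.repr (c.equivFun.symm w) : Fin 2 → A) = w := by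
        rw [← Module.Basis.equivFun_apply, LinearEquiv.apply_symm_apply]
      rw [h2] at h1
      show c.equivFun.symm (Matrix.mulVec (M σ) w) = _
      rw [h1, ← Module.Basis.equivFun_apply, LinearEquiv.symm_apply_apply]
    refine ⟨⟨c.equivFun.symm, fun σ w => ?_⟩⟩
    have h3 : mat (tup M) σ = M σ := by rw [mat_tup]
    show c.equivFun.symm (Matrix.toLin' (mat (tup M) σ) w) = ρ.ρ σ (c.equivFun.symm w)
    rw [h3]
    exact key σ w

end Fermat.Agent.DR
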