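/-
S53 project (helper2): FINAL ASSEMBLY.  From the pro-representability of the Galois tuple functor
`GalP F 𝒟` (i.e. `PFData 𝒪 (GalP F 𝒟) (tup F.rt)`) we build the universal deformation ring
`DeformationRingData 𝒪 ρbar 𝒟`.
-/
import Fermat.Agent.Lib.DR_GalP
import Fermat.Agent.Lib.DR_Prorep
import Fermat.Agent.Lib.DR_Complete
import Fermat.Agent.Lib.DR_Res

set_option autoImplicit false
set_option linter.unusedSectionVars false
set_option linter.style.haveILetI false

noncomputable section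

namespace Fermat.Agent.DR

open IsLocalRing GaloisRep

section Hausdorff

variable {R : Type} [CommRing R]

/-- In a Hausdorff ring, two elements that agree modulo every power of the ideal are equal. -/
theorem final_eq_of_forall_mk (I : Ideal R) [IsHausdorff I R] {a b : R}
    (h : ∀ n : ℕ, Ideal.Quotient.mk (I ^ (n + 1)) a = Ideal.Quotient.mk (I ^ (n + 1)) b) :
    a = b := by
  refine sub_eq_zero.mp (IsHausdorff.haus ‹IsHausdorff I R› (a - b) fun n => ?_)
  rw [SModEq.zero, smul_eq_mul, Ideal.mul_top]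
  exact Ideal.pow_le_pow_right (Nat.le_succ n) (Ideal.Quotient.eq.mp (h n))

/-- Matrix version of `final_eq_of_forall_mk`. -/
theorem final_matrix_eq_of_forall_mk (I : Ideal R) [IsHausdorff I R]
    {M N : Matrix (Fin 2) (Fin 2) R}
    (h : ∀ n : ℕ, M.map (Ideal.Quotient.mk (I ^ (n + 1))) =
      N.map (Ideal.Quotient.mk (I ^ (n + 1)))) : M = N := by
  ext i j
  refine final_eq_of_forall_mk I fun n => ?_
  have := congrFun (congrFun (h n) i) j
  rwa [Matrix.map_apply, Matrix.map_apply] at this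

end Hausdorff

section Congr

variable {A : Type} [CommRing A] [IsLocalRing A]

/-- Equal tuples give equivalent standard representations. -/
theorem final_stdRep_congr {x x' : Idx → A} (h : x = x') (h1 : IsHom x) (h2 : IsCont A x)
    (h1' : IsHom x') (h2' : IsCont A x') :
    (stdRep A x h1 h2).IsEquiv (stdRep A x' h1' h2') := by
  subst h
  exact ⟨GaloisRepAdic.Equiv.refl _⟩

theorem final_isEquiv_symm {ρ ρ' : GaloisRepAdic A} (h : ρ.IsEquiv ρ') : ρ'.IsEquiv ρ := by
  obtain ⟨e⟩ := h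
  exact ⟨e.symm⟩

theorem final_isEquiv_trans {ρ ρ' ρ'' : GaloisRepAdic A} (h : ρ.IsEquiv ρ')
    (h' : ρ'.IsEquiv ρ'') : ρ.IsEquiv ρ'' := by
  obtain ⟨e⟩ := h
  obtain ⟨e'⟩ := h'
  exact ⟨e.trans e'⟩

theorem final_isEquiv_baseChangeAlong {B : Type} [CommRing B] [IsLocalRing B] (φ : A →+* B)
    (hφ : IsLocalHom φ) {ρ ρ' : GaloisRepAdic A} (h : ρ.IsEquiv ρ') :
    (ρ.baseChangeAlong φ hφ).IsEquiv (ρ'.baseChangeAlong φ hφ) := by
  obtain ⟨e⟩ := h
  exact ⟨e.baseChangeAlong φ hφ⟩

end Congr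

section Universal

variable {𝒪 : Type} [CommRing 𝒪] [IsLocalRing 𝒪] {ρbar : ResidualGaloisRep (ResidueField 𝒪)}
variable (F : Frame 𝒪 ρbar)
  (𝒟 : ∀ ⦃A : Type⦄ [CommRing A] [IsLocalRing A] [Algebra 𝒪 A], GaloisRepAdic A → Prop)
variable {R : Type} [CommRing R] [IsLocalRing R] [Algebra 𝒪 R]

/-- The universal tuple over the pro-representing ring is multiplicative, continuous and in
normal form, because it is so modulo every power of the maximal ideal. -/
theorem final_universal_tuple [IsNoetherianRing R] [IsAdicComplete (maximalIdeal R) R]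
    (hRloc : IsLocalHom (algebraMap 𝒪 R))
    (hRres : Function.Surjective (residue R ∘ algebraMap 𝒪 R)) (xu : Idx → R)
    (hsurjP : ∀ (B : Type) [CommRing B] [IsLocalRing B] [Algebra 𝒪 B],
      IsArtinianTestAlgebra 𝒪 B → ∀ q : R →ₐ[𝒪] B, Function.Surjective q →
        GalP F 𝒟 B (fun i => q (xu i))) :
    IsHom xu ∧ IsCont R xu ∧ F.IsNormalized (mat xu) := by
  -- the data at level `n`
  have key : ∀ n : ℕ, ∃ _ : IsLocalRing (R ⧸ maximalIdeal R ^ (n + 1)),
      maximalIdeal (R ⧸ maximalIdeal R ^ (n + 1)) ^ (n + 1) = ⊥ ∧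
      IsLocalHom (Ideal.Quotient.mk (maximalIdeal R ^ (n + 1))) ∧
      IsHom (fun i => Ideal.Quotient.mk (maximalIdeal R ^ (n + 1)) (xu i)) ∧
      IsCont (R ⧸ maximalIdeal R ^ (n + 1))
        (fun i => Ideal.Quotient.mk (maximalIdeal R ^ (n + 1)) (xu i)) ∧
      F.IsNormalized (mat (fun i => Ideal.Quotient.mk (maximalIdeal R ^ (n + 1)) (xu i))) := by
    intro n
    obtain ⟨hloc, htest, hbot⟩ := complete_quotient_test hRloc hRres n
    haveI := hloc
    obtain ⟨g1, g2, g3, -⟩ := hsurjP _ htest (Ideal.Quotient.mkₐ 𝒪 _)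
      (Ideal.Quotient.mkₐ_surjective 𝒪 _)
    exact ⟨hloc, hbot, complete_algHom_isLocalHom htest.residue_surjective
      (Ideal.Quotient.mkₐ 𝒪 _), g1, g2, g3⟩
  have h1 : IsHom xu := by
    refine ⟨final_matrix_eq_of_forall_mk (maximalIdeal R) fun n => ?_,
      fun g h => final_matrix_eq_of_forall_mk (maximalIdeal R) fun n => ?_⟩
    · obtain ⟨_, -, -, hh, -, -⟩ := key n
      have := hh.1
      rw [mat_map] at this
      rw [this, Matrix.map_one _ (map_zero _) (map_one _)]
    · obtain ⟨_, -, -, hh, -, -⟩ := key n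
      have := hh.2 g h
      rw [mat_map, mat_map, mat_map] at this
      rw [this, Matrix.map_mul]
  have h2 : IsCont R xu := by
    intro n
    obtain ⟨hloc, hbot, -, -, hc, -⟩ := key n
    obtain ⟨L, hL, h⟩ := hc (n + 1)
    refine ⟨L, hL, fun σ hσ i j => ?_⟩
    have h' := h σ hσ i j
    rw [hbot, Ideal.mem_bot] at h'
    have h'' : Ideal.Quotient.mk (maximalIdeal R ^ (n + 1))
        (mat xu σ i j - (1 : Matrix (Fin 2) (Fin 2) R) i j) = 0 := by
      rw [← h', map_sub]
      congr 1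
      by_cases hij : i = j
      · subst hij; simp
      · simp [hij]
    exact Ideal.pow_le_pow_right (Nat.le_succ n) (Ideal.Quotient.eq_zero_iff_mem.mp h'')
  refine ⟨h1, h2, ?_⟩
  refine { map_one := h1.1, map_mul := h1.2, res := fun σ i j => ?_, n₁ := ?_, n₂ := ?_, n₃ := ?_ }
  · obtain ⟨hloc, -, hq, -, -, hn⟩ := key 0
    have h3 := hn.res σ i j
    by_contra hu
    rw [mem_maximalIdeal, mem_nonunits_iff, not_not] at hu
    exact h3 (hu.map (Ideal.Quotient.mk (maximalIdeal R ^ (0 + 1))))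
  · refine final_eq_of_forall_mk (maximalIdeal R) fun n => ?_
    obtain ⟨_, -, -, -, -, hn⟩ := key n
    rw [map_zero]
    exact hn.n₁
  · refine final_eq_of_forall_mk (maximalIdeal R) fun n => ?_
    obtain ⟨_, -, -, -, -, hn⟩ := key n
    rw [map_one]
    exact hn.n₂
  · refine final_eq_of_forall_mk (maximalIdeal R) fun n => ?_
    obtain ⟨_, -, -, -, -, hn⟩ := key n
    exact hn.n₃

variable {F 𝒟}

/-- The universal property over complete Noetherian local `𝒪`-algebras. -/
theorem final_universal (h𝒟 : IsDeformationCondition 𝒪 𝒟) (xu : Idx → R) (h1 : IsHom xu)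
    (h2 : IsCont R xu) (hn : F.IsNormalized (mat xu))
    (hunivP : ∀ (B : Type) [CommRing B] [IsLocalRing B] [Algebra 𝒪 B],
      IsArtinianTestAlgebra 𝒪 B → ∀ y : Idx → B, GalP F 𝒟 B y →
        ∃! φ : R →ₐ[𝒪] B, ∀ i, φ (xu i) = y i)
    (A : Type) [CommRing A] [IsLocalRing A] [IsNoetherianRing A]
    [IsAdicComplete (maximalIdeal A) A] [Algebra 𝒪 A] [IsLocalHom (algebraMap 𝒪 A)]
    (hAres : Function.Surjective (residue A ∘ algebraMap 𝒪 A))
    (ρA : GaloisRepAdic A) (hD : 𝒟 ρA)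
    (hresA : ρA.residual.IsEquiv (ρbar.baseChangeAlong (ResidueField.map (algebraMap 𝒪 A)))) :
    ∃! φ : R →ₐ[𝒪] A, ∃ hφ : IsLocalHom (φ : R →+* A),
      ((stdRep R xu h1 h2).baseChangeAlong (φ : R →+* A) hφ).IsEquiv ρA := by
  classical
  -- (a) a matrix model of `ρA` with the residual matrices of the frame
  obtain ⟨x0, h01, h02, hres0, hequiv0⟩ :=
    exists_stdRep_of_residual ρbar F.e (ResidueField.map (algebraMap 𝒪 A)) ρA hresA
  have hlift0 : F.IsLift (mat x0) :=
    { map_one := h01.1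
      map_mul := h01.2
      res := fun σ i j => by
        rw [← residue_eq_zero_iff, map_sub, sub_eq_zero]
        show residue A (x0 (σ, i, j)) = _
        rw [hres0, ← F.rt_res, ResidueField.map_residue] }
  -- (b) its normal form
  obtain ⟨P, Q, hPQ, hQP, -, hnorm⟩ := F.exists_normalized hlift0
  obtain ⟨xA, hxA⟩ : ∃ xA : Idx → A, xA = tup fun σ => P * mat x0 σ * Q := ⟨_, rfl⟩
  have hA1 : IsHom xA := by rw [hxA]; exact isHom_conj hPQ hQP h01
  have hA2 : IsCont A xA := by rw [hxA]; exact isCont_conj hPQ h02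
  have hAn : F.IsNormalized (mat xA) := by rw [hxA, mat_tup]; exact hnorm
  have hAequiv : (stdRep A xA hA1 hA2).IsEquiv ρA := by
    subst hxA
    exact final_isEquiv_trans
      (final_isEquiv_symm (stdRep_conj_isEquiv hPQ hQP x0 h01 h02 hA1 hA2)) hequiv0
  -- (c) the points over the Artinian quotients
  have hAloc : IsLocalHom (algebraMap 𝒪 A) := inferInstance
  have hDA := (h𝒟.iff_forall_surjective hAloc hAres ρA).mp hD
  have hlev : ∀ n : ℕ, ∃! φ : R →ₐ[𝒪] A ⧸ maximalIdeal A ^ (n + 1),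
      ∀ i, φ (xu i) = Ideal.Quotient.mk (maximalIdeal A ^ (n + 1)) (xA i) := by
    intro n
    obtain ⟨hloc, htest, -⟩ := complete_quotient_test hAloc hAres n
    haveI := hloc
    let π : A →ₐ[𝒪] A ⧸ maximalIdeal A ^ (n + 1) := Ideal.Quotient.mkₐ 𝒪 _
    have hπ : IsLocalHom (π : A →+* A ⧸ maximalIdeal A ^ (n + 1)) :=
      complete_algHom_isLocalHom htest.residue_surjective π
    have hπsurj : Function.Surjective π := Ideal.Quotient.mkₐ_surjective 𝒪 _
    have g1 : IsHom (fun p => (π : A →+* A ⧸ maximalIdeal A ^ (n + 1)) (xA p)) :=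
      isHom_map _ hA1
    have g2 : IsCont _ (fun p => (π : A →+* A ⧸ maximalIdeal A ^ (n + 1)) (xA p)) :=
      isCont_map _ hπ hA2
    have g3 : F.IsNormalized (mat (fun p => (π : A →+* A ⧸ maximalIdeal A ^ (n + 1)) (xA p))) :=
      hAn.map π hπ
    have g4 : 𝒟 (stdRep _ (fun p => (π : A →+* A ⧸ maximalIdeal A ^ (n + 1)) (xA p)) g1 g2) := by
      have e1 := stdRep_baseChange (π : A →+* A ⧸ maximalIdeal A ^ (n + 1)) hπ xA hA1 hA2 g1 g2
      have e2 := final_isEquiv_baseChangeAlong (π : A →+* A ⧸ maximalIdeal A ^ (n + 1)) hπ hAequiv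
      exact h𝒟.of_isEquiv htest (final_isEquiv_trans (final_isEquiv_symm e2) e1)
        (hDA htest π hπ hπsurj)
    exact hunivP _ htest _ ⟨g1, g2, g3, g4⟩
  obtain ⟨φ, hφ, huniq⟩ := complete_exists_unique_algHom (maximalIdeal A) xu xA hlev
  have hφloc : IsLocalHom (φ : R →+* A) := complete_algHom_isLocalHom hAres φ
  refine ⟨φ, ⟨hφloc, ?_⟩, ?_⟩
  · have e1 := stdRep_baseChange (φ : R →+* A) hφloc xu h1 h2 (isHom_map _ h1)
      (isCont_map _ hφloc h2)
    have e2 := final_stdRep_congr (show (fun p => (φ : R →+* A) (xu p)) = xA from funext hφ)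
      (isHom_map _ h1) (isCont_map _ hφloc h2) hA1 hA2
    exact final_isEquiv_trans e1 (final_isEquiv_trans e2 hAequiv)
  · rintro φ' ⟨hφ', hequiv'⟩
    apply huniq
    have e1 := stdRep_baseChange (φ' : R →+* A) hφ' xu h1 h2 (isHom_map _ h1)
      (isCont_map _ hφ' h2)
    have e3 : (stdRep A (fun p => (φ' : R →+* A) (xu p)) (isHom_map _ h1)
        (isCont_map _ hφ' h2)).IsEquiv (stdRep A xA hA1 hA2) :=
      final_isEquiv_trans (final_isEquiv_symm e1)
        (final_isEquiv_trans hequiv' (final_isEquiv_symm hAequiv))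
    obtain ⟨P', Q', hPQ', hQP', hconj⟩ := (stdRep_isEquiv_iff _ _ _ _ _ _).mp e3
    have hn' : F.IsNormalized (mat (fun p => (φ' : R →+* A) (xu p))) := hn.map φ' hφ'
    have heq := Frame.normalized_unique hn' hAn P' Q' hPQ' hQP' hconj
    rintro ⟨g, a, b⟩
    exact congrFun (congrFun (congrFun heq g) a) b

end Universal

/-- **Final assembly**: if the Galois tuple functor satisfies the pro-representability axioms,
then the universal deformation ring exists. -/
theorem final_deformationRingData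
    {𝒪 : Type} [CommRing 𝒪] [IsDomain 𝒪] [IsDiscreteValuationRing 𝒪]
    [IsAdicComplete (maximalIdeal 𝒪) 𝒪] [Finite (ResidueField 𝒪)]
    {ρbar : ResidualGaloisRep (ResidueField 𝒪)}
    {𝒟 : ∀ ⦃A : Type⦄ [CommRing A] [IsLocalRing A] [Algebra 𝒪 A], GaloisRepAdic A → Prop}
    (F : Frame 𝒪 ρbar) (habs : ρbar.IsAbsolutelyIrreducible)
    (h𝒟 : IsDeformationCondition 𝒪 𝒟)
    (hPF : PFData 𝒪 (GalP F 𝒟) (tup F.rt)) :
    Nonempty (DeformationRingData 𝒪 ρbar 𝒟) := by
  obtain ⟨R, iR1, iR2, iR3, iR4, iR5, hRloc, hRres, xu, hsurjP, hunivP⟩ := exists_prorep hPF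
  obtain ⟨h1, h2, hn⟩ := final_universal_tuple F 𝒟 hRloc hRres xu hsurjP
  refine ⟨{ R := R
            residue_surjective := hRres
            absIrr := habs
            ρ := stdRep R xu h1 h2
            isOfType := ?_
            residual_isEquiv := ?_
            universal := fun A _ _ _ _ _ _ hAres ρA hD hresA =>
              final_universal h𝒟 xu h1 h2 hn hunivP A hAres ρA hD hresA }⟩
  · refine (h𝒟.iff_forall_surjective hRloc hRres _).mpr fun B _ _ _ hB q hq hqsurj => ?_
    obtain ⟨g1, g2, -, g4⟩ := hsurjP B hB q hqsurj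
    exact h𝒟.of_isEquiv hB
      (final_isEquiv_symm (stdRep_baseChange (q : R →+* B) hq xu h1 h2 g1 g2)) g4
  · refine stdRep_residual ρbar F.e (ResidueField.map (algebraMap 𝒪 R)) xu h1 h2 fun g i j => ?_
    rw [← F.rt_res, ResidueField.map_residue, ← sub_eq_zero, ← map_sub, residue_eq_zero_iff]
    exact hn.res g i j

end Fermat.Agent.DR
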