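/-
S53 project, final assembly, part (Z2) (helper6): the universal tuple over the universal ring is
of type `𝒟`, and its residual representation is `ρbar`.
-/
import Fermat.Agent.Lib.DR_GalP
import Fermat.Agent.Lib.DR_Res

set_option autoImplicit false

noncomputable section

namespace Fermat.Agent.DR

open IsLocalRing GaloisRep

variable {𝒪 : Type} [CommRing 𝒪] [IsLocalRing 𝒪] {ρbar : ResidualGaloisRep (ResidueField 𝒪)}
  (F : Frame 𝒪 ρbar)
  {𝒟 : ∀ ⦃A : Type⦄ [CommRing A] [IsLocalRing A] [Algebra 𝒪 A], GaloisRepAdic A → Prop}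

/-- If every surjection of `R` onto a test algebra pushes the tuple `xu` to a point of the Galois
tuple functor, then the standard representation of `xu` is of type `𝒟`. -/
theorem z2_isOfType (h𝒟 : IsDeformationCondition 𝒪 𝒟)
    {R : Type} [CommRing R] [IsLocalRing R] [IsNoetherianRing R]
    [IsAdicComplete (maximalIdeal R) R] [Algebra 𝒪 R]
    (hloc : IsLocalHom (algebraMap 𝒪 R))
    (hres : Function.Surjective (residue R ∘ algebraMap 𝒪 R))
    (xu : Idx → R) (h1 : IsHom xu) (h2 : IsCont R xu)
    (hi : ∀ (B : Type) [CommRing B] [IsLocalRing B] [Algebra 𝒪 B], IsArtinianTestAlgebra 𝒪 B →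
      ∀ q : R →ₐ[𝒪] B, Function.Surjective q → GalP F 𝒟 B (fun i => q (xu i))) :
    𝒟 (stdRep R xu h1 h2) := by
  rw [h𝒟.iff_forall_surjective hloc hres (stdRep R xu h1 h2)]
  intro B _ _ _ hB q hq hqs
  obtain ⟨h1', h2', -, hD⟩ := hi B hB q hqs
  obtain ⟨e⟩ := stdRep_baseChange (q : R →+* B) hq xu h1 h2 h1' h2'
  exact h𝒟.of_isEquiv hB ⟨e.symm⟩ hD

/-- A tuple lifting the residual matrices of the frame has residual representation `ρbar`
(base-changed along the map of residue fields). -/
theorem z2_residual {R : Type} [CommRing R] [IsLocalRing R] [Algebra 𝒪 R]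
    [IsLocalHom (algebraMap 𝒪 R)] (xu : Idx → R) (h1 : IsHom xu) (h2 : IsCont R xu)
    (hL : F.IsLift (mat xu)) :
    (stdRep R xu h1 h2).residual.IsEquiv
      (ρbar.baseChangeAlong (ResidueField.map (algebraMap 𝒪 R))) := by
  refine stdRep_residual ρbar F.e (ResidueField.map (algebraMap 𝒪 R)) xu h1 h2 fun g i j => ?_
  rw [← F.rt_res g i j, ResidueField.map_residue]
  have h := hL.res g i j
  rw [mat_apply] at h
  exact Ideal.Quotient.eq.mpr h

end Fermat.Agent.DR
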