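/-
S53 project: the `tangent` and `point` axioms of `PFData` for the Galois tuple functor `GalP`.
-/
import Fermat.Agent.Lib.DR_GalP
import Fermat.Agent.Lib.DR_Res
import Fermat.Agent.Lib.DR_Test

set_option autoImplicit false

noncomputable section

namespace Fermat.Agent.DR

open IsLocalRing GaloisRep

variable {𝒪 : Type} [CommRing 𝒪] [IsLocalRing 𝒪] {ρbar : ResidualGaloisRep (ResidueField 𝒪)}
  {𝒟 : ∀ ⦃A : Type⦄ [CommRing A] [IsLocalRing A] [Algebra 𝒪 A], GaloisRepAdic A → Prop}

/-- A point over the residue field: the matrices of `ρbar` in the basis of the frame. -/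
theorem galtan_point (F : Frame 𝒪 ρbar) (h𝒟 : IsDeformationCondition 𝒪 𝒟)
    (hbar : 𝒟 (GaloisRepAdic.ofResidualGaloisRep ρbar)) :
    ∃ x : Idx → ResidueField 𝒪, GalP F 𝒟 (ResidueField 𝒪) x := by
  have h1 := isHom_resTuple ρbar F.e
  have h2 := isCont_resTuple ρbar F.e
  have hx : ∀ σ i j, mat (resTuple ρbar F.e) σ i j = residue 𝒪 (F.rt σ i j) := fun σ i j =>
    (F.rt_res σ i j).symm
  refine ⟨resTuple ρbar F.e, h1, h2, ?_, ?_⟩
  · refine
      { map_one := h1.1
        map_mul := h1.2
        res := fun σ i j => ?_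
        n₁ := ?_
        n₂ := ?_
        n₃ := ?_ }
    · rw [hx]
      have : residue 𝒪 (F.rt σ i j) - algebraMap 𝒪 (ResidueField 𝒪) (F.rt σ i j) = 0 := sub_self _
      rw [this]
      exact Ideal.zero_mem _
    · rw [hx, F.rt_g₂_00, map_zero]
    · rw [hx, F.rt_g₂_10, map_one]
    · rw [hx]; rfl
  · obtain ⟨e⟩ := stdRep_resTuple_isEquiv ρbar F.e h1 h2
    exact h𝒟.of_isEquiv test_residueField ⟨e.symm⟩ hbar

/-- A type mapping into a finite quotient, injectively up to the relation, is finite. -/
theorem galtan_finite_of_quotient {α β : Type*} (S : Setoid β) [Finite (Quotient S)] (f : α → β)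
    (hf : ∀ a a', S.r (f a) (f a') → a = a') : Finite α :=
  Finite.of_injective (fun a => (Quotient.mk S (f a) : Quotient S))
    (fun a a' h => hf a a' (Quotient.exact h))

/-- The tangent axiom: finitely many points over the dual numbers. -/
theorem galtan_tangent (F : Frame 𝒪 ρbar) (hfin : TangentFinite 𝒪 ρbar 𝒟) :
    letI := dualAlg 𝒪
    Finite {x : Idx → DualNumber (ResidueField 𝒪) // GalP F 𝒟 (DualNumber (ResidueField 𝒪)) x} := by
  let _ := dualAlg 𝒪
  unfold TangentFinite at hfin
  -- the residue map of the dual numbers composed with the structure map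
  set ψ : ResidueField 𝒪 →+* ResidueField (DualNumber (ResidueField 𝒪)) :=
    (residue (DualNumber (ResidueField 𝒪))).comp
      (algebraMap (ResidueField 𝒪) (DualNumber (ResidueField 𝒪))) with hψ
  have hres : ∀ (x : Idx → DualNumber (ResidueField 𝒪)) (h1 : IsHom x)
      (h2 : IsCont (DualNumber (ResidueField 𝒪)) x), F.IsNormalized (mat x) →
      (stdRep (DualNumber (ResidueField 𝒪)) x h1 h2).residual.IsEquiv (ρbar.baseChangeAlong ψ) := by
    intro x h1 h2 hn
    refine stdRep_residual ρbar F.e ψ x h1 h2 fun g i j => ?_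
    have h3 := hn.res g i j
    rw [← residue_eq_zero_iff, map_sub, sub_eq_zero] at h3
    rw [← F.rt_res g i j]
    exact h3
  refine @galtan_finite_of_quotient _ _ _ hfin
    (fun x : {x : Idx → DualNumber (ResidueField 𝒪) //
        GalP F 𝒟 (DualNumber (ResidueField 𝒪)) x} =>
      ⟨stdRep (DualNumber (ResidueField 𝒪)) x.1 x.2.choose x.2.choose_spec.choose,
        x.2.choose_spec.choose_spec.2,
        hres x.1 x.2.choose x.2.choose_spec.choose x.2.choose_spec.choose_spec.1⟩) ?_
  intro x y hE
  obtain ⟨P, Q, hPQ, hQP, hconj⟩ :=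
    (stdRep_isEquiv_iff x.1 y.1 x.2.choose x.2.choose_spec.choose y.2.choose
      y.2.choose_spec.choose).1 hE
  have hmat := Frame.normalized_unique x.2.choose_spec.choose_spec.1
    y.2.choose_spec.choose_spec.1 P Q hPQ hQP hconj
  apply Subtype.ext
  rw [← tup_mat x.1, ← tup_mat y.1, hmat]

end Fermat.Agent.DR
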