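/-
S53 project, module (X) (helper5): the Galois tuple functor `GalP` satisfies the axioms
`base_mem`, `map`, `joint` of `PFData`.
-/
import Fermat.Agent.Lib.DR_GalP
import Fermat.Agent.Lib.DR_Tangent

set_option autoImplicit false
set_option linter.unusedSectionVars false
set_option linter.style.haveILetI false

noncomputable section

namespace Fermat.Agent.DR

open IsLocalRing GaloisRep

section

variable {𝒪 : Type} [CommRing 𝒪] [IsLocalRing 𝒪] {ρbar : ResidualGaloisRep (ResidueField 𝒪)}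
  (F : Frame 𝒪 ρbar)
  {𝒟 : ∀ ⦃A : Type⦄ [CommRing A] [IsLocalRing A] [Algebra 𝒪 A], GaloisRepAdic A → Prop}

/-- `PFData.base_mem` for the Galois tuple functor. -/
theorem galx_base_mem (A : Type) [CommRing A] [IsLocalRing A] [Algebra 𝒪 A]
    (_hA : IsArtinianTestAlgebra 𝒪 A) (x : Idx → A) (hx : GalP F 𝒟 A x) (i : Idx) :
    x i - algebraMap 𝒪 A (tup F.rt i) ∈ maximalIdeal A := by
  obtain ⟨_, _, hn, _⟩ := hx
  exact hn.res i.1 i.2.1 i.2.2

/-- Equivalence of Galois representations is symmetric. -/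
theorem galx_isEquiv_symm {A : Type} [CommRing A] [IsLocalRing A] {ρ₁ ρ₂ : GaloisRepAdic A}
    (h : ρ₁.IsEquiv ρ₂) : ρ₂.IsEquiv ρ₁ := by
  obtain ⟨e⟩ := h
  exact ⟨e.symm⟩

/-- `PFData.map` for the Galois tuple functor. -/
theorem galx_map (h𝒟 : IsDeformationCondition 𝒪 𝒟) (A B : Type) [CommRing A] [IsLocalRing A]
    [Algebra 𝒪 A] [CommRing B] [IsLocalRing B] [Algebra 𝒪 B]
    (hA : IsArtinianTestAlgebra 𝒪 A) (hB : IsArtinianTestAlgebra 𝒪 B)
    (φ : A →ₐ[𝒪] B) (x : Idx → A) (hx : GalP F 𝒟 A x) : GalP F 𝒟 B (fun i => φ (x i)) := by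
  obtain ⟨h1, h2, hn, hD⟩ := hx
  have hφ : IsLocalHom (φ : A →+* B) := algHom_isLocalHom_of_test hB φ
  have h1' : IsHom (fun p => φ (x p)) := isHom_map (φ : A →+* B) h1
  have h2' : IsCont B (fun p => φ (x p)) := isCont_map (φ : A →+* B) hφ h2
  refine ⟨h1', h2', hn.map φ hφ, ?_⟩
  have hbc := h𝒟.baseChangeAlong hA hB φ hφ hD
  exact h𝒟.of_isEquiv hB (stdRep_baseChange (φ : A →+* B) hφ x h1 h2 h1' h2') hbc

/-- Any two `𝒪`-algebra homomorphisms from a test algebra to the residue field of `𝒪` agree. -/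
theorem galx_algHom_residueField_eq {Q : Type} [CommRing Q] [IsLocalRing Q] [Algebra 𝒪 Q]
    (hQ : IsArtinianTestAlgebra 𝒪 Q) (u v : Q →ₐ[𝒪] ResidueField 𝒪) (q : Q) : u q = v q := by
  obtain ⟨c, hc⟩ := test_decomp hQ q
  have hnil := test_isNilpotent hQ hc
  have hu : u (q - algebraMap 𝒪 Q c) = 0 := (hnil.map u).eq_zero
  have hv : v (q - algebraMap 𝒪 Q c) = 0 := (hnil.map v).eq_zero
  rw [map_sub, AlgHom.commutes, sub_eq_zero] at hu hv
  rw [hu, hv]

/-- `PFData.joint` for the Galois tuple functor. -/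
theorem galx_joint [Finite (ResidueField 𝒪)] (h𝒟 : IsDeformationCondition 𝒪 𝒟) (A B Q : Type)
    [CommRing A] [IsLocalRing A] [Algebra 𝒪 A] [CommRing B] [IsLocalRing B] [Algebra 𝒪 B]
    [CommRing Q] [IsLocalRing Q] [Algebra 𝒪 Q]
    (hA : IsArtinianTestAlgebra 𝒪 A) (hB : IsArtinianTestAlgebra 𝒪 B)
    (hQ : IsArtinianTestAlgebra 𝒪 Q) (pA : Q →ₐ[𝒪] A) (pB : Q →ₐ[𝒪] B)
    (hinj : ∀ q q' : Q, pA q = pA q' → pB q = pB q' → q = q') (z : Idx → Q)
    (hzA : GalP F 𝒟 A (fun i => pA (z i))) (hzB : GalP F 𝒟 B (fun i => pB (z i))) :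
    GalP F 𝒟 Q z := by
  obtain ⟨hA1, hA2, hAn, hAD⟩ := hzA
  obtain ⟨hB1, hB2, hBn, hBD⟩ := hzB
  -- the tuple `z` itself is multiplicative, continuous and normalized
  have hzn : F.IsNormalized (mat z) := Frame.IsNormalized.of_joint pA pB hinj hAn hBn
  have hz1 : IsHom z := ⟨hzn.map_one, hzn.map_mul⟩
  have hz2 : IsCont Q z := nf_isCont_of_joint (pA : Q →+* A) (pB : Q →+* B) hinj
    (test_exists_pow hA) (test_exists_pow hB) hA2 hB2
  refine ⟨hz1, hz2, hzn, ?_⟩
  -- the fibre product `S = A ×_k B`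
  obtain ⟨eA, heA⟩ := tan_exists_resEquiv hA
  obtain ⟨eB, heB⟩ := tan_exists_resEquiv hB
  let f : A →ₐ[𝒪] ResidueField 𝒪 :=
    { ((eA : ResidueField A →+* ResidueField 𝒪).comp (residue A)) with
      commutes' := fun c => heA c }
  let g : B →ₐ[𝒪] ResidueField 𝒪 :=
    { ((eB : ResidueField B →+* ResidueField 𝒪).comp (residue B)) with
      commutes' := fun c => heB c }
  have hf0 : ∀ a : A, f a = 0 ↔ a ∈ maximalIdeal A := by
    intro a
    show eA (residue A a) = 0 ↔ _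
    rw [map_eq_zero_iff eA eA.injective, residue_eq_zero_iff]
  have hg0 : ∀ b : B, g b = 0 ↔ b ∈ maximalIdeal B := by
    intro b
    show eB (residue B b) = 0 ↔ _
    rw [map_eq_zero_iff eB eB.injective, residue_eq_zero_iff]
  let S : Subalgebra 𝒪 (A × B) :=
    AlgHom.equalizer (f.comp (AlgHom.fst 𝒪 A B)) (g.comp (AlgHom.snd 𝒪 A B))
  have hSmem : ∀ s : A × B, s ∈ S ↔ f s.1 = g s.2 := fun s => Iff.rfl
  obtain ⟨hSloc, hS⟩ := test_prod_subalgebra hA hB S (by
    intro s hs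
    rw [← hf0, ← hg0, (hSmem s).mp hs])
  haveI := hSloc
  let qA : S →ₐ[𝒪] A := (AlgHom.fst 𝒪 A B).comp S.val
  let qB : S →ₐ[𝒪] B := (AlgHom.snd 𝒪 A B).comp S.val
  have hqinj : ∀ s s' : S, qA s = qA s' → qB s = qB s' → s = s' := by
    intro s s' h1 h2
    exact Subtype.ext (Prod.ext h1 h2)
  have hqA : IsLocalHom (qA : S →+* A) := algHom_isLocalHom_of_test hA qA
  have hqB : IsLocalHom (qB : S →+* B) := algHom_isLocalHom_of_test hB qB
  -- the map `j : Q → S`
  let j : Q →ₐ[𝒪] S := AlgHom.codRestrict (AlgHom.prod pA pB) S (fun q => by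
    rw [hSmem]
    exact galx_algHom_residueField_eq hQ (f.comp pA) (g.comp pB) q)
  have hjA : ∀ q, qA (j q) = pA q := fun q => rfl
  have hjB : ∀ q, qB (j q) = pB q := fun q => rfl
  have hjinj : Function.Injective j := by
    intro q q' h
    exact hinj q q' (by rw [← hjA, h, hjA]) (by rw [← hjB, h, hjB])
  have hj : IsLocalHom (j : Q →+* S) := algHom_isLocalHom_of_test hS j
  -- the tuple `w = j ∘ z` over `S`
  have hwn : F.IsNormalized (mat (fun i => j (z i))) :=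
    Frame.IsNormalized.of_joint qA qB hqinj hAn hBn
  have hw1 : IsHom (fun i => j (z i)) := ⟨hwn.map_one, hwn.map_mul⟩
  have hw2 : IsCont S (fun i => j (z i)) := nf_isCont_of_joint (qA : S →+* A) (qB : S →+* B)
    hqinj (test_exists_pow hA) (test_exists_pow hB) hA2 hB2
  -- `𝒟` over `S` by the fibre product axiom
  have hSD : 𝒟 (stdRep S (fun i => j (z i)) hw1 hw2) := by
    refine h𝒟.of_fibreProduct hA hB test_residueField hS f g qA qB hqA hqB ?_ ?_ ?_ ?_ ?_
    · ext s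
      exact s.2
    · intro s s' h
      exact hqinj s s' (congrArg Prod.fst h) (congrArg Prod.snd h)
    · intro a b hab
      exact ⟨⟨(a, b), (hSmem (a, b)).mpr hab⟩, rfl, rfl⟩
    · exact h𝒟.of_isEquiv hA (galx_isEquiv_symm
        (stdRep_baseChange (qA : S →+* A) hqA (fun i => j (z i)) hw1 hw2 hA1 hA2)) hAD
    · exact h𝒟.of_isEquiv hB (galx_isEquiv_symm
        (stdRep_baseChange (qB : S →+* B) hqB (fun i => j (z i)) hw1 hw2 hB1 hB2)) hBD
  -- descend to `Q` along the injection `j`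
  refine h𝒟.of_baseChangeAlong_injective hQ hS j hj hjinj ?_
  exact h𝒟.of_isEquiv hS (galx_isEquiv_symm
    (stdRep_baseChange (j : Q →+* S) hj z hz1 hz2 hw1 hw2)) hSD

end

end Fermat.Agent.DR
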