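/-
S53 project: the Galois tuple functor `GalP F 𝒟` satisfies `PFData` (assembly of
DR_GalX [base_mem, map, joint] and DR_GalTan [tangent, point]).
-/
import Fermat.Agent.Lib.DR_GalX
import Fermat.Agent.Lib.DR_GalTan

set_option autoImplicit false

noncomputable section

namespace Fermat.Agent.DR

open IsLocalRing GaloisRep

/-- The Galois tuple functor attached to a frame and a deformation condition with finite tangent
space is pro-representable data in the sense of `PFData`. -/
theorem galP_pfData {𝒪 : Type} [CommRing 𝒪] [IsLocalRing 𝒪] [Finite (ResidueField 𝒪)]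
    {ρbar : ResidualGaloisRep (ResidueField 𝒪)} (F : Frame 𝒪 ρbar)
    {𝒟 : ∀ ⦃A : Type⦄ [CommRing A] [IsLocalRing A] [Algebra 𝒪 A], GaloisRepAdic A → Prop}
    (h𝒟 : IsDeformationCondition 𝒪 𝒟)
    (hbar : 𝒟 (GaloisRepAdic.ofResidualGaloisRep ρbar))
    (hfin : TangentFinite 𝒪 ρbar 𝒟) : PFData 𝒪 (GalP F 𝒟) (tup F.rt) where
  base_mem := galx_base_mem F
  map := galx_map F h𝒟
  joint := galx_joint F h𝒟
  tangent := galtan_tangent F hfin
  point := galtan_point F h𝒟 hbar

end Fermat.Agent.DR
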