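/-
S53 project, module G-4: the functor of normalised matrix lifts of type `𝒟` satisfies `PFData`.
-/
import Fermat.Agent.Lib.DR_StdRep
import Fermat.Agent.Lib.DR_Res
import Fermat.Agent.Lib.DR_Test
import Fermat.Agent.Lib.H5_Normal
import Fermat.Agent.Lib.DR_GalP

set_option autoImplicit false
set_option linter.style.haveILetI false

noncomputable section

namespace Fermat.Agent.DR

open IsLocalRing GaloisRep
open Fermat.Agent.Lib

section Hom

variable {A : Type} [CommRing A]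

/-- The bundled monoid homomorphism of a multiplicative tuple. -/
def homOf (x : Idx → A) (h : IsHom x) : Gal →* Matrix (Fin 2) (Fin 2) A where
  toFun := mat x
  map_one' := h.1
  map_mul' := h.2

@[simp] theorem homOf_apply (x : Idx → A) (h : IsHom x) (g : Gal) : homOf x h g = mat x g := rfl

theorem isHom_tup (r : Gal →* Matrix (Fin 2) (Fin 2) A) : IsHom (tup r) := by
  refine ⟨?_, fun g h => ?_⟩
  · rw [mat_tup, map_one]
  · rw [mat_tup, map_mul]

theorem homOf_tup (r : Gal →* Matrix (Fin 2) (Fin 2) A) (h : IsHom (tup r)) :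
    homOf (tup r) h = r := by
  ext g i j; rfl

theorem mapHom_homOf {B : Type} [CommRing B] (φ : A →+* B) (x : Idx → A) (h : IsHom x)
    (h' : IsHom (fun p => φ (x p))) :
    H6D.mapHom φ (homOf x h) = homOf (fun p => φ (x p)) h' := by
  ext g i j; rfl

variable [IsLocalRing A]

theorem matCont_homOf_iff (x : Idx → A) (h : IsHom x) :
    H6D.MatCont A (homOf x h) ↔ IsCont A x := Iff.rfl

end Hom

section Aug

variable {𝒪 : Type} [CommRing 𝒪] [IsLocalRing 𝒪]
variable {A : Type} [CommRing A] [IsLocalRing A] [Algebra 𝒪 A]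

/-- The augmentation of a test algebra to the residue field of `𝒪`. -/
theorem exists_aug (hA : IsArtinianTestAlgebra 𝒪 A) :
    ∃ ε : A →ₐ[𝒪] ResidueField 𝒪, ∀ a, ε a = 0 ↔ a ∈ maximalIdeal A := by
  haveI := hA.isLocalHom
  have hbij : Function.Bijective (ResidueField.map (algebraMap 𝒪 A)) := by
    refine ⟨RingHom.injective _, fun y => ?_⟩
    obtain ⟨c, hc⟩ := hA.residue_surjective y
    exact ⟨residue 𝒪 c, by rw [ResidueField.map_residue]; exact hc⟩
  let e := RingEquiv.ofBijective _ hbij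
  refine ⟨{ toRingHom := (e.symm : ResidueField A →+* ResidueField 𝒪).comp (residue A)
            commutes' := ?_ }, ?_⟩
  · intro c
    show e.symm (residue A (algebraMap 𝒪 A c)) = algebraMap 𝒪 (ResidueField 𝒪) c
    rw [RingEquiv.symm_apply_eq]
    show _ = ResidueField.map (algebraMap 𝒪 A) (residue 𝒪 c)
    rw [ResidueField.map_residue]
  · intro a
    show e.symm (residue A a) = 0 ↔ _
    rw [map_eq_zero_iff e.symm e.symm.injective, residue_eq_zero_iff]

/-- A test algebra has at most one augmentation. -/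
theorem aug_unique (hA : IsArtinianTestAlgebra 𝒪 A) (f g : A →ₐ[𝒪] ResidueField 𝒪) : f = g := by
  ext a
  obtain ⟨c, hc⟩ := test_decomp hA a
  have hn := test_isNilpotent hA hc
  have hf : f (a - algebraMap 𝒪 A c) = 0 := (hn.map f).eq_zero
  have hg : g (a - algebraMap 𝒪 A c) = 0 := (hn.map g).eq_zero
  rw [map_sub, AlgHom.commutes, sub_eq_zero] at hf hg
  rw [hf, hg]

end Aug

section Joint

variable {Q A B : Type} [CommRing Q] [CommRing A] [CommRing B]

theorem isHom_of_joint (pA : Q →+* A) (pB : Q →+* B)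
    (hinj : ∀ q q' : Q, pA q = pA q' → pB q = pB q' → q = q') {z : Idx → Q}
    (hA : IsHom (fun i => pA (z i))) (hB : IsHom (fun i => pB (z i))) : IsHom z := by
  have key : ∀ M N : Matrix (Fin 2) (Fin 2) Q, M.map pA = N.map pA → M.map pB = N.map pB →
      M = N := by
    intro M N h1 h2
    ext i j
    exact hinj _ _ (congrFun (congrFun h1 i) j) (congrFun (congrFun h2 i) j)
  refine ⟨key _ _ ?_ ?_, fun g h => key _ _ ?_ ?_⟩
  · rw [← mat_map, hA.1, Matrix.map_one _ (map_zero _) (map_one _)]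
  · rw [← mat_map, hB.1, Matrix.map_one _ (map_zero _) (map_one _)]
  · rw [Matrix.map_mul, ← mat_map, ← mat_map, ← mat_map, hA.2]
  · rw [Matrix.map_mul, ← mat_map, ← mat_map, ← mat_map, hB.2]

variable [IsLocalRing Q] [IsLocalRing A] [IsLocalRing B]

theorem isCont_of_joint (pA : Q →+* A) (pB : Q →+* B)
    (hinj : ∀ q q' : Q, pA q = pA q' → pB q = pB q' → q = q')
    (hnA : ∃ N : ℕ, maximalIdeal A ^ N = ⊥) (hnB : ∃ N : ℕ, maximalIdeal B ^ N = ⊥)
    {z : Idx → Q} (hA : IsCont A (fun i => pA (z i))) (hB : IsCont B (fun i => pB (z i))) :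
    IsCont Q z := by
  obtain ⟨NA, hNA⟩ := hnA
  obtain ⟨NB, hNB⟩ := hnB
  obtain ⟨LA, hLA, hA'⟩ := hA NA
  obtain ⟨LB, hLB, hB'⟩ := hB NB
  intro n
  haveI := hLA
  haveI := hLB
  refine ⟨LA ⊔ LB, IntermediateField.finiteDimensional_sup LA LB, fun σ hσ i j => ?_⟩
  have hone : ∀ {C : Type} [CommRing C] (φ : Q →+* C),
      φ ((1 : Matrix (Fin 2) (Fin 2) Q) i j) = (1 : Matrix (Fin 2) (Fin 2) C) i j := by
    intro C _ φ
    simp only [Matrix.one_apply]
    split_ifs <;> simp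
  have e1 : pA (mat z σ i j - (1 : Matrix (Fin 2) (Fin 2) Q) i j) = 0 := by
    have := hA' σ (fun x hx => hσ x ((le_sup_left : LA ≤ LA ⊔ LB) hx)) i j
    rw [hNA, Ideal.mem_bot] at this
    rw [map_sub, hone]
    exact this
  have e2 : pB (mat z σ i j - (1 : Matrix (Fin 2) (Fin 2) Q) i j) = 0 := by
    have := hB' σ (fun x hx => hσ x ((le_sup_right : LB ≤ LA ⊔ LB) hx)) i j
    rw [hNB, Ideal.mem_bot] at this
    rw [map_sub, hone]
    exact this
  have : mat z σ i j - (1 : Matrix (Fin 2) (Fin 2) Q) i j = 0 :=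
    hinj _ _ (by rw [e1, map_zero]) (by rw [e2, map_zero])
  rw [this]
  exact Ideal.zero_mem _

end Joint

section GP

variable {𝒪 : Type} [CommRing 𝒪] [IsLocalRing 𝒪] {ρbar : ResidualGaloisRep (ResidueField 𝒪)}

/-- The base tuple of a frame. -/
def baseOf (F : H5D.Frame 𝒪 ρbar) : Idx → 𝒪 := fun p => F.rt p.1 p.2.1 p.2.2

/-- The functor of normalised matrix lifts of type `𝒟`, as a predicate on tuples. -/
def GP (F : H5D.Frame 𝒪 ρbar)
    (𝒟 : ∀ ⦃A : Type⦄ [CommRing A] [IsLocalRing A] [Algebra 𝒪 A], GaloisRepAdic A → Prop) :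
    ∀ (A : Type) [CommRing A] [IsLocalRing A] [Algebra 𝒪 A], (Idx → A) → Prop :=
  fun A _ _ _ x => ∃ (h1 : IsHom x) (h2 : IsCont A x),
    F.IsNormalized A (homOf x h1) ∧ 𝒟 (stdRep A x h1 h2)

variable (F : H5D.Frame 𝒪 ρbar)
  {𝒟 : ∀ ⦃A : Type⦄ [CommRing A] [IsLocalRing A] [Algebra 𝒪 A], GaloisRepAdic A → Prop}

theorem GP_base_mem {A : Type} [CommRing A] [IsLocalRing A] [Algebra 𝒪 A] {x : Idx → A}
    (hx : GP F 𝒟 A x) (p : Idx) : x p - algebraMap 𝒪 A (baseOf F p) ∈ maximalIdeal A := by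
  obtain ⟨h1, h2, hn, -⟩ := hx
  exact hn.lift p.1 p.2.1 p.2.2

theorem GP_map (h𝒟 : IsDeformationCondition 𝒪 𝒟)
    {A B : Type} [CommRing A] [IsLocalRing A] [Algebra 𝒪 A]
    [CommRing B] [IsLocalRing B] [Algebra 𝒪 B]
    (hA : IsArtinianTestAlgebra 𝒪 A) (hB : IsArtinianTestAlgebra 𝒪 B)
    (φ : A →ₐ[𝒪] B) {x : Idx → A} (hx : GP F 𝒟 A x) : GP F 𝒟 B (fun i => φ (x i)) := by
  obtain ⟨h1, h2, hn, hD⟩ := hx
  have hφ : IsLocalHom (φ : A →+* B) := algHom_isLocalHom_of_test hB φ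
  have h1' : IsHom (fun p => (φ : A →+* B) (x p)) := isHom_map (φ : A →+* B) h1
  have h2' : IsCont B (fun p => (φ : A →+* B) (x p)) := isCont_map (φ : A →+* B) hφ h2
  refine ⟨h1', h2', ?_, ?_⟩
  · have := hn.map φ hφ
    rwa [mapHom_homOf (φ : A →+* B) x h1 h1'] at this
  · exact h𝒟.of_isEquiv hB (stdRep_baseChange (φ : A →+* B) hφ x h1 h2 h1' h2')
      (h𝒟.baseChangeAlong hA hB φ hφ hD)

theorem GP_joint [Finite (ResidueField 𝒪)] (h𝒟 : IsDeformationCondition 𝒪 𝒟)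
    {A B Q : Type} [CommRing A] [IsLocalRing A] [Algebra 𝒪 A]
    [CommRing B] [IsLocalRing B] [Algebra 𝒪 B] [CommRing Q] [IsLocalRing Q] [Algebra 𝒪 Q]
    (hA : IsArtinianTestAlgebra 𝒪 A) (hB : IsArtinianTestAlgebra 𝒪 B)
    (hQ : IsArtinianTestAlgebra 𝒪 Q) (pA : Q →ₐ[𝒪] A) (pB : Q →ₐ[𝒪] B)
    (hinj : ∀ q q' : Q, pA q = pA q' → pB q = pB q' → q = q')
    (z : Idx → Q) (hzA : GP F 𝒟 A (fun i => pA (z i))) (hzB : GP F 𝒟 B (fun i => pB (z i))) :
    GP F 𝒟 Q z := by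
  obtain ⟨a1, a2, an, aD⟩ := hzA
  obtain ⟨b1, b2, bn, bD⟩ := hzB
  have hinj' : ∀ q q' : Q, (pA : Q →+* A) q = (pA : Q →+* A) q' →
      (pB : Q →+* B) q = (pB : Q →+* B) q' → q = q' := hinj
  have h1 : IsHom z := isHom_of_joint (pA : Q →+* A) (pB : Q →+* B) hinj' a1 b1
  have h2 : IsCont Q z := isCont_of_joint (pA : Q →+* A) (pB : Q →+* B) hinj'
    (test_exists_pow hA) (test_exists_pow hB) a2 b2
  refine ⟨h1, h2, ?_, ?_⟩
  · -- normalisation
    have hmA : H6D.mapHom (pA : Q →+* A) (homOf z h1) = homOf (fun i => pA (z i)) a1 :=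
      mapHom_homOf (pA : Q →+* A) z h1 a1
    have hmB : H6D.mapHom (pB : Q →+* B) (homOf z h1) = homOf (fun i => pB (z i)) b1 :=
      mapHom_homOf (pB : Q →+* B) z h1 b1
    refine ⟨H5D.isLift_of_mapHom F.rt pA (by rw [hmA]; exact an.lift), ?_, ?_, ?_⟩
    · refine hinj _ _ ?_ ?_
      · rw [map_zero]; exact an.n₁
      · rw [map_zero]; exact bn.n₁
    · refine hinj _ _ ?_ ?_
      · rw [map_one]; exact an.n₂
      · rw [map_one]; exact bn.n₂
    · refine hinj _ _ ?_ ?_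
      · rw [AlgHom.commutes]; exact an.n₃
      · rw [AlgHom.commutes]; exact bn.n₃
  · -- the deformation condition, via the fibre product over the residue field
    obtain ⟨εA, hεA⟩ := exists_aug hA
    obtain ⟨εB, hεB⟩ := exists_aug hB
    let Fp : Subalgebra 𝒪 (A × B) :=
      AlgHom.equalizer (εA.comp (AlgHom.fst 𝒪 A B)) (εB.comp (AlgHom.snd 𝒪 A B))
    have hFp : ∀ s ∈ Fp, (s.1 ∈ maximalIdeal A ↔ s.2 ∈ maximalIdeal B) := by
      intro s hs
      have hs' : εA s.1 = εB s.2 := hs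
      rw [← hεA, ← hεB, hs']
    obtain ⟨hloc, hFpT⟩ := test_prod_subalgebra hA hB Fp hFp
    haveI := hloc
    let qA : Fp →ₐ[𝒪] A := (AlgHom.fst 𝒪 A B).comp Fp.val
    let qB : Fp →ₐ[𝒪] B := (AlgHom.snd 𝒪 A B).comp Fp.val
    have hε : εA.comp pA = εB.comp pB := aug_unique hQ _ _
    let j : Q →ₐ[𝒪] Fp := AlgHom.codRestrict (pA.prod pB) Fp
      (fun q => show εA (pA q) = εB (pB q) from congrArg (fun f => f q) hε)
    have hqA : IsLocalHom (qA : Fp →+* A) := algHom_isLocalHom_of_test hA qA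
    have hqB : IsLocalHom (qB : Fp →+* B) := algHom_isLocalHom_of_test hB qB
    have hj : IsLocalHom (j : Q →+* Fp) := algHom_isLocalHom_of_test hFpT j
    have hjinj : Function.Injective j := by
      intro q q' hqq
      have h := congrArg (fun s : Fp => (s : A × B)) hqq
      exact hinj q q' (congrArg Prod.fst h) (congrArg Prod.snd h)
    have h1F : IsHom (fun p => (j : Q →+* Fp) (z p)) := isHom_map (j : Q →+* Fp) h1
    have h2F : IsCont Fp (fun p => (j : Q →+* Fp) (z p)) := isCont_map (j : Q →+* Fp) hj h2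
    -- the representation over the fibre product is of type `𝒟`
    have hDF : 𝒟 (stdRep Fp (fun p => (j : Q →+* Fp) (z p)) h1F h2F) := by
      refine h𝒟.of_fibreProduct hA hB test_residueField hFpT εA εB qA qB hqA hqB ?_ ?_ ?_ ?_ ?_
      · ext s
        exact s.2
      · intro s s' hss
        apply Subtype.ext
        exact Prod.ext (congrArg Prod.fst hss) (congrArg Prod.snd hss)
      · intro a b hab
        exact ⟨⟨(a, b), hab⟩, rfl, rfl⟩
      · obtain ⟨e⟩ := stdRep_baseChange (qA : Fp →+* A) hqA _ h1F h2F a1 a2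
        exact h𝒟.of_isEquiv hA ⟨e.symm⟩ aD
      · obtain ⟨e⟩ := stdRep_baseChange (qB : Fp →+* B) hqB _ h1F h2F b1 b2
        exact h𝒟.of_isEquiv hB ⟨e.symm⟩ bD
    -- descend along the injection `Q ↪ Fp`
    refine h𝒟.of_baseChangeAlong_injective hQ hFpT j hj hjinj ?_
    obtain ⟨e⟩ := stdRep_baseChange (j : Q →+* Fp) hj z h1 h2 h1F h2F
    exact h𝒟.of_isEquiv hFpT ⟨e.symm⟩ hDF

theorem GP_point (h𝒟 : IsDeformationCondition 𝒪 𝒟)
    (hbar : 𝒟 (GaloisRepAdic.ofResidualGaloisRep ρbar)) :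
    ∃ x : Idx → ResidueField 𝒪, GP F 𝒟 (ResidueField 𝒪) x := by
  refine ⟨resTuple ρbar F.e, isHom_resTuple ρbar F.e, isCont_resTuple ρbar F.e, ?_, ?_⟩
  · refine ⟨fun g i j => ?_, ?_, ?_, ?_⟩
    · have : homOf (resTuple ρbar F.e) (isHom_resTuple ρbar F.e) g i j -
          algebraMap 𝒪 (ResidueField 𝒪) (F.rt g i j) = 0 := by
        rw [ResidueField.algebraMap_eq, F.rt_res, sub_eq_zero]; rfl
      rw [this]
      exact Ideal.zero_mem _
    · show LinearMap.toMatrix F.e F.e (ρbar.ρ F.g₂) 0 0 = 0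
      rw [← F.rt_res, F.rt_g₂_00, map_zero]
    · show LinearMap.toMatrix F.e F.e (ρbar.ρ F.g₂) 1 0 = 1
      rw [← F.rt_res, F.rt_g₂_10, map_one]
    · show LinearMap.toMatrix F.e F.e (ρbar.ρ F.g₃) F.i₀ F.j₀ = _
      rw [← F.rt_res, ResidueField.algebraMap_eq]
  · obtain ⟨e⟩ := stdRep_resTuple_isEquiv ρbar F.e (isHom_resTuple ρbar F.e)
      (isCont_resTuple ρbar F.e)
    exact h𝒟.of_isEquiv test_residueField ⟨e.symm⟩ hbar

theorem GP_tangent (hfin : TangentFinite 𝒪 ρbar 𝒟) :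
    letI := dualAlg 𝒪
    Finite {x : Idx → DualNumber (ResidueField 𝒪) //
      GP F 𝒟 (DualNumber (ResidueField 𝒪)) x} := by
  letI := dualAlg 𝒪
  unfold TangentFinite at hfin
  have H1 : ∀ x : {x : Idx → DualNumber (ResidueField 𝒪) //
      GP F 𝒟 (DualNumber (ResidueField 𝒪)) x}, IsHom x.1 := fun x => x.2.choose
  have H2 : ∀ x : {x : Idx → DualNumber (ResidueField 𝒪) //
      GP F 𝒟 (DualNumber (ResidueField 𝒪)) x}, IsCont _ x.1 := fun x => x.2.choose_spec.choose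
  have HN : ∀ x : {x : Idx → DualNumber (ResidueField 𝒪) //
      GP F 𝒟 (DualNumber (ResidueField 𝒪)) x}, F.IsNormalized _ (homOf x.1 (H1 x)) :=
    fun x => x.2.choose_spec.choose_spec.1
  have HD : ∀ x : {x : Idx → DualNumber (ResidueField 𝒪) //
      GP F 𝒟 (DualNumber (ResidueField 𝒪)) x}, 𝒟 (stdRep _ x.1 (H1 x) (H2 x)) :=
    fun x => x.2.choose_spec.choose_spec.2
  have HR : ∀ x : {x : Idx → DualNumber (ResidueField 𝒪) //
      GP F 𝒟 (DualNumber (ResidueField 𝒪)) x},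
      (stdRep _ x.1 (H1 x) (H2 x)).residual.IsEquiv (ρbar.baseChangeAlong
        ((residue (DualNumber (ResidueField 𝒪))).comp
          (algebraMap (ResidueField 𝒪) (DualNumber (ResidueField 𝒪))))) := by
    intro x
    refine stdRep_residual ρbar F.e _ x.1 (H1 x) (H2 x) fun g i j => ?_
    have h := (HN x).lift g i j
    rw [← residue_eq_zero_iff, map_sub, sub_eq_zero] at h
    rw [← F.rt_res]
    exact h
  refine @Finite.of_injective _ _ hfin
    (fun x => Quotient.mk _ ⟨stdRep _ x.1 (H1 x) (H2 x), HD x, HR x⟩) ?_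
  intro x y hxy
  have hE : (stdRep _ x.1 (H1 x) (H2 x)).IsEquiv (stdRep _ y.1 (H1 y) (H2 y)) :=
    Quotient.exact hxy
  rw [stdRep_isEquiv_iff] at hE
  obtain ⟨P, Q, hPQ, hQP, h⟩ := hE
  have hu := H5D.Frame.normalized_unique (HN x) (HN y) P Q hPQ hQP h
  apply Subtype.ext
  funext p
  have := congrArg (fun r : Gal →* Matrix (Fin 2) (Fin 2) (DualNumber (ResidueField 𝒪)) =>
    r p.1 p.2.1 p.2.2) hu
  exact this.symm

/-- The Galois functor of normalised lifts of type `𝒟` satisfies the axioms `PFData`. -/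
theorem GP_pfData [Finite (ResidueField 𝒪)] (h𝒟 : IsDeformationCondition 𝒪 𝒟)
    (hbar : 𝒟 (GaloisRepAdic.ofResidualGaloisRep ρbar)) (hfin : TangentFinite 𝒪 ρbar 𝒟) :
    PFData 𝒪 (GP F 𝒟) (baseOf F) where
  base_mem := fun _ _ _ _ _ _ hx i => GP_base_mem F hx i
  map := fun _ _ _ _ _ _ _ _ hA hB φ _ hx => GP_map F h𝒟 hA hB φ hx
  joint := fun _ _ _ _ _ _ _ _ _ _ _ _ hA hB hQ pA pB hinj z hzA hzB =>
    GP_joint F h𝒟 hA hB hQ pA pB hinj z hzA hzB
  tangent := GP_tangent F hfin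
  point := GP_point F h𝒟 hbar

/-- The two formulations of the Galois functor agree. -/
theorem GalP_eq_GP
    (𝒟 : ∀ ⦃A : Type⦄ [CommRing A] [IsLocalRing A] [Algebra 𝒪 A], GaloisRepAdic A → Prop) :
    GalP F 𝒟 = GP F 𝒟 := by
  funext A _ _ _ x
  apply propext
  constructor
  · rintro ⟨h1, h2, hn, hD⟩
    exact ⟨h1, h2, hn.nf_bundled, hD⟩
  · rintro ⟨h1, h2, hn, hD⟩
    have hn' : Frame.IsNormalized F (mat x) :=
      { map_one := h1.1
        map_mul := h1.2
        res := hn.lift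
        n₁ := hn.n₁
        n₂ := hn.n₂
        n₃ := hn.n₃ }
    exact ⟨h1, h2, hn', hD⟩

/-- `PFData` for the Galois functor `GalP`, with base tuple `tup F.rt`. -/
theorem GalP_pfData [Finite (ResidueField 𝒪)] (h𝒟 : IsDeformationCondition 𝒪 𝒟)
    (hbar : 𝒟 (GaloisRepAdic.ofResidualGaloisRep ρbar)) (hfin : TangentFinite 𝒪 ρbar 𝒟) :
    PFData 𝒪 (GalP F 𝒟) (tup F.rt) := by
  rw [GalP_eq_GP]
  exact GP_pfData F h𝒟 hbar hfin

end GP

end Fermat.Agent.DR
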