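import Mathlib

/-!
# S16, upper bound: the arithmetic assembly (helper8)

From the linear bound (at `k = 1, 2`) and the three special cases (A), (B), (C) to
`M ∣ (p - 1) / gcd (p - 1, 12)`.
-/

set_option autoImplicit false

namespace Fermat.Agent.E16

/-- core: `M ∣ n * c`, every prime factor of `c` divides `p + 1`, `c` odd unless `p ≡ 7 mod 8`,
and the cases (A), (B), (C) give `M ∣ n`. -/
theorem e16_ub_arith_core (p M n c : ℕ) (hMnc : M ∣ n * c) (hc : c ∣ p + 1)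
    (hc2 : 2 ∣ c → p % 8 = 7)
    (hA : ∀ l : ℕ, l.Prime → 5 ≤ l → l ∣ p + 1 → ¬ l ∣ M)
    (hB : p % 3 = 2 → ¬ 3 ∣ M)
    (hC : p % 8 = 7 → ¬ 2 ∣ M) : M ∣ n := by
  apply Nat.Coprime.dvd_of_dvd_mul_right _ hMnc
  apply Nat.coprime_of_dvd
  intro l hl hlM hlc
  have hlp : l ∣ p + 1 := dvd_trans hlc hc
  rcases Nat.lt_or_ge l 5 with h5 | h5
  · have h2 := hl.two_le
    have hl23 : l = 2 ∨ l = 3 := by
      rcases (by omega : l = 2 ∨ l = 3 ∨ l = 4) with h | h | h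
      · exact Or.inl h
      · exact Or.inr h
      · subst h; exact absurd hl (by norm_num)
    rcases hl23 with rfl | rfl
    · exact hC (hc2 hlc) hlM
    · exact hB (by omega) hlM
  · exact hA l hl h5 hlp hlM

/-- **arithmetic assembly of the upper bound** -/
theorem e16_ub_arith (p : ℕ) (hp : p.Prime) (hp5 : 5 ≤ p) (M : ℕ)
    (h1 : (M : ℤ) ∣ (((p ^ 2 - 1) / 24 : ℕ) : ℤ) * (10 * (p : ℤ) - 11))
    (h2 : (M : ℤ) ∣ (((p ^ 2 - 1) / 24 : ℕ) : ℤ) * (90 * (p : ℤ) - 93))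
    (hA : ∀ l : ℕ, l.Prime → 5 ≤ l → l ∣ p + 1 → ¬ l ∣ M)
    (hB : p % 3 = 2 → ¬ 3 ∣ M)
    (hC : p % 8 = 7 → ¬ 2 ∣ M) :
    M ∣ (p - 1) / Nat.gcd (p - 1) 12 := by
  have hp2 : ¬ 2 ∣ p := fun h => by
    have := (Nat.prime_dvd_prime_iff_eq Nat.prime_two hp).mp h
    omega
  have hp3 : ¬ 3 ∣ p := fun h => by
    have := (Nat.prime_dvd_prime_iff_eq Nat.prime_three hp).mp h
    omega
  obtain ⟨i, r, hr, rfl⟩ : ∃ i r, r < 12 ∧ p = 12 * i + r :=
    ⟨p / 12, p % 12, Nat.mod_lt _ (by norm_num), (Nat.div_add_mod p 12).symm⟩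
  have hr' : r = 1 ∨ r = 5 ∨ r = 7 ∨ r = 11 := by omega
  rcases hr' with rfl | rfl | rfl | rfl
  · -- `p = 12 i + 1`
    have hN0 : ((12 * i + 1) ^ 2 - 1) / 24 = 6 * i ^ 2 + i := by
      have : (12 * i + 1) ^ 2 - 1 = 24 * (6 * i ^ 2 + i) :=
        Nat.sub_eq_of_eq_add (by ring)
      rw [this, Nat.mul_div_cancel_left _ (by norm_num)]
    have hn : (12 * i + 1 - 1) / Nat.gcd (12 * i + 1 - 1) 12 = i := by
      have e : 12 * i + 1 - 1 = 12 * i + 0 := by omega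
      rw [e, Nat.gcd_mul_left_add_left]
      norm_num
    rw [hN0] at h1 h2
    rw [hn]
    have h3 : (M : ℤ) ∣ ((i * (6 * i + 1) : ℕ) : ℤ) := by
      obtain ⟨x, hx⟩ := h2
      obtain ⟨y, hy⟩ := h1
      refine ⟨(20 * (i : ℤ)) * x - (180 * (i : ℤ) + 1) * y, ?_⟩
      have e : ((i * (6 * i + 1) : ℕ) : ℤ) = (20 * (i : ℤ)) * ((M : ℤ) * x) - (180 * (i : ℤ) + 1) * ((M : ℤ) * y) := by
        rw [← hx, ← hy]
        push_cast
        ring
      rw [e]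
      ring
    refine e16_ub_arith_core (12 * i + 1) M i (6 * i + 1) (Int.natCast_dvd_natCast.mp h3)
      ⟨2, by ring⟩ (fun h => by omega) hA hB hC
  · -- `p = 12 i + 5`
    have hN0 : ((12 * i + 5) ^ 2 - 1) / 24 = 6 * i ^ 2 + 5 * i + 1 := by
      have : (12 * i + 5) ^ 2 - 1 = 24 * (6 * i ^ 2 + 5 * i + 1) :=
        Nat.sub_eq_of_eq_add (by ring)
      rw [this, Nat.mul_div_cancel_left _ (by norm_num)]
    have hn : (12 * i + 5 - 1) / Nat.gcd (12 * i + 5 - 1) 12 = 3 * i + 1 := by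
      have e : 12 * i + 5 - 1 = 12 * i + 4 := by omega
      rw [e, Nat.gcd_mul_left_add_left]
      norm_num
      omega
    rw [hN0] at h1 h2
    rw [hn]
    have h3 : (M : ℤ) ∣ (((3 * i + 1) * (6 * i + 3) : ℕ) : ℤ) := by
      obtain ⟨x, hx⟩ := h1
      obtain ⟨y, hy⟩ := h2
      refine ⟨(180 * (i : ℤ) + 55) * x - (20 * (i : ℤ) + 6) * y, ?_⟩
      have e : (((3 * i + 1) * (6 * i + 3) : ℕ) : ℤ) = (180 * (i : ℤ) + 55) * ((M : ℤ) * x) - (20 * (i : ℤ) + 6) * ((M : ℤ) * y) := by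
        rw [← hx, ← hy]
        push_cast
        ring
      rw [e]
      ring
    refine e16_ub_arith_core (12 * i + 5) M (3 * i + 1) (6 * i + 3)
      (Int.natCast_dvd_natCast.mp h3) ⟨2, by ring⟩ (fun h => by omega) hA hB hC
  · -- `p = 12 i + 7`
    have hN0 : ((12 * i + 7) ^ 2 - 1) / 24 = 6 * i ^ 2 + 7 * i + 2 := by
      have : (12 * i + 7) ^ 2 - 1 = 24 * (6 * i ^ 2 + 7 * i + 2) :=
        Nat.sub_eq_of_eq_add (by ring)
      rw [this, Nat.mul_div_cancel_left _ (by norm_num)]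
    have hn : (12 * i + 7 - 1) / Nat.gcd (12 * i + 7 - 1) 12 = 2 * i + 1 := by
      have e : 12 * i + 7 - 1 = 12 * i + 6 := by omega
      rw [e, Nat.gcd_mul_left_add_left]
      norm_num
      omega
    rw [hN0] at h1 h2
    rw [hn]
    have h3 : (M : ℤ) ∣ (((2 * i + 1) * (3 * i + 2) : ℕ) : ℤ) := by
      obtain ⟨x, hx⟩ := h2
      obtain ⟨y, hy⟩ := h1
      refine ⟨(20 * (i : ℤ) + 10) * x - (180 * (i : ℤ) + 91) * y, ?_⟩
      have e : (((2 * i + 1) * (3 * i + 2) : ℕ) : ℤ) = (20 * (i : ℤ) + 10) * ((M : ℤ) * x) - (180 * (i : ℤ) + 91) * ((M : ℤ) * y) := by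
        rw [← hx, ← hy]
        push_cast
        ring
      rw [e]
      ring
    refine e16_ub_arith_core (12 * i + 7) M (2 * i + 1) (3 * i + 2)
      (Int.natCast_dvd_natCast.mp h3) ⟨4, by ring⟩ (fun h => by omega) hA hB hC
  · -- `p = 12 i + 11`
    have hN0 : ((12 * i + 11) ^ 2 - 1) / 24 = 6 * i ^ 2 + 11 * i + 5 := by
      have : (12 * i + 11) ^ 2 - 1 = 24 * (6 * i ^ 2 + 11 * i + 5) :=
        Nat.sub_eq_of_eq_add (by ring)
      rw [this, Nat.mul_div_cancel_left _ (by norm_num)]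
    have hn : (12 * i + 11 - 1) / Nat.gcd (12 * i + 11 - 1) 12 = 6 * i + 5 := by
      have e : 12 * i + 11 - 1 = 12 * i + 10 := by omega
      rw [e, Nat.gcd_mul_left_add_left]
      norm_num
      omega
    rw [hN0] at h1 h2
    rw [hn]
    have h3 : (M : ℤ) ∣ (((6 * i + 5) * (3 * i + 3) : ℕ) : ℤ) := by
      obtain ⟨x, hx⟩ := h1
      obtain ⟨y, hy⟩ := h2
      refine ⟨(180 * (i : ℤ) + 145) * x - (20 * (i : ℤ) + 16) * y, ?_⟩
      have e : (((6 * i + 5) * (3 * i + 3) : ℕ) : ℤ) = (180 * (i : ℤ) + 145) * ((M : ℤ) * x) - (20 * (i : ℤ) + 16) * ((M : ℤ) * y) := by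
        rw [← hx, ← hy]
        push_cast
        ring
      rw [e]
      ring
    refine e16_ub_arith_core (12 * i + 11) M (6 * i + 5) (3 * i + 3)
      (Int.natCast_dvd_natCast.mp h3) ⟨4, by ring⟩ (fun h => by omega) hA hB hC

end Fermat.Agent.E16
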