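import Fermat.Prelude.Def_CuspForm_HeckeLocal
import Fermat.Prelude.Def_CuspForm_HeckeEvalForms
import Fermat.Prelude.Def_HeckeGalois_EichlerShimura
import Fermat.Prelude.Def_ModularCurve_ModularUnit
import Fermat.Prelude.Thm_ModularFormClass_qCoeff_heckeT
import Fermat.Prelude.Thm_ModularFormClass_qCoeff_heckeU
import Fermat.Prelude.Thm_CongruenceSubgroup_one_mem_strictPeriods_Gamma0
import Fermat.Prelude.Thm_CuspForm_intLattice_fg

set_option autoImplicit false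
set_option linter.unusedSectionVars false

/-!
# S16, (R) duality: shared definitions (helper4)

`e16L p` : the lattice of weight-2 cusp forms of level `Γ₀(p)` with integer `q`-expansion;
`e16T p` : the integral Hecke algebra acting on it; `e16θ p : HeckeAlg →+* e16T p` (the ring
homomorphism of the frozen statement S16), `e16χ p : HeckeAlg →+* ℤ` (the Eisenstein character);
`e16a p f k : ℤ` : the `k`-th `q`-coefficient of a lattice element, with its linearity, the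
`q`-expansion principle and the action of the generators of the Hecke algebra.
-/

namespace Fermat.Agent.E16

open ModularCurve CuspForm ModularFormClass

variable (p : ℕ) [Fact p.Prime]

/-- the lattice of cusp forms with integer `q`-expansion -/
abbrev e16L : Type := ↥(intLattice p 2)

/-- the integral Hecke algebra -/
abbrev e16T : Type := ↥(heckeLatticeAlgebra p ∅)

/-- the ring homomorphism of the frozen statement S16 -/
noncomputable def e16θ : HeckeAlg →+* e16T p :=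
  (latticeRestrictHom p ∅).toRingHom.comp (heckeEvalForms p 2)

/-- the Eisenstein character -/
noncomputable def e16χ : HeckeAlg →+* ℤ :=
  (MvPolynomial.aeval (R := ℤ) (eisensteinSystem p)).toRingHom

theorem e16_ideal_eq :
    Ideal.map ((latticeRestrictHom p ∅).toRingHom.comp (heckeEvalForms p 2)) (eisensteinIdeal p)
      = Ideal.map (e16θ p) (RingHom.ker (e16χ p)) := rfl

theorem e16θ_def :
    e16θ p = (latticeRestrictHom p ∅).toRingHom.comp (heckeEvalForms p 2) := rfl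

theorem e16χ_apply (t : HeckeAlg) :
    e16χ p t = MvPolynomial.aeval (R := ℤ) (eisensteinSystem p) t := rfl

theorem e16χ_C (c : ℤ) : e16χ p (MvPolynomial.C c) = c := by
  show MvPolynomial.aeval (R := ℤ) (eisensteinSystem p) (MvPolynomial.C c) = c
  rw [MvPolynomial.aeval_C]
  rfl

theorem e16χ_gen (ℓ : Nat.Primes) : e16χ p (heckeGen ℓ) = eisensteinSystem p ℓ := by
  show MvPolynomial.aeval (R := ℤ) (eisensteinSystem p) (heckeGen ℓ) = _
  rw [aeval_heckeGen]

theorem e16χ_gen_ne (ℓ : Nat.Primes) (h : (ℓ : ℕ) ≠ p) : e16χ p (heckeGen ℓ) = 1 + (ℓ : ℕ) := by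
  rw [e16χ_gen]
  have h1 : ¬ (ℓ : ℕ) ∣ p := by
    intro hd
    exact h ((Nat.prime_dvd_prime_iff_eq ℓ.2 (Fact.out : p.Prime)).mp hd)
  rw [eisensteinSystem_of_not_dvd h1]

theorem e16χ_gen_eq (ℓ : Nat.Primes) (h : (ℓ : ℕ) = p) : e16χ p (heckeGen ℓ) = 1 := by
  rw [e16χ_gen]
  exact eisensteinSystem_of_dvd (by rw [h])

/-! ## integer `q`-coefficients -/

theorem e16_exists_int (f : e16L p) (k : ℕ) :
    ∃ m : ℤ, qCoeff (⇑(f : CuspForm (CongruenceSubgroup.Gamma0 p) 2)) k = (m : ℂ) :=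
  (P2MW.S_CuspForm_intLattice_fg.W3WsD.mem_intLattice_iff f.1).mp f.2 k

/-- the `k`-th `q`-coefficient of a lattice element, as an integer -/
noncomputable def e16a (f : e16L p) (k : ℕ) : ℤ := Classical.choose (e16_exists_int p f k)

theorem e16a_spec (f : e16L p) (k : ℕ) :
    qCoeff (⇑(f : CuspForm (CongruenceSubgroup.Gamma0 p) 2)) k = (e16a p f k : ℂ) :=
  Classical.choose_spec (e16_exists_int p f k)

theorem e16a_eq_of (f : e16L p) (k : ℕ) (n : ℤ)
    (h : qCoeff (⇑(f : CuspForm (CongruenceSubgroup.Gamma0 p) 2)) k = (n : ℂ)) :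
    e16a p f k = n := by
  rw [e16a_spec] at h
  exact_mod_cast h

theorem e16a_add (f g : e16L p) (k : ℕ) : e16a p (f + g) k = e16a p f k + e16a p g k := by
  apply e16a_eq_of
  have h1 : ((f + g : e16L p) : CuspForm (CongruenceSubgroup.Gamma0 p) 2) = f.1 + g.1 := rfl
  rw [h1, P2MW.S_CuspForm_intLattice_fg.W3WsD.qCoeff_add, e16a_spec, e16a_spec]
  push_cast
  rfl

theorem e16a_zsmul (c : ℤ) (f : e16L p) (k : ℕ) : e16a p (c • f) k = c * e16a p f k := by
  apply e16a_eq_of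
  have h1 : ((c • f : e16L p) : CuspForm (CongruenceSubgroup.Gamma0 p) 2) = c • f.1 := rfl
  rw [h1, P2MW.S_CuspForm_intLattice_fg.W3WsD.qCoeff_zsmul, e16a_spec]
  push_cast
  rfl

/-- the `k`-th coefficient as a linear form -/
noncomputable def e16aLin (k : ℕ) : e16L p →ₗ[ℤ] ℤ where
  toFun f := e16a p f k
  map_add' f g := e16a_add p f g k
  map_smul' c f := by
    rw [e16a_zsmul]
    rfl

theorem e16aLin_apply (k : ℕ) (f : e16L p) : e16aLin p k f = e16a p f k := rfl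

theorem e16a_zero (k : ℕ) : e16a p (0 : e16L p) k = 0 := by
  rw [← e16aLin_apply, map_zero]

theorem e16a_neg (f : e16L p) (k : ℕ) : e16a p (-f) k = -e16a p f k := by
  rw [← e16aLin_apply, map_neg, e16aLin_apply]

theorem e16a_sub (f g : e16L p) (k : ℕ) : e16a p (f - g) k = e16a p f k - e16a p g k := by
  rw [← e16aLin_apply, map_sub, e16aLin_apply, e16aLin_apply]

/-- the constant coefficient of a cusp form vanishes -/
theorem e16a_coeff_zero (f : e16L p) : e16a p f 0 = 0 := by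
  apply e16a_eq_of
  show (PowerSeries.coeff 0) (UpperHalfPlane.qExpansion 1
    (⇑(f : CuspForm (CongruenceSubgroup.Gamma0 p) 2))) = ((0 : ℤ) : ℂ)
  rw [UpperHalfPlane.qExpansion_coeff]
  simp only [Nat.factorial_zero, Nat.cast_one, inv_one, iteratedDeriv_zero, one_mul, Int.cast_zero]
  exact CuspFormClass.cuspFunction_apply_zero (f : CuspForm (CongruenceSubgroup.Gamma0 p) 2)
    one_pos (CongruenceSubgroup.one_mem_strictPeriods_Gamma0 p)

/-- **the `q`-expansion principle** on the lattice -/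
theorem e16a_ext {f g : e16L p} (h : ∀ k, e16a p f k = e16a p g k) : f = g := by
  apply Subtype.ext
  apply P2MW.S_CuspForm_intLattice_fg.W3WsD.trunc_injective p 2
  funext i
  show qCoeff (⇑(f : CuspForm (CongruenceSubgroup.Gamma0 p) 2)) i
    = qCoeff (⇑(g : CuspForm (CongruenceSubgroup.Gamma0 p) 2)) i
  rw [e16a_spec, e16a_spec, h]

theorem e16a_ext_pos {f g : e16L p} (h : ∀ k, 1 ≤ k → e16a p f k = e16a p g k) : f = g := by
  apply e16a_ext
  intro k
  rcases Nat.eq_zero_or_pos k with rfl | hk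
  · rw [e16a_coeff_zero, e16a_coeff_zero]
  · exact h k hk

/-! ## the action of the generators -/

theorem e16θ_apply_coe (t : HeckeAlg) (f : e16L p) :
    (((e16θ p t : e16T p) : Module.End ℤ (e16L p)) f : CuspForm (CongruenceSubgroup.Gamma0 p) 2)
      = (heckeEvalForms p 2 t : Module.End ℂ (CuspForm (CongruenceSubgroup.Gamma0 p) 2))
          (f : CuspForm (CongruenceSubgroup.Gamma0 p) 2) := rfl

/-- the coefficients of `T_ℓ f`, `ℓ ≠ p` -/
theorem e16a_T (ℓ : Nat.Primes) (h : (ℓ : ℕ) ≠ p) (f : e16L p) (k : ℕ) :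
    e16a p (((e16θ p (heckeGen ℓ) : e16T p) : Module.End ℤ (e16L p)) f) k
      = e16a p f (k * ℓ) + if (ℓ : ℕ) ∣ k then (ℓ : ℤ) * e16a p f (k / ℓ) else 0 := by
  have h1 : ¬ (ℓ : ℕ) ∣ p := by
    intro hd
    exact h ((Nat.prime_dvd_prime_iff_eq ℓ.2 (Fact.out : p.Prime)).mp hd)
  apply e16a_eq_of
  rw [e16θ_apply_coe, heckeEvalForms_heckeGen_of_not_dvd h1, heckeAlgebra.coe_T,
    CuspForm.coe_heckeTLin_apply,
    ModularFormClass.qCoeff_heckeT (f : CuspForm (CongruenceSubgroup.Gamma0 p) 2)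
      (CongruenceSubgroup.one_mem_strictPeriods_Gamma0 p) ℓ.2.ne_zero k,
    ModularForm.coeffHeckeT_apply, e16a_spec]
  split_ifs with hd
  · rw [e16a_spec]
    push_cast
    norm_num
  · push_cast
    ring

/-- the coefficients of `U_p f` -/
theorem e16a_U (ℓ : Nat.Primes) (h : (ℓ : ℕ) = p) (f : e16L p) (k : ℕ) :
    e16a p (((e16θ p (heckeGen ℓ) : e16T p) : Module.End ℤ (e16L p)) f) k
      = e16a p f (k * ℓ) := by
  have h1 : (ℓ : ℕ) ∣ p := by rw [h]
  apply e16a_eq_of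
  rw [e16θ_apply_coe, heckeEvalForms_heckeGen_of_dvd h1, heckeAlgebra.coe_U,
    CuspForm.coe_heckeULin_apply,
    ModularFormClass.qCoeff_heckeU (f : CuspForm (CongruenceSubgroup.Gamma0 p) 2)
      (CongruenceSubgroup.one_mem_strictPeriods_Gamma0 p) ℓ.2.ne_zero k,
    ModularForm.coeffHeckeU_apply, e16a_spec]

theorem e16θ_C (c : ℤ) (f : e16L p) :
    ((e16θ p (MvPolynomial.C c) : e16T p) : Module.End ℤ (e16L p)) f = c • f := by
  have h1 : e16θ p (MvPolynomial.C c) = algebraMap ℤ (e16T p) c := by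
    show (latticeRestrictHom p ∅) (heckeEvalForms p 2 (MvPolynomial.C c)) = _
    rw [heckeEvalForms_C, AlgHom.commutes]
  rw [h1]
  rfl

theorem e16θ_mul_apply (s t : HeckeAlg) (f : e16L p) :
    ((e16θ p (s * t) : e16T p) : Module.End ℤ (e16L p)) f
      = ((e16θ p s : e16T p) : Module.End ℤ (e16L p))
          (((e16θ p t : e16T p) : Module.End ℤ (e16L p)) f) := by
  rw [map_mul]
  rfl

theorem e16θ_add_apply (s t : HeckeAlg) (f : e16L p) :
    ((e16θ p (s + t) : e16T p) : Module.End ℤ (e16L p)) f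
      = ((e16θ p s : e16T p) : Module.End ℤ (e16L p)) f
        + ((e16θ p t : e16T p) : Module.End ℤ (e16L p)) f := by
  rw [map_add]
  rfl

/-- `θ` is surjective -/
theorem e16θ_surjective : Function.Surjective (e16θ p) := by
  intro τ
  obtain ⟨t, rfl⟩ := latticeRestrictHom_surjective p ∅ τ
  suffices h : ∀ t' : Module.End ℂ (CuspForm (CongruenceSubgroup.Gamma0 p) 2),
      ∀ ht' : t' ∈ heckeAlgebra p 2 ∅, ∃ s : HeckeAlg, heckeEvalForms p 2 s = ⟨t', ht'⟩ by
    obtain ⟨s, hs⟩ := h t.1 t.2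
    exact ⟨s, by show (latticeRestrictHom p ∅) (heckeEvalForms p 2 s) = _; rw [hs]⟩
  intro t' ht'
  induction ht' using Algebra.adjoin_induction with
  | mem x hx =>
    rcases hx with ⟨ℓ, hℓ, hℓN, -, rfl⟩ | ⟨q, hqN, hq, -, rfl⟩
    · exact ⟨heckeGen ⟨ℓ, hℓ⟩, by
        rw [heckeEvalForms_heckeGen_of_not_dvd (ℓ := ⟨ℓ, hℓ⟩) hℓN]; rfl⟩
    · exact ⟨heckeGen ⟨q, hq⟩, by
        rw [heckeEvalForms_heckeGen_of_dvd (q := ⟨q, hq⟩) hqN]; rfl⟩
  | algebraMap r =>
    exact ⟨MvPolynomial.C r, by rw [heckeEvalForms_C]; rfl⟩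
  | add x y hx hy ihx ihy =>
    obtain ⟨s1, h1⟩ := ihx
    obtain ⟨s2, h2⟩ := ihy
    exact ⟨s1 + s2, by rw [map_add, h1, h2]; rfl⟩
  | mul x y hx hy ihx ihy =>
    obtain ⟨s1, h1⟩ := ihx
    obtain ⟨s2, h2⟩ := ihy
    exact ⟨s1 * s2, by rw [map_mul, h1, h2]; rfl⟩

/-- divisibility of all coefficients by `d ≠ 0` gives divisibility in the lattice -/
theorem e16_div (f : e16L p) (d : ℤ) (hd : d ≠ 0) (h : ∀ k, d ∣ e16a p f k) :
    ∃ g : e16L p, d • g = f := by
  have hd' : (d : ℂ) ≠ 0 := by exact_mod_cast hd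
  have hmem : ((d : ℂ)⁻¹ • (f : CuspForm (CongruenceSubgroup.Gamma0 p) 2)) ∈ intLattice p 2 := by
    apply Submodule.subset_span
    intro k
    obtain ⟨c, hc⟩ := h k
    refine ⟨c, ?_⟩
    have h1 : (⇑((d : ℂ)⁻¹ • (f : CuspForm (CongruenceSubgroup.Gamma0 p) 2)) : UpperHalfPlane → ℂ)
        = (d : ℂ)⁻¹ • ⇑(f : CuspForm (CongruenceSubgroup.Gamma0 p) 2) := rfl
    show (PowerSeries.coeff k) (UpperHalfPlane.qExpansion 1
      (⇑((d : ℂ)⁻¹ • (f : CuspForm (CongruenceSubgroup.Gamma0 p) 2)))) = (c : ℂ)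
    rw [h1, ModularForm.qExpansion_smul one_pos (CongruenceSubgroup.one_mem_strictPeriods_Gamma0 p)
      ((d : ℂ)⁻¹) (f : CuspForm (CongruenceSubgroup.Gamma0 p) 2)]
    have h2 : (PowerSeries.coeff k) (UpperHalfPlane.qExpansion 1
        (⇑(f : CuspForm (CongruenceSubgroup.Gamma0 p) 2))) = (e16a p f k : ℂ) := e16a_spec p f k
    rw [PowerSeries.coeff_smul, h2, hc, smul_eq_mul]
    push_cast
    field_simp
  refine ⟨⟨_, hmem⟩, ?_⟩
  apply Subtype.ext
  show d • ((d : ℂ)⁻¹ • (f : CuspForm (CongruenceSubgroup.Gamma0 p) 2)) = f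
  rw [← Int.cast_smul_eq_zsmul ℂ d, smul_smul, mul_inv_cancel₀ hd', one_smul]

/-! ## the Eisenstein coefficients -/

/-- the sum of the divisors of `k` prime to `p` -/
def e16δ (k : ℕ) : ℤ := ∑ d ∈ k.divisors.filter (fun d => ¬ p ∣ d), (d : ℤ)

theorem e16δ_one : e16δ p 1 = 1 := by
  have hp : ¬ p ∣ 1 := (Fact.out : p.Prime).not_dvd_one
  simp [e16δ, Nat.divisors_one, Finset.filter_singleton, hp]

theorem e16δ_mul_p (k : ℕ) : e16δ p (k * p) = e16δ p k := by
  have hp : p.Prime := Fact.out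
  unfold e16δ
  congr 1
  ext d
  simp only [Finset.mem_filter, Nat.mem_divisors]
  constructor
  · rintro ⟨⟨hd, hk⟩, hpd⟩
    have hcop : Nat.Coprime d p := Nat.Coprime.symm ((Nat.Prime.coprime_iff_not_dvd hp).mpr hpd)
    exact ⟨⟨hcop.dvd_of_dvd_mul_right hd, fun h => hk (by rw [h, zero_mul])⟩, hpd⟩
  · rintro ⟨⟨hd, hk⟩, hpd⟩
    exact ⟨⟨Dvd.dvd.mul_right hd p, mul_ne_zero hk hp.ne_zero⟩, hpd⟩

theorem e16δ_mul_prime (ℓ : ℕ) (hℓ : ℓ.Prime) (hℓp : ℓ ≠ p) (k : ℕ) :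
    e16δ p (k * ℓ) + (if ℓ ∣ k then (ℓ : ℤ) * e16δ p (k / ℓ) else 0)
      = (1 + (ℓ : ℤ)) * e16δ p k := by
  have hp : p.Prime := Fact.out
  rcases Nat.eq_zero_or_pos k with rfl | hk
  · simp [e16δ]
  have hk0 : k ≠ 0 := hk.ne'
  have hpℓ : ¬ p ∣ ℓ := fun h => hℓp ((Nat.prime_dvd_prime_iff_eq hp hℓ).mp h).symm
  set F := k.divisors.filter (fun d => ¬ p ∣ d) with hF
  set G := F.filter (fun d => ¬ ℓ * d ∣ k) with hG
  have hA : (k * ℓ).divisors.filter (fun d => ¬ p ∣ d) = F ∪ G.image (fun d => ℓ * d) := by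
    ext d
    simp only [hF, hG, Finset.mem_filter, Nat.mem_divisors, Finset.mem_union, Finset.mem_image]
    constructor
    · rintro ⟨⟨hd, -⟩, hpd⟩
      by_cases hdk : d ∣ k
      · exact Or.inl ⟨⟨hdk, hk0⟩, hpd⟩
      · right
        have hℓd : ℓ ∣ d := by
          by_contra hnd
          have hcop : Nat.Coprime d ℓ :=
            Nat.Coprime.symm ((Nat.Prime.coprime_iff_not_dvd hℓ).mpr hnd)
          exact hdk (hcop.dvd_of_dvd_mul_right hd)
        obtain ⟨d', rfl⟩ := hℓd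
        refine ⟨d', ⟨⟨⟨?_, hk0⟩, ?_⟩, hdk⟩, rfl⟩
        · rw [mul_comm k ℓ] at hd
          exact (Nat.mul_dvd_mul_iff_left hℓ.pos).mp hd
        · intro h
          exact hpd (Dvd.dvd.mul_left h ℓ)
    · rintro (⟨⟨hd, -⟩, hpd⟩ | ⟨d', ⟨⟨⟨hd', -⟩, hpd'⟩, hnd⟩, rfl⟩)
      · exact ⟨⟨Dvd.dvd.mul_right hd ℓ, mul_ne_zero hk0 hℓ.ne_zero⟩, hpd⟩
      · refine ⟨⟨?_, mul_ne_zero hk0 hℓ.ne_zero⟩, ?_⟩
        · rw [mul_comm k ℓ]
          exact Nat.mul_dvd_mul_left ℓ hd'
        · intro h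
          rcases (Nat.Prime.dvd_mul hp).mp h with h1 | h1
          · exact hpℓ h1
          · exact hpd' h1
  have hdisj : Disjoint F (G.image (fun d => ℓ * d)) := by
    rw [Finset.disjoint_left]
    intro d hd hd'
    simp only [hG, Finset.mem_image, Finset.mem_filter] at hd'
    obtain ⟨d', ⟨-, hnd⟩, rfl⟩ := hd'
    simp only [hF, Finset.mem_filter, Nat.mem_divisors] at hd
    exact hnd hd.1.1
  have hinj : ∀ x ∈ G, ∀ y ∈ G, ℓ * x = ℓ * y → x = y :=
    fun x _ y _ h => Nat.eq_of_mul_eq_mul_left hℓ.pos h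
  have hC : F.filter (fun d => ℓ * d ∣ k)
      = if ℓ ∣ k then (k / ℓ).divisors.filter (fun d => ¬ p ∣ d) else ∅ := by
    split_ifs with hℓk
    · obtain ⟨k', rfl⟩ := hℓk
      have hk'0 : k' ≠ 0 := by
        rintro rfl
        simp at hk0
      rw [Nat.mul_div_cancel_left k' hℓ.pos]
      ext d
      simp only [hF, Finset.mem_filter, Nat.mem_divisors]
      constructor
      · rintro ⟨⟨⟨-, -⟩, hpd⟩, h⟩
        exact ⟨⟨(Nat.mul_dvd_mul_iff_left hℓ.pos).mp h, hk'0⟩, hpd⟩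
      · rintro ⟨⟨hd, -⟩, hpd⟩
        exact ⟨⟨⟨Dvd.dvd.mul_left hd ℓ, hk0⟩, hpd⟩, Nat.mul_dvd_mul_left ℓ hd⟩
    · ext d
      simp only [Finset.mem_filter, Finset.notMem_empty, iff_false, not_and]
      intro _ h
      exact hℓk (dvd_trans (Dvd.intro _ rfl) h)
  have hB : ∑ d ∈ F, (d : ℤ)
      = ∑ d ∈ F.filter (fun d => ℓ * d ∣ k), (d : ℤ) + ∑ d ∈ G, (d : ℤ) := by
    rw [hG, Finset.sum_filter_add_sum_filter_not]
  have hsumA : e16δ p (k * ℓ) = ∑ d ∈ F, (d : ℤ) + (ℓ : ℤ) * ∑ d ∈ G, (d : ℤ) := by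
    unfold e16δ
    rw [hA, Finset.sum_union hdisj, Finset.sum_image hinj, Finset.mul_sum]
    simp only [Nat.cast_mul]
  have hδk : e16δ p k = ∑ d ∈ F, (d : ℤ) := rfl
  have hsumC : (if ℓ ∣ k then (ℓ : ℤ) * e16δ p (k / ℓ) else 0)
      = (ℓ : ℤ) * ∑ d ∈ F.filter (fun d => ℓ * d ∣ k), (d : ℤ) := by
    rw [hC]
    split_ifs with hℓk
    · rfl
    · simp
  rw [hsumA, hsumC, hδk, hB]
  ring

end Fermat.Agent.E16
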