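import Mathlib
import Fermat.Agent.Lib.E16_Defs

/-!
# S16, (R) duality: the lower direction (helper8)

If `f ∈ L` has `a_k(f) ≡ δ_k mod M` for all `k ≥ 1`, then `a_k(θ(t) f) ≡ χ(t) δ_k mod M` for
every `t ∈ HeckeAlg`; in particular `M ∣ χ(t)` whenever `θ(t) = 0`.
-/

set_option autoImplicit false

open ModularCurve CuspForm

namespace Fermat.Agent.E16

/-- abstract congruence propagation: if `f ≡ δ mod M` on coefficients `k ≥ 1`, then
`t • f ≡ χ(t) δ mod M` for every Hecke polynomial `t`. -/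
theorem e16_lower_aux {L : Type*} (p : ℕ)
    (a : L → ℕ → ℤ) (act : HeckeAlg → L → L) (χ : HeckeAlg →+* ℤ) (δ : ℕ → ℤ)
    (hact_C : ∀ (c : ℤ) (f : L) (k : ℕ), a (act (MvPolynomial.C c) f) k = c * a f k)
    (hact_add : ∀ (s t : HeckeAlg) (f : L) (k : ℕ),
      a (act (s + t) f) k = a (act s f) k + a (act t f) k)
    (hact_T : ∀ (t : HeckeAlg) (ℓ : Nat.Primes) (f : L) (k : ℕ), (ℓ : ℕ) ≠ p →
      a (act (t * MvPolynomial.X ℓ) f) k =
        a (act t f) (k * ℓ) + if (ℓ : ℕ) ∣ k then (ℓ : ℤ) * a (act t f) (k / ℓ) else 0)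
    (hact_U : ∀ (t : HeckeAlg) (ℓ : Nat.Primes) (f : L) (k : ℕ), (ℓ : ℕ) = p →
      a (act (t * MvPolynomial.X ℓ) f) k = a (act t f) (k * p))
    (hχT : ∀ ℓ : Nat.Primes, (ℓ : ℕ) ≠ p → χ (MvPolynomial.X ℓ) = 1 + (ℓ : ℤ))
    (hχU : ∀ ℓ : Nat.Primes, (ℓ : ℕ) = p → χ (MvPolynomial.X ℓ) = 1)
    (hδp : ∀ k : ℕ, 1 ≤ k → δ (k * p) = δ k)
    (hδℓ : ∀ ℓ : Nat.Primes, (ℓ : ℕ) ≠ p → ∀ k : ℕ, 1 ≤ k →
      δ (k * ℓ) + (if (ℓ : ℕ) ∣ k then (ℓ : ℤ) * δ (k / ℓ) else 0) = (1 + (ℓ : ℤ)) * δ k)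
    (f : L) (M : ℤ) (hf : ∀ k : ℕ, 1 ≤ k → M ∣ a f k - δ k) (t : HeckeAlg) :
    ∀ k : ℕ, 1 ≤ k → M ∣ a (act t f) k - χ t * δ k := by
  induction t using MvPolynomial.induction_on with
  | C c =>
    intro k hk
    have hχC : χ (MvPolynomial.C c) = c := by
      have h1 : (MvPolynomial.C c : HeckeAlg) = ((c : ℤ) : HeckeAlg) := by simp
      rw [h1, map_intCast]; simp
    rw [hact_C, hχC, ← mul_sub]
    exact Dvd.dvd.mul_left (hf k hk) c
  | add s t hs ht =>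
    intro k hk
    rw [hact_add, map_add]
    have e : a (act s f) k + a (act t f) k - (χ s + χ t) * δ k =
        (a (act s f) k - χ s * δ k) + (a (act t f) k - χ t * δ k) := by ring
    rw [e]
    exact dvd_add (hs k hk) (ht k hk)
  | mul_X t ℓ ht =>
    intro k hk
    by_cases hℓ : (ℓ : ℕ) = p
    · rw [hact_U t ℓ f k hℓ, map_mul, hχU ℓ hℓ, mul_one]
      have hkp : 1 ≤ k * p := by
        have : 1 ≤ p := by rw [← hℓ]; exact ℓ.2.one_lt.le
        exact Nat.one_le_iff_ne_zero.mpr (Nat.mul_ne_zero (by omega) (by omega))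
      have h1 := ht (k * p) hkp
      rw [hδp k hk] at h1
      exact h1
    · rw [hact_T t ℓ f k hℓ, map_mul, hχT ℓ hℓ]
      have hℓpos : 1 ≤ (ℓ : ℕ) := ℓ.2.one_lt.le
      have hkℓ : 1 ≤ k * ℓ := Nat.one_le_iff_ne_zero.mpr (Nat.mul_ne_zero (by omega) (by omega))
      have h1 := ht (k * ℓ) hkℓ
      have h2 := hδℓ ℓ hℓ k hk
      by_cases hdvd : (ℓ : ℕ) ∣ k
      · rw [if_pos hdvd] at h2 ⊢
        have hk' : 1 ≤ k / ℓ := by
          obtain ⟨j, rfl⟩ := hdvd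
          rw [Nat.mul_div_cancel_left _ (by omega : 0 < (ℓ : ℕ))]
          rcases Nat.eq_zero_or_pos j with h0 | h0
          · subst h0; simp at hk
          · exact h0
        have h3 := ht (k / ℓ) hk'
        have e : a (act t f) (k * ℓ) + (ℓ : ℤ) * a (act t f) (k / ℓ) - χ t * (1 + (ℓ : ℤ)) * δ k =
            (a (act t f) (k * ℓ) - χ t * δ (k * ℓ)) +
              (ℓ : ℤ) * (a (act t f) (k / ℓ) - χ t * δ (k / ℓ)) := by
          linear_combination (χ t) * h2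
        rw [e]
        exact dvd_add h1 (Dvd.dvd.mul_left h3 _)
      · rw [if_neg hdvd] at h2 ⊢
        have e : a (act t f) (k * ℓ) + 0 - χ t * (1 + (ℓ : ℤ)) * δ k =
            a (act t f) (k * ℓ) - χ t * δ (k * ℓ) := by
          linear_combination (χ t) * h2
        rw [e]
        exact h1

variable (p : ℕ) [Fact p.Prime]

/-- **congruence propagation**: `f ≡ δ mod M` implies `θ(t) f ≡ χ(t) δ mod M`. -/
theorem e16_congr (f : e16L p) (M : ℤ) (hf : ∀ k : ℕ, 1 ≤ k → M ∣ e16a p f k - e16δ p k)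
    (t : HeckeAlg) :
    ∀ k : ℕ, 1 ≤ k →
      M ∣ e16a p (((e16θ p t : e16T p) : Module.End ℤ (e16L p)) f) k - e16χ p t * e16δ p k := by
  refine e16_lower_aux (L := e16L p) p (e16a p)
    (fun t f => ((e16θ p t : e16T p) : Module.End ℤ (e16L p)) f) (e16χ p) (e16δ p)
    ?_ ?_ ?_ ?_ ?_ ?_ ?_ ?_ f M hf t
  · intro c g k
    show e16a p (((e16θ p (MvPolynomial.C c) : e16T p) : Module.End ℤ (e16L p)) g) k = _
    rw [e16θ_C, e16a_zsmul]
  · intro s t g k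
    show e16a p (((e16θ p (s + t) : e16T p) : Module.End ℤ (e16L p)) g) k = _
    rw [e16θ_add_apply, e16a_add]
  · intro t ℓ g k hℓ
    show e16a p (((e16θ p (t * heckeGen ℓ) : e16T p) : Module.End ℤ (e16L p)) g) k = _
    rw [mul_comm t, e16θ_mul_apply, e16a_T p ℓ hℓ]
  · intro t ℓ g k hℓ
    show e16a p (((e16θ p (t * heckeGen ℓ) : e16T p) : Module.End ℤ (e16L p)) g) k = _
    rw [mul_comm t, e16θ_mul_apply, e16a_U p ℓ hℓ, hℓ]
  · intro ℓ hℓ
    show e16χ p (heckeGen ℓ) = _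
    rw [e16χ_gen_ne p ℓ hℓ]
  · intro ℓ hℓ
    exact e16χ_gen_eq p ℓ hℓ
  · intro k _
    exact e16δ_mul_p p k
  · intro ℓ hℓ k _
    exact e16δ_mul_prime p ℓ ℓ.2 hℓ k

/-- **the lower direction**: a congruence `f ≡ δ mod M` forces `M ∣ χ(t)` for all `t` in the
kernel of `θ`. -/
theorem e16_lower (f : e16L p) (M : ℤ) (hf : ∀ k : ℕ, 1 ≤ k → M ∣ e16a p f k - e16δ p k)
    (t : HeckeAlg) (ht : e16θ p t = 0) : M ∣ e16χ p t := by
  have h1 := e16_congr p f M hf t 1 le_rfl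
  rw [ht, e16δ_one, mul_one] at h1
  have h2 : e16a p (((0 : e16T p) : Module.End ℤ (e16L p)) f) 1 = 0 := by
    have h3 : ((0 : e16T p) : Module.End ℤ (e16L p)) f = 0 := rfl
    rw [h3, e16a_zero]
  rw [h2, zero_sub] at h1
  exact (dvd_neg).mp h1

end Fermat.Agent.E16
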