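import Mathlib
import Fermat.Prelude.Def_CuspForm_HeckeLocal
import Fermat.Prelude.Def_CuspForm_HeckeEvalForms
import Fermat.Prelude.Def_HeckeGalois_EichlerShimura

/-!
# S16, (R) duality: the ring-theoretic reduction (helper8)

`T ⧸ θ(ker χ)` for a surjective `θ : R → T` and `χ : R → ℤ` is `ℤ ⧸ χ(ker θ)`; applied to the
Hecke algebra of the frozen statement S16.
-/

set_option autoImplicit false

open CuspForm ModularCurve

namespace Fermat.Agent.E16

/-- abstract form: for `θ : R → T` surjective and `χ : R → ℤ`, the quotient `T ⧸ θ(ker χ)` is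
`ℤ ⧸ (m)` with `(m) = χ(ker θ)`. -/
theorem e16_quot_aux {R T : Type*} [CommRing R] [CommRing T] (θ : R →+* T)
    (hθ : Function.Surjective θ) (χ : R →+* ℤ) :
    ∃ m : ℕ, Nat.card (T ⧸ Ideal.map θ (RingHom.ker χ)) = m ∧
      (∀ t : R, θ t = 0 → (m : ℤ) ∣ χ t) ∧ ∃ t : R, θ t = 0 ∧ χ t = m := by
  set I' : Ideal T := Ideal.map θ (RingHom.ker χ) with hI'
  let g : ℤ →+* T ⧸ I' := Int.castRingHom (T ⧸ I')
  have hχint : ∀ c : ℤ, χ (c : R) = c := fun c => by simp
  have hθint : ∀ c : ℤ, θ (c : R) = (c : T) := fun c => by simp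
  -- `g` is surjective
  have hg : Function.Surjective g := by
    intro x
    obtain ⟨y, rfl⟩ := Ideal.Quotient.mk_surjective x
    obtain ⟨r, rfl⟩ := hθ y
    refine ⟨χ r, ?_⟩
    change ((χ r : ℤ) : T ⧸ I') = Ideal.Quotient.mk I' (θ r)
    have h1 : ((χ r : ℤ) : T ⧸ I') = Ideal.Quotient.mk I' ((χ r : ℤ) : T) := by simp
    rw [h1, Ideal.Quotient.eq, ← hθint, ← map_sub]
    apply Ideal.mem_map_of_mem
    rw [RingHom.mem_ker, map_sub, hχint, sub_self]
  -- the kernel of `g`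
  have hker : ∀ c : ℤ, c ∈ RingHom.ker g ↔ ∃ s : R, θ s = 0 ∧ χ s = c := by
    intro c
    rw [RingHom.mem_ker]
    have h1 : g c = Ideal.Quotient.mk I' ((c : ℤ) : T) := by simp [g]
    rw [h1, Ideal.Quotient.eq_zero_iff_mem, hI', Ideal.mem_map_iff_of_surjective θ hθ]
    constructor
    · rintro ⟨r, hr, hrc⟩
      refine ⟨(c : R) - r, ?_, ?_⟩
      · rw [map_sub, hθint, hrc, sub_self]
      · rw [map_sub, hχint, RingHom.mem_ker.mp hr, sub_zero]
    · rintro ⟨s, hs, hsc⟩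
      refine ⟨(c : R) - s, ?_, ?_⟩
      · rw [RingHom.mem_ker, map_sub, hχint, hsc, sub_self]
      · rw [map_sub, hθint, hs, sub_zero]
  set m : ℕ := Ideal.absNorm (RingHom.ker g) with hm
  have hspan : RingHom.ker g = Ideal.span {(m : ℤ)} := (Int.ideal_span_absNorm_eq_self _).symm
  refine ⟨m, ?_, ?_, ?_⟩
  · have e1 : (ℤ ⧸ RingHom.ker g) ≃+* (T ⧸ I') := RingHom.quotientKerEquivOfSurjective hg
    have e2 : (ℤ ⧸ RingHom.ker g) ≃+* ZMod m :=
      (Ideal.quotEquivOfEq hspan).trans (Int.quotientSpanNatEquivZMod m)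
    rw [← Nat.card_congr e1.toEquiv, Nat.card_congr e2.toEquiv, Nat.card_zmod]
  · intro t ht
    have h1 : χ t ∈ RingHom.ker g := (hker _).mpr ⟨t, ht, rfl⟩
    rw [hspan, Ideal.mem_span_singleton] at h1
    exact h1
  · have h1 : (m : ℤ) ∈ RingHom.ker g := by
      rw [hspan]; exact Ideal.mem_span_singleton_self _
    exact (hker _).mp h1

variable (p : ℕ) [Fact p.Prime]

/-- the Hecke generators generate: `heckeEvalForms` is surjective -/
theorem e16_heckeEvalForms_surjective (N : ℕ) [NeZero N] (k : ℤ) :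
    Function.Surjective (heckeEvalForms N k) := by
  have h1 : (MvPolynomial.aeval (R := ℤ) (heckeFormsGen N k)).range = ⊤ := by
    rw [← Algebra.adjoin_range_eq_range_aeval]
    have h0 : Algebra.adjoin ℤ ((Subtype.val : ↥(heckeAlgebra N k ∅) →
        Module.End ℂ (CuspForm (CongruenceSubgroup.Gamma0 N) k)) ⁻¹' heckeGenerators N k ∅) = ⊤ :=
      Algebra.adjoin_adjoin_coe_preimage
    rw [eq_top_iff, ← h0]
    apply Algebra.adjoin_mono
    rintro ⟨x, hx⟩ hx'
    have hx'' : x ∈ heckeGenerators N k ∅ := hx'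
    rcases hx'' with ⟨ℓ, hℓ, hℓN, -, rfl⟩ | ⟨q, hqN, hq, -, rfl⟩
    · refine ⟨⟨ℓ, hℓ⟩, ?_⟩
      rw [heckeFormsGen_of_not_dvd (show ¬ ((⟨ℓ, hℓ⟩ : Nat.Primes) : ℕ) ∣ N from hℓN)]
      rfl
    · refine ⟨⟨q, hq⟩, ?_⟩
      rw [heckeFormsGen_of_dvd (show ((⟨q, hq⟩ : Nat.Primes) : ℕ) ∣ N from hqN)]
      rfl
  intro y
  have h2 : y ∈ (MvPolynomial.aeval (R := ℤ) (heckeFormsGen N k)).range := by rw [h1]; trivial
  obtain ⟨x, hx⟩ := h2
  exact ⟨x, hx⟩

/-- the ring hom of the frozen statement S16 is surjective -/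
theorem e16_theta_surjective :
    Function.Surjective ((latticeRestrictHom p ∅).toRingHom.comp (heckeEvalForms p 2)) := by
  intro y
  obtain ⟨x, rfl⟩ := latticeRestrictHom_surjective p ∅ y
  obtain ⟨z, rfl⟩ := e16_heckeEvalForms_surjective p 2 x
  exact ⟨z, rfl⟩

/-- **the quotient of S16 is `ℤ ⧸ m`**, where `(m)` is the image under the Eisenstein character
of the kernel of `HeckeAlg → T`. -/
theorem e16_quot :
    ∃ m : ℕ, Nat.card (↥(heckeLatticeAlgebra p ∅) ⧸
        Ideal.map ((latticeRestrictHom p ∅).toRingHom.comp (heckeEvalForms p 2))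
          (eisensteinIdeal p)) = m ∧
      (∀ t : HeckeAlg, ((latticeRestrictHom p ∅).toRingHom.comp (heckeEvalForms p 2)) t = 0 →
        (m : ℤ) ∣ MvPolynomial.aeval (R := ℤ) (eisensteinSystem p) t) ∧
      ∃ t : HeckeAlg, ((latticeRestrictHom p ∅).toRingHom.comp (heckeEvalForms p 2)) t = 0 ∧
        MvPolynomial.aeval (R := ℤ) (eisensteinSystem p) t = m :=
  e16_quot_aux ((latticeRestrictHom p ∅).toRingHom.comp (heckeEvalForms p 2))
    (e16_theta_surjective p) (MvPolynomial.aeval (R := ℤ) (eisensteinSystem p)).toRingHom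

end Fermat.Agent.E16
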