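import Mathlib
import Fermat.Agent.Lib.E16_Defs
import Fermat.Agent.Lib.E16_Quot
import Fermat.Agent.Lib.E16_Lower

set_option autoImplicit false

open ModularCurve CuspForm

namespace Fermat.Agent.E16

variable (p : ℕ) [Fact p.Prime]

/-- **(R) duality, final form**: the index of the Eisenstein ideal equals `n` as soon as
(LB) some integral cusp form is congruent to `δ` modulo `n` and (UB) every modulus `M` of such a
congruence divides `n`. -/
theorem e16_card_of_upper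
    (hupper : ∀ m : ℕ, (∀ t : HeckeAlg, e16θ p t = 0 → (m : ℤ) ∣ e16χ p t) →
      ∃ f : e16L p, ∀ k : ℕ, 1 ≤ k → (m : ℤ) ∣ e16a p f k - e16δ p k)
    (n : ℕ) (hn : 0 < n)
    (hLB : ∃ f ∈ CuspForm.intLattice p 2, ∀ k : ℕ, 1 ≤ k →
      ∃ c : ℤ, ModularFormClass.qCoeff (⇑f) k = (c : ℂ) ∧ (n : ℤ) ∣ c - e16δ p k)
    (hUB : ∀ M : ℕ, 0 < M → (∃ f ∈ CuspForm.intLattice p 2, ∀ k : ℕ, 1 ≤ k →
      ∃ c : ℤ, ModularFormClass.qCoeff (⇑f) k = (c : ℂ) ∧ (M : ℤ) ∣ c - e16δ p k) → M ∣ n) :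
    Nat.card (↥(heckeLatticeAlgebra p ∅) ⧸
        Ideal.map ((latticeRestrictHom p ∅).toRingHom.comp (heckeEvalForms p 2))
          (eisensteinIdeal p)) = n := by
  obtain ⟨m, hcard, hdiv, t0, ht0, hχt0⟩ := e16_quot p
  rw [hcard]
  -- `n ∣ m`
  obtain ⟨f, hfL, hf⟩ := hLB
  have hnm : (n : ℤ) ∣ (m : ℤ) := by
    have h1 := e16_lower p ⟨f, hfL⟩ n (fun k hk => by
      obtain ⟨c, hc, hdvd⟩ := hf k hk
      rw [e16a_eq_of p ⟨f, hfL⟩ k c hc]
      exact hdvd) t0 ht0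
    rw [e16χ_apply, hχt0] at h1
    exact h1
  -- the upper direction
  obtain ⟨g, hg⟩ := hupper m hdiv
  by_cases hm0 : m = 0
  · exfalso
    subst hm0
    have hg' : ∀ k : ℕ, 1 ≤ k → e16a p g k = e16δ p k := by
      intro k hk
      have h1 := hg k hk
      rw [Nat.cast_zero, zero_dvd_iff, sub_eq_zero] at h1
      exact h1
    have h2 := hUB (n + 1) (Nat.succ_pos n) ⟨g.1, g.2, fun k hk =>
      ⟨e16a p g k, e16a_spec p g k, by rw [hg' k hk, sub_self]; exact dvd_zero _⟩⟩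
    have h3 := Nat.le_of_dvd hn h2
    omega
  · have h2 := hUB m (Nat.pos_of_ne_zero hm0) ⟨g.1, g.2, fun k hk =>
      ⟨e16a p g k, e16a_spec p g k, hg k hk⟩⟩
    exact Nat.dvd_antisymm h2 (Int.natCast_dvd_natCast.mp hnm)

end Fermat.Agent.E16
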