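import Fermat.Agent.Lib.T23_LevelOne

/-!
# T23 piece (3): the form `H(z) = Δ(N z)` of level `Γ₀(N)`
-/

set_option autoImplicit false

open UpperHalfPlane ModularForm CuspForm ModularFormClass
open scoped MatrixGroups Manifold

namespace Fermat.Agent.T23

open Matrix.SpecialLinearGroup

/-- `H(z) = Δ(N z)`. -/
noncomputable def HN (N : ℕ) : ℍ → ℂ :=
  fun z => ModularForm.discriminant (ModularForm.heckeDiagMatrix N • z)

/-- `Δ` as a level one modular form. -/
noncomputable def DeltaMF : ModularForm 𝒮ℒ 12 :=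
  { toSlashInvariantForm := CuspForm.discriminant.toSlashInvariantForm
    holo' := CuspForm.discriminant.holo'
    bdd_at_cusps' := fun hc γ hγ =>
      (CuspForm.discriminant.zero_at_cusps' hc γ hγ).isBoundedAtImInfty }

@[simp] theorem DeltaMF_apply (z : ℍ) : DeltaMF z = ModularForm.discriminant z := rfl

theorem coe_DeltaMF : ⇑DeltaMF = ModularForm.discriminant := rfl

theorem HN_eq_slash (N : ℕ) [NeZero N] :
    HN N = ((N : ℂ) ^ (11 : ℤ))⁻¹ • (ModularForm.discriminant ∣[(12 : ℤ)] ModularForm.heckeDiagMatrix N) := by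
  ext z
  rw [Pi.smul_apply, ModularForm.slash_heckeDiagMatrix_apply 12 (NeZero.ne N), smul_eq_mul]
  have hN : ((N : ℂ) ^ (11 : ℤ)) ≠ 0 := zpow_ne_zero _ (Nat.cast_ne_zero.mpr (NeZero.ne N))
  unfold HN
  have hN' : (N : ℂ) ≠ 0 := Nat.cast_ne_zero.mpr (NeZero.ne N)
  norm_num
  field_simp

open ConjAct Pointwise in
theorem Gamma0_le_conj (N : ℕ) [NeZero N] :
    (CongruenceSubgroup.Gamma0 N : Subgroup (GL (Fin 2) ℝ)) ≤
      toConjAct (ModularForm.heckeDiagMatrix N)⁻¹ • (𝒮ℒ : Subgroup (GL (Fin 2) ℝ)) := by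
  rintro _ ⟨γ, hγ, rfl⟩
  rw [map_inv, Subgroup.mem_inv_pointwise_smul_iff, toConjAct_smul]
  rw [SetLike.mem_coe, CongruenceSubgroup.Gamma0_mem] at hγ
  obtain ⟨c', hc'⟩ : (N : ℤ) ∣ γ 1 0 := by
    rwa [ZMod.intCast_zmod_eq_zero_iff_dvd] at hγ
  have hdet := γ.det_coe
  rw [Matrix.det_fin_two] at hdet
  have hdet' : Matrix.det !![γ 0 0, (N : ℤ) * γ 0 1; c', γ 1 1] = 1 := by
    rw [Matrix.det_fin_two_of]
    rw [hc'] at hdet
    linarith
  obtain ⟨γ', hγ'⟩ : ∃ γ' : SL(2, ℤ),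
      (γ' : Matrix (Fin 2) (Fin 2) ℤ) = !![γ 0 0, (N : ℤ) * γ 0 1; c', γ 1 1] :=
    ⟨⟨_, hdet'⟩, rfl⟩
  refine ⟨γ', ?_⟩
  symm
  rw [mul_inv_eq_iff_eq_mul]
  apply Units.ext
  rw [Units.val_mul, Units.val_mul, ModularForm.val_heckeDiagMatrix (NeZero.ne N),
    mapGL_coe_matrix, mapGL_coe_matrix]
  have hc'' : ((γ 1 0 : ℤ) : ℝ) = (N : ℝ) * (c' : ℝ) := by exact_mod_cast hc'
  ext i j
  fin_cases i <;> fin_cases j <;>
    simp [Matrix.mul_apply, Fin.sum_univ_two, hc'', mul_comm, hγ']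

/-- `H` as a modular form of weight `12` and level `Γ₀(N)`. -/
noncomputable def HNform (N : ℕ) [NeZero N] : ModularForm (CongruenceSubgroup.Gamma0 N) 12 :=
  ((N : ℂ) ^ (11 : ℤ))⁻¹ •
    ({ toFun := ModularForm.discriminant ∣[(12 : ℤ)] ModularForm.heckeDiagMatrix N
       slash_action_eq' := fun γ hγ =>
        (ModularForm.translate DeltaMF (ModularForm.heckeDiagMatrix N)).slash_action_eq' γ
          (Gamma0_le_conj N hγ)
       holo' := (ModularForm.translate DeltaMF (ModularForm.heckeDiagMatrix N)).holo'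
       bdd_at_cusps' := fun hc =>
        (ModularForm.translate DeltaMF (ModularForm.heckeDiagMatrix N)).bdd_at_cusps'
          (hc.mono (Gamma0_le_conj N)) } : ModularForm (CongruenceSubgroup.Gamma0 N) 12)

theorem HNform_coe (N : ℕ) [NeZero N] : ⇑(HNform N) = HN N := by
  rw [HN_eq_slash]
  rfl

/-- (3a) `H` is a modular form of weight `12` for `Γ₀(N)`. -/
theorem HN_modularForm (N : ℕ) [NeZero N] :
    ∃ H : ModularForm (CongruenceSubgroup.Gamma0 N) 12, ⇑H = HN N :=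
  ⟨HNform N, HNform_coe N⟩

theorem HN_qnice (N : ℕ) [NeZero N] : QNice (HN N) := by
  rw [← HNform_coe]
  exact QNice.of_Gamma0 _

theorem qParam_heckeDiag (N : ℕ) [NeZero N] (τ : ℍ) :
    Function.Periodic.qParam 1 ((ModularForm.heckeDiagMatrix N • τ : ℍ) : ℂ) =
      Function.Periodic.qParam 1 (τ : ℂ) ^ N := by
  rw [ModularForm.coe_heckeDiagMatrix_smul (NeZero.ne N)]
  unfold Function.Periodic.qParam
  rw [← Complex.exp_nat_mul]
  congr 1
  push_cast
  ring

/-- The `q`-expansion coefficients of `H`. -/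
theorem HN_qExpansion_coeff (N : ℕ) [NeZero N] (n : ℕ) :
    (qExpansion 1 (HN N)).coeff n =
      if N ∣ n then (qExpansion 1 ModularForm.discriminant).coeff (n / N) else 0 := by
  have hN : 0 < N := Nat.pos_of_ne_zero (NeZero.ne N)
  symm
  rw [← HNform_coe]
  refine ModularFormClass.qExpansion_coeff_unique
    (c := fun n => if N ∣ n then (qExpansion 1 ModularForm.discriminant).coeff (n / N) else 0)
    one_pos (CongruenceSubgroup.one_mem_strictPeriods_Gamma0 N) (f := HNform N) (fun τ => ?_) n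
  rw [HNform_coe]
  have hΔ : QNice ModularForm.discriminant := QNice.of_levelOne DeltaMF
  have h1 : HasSum (fun m : ℕ => (qExpansion 1 ModularForm.discriminant).coeff m •
      Function.Periodic.qParam 1 ((ModularForm.heckeDiagMatrix N • τ : ℍ) : ℂ) ^ m)
      (ModularForm.discriminant (ModularForm.heckeDiagMatrix N • τ)) :=
    UpperHalfPlane.hasSum_qExpansion one_pos (by simpa using hΔ.per) hΔ.hol hΔ.bdd _
  rw [qParam_heckeDiag] at h1
  have hinj : Function.Injective (fun m : ℕ => N * m) := fun a b hab =>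
    Nat.eq_of_mul_eq_mul_left hN hab
  have h2 : ((fun n : ℕ => (if N ∣ n then (qExpansion 1 ModularForm.discriminant).coeff (n / N)
        else 0) • Function.Periodic.qParam 1 (τ : ℂ) ^ n) ∘ fun m : ℕ => N * m) =
      fun m : ℕ => (qExpansion 1 ModularForm.discriminant).coeff m •
        (Function.Periodic.qParam 1 (τ : ℂ) ^ N) ^ m := by
    funext m
    simp only [Function.comp_apply]
    rw [if_pos (Dvd.intro m rfl), Nat.mul_div_cancel_left m hN, pow_mul]
  have h3 : HasSum ((fun n : ℕ => (if N ∣ n then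
      (qExpansion 1 ModularForm.discriminant).coeff (n / N) else 0) •
        Function.Periodic.qParam 1 (τ : ℂ) ^ n) ∘ fun m : ℕ => N * m) (HN N τ) := by
    rw [h2]
    exact h1
  refine (hinj.hasSum_iff ?_).mp h3
  intro x hx
  have hx' : ¬ N ∣ x := by
    rintro ⟨m, rfl⟩
    exact hx ⟨m, rfl⟩
  simp only [if_neg hx', zero_smul]

/-- (3b) The `q`-expansion of `H` is fixed by every ring endomorphism of `ℂ`. -/
theorem HN_qExpansion_map (N : ℕ) [NeZero N] (σ : ℂ →+* ℂ) :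
    PowerSeries.map σ (qExpansion 1 (HN N)) = qExpansion 1 (HN N) := by
  ext n
  rw [PowerSeries.coeff_map, HN_qExpansion_coeff]
  split_ifs with h
  · have := congrArg (PowerSeries.coeff (n / N)) (discriminant_qExpansion_map σ)
    rwa [PowerSeries.coeff_map] at this
  · simp

/-! ### Upper triangular matrices -/

theorem det_UT (a b d : ℝ) (had : a * d ≠ 0) :
    ((ModularForm.upperTriangularGL a b d had).det : ℝ) = a * d := by
  rw [Matrix.GeneralLinearGroup.val_det_apply, ModularForm.val_upperTriangularGL,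
    Matrix.det_fin_two_of]
  ring

theorem denom_UT (a b d : ℝ) (had : a * d ≠ 0) (τ : ℍ) :
    UpperHalfPlane.denom (ModularForm.upperTriangularGL a b d had) τ = d := by
  simp [UpperHalfPlane.denom, ModularForm.val_upperTriangularGL]

theorem coe_UT_smul (a b d : ℝ) (had : a * d ≠ 0) (hpos : 0 < a * d) (τ : ℍ) :
    ((ModularForm.upperTriangularGL a b d had • τ : ℍ) : ℂ) = ((a : ℂ) * τ + b) / d := by
  rw [UpperHalfPlane.coe_smul_of_det_pos (by rw [det_UT]; exact hpos)]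
  simp [UpperHalfPlane.num, UpperHalfPlane.denom, ModularForm.val_upperTriangularGL]

theorem σ_UT (a b d : ℝ) (had : a * d ≠ 0) (hpos : 0 < a * d) :
    UpperHalfPlane.σ (ModularForm.upperTriangularGL a b d had) = .refl ℝ ℂ := by
  rw [UpperHalfPlane.σ, if_pos (by rw [det_UT]; exact hpos)]

theorem slash_UT_apply (k : ℤ) (a b d : ℝ) (had : a * d ≠ 0) (hpos : 0 < a * d)
    (f : ℍ → ℂ) (τ : ℍ) :
    (f ∣[k] ModularForm.upperTriangularGL a b d had) τ =
      f (ModularForm.upperTriangularGL a b d had • τ) * ((a * d : ℝ) : ℂ) ^ (k - 1) *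
        (d : ℂ) ^ (-k) := by
  rw [ModularForm.slash_apply, σ_UT a b d had hpos, det_UT, denom_UT, abs_of_pos hpos]
  simp only [ContinuousAlgEquiv.refl_apply]

theorem im_UT_smul (a b d : ℝ) (had : a * d ≠ 0) (hpos : 0 < a * d) (hd : 0 < d) (τ : ℍ) :
    (ModularForm.upperTriangularGL a b d had • τ : ℍ).im = a * τ.im / d := by
  have h := coe_UT_smul a b d had hpos τ
  have h2 := congrArg Complex.im h
  rw [UpperHalfPlane.coe_im] at h2
  rw [h2]
  have hd' : (d : ℂ) = ((d : ℝ) : ℂ) := rfl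
  rw [Complex.div_im]
  simp
  field_simp

/-! ### Growth of `Δ` -/

open Real in
theorem discriminant_lower : ∃ C A : ℝ, 0 < C ∧ ∀ τ : ℍ, A ≤ τ.im →
    Real.exp (-2 * π * τ.im) ≤ C * ‖ModularForm.discriminant τ‖ := by
  obtain ⟨C, hC, hb⟩ := ModularForm.exp_isBigO_discriminant.exists_pos
  obtain ⟨A, hA⟩ := (UpperHalfPlane.atImInfty_mem _).mp hb.bound
  refine ⟨C, A, hC, fun τ hτ => ?_⟩
  have := hA τ hτ
  simp only [Set.mem_ofPred_eq] at this
  rwa [Real.norm_of_nonneg (Real.exp_pos _).le] at this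

open Real in
theorem discriminant_upper : ∃ C A : ℝ, 0 < C ∧ ∀ τ : ℍ, A ≤ τ.im →
    ‖ModularForm.discriminant τ‖ ≤ C * Real.exp (-2 * π * τ.im) := by
  have h := CuspFormClass.exp_decay_atImInfty (h := 1) CuspForm.discriminant one_pos
    one_mem_strictPeriods_SL'
  obtain ⟨C, hC, hb⟩ := h.exists_pos
  obtain ⟨A, hA⟩ := (UpperHalfPlane.atImInfty_mem _).mp hb.bound
  refine ⟨C, A, hC, fun τ hτ => ?_⟩
  have := hA τ hτ
  simp only [Set.mem_ofPred_eq, div_one] at this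
  rwa [Real.norm_of_nonneg (Real.exp_pos _).le] at this

theorem HN_slash_eq (N : ℕ) [NeZero N] (γ γ' : SL(2, ℤ)) (g₀ B D' : ℝ) (hg₀ : 0 < g₀)
    (hD' : 0 < D') (hN : g₀ * D' = N) (had : g₀ * D' ≠ 0)
    (hmat : mapGL ℝ γ' * (ModularForm.heckeDiagMatrix N * mapGL ℝ γ) =
      ModularForm.upperTriangularGL g₀ B D' had) (τ : ℍ) :
    (HN N ∣[(12 : ℤ)] γ) τ =
      ModularForm.discriminant (ModularForm.upperTriangularGL g₀ B D' had • τ) *
        (D' : ℂ) ^ (-12 : ℤ) := by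
  have hmat' : ModularForm.heckeDiagMatrix N * mapGL ℝ γ =
      (mapGL ℝ γ')⁻¹ * ModularForm.upperTriangularGL g₀ B D' had := by
    rw [← hmat, inv_mul_cancel_left]
  have hinv : ModularForm.discriminant ∣[(12 : ℤ)] (mapGL ℝ γ')⁻¹ = ModularForm.discriminant := by
    have := DeltaMF.slash_action_eq' ((mapGL ℝ γ')⁻¹) ⟨γ'⁻¹, by simp⟩
    exact this
  have h1 : HN N ∣[(12 : ℤ)] γ = ((N : ℂ) ^ (11 : ℤ))⁻¹ •
      (ModularForm.discriminant ∣[(12 : ℤ)] ModularForm.upperTriangularGL g₀ B D' had) := by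
    rw [HN_eq_slash, ModularForm.SL_smul_slash, ModularForm.SL_slash, ← SlashAction.slash_mul]
    have : (ModularForm.heckeDiagMatrix N * (γ : GL (Fin 2) ℝ)) =
        (mapGL ℝ γ')⁻¹ * ModularForm.upperTriangularGL g₀ B D' had := hmat'
    rw [this, SlashAction.slash_mul, hinv]
  rw [h1, Pi.smul_apply, slash_UT_apply 12 g₀ B D' had (mul_pos hg₀ hD'), hN, smul_eq_mul]
  have hN0 : (N : ℂ) ≠ 0 := Nat.cast_ne_zero.mpr (NeZero.ne N)
  have hN' : (((N : ℕ) : ℝ) : ℂ) = (N : ℂ) := by push_cast; rfl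
  rw [hN']
  norm_num
  field_simp

open Real in
/-- (3c) The stabiliser of `H` in `SL(2, ℤ)` is exactly `Γ₀(N)`. -/
theorem HN_slash_ne (N : ℕ) [NeZero N] (γ : SL(2, ℤ)) (hγ : γ ∉ CongruenceSubgroup.Gamma0 N) :
    (HN N) ∣[(12 : ℤ)] γ ≠ HN N := by
  intro hEq
  have hNpos : 0 < N := Nat.pos_of_ne_zero (NeZero.ne N)
  have hdet := γ.det_coe
  rw [Matrix.det_fin_two] at hdet
  have hc : ¬ (N : ℤ) ∣ γ 1 0 := by
    intro h
    apply hγ
    rw [CongruenceSubgroup.Gamma0_mem]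
    exact (ZMod.intCast_zmod_eq_zero_iff_dvd _ _).mpr h
  have hc0 : γ 1 0 ≠ 0 := fun h => hc (h ▸ dvd_zero _)
  generalize ha : γ 0 0 = a at hdet
  generalize hb : γ 0 1 = b at hdet
  generalize hcc : γ 1 0 = c at hdet hc hc0
  generalize hd : γ 1 1 = d at hdet
  obtain ⟨g, hg⟩ : ∃ g : ℤ, g = (Int.gcd ((N : ℤ) * a) c : ℤ) := ⟨_, rfl⟩
  have hgpos : 0 < g := by
    rw [hg]
    exact_mod_cast Int.gcd_pos_of_ne_zero_right _ hc0
  obtain ⟨x, hx⟩ : g ∣ (N : ℤ) * a := hg ▸ Int.gcd_dvd_left _ _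
  obtain ⟨y, hy⟩ : g ∣ c := hg ▸ Int.gcd_dvd_right _ _
  have hbez : g = (N : ℤ) * a * Int.gcdA ((N : ℤ) * a) c + c * Int.gcdB ((N : ℤ) * a) c :=
    hg ▸ Int.gcd_eq_gcd_ab _ _
  generalize Int.gcdA ((N : ℤ) * a) c = u at hbez
  generalize Int.gcdB ((N : ℤ) * a) c = v at hbez
  have hxy : u * x + v * y = 1 := by
    have h1 : g * (u * x + v * y) = g * 1 := by
      rw [mul_one]
      calc g * (u * x + v * y) = (g * x) * u + (g * y) * v := by ring
        _ = (N : ℤ) * a * u + c * v := by rw [← hx, ← hy]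
        _ = g := hbez.symm
    exact mul_left_cancel₀ hgpos.ne' h1
  obtain ⟨D', hD'⟩ : ∃ D' : ℤ, D' = x * d - y * N * b := ⟨_, rfl⟩
  have hgD : g * D' = N := by
    calc g * D' = (g * x) * d - (g * y) * N * b := by rw [hD']; ring
      _ = (N : ℤ) * a * d - c * N * b := by rw [← hx, ← hy]
      _ = N * (a * d - b * c) := by ring
      _ = N := by rw [hdet]; ring
  have hD'pos : 0 < D' := by
    by_contra h
    push Not at h
    have h2 : g * D' ≤ 0 := mul_nonpos_of_nonneg_of_nonpos hgpos.le h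
    rw [hgD] at h2
    have : (0 : ℤ) < N := by exact_mod_cast hNpos
    omega
  have hglt : g < N := by
    have hgle : g ≤ N := Int.le_of_dvd (by exact_mod_cast hNpos) ⟨D', hgD.symm⟩
    rcases hgle.lt_or_eq with h | h
    · exact h
    · exact absurd (h ▸ ⟨y, hy⟩ : (N : ℤ) ∣ c) hc
  obtain ⟨γ', hγ'⟩ : ∃ γ' : SL(2, ℤ), (γ' : Matrix (Fin 2) (Fin 2) ℤ) = !![u, v; -y, x] :=
    ⟨⟨_, by rw [Matrix.det_fin_two_of]; linarith⟩, rfl⟩
  obtain ⟨B, hB⟩ : ∃ B : ℤ, B = u * N * b + v * d := ⟨_, rfl⟩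
  have hgR : (0 : ℝ) < g := by exact_mod_cast hgpos
  have hDR : (0 : ℝ) < D' := by exact_mod_cast hD'pos
  have hgDR : (g : ℝ) * (D' : ℝ) = N := by exact_mod_cast hgD
  have had : (g : ℝ) * (D' : ℝ) ≠ 0 := (mul_pos hgR hDR).ne'
  have hmat : mapGL ℝ γ' * (ModularForm.heckeDiagMatrix N * mapGL ℝ γ) =
      ModularForm.upperTriangularGL (g : ℝ) (B : ℝ) (D' : ℝ) had := by
    apply Units.ext
    rw [Units.val_mul, Units.val_mul, ModularForm.val_heckeDiagMatrix (NeZero.ne N),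
      mapGL_coe_matrix, mapGL_coe_matrix, ModularForm.val_upperTriangularGL]
    have e00 : (u : ℝ) * ((N : ℝ) * a) + v * c = g := by
      have : u * ((N : ℤ) * a) + v * c = g := by rw [hbez]; ring
      exact_mod_cast this
    have e01 : (u : ℝ) * ((N : ℝ) * b) + v * d = B := by
      have : u * ((N : ℤ) * b) + v * d = B := by rw [hB]; ring
      exact_mod_cast this
    have e10 : -(y : ℝ) * ((N : ℝ) * a) + x * c = 0 := by
      have : -y * ((N : ℤ) * a) + x * c = 0 := by rw [hx, hy]; ring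
      exact_mod_cast this
    have e11 : -(y : ℝ) * ((N : ℝ) * b) + x * d = D' := by
      have : -y * ((N : ℤ) * b) + x * d = D' := by rw [hD']; ring
      exact_mod_cast this
    have hγR : ((Matrix.SpecialLinearGroup.map (algebraMap ℤ ℝ) γ : SL(2, ℝ)) :
        Matrix (Fin 2) (Fin 2) ℝ) = !![(a : ℝ), b; c, d] := by
      ext i j
      fin_cases i <;> fin_cases j <;> simp [ha, hb, hcc, hd]
    have hγ'R : ((Matrix.SpecialLinearGroup.map (algebraMap ℤ ℝ) γ' : SL(2, ℝ)) :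
        Matrix (Fin 2) (Fin 2) ℝ) = !![(u : ℝ), v; -y, x] := by
      ext i j
      fin_cases i <;> fin_cases j <;> simp [hγ']
    rw [hγR, hγ'R, Matrix.mul_fin_two, Matrix.mul_fin_two]
    ext i j
    fin_cases i <;> fin_cases j <;> simp
    · linarith
    · linarith
    · linarith
    · linarith
  have hfun : ∀ τ : ℍ, ModularForm.discriminant
      (ModularForm.upperTriangularGL (g : ℝ) (B : ℝ) (D' : ℝ) had • τ) =
        ModularForm.discriminant (ModularForm.heckeDiagMatrix N • τ) * ((D' : ℝ) : ℂ) ^ (12 : ℕ) := by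
    intro τ
    have h1 := HN_slash_eq N γ γ' g B D' hgR hDR hgDR had hmat τ
    rw [hEq] at h1
    have h2 : HN N τ = ModularForm.discriminant (ModularForm.heckeDiagMatrix N • τ) := rfl
    rw [← h2, h1]
    have hDC : ((D' : ℝ) : ℂ) ≠ 0 := by exact_mod_cast hDR.ne'
    rw [mul_assoc, zpow_neg, ← zpow_natCast, Nat.cast_ofNat, inv_mul_cancel₀ (zpow_ne_zero _ hDC),
      mul_one]
  obtain ⟨C₁, A₁, hC₁, h₁⟩ := discriminant_lower
  obtain ⟨C₂, A₂, hC₂, h₂⟩ := discriminant_upper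
  obtain ⟨K, hK⟩ : ∃ K : ℝ, K = C₁ * C₂ * (D' : ℝ) ^ 12 := ⟨_, rfl⟩
  obtain ⟨t, ht⟩ : ∃ t : ℝ, t = max (max (A₁ * D' / g) (A₂ / N)) (max 1 K) := ⟨_, rfl⟩
  have ht1 : 1 ≤ t := ht ▸ le_max_of_le_right (le_max_left _ _)
  have htK : K ≤ t := ht ▸ le_max_of_le_right (le_max_right _ _)
  have htA1 : A₁ * D' / g ≤ t := ht ▸ le_max_of_le_left (le_max_left _ _)
  have htA2 : A₂ / N ≤ t := ht ▸ le_max_of_le_left (le_max_right _ _)
  have ht0 : 0 < t := lt_of_lt_of_le one_pos ht1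
  have hNR : (0 : ℝ) < N := by exact_mod_cast hNpos
  obtain ⟨τ, hτ⟩ : ∃ τ : ℍ, τ.im = t := ⟨⟨⟨0, t⟩, ht0⟩, rfl⟩
  have him1 : (ModularForm.upperTriangularGL (g : ℝ) (B : ℝ) (D' : ℝ) had • τ : ℍ).im =
      g * t / D' := by
    rw [im_UT_smul _ _ _ had (mul_pos hgR hDR) hDR, hτ]
  have him2 : (ModularForm.heckeDiagMatrix N • τ : ℍ).im = N * t := by
    have h := congrArg Complex.im (ModularForm.coe_heckeDiagMatrix_smul (NeZero.ne N) τ)
    rw [UpperHalfPlane.coe_im] at h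
    rw [h]
    simp [hτ]
  have e1 := h₁ (ModularForm.upperTriangularGL (g : ℝ) (B : ℝ) (D' : ℝ) had • τ) (by
    rw [him1, le_div_iff₀ hDR]
    have := (div_le_iff₀ hgR).mp htA1
    linarith)
  have e2 := h₂ (ModularForm.heckeDiagMatrix N • τ) (by
    rw [him2]
    have := (div_le_iff₀ hNR).mp htA2
    linarith)
  rw [him1, hfun τ, norm_mul, norm_pow, Complex.norm_real, Real.norm_of_nonneg hDR.le] at e1
  rw [him2] at e2
  -- exp(-2π g t / D') ≤ K * exp(-2π N t)
  have e3 : Real.exp (-2 * π * (g * t / D')) ≤ K * Real.exp (-2 * π * (N * t)) := by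
    calc Real.exp (-2 * π * (g * t / D'))
        ≤ C₁ * (‖ModularForm.discriminant (ModularForm.heckeDiagMatrix N • τ)‖ * (D' : ℝ) ^ 12) := e1
      _ ≤ C₁ * ((C₂ * Real.exp (-2 * π * (N * t))) * (D' : ℝ) ^ 12) := by
          apply mul_le_mul_of_nonneg_left _ hC₁.le
          exact mul_le_mul_of_nonneg_right e2 (pow_nonneg hDR.le _)
      _ = K * Real.exp (-2 * π * (N * t)) := by rw [hK]; ring
  have hKpos : 0 < K := by rw [hK]; positivity
  -- hence exp(2π (N - g/D') t) ≤ K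
  have e4 : Real.exp (2 * π * (N * t) - 2 * π * (g * t / D')) ≤ K := by
    have h5 : Real.exp (2 * π * (N * t) - 2 * π * (g * t / D')) =
        Real.exp (-2 * π * (g * t / D')) * Real.exp (2 * π * (N * t)) := by
      rw [← Real.exp_add]; ring_nf
    rw [h5]
    calc Real.exp (-2 * π * (g * t / D')) * Real.exp (2 * π * (N * t))
        ≤ K * Real.exp (-2 * π * (N * t)) * Real.exp (2 * π * (N * t)) :=
          mul_le_mul_of_nonneg_right e3 (Real.exp_pos _).le
      _ = K := by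
          rw [mul_assoc, ← Real.exp_add]
          ring_nf
          simp
  -- but the exponent is at least t
  have hgD' : (g : ℝ) / D' ≤ (N : ℝ) - 1 := by
    have h6 : (g : ℝ) ≤ (N : ℝ) - 1 := by
      have : g ≤ (N : ℤ) - 1 := by omega
      exact_mod_cast this
    have h7 : (1 : ℝ) ≤ D' := by exact_mod_cast hD'pos
    calc (g : ℝ) / D' ≤ g / 1 := div_le_div_of_nonneg_left hgR.le one_pos h7
      _ = g := div_one _
      _ ≤ (N : ℝ) - 1 := h6
  have e5 : t ≤ 2 * π * (N * t) - 2 * π * (g * t / D') := by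
    have h8 : 2 * π * (N * t) - 2 * π * (g * t / D') = 2 * π * t * ((N : ℝ) - g / D') := by ring
    rw [h8]
    have h9 : (1 : ℝ) ≤ (N : ℝ) - g / D' := by linarith
    have h10 : (1 : ℝ) ≤ 2 * π := by
      have := Real.pi_gt_three
      linarith
    nlinarith [mul_le_mul h10 h9 zero_le_one (by positivity : (0 : ℝ) ≤ 2 * π)]
  have e6 : t + 1 ≤ K := by
    calc t + 1 ≤ Real.exp t := Real.add_one_le_exp t
      _ ≤ Real.exp (2 * π * (N * t) - 2 * π * (g * t / D')) := Real.exp_le_exp.mpr e5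
      _ ≤ K := e4
  linarith

end Fermat.Agent.T23
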