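-- S16 (helper6): the weight-2 Eisenstein series of level Γ₀(p), built from Mathlib's `E2`.
import Fermat.Agent.Lib.E16_Defs
import Fermat.Agent.Lib.T23_HN
import Fermat.Prelude.Def_ModularForm_HeckeOperator
import Mathlib

set_option autoImplicit false

/-!
# S16: the Eisenstein series `E = (p E₂(p z) - E₂(z)) / 24` of weight 2 and level `Γ₀(p)`

* `e16EisFun p` : the function; `e16Eis p : ModularForm (Γ₀(p)) 2`;
* `e16Eis_qCoeff_zero`, `e16Eis_qCoeff` : its `q`-expansion `(p - 1)/24 + ∑ δ_k q^k`;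
* `e16δ_eq_sigma` : `δ_n = σ(n) - p σ(n/p)`.
-/

namespace Fermat.Agent.E16

open UpperHalfPlane ModularForm EisensteinSeries ModularFormClass
open scoped MatrixGroups Manifold ArithmeticFunction.sigma
open Matrix.SpecialLinearGroup

/-- the function `E(z) = (p E₂(pz) - E₂(z))/24` -/
noncomputable def e16EisFun (p : ℕ) : ℍ → ℂ :=
  (24 : ℂ)⁻¹ • (E2 ∣[(2 : ℤ)] ModularForm.heckeDiagMatrix p - E2)

theorem e16EisFun_apply (p : ℕ) (hp : p ≠ 0) (τ : ℍ) :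
    e16EisFun p τ = ((p : ℂ) * E2 (ModularForm.heckeDiagMatrix p • τ) - E2 τ) / 24 := by
  rw [e16EisFun, Pi.smul_apply, Pi.sub_apply, ModularForm.slash_heckeDiagMatrix_apply 2 hp]
  simp only [smul_eq_mul]
  norm_num
  ring

/-- conjugating `Γ₀(p)` by `diag(p, 1)` -/
theorem e16_conj (p : ℕ) (hp : p ≠ 0) (γ : SL(2, ℤ)) (hγ : γ ∈ CongruenceSubgroup.Gamma0 p) :
    ∃ γ' : SL(2, ℤ), (p : ℤ) * γ' 1 0 = γ 1 0 ∧ γ' 1 1 = γ 1 1 ∧
      ModularForm.heckeDiagMatrix p * mapGL ℝ γ = mapGL ℝ γ' * ModularForm.heckeDiagMatrix p := by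
  rw [CongruenceSubgroup.Gamma0_mem] at hγ
  obtain ⟨c', hc'⟩ : (p : ℤ) ∣ γ 1 0 := by
    rwa [ZMod.intCast_zmod_eq_zero_iff_dvd] at hγ
  have hdet := γ.det_coe
  rw [Matrix.det_fin_two] at hdet
  have hdet' : Matrix.det !![γ 0 0, (p : ℤ) * γ 0 1; c', γ 1 1] = 1 := by
    rw [Matrix.det_fin_two_of]
    rw [hc'] at hdet
    linarith
  obtain ⟨γ', hγ'⟩ : ∃ γ' : SL(2, ℤ),
      (γ' : Matrix (Fin 2) (Fin 2) ℤ) = !![γ 0 0, (p : ℤ) * γ 0 1; c', γ 1 1] :=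
    ⟨⟨_, hdet'⟩, rfl⟩
  refine ⟨γ', ?_, ?_, ?_⟩
  · rw [hγ', hc']; simp
  · rw [hγ']; simp
  · apply Units.ext
    rw [Units.val_mul, Units.val_mul, ModularForm.val_heckeDiagMatrix hp,
      mapGL_coe_matrix, mapGL_coe_matrix]
    have hc'' : ((γ 1 0 : ℤ) : ℝ) = (p : ℝ) * (c' : ℝ) := by exact_mod_cast hc'
    ext i j
    fin_cases i <;> fin_cases j <;>
      simp [Matrix.mul_apply, Fin.sum_univ_two, hc'', mul_comm, hγ']

theorem e16_D2_slash (p : ℕ) (hp : p ≠ 0) (γ γ' : SL(2, ℤ)) (h10 : (p : ℤ) * γ' 1 0 = γ 1 0)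
    (h11 : γ' 1 1 = γ 1 1) :
    (D2 γ') ∣[(2 : ℤ)] ModularForm.heckeDiagMatrix p = D2 γ := by
  ext τ
  rw [ModularForm.slash_heckeDiagMatrix_apply 2 hp]
  unfold D2
  have hd1 := denom_ne_zero γ' (ModularForm.heckeDiagMatrix p • τ)
  have hd2 := denom_ne_zero γ τ
  rw [ModularGroup.denom_apply] at hd1 hd2 ⊢
  rw [ModularGroup.denom_apply]
  rw [ModularForm.coe_heckeDiagMatrix_smul hp] at hd1 ⊢
  have e10 : ((γ 1 0 : ℤ) : ℂ) = (p : ℂ) * ((γ' 1 0 : ℤ) : ℂ) := by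
    rw [← h10]; push_cast; ring
  have e11 : ((γ 1 1 : ℤ) : ℂ) = ((γ' 1 1 : ℤ) : ℂ) := by rw [h11]
  rw [e10, e11] at hd2 ⊢
  have hd1' : ((γ' 1 0 : ℤ) : ℂ) * ((p : ℂ) * (τ : ℂ)) + ((γ' 1 1 : ℤ) : ℂ) ≠ 0 := hd1
  have hd2' : (p : ℂ) * ((γ' 1 0 : ℤ) : ℂ) * (τ : ℂ) + ((γ' 1 1 : ℤ) : ℂ) ≠ 0 := hd2
  have hd3 : ((γ' 1 0 : ℤ) : ℂ) * ((p : ℂ) * (τ : ℂ)) + ((γ' 1 1 : ℤ) : ℂ) =
      (p : ℂ) * ((γ' 1 0 : ℤ) : ℂ) * (τ : ℂ) + ((γ' 1 1 : ℤ) : ℂ) := by ring
  rw [hd3]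
  norm_num
  field_simp

theorem e16_sub_slash (k : ℤ) (A : GL (Fin 2) ℝ) (f g : ℍ → ℂ) :
    (f - g) ∣[k] A = f ∣[k] A - g ∣[k] A := by
  rw [sub_eq_add_neg, SlashAction.add_slash, SlashAction.neg_slash, ← sub_eq_add_neg]

theorem e16_smul_slash_diag (k : ℤ) (p : ℕ) (c : ℂ) (f : ℍ → ℂ) :
    (c • f) ∣[k] ModularForm.heckeDiagMatrix p = c • (f ∣[k] ModularForm.heckeDiagMatrix p) := by
  rw [ModularForm.smul_slash, ModularForm.σ_heckeDiagMatrix]
  rfl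

theorem e16_SL_slash (k : ℤ) (f : ℍ → ℂ) (γ : SL(2, ℤ)) :
    f ∣[k] γ = f ∣[k] (mapGL ℝ γ) := rfl

theorem e16EisFun_slash (p : ℕ) (hp : p ≠ 0) (γ : SL(2, ℤ))
    (hγ : γ ∈ CongruenceSubgroup.Gamma0 p) :
    e16EisFun p ∣[(2 : ℤ)] γ = e16EisFun p := by
  obtain ⟨γ', h10, h11, hconj⟩ := e16_conj p hp γ hγ
  have h1 : (E2 ∣[(2 : ℤ)] ModularForm.heckeDiagMatrix p) ∣[(2 : ℤ)] γ =
      E2 ∣[(2 : ℤ)] ModularForm.heckeDiagMatrix p - (1 / (2 * riemannZeta 2)) • D2 γ := by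
    rw [e16_SL_slash, ← SlashAction.slash_mul, hconj, SlashAction.slash_mul, ← e16_SL_slash,
      E2_slash_action γ', e16_sub_slash, e16_smul_slash_diag, e16_D2_slash p hp γ γ' h10 h11]
  unfold e16EisFun
  rw [SL_smul_slash, e16_SL_slash, e16_sub_slash, ← e16_SL_slash, ← e16_SL_slash, h1,
    E2_slash_action γ]
  congr 1
  abel

theorem e16EisFun_mdiff (p : ℕ) : MDiff (e16EisFun p) := by
  unfold e16EisFun
  exact ((E2_mdifferentiable.slash 2 _).sub E2_mdifferentiable).const_smul _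

theorem e16_D2_bdd (γ : SL(2, ℤ)) : IsBoundedAtImInfty (D2 γ) := by
  rw [UpperHalfPlane.isBoundedAtImInfty_iff]
  refine ⟨2 * Real.pi, 1, fun z hz => ?_⟩
  show ‖2 * (Real.pi : ℂ) * Complex.I * ((γ 1 0 : ℤ) : ℂ) / denom γ z‖ ≤ 2 * Real.pi
  by_cases hc : γ 1 0 = 0
  · simp [hc, Real.pi_pos.le]
  · have hc' : ((γ 1 0 : ℤ) : ℝ) ≠ 0 := by exact_mod_cast hc
    have hden : |((γ 1 0 : ℤ) : ℝ)| ≤ ‖denom γ z‖ := by
      rw [ModularGroup.denom_apply]
      calc |((γ 1 0 : ℤ) : ℝ)| ≤ |((γ 1 0 : ℤ) : ℝ)| * z.im := le_mul_of_one_le_right (abs_nonneg _) hz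
        _ = |(((γ 1 0 : ℤ) : ℂ) * (z : ℂ) + ((γ 1 1 : ℤ) : ℂ)).im| := by
          simp [abs_mul, abs_of_pos z.im_pos]
        _ ≤ _ := Complex.abs_im_le_norm _
    have hpos : 0 < |((γ 1 0 : ℤ) : ℝ)| := abs_pos.mpr hc'
    rw [norm_div]
    rw [div_le_iff₀ (lt_of_lt_of_le hpos hden)]
    calc ‖2 * (Real.pi : ℂ) * Complex.I * ((γ 1 0 : ℤ) : ℂ)‖ = 2 * Real.pi * |((γ 1 0 : ℤ) : ℝ)| := by
          simp [abs_of_pos Real.pi_pos]
      _ ≤ 2 * Real.pi * ‖denom γ z‖ := by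
          apply mul_le_mul_of_nonneg_left hden (by positivity)

theorem e16_E2_bdd_slash (γ : SL(2, ℤ)) : IsBoundedAtImInfty (E2 ∣[(2 : ℤ)] γ) := by
  rw [E2_slash_action]
  exact isBoundedAtImInfty_E2.sub ((e16_D2_bdd γ).const_smul_left _)

theorem e16_E2_bddAt {c : OnePoint ℝ} (hc : IsCusp c 𝒮ℒ) : c.IsBoundedAt E2 2 := by
  rw [OnePoint.isBoundedAt_iff_forall_SL2Z hc]
  intro γ _
  exact e16_E2_bdd_slash γ

open ConjAct Pointwise in
theorem e16_E2_diag_bddAt (p : ℕ) [NeZero p] {c : OnePoint ℝ}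
    (hc : IsCusp c (CongruenceSubgroup.Gamma0 p : Subgroup (GL (Fin 2) ℝ))) :
    c.IsBoundedAt (E2 ∣[(2 : ℤ)] ModularForm.heckeDiagMatrix p) 2 := by
  rw [← OnePoint.IsBoundedAt.smul_iff]
  apply e16_E2_bddAt
  have h1 := (hc.mono (Fermat.Agent.T23.Gamma0_le_conj p)).smul (ModularForm.heckeDiagMatrix p)
  simpa using h1

theorem e16EisFun_bddAt (p : ℕ) [NeZero p] {c : OnePoint ℝ}
    (hc : IsCusp c (CongruenceSubgroup.Gamma0 p : Subgroup (GL (Fin 2) ℝ))) :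
    c.IsBoundedAt (e16EisFun p) 2 := by
  have hc1 : IsCusp c 𝒮ℒ := by
    rwa [Subgroup.IsArithmetic.isCusp_iff_isCusp_SL2Z] at hc
  intro g hg
  unfold e16EisFun
  rw [ModularForm.smul_slash, e16_sub_slash]
  exact ((e16_E2_diag_bddAt p hc g hg).sub (e16_E2_bddAt hc1 g hg)).const_smul_left _

/-- **the weight-2 Eisenstein series of level `Γ₀(p)`**: `E = (p E₂(p z) - E₂(z))/24`. -/
noncomputable def e16Eis (p : ℕ) [NeZero p] : ModularForm (CongruenceSubgroup.Gamma0 p) 2 where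
  toFun := e16EisFun p
  slash_action_eq' A hA := by
    obtain ⟨γ, hγ, rfl⟩ := hA
    exact e16EisFun_slash p (NeZero.ne p) γ hγ
  holo' := e16EisFun_mdiff p
  bdd_at_cusps' hc := e16EisFun_bddAt p hc

theorem e16Eis_coe (p : ℕ) [NeZero p] : ⇑(e16Eis p) = e16EisFun p := rfl

/-- `δ_n = σ(n) - p σ(n/p)` -/
theorem e16δ_eq_sigma (p : ℕ) [Fact p.Prime] (n : ℕ) :
    e16δ p n = (σ 1 n : ℤ) - (if p ∣ n then (p : ℤ) * (σ 1 (n / p) : ℤ) else 0) := by
  have hp : p.Prime := Fact.out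
  rw [ArithmeticFunction.sigma_one_apply, ArithmeticFunction.sigma_one_apply]
  have hsplit : (∑ d ∈ n.divisors, (d : ℤ)) = e16δ p n +
      ∑ d ∈ n.divisors.filter (fun d => p ∣ d), (d : ℤ) := by
    unfold e16δ
    rw [add_comm]
    exact (Finset.sum_filter_add_sum_filter_not n.divisors (fun d => p ∣ d) (fun d => (d : ℤ))).symm
  have hpart : (∑ d ∈ n.divisors.filter (fun d => p ∣ d), (d : ℤ)) =
      (if p ∣ n then (p : ℤ) * ((∑ d ∈ (n / p).divisors, d : ℕ) : ℤ) else 0) := by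
    split_ifs with hpn
    · rcases Nat.eq_zero_or_pos n with rfl | hn
      · simp
      obtain ⟨m, rfl⟩ := hpn
      have hm : m ≠ 0 := by rintro rfl; simp at hn
      rw [Nat.mul_div_cancel_left m hp.pos]
      push_cast
      rw [Finset.mul_sum]
      symm
      refine Finset.sum_bij' (fun e _ => p * e) (fun d _ => d / p) ?_ ?_ ?_ ?_ ?_
      · intro e he
        rw [Nat.mem_divisors] at he
        rw [Finset.mem_filter, Nat.mem_divisors]
        exact ⟨⟨Nat.mul_dvd_mul_left p he.1, mul_ne_zero hp.ne_zero hm⟩, Dvd.intro e rfl⟩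
      · intro d hd
        rw [Finset.mem_filter, Nat.mem_divisors] at hd
        obtain ⟨⟨hd1, _⟩, e, rfl⟩ := hd
        rw [Nat.mul_div_cancel_left e hp.pos, Nat.mem_divisors]
        exact ⟨(Nat.mul_dvd_mul_iff_left hp.pos).mp hd1, hm⟩
      · intro e _
        exact Nat.mul_div_cancel_left e hp.pos
      · intro d hd
        rw [Finset.mem_filter] at hd
        exact Nat.mul_div_cancel' hd.2
      · intro e _
        push_cast
        rfl
    · apply Finset.sum_eq_zero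
      intro d hd
      rw [Finset.mem_filter, Nat.mem_divisors] at hd
      exact absurd (dvd_trans hd.2 hd.1.1) hpn
  push_cast at hsplit ⊢
  rw [hsplit, hpart]
  push_cast
  ring

/-- the coefficients of `E₂` -/
noncomputable def e16E2c (m : ℕ) : ℂ := if m = 0 then 1 else -24 * (σ 1 m : ℂ)

theorem e16_E2_hasSum (τ : ℍ) :
    HasSum (fun m : ℕ => e16E2c m • Function.Periodic.qParam 1 (τ : ℂ) ^ m) (E2 τ) := by
  have := hasSum_qExpansion_E2 (z := τ)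
  simpa only [Function.Periodic.qParam, Complex.ofReal_one, div_one, e16E2c] using this

/-- the coefficients of `E` -/
noncomputable def e16Ec (p : ℕ) (n : ℕ) : ℂ :=
  if n = 0 then ((p : ℂ) - 1) / 24 else (e16δ p n : ℂ)

theorem e16Ec_eq (p : ℕ) [Fact p.Prime] (n : ℕ) :
    e16Ec p n = ((p : ℂ) * (if p ∣ n then e16E2c (n / p) else 0) - e16E2c n) / 24 := by
  have hp : p.Prime := Fact.out
  unfold e16Ec e16E2c
  rcases Nat.eq_zero_or_pos n with rfl | hn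
  · simp
  · rw [if_neg hn.ne', if_neg hn.ne', e16δ_eq_sigma]
    by_cases hpn : p ∣ n
    · have hnp : n / p ≠ 0 := by
        obtain ⟨m, rfl⟩ := hpn
        rw [Nat.mul_div_cancel_left m hp.pos]
        rintro rfl
        simp at hn
      rw [if_pos hpn, if_pos hpn, if_neg hnp]
      push_cast
      ring
    · rw [if_neg hpn, if_neg hpn]
      push_cast
      ring

theorem e16EisFun_hasSum (p : ℕ) [Fact p.Prime] (τ : ℍ) :
    HasSum (fun n : ℕ => e16Ec p n • Function.Periodic.qParam 1 (τ : ℂ) ^ n) (e16EisFun p τ) := by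
  have hp : p.Prime := Fact.out
  have : NeZero p := ⟨hp.ne_zero⟩
  have h1 := e16_E2_hasSum (ModularForm.heckeDiagMatrix p • τ)
  rw [Fermat.Agent.T23.qParam_heckeDiag] at h1
  have hinj : Function.Injective (fun m : ℕ => p * m) := fun a b hab =>
    Nat.eq_of_mul_eq_mul_left hp.pos hab
  have h2 : ((fun n : ℕ => (if p ∣ n then e16E2c (n / p) else 0) •
        Function.Periodic.qParam 1 (τ : ℂ) ^ n) ∘ fun m : ℕ => p * m) =
      fun m : ℕ => e16E2c m • (Function.Periodic.qParam 1 (τ : ℂ) ^ p) ^ m := by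
    funext m
    simp only [Function.comp_apply]
    rw [if_pos (Dvd.intro m rfl), Nat.mul_div_cancel_left m hp.pos, pow_mul]
  have h3 : HasSum (fun n : ℕ => (if p ∣ n then e16E2c (n / p) else 0) •
        Function.Periodic.qParam 1 (τ : ℂ) ^ n) (E2 (ModularForm.heckeDiagMatrix p • τ)) := by
    refine (hinj.hasSum_iff ?_).mp (by rw [h2]; exact h1)
    intro x hx
    have hx' : ¬ p ∣ x := by
      rintro ⟨m, rfl⟩
      exact hx ⟨m, rfl⟩
    simp only [if_neg hx', zero_smul]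
  have h0 := e16_E2_hasSum τ
  have h4 := (((h3.mul_left (p : ℂ)).sub h0).div_const 24)
  rw [e16EisFun_apply p hp.ne_zero]
  have hfun : (fun n : ℕ => e16Ec p n • Function.Periodic.qParam 1 (τ : ℂ) ^ n) =
      fun i : ℕ => ((p : ℂ) * (if p ∣ i then e16E2c (i / p) else 0) •
        Function.Periodic.qParam 1 (τ : ℂ) ^ i -
          e16E2c i • Function.Periodic.qParam 1 (τ : ℂ) ^ i) / 24 := by
    funext n
    rw [e16Ec_eq]
    simp only [smul_eq_mul]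
    ring
  rw [hfun]
  exact h4

theorem e16Eis_qExpansion_coeff (p : ℕ) [Fact p.Prime] (n : ℕ) :
    (qExpansion 1 (e16Eis p)).coeff n = e16Ec p n := by
  symm
  refine ModularFormClass.qExpansion_coeff_unique (c := e16Ec p)
    one_pos (CongruenceSubgroup.one_mem_strictPeriods_Gamma0 p) (f := e16Eis p) (fun τ => ?_) n
  exact e16EisFun_hasSum p τ

theorem e16Eis_qCoeff_zero (p : ℕ) [Fact p.Prime] :
    qCoeff (e16Eis p) 0 = ((p : ℂ) - 1) / 24 := by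
  rw [qCoeff, e16Eis_qExpansion_coeff]
  simp [e16Ec]

theorem e16Eis_qCoeff (p : ℕ) [Fact p.Prime] (k : ℕ) (hk : 1 ≤ k) :
    qCoeff (e16Eis p) k = (e16δ p k : ℂ) := by
  rw [qCoeff, e16Eis_qExpansion_coeff]
  have : k ≠ 0 := by omega
  simp [e16Ec, this]

theorem e16_mapGL_val (g : SL(2, ℤ)) (a b c d : ℤ)
    (hg : (g : Matrix (Fin 2) (Fin 2) ℤ) = !![a, b; c, d]) :
    ((mapGL ℝ g : GL (Fin 2) ℝ) : Matrix (Fin 2) (Fin 2) ℝ) = !![(a : ℝ), (b : ℝ); (c : ℝ), (d : ℝ)] := by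
  rw [mapGL_coe_matrix]
  ext i j
  have h := congrFun (congrFun hg i) j
  rw [Matrix.SpecialLinearGroup.map_apply_coe, RingHom.mapMatrix_apply, Matrix.map_apply, h]
  fin_cases i <;> fin_cases j <;> simp

theorem e16_diag_S (p : ℕ) (hp : p ≠ 0) :
    ModularForm.heckeDiagMatrix p * mapGL ℝ ModularGroup.S =
      mapGL ℝ ModularGroup.S * ModularForm.heckeMatrix p 0 := by
  apply Units.ext
  rw [Units.val_mul, Units.val_mul, ModularForm.val_heckeDiagMatrix hp,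
    ModularForm.val_heckeMatrix hp, e16_mapGL_val ModularGroup.S 0 (-1) 1 0 rfl]
  ext i j
  fin_cases i <;> fin_cases j <;>
    simp [Matrix.mul_apply, Fin.sum_univ_two]

theorem e16_hecke_T (p : ℕ) (hp : p ≠ 0) (b : ℕ) :
    ModularForm.heckeMatrix p 0 * mapGL ℝ (ModularGroup.T ^ b) = ModularForm.heckeMatrix p b := by
  have hT : ((ModularGroup.T ^ b : SL(2, ℤ)) : Matrix (Fin 2) (Fin 2) ℤ) = !![1, (b : ℤ); 0, 1] := by
    have := ModularGroup.coe_T_zpow (b : ℤ)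
    rwa [zpow_natCast] at this
  apply Units.ext
  rw [Units.val_mul, ModularForm.val_heckeMatrix hp, ModularForm.val_heckeMatrix hp,
    e16_mapGL_val _ 1 b 0 1 hT]
  ext i j
  fin_cases i <;> fin_cases j <;>
    simp [Matrix.mul_apply, Fin.sum_univ_two]

theorem e16_D2_S_slash (p : ℕ) (hp : p ≠ 0) :
    (D2 ModularGroup.S) ∣[(2 : ℤ)] ModularForm.heckeMatrix p 0 = D2 ModularGroup.S := by
  ext τ
  rw [ModularForm.slash_heckeMatrix_apply 2 hp, D2_S, D2_S, ModularForm.coe_heckeMatrix_smul hp]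
  have hp' : (p : ℂ) ≠ 0 := by exact_mod_cast hp
  have hτ : (τ : ℂ) ≠ 0 := ne_zero τ
  simp only [Nat.cast_zero, add_zero]
  field_simp

theorem e16_E2_diag_hecke (p : ℕ) (hp : p ≠ 0) :
    (E2 ∣[(2 : ℤ)] ModularForm.heckeDiagMatrix p) ∣[(2 : ℤ)] ModularForm.heckeMatrix p 0 = E2 := by
  ext τ
  rw [ModularForm.slash_heckeMatrix_apply 2 hp, ModularForm.slash_heckeDiagMatrix_apply 2 hp]
  have hp' : (p : ℂ) ≠ 0 := by exact_mod_cast hp
  have hpt : ModularForm.heckeDiagMatrix p • ModularForm.heckeMatrix p 0 • τ = τ := by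
    apply UpperHalfPlane.ext
    rw [ModularForm.coe_heckeDiagMatrix_smul hp, ModularForm.coe_heckeMatrix_smul hp]
    simp only [Nat.cast_zero, add_zero]
    field_simp
  rw [hpt]
  norm_num
  field_simp

theorem e16_smul_slash_hecke (k : ℤ) (p j : ℕ) (c : ℂ) (f : ℍ → ℂ) :
    (c • f) ∣[k] ModularForm.heckeMatrix p j = c • (f ∣[k] ModularForm.heckeMatrix p j) := by
  rw [ModularForm.smul_slash, ModularForm.σ_heckeMatrix]
  rfl

/-- **the Eisenstein series at the other cusp**: `E|S = -E|[1, 0; 0, p]`, i.e.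
`τ⁻² E(-1/τ) = -p⁻¹ E(τ/p)`. -/
theorem e16EisFun_slash_S (p : ℕ) (hp : p ≠ 0) :
    e16EisFun p ∣[(2 : ℤ)] ModularGroup.S = -(e16EisFun p ∣[(2 : ℤ)] ModularForm.heckeMatrix p 0) := by
  have h1 : (E2 ∣[(2 : ℤ)] ModularForm.heckeDiagMatrix p) ∣[(2 : ℤ)] ModularGroup.S =
      E2 ∣[(2 : ℤ)] ModularForm.heckeMatrix p 0 - (1 / (2 * riemannZeta 2)) • D2 ModularGroup.S := by
    rw [e16_SL_slash, ← SlashAction.slash_mul, e16_diag_S p hp, SlashAction.slash_mul,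
      ← e16_SL_slash, E2_slash_action ModularGroup.S, e16_sub_slash, e16_smul_slash_hecke,
      e16_D2_S_slash p hp]
  unfold e16EisFun
  rw [SL_smul_slash, e16_SL_slash, e16_sub_slash, ← e16_SL_slash, ← e16_SL_slash, h1,
    E2_slash_action ModularGroup.S, e16_smul_slash_hecke, e16_sub_slash, e16_E2_diag_hecke p hp,
    ← smul_neg]
  congr 1
  abel

/-- the conjugates of `E`: `E|S T^b = -E|[1, b; 0, p]`, i.e. `(E|S T^b)(τ) = -p⁻¹ E((τ + b)/p)`. -/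
theorem e16EisFun_slash_ST (p : ℕ) (hp : p ≠ 0) (b : ℕ) :
    e16EisFun p ∣[(2 : ℤ)] (ModularGroup.S * ModularGroup.T ^ b) =
      -(e16EisFun p ∣[(2 : ℤ)] ModularForm.heckeMatrix p b) := by
  rw [SlashAction.slash_mul, e16EisFun_slash_S p hp, SlashAction.neg_slash, e16_SL_slash,
    ← SlashAction.slash_mul, e16_hecke_T p hp]

/-- pointwise form of `e16EisFun_slash_S`: `E(-1/τ) = -(τ²/p) E(τ/p)`. -/
theorem e16EisFun_S_smul (p : ℕ) (hp : p ≠ 0) (τ : ℍ) :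
    e16EisFun p (ModularGroup.S • τ) =
      -((τ : ℂ) ^ 2 / (p : ℂ)) * e16EisFun p (ModularForm.heckeMatrix p 0 • τ) := by
  have h := congrFun (e16EisFun_slash_S p hp) τ
  rw [Pi.neg_apply, ModularForm.slash_heckeMatrix_apply 2 hp, SL_slash_apply] at h
  have hden : denom ModularGroup.S τ = (τ : ℂ) := by
    rw [ModularGroup.denom_apply]
    simp [ModularGroup.S]
  rw [hden] at h
  have hτ : (τ : ℂ) ≠ 0 := ne_zero τ
  have hp' : (p : ℂ) ≠ 0 := by exact_mod_cast hp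
  have h2 : e16EisFun p (ModularGroup.S • τ) =
      (e16EisFun p (ModularGroup.S • τ) * (τ : ℂ) ^ (-(2 : ℤ))) * (τ : ℂ) ^ 2 := by
    rw [zpow_neg, zpow_ofNat]
    field_simp
  rw [h2, h]
  field_simp

end Fermat.Agent.E16
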