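import Fermat.Agent.Lib.E16_NormP
import Fermat.Agent.Lib.E16_Eis

set_option autoImplicit false

open UpperHalfPlane ModularForm Function Complex SlashInvariantForm ModularFormClass
open UpperHalfPlane hiding I
open scoped MatrixGroups Manifold Real

namespace Fermat.Agent.E16
open Fermat.Agent.T23 Matrix.SpecialLinearGroup

/-- `a ≡ 1 mod ℓR`, `a ∈ R` implies `a^w ≡ 1 mod ℓR`. -/
theorem e16_pow_sub_one_mem {R : Subring ℂ} {ℓ a : ℂ} (ha : a ∈ R) (h : a - 1 ∈ e16lR R ℓ)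
    (w : ℕ) : a ^ w - 1 ∈ e16lR R ℓ := by
  rw [← mul_geom_sum a w]
  exact e16lR_mul_right h (R.sum_mem fun i _ => R.pow_mem ha i)

/-- Change of modulus: a congruence modulo `L R` with `L ∈ ℓ R` is a congruence modulo `ℓ R`. -/
theorem E16Cong.of_modulus {R : Subring ℂ} {ℓ L : ℂ} {A B : PowerSeries ℂ}
    (h : E16Cong R L A B) (hL : L ∈ e16lR R ℓ) : E16Cong R ℓ A B := fun j => by
  obtain ⟨r, hr, hr'⟩ := mem_e16lR.mp (h j)
  rw [← hr']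
  exact e16lR_mul_right hL hr

/-- Dividing a congruence modulo `c ℓ R` by `c`. -/
theorem E16Cong.smul_inv {R : Subring ℂ} {ℓ c : ℂ} {A B : PowerSeries ℂ} (hc : c ≠ 0)
    (h : E16Cong R (c * ℓ) A B) : E16Cong R ℓ (c⁻¹ • A) (c⁻¹ • B) := fun j => by
  obtain ⟨r, hr, hr'⟩ := mem_e16lR.mp (h j)
  refine mem_e16lR.mpr ⟨r, hr, ?_⟩
  rw [PowerSeries.coeff_smul, PowerSeries.coeff_smul, smul_eq_mul, smul_eq_mul,
    ← mul_sub, ← hr']
  field_simp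

/-- A congruence to a constant: coefficientwise criterion. -/
theorem E16Cong.C_of_sub_mem {R : Subring ℂ} {ℓ a b : ℂ} (h : a - b ∈ e16lR R ℓ) :
    E16Cong R ℓ (PowerSeries.C a) (PowerSeries.C b) := fun j => by
  rw [PowerSeries.coeff_C, PowerSeries.coeff_C]
  split_ifs
  · exact h
  · rw [sub_zero]; exact (e16lR R ℓ).zero_mem

/-- The congruence form `G₀ = (E - f)/c₀`, `c₀ = (p-1)/24`, attached to a cusp form `f`. -/
noncomputable def e16G0 (p : ℕ) [Fact p.Prime] (f : CuspForm (CongruenceSubgroup.Gamma0 p) 2) :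
    ModularForm (CongruenceSubgroup.Gamma0 p) 2 :=
  ((24 : ℂ) * ((p : ℂ) - 1)⁻¹) • (e16Eis p - CuspForm.toModularFormₗ f)

theorem e16G0_qExp (p : ℕ) [Fact p.Prime] (f : CuspForm (CongruenceSubgroup.Gamma0 p) 2) :
    qExpansion 1 (e16G0 p f) =
      ((24 : ℂ) * ((p : ℂ) - 1)⁻¹) • (qExpansion 1 (e16Eis p) - qExpansion 1 f) := by
  have hp : p.Prime := Fact.out
  have : NeZero p := ⟨hp.ne_zero⟩
  have hΓ := CongruenceSubgroup.one_mem_strictPeriods_Gamma0 p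
  unfold e16G0
  rw [FunLike.coe_smul, ModularForm.qExpansion_smul one_pos hΓ, FunLike.coe_sub,
    ModularForm.qExpansion_sub one_pos hΓ]
  rfl

theorem e16G0_coeff_zero (p : ℕ) [Fact p.Prime] (f : CuspForm (CongruenceSubgroup.Gamma0 p) 2) :
    (qExpansion 1 (e16G0 p f)).coeff 0 = 1 := by
  have hp : p.Prime := Fact.out
  have : NeZero p := ⟨hp.ne_zero⟩
  have hΓ := CongruenceSubgroup.one_mem_strictPeriods_Gamma0 p
  have hp1 : (p : ℂ) - 1 ≠ 0 := by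
    intro h0
    have h1 : (p : ℂ) = 1 := by linear_combination h0
    have h2 : p = 1 := by exact_mod_cast h1
    exact hp.one_lt.ne' h2
  have hf0 : (qExpansion 1 f).coeff 0 = 0 := CuspFormClass.qExpansion_coeff_zero f one_pos hΓ
  rw [e16G0_qExp, PowerSeries.coeff_smul, map_sub, e16Eis_qExpansion_coeff, smul_eq_mul, hf0]
  simp only [e16Ec, if_true, sub_zero]
  field_simp

theorem e16G0_coeff (p : ℕ) [Fact p.Prime] (f : CuspForm (CongruenceSubgroup.Gamma0 p) 2)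
    (j : ℕ) (hj : 1 ≤ j) :
    (qExpansion 1 (e16G0 p f)).coeff j =
      (24 : ℂ) * ((p : ℂ) - 1)⁻¹ * ((e16δ p j : ℂ) - qCoeff (⇑f) j) := by
  rw [e16G0_qExp, PowerSeries.coeff_smul, map_sub, e16Eis_qExpansion_coeff, smul_eq_mul]
  have hj0 : j ≠ 0 := by omega
  simp only [e16Ec, if_neg hj0]
  rfl

/-- If `f ≡ δ mod ℓ` (integer congruence on `q`-coefficients) and `ℓ / c₀ ∈ L R`, then
`G₀ ≡ 1 mod L R`. -/
theorem e16G0_cong (p : ℕ) [Fact p.Prime] (ℓ : ℕ) (R : Subring ℂ) (L : ℂ)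
    (hc0 : (24 : ℂ) * ((p : ℂ) - 1)⁻¹ * (ℓ : ℂ) ∈ e16lR R L)
    (f : CuspForm (CongruenceSubgroup.Gamma0 p) 2)
    (hf : ∀ k : ℕ, 1 ≤ k → ∃ c : ℤ, qCoeff (⇑f) k = (c : ℂ) ∧ (ℓ : ℤ) ∣ c - e16δ p k) :
    E16Cong R L (qExpansion 1 (e16G0 p f)) 1 := fun j => by
  rcases Nat.eq_zero_or_pos j with rfl | hj
  · rw [e16G0_coeff_zero, PowerSeries.coeff_one, if_pos rfl, sub_self]
    exact (e16lR R L).zero_mem
  · obtain ⟨c, hc, d, hd⟩ := hf j hj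
    rw [e16G0_coeff p f j hj, hc, PowerSeries.coeff_one, if_neg hj.ne', sub_zero]
    have hd' : (c : ℂ) - (e16δ p j : ℂ) = (ℓ : ℂ) * (d : ℂ) := by
      exact_mod_cast congrArg (Int.cast : ℤ → ℂ) hd
    have h2 : (24 : ℂ) * ((p : ℂ) - 1)⁻¹ * ((e16δ p j : ℂ) - (c : ℂ)) =
        (24 : ℂ) * ((p : ℂ) - 1)⁻¹ * (ℓ : ℂ) * (-(d : ℂ)) := by
      have : (e16δ p j : ℂ) - (c : ℂ) = -((ℓ : ℂ) * (d : ℂ)) := by rw [← hd']; ring
      rw [this]; ring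
    rw [h2]
    exact e16lR_mul_right hc0 (R.neg_mem (intCast_mem R d))

/-- The `p`-th roots of unity `exp(2πi b/p)` lie in any subring containing all roots of unity. -/
theorem e16_zeta_mem (p : ℕ) (hp0 : p ≠ 0) (R : Subring ℂ)
    (hroot : ∀ (ζ : ℂ) (n : ℕ), n ≠ 0 → ζ ^ n = 1 → ζ ∈ R) (b : ℕ) :
    cexp (2 * π * Complex.I * (b : ℂ) / p) ∈ R := by
  refine hroot _ p hp0 ?_
  rw [← Complex.exp_nat_mul]
  have hpC : (p : ℂ) ≠ 0 := by exact_mod_cast hp0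
  have : (p : ℂ) * (2 * π * Complex.I * (b : ℂ) / p) = (b : ℂ) * (2 * π * Complex.I) := by
    field_simp
  rw [this]
  exact Complex.exp_nat_mul_two_pi_mul_I _

/-- Conjugates of a weight 2 form on `Γ₀(p)`, modulo `L R`: if `Q(G) ≡ Φ` then
`Q_p(G ∣ S T^b) ≡ -p⁻¹ (U_p Φ)(ζ^b t)`. -/
theorem e16_conj_cong (p : ℕ) [Fact p.Prime] (R : Subring ℂ) (L : ℂ) (hpinv : ((p : ℂ))⁻¹ ∈ R)
    (hroot : ∀ (ζ : ℂ) (n : ℕ), n ≠ 0 → ζ ^ n = 1 → ζ ∈ R)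
    (G : ModularForm (CongruenceSubgroup.Gamma0 p) 2) (Φ : PowerSeries ℂ)
    (hG : E16Cong R L (qExpansion 1 G) Φ) (b : Fin p) :
    E16Cong R L (qExpansion p ((G : ℍ → ℂ) ∣[(2 : ℤ)] e16ST ((b : ℕ) : ℤ)))
      ((-(p : ℂ)⁻¹) • PowerSeries.rescale (cexp (2 * π * Complex.I * ((b : ℕ) : ℂ) / p))
        (e16cU p Φ)) := by
  have hp : p.Prime := Fact.out
  rw [e16_qExp_ST_two p G b]
  exact E16Cong.smul (R.neg_mem hpinv) ((hG.cU p).rescale (e16_zeta_mem p hp.ne_zero R hroot b))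

/-- Integrality of the conjugates. -/
theorem e16_conj_int (p : ℕ) [Fact p.Prime] (R : Subring ℂ) (hpinv : ((p : ℂ))⁻¹ ∈ R)
    (hroot : ∀ (ζ : ℂ) (n : ℕ), n ≠ 0 → ζ ^ n = 1 → ζ ∈ R)
    (G : ModularForm (CongruenceSubgroup.Gamma0 p) 2)
    (hG : E16Int R (qExpansion 1 G)) (b : Fin p) :
    E16Int R (qExpansion p ((G : ℍ → ℂ) ∣[(2 : ℤ)] e16ST ((b : ℕ) : ℤ))) := by
  have hp : p.Prime := Fact.out
  rw [e16_qExp_ST_two p G b]
  exact E16Int.smul (R.neg_mem hpinv)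
    ((hG.cU p).rescale (e16_zeta_mem p hp.ne_zero R hroot b))

/-- Conjugates of a form `≡ 1`: `Q_p(G ∣ S T^b) ≡ -p⁻¹` (a constant). -/
theorem e16_conj_cong_const (p : ℕ) [Fact p.Prime] (R : Subring ℂ) (L : ℂ)
    (hpinv : ((p : ℂ))⁻¹ ∈ R)
    (hroot : ∀ (ζ : ℂ) (n : ℕ), n ≠ 0 → ζ ^ n = 1 → ζ ∈ R)
    (G : ModularForm (CongruenceSubgroup.Gamma0 p) 2)
    (hG : E16Cong R L (qExpansion 1 G) 1) (b : Fin p) :
    E16Cong R L (qExpansion p ((G : ℍ → ℂ) ∣[(2 : ℤ)] e16ST ((b : ℕ) : ℤ)))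
      (PowerSeries.C (-(p : ℂ)⁻¹)) := by
  have hp : p.Prime := Fact.out
  have h := e16_conj_cong p R L hpinv hroot G 1 hG b
  rw [e16cU_one p hp.ne_zero, map_one] at h
  have h2 : (-(p : ℂ)⁻¹) • (1 : PowerSeries ℂ) = PowerSeries.C (-(p : ℂ)⁻¹) := by
    ext j
    rw [PowerSeries.coeff_smul, PowerSeries.coeff_one, PowerSeries.coeff_C, smul_eq_mul]
    split_ifs <;> simp
  rwa [h2] at h

/-- Conjugates of a form `≡ 1` when `p ≡ -1 mod L R`: `Q_p(G ∣ S T^b) ≡ 1`. -/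
theorem e16_conj_cong_one (p : ℕ) [Fact p.Prime] (R : Subring ℂ) (L : ℂ)
    (hpinv : ((p : ℂ))⁻¹ ∈ R)
    (hroot : ∀ (ζ : ℂ) (n : ℕ), n ≠ 0 → ζ ^ n = 1 → ζ ∈ R)
    (hp1 : (p : ℂ) + 1 ∈ e16lR R L)
    (G : ModularForm (CongruenceSubgroup.Gamma0 p) 2)
    (hG : E16Cong R L (qExpansion 1 G) 1) (b : Fin p) :
    E16Cong R L (qExpansion p ((G : ℍ → ℂ) ∣[(2 : ℤ)] e16ST ((b : ℕ) : ℤ))) 1 := by
  have hp : p.Prime := Fact.out
  have hpC : (p : ℂ) ≠ 0 := by exact_mod_cast hp.ne_zero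
  refine (e16_conj_cong_const p R L hpinv hroot G hG b).trans ?_
  have h1 : (1 : PowerSeries ℂ) = PowerSeries.C (1 : ℂ) := (map_one _).symm
  rw [h1]
  refine E16Cong.C_of_sub_mem ?_
  have h2 : -(p : ℂ)⁻¹ - 1 = ((p : ℂ) + 1) * (-(p : ℂ)⁻¹) := by field_simp; ring
  rw [h2]
  exact e16lR_mul_right hp1 (R.neg_mem hpinv)

end Fermat.Agent.E16
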