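/-
S16 (upper bound), helper3: case (A) — a prime `ℓ ≥ 5` dividing `p + 1` cannot divide a
congruence modulus between a cusp form of level `Γ₀(p)` and the Eisenstein series.
-/
import Fermat.Agent.Lib.E16_G0

set_option autoImplicit false

open UpperHalfPlane ModularForm Function Complex SlashInvariantForm ModularFormClass
open UpperHalfPlane hiding I
open scoped MatrixGroups Manifold Real

namespace Fermat.Agent.E16
open Fermat.Agent.T23 Matrix.SpecialLinearGroup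

/-- **Case (A), generic form.**  `ℓ ∣ p + 1`, `ℓ ≠ 2, 3`; `Ew` a level one form of weight `2w`
(`w < 6`) with `q`-expansion `1 + m S`, `S = q + …` integral, `m` prime to `ℓ`.  Then no cusp
form on `Γ₀(p)` is congruent to `δ` modulo `ℓ`. -/
theorem e16_caseA_gen (p : ℕ) [Fact p.Prime] (ℓ : ℕ) (hℓ : ℓ.Prime) (hℓp : ℓ ∣ p + 1)
    (hℓ2 : ℓ ≠ 2)
    (w : ℕ) (hw : w < 6) (Ew : ModularForm 𝒮ℒ ((w : ℤ) * 2)) (m : ℤ) (hm : IsCoprime m (ℓ : ℤ))
    (S : PowerSeries ℤ) (hS0 : S.coeff 0 = 0) (hS1 : S.coeff 1 = 1)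
    (hEw : qExpansion 1 Ew = (1 + PowerSeries.C m * S).map (Int.castRingHom ℂ))
    (f : CuspForm (CongruenceSubgroup.Gamma0 p) 2)
    (hf : ∀ k : ℕ, 1 ≤ k → ∃ c : ℤ, qCoeff (⇑f) k = (c : ℂ) ∧ (ℓ : ℤ) ∣ c - e16δ p k) :
    False := by
  classical
  have hp : p.Prime := Fact.out
  have : NeZero p := ⟨hp.ne_zero⟩
  have hp0 : p ≠ 0 := hp.ne_zero
  have hpR : (0 : ℝ) < p := by exact_mod_cast hp.pos
  obtain ⟨R, -, hRℓ, hRinv, hRroot⟩ := e16_exists_ring ℓ hℓ.one_lt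
  have hRint : ∀ n : ℤ, (n : ℂ) ∈ R := fun n => intCast_mem R n
  have hℓR : (ℓ : ℂ) ∈ R := by simpa using hRint (ℓ : ℤ)
  obtain ⟨x, hx⟩ := hℓp
  -- arithmetic
  have hpℓ : IsCoprime (p : ℤ) (ℓ : ℤ) := ⟨-1, x, by
    have : ((p + 1 : ℕ) : ℤ) = ((ℓ * x : ℕ) : ℤ) := by rw [hx]
    push_cast at this
    linarith⟩
  have hpinv : ((p : ℂ))⁻¹ ∈ R := by simpa using hRinv p hpℓ
  have hℓp1 : IsCoprime ((p : ℤ) - 1) (ℓ : ℤ) := by
    have h : Nat.Coprime (p - 1) ℓ := by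
      rw [Nat.coprime_comm, Nat.Prime.coprime_iff_not_dvd hℓ]
      intro hdvd
      have h1 : ℓ ∣ (p + 1) - (p - 1) := Nat.dvd_sub ⟨x, hx⟩ hdvd
      have h2 : (p + 1) - (p - 1) = 2 := by have := hp.two_le; omega
      rw [h2] at h1
      exact hℓ2 ((Nat.prime_dvd_prime_iff_eq hℓ Nat.prime_two).mp h1)
    have h' := Nat.isCoprime_iff_coprime.mpr h
    rwa [Nat.cast_sub hp.one_le, Nat.cast_one] at h'
  have hc0 : (24 : ℂ) * ((p : ℂ) - 1)⁻¹ * (ℓ : ℂ) ∈ e16lR R (ℓ : ℂ) := by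
    refine mem_e16lR.mpr ⟨(24 : ℂ) * ((p : ℂ) - 1)⁻¹, R.mul_mem (by simpa using hRint 24) ?_,
      by ring⟩
    simpa using hRinv ((p : ℤ) - 1) hℓp1
  have hp1mem : (p : ℂ) + 1 ∈ e16lR R (ℓ : ℂ) := by
    refine mem_e16lR.mpr ⟨(x : ℂ), by simpa using hRint x, ?_⟩
    have : ((p + 1 : ℕ) : ℂ) = ((ℓ * x : ℕ) : ℂ) := by rw [hx]
    push_cast at this
    rw [this]
  have hm0 : (m : ℂ) ≠ 0 := by
    intro h0
    have hm0' : m = 0 := by exact_mod_cast h0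
    rw [hm0'] at hm
    have h1 : (ℓ : ℤ) ∣ 1 := (isCoprime_zero_left.mp hm).dvd
    have h2 : ℓ ∣ 1 := by exact_mod_cast h1
    exact hℓ.one_lt.ne' (Nat.dvd_one.mp h2)
  have hminv : ((m : ℂ))⁻¹ ∈ R := hRinv m hm
  -- the congruence form
  set G : ModularForm (CongruenceSubgroup.Gamma0 p) 2 := e16G0 p f with hGdef
  have hG1 : E16Cong R (ℓ : ℂ) (qExpansion 1 G) 1 := e16G0_cong p ℓ R ℓ hc0 f hf
  have hGint : E16Int R (qExpansion 1 G) := hG1.symm.int_right E16Int.one hℓR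
  -- the form `K = G^w - Ew`
  set K : ModularForm (CongruenceSubgroup.Gamma0 p) ((w : ℤ) * 2) := G.pow w - e16Res p Ew with hK
  have hKcoe : (K : ℍ → ℂ) = (G : ℍ → ℂ) ^ w - (Ew : ℍ → ℂ) := by
    rw [hK, FunLike.coe_sub, ModularForm.coe_pow, e16Res_coe]
  -- the integral series `T = -m S`
  set T : PowerSeries ℂ := (-(PowerSeries.C m * S)).map (Int.castRingHom ℂ) with hT
  have hEwT : qExpansion 1 Ew = 1 - T := by
    rw [hEw, hT, map_add, map_neg, map_one]; ring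
  have hTlead : E16Lead R (ℓ : ℂ) T 1 (-(m : ℂ)) := by
    refine E16Lead.of_order (E16Int.map_int _) (fun j hj => ?_) ?_
    · have hj0 : j = 0 := by omega
      subst hj0
      rw [hT, PowerSeries.coeff_map, map_neg, PowerSeries.coeff_C_mul, hS0]
      simp
    · rw [hT, PowerSeries.coeff_map, map_neg, PowerSeries.coeff_C_mul, hS1]
      simp
  -- own expansion
  have hG1per : E16Per 1 (G : ℍ → ℂ) := e16_per_self p G
  have hEwper1 : E16Per 1 (Ew : ℍ → ℂ) := e16_per_self p (e16Res p Ew)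
  have hKq : qExpansion 1 K = qExpansion 1 G ^ w - qExpansion 1 Ew := by
    rw [hKcoe, e16_qExp_sub one_pos (hG1per.pow w) hEwper1, e16_qExp_pow one_pos hG1per]
  have h0 : E16Lead R (ℓ : ℂ) (qExpansion 1 K) 1 (-(m : ℂ)) := by
    refine hTlead.congr ?_ ?_
    · rw [hKq, hEwT]
      have h1 : E16Cong R (ℓ : ℂ) (qExpansion 1 G ^ w) (1 ^ w) := hG1.pow hGint E16Int.one w
      rw [one_pow] at h1
      have h2 : E16Cong R (ℓ : ℂ) (qExpansion 1 G ^ w - (1 - T)) (1 - (1 - T)) :=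
        h1.sub (E16Cong.refl _)
      have h3 : (1 : PowerSeries ℂ) - (1 - T) = T := by ring
      rw [h3] at h2
      exact h2.symm
    · rw [hKq, hEwT]
      exact (hGint.pow w).sub (E16Int.one.sub hTlead.int)
  -- the conjugates
  have hb : ∀ b : Fin p, E16Lead R (ℓ : ℂ)
      (qExpansion p ((K : ℍ → ℂ) ∣[(w : ℤ) * 2] e16ST ((b : ℕ) : ℤ))) p (-(m : ℂ)) := by
    intro b
    have hslash : (K : ℍ → ℂ) ∣[(w : ℤ) * 2] e16ST ((b : ℕ) : ℤ) =
        ((G : ℍ → ℂ) ∣[(2 : ℤ)] e16ST ((b : ℕ) : ℤ)) ^ w - (Ew : ℍ → ℂ) := by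
      rw [hKcoe, sub_eq_add_neg, SlashAction.add_slash, SlashAction.neg_slash, e16_pow_slash,
        e16_levelOne_slash, ← sub_eq_add_neg]
    have hGb : E16Per p ((G : ℍ → ℂ) ∣[(2 : ℤ)] e16ST ((b : ℕ) : ℤ)) := e16_per_ST p G _
    have hEwp : E16Per p (Ew : ℍ → ℂ) := by
      have := hEwper1.nat_mul p
      rwa [mul_one] at this
    set X : PowerSeries ℂ := qExpansion p ((G : ℍ → ℂ) ∣[(2 : ℤ)] e16ST ((b : ℕ) : ℤ)) with hX
    have hXcong : E16Cong R (ℓ : ℂ) X 1 := e16_conj_cong_one p R ℓ hpinv hRroot hp1mem G hG1 b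
    have hXint : E16Int R X := e16_conj_int p R hpinv hRroot G hGint b
    have hXw : E16Cong R (ℓ : ℂ) (X ^ w) 1 := by
      have h1 : E16Cong R (ℓ : ℂ) (X ^ w) (1 ^ w) := hXcong.pow hXint E16Int.one w
      rwa [one_pow] at h1
    have hq : qExpansion p ((K : ℍ → ℂ) ∣[(w : ℤ) * 2] e16ST ((b : ℕ) : ℤ)) =
        X ^ w - (1 - PowerSeries.expand p hp0 T) := by
      rw [hslash, e16_qExp_sub hpR (hGb.pow w) hEwp, e16_qExp_pow hpR hGb,
        e16_qExp_levelOne Ew p hp0, hEwT, map_sub, map_one]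
    have hTp : E16Lead R (ℓ : ℂ) (PowerSeries.expand p hp0 T) p (-(m : ℂ)) := by
      have := hTlead.expand p hp0
      rwa [mul_one] at this
    rw [hq]
    refine hTp.congr ?_ ?_
    · have h2 : E16Cong R (ℓ : ℂ) (X ^ w - (1 - PowerSeries.expand p hp0 T))
          (1 - (1 - PowerSeries.expand p hp0 T)) := hXw.sub (E16Cong.refl _)
      have h3 : (1 : PowerSeries ℂ) - (1 - PowerSeries.expand p hp0 T) =
          PowerSeries.expand p hp0 T := by ring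
      rw [h3] at h2
      exact h2.symm
    · exact (hXint.pow w).sub (E16Int.one.sub hTp.int)
  have hu : ∃ u' ∈ R, -(m : ℂ) * u' = 1 :=
    ⟨-((m : ℂ))⁻¹, R.neg_mem hminv, by field_simp⟩
  refine e16_norm_contra_p p K R (ℓ : ℂ) hRℓ 1 (-(m : ℂ)) (fun _ => p) (fun _ => -(m : ℂ)) h0 hb
    hu (fun _ => hu) ?_
  rw [Finset.sum_const, Finset.card_univ, Fintype.card_fin, smul_eq_mul]
  have hw' : (w : ℤ) ≤ 5 := by exact_mod_cast Nat.lt_succ_iff.mp hw
  have hp1 : (1 : ℤ) ≤ p := by exact_mod_cast hp.one_le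
  have h1 : 0 ≤ (5 - (w : ℤ)) * (((p : ℤ) + 1) * p) :=
    mul_nonneg (sub_nonneg.mpr hw') (by positivity)
  have h2 : 0 < ((p : ℤ) + 1) * p := by positivity
  push_cast
  nlinarith [h1, h2]

/-- **Case (A)** of the upper bound: a prime `l ≥ 5` dividing `p + 1` is not a congruence
modulus between a weight 2 cusp form of level `Γ₀(p)` and the Eisenstein series. -/
theorem e16_caseA (p : ℕ) [Fact p.Prime] (l : ℕ) (hl : l.Prime) (hl5 : 5 ≤ l) (hlp : l ∣ p + 1)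
    (f : CuspForm (CongruenceSubgroup.Gamma0 p) 2)
    (hf : ∀ k : ℕ, 1 ≤ k → ∃ c : ℤ, qCoeff (⇑f) k = (c : ℂ) ∧ (l : ℤ) ∣ c - e16δ p k) :
    False := by
  have hl2 : l ≠ 2 := by omega
  by_cases h5 : l = 5
  · -- `l = 5`: use `E₆ = 1 - 504 q - …`
    subst h5
    have hwt : (6 : ℤ) = ((3 : ℕ) : ℤ) * 2 := by norm_num
    refine e16_caseA_gen p 5 hl hlp hl2 3 (by norm_num) (ModularForm.mcast hwt E₆) (-504)
      ⟨1, 101, by norm_num⟩ e16sB e16s_B_zero ?_ ?_ f hf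
    · simp [e16sB]
    · have h1 : (⇑(ModularForm.mcast hwt E₆) : ℍ → ℂ) = ⇑E₆ := rfl
      rw [h1, e16_E6_int, e16sE6]
      congr 1
      have : (PowerSeries.C (-504 : ℤ) : PowerSeries ℤ) = -504 := by
        rw [map_neg]; rfl
      rw [this]; ring
  · -- `l ≥ 7`: use `E₄ = 1 + 240 q + …`
    have hwt : (4 : ℤ) = ((2 : ℕ) : ℤ) * 2 := by norm_num
    have hl3 : l ≠ 3 := by omega
    have hcop : IsCoprime (240 : ℤ) (l : ℤ) := by
      have h : Nat.Coprime 240 l := by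
        rw [Nat.coprime_comm, Nat.Prime.coprime_iff_not_dvd hl]
        intro hdvd
        have h1 : l ∣ 2 ^ 4 * 3 * 5 := by norm_num; exact hdvd
        rcases (Nat.Prime.dvd_mul hl).mp h1 with h2 | h3
        · rcases (Nat.Prime.dvd_mul hl).mp h2 with h4 | h4
          · exact hl2 ((Nat.prime_dvd_prime_iff_eq hl Nat.prime_two).mp (hl.dvd_of_dvd_pow h4))
          · exact hl3 ((Nat.prime_dvd_prime_iff_eq hl Nat.prime_three).mp h4)
        · exact h5 ((Nat.prime_dvd_prime_iff_eq hl Nat.prime_five).mp h3)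
      exact_mod_cast Nat.isCoprime_iff_coprime.mpr h
    refine e16_caseA_gen p l hl hlp hl2 2 (by norm_num) (ModularForm.mcast hwt E₄) 240
      hcop e16sA e16s_A_zero ?_ ?_ f hf
    · simp [e16sA]
    · have h1 : (⇑(ModularForm.mcast hwt E₄) : ℍ → ℂ) = ⇑E₄ := rfl
      rw [h1, e16_E4_int, e16sE4]
      congr 1

end Fermat.Agent.E16
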