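/-
S16 preparation, piece U2 (helper3): Sturm bound modulo an additive subgroup at level one,
and integrality of the `q`-expansions of `E₄`, `E₆`, `Δ`.  Mathlib only.
-/
import Mathlib

set_option autoImplicit false

open UpperHalfPlane ModularForm CuspForm ModularFormClass EisensteinSeries
open scoped MatrixGroups Manifold ArithmeticFunction.sigma

namespace Fermat.Agent.E16


/-! ### Pure power series lemmas -/

/-- Multiplying a series with coefficients in an additive subgroup `M` by an integral series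
keeps the coefficients in `M`. -/
theorem e16s_mul_mem (M : AddSubgroup ℂ) (d : PowerSeries ℤ) (χ : PowerSeries ℂ)
    (h : ∀ i, χ.coeff i ∈ M) (i : ℕ) :
    (d.map (Int.castRingHom ℂ) * χ).coeff i ∈ M := by
  rw [PowerSeries.coeff_mul]
  refine M.sum_mem fun p _ => ?_
  rw [PowerSeries.coeff_map, eq_intCast, ← zsmul_eq_mul]
  exact M.zsmul_mem (h _) _

/-- Triangular inversion: if `d = q + O(q^2)` is integral and the first `J + 2` coefficients of
`d * χ` lie in `M`, then the first `J + 1` coefficients of `χ` lie in `M`. -/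
theorem e16s_div_mem (M : AddSubgroup ℂ) (d : PowerSeries ℤ) (hd0 : d.coeff 0 = 0)
    (hd1 : d.coeff 1 = 1) (χ : PowerSeries ℂ) (J : ℕ)
    (h : ∀ j ≤ J + 1, (d.map (Int.castRingHom ℂ) * χ).coeff j ∈ M) :
    ∀ i ≤ J, χ.coeff i ∈ M := by
  intro i
  induction i using Nat.strong_induction_on with
  | _ i ih =>
    intro hi
    have hsum : (d.map (Int.castRingHom ℂ) * χ).coeff (i + 1) =
        ∑ k ∈ Finset.range (i + 2), ((d.coeff k : ℤ) : ℂ) * χ.coeff (i + 1 - k) := by
      rw [PowerSeries.coeff_mul,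
        Finset.Nat.sum_antidiagonal_eq_sum_range_succ
          (fun a b => (d.map (Int.castRingHom ℂ)).coeff a * χ.coeff b) (i + 1)]
      refine Finset.sum_congr rfl fun k _ => ?_
      rw [PowerSeries.coeff_map, eq_intCast]
    have h1 : (1 : ℕ) ∈ Finset.range (i + 2) := Finset.mem_range.mpr (by omega)
    have hχ : χ.coeff i = (d.map (Int.castRingHom ℂ) * χ).coeff (i + 1) -
        ∑ k ∈ (Finset.range (i + 2)).erase 1, ((d.coeff k : ℤ) : ℂ) * χ.coeff (i + 1 - k) := by
      rw [hsum, ← Finset.add_sum_erase _ _ h1, hd1]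
      simp
    rw [hχ]
    refine M.sub_mem (h _ (by omega)) (M.sum_mem fun k hk => ?_)
    rw [Finset.mem_erase, Finset.mem_range] at hk
    rcases Nat.eq_zero_or_pos k with rfl | hk0
    · rw [hd0]; simp
    · rw [← zsmul_eq_mul]
      exact M.zsmul_mem (ih (i + 1 - k) (by omega) (by omega)) _



/-- `Σ σ_3(n) q^n` over `ℤ`. -/
noncomputable def e16sA : PowerSeries ℤ := PowerSeries.mk fun n => ((σ 3 n : ℕ) : ℤ)

/-- `Σ σ_5(n) q^n` over `ℤ`. -/
noncomputable def e16sB : PowerSeries ℤ := PowerSeries.mk fun n => ((σ 5 n : ℕ) : ℤ)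

/-- `Σ (σ_3(n) - σ_5(n))/12 q^n` over `ℤ`. -/
noncomputable def e16sC : PowerSeries ℤ :=
  PowerSeries.mk fun n => (((σ 3 n : ℕ) : ℤ) - ((σ 5 n : ℕ) : ℤ)) / 12

theorem e16s_sigma_congr (n : ℕ) : (12 : ℤ) ∣ ((σ 3 n : ℕ) : ℤ) - ((σ 5 n : ℕ) : ℤ) := by
  have h : ∀ d : ZMod 12, d ^ 3 = d ^ 5 := by decide
  have h2 := (ZMod.intCast_zmod_eq_zero_iff_dvd (((σ 3 n : ℕ) : ℤ) - ((σ 5 n : ℕ) : ℤ)) 12)
  have h3 : ((12 : ℕ) : ℤ) ∣ ((σ 3 n : ℕ) : ℤ) - ((σ 5 n : ℕ) : ℤ) := by
    rw [← h2]
    push_cast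
    rw [ArithmeticFunction.sigma_apply, ArithmeticFunction.sigma_apply]
    push_cast
    rw [sub_eq_zero]
    exact Finset.sum_congr rfl fun d _ => h d
  exact_mod_cast h3

theorem e16s_A_sub_B : e16sA = e16sB + 12 * e16sC := by
  ext n
  have h := e16s_sigma_congr n
  have h12 : (12 : PowerSeries ℤ) = PowerSeries.C (12 : ℤ) := by
    simp
  rw [map_add, h12, PowerSeries.coeff_C_mul]
  simp only [e16sA, e16sB, e16sC, PowerSeries.coeff_mk]
  rw [Int.mul_ediv_cancel' h]
  ring

/-- The integral `q`-expansion of `E₄`. -/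
noncomputable def e16sE4 : PowerSeries ℤ := 1 + 240 * e16sA

/-- The integral `q`-expansion of `E₆`. -/
noncomputable def e16sE6 : PowerSeries ℤ := 1 - 504 * e16sB

/-- The integral `q`-expansion of `Δ`. -/
noncomputable def e16sD : PowerSeries ℤ :=
  100 * e16sA ^ 2 + 8000 * e16sA ^ 3 - 147 * e16sB ^ 2 + e16sB + 5 * e16sC

theorem e16s_D_eq : e16sE4 ^ 3 - e16sE6 ^ 2 = 1728 * e16sD := by
  unfold e16sE4 e16sE6 e16sD
  linear_combination 720 * e16s_A_sub_B

theorem e16s_A_zero : e16sA.coeff 0 = 0 := by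
  simp [e16sA]

theorem e16s_B_zero : e16sB.coeff 0 = 0 := by
  simp [e16sB]

theorem e16_E4_int : qExpansion 1 E₄ = e16sE4.map (Int.castRingHom ℂ) := by
  ext m
  rw [E_qExpansion_coeff _ ⟨2, rfl⟩ m, show bernoulli 4 = -1 / 30 by decide +kernel]
  have h240 : (240 : PowerSeries ℤ) = PowerSeries.C (240 : ℤ) := by simp
  rw [PowerSeries.coeff_map, e16sE4, map_add, h240, PowerSeries.coeff_C_mul]
  simp only [e16sA, PowerSeries.coeff_mk, PowerSeries.coeff_one]
  split_ifs with h
  · subst h; simp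
  · push_cast; norm_num

theorem e16_E6_int : qExpansion 1 E₆ = e16sE6.map (Int.castRingHom ℂ) := by
  ext m
  rw [E_qExpansion_coeff _ ⟨3, rfl⟩ m, show bernoulli 6 = 1 / 42 by decide +kernel]
  have h504 : (504 : PowerSeries ℤ) = PowerSeries.C (504 : ℤ) := by simp
  rw [PowerSeries.coeff_map, e16sE6, map_sub, h504, PowerSeries.coeff_C_mul]
  simp only [e16sB, PowerSeries.coeff_mk, PowerSeries.coeff_one]
  split_ifs with h
  · subst h; simp
  · push_cast; norm_num

theorem e16s_E4_zero : e16sE4.coeff 0 = 1 := by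
  have h240 : (240 : PowerSeries ℤ) = PowerSeries.C (240 : ℤ) := by simp
  rw [e16sE4, map_add, h240, PowerSeries.coeff_C_mul, e16s_A_zero]
  simp

theorem e16s_E6_zero : e16sE6.coeff 0 = 1 := by
  have h504 : (504 : PowerSeries ℤ) = PowerSeries.C (504 : ℤ) := by simp
  rw [e16sE6, map_sub, h504, PowerSeries.coeff_C_mul, e16s_B_zero]
  simp

theorem e16_delta_int :
    qExpansion 1 ModularForm.discriminant = e16sD.map (Int.castRingHom ℂ) := by
  have hfun : (1728 : ℂ) • (CuspForm.discriminant : ℍ → ℂ) =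
      ⇑((E₄.mul E₄).mul E₄) - ⇑(E₆.mul E₆) := by
    ext z
    simp only [Pi.smul_apply, smul_eq_mul, Pi.sub_apply, ModularForm.coe_mul, Pi.mul_apply,
      CuspForm.coe_discriminant]
    rw [discriminant_eq_E₄_cube_sub_E₆_sq z]
    ring
  have h1 : qExpansion 1 ((1728 : ℂ) • (CuspForm.discriminant : ℍ → ℂ)) =
      (1728 : ℂ) • qExpansion 1 CuspForm.discriminant :=
    ModularForm.qExpansion_smul one_pos one_mem_strictPeriods_SL (1728 : ℂ) CuspForm.discriminant
  have h2 : qExpansion 1 (⇑((E₄.mul E₄).mul E₄) - ⇑(E₆.mul E₆)) =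
      qExpansion 1 ((E₄.mul E₄).mul E₄) - qExpansion 1 (E₆.mul E₆) :=
    ModularForm.qExpansion_sub one_pos one_mem_strictPeriods_SL _ _
  rw [hfun, h2, ModularForm.qExpansion_mul one_pos one_mem_strictPeriods_SL,
    ModularForm.qExpansion_mul one_pos one_mem_strictPeriods_SL,
    ModularForm.qExpansion_mul one_pos one_mem_strictPeriods_SL, e16_E4_int, e16_E6_int] at h1
  have h3 : (e16sE4.map (Int.castRingHom ℂ)) * (e16sE4.map (Int.castRingHom ℂ)) *
      (e16sE4.map (Int.castRingHom ℂ)) - (e16sE6.map (Int.castRingHom ℂ)) *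
      (e16sE6.map (Int.castRingHom ℂ)) = (1728 : ℂ) • e16sD.map (Int.castRingHom ℂ) := by
    have := congrArg (PowerSeries.map (Int.castRingHom ℂ)) e16s_D_eq
    rw [map_sub, map_pow, map_pow, map_mul, map_ofNat] at this
    rw [show (e16sE4.map (Int.castRingHom ℂ)) * (e16sE4.map (Int.castRingHom ℂ)) *
      (e16sE4.map (Int.castRingHom ℂ)) = (e16sE4.map (Int.castRingHom ℂ)) ^ 3 by ring,
      show (e16sE6.map (Int.castRingHom ℂ)) * (e16sE6.map (Int.castRingHom ℂ)) =
        (e16sE6.map (Int.castRingHom ℂ)) ^ 2 by ring, this]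
    ext n
    rw [show (1728 : PowerSeries ℂ) = PowerSeries.C (1728 : ℂ) from
      (map_ofNat (PowerSeries.C (R := ℂ)) 1728).symm, PowerSeries.coeff_C_mul]
    simp
  rw [h3] at h1
  have h4 := congrArg (fun s => (1728 : ℂ)⁻¹ • s) h1
  simp only [smul_smul] at h4
  rw [inv_mul_cancel₀ (by norm_num : (1728 : ℂ) ≠ 0), one_smul, one_smul] at h4
  exact h4.symm

theorem e16s_D_zero : e16sD.coeff 0 = 0 := by
  have h := congrArg (fun s => PowerSeries.coeff 0 s) e16_delta_int
  simp only [PowerSeries.coeff_map, eq_intCast] at h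
  have h0 : (qExpansion 1 ModularForm.discriminant).coeff 0 = 0 := by
    simpa using CuspFormClass.qExpansion_coeff_zero CuspForm.discriminant one_pos
      one_mem_strictPeriods_SL
  rw [h0] at h
  exact_mod_cast h.symm

theorem e16s_D_one : e16sD.coeff 1 = 1 := by
  have h := congrArg (fun s => PowerSeries.coeff 1 s) e16_delta_int
  simp only [PowerSeries.coeff_map, eq_intCast] at h
  rw [discriminant_qExpansion_coeff_one] at h
  exact_mod_cast h.symm

/-- For every even weight `k ≥ 4` there is a level one form with integral `q`-expansion and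
constant term `1` (a product of `E₄`'s and `E₆`'s). -/
theorem e16_exists_int_form (k : ℕ) (hk : Even k) (h4 : 4 ≤ k) :
    ∃ G : ModularForm 𝒮ℒ (k : ℤ), ∃ g : PowerSeries ℤ,
      qExpansion 1 G = g.map (Int.castRingHom ℂ) ∧ g.coeff 0 = 1 := by
  induction k using Nat.strong_induction_on with
  | _ k ih =>
    rcases hk with ⟨r, hr⟩
    by_cases h4' : k = 4
    · subst h4'
      exact ⟨E₄, e16sE4, e16_E4_int, e16s_E4_zero⟩
    by_cases h6 : k = 6
    · subst h6
      exact ⟨E₆, e16sE6, e16_E6_int, e16s_E6_zero⟩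
    have h8 : 8 ≤ k := by omega
    obtain ⟨G', g', hG', hg'⟩ := ih (k - 4) (by omega) ⟨r - 2, by omega⟩ (by omega)
    refine ⟨ModularForm.mcast (by push_cast [Nat.cast_sub (show 4 ≤ k by omega)]; ring)
      (E₄.mul G'), e16sE4 * g', ?_, ?_⟩
    · rw [ModularForm.qExpansion_mcast, ModularForm.qExpansion_mul one_pos one_mem_strictPeriods_SL,
        e16_E4_int, hG', map_mul]
    · rw [PowerSeries.coeff_mul]
      simp [e16s_E4_zero, hg']

/-- Auxiliary strong induction for `e16_sturm`. -/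
theorem e16_sturm_aux (M : AddSubgroup ℂ) (n : ℕ) :
    ∀ k : ℤ, k < n → ∀ F : ModularForm 𝒮ℒ k,
      (∀ i : ℕ, 12 * (i : ℤ) ≤ k → (qExpansion 1 F).coeff i ∈ M) →
      ∀ i : ℕ, (qExpansion 1 F).coeff i ∈ M := by
  induction n with
  | zero =>
    intro k hk F _ i
    have hF : (F : ℍ → ℂ) = 0 := levelOne_neg_weight_eq_zero (by simpa using hk) F
    rw [hF, qExpansion_zero]
    simp
  | succ n ih =>
    intro k hk F hF i
    by_cases hkn : k < n
    · exact ih k hkn F hF i
    have hk' : k = n := by push_cast at hk; omega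
    by_cases hodd : Odd k
    · have hF0 : (F : ℍ → ℂ) = 0 := by
        rw [levelOne_odd_weight_eq_zero hodd F]; rfl
      rw [hF0, qExpansion_zero]
      simp
    have heven : Even k := Int.not_odd_iff_even.mp hodd
    by_cases h0 : k = 0
    · subst h0
      obtain ⟨c, hc⟩ := levelOne_weight_zero_const F
      have hc' : (F : ℍ → ℂ) = ⇑(c • (1 : ModularForm 𝒮ℒ 0)) := by
        rw [hc]; ext z; simp
      have hq : qExpansion 1 F = c • (1 : PowerSeries ℂ) := by
        rw [hc', FunLike.coe_smul, ModularForm.qExpansion_smul one_pos one_mem_strictPeriods_SL,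
          ModularForm.qExpansion_one]
      have hcM : c ∈ M := by
        have := hF 0 (by simp)
        rw [hq] at this
        simpa using this
      rw [hq, PowerSeries.coeff_smul, PowerSeries.coeff_one]
      split_ifs
      · simpa using hcM
      · simp
    by_cases h2 : k = 2
    · subst h2
      have hF0 : (F : ℍ → ℂ) = 0 := by
        rw [rank_zero_iff_forall_zero.mp levelOne_weight_two_rank_zero F]; rfl
      rw [hF0, qExpansion_zero]
      simp
    -- now `k = n ≥ 4` is even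
    subst hk'
    have hn4 : 4 ≤ n := by
      rcases heven with ⟨r, hr⟩
      omega
    have hn2 : Even n := by exact_mod_cast heven
    obtain ⟨G, g, hG, hg0⟩ := e16_exists_int_form n hn2 hn4
    obtain ⟨a₀, ha₀⟩ : ∃ a₀ : ℂ, a₀ = (qExpansion 1 F).coeff 0 := ⟨_, rfl⟩
    have ha₀M : a₀ ∈ M := by
      rw [ha₀]
      exact hF 0 (by simp)
    have hG0 : (qExpansion 1 G).coeff 0 = 1 := by
      rw [hG, PowerSeries.coeff_map, hg0]; simp
    have hcoeff : (qExpansion 1 ⇑(F - a₀ • G)).coeff 0 = 0 := by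
      rw [ha₀]
      exact (isCuspForm_iff_coeffZero_eq_zero _).mp (sub_smul_isCuspForm F G hG0)
    obtain ⟨F₂, hF₂⟩ : ∃ F₂ : ModularForm 𝒮ℒ ((n : ℤ) - 12),
        F₂ = CuspForm.discriminantEquiv (toCuspForm (F - a₀ • G) hcoeff) := ⟨_, rfl⟩
    have hmul : qExpansion 1 ⇑(F - a₀ • G) =
        qExpansion 1 ModularForm.discriminant * qExpansion 1 F₂ := by
      rw [hF₂]
      exact qExpansion_eq_qExpansion_discriminant_mul (F - a₀ • G) hcoeff
    have hsub : qExpansion 1 ⇑(F - a₀ • G) =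
        qExpansion 1 F - a₀ • g.map (Int.castRingHom ℂ) := by
      rw [FunLike.coe_sub, ModularForm.qExpansion_sub one_pos one_mem_strictPeriods_SL,
        FunLike.coe_smul, ModularForm.qExpansion_smul one_pos one_mem_strictPeriods_SL, hG]
    rw [hsub, e16_delta_int] at hmul
    -- coefficients of `a₀ • g`
    have hag : ∀ j : ℕ, (a₀ • g.map (Int.castRingHom ℂ)).coeff j ∈ M := by
      intro j
      rw [PowerSeries.coeff_smul, PowerSeries.coeff_map, eq_intCast, smul_eq_mul, mul_comm,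
        ← zsmul_eq_mul]
      exact M.zsmul_mem ha₀M _
    have hlow : ∀ j : ℕ, 12 * (j : ℤ) ≤ n →
        (e16sD.map (Int.castRingHom ℂ) * qExpansion 1 F₂).coeff j ∈ M := by
      intro j hj
      rw [← hmul, map_sub]
      exact M.sub_mem (hF j hj) (hag j)
    have hF₂M : ∀ i : ℕ, (qExpansion 1 F₂).coeff i ∈ M := by
      refine ih ((n : ℤ) - 12) (by omega) F₂ ?_
      intro i hi
      refine e16s_div_mem M e16sD e16s_D_zero e16s_D_one (qExpansion 1 F₂) i ?_ i le_rfl
      intro j hj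
      refine hlow j ?_
      have : (j : ℤ) ≤ (i : ℤ) + 1 := by exact_mod_cast hj
      omega
    have hfin : qExpansion 1 F = a₀ • g.map (Int.castRingHom ℂ) +
        e16sD.map (Int.castRingHom ℂ) * qExpansion 1 F₂ := by
      rw [← hmul]; ring
    rw [hfin, map_add]
    exact M.add_mem (hag i) (e16s_mul_mem M e16sD _ hF₂M i)

/-- **Sturm bound modulo an additive subgroup, level one.**  If the `q`-expansion coefficients
`a_i` of a level one modular form of weight `k` lie in an additive subgroup `M ⊆ ℂ` for all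
`i ≤ k / 12`, then all coefficients lie in `M`. -/
theorem e16_sturm (M : AddSubgroup ℂ) {k : ℤ} (F : ModularForm 𝒮ℒ k)
    (h : ∀ i : ℕ, 12 * (i : ℤ) ≤ k → (qExpansion 1 F).coeff i ∈ M) :
    ∀ i : ℕ, (qExpansion 1 F).coeff i ∈ M :=
  e16_sturm_aux M (k.toNat + 1) k (by push_cast; omega) F h


/-- Natural-number weight form of `e16_sturm`, with the bound `i ≤ k / 12`. -/
theorem e16_sturm_nat (M : AddSubgroup ℂ) {k : ℕ} (F : ModularForm 𝒮ℒ (k : ℤ))
    (h : ∀ i : ℕ, i ≤ k / 12 → (qExpansion 1 F).coeff i ∈ M) :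
    ∀ i : ℕ, (qExpansion 1 F).coeff i ∈ M := by
  refine e16_sturm M F fun i hi => h i ?_
  have : 12 * i ≤ k := by exact_mod_cast hi
  omega

/-- Integrality statements in existential form. -/
theorem e16_delta_int' : ∃ d : PowerSeries ℤ,
    qExpansion 1 ModularForm.discriminant = d.map (Int.castRingHom ℂ) ∧
      d.coeff 0 = 0 ∧ d.coeff 1 = 1 :=
  ⟨e16sD, e16_delta_int, e16s_D_zero, e16s_D_one⟩

end Fermat.Agent.E16
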