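/-
S16 (upper bound), helper3: the abstract "norm to level one + Sturm bound mod ℓ" contradiction
(`e16_norm_core`), a small calculus of power series with coefficients in a subring `R ⊆ ℂ`
modulo `ℓR` (`E16Int`, `E16Cong`, `E16Lead`), and a coefficient ring (`e16_exists_ring`).
-/
import Fermat.Agent.Lib.E16_Sturm

set_option autoImplicit false

open UpperHalfPlane ModularForm CuspForm ModularFormClass EisensteinSeries
open scoped MatrixGroups Manifold

namespace Fermat.Agent.E16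

/-- The additive subgroup `ℓ • R` of `ℂ`, for a subring `R ⊆ ℂ` and `ℓ : ℂ`. -/
def e16lR (R : Subring ℂ) (ℓ : ℂ) : AddSubgroup ℂ :=
  R.toAddSubgroup.map (AddMonoidHom.mulLeft ℓ)

theorem mem_e16lR {R : Subring ℂ} {ℓ x : ℂ} : x ∈ e16lR R ℓ ↔ ∃ r ∈ R, ℓ * r = x := by
  simp [e16lR, AddSubgroup.mem_map]

theorem e16lR_mul_right {R : Subring ℂ} {ℓ x y : ℂ} (hx : x ∈ e16lR R ℓ) (hy : y ∈ R) :
    x * y ∈ e16lR R ℓ := by
  obtain ⟨r, hr, rfl⟩ := mem_e16lR.mp hx
  exact mem_e16lR.mpr ⟨r * y, R.mul_mem hr hy, by ring⟩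

theorem e16lR_mul_left {R : Subring ℂ} {ℓ x y : ℂ} (hx : x ∈ R) (hy : y ∈ e16lR R ℓ) :
    x * y ∈ e16lR R ℓ := by
  rw [mul_comm]; exact e16lR_mul_right hy hx

/-- `A` has coefficients in `R`, is `≡ 0 mod ℓR` below index `a` and `≡ u` at index `a`. -/
structure E16Lead (R : Subring ℂ) (ℓ : ℂ) (A : PowerSeries ℂ) (a : ℕ) (u : ℂ) : Prop where
  int : ∀ j, A.coeff j ∈ R
  low : ∀ j < a, A.coeff j ∈ e16lR R ℓ
  lead : A.coeff a - u ∈ e16lR R ℓ
  unit : u ∈ R

theorem E16Lead.one (R : Subring ℂ) (ℓ : ℂ) : E16Lead R ℓ 1 0 1 where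
  int j := by
    rw [PowerSeries.coeff_one]; split_ifs
    · exact R.one_mem
    · exact R.zero_mem
  low j hj := by omega
  lead := by simp [(e16lR R ℓ).zero_mem]
  unit := R.one_mem

theorem E16Lead.mul {R : Subring ℂ} {ℓ : ℂ} {A B : PowerSeries ℂ} {a b : ℕ} {u v : ℂ}
    (hA : E16Lead R ℓ A a u) (hB : E16Lead R ℓ B b v) : E16Lead R ℓ (A * B) (a + b) (u * v) where
  int j := by
    rw [PowerSeries.coeff_mul]
    exact R.sum_mem fun p _ => R.mul_mem (hA.int _) (hB.int _)
  low j hj := by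
    rw [PowerSeries.coeff_mul]
    refine (e16lR R ℓ).sum_mem fun p hp => ?_
    rw [Finset.HasAntidiagonal.mem_antidiagonal] at hp
    by_cases h1 : p.1 < a
    · exact e16lR_mul_right (hA.low _ h1) (hB.int _)
    · exact e16lR_mul_left (hA.int _) (hB.low _ (by omega))
  lead := by
    rw [PowerSeries.coeff_mul]
    have hmem : (a, b) ∈ Finset.HasAntidiagonal.antidiagonal (a + b) := by simp
    rw [← Finset.add_sum_erase _ _ hmem]
    have h1 : A.coeff a * B.coeff b - u * v ∈ e16lR R ℓ := by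
      have : A.coeff a * B.coeff b - u * v =
          (A.coeff a - u) * B.coeff b + u * (B.coeff b - v) := by ring
      rw [this]
      exact (e16lR R ℓ).add_mem (e16lR_mul_right hA.lead (hB.int _))
        (e16lR_mul_left hA.unit hB.lead)
    have h2 : ∑ p ∈ (Finset.HasAntidiagonal.antidiagonal (a + b)).erase (a, b), A.coeff p.1 * B.coeff p.2
        ∈ e16lR R ℓ := by
      refine (e16lR R ℓ).sum_mem fun p hp => ?_
      rw [Finset.mem_erase, Finset.HasAntidiagonal.mem_antidiagonal] at hp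
      by_cases h1 : p.1 < a
      · exact e16lR_mul_right (hA.low _ h1) (hB.int _)
      · refine e16lR_mul_left (hA.int _) (hB.low _ ?_)
        rcases hp with ⟨hne, hsum⟩
        by_contra hcon
        apply hne
        ext <;> simp <;> omega
    have : A.coeff a * B.coeff b +
        ∑ p ∈ (Finset.HasAntidiagonal.antidiagonal (a + b)).erase (a, b), A.coeff p.1 * B.coeff p.2 - u * v =
        (A.coeff a * B.coeff b - u * v) +
        ∑ p ∈ (Finset.HasAntidiagonal.antidiagonal (a + b)).erase (a, b), A.coeff p.1 * B.coeff p.2 := by ring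
    rw [this]
    exact (e16lR R ℓ).add_mem h1 h2
  unit := R.mul_mem hA.unit hB.unit

theorem E16Lead.prod {R : Subring ℂ} {ℓ : ℂ} {ι : Type*} (s : Finset ι) (h : ι → PowerSeries ℂ)
    (e : ι → ℕ) (u : ι → ℂ) (hh : ∀ i ∈ s, E16Lead R ℓ (h i) (e i) (u i)) :
    E16Lead R ℓ (∏ i ∈ s, h i) (∑ i ∈ s, e i) (∏ i ∈ s, u i) := by
  classical
  induction s using Finset.induction_on with
  | empty => simpa using E16Lead.one R ℓ
  | insert i s hi ih =>
    rw [Finset.prod_insert hi, Finset.sum_insert hi, Finset.prod_insert hi]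
    exact (hh i (Finset.mem_insert_self i s)).mul
      (ih fun j hj => hh j (Finset.mem_insert_of_mem hj))

/-- **Norm + Sturm core.**  Let `F` be a level one form of weight `k` whose `q`-expansion,
read in the variable `t = q^{1/N}`, is a finite product of series `h i` with coefficients in
a subring `R ⊆ ℂ`, such that `h i ≡ u_i t^{e_i} + …  (mod ℓR)` with `u_i` a unit of `R`.
If `ℓ` is not a unit of `R` and `∑ e_i > N k / 12`, this is impossible. -/
theorem e16_norm_core (R : Subring ℂ) (ℓ : ℂ) (hℓ : ∀ r ∈ R, ℓ * r ≠ 1)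
    {k : ℤ} (F : ModularForm 𝒮ℒ k) (N : ℕ)
    {ι : Type*} (s : Finset ι) (h : ι → PowerSeries ℂ)
    (hP : ∀ j, (∏ i ∈ s, h i).coeff (N * j) = (qExpansion 1 F).coeff j)
    (hP0 : ∀ j, ¬ N ∣ j → (∏ i ∈ s, h i).coeff j = 0)
    (e : ι → ℕ) (u : ι → ℂ)
    (hh : ∀ i ∈ s, E16Lead R ℓ (h i) (e i) (u i))
    (hu : ∀ i ∈ s, ∃ u' ∈ R, u i * u' = 1)
    (hbig : k * N < 12 * ((∑ i ∈ s, e i : ℕ) : ℤ)) : False := by
  classical
  have hprod := E16Lead.prod s h e u hh
  -- all coefficients of `F` are in `ℓR`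
  have hF : ∀ j : ℕ, (qExpansion 1 F).coeff j ∈ e16lR R ℓ := by
    refine e16_sturm (e16lR R ℓ) F fun j hj => ?_
    rw [← hP j]
    refine hprod.low _ ?_
    have h1 : 12 * ((N * j : ℕ) : ℤ) ≤ k * N := by
      push_cast
      nlinarith [Int.natCast_nonneg N]
    have h2 : 12 * ((N * j : ℕ) : ℤ) < 12 * ((∑ i ∈ s, e i : ℕ) : ℤ) := lt_of_le_of_lt h1 hbig
    have h3 : ((N * j : ℕ) : ℤ) < ((∑ i ∈ s, e i : ℕ) : ℤ) := by linarith
    exact_mod_cast h3
  -- the coefficient at `∑ e_i` is in `ℓR`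
  have hc : (∏ i ∈ s, h i).coeff (∑ i ∈ s, e i) ∈ e16lR R ℓ := by
    by_cases hdiv : N ∣ ∑ i ∈ s, e i
    · obtain ⟨j, hj⟩ := hdiv
      rw [hj, hP j]
      exact hF j
    · rw [hP0 _ hdiv]
      exact (e16lR R ℓ).zero_mem
  -- hence the unit `∏ u_i` is in `ℓR`
  have hU : ∏ i ∈ s, u i ∈ e16lR R ℓ := by
    have := (e16lR R ℓ).sub_mem hc hprod.lead
    simpa using this
  -- its inverse is in `R`
  have hinv : ∃ U' ∈ R, (∏ i ∈ s, u i) * U' = 1 := by
    choose! u' hu'R hu' using hu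
    refine ⟨∏ i ∈ s, u' i, R.prod_mem fun i hi => hu'R i hi, ?_⟩
    rw [← Finset.prod_mul_distrib]
    exact Finset.prod_eq_one fun i hi => hu' i hi
  obtain ⟨U', hU'R, hU'⟩ := hinv
  obtain ⟨r, hr, hrU⟩ := mem_e16lR.mp hU
  refine hℓ (r * U') (R.mul_mem hr hU'R) ?_
  rw [← mul_assoc, hrU, hU']

/-- Expand form of `e16_norm_core`: the product of the `h i` is `(qExpansion 1 F)(t^N)`. -/
theorem e16_norm_core' (R : Subring ℂ) (ℓ : ℂ) (hℓ : ∀ r ∈ R, ℓ * r ≠ 1)
    {k : ℤ} (F : ModularForm 𝒮ℒ k) (N : ℕ) (hN : N ≠ 0)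
    {ι : Type*} (s : Finset ι) (h : ι → PowerSeries ℂ)
    (hP : PowerSeries.expand N hN (qExpansion 1 F) = ∏ i ∈ s, h i)
    (e : ι → ℕ) (u : ι → ℂ)
    (hh : ∀ i ∈ s, E16Lead R ℓ (h i) (e i) (u i))
    (hu : ∀ i ∈ s, ∃ u' ∈ R, u i * u' = 1)
    (hbig : k * N < 12 * ((∑ i ∈ s, e i : ℕ) : ℤ)) : False := by
  refine e16_norm_core R ℓ hℓ F N s h (fun j => ?_) (fun j hj => ?_) e u hh hu hbig
  · rw [← hP, PowerSeries.coeff_expand_mul]
  · rw [← hP, PowerSeries.coeff_expand_of_not_dvd N hN _ hj]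

/-! ### A small calculus of series with coefficients in `R`, modulo `ℓR` -/

/-- All coefficients of `A` lie in `R`. -/
def E16Int (R : Subring ℂ) (A : PowerSeries ℂ) : Prop := ∀ j, A.coeff j ∈ R

/-- `A ≡ B` coefficientwise modulo `ℓR`. -/
def E16Cong (R : Subring ℂ) (ℓ : ℂ) (A B : PowerSeries ℂ) : Prop :=
  ∀ j, A.coeff j - B.coeff j ∈ e16lR R ℓ

section calculus

variable {R : Subring ℂ} {ℓ : ℂ} {A B A' B' : PowerSeries ℂ}

theorem E16Int.zero : E16Int R 0 := fun j => by simp [R.zero_mem]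

theorem E16Int.one : E16Int R 1 := fun j => by
  rw [PowerSeries.coeff_one]; split_ifs
  · exact R.one_mem
  · exact R.zero_mem

theorem E16Int.add (hA : E16Int R A) (hB : E16Int R B) : E16Int R (A + B) := fun j => by
  rw [map_add]; exact R.add_mem (hA j) (hB j)

theorem E16Int.neg (hA : E16Int R A) : E16Int R (-A) := fun j => by
  rw [map_neg]; exact R.neg_mem (hA j)

theorem E16Int.sub (hA : E16Int R A) (hB : E16Int R B) : E16Int R (A - B) := fun j => by
  rw [map_sub]; exact R.sub_mem (hA j) (hB j)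

theorem E16Int.mul (hA : E16Int R A) (hB : E16Int R B) : E16Int R (A * B) := fun j => by
  rw [PowerSeries.coeff_mul]
  exact R.sum_mem fun p _ => R.mul_mem (hA _) (hB _)

theorem E16Int.pow (hA : E16Int R A) (n : ℕ) : E16Int R (A ^ n) := by
  induction n with
  | zero => simpa using E16Int.one
  | succ n ih => rw [pow_succ]; exact ih.mul hA

theorem E16Int.C {r : ℂ} (hr : r ∈ R) : E16Int R (PowerSeries.C r) := fun j => by
  rw [PowerSeries.coeff_C]; split_ifs
  · exact hr
  · exact R.zero_mem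

theorem E16Int.X : E16Int R PowerSeries.X := fun j => by
  rw [PowerSeries.coeff_X]; split_ifs
  · exact R.one_mem
  · exact R.zero_mem

theorem E16Int.smul {r : ℂ} (hr : r ∈ R) (hA : E16Int R A) : E16Int R (r • A) := fun j => by
  rw [PowerSeries.coeff_smul, smul_eq_mul]; exact R.mul_mem hr (hA j)

theorem E16Int.map_int (d : PowerSeries ℤ) : E16Int R (d.map (Int.castRingHom ℂ)) := fun j => by
  rw [PowerSeries.coeff_map, eq_intCast]; exact intCast_mem R _

theorem E16Int.expand (hA : E16Int R A) (N : ℕ) (hN : N ≠ 0) :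
    E16Int R (PowerSeries.expand N hN A) := fun j => by
  rw [PowerSeries.coeff_expand]; split_ifs
  · exact hA _
  · exact R.zero_mem

theorem E16Int.prod {ι : Type*} (s : Finset ι) (h : ι → PowerSeries ℂ)
    (hh : ∀ i ∈ s, E16Int R (h i)) : E16Int R (∏ i ∈ s, h i) := by
  classical
  induction s using Finset.induction_on with
  | empty => simpa using E16Int.one
  | insert i s hi ih =>
    rw [Finset.prod_insert hi]
    exact (hh i (Finset.mem_insert_self i s)).mul
      (ih fun j hj => hh j (Finset.mem_insert_of_mem hj))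

theorem E16Lead.toInt {a : ℕ} {u : ℂ} (hA : E16Lead R ℓ A a u) : E16Int R A := hA.int

theorem E16Cong.refl (A : PowerSeries ℂ) : E16Cong R ℓ A A := fun j => by
  simp [(e16lR R ℓ).zero_mem]

theorem E16Cong.symm (h : E16Cong R ℓ A B) : E16Cong R ℓ B A := fun j => by
  have := (e16lR R ℓ).neg_mem (h j)
  rwa [neg_sub] at this

theorem E16Cong.trans {C : PowerSeries ℂ} (h : E16Cong R ℓ A B) (h' : E16Cong R ℓ B C) :
    E16Cong R ℓ A C := fun j => by
  have := (e16lR R ℓ).add_mem (h j) (h' j)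
  rwa [sub_add_sub_cancel] at this

theorem E16Cong.add (h : E16Cong R ℓ A A') (h' : E16Cong R ℓ B B') :
    E16Cong R ℓ (A + B) (A' + B') := fun j => by
  have := (e16lR R ℓ).add_mem (h j) (h' j)
  rw [map_add, map_add]
  convert this using 1
  ring

theorem E16Cong.neg (h : E16Cong R ℓ A A') : E16Cong R ℓ (-A) (-A') := fun j => by
  have := (e16lR R ℓ).neg_mem (h j)
  rw [map_neg, map_neg]
  convert this using 1
  ring

theorem E16Cong.sub (h : E16Cong R ℓ A A') (h' : E16Cong R ℓ B B') :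
    E16Cong R ℓ (A - B) (A' - B') := fun j => by
  have := (e16lR R ℓ).sub_mem (h j) (h' j)
  rw [map_sub, map_sub]
  convert this using 1
  ring

/-- Congruences multiply, for series with coefficients in `R`. -/
theorem E16Cong.mul (h : E16Cong R ℓ A A') (h' : E16Cong R ℓ B B')
    (hB : E16Int R B) (hA' : E16Int R A') : E16Cong R ℓ (A * B) (A' * B') := fun j => by
  have hsplit : A * B - A' * B' = (A - A') * B + A' * (B - B') := by ring
  rw [← map_sub, hsplit, map_add, PowerSeries.coeff_mul, PowerSeries.coeff_mul]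
  refine (e16lR R ℓ).add_mem ((e16lR R ℓ).sum_mem fun p _ => ?_)
    ((e16lR R ℓ).sum_mem fun p _ => ?_)
  · rw [map_sub]; exact e16lR_mul_right (h _) (hB _)
  · rw [map_sub]; exact e16lR_mul_left (hA' _) (h' _)

theorem E16Cong.int_right (h : E16Cong R ℓ A B) (hA : E16Int R A) (hℓ : ℓ ∈ R) :
    E16Int R B := fun j => by
  obtain ⟨r, hr, hrx⟩ := mem_e16lR.mp (h j)
  have : B.coeff j = A.coeff j - ℓ * r := by rw [hrx]; ring
  rw [this]
  exact R.sub_mem (hA j) (R.mul_mem hℓ hr)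

theorem E16Cong.pow (h : E16Cong R ℓ A A') (hA : E16Int R A) (hA' : E16Int R A') (n : ℕ) :
    E16Cong R ℓ (A ^ n) (A' ^ n) := by
  induction n with
  | zero => simpa using E16Cong.refl (R := R) (ℓ := ℓ) 1
  | succ n ih =>
    rw [pow_succ, pow_succ]
    exact ih.mul h hA (hA'.pow n)

theorem E16Cong.smul {r : ℂ} (hr : r ∈ R) (h : E16Cong R ℓ A A') :
    E16Cong R ℓ (r • A) (r • A') := fun j => by
  rw [PowerSeries.coeff_smul, PowerSeries.coeff_smul, smul_eq_mul, smul_eq_mul, ← mul_sub]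
  exact e16lR_mul_left hr (h j)

theorem E16Cong.expand (h : E16Cong R ℓ A A') (N : ℕ) (hN : N ≠ 0) :
    E16Cong R ℓ (PowerSeries.expand N hN A) (PowerSeries.expand N hN A') := fun j => by
  rw [PowerSeries.coeff_expand, PowerSeries.coeff_expand]; split_ifs
  · exact h _
  · simp [(e16lR R ℓ).zero_mem]

/-- A series all of whose coefficients are in `ℓR` is congruent to `0`. -/
theorem E16Cong.of_mem (h : ∀ j, A.coeff j ∈ e16lR R ℓ) : E16Cong R ℓ A 0 := fun j => by
  simpa using h j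

/-- Transport of the leading-term predicate along a congruence. -/
theorem E16Lead.congr {a : ℕ} {u : ℂ} (hA : E16Lead R ℓ A a u) (h : E16Cong R ℓ A B)
    (hB : E16Int R B) : E16Lead R ℓ B a u where
  int := hB
  low j hj := by
    have := (e16lR R ℓ).sub_mem (hA.low j hj) (h j)
    rwa [sub_sub_cancel] at this
  lead := by
    have := (e16lR R ℓ).sub_mem hA.lead (h a)
    convert this using 1
    ring
  unit := hA.unit

/-- A series with coefficients in `R`, vanishing below `a`, with coefficient `u` at `a`. -/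
theorem E16Lead.of_order {a : ℕ} {u : ℂ} (hA : E16Int R A) (hlow : ∀ j < a, A.coeff j = 0)
    (hu : A.coeff a = u) : E16Lead R ℓ A a u where
  int := hA
  low j hj := by rw [hlow j hj]; exact (e16lR R ℓ).zero_mem
  lead := by rw [hu, sub_self]; exact (e16lR R ℓ).zero_mem
  unit := hu ▸ hA a

theorem E16Lead.C {r : ℂ} (hr : r ∈ R) : E16Lead R ℓ (PowerSeries.C r) 0 r :=
  E16Lead.of_order (E16Int.C hr) (fun j hj => by omega) (by simp)

theorem E16Lead.X_pow (a : ℕ) : E16Lead R ℓ (PowerSeries.X ^ a) a 1 :=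
  E16Lead.of_order (E16Int.X.pow a) (fun j hj => by
    rw [PowerSeries.coeff_X_pow, if_neg (by omega)]) (by simp)

theorem E16Lead.expand {a : ℕ} {u : ℂ} (hA : E16Lead R ℓ A a u) (N : ℕ) (hN : N ≠ 0) :
    E16Lead R ℓ (PowerSeries.expand N hN A) (N * a) u where
  int := E16Int.expand hA.int N hN
  low j hj := by
    rw [PowerSeries.coeff_expand]; split_ifs with hd
    · refine hA.low _ ?_
      obtain ⟨q, rfl⟩ := hd
      rw [Nat.mul_div_cancel_left _ (Nat.pos_of_ne_zero hN)]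
      exact lt_of_mul_lt_mul_left hj (Nat.zero_le N)
    · exact (e16lR R ℓ).zero_mem
  lead := by
    rw [PowerSeries.coeff_expand_mul]; exact hA.lead
  unit := hA.unit

theorem E16Lead.pow {a : ℕ} {u : ℂ} (hA : E16Lead R ℓ A a u) (n : ℕ) :
    E16Lead R ℓ (A ^ n) (n * a) (u ^ n) := by
  induction n with
  | zero => simpa using E16Lead.one R ℓ
  | succ n ih =>
    rw [pow_succ, pow_succ, Nat.succ_mul]
    exact ih.mul hA

end calculus

/-! ### A coefficient ring -/

/-- A coefficient ring for congruences modulo `ℓ` in `ℂ`: a valuation subring of `ℂ` in which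
`ℓ` is not invertible. It contains the inverses of all integers prime to `ℓ` and all roots of
unity. -/
theorem e16_exists_ring (ℓ : ℕ) (hℓ : 1 < ℓ) :
    ∃ R : Subring ℂ, (∀ x : ℂ, x ∈ R ∨ x⁻¹ ∈ R) ∧ (∀ r ∈ R, (ℓ : ℂ) * r ≠ 1) ∧
      (∀ b : ℤ, IsCoprime b (ℓ : ℤ) → ((b : ℂ)⁻¹ ∈ R)) ∧
      (∀ ζ : ℂ, ∀ n : ℕ, n ≠ 0 → ζ ^ n = 1 → ζ ∈ R) := by
  set A : Subring ℂ := (Int.castRingHom ℂ).range with hA
  have hℓA : (ℓ : ℂ) ∈ A := ⟨(ℓ : ℤ), by simp⟩
  set I : Ideal A := Ideal.span {⟨(ℓ : ℂ), hℓA⟩} with hI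
  have hItop : I ≠ ⊤ := by
    intro htop
    have h1 : (1 : A) ∈ I := by rw [htop]; trivial
    rw [hI, Ideal.mem_span_singleton'] at h1
    obtain ⟨⟨a, m, hm⟩, ha⟩ := h1
    have ha' : a * (ℓ : ℂ) = 1 := congrArg Subtype.val ha
    rw [← hm] at ha'
    have h2 : (m * (ℓ : ℤ) : ℤ) = 1 := by
      have : ((m * (ℓ : ℤ) : ℤ) : ℂ) = ((1 : ℤ) : ℂ) := by push_cast; simpa using ha'
      exact_mod_cast this
    have h3 : (ℓ : ℤ) ∣ 1 := ⟨m, by rw [mul_comm]; exact h2.symm⟩
    have h4 : ℓ ∣ 1 := by exact_mod_cast h3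
    have := Nat.le_of_dvd one_pos h4
    omega
  obtain ⟨B, hAB, hIB⟩ := Ideal.image_subset_nonunits_valuationSubring I hItop
  have hℓB : (ℓ : ℂ) ∈ B.nonunits :=
    hIB ⟨⟨(ℓ : ℂ), hℓA⟩, Ideal.mem_span_singleton_self _, rfl⟩
  have hint : ∀ m : ℤ, (m : ℂ) ∈ B := fun m => hAB ⟨m, by simp⟩
  have hv : ∀ r ∈ B, (ℓ : ℂ) * r ∈ B.nonunits := by
    intro r hr
    rw [ValuationSubring.mem_nonunits_iff] at hℓB ⊢
    rw [map_mul]
    exact mul_lt_one_of_lt_of_le hℓB ((B.valuation_le_one_iff r).mpr hr)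
  refine ⟨B.toSubring, fun x => B.mem_or_inv_mem x, ?_, ?_, ?_⟩
  · intro r hr h1
    have := hv r hr
    rw [h1, ValuationSubring.mem_nonunits_iff, map_one] at this
    exact lt_irrefl _ this
  · intro b hb
    rcases B.mem_or_inv_mem ((b : ℂ)⁻¹) with h | h
    · exact h
    · rw [inv_inv] at h
      -- `b` is a non-unit of `B` unless its inverse is in `B`
      by_contra hcon
      have hbnon : (b : ℂ) ∈ B.nonunits := by
        rw [ValuationSubring.mem_nonunits_iff]
        rcases lt_or_eq_of_le ((B.valuation_le_one_iff (b : ℂ)).mpr (hint b)) with hlt | heq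
        · exact hlt
        · exfalso
          apply hcon
          show (b : ℂ)⁻¹ ∈ B
          rw [← B.valuation_le_one_iff, map_inv₀, heq, inv_one]
      obtain ⟨x, y, hxy⟩ := hb
      have h1 : ((x : ℂ) * b + y * ℓ) = 1 := by exact_mod_cast congrArg (Int.cast : ℤ → ℂ) hxy
      have hlt : B.valuation ((x : ℂ) * b + y * ℓ) < 1 := by
        refine lt_of_le_of_lt (B.valuation.map_add _ _) (max_lt ?_ ?_)
        · rw [map_mul, mul_comm]
          exact mul_lt_one_of_lt_of_le ((B.mem_nonunits_iff).mp hbnon)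
            ((B.valuation_le_one_iff _).mpr (hint x))
        · rw [map_mul, mul_comm]
          exact mul_lt_one_of_lt_of_le ((B.mem_nonunits_iff).mp hℓB)
            ((B.valuation_le_one_iff _).mpr (hint y))
      rw [h1, map_one] at hlt
      exact lt_irrefl _ hlt
  · intro ζ n hn hζ
    rcases B.mem_or_inv_mem ζ with h | h
    · exact h
    · have hζ0 : ζ ≠ 0 := by
        rintro rfl
        rw [zero_pow hn] at hζ
        exact zero_ne_one hζ
      have : ζ = (ζ⁻¹) ^ (n - 1) := by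
        have hn1 : n = (n - 1) + 1 := by omega
        rw [inv_pow]
        refine eq_inv_of_mul_eq_one_left ?_
        rw [← pow_succ', ← hn1, hζ]
      rw [this]
      exact B.toSubring.pow_mem h _

end Fermat.Agent.E16
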