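/-
S16 (upper bound), helper3: `q^{1/N}`-expansions.  `E16Per N f` (periodic, holomorphic, bounded
at `i∞`), the algebra of `qExpansion N`, change of period (`e16_qExp_expand`), affine
substitutions `τ ↦ (τ + b)/p` (`e16_affine`), and the `q`-expansion of the norm to level one as
the product of the `q^{1/N}`-expansions of the translates (`e16_norm_qExp`), with the resulting
contradiction principle `e16_norm_contra`.
-/
import Fermat.Agent.Lib.E16_Core

set_option autoImplicit false

open UpperHalfPlane ModularForm Function Complex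
open UpperHalfPlane hiding I
open scoped MatrixGroups Manifold Real

namespace Fermat.Agent.E16

/-- `f` is `N`-periodic, holomorphic on `ℍ` and bounded at `i∞`: it has a `q^{1/N}`-expansion. -/
structure E16Per (N : ℝ) (f : ℍ → ℂ) : Prop where
  per : Function.Periodic (f ∘ ofComplex) N
  holo : MDiff f
  bdd : IsBoundedAtImInfty f

variable {N : ℝ} {f g : ℍ → ℂ}

theorem E16Per.analytic (hN : 0 < N) (hf : E16Per N f) : AnalyticAt ℂ (cuspFunction N f) 0 :=
  analyticAt_cuspFunction_zero hN hf.per hf.holo hf.bdd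

theorem E16Per.hasSum (hN : 0 < N) (hf : E16Per N f) (τ : ℍ) :
    HasSum (fun m : ℕ => (qExpansion N f).coeff m • Periodic.qParam N τ ^ m) (f τ) :=
  hasSum_qExpansion hN hf.per hf.holo hf.bdd τ

theorem E16Per.one : E16Per N (1 : ℍ → ℂ) where
  per := fun z => rfl
  holo := mdifferentiable_const
  bdd := by
    rw [isBoundedAtImInfty_iff]
    exact ⟨1, 0, fun z _ => by simp⟩

theorem E16Per.const (c : ℂ) : E16Per N (fun _ : ℍ => c) where
  per := fun z => rfl
  holo := mdifferentiable_const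
  bdd := by
    rw [isBoundedAtImInfty_iff]
    exact ⟨‖c‖, 0, fun z _ => le_rfl⟩

theorem E16Per.mul (hf : E16Per N f) (hg : E16Per N g) : E16Per N (f * g) where
  per := fun z => by
    have h1 := hf.per z
    have h2 := hg.per z
    simp only [Function.comp_apply, Pi.mul_apply] at h1 h2 ⊢
    rw [h1, h2]
  holo := hf.holo.mul hg.holo
  bdd := hf.bdd.mul hg.bdd

theorem E16Per.add (hf : E16Per N f) (hg : E16Per N g) : E16Per N (f + g) where
  per := fun z => by
    have h1 := hf.per z
    have h2 := hg.per z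
    simp only [Function.comp_apply, Pi.add_apply] at h1 h2 ⊢
    rw [h1, h2]
  holo := hf.holo.add hg.holo
  bdd := hf.bdd.add hg.bdd

theorem E16Per.neg (hf : E16Per N f) : E16Per N (-f) where
  per := fun z => by
    have h1 := hf.per z
    simp only [Function.comp_apply, Pi.neg_apply] at h1 ⊢
    rw [h1]
  holo := hf.holo.neg
  bdd := hf.bdd.neg_left

theorem E16Per.sub (hf : E16Per N f) (hg : E16Per N g) : E16Per N (f - g) := by
  rw [sub_eq_add_neg]; exact hf.add hg.neg

theorem E16Per.smul (c : ℂ) (hf : E16Per N f) : E16Per N (c • f) := by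
  have : c • f = (fun _ : ℍ => c) * f := by ext z; simp
  rw [this]; exact (E16Per.const c).mul hf

theorem E16Per.pow (hf : E16Per N f) (n : ℕ) : E16Per N (f ^ n) := by
  induction n with
  | zero => simpa using E16Per.one
  | succ n ih => rw [pow_succ]; exact ih.mul hf

theorem E16Per.prod {ι : Type*} (s : Finset ι) (h : ι → ℍ → ℂ)
    (hh : ∀ i ∈ s, E16Per N (h i)) : E16Per N (∏ i ∈ s, h i) := by
  classical
  induction s using Finset.induction_on with
  | empty => simpa using E16Per.one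
  | insert i s hi ih =>
    rw [Finset.prod_insert hi]
    exact (hh i (Finset.mem_insert_self i s)).mul
      (ih fun j hj => hh j (Finset.mem_insert_of_mem hj))

/-- A modular form for a group having `N` as a strict period. -/
theorem E16Per.of_modularForm {Γ : Subgroup (GL (Fin 2) ℝ)} {k : ℤ} {F : Type*}
    [FunLike F ℍ ℂ] [ModularFormClass F Γ k] (φ : F) (hN : 0 < N)
    (hΓ : N ∈ Γ.strictPeriods) : E16Per N (φ : ℍ → ℂ) :=
  have : Fact (IsCusp OnePoint.infty Γ) := ⟨Γ.isCusp_of_mem_strictPeriods hN hΓ⟩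
  { per := SlashInvariantFormClass.periodic_comp_ofComplex φ hΓ
    holo := ModularFormClass.holo φ
    bdd := ModularFormClass.bdd_at_infty φ }

theorem e16_qExp_mul (hN : 0 < N) (hf : E16Per N f) (hg : E16Per N g) :
    qExpansion N (f * g) = qExpansion N f * qExpansion N g :=
  qExpansion_mul (hf.analytic hN) (hg.analytic hN)

theorem e16_qExp_add (hN : 0 < N) (hf : E16Per N f) (hg : E16Per N g) :
    qExpansion N (f + g) = qExpansion N f + qExpansion N g :=
  qExpansion_add (hf.analytic hN) (hg.analytic hN)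

theorem e16_qExp_sub (hN : 0 < N) (hf : E16Per N f) (hg : E16Per N g) :
    qExpansion N (f - g) = qExpansion N f - qExpansion N g :=
  qExpansion_sub (hf.analytic hN) (hg.analytic hN)

theorem e16_qExp_smul (hN : 0 < N) (c : ℂ) (hf : E16Per N f) :
    qExpansion N (c • f) = c • qExpansion N f :=
  qExpansion_smul (hf.analytic hN) c

theorem e16_qExp_pow (hN : 0 < N) (hf : E16Per N f) (n : ℕ) :
    qExpansion N (f ^ n) = qExpansion N f ^ n := by
  induction n with
  | zero => simp [qExpansion_one]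
  | succ n ih => rw [pow_succ, pow_succ, e16_qExp_mul hN (hf.pow n) hf, ih]

theorem e16_qExp_prod (hN : 0 < N) {ι : Type*} (s : Finset ι) (h : ι → ℍ → ℂ)
    (hh : ∀ i ∈ s, E16Per N (h i)) :
    qExpansion N (∏ i ∈ s, h i) = ∏ i ∈ s, qExpansion N (h i) := by
  classical
  induction s using Finset.induction_on with
  | empty => simp [qExpansion_one]
  | insert i s hi ih =>
    rw [Finset.prod_insert hi, Finset.prod_insert hi,
      e16_qExp_mul hN (hh i (Finset.mem_insert_self i s))
        (E16Per.prod s h fun j hj => hh j (Finset.mem_insert_of_mem hj)),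
      ih fun j hj => hh j (Finset.mem_insert_of_mem hj)]


/-- Function-level uniqueness of `q`-expansion coefficients. -/
theorem e16_coeff_unique {c : ℕ → ℂ} (hN : 0 < N)
    (hfanalytic : AnalyticAt ℂ (cuspFunction N f) 0)
    (hf : ∀ τ : ℍ, HasSum (fun m : ℕ => c m • Periodic.qParam N τ ^ m) (f τ)) (m : ℕ) :
    (qExpansion N f).coeff m = c m := by
  have h1 := (hasFPowerSeriesOnBall_cuspFunction hN hfanalytic hf).hasFPowerSeriesAt
  have h2 : HasFPowerSeriesAt (cuspFunction N f)
      (FormalMultilinearSeries.ofScalars ℂ fun m => (qExpansion N f).coeff m) 0 := by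
    simpa [qExpansion_coeff, div_eq_mul_inv, mul_comm] using hfanalytic.hasFPowerSeriesAt
  have h3 := congr_arg (FormalMultilinearSeries.coeff · m) (h1.eq_formalMultilinearSeries h2)
  simpa [FormalMultilinearSeries.coeff_ofScalars] using h3.symm

/-- Uniqueness of the expansion. -/
theorem E16Per.qExp_unique (hN : 0 < N) (hf : E16Per N f) (c : ℕ → ℂ)
    (h : ∀ τ : ℍ, HasSum (fun m : ℕ => c m • Periodic.qParam N τ ^ m) (f τ)) (m : ℕ) :
    (qExpansion N f).coeff m = c m :=
  e16_coeff_unique hN (hf.analytic hN) h m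

theorem E16Per.nat_mul (hf : E16Per N f) (n : ℕ) : E16Per (n * N) f where
  per := by
    have := hf.per.nat_mul n
    simpa using this
  holo := hf.holo
  bdd := hf.bdd

/-- Change of period: the expansion in `q^{1/(nN)}` is the expansion in `q^{1/N}` with
`t ↦ t^n`. -/
theorem e16_qExp_expand (hN : 0 < N) (n : ℕ) (hn : n ≠ 0) (hf : E16Per N f) :
    qExpansion (n * N) f = PowerSeries.expand n hn (qExpansion N f) := by
  have hnN : 0 < (n : ℝ) * N := mul_pos (by exact_mod_cast Nat.pos_of_ne_zero hn) hN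
  ext m
  refine (hf.nat_mul n).qExp_unique hnN
    (fun m => (PowerSeries.expand n hn (qExpansion N f)).coeff m) (fun τ => ?_) m
  have hs := hf.hasSum hN τ
  have hq : Periodic.qParam N τ = Periodic.qParam (n * N) τ ^ n := by
    rw [Periodic.qParam, Periodic.qParam, ← Complex.exp_nat_mul]
    congr 1
    have hn' : (n : ℂ) ≠ 0 := by exact_mod_cast hn
    have hN' : (N : ℂ) ≠ 0 := by exact_mod_cast hN.ne'
    push_cast
    field_simp
  have hinj : Function.Injective (fun j : ℕ => n * j) :=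
    fun a b hab => Nat.eq_of_mul_eq_mul_left (Nat.pos_of_ne_zero hn) hab
  have hzero : ∀ x ∉ Set.range (fun j : ℕ => n * j),
      (PowerSeries.expand n hn (qExpansion N f)).coeff x • Periodic.qParam (n * N) τ ^ x = 0 := by
    intro x hx
    rw [PowerSeries.coeff_expand_of_not_dvd n hn _ (fun ⟨j, hj⟩ => hx ⟨j, hj.symm⟩), zero_smul]
  rw [← hinj.hasSum_iff hzero]
  convert hs using 2 with j
  simp only [Function.comp_apply]
  rw [PowerSeries.coeff_expand_mul, hq, ← pow_mul]

/-- Affine substitution `τ ↦ (τ + b)/p`: the expansion gets rescaled by a root of unity. -/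
theorem e16_affine (hN : 0 < N) (hf : E16Per N f) (p : ℕ) (hp : p ≠ 0) (b : ℝ) (φ : ℍ → ℍ)
    (hφ : ∀ τ : ℍ, (φ τ : ℂ) = ((τ : ℂ) + b) / p) :
    E16Per (p * N) (f ∘ φ) ∧ qExpansion (p * N) (f ∘ φ) =
      PowerSeries.rescale (cexp (2 * π * Complex.I * b / (p * N))) (qExpansion N f) := by
  have hp0 : (0 : ℝ) < p := by exact_mod_cast Nat.pos_of_ne_zero hp
  have hpN : 0 < (p : ℝ) * N := mul_pos hp0 hN
  have hpC : (p : ℂ) ≠ 0 := by exact_mod_cast hp
  have him : ∀ τ : ℍ, (φ τ).im = τ.im / p := by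
    intro τ
    have h1 : (φ τ).im = ((φ τ : ℂ)).im := rfl
    rw [h1, hφ τ]
    have : (((τ : ℂ) + b) / p) = (((τ : ℂ) + b) / ((p : ℝ) : ℂ)) := by push_cast; rfl
    rw [this, Complex.div_ofReal_im]
    simp
  have hper : E16Per (p * N) (f ∘ φ) := by
    refine ⟨fun z => ?_, ?_, ?_⟩
    · by_cases hz : 0 < z.im
      · have hz' : 0 < (z + ((p * N : ℝ) : ℂ)).im := by simpa using hz
        simp only [Function.comp_apply]
        have hpos : 0 < ((φ (ofComplex z) : ℂ) + (N : ℂ)).im := by
          simpa using (φ (ofComplex z)).im_pos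
        have hc1 : ((ofComplex (z + ((p * N : ℝ) : ℂ)) : ℍ) : ℂ) = z + ((p * N : ℝ) : ℂ) := by
          rw [ofComplex_apply_of_im_pos hz']
        have hc2 : ((ofComplex ((φ (ofComplex z) : ℂ) + (N : ℂ)) : ℍ) : ℂ) =
            (φ (ofComplex z) : ℂ) + (N : ℂ) := by
          rw [ofComplex_apply_of_im_pos hpos]
        have hc3 : ((ofComplex z : ℍ) : ℂ) = z := by
          rw [ofComplex_apply_of_im_pos hz]
        have e1 : φ (ofComplex (z + ((p * N : ℝ) : ℂ))) =
            ofComplex ((φ (ofComplex z) : ℂ) + (N : ℂ)) := by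
          apply UpperHalfPlane.ext
          rw [hφ, hc1, hc2, hφ, hc3]
          push_cast
          field_simp
          ring
        have e2 := hf.per (φ (ofComplex z) : ℂ)
        simp only [Function.comp_apply, ofComplex_apply] at e2
        rw [e1, e2]
      · have hz1 : z.im ≤ 0 := not_lt.mp hz
        have hz2 : (z + ((p * N : ℝ) : ℂ)).im ≤ 0 := by simpa using hz1
        simp only [Function.comp_apply]
        rw [ofComplex_apply_eq_of_im_nonpos hz2 hz1]
    · rw [UpperHalfPlane.mdifferentiable_iff]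
      have hfd := (UpperHalfPlane.mdifferentiable_iff).mp hf.holo
      have haff : DifferentiableOn ℂ (fun z : ℂ => (z + b) / p) {z : ℂ | 0 < z.im} :=
        ((differentiable_id.add_const (b : ℂ)).div_const (p : ℂ)).differentiableOn
      have hmaps : Set.MapsTo (fun z : ℂ => (z + b) / p) {z : ℂ | 0 < z.im} {z : ℂ | 0 < z.im} := by
        intro z hz
        simp only [Set.mem_ofPred_eq] at hz ⊢
        have : ((z + b) / p) = ((z + b) / ((p : ℝ) : ℂ)) := by push_cast; rfl
        rw [this, Complex.div_ofReal_im]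
        simp only [Complex.add_im, Complex.ofReal_im, add_zero]
        exact div_pos hz hp0
      refine (hfd.comp haff hmaps).congr fun z hz => ?_
      simp only [Set.mem_ofPred_eq] at hz
      simp only [Function.comp_apply]
      congr 1
      apply UpperHalfPlane.ext
      have hpos : 0 < ((z + b) / p).im := hmaps hz
      have hc1 : ((ofComplex z : ℍ) : ℂ) = z := by rw [ofComplex_apply_of_im_pos hz]
      have hc2 : ((ofComplex ((z + b) / p) : ℍ) : ℂ) = (z + b) / p := by
        rw [ofComplex_apply_of_im_pos hpos]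
      rw [hφ, hc1, hc2]
    · obtain ⟨M, A, hMA⟩ := (isBoundedAtImInfty_iff).mp hf.bdd
      rw [isBoundedAtImInfty_iff]
      refine ⟨M, p * A, fun z hz => ?_⟩
      simp only [Function.comp_apply]
      refine hMA (φ z) ?_
      rw [him z, le_div_iff₀ hp0]
      linarith
  refine ⟨hper, ?_⟩
  ext m
  refine hper.qExp_unique hpN
    (fun m => (PowerSeries.rescale (cexp (2 * π * Complex.I * b / (p * N))) (qExpansion N f)).coeff m)
    (fun τ => ?_) m
  have hs := hf.hasSum hN (φ τ)
  have hq : Periodic.qParam N (φ τ) =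
      cexp (2 * π * Complex.I * b / (p * N)) * Periodic.qParam (p * N) τ := by
    rw [Periodic.qParam, Periodic.qParam, ← Complex.exp_add, hφ τ]
    congr 1
    have hN' : (N : ℂ) ≠ 0 := by exact_mod_cast hN.ne'
    push_cast
    field_simp
    ring
  simp only [Function.comp_apply]
  convert hs using 2 with j
  rw [PowerSeries.coeff_rescale, hq, mul_pow, smul_eq_mul, smul_eq_mul]
  ring


/-- The `q`-expansion of a level one form in the variable `t = q^{1/n}`. -/
theorem e16_qExp_levelOne {k : ℤ} (F : ModularForm 𝒮ℒ k) (n : ℕ) (hn : n ≠ 0) :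
    qExpansion (n : ℝ) F = PowerSeries.expand n hn (qExpansion 1 F) := by
  have h1 : E16Per 1 (F : ℍ → ℂ) := E16Per.of_modularForm F one_pos one_mem_strictPeriods_SL
  have := e16_qExp_expand one_pos n hn h1
  rwa [mul_one] at this

/-- **Norm to level one, in `q^{1/n}`-expansions.**  For a form `f` on a finite index subgroup
`𝒢`, whose `SL₂(ℤ)`-translates are all `n`-periodic, the `q`-expansion of `ModularForm.norm 𝒮ℒ f`
read in `t = q^{1/n}` is the product of the `t`-expansions of the translates. -/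
theorem e16_norm_qExp {𝒢 : Subgroup (GL (Fin 2) ℝ)} [𝒢.IsFiniteRelIndex 𝒮ℒ] {k : ℤ}
    {F : Type*} [FunLike F ℍ ℂ] [ModularFormClass F 𝒢 k] (φ : F) (n : ℕ) (hn : n ≠ 0)
    {ι : Type*} [Fintype ι] (e : ι ≃ (𝒮ℒ ⧸ 𝒢.subgroupOf 𝒮ℒ))
    (hper : ∀ i, E16Per n (SlashInvariantForm.quotientFunc φ (e i))) :
    PowerSeries.expand n hn (qExpansion 1 (ModularForm.norm 𝒮ℒ φ)) =
      ∏ i, qExpansion n (SlashInvariantForm.quotientFunc φ (e i)) := by
  have hn0 : (0 : ℝ) < n := by exact_mod_cast Nat.pos_of_ne_zero hn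
  rw [← e16_qExp_levelOne _ n hn, ← e16_qExp_prod hn0 Finset.univ _ fun i _ => hper i]
  congr 1
  rw [ModularForm.coe_norm]
  let := Fintype.ofFinite (𝒮ℒ ⧸ 𝒢.subgroupOf 𝒮ℒ)
  exact (Fintype.prod_equiv e _ _ fun i => rfl).symm


open ConjAct Pointwise in
/-- The `SL₂(ℤ)`-translates of a form on `𝒢` are `n`-periodic as soon as `𝒢` contains the
`SL₂(ℤ)`-conjugates of `T^n`. -/
theorem e16_per_quotientFunc {𝒢 : Subgroup (GL (Fin 2) ℝ)} {k : ℤ}
    {F : Type*} [FunLike F ℍ ℂ] [ModularFormClass F 𝒢 k] (φ : F) (n : ℕ) (hn : n ≠ 0)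
    (h𝒢 : ∀ g ∈ 𝒮ℒ, g * Matrix.GeneralLinearGroup.upperRightHom (n : ℝ) * g⁻¹ ∈ 𝒢)
    (q : 𝒮ℒ ⧸ 𝒢.subgroupOf 𝒮ℒ) : E16Per n (SlashInvariantForm.quotientFunc φ q) := by
  have hn0 : (0 : ℝ) < n := by exact_mod_cast Nat.pos_of_ne_zero hn
  induction q using Quotient.inductionOn with
  | h r =>
    rw [SlashInvariantForm.quotientFunc_mk, ← ModularForm.coe_translate]
    refine E16Per.of_modularForm (ModularForm.translate φ r.val⁻¹) hn0 ?_
    rw [Subgroup.mem_strictPeriods_iff, map_inv, 𝒢.mem_inv_pointwise_smul_iff, toConjAct_smul]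
    exact h𝒢 _ (inv_mem r.2)

/-- **Norm + Sturm contradiction.**  If the `q^{1/n}`-expansions of all `SL₂(ℤ)`-translates of
`φ` have leading terms `u_i t^{a_i}` modulo `ℓR` with `u_i` units of `R`, `ℓ` is not a unit of
`R`, and `∑ a_i > n · (weight of the norm) / 12`, we have a contradiction. -/
theorem e16_norm_contra {𝒢 : Subgroup (GL (Fin 2) ℝ)} [𝒢.IsFiniteRelIndex 𝒮ℒ] {k : ℤ}
    {F : Type*} [FunLike F ℍ ℂ] [ModularFormClass F 𝒢 k] (φ : F) (n : ℕ) (hn : n ≠ 0)
    {ι : Type*} [Fintype ι] (e : ι ≃ (𝒮ℒ ⧸ 𝒢.subgroupOf 𝒮ℒ))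
    (hper : ∀ i, E16Per n (SlashInvariantForm.quotientFunc φ (e i)))
    (R : Subring ℂ) (ℓ : ℂ) (hℓ : ∀ r ∈ R, ℓ * r ≠ 1) (a : ι → ℕ) (u : ι → ℂ)
    (hlead : ∀ i, E16Lead R ℓ (qExpansion n (SlashInvariantForm.quotientFunc φ (e i))) (a i) (u i))
    (hu : ∀ i, ∃ u' ∈ R, u i * u' = 1)
    (hbig : k * (Fintype.card ι : ℤ) * n < 12 * ((∑ i, a i : ℕ) : ℤ)) : False := by
  have hcard : Nat.card (𝒮ℒ ⧸ 𝒢.subgroupOf 𝒮ℒ) = Fintype.card ι := by
    rw [← Nat.card_eq_fintype_card]; exact Nat.card_congr e.symm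
  refine e16_norm_core' R ℓ hℓ (ModularForm.norm 𝒮ℒ φ) n hn Finset.univ _
    (e16_norm_qExp φ n hn e hper) a u (fun i _ => hlead i) (fun i _ => hu i) ?_
  rw [hcard]
  exact hbig

end Fermat.Agent.E16
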