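import Fermat.Agent.Lib.T23_Defs

/-!
# T23: the coset space `SL(2, ℤ) / Γ₀(N)` and translates of forms
-/

set_option autoImplicit false

open UpperHalfPlane ModularForm CuspForm ModularFormClass SlashInvariantForm
open scoped MatrixGroups Manifold

namespace Fermat.Agent.T23

/-- The coset space `SL(2, ℤ) / Γ₀(N)`. -/
abbrev J (N : ℕ) : Type :=
  (𝒮ℒ : Subgroup (GL (Fin 2) ℝ)) ⧸
    ((CongruenceSubgroup.Gamma0 N : Subgroup (GL (Fin 2) ℝ)).subgroupOf 𝒮ℒ)

noncomputable instance (N : ℕ) [NeZero N] : Fintype (J N) := Fintype.ofFinite _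

/-- Level one cusp form from an invariant holomorphic function vanishing at `i∞`. -/
noncomputable def mkCusp1 (F : ℍ → ℂ) (k : ℤ) (hinv : ∀ γ : SL(2, ℤ), F ∣[k] γ = F)
    (hol : MDiff F) (h0 : IsZeroAtImInfty F) : CuspForm 𝒮ℒ k where
  toFun := F
  slash_action_eq' A hA := by
    obtain ⟨A, rfl⟩ := hA
    exact hinv A
  holo' := hol
  zero_at_cusps' hc := by
    rw [OnePoint.isZeroAt_iff_forall_SL2Z hc]
    intro γ _
    rw [hinv γ]
    exact h0

@[simp] theorem mkCusp1_apply (F : ℍ → ℂ) (k : ℤ) (hinv : ∀ γ : SL(2, ℤ), F ∣[k] γ = F)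
    (hol : MDiff F) (h0 : IsZeroAtImInfty F) (z : ℍ) : mkCusp1 F k hinv hol h0 z = F z := rfl

/-- Level one modular form from an invariant holomorphic function bounded at `i∞`. -/
noncomputable def mkMod1 (F : ℍ → ℂ) (k : ℤ) (hinv : ∀ γ : SL(2, ℤ), F ∣[k] γ = F)
    (hol : MDiff F) (h0 : IsBoundedAtImInfty F) : ModularForm 𝒮ℒ k where
  toFun := F
  slash_action_eq' A hA := by
    obtain ⟨A, rfl⟩ := hA
    exact hinv A
  holo' := hol
  bdd_at_cusps' hc := by
    rw [OnePoint.isBoundedAt_iff_forall_SL2Z hc]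
    intro γ _
    rw [hinv γ]
    exact h0

@[simp] theorem mkMod1_apply (F : ℍ → ℂ) (k : ℤ) (hinv : ∀ γ : SL(2, ℤ), F ∣[k] γ = F)
    (hol : MDiff F) (h0 : IsBoundedAtImInfty F) (z : ℍ) : mkMod1 F k hinv hol h0 z = F z := rfl

variable {N : ℕ} [NeZero N] {k : ℤ}

theorem qf_mdiff (f : ModularForm (CongruenceSubgroup.Gamma0 N) k) (q : J N) :
    MDiff (quotientFunc f q) := by
  induction q using Quotient.inductionOn with
  | h r => exact (ModularForm.translate f r.val⁻¹).holo'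

theorem qf_bdd (f : ModularForm (CongruenceSubgroup.Gamma0 N) k) (q : J N) :
    IsBoundedAtImInfty (quotientFunc f q) := by
  induction q using Quotient.inductionOn with
  | h r =>
    obtain ⟨r, hr⟩ := r
    have hc : IsCusp ((r⁻¹ : GL (Fin 2) ℝ) • (OnePoint.infty : OnePoint ℝ))
        (CongruenceSubgroup.Gamma0 N : Subgroup (GL (Fin 2) ℝ)) := by
      rw [Subgroup.IsArithmetic.isCusp_iff_isCusp_SL2Z]
      obtain ⟨γ, rfl⟩ := hr
      rw [isCusp_SL2Z_iff']
      exact ⟨γ⁻¹, by simp⟩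
    exact f.bdd_at_cusps' hc r⁻¹ rfl

theorem qf_zero (f : CuspForm (CongruenceSubgroup.Gamma0 N) k) (q : J N) :
    IsZeroAtImInfty (quotientFunc f q) := by
  induction q using Quotient.inductionOn with
  | h r =>
    obtain ⟨r, hr⟩ := r
    have hc : IsCusp ((r⁻¹ : GL (Fin 2) ℝ) • (OnePoint.infty : OnePoint ℝ))
        (CongruenceSubgroup.Gamma0 N : Subgroup (GL (Fin 2) ℝ)) := by
      rw [Subgroup.IsArithmetic.isCusp_iff_isCusp_SL2Z]
      obtain ⟨γ, rfl⟩ := hr
      rw [isCusp_SL2Z_iff']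
      exact ⟨γ⁻¹, by simp⟩
    exact f.zero_at_cusps' hc r⁻¹ rfl

end Fermat.Agent.T23

namespace Fermat.Agent.T23

open Matrix.SpecialLinearGroup

variable {N : ℕ} [NeZero N] {k : ℤ}

/-- The element of `𝒮ℒ` attached to `γ : SL(2, ℤ)`. -/
def toSL (γ : SL(2, ℤ)) : (𝒮ℒ : Subgroup (GL (Fin 2) ℝ)) := ⟨mapGL ℝ γ, ⟨γ, rfl⟩⟩

theorem qf_slash {F : Type*} [FunLike F ℍ ℂ]
    [SlashInvariantFormClass F (CongruenceSubgroup.Gamma0 N : Subgroup (GL (Fin 2) ℝ)) k]
    (f : F) (γ : SL(2, ℤ)) (q : J N) :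
    quotientFunc f q ∣[k] γ = quotientFunc f ((toSL γ)⁻¹ • q) := by
  rw [ModularForm.SL_slash]
  exact quotientFunc_smul f (toSL γ).2 q

theorem sum_powersetCard_map {α M : Type*} [Fintype α] [DecidableEq α] [AddCommMonoid M]
    (e : α ≃ α) (n : ℕ) (G : Finset α → M) :
    ∑ t ∈ Finset.powersetCard n (Finset.univ : Finset α), G (t.map e.toEmbedding) =
      ∑ t ∈ Finset.powersetCard n (Finset.univ : Finset α), G t := by
  refine Finset.sum_nbij' (fun t => t.map e.toEmbedding) (fun t => t.map e.symm.toEmbedding)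
    ?_ ?_ ?_ ?_ ?_
  · intro t ht
    rw [Finset.mem_powersetCard] at ht ⊢
    exact ⟨Finset.subset_univ _, by rw [Finset.card_map]; exact ht.2⟩
  · intro t ht
    rw [Finset.mem_powersetCard] at ht ⊢
    exact ⟨Finset.subset_univ _, by rw [Finset.card_map]; exact ht.2⟩
  · intro t _
    ext x
    simp
  · intro t _
    ext x
    simp
  · intro t _
    rfl

theorem qf_one_coset {F : Type*} [FunLike F ℍ ℂ]
    [SlashInvariantFormClass F (CongruenceSubgroup.Gamma0 N : Subgroup (GL (Fin 2) ℝ)) k]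
    (f : F) : quotientFunc f (⟦1⟧ : J N) = ⇑f := by
  rw [quotientFunc_mk]
  simp

end Fermat.Agent.T23
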