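import Mathlib
import Fermat.Agent.Lib.T23_Coset

/-!
# S16: the trace from `Γ₀(p)` to `SL(2, ℤ)` in terms of `U_p` and the Fricke involution

Coset representatives `1, S T^b (b < p)` of `Γ₀(p)` in `SL(2, ℤ)`; the trace of a form `f` of
weight `k` on `Γ₀(p)` is `f + p^(2-k) U_p (f|W)`, `W = !![0, -1; p, 0]`.
-/

set_option autoImplicit false

open UpperHalfPlane ModularForm CuspForm ModularFormClass SlashInvariantForm
open scoped MatrixGroups Manifold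

namespace Fermat.Agent.E16
open Fermat.Agent.T23 Matrix.SpecialLinearGroup

/-- The matrix `S T^b = !![0, -1; 1, b]`. -/
def e16ST (b : ℤ) : SL(2, ℤ) := ⟨!![0, -1; 1, b], by simp [Matrix.det_fin_two]⟩

variable (p : ℕ) [NeZero p] {k : ℤ}

theorem e16_mem_sub_iff (ρ : SL(2, ℤ)) :
    toSL ρ ∈ ((CongruenceSubgroup.Gamma0 p : Subgroup (GL (Fin 2) ℝ)).subgroupOf 𝒮ℒ) ↔
      (p : ℤ) ∣ ρ 1 0 := by
  rw [Subgroup.mem_subgroupOf]
  show mapGL ℝ ρ ∈ Subgroup.map (mapGL ℝ) (CongruenceSubgroup.Gamma0 p) ↔ _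
  rw [Subgroup.mem_map_iff_mem mapGL_injective, CongruenceSubgroup.Gamma0_mem,
    ZMod.intCast_zmod_eq_zero_iff_dvd]

theorem e16_toSL_mul (a b : SL(2, ℤ)) : toSL (a * b) = toSL a * toSL b := by
  apply Subtype.ext
  simp [toSL]

theorem e16_toSL_inv (a : SL(2, ℤ)) : toSL a⁻¹ = (toSL a)⁻¹ := by
  apply Subtype.ext
  simp [toSL]

theorem e16_toSL_surj (r : (𝒮ℒ : Subgroup (GL (Fin 2) ℝ))) : ∃ ρ : SL(2, ℤ), toSL ρ = r := by
  obtain ⟨ρ, hρ⟩ := r.2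
  exact ⟨ρ, Subtype.ext hρ⟩

/-- The coset representatives of `Γ₀(p)` in `SL(2, ℤ)`. -/
noncomputable def e16Rep : Option (Fin p) → J p
  | none => ⟦1⟧
  | some b => ⟦toSL (e16ST (b : ℕ))⁻¹⟧

theorem e16_mk_eq_iff (ρ ρ' : SL(2, ℤ)) :
    (⟦toSL ρ⟧ : J p) = ⟦toSL ρ'⟧ ↔ (p : ℤ) ∣ (ρ⁻¹ * ρ') 1 0 := by
  rw [← e16_mem_sub_iff, e16_toSL_mul, e16_toSL_inv]
  constructor
  · intro h
    exact QuotientGroup.leftRel_apply.mp (Quotient.exact h)
  · intro h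
    exact Quotient.sound (QuotientGroup.leftRel_apply.mpr h)

theorem e16ST_inv_apply (b : ℤ) : ((e16ST b)⁻¹ : SL(2, ℤ)).1 = !![b, 1; -1, 0] := by
  rw [Matrix.SpecialLinearGroup.coe_inv, e16ST]
  simp [Matrix.adjugate_fin_two]

theorem e16_one_ne (hp : 1 < p) (b : ℤ) : (⟦1⟧ : J p) ≠ ⟦toSL (e16ST b)⁻¹⟧ := by
  have h1 : (1 : (𝒮ℒ : Subgroup (GL (Fin 2) ℝ))) = toSL 1 := by
    apply Subtype.ext; simp [toSL]
  rw [h1, Ne, e16_mk_eq_iff, inv_one, one_mul]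
  have h2 : ((e16ST b)⁻¹ : SL(2, ℤ)) 1 0 = -1 := by
    show ((e16ST b)⁻¹ : SL(2, ℤ)).1 1 0 = -1
    rw [e16ST_inv_apply]; rfl
  rw [h2]
  intro h
  have := Int.le_of_dvd (by norm_num) ((dvd_neg).mp h)
  omega

theorem e16_ST_eq_iff (i j : ℤ) :
    (⟦toSL (e16ST i)⁻¹⟧ : J p) = ⟦toSL (e16ST j)⁻¹⟧ ↔ (p : ℤ) ∣ j - i := by
  rw [e16_mk_eq_iff, inv_inv]
  have h2 : (e16ST i * (e16ST j)⁻¹ : SL(2, ℤ)) 1 0 = j - i := by
    show (e16ST i * (e16ST j)⁻¹ : SL(2, ℤ)).1 1 0 = j - i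
    rw [Matrix.SpecialLinearGroup.coe_mul, e16ST_inv_apply, e16ST]
    simp [Matrix.mul_apply, Fin.sum_univ_two]
    ring
  rw [h2]

theorem e16Rep_injective [Fact p.Prime] : Function.Injective (e16Rep p) := by
  have hp : 1 < p := (Fact.out : p.Prime).one_lt
  intro a b hab
  rcases a with _ | a <;> rcases b with _ | b
  · rfl
  · exact absurd hab (e16_one_ne p hp _)
  · exact absurd hab.symm (e16_one_ne p hp _)
  · have h := (e16_ST_eq_iff p _ _).mp hab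
    have h1 : (a : ℕ) ≡ (b : ℕ) [MOD p] := Nat.modEq_iff_dvd.mpr h
    have h2 := Nat.ModEq.eq_of_lt_of_lt h1 a.2 b.2
    rw [Fin.ext h2]

theorem e16Rep_surjective [Fact p.Prime] : Function.Surjective (e16Rep p) := by
  have hp : p.Prime := Fact.out
  intro q
  induction q using Quotient.inductionOn with
  | h r =>
    obtain ⟨ρ, rfl⟩ := e16_toSL_surj r
    by_cases hc : (p : ℤ) ∣ ρ 1 0
    · refine ⟨none, ?_⟩
      have h1 : (1 : (𝒮ℒ : Subgroup (GL (Fin 2) ℝ))) = toSL 1 := by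
        apply Subtype.ext; simp [toSL]
      show (⟦1⟧ : J p) = ⟦toSL ρ⟧
      rw [h1, e16_mk_eq_iff, inv_one, one_mul]
      exact hc
    · -- choose `j` with `p ∣ ρ 0 0 + j * ρ 1 0`
      have hc' : ((ρ 1 0 : ℤ) : ZMod p) ≠ 0 := by
        rwa [Ne, ZMod.intCast_zmod_eq_zero_iff_dvd]
      set j : ZMod p := -((ρ 0 0 : ℤ) : ZMod p) * ((ρ 1 0 : ℤ) : ZMod p)⁻¹ with hj
      have hjlt : j.val < p := ZMod.val_lt j
      refine ⟨some ⟨j.val, hjlt⟩, ?_⟩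
      show (⟦toSL (e16ST (j.val : ℕ))⁻¹⟧ : J p) = ⟦toSL ρ⟧
      rw [e16_mk_eq_iff, inv_inv]
      have h2 : (e16ST (j.val : ℕ) * ρ : SL(2, ℤ)) 1 0 = ρ 0 0 + (j.val : ℤ) * ρ 1 0 := by
        show (e16ST (j.val : ℕ) * ρ : SL(2, ℤ)).1 1 0 = _
        rw [Matrix.SpecialLinearGroup.coe_mul, e16ST]
        simp [Matrix.mul_apply, Fin.sum_univ_two]
      rw [h2, ← ZMod.intCast_zmod_eq_zero_iff_dvd]
      push_cast
      rw [ZMod.natCast_zmod_val, hj]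
      field_simp
      ring

theorem e16_qf_ST {F : Type*} [FunLike F ℍ ℂ]
    [SlashInvariantFormClass F (CongruenceSubgroup.Gamma0 p : Subgroup (GL (Fin 2) ℝ)) k]
    (f : F) (b : ℤ) :
    quotientFunc f (⟦toSL (e16ST b)⁻¹⟧ : J p) = ⇑f ∣[k] e16ST b := by
  rw [quotientFunc_mk, ModularForm.SL_slash]
  have h : ((toSL (e16ST b)⁻¹ : (𝒮ℒ : Subgroup (GL (Fin 2) ℝ))) : GL (Fin 2) ℝ)⁻¹ =
      toGL ((map (Int.castRingHom ℝ)) (e16ST b)) := by
    show (mapGL ℝ (e16ST b)⁻¹)⁻¹ = mapGL ℝ (e16ST b)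
    rw [map_inv, inv_inv]
  rw [h]

theorem e16Rep_bijective [Fact p.Prime] : Function.Bijective (e16Rep p) :=
  ⟨e16Rep_injective p, e16Rep_surjective p⟩

theorem e16_sum_J [Fact p.Prime] {F : Type*} [FunLike F ℍ ℂ]
    [SlashInvariantFormClass F (CongruenceSubgroup.Gamma0 p : Subgroup (GL (Fin 2) ℝ)) k]
    (f : F) :
    ∑ q : J p, quotientFunc f q = ⇑f + ∑ b : Fin p, (⇑f) ∣[k] e16ST (b : ℕ) := by
  rw [← Function.Bijective.sum_comp (e16Rep_bijective p) (fun q => quotientFunc f q),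
    Fintype.sum_option]
  congr 1
  · exact qf_one_coset f
  · exact Finset.sum_congr rfl fun b _ => e16_qf_ST p f _

theorem e16_prod_J [Fact p.Prime] {F : Type*} [FunLike F ℍ ℂ]
    [SlashInvariantFormClass F (CongruenceSubgroup.Gamma0 p : Subgroup (GL (Fin 2) ℝ)) k]
    (f : F) :
    ∏ q : J p, quotientFunc f q = ⇑f * ∏ b : Fin p, (⇑f) ∣[k] e16ST (b : ℕ) := by
  rw [← Function.Bijective.prod_comp (e16Rep_bijective p) (fun q => quotientFunc f q),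
    Fintype.prod_option]
  congr 1
  · exact qf_one_coset f
  · exact Finset.prod_congr rfl fun b _ => e16_qf_ST p f _

theorem e16_card_J [Fact p.Prime] : Nat.card (J p) = p + 1 := by
  rw [← Nat.card_congr (Equiv.ofBijective _ (e16Rep_bijective p))]
  simp

theorem e16_trace_coe [Fact p.Prime] (f : ModularForm (CongruenceSubgroup.Gamma0 p) k) :
    ⇑(ModularForm.trace 𝒮ℒ f) = ⇑f + ∑ b : Fin p, (⇑f) ∣[k] e16ST (b : ℕ) := by
  rw [ModularForm.coe_trace]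
  exact e16_sum_J p f

theorem e16_trace_cusp_coe [Fact p.Prime] (f : CuspForm (CongruenceSubgroup.Gamma0 p) k) :
    ⇑(CuspForm.trace 𝒮ℒ f) = ⇑f + ∑ b : Fin p, (⇑f) ∣[k] e16ST (b : ℕ) := by
  rw [CuspForm.coe_trace]
  exact e16_sum_J p f

/-- The Fricke matrix `!![0, -1; p, 0]`. -/
noncomputable def e16W : GL (Fin 2) ℝ :=
  Matrix.GeneralLinearGroup.mkOfDetNeZero !![0, -1; (p : ℝ), 0]
    (by simp [Matrix.det_fin_two, NeZero.ne p])

/-- The scalar matrix `p`. -/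
noncomputable def e16Sc : GL (Fin 2) ℝ :=
  Matrix.GeneralLinearGroup.mkOfDetNeZero !![(p : ℝ), 0; 0, (p : ℝ)]
    (by simp [Matrix.det_fin_two, NeZero.ne p])

@[simp] theorem val_e16W : ((e16W p : GL (Fin 2) ℝ) : Matrix (Fin 2) (Fin 2) ℝ) =
    !![0, -1; (p : ℝ), 0] := rfl

@[simp] theorem val_e16Sc : ((e16Sc p : GL (Fin 2) ℝ) : Matrix (Fin 2) (Fin 2) ℝ) =
    !![(p : ℝ), 0; 0, (p : ℝ)] := rfl

theorem val_mapGL_e16ST (b : ℤ) :
    ((mapGL ℝ (e16ST b) : GL (Fin 2) ℝ) : Matrix (Fin 2) (Fin 2) ℝ) = !![0, -1; 1, (b : ℝ)] := by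
  rw [mapGL_coe_matrix]
  ext i j
  show ((e16ST b).1.map (algebraMap ℤ ℝ)) i j = _
  fin_cases i <;> fin_cases j <;> simp [e16ST, Matrix.map_apply]

theorem e16W_mul_heckeMatrix (b : ℕ) :
    e16W p * heckeMatrix p b = e16Sc p * mapGL ℝ (e16ST b) := by
  apply Matrix.GeneralLinearGroup.ext
  intro i j
  simp only [Matrix.GeneralLinearGroup.coe_mul, val_heckeMatrix (NeZero.ne p), val_e16W, val_e16Sc,
    val_mapGL_e16ST]
  fin_cases i <;> fin_cases j <;> simp [Matrix.mul_apply, Fin.sum_univ_two]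

theorem det_e16Sc : ((e16Sc p).det : ℝ) = (p : ℝ) ^ 2 := by
  rw [Matrix.GeneralLinearGroup.val_det_apply, val_e16Sc, Matrix.det_fin_two_of]
  ring

theorem det_e16Sc_pos : 0 < ((e16Sc p).det : ℝ) := by
  rw [det_e16Sc]
  have : (0 : ℝ) < p := by exact_mod_cast Nat.pos_of_ne_zero (NeZero.ne p)
  positivity

theorem σ_e16Sc : UpperHalfPlane.σ (e16Sc p) = .refl ℝ ℂ := by
  rw [UpperHalfPlane.σ, if_pos (det_e16Sc_pos p)]

theorem denom_e16Sc (τ : ℍ) : UpperHalfPlane.denom (e16Sc p) τ = p := by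
  simp [UpperHalfPlane.denom]

theorem e16Sc_smul (τ : ℍ) : e16Sc p • τ = τ := by
  apply UpperHalfPlane.ext
  have hp : (p : ℂ) ≠ 0 := by exact_mod_cast NeZero.ne p
  rw [UpperHalfPlane.coe_smul_of_det_pos (det_e16Sc_pos p)]
  simp [UpperHalfPlane.num, UpperHalfPlane.denom]
  field_simp

theorem e16_slash_Sc (f : ℍ → ℂ) : f ∣[k] e16Sc p = (p : ℂ) ^ (k - 2) • f := by
  have hp : (p : ℂ) ≠ 0 := by exact_mod_cast NeZero.ne p
  ext τ
  rw [ModularForm.slash_apply, σ_e16Sc, det_e16Sc, denom_e16Sc, e16Sc_smul]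
  simp only [ContinuousAlgEquiv.refl_apply, Pi.smul_apply, smul_eq_mul]
  have h1 : ((|(p : ℝ) ^ 2| : ℝ) : ℂ) = (p : ℂ) ^ (2 : ℤ) := by
    rw [abs_of_nonneg (by positivity)]
    push_cast
    norm_cast
  rw [h1, ← zpow_mul, mul_assoc, ← zpow_add₀ hp, mul_comm]
  congr 2
  ring

theorem e16_slash_W_heckeMatrix (f : ℍ → ℂ) (b : ℕ) :
    (f ∣[k] e16W p) ∣[k] heckeMatrix p b = (p : ℂ) ^ (k - 2) • f ∣[k] e16ST (b : ℕ) := by
  rw [← SlashAction.slash_mul, e16W_mul_heckeMatrix, SlashAction.slash_mul, e16_slash_Sc]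
  exact ModularForm.SL_smul_slash k (e16ST (b : ℕ)) f ((p : ℂ) ^ (k - 2))

theorem e16_heckeU_slash_W (f : ℍ → ℂ) :
    heckeU k p (f ∣[k] e16W p) =
      (p : ℂ) ^ (k - 2) • ∑ b ∈ Finset.range p, f ∣[k] e16ST (b : ℕ) := by
  rw [heckeU_def, Finset.smul_sum]
  exact Finset.sum_congr rfl fun b _ => e16_slash_W_heckeMatrix p f b

theorem e16_sum_ST_eq (f : ℍ → ℂ) :
    ∑ b ∈ Finset.range p, f ∣[k] e16ST (b : ℕ) =
      (p : ℂ) ^ (2 - k) • heckeU k p (f ∣[k] e16W p) := by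
  have hp : (p : ℂ) ≠ 0 := by exact_mod_cast NeZero.ne p
  rw [e16_heckeU_slash_W, smul_smul, ← zpow_add₀ hp]
  simp

/-- The trace to level one of a form on `Γ₀(p)`, in terms of `U_p` and the Fricke matrix. -/
theorem e16_trace_eq [Fact p.Prime] (f : ModularForm (CongruenceSubgroup.Gamma0 p) k) :
    ⇑(ModularForm.trace 𝒮ℒ f) = ⇑f + (p : ℂ) ^ (2 - k) • heckeU k p (⇑f ∣[k] e16W p) := by
  rw [e16_trace_coe, ← e16_sum_ST_eq, Fin.sum_univ_eq_sum_range (fun b => ⇑f ∣[k] e16ST (b : ℕ)) p]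

theorem e16_trace_cusp_eq [Fact p.Prime] (f : CuspForm (CongruenceSubgroup.Gamma0 p) k) :
    ⇑(CuspForm.trace 𝒮ℒ f) = ⇑f + (p : ℂ) ^ (2 - k) • heckeU k p (⇑f ∣[k] e16W p) := by
  rw [e16_trace_cusp_coe, ← e16_sum_ST_eq,
    Fin.sum_univ_eq_sum_range (fun b => ⇑f ∣[k] e16ST (b : ℕ)) p]

/-! ## The Fricke involution on forms of level `Γ₀(p)` -/

/-- The conjugate `W γ W⁻¹` of `γ ∈ Γ₀(p)`. -/
def e16Conj (γ : SL(2, ℤ)) (c : ℤ) (hc : γ 1 0 = p * c) : SL(2, ℤ) :=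
  ⟨!![γ 1 1, -c; -p * γ 0 1, γ 0 0], by
    have h := γ.det_coe
    rw [Matrix.det_fin_two] at h
    rw [Matrix.det_fin_two_of]
    have h1 : (γ : Matrix (Fin 2) (Fin 2) ℤ) 1 0 = p * c := hc
    rw [h1] at h
    linear_combination h⟩

theorem e16Conj_mem (γ : SL(2, ℤ)) (c : ℤ) (hc : γ 1 0 = p * c) :
    e16Conj p γ c hc ∈ CongruenceSubgroup.Gamma0 p := by
  rw [CongruenceSubgroup.Gamma0_mem, ZMod.intCast_zmod_eq_zero_iff_dvd]
  show (p : ℤ) ∣ (e16Conj p γ c hc).1 1 0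
  simp [e16Conj]

theorem e16W_mul_mapGL (γ : SL(2, ℤ)) (c : ℤ) (hc : γ 1 0 = p * c) :
    e16W p * mapGL ℝ γ = mapGL ℝ (e16Conj p γ c hc) * e16W p := by
  apply Matrix.GeneralLinearGroup.ext
  intro i j
  simp only [Matrix.GeneralLinearGroup.coe_mul, val_e16W, mapGL_coe_matrix]
  have hc' : ((γ.1 1 0 : ℤ) : ℝ) = p * c := by
    have : γ.1 1 0 = p * c := hc
    rw [this]; push_cast; ring
  show (!![0, -1; (p : ℝ), 0] * (γ.1.map (algebraMap ℤ ℝ))) i j =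
    (((e16Conj p γ c hc).1.map (algebraMap ℤ ℝ)) * !![0, -1; (p : ℝ), 0]) i j
  fin_cases i <;> fin_cases j <;>
    simp [e16Conj, Matrix.mul_apply, Fin.sum_univ_two, Matrix.map_apply, hc'] <;> ring

theorem e16_slash_W_invariant {F : Type*} [FunLike F ℍ ℂ]
    [SlashInvariantFormClass F (CongruenceSubgroup.Gamma0 p : Subgroup (GL (Fin 2) ℝ)) k]
    (f : F) (g : GL (Fin 2) ℝ)
    (hg : g ∈ (CongruenceSubgroup.Gamma0 p : Subgroup (GL (Fin 2) ℝ))) :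
    (⇑f ∣[k] e16W p) ∣[k] g = ⇑f ∣[k] e16W p := by
  obtain ⟨γ, hγ, rfl⟩ := hg
  have hγ' : γ ∈ CongruenceSubgroup.Gamma0 p := hγ
  obtain ⟨c, hc⟩ : ∃ c : ℤ, γ 1 0 = p * c := by
    rw [CongruenceSubgroup.Gamma0_mem, ZMod.intCast_zmod_eq_zero_iff_dvd] at hγ'
    exact hγ'
  have h := SlashInvariantFormClass.slash_action_eq f (mapGL ℝ (e16Conj p γ c hc))
    (Subgroup.mem_map_of_mem _ (e16Conj_mem p γ c hc))
  rw [← SlashAction.slash_mul, e16W_mul_mapGL p γ c hc, SlashAction.slash_mul, h]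

open scoped Pointwise in
theorem e16_conj_le :
    ConjAct.toConjAct (e16W p) • (CongruenceSubgroup.Gamma0 p : Subgroup (GL (Fin 2) ℝ)) ≤
      (CongruenceSubgroup.Gamma0 p : Subgroup (GL (Fin 2) ℝ)) := by
  intro x hx
  obtain ⟨y, hy, rfl⟩ := (Subgroup.mem_smul_pointwise_iff_exists _ _ _).mp hx
  obtain ⟨γ, hγ, rfl⟩ := hy
  have hγ' : γ ∈ CongruenceSubgroup.Gamma0 p := hγ
  obtain ⟨c, hc⟩ : ∃ c : ℤ, γ 1 0 = p * c := by
    rw [CongruenceSubgroup.Gamma0_mem, ZMod.intCast_zmod_eq_zero_iff_dvd] at hγ'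
    exact hγ'
  rw [ConjAct.toConjAct_smul, e16W_mul_mapGL p γ c hc, mul_inv_cancel_right]
  exact Subgroup.mem_map_of_mem _ (e16Conj_mem p γ c hc)

theorem e16_isCusp_W {c : OnePoint ℝ}
    (hc : IsCusp c (CongruenceSubgroup.Gamma0 p : Subgroup (GL (Fin 2) ℝ))) :
    IsCusp (e16W p • c) (CongruenceSubgroup.Gamma0 p : Subgroup (GL (Fin 2) ℝ)) :=
  (hc.smul (e16W p)).mono (e16_conj_le p)

/-- The Fricke involution on modular forms of level `Γ₀(p)`. -/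
noncomputable def e16WMod (f : ModularForm (CongruenceSubgroup.Gamma0 p) k) :
    ModularForm (CongruenceSubgroup.Gamma0 p) k where
  toFun := ⇑f ∣[k] e16W p
  slash_action_eq' g hg := e16_slash_W_invariant p f g hg
  holo' := (ModularFormClass.holo f).slash k (e16W p)
  bdd_at_cusps' hc := OnePoint.IsBoundedAt.smul_iff.mp (f.bdd_at_cusps' (e16_isCusp_W p hc))

@[simp] theorem e16WMod_coe (f : ModularForm (CongruenceSubgroup.Gamma0 p) k) :
    ⇑(e16WMod p f) = ⇑f ∣[k] e16W p := rfl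

/-- The Fricke involution on cusp forms of level `Γ₀(p)`. -/
noncomputable def e16WCusp (f : CuspForm (CongruenceSubgroup.Gamma0 p) k) :
    CuspForm (CongruenceSubgroup.Gamma0 p) k where
  toFun := ⇑f ∣[k] e16W p
  slash_action_eq' g hg := e16_slash_W_invariant p f g hg
  holo' := (CuspFormClass.holo f).slash k (e16W p)
  zero_at_cusps' hc := OnePoint.IsZeroAt.smul_iff.mp (f.zero_at_cusps' (e16_isCusp_W p hc))

@[simp] theorem e16WCusp_coe (f : CuspForm (CongruenceSubgroup.Gamma0 p) k) :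
    ⇑(e16WCusp p f) = ⇑f ∣[k] e16W p := rfl


/-! ## The square of the Fricke matrix, weight two -/

theorem val_e16W_sq : ((e16W p * e16W p : GL (Fin 2) ℝ) : Matrix (Fin 2) (Fin 2) ℝ) =
    !![-(p : ℝ), 0; 0, -(p : ℝ)] := by
  rw [Matrix.GeneralLinearGroup.coe_mul, val_e16W]
  ext i j
  fin_cases i <;> fin_cases j <;> simp [Matrix.mul_apply, Fin.sum_univ_two]

theorem det_e16W_sq : ((e16W p * e16W p).det : ℝ) = (p : ℝ) ^ 2 := by
  rw [Matrix.GeneralLinearGroup.val_det_apply, val_e16W_sq, Matrix.det_fin_two_of]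
  ring

theorem det_e16W_sq_pos : 0 < ((e16W p * e16W p).det : ℝ) := by
  rw [det_e16W_sq]
  have : (0 : ℝ) < p := by exact_mod_cast Nat.pos_of_ne_zero (NeZero.ne p)
  positivity

theorem e16_slash_W_W (f : ℍ → ℂ) :
    (f ∣[k] e16W p) ∣[k] e16W p = ((-1 : ℂ) ^ k * (p : ℂ) ^ (k - 2)) • f := by
  have hp : (p : ℂ) ≠ 0 := by exact_mod_cast NeZero.ne p
  rw [← SlashAction.slash_mul]
  ext τ
  have hσ : UpperHalfPlane.σ (e16W p * e16W p) = .refl ℝ ℂ := by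
    rw [UpperHalfPlane.σ, if_pos (det_e16W_sq_pos p)]
  have hden : UpperHalfPlane.denom (e16W p * e16W p) τ = -(p : ℂ) := by
    simp [UpperHalfPlane.denom, val_e16W_sq]
  have hsmul : (e16W p * e16W p) • τ = τ := by
    apply UpperHalfPlane.ext
    rw [UpperHalfPlane.coe_smul_of_det_pos (det_e16W_sq_pos p)]
    simp [UpperHalfPlane.num, UpperHalfPlane.denom, val_e16W_sq]
    field_simp
  rw [ModularForm.slash_apply, hσ, det_e16W_sq, hden, hsmul]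
  simp only [ContinuousAlgEquiv.refl_apply, Pi.smul_apply, smul_eq_mul]
  have h1 : ((|(p : ℝ) ^ 2| : ℝ) : ℂ) = (p : ℂ) ^ (2 : ℤ) := by
    rw [abs_of_nonneg (by positivity)]
    push_cast
    norm_cast
  have h2 : (-(p : ℂ)) ^ (-k) = (-1 : ℂ) ^ k * (p : ℂ) ^ (-k) := by
    rw [neg_eq_neg_one_mul, mul_zpow]
    congr 1
    rw [zpow_neg, ← inv_zpow]
    norm_num
  rw [h1, h2, ← zpow_mul]
  have h3 : (p : ℂ) ^ (2 * (k - 1)) * (p : ℂ) ^ (-k) = (p : ℂ) ^ (k - 2) := by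
    rw [← zpow_add₀ hp]
    congr 1
    ring
  rw [← h3]
  ring

theorem e16_levelOne_two_eq_zero (g : ModularForm 𝒮ℒ 2) : g = 0 :=
  (rank_zero_iff_forall_zero.mp levelOne_weight_two_rank_zero) g

theorem e16_levelOne_cusp_four_eq_zero (g : CuspForm 𝒮ℒ 4) : g = 0 :=
  (rank_zero_iff_forall_zero.mp (CuspForm.rank_eq_zero_of_weight_lt_twelve (by norm_num))) g

/-- Weight 2: the trace to level one vanishes. -/
theorem e16_add_U_W [Fact p.Prime] (f : ModularForm (CongruenceSubgroup.Gamma0 p) 2) :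
    ⇑f + heckeU 2 p (⇑f ∣[(2 : ℤ)] e16W p) = 0 := by
  have h := e16_trace_eq p f
  rw [e16_levelOne_two_eq_zero (ModularForm.trace 𝒮ℒ f)] at h
  simpa using h.symm

/-- Weight 2: the Fricke involution is `-U_p`. -/
theorem e16_W_eq_neg_U [Fact p.Prime] (f : ModularForm (CongruenceSubgroup.Gamma0 p) 2) :
    ⇑f ∣[(2 : ℤ)] e16W p = -heckeU 2 p ⇑f := by
  have h := e16_add_U_W p (e16WMod p f)
  rw [e16WMod_coe, e16_slash_W_W] at h
  have h1 : ((-1 : ℂ) ^ (2 : ℤ) * (p : ℂ) ^ ((2 : ℤ) - 2)) = 1 := by norm_num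
  rw [h1, one_smul] at h
  exact eq_neg_of_add_eq_zero_left h

/-- Weight 2: `U_p` is an involution. -/
theorem e16_U_U [Fact p.Prime] (f : ModularForm (CongruenceSubgroup.Gamma0 p) 2) :
    heckeU 2 p (heckeU 2 p ⇑f) = ⇑f := by
  have h := e16_add_U_W p f
  rw [e16_W_eq_neg_U, heckeU_neg] at h
  exact (eq_of_sub_eq_zero (by rw [← h]; ring)).symm

/-! ## The norm and the conjugates -/

/-- The norm to level one of a form on `Γ₀(p)` is the product of its `p + 1` conjugates. -/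
theorem e16_norm_coe [Fact p.Prime] (f : ModularForm (CongruenceSubgroup.Gamma0 p) k) :
    ⇑(ModularForm.norm 𝒮ℒ f) = ⇑f * ∏ b : Fin p, (⇑f) ∣[k] e16ST (b : ℕ) := by
  rw [ModularForm.coe_norm]
  exact e16_prod_J p f

/-- The conjugates in terms of the Fricke matrix. -/
theorem e16_slash_ST (f : ℍ → ℂ) (b : ℕ) :
    f ∣[k] e16ST (b : ℕ) = (p : ℂ) ^ (2 - k) • (f ∣[k] e16W p) ∣[k] heckeMatrix p b := by
  have hp : (p : ℂ) ≠ 0 := by exact_mod_cast NeZero.ne p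
  rw [e16_slash_W_heckeMatrix, smul_smul, ← zpow_add₀ hp]
  simp

/-- Weight 2: the conjugates of `f` are `-(U_p f)((τ + b) / p) / p`. -/
theorem e16_slash_ST_two [Fact p.Prime] (f : ModularForm (CongruenceSubgroup.Gamma0 p) 2)
    (b : ℕ) :
    ⇑f ∣[(2 : ℤ)] e16ST (b : ℕ) = -(heckeU 2 p ⇑f ∣[(2 : ℤ)] heckeMatrix p b) := by
  rw [e16_slash_ST p, e16_W_eq_neg_U, SlashAction.neg_slash]
  simp

theorem e16_slash_ST_two_apply [Fact p.Prime] (f : ModularForm (CongruenceSubgroup.Gamma0 p) 2)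
    (b : ℕ) (τ : ℍ) :
    (⇑f ∣[(2 : ℤ)] e16ST (b : ℕ)) τ = -((p : ℂ)⁻¹ * heckeU 2 p ⇑f (heckeMatrix p b • τ)) := by
  rw [e16_slash_ST_two, Pi.neg_apply, slash_heckeMatrix_apply 2 (NeZero.ne p)]

end Fermat.Agent.E16
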