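/-
S16 (upper bound), helper3: the norm + Sturm contradiction at level `p` (`e16_norm_contra_p`),
`q^{1/p}`-expansions of the conjugates of weight 2 forms (`e16_qExp_ST_two`), `U_p` and
rescaling on power series, level one forms on `Γ₀(p)` (`e16Res`), slashes of powers.
-/
import Fermat.Agent.Lib.E16_Norm
import Fermat.Agent.Lib.E16_Trace
import Fermat.Prelude.Thm_ModularFormClass_qCoeff_heckeU
import Fermat.Prelude.Def_ModularForm_HeckeOperatorForms

set_option autoImplicit false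

open UpperHalfPlane ModularForm Function Complex SlashInvariantForm
open UpperHalfPlane hiding I
open scoped MatrixGroups Manifold Real

namespace Fermat.Agent.E16
open Fermat.Agent.T23 Matrix.SpecialLinearGroup

section

variable (p : ℕ) [NeZero p] {k : ℤ}

omit [NeZero p] in
/-- `SL₂(ℤ)`-conjugates of `T^p` lie in `Γ₀(p)`. -/
theorem e16_conj_T_mem (g : GL (Fin 2) ℝ) (hg : g ∈ 𝒮ℒ) :
    g * Matrix.GeneralLinearGroup.upperRightHom (p : ℝ) * g⁻¹ ∈
      (CongruenceSubgroup.Gamma0 p : Subgroup (GL (Fin 2) ℝ)) := by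
  obtain ⟨γ, rfl⟩ := hg
  have hT : Matrix.GeneralLinearGroup.upperRightHom (p : ℝ) =
      mapGL ℝ (ModularGroup.T ^ (p : ℤ)) := by
    apply Matrix.GeneralLinearGroup.ext
    intro i j
    have hval : ((mapGL ℝ (ModularGroup.T ^ (p : ℤ)) : GL (Fin 2) ℝ) : Matrix (Fin 2) (Fin 2) ℝ) =
        !![1, (p : ℝ); 0, 1] := by
      have hg := ModularGroup.coe_T_zpow (p : ℤ)
      rw [mapGL_coe_matrix]
      ext i j
      have h := congrFun (congrFun hg i) j
      rw [Matrix.SpecialLinearGroup.map_apply_coe, RingHom.mapMatrix_apply, Matrix.map_apply, h]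
      fin_cases i <;> fin_cases j <;> simp
    rw [hval]
    simp only [Matrix.GeneralLinearGroup.upperRightHom_apply]
  rw [hT, ← map_mul, ← map_inv, ← map_mul]
  show mapGL ℝ _ ∈ Subgroup.map (mapGL ℝ) (CongruenceSubgroup.Gamma0 p)
  refine Subgroup.mem_map_of_mem _ ?_
  have h1 : ModularGroup.T ^ (p : ℤ) ∈ CongruenceSubgroup.Gamma p := by
    have := CongruenceSubgroup.ModularGroup_T_pow_mem_Gamma (p : ℤ) (p : ℤ) dvd_rfl
    simpa using this
  have h2 : γ * ModularGroup.T ^ (p : ℤ) * γ⁻¹ ∈ CongruenceSubgroup.Gamma p :=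
    (CongruenceSubgroup.Gamma_normal (N := p)).conj_mem _ h1 γ
  rw [CongruenceSubgroup.Gamma_mem] at h2
  rw [CongruenceSubgroup.Gamma0_mem]
  exact h2.2.2.1

omit [NeZero p] in
/-- A form on `Γ₀(p)` is `1`-periodic. -/
theorem e16_per_self (K : ModularForm (CongruenceSubgroup.Gamma0 p) k) : E16Per 1 (K : ℍ → ℂ) :=
  E16Per.of_modularForm K one_pos (CongruenceSubgroup.one_mem_strictPeriods_Gamma0 p)

/-- All `SL₂(ℤ)`-translates of a form on `Γ₀(p)` are `p`-periodic. -/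
theorem e16_per_qf (K : ModularForm (CongruenceSubgroup.Gamma0 p) k) (q : J p) :
    E16Per p (quotientFunc K q) :=
  e16_per_quotientFunc K p (NeZero.ne p) (e16_conj_T_mem p) q

theorem e16_per_ST (K : ModularForm (CongruenceSubgroup.Gamma0 p) k) (b : ℤ) :
    E16Per p ((K : ℍ → ℂ) ∣[k] e16ST b) := by
  rw [← e16_qf_ST p K b]
  exact e16_per_qf p K _

/-- **Norm + Sturm contradiction at level `p`.**  `K` a form of weight `k` on `Γ₀(p)`; its own
`q`-expansion has leading term `u₀ q^{a₀}` mod `ℓR`, and the `q^{1/p}`-expansion of each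
conjugate `K|S T^b` has leading term `u_b t^{a_b}` mod `ℓR`; all `u` units of `R`, `ℓ` not a
unit of `R`.  If `p a₀ + ∑ a_b > p k (p+1) / 12` this is impossible. -/
theorem e16_norm_contra_p [Fact p.Prime] (K : ModularForm (CongruenceSubgroup.Gamma0 p) k)
    (R : Subring ℂ) (ℓ : ℂ) (hℓ : ∀ r ∈ R, ℓ * r ≠ 1)
    (a₀ : ℕ) (u₀ : ℂ) (a : Fin p → ℕ) (u : Fin p → ℂ)
    (h₀ : E16Lead R ℓ (qExpansion 1 K) a₀ u₀)
    (hb : ∀ b : Fin p, E16Lead R ℓ (qExpansion p ((K : ℍ → ℂ) ∣[k] e16ST (b : ℕ))) (a b) (u b))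
    (hu₀ : ∃ u' ∈ R, u₀ * u' = 1) (hu : ∀ b, ∃ u' ∈ R, u b * u' = 1)
    (hbig : k * ((p : ℤ) + 1) * p < 12 * ((p * a₀ + ∑ b, a b : ℕ) : ℤ)) : False := by
  have hp0 : p ≠ 0 := NeZero.ne p
  refine e16_norm_contra K p hp0 (Equiv.ofBijective (e16Rep p) (e16Rep_bijective p))
    (fun i => e16_per_qf p K _) R ℓ hℓ (fun i => Option.elim i (p * a₀) a)
    (fun i => Option.elim i u₀ u) ?_ ?_ ?_
  · rintro (_ | b)
    · show E16Lead R ℓ (qExpansion p (quotientFunc K (⟦1⟧ : J p))) (p * a₀) u₀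
      rw [qf_one_coset]
      have h1 := e16_qExp_expand one_pos p hp0 (e16_per_self p K)
      rw [mul_one] at h1
      rw [h1]
      exact h₀.expand p hp0
    · show E16Lead R ℓ (qExpansion p (quotientFunc K (⟦toSL (e16ST (b : ℕ))⁻¹⟧ : J p))) (a b) (u b)
      rw [e16_qf_ST]
      exact hb b
  · rintro (_ | b)
    · exact hu₀
    · exact hu b
  · rw [Fintype.card_option, Fintype.card_fin, Fintype.sum_option]
    simp only [Option.elim]
    push_cast at hbig ⊢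
    linarith


end

/-! ### `U_p` on power series, rescaling -/

/-- `Σ a_n q^n ↦ Σ a_{np} q^n`. -/
noncomputable def e16cU (p : ℕ) (Φ : PowerSeries ℂ) : PowerSeries ℂ :=
  PowerSeries.mk fun n => Φ.coeff (n * p)

theorem coeff_e16cU (p : ℕ) (Φ : PowerSeries ℂ) (n : ℕ) :
    (e16cU p Φ).coeff n = Φ.coeff (n * p) := by
  simp [e16cU]

theorem e16cU_one (p : ℕ) (hp : p ≠ 0) : e16cU p 1 = 1 := by
  ext n
  rw [coeff_e16cU, PowerSeries.coeff_one, PowerSeries.coeff_one]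
  by_cases hn : n = 0
  · simp [hn]
  · rw [if_neg hn, if_neg (Nat.mul_ne_zero hn hp)]

theorem E16Int.cU {R : Subring ℂ} {A : PowerSeries ℂ} (hA : E16Int R A) (p : ℕ) :
    E16Int R (e16cU p A) := fun j => by
  rw [coeff_e16cU]; exact hA _

theorem E16Cong.cU {R : Subring ℂ} {ℓ : ℂ} {A B : PowerSeries ℂ} (h : E16Cong R ℓ A B) (p : ℕ) :
    E16Cong R ℓ (e16cU p A) (e16cU p B) := fun j => by
  rw [coeff_e16cU, coeff_e16cU]; exact h _

theorem E16Int.rescale {R : Subring ℂ} {A : PowerSeries ℂ} (hA : E16Int R A) {ζ : ℂ}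
    (hζ : ζ ∈ R) : E16Int R (PowerSeries.rescale ζ A) := fun j => by
  rw [PowerSeries.coeff_rescale]; exact R.mul_mem (R.pow_mem hζ _) (hA _)

theorem E16Cong.rescale {R : Subring ℂ} {ℓ : ℂ} {A B : PowerSeries ℂ} (h : E16Cong R ℓ A B)
    {ζ : ℂ} (hζ : ζ ∈ R) :
    E16Cong R ℓ (PowerSeries.rescale ζ A) (PowerSeries.rescale ζ B) := fun j => by
  rw [PowerSeries.coeff_rescale, PowerSeries.coeff_rescale, ← mul_sub]
  exact e16lR_mul_left (R.pow_mem hζ _) (h _)

/-- The `q`-expansion of `U_p g`. -/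
theorem e16_qExp_heckeU_cU (p : ℕ) [NeZero p] {k : ℤ}
    (g : ModularForm (CongruenceSubgroup.Gamma0 p) k) :
    qExpansion 1 (heckeU k p ⇑g) = e16cU p (qExpansion 1 g) := by
  ext n
  rw [coeff_e16cU]
  exact ModularFormClass.qCoeff_heckeU g (CongruenceSubgroup.one_mem_strictPeriods_Gamma0 p)
    (NeZero.ne p) n

/-- The `q^{1/p}`-expansion of the conjugate `g|S T^b` of a weight 2 form on `Γ₀(p)`:
`-(1/p) Σ a_{np}(g) ζ^{bn} t^n`. -/
theorem e16_qExp_ST_two (p : ℕ) [Fact p.Prime]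
    (g : ModularForm (CongruenceSubgroup.Gamma0 p) 2) (b : ℕ) :
    qExpansion p (⇑g ∣[(2 : ℤ)] e16ST (b : ℕ)) =
      (-(p : ℂ)⁻¹) • PowerSeries.rescale (cexp (2 * π * Complex.I * b / p))
        (e16cU p (qExpansion 1 g)) := by
  have hp : p.Prime := Fact.out
  have : NeZero p := ⟨hp.ne_zero⟩
  have hp0 : p ≠ 0 := hp.ne_zero
  have hpR : (0 : ℝ) < p := by exact_mod_cast hp.pos
  set U : ModularForm (CongruenceSubgroup.Gamma0 p) 2 :=
    ModularForm.heckeULin 2 (dvd_refl p) g with hU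
  have hUcoe : (U : ℍ → ℂ) = heckeU 2 p ⇑g := rfl
  have hUper : E16Per 1 (U : ℍ → ℂ) := e16_per_self p U
  obtain ⟨hper, hexp⟩ := e16_affine one_pos hUper p hp0 (b : ℝ)
    (fun τ => heckeMatrix p b • τ) (fun τ => by
      rw [coe_heckeMatrix_smul hp0]; push_cast; rfl)
  rw [mul_one] at hper hexp
  have hfun : (⇑g ∣[(2 : ℤ)] e16ST (b : ℕ)) =
      (-(p : ℂ)⁻¹) • ((U : ℍ → ℂ) ∘ fun τ => heckeMatrix p b • τ) := by
    ext τ
    rw [e16_slash_ST_two_apply, hUcoe]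
    simp
  rw [hfun, e16_qExp_smul hpR _ hper, hexp, hUcoe, e16_qExp_heckeU_cU]
  simp

/-! ### Level one forms on `Γ₀(p)`, slashes of powers -/

/-- A level one form, seen as a form on `Γ₀(p)`. -/
noncomputable def e16Res (p : ℕ) {k : ℤ} (F : ModularForm 𝒮ℒ k) :
    ModularForm (CongruenceSubgroup.Gamma0 p) k where
  toFun := F
  slash_action_eq' γ hγ := by
    obtain ⟨g, -, rfl⟩ := hγ
    exact F.slash_action_eq' _ ⟨g, rfl⟩
  holo' := F.holo'
  bdd_at_cusps' hc := F.bdd_at_cusps' (hc.mono (by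
    rintro _ ⟨g, -, rfl⟩
    exact ⟨g, rfl⟩))

@[simp] theorem e16Res_coe (p : ℕ) {k : ℤ} (F : ModularForm 𝒮ℒ k) :
    (e16Res p F : ℍ → ℂ) = F := rfl

theorem e16_levelOne_slash {k : ℤ} (F : ModularForm 𝒮ℒ k) (A : SL(2, ℤ)) :
    (F : ℍ → ℂ) ∣[k] A = F := by
  rw [ModularForm.SL_slash]
  exact SlashInvariantFormClass.slash_action_eq F _ ⟨A, rfl⟩

theorem e16_pow_slash (f : ℍ → ℂ) (k : ℤ) (A : SL(2, ℤ)) (w : ℕ) :
    (f ^ w) ∣[(w : ℤ) * k] A = (f ∣[k] A) ^ w := by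
  induction w with
  | zero =>
    have h0 : ((0 : ℕ) : ℤ) * k = 0 := by simp
    rw [h0, pow_zero, pow_zero]
    exact ModularForm.is_invariant_one A
  | succ w ih =>
    have h1 : ((w + 1 : ℕ) : ℤ) * k = (w : ℤ) * k + k := by push_cast; ring
    rw [h1, pow_succ, pow_succ, ModularForm.mul_slash_SL2, ih]

end Fermat.Agent.E16
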