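/-
S16 (upper bound), helper4: case (B), `ℓ = 3`, `p ≡ 2 mod 3`.

If a weight 2 cusp form `f` on `Γ₀(p)` with integral `q`-expansion were congruent to the
Eisenstein series `E = (p-1)/24 + Σ δ_k q^k` modulo `3` (away from the constant term), then
`G₀ = (E - f)/c₀`, `c₀ = (p-1)/24`, has `q`-expansion `≡ 1 mod 9` (the constant `1/c₀` is
divisible by `3`), and its conjugates `G₀|S T^b` have `q^{1/p}`-expansions `≡ -1/p mod 9`.
The weight 4 form `K = (p² G₀² - E₄)/3` then satisfies `K ≡ (p²-1)/3 - 80 Σ σ₃(n) q^n mod 3`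
and `K|S T^b ≡ -80 Σ σ₃(n) t^{pn} mod 3`: its norm to level one is nonzero modulo `3` but vanishes
to order `≥ p` in `q`, beyond the Sturm bound `(p+1)/3` of weight `4(p+1)`.
-/
import Fermat.Agent.Lib.E16_NormP
import Fermat.Agent.Lib.E16_Eis

set_option autoImplicit false

open UpperHalfPlane ModularForm Function Complex SlashInvariantForm EisensteinSeries
  ModularFormClass
open UpperHalfPlane hiding I
open scoped MatrixGroups Manifold Real

namespace Fermat.Agent.E16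
open Fermat.Agent.T23 Matrix.SpecialLinearGroup

/-! ### Numerals in the calculus modulo `ℓR` -/

theorem e16b_int_ofNat {R : Subring ℂ} (a : ℕ) [a.AtLeastTwo] :
    E16Int R (OfNat.ofNat a : PowerSeries ℂ) := by
  rw [← map_ofNat (PowerSeries.C (R := ℂ)) a]
  exact E16Int.C (ofNat_mem R a)

theorem e16b_int_natCast {R : Subring ℂ} (a : ℕ) : E16Int R (a : PowerSeries ℂ) := by
  rw [← map_natCast (PowerSeries.C (R := ℂ)) a]
  exact E16Int.C (natCast_mem R a)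

theorem e16b_int_intCast {R : Subring ℂ} (a : ℤ) : E16Int R (a : PowerSeries ℂ) := by
  rw [← map_intCast (PowerSeries.C (R := ℂ)) a]
  exact E16Int.C (intCast_mem R a)

theorem e16b_coeff_ofNat_mul (a : ℕ) [a.AtLeastTwo] (Y : PowerSeries ℂ) (n : ℕ) :
    (OfNat.ofNat a * Y).coeff n = OfNat.ofNat a * Y.coeff n := by
  rw [← map_ofNat (PowerSeries.C (R := ℂ)) a, PowerSeries.coeff_C_mul]

/-- `B = A + 3 X` with `X` integral: `A ≡ B` modulo `3R`. -/
theorem e16b_cong_of_eq {R : Subring ℂ} {A B X : PowerSeries ℂ} (hX : E16Int R X)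
    (h : B = A + 3 * X) : E16Cong R 3 A B := fun j => by
  rw [h, map_add, e16b_coeff_ofNat_mul]
  refine mem_e16lR.mpr ⟨-X.coeff j, R.neg_mem (hX j), ?_⟩
  ring

theorem e16b_three_ne : (3 : PowerSeries ℂ) ≠ 0 := by
  intro h
  have := congrArg (PowerSeries.coeff 0) h
  rw [← map_ofNat (PowerSeries.C (R := ℂ)) 3, PowerSeries.coeff_zero_C] at this
  simp at this

/-! ### Two power series identities -/

/-- The `q`-expansion of `K = (p² G₀² - E₄)/3` for `G₀ = 1 + 9 Y`. -/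
theorem e16b_ps_main (P Φ Y A E4 K m : PowerSeries ℂ)
    (hΦ : Φ = 1 + 9 * Y) (hE4 : E4 = 1 + 240 * A)
    (hK : 3 * K = P ^ 2 * (Φ * Φ) - E4) (hm : 3 * m = P ^ 2 - 1) :
    K = m + -80 * A + 3 * (P ^ 2 * (2 * Y + 9 * (Y * Y))) := by
  apply mul_left_cancel₀ e16b_three_ne
  rw [hK, hΦ, hE4]
  linear_combination (-1 : PowerSeries ℂ) * hm

/-- The expansion of a conjugate of `K`: there `G₀` becomes `W (1 + 9 Y)` with `p W = -1`. -/
theorem e16b_ps_conj (P W Φ Y A E4 K : PowerSeries ℂ)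
    (hΦ : Φ = W * (1 + 9 * Y)) (hE4 : E4 = 1 + 240 * A)
    (hK : 3 * K = P ^ 2 * (Φ * Φ) - E4) (hPW : P * W = -1) :
    K = -80 * A + 3 * (2 * Y + 9 * (Y * Y)) := by
  apply mul_left_cancel₀ e16b_three_ne
  rw [hK, hΦ, hE4]
  linear_combination (P * W - 1) * (1 + 9 * Y) ^ 2 * hPW

/-- The leading term of `-80 Σ σ₃(n) q^n`. -/
theorem e16b_lead_A (R : Subring ℂ) (ℓ : ℂ) :
    E16Lead R ℓ (-80 * e16sA.map (Int.castRingHom ℂ)) 1 (-80) := by
  have h80 : (-80 : PowerSeries ℂ) = PowerSeries.C (-80 : ℂ) := by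
    rw [map_neg, map_ofNat]
  refine E16Lead.of_order ?_ (fun j hj => ?_) ?_
  · rw [h80]
    exact E16Int.mul (E16Int.C (R.neg_mem (ofNat_mem R 80))) (E16Int.map_int _)
  · have hj0 : j = 0 := by omega
    subst hj0
    rw [h80, PowerSeries.coeff_C_mul, PowerSeries.coeff_map, e16s_A_zero]
    simp
  · rw [h80, PowerSeries.coeff_C_mul, PowerSeries.coeff_map, e16sA, PowerSeries.coeff_mk]
    simp

theorem e16b_cU_one_add (p : ℕ) (hp : p ≠ 0) (Y : PowerSeries ℂ) :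
    e16cU p (1 + 9 * Y) = 1 + 9 * e16cU p Y := by
  ext n
  rw [coeff_e16cU, map_add, map_add, e16b_coeff_ofNat_mul, e16b_coeff_ofNat_mul, coeff_e16cU,
    ← coeff_e16cU, e16cU_one p hp]

/-! ### The forms -/

/-- The square of a weight 2 form, in weight 4. -/
noncomputable def e16bSq (p : ℕ) (G : ModularForm (CongruenceSubgroup.Gamma0 p) 2) :
    ModularForm (CongruenceSubgroup.Gamma0 p) 4 := G.mul G

/-- The weight 4 form `(p² G² - E₄)/3`. -/
noncomputable def e16bK (p : ℕ) (G : ModularForm (CongruenceSubgroup.Gamma0 p) 2) :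
    ModularForm (CongruenceSubgroup.Gamma0 p) 4 :=
  (3 : ℂ)⁻¹ • (((p : ℂ) ^ 2) • e16bSq p G - e16Res p E₄)

theorem e16bK_coe (p : ℕ) (G : ModularForm (CongruenceSubgroup.Gamma0 p) 2) :
    (e16bK p G : ℍ → ℂ) =
      (3 : ℂ)⁻¹ • (((p : ℂ) ^ 2) • ((G : ℍ → ℂ) * G) - (E₄ : ℍ → ℂ)) := rfl

theorem e16bK_slash (p : ℕ) (G : ModularForm (CongruenceSubgroup.Gamma0 p) 2) (A : SL(2, ℤ)) :
    (e16bK p G : ℍ → ℂ) ∣[(4 : ℤ)] A =
      (3 : ℂ)⁻¹ • (((p : ℂ) ^ 2) • (((G : ℍ → ℂ) ∣[(2 : ℤ)] A) * ((G : ℍ → ℂ) ∣[(2 : ℤ)] A))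
        - (E₄ : ℍ → ℂ)) := by
  rw [e16bK_coe]
  have h1 : ((G : ℍ → ℂ) * G) ∣[(4 : ℤ)] A =
      ((G : ℍ → ℂ) ∣[(2 : ℤ)] A) * ((G : ℍ → ℂ) ∣[(2 : ℤ)] A) :=
    ModularForm.mul_slash_SL2 2 2 A _ _
  have h2 : (E₄ : ℍ → ℂ) ∣[(4 : ℤ)] A = E₄ := e16_levelOne_slash E₄ A
  rw [ModularForm.SL_smul_slash, sub_eq_add_neg, SlashAction.add_slash, SlashAction.neg_slash,
    ModularForm.SL_smul_slash, h1, h2, ← sub_eq_add_neg]

/-- The expansion of `(p² g² - e)/3`, cleared of the denominator. -/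
theorem e16b_qExp_K {N : ℝ} (hN : 0 < N) (p : ℕ) {g e : ℍ → ℂ} (hg : E16Per N g)
    (he : E16Per N e) :
    3 * qExpansion N ((3 : ℂ)⁻¹ • (((p : ℂ) ^ 2) • (g * g) - e)) =
      (p : PowerSeries ℂ) ^ 2 * (qExpansion N g * qExpansion N g) - qExpansion N e := by
  have h1 : E16Per N (((p : ℂ) ^ 2) • (g * g)) := (hg.mul hg).smul _
  rw [e16_qExp_smul hN _ (h1.sub he), e16_qExp_sub hN h1 he, e16_qExp_smul hN _ (hg.mul hg),
    e16_qExp_mul hN hg hg]
  rw [← map_ofNat (PowerSeries.C (R := ℂ)) 3, ← PowerSeries.smul_eq_C_mul, smul_smul]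
  rw [mul_inv_cancel₀ (by norm_num : (3 : ℂ) ≠ 0), one_smul, PowerSeries.smul_eq_C_mul]
  simp

/-- The normalised form `G₀ = (E - f)/c₀`, `c₀ = (p-1)/24`. -/
noncomputable def e16bG (p : ℕ) [Fact p.Prime] (f : CuspForm (CongruenceSubgroup.Gamma0 p) 2) :
    ModularForm (CongruenceSubgroup.Gamma0 p) 2 :=
  (24 * ((p : ℂ) - 1)⁻¹) • (e16Eis p - CuspForm.toModularFormₗ f)

/-- The series `Y` with `Q(G₀) = 1 + 9 Y`. -/
noncomputable def e16bY (p : ℕ) (c : ℕ → ℤ) : PowerSeries ℂ :=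
  PowerSeries.mk fun n => if n = 0 then 0 else
    8 * ((p : ℂ) - 1)⁻¹ * (((e16δ p n - c n) / 3 : ℤ) : ℂ)

theorem e16b_qExp_G (p : ℕ) [Fact p.Prime] (f : CuspForm (CongruenceSubgroup.Gamma0 p) 2)
    (c : ℕ → ℤ) (hc : ∀ k, qCoeff f k = c k)
    (hcong : ∀ k, 1 ≤ k → (3 : ℤ) ∣ c k - e16δ p k) :
    qExpansion 1 (e16bG p f) = 1 + 9 * e16bY p c := by
  have hp : p.Prime := Fact.out
  have hp1 : (p : ℂ) - 1 ≠ 0 := by
    rw [sub_ne_zero]
    exact_mod_cast hp.one_lt.ne'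
  have hE : E16Per 1 (e16Eis p : ℍ → ℂ) := e16_per_self p (e16Eis p)
  have hf : E16Per 1 (CuspForm.toModularFormₗ f : ℍ → ℂ) :=
    e16_per_self p (CuspForm.toModularFormₗ f)
  have hcoe : (e16bG p f : ℍ → ℂ) = (24 * ((p : ℂ) - 1)⁻¹) •
      ((e16Eis p : ℍ → ℂ) - (CuspForm.toModularFormₗ f : ℍ → ℂ)) := rfl
  rw [hcoe, e16_qExp_smul one_pos _ (hE.sub hf), e16_qExp_sub one_pos hE hf]
  ext n
  rw [PowerSeries.coeff_smul, map_sub, map_add, e16b_coeff_ofNat_mul, e16bY, PowerSeries.coeff_mk,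
    PowerSeries.coeff_one, smul_eq_mul]
  have hfn : (qExpansion 1 (CuspForm.toModularFormₗ f : ℍ → ℂ)).coeff n = c n := hc n
  rw [hfn]
  by_cases hn : n = 0
  · subst hn
    have h0 : (qExpansion 1 (e16Eis p : ℍ → ℂ)).coeff 0 = ((p : ℂ) - 1) / 24 :=
      e16Eis_qCoeff_zero p
    have hc0 : ((c 0 : ℤ) : ℂ) = 0 := by
      rw [← hc 0]
      exact CuspFormClass.qExpansion_coeff_zero f one_pos
        (CongruenceSubgroup.one_mem_strictPeriods_Gamma0 p)
    rw [h0, hc0, if_pos rfl, if_pos rfl]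
    field_simp
    ring
  · have hn1 : 1 ≤ n := Nat.one_le_iff_ne_zero.mpr hn
    have h1 : (qExpansion 1 (e16Eis p : ℍ → ℂ)).coeff n = (e16δ p n : ℂ) :=
      e16Eis_qCoeff p n hn1
    rw [h1, if_neg hn, if_neg hn]
    obtain ⟨d, hd⟩ := hcong n hn1
    have h3 : e16δ p n - c n = 3 * (-d) := by linarith
    rw [h3, Int.mul_ediv_cancel_left _ (by norm_num : (3 : ℤ) ≠ 0)]
    have h4 : (e16δ p n : ℂ) - (c n : ℂ) = 3 * (-d : ℂ) := by
      exact_mod_cast congrArg (Int.cast : ℤ → ℂ) h3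
    rw [h4]
    push_cast
    ring

/-! ### Case (B) -/

/-- **Case (B) of the upper bound.**  For `p ≡ 2 mod 3` there is no weight 2 cusp form on `Γ₀(p)`
with integral `q`-expansion congruent modulo `3` to the Eisenstein series `Σ δ_k q^k`. -/
theorem e16_caseB (p : ℕ) [Fact p.Prime] (hp3 : p % 3 = 2)
    (f : CuspForm (CongruenceSubgroup.Gamma0 p) 2) (c : ℕ → ℤ)
    (hc : ∀ k, qCoeff f k = c k)
    (hcong : ∀ k, 1 ≤ k → (3 : ℤ) ∣ c k - e16δ p k) : False := by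
  have hp : p.Prime := Fact.out
  have hp0 : p ≠ 0 := hp.ne_zero
  have hpR : (0 : ℝ) < p := by exact_mod_cast hp.pos
  have hpC : (p : ℂ) ≠ 0 := by exact_mod_cast hp0
  obtain ⟨R, -, hℓ, hinv, hroot⟩ := e16_exists_ring 3 (by norm_num)
  have hℓ' : ∀ r ∈ R, (3 : ℂ) * r ≠ 1 := by simpa using hℓ
  -- `p = 3 q + 2`
  obtain ⟨q, hq⟩ : ∃ q : ℕ, p = 3 * q + 2 := ⟨p / 3, by omega⟩
  have hp1inv : ((p : ℂ) - 1)⁻¹ ∈ R := by
    have h := hinv ((p : ℤ) - 1) ⟨1, -(q : ℤ), by rw [hq]; push_cast; ring⟩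
    simpa using h
  have h80inv : ((-80 : ℂ))⁻¹ ∈ R := by
    have h := hinv (-80) ⟨1, 27, by norm_num⟩
    simpa using h
  have hY : E16Int R (e16bY p c) := fun j => by
    rw [e16bY, PowerSeries.coeff_mk]
    split_ifs
    · exact R.zero_mem
    · exact R.mul_mem (R.mul_mem (ofNat_mem R 8) hp1inv) (intCast_mem R _)
  -- the integer `m = (p² - 1)/3`
  obtain ⟨m, hm⟩ : ∃ m : ℤ, 3 * m = (p : ℤ) ^ 2 - 1 :=
    ⟨3 * (q : ℤ) ^ 2 + 4 * q + 1, by rw [hq]; push_cast; ring⟩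
  have hmP : (3 : PowerSeries ℂ) * (m : PowerSeries ℂ) = (p : PowerSeries ℂ) ^ 2 - 1 := by
    exact_mod_cast congrArg (Int.cast : ℤ → PowerSeries ℂ) hm
  set G : ModularForm (CongruenceSubgroup.Gamma0 p) 2 := e16bG p f with hG
  set A : PowerSeries ℂ := e16sA.map (Int.castRingHom ℂ) with hA
  set Y : PowerSeries ℂ := e16bY p c with hYdef
  have hAint : E16Int R A := E16Int.map_int _
  have hQG : qExpansion 1 (G : ℍ → ℂ) = 1 + 9 * Y := e16b_qExp_G p f c hc hcong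
  have hE4 : qExpansion 1 (E₄ : ℍ → ℂ) = 1 + 240 * A := by
    rw [e16_E4_int, e16sE4, map_add, map_one, map_mul, map_ofNat]
  have hE4per : E16Per 1 (E₄ : ℍ → ℂ) :=
    E16Per.of_modularForm E₄ one_pos one_mem_strictPeriods_SL
  have hE4perp : E16Per p (E₄ : ℍ → ℂ) := by
    have := hE4per.nat_mul p
    rwa [mul_one] at this
  -- the main form
  have hKq : qExpansion 1 (e16bK p G : ℍ → ℂ) =
      (m : PowerSeries ℂ) + -80 * A + 3 * ((p : PowerSeries ℂ) ^ 2 * (2 * Y + 9 * (Y * Y))) :=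
    e16b_ps_main (p : PowerSeries ℂ) _ Y A _ _ (m : PowerSeries ℂ) hQG hE4
      (e16b_qExp_K one_pos p (e16_per_self p G) hE4per) hmP
  have hX : E16Int R ((p : PowerSeries ℂ) ^ 2 * (2 * Y + 9 * (Y * Y))) :=
    ((e16b_int_natCast p).pow 2).mul
      (((e16b_int_ofNat 2).mul hY).add ((e16b_int_ofNat 9).mul (hY.mul hY)))
  have hKint : E16Int R (qExpansion 1 (e16bK p G : ℍ → ℂ)) := by
    rw [hKq]
    have h80 : E16Int R (-80 * A) := by
      have := ((e16b_int_ofNat (R := R) 80).mul hAint).neg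
      rwa [← neg_mul] at this
    exact ((e16b_int_intCast m).add h80).add ((e16b_int_ofNat 3).mul hX)
  -- the conjugates
  have hconj : ∀ b : Fin p, E16Lead R 3
      (qExpansion p ((e16bK p G : ℍ → ℂ) ∣[(4 : ℤ)] e16ST (b : ℕ))) p (-80) := by
    intro b
    set ζ : ℂ := cexp (2 * π * Complex.I * (b : ℕ) / p) with hζ
    have hζR : ζ ∈ R := by
      refine hroot ζ p hp0 ?_
      rw [hζ, ← Complex.exp_nat_mul]
      have : (p : ℂ) * (2 * π * Complex.I * ((b : ℕ) : ℂ) / p) = ((b : ℕ) : ℂ) * (2 * π * Complex.I) := by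
        field_simp
      rw [this]
      exact Complex.exp_nat_mul_two_pi_mul_I _
    set Yb : PowerSeries ℂ := PowerSeries.rescale ζ (e16cU p Y) with hYb
    have hYbint : E16Int R Yb := (hY.cU p).rescale hζR
    set W : PowerSeries ℂ := PowerSeries.C (-(p : ℂ)⁻¹) with hW
    have hPW : (p : PowerSeries ℂ) * W = -1 := by
      rw [hW, ← map_natCast (PowerSeries.C (R := ℂ)) p, ← map_mul, mul_neg,
        mul_inv_cancel₀ hpC, map_neg, map_one]
    have hΦ : qExpansion p ((G : ℍ → ℂ) ∣[(2 : ℤ)] e16ST (b : ℕ)) = W * (1 + 9 * Yb) := by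
      rw [e16_qExp_ST_two p G b, hQG, e16b_cU_one_add p hp0, PowerSeries.smul_eq_C_mul, map_add,
        map_one, map_mul, map_ofNat]
    have hE4p : qExpansion p (E₄ : ℍ → ℂ) = 1 + 240 * PowerSeries.expand p hp0 A := by
      rw [e16_qExp_levelOne E₄ p hp0, hE4, map_add, map_one, map_mul, map_ofNat]
    have hKb : qExpansion p ((e16bK p G : ℍ → ℂ) ∣[(4 : ℤ)] e16ST (b : ℕ)) =
        -80 * PowerSeries.expand p hp0 A + 3 * (2 * Yb + 9 * (Yb * Yb)) := by
      rw [e16bK_slash]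
      exact e16b_ps_conj (p : PowerSeries ℂ) W _ Yb _ _ _ hΦ hE4p
        (e16b_qExp_K hpR p (e16_per_ST p G (b : ℕ)) hE4perp) hPW
    have hL : E16Lead R 3 (-80 * PowerSeries.expand p hp0 A) p (-80) := by
      have := (e16b_lead_A R 3).expand p hp0
      rwa [map_mul, map_neg, map_ofNat, mul_one] at this
    have hXb : E16Int R (2 * Yb + 9 * (Yb * Yb)) :=
      ((e16b_int_ofNat 2).mul hYbint).add ((e16b_int_ofNat 9).mul (hYbint.mul hYbint))
    refine hL.congr (e16b_cong_of_eq hXb hKb) ?_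
    rw [hKb]
    exact hL.toInt.add ((e16b_int_ofNat 3).mul hXb)
  have hu80 : ∃ u' ∈ R, (-80 : ℂ) * u' = 1 :=
    ⟨(-80 : ℂ)⁻¹, h80inv, mul_inv_cancel₀ (by norm_num)⟩
  by_cases h3m : (3 : ℤ) ∣ m
  · -- `9 ∣ p² - 1`: the main form has leading term `-80 q`
    obtain ⟨m₁, hm₁⟩ := h3m
    have hcong0 : E16Cong R 3 (-80 * A) (qExpansion 1 (e16bK p G : ℍ → ℂ)) := by
      refine e16b_cong_of_eq (X := (m₁ : PowerSeries ℂ) +
        (p : PowerSeries ℂ) ^ 2 * (2 * Y + 9 * (Y * Y))) ((e16b_int_intCast m₁).add hX) ?_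
      rw [hKq, hm₁]
      push_cast
      ring
    have h₀ : E16Lead R 3 (qExpansion 1 (e16bK p G : ℍ → ℂ)) 1 (-80) :=
      (e16b_lead_A R 3).congr hcong0 hKint
    refine e16_norm_contra_p p (e16bK p G) R 3 hℓ' 1 (-80) (fun _ => p) (fun _ => -80) h₀ hconj
      hu80 (fun _ => hu80) ?_
    simp only [Finset.sum_const, Finset.card_univ, Fintype.card_fin, smul_eq_mul]
    push_cast
    have : (2 : ℤ) ≤ p := by exact_mod_cast hp.two_le
    nlinarith
  · -- otherwise the main form has the unit constant term `m`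
    have hm0 : (m : ℂ) ≠ 0 := by
      intro h
      apply h3m
      have : m = 0 := by exact_mod_cast h
      rw [this]
      exact dvd_zero _
    have hminv : ((m : ℂ))⁻¹ ∈ R := by
      refine hinv m ?_
      have h3 : Irreducible (3 : ℤ) := Int.prime_three.irreducible
      have := (h3.coprime_iff_not_dvd (n := m)).mpr h3m
      exact_mod_cast this.symm
    have hL0 : E16Lead R 3 ((m : PowerSeries ℂ) + -80 * A) 0 (m : ℂ) := by
      refine E16Lead.of_order ?_ (fun j hj => by omega) ?_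
      · exact (e16b_int_intCast m).add (e16b_lead_A R 3).toInt
      · rw [map_add, ← map_intCast (PowerSeries.C (R := ℂ)) m, PowerSeries.coeff_zero_C]
        have h0 : (-80 * A).coeff 0 = 0 := by
          have h80 : (-80 : PowerSeries ℂ) = PowerSeries.C (-80 : ℂ) := by
            rw [map_neg, map_ofNat]
          rw [h80, PowerSeries.coeff_C_mul, hA, PowerSeries.coeff_map, e16s_A_zero]
          simp
        rw [h0, add_zero]
    have hcong0 : E16Cong R 3 ((m : PowerSeries ℂ) + -80 * A)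
        (qExpansion 1 (e16bK p G : ℍ → ℂ)) := e16b_cong_of_eq hX hKq
    have h₀ : E16Lead R 3 (qExpansion 1 (e16bK p G : ℍ → ℂ)) 0 (m : ℂ) :=
      hL0.congr hcong0 hKint
    refine e16_norm_contra_p p (e16bK p G) R 3 hℓ' 0 (m : ℂ) (fun _ => p) (fun _ => -80) h₀ hconj
      ⟨(m : ℂ)⁻¹, hminv, mul_inv_cancel₀ hm0⟩ (fun _ => hu80) ?_
    simp only [Finset.sum_const, Finset.card_univ, Fintype.card_fin, smul_eq_mul]
    push_cast
    have : (2 : ℤ) ≤ p := by exact_mod_cast hp.two_le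
    nlinarith

/-- Case (B) in the shape of the hypothesis `hUB` of `e16_s16` (same shape as `e16_caseA`). -/
theorem e16_caseB' (p : ℕ) [Fact p.Prime] (hp3 : p % 3 = 2)
    (f : CuspForm (CongruenceSubgroup.Gamma0 p) 2)
    (hf : ∀ k : ℕ, 1 ≤ k → ∃ c : ℤ, qCoeff (⇑f) k = (c : ℂ) ∧ (3 : ℤ) ∣ c - e16δ p k) : False := by
  classical
  choose! c hc hc3 using hf
  refine e16_caseB p hp3 f (fun k => if k = 0 then 0 else c k) (fun k => ?_) (fun k hk => ?_)
  · by_cases hk : k = 0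
    · subst hk
      rw [if_pos rfl, Int.cast_zero]
      exact CuspFormClass.qExpansion_coeff_zero f one_pos
        (CongruenceSubgroup.one_mem_strictPeriods_Gamma0 p)
    · rw [if_neg hk]
      exact hc k (Nat.one_le_iff_ne_zero.mpr hk)
  · rw [if_neg (by omega)]
    exact hc3 k hk

end Fermat.Agent.E16
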