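import Mathlib
import Fermat.Agent.Lib.E16_Trace
import Fermat.Prelude.Thm_UpperHalfPlane_qCoeff_heckeU
import Fermat.Prelude.Thm_ModularForm_periodic_heckeU_comp_ofComplex
import Fermat.Prelude.Thm_ModularForm_mdifferentiable_heckeU
import Fermat.Prelude.Thm_ModularForm_isBoundedAtImInfty_heckeU

/-!
# S16: the weight four trace identity for products of weight two forms of level `Γ₀(p)`

For `g₁, g₂ ∈ M₂(Γ₀(p))` the trace to level one of `g₁ g₂` is a multiple of `E₄`; in terms of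
`q`-expansions, with `V φ = ∑ a_{np} q^n`:
`Q g₁ * Q g₂ + p⁻¹ • V (V (Q g₁) * V (Q g₂)) = (a₀(g₁) a₀(g₂) (1 + p⁻¹)) • Q E₄`.
-/

set_option autoImplicit false

open UpperHalfPlane ModularForm CuspForm ModularFormClass SlashInvariantForm EisensteinSeries
open scoped MatrixGroups Manifold

namespace Fermat.Agent.E16
open Fermat.Agent.T23 Matrix.SpecialLinearGroup

/-- The operator `V_p : ∑ a_n q^n ↦ ∑ a_{np} q^n` on power series. -/
noncomputable def e16V (p : ℕ) (φ : PowerSeries ℂ) : PowerSeries ℂ :=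
  PowerSeries.mk fun n => PowerSeries.coeff (n * p) φ

@[simp] theorem e16V_coeff (p : ℕ) (φ : PowerSeries ℂ) (n : ℕ) :
    PowerSeries.coeff n (e16V p φ) = PowerSeries.coeff (n * p) φ := by
  rw [e16V, PowerSeries.coeff_mk]

theorem e16V_add (p : ℕ) (φ ψ : PowerSeries ℂ) : e16V p (φ + ψ) = e16V p φ + e16V p ψ := by
  ext n; simp

theorem e16V_smul (p : ℕ) (c : ℂ) (φ : PowerSeries ℂ) : e16V p (c • φ) = c • e16V p φ := by
  ext n; simp

theorem e16V_neg (p : ℕ) (φ : PowerSeries ℂ) : e16V p (-φ) = -e16V p φ := by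
  ext n; simp

theorem e16V_zero (p : ℕ) : e16V p 0 = 0 := by
  ext n; simp

variable (p : ℕ) [NeZero p] {k : ℤ}

/-- `U_p` preserves niceness. -/
theorem e16_nice_heckeU {F : ℍ → ℂ} (hF : QNice F) (k : ℤ) : QNice (heckeU k p F) where
  per := ModularForm.periodic_heckeU_comp_ofComplex hF.per k p
  hol := ModularForm.mdifferentiable_heckeU hF.hol k p
  bdd := ModularForm.isBoundedAtImInfty_heckeU hF.bdd k p

/-- The `q`-expansion of `U_p F`. -/
theorem e16_qExp_heckeU {F : ℍ → ℂ} (hF : QNice F) (k : ℤ) :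
    qExpansion 1 (heckeU k p F) = e16V p (qExpansion 1 F) := by
  ext n
  rw [e16V_coeff]
  exact UpperHalfPlane.qCoeff_heckeU hF.per hF.hol hF.bdd k (NeZero.ne p) n

theorem e16tr_qExp_mul {F G : ℍ → ℂ} (hF : QNice F) (hG : QNice G) :
    qExpansion 1 (F * G) = qExpansion 1 F * qExpansion 1 G :=
  qExpansion_mul hF.analyticAt hG.analyticAt

theorem e16tr_qExp_add {F G : ℍ → ℂ} (hF : QNice F) (hG : QNice G) :
    qExpansion 1 (F + G) = qExpansion 1 F + qExpansion 1 G :=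
  qExpansion_add hF.analyticAt hG.analyticAt

theorem e16tr_qExp_smul {F : ℍ → ℂ} (hF : QNice F) (c : ℂ) :
    qExpansion 1 (c • F) = c • qExpansion 1 F :=
  qExpansion_smul hF.analyticAt c

/-- Weight 2: `V_p` is an involution on `q`-expansions. -/
theorem e16_VV [Fact p.Prime] (g : ModularForm (CongruenceSubgroup.Gamma0 p) 2) :
    e16V p (e16V p (qExpansion 1 ⇑g)) = qExpansion 1 ⇑g := by
  have hg := QNice.of_Gamma0 g
  rw [← e16_qExp_heckeU p hg 2, ← e16_qExp_heckeU p (e16_nice_heckeU p hg 2) 2, e16_U_U]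

/-- Weight 2: the `q`-expansion of `g|W`. -/
theorem e16_qExp_W [Fact p.Prime] (g : ModularForm (CongruenceSubgroup.Gamma0 p) 2) :
    qExpansion 1 (⇑g ∣[(2 : ℤ)] e16W p) = -e16V p (qExpansion 1 ⇑g) := by
  have hg := QNice.of_Gamma0 g
  rw [e16_W_eq_neg_U, qExpansion_neg (e16_nice_heckeU p hg 2).analyticAt, e16_qExp_heckeU p hg]

/-- The trace of a weight four form on `Γ₀(p)` is a multiple of `E₄`. -/
theorem e16_trace_four [Fact p.Prime] (F : ModularForm (CongruenceSubgroup.Gamma0 p) 4) :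
    ∃ c : ℂ, ⇑F + (p : ℂ) ^ (-2 : ℤ) • heckeU 4 p (⇑F ∣[(4 : ℤ)] e16W p) = c • ⇑E₄ := by
  obtain ⟨c, hc⟩ : ∃ c : ℂ, c • E₄ = ModularForm.trace 𝒮ℒ F :=
    (finrank_eq_one_iff_of_nonzero' E₄ (E_ne_zero _ ⟨2, rfl⟩)).mp
      (Module.rank_eq_one_iff_finrank_eq_one.mp levelOne_weight_four_rank_one) _
  refine ⟨c, ?_⟩
  have h := e16_trace_eq p F
  rw [← hc] at h
  have h2 : (2 : ℤ) - 4 = -2 := by norm_num
  rw [h2] at h
  rw [← h]
  rfl

/-- The trace identity for a product of two weight two forms, as functions. -/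
theorem e16_mul_trace [Fact p.Prime] (g₁ g₂ : ModularForm (CongruenceSubgroup.Gamma0 p) 2) :
    ∃ c : ℂ, ⇑g₁ * ⇑g₂ + (p : ℂ)⁻¹ • heckeU 4 p (heckeU 2 p ⇑g₁ * heckeU 2 p ⇑g₂) =
      c • ⇑E₄ := by
  obtain ⟨c, hc⟩ := e16_trace_four p (g₁.mul g₂)
  refine ⟨c, ?_⟩
  rw [← hc]
  have hp : (p : ℂ) ≠ 0 := by exact_mod_cast NeZero.ne p
  have h1 : ⇑(g₁.mul g₂) = ⇑g₁ * ⇑g₂ := rfl
  have h2 : (⇑g₁ * ⇑g₂) ∣[(4 : ℤ)] e16W p =
      (p : ℂ) • (heckeU 2 p ⇑g₁ * heckeU 2 p ⇑g₂) := by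
    have h3 := ModularForm.mul_slash 2 2 (e16W p) ⇑g₁ ⇑g₂
    have h4 : |((Matrix.GeneralLinearGroup.det (e16W p) : ℝˣ) : ℝ)| = p := by
      rw [Matrix.GeneralLinearGroup.val_det_apply, val_e16W, Matrix.det_fin_two_of]
      simp
    rw [h4, e16_W_eq_neg_U, e16_W_eq_neg_U, neg_mul_neg] at h3
    rw [show (4 : ℤ) = 2 + 2 by norm_num, h3]
    ext τ
    simp
  rw [h1, h2, heckeU_smul, smul_smul]
  congr 2
  rw [zpow_neg, ← mul_inv_cancel_left₀ hp ((p : ℂ)⁻¹)]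
  field_simp

theorem e16_coeff_zero_mul (φ ψ : PowerSeries ℂ) :
    PowerSeries.coeff 0 (φ * ψ) = PowerSeries.coeff 0 φ * PowerSeries.coeff 0 ψ := by
  simp [PowerSeries.coeff_mul]

/-- The trace identity for a product of two weight two forms of level `Γ₀(p)`, as an identity
of `q`-expansions: `Q g₁ Q g₂ + p⁻¹ V (V (Q g₁) V (Q g₂)) = a₀(g₁) a₀(g₂) (1 + p⁻¹) Q E₄`. -/
theorem e16_mul_trace_q [Fact p.Prime] (g₁ g₂ : ModularForm (CongruenceSubgroup.Gamma0 p) 2) :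
    qExpansion 1 ⇑g₁ * qExpansion 1 ⇑g₂ +
        (p : ℂ)⁻¹ • e16V p (e16V p (qExpansion 1 ⇑g₁) * e16V p (qExpansion 1 ⇑g₂)) =
      (PowerSeries.coeff 0 (qExpansion 1 ⇑g₁) * PowerSeries.coeff 0 (qExpansion 1 ⇑g₂) *
        (1 + (p : ℂ)⁻¹)) • qExpansion 1 ⇑E₄ := by
  obtain ⟨c, hc⟩ := e16_mul_trace p g₁ g₂
  have h1 := QNice.of_Gamma0 g₁
  have h2 := QNice.of_Gamma0 g₂
  have hU1 := e16_nice_heckeU p h1 2
  have hU2 := e16_nice_heckeU p h2 2
  have hU := e16_nice_heckeU p (hU1.mul hU2) 4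
  have hE : QNice ⇑E₄ := QNice.of_levelOne E₄
  have hq := congrArg (qExpansion 1) hc
  rw [e16tr_qExp_add (h1.mul h2) (hU.smul _), e16tr_qExp_mul h1 h2, e16tr_qExp_smul hU,
    e16_qExp_heckeU p (hU1.mul hU2), e16tr_qExp_mul hU1 hU2, e16_qExp_heckeU p h1,
    e16_qExp_heckeU p h2, e16tr_qExp_smul hE] at hq
  have h0 := congrArg (PowerSeries.coeff 0) hq
  have hE0 : PowerSeries.coeff 0 (qExpansion 1 ⇑E₄) = 1 := E_qExpansion_coeff_zero _ ⟨2, rfl⟩
  rw [map_add, e16_coeff_zero_mul, PowerSeries.coeff_smul, e16V_coeff, zero_mul,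
    e16_coeff_zero_mul, e16V_coeff, e16V_coeff, zero_mul, PowerSeries.coeff_smul, hE0,
    smul_eq_mul, smul_eq_mul, mul_one] at h0
  rw [hq, ← h0]
  congr 1
  ring

/-- (I1): the trace identity when `g` has vanishing constant term and `E` is fixed by `V_p`. -/
theorem e16_I1 [Fact p.Prime] (g E : ModularForm (CongruenceSubgroup.Gamma0 p) 2)
    (hg : PowerSeries.coeff 0 (qExpansion 1 ⇑g) = 0)
    (hE : e16V p (qExpansion 1 ⇑E) = qExpansion 1 ⇑E) :
    (p : ℂ) • (qExpansion 1 ⇑g * qExpansion 1 ⇑E) +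
      e16V p (e16V p (qExpansion 1 ⇑g) * qExpansion 1 ⇑E) = 0 := by
  have hp : (p : ℂ) ≠ 0 := by exact_mod_cast NeZero.ne p
  have h := e16_mul_trace_q p g E
  rw [hg, zero_mul, zero_mul, zero_smul, hE] at h
  have h2 := congrArg (fun φ : PowerSeries ℂ => (p : ℂ) • φ) h
  simp only [smul_add, smul_smul, mul_inv_cancel₀ hp, one_smul, smul_zero] at h2
  exact h2

/-- (I1) for a cusp form. -/
theorem e16_I1_cusp [Fact p.Prime] (f : CuspForm (CongruenceSubgroup.Gamma0 p) 2)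
    (E : ModularForm (CongruenceSubgroup.Gamma0 p) 2)
    (hE : e16V p (qExpansion 1 ⇑E) = qExpansion 1 ⇑E) :
    (p : ℂ) • (qExpansion 1 ⇑f * qExpansion 1 ⇑E) +
      e16V p (e16V p (qExpansion 1 ⇑f) * qExpansion 1 ⇑E) = 0 :=
  e16_I1 p (CuspForm.toModularFormₗ f) E
    (CuspFormClass.qExpansion_coeff_zero f one_pos
      (CongruenceSubgroup.one_mem_strictPeriods_Gamma0 p)) hE

/-- (I2): the trace identity for the square of a form fixed by `V_p`. -/
theorem e16_I2 [Fact p.Prime] (E : ModularForm (CongruenceSubgroup.Gamma0 p) 2)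
    (hE : e16V p (qExpansion 1 ⇑E) = qExpansion 1 ⇑E) :
    (p : ℂ) • (qExpansion 1 ⇑E) ^ 2 + e16V p ((qExpansion 1 ⇑E) ^ 2) =
      (PowerSeries.coeff 0 (qExpansion 1 ⇑E) ^ 2 * ((p : ℂ) + 1)) • qExpansion 1 ⇑E₄ := by
  have hp : (p : ℂ) ≠ 0 := by exact_mod_cast NeZero.ne p
  have h := e16_mul_trace_q p E E
  rw [hE] at h
  have h2 := congrArg (fun φ : PowerSeries ℂ => (p : ℂ) • φ) h
  simp only [smul_add, smul_smul, mul_inv_cancel₀ hp, one_smul] at h2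
  rw [sq, sq, h2]
  congr 1
  field_simp

/-- `U_p` on cusp forms of weight two is an involution, on `q`-expansions. -/
theorem e16_VV_cusp [Fact p.Prime] (f : CuspForm (CongruenceSubgroup.Gamma0 p) 2) :
    e16V p (e16V p (qExpansion 1 ⇑f)) = qExpansion 1 ⇑f :=
  e16_VV p (CuspForm.toModularFormₗ f)

end Fermat.Agent.E16
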