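/-
S16 (upper bound), helper5: **case (C)**, `ℓ = 2` and `p ≡ 7 mod 8`.

If `f ∈ S₂(Γ₀(p))` has integral `q`-expansion congruent to the Eisenstein series
`E = (p-1)/24 + ∑ δ_k q^k` modulo `2` (away from the constant term), then
`G₀ = (E - f)/c₀ ≡ 1 mod 8` (`c₀ = (p-1)/24` has `2`-adic valuation `-2`), and with
`A = 12 E^{(3)} = 1 + 12 S₃` of level `Γ₀(3)` the form `h = (G₀ - A)/4` of level `Γ₀(3p)` has
`SL₂(ℤ)`-conjugates which, in `t = q^{1/(3p)}`, are `≡ -3 t^{3p} + …` (cosets inside `Γ₀(3)`)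
resp. `≡ 1/3 + …` (the others) modulo `2`.  The norm of `h` to level one then has order
`> weight/12` modulo `2` with unit leading coefficient: `e16_norm_contra`.

Main result: `e16_caseC`.  Reusable: `e16cLift` (a form of level `N` at level `M`, `N ∣ M`),
`e16c_conj` (the `q^{1/(mp)}`-expansions of all conjugates of a weight two form of level `p`),
`e16cEquiv` (`J M ≃ J N × fibre`), `e16c_conj_T_mem`, `e16c_cong_conj`.
-/
import Fermat.Agent.Lib.E16_Norm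
import Fermat.Agent.Lib.E16_TrFour
import Fermat.Agent.Lib.E16_Eis

set_option autoImplicit false

open UpperHalfPlane ModularForm CuspForm ModularFormClass SlashInvariantForm Complex
open scoped MatrixGroups Manifold Real

namespace Fermat.Agent.E16
open Fermat.Agent.T23 Matrix.SpecialLinearGroup

/-- `Γ₀(M) ≤ Γ₀(N)` for `N ∣ M`. -/
theorem e16c_Gamma0_le {N M : ℕ} (h : N ∣ M) :
    CongruenceSubgroup.Gamma0 M ≤ CongruenceSubgroup.Gamma0 N := by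
  intro γ hγ
  rw [CongruenceSubgroup.Gamma0_mem, ZMod.intCast_zmod_eq_zero_iff_dvd] at hγ ⊢
  exact (Int.natCast_dvd_natCast.mpr h).trans hγ

theorem e16c_Gamma0_le_GL {N M : ℕ} (h : N ∣ M) :
    (CongruenceSubgroup.Gamma0 M : Subgroup (GL (Fin 2) ℝ)) ≤
      (CongruenceSubgroup.Gamma0 N : Subgroup (GL (Fin 2) ℝ)) :=
  Subgroup.map_mono (e16c_Gamma0_le h)

/-- A form of level `Γ₀(N)` seen at level `Γ₀(M)`, `N ∣ M`. -/
noncomputable def e16cLift {N M : ℕ} (h : N ∣ M) {k : ℤ}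
    (g : ModularForm (CongruenceSubgroup.Gamma0 N) k) :
    ModularForm (CongruenceSubgroup.Gamma0 M) k where
  toFun := g
  slash_action_eq' A hA := g.slash_action_eq' A (e16c_Gamma0_le_GL h hA)
  holo' := g.holo'
  bdd_at_cusps' hc := g.bdd_at_cusps' (hc.mono (e16c_Gamma0_le_GL h))

theorem e16cLift_coe {N M : ℕ} (h : N ∣ M) {k : ℤ}
    (g : ModularForm (CongruenceSubgroup.Gamma0 N) k) : ⇑(e16cLift h g) = ⇑g := rfl

/-- `γ T^n γ⁻¹ ∈ Γ₀(n)`. -/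
theorem e16c_conj_T_mem (n : ℕ) (g : GL (Fin 2) ℝ) (hg : g ∈ (𝒮ℒ : Subgroup (GL (Fin 2) ℝ))) :
    g * Matrix.GeneralLinearGroup.upperRightHom (n : ℝ) * g⁻¹ ∈
      (CongruenceSubgroup.Gamma0 n : Subgroup (GL (Fin 2) ℝ)) := by
  obtain ⟨γ, rfl⟩ := hg
  have hT : Matrix.GeneralLinearGroup.upperRightHom (n : ℝ) = mapGL ℝ (ModularGroup.T ^ n) := by
    apply Units.ext
    have hT' : ((ModularGroup.T ^ n : SL(2, ℤ)) : Matrix (Fin 2) (Fin 2) ℤ) = !![1, (n : ℤ); 0, 1] := by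
      have := ModularGroup.coe_T_zpow (n : ℤ)
      rwa [zpow_natCast] at this
    rw [e16_mapGL_val _ 1 n 0 1 hT']
    ext i j
    fin_cases i <;> fin_cases j <;> simp [Matrix.GeneralLinearGroup.upperRightHom]
  rw [hT]
  refine ⟨γ * ModularGroup.T ^ n * γ⁻¹, ?_, by simp⟩
  show γ * ModularGroup.T ^ n * γ⁻¹ ∈ CongruenceSubgroup.Gamma0 n
  rw [CongruenceSubgroup.Gamma0_mem, ZMod.intCast_zmod_eq_zero_iff_dvd]
  have hT' : ((ModularGroup.T ^ n : SL(2, ℤ)) : Matrix (Fin 2) (Fin 2) ℤ) = !![1, (n : ℤ); 0, 1] := by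
    have := ModularGroup.coe_T_zpow (n : ℤ)
    rwa [zpow_natCast] at this
  have h2 : (γ * ModularGroup.T ^ n * γ⁻¹ : SL(2, ℤ)) 1 0 = (n : ℤ) * (-(γ 1 0) ^ 2) := by
    show (γ * ModularGroup.T ^ n * γ⁻¹ : SL(2, ℤ)).1 1 0 = _
    rw [Matrix.SpecialLinearGroup.coe_mul, Matrix.SpecialLinearGroup.coe_mul, hT',
      Matrix.SpecialLinearGroup.coe_inv, Matrix.adjugate_fin_two]
    simp [Matrix.mul_apply, Fin.sum_univ_two]
    ring
  rw [h2]
  exact Dvd.intro _ rfl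

/-! ### index bookkeeping -/

theorem e16c_sub_le {N M : ℕ} (h : N ∣ M) :
    (CongruenceSubgroup.Gamma0 M : Subgroup (GL (Fin 2) ℝ)).subgroupOf 𝒮ℒ ≤
      (CongruenceSubgroup.Gamma0 N : Subgroup (GL (Fin 2) ℝ)).subgroupOf 𝒮ℒ :=
  Subgroup.comap_mono (e16c_Gamma0_le_GL h)

/-- the fibre of `J M → J N` -/
abbrev e16cFib (N M : ℕ) : Type :=
  ↥((CongruenceSubgroup.Gamma0 N : Subgroup (GL (Fin 2) ℝ)).subgroupOf 𝒮ℒ) ⧸
    ((CongruenceSubgroup.Gamma0 M : Subgroup (GL (Fin 2) ℝ)).subgroupOf 𝒮ℒ).subgroupOf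
      ((CongruenceSubgroup.Gamma0 N : Subgroup (GL (Fin 2) ℝ)).subgroupOf 𝒮ℒ)

/-- `J M ≃ J N × fibre`. -/
noncomputable def e16cEquiv {N M : ℕ} (h : N ∣ M) : J N × e16cFib N M ≃ J M :=
  (Subgroup.quotientEquivProdOfLE (e16c_sub_le h)).symm

theorem e16cEquiv_fst {N M : ℕ} (h : N ∣ M) (i : J N × e16cFib N M)
    (r : (𝒮ℒ : Subgroup (GL (Fin 2) ℝ))) (hr : (⟦r⟧ : J M) = e16cEquiv h i) :
    (⟦r⟧ : J N) = i.1 := by
  have h1 : (Subgroup.quotientEquivProdOfLE (e16c_sub_le h)) (⟦r⟧ : J M) = i := by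
    rw [hr, e16cEquiv, Equiv.apply_symm_apply]
  rw [← h1]
  rfl

theorem e16cFib_finite (N M : ℕ) [NeZero N] [NeZero M] (h : N ∣ M) : Finite (e16cFib N M) := by
  have : Finite (J N × e16cFib N M) := Finite.of_equiv _ (e16cEquiv h).symm
  have : Nonempty (J N) := ⟨⟦1⟧⟩
  exact Finite.prod_right (J N)

/-! ### the conjugates of a weight two form of prime level, in `q^{1/(mp)}` -/

theorem e16c_per_of_nice {F : ℍ → ℂ} (hF : QNice F) : E16Per 1 F := ⟨hF.per, hF.hol, hF.bdd⟩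

variable (p : ℕ) [NeZero p]

theorem e16c_conj [Fact p.Prime] (g : ModularForm (CongruenceSubgroup.Gamma0 p) 2) (m : ℕ)
    (hm : m ≠ 0) (q : J p) :
    (q = ⟦1⟧ ∧ qExpansion ((m * p : ℕ) : ℝ) (quotientFunc g q) =
        PowerSeries.expand (m * p) (mul_ne_zero hm (NeZero.ne p)) (qExpansion 1 g)) ∨
    (q ≠ ⟦1⟧ ∧ ∃ ζ : ℂ, ζ ^ p = 1 ∧ qExpansion ((m * p : ℕ) : ℝ) (quotientFunc g q) =
        PowerSeries.expand m hm
          ((-(p : ℂ)⁻¹) • PowerSeries.rescale ζ (e16V p (qExpansion 1 g)))) := by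
  have hp : p.Prime := Fact.out
  obtain ⟨o, rfl⟩ := e16Rep_surjective p q
  rcases o with _ | b
  · left
    refine ⟨rfl, ?_⟩
    show qExpansion ((m * p : ℕ) : ℝ) (quotientFunc g (⟦1⟧ : J p)) = _
    rw [qf_one_coset]
    have h1 : E16Per 1 (g : ℍ → ℂ) := e16c_per_of_nice (QNice.of_Gamma0 g)
    have := e16_qExp_expand one_pos (m * p) (mul_ne_zero hm (NeZero.ne p)) h1
    rwa [mul_one] at this
  · right
    refine ⟨fun h => e16_one_ne p hp.one_lt _ h.symm, ?_⟩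
    show ∃ ζ : ℂ, ζ ^ p = 1 ∧ qExpansion ((m * p : ℕ) : ℝ)
      (quotientFunc g (⟦toSL (e16ST ((b : ℕ) : ℤ))⁻¹⟧ : J p)) = _
    rw [e16_qf_ST]
    set U : ℍ → ℂ := heckeU 2 p ⇑g with hU
    have hUn : QNice U := e16_nice_heckeU p (QNice.of_Gamma0 g) 2
    have hUq : qExpansion 1 U = e16V p (qExpansion 1 g) := e16_qExp_heckeU p (QNice.of_Gamma0 g) 2
    set φ : ℍ → ℍ := fun τ => heckeMatrix p (b : ℕ) • τ with hφ
    have hφ' : ∀ τ : ℍ, (φ τ : ℂ) = ((τ : ℂ) + ((b : ℕ) : ℝ)) / p := by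
      intro τ
      rw [hφ]
      simp only
      rw [coe_heckeMatrix_smul (NeZero.ne p)]
      push_cast
      rfl
    obtain ⟨hper, hq⟩ := e16_affine one_pos (e16c_per_of_nice hUn) p (NeZero.ne p) ((b : ℕ) : ℝ) φ hφ'
    have hfun : (⇑g ∣[(2 : ℤ)] e16ST ((b : ℕ) : ℤ)) = (-(p : ℂ)⁻¹) • (U ∘ φ) := by
      ext τ
      rw [e16_slash_ST_two_apply]
      simp [hU, hφ]
    refine ⟨cexp (2 * π * Complex.I * ((b : ℕ) : ℝ) / (p * (1 : ℝ))), ?_, ?_⟩
    · rw [← Complex.exp_nat_mul]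
      have hp0 : (p : ℂ) ≠ 0 := by exact_mod_cast NeZero.ne p
      have : (p : ℂ) * (2 * π * Complex.I * ((b : ℕ) : ℝ) / (p * (1 : ℝ))) =
          ((b : ℕ) : ℂ) * (2 * π * Complex.I) := by
        push_cast
        field_simp
      rw [this]
      exact Complex.exp_nat_mul_two_pi_mul_I _
    · rw [hfun]
      have h2 := e16_qExp_expand (mul_pos (Nat.cast_pos.mpr (NeZero.pos p)) one_pos) m hm
        (hper.smul (-(p : ℂ)⁻¹))
      have hcast : ((m * p : ℕ) : ℝ) = (m : ℝ) * ((p : ℝ) * 1) := by push_cast; ring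
      rw [hcast, h2, e16_qExp_smul (mul_pos (Nat.cast_pos.mpr (NeZero.pos p)) one_pos) _ hper,
        hq, hUq]

/-! ### power series congruences -/

theorem e16c_V_one (p : ℕ) (hp : p ≠ 0) : e16V p 1 = 1 := by
  ext n
  rw [e16V_coeff, PowerSeries.coeff_one, PowerSeries.coeff_one]
  simp [hp]

/-- If `A ≡ 1`, then `expand m (u • rescale ζ (V_p A)) ≡ 1` for `u ≡ 1`. -/
theorem e16c_cong_conj {R : Subring ℂ} {ℓ : ℂ} {A : PowerSeries ℂ} (hA : E16Cong R ℓ A 1)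
    (p : ℕ) (hp : p ≠ 0) (m : ℕ) (hm : m ≠ 0) {ζ u : ℂ} (hζ : ζ ∈ R) (hu : u ∈ R)
    (hu1 : u - 1 ∈ e16lR R ℓ) :
    E16Cong R ℓ (PowerSeries.expand m hm (u • PowerSeries.rescale ζ (e16V p A))) 1 := by
  have h1 : E16Cong R ℓ (u • PowerSeries.rescale ζ (e16V p A)) 1 := by
    intro n
    rw [PowerSeries.coeff_smul, PowerSeries.coeff_rescale, e16V_coeff, smul_eq_mul,
      PowerSeries.coeff_one]
    have hAn := hA (n * p)
    rw [PowerSeries.coeff_one] at hAn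
    rcases Nat.eq_zero_or_pos n with rfl | hn
    · simp only [zero_mul, if_true, pow_zero, one_mul] at hAn ⊢
      have : u * PowerSeries.coeff 0 A - 1 = u * (PowerSeries.coeff 0 A - 1) + (u - 1) := by ring
      rw [this]
      exact (e16lR R ℓ).add_mem (e16lR_mul_left hu hAn) hu1
    · have hnp : n * p ≠ 0 := mul_ne_zero hn.ne' hp
      rw [if_neg hnp, sub_zero] at hAn
      rw [if_neg hn.ne', sub_zero]
      exact e16lR_mul_left hu (e16lR_mul_left (R.pow_mem hζ n) hAn)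
  have h2 := h1.expand m hm
  rwa [map_one] at h2

/-- If `P ≡ 1 mod 8R` then `(P - 1)/4 + Z ≡ Z mod 2R`. -/
theorem e16c_quarter {R : Subring ℂ} {P : PowerSeries ℂ} (hP : E16Cong R 8 P 1)
    (Z : PowerSeries ℂ) : E16Cong R 2 Z ((1 / 4 : ℂ) • (P - 1) + Z) := by
  intro j
  obtain ⟨r, hr, hrx⟩ := mem_e16lR.mp (hP j)
  refine mem_e16lR.mpr ⟨-r, R.neg_mem hr, ?_⟩
  rw [map_add, PowerSeries.coeff_smul, map_sub, smul_eq_mul, ← hrx]
  ring

/-- Leading term of a conjugate lying over the cusp `∞` of `Γ₀(3)`. -/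
theorem e16c_lead_one {R : Subring ℂ} (h2 : (2 : ℂ) ∈ R) (h3 : (3 : ℂ) ∈ R)
    {P S : PowerSeries ℂ} (hP : E16Cong R 8 P 1)
    (hS : E16Int R S) (hS0 : PowerSeries.coeff 0 S = 0) (hS1 : PowerSeries.coeff 1 S = 1)
    (N : ℕ) (hN : N ≠ 0) :
    E16Lead R 2 ((1 / 4 : ℂ) • (P - PowerSeries.expand N hN (1 + (12 : ℂ) • S))) N (-3) := by
  have hZ : E16Lead R 2 ((-3 : ℂ) • PowerSeries.expand N hN S) N (-3) := by
    refine E16Lead.of_order (E16Int.smul (R.neg_mem h3) (hS.expand N hN)) (fun j hj => ?_) ?_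
    · rw [PowerSeries.coeff_smul, PowerSeries.coeff_expand]
      split_ifs with hd
      · have hj0 : j = 0 := Nat.eq_zero_of_dvd_of_lt hd hj
        subst hj0
        simp [hS0]
      · simp
    · have := PowerSeries.coeff_expand_mul N hN S 1
      rw [mul_one] at this
      rw [PowerSeries.coeff_smul, this, hS1]
      simp
  have hY : (1 / 4 : ℂ) • (P - PowerSeries.expand N hN (1 + (12 : ℂ) • S)) =
      (1 / 4 : ℂ) • (P - 1) + (-3 : ℂ) • PowerSeries.expand N hN S := by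
    rw [map_add, map_one, map_smul]
    ext j
    simp only [map_add, map_sub, PowerSeries.coeff_smul, smul_eq_mul]
    ring
  rw [hY]
  have hc := e16c_quarter hP ((-3 : ℂ) • PowerSeries.expand N hN S)
  exact hZ.congr hc (hc.int_right hZ.int h2)

/-- Leading term of a conjugate lying over the cusp `0` of `Γ₀(3)`. -/
theorem e16c_lead_unit {R : Subring ℂ} (h2 : (2 : ℂ) ∈ R) (h3 : (3 : ℂ)⁻¹ ∈ R)
    {P S : PowerSeries ℂ} (hP : E16Cong R 8 P 1)
    (hS : E16Int R S) (hS0 : PowerSeries.coeff 0 S = 0) {ζ : ℂ} (hζ : ζ ∈ R)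
    (m : ℕ) (hm : m ≠ 0) :
    E16Lead R 2 ((1 / 4 : ℂ) • (P - PowerSeries.expand m hm
      ((-((3 : ℕ) : ℂ)⁻¹) • PowerSeries.rescale ζ (1 + (12 : ℂ) • S)))) 0 (3 : ℂ)⁻¹ := by
  set Z₀ : PowerSeries ℂ := PowerSeries.C (3 : ℂ)⁻¹ + PowerSeries.rescale ζ S with hZ₀
  have hZ0 : E16Lead R 2 Z₀ 0 (3 : ℂ)⁻¹ := by
    refine E16Lead.of_order ?_ (fun j hj => absurd hj (Nat.not_lt_zero j)) ?_
    · intro j
      rw [hZ₀, map_add, PowerSeries.coeff_rescale, PowerSeries.coeff_C]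
      refine R.add_mem ?_ (R.mul_mem (R.pow_mem hζ j) (hS j))
      split_ifs
      · exact h3
      · exact R.zero_mem
    · rw [hZ₀, map_add, PowerSeries.coeff_rescale, hS0]
      simp
  have hZ := hZ0.expand m hm
  rw [Nat.mul_zero] at hZ
  have hW : (-((3 : ℕ) : ℂ)⁻¹) • PowerSeries.rescale ζ (1 + (12 : ℂ) • S) =
      1 - (4 : ℂ) • Z₀ := by
    ext j
    rw [hZ₀]
    simp only [map_add, map_sub, PowerSeries.coeff_smul, smul_eq_mul, PowerSeries.coeff_rescale,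
      PowerSeries.coeff_one, PowerSeries.coeff_C]
    rcases Nat.eq_zero_or_pos j with rfl | hj
    · simp only [if_true, pow_zero, one_mul, hS0]
      push_cast
      ring
    · simp only [if_neg hj.ne']
      push_cast
      ring
  have hY : (1 / 4 : ℂ) • (P - PowerSeries.expand m hm
      ((-((3 : ℕ) : ℂ)⁻¹) • PowerSeries.rescale ζ (1 + (12 : ℂ) • S))) =
      (1 / 4 : ℂ) • (P - 1) + PowerSeries.expand m hm Z₀ := by
    rw [hW, map_sub, map_one, map_smul]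
    ext j
    simp only [map_add, map_sub, PowerSeries.coeff_smul, smul_eq_mul]
    ring
  rw [hY]
  have hc := e16c_quarter hP (PowerSeries.expand m hm Z₀)
  exact hZ.congr hc (hc.int_right hZ.int h2)

/-! ### the forms -/

/-- the series `∑_{k ≥ 1} δ_k q^k` of level `N` -/
noncomputable def e16cS (N : ℕ) : PowerSeries ℂ :=
  PowerSeries.mk fun k => if k = 0 then 0 else (e16δ N k : ℂ)

theorem e16cS_int (N : ℕ) (R : Subring ℂ) : E16Int R (e16cS N) := fun j => by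
  rw [e16cS, PowerSeries.coeff_mk]
  split_ifs
  · exact R.zero_mem
  · exact intCast_mem R _

theorem e16cS_zero (N : ℕ) : PowerSeries.coeff 0 (e16cS N) = 0 := by
  rw [e16cS, PowerSeries.coeff_mk, if_pos rfl]

theorem e16c_qExp_A (N : ℕ) [Fact N.Prime] (hN : (N : ℂ) - 1 ≠ 0) :
    qExpansion 1 ⇑((24 / ((N : ℂ) - 1)) • e16Eis N) = 1 + (24 / ((N : ℂ) - 1)) • e16cS N := by
  have h1 : ⇑((24 / ((N : ℂ) - 1)) • e16Eis N) = (24 / ((N : ℂ) - 1)) • ⇑(e16Eis N) := rfl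
  rw [h1, e16tr_qExp_smul (QNice.of_Gamma0 _)]
  ext n
  rw [PowerSeries.coeff_smul, e16Eis_qExpansion_coeff, map_add, PowerSeries.coeff_smul,
    PowerSeries.coeff_one, e16cS, PowerSeries.coeff_mk, e16Ec]
  rcases Nat.eq_zero_or_pos n with rfl | hn
  · simp only [if_true, smul_eq_mul, mul_zero, add_zero]
    field_simp
  · simp only [if_neg hn.ne', smul_eq_mul, zero_add]

theorem e16c_qf_comb {N₁ N₂ M : ℕ} [NeZero N₁] [NeZero N₂] [NeZero M] (h₁ : N₁ ∣ M) (h₂ : N₂ ∣ M)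
    {k : ℤ} (g₁ : ModularForm (CongruenceSubgroup.Gamma0 N₁) k)
    (g₂ : ModularForm (CongruenceSubgroup.Gamma0 N₂) k) (c : ℂ)
    (r : (𝒮ℒ : Subgroup (GL (Fin 2) ℝ))) :
    quotientFunc (c • (e16cLift h₁ g₁ - e16cLift h₂ g₂)) (⟦r⟧ : J M) =
      c • (quotientFunc g₁ (⟦r⟧ : J N₁) - quotientFunc g₂ (⟦r⟧ : J N₂)) := by
  rw [quotientFunc_mk, quotientFunc_mk, quotientFunc_mk]
  obtain ⟨ρ, hρ⟩ := e16_toSL_surj r⁻¹
  have h : (r : GL (Fin 2) ℝ)⁻¹ = mapGL ℝ ρ := by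
    have := congrArg Subtype.val hρ
    simpa [toSL] using this.symm
  have hcoe : ⇑(c • (e16cLift h₁ g₁ - e16cLift h₂ g₂)) = c • (⇑g₁ - ⇑g₂) := rfl
  rw [h, hcoe, ← e16_SL_slash, ← e16_SL_slash, ← e16_SL_slash, SL_smul_slash, e16_SL_slash,
    e16_sub_slash]
  rfl

/-- The normalised difference `G₀ = (E - f)/c₀` is `≡ 1 mod 8R`. -/
theorem e16c_G_cong (p : ℕ) [Fact p.Prime] (hp8 : p % 8 = 7)
    (f : CuspForm (CongruenceSubgroup.Gamma0 p) 2)
    (hf : ∀ k : ℕ, 1 ≤ k → ∃ c : ℤ, ModularFormClass.qCoeff (⇑f) k = (c : ℂ) ∧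
      (2 : ℤ) ∣ c - e16δ p k)
    (R : Subring ℂ) (hinv : ∀ b : ℤ, IsCoprime b ((2 : ℕ) : ℤ) → ((b : ℂ)⁻¹ ∈ R)) :
    E16Cong R 8 (qExpansion 1
      ⇑((24 / ((p : ℂ) - 1)) • (e16Eis p - CuspForm.toModularFormₗ f))) 1 := by
  have hp : p.Prime := Fact.out
  obtain ⟨s, hs⟩ : ∃ s : ℕ, p = 8 * s + 7 := ⟨p / 8, by omega⟩
  have hp1 : (p : ℂ) - 1 = 2 * ((4 * s + 3 : ℤ) : ℂ) := by
    rw [hs]; push_cast; ring
  have ht : ((4 * s + 3 : ℤ) : ℂ)⁻¹ ∈ R := hinv _ ⟨1, -(2 * s + 1), by push_cast; ring⟩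
  have ht0 : ((4 * s + 3 : ℤ) : ℂ) ≠ 0 := by
    have : (4 * (s : ℤ) + 3) ≠ 0 := by omega
    exact_mod_cast this
  have hcoe : ⇑((24 / ((p : ℂ) - 1)) • (e16Eis p - CuspForm.toModularFormₗ f)) =
      (24 / ((p : ℂ) - 1)) • (⇑(e16Eis p) - ⇑f) := rfl
  have hE : E16Per 1 (⇑(e16Eis p)) := e16c_per_of_nice (QNice.of_Gamma0 _)
  have hfper : E16Per 1 (⇑f) :=
    E16Per.of_modularForm f one_pos (CongruenceSubgroup.one_mem_strictPeriods_Gamma0 p)
  rw [hcoe, e16_qExp_smul one_pos _ (hE.sub hfper), e16_qExp_sub one_pos hE hfper]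
  intro j
  rw [PowerSeries.coeff_smul, map_sub, e16Eis_qExpansion_coeff, e16Ec, PowerSeries.coeff_one,
    smul_eq_mul]
  rcases Nat.eq_zero_or_pos j with rfl | hj
  · have h0 : PowerSeries.coeff 0 (qExpansion 1 ⇑f) = 0 :=
      CuspFormClass.qExpansion_coeff_zero f one_pos
        (CongruenceSubgroup.one_mem_strictPeriods_Gamma0 p)
    rw [if_pos rfl, if_pos rfl, h0, hp1]
    have : 24 / (2 * ((4 * s + 3 : ℤ) : ℂ)) * (2 * ((4 * s + 3 : ℤ) : ℂ) / 24 - 0) - 1 = 0 := by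
      field_simp
      ring
    rw [this]
    exact (e16lR R 8).zero_mem
  · obtain ⟨c, hc, m, hm⟩ := hf j hj
    have hc' : PowerSeries.coeff j (qExpansion 1 ⇑f) = (c : ℂ) := hc
    rw [if_neg hj.ne', if_neg hj.ne', hc', sub_zero, hp1]
    have hcm : (c : ℂ) = (e16δ p j : ℂ) + 2 * (m : ℂ) := by
      have : c = e16δ p j + 2 * m := by linarith
      rw [this]; push_cast; ring
    refine mem_e16lR.mpr ⟨-(3 * (m : ℂ)) * ((4 * s + 3 : ℤ) : ℂ)⁻¹,
      R.mul_mem (R.neg_mem (R.mul_mem (by exact_mod_cast intCast_mem R 3) (intCast_mem R m))) ht, ?_⟩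
    rw [hcm]
    field_simp
    ring

/-- **Upper bound, case (C)**: for `p ≡ 7 mod 8` no cusp form of level `Γ₀(p)` with integral
`q`-expansion is congruent to the Eisenstein series modulo `2`. -/
theorem e16_caseC (p : ℕ) [Fact p.Prime] (hp8 : p % 8 = 7)
    (f : CuspForm (CongruenceSubgroup.Gamma0 p) 2)
    (hf : ∀ k : ℕ, 1 ≤ k → ∃ c : ℤ, ModularFormClass.qCoeff (⇑f) k = (c : ℂ) ∧
      (2 : ℤ) ∣ c - e16δ p k) : False := by
  classical
  have hp : p.Prime := Fact.out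
  have hp0 : p ≠ 0 := hp.ne_zero
  have : NeZero (3 * p) := ⟨by positivity⟩
  obtain ⟨R, -, hnon, hinv, hroot⟩ := e16_exists_ring 2 (by norm_num)
  obtain ⟨s, hs⟩ : ∃ s : ℕ, p = 8 * s + 7 := ⟨p / 8, by omega⟩
  have h2R : (2 : ℂ) ∈ R := by exact_mod_cast intCast_mem R 2
  have h3R : (3 : ℂ) ∈ R := by exact_mod_cast intCast_mem R 3
  have h3i : (3 : ℂ)⁻¹ ∈ R := by
    have := hinv 3 ⟨1, -1, by norm_num⟩
    exact_mod_cast this
  have hpi : (p : ℂ)⁻¹ ∈ R := by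
    have := hinv (p : ℤ) ⟨1, -(4 * s + 3), by rw [hs]; push_cast; ring⟩
    exact_mod_cast this
  have hpC : (p : ℂ) ≠ 0 := by exact_mod_cast hp0
  have hu1 : -(p : ℂ)⁻¹ - 1 ∈ e16lR R 8 := by
    refine mem_e16lR.mpr ⟨-((s : ℂ) + 1) * (p : ℂ)⁻¹,
      R.mul_mem (R.neg_mem (by exact_mod_cast intCast_mem R ((s : ℤ) + 1))) hpi, ?_⟩
    field_simp
    rw [hs]; push_cast; ring
  -- the forms
  set G₀ : ModularForm (CongruenceSubgroup.Gamma0 p) 2 :=
    (24 / ((p : ℂ) - 1)) • (e16Eis p - CuspForm.toModularFormₗ f) with hG₀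
  set A : ModularForm (CongruenceSubgroup.Gamma0 3) 2 := (12 : ℂ) • e16Eis 3 with hA
  have hGc : E16Cong R 8 (qExpansion 1 ⇑G₀) 1 := e16c_G_cong p hp8 f hf R hinv
  have hAq : qExpansion 1 ⇑A = 1 + (12 : ℂ) • e16cS 3 := by
    have h12 : (12 : ℂ) = 24 / (((3 : ℕ) : ℂ) - 1) := by norm_num
    rw [hA, h12]
    exact e16c_qExp_A 3 (by norm_num)
  have hS1 : PowerSeries.coeff 1 (e16cS 3) = 1 := by
    rw [e16cS, PowerSeries.coeff_mk, if_neg one_ne_zero, e16δ_one]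
    simp
  have hd3 : (3 : ℕ) ∣ 3 * p := Dvd.intro p rfl
  have hdp : p ∣ 3 * p := Dvd.intro_left 3 rfl
  set h : ModularForm (CongruenceSubgroup.Gamma0 (3 * p)) 2 :=
    (1 / 4 : ℂ) • (e16cLift hdp G₀ - e16cLift hd3 A) with hh
  have : Finite (e16cFib 3 (3 * p)) := e16cFib_finite 3 (3 * p) hd3
  let _ : Fintype (e16cFib 3 (3 * p)) := Fintype.ofFinite _
  have hn0 : (0 : ℝ) < ((3 * p : ℕ) : ℝ) := by positivity
  refine e16_norm_contra h (3 * p) (by positivity) (e16cEquiv hd3)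
    (fun i => e16_per_quotientFunc h (3 * p) (by positivity) (e16c_conj_T_mem (3 * p)) _) R 2
    (by exact_mod_cast hnon) (fun i => if i.1 = ⟦1⟧ then p * 3 else 0)
    (fun i => if i.1 = ⟦1⟧ then -3 else (3 : ℂ)⁻¹) ?_ ?_ ?_
  · intro i
    obtain ⟨r, hr⟩ : ∃ r : (𝒮ℒ : Subgroup (GL (Fin 2) ℝ)), (⟦r⟧ : J (3 * p)) = e16cEquiv hd3 i :=
      Quotient.exists_rep _
    have hi1 : (⟦r⟧ : J 3) = i.1 := e16cEquiv_fst hd3 i r hr
    rw [← hr, hh, e16c_qf_comb hdp hd3 G₀ A (1 / 4) r]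
    have hperG : E16Per ((3 * p : ℕ) : ℝ) (quotientFunc G₀ (⟦r⟧ : J p)) :=
      e16_per_quotientFunc G₀ (3 * p) (by positivity)
        (fun g hg => e16c_Gamma0_le_GL hdp (e16c_conj_T_mem (3 * p) g hg)) _
    have hperA : E16Per ((3 * p : ℕ) : ℝ) (quotientFunc A (⟦r⟧ : J 3)) :=
      e16_per_quotientFunc A (3 * p) (by positivity)
        (fun g hg => e16c_Gamma0_le_GL hd3 (e16c_conj_T_mem (3 * p) g hg)) _
    rw [e16_qExp_smul hn0 _ (hperG.sub hperA), e16_qExp_sub hn0 hperG hperA]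
    -- the `G₀`-part is `≡ 1 mod 8R`
    have hP : E16Cong R 8 (qExpansion ((3 * p : ℕ) : ℝ) (quotientFunc G₀ (⟦r⟧ : J p))) 1 := by
      rcases e16c_conj p G₀ 3 (by norm_num) (⟦r⟧ : J p) with ⟨-, h1⟩ | ⟨-, ζ, hζ, h1⟩
      · rw [h1]
        have := hGc.expand (3 * p) (mul_ne_zero (by norm_num) (NeZero.ne p))
        rwa [map_one] at this
      · rw [h1]
        exact e16c_cong_conj hGc p hp0 3 (by norm_num) (hroot ζ p hp0 hζ) (R.neg_mem hpi) hu1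
    have h33 : ((3 * p : ℕ) : ℝ) = ((p * 3 : ℕ) : ℝ) := by rw [Nat.mul_comm]
    rcases e16c_conj 3 A p hp0 (⟦r⟧ : J 3) with ⟨hq, h1⟩ | ⟨hq, ζ, hζ, h1⟩
    · rw [hi1] at hq
      rw [h33] at hP ⊢
      simp only [hq, if_true]
      rw [h1, hAq]
      exact e16c_lead_one h2R h3R hP (e16cS_int 3 R) (e16cS_zero 3) hS1 (p * 3) _
    · rw [hi1] at hq
      rw [h33] at hP ⊢
      simp only [hq, if_false]
      rw [h1, hAq, e16V_add, e16c_V_one 3 (by norm_num), e16V_smul]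
      refine e16c_lead_unit h2R h3i hP (S := e16V 3 (e16cS 3)) (fun j => ?_) ?_
        (hroot ζ 3 (by norm_num) hζ) p hp0
      · rw [e16V_coeff]; exact e16cS_int 3 R _
      · rw [e16V_coeff, zero_mul, e16cS_zero]
  · intro i
    by_cases hi : i.1 = ⟦1⟧
    · refine ⟨-(3 : ℂ)⁻¹, R.neg_mem h3i, ?_⟩
      simp only [hi, if_true]
      norm_num
    · refine ⟨3, h3R, ?_⟩
      simp only [hi, if_false]
      norm_num
  · have hcJ : Fintype.card (J 3) = 4 := by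
      rw [← Nat.card_eq_fintype_card, e16_card_J 3]
    have hpos : 0 < Fintype.card (e16cFib 3 (3 * p)) := Fintype.card_pos_iff.mpr ⟨⟦1⟧⟩
    have hsum : (∑ i : J 3 × e16cFib 3 (3 * p), (if i.1 = ⟦1⟧ then p * 3 else 0) : ℕ) =
        Fintype.card (e16cFib 3 (3 * p)) * (p * 3) := by
      rw [Fintype.sum_prod_type]
      have hx : ∀ x : J 3, (∑ _y : e16cFib 3 (3 * p), (if x = ⟦1⟧ then p * 3 else 0)) =
          if x = ⟦1⟧ then Fintype.card (e16cFib 3 (3 * p)) * (p * 3) else 0 := by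
        intro x
        split_ifs <;> simp
      simp only [hx]
      rw [Finset.sum_ite_eq']
      simp
    rw [hsum, Fintype.card_prod, hcJ]
    have hppos : 0 < p := hp.pos
    have : 0 < Fintype.card (e16cFib 3 (3 * p)) * p := Nat.mul_pos hpos hppos
    push_cast
    have h' : (0 : ℤ) < (Fintype.card (e16cFib 3 (3 * p)) : ℤ) * (p : ℤ) := by exact_mod_cast this
    nlinarith

end Fermat.Agent.E16
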