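import Fermat.Agent.Lib.E16_Defs

set_option autoImplicit false
set_option linter.unusedSectionVars false

/-!
# S16, (R) duality (helper4): the pairing `T × L → ℤ` is perfect

`e16_tk` : for every `k ≥ 1` an element `t_k` of the abstract Hecke algebra with
`a_1(t_k f) = a_k(f)` on the lattice and Eisenstein value `δ_k`;
`e16_dual` : every linear form on the integral Hecke algebra is `τ ↦ a_1(τ f)` for a lattice
element `f`;
`e16_upper` : if `m` divides the Eisenstein value of every element of the kernel of `θ`, there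
is a lattice element congruent to the Eisenstein coefficients modulo `m`.
-/

namespace Fermat.Agent.E16

open ModularCurve CuspForm ModularFormClass

variable (p : ℕ) [Fact p.Prime]

theorem e16θ_sub_apply (s t : HeckeAlg) (f : e16L p) :
    ((e16θ p (s - t) : e16T p) : Module.End ℤ (e16L p)) f
      = ((e16θ p s : e16T p) : Module.End ℤ (e16L p)) f
        - ((e16θ p t : e16T p) : Module.End ℤ (e16L p)) f := by
  rw [map_sub]
  rfl

theorem e16θ_one_apply (f : e16L p) :
    ((e16θ p 1 : e16T p) : Module.End ℤ (e16L p)) f = f := by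
  rw [map_one]
  rfl

/-- **the Hecke operators `T_k`** -/
theorem e16_tk (k : ℕ) (hk : 1 ≤ k) :
    ∃ t : HeckeAlg,
      (∀ f : e16L p, e16a p (((e16θ p t : e16T p) : Module.End ℤ (e16L p)) f) 1 = e16a p f k) ∧
        e16χ p t = e16δ p k := by
  induction k using Nat.strong_induction_on with
  | _ k ih =>
    rcases Nat.lt_or_ge 1 k with hk1 | hk1
    swap
    · have hk1' : k = 1 := le_antisymm hk1 hk
      subst hk1'
      exact ⟨1, fun f => by rw [e16θ_one_apply], by rw [map_one, e16δ_one]⟩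
    have hℓ : k.minFac.Prime := Nat.minFac_prime (by omega)
    obtain ⟨k', hk'⟩ : k.minFac ∣ k := Nat.minFac_dvd k
    obtain ⟨ℓ, hℓdef⟩ : ∃ ℓ, ℓ = k.minFac := ⟨_, rfl⟩
    rw [← hℓdef] at hℓ hk'
    have hℓ2 : 2 ≤ ℓ := hℓ.two_le
    have hk'pos : 1 ≤ k' := by
      rcases Nat.eq_zero_or_pos k' with h | h
      · rw [h, mul_zero] at hk'
        omega
      · exact h
    have hk'lt : k' < k := by
      rw [hk']
      nlinarith
    have hkeq : k = k' * ℓ := by rw [hk', mul_comm]
    obtain ⟨t', ht'1, ht'2⟩ := ih k' hk'lt hk'pos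
    obtain ⟨L, hL⟩ : ∃ L : Nat.Primes, (L : ℕ) = ℓ := ⟨⟨ℓ, hℓ⟩, rfl⟩
    by_cases hℓp : ℓ = p
    · have hLp : (L : ℕ) = p := hL.trans hℓp
      refine ⟨t' * heckeGen L, fun f => ?_, ?_⟩
      · rw [e16θ_mul_apply, ht'1, e16a_U p L hLp, hL, hkeq]
      · rw [map_mul, ht'2, e16χ_gen_eq p L hLp, mul_one, hkeq, hℓp, e16δ_mul_p]
    · have hLp : (L : ℕ) ≠ p := fun h => hℓp (hL.symm.trans h)
      have hδ := e16δ_mul_prime p ℓ hℓ hℓp k'
      by_cases hd : ℓ ∣ k'
      · obtain ⟨k'', hk''⟩ := hd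
        have hk''pos : 1 ≤ k'' := by
          rcases Nat.eq_zero_or_pos k'' with h | h
          · rw [h, mul_zero] at hk''
            omega
          · exact h
        have hk''lt : k'' < k := by
          have : k'' < k' := by
            rw [hk'']
            nlinarith
          omega
        have hdiv : k' / ℓ = k'' := by
          rw [hk'']
          exact Nat.mul_div_cancel_left k'' hℓ.pos
        obtain ⟨t'', ht''1, ht''2⟩ := ih k'' hk''lt hk''pos
        rw [if_pos ⟨k'', hk''⟩, hdiv] at hδ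
        refine ⟨t' * heckeGen L - MvPolynomial.C (ℓ : ℤ) * t'', fun f => ?_, ?_⟩
        · rw [e16θ_sub_apply, e16a_sub, e16θ_mul_apply, ht'1, e16a_T p L hLp, e16θ_mul_apply,
            e16θ_C, e16a_zsmul, ht''1, hL, if_pos ⟨k'', hk''⟩, hdiv, hkeq]
          ring
        · rw [map_sub, map_mul, map_mul, ht'2, ht''2, e16χ_gen_ne p L hLp, e16χ_C, hL, hkeq]
          linarith
      · rw [if_neg hd, add_zero] at hδ
        refine ⟨t' * heckeGen L, fun f => ?_, ?_⟩
        · rw [e16θ_mul_apply, ht'1, e16a_T p L hLp, hL, if_neg hd, add_zero, hkeq]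
        · rw [map_mul, ht'2, e16χ_gen_ne p L hLp, hL, hkeq, hδ]
          ring

/-! ## the pairing -/

/-- the pairing `⟨τ, f⟩ = a_1(τ f)`, as a linear map `L → Hom(T, ℤ)` -/
noncomputable def e16pair : e16L p →ₗ[ℤ] (e16T p →ₗ[ℤ] ℤ) where
  toFun f :=
    { toFun := fun τ => e16a p ((τ : Module.End ℤ (e16L p)) f) 1
      map_add' := fun τ τ' => e16a_add p _ _ 1
      map_smul' := fun c τ => by
        show e16a p (c • ((τ : Module.End ℤ (e16L p)) f)) 1 = c • e16a p _ 1
        rw [e16a_zsmul, smul_eq_mul] }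
  map_add' f g := by
    ext τ
    show e16a p ((τ : Module.End ℤ (e16L p)) (f + g)) 1
      = e16a p ((τ : Module.End ℤ (e16L p)) f) 1 + e16a p ((τ : Module.End ℤ (e16L p)) g) 1
    rw [map_add, e16a_add]
  map_smul' c f := by
    ext τ
    show e16a p ((τ : Module.End ℤ (e16L p)) (c • f)) 1
      = c • e16a p ((τ : Module.End ℤ (e16L p)) f) 1
    rw [map_zsmul, e16a_zsmul, smul_eq_mul]

theorem e16pair_apply (f : e16L p) (τ : e16T p) :
    e16pair p f τ = e16a p ((τ : Module.End ℤ (e16L p)) f) 1 := rfl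

/-- nondegeneracy on the lattice side -/
theorem e16pair_injective : Function.Injective (e16pair p) := by
  rw [← LinearMap.ker_eq_bot, LinearMap.ker_eq_bot']
  intro f hf
  apply e16a_ext_pos
  intro k hk
  obtain ⟨t, ht, -⟩ := e16_tk p k hk
  rw [e16a_zero, ← ht f, ← e16pair_apply, hf]
  rfl

/-- nondegeneracy on the Hecke side -/
theorem e16pair_left (τ : e16T p)
    (h : ∀ f : e16L p, e16a p ((τ : Module.End ℤ (e16L p)) f) 1 = 0) : τ = 0 := by
  apply Subtype.ext
  apply LinearMap.ext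
  intro f
  apply e16a_ext_pos
  intro k hk
  obtain ⟨t, ht, -⟩ := e16_tk p k hk
  have hc : ((e16θ p t : e16T p) : Module.End ℤ (e16L p)) ((τ : Module.End ℤ (e16L p)) f)
      = (τ : Module.End ℤ (e16L p)) (((e16θ p t : e16T p) : Module.End ℤ (e16L p)) f) :=
    congrArg (fun σ : e16T p => (σ : Module.End ℤ (e16L p)) f) (mul_comm (e16θ p t) τ)
  rw [← ht ((τ : Module.End ℤ (e16L p)) f), hc, h]
  exact (e16a_zero p k).symm

/-- the pairing as a linear map `T → Hom(L, ℤ)` -/
noncomputable def e16pairT : e16T p →ₗ[ℤ] (e16L p →ₗ[ℤ] ℤ) where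
  toFun τ := (e16aLin p 1).comp (τ : Module.End ℤ (e16L p))
  map_add' τ τ' := by
    ext f
    show e16a p (((τ + τ' : e16T p) : Module.End ℤ (e16L p)) f) 1 = _
    exact e16a_add p _ _ 1
  map_smul' c τ := by
    ext f
    show e16a p (c • ((τ : Module.End ℤ (e16L p)) f)) 1 = c • e16a p _ 1
    rw [e16a_zsmul, smul_eq_mul]

theorem e16pairT_injective : Function.Injective (e16pairT p) := by
  rw [← LinearMap.ker_eq_bot, LinearMap.ker_eq_bot']
  intro τ hτ
  apply e16pair_left
  intro f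
  exact LinearMap.congr_fun hτ f

/-- the ranks agree -/
theorem e16_finrank_eq : Module.finrank ℤ (e16L p) = Module.finrank ℤ (e16T p) := by
  have := intLattice.moduleFinite p
  have := intLattice.moduleFree p
  apply le_antisymm
  · have h := LinearMap.finrank_le_finrank_of_injective (e16pair_injective p)
    rwa [Module.finrank_linearMap_self] at h
  · have h := LinearMap.finrank_le_finrank_of_injective (e16pairT_injective p)
    rwa [Module.finrank_linearMap_self] at h

/-- **duality**: every linear form on the Hecke algebra comes from the lattice -/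
theorem e16_dual (φ : e16T p →ₗ[ℤ] ℤ) :
    ∃ f : e16L p, ∀ τ : e16T p, φ τ = e16a p ((τ : Module.End ℤ (e16L p)) f) 1 := by
  have := intLattice.moduleFinite p
  have := intLattice.moduleFree p
  have hrank : Module.finrank ℤ (LinearMap.range (e16pair p))
      = Module.finrank ℤ (e16T p →ₗ[ℤ] ℤ) := by
    rw [LinearMap.finrank_range_of_inj (e16pair_injective p), e16_finrank_eq,
      Module.finrank_linearMap_self]
  have : Finite ((e16T p →ₗ[ℤ] ℤ) ⧸ LinearMap.range (e16pair p)) :=
    Submodule.finiteQuotientOfFreeOfRankEq _ hrank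
  obtain ⟨d, hd⟩ : ∃ d : ℕ, d = Nat.card ((e16T p →ₗ[ℤ] ℤ) ⧸ LinearMap.range (e16pair p)) :=
    ⟨_, rfl⟩
  have hdpos : 0 < d := by
    rw [hd]
    exact Nat.card_pos
  have hd0 : (d : ℤ) ≠ 0 := by exact_mod_cast hdpos.ne'
  have hmem : d • φ ∈ LinearMap.range (e16pair p) := by
    rw [← Submodule.Quotient.mk_eq_zero, Submodule.Quotient.mk_smul, hd]
    exact card_nsmul_eq_zero'
  obtain ⟨f, hf⟩ := hmem
  have hfτ : ∀ τ : e16T p, e16a p ((τ : Module.End ℤ (e16L p)) f) 1 = (d : ℤ) * φ τ := by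
    intro τ
    have h1 := LinearMap.congr_fun hf τ
    rw [e16pair_apply] at h1
    rw [h1, LinearMap.smul_apply, nsmul_eq_mul]
  have hdiv : ∀ k, (d : ℤ) ∣ e16a p f k := by
    intro k
    rcases Nat.eq_zero_or_pos k with rfl | hk
    · rw [e16a_coeff_zero]
      exact dvd_zero _
    · obtain ⟨t, ht, -⟩ := e16_tk p k hk
      rw [← ht f, hfτ]
      exact Dvd.intro _ rfl
  obtain ⟨g, hg⟩ := e16_div p f d hd0 hdiv
  refine ⟨g, fun τ => ?_⟩
  have h1 := hfτ τ
  rw [← hg, map_zsmul, e16a_zsmul] at h1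
  exact (mul_left_cancel₀ hd0 h1).symm

/-- **the upper congruence**: if `m` divides the Eisenstein value of every element of the
kernel of `θ`, some lattice element is congruent to the Eisenstein coefficients modulo `m` -/
theorem e16_upper (m : ℤ) (hm : ∀ t : HeckeAlg, e16θ p t = 0 → m ∣ e16χ p t) :
    ∃ f : e16L p, ∀ k : ℕ, 1 ≤ k → m ∣ e16a p f k - e16δ p k := by
  obtain ⟨s, hs⟩ := Module.projective_lifting_property
    ((e16θ p).toAddMonoidHom.toIntLinearMap : HeckeAlg →ₗ[ℤ] e16T p)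
    (LinearMap.id : e16T p →ₗ[ℤ] e16T p) (e16θ_surjective p)
  obtain ⟨f, hf⟩ := e16_dual p
    (((e16χ p).toAddMonoidHom.toIntLinearMap : HeckeAlg →ₗ[ℤ] ℤ).comp s)
  refine ⟨f, fun k hk => ?_⟩
  obtain ⟨t, ht1, ht2⟩ := e16_tk p k hk
  have h0 : e16θ p (s (e16θ p t)) = e16θ p t := LinearMap.congr_fun hs (e16θ p t)
  have h1 : e16θ p (t - s (e16θ p t)) = 0 := by
    rw [map_sub, h0, sub_self]
  have h2 := hm _ h1
  rw [map_sub] at h2
  have h3 : e16χ p (s (e16θ p t)) = e16a p f k := by
    rw [← ht1 f, ← hf (e16θ p t)]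
    rfl
  rw [h3, ht2] at h2
  have h4 : e16a p f k - e16δ p k = -(e16δ p k - e16a p f k) := by ring
  rw [h4]
  exact (dvd_neg).mpr h2

end Fermat.Agent.E16
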