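import Fermat.Agent.S21
import Fermat.Prelude.Def_CuspForm_HeckeEvalForms
import Fermat.Prelude.Def_HeckeGalois_EichlerShimura

set_option autoImplicit false
set_option linter.unusedSectionVars false

/-!
# S16, lower bound (LB0): the algebraic core (helper7)

`G = Γ₀(p)`.  Given two homomorphisms `φ, c : G → ℤ` such that `(p - 1) c - φ` is parabolic, and
such that the Hecke operators act on the periods of cusp forms by a coset formula for which `φ`
is an Eisenstein eigenvector (`E16lbHecke`), every Hecke polynomial `t` that kills `S₂(Γ₀(p))`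
satisfies `(p - 1) ∣ χ(t) φ(γ)` for all `γ`, where `χ` is the Eisenstein character.

The proof transports the Hecke algebra to the parabolic homomorphisms through the
Eichler–Shimura isomorphism `periodHomPair` (S21) and uses that it preserves integrality.
-/

namespace Fermat.Agent.E16

open CongruenceSubgroup ModularCurve ModularCurve.Period CuspForm

variable (p : ℕ) [Fact p.Prime]

/-- integrality of a complex-valued homomorphism -/
def e16lbInt (ψ : Additive (Gamma0 p) →+ ℂ) : Prop := ∀ γ, ∃ n : ℤ, ψ γ = n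

/-- **Hecke data** (the output of LB2): a coset formula for the periods of `T_ℓ f`
(resp. `U_p f`), also at the conjugate `jConjGamma0 γ`, for which `φ` is an Eisenstein
eigenvector. -/
def E16lbHecke (φ : Additive (Gamma0 p) →+ ℤ) : Prop :=
  ∀ (ℓ : Nat.Primes) (γ : Gamma0 p), ∃ (ι : Type) (_ : Fintype ι) (g' : ι → Gamma0 p),
    (∀ f : CuspForm (Gamma0 p) 2,
      periodMap p ((heckeFormsGen p 2 ℓ).1 f) (Additive.ofMul γ) =
        ∑ i, periodMap p f (Additive.ofMul (g' i))) ∧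
    (∀ f : CuspForm (Gamma0 p) 2,
      periodMap p ((heckeFormsGen p 2 ℓ).1 f) (Additive.ofMul (jConjGamma0 p γ)) =
        ∑ i, periodMap p f (Additive.ofMul (jConjGamma0 p (g' i)))) ∧
    ∑ i, φ (Additive.ofMul (g' i)) = eisensteinSystem p ℓ * φ (Additive.ofMul γ)

/-- the period pair in terms of the period map -/
theorem e16lb_per_apply (f₁ f₂ : CuspForm (Gamma0 p) 2) (γ : Gamma0 p) :
    periodHomPair p (f₁, f₂) (Additive.ofMul γ) =
      periodMap p f₁ (Additive.ofMul γ) + periodMap p f₁ (Additive.ofMul (jConjGamma0 p γ)) +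
        (periodMap p f₂ (Additive.ofMul γ) -
          periodMap p f₂ (Additive.ofMul (jConjGamma0 p γ))) := by
  obtain ⟨pml, hpml, hdef⟩ := periodHomPair_def p (Fermat.Agent.ES.existsPeriodMapLinear p)
  rw [hdef]
  simp only [LinearMap.coprod_apply, LinearMap.comp_apply, LinearMap.add_apply,
    LinearMap.sub_apply, LinearMap.id_apply, AddMonoidHom.add_apply, AddMonoidHom.sub_apply,
    charInvolution_apply, toMul_ofMul, hpml]

/-- the action of an endomorphism on pairs -/
noncomputable def e16lbPM (s : Module.End ℂ (CuspForm (Gamma0 p) 2)) :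
    (CuspForm (Gamma0 p) 2 × CuspForm (Gamma0 p) 2) →ₗ[ℂ]
      (CuspForm (Gamma0 p) 2 × CuspForm (Gamma0 p) 2) :=
  LinearMap.prodMap s s

theorem e16lbPM_apply (s : Module.End ℂ (CuspForm (Gamma0 p) 2))
    (v : CuspForm (Gamma0 p) 2 × CuspForm (Gamma0 p) 2) :
    e16lbPM p s v = (s v.1, s v.2) := rfl

/-- the coset formula for the period pair -/
theorem e16lb_pair_hecke (φ : Additive (Gamma0 p) →+ ℤ) (hH : E16lbHecke p φ) (ℓ : Nat.Primes)
    (γ : Gamma0 p) :
    ∃ (ι : Type) (_ : Fintype ι) (g' : ι → Gamma0 p),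
      (∀ v : CuspForm (Gamma0 p) 2 × CuspForm (Gamma0 p) 2,
        periodHomPair p (e16lbPM p (heckeFormsGen p 2 ℓ).1 v) (Additive.ofMul γ) =
          ∑ i, periodHomPair p v (Additive.ofMul (g' i))) ∧
      ∑ i, φ (Additive.ofMul (g' i)) = eisensteinSystem p ℓ * φ (Additive.ofMul γ) := by
  obtain ⟨ι, hι, g', h1, h2, h3⟩ := hH ℓ γ
  refine ⟨ι, hι, g', fun v => ?_, h3⟩
  obtain ⟨f₁, f₂⟩ := v
  rw [e16lbPM_apply, e16lb_per_apply, h1, h2, h1, h2]
  simp only [e16lb_per_apply, Finset.sum_add_distrib, Finset.sum_sub_distrib]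

/-- the endomorphisms preserving the integrality of the period pair -/
noncomputable def e16lbS : Subalgebra ℤ (Module.End ℂ (CuspForm (Gamma0 p) 2)) where
  carrier := {s | ∀ v, e16lbInt p (periodHomPair p v) →
    e16lbInt p (periodHomPair p (e16lbPM p s v))}
  mul_mem' := by
    intro s s' hs hs' v hv
    exact hs _ (hs' v hv)
  one_mem' := fun v hv => hv
  add_mem' := by
    intro s s' hs hs' v hv γ
    obtain ⟨n, hn⟩ := hs v hv γ
    obtain ⟨n', hn'⟩ := hs' v hv γ
    refine ⟨n + n', ?_⟩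
    have e : e16lbPM p (s + s') v = e16lbPM p s v + e16lbPM p s' v := rfl
    rw [e, map_add, AddMonoidHom.add_apply, hn, hn']
    push_cast; ring
  zero_mem' := by
    intro v _ γ
    refine ⟨0, ?_⟩
    have e : e16lbPM p 0 v = 0 := rfl
    rw [e, map_zero]; simp
  algebraMap_mem' := by
    intro n v hv γ
    obtain ⟨m, hm⟩ := hv γ
    refine ⟨n * m, ?_⟩
    have e : e16lbPM p (algebraMap ℤ (Module.End ℂ (CuspForm (Gamma0 p) 2)) n) v =
        (n : ℂ) • v := by
      rw [e16lbPM_apply]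
      ext <;> simp
    rw [e, map_smul, AddMonoidHom.smul_apply, hm]
    push_cast; simp

/-- the Hecke algebra preserves the integrality of the period pair -/
theorem e16lb_hecke_le (φ : Additive (Gamma0 p) →+ ℤ) (hH : E16lbHecke p φ) :
    heckeAlgebra p 2 ∅ ≤ e16lbS p := by
  refine Algebra.adjoin_le ?_
  have key : ∀ ℓ : Nat.Primes, (heckeFormsGen p 2 ℓ).1 ∈ e16lbS p := by
    intro ℓ v hv γ
    obtain ⟨γ, rfl⟩ := Additive.ofMul.surjective γ
    obtain ⟨ι, hι, g', h1, -⟩ := e16lb_pair_hecke p φ hH ℓ γ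
    have hch : ∀ i, ∃ n : ℤ, periodHomPair p v (Additive.ofMul (g' i)) = n := fun i => hv _
    choose n hn using hch
    refine ⟨∑ i, n i, ?_⟩
    rw [h1]
    push_cast
    exact Finset.sum_congr rfl fun i _ => hn i
  rintro T (⟨ℓ, hℓ, hℓN, -, rfl⟩ | ⟨q, hqN, hq, -, rfl⟩)
  · have := key ⟨ℓ, hℓ⟩
    rwa [heckeFormsGen_of_not_dvd (N := p) (k := 2) (ℓ := ⟨ℓ, hℓ⟩) hℓN] at this
  · have := key ⟨q, hq⟩
    rwa [heckeFormsGen_of_dvd (N := p) (k := 2) (q := ⟨q, hq⟩) hqN] at this

/-- **the algebraic core of the lower bound** -/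
theorem e16lb_alg (φ c : Additive (Gamma0 p) →+ ℤ)
    (hpar : ∃ lam : Additive (Gamma0 p) →+ ℂ, lam ∈ parabolicHoms ℂ (Gamma0 p) ℂ ∧
      ∀ γ, lam γ = ((p : ℂ) - 1) * c γ - φ γ)
    (hH : E16lbHecke p φ) (t : HeckeAlg) (ht : heckeEvalForms p 2 t = 0) (γ : Gamma0 p) :
    ((p : ℤ) - 1) ∣
      MvPolynomial.aeval (R := ℤ) (eisensteinSystem p) t * φ (Additive.ofMul γ) := by
  obtain ⟨-, hrange⟩ := Fermat.Agent.S21.result p
  obtain ⟨lam, hlam, hlamv⟩ := hpar
  rw [← hrange] at hlam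
  obtain ⟨v₀, hv₀⟩ := hlam
  have hp1 : ((p : ℂ) - 1) ≠ 0 := by
    have hp : 2 ≤ p := (Fact.out : p.Prime).two_le
    have : (2 : ℝ) ≤ (p : ℝ) := by exact_mod_cast hp
    intro h
    have h' : (p : ℂ) = 1 := by linear_combination h
    have h'' : (p : ℝ) = 1 := by exact_mod_cast h'
    linarith
  have hle := e16lb_hecke_le p φ hH
  -- the Eisenstein property of `lam` under a generator
  have hgen : ∀ ℓ : Nat.Primes, ∃ w : CuspForm (Gamma0 p) 2 × CuspForm (Gamma0 p) 2,
      e16lbInt p (periodHomPair p w) ∧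
        e16lbPM p (heckeFormsGen p 2 ℓ).1 v₀ =
          (eisensteinSystem p ℓ : ℂ) • v₀ + ((p : ℂ) - 1) • w := by
    intro ℓ
    refine ⟨((p : ℂ) - 1)⁻¹ • (e16lbPM p (heckeFormsGen p 2 ℓ).1 v₀ -
      (eisensteinSystem p ℓ : ℂ) • v₀), ?_, ?_⟩
    · intro γ
      obtain ⟨γ, rfl⟩ := Additive.ofMul.surjective γ
      obtain ⟨ι, hι, g', h1, h2⟩ := e16lb_pair_hecke p φ hH ℓ γ
      refine ⟨∑ i, c (Additive.ofMul (g' i)) - eisensteinSystem p ℓ * c (Additive.ofMul γ), ?_⟩
      rw [map_smul, map_sub, map_smul, AddMonoidHom.smul_apply, AddMonoidHom.sub_apply,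
        AddMonoidHom.smul_apply, h1, hv₀]
      simp only [hlamv, Finset.sum_sub_distrib, ← Finset.mul_sum, smul_eq_mul]
      have h2' : (∑ i, (φ (Additive.ofMul (g' i)) : ℂ)) =
          (eisensteinSystem p ℓ : ℂ) * φ (Additive.ofMul γ) := by
        exact_mod_cast h2
      rw [h2']
      push_cast
      field_simp
      ring
    · rw [smul_smul, mul_inv_cancel₀ hp1, one_smul]
      abel
  -- the induction over Hecke polynomials
  have hind : ∀ t : HeckeAlg, ∃ w : CuspForm (Gamma0 p) 2 × CuspForm (Gamma0 p) 2,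
      e16lbInt p (periodHomPair p w) ∧
        e16lbPM p (heckeEvalForms p 2 t).1 v₀ =
          ((MvPolynomial.aeval (R := ℤ) (eisensteinSystem p) t : ℤ) : ℂ) • v₀ +
            ((p : ℂ) - 1) • w := by
    intro t
    induction t using MvPolynomial.induction_on with
    | C a =>
      refine ⟨0, fun γ => ⟨0, by simp⟩, ?_⟩
      rw [heckeEvalForms_C, MvPolynomial.aeval_C, smul_zero, add_zero]
      rw [e16lbPM_apply]
      ext <;> simp
    | add s t hs ht =>
      obtain ⟨w₁, hw₁, e₁⟩ := hs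
      obtain ⟨w₂, hw₂, e₂⟩ := ht
      refine ⟨w₁ + w₂, ?_, ?_⟩
      · intro γ
        obtain ⟨n₁, hn₁⟩ := hw₁ γ
        obtain ⟨n₂, hn₂⟩ := hw₂ γ
        exact ⟨n₁ + n₂, by rw [map_add, AddMonoidHom.add_apply, hn₁, hn₂]; push_cast; ring⟩
      · have e : e16lbPM p (heckeEvalForms p 2 (s + t)).1 v₀ =
            e16lbPM p (heckeEvalForms p 2 s).1 v₀ + e16lbPM p (heckeEvalForms p 2 t).1 v₀ := by
          rw [map_add]; rfl
        rw [e, e₁, e₂, map_add]
        push_cast
        rw [add_smul, smul_add]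
        abel
    | mul_X t ℓ ih =>
      obtain ⟨w, hw, e⟩ := ih
      obtain ⟨wℓ, hwℓ, eℓ⟩ := hgen ℓ
      refine ⟨(eisensteinSystem p ℓ : ℂ) • w + e16lbPM p (heckeEvalForms p 2 t).1 wℓ, ?_, ?_⟩
      · intro γ
        obtain ⟨n₁, hn₁⟩ := hw γ
        obtain ⟨n₂, hn₂⟩ := hle (heckeEvalForms p 2 t).2 wℓ hwℓ γ
        refine ⟨eisensteinSystem p ℓ * n₁ + n₂, ?_⟩
        rw [map_add, map_smul, AddMonoidHom.add_apply, AddMonoidHom.smul_apply, hn₁, hn₂]
        push_cast; simp
      · have e' : e16lbPM p (heckeEvalForms p 2 (t * MvPolynomial.X ℓ)).1 v₀ =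
            e16lbPM p (heckeEvalForms p 2 t).1 (e16lbPM p (heckeFormsGen p 2 ℓ).1 v₀) := by
          rw [map_mul]
          have : heckeEvalForms p 2 (MvPolynomial.X ℓ) = heckeFormsGen p 2 ℓ :=
            heckeEvalForms_heckeGen p 2 ℓ
          rw [this]
          rfl
        rw [e', eℓ, map_add, map_smul, map_smul, e, map_mul, MvPolynomial.aeval_X]
        push_cast
        rw [smul_add, smul_add, smul_smul, smul_smul, smul_smul]
        have hc : (eisensteinSystem p ℓ : ℂ) * ((p : ℂ) - 1) =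
            ((p : ℂ) - 1) * (eisensteinSystem p ℓ : ℂ) := mul_comm _ _
        rw [hc, mul_comm ((eisensteinSystem p ℓ : ℤ) : ℂ)]
        abel
  obtain ⟨w, hw, e⟩ := hind t
  have e0 : e16lbPM p (heckeEvalForms p 2 t).1 v₀ = 0 := by
    rw [ht]; rfl
  rw [e0] at e
  have e1 := congrArg (fun u => periodHomPair p u (Additive.ofMul γ)) e
  simp only [map_zero, map_add, map_smul, AddMonoidHom.add_apply, AddMonoidHom.smul_apply,
    AddMonoidHom.zero_apply, hv₀, hlamv, smul_eq_mul] at e1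
  obtain ⟨n, hn⟩ := hw (Additive.ofMul γ)
  rw [hn] at e1
  refine ⟨MvPolynomial.aeval (R := ℤ) (eisensteinSystem p) t * c (Additive.ofMul γ) + n, ?_⟩
  have e2 : ((MvPolynomial.aeval (R := ℤ) (eisensteinSystem p) t *
      φ (Additive.ofMul γ) : ℤ) : ℂ) =
      (((p : ℤ) - 1) * (MvPolynomial.aeval (R := ℤ) (eisensteinSystem p) t *
        c (Additive.ofMul γ) + n) : ℤ) := by
    push_cast
    linear_combination e1
  exact_mod_cast e2

end Fermat.Agent.E16
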