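import Mathlib
import Fermat.Prelude.Def_ModularCurve_PeriodMap

/-!
# S16, lower bound, leaf LB4: the parabolic criterion at prime level

A homomorphism `Γ₀(p) → ℂ` which kills `T = [1,1;0,1]` and `T' = [1,0;p,1]` kills every element
of trace `±2`, i.e. it is a parabolic homomorphism.
-/

set_option autoImplicit false

open CongruenceSubgroup ModularCurve.Period
open scoped MatrixGroups

namespace Fermat.Agent.E16

/-- An element of `SL(2, ℤ)` with trace `±2` has a primitive integral eigenvector. -/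
theorem e16lb_eigen (γ : SL(2, ℤ)) (ε : ℤ) (hε : ε * ε = 1)
    (htr : γ 0 0 + γ 1 1 = 2 * ε) :
    ∃ P Q u v : ℤ, u * P + v * Q = 1 ∧ γ 0 0 * P + γ 0 1 * Q = ε * P ∧
      γ 1 0 * P + γ 1 1 * Q = ε * Q := by
  have hdet : γ 0 0 * γ 1 1 - γ 0 1 * γ 1 0 = 1 := by
    have := γ.det_coe
    rwa [Matrix.det_fin_two] at this
  by_cases hc : γ 1 0 = 0
  · refine ⟨1, 0, 1, 0, by ring, ?_, ?_⟩
    · rw [hc] at hdet
      have h1 : (γ 0 0 - ε) * (γ 0 0 - ε) = 0 := by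
        have : γ 1 1 = 2 * ε - γ 0 0 := by linarith
        rw [this] at hdet
        nlinarith
      have h2 : γ 0 0 = ε := by
        have := mul_self_eq_zero.mp h1
        linarith
      rw [h2]; ring
    · rw [hc]; ring
  · obtain ⟨g, hg⟩ : ∃ g : ℤ, g = Int.gcd (ε - γ 1 1) (γ 1 0) := ⟨_, rfl⟩
    obtain ⟨P, hP⟩ : g ∣ ε - γ 1 1 := by rw [hg]; exact Int.gcd_dvd_left _ _
    obtain ⟨Q, hQ⟩ : g ∣ γ 1 0 := by rw [hg]; exact Int.gcd_dvd_right _ _
    have hg0 : g ≠ 0 := fun h0 => hc (by rw [hQ, h0, zero_mul])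
    have hbez := Int.gcd_eq_gcd_ab (ε - γ 1 1) (γ 1 0)
    rw [← hg] at hbez
    refine ⟨P, Q, Int.gcdA (ε - γ 1 1) (γ 1 0), Int.gcdB (ε - γ 1 1) (γ 1 0), ?_, ?_, ?_⟩
    · apply mul_left_cancel₀ hg0
      have : g = g * P * Int.gcdA (ε - γ 1 1) (γ 1 0) + g * Q * Int.gcdB (ε - γ 1 1) (γ 1 0) := by
        rw [← hP, ← hQ]; exact hbez
      linear_combination -this
    · apply mul_left_cancel₀ hg0
      have h1 : γ 0 0 * (ε - γ 1 1) + γ 0 1 * γ 1 0 = ε * (ε - γ 1 1) := by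
        linear_combination ε * htr - hdet + hε
      rw [hP, hQ] at h1
      linear_combination h1
    · apply mul_left_cancel₀ hg0
      have h1 : γ 1 0 * (ε - γ 1 1) + γ 1 1 * γ 1 0 = ε * γ 1 0 := by ring
      have h2 : g * (γ 1 0 * P + γ 1 1 * Q) = γ 1 0 * (g * P) + γ 1 1 * (g * Q) := by ring
      rw [h2, ← hP, ← hQ, h1, hQ]
      ring

/-- An element of `SL(2, ℤ)` with trace `±2` is, up to sign, conjugate to a power of `T`. -/
theorem e16lb_conj (γ : SL(2, ℤ))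
    (h : (γ : Matrix (Fin 2) (Fin 2) ℤ).trace ^ 2 = 4) :
    ∃ (δ : SL(2, ℤ)) (m : ℤ),
      γ * δ = δ * ModularGroup.T ^ m ∨ γ * δ = -(δ * ModularGroup.T ^ m) := by
  have htr : (γ : Matrix (Fin 2) (Fin 2) ℤ).trace = γ 0 0 + γ 1 1 := Matrix.trace_fin_two _
  rw [htr] at h
  obtain ⟨ε, hε, hε2⟩ : ∃ ε : ℤ, ε * ε = 1 ∧ γ 0 0 + γ 1 1 = 2 * ε := by
    have h1 : (γ 0 0 + γ 1 1 - 2) * (γ 0 0 + γ 1 1 + 2) = 0 := by linear_combination h
    rcases mul_eq_zero.mp h1 with h2 | h2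
    · exact ⟨1, by ring, by linarith⟩
    · exact ⟨-1, by ring, by linarith⟩
  have hdet : γ 0 0 * γ 1 1 - γ 0 1 * γ 1 0 = 1 := by
    have := γ.det_coe
    rwa [Matrix.det_fin_two] at this
  obtain ⟨P, Q, u, v, huv, h1, h2⟩ := e16lb_eigen γ ε hε hε2
  obtain ⟨δ, hδ⟩ : ∃ δ : SL(2, ℤ), (δ : Matrix (Fin 2) (Fin 2) ℤ) = !![P, -v; Q, u] :=
    ⟨⟨!![P, -v; Q, u], by rw [Matrix.det_fin_two_of]; linear_combination huv⟩, rfl⟩
  obtain ⟨X, hX⟩ : ∃ X : ℤ, X = ε * (γ 0 0 * (-v) + γ 0 1 * u) - (-v) := ⟨_, rfl⟩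
  obtain ⟨Y, hY⟩ : ∃ Y : ℤ, Y = ε * (γ 1 0 * (-v) + γ 1 1 * u) - u := ⟨_, rfl⟩
  have hXY : P * Y = Q * X := by
    rw [hX, hY]
    linear_combination (-ε * v) * h2 + (-ε * u) * h1 + ε * (u * P + v * Q) * hε2
      + (u * P + v * Q) * hε
  obtain ⟨m, hm⟩ : ∃ m : ℤ, m = u * X + v * Y := ⟨_, rfl⟩
  have hpm : P * m = X := by
    rw [hm]
    linear_combination X * huv + v * hXY
  have hqm : Q * m = Y := by
    rw [hm]
    linear_combination Y * huv - u * hXY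
  have e01 : γ 0 0 * (-v) + γ 0 1 * u = ε * (P * m - v) := by
    rw [hpm, hX]
    linear_combination (-(γ 0 0 * (-v) + γ 0 1 * u)) * hε
  have e11 : γ 1 0 * (-v) + γ 1 1 * u = ε * (Q * m + u) := by
    rw [hqm, hY]
    linear_combination (-(γ 1 0 * (-v) + γ 1 1 * u)) * hε
  refine ⟨δ, m, ?_⟩
  have hε' : ε = 1 ∨ ε = -1 := by
    have h3 : (ε - 1) * (ε + 1) = 0 := by linear_combination hε
    rcases mul_eq_zero.mp h3 with h4 | h4
    · left; linarith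
    · right; linarith
  rcases hε' with rfl | rfl
  · left
    apply Subtype.ext
    rw [Matrix.SpecialLinearGroup.coe_mul, Matrix.SpecialLinearGroup.coe_mul, hδ,
      ModularGroup.coe_T_zpow]
    ext i j
    fin_cases i <;> fin_cases j
    · simp [Matrix.mul_apply, Fin.sum_univ_two]; linarith
    · simp [Matrix.mul_apply, Fin.sum_univ_two]; linarith
    · simp [Matrix.mul_apply, Fin.sum_univ_two]; linarith
    · simp [Matrix.mul_apply, Fin.sum_univ_two]; linarith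
  · right
    apply Subtype.ext
    rw [Matrix.SpecialLinearGroup.coe_neg, Matrix.SpecialLinearGroup.coe_mul,
      Matrix.SpecialLinearGroup.coe_mul, hδ, ModularGroup.coe_T_zpow]
    ext i j
    fin_cases i <;> fin_cases j
    · simp [Matrix.mul_apply, Fin.sum_univ_two]; linarith
    · simp [Matrix.mul_apply, Fin.sum_univ_two]; linarith
    · simp [Matrix.mul_apply, Fin.sum_univ_two]; linarith
    · simp [Matrix.mul_apply, Fin.sum_univ_two]; linarith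

theorem e16lb_mem_iff (p : ℕ) (A : SL(2, ℤ)) : A ∈ Gamma0 p ↔ (p : ℤ) ∣ A 1 0 := by
  rw [Gamma0_mem, ZMod.intCast_zmod_eq_zero_iff_dvd]

/-- `S T^m S⁻¹ = [1, 0; -m, 1]`. -/
theorem e16lb_STS (m : ℤ) :
    ((ModularGroup.S * ModularGroup.T ^ m * ModularGroup.S⁻¹ : SL(2, ℤ)) :
      Matrix (Fin 2) (Fin 2) ℤ) = !![1, 0; -m, 1] := by
  rw [Matrix.SpecialLinearGroup.coe_mul, Matrix.SpecialLinearGroup.coe_mul,
    Matrix.SpecialLinearGroup.coe_inv, ModularGroup.coe_T_zpow, ModularGroup.coe_S,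
    Matrix.adjugate_fin_two_of]
  ext i j
  fin_cases i <;> fin_cases j <;> simp [Matrix.mul_apply, Fin.sum_univ_two]

/-- The coset decomposition `SL(2, ℤ) = Γ₀(p) ⊔ ⨆ j, Γ₀(p) S T^j`. -/
theorem e16lb_coset (p : ℕ) [Fact p.Prime] (δ : SL(2, ℤ)) (hδ : δ ∉ Gamma0 p) :
    ∃ j : ℤ, δ * (ModularGroup.S * ModularGroup.T ^ j)⁻¹ ∈ Gamma0 p := by
  rw [e16lb_mem_iff] at hδ
  have hp : Prime (p : ℤ) := Nat.prime_iff_prime_int.mp (Fact.out : p.Prime)
  obtain ⟨x, y, hxy⟩ : IsCoprime (p : ℤ) (δ 1 0) := hp.irreducible.coprime_iff_not_dvd.mpr hδ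
  refine ⟨y * δ 1 1, ?_⟩
  rw [e16lb_mem_iff]
  have hval : ((δ * (ModularGroup.S * ModularGroup.T ^ (y * δ 1 1))⁻¹ : SL(2, ℤ)) :
      Matrix (Fin 2) (Fin 2) ℤ) 1 0 = δ 1 0 * (y * δ 1 1) - δ 1 1 := by
    rw [Matrix.SpecialLinearGroup.coe_mul, Matrix.SpecialLinearGroup.coe_inv,
      Matrix.SpecialLinearGroup.coe_mul, ModularGroup.coe_T_zpow, ModularGroup.coe_S]
    simp [Matrix.mul_apply, Fin.sum_univ_two, Matrix.adjugate_fin_two]
    ring
  rw [hval]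
  exact ⟨-(x * δ 1 1), by linear_combination (δ 1 1) * hxy⟩

variable (p : ℕ) [Fact p.Prime]

/-- A homomorphism `Γ₀(p) → ℂ` killing `T` and `T' = [1,0;p,1]` kills all conjugates of powers
of `T` in `SL(2, ℤ)` which lie in `Γ₀(p)`. -/
theorem e16lb_par_aux (lam : Additive (Gamma0 p) →+ ℂ)
    (hT : ∀ g : Gamma0 p, (g : SL(2, ℤ)) = ModularGroup.T → lam (Additive.ofMul g) = 0)
    (hT' : ∀ g : Gamma0 p, ((g : SL(2, ℤ)) : Matrix (Fin 2) (Fin 2) ℤ) = !![1, 0; (p : ℤ), 1] →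
      lam (Additive.ofMul g) = 0)
    (g : Gamma0 p) (δ : SL(2, ℤ)) (m : ℤ) (h : (g : SL(2, ℤ)) * δ = δ * ModularGroup.T ^ m) :
    lam (Additive.ofMul g) = 0 := by
  by_cases hδ : δ ∈ Gamma0 p
  · have hTm : ModularGroup.T ∈ Gamma0 p := by
      rw [e16lb_mem_iff, ModularGroup.coe_T]; simp
    have hg : g = ⟨δ, hδ⟩ * ⟨ModularGroup.T, hTm⟩ ^ m * ⟨δ, hδ⟩⁻¹ := by
      apply Subtype.ext
      push_cast
      rw [← h]; group
    rw [hg, ofMul_mul, ofMul_mul, ofMul_inv, ofMul_zpow, map_add, map_add, map_neg, map_zsmul,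
      hT ⟨ModularGroup.T, hTm⟩ rfl]
    simp
  · obtain ⟨j, hj⟩ := e16lb_coset p δ hδ
    -- `R = S T^m S⁻¹ = γ₁⁻¹ g γ₁` lies in `Γ₀(p)`
    have hR : ModularGroup.S * ModularGroup.T ^ m * ModularGroup.S⁻¹ =
        (δ * (ModularGroup.S * ModularGroup.T ^ j)⁻¹)⁻¹ * (g : SL(2, ℤ)) *
          (δ * (ModularGroup.S * ModularGroup.T ^ j)⁻¹) := by
      have h' : (g : SL(2, ℤ)) = δ * ModularGroup.T ^ m * δ⁻¹ := by rw [← h]; group
      rw [h']
      have hcomm : ModularGroup.T ^ j * ModularGroup.T ^ m * (ModularGroup.T ^ j)⁻¹ =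
          ModularGroup.T ^ m := by
        rw [← zpow_add, ← zpow_neg, ← zpow_add, show j + m + -j = m by ring]
      calc ModularGroup.S * ModularGroup.T ^ m * ModularGroup.S⁻¹
          = ModularGroup.S * (ModularGroup.T ^ j * ModularGroup.T ^ m * (ModularGroup.T ^ j)⁻¹) *
              ModularGroup.S⁻¹ := by rw [hcomm]
        _ = _ := by group
    have hRmem : ModularGroup.S * ModularGroup.T ^ m * ModularGroup.S⁻¹ ∈ Gamma0 p := by
      rw [hR]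
      exact (Gamma0 p).mul_mem ((Gamma0 p).mul_mem ((Gamma0 p).inv_mem hj) g.2) hj
    have hpm : (p : ℤ) ∣ m := by
      rw [e16lb_mem_iff, e16lb_STS] at hRmem
      simpa using hRmem
    obtain ⟨k, hk⟩ := hpm
    -- `T' = S T^(-p) S⁻¹`
    have hT'mem : ModularGroup.S * ModularGroup.T ^ (-(p : ℤ)) * ModularGroup.S⁻¹ ∈ Gamma0 p := by
      rw [e16lb_mem_iff, e16lb_STS]; simp
    have hRk : ModularGroup.S * ModularGroup.T ^ m * ModularGroup.S⁻¹ =
        (ModularGroup.S * ModularGroup.T ^ (-(p : ℤ)) * ModularGroup.S⁻¹) ^ (-k) := by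
      rw [conj_zpow, ← zpow_mul, hk, neg_mul_neg]
    have hg : g = ⟨_, hj⟩ * ⟨_, hT'mem⟩ ^ (-k) * ⟨_, hj⟩⁻¹ := by
      apply Subtype.ext
      push_cast
      rw [← hRk, hR]; group
    rw [hg, ofMul_mul, ofMul_mul, ofMul_inv, ofMul_zpow, map_add, map_add, map_neg, map_zsmul,
      hT' ⟨_, hT'mem⟩ (by rw [e16lb_STS]; simp)]
    simp

/-- **LB4, the parabolic criterion.** A homomorphism `Γ₀(p) → ℂ` which kills `T` and
`T' = [1,0;p,1]` is parabolic. -/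
theorem e16lb_par (lam : Additive (Gamma0 p) →+ ℂ)
    (hT : ∀ g : Gamma0 p, (g : SL(2, ℤ)) = ModularGroup.T → lam (Additive.ofMul g) = 0)
    (hT' : ∀ g : Gamma0 p, ((g : SL(2, ℤ)) : Matrix (Fin 2) (Fin 2) ℤ) = !![1, 0; (p : ℤ), 1] →
      lam (Additive.ofMul g) = 0) :
    lam ∈ parabolicHoms ℂ (Gamma0 p) ℂ := by
  rw [mem_parabolicHoms_iff]
  intro γ hγ
  obtain ⟨δ, m, hδ | hδ⟩ := e16lb_conj (γ : SL(2, ℤ)) hγ
  · exact e16lb_par_aux p lam hT hT' γ δ m hδ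
  · have hneg1 : (-1 : SL(2, ℤ)) ∈ Gamma0 p := by
      rw [e16lb_mem_iff, Matrix.SpecialLinearGroup.coe_neg]; simp
    have hnegγ : -(γ : SL(2, ℤ)) ∈ Gamma0 p := by
      have := γ.2
      rw [e16lb_mem_iff] at this ⊢
      rw [Matrix.SpecialLinearGroup.coe_neg]
      simpa using this
    have h1 : lam (Additive.ofMul (⟨-1, hneg1⟩ : Gamma0 p)) = 0 := by
      have h2 : (⟨-1, hneg1⟩ : Gamma0 p) * ⟨-1, hneg1⟩ = 1 := by
        apply Subtype.ext
        push_cast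
        simp
      have h3 := congrArg (fun x => lam (Additive.ofMul x)) h2
      simp only [ofMul_mul, map_add, ofMul_one, map_zero] at h3
      rw [← two_mul] at h3
      exact (mul_eq_zero.mp h3).resolve_left two_ne_zero
    have h4 : lam (Additive.ofMul (⟨-(γ : SL(2, ℤ)), hnegγ⟩ : Gamma0 p)) = 0 := by
      apply e16lb_par_aux p lam hT hT' _ δ m
      show -(γ : SL(2, ℤ)) * δ = δ * ModularGroup.T ^ m
      rw [neg_mul, hδ, neg_neg]
    have h5 : γ = ⟨-1, hneg1⟩ * ⟨-(γ : SL(2, ℤ)), hnegγ⟩ := by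
      apply Subtype.ext
      push_cast
      simp
    rw [h5, ofMul_mul, map_add, h1, h4, add_zero]

end Fermat.Agent.E16
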