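import Fermat.Agent.Lib.H3_Period
import Fermat.Prelude.Def_CuspForm_HeckeAlgebra
import Fermat.Prelude.Thm_CongruenceSubgroup_one_mem_strictPeriods_Gamma0

set_option autoImplicit false

namespace Fermat.Agent.Lib.H3

open Complex Filter Topology Function Polynomial UpperHalfPlane
open scoped MatrixGroups ModularForm

variable {N : ℕ} [NeZero N] {w : ℕ}

/-- A cusp form as a function on `ℂ`. -/
noncomputable def fC (f : CuspForm (CongruenceSubgroup.Gamma0 N) ((w : ℤ) + 2)) : ℂ → ℂ :=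
  f ∘ ofComplex

theorem fC_apply (f : CuspForm (CongruenceSubgroup.Gamma0 N) ((w : ℤ) + 2)) {z : ℂ}
    (hz : z ∈ UH) : fC f z = f ⟨z, hz⟩ := by
  rw [fC, Function.comp_apply, ofComplex_apply_of_im_pos hz]

theorem fC_coe (f : CuspForm (CongruenceSubgroup.Gamma0 N) ((w : ℤ) + 2)) (τ : ℍ) :
    fC f τ = f τ := by
  rw [fC, Function.comp_apply, ofComplex_apply]

theorem fC_cls (f : CuspForm (CongruenceSubgroup.Gamma0 N) ((w : ℤ) + 2)) : Cls (fC f) := by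
  refine ⟨?_, ?_, ?_, ?_⟩
  · exact UpperHalfPlane.mdifferentiable_iff.mp (CuspFormClass.holo f)
  · exact SlashInvariantFormClass.periodic_comp_ofComplex f
      (CongruenceSubgroup.one_mem_strictPeriods_Gamma0 N)
  · exact CuspFormClass.zero_at_infty_comp_ofComplex f
  · have hk : (0 : ℤ) ≤ (w : ℤ) + 2 := by positivity
    obtain ⟨C, hC⟩ := ModularFormClass.exists_bound hk f
    refine ⟨|C|, w + 2, fun z hz => ?_⟩
    rw [fC_apply f hz]
    have hy : 0 < z.im := hz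
    have h1 := hC ⟨z, hz⟩
    have him : (⟨z, hz⟩ : ℍ).im = z.im := rfl
    rw [him] at h1
    have hpow : z.im ^ ((w : ℤ) + 2) = z.im ^ (w + 2) := by
      have : ((w : ℤ) + 2) = ((w + 2 : ℕ) : ℤ) := by push_cast; ring
      rw [this, zpow_natCast]
    rw [hpow] at h1
    have hmax : max 1 (1 / z.im ^ (w + 2)) ≤ (1 + (z.im)⁻¹) ^ (w + 2) := by
      have hinv : 0 < (z.im)⁻¹ := inv_pos.mpr hy
      apply max_le
      · exact one_le_pow₀ (by linarith)
      · rw [one_div, ← inv_pow]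
        exact pow_le_pow_left₀ hinv.le (by linarith) _
    calc ‖f ⟨z, hz⟩‖ ≤ C * max 1 (1 / z.im ^ (w + 2)) := h1
      _ ≤ |C| * max 1 (1 / z.im ^ (w + 2)) :=
          mul_le_mul_of_nonneg_right (le_abs_self C) (le_max_of_le_left zero_le_one)
      _ ≤ |C| * (1 + (z.im)⁻¹) ^ (w + 2) := mul_le_mul_of_nonneg_left hmax (abs_nonneg C)

theorem det_mapGL (γ : SL(2, ℤ)) :
    ((Matrix.SpecialLinearGroup.mapGL ℝ γ : GL (Fin 2) ℝ).det.val : ℝ) = 1 := by
  simp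

theorem det_mapGL_pos (γ : SL(2, ℤ)) :
    0 < ((Matrix.SpecialLinearGroup.mapGL ℝ γ : GL (Fin 2) ℝ).det.val : ℝ) := by
  rw [det_mapGL]; exact one_pos

theorem fC_mob (f : CuspForm (CongruenceSubgroup.Gamma0 N) ((w : ℤ) + 2)) {M : GL (Fin 2) ℝ}
    (hM : 0 < M.det.val) {z : ℂ} (hz : z ∈ UH) : fC f (mob M z) = f (M • (⟨z, hz⟩ : ℍ)) := by
  have h := coe_smul_eq_mob hM ⟨z, hz⟩
  have h' : mob M z = ((M • (⟨z, hz⟩ : ℍ) : ℍ) : ℂ) := h.symm
  rw [h', fC_coe]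

theorem fC_inv (f : CuspForm (CongruenceSubgroup.Gamma0 N) ((w : ℤ) + 2)) {γ : SL(2, ℤ)}
    (hγ : γ ∈ CongruenceSubgroup.Gamma0 N) :
    Inv (fC f) w (Matrix.SpecialLinearGroup.mapGL ℝ γ) := by
  refine ⟨det_mapGL_pos γ, fun z hz => ?_⟩
  rw [fC_mob f (det_mapGL_pos γ) hz, det_mapGL, fC_apply f hz]
  have h := SlashInvariantForm.slash_action_eqn_SL'' f hγ ⟨z, hz⟩
  have hden : denom (Matrix.SpecialLinearGroup.mapGL ℝ γ) z ≠ 0 :=
    denom_ne_zero_of_im _ (ne_of_gt hz)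
  have h2 : f ((Matrix.SpecialLinearGroup.mapGL ℝ γ) • (⟨z, hz⟩ : ℍ)) =
      denom (Matrix.SpecialLinearGroup.mapGL ℝ γ) z ^ (w + 2) * f ⟨z, hz⟩ := by
    have hpow : ∀ x : ℂ, x ^ ((w : ℤ) + 2) = x ^ (w + 2) := fun x => by
      have : ((w : ℤ) + 2) = ((w + 2 : ℕ) : ℤ) := by push_cast; ring
      rw [this, zpow_natCast]
    rw [← hpow]
    exact h
  rw [h2]
  field_simp
  simp

/-- Additivity of the integration-by-parts primitive in the function. -/
theorem ibp_add_fun {g₁ g₂ : ℂ → ℂ} (h₁ : Cls g₁) (h₂ : Cls g₂)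
    (h₁₂ : Cls (fun z => g₁ z + g₂ z)) {w : ℕ} {p : ℂ[X]} (hp : p.natDegree ≤ w) {z : ℂ}
    (hz : z ∈ UH) :
    ibp (fun z => g₁ z + g₂ z) (w + 1) p z = ibp g₁ (w + 1) p z + ibp g₂ (w + 1) p z := by
  refine eq_of_hasDerivAt_of_ldecay (φ := fun z => (g₁ z + g₂ z) * p.eval z)
    (G₂ := fun z => ibp g₁ (w + 1) p z + ibp g₂ (w + 1) p z)
    (fun z hz => ibp_hasDerivAt' h₁₂ hp hz) (fun z hz => ?_) (ibp_ldecay h₁₂ _ _) ?_ hz
  · have := (ibp_hasDerivAt' h₁ hp hz).add (ibp_hasDerivAt' h₂ hp hz)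
    refine this.congr_deriv ?_
    ring
  · intro x
    simpa using (ibp_ldecay h₁ (w + 1) p x).add (ibp_ldecay h₂ (w + 1) p x)

theorem ibp_smul_fun {g : ℂ → ℂ} (h : Cls g) (c : ℂ) (hc : Cls (fun z => c * g z)) {w : ℕ}
    {p : ℂ[X]} (hp : p.natDegree ≤ w) {z : ℂ} (hz : z ∈ UH) :
    ibp (fun z => c * g z) (w + 1) p z = c * ibp g (w + 1) p z := by
  refine eq_of_hasDerivAt_of_ldecay (φ := fun z => (c * g z) * p.eval z)
    (G₂ := fun z => c * ibp g (w + 1) p z)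
    (fun z hz => ibp_hasDerivAt' hc hp hz) (fun z hz => ?_) (ibp_ldecay hc _ _) ?_ hz
  · have := (ibp_hasDerivAt' h hp hz).const_mul c
    refine this.congr_deriv ?_
    ring
  · intro x
    simpa using (ibp_ldecay h (w + 1) p x).const_mul c

theorem fC_add (f f' : CuspForm (CongruenceSubgroup.Gamma0 N) ((w : ℤ) + 2)) :
    fC (f + f') = fun z => fC f z + fC f' z := by
  funext z; simp [fC]

theorem fC_smul (c : ℂ) (f : CuspForm (CongruenceSubgroup.Gamma0 N) ((w : ℤ) + 2)) :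
    fC (c • f) = fun z => c * fC f z := by
  funext z; simp [fC]

/-- The evaluation functional `f ↦ (∫ f p)(z)`. -/
noncomputable def evL (N : ℕ) [NeZero N] (w : ℕ) (p : ℂ[X]) (z : ℂ) :
    Module.Dual ℂ (CuspForm (CongruenceSubgroup.Gamma0 N) ((w : ℤ) + 2)) :=
  open scoped Classical in
  if h : p.natDegree ≤ w ∧ z ∈ UH then
    { toFun := fun f => ibp (fC f) (w + 1) p z
      map_add' := fun f f' => by
        rw [fC_add]
        exact ibp_add_fun (fC_cls f) (fC_cls f') (fC_add f f' ▸ fC_cls (f + f')) h.1 h.2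
      map_smul' := fun c f => by
        rw [fC_smul]
        exact ibp_smul_fun (fC_cls f) c (fC_smul c f ▸ fC_cls (c • f)) h.1 h.2 }
  else 0

theorem evL_apply {p : ℂ[X]} {z : ℂ} (hp : p.natDegree ≤ w) (hz : z ∈ UH)
    (f : CuspForm (CongruenceSubgroup.Gamma0 N) ((w : ℤ) + 2)) :
    evL N w p z f = ibp (fC f) (w + 1) p z := by
  rw [evL, dif_pos ⟨hp, hz⟩]; rfl

/-- The period functional. -/
noncomputable def perL (N : ℕ) [NeZero N] (w : ℕ) (γ : SL(2, ℤ)) (v : Fin 2 → ℂ) :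
    Module.Dual ℂ (CuspForm (CongruenceSubgroup.Gamma0 N) ((w : ℤ) + 2)) :=
  evL N w (pv w (vadj (Matrix.SpecialLinearGroup.mapGL ℝ γ) v))
      (mob (Matrix.SpecialLinearGroup.mapGL ℝ γ) Complex.I) -
    evL N w (pv w v) Complex.I

theorem perL_apply (γ : SL(2, ℤ)) (v : Fin 2 → ℂ)
    (f : CuspForm (CongruenceSubgroup.Gamma0 N) ((w : ℤ) + 2)) :
    perL N w γ v f = per (fC f) w (Matrix.SpecialLinearGroup.mapGL ℝ γ) v := by
  rw [perL, LinearMap.sub_apply, evL_apply (pv_natDegree_le w _)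
    (mob_mem_UH (det_mapGL_pos γ) I_mem_UH), evL_apply (pv_natDegree_le w _) I_mem_UH]
  rfl

end Fermat.Agent.Lib.H3
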