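-- S16 lower bound, leaf LB1 (helper6): the primitive of the Eisenstein series and its period
-- homomorphism.
import Fermat.Agent.Lib.E16_Eis
import Fermat.Agent.Lib.H3_Cusp

set_option autoImplicit false

/-!
# S16 (LB1): the Eisenstein primitive and the homomorphism `φ : Γ₀(p) → ℤ`

* `e16lbF p : ℂ → ℂ` : a primitive of `24 E` on the upper half plane (`e16lbF_hasDerivAt`), with
  `F(z + 1) = F(z) + (p - 1)` (`e16lbF_add_one`);
* `e16lbF_exp` : `(η(pz)/η(z))^24 = C exp(2πi F(z))`, i.e. `Δ(pz)/Δ(z) = C exp(2πi F)`;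
* `e16lbPhi p : Additive Γ₀(p) →+ ℤ` with `F(g z) - F(z) = φ(g)` (`e16lbPhi_spec`);
* `e16lbPhi_T`, `e16lbPhi_T'` : `φ(T) = φ([1,0;p,1]) = p - 1`.
-/

namespace Fermat.Agent.E16

open UpperHalfPlane hiding I
open ModularForm EisensteinSeries ModularFormClass Complex
open scoped MatrixGroups Manifold
open Matrix.SpecialLinearGroup
open Fermat.Agent.Lib.H3

/-- a primitive of `24 E` on the upper half plane, with `F(z + 1) = F(z) + (p - 1)` -/
theorem e16lb_exists_prim (p : ℕ) [Fact p.Prime] :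
    ∃ F : ℂ → ℂ, (∀ z : ℂ, ∀ hz : 0 < z.im, HasDerivAt F (24 * e16EisFun p ⟨z, hz⟩) z) ∧
      ∀ z : ℂ, F (z + 1) = F z + ((p : ℂ) - 1) := by
  have hp : p.Prime := Fact.out
  have hper := CongruenceSubgroup.one_mem_strictPeriods_Gamma0 p
  set Φ := cuspFunction 1 (e16Eis p) with hΦ
  have hΦd : ∀ q : ℂ, ‖q‖ < 1 → DifferentiableAt ℂ Φ q := fun q hq =>
    ModularFormClass.differentiableAt_cuspFunction (e16Eis p) one_pos hper hq
  have hΦ0 : Φ 0 = ((p : ℂ) - 1) / 24 := by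
    have h1 := e16Eis_qExpansion_coeff p 0
    rw [qExpansion_coeff] at h1
    simp only [Nat.factorial_zero, Nat.cast_one, inv_one, one_mul, iteratedDeriv_zero] at h1
    rw [hΦ, h1]
    simp [e16Ec]
  have hΦq : ∀ τ : ℍ, Φ (Function.Periodic.qParam 1 τ) = e16EisFun p τ := fun τ =>
    SlashInvariantFormClass.eq_cuspFunction (e16Eis p) τ hper one_ne_zero
  set Ψ : ℂ → ℂ := fun q => 24 * Φ q - ((p : ℂ) - 1) with hΨ
  have hΨ0 : Ψ 0 = 0 := by
    simp only [hΨ, hΦ0]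
    ring
  have hΨd : DifferentiableOn ℂ Ψ (Metric.ball 0 1) := by
    intro q hq
    have hq1 : ‖q‖ < 1 := by simpa using hq
    exact (((hΦd q hq1).const_mul 24).sub_const _).differentiableWithinAt
  have hD : DifferentiableOn ℂ (dslope Ψ 0) (Metric.ball 0 1) :=
    (Complex.differentiableOn_dslope (Metric.ball_mem_nhds 0 one_pos)).mpr hΨd
  obtain ⟨H, hH0, hH⟩ := (hD.isExactOn_ball).with_val_at 0 0
  have hqball : ∀ z : ℂ, 0 < z.im → Function.Periodic.qParam 1 z ∈ Metric.ball (0 : ℂ) 1 := by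
    intro z hz
    simpa using Function.Periodic.norm_qParam_lt_one one_pos hz
  refine ⟨fun z => ((p : ℂ) - 1) * z + (2 * Real.pi * I)⁻¹ * H (Function.Periodic.qParam 1 z),
    fun z hz => ?_, fun z => ?_⟩
  · have hq := hqball z hz
    have hq0 : Function.Periodic.qParam 1 z ≠ 0 := Function.Periodic.qParam_ne_zero z
    have hc := (hH _ hq).comp z (hasDerivAt_qParam_one z)
    have hc2 := hc.const_mul ((2 * Real.pi * I)⁻¹)
    have hlin : HasDerivAt (fun z : ℂ => ((p : ℂ) - 1) * z) ((p : ℂ) - 1) z := by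
      simpa using (hasDerivAt_id z).const_mul ((p : ℂ) - 1)
    refine HasDerivAt.congr_deriv (hlin.add hc2) ?_
    rw [dslope_of_ne _ hq0, slope_def_field, hΨ0, sub_zero, sub_zero]
    have hgz : Φ (Function.Periodic.qParam 1 z) = e16EisFun p ⟨z, hz⟩ := hΦq ⟨z, hz⟩
    simp only [hΨ]
    rw [hgz]
    have hpi : (2 * (Real.pi : ℂ) * I) ≠ 0 := Complex.two_pi_I_ne_zero
    field_simp
    ring
  · simp only
    rw [qParam_one_add_one]
    ring

/-- the derivative of `η` -/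
theorem e16lb_eta_hasDerivAt {z : ℂ} (hz : 0 < z.im) :
    HasDerivAt ModularForm.eta ((Real.pi * I / 12) * E2 ⟨z, hz⟩ * ModularForm.eta z) z := by
  have hd := (ModularForm.differentiableAt_eta_of_mem_upperHalfPlaneSet (z := z) hz).hasDerivAt
  have hl := ModularForm.logDeriv_eta_eq_E2 ⟨z, hz⟩
  rw [logDeriv_apply] at hl
  have hne := ModularForm.eta_ne_zero (z := z) hz
  have h2 : deriv ModularForm.eta z = (Real.pi * I / 12) * E2 ⟨z, hz⟩ * ModularForm.eta z := by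
    have h3 : deriv ModularForm.eta z / ModularForm.eta z = Real.pi * I / 12 * E2 ⟨z, hz⟩ := hl
    rw [div_eq_iff hne] at h3
    exact h3
  rw [h2] at hd
  exact hd

theorem e16lb_mul_mem (p : ℕ) (hp : p ≠ 0) {z : ℂ} (hz : 0 < z.im) : 0 < ((p : ℂ) * z).im := by
  have : ((p : ℂ) * z).im = p * z.im := by simp
  rw [this]
  exact mul_pos (by exact_mod_cast Nat.pos_of_ne_zero hp) hz

/-- the eta quotient `η(pz)/η(z)` has logarithmic derivative `2πi E` -/
theorem e16lb_quot_hasDerivAt (p : ℕ) (hp : p ≠ 0) {z : ℂ} (hz : 0 < z.im) :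
    HasDerivAt (fun z => ModularForm.eta ((p : ℂ) * z) / ModularForm.eta z)
      (2 * Real.pi * I * e16EisFun p ⟨z, hz⟩ *
        (ModularForm.eta ((p : ℂ) * z) / ModularForm.eta z)) z := by
  have hpz := e16lb_mul_mem p hp hz
  have h1 := e16lb_eta_hasDerivAt hz
  have h2 := e16lb_eta_hasDerivAt hpz
  have hlin : HasDerivAt (fun z : ℂ => (p : ℂ) * z) (p : ℂ) z := by
    simpa using (hasDerivAt_id z).const_mul (p : ℂ)
  have h3 := h2.comp z hlin
  have hne := ModularForm.eta_ne_zero (z := z) hz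
  have h4 := h3.div h1 hne
  refine h4.congr_deriv ?_
  rw [e16EisFun_apply p hp]
  have hα : ModularForm.heckeDiagMatrix p • (⟨z, hz⟩ : ℍ) = ⟨(p : ℂ) * z, hpz⟩ := by
    apply UpperHalfPlane.ext
    rw [ModularForm.coe_heckeDiagMatrix_smul hp]
  rw [hα]
  simp only [Function.comp_apply]
  field_simp
  ring

/-- the primitive of `24 E` -/
noncomputable def e16lbF (p : ℕ) [Fact p.Prime] : ℂ → ℂ := Classical.choose (e16lb_exists_prim p)

theorem e16lbF_hasDerivAt (p : ℕ) [Fact p.Prime] {z : ℂ} (hz : 0 < z.im) :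
    HasDerivAt (e16lbF p) (24 * e16EisFun p ⟨z, hz⟩) z :=
  (Classical.choose_spec (e16lb_exists_prim p)).1 z hz

theorem e16lbF_add_one (p : ℕ) [Fact p.Prime] (z : ℂ) :
    e16lbF p (z + 1) = e16lbF p z + ((p : ℂ) - 1) :=
  (Classical.choose_spec (e16lb_exists_prim p)).2 z

/-- **the eta quotient is the exponential of the primitive**:
`(η(pz)/η(z))^24 = C exp(2πi F(z))`. -/
theorem e16lbF_exp (p : ℕ) [Fact p.Prime] :
    ∃ C : ℂ, C ≠ 0 ∧ ∀ z : ℂ, 0 < z.im →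
      (ModularForm.eta ((p : ℂ) * z) / ModularForm.eta z) ^ 24 =
        C * cexp (2 * Real.pi * I * e16lbF p z) := by
  have hp : p.Prime := Fact.out
  set h : ℂ → ℂ := fun z => (ModularForm.eta ((p : ℂ) * z) / ModularForm.eta z) ^ 24 *
    cexp (-(2 * Real.pi * I * e16lbF p z)) with hh
  have hd : ∀ z ∈ UH, HasDerivAt h 0 z := by
    intro z hz
    have hz' : 0 < z.im := hz
    have h1 := (e16lb_quot_hasDerivAt p hp.ne_zero hz').pow 24
    have h2 := (((e16lbF_hasDerivAt p hz').const_mul (2 * Real.pi * I)).neg).cexp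
    have h3 := h1.mul h2
    refine h3.congr_deriv ?_
    simp only [Pi.pow_apply]
    ring
  have hconst : ∀ z ∈ UH, h z = h I := fun z hz =>
    isOpen_UH.is_const_of_deriv_eq_zero convex_UH.isPreconnected
      (fun z hz => (hd z hz).differentiableAt.differentiableWithinAt)
      (fun z hz => (hd z hz).deriv) hz I_mem_UH
  refine ⟨h I, ?_, fun z hz => ?_⟩
  · have hI : (0 : ℝ) < (I : ℂ).im := by simp
    have h1 := ModularForm.eta_ne_zero (z := I) hI
    have h2 := ModularForm.eta_ne_zero (z := (p : ℂ) * I) (e16lb_mul_mem p hp.ne_zero hI)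
    simp only [hh]
    exact mul_ne_zero (pow_ne_zero _ (div_ne_zero h2 h1)) (Complex.exp_ne_zero _)
  · rw [← hconst z hz]
    simp only [hh]
    rw [mul_assoc, ← Complex.exp_add, neg_add_cancel, Complex.exp_zero, mul_one]

/-- `Δ(γ τ) = (cτ + d)^12 Δ(τ)` -/
theorem e16lb_disc_smul (γ : SL(2, ℤ)) (τ : ℍ) :
    ModularForm.discriminant (γ • τ) = ModularForm.discriminant τ * denom γ τ ^ 12 := by
  have h1 : (⇑CuspForm.discriminant : ℍ → ℂ) ∣[(12 : ℤ)] γ = ⇑CuspForm.discriminant :=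
    CuspForm.discriminant.slash_action_eq' (mapGL ℝ γ) ⟨γ, rfl⟩
  have h2 := congrFun h1 τ
  rw [SL_slash_apply] at h2
  have hd : denom γ τ ≠ 0 := denom_ne_zero γ τ
  have h3 : (⇑CuspForm.discriminant : ℍ → ℂ) = ModularForm.discriminant := rfl
  rw [h3] at h2
  have hz : denom γ τ ^ (-12 : ℤ) * denom γ τ ^ (12 : ℕ) = 1 := by
    rw [zpow_neg, ← zpow_natCast]
    exact inv_mul_cancel₀ (zpow_ne_zero _ hd)
  calc ModularForm.discriminant (γ • τ)
      = ModularForm.discriminant (γ • τ) * (denom γ τ ^ (-12 : ℤ) * denom γ τ ^ (12 : ℕ)) := by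
        rw [hz, mul_one]
    _ = ModularForm.discriminant τ * denom γ τ ^ 12 := by rw [← mul_assoc, h2]

/-- the eta quotient is `Γ₀(p)`-invariant -/
theorem e16lb_quot_inv (p : ℕ) (hp : p ≠ 0) (γ : SL(2, ℤ)) (hγ : γ ∈ CongruenceSubgroup.Gamma0 p)
    (τ : ℍ) :
    ModularForm.discriminant (ModularForm.heckeDiagMatrix p • (γ • τ)) /
        ModularForm.discriminant (γ • τ) =
      ModularForm.discriminant (ModularForm.heckeDiagMatrix p • τ) / ModularForm.discriminant τ := by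
  obtain ⟨γ', h10, h11, hconj⟩ := e16_conj p hp γ hγ
  have e1 : ModularForm.heckeDiagMatrix p • (γ • τ) = γ' • (ModularForm.heckeDiagMatrix p • τ) := by
    show ModularForm.heckeDiagMatrix p • (mapGL ℝ γ • τ) =
      mapGL ℝ γ' • (ModularForm.heckeDiagMatrix p • τ)
    rw [← mul_smul, ← mul_smul, hconj]
  have e4 : denom γ' ((ModularForm.heckeDiagMatrix p • τ : ℍ)) = denom γ τ := by
    rw [ModularGroup.denom_apply, ModularGroup.denom_apply,
      ModularForm.coe_heckeDiagMatrix_smul hp, ← h10, ← h11]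
    push_cast
    ring
  rw [e1, e16lb_disc_smul, e16lb_disc_smul, e4]
  have hd : denom γ τ ≠ 0 := denom_ne_zero γ τ
  have hΔ : ModularForm.discriminant τ ≠ 0 := ModularForm.discriminant_ne_zero τ
  field_simp

theorem e16lb_quot_eq (p : ℕ) (hp : p ≠ 0) (τ : ℍ) :
    (ModularForm.eta ((p : ℂ) * (τ : ℂ)) / ModularForm.eta (τ : ℂ)) ^ 24 =
      ModularForm.discriminant (ModularForm.heckeDiagMatrix p • τ) / ModularForm.discriminant τ := by
  rw [div_pow]
  show _ = (ModularForm.eta ((ModularForm.heckeDiagMatrix p • τ : ℍ) : ℂ)) ^ 24 /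
    (ModularForm.eta (τ : ℂ)) ^ 24
  rw [ModularForm.coe_heckeDiagMatrix_smul hp]

/-- the periods of the primitive are integers -/
theorem e16lb_period_int (p : ℕ) [Fact p.Prime] (γ : SL(2, ℤ))
    (hγ : γ ∈ CongruenceSubgroup.Gamma0 p) (τ : ℍ) :
    ∃ n : ℤ, e16lbF p ((γ • τ : ℍ) : ℂ) - e16lbF p (τ : ℂ) = (n : ℂ) := by
  have hp : p.Prime := Fact.out
  obtain ⟨C, hC, hexp⟩ := e16lbF_exp p
  have h1 := hexp (τ : ℂ) τ.im_pos
  have h2 := hexp ((γ • τ : ℍ) : ℂ) (γ • τ).im_pos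
  rw [e16lb_quot_eq p hp.ne_zero] at h1 h2
  rw [e16lb_quot_inv p hp.ne_zero γ hγ τ, h1] at h2
  have h3 : cexp (2 * Real.pi * I * e16lbF p ((γ • τ : ℍ) : ℂ) - 2 * Real.pi * I * e16lbF p (τ : ℂ))
      = 1 := by
    rw [Complex.exp_sub]
    have h4 := mul_left_cancel₀ hC h2
    rw [← h4]
    exact div_self (Complex.exp_ne_zero _)
  rw [Complex.exp_eq_one_iff] at h3
  obtain ⟨n, hn⟩ := h3
  refine ⟨n, ?_⟩
  have hpi : (2 * (Real.pi : ℂ) * I) ≠ 0 := Complex.two_pi_I_ne_zero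
  have h5 : (2 * (Real.pi : ℂ) * I) * (e16lbF p ((γ • τ : ℍ) : ℂ) - e16lbF p (τ : ℂ)) =
      (2 * (Real.pi : ℂ) * I) * (n : ℂ) := by
    rw [mul_sub, hn]
    ring
  exact mul_left_cancel₀ hpi h5

/-- the periods of the primitive do not depend on the base point -/
theorem e16lb_period_const (p : ℕ) [Fact p.Prime] (γ : SL(2, ℤ))
    (hγ : γ ∈ CongruenceSubgroup.Gamma0 p) (τ τ' : ℍ) :
    e16lbF p ((γ • τ : ℍ) : ℂ) - e16lbF p (τ : ℂ) =
      e16lbF p ((γ • τ' : ℍ) : ℂ) - e16lbF p (τ' : ℂ) := by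
  have hp : p.Prime := Fact.out
  set M := mapGL ℝ γ with hM
  have hMpos : 0 < M.det.val := det_mapGL_pos γ
  have h₂ : ∀ z ∈ UH, HasDerivAt (e16lbF p) (24 * e16EisFun p (ofComplex z)) z := by
    intro z hz
    have hz' : 0 < z.im := hz
    rw [ofComplex_apply_of_im_pos hz']
    exact e16lbF_hasDerivAt p hz'
  have h₁ : ∀ z ∈ UH, HasDerivAt (fun z => e16lbF p (mob M z))
      (24 * e16EisFun p (ofComplex z)) z := by
    intro z hz
    have hz' : 0 < z.im := hz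
    have hden : denom M z ≠ 0 := denom_ne_zero_of_im _ (ne_of_gt hz')
    have hmob := hasDerivAt_mob M hden
    have hmem : 0 < (mob M z).im := mob_mem_UH hMpos hz
    have hF := e16lbF_hasDerivAt p hmem
    have hcomp := hF.comp z hmob
    refine hcomp.congr_deriv ?_
    rw [ofComplex_apply_of_im_pos hz']
    have hsl := congrFun (e16EisFun_slash p hp.ne_zero γ hγ) ⟨z, hz'⟩
    rw [SL_slash_apply] at hsl
    have hpt : γ • (⟨z, hz'⟩ : ℍ) = ⟨mob M z, hmem⟩ := by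
      apply UpperHalfPlane.ext
      exact coe_smul_eq_mob hMpos ⟨z, hz'⟩
    rw [hpt] at hsl
    rw [← hsl, det_mapGL]
    have hden' : denom γ (⟨z, hz'⟩ : ℍ) = denom M z := rfl
    rw [hden', zpow_neg]
    have : denom M z ^ (2 : ℤ) = denom M z ^ 2 := zpow_ofNat _ 2
    rw [this]
    push_cast
    ring
  have h := sub_const_of_hasDerivAt h₁ h₂ (z := (τ : ℂ)) (z' := (τ' : ℂ)) τ.im_pos τ'.im_pos
  have e1 : ((γ • τ : ℍ) : ℂ) = mob M τ := coe_smul_eq_mob hMpos τ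
  have e2 : ((γ • τ' : ℍ) : ℂ) = mob M τ' := coe_smul_eq_mob hMpos τ'
  rw [e1, e2]
  exact h

theorem e16lb_period_exists (p : ℕ) [Fact p.Prime] (g : ↥(CongruenceSubgroup.Gamma0 p)) :
    ∃ n : ℤ, ∀ τ : ℍ, e16lbF p (((g : SL(2, ℤ)) • τ : ℍ) : ℂ) - e16lbF p (τ : ℂ) = (n : ℂ) := by
  obtain ⟨n, hn⟩ := e16lb_period_int p g.1 g.2 UpperHalfPlane.I
  exact ⟨n, fun τ => by rw [e16lb_period_const p g.1 g.2 τ UpperHalfPlane.I, hn]⟩

/-- the period of the Eisenstein primitive along `g ∈ Γ₀(p)` -/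
noncomputable def e16lbPhiFun (p : ℕ) [Fact p.Prime] (g : ↥(CongruenceSubgroup.Gamma0 p)) : ℤ :=
  Classical.choose (e16lb_period_exists p g)

theorem e16lbPhiFun_spec (p : ℕ) [Fact p.Prime] (g : ↥(CongruenceSubgroup.Gamma0 p)) (τ : ℍ) :
    e16lbF p (((g : SL(2, ℤ)) • τ : ℍ) : ℂ) - e16lbF p (τ : ℂ) = (e16lbPhiFun p g : ℂ) :=
  Classical.choose_spec (e16lb_period_exists p g) τ

theorem e16lbPhiFun_mul (p : ℕ) [Fact p.Prime] (g h : ↥(CongruenceSubgroup.Gamma0 p)) :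
    e16lbPhiFun p (g * h) = e16lbPhiFun p g + e16lbPhiFun p h := by
  have h1 := e16lbPhiFun_spec p (g * h) UpperHalfPlane.I
  have h2 := e16lbPhiFun_spec p g ((h : SL(2, ℤ)) • UpperHalfPlane.I)
  have h3 := e16lbPhiFun_spec p h UpperHalfPlane.I
  have e : ((g * h : ↥(CongruenceSubgroup.Gamma0 p)) : SL(2, ℤ)) • UpperHalfPlane.I =
      (g : SL(2, ℤ)) • ((h : SL(2, ℤ)) • UpperHalfPlane.I) := by
    rw [Subgroup.coe_mul, mul_smul]
  rw [e] at h1
  have : ((e16lbPhiFun p (g * h) : ℤ) : ℂ) = ((e16lbPhiFun p g + e16lbPhiFun p h : ℤ) : ℂ) := by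
    push_cast
    rw [← h1, ← h2, ← h3]
    ring
  exact_mod_cast this

/-- **the Eisenstein period homomorphism** `φ : Γ₀(p) → ℤ` -/
noncomputable def e16lbPhi (p : ℕ) [Fact p.Prime] :
    Additive ↥(CongruenceSubgroup.Gamma0 p) →+ ℤ :=
  AddMonoidHom.mk' (fun g => e16lbPhiFun p (Additive.toMul g))
    (fun a b => e16lbPhiFun_mul p (Additive.toMul a) (Additive.toMul b))

theorem e16lbPhi_apply (p : ℕ) [Fact p.Prime] (g : ↥(CongruenceSubgroup.Gamma0 p)) :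
    e16lbPhi p (Additive.ofMul g) = e16lbPhiFun p g := rfl

theorem e16lbPhi_spec (p : ℕ) [Fact p.Prime] (g : ↥(CongruenceSubgroup.Gamma0 p)) (τ : ℍ) :
    e16lbF p (((g : SL(2, ℤ)) • τ : ℍ) : ℂ) - e16lbF p (τ : ℂ) =
      (e16lbPhi p (Additive.ofMul g) : ℂ) :=
  e16lbPhiFun_spec p g τ

/-- `φ(T) = p - 1` -/
theorem e16lbPhi_T (p : ℕ) [Fact p.Prime] (g : ↥(CongruenceSubgroup.Gamma0 p))
    (hg : (g : SL(2, ℤ)) = ModularGroup.T) : e16lbPhi p (Additive.ofMul g) = (p : ℤ) - 1 := by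
  have h1 := e16lbPhi_spec p g UpperHalfPlane.I
  rw [hg, UpperHalfPlane.modular_T_smul, UpperHalfPlane.coe_vadd] at h1
  have h2 := e16lbF_add_one p (UpperHalfPlane.I : ℂ)
  have h3 : (((1 : ℝ) : ℂ) + (UpperHalfPlane.I : ℂ)) = (UpperHalfPlane.I : ℂ) + 1 := by
    push_cast; ring
  rw [h3, h2] at h1
  have : ((e16lbPhi p (Additive.ofMul g) : ℤ) : ℂ) = (((p : ℤ) - 1 : ℤ) : ℂ) := by
    rw [← h1]
    push_cast
    ring
  exact_mod_cast this

/-- the Fricke involution `z ↦ -1/(pz)` preserves the upper half plane -/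
theorem e16lb_W_mem (p : ℕ) (hp : p ≠ 0) {z : ℂ} (hz : 0 < z.im) :
    0 < ((-((p : ℂ) * z))⁻¹).im :=
  UpperHalfPlane.im_inv_neg_coe_pos ⟨(p : ℂ) * z, e16lb_mul_mem p hp hz⟩

/-- `E(-1/(pz)) = -p z² E(z)` -/
theorem e16lb_Eis_W (p : ℕ) (hp : p ≠ 0) {z : ℂ} (hz : 0 < z.im) :
    e16EisFun p ⟨(-((p : ℂ) * z))⁻¹, e16lb_W_mem p hp hz⟩ =
      -((p : ℂ) * z ^ 2) * e16EisFun p ⟨z, hz⟩ := by
  have hpz := e16lb_mul_mem p hp hz
  have h := e16EisFun_S_smul p hp ⟨(p : ℂ) * z, hpz⟩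
  have e1 : ModularGroup.S • (⟨(p : ℂ) * z, hpz⟩ : ℍ) =
      ⟨(-((p : ℂ) * z))⁻¹, e16lb_W_mem p hp hz⟩ := by
    rw [UpperHalfPlane.modular_S_smul]
  have hp' : (p : ℂ) ≠ 0 := by exact_mod_cast hp
  have e2 : ModularForm.heckeMatrix p 0 • (⟨(p : ℂ) * z, hpz⟩ : ℍ) = ⟨z, hz⟩ := by
    apply UpperHalfPlane.ext
    rw [ModularForm.coe_heckeMatrix_smul hp]
    show ((p : ℂ) * z + ((0 : ℕ) : ℂ)) / (p : ℂ) = z
    rw [Nat.cast_zero, add_zero]
    field_simp
  rw [e1, e2] at h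
  rw [h]
  show -(((p : ℂ) * z) ^ 2 / (p : ℂ)) * _ = _
  field_simp

/-- `F(-1/(pz)) + F(z)` is constant -/
theorem e16lbF_W_const (p : ℕ) [Fact p.Prime] {z z' : ℂ} (hz : 0 < z.im) (hz' : 0 < z'.im) :
    e16lbF p ((-((p : ℂ) * z))⁻¹) + e16lbF p z =
      e16lbF p ((-((p : ℂ) * z'))⁻¹) + e16lbF p z' := by
  have hp : p.Prime := Fact.out
  have hp' : (p : ℂ) ≠ 0 := by exact_mod_cast hp.ne_zero
  have h₂ : ∀ z ∈ UH, HasDerivAt (fun z => -e16lbF p z)
      (-(24 * e16EisFun p (ofComplex z))) z := by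
    intro z hz
    have hz' : 0 < z.im := hz
    rw [ofComplex_apply_of_im_pos hz']
    exact (e16lbF_hasDerivAt p hz').neg
  have h₁ : ∀ z ∈ UH, HasDerivAt (fun z => e16lbF p ((-((p : ℂ) * z))⁻¹))
      (-(24 * e16EisFun p (ofComplex z))) z := by
    intro z hz
    have hz' : 0 < z.im := hz
    have hz0 : z ≠ 0 := by
      rintro rfl
      simp at hz'
    have hW : HasDerivAt (fun z : ℂ => (-((p : ℂ) * z))⁻¹) (((p : ℂ) * z ^ 2)⁻¹) z := by
      have hlin : HasDerivAt (fun z : ℂ => -((p : ℂ) * z)) (-(p : ℂ)) z := by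
        have hfun : (fun z : ℂ => -((p : ℂ) * z)) = fun z => (-(p : ℂ)) * z := by
          funext z
          ring
        rw [hfun]
        simpa using (hasDerivAt_id z).const_mul (-(p : ℂ))
      have hne : -((p : ℂ) * z) ≠ 0 := neg_ne_zero.mpr (mul_ne_zero hp' hz0)
      have := hlin.inv hne
      refine this.congr_deriv ?_
      field_simp
    have hF := e16lbF_hasDerivAt p (e16lb_W_mem p hp.ne_zero hz')
    have hcomp := hF.comp z hW
    refine hcomp.congr_deriv ?_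
    rw [ofComplex_apply_of_im_pos hz', e16lb_Eis_W p hp.ne_zero hz']
    field_simp
  have h := sub_const_of_hasDerivAt h₁ h₂ (z := z) (z' := z') hz hz'
  simpa using h

/-- `φ(T') = p - 1` for `T' = [1, 0; p, 1]` -/
theorem e16lbPhi_T' (p : ℕ) [Fact p.Prime] (g : ↥(CongruenceSubgroup.Gamma0 p))
    (hg : ((g : SL(2, ℤ)) : Matrix (Fin 2) (Fin 2) ℤ) = !![1, 0; (p : ℤ), 1]) :
    e16lbPhi p (Additive.ofMul g) = (p : ℤ) - 1 := by
  have hp : p.Prime := Fact.out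
  have hp' : (p : ℂ) ≠ 0 := by exact_mod_cast hp.ne_zero
  have h1 := e16lbPhi_spec p g UpperHalfPlane.I
  have hcoe : (((g : SL(2, ℤ)) • UpperHalfPlane.I : ℍ) : ℂ) = I / ((p : ℂ) * I + 1) := by
    rw [UpperHalfPlane.coe_specialLinearGroup_apply]
    have e00 : (g : SL(2, ℤ)) 0 0 = 1 := by
      have := congrFun (congrFun hg 0) 0; simpa using this
    have e01 : (g : SL(2, ℤ)) 0 1 = 0 := by
      have := congrFun (congrFun hg 0) 1; simpa using this
    have e10 : (g : SL(2, ℤ)) 1 0 = (p : ℤ) := by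
      have := congrFun (congrFun hg 1) 0; simpa using this
    have e11 : (g : SL(2, ℤ)) 1 1 = 1 := by
      have := congrFun (congrFun hg 1) 1; simpa using this
    rw [e00, e01, e10, e11]
    simp
  rw [hcoe] at h1
  have hI : (0 : ℝ) < (I : ℂ).im := by simp
  -- w = W(i)
  set w : ℂ := (-((p : ℂ) * I))⁻¹ with hw
  have hwpos : 0 < w.im := e16lb_W_mem p hp.ne_zero hI
  have hw1pos : 0 < (w - 1).im := by simpa using hwpos
  have hK := e16lbF_W_const p hw1pos hwpos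
  have hden : (p : ℂ) * I + 1 ≠ 0 := by
    intro h
    have := congrArg Complex.im h
    simp at this
    exact hp.ne_zero this
  have e1 : (-((p : ℂ) * w))⁻¹ = I := by
    rw [hw]
    field_simp
  have e2 : (-((p : ℂ) * (w - 1)))⁻¹ = I / ((p : ℂ) * I + 1) := by
    have hI0 : (I : ℂ) ≠ 0 := I_ne_zero
    have e3 : -((p : ℂ) * (w - 1)) = ((p : ℂ) * I + 1) / I := by
      rw [hw]
      field_simp
      ring
    rw [e3, inv_div]
  rw [e1, e2] at hK
  have h2 := e16lbF_add_one p (w - 1)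
  rw [sub_add_cancel] at h2
  have hIc : (UpperHalfPlane.I : ℂ) = I := rfl
  rw [hIc] at h1
  have : ((e16lbPhi p (Additive.ofMul g) : ℤ) : ℂ) = (((p : ℤ) - 1 : ℤ) : ℂ) := by
    rw [← h1]
    push_cast
    linear_combination hK + h2
  exact_mod_cast this

/-- the primitive as a function on `ℍ` -/
noncomputable def e16lbFh (p : ℕ) [Fact p.Prime] : ℍ → ℂ := fun τ => e16lbF p (τ : ℂ)

theorem e16lbFh_hasDerivAt (p : ℕ) [Fact p.Prime] (τ : ℍ) :
    HasDerivAt (e16lbFh p ∘ ofComplex) (24 * e16Eis p τ) ↑τ := by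
  have hp : p.Prime := Fact.out
  have : NeZero p := ⟨hp.ne_zero⟩
  have h := e16lbF_hasDerivAt p τ.im_pos
  refine h.congr_of_eventuallyEq ?_
  filter_upwards [isOpen_UH.mem_nhds τ.im_pos] with z hz
  simp [e16lbFh, ofComplex_apply_of_im_pos hz]

theorem e16lbFh_spec (p : ℕ) [Fact p.Prime] (g : ↥(CongruenceSubgroup.Gamma0 p)) (τ : ℍ) :
    e16lbFh p ((g : SL(2, ℤ)) • τ) - e16lbFh p τ = (e16lbPhi p (Additive.ofMul g) : ℂ) :=
  e16lbPhi_spec p g τ

/-- the exponential identity in terms of the discriminant: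
`Δ(p τ)/Δ(τ) = C exp(2πi F(τ))`. -/
theorem e16lbF_exp_disc (p : ℕ) [Fact p.Prime] :
    ∃ C : ℂ, C ≠ 0 ∧ ∀ τ : ℍ,
      ModularForm.discriminant (ModularForm.heckeDiagMatrix p • τ) / ModularForm.discriminant τ =
        C * cexp (2 * Real.pi * I * e16lbFh p τ) := by
  have hp : p.Prime := Fact.out
  obtain ⟨C, hC, h⟩ := e16lbF_exp p
  refine ⟨C, hC, fun τ => ?_⟩
  rw [← e16lb_quot_eq p hp.ne_zero]
  exact h (τ : ℂ) τ.im_pos

/-- summary statement of leaf LB1 -/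
theorem e16lb_prim (p : ℕ) [Fact p.Prime] :
    ∃ (F : ℍ → ℂ) (φ : Additive ↥(CongruenceSubgroup.Gamma0 p) →+ ℤ),
      (∀ τ : ℍ, HasDerivAt (F ∘ ofComplex) (24 * e16Eis p τ) ↑τ) ∧
      (∀ (g : ↥(CongruenceSubgroup.Gamma0 p)) (τ : ℍ),
        F ((g : SL(2, ℤ)) • τ) - F τ = (φ (Additive.ofMul g) : ℂ)) ∧
      (∀ g : ↥(CongruenceSubgroup.Gamma0 p), (g : SL(2, ℤ)) = ModularGroup.T →
        φ (Additive.ofMul g) = (p : ℤ) - 1) ∧
      (∀ g : ↥(CongruenceSubgroup.Gamma0 p),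
        ((g : SL(2, ℤ)) : Matrix (Fin 2) (Fin 2) ℤ) = !![1, 0; (p : ℤ), 1] →
        φ (Additive.ofMul g) = (p : ℤ) - 1) :=
  ⟨e16lbFh p, e16lbPhi p, e16lbFh_hasDerivAt p, e16lbFh_spec p, e16lbPhi_T p, e16lbPhi_T' p⟩

end Fermat.Agent.E16
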