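import Mathlib

set_option autoImplicit false

/-!
# S16, lower bound, Ogg's step: rationality of `r`-th roots of power series (helper4)

`e16lb_root_rat` : if `Xs ^ r = c • P` with `P ∈ ℚ⟦q⟧` of order `N` and leading coefficient `1`,
then `Xs = x0 • Q` with `Q ∈ ℚ⟦q⟧` of order `m`, leading coefficient `1`, `r * m = N` and
`x0 ^ r = c`.  `e16lb_rat_pow` : `β ^ r = p ^ 12` with `β` rational forces `r ∣ 12`.
-/

namespace Fermat.Agent.E16

open PowerSeries

/-- a series with constant term `1` whose `r`-th power has rational coefficients has rational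
coefficients (via the differential equation `r P U' = U P'`). -/
theorem e16lb_root_core (r : ℕ) (hr : 0 < r) (U : PowerSeries ℂ) (P1 : PowerSeries ℚ)
    (hU0 : coeff 0 U = 1) (hP0 : coeff 0 P1 = 1)
    (h : U ^ r = P1.map (algebraMap ℚ ℂ)) :
    ∀ n, ∃ a : ℚ, coeff n U = (a : ℂ) := by
  obtain ⟨Pc, hPc⟩ : ∃ Pc : PowerSeries ℂ, Pc = P1.map (algebraMap ℚ ℂ) := ⟨_, rfl⟩
  rw [← hPc] at h
  have hode : (r : ℂ) • (Pc * d⁄dX ℂ U) = U * d⁄dX ℂ Pc := by
    have h1 : d⁄dX ℂ (U ^ r) = d⁄dX ℂ Pc := by rw [h]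
    rw [derivative_pow] at h1
    have h2 : U * U ^ (r - 1) = Pc := by
      rw [← pow_succ', Nat.sub_add_cancel hr, h]
    rw [← h1, ← h2, Nat.cast_smul_eq_nsmul, nsmul_eq_mul]
    ring
  obtain ⟨K, hK⟩ : ∃ K : Subfield ℂ, K = (algebraMap ℚ ℂ).fieldRange := ⟨_, rfl⟩
  have hmemK : ∀ x : ℂ, x ∈ K ↔ ∃ a : ℚ, x = (a : ℂ) := by
    intro x
    rw [hK, RingHom.mem_fieldRange]
    constructor
    · rintro ⟨a, rfl⟩
      exact ⟨a, rfl⟩
    · rintro ⟨a, rfl⟩
      exact ⟨a, rfl⟩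
  have hPK : ∀ i, coeff i Pc ∈ K := by
    intro i
    rw [hmemK]
    exact ⟨coeff i P1, by rw [hPc, coeff_map]; rfl⟩
  have hnat : ∀ k : ℕ, (k : ℂ) ∈ K := fun k => natCast_mem K k
  have hPc0 : coeff 0 Pc = 1 := by
    rw [hPc, coeff_map, hP0, map_one]
  suffices hmain : ∀ n, coeff n U ∈ K by
    intro n
    exact (hmemK _).mp (hmain n)
  intro n
  induction n using Nat.strong_induction_on with
  | _ n ih =>
    rcases n with _ | n
    · rw [hU0]
      exact K.one_mem
    · have hL : coeff n ((r : ℂ) • (Pc * d⁄dX ℂ U))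
          = (r : ℂ) * (coeff 0 Pc * (coeff (n + 1) U * ((n : ℂ) + 1))
            + ∑ x ∈ (Finset.HasAntidiagonal.antidiagonal n).erase (0, n),
                coeff x.1 Pc * (coeff (x.2 + 1) U * ((x.2 : ℂ) + 1))) := by
        rw [coeff_smul, coeff_mul, smul_eq_mul,
          ← Finset.add_sum_erase _ _ (show (0, n) ∈ Finset.HasAntidiagonal.antidiagonal n by simp)]
        simp only [coeff_derivative]
      have hR : coeff n (U * d⁄dX ℂ Pc)
          = ∑ x ∈ Finset.HasAntidiagonal.antidiagonal n,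
              coeff x.1 U * (coeff (x.2 + 1) Pc * ((x.2 : ℂ) + 1)) := by
        rw [coeff_mul]
        simp only [coeff_derivative]
      have hrest : ∑ x ∈ (Finset.HasAntidiagonal.antidiagonal n).erase (0, n),
          coeff x.1 Pc * (coeff (x.2 + 1) U * ((x.2 : ℂ) + 1)) ∈ K := by
        refine Subfield.sum_mem K (fun x hx => ?_)
        rw [Finset.mem_erase, Finset.HasAntidiagonal.mem_antidiagonal] at hx
        obtain ⟨hne, hsum⟩ := hx
        have hx2 : x.2 + 1 < n + 1 := by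
          by_contra hcon
          have h2 : x.2 = n := by omega
          have h1 : x.1 = 0 := by omega
          exact hne (Prod.ext h1 h2)
        exact K.mul_mem (hPK _) (K.mul_mem (ih _ hx2) (K.add_mem (hnat _) K.one_mem))
      have hRK : ∑ x ∈ Finset.HasAntidiagonal.antidiagonal n,
          coeff x.1 U * (coeff (x.2 + 1) Pc * ((x.2 : ℂ) + 1)) ∈ K := by
        refine Subfield.sum_mem K (fun x hx => ?_)
        rw [Finset.HasAntidiagonal.mem_antidiagonal] at hx
        have hx1 : x.1 < n + 1 := by omega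
        exact K.mul_mem (ih _ hx1) (K.mul_mem (hPK _) (K.add_mem (hnat _) K.one_mem))
      have heq := hL.symm.trans ((congrArg (coeff n) hode).trans hR)
      rw [hPc0, one_mul] at heq
      have hr0 : (r : ℂ) ≠ 0 := by exact_mod_cast hr.ne'
      have hn0 : (n : ℂ) + 1 ≠ 0 := by exact_mod_cast Nat.succ_ne_zero n
      have hsolve : coeff (n + 1) U
          = (∑ x ∈ Finset.HasAntidiagonal.antidiagonal n,
              coeff x.1 U * (coeff (x.2 + 1) Pc * ((x.2 : ℂ) + 1))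
            - (r : ℂ) * ∑ x ∈ (Finset.HasAntidiagonal.antidiagonal n).erase (0, n),
                coeff x.1 Pc * (coeff (x.2 + 1) U * ((x.2 : ℂ) + 1)))
            / ((r : ℂ) * ((n : ℂ) + 1)) := by
        rw [eq_div_iff (mul_ne_zero hr0 hn0)]
        linear_combination heq
      rw [hsolve]
      exact K.div_mem (K.sub_mem hRK (K.mul_mem (hnat r) hrest))
        (K.mul_mem (hnat r) (K.add_mem (hnat n) K.one_mem))

/-- **rational `r`-th roots**: an `r`-th root of `c • P`, `P ∈ ℚ⟦q⟧` with leading coefficient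
`1`, is a constant times a rational series with leading coefficient `1`. -/
theorem e16lb_root_rat (r : ℕ) (hr : 0 < r) (Xs : PowerSeries ℂ) (P : PowerSeries ℚ) (c : ℂ)
    (N : ℕ) (hP : P.order = N) (hlead : coeff N P = 1)
    (h : Xs ^ r = c • P.map (algebraMap ℚ ℂ)) (hc : c ≠ 0) :
    ∃ (m : ℕ) (x0 : ℂ) (Q : PowerSeries ℚ), r * m = N ∧ x0 ^ r = c ∧ Q.order = m ∧
      coeff m Q = 1 ∧ Xs = x0 • Q.map (algebraMap ℚ ℂ) := by
  obtain ⟨Pc, hPc⟩ : ∃ Pc : PowerSeries ℂ, Pc = P.map (algebraMap ℚ ℂ) := ⟨_, rfl⟩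
  rw [← hPc] at h
  have hPN : P.order.toNat = N := by rw [hP]; rfl
  -- the order of `c • Pc`
  have hcoeffc : ∀ i, coeff i (c • Pc) = c * ((coeff i P : ℚ) : ℂ) := by
    intro i
    rw [coeff_smul, hPc, coeff_map, smul_eq_mul]
    rfl
  have hordc : (c • Pc).order = N := by
    rw [order_eq_nat]
    refine ⟨?_, fun i hi => ?_⟩
    · rw [hcoeffc, hlead]
      simpa using hc
    · have h0 : coeff i P = 0 := coeff_of_lt_order i (by rw [hP]; exact_mod_cast hi)
      rw [hcoeffc, h0]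
      simp
  have hcPne : c • Pc ≠ 0 := by
    intro h0
    rw [h0, order_zero] at hordc
    exact ENat.top_ne_natCast N hordc
  have hXne : Xs ≠ 0 := by
    intro h0
    rw [h0, zero_pow hr.ne'] at h
    exact hcPne h.symm
  obtain ⟨m, hm⟩ : ∃ m : ℕ, m = Xs.order.toNat := ⟨_, rfl⟩
  have hXord : Xs.order = m := by rw [hm, coe_toNat_order hXne]
  have hrm : r * m = N := by
    have h1 : (Xs ^ r).order = (c • Pc).order := by rw [h]
    rw [order_pow, hXord, hordc] at h1
    have h2 : ((r * m : ℕ) : ℕ∞) = (N : ℕ∞) := by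
      rw [← h1]
      simp
    exact_mod_cast h2
  -- the leading parts
  obtain ⟨V, hV⟩ : ∃ V : PowerSeries ℂ, V = divXPowOrder Xs := ⟨_, rfl⟩
  obtain ⟨P1, hP1⟩ : ∃ P1 : PowerSeries ℚ, P1 = divXPowOrder P := ⟨_, rfl⟩
  have hXV : Xs = PowerSeries.X ^ m * V := by
    rw [hV, hm]
    exact X_pow_order_mul_divXPowOrder.symm
  have hP10 : coeff 0 P1 = 1 := by
    rw [hP1, coeff_divXPowOrder, zero_add, hPN, hlead]
  have hVr : V ^ r = c • P1.map (algebraMap ℚ ℂ) := by
    rw [hV, ← divXPowOrder_pow, h]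
    ext n
    have h1 : (c • Pc).order.toNat = N := by rw [hordc]; rfl
    rw [coeff_divXPowOrder, h1, hcoeffc, coeff_smul, coeff_map, hP1, coeff_divXPowOrder, hPN,
      smul_eq_mul]
    rfl
  obtain ⟨x0, hx0⟩ : ∃ x0 : ℂ, x0 = coeff 0 V := ⟨_, rfl⟩
  have hx0r : x0 ^ r = c := by
    have h1 := congrArg (coeff 0) hVr
    rw [coeff_zero_eq_constantCoeff, map_pow, ← coeff_zero_eq_constantCoeff, ← hx0,
      coeff_smul, coeff_map, hP10, map_one, smul_eq_mul, mul_one] at h1
    exact h1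
  have hx0ne : x0 ≠ 0 := by
    intro h0
    rw [h0, zero_pow hr.ne'] at hx0r
    exact hc hx0r.symm
  -- the normalised series
  have hU0 : coeff 0 (x0⁻¹ • V) = 1 := by
    rw [coeff_smul, ← hx0, smul_eq_mul, inv_mul_cancel₀ hx0ne]
  have hUr : (x0⁻¹ • V) ^ r = P1.map (algebraMap ℚ ℂ) := by
    rw [smul_pow, hVr, smul_smul, inv_pow, hx0r, inv_mul_cancel₀ hc, one_smul]
  have hcore := e16lb_root_core r hr (x0⁻¹ • V) P1 hU0 hP10 hUr
  choose a ha using hcore
  have hmapQ : (PowerSeries.mk a).map (algebraMap ℚ ℂ) = x0⁻¹ • V := by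
    ext n
    rw [coeff_map, coeff_mk, ha n]
    rfl
  have ha0 : a 0 = 1 := by
    have h1 := ha 0
    rw [hU0] at h1
    exact_mod_cast h1.symm
  refine ⟨m, x0, PowerSeries.X ^ m * PowerSeries.mk a, hrm, hx0r, ?_, ?_, ?_⟩
  · rw [order_eq_nat]
    refine ⟨?_, fun i hi => ?_⟩
    · rw [coeff_X_pow_mul', if_pos le_rfl, Nat.sub_self, coeff_mk, ha0]
      exact one_ne_zero
    · rw [coeff_X_pow_mul', if_neg (by omega)]
  · rw [coeff_X_pow_mul', if_pos le_rfl, Nat.sub_self, coeff_mk, ha0]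
  · rw [map_mul, map_pow, map_X, hmapQ, hXV, mul_smul_comm, smul_smul, mul_inv_cancel₀ hx0ne,
      one_smul]

/-- `β ^ r = p ^ 12` with `β` rational forces `r ∣ 12`. -/
theorem e16lb_rat_pow (p : ℕ) (hp : p.Prime) (r : ℕ) (hr : 0 < r) (β : ℚ)
    (h : β ^ r = (p : ℚ) ^ 12) : r ∣ 12 := by
  have : Fact p.Prime := ⟨hp⟩
  have hp0 : (p : ℚ) ≠ 0 := by exact_mod_cast hp.ne_zero
  have hβ : β ≠ 0 := by
    rintro rfl
    rw [zero_pow hr.ne'] at h
    exact pow_ne_zero 12 hp0 h.symm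
  have h1 := congrArg (padicValRat p) h
  rw [padicValRat.pow, padicValRat.pow, padicValRat.self hp.one_lt] at h1
  have h2 : (r : ℤ) ∣ 12 := ⟨padicValRat p β, by rw [h1]; norm_num⟩
  exact_mod_cast h2

end Fermat.Agent.E16
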