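import Mathlib

/-!
# S16, upper bound: the linear bound (pure power-series algebra)

Let `E = c + Σ δ_k q^k` (`c = (p-1)/24`) and `F = Σ a_k q^k` with integer coefficients. From the two
trace identities

* (I1) `p · F·E + U_p ((U_p F)·E) = 0`,
* (I2) `p · E² + U_p (E²) = c² (p+1) E₄`, `E₄ = 1 + 240 Σ s_k q^k`,

together with `U_p E = E`, `U_p (U_p F) = F`, we get for `D = δ - F` the identity
`N₀ D + p D·δ + U_p ((U_p D)·δ) = N₀ Σ (10 (p-1) s_k - δ_k) q^k`, `N₀ = c (p+1)`.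
Hence a congruence `F ≡ δ mod M` forces `M ∣ N₀ (10 (p-1) s_k - δ_k)` for all `k ≥ 1`.
-/

set_option autoImplicit false

namespace Fermat.Agent.E16

open Finset

/-- Convolution of integer sequences. -/
def e16cv (x y : ℕ → ℤ) (k : ℕ) : ℤ := ∑ ij ∈ antidiagonal k, x ij.1 * y ij.2

theorem e16cv_sub_left (x x' y : ℕ → ℤ) (k : ℕ) :
    e16cv (fun i => x i - x' i) y k = e16cv x y k - e16cv x' y k := by
  simp [e16cv, sub_mul, Finset.sum_sub_distrib]

theorem e16cv_dvd (M : ℤ) (x y : ℕ → ℤ) (h : ∀ i, M ∣ x i) (k : ℕ) : M ∣ e16cv x y k :=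
  Finset.dvd_sum fun _ _ => Dvd.dvd.mul_right (h _) _

theorem e16_coeff_mk_mul (x y : ℕ → ℤ) (k : ℕ) :
    (PowerSeries.mk (fun i => (x i : ℂ)) * PowerSeries.mk (fun i => (y i : ℂ))).coeff k
      = (e16cv x y k : ℂ) := by
  simp [PowerSeries.coeff_mul, e16cv]

theorem e16_coeff_mk_mul_E (c : ℂ) (x y : ℕ → ℤ) (k : ℕ) :
    (PowerSeries.mk (fun i => (x i : ℂ)) *
        (PowerSeries.C c + PowerSeries.mk (fun i => (y i : ℂ)))).coeff k
      = c * (x k : ℂ) + (e16cv x y k : ℂ) := by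
  rw [mul_add, map_add, e16_coeff_mk_mul, mul_comm _ (PowerSeries.C c), PowerSeries.coeff_C_mul,
    PowerSeries.coeff_mk]

theorem e16_coeff_E_mul_E (c : ℂ) (y : ℕ → ℤ) (k : ℕ) (hk : 1 ≤ k) :
    ((PowerSeries.C c + PowerSeries.mk (fun i => (y i : ℂ))) *
        (PowerSeries.C c + PowerSeries.mk (fun i => (y i : ℂ)))).coeff k
      = 2 * c * (y k : ℂ) + (e16cv y y k : ℂ) := by
  have h1 : (PowerSeries.C c + PowerSeries.mk (fun i => (y i : ℂ))) *
        (PowerSeries.C c + PowerSeries.mk (fun i => (y i : ℂ)))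
      = PowerSeries.C (c * c) + PowerSeries.C c * PowerSeries.mk (fun i => (y i : ℂ))
        + PowerSeries.C c * PowerSeries.mk (fun i => (y i : ℂ))
        + PowerSeries.mk (fun i => (y i : ℂ)) * PowerSeries.mk (fun i => (y i : ℂ)) := by
    rw [map_mul]; ring
  rw [h1, map_add, map_add, map_add, e16_coeff_mk_mul, PowerSeries.coeff_C_mul,
    PowerSeries.coeff_mk, PowerSeries.coeff_C, if_neg (by omega)]
  ring

/-- The linear bound, abstract form. -/
theorem e16_lin (p : ℕ) (c : ℂ) (N₀ : ℤ) (hc : 24 * c = (p : ℂ) - 1)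
    (hN : c * ((p : ℂ) + 1) = N₀)
    (δ a s : ℕ → ℤ) (hδ0 : δ 0 = 0) (ha0 : a 0 = 0) (hδp : ∀ k, δ (p * k) = δ k)
    (hUU : ∀ k, a (p * (p * k)) = a k)
    (I1 : ∀ k, (p : ℂ) * ((PowerSeries.mk fun i => (a i : ℂ)) *
          (PowerSeries.C c + PowerSeries.mk fun i => (δ i : ℂ))).coeff k
        + ((PowerSeries.mk fun i => (a (p * i) : ℂ)) *
          (PowerSeries.C c + PowerSeries.mk fun i => (δ i : ℂ))).coeff (p * k) = 0)
    (I2 : ∀ k, 1 ≤ k → (p : ℂ) * ((PowerSeries.C c + PowerSeries.mk fun i => (δ i : ℂ)) *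
          (PowerSeries.C c + PowerSeries.mk fun i => (δ i : ℂ))).coeff k
        + ((PowerSeries.C c + PowerSeries.mk fun i => (δ i : ℂ)) *
          (PowerSeries.C c + PowerSeries.mk fun i => (δ i : ℂ))).coeff (p * k)
        = c ^ 2 * ((p : ℂ) + 1) * (240 * (s k : ℂ)))
    (M : ℤ) (hM : ∀ k, 1 ≤ k → M ∣ a k - δ k) (k : ℕ) (hk : 1 ≤ k) (hp : 1 ≤ p) :
    M ∣ N₀ * (10 * ((p : ℤ) - 1) * s k - δ k) := by
  -- the integer identity
  have key : N₀ * (δ k - a k) + (p : ℤ) * e16cv (fun i => δ i - a i) δ k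
      + e16cv (fun i => δ (p * i) - a (p * i)) δ (p * k)
      = N₀ * (10 * ((p : ℤ) - 1) * s k - δ k) := by
    have hpk : 1 ≤ p * k := Nat.mul_pos hp hk
    have h1 := I1 k
    rw [e16_coeff_mk_mul_E, e16_coeff_mk_mul_E, hUU] at h1
    have h2 := I2 k hk
    rw [e16_coeff_E_mul_E c δ k hk, e16_coeff_E_mul_E c δ (p * k) hpk, hδp] at h2
    have hδp' : (fun i => δ (p * i)) = δ := funext hδp
    rw [e16cv_sub_left, e16cv_sub_left, hδp']
    have : ((N₀ * (δ k - a k) + (p : ℤ) * (e16cv δ δ k - e16cv a δ k)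
        + (e16cv δ δ (p * k) - e16cv (fun i => a (p * i)) δ (p * k)) : ℤ) : ℂ)
        = ((N₀ * (10 * ((p : ℤ) - 1) * s k - δ k) : ℤ) : ℂ) := by
      push_cast
      rw [← hN]
      linear_combination (-1 : ℂ) * h1 + h2 + 10 * c * (s k : ℂ) * ((p : ℂ) + 1) * hc
    exact_mod_cast this
  rw [← key]
  have hD : ∀ i, M ∣ δ i - a i := by
    intro i
    rcases Nat.eq_zero_or_pos i with rfl | hi
    · simp [hδ0, ha0]
    · have := hM i hi
      rw [show δ i - a i = -(a i - δ i) by ring]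
      exact (dvd_neg).mpr this
  refine dvd_add (dvd_add ?_ ?_) ?_
  · exact Dvd.dvd.mul_left (hD k) _
  · exact Dvd.dvd.mul_left (e16cv_dvd M _ _ hD k) _
  · exact e16cv_dvd M _ _ (fun i => hD (p * i)) (p * k)

end Fermat.Agent.E16
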