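import Fermat.Agent.Lib.E16_UBLin

/-!
# S16, upper bound: the linear bound with a multiplier, and the primes `p = 2, 3`

`e16_lin_m` is `e16_lin` with an integer multiplier `m` clearing the denominator of
`c (p + 1) = (p² - 1)/24`. For `p = 2` (`m = 8`) and `p = 3` (`m = 3`) it gives `M ∣ 9, 89` resp.
`M ∣ 19, 177`, hence `M = 1`: no dimension formula is needed for the small primes.
-/

set_option autoImplicit false

namespace Fermat.Agent.E16

open Finset ModularCurve CuspForm ModularFormClass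

/-- The linear bound with a multiplier. -/
theorem e16_lin_m (p : ℕ) (c : ℂ) (m N₀ : ℤ) (hc : 24 * c = (p : ℂ) - 1)
    (hN : (m : ℂ) * (c * ((p : ℂ) + 1)) = N₀)
    (δ a s : ℕ → ℤ) (hδ0 : δ 0 = 0) (ha0 : a 0 = 0) (hδp : ∀ k, δ (p * k) = δ k)
    (hUU : ∀ k, a (p * (p * k)) = a k)
    (I1 : ∀ k, (p : ℂ) * ((PowerSeries.mk fun i => (a i : ℂ)) *
          (PowerSeries.C c + PowerSeries.mk fun i => (δ i : ℂ))).coeff k
        + ((PowerSeries.mk fun i => (a (p * i) : ℂ)) *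
          (PowerSeries.C c + PowerSeries.mk fun i => (δ i : ℂ))).coeff (p * k) = 0)
    (I2 : ∀ k, 1 ≤ k → (p : ℂ) * ((PowerSeries.C c + PowerSeries.mk fun i => (δ i : ℂ)) *
          (PowerSeries.C c + PowerSeries.mk fun i => (δ i : ℂ))).coeff k
        + ((PowerSeries.C c + PowerSeries.mk fun i => (δ i : ℂ)) *
          (PowerSeries.C c + PowerSeries.mk fun i => (δ i : ℂ))).coeff (p * k)
        = c ^ 2 * ((p : ℂ) + 1) * (240 * (s k : ℂ)))
    (M : ℤ) (hM : ∀ k, 1 ≤ k → M ∣ a k - δ k) (k : ℕ) (hk : 1 ≤ k) (hp : 1 ≤ p) :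
    M ∣ N₀ * (10 * ((p : ℤ) - 1) * s k - δ k) := by
  have key : N₀ * (δ k - a k) + m * ((p : ℤ) * e16cv (fun i => δ i - a i) δ k
      + e16cv (fun i => δ (p * i) - a (p * i)) δ (p * k))
      = N₀ * (10 * ((p : ℤ) - 1) * s k - δ k) := by
    have hpk : 1 ≤ p * k := Nat.mul_pos hp hk
    have h1 := I1 k
    rw [e16_coeff_mk_mul_E, e16_coeff_mk_mul_E, hUU] at h1
    have h2 := I2 k hk
    rw [e16_coeff_E_mul_E c δ k hk, e16_coeff_E_mul_E c δ (p * k) hpk, hδp] at h2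
    have hδp' : (fun i => δ (p * i)) = δ := funext hδp
    rw [e16cv_sub_left, e16cv_sub_left, hδp']
    have : ((N₀ * (δ k - a k) + m * ((p : ℤ) * (e16cv δ δ k - e16cv a δ k)
        + (e16cv δ δ (p * k) - e16cv (fun i => a (p * i)) δ (p * k))) : ℤ) : ℂ)
        = ((N₀ * (10 * ((p : ℤ) - 1) * s k - δ k) : ℤ) : ℂ) := by
      push_cast
      rw [← hN]
      linear_combination (-(m : ℂ)) * h1 + (m : ℂ) * h2
        + (m : ℂ) * (10 * c * (s k : ℂ) * ((p : ℂ) + 1)) * hc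
    exact_mod_cast this
  rw [← key]
  have hD : ∀ i, M ∣ δ i - a i := by
    intro i
    rcases Nat.eq_zero_or_pos i with rfl | hi
    · simp [hδ0, ha0]
    · have := hM i hi
      rw [show δ i - a i = -(a i - δ i) by ring]
      exact (dvd_neg).mpr this
  refine dvd_add ?_ (Dvd.dvd.mul_left (dvd_add ?_ ?_) _)
  · exact Dvd.dvd.mul_left (hD k) _
  · exact Dvd.dvd.mul_left (e16cv_dvd M _ _ hD k) _
  · exact e16cv_dvd M _ _ (fun i => hD (p * i)) (p * k)

theorem e16δ_two_two : e16δ 2 2 = 1 := by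
  have hd : Nat.divisors 2 = {1, 2} := by decide
  rw [e16δ, hd, Finset.filter_insert, if_pos (by norm_num), Finset.filter_singleton,
    if_neg (by norm_num)]
  simp

theorem e16δ_three_two : e16δ 3 2 = 3 := by
  have hd : Nat.divisors 2 = {1, 2} := by decide
  rw [e16δ, hd, Finset.filter_insert, if_pos (by norm_num), Finset.filter_singleton,
    if_pos (by norm_num)]
  simp

/-- **The linear bound for `p = 2, 3`**: a congruence `f ≡ δ mod M` forces `M = 1`. -/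
theorem e16_ub_lin_small (p : ℕ) [Fact p.Prime] (hp23 : p = 2 ∨ p = 3)
    (qE : PowerSeries ℂ) (hE0 : qE.coeff 0 = ((p : ℂ) - 1) / 24)
    (hEk : ∀ k, 1 ≤ k → qE.coeff k = (e16δ p k : ℂ))
    (s : ℕ → ℤ) (hs1 : s 1 = 1) (hs2 : s 2 = 9)
    (I1 : ∀ (f : e16L p) (k : ℕ),
      (p : ℂ) * ((PowerSeries.mk fun i => (e16a p f i : ℂ)) * qE).coeff k
        + ((PowerSeries.mk fun i => (e16a p f (p * i) : ℂ)) * qE).coeff (p * k) = 0)
    (I2 : ∀ k, 1 ≤ k → (p : ℂ) * (qE * qE).coeff k + (qE * qE).coeff (p * k)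
        = (((p : ℂ) - 1) / 24) ^ 2 * ((p : ℂ) + 1) * (240 * (s k : ℂ)))
    (hUU : ∀ (f : e16L p) (k : ℕ), e16a p f (p * (p * k)) = e16a p f k)
    (M : ℕ) (f : e16L p) (hf : ∀ k, 1 ≤ k → (M : ℤ) ∣ e16a p f k - e16δ p k) :
    M = 1 := by
  have hp : p.Prime := Fact.out
  have hqE : qE = PowerSeries.C (((p : ℂ) - 1) / 24) + PowerSeries.mk fun i => (e16δ p i : ℂ) := by
    ext k
    rcases Nat.eq_zero_or_pos k with rfl | hk
    · simp [hE0, e16δ_zero]
    · rw [hEk k hk, map_add, PowerSeries.coeff_C, if_neg (by omega), PowerSeries.coeff_mk,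
        zero_add]
  have key := fun (m : ℤ) (hm : (m : ℂ) * (((p : ℂ) - 1) / 24 * ((p : ℂ) + 1)) = ((1 : ℤ) : ℂ))
      k hk => e16_lin_m p (((p : ℂ) - 1) / 24) m 1 (by ring) hm
    (e16δ p) (e16a p f) s (e16δ_zero p) (e16a_coeff_zero p f)
    (fun k => by rw [mul_comm]; exact e16δ_mul_p p k) (hUU f)
    (fun k => by have := I1 f k; rwa [hqE] at this)
    (fun k hk => by have := I2 k hk; rwa [hqE] at this)
    (M : ℤ) hf k hk hp.one_le
  have hM1 : (M : ℤ) ∣ 1 := by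
    rcases hp23 with rfl | rfl
    · have h1 := key 8 (by push_cast; norm_num) 1 le_rfl
      have h2 := key 8 (by push_cast; norm_num) 2 (by norm_num)
      rw [hs1, e16δ_one] at h1
      rw [hs2, e16δ_two_two] at h2
      norm_num at h1 h2
      have : (M : ℤ) ∣ 89 - 9 * 9 - 8 * 1 + 1 * 1 := by
        have h3 : (M : ℤ) ∣ 89 * 1 - 9 * 9 := dvd_sub (Dvd.dvd.mul_right h2 1) (Dvd.dvd.mul_right h1 9)
        have h4 : (M : ℤ) ∣ 9 - (89 * 1 - 9 * 9) := dvd_sub h1 h3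
        simpa using h4
      simpa using this
    · have h1 := key 3 (by push_cast; norm_num) 1 le_rfl
      have h2 := key 3 (by push_cast; norm_num) 2 (by norm_num)
      rw [hs1, e16δ_one] at h1
      rw [hs2, e16δ_three_two] at h2
      norm_num at h1 h2
      have h3 : (M : ℤ) ∣ 177 - 19 * 9 := dvd_sub h2 (Dvd.dvd.mul_right h1 9)
      have h4 : (M : ℤ) ∣ 19 - (177 - 19 * 9) * 3 := dvd_sub h1 (Dvd.dvd.mul_right h3 3)
      simpa using h4
  have := Int.natCast_dvd_natCast.mp (by simpa using hM1 : ((M : ℕ) : ℤ) ∣ ((1 : ℕ) : ℤ))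
  exact Nat.dvd_one.mp this

end Fermat.Agent.E16
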