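-- S16 lower bound, rho-route [CORE] (lead; adapted from helper7's `e16lb_alg`): an integral parabolic
-- homomorphism which is an Eisenstein eigenvector modulo `M` for the coset Hecke relations forces
-- `M ∣ χ(t) λ(γ)` for every Hecke polynomial `t` killing `S₂(Γ₀(p))`.
import Fermat.Agent.Lib.E16_LBAlg

set_option autoImplicit false
set_option linter.unusedSectionVars false

namespace Fermat.Agent.E16

open CongruenceSubgroup ModularCurve ModularCurve.Period CuspForm

variable (p : ℕ) [Fact p.Prime]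

/-- **Hecke data modulo `M`**: a coset formula for the periods of `T_ℓ f` (resp. `U_p f`), also at
the conjugate `jConjGamma0 γ`, for which `lam` is an Eisenstein eigenvector modulo `M`. -/
def E16mHecke (M : ℤ) (lam : Additive (Gamma0 p) →+ ℤ) : Prop :=
  ∀ (ℓ : Nat.Primes) (γ : Gamma0 p), ∃ (ι : Type) (_ : Fintype ι) (g' : ι → Gamma0 p),
    (∀ f : CuspForm (Gamma0 p) 2,
      periodMap p ((heckeFormsGen p 2 ℓ).1 f) (Additive.ofMul γ) =
        ∑ i, periodMap p f (Additive.ofMul (g' i))) ∧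
    (∀ f : CuspForm (Gamma0 p) 2,
      periodMap p ((heckeFormsGen p 2 ℓ).1 f) (Additive.ofMul (jConjGamma0 p γ)) =
        ∑ i, periodMap p f (Additive.ofMul (jConjGamma0 p (g' i)))) ∧
    M ∣ ∑ i, lam (Additive.ofMul (g' i)) - eisensteinSystem p ℓ * lam (Additive.ofMul γ)

theorem e16m_hecke_zero (M : ℤ) (lam : Additive (Gamma0 p) →+ ℤ) (hH : E16mHecke p M lam) :
    E16lbHecke p 0 := by
  intro ℓ γ
  obtain ⟨ι, hι, g', h1, h2, -⟩ := hH ℓ γ
  exact ⟨ι, hι, g', h1, h2, by simp⟩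

/-- the coset formula for the period pair -/
theorem e16m_pair_hecke (M : ℤ) (lam : Additive (Gamma0 p) →+ ℤ) (hH : E16mHecke p M lam)
    (ℓ : Nat.Primes) (γ : Gamma0 p) :
    ∃ (ι : Type) (_ : Fintype ι) (g' : ι → Gamma0 p),
      (∀ v : CuspForm (Gamma0 p) 2 × CuspForm (Gamma0 p) 2,
        periodHomPair p (e16lbPM p (heckeFormsGen p 2 ℓ).1 v) (Additive.ofMul γ) =
          ∑ i, periodHomPair p v (Additive.ofMul (g' i))) ∧
      M ∣ ∑ i, lam (Additive.ofMul (g' i)) - eisensteinSystem p ℓ * lam (Additive.ofMul γ) := by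
  obtain ⟨ι, hι, g', h1, h2, h3⟩ := hH ℓ γ
  refine ⟨ι, hι, g', fun v => ?_, h3⟩
  obtain ⟨f₁, f₂⟩ := v
  rw [e16lbPM_apply, e16lb_per_apply, h1, h2, h1, h2]
  simp only [e16lb_per_apply, Finset.sum_add_distrib, Finset.sum_sub_distrib]

/-- **the algebraic core of the lower bound, modulo `M`** -/
theorem e16m_core (M : ℤ) (hM : M ≠ 0) (lam : Additive (Gamma0 p) →+ ℤ)
    (hpar : (Int.castAddHom ℂ).comp lam ∈ parabolicHoms ℂ (Gamma0 p) ℂ)
    (hH : E16mHecke p M lam) (t : HeckeAlg) (ht : heckeEvalForms p 2 t = 0) (γ : Gamma0 p) :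
    M ∣ MvPolynomial.aeval (R := ℤ) (eisensteinSystem p) t * lam (Additive.ofMul γ) := by
  obtain ⟨-, hrange⟩ := Fermat.Agent.S21.result p
  rw [← hrange] at hpar
  obtain ⟨v₀, hv₀⟩ := hpar
  have hv₀' : ∀ γ, periodHomPair p v₀ γ = (lam γ : ℂ) := by
    intro γ
    rw [hv₀]; rfl
  have hMC : (M : ℂ) ≠ 0 := by exact_mod_cast hM
  have hle := e16lb_hecke_le p 0 (e16m_hecke_zero p M lam hH)
  -- the Eisenstein property of `lam` under a generator
  have hgen : ∀ ℓ : Nat.Primes, ∃ w : CuspForm (Gamma0 p) 2 × CuspForm (Gamma0 p) 2,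
      e16lbInt p (periodHomPair p w) ∧
        e16lbPM p (heckeFormsGen p 2 ℓ).1 v₀ =
          (eisensteinSystem p ℓ : ℂ) • v₀ + (M : ℂ) • w := by
    intro ℓ
    refine ⟨(M : ℂ)⁻¹ • (e16lbPM p (heckeFormsGen p 2 ℓ).1 v₀ -
      (eisensteinSystem p ℓ : ℂ) • v₀), ?_, ?_⟩
    · intro γ
      obtain ⟨γ, rfl⟩ := Additive.ofMul.surjective γ
      obtain ⟨ι, hι, g', h1, k, hk⟩ := e16m_pair_hecke p M lam hH ℓ γ
      refine ⟨k, ?_⟩
      rw [map_smul, map_sub, map_smul, AddMonoidHom.smul_apply, AddMonoidHom.sub_apply,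
        AddMonoidHom.smul_apply, h1]
      simp only [hv₀', smul_eq_mul]
      have hk' : (∑ i, (lam (Additive.ofMul (g' i)) : ℂ)) -
          (eisensteinSystem p ℓ : ℂ) * (lam (Additive.ofMul γ) : ℂ) = (M : ℂ) * k := by
        exact_mod_cast hk
      rw [hk']
      field_simp
    · rw [smul_smul, mul_inv_cancel₀ hMC, one_smul]
      abel
  -- the induction over Hecke polynomials
  have hind : ∀ t : HeckeAlg, ∃ w : CuspForm (Gamma0 p) 2 × CuspForm (Gamma0 p) 2,
      e16lbInt p (periodHomPair p w) ∧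
        e16lbPM p (heckeEvalForms p 2 t).1 v₀ =
          ((MvPolynomial.aeval (R := ℤ) (eisensteinSystem p) t : ℤ) : ℂ) • v₀ +
            (M : ℂ) • w := by
    intro t
    induction t using MvPolynomial.induction_on with
    | C a =>
      refine ⟨0, fun γ => ⟨0, by simp⟩, ?_⟩
      rw [heckeEvalForms_C, MvPolynomial.aeval_C, smul_zero, add_zero]
      rw [e16lbPM_apply]
      ext <;> simp
    | add s t hs ht =>
      obtain ⟨w₁, hw₁, e₁⟩ := hs
      obtain ⟨w₂, hw₂, e₂⟩ := ht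
      refine ⟨w₁ + w₂, ?_, ?_⟩
      · intro γ
        obtain ⟨n₁, hn₁⟩ := hw₁ γ
        obtain ⟨n₂, hn₂⟩ := hw₂ γ
        exact ⟨n₁ + n₂, by rw [map_add, AddMonoidHom.add_apply, hn₁, hn₂]; push_cast; ring⟩
      · have e : e16lbPM p (heckeEvalForms p 2 (s + t)).1 v₀ =
            e16lbPM p (heckeEvalForms p 2 s).1 v₀ + e16lbPM p (heckeEvalForms p 2 t).1 v₀ := by
          rw [map_add]; rfl
        rw [e, e₁, e₂, map_add]
        push_cast
        rw [add_smul, smul_add]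
        abel
    | mul_X t ℓ ih =>
      obtain ⟨w, hw, e⟩ := ih
      obtain ⟨wℓ, hwℓ, eℓ⟩ := hgen ℓ
      refine ⟨(eisensteinSystem p ℓ : ℂ) • w + e16lbPM p (heckeEvalForms p 2 t).1 wℓ, ?_, ?_⟩
      · intro γ
        obtain ⟨n₁, hn₁⟩ := hw γ
        obtain ⟨n₂, hn₂⟩ := hle (heckeEvalForms p 2 t).2 wℓ hwℓ γ
        refine ⟨eisensteinSystem p ℓ * n₁ + n₂, ?_⟩
        rw [map_add, map_smul, AddMonoidHom.add_apply, AddMonoidHom.smul_apply, hn₁, hn₂]
        push_cast; simp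
      · have e' : e16lbPM p (heckeEvalForms p 2 (t * MvPolynomial.X ℓ)).1 v₀ =
            e16lbPM p (heckeEvalForms p 2 t).1 (e16lbPM p (heckeFormsGen p 2 ℓ).1 v₀) := by
          rw [map_mul]
          have : heckeEvalForms p 2 (MvPolynomial.X ℓ) = heckeFormsGen p 2 ℓ :=
            heckeEvalForms_heckeGen p 2 ℓ
          rw [this]
          rfl
        rw [e', eℓ, map_add, map_smul, map_smul, e, map_mul, MvPolynomial.aeval_X]
        push_cast
        rw [smul_add, smul_add, smul_smul, smul_smul, smul_smul]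
        have hc : (eisensteinSystem p ℓ : ℂ) * (M : ℂ) =
            (M : ℂ) * (eisensteinSystem p ℓ : ℂ) := mul_comm _ _
        rw [hc, mul_comm ((eisensteinSystem p ℓ : ℤ) : ℂ)]
        abel
  obtain ⟨w, hw, e⟩ := hind t
  have e0 : e16lbPM p (heckeEvalForms p 2 t).1 v₀ = 0 := by
    rw [ht]; rfl
  rw [e0] at e
  have e1 := congrArg (fun u => periodHomPair p u (Additive.ofMul γ)) e
  simp only [map_zero, map_add, map_smul, AddMonoidHom.add_apply, AddMonoidHom.smul_apply,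
    AddMonoidHom.zero_apply, hv₀', smul_eq_mul] at e1
  obtain ⟨n, hn⟩ := hw (Additive.ofMul γ)
  rw [hn] at e1
  refine ⟨-n, ?_⟩
  have e2 : ((MvPolynomial.aeval (R := ℤ) (eisensteinSystem p) t *
      lam (Additive.ofMul γ) : ℤ) : ℂ) = ((M * -n : ℤ) : ℂ) := by
    push_cast
    linear_combination -e1
  exact_mod_cast e2

end Fermat.Agent.E16
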