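/-
S16 lower bound, rho-route, piece [M1] (helper2): the graph-flow lemma.  Mathlib only.

`I` is a finite set with an involution `s` and a permutation `u` of order dividing 3, acting
transitively.  A function `cb : I → ZMod n` satisfying the Manin relations
`cb i + cb (s i) = 0`, `cb i + cb (u i) + cb (u (u i)) = 0` and vanishing at the fixed points of
`s` and `u` lifts to `c : I → ℤ` satisfying the same relations exactly.
-/
import Mathlib

set_option autoImplicit false

namespace Fermat.Agent.E16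

section flow

set_option linter.unusedSectionVars false

variable {I : Type} [Fintype I] [DecidableEq I]

/-- `e16mflM u i j = #{k < 3 | u^k j = i}`. -/
def e16mflM (u : Equiv.Perm I) (i j : I) : ℤ :=
  (if j = i then 1 else 0) + (if u j = i then 1 else 0) + (if u (u j) = i then 1 else 0)

/-- The group of "divergences" `e + e ∘ u + e ∘ u²` of `s`-antisymmetric functions `e`. -/
def e16mflB (s u : Equiv.Perm I) (b : I → ℤ) : Prop :=
  ∃ e : I → ℤ, (∀ i, e (s i) = -e i) ∧ ∀ j, e j + e (u j) + e (u (u j)) = b j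

theorem e16mflB_zero (s u : Equiv.Perm I) : e16mflB s u (fun _ => 0) :=
  ⟨fun _ => 0, fun _ => by simp, fun _ => by simp⟩

theorem e16mflB_add {s u : Equiv.Perm I} {b₁ b₂ : I → ℤ} (h₁ : e16mflB s u b₁)
    (h₂ : e16mflB s u b₂) : e16mflB s u (fun j => b₁ j + b₂ j) := by
  obtain ⟨e₁, ha₁, hb₁⟩ := h₁
  obtain ⟨e₂, ha₂, hb₂⟩ := h₂
  refine ⟨fun j => e₁ j + e₂ j, fun i => ?_, fun j => ?_⟩
  · show e₁ (s i) + e₂ (s i) = -(e₁ i + e₂ i)
    rw [ha₁, ha₂]; ring
  · show e₁ j + e₂ j + (e₁ (u j) + e₂ (u j)) + (e₁ (u (u j)) + e₂ (u (u j))) = b₁ j + b₂ j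
    rw [← hb₁, ← hb₂]; ring

theorem e16mflB_smul {s u : Equiv.Perm I} {b : I → ℤ} (z : ℤ) (h : e16mflB s u b) :
    e16mflB s u (fun j => z * b j) := by
  obtain ⟨e, ha, hb⟩ := h
  refine ⟨fun j => z * e j, fun i => ?_, fun j => ?_⟩
  · show z * e (s i) = -(z * e i)
    rw [ha]; ring
  · show z * e j + z * e (u j) + z * e (u (u j)) = z * b j
    rw [← hb]; ring

theorem e16mflB_neg {s u : Equiv.Perm I} {b : I → ℤ} (h : e16mflB s u b) :
    e16mflB s u (fun j => -b j) := by
  have := e16mflB_smul (-1) h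
  simpa using this

theorem e16mflB_congr {s u : Equiv.Perm I} {b b' : I → ℤ} (h : e16mflB s u b)
    (hbb : ∀ j, b j = b' j) : e16mflB s u b' := by
  have : b = b' := funext hbb
  rwa [← this]

theorem e16mflB_sum {s u : Equiv.Perm I} {ι : Type} (t : Finset ι) (f : ι → I → ℤ)
    (h : ∀ a ∈ t, e16mflB s u (f a)) : e16mflB s u (fun j => ∑ a ∈ t, f a j) := by
  classical
  induction t using Finset.induction_on with
  | empty => simpa using e16mflB_zero s u
  | insert a t ha ih =>
    have h1 := e16mflB_add (h a (Finset.mem_insert_self a t))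
      (ih fun a' ha' => h a' (Finset.mem_insert_of_mem ha'))
    refine e16mflB_congr h1 fun j => ?_
    rw [Finset.sum_insert ha]

/-- `M_i - M_{s i}` is a divergence. -/
theorem e16mflB_M_s (s u : Equiv.Perm I) (hs : ∀ i, s (s i) = i) (i : I) :
    e16mflB s u (fun j => e16mflM u i j - e16mflM u (s i) j) := by
  refine ⟨fun j => (if j = i then 1 else 0) - (if j = s i then 1 else 0), fun j => ?_, fun j => ?_⟩
  · have h1 : (s j = i) ↔ (j = s i) := by
      constructor
      · intro h; rw [← h, hs]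
      · intro h; rw [h, hs]
    have h2 : (s j = s i) ↔ (j = i) := s.injective.eq_iff
    simp only [h1, h2]
    ring
  · unfold e16mflM
    ring

/-- `M_{u i} = M_i`. -/
theorem e16mflM_u (u : Equiv.Perm I) (hu : ∀ i, u (u (u i)) = i) (i j : I) :
    e16mflM u (u i) j = e16mflM u i j := by
  unfold e16mflM
  have h1 : (u j = u i) ↔ (j = i) := u.injective.eq_iff
  have h2 : (u (u j) = u i) ↔ (u j = i) := u.injective.eq_iff
  have h3 : (j = u i) ↔ (u (u j) = i) := by
    constructor
    · intro h; rw [h, hu]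
    · intro h; rw [← h, hu]
  simp only [h1, h2, h3]
  ring

/-- `M_i - M_{g i}` is a divergence for every `g` in the group generated by `s` and `u`. -/
theorem e16mflB_M_closure (s u : Equiv.Perm I) (hs : ∀ i, s (s i) = i)
    (hu : ∀ i, u (u (u i)) = i) (g : Equiv.Perm I) (hg : g ∈ Subgroup.closure {s, u}) :
    ∀ i, e16mflB s u (fun j => e16mflM u i j - e16mflM u (g i) j) := by
  induction hg using Subgroup.closure_induction with
  | mem x hx =>
    intro i
    rcases hx with rfl | hx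
    · exact e16mflB_M_s x u hs i
    · rw [Set.mem_singleton_iff] at hx
      subst hx
      refine e16mflB_congr (e16mflB_zero s x) fun j => ?_
      rw [e16mflM_u x hu]; ring
  | one =>
    intro i
    refine e16mflB_congr (e16mflB_zero s u) fun j => ?_
    simp
  | mul x y _ _ hx hy =>
    intro i
    refine e16mflB_congr (e16mflB_add (hy i) (hx (y i))) fun j => ?_
    rw [Equiv.Perm.mul_apply]; ring
  | inv x _ hx =>
    intro i
    have hxi : x (x⁻¹ i) = i := by simp
    refine e16mflB_congr (e16mflB_neg (hx (x⁻¹ i))) fun j => ?_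
    rw [hxi]; ring

/-- A combination `∑ w_i M_i` with `∑ w_i = 0` is a divergence. -/
theorem e16mflB_comb (s u : Equiv.Perm I) (hs : ∀ i, s (s i) = i)
    (hu : ∀ i, u (u (u i)) = i) (htr : ∀ i j, ∃ g ∈ Subgroup.closure {s, u}, g i = j)
    (w : I → ℤ) (hw : ∑ i, w i = 0) :
    e16mflB s u (fun j => ∑ i, w i * e16mflM u i j) := by
  rcases isEmpty_or_nonempty I with hI | ⟨⟨i₀⟩⟩
  · exact ⟨fun _ => 0, fun i => isEmptyElim i, fun j => isEmptyElim j⟩
  · have h1 : ∀ i ∈ (Finset.univ : Finset I),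
        e16mflB s u (fun j => w i * (e16mflM u i j - e16mflM u i₀ j)) := by
      intro i _
      obtain ⟨g, hg, hgi⟩ := htr i i₀
      have := e16mflB_M_closure s u hs hu g hg i
      rw [hgi] at this
      exact e16mflB_smul (w i) this
    refine e16mflB_congr (e16mflB_sum Finset.univ _ h1) fun j => ?_
    have : ∑ i, w i * (e16mflM u i j - e16mflM u i₀ j) =
        ∑ i, w i * e16mflM u i j - (∑ i, w i) * e16mflM u i₀ j := by
      rw [Finset.sum_mul, ← Finset.sum_sub_distrib]
      exact Finset.sum_congr rfl fun i _ => by ring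
    rw [this, hw]; ring

theorem e16mfl_sum_M (u : Equiv.Perm I) (w : I → ℤ) (j : I) :
    ∑ i, w i * e16mflM u i j = w j + w (u j) + w (u (u j)) := by
  unfold e16mflM
  simp only [mul_add, Finset.sum_add_distrib, mul_ite, mul_one, mul_zero]
  simp

/-- A `u`-invariant function divisible by `3` at the fixed points of `u` is of the form
`w + w ∘ u + w ∘ u²`. -/
theorem e16mfl_exists_w (u : Equiv.Perm I) (hu : ∀ i, u (u (u i)) = i) (b : I → ℤ)
    (hbu : ∀ j, b (u j) = b j) (hb3 : ∀ j, u j = j → (3 : ℤ) ∣ b j) :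
    ∃ w : I → ℤ, ∀ j, w j + w (u j) + w (u (u j)) = b j := by
  obtain ⟨f, hf⟩ : ∃ f : I → ℕ, Function.Injective f :=
    ⟨fun i => (Fintype.equivFin I i : ℕ), fun a b h =>
      (Fintype.equivFin I).injective (Fin.ext h)⟩
  refine ⟨fun i => if u i = i then b i / 3 else
    if f i < f (u i) ∧ f i < f (u (u i)) then b i else 0, fun j => ?_⟩
  by_cases hj : u j = j
  · simp only [hj, if_true]
    have := Int.mul_ediv_cancel' (hb3 j hj)
    omega
  · have h1 : u (u j) ≠ u j := fun h => hj (u.injective h)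
    have h3 : u (u j) ≠ j := fun h => by
      have := hu j
      rw [h] at this
      exact hj this
    have e1 : f j ≠ f (u j) := fun h => hj (hf h).symm
    have e2 : f (u j) ≠ f (u (u j)) := fun h => h1 (hf h).symm
    have e3 : f (u (u j)) ≠ f j := fun h => h3 (hf h)
    simp only [if_neg hj, if_neg h1, if_neg (Ne.symm h3), hu j, hbu]
    split_ifs <;> omega

/-- The key flow lemma: a `u`-invariant function of total sum `0`, divisible by `3` at the fixed
points of `u`, is a divergence. -/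
theorem e16mflB_of_sum_zero (s u : Equiv.Perm I) (hs : ∀ i, s (s i) = i)
    (hu : ∀ i, u (u (u i)) = i) (htr : ∀ i j, ∃ g ∈ Subgroup.closure {s, u}, g i = j)
    (b : I → ℤ) (hbu : ∀ j, b (u j) = b j) (hb3 : ∀ j, u j = j → (3 : ℤ) ∣ b j)
    (hb0 : ∑ j, b j = 0) : e16mflB s u b := by
  obtain ⟨w, hw⟩ := e16mfl_exists_w u hu b hbu hb3
  have hsum : ∑ j, b j = 3 * ∑ i, w i := by
    have h1 : ∑ j, w (u j) = ∑ j, w j := Equiv.sum_comp u w
    have h2 : ∑ j, w (u (u j)) = ∑ j, w j := by
      rw [Equiv.sum_comp u (fun j => w (u j)), h1]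
    calc ∑ j, b j = ∑ j, (w j + w (u j) + w (u (u j))) :=
          Finset.sum_congr rfl fun j _ => (hw j).symm
      _ = 3 * ∑ i, w i := by
          rw [Finset.sum_add_distrib, Finset.sum_add_distrib, h1, h2]; ring
  have hw0 : ∑ i, w i = 0 := by
    rw [hb0] at hsum
    omega
  refine e16mflB_congr (e16mflB_comb s u hs hu htr w hw0) fun j => ?_
  rw [e16mfl_sum_M, hw]

/-- An `s`-antisymmetric integral lift of `cb`. -/
theorem e16mfl_exists_c0 (s : Equiv.Perm I) (hs : ∀ i, s (s i) = i) (n : ℕ) (hn : n ≠ 0)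
    (cb : I → ZMod n) (h1 : ∀ i, cb i + cb (s i) = 0) (hfs : ∀ i, s i = i → cb i = 0) :
    ∃ c0 : I → ℤ, (∀ i, (c0 i : ZMod n) = cb i) ∧ ∀ i, c0 (s i) = -c0 i := by
  have : NeZero n := ⟨hn⟩
  obtain ⟨f, hf⟩ : ∃ f : I → ℕ, Function.Injective f :=
    ⟨fun i => (Fintype.equivFin I i : ℕ), fun a b h =>
      (Fintype.equivFin I).injective (Fin.ext h)⟩
  refine ⟨fun i => if s i = i then 0 else
    if f i < f (s i) then ((cb i).val : ℤ) else -((cb (s i)).val : ℤ), fun i => ?_, fun i => ?_⟩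
  · by_cases hi : s i = i
    · simp only [if_pos hi]
      rw [hfs i hi]; simp
    · simp only [if_neg hi]
      split_ifs with h
      · rw [Int.cast_natCast, ZMod.natCast_zmod_val]
      · have := h1 i
        rw [Int.cast_neg, Int.cast_natCast, ZMod.natCast_zmod_val]
        exact (eq_neg_of_add_eq_zero_left this).symm
  · by_cases hi : s i = i
    · simp only [hi, if_true, neg_zero]
    · have e1 : f i ≠ f (s i) := fun h => hi (hf h).symm
      simp only [if_neg hi, if_neg (Ne.symm hi), hs i]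
      split_ifs <;> omega

end flow

/-- **The graph-flow lemma.** -/
theorem e16m_flow {I : Type} [Fintype I] [DecidableEq I] (s u : Equiv.Perm I)
    (hs : ∀ i, s (s i) = i) (hu : ∀ i, u (u (u i)) = i)
    (htr : ∀ i j, ∃ g ∈ Subgroup.closure {s, u}, g i = j) (n : ℕ) (hn : n ≠ 0)
    (cb : I → ZMod n) (h1 : ∀ i, cb i + cb (s i) = 0)
    (h2 : ∀ i, cb i + cb (u i) + cb (u (u i)) = 0) (hfs : ∀ i, s i = i → cb i = 0)
    (hfu : ∀ i, u i = i → cb i = 0) :
    ∃ c : I → ℤ, (∀ i, (c i : ZMod n) = cb i) ∧ (∀ i, c i + c (s i) = 0) ∧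
      (∀ i, c i + c (u i) + c (u (u i)) = 0) := by
  obtain ⟨c0, hc0, hc0s⟩ := e16mfl_exists_c0 s hs n hn cb h1 hfs
  have hn' : (n : ℤ) ≠ 0 := by exact_mod_cast hn
  -- the defect `d = c0 + c0 ∘ u + c0 ∘ u²` is divisible by `n`
  have hdn : ∀ i, (n : ℤ) ∣ c0 i + c0 (u i) + c0 (u (u i)) := by
    intro i
    rw [← ZMod.intCast_zmod_eq_zero_iff_dvd]
    push_cast
    rw [hc0, hc0, hc0]
    exact h2 i
  choose b hb using hdn
  have hbu : ∀ j, b (u j) = b j := by
    intro j
    have h3 := hb (u j)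
    rw [hu j] at h3
    have h4 := hb j
    have : (n : ℤ) * b (u j) = (n : ℤ) * b j := by rw [← h3, ← h4]; ring
    exact mul_left_cancel₀ hn' this
  have hb3 : ∀ j, u j = j → (3 : ℤ) ∣ b j := by
    intro j hj
    have h3 : (n : ℤ) ∣ c0 j := by
      rw [← ZMod.intCast_zmod_eq_zero_iff_dvd, hc0, hfu j hj]
    obtain ⟨m, hm⟩ := h3
    have h4 := hb j
    rw [hj, hj, hm] at h4
    refine ⟨m, ?_⟩
    have : (n : ℤ) * b j = (n : ℤ) * (3 * m) := by rw [← h4]; ring
    exact mul_left_cancel₀ hn' this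
  have hc0sum : ∑ i, c0 i = 0 := by
    have h3 : ∑ i, c0 (s i) = ∑ i, c0 i := Equiv.sum_comp s c0
    have h4 : ∑ i, c0 (s i) = -∑ i, c0 i := by
      rw [← Finset.sum_neg_distrib]
      exact Finset.sum_congr rfl fun i _ => hc0s i
    omega
  have hb0 : ∑ j, b j = 0 := by
    have h3 : ∑ j, c0 (u j) = ∑ j, c0 j := Equiv.sum_comp u c0
    have h4 : ∑ j, c0 (u (u j)) = ∑ j, c0 j := by
      rw [Equiv.sum_comp u (fun j => c0 (u j)), h3]
    have h5 : (n : ℤ) * ∑ j, b j = 0 := by
      rw [Finset.mul_sum]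
      calc ∑ j, (n : ℤ) * b j = ∑ j, (c0 j + c0 (u j) + c0 (u (u j))) :=
            Finset.sum_congr rfl fun j _ => (hb j).symm
        _ = 0 := by
            rw [Finset.sum_add_distrib, Finset.sum_add_distrib, h3, h4, hc0sum]; ring
    rcases mul_eq_zero.mp h5 with h | h
    · exact absurd h hn'
    · exact h
  obtain ⟨e, he1, he2⟩ := e16mflB_of_sum_zero s u hs hu htr b hbu hb3 hb0
  refine ⟨fun i => c0 i - n * e i, fun i => ?_, fun i => ?_, fun i => ?_⟩
  · push_cast
    rw [hc0, ZMod.natCast_self]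
    ring
  · show c0 i - n * e i + (c0 (s i) - n * e (s i)) = 0
    rw [hc0s, he1]; ring
  · show c0 i - n * e i + (c0 (u i) - n * e (u i)) + (c0 (u (u i)) - n * e (u (u i))) = 0
    have h3 := hb i
    have h4 := he2 i
    have : c0 i - n * e i + (c0 (u i) - n * e (u i)) + (c0 (u (u i)) - n * e (u (u i))) =
        (c0 i + c0 (u i) + c0 (u (u i))) - n * (e i + e (u i) + e (u (u i))) := by ring
    rw [this, h3, h4]; ring

end Fermat.Agent.E16
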