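import Fermat.Agent.Lib.H3_Sep
import Fermat.Prelude.Def_ModularCurve_PeriodHomPair

/-!
# T21 (S21) piece (ES-D): the period map of a weight two cusp form

The decaying primitive of a weight two cusp form of level `Γ₀(N)` is an equivariant primitive in
the sense of the prelude, with limits at all cusps.  Hence the period map is linear and takes
values in the parabolic homomorphisms.
-/

set_option autoImplicit false
set_option linter.unusedSectionVars false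

open Complex Filter Topology Function UpperHalfPlane CongruenceSubgroup
open scoped MatrixGroups ModularForm Pointwise
open Fermat.Agent.Lib.H3

namespace Fermat.Agent.ES

variable {N : ℕ} [NeZero N]

/-- A primitive with a prescribed decay for an `h`-periodic function of moderate growth. -/
theorem exists_prim_of_periodic {g : ℂ → ℂ} {h : ℕ} (hh : 0 < h)
    (hd : DifferentiableOn ℂ g UH) (hper : Function.Periodic g ((h : ℝ) : ℂ))
    (hz : ZeroAtFilter (comap Complex.im atTop) g)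
    (hb : ∃ (C : ℝ) (M : ℕ), ∀ z ∈ UH, ‖g z‖ ≤ C * (1 + (z.im)⁻¹) ^ M) :
    ∃ G₂ : ℂ → ℂ, Cls G₂ ∧ ∀ z ∈ UH, HasDerivAt (fun z => G₂ (z / (h : ℂ))) (g z) z := by
  have hh' : (0 : ℝ) < h := by exact_mod_cast hh
  have hh1 : (1 : ℝ) ≤ h := by exact_mod_cast hh
  have hhC : (h : ℂ) ≠ 0 := by exact_mod_cast hh.ne'
  have hmem : ∀ z ∈ UH, (h : ℂ) * z ∈ UH := by
    intro z hz
    show 0 < ((h : ℂ) * z).im
    have : ((h : ℂ) * z).im = h * z.im := by simp
    rw [this]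
    exact mul_pos hh' hz
  have hcls : Cls (fun z => (h : ℂ) * g ((h : ℂ) * z)) := by
    refine ⟨?_, ?_, ?_, ?_⟩
    · intro z hz
      have h1 : DifferentiableAt ℂ g ((h : ℂ) * z) :=
        (hd _ (hmem z hz)).differentiableAt (isOpen_UH.mem_nhds (hmem z hz))
      have h2 : DifferentiableAt ℂ (fun z : ℂ => (h : ℂ) * z) z :=
        (differentiableAt_id).const_mul _
      have h3 : DifferentiableAt ℂ (fun z : ℂ => g ((h : ℂ) * z)) z :=
        DifferentiableAt.comp z h1 h2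
      exact (h3.const_mul _).differentiableWithinAt
    · intro z
      show (h : ℂ) * g ((h : ℂ) * (z + ((1 : ℝ) : ℂ))) = (h : ℂ) * g ((h : ℂ) * z)
      have h1 : (h : ℂ) * (z + ((1 : ℝ) : ℂ)) = (h : ℂ) * z + ((h : ℝ) : ℂ) := by
        push_cast; ring
      rw [h1, hper]
    · have h1 : Tendsto (fun z : ℂ => (h : ℂ) * z) (comap Complex.im atTop)
          (comap Complex.im atTop) := by
        rw [tendsto_comap_iff]
        have h2 : (Complex.im ∘ fun z : ℂ => (h : ℂ) * z) = fun z : ℂ => (h : ℝ) * z.im := by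
          funext z; simp
        rw [h2]
        exact (tendsto_id.const_mul_atTop hh').comp tendsto_comap
      have h3 : Tendsto (fun z : ℂ => g ((h : ℂ) * z)) (comap Complex.im atTop) (𝓝 0) :=
        hz.comp h1
      have h4 := h3.const_mul (h : ℂ)
      rw [mul_zero] at h4
      exact h4
    · obtain ⟨C, M, hC⟩ := hb
      refine ⟨h * |C|, M, fun z hz => ?_⟩
      have hz' : 0 < z.im := hz
      have h1 := hC _ (hmem z hz)
      have him : ((h : ℂ) * z).im = h * z.im := by simp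
      rw [him] at h1
      have h2 : (1 + ((h : ℝ) * z.im)⁻¹) ^ M ≤ (1 + (z.im)⁻¹) ^ M := by
        apply pow_le_pow_left₀ (by positivity)
        have : ((h : ℝ) * z.im)⁻¹ ≤ (z.im)⁻¹ := by
          apply inv_anti₀ hz'
          nlinarith
        linarith
      rw [norm_mul]
      have h3 : ‖(h : ℂ)‖ = h := by simp
      rw [h3]
      calc (h : ℝ) * ‖g ((h : ℂ) * z)‖ ≤ h * (C * (1 + ((h : ℝ) * z.im)⁻¹) ^ M) :=
            mul_le_mul_of_nonneg_left h1 hh'.le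
        _ ≤ h * (|C| * (1 + (z.im)⁻¹) ^ M) := by
            apply mul_le_mul_of_nonneg_left _ hh'.le
            calc C * (1 + ((h : ℝ) * z.im)⁻¹) ^ M ≤ |C| * (1 + ((h : ℝ) * z.im)⁻¹) ^ M :=
                  mul_le_mul_of_nonneg_right (le_abs_self C) (by positivity)
              _ ≤ |C| * (1 + (z.im)⁻¹) ^ M := mul_le_mul_of_nonneg_left h2 (abs_nonneg C)
        _ = h * |C| * (1 + (z.im)⁻¹) ^ M := by ring
  refine ⟨primOf (fun z => (h : ℂ) * g ((h : ℂ) * z)), primOf_cls hcls, fun z hz => ?_⟩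
  have hz' : z / (h : ℂ) ∈ UH := by
    show 0 < (z / (h : ℂ)).im
    have : (z / (h : ℂ)).im = z.im / h := by
      rw [show (h : ℂ) = ((h : ℝ) : ℂ) by push_cast; rfl, Complex.div_ofReal_im]
    rw [this]
    exact div_pos hz hh'
  have h1 := primOf_deriv hcls (z / (h : ℂ)) hz'
  have h2 : HasDerivAt (fun z : ℂ => z / (h : ℂ)) ((h : ℂ)⁻¹) z := by
    simpa using (hasDerivAt_id z).div_const (h : ℂ)
  have h3 := HasDerivAt.comp z h1 h2
  have h4 : (h : ℂ) * g ((h : ℂ) * (z / (h : ℂ))) * (h : ℂ)⁻¹ = g z := by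
    rw [mul_div_cancel₀ _ hhC]
    field_simp
  rw [h4] at h3
  exact h3

/-- the translate `f ∣[2] δ` as a function on `ℂ`. -/
noncomputable def slC (f : CuspForm (Gamma0 N) 2) (δ : SL(2, ℤ)) : ℂ → ℂ :=
  (⇑f ∣[(2 : ℤ)] δ) ∘ ofComplex

theorem slC_apply (f : CuspForm (Gamma0 N) 2) (δ : SL(2, ℤ)) {z : ℂ} (hz : z ∈ UH) :
    slC f δ z = (⇑f ∣[(2 : ℤ)] δ) ⟨z, hz⟩ := by
  rw [slC, Function.comp_apply, ofComplex_apply_of_im_pos hz]

theorem slC_coe (f : CuspForm (Gamma0 N) 2) (δ : SL(2, ℤ)) (τ : ℍ) :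
    slC f δ τ = (⇑f ∣[(2 : ℤ)] δ) τ := by
  rw [slC, Function.comp_apply, ofComplex_apply]

theorem slash_Gamma0 (f : CuspForm (Gamma0 N) 2) {γ : SL(2, ℤ)} (hγ : γ ∈ Gamma0 N) :
    ⇑f ∣[(2 : ℤ)] γ = ⇑f := by
  rw [ModularForm.SL_slash]
  exact f.slash_action_eq' _ ⟨γ, hγ, rfl⟩

theorem slC_diff (f : CuspForm (Gamma0 N) 2) (δ : SL(2, ℤ)) :
    DifferentiableOn ℂ (slC f δ) UH :=
  UpperHalfPlane.mdifferentiable_iff.mp
    ((CuspFormClass.holo f).slash 2 (Matrix.SpecialLinearGroup.mapGL ℝ δ))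

theorem slash_vadd (f : CuspForm (Gamma0 N) 2) (δ : SL(2, ℤ)) (τ : ℍ) :
    (⇑f ∣[(2 : ℤ)] δ) ((((N : ℤ) : ℝ)) +ᵥ τ) = (⇑f ∣[(2 : ℤ)] δ) τ := by
  have hγ' := conj_T_zpow_mem_Gamma0 (N := N) δ
  have h1 : (⇑f ∣[(2 : ℤ)] δ) ∣[(2 : ℤ)] (ModularGroup.T ^ (N : ℤ)) = ⇑f ∣[(2 : ℤ)] δ := by
    rw [← SlashAction.slash_mul]
    have h3 : δ * ModularGroup.T ^ (N : ℤ) = (δ * ModularGroup.T ^ (N : ℤ) * δ⁻¹) * δ := by
      group
    rw [h3, SlashAction.slash_mul, slash_Gamma0 f hγ']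
  have h2 := congrFun h1 τ
  rw [ModularForm.SL_slash_apply, modular_T_zpow_smul] at h2
  have hd : denom (ModularGroup.T ^ (N : ℤ) : SL(2, ℤ)) τ = 1 := by
    have hT := ModularGroup.coe_T_zpow (N : ℤ)
    rw [ModularGroup.denom_apply]
    show ((((ModularGroup.T ^ (N : ℤ) : SL(2, ℤ)).1 1 0 : ℤ) : ℂ)) * τ +
      ((((ModularGroup.T ^ (N : ℤ) : SL(2, ℤ)).1 1 1 : ℤ) : ℂ)) = 1
    rw [hT]
    simp
  rw [hd, one_zpow, mul_one] at h2
  exact h2

theorem slC_periodic (f : CuspForm (Gamma0 N) 2) (δ : SL(2, ℤ)) :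
    Function.Periodic (slC f δ) (((N : ℝ)) : ℂ) := by
  intro z
  by_cases hz : 0 < z.im
  · have hz' : 0 < (z + ((N : ℝ) : ℂ)).im := by simpa using hz
    simp only [slC, Function.comp_apply, ofComplex_apply_of_im_pos hz',
      ofComplex_apply_of_im_pos hz]
    have h1 := slash_vadd f δ ⟨z, hz⟩
    convert h1 using 2
    ext
    simp [add_comm]
  · have hz0 : z.im ≤ 0 := not_lt.mp hz
    have hz' : (z + ((N : ℝ) : ℂ)).im ≤ 0 := by simpa using hz0
    show (⇑f ∣[(2 : ℤ)] δ) (ofComplex (z + ((N : ℝ) : ℂ))) = (⇑f ∣[(2 : ℤ)] δ) (ofComplex z)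
    rw [ofComplex_apply_of_im_nonpos hz', ofComplex_apply_of_im_nonpos hz0]

theorem slC_zero (f : CuspForm (Gamma0 N) 2) (δ : SL(2, ℤ)) :
    ZeroAtFilter (comap Complex.im atTop) (slC f δ) :=
  (CuspFormClass.zero_at_infty_slash f δ).comp tendsto_comap_im_ofComplex

theorem slash_bound (f : CuspForm (Gamma0 N) 2) (δ : SL(2, ℤ)) :
    ∃ C, ∀ τ : ℍ, ‖(⇑f ∣[(2 : ℤ)] δ) τ‖ ≤ C / τ.im := by
  have : ((ConjAct.toConjAct (δ : GL (Fin 2) ℝ)⁻¹) •
      (Gamma0 N : Subgroup (GL (Fin 2) ℝ))).IsArithmetic := by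
    simpa [(show Rat.castHom ℝ = algebraMap ℚ ℝ by rfl), map_inv,
      Matrix.SpecialLinearGroup.map_mapGL]
      using! Subgroup.IsArithmetic.conj (Gamma0 N : Subgroup (GL (Fin 2) ℝ))
        (Matrix.SpecialLinearGroup.mapGL ℚ δ)⁻¹
  obtain ⟨C, hC⟩ := CuspFormClass.exists_bound (CuspForm.translate f (δ : GL (Fin 2) ℝ))
  refine ⟨C, fun τ => ?_⟩
  have h := hC τ
  have h2 : ⇑(CuspForm.translate f (δ : GL (Fin 2) ℝ)) = ⇑f ∣[(2 : ℤ)] δ := rfl
  rw [h2] at h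
  simpa using h

theorem slC_bound (f : CuspForm (Gamma0 N) 2) (δ : SL(2, ℤ)) :
    ∃ (C : ℝ) (M : ℕ), ∀ z ∈ UH, ‖slC f δ z‖ ≤ C * (1 + (z.im)⁻¹) ^ M := by
  obtain ⟨C, hC⟩ := slash_bound f δ
  refine ⟨|C|, 1, fun z hz => ?_⟩
  have hz' : 0 < z.im := hz
  rw [slC_apply f δ hz, pow_one]
  have h1 := hC ⟨z, hz⟩
  have him : (⟨z, hz⟩ : ℍ).im = z.im := rfl
  rw [him] at h1
  have hinv : 0 < (z.im)⁻¹ := inv_pos.mpr hz'
  calc ‖(⇑f ∣[(2 : ℤ)] δ) ⟨z, hz⟩‖ ≤ C / z.im := h1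
    _ = C * (z.im)⁻¹ := div_eq_mul_inv _ _
    _ ≤ |C| * (z.im)⁻¹ := mul_le_mul_of_nonneg_right (le_abs_self C) hinv.le
    _ ≤ |C| * (1 + (z.im)⁻¹) := mul_le_mul_of_nonneg_left (by linarith) (abs_nonneg C)

/-- The canonical (decaying) primitive of a weight two cusp form, on `ℂ`. -/
noncomputable def PF (f : CuspForm (Gamma0 N) 2) : ℂ → ℂ := primOf (f ∘ ofComplex)

theorem cls_coe (f : CuspForm (Gamma0 N) 2) : Cls (f ∘ ofComplex) := fC_cls (N := N) (w := 0) f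

theorem PF_cls (f : CuspForm (Gamma0 N) 2) : Cls (PF f) := primOf_cls (cls_coe f)

theorem PF_deriv (f : CuspForm (Gamma0 N) 2) {z : ℂ} (hz : z ∈ UH) :
    HasDerivAt (PF f) (f ⟨z, hz⟩) z := by
  have h := primOf_deriv (cls_coe f) z hz
  rwa [Function.comp_apply, ofComplex_apply_of_im_pos hz] at h

/-- The primitive composed with `δ` is a primitive of `f ∣[2] δ`. -/
theorem PF_mob_deriv (f : CuspForm (Gamma0 N) 2) (δ : SL(2, ℤ)) {z : ℂ} (hz : z ∈ UH) :
    HasDerivAt (fun z => PF f (mob (Matrix.SpecialLinearGroup.mapGL ℝ δ) z)) (slC f δ z) z := by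
  have hM := det_mapGL_pos δ
  have hden : denom (Matrix.SpecialLinearGroup.mapGL ℝ δ) z ≠ 0 :=
    denom_ne_zero_of_im _ (ne_of_gt hz)
  have hmem := mob_mem_UH hM hz
  have h1 := PF_deriv f hmem
  have h2 := hasDerivAt_mob (Matrix.SpecialLinearGroup.mapGL ℝ δ) hden
  have h3 := HasDerivAt.comp z h1 h2
  refine h3.congr_deriv ?_
  rw [slC_apply f δ hz, ModularForm.SL_slash_apply, det_mapGL]
  have h4 : (⟨mob (Matrix.SpecialLinearGroup.mapGL ℝ δ) z, hmem⟩ : ℍ) = δ • (⟨z, hz⟩ : ℍ) := by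
    ext
    exact (coe_smul_eq_mob hM ⟨z, hz⟩).symm
  rw [h4]
  have h5 : denom δ (⟨z, hz⟩ : ℍ) = denom (Matrix.SpecialLinearGroup.mapGL ℝ δ) z := rfl
  rw [h5, zpow_neg, zpow_ofNat]
  push_cast
  rw [one_div]

/-- Structure of the primitive at the cusp `δ ∞`. -/
theorem PF_cusp (f : CuspForm (Gamma0 N) 2) (δ : SL(2, ℤ)) :
    ∃ (L : ℂ) (G₂ : ℂ → ℂ), Cls G₂ ∧
      (∀ z ∈ UH, HasDerivAt (fun z => G₂ (z / (N : ℂ))) (slC f δ z) z) ∧
      ∀ z ∈ UH, PF f (mob (Matrix.SpecialLinearGroup.mapGL ℝ δ) z) = L + G₂ (z / (N : ℂ)) := by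
  obtain ⟨G₂, hcls, hder⟩ := exists_prim_of_periodic (Nat.pos_of_ne_zero (NeZero.ne N))
    (slC_diff f δ) (slC_periodic f δ) (slC_zero f δ) (slC_bound f δ)
  refine ⟨PF f (mob (Matrix.SpecialLinearGroup.mapGL ℝ δ) Complex.I) - G₂ (Complex.I / (N : ℂ)),
    G₂, hcls, hder, fun z hz => ?_⟩
  have h := sub_const_of_hasDerivAt (fun z hz => PF_mob_deriv f δ hz) hder hz I_mem_UH
  linear_combination h

/-- The canonical primitive on `ℍ`. -/
noncomputable def PFh (f : CuspForm (Gamma0 N) 2) : ℍ → ℂ := fun τ => PF f (τ : ℂ)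

theorem PFh_hasDerivAt (f : CuspForm (Gamma0 N) 2) (τ : ℍ) :
    HasDerivAt (PFh f ∘ ofComplex) (f τ) ↑τ := by
  have h := PF_deriv f τ.im_pos
  refine h.congr_of_eventuallyEq ?_
  filter_upwards [isOpen_UH.mem_nhds τ.im_pos] with z hz
  simp [PFh, ofComplex_apply_of_im_pos hz]

theorem PFh_tendsto (f : CuspForm (Gamma0 N) 2) : Tendsto (PFh f) atImInfty (𝓝 0) :=
  (PF_cls f).zero.comp tendsto_coe_atImInfty

theorem PFh_smul (f : CuspForm (Gamma0 N) 2) (δ : SL(2, ℤ)) (τ : ℍ) :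
    PFh f (δ • τ) = PF f (mob (Matrix.SpecialLinearGroup.mapGL ℝ δ) τ) := by
  unfold PFh
  congr 1
  exact coe_smul_eq_mob (det_mapGL_pos δ) τ

theorem PFh_cusp (f : CuspForm (Gamma0 N) 2) (δ : SL(2, ℤ)) :
    ∃ L : ℂ, Tendsto (fun w : ℍ => PFh f (δ • w)) atImInfty (𝓝 L) := by
  obtain ⟨L, G₂, hcls, -, h⟩ := PF_cusp f δ
  refine ⟨L, ?_⟩
  have hN : (0 : ℝ) < N := by exact_mod_cast Nat.pos_of_ne_zero (NeZero.ne N)
  have h1 : Tendsto (fun w : ℍ => (w : ℂ) / (N : ℂ)) atImInfty (comap Complex.im atTop) := by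
    rw [tendsto_comap_iff]
    have h2 : (Complex.im ∘ fun w : ℍ => (w : ℂ) / (N : ℂ)) = fun w : ℍ => w.im / N := by
      funext w
      show ((w : ℂ) / (N : ℂ)).im = w.im / N
      rw [show (N : ℂ) = ((N : ℝ) : ℂ) by push_cast; rfl, Complex.div_ofReal_im]
      rfl
    rw [h2]
    have h3 : Tendsto (fun w : ℍ => w.im) atImInfty atTop := tendsto_comap
    exact h3.atTop_div_const hN
  have h4 : Tendsto (fun w : ℍ => L + G₂ ((w : ℂ) / (N : ℂ))) atImInfty (𝓝 (L + 0)) :=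
    tendsto_const_nhds.add (hcls.zero.comp h1)
  rw [add_zero] at h4
  refine h4.congr fun w => ?_
  rw [PFh_smul, h w w.im_pos]

theorem PFh_equivariant (f : CuspForm (Gamma0 N) 2) :
    ModularCurve.Period.IsEquivariantPrimitive (Gamma0 N) (PFh f) := by
  intro γ
  refine ⟨PF f (mob (Matrix.SpecialLinearGroup.mapGL ℝ (γ : SL(2, ℤ))) Complex.I) -
    PF f Complex.I, fun z => ?_⟩
  rw [PFh_smul]
  have h1 : ∀ z ∈ UH, HasDerivAt
      (fun z => PF f (mob (Matrix.SpecialLinearGroup.mapGL ℝ (γ : SL(2, ℤ))) z))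
      ((f ∘ ofComplex) z) z := by
    intro z hz
    have h := PF_mob_deriv f (γ : SL(2, ℤ)) hz
    rwa [slC, slash_Gamma0 f γ.2] at h
  have h2 : ∀ z ∈ UH, HasDerivAt (PF f) ((f ∘ ofComplex) z) z :=
    primOf_deriv (cls_coe f)
  exact sub_const_of_hasDerivAt h1 h2 z.im_pos I_mem_UH

theorem hasEquivariantPrimitive (f : CuspForm (Gamma0 N) 2) :
    ModularCurve.HasEquivariantPrimitive N f (PFh f) :=
  ⟨PFh_hasDerivAt f, PFh_tendsto f, PFh_equivariant f, PFh_cusp f⟩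

/-- The period map can be computed with any primitive. -/
theorem periodMap_apply_of_hasDerivAt (f : CuspForm (Gamma0 N) 2) {Φ : ℍ → ℂ}
    (hΦ : ∀ τ : ℍ, HasDerivAt (Φ ∘ ofComplex) (f τ) ↑τ) (γ : Gamma0 N) (z : ℍ) :
    ModularCurve.periodMap N f (Additive.ofMul γ) = Φ ((γ : SL(2, ℤ)) • z) - Φ z := by
  obtain ⟨F₀, h₀, heq⟩ := ModularCurve.periodMap_def N f (hasEquivariantPrimitive f)
  rw [heq, ModularCurve.Period.IsEquivariantPrimitive.periodHom_apply,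
    ← h₀.2.2.1.sub_eq_period γ z]
  have hc : ∀ z z' : ℍ, F₀ z - Φ z = F₀ z' - Φ z' := by
    intro z z'
    have h1 : ∀ w ∈ UH, HasDerivAt (F₀ ∘ ofComplex) ((f ∘ ofComplex) w) w := by
      intro w hw
      have := h₀.1 ⟨w, hw⟩
      rwa [Function.comp_apply, ofComplex_apply_of_im_pos hw]
    have h2 : ∀ w ∈ UH, HasDerivAt (Φ ∘ ofComplex) ((f ∘ ofComplex) w) w := by
      intro w hw
      have := hΦ ⟨w, hw⟩
      rwa [Function.comp_apply, ofComplex_apply_of_im_pos hw]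
    have := sub_const_of_hasDerivAt h1 h2 z.im_pos z'.im_pos
    simpa using this
  linear_combination hc ((γ : SL(2, ℤ)) • z) z

theorem periodMap_apply (f : CuspForm (Gamma0 N) 2) (γ : Gamma0 N) (z : ℍ) :
    ModularCurve.periodMap N f (Additive.ofMul γ) = PFh f ((γ : SL(2, ℤ)) • z) - PFh f z :=
  periodMap_apply_of_hasDerivAt f (PFh_hasDerivAt f) γ z

/-- The period map as a linear map. -/
noncomputable def periodLin (N : ℕ) [NeZero N] :
    CuspForm (Gamma0 N) 2 →ₗ[ℂ] (Additive (Gamma0 N) →+ ℂ) where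
  toFun := ModularCurve.periodMap N
  map_add' f g := by
    refine AddMonoidHom.ext fun γ => ?_
    obtain ⟨γ, rfl⟩ := Additive.ofMul.surjective γ
    have hΦ : ∀ τ : ℍ, HasDerivAt ((fun z => PFh f z + PFh g z) ∘ ofComplex) ((f + g) τ) ↑τ := by
      intro τ
      exact (PFh_hasDerivAt f τ).add (PFh_hasDerivAt g τ)
    rw [AddMonoidHom.add_apply, periodMap_apply_of_hasDerivAt (f + g) hΦ γ UpperHalfPlane.I,
      periodMap_apply f γ UpperHalfPlane.I, periodMap_apply g γ UpperHalfPlane.I]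
    ring
  map_smul' c f := by
    refine AddMonoidHom.ext fun γ => ?_
    obtain ⟨γ, rfl⟩ := Additive.ofMul.surjective γ
    have hΦ : ∀ τ : ℍ, HasDerivAt ((fun z => c * PFh f z) ∘ ofComplex) ((c • f) τ) ↑τ := by
      intro τ
      exact (PFh_hasDerivAt f τ).const_mul c
    rw [RingHom.id_apply, AddMonoidHom.smul_apply,
      periodMap_apply_of_hasDerivAt (c • f) hΦ γ UpperHalfPlane.I,
      periodMap_apply f γ UpperHalfPlane.I, smul_eq_mul]
    ring

theorem periodLin_apply (f : CuspForm (Gamma0 N) 2) : periodLin N f = ModularCurve.periodMap N f :=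
  rfl

theorem existsPeriodMapLinear (N : ℕ) [NeZero N] : ModularCurve.ExistsPeriodMapLinear N :=
  ⟨periodLin N, fun _ => rfl⟩

/-- An element of `SL(2, ℤ)` with trace `±2` has a primitive integral eigenvector. -/
theorem exists_eigenvector (γ : SL(2, ℤ)) (ε : ℤ) (hε : ε * ε = 1)
    (htr : γ 0 0 + γ 1 1 = 2 * ε) :
    ∃ p q u v : ℤ, u * p + v * q = 1 ∧ γ 0 0 * p + γ 0 1 * q = ε * p ∧
      γ 1 0 * p + γ 1 1 * q = ε * q := by
  have hdet : γ 0 0 * γ 1 1 - γ 0 1 * γ 1 0 = 1 := by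
    have := γ.det_coe
    rwa [Matrix.det_fin_two] at this
  by_cases hc : γ 1 0 = 0
  · refine ⟨1, 0, 1, 0, by ring, ?_, ?_⟩
    · rw [hc] at hdet
      have h1 : (γ 0 0 - ε) * (γ 0 0 - ε) = 0 := by
        have : γ 1 1 = 2 * ε - γ 0 0 := by linarith
        rw [this] at hdet
        nlinarith
      have h2 : γ 0 0 = ε := by
        have := mul_self_eq_zero.mp h1
        linarith
      rw [h2]; ring
    · rw [hc]; ring
  · obtain ⟨g, hg⟩ : ∃ g : ℤ, g = Int.gcd (ε - γ 1 1) (γ 1 0) := ⟨_, rfl⟩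
    obtain ⟨p, hp⟩ : g ∣ ε - γ 1 1 := by rw [hg]; exact Int.gcd_dvd_left _ _
    obtain ⟨q, hq⟩ : g ∣ γ 1 0 := by rw [hg]; exact Int.gcd_dvd_right _ _
    have hg0 : g ≠ 0 := fun h0 => hc (by rw [hq, h0, zero_mul])
    have hbez := Int.gcd_eq_gcd_ab (ε - γ 1 1) (γ 1 0)
    rw [← hg] at hbez
    refine ⟨p, q, Int.gcdA (ε - γ 1 1) (γ 1 0), Int.gcdB (ε - γ 1 1) (γ 1 0), ?_, ?_, ?_⟩
    · apply mul_left_cancel₀ hg0
      have : g = g * p * Int.gcdA (ε - γ 1 1) (γ 1 0) + g * q * Int.gcdB (ε - γ 1 1) (γ 1 0) := by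
        rw [← hp, ← hq]; exact hbez
      linear_combination -this
    · apply mul_left_cancel₀ hg0
      have h1 : γ 0 0 * (ε - γ 1 1) + γ 0 1 * γ 1 0 = ε * (ε - γ 1 1) := by
        linear_combination ε * htr - hdet + hε
      rw [hp, hq] at h1
      linear_combination h1
    · apply mul_left_cancel₀ hg0
      have h1 : γ 1 0 * (ε - γ 1 1) + γ 1 1 * γ 1 0 = ε * γ 1 0 := by ring
      have h2 : g * (γ 1 0 * p + γ 1 1 * q) = γ 1 0 * (g * p) + γ 1 1 * (g * q) := by ring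
      rw [h2, ← hp, ← hq, h1, hq]
      ring

/-- An element of `SL(2, ℤ)` with trace `±2` acts as a translation in a suitable cusp
coordinate. -/
theorem exists_conj_translation (γ : SL(2, ℤ))
    (h : (γ : Matrix (Fin 2) (Fin 2) ℤ).trace ^ 2 = 4) :
    ∃ (δ : SL(2, ℤ)) (m : ℤ), ∀ w : ℍ, γ • (δ • w) = δ • ((m : ℝ) +ᵥ w) := by
  have htr : (γ : Matrix (Fin 2) (Fin 2) ℤ).trace = γ 0 0 + γ 1 1 := Matrix.trace_fin_two _
  rw [htr] at h
  obtain ⟨ε, hε, hε2⟩ : ∃ ε : ℤ, ε * ε = 1 ∧ γ 0 0 + γ 1 1 = 2 * ε := by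
    have h1 : (γ 0 0 + γ 1 1 - 2) * (γ 0 0 + γ 1 1 + 2) = 0 := by linear_combination h
    rcases mul_eq_zero.mp h1 with h2 | h2
    · exact ⟨1, by ring, by linarith⟩
    · exact ⟨-1, by ring, by linarith⟩
  have hdet : γ 0 0 * γ 1 1 - γ 0 1 * γ 1 0 = 1 := by
    have := γ.det_coe
    rwa [Matrix.det_fin_two] at this
  obtain ⟨p, q, u, v, huv, h1, h2⟩ := exists_eigenvector γ ε hε hε2
  obtain ⟨δ, hδ⟩ : ∃ δ : SL(2, ℤ), (δ : Matrix (Fin 2) (Fin 2) ℤ) = !![p, -v; q, u] :=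
    ⟨⟨!![p, -v; q, u], by rw [Matrix.det_fin_two_of]; linear_combination huv⟩, rfl⟩
  obtain ⟨X, hX⟩ : ∃ X : ℤ, X = ε * (γ 0 0 * (-v) + γ 0 1 * u) - (-v) := ⟨_, rfl⟩
  obtain ⟨Y, hY⟩ : ∃ Y : ℤ, Y = ε * (γ 1 0 * (-v) + γ 1 1 * u) - u := ⟨_, rfl⟩
  have hXY : p * Y = q * X := by
    rw [hX, hY]
    linear_combination (-ε * v) * h2 + (-ε * u) * h1 + ε * (u * p + v * q) * hε2
      + (u * p + v * q) * hε
  obtain ⟨m, hm⟩ : ∃ m : ℤ, m = u * X + v * Y := ⟨_, rfl⟩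
  have hpm : p * m = X := by
    rw [hm]
    linear_combination X * huv + v * hXY
  have hqm : q * m = Y := by
    rw [hm]
    linear_combination Y * huv - u * hXY
  have e01 : γ 0 0 * (-v) + γ 0 1 * u = ε * (p * m - v) := by
    rw [hpm, hX]
    linear_combination (-(γ 0 0 * (-v) + γ 0 1 * u)) * hε
  have e11 : γ 1 0 * (-v) + γ 1 1 * u = ε * (q * m + u) := by
    rw [hqm, hY]
    linear_combination (-(γ 1 0 * (-v) + γ 1 1 * u)) * hε
  refine ⟨δ, m, fun w => ?_⟩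
  rw [← modular_T_zpow_smul, ← mul_smul, ← mul_smul]
  have hε' : ε = 1 ∨ ε = -1 := by
    have h3 : (ε - 1) * (ε + 1) = 0 := by linear_combination hε
    rcases mul_eq_zero.mp h3 with h4 | h4
    · left; linarith
    · right; linarith
  rcases hε' with rfl | rfl
  · have hmat : γ * δ = δ * ModularGroup.T ^ m := by
      apply Subtype.ext
      rw [Matrix.SpecialLinearGroup.coe_mul, Matrix.SpecialLinearGroup.coe_mul, hδ,
        ModularGroup.coe_T_zpow]
      ext i j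
      fin_cases i <;> fin_cases j
      · simp [Matrix.mul_apply, Fin.sum_univ_two]; linarith
      · simp [Matrix.mul_apply, Fin.sum_univ_two]; linarith
      · simp [Matrix.mul_apply, Fin.sum_univ_two]; linarith
      · simp [Matrix.mul_apply, Fin.sum_univ_two]; linarith
    rw [hmat]
  · have hmat : γ * δ = -(δ * ModularGroup.T ^ m) := by
      apply Subtype.ext
      rw [Matrix.SpecialLinearGroup.coe_neg, Matrix.SpecialLinearGroup.coe_mul,
        Matrix.SpecialLinearGroup.coe_mul, hδ, ModularGroup.coe_T_zpow]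
      ext i j
      fin_cases i <;> fin_cases j
      · simp [Matrix.mul_apply, Fin.sum_univ_two]; linarith
      · simp [Matrix.mul_apply, Fin.sum_univ_two]; linarith
      · simp [Matrix.mul_apply, Fin.sum_univ_two]; linarith
      · simp [Matrix.mul_apply, Fin.sum_univ_two]; linarith
    rw [hmat, ModularGroup.SL_neg_smul]

/-- The period map takes values in the parabolic homomorphisms. -/
theorem periodMap_mem_parabolicHoms (f : CuspForm (Gamma0 N) 2) :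
    ModularCurve.periodMap N f ∈ ModularCurve.Period.parabolicHoms ℂ (Gamma0 N) ℂ := by
  rw [ModularCurve.Period.mem_parabolicHoms_iff]
  intro γ hγ
  obtain ⟨δ, m, hδ⟩ := exists_conj_translation (γ : SL(2, ℤ)) hγ
  obtain ⟨L, hL⟩ := PFh_cusp f δ
  have h1 : ∀ w : ℍ, ModularCurve.periodMap N f (Additive.ofMul γ) =
      PFh f (δ • ((m : ℝ) +ᵥ w)) - PFh f (δ • w) := by
    intro w
    rw [periodMap_apply f γ (δ • w), hδ]
  have h2 : Tendsto (fun w : ℍ => ((m : ℝ) +ᵥ w : ℍ)) atImInfty atImInfty := by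
    rw [atImInfty, tendsto_comap_iff]
    have : (UpperHalfPlane.im ∘ fun w : ℍ => ((m : ℝ) +ᵥ w : ℍ)) = UpperHalfPlane.im := by
      funext w
      simp
    rw [this]
    exact tendsto_comap
  have h3 : Tendsto (fun w : ℍ => PFh f (δ • ((m : ℝ) +ᵥ w)) - PFh f (δ • w)) atImInfty
      (𝓝 (L - L)) := (hL.comp h2).sub hL
  rw [sub_self] at h3
  have h4 : Tendsto (fun _ : ℍ => ModularCurve.periodMap N f (Additive.ofMul γ)) atImInfty
      (𝓝 0) := h3.congr fun w => (h1 w).symm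
  exact tendsto_nhds_unique tendsto_const_nhds h4

theorem periodLin_mem_parabolicHoms (f : CuspForm (Gamma0 N) 2) :
    periodLin N f ∈ ModularCurve.Period.parabolicHoms ℂ (Gamma0 N) ℂ :=
  periodMap_mem_parabolicHoms f

end Fermat.Agent.ES
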