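import Fermat.Agent.Lib.H3_Hecke

set_option autoImplicit false

namespace Fermat.Agent.Lib.H3

open Complex Filter Topology Function Polynomial UpperHalfPlane
open scoped MatrixGroups ModularForm
open P2MW.S_ModularForm_heckeT_slash_eq_self_of_mem_Gamma0.ModularForm.HeckeSlashInvariance

variable {N : ℕ} [NeZero N] {w : ℕ}

theorem dvd_of_mem_Gamma0 {γ : SL(2, ℤ)} (hγ : γ ∈ CongruenceSubgroup.Gamma0 N) :
    (N : ℤ) ∣ γ 1 0 :=
  (ZMod.intCast_zmod_eq_zero_iff_dvd _ _).mp (CongruenceSubgroup.Gamma0_mem.mp hγ)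

theorem mem_Gamma0_of_dvd {γ : SL(2, ℤ)} (hγ : (N : ℤ) ∣ γ 1 0) :
    γ ∈ CongruenceSubgroup.Gamma0 N :=
  CongruenceSubgroup.Gamma0_mem.mpr ((ZMod.intCast_zmod_eq_zero_iff_dvd _ _).mpr hγ)

theorem perLattice_stable_heckeT {p : ℕ} (hp : p.Prime) (hpN : ¬ p ∣ N) :
    ∀ l ∈ perLattice N w, l ∘ₗ (CuspForm.heckeTLin ((w : ℤ) + 2) hp hpN) ∈ perLattice N w := by
  haveI : Fact p.Prime := ⟨hp⟩
  haveI : NeZero p := ⟨hp.ne_zero⟩
  refine perLattice_stable (heckeRep p) (isUT_heckeRep hp.ne_zero) (isIntMat_heckeRep hp.ne_zero)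
    _ (fun f => ?_) (fun γ hγ => ?_)
  · rw [CuspForm.coe_heckeTLin_apply, heckeT_eq_sum_onePoint]
  · have hdvd := dvd_of_mem_Gamma0 hγ
    refine ⟨MulAction.toPerm (redMatrix p γ), fun x => (heckeRep_mul hpN γ hdvd x).choose,
      fun x => mem_Gamma0_of_dvd (heckeRep_mul hpN γ hdvd x).choose_spec.1, fun x => ?_⟩
    exact (heckeRep_mul hpN γ hdvd x).choose_spec.2

theorem perLattice_stable_heckeU {q : ℕ} (hqN : q ∣ N) :
    ∀ l ∈ perLattice N w, l ∘ₗ (CuspForm.heckeULin ((w : ℤ) + 2) hqN) ∈ perLattice N w := by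
  have hq0 : q ≠ 0 := fun h => NeZero.ne N (by simpa [h] using hqN)
  haveI : NeZero q := ⟨hq0⟩
  refine perLattice_stable (fun x : ZMod q => ModularForm.heckeMatrix q x.val)
    (fun x => isUT_heckeMatrix hq0 _) (fun x => isIntMat_heckeMatrix hq0 _)
    _ (fun f => ?_) (fun γ hγ => ?_)
  · rw [CuspForm.coe_heckeULin_apply, heckeU_eq_sum_zmod]
  · have hdvd := dvd_of_mem_Gamma0 hγ
    have hc : (q : ℤ) ∣ γ 1 0 := (Int.natCast_dvd_natCast.mpr hqN).trans hdvd
    refine ⟨affinePerm γ ((ZMod.intCast_zmod_eq_zero_iff_dvd _ _).mpr hc),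
      fun x => (heckeMatrix_mul_of_dvd γ hc x).choose, fun x => ?_, fun x => ?_⟩
    · apply mem_Gamma0_of_dvd
      rw [(heckeMatrix_mul_of_dvd γ hc x).choose_spec.1]
      exact dvd_mul_of_dvd_right hdvd _
    · exact (heckeMatrix_mul_of_dvd γ hc x).choose_spec.2

/-- Expansion of the evaluation functional at an integer polynomial. -/
theorem evL_int_mem (P : ℤ[X]) (hP : P.natDegree ≤ w) {z : ℂ} (hz : z ∈ UH) :
    evL N w (P.map (Int.castRingHom ℂ)) z ∈
      Submodule.span ℤ (Set.range fun j : Fin (w + 1) => evL N w (X ^ (j : ℕ)) z) := by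
  have hsum : evL N w (P.map (Int.castRingHom ℂ)) z =
      ∑ j : Fin (w + 1), P.coeff (j : ℕ) • evL N w (X ^ (j : ℕ)) z := by
    ext f
    have hdeg : (P.map (Int.castRingHom ℂ)).natDegree ≤ w := (natDegree_map_le).trans hP
    rw [evL_apply hdeg hz, LinearMap.sum_apply]
    have hPsum : P.map (Int.castRingHom ℂ) =
        ∑ j : Fin (w + 1), ((P.coeff (j : ℕ) : ℤ) : ℂ) • (X ^ (j : ℕ) : ℂ[X]) := by
      conv_lhs => rw [P.as_sum_range' (w + 1) (Nat.lt_succ_of_le hP)]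
      rw [Polynomial.map_sum, ← Fin.sum_univ_eq_sum_range
        (fun j => Polynomial.map (Int.castRingHom ℂ) (monomial j (P.coeff j)))]
      refine Finset.sum_congr rfl fun j _ => ?_
      rw [Polynomial.map_monomial, ← C_mul_X_pow_eq_monomial, smul_eq_C_mul]
      simp
    rw [hPsum, ibp_sum]
    refine Finset.sum_congr rfl fun j _ => ?_
    rw [ibp_smul, LinearMap.smul_apply, evL_apply (by simpa using Nat.lt_succ_iff.mp j.2) hz]
    simp
  rw [hsum]
  exact Submodule.sum_mem _ fun j _ => Submodule.smul_mem _ _ (Submodule.subset_span ⟨j, rfl⟩)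

theorem pv_int (w : ℕ) (n : Fin 2 → ℤ) :
    pv w (fun i => (n i : ℂ)) = ((C (n 0) * X + C (n 1)) ^ w : ℤ[X]).map (Int.castRingHom ℂ) := by
  simp [pv]

theorem pv_int_natDegree (w : ℕ) (n : Fin 2 → ℤ) :
    ((C (n 0) * X + C (n 1)) ^ w : ℤ[X]).natDegree ≤ w := by
  refine (natDegree_pow_le).trans ?_
  have : (C (n 0) * X + C (n 1) : ℤ[X]).natDegree ≤ 1 := natDegree_linear_le
  calc w * (C (n 0) * X + C (n 1) : ℤ[X]).natDegree ≤ w * 1 := Nat.mul_le_mul_left w this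
    _ = w := mul_one w

/-- The finite set of evaluation functionals attached to a finite set of matrices. -/
def evGens (N : ℕ) [NeZero N] (w : ℕ) (S : Set SL(2, ℤ)) :
    Set (Module.Dual ℂ (CuspForm (CongruenceSubgroup.Gamma0 N) ((w : ℤ) + 2))) :=
  {l | ∃ s ∈ insert (1 : SL(2, ℤ)) S, ∃ j : Fin (w + 1),
    l = evL N w (X ^ (j : ℕ)) (mob (Matrix.SpecialLinearGroup.mapGL ℝ s) Complex.I)}

theorem evGens_finite {S : Set SL(2, ℤ)} (hS : S.Finite) : (evGens N w S).Finite := by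
  have : evGens N w S = (fun sj : SL(2, ℤ) × Fin (w + 1) =>
      evL N w (X ^ (sj.2 : ℕ)) (mob (Matrix.SpecialLinearGroup.mapGL ℝ sj.1) Complex.I)) ''
      ((insert (1 : SL(2, ℤ)) S) ×ˢ (Set.univ : Set (Fin (w + 1)))) := by
    ext l
    constructor
    · rintro ⟨s, hs, j, rfl⟩
      exact ⟨(s, j), ⟨hs, Set.mem_univ _⟩, rfl⟩
    · rintro ⟨⟨s, j⟩, ⟨hs, -⟩, rfl⟩
      exact ⟨s, hs, j, rfl⟩
  rw [this]
  exact ((hS.insert 1).prod Set.finite_univ).image _

theorem evL_pv_mem {S : Set SL(2, ℤ)} {s : SL(2, ℤ)} (hs : s ∈ insert (1 : SL(2, ℤ)) S)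
    {v : Fin 2 → ℂ} (hv : IsIntVec v) :
    evL N w (pv w v) (mob (Matrix.SpecialLinearGroup.mapGL ℝ s) Complex.I) ∈
      Submodule.span ℤ (evGens N w S) := by
  obtain ⟨n, rfl⟩ := hv
  rw [pv_int]
  refine Submodule.span_mono ?_ (evL_int_mem _ (pv_int_natDegree w n)
    (mob_mem_UH (det_mapGL_pos s) I_mem_UH))
  rintro l ⟨j, rfl⟩
  exact ⟨s, hs, j, rfl⟩

theorem perL_mul {γ γ' : SL(2, ℤ)} (hγ : γ ∈ CongruenceSubgroup.Gamma0 N) (v : Fin 2 → ℂ) :
    perL N w (γ * γ') v =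
      perL N w γ (vadj (Matrix.SpecialLinearGroup.mapGL ℝ γ') v) + perL N w γ' v := by
  ext f
  rw [LinearMap.add_apply, perL_apply, perL_apply, perL_apply, map_mul]
  exact per_mul (fC_cls f) (fC_inv f hγ) (det_mapGL_pos γ') v

theorem perL_one (v : Fin 2 → ℂ) : perL N w 1 v = 0 := by
  ext f
  rw [perL_apply, map_one, per_one]; rfl

theorem perL_mem_span_evGens {S : Set SL(2, ℤ)}
    (hS : Subgroup.closure S = CongruenceSubgroup.Gamma0 N) {γ : SL(2, ℤ)}
    (hγ : γ ∈ Subgroup.closure S) :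
    ∀ v : Fin 2 → ℂ, IsIntVec v → perL N w γ v ∈ Submodule.span ℤ (evGens N w S) := by
  induction hγ using Subgroup.closure_induction with
  | mem s hs =>
    intro v hv
    rw [perL]
    refine Submodule.sub_mem _ (evL_pv_mem (Set.mem_insert_of_mem _ hs)
      (hv.vadj (isIntMat_mapGL s))) ?_
    have := evL_pv_mem (N := N) (w := w) (S := S) (Set.mem_insert (1 : SL(2, ℤ)) S) hv
    rwa [map_one, mob_one] at this
  | one =>
    intro v _
    rw [perL_one]; exact Submodule.zero_mem _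
  | mul x y hx hy ihx ihy =>
    intro v hv
    rw [perL_mul (hS ▸ hx) v]
    exact Submodule.add_mem _ (ihx _ (hv.vadj (isIntMat_mapGL y))) (ihy v hv)
  | inv x hx ihx =>
    intro v hv
    have h1 := perL_mul (N := N) (w := w) (γ' := x⁻¹) (hS ▸ hx) v
    rw [mul_inv_cancel, perL_one] at h1
    have h2 : perL N w x⁻¹ v =
        -perL N w x (vadj (Matrix.SpecialLinearGroup.mapGL ℝ x⁻¹) v) :=
      eq_neg_of_add_eq_zero_right h1.symm
    rw [h2]
    exact Submodule.neg_mem _ (ihx _ (hv.vadj (isIntMat_mapGL x⁻¹)))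

theorem gamma0_closure (N : ℕ) [NeZero N] :
    ∃ S : Set SL(2, ℤ), S.Finite ∧ Subgroup.closure S = CongruenceSubgroup.Gamma0 N := by
  haveI : Group.FG SL(2, ℤ) := by
    rw [Group.fg_iff]
    exact ⟨{ModularGroup.S, ModularGroup.T}, SpecialLinearGroup.SL2Z_generators, by simp⟩
  have h : Group.FG (CongruenceSubgroup.Gamma0 N) := Subgroup.fg_of_index_ne_zero _
  rw [Group.fg_iff_subgroup_fg, Subgroup.fg_iff] at h
  obtain ⟨S, hS, hfin⟩ := h
  exact ⟨S, hfin, hS⟩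

theorem perLattice_fg (N : ℕ) [NeZero N] (w : ℕ) : (perLattice N w).FG := by
  obtain ⟨S, hfin, hS⟩ := gamma0_closure N
  have hle : perLattice N w ≤ Submodule.span ℤ (evGens N w S) := by
    refine Submodule.span_le.mpr ?_
    rintro l ⟨γ, hγ, v, hv, rfl⟩
    exact perL_mem_span_evGens hS (hS ▸ hγ) v hv
  have hfg : (Submodule.span ℤ (evGens N w S)).FG := Submodule.fg_span (evGens_finite hfin)
  haveI : IsNoetherian ℤ (Submodule.span ℤ (evGens N w S)) :=
    isNoetherian_of_fg_of_noetherian _ hfg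
  have h1 : ((perLattice N w).comap (Submodule.span ℤ (evGens N w S)).subtype).FG :=
    IsNoetherian.noetherian _
  have h2 := h1.map (Submodule.span ℤ (evGens N w S)).subtype
  rwa [Submodule.map_comap_subtype, inf_of_le_right hle] at h2

end Fermat.Agent.Lib.H3
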