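import Fermat.Agent.Lib.E16_MCore
import Fermat.Agent.Lib.H3_Lattice
import Fermat.Agent.Lib.ES_Period
import Fermat.Prelude.Def_CuspForm_HeckeEvalForms

/-!
# S16, rho-route, leaf [M5]: matrix-level coset data for the Hecke operators

For a prime `l` and `g ∈ Γ₀(p)` we produce the coset representatives `A i` of the Hecke operator
`T_l` (resp. `U_p` for `l = p`) as integer upper triangular matrices, a permutation `π` and
elements `g' i ∈ Γ₀(p)` with `A i * g = g' i * A (π i)`, such that the periods of `T_l f` along `g`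
(resp. along the `J`-conjugate of `g`) are the sums of the periods of `f` along the `g' i`
(resp. their `J`-conjugates).
-/

set_option autoImplicit false

namespace Fermat.Agent.E16

open UpperHalfPlane hiding I
open Complex CongruenceSubgroup ModularCurve ModularCurve.Period CuspForm
open scoped MatrixGroups ModularForm
open Matrix.SpecialLinearGroup
open Fermat.Agent.Lib.H3 Fermat.Agent.ES
open P2MW.S_ModularForm_heckeT_slash_eq_self_of_mem_Gamma0.ModularForm.HeckeSlashInvariance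

/-- the weight two slash action of a matrix of positive determinant, on `ℂ` -/
theorem e16m_slash_two {N : ℕ} (f : CuspForm (Gamma0 N) 2) {M : GL (Fin 2) ℝ}
    (hM : 0 < M.det.val) {z : ℂ} (hz : z ∈ UH) :
    ((f : ℍ → ℂ) ∣[(2 : ℤ)] M) ⟨z, hz⟩ =
      f ⟨mob M z, mob_mem_UH hM hz⟩ * (M.det.val : ℂ) / (denom M z) ^ 2 := by
  rw [ModularForm.slash_apply]
  have hσ : UpperHalfPlane.σ M = .refl ℝ ℂ := by rw [UpperHalfPlane.σ, if_pos hM]
  rw [hσ, abs_of_pos hM]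
  have hpt : M • (⟨z, hz⟩ : ℍ) = ⟨mob M z, mob_mem_UH hM hz⟩ := by
    apply UpperHalfPlane.ext
    exact coe_smul_eq_mob hM ⟨z, hz⟩
  rw [hpt]
  simp only [ContinuousAlgEquiv.refl_apply]
  have h1 : ((2 : ℤ) - 1) = 1 := by norm_num
  rw [h1, zpow_one, zpow_neg]
  have h2 : denom M (⟨z, hz⟩ : ℍ) = denom M z := rfl
  rw [h2, div_eq_mul_inv]
  rfl

/-- the primitive composed with a matrix of positive determinant -/
theorem e16m_PF_mob_deriv {N : ℕ} [NeZero N] (f : CuspForm (Gamma0 N) 2) {M : GL (Fin 2) ℝ}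
    (hM : 0 < M.det.val) {z : ℂ} (hz : z ∈ UH) :
    HasDerivAt (fun z => PF f (mob M z)) (((f : ℍ → ℂ) ∣[(2 : ℤ)] M) ⟨z, hz⟩) z := by
  have hden : denom M z ≠ 0 := denom_ne_zero_of_im _ (ne_of_gt hz)
  have hmem := mob_mem_UH hM hz
  have h1 := PF_deriv f hmem
  have h2 := hasDerivAt_mob M hden
  have h3 := HasDerivAt.comp z h1 h2
  refine h3.congr_deriv ?_
  rw [e16m_slash_two f hM hz]
  ring

/-- **the coset formula for periods**: if `Tf = ∑ f ∣ β_i` and `β_i γ = g'_i β_{π i}`, then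
the period of `Tf` along `γ` is the sum of the periods of `f` along the `g'_i`. -/
theorem e16m_period_coset {N : ℕ} [NeZero N] (f Tf : CuspForm (Gamma0 N) 2)
    {ι : Type} [Fintype ι] (β : ι → GL (Fin 2) ℝ) (hβ : ∀ i, 0 < (β i).det.val)
    (hT : (Tf : ℍ → ℂ) = ∑ i, (f : ℍ → ℂ) ∣[(2 : ℤ)] β i)
    (γ : Gamma0 N) (π : Equiv.Perm ι) (g' : ι → Gamma0 N)
    (hmul : ∀ i, β i * mapGL ℝ (γ : SL(2, ℤ)) = mapGL ℝ (g' i : SL(2, ℤ)) * β (π i)) :
    periodMap N Tf (Additive.ofMul γ) = ∑ i, periodMap N f (Additive.ofMul (g' i)) := by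
  -- a primitive of `Tf`
  set Ψ : ℂ → ℂ := fun z => ∑ i, PF f (mob (β i) z) with hΨ
  have hΨd : ∀ τ : ℍ, HasDerivAt ((fun τ : ℍ => Ψ (τ : ℂ)) ∘ ofComplex) (Tf τ) ↑τ := by
    intro τ
    have h1 : HasDerivAt Ψ (Tf τ) (τ : ℂ) := by
      have h2 := HasDerivAt.fun_sum (u := Finset.univ) fun i _ =>
        e16m_PF_mob_deriv f (hβ i) (z := (τ : ℂ)) τ.im_pos
      refine h2.congr_deriv ?_
      rw [hT, Finset.sum_apply]
    refine h1.congr_of_eventuallyEq ?_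
    filter_upwards [isOpen_UH.mem_nhds τ.im_pos] with z hz
    simp [ofComplex_apply_of_im_pos hz]
  rw [periodMap_apply_of_hasDerivAt Tf hΨd γ UpperHalfPlane.I]
  have hγpos := det_mapGL_pos (γ : SL(2, ℤ))
  have hI : (UpperHalfPlane.I : ℂ) ∈ UH := UpperHalfPlane.I.im_pos
  have e1 : (((γ : SL(2, ℤ)) • UpperHalfPlane.I : ℍ) : ℂ) =
      mob (mapGL ℝ (γ : SL(2, ℤ))) (UpperHalfPlane.I : ℂ) := coe_smul_eq_mob hγpos _
  simp only [hΨ]
  rw [e1, ← Finset.sum_sub_distrib]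
  have hterm : ∀ i, PF f (mob (β i) (mob (mapGL ℝ (γ : SL(2, ℤ))) (UpperHalfPlane.I : ℂ))) -
      PF f (mob (β i) (UpperHalfPlane.I : ℂ)) =
      periodMap N f (Additive.ofMul (g' i)) +
        (PF f (mob (β (π i)) (UpperHalfPlane.I : ℂ)) - PF f (mob (β i) (UpperHalfPlane.I : ℂ))) := by
    intro i
    have hg'pos := det_mapGL_pos (g' i : SL(2, ℤ))
    rw [← mob_mul (hβ i) hγpos hI, hmul i, mob_mul hg'pos (hβ (π i)) hI]
    have hw : mob (β (π i)) (UpperHalfPlane.I : ℂ) ∈ UH := mob_mem_UH (hβ (π i)) hI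
    have h3 := periodMap_apply f (g' i) ⟨_, hw⟩
    rw [PFh_smul] at h3
    rw [h3]
    simp only [PFh]
    ring
  rw [Finset.sum_congr rfl fun i _ => hterm i, Finset.sum_add_distrib, Finset.sum_sub_distrib,
    Equiv.sum_comp π (fun j => PF f (mob (β j) (UpperHalfPlane.I : ℂ))), sub_self, add_zero]

/-! ### The matrix `J = diag(1, -1)` -/

/-- the matrix `J = diag(1, -1)` in `GL(2, ℝ)` -/
noncomputable def e16mJ : GL (Fin 2) ℝ :=
  Matrix.GeneralLinearGroup.mkOfDetNeZero !![1, 0; 0, -1] (by simp [Matrix.det_fin_two])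

theorem e16mJ_val : ((e16mJ : GL (Fin 2) ℝ) : Matrix (Fin 2) (Fin 2) ℝ) = !![1, 0; 0, -1] := rfl

theorem e16mJ_mul_self : e16mJ * e16mJ = 1 := by
  apply Units.ext
  rw [Units.val_mul, e16mJ_val]
  ext i j
  fin_cases i <;> fin_cases j <;> simp [Matrix.mul_apply, Fin.sum_univ_two]

theorem e16m_mapGL_coe (g : SL(2, ℤ)) :
    ((mapGL ℝ g : GL (Fin 2) ℝ) : Matrix (Fin 2) (Fin 2) ℝ) =
      (g : Matrix (Fin 2) (Fin 2) ℤ).map (Int.castRingHom ℝ) := by
  rw [mapGL_coe_matrix]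
  rfl

theorem e16m_mapGL_jConj (g : SL(2, ℤ)) :
    mapGL ℝ (jConjSL g) = e16mJ * mapGL ℝ g * e16mJ := by
  apply Units.ext
  rw [Units.val_mul, Units.val_mul, e16mJ_val, e16m_mapGL_coe, e16m_mapGL_coe, jConjSL_coe]
  ext i j
  fin_cases i <;> fin_cases j <;>
    simp [Matrix.mul_apply, Fin.sum_univ_two, jConjMat, Matrix.vecMul, dotProduct]

/-- **the coset formula for periods, `J`-conjugated** -/
theorem e16m_period_coset_J {N : ℕ} [NeZero N] (f Tf : CuspForm (Gamma0 N) 2)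
    {ι : Type} [Fintype ι] (β : ι → GL (Fin 2) ℝ) (hβ : ∀ i, 0 < (β i).det.val)
    (hT : (Tf : ℍ → ℂ) = ∑ i, (f : ℍ → ℂ) ∣[(2 : ℤ)] β i)
    (σ : Equiv.Perm ι)
    (hJ : ∀ i, ∃ t : SL(2, ℤ), t ∈ Gamma0 N ∧ e16mJ * β i * e16mJ = mapGL ℝ t * β (σ i))
    (γ : Gamma0 N) (π : Equiv.Perm ι) (g' : ι → Gamma0 N)
    (hmul : ∀ i, β i * mapGL ℝ (γ : SL(2, ℤ)) = mapGL ℝ (g' i : SL(2, ℤ)) * β (π i)) :
    periodMap N Tf (Additive.ofMul (jConjGamma0 N γ)) =
      ∑ i, periodMap N f (Additive.ofMul (jConjGamma0 N (g' i))) := by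
  refine e16m_period_coset f Tf (fun i => e16mJ * β i * e16mJ) (fun i => ?_) ?_
    (jConjGamma0 N γ) π (fun i => jConjGamma0 N (g' i)) (fun i => ?_)
  · obtain ⟨t, -, ht⟩ := hJ i
    rw [ht, map_mul, Units.val_mul]
    exact mul_pos (det_mapGL_pos t) (hβ _)
  · rw [hT, ← Equiv.sum_comp σ]
    refine Finset.sum_congr rfl fun i _ => ?_
    obtain ⟨t, htm, ht⟩ := hJ i
    rw [ht, SlashAction.slash_mul]
    have h1 : (f : ℍ → ℂ) ∣[(2 : ℤ)] mapGL ℝ t = f := slash_Gamma0 f htm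
    rw [h1]
  · show e16mJ * β i * e16mJ * mapGL ℝ (jConjSL (γ : SL(2, ℤ))) =
      mapGL ℝ (jConjSL (g' i : SL(2, ℤ))) * (e16mJ * β (π i) * e16mJ)
    rw [e16m_mapGL_jConj, e16m_mapGL_jConj]
    have h := hmul i
    calc e16mJ * β i * e16mJ * (e16mJ * mapGL ℝ (γ : SL(2, ℤ)) * e16mJ)
        = e16mJ * β i * (e16mJ * e16mJ) * mapGL ℝ (γ : SL(2, ℤ)) * e16mJ := by
          simp only [mul_assoc]
      _ = e16mJ * (β i * mapGL ℝ (γ : SL(2, ℤ))) * e16mJ := by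
          rw [e16mJ_mul_self, mul_one]
          simp only [mul_assoc]
      _ = e16mJ * (mapGL ℝ (g' i : SL(2, ℤ)) * β (π i)) * e16mJ := by rw [h]
      _ = e16mJ * mapGL ℝ (g' i : SL(2, ℤ)) * (e16mJ * e16mJ) * β (π i) * e16mJ := by
          rw [e16mJ_mul_self, mul_one]
          simp only [mul_assoc]
      _ = e16mJ * mapGL ℝ (g' i : SL(2, ℤ)) * e16mJ * (e16mJ * β (π i) * e16mJ) := by
          simp only [mul_assoc]

/-- packaging: real coset representatives with integer entries give the data of `[M5]` -/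
theorem e16m_data_of (p : ℕ) [NeZero p]
    (Top : CuspForm (Gamma0 p) 2 → CuspForm (Gamma0 p) 2)
    {ι : Type} [Fintype ι] (β : ι → GL (Fin 2) ℝ) (A : ι → Matrix (Fin 2) (Fin 2) ℤ)
    (hβA : ∀ i, ((β i : GL (Fin 2) ℝ) : Matrix (Fin 2) (Fin 2) ℝ) =
      (A i).map (Int.castRingHom ℝ))
    (hβ : ∀ i, 0 < (β i).det.val)
    (hA10 : ∀ i, A i 1 0 = 0) (hA00 : ∀ i, IsCoprime (A i 0 0) (p : ℤ))
    (hT : ∀ f : CuspForm (Gamma0 p) 2, (Top f : ℍ → ℂ) = ∑ i, (f : ℍ → ℂ) ∣[(2 : ℤ)] β i)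
    (σ : Equiv.Perm ι)
    (hJ : ∀ i, ∃ t : SL(2, ℤ), t ∈ Gamma0 p ∧ e16mJ * β i * e16mJ = mapGL ℝ t * β (σ i))
    (g : Gamma0 p) (π : Equiv.Perm ι) (g' : ι → Gamma0 p)
    (hmul : ∀ i, β i * mapGL ℝ (g : SL(2, ℤ)) = mapGL ℝ (g' i : SL(2, ℤ)) * β (π i))
    (c : ℤ) (hc : (Fintype.card ι : ℤ) = c) :
    ∃ (ι : Type) (_ : Fintype ι) (A : ι → Matrix (Fin 2) (Fin 2) ℤ) (π : Equiv.Perm ι)
      (g' : ι → Gamma0 p),
      (∀ i, A i 1 0 = 0) ∧ (∀ i, IsCoprime (A i 0 0) (p : ℤ)) ∧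
      (∀ i, A i * ((g : SL(2, ℤ)) : Matrix (Fin 2) (Fin 2) ℤ) =
        ((g' i : SL(2, ℤ)) : Matrix (Fin 2) (Fin 2) ℤ) * A (π i)) ∧
      ((Fintype.card ι : ℤ) = c) ∧
      (∀ f : CuspForm (Gamma0 p) 2, periodMap p (Top f) (Additive.ofMul g) =
        ∑ i, periodMap p f (Additive.ofMul (g' i))) ∧
      (∀ f : CuspForm (Gamma0 p) 2, periodMap p (Top f) (Additive.ofMul (jConjGamma0 p g)) =
        ∑ i, periodMap p f (Additive.ofMul (jConjGamma0 p (g' i)))) := by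
  refine ⟨ι, inferInstance, A, π, g', hA10, hA00, fun i => ?_, hc, fun f => ?_, fun f => ?_⟩
  · have h := congrArg Units.val (hmul i)
    rw [Units.val_mul, Units.val_mul, hβA, hβA, e16m_mapGL_coe, e16m_mapGL_coe,
      ← Matrix.map_mul, ← Matrix.map_mul] at h
    exact Matrix.map_injective (RingHom.injective_int (Int.castRingHom ℝ)) h
  · exact e16m_period_coset f (Top f) β hβ (hT f) g π g' hmul
  · exact e16m_period_coset_J f (Top f) β hβ (hT f) σ hJ g π g' hmul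

/-! ### The concrete coset representatives -/

/-- `J [1, j; 0, q] J = [1, -k; 0, 1] [1, j'; 0, q]` with `j' = (-j) mod q` -/
theorem e16m_J_heckeMatrix (N : ℕ) [NeZero N] {q : ℕ} [NeZero q] (x : ZMod q) :
    ∃ t : SL(2, ℤ), t ∈ Gamma0 N ∧
      e16mJ * ModularForm.heckeMatrix q x.val * e16mJ =
        mapGL ℝ t * ModularForm.heckeMatrix q (Equiv.neg (ZMod q) x).val := by
  have hq : q ≠ 0 := NeZero.ne q
  obtain ⟨k, hk⟩ : (q : ℤ) ∣ (x.val : ℤ) + ((-x).val : ℤ) := by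
    rw [← ZMod.intCast_zmod_eq_zero_iff_dvd]
    push_cast
    rw [ZMod.natCast_zmod_val, ZMod.natCast_zmod_val]
    ring
  have hdet : Matrix.det !![(1 : ℤ), -k; 0, 1] = 1 := by simp [Matrix.det_fin_two]
  obtain ⟨t, ht⟩ : ∃ t : SL(2, ℤ), (t : Matrix (Fin 2) (Fin 2) ℤ) = !![1, -k; 0, 1] :=
    ⟨⟨_, hdet⟩, rfl⟩
  refine ⟨t, ?_, ?_⟩
  · apply mem_Gamma0_of_dvd
    show (N : ℤ) ∣ (t : Matrix (Fin 2) (Fin 2) ℤ) 1 0
    rw [ht]
    simp
  · have hk' : ((x.val : ℕ) : ℝ) + (((-x).val : ℕ) : ℝ) = (q : ℝ) * (k : ℝ) := by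
      exact_mod_cast hk
    rw [ZMod.natCast_val, ZMod.natCast_val] at hk'
    apply Units.ext
    rw [Units.val_mul, Units.val_mul, Units.val_mul, e16mJ_val, ModularForm.val_heckeMatrix hq,
      ModularForm.val_heckeMatrix hq, e16m_mapGL_coe, ht]
    ext i j
    fin_cases i <;> fin_cases j <;> simp [Matrix.mul_apply, Fin.sum_univ_two]
    linarith

/-- the data of `[M5]` for `U_q`, `q ∣ p` -/
theorem e16m_hecke_data_U (p : ℕ) [NeZero p] {q : ℕ} (hqN : q ∣ p) (g : Gamma0 p)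
    (c : ℤ) (hc : (q : ℤ) = c) :
    ∃ (ι : Type) (_ : Fintype ι) (A : ι → Matrix (Fin 2) (Fin 2) ℤ) (π : Equiv.Perm ι)
      (g' : ι → Gamma0 p),
      (∀ i, A i 1 0 = 0) ∧ (∀ i, IsCoprime (A i 0 0) (p : ℤ)) ∧
      (∀ i, A i * ((g : SL(2, ℤ)) : Matrix (Fin 2) (Fin 2) ℤ) =
        ((g' i : SL(2, ℤ)) : Matrix (Fin 2) (Fin 2) ℤ) * A (π i)) ∧
      ((Fintype.card ι : ℤ) = c) ∧
      (∀ f : CuspForm (Gamma0 p) 2, periodMap p (heckeULin 2 hqN f) (Additive.ofMul g) =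
        ∑ i, periodMap p f (Additive.ofMul (g' i))) ∧
      (∀ f : CuspForm (Gamma0 p) 2,
        periodMap p (heckeULin 2 hqN f) (Additive.ofMul (jConjGamma0 p g)) =
          ∑ i, periodMap p f (Additive.ofMul (jConjGamma0 p (g' i)))) := by
  have hq0 : q ≠ 0 := fun h => NeZero.ne p (by simpa [h] using hqN)
  have : NeZero q := ⟨hq0⟩
  have hdvd := dvd_of_mem_Gamma0 g.2
  have hcq : (q : ℤ) ∣ (g : SL(2, ℤ)) 1 0 := (Int.natCast_dvd_natCast.mpr hqN).trans hdvd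
  refine e16m_data_of p (fun f => heckeULin 2 hqN f)
    (fun x : ZMod q => ModularForm.heckeMatrix q x.val)
    (fun x : ZMod q => !![1, (x.val : ℤ); 0, (q : ℤ)])
    (fun x => ?_) (fun x => (isUT_heckeMatrix hq0 _).det_pos) (fun x => by simp)
    (fun x => isCoprime_one_left) (fun f => ?_) (Equiv.neg (ZMod q)) (fun x => e16m_J_heckeMatrix p x) g
    (affinePerm (g : SL(2, ℤ)) ((ZMod.intCast_zmod_eq_zero_iff_dvd _ _).mpr hcq))
    (fun x => ⟨(heckeMatrix_mul_of_dvd (g : SL(2, ℤ)) hcq x).choose, ?_⟩)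
    (fun x => (heckeMatrix_mul_of_dvd (g : SL(2, ℤ)) hcq x).choose_spec.2) c ?_
  · rw [ModularForm.val_heckeMatrix hq0]
    ext i j
    fin_cases i <;> fin_cases j <;> simp
  · show (heckeULin 2 hqN f : ℍ → ℂ) = _
    rw [CuspForm.coe_heckeULin_apply, heckeU_eq_sum_zmod]
  · apply mem_Gamma0_of_dvd
    rw [(heckeMatrix_mul_of_dvd (g : SL(2, ℤ)) hcq x).choose_spec.1]
    exact dvd_mul_of_dvd_right hdvd _
  · rw [ZMod.card, hc]

/-- the data of `[M5]` for `T_l`, `l ∤ p` -/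
theorem e16m_hecke_data_T (p : ℕ) [NeZero p] {l : ℕ} (hl : l.Prime) (hlp : ¬ l ∣ p)
    (g : Gamma0 p) :
    ∃ (ι : Type) (_ : Fintype ι) (A : ι → Matrix (Fin 2) (Fin 2) ℤ) (π : Equiv.Perm ι)
      (g' : ι → Gamma0 p),
      (∀ i, A i 1 0 = 0) ∧ (∀ i, IsCoprime (A i 0 0) (p : ℤ)) ∧
      (∀ i, A i * ((g : SL(2, ℤ)) : Matrix (Fin 2) (Fin 2) ℤ) =
        ((g' i : SL(2, ℤ)) : Matrix (Fin 2) (Fin 2) ℤ) * A (π i)) ∧
      ((Fintype.card ι : ℤ) = 1 + (l : ℕ)) ∧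
      (∀ f : CuspForm (Gamma0 p) 2, periodMap p (heckeTLin 2 hl hlp f) (Additive.ofMul g) =
        ∑ i, periodMap p f (Additive.ofMul (g' i))) ∧
      (∀ f : CuspForm (Gamma0 p) 2,
        periodMap p (heckeTLin 2 hl hlp f) (Additive.ofMul (jConjGamma0 p g)) =
          ∑ i, periodMap p f (Additive.ofMul (jConjGamma0 p (g' i)))) := by
  have : Fact l.Prime := ⟨hl⟩
  have hl0 : l ≠ 0 := hl.ne_zero
  have hdvd := dvd_of_mem_Gamma0 g.2
  have hcop : IsCoprime (l : ℤ) (p : ℤ) :=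
    Nat.isCoprime_iff_coprime.mpr ((Nat.Prime.coprime_iff_not_dvd hl).mpr hlp)
  refine e16m_data_of p (fun f => heckeTLin 2 hl hlp f) (heckeRep l)
    (fun x : OnePoint (ZMod l) =>
      x.elim !![(l : ℤ), 0; 0, 1] (fun j => !![1, (j.val : ℤ); 0, (l : ℤ)]))
    (fun x => ?_) (fun x => (isUT_heckeRep hl0 x).det_pos) (fun x => ?_)
    (fun x => ?_) (fun f => ?_) (Equiv.optionCongr (Equiv.neg (ZMod l))) (fun x => ?_) g
    (MulAction.toPerm (redMatrix l (g : SL(2, ℤ))))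
    (fun x => ⟨(heckeRep_mul hlp (g : SL(2, ℤ)) hdvd x).choose,
      mem_Gamma0_of_dvd (heckeRep_mul hlp (g : SL(2, ℤ)) hdvd x).choose_spec.1⟩)
    (fun x => (heckeRep_mul hlp (g : SL(2, ℤ)) hdvd x).choose_spec.2) _ ?_
  · induction x using OnePoint.rec with
    | infty =>
      show ((ModularForm.heckeDiagMatrix l : GL (Fin 2) ℝ) : Matrix (Fin 2) (Fin 2) ℝ) =
        (!![(l : ℤ), 0; 0, 1] : Matrix (Fin 2) (Fin 2) ℤ).map (Int.castRingHom ℝ)
      rw [ModularForm.val_heckeDiagMatrix hl0]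
      ext i j
      fin_cases i <;> fin_cases j <;> simp
    | coe y =>
      show ((ModularForm.heckeMatrix l y.val : GL (Fin 2) ℝ) : Matrix (Fin 2) (Fin 2) ℝ) =
        (!![1, (y.val : ℤ); 0, (l : ℤ)] : Matrix (Fin 2) (Fin 2) ℤ).map (Int.castRingHom ℝ)
      rw [ModularForm.val_heckeMatrix hl0]
      ext i j
      fin_cases i <;> fin_cases j <;> simp
  · induction x using OnePoint.rec with
    | infty => rfl
    | coe y => rfl
  · induction x using OnePoint.rec with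
    | infty => exact hcop
    | coe y => exact isCoprime_one_left
  · show (heckeTLin 2 hl hlp f : ℍ → ℂ) = _
    rw [CuspForm.coe_heckeTLin_apply, heckeT_eq_sum_onePoint]
  · induction x using OnePoint.rec with
    | infty =>
      refine ⟨1, Subgroup.one_mem _, ?_⟩
      show e16mJ * ModularForm.heckeDiagMatrix l * e16mJ =
        mapGL ℝ 1 * ModularForm.heckeDiagMatrix l
      rw [map_one, one_mul]
      apply Units.ext
      rw [Units.val_mul, Units.val_mul, e16mJ_val, ModularForm.val_heckeDiagMatrix hl0]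
      ext i j
      fin_cases i <;> fin_cases j <;> simp [Matrix.mul_apply, Fin.sum_univ_two]
    | coe y => exact e16m_J_heckeMatrix p y
  · have h1 : Fintype.card (OnePoint (ZMod l)) = Fintype.card (ZMod l) + 1 :=
      Fintype.card_option
    rw [h1, ZMod.card]
    push_cast
    ring

/-- **[M5]**: matrix-level coset data for the Hecke generators, with the period relations. -/
theorem e16m_hecke_data (p : ℕ) [Fact p.Prime] (l : Nat.Primes) (g : Gamma0 p) :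
    ∃ (ι : Type) (_ : Fintype ι) (A : ι → Matrix (Fin 2) (Fin 2) ℤ) (π : Equiv.Perm ι)
      (g' : ι → Gamma0 p),
      (∀ i, A i 1 0 = 0) ∧ (∀ i, IsCoprime (A i 0 0) (p : ℤ)) ∧
      (∀ i, A i * ((g : SL(2, ℤ)) : Matrix (Fin 2) (Fin 2) ℤ) =
        ((g' i : SL(2, ℤ)) : Matrix (Fin 2) (Fin 2) ℤ) * A (π i)) ∧
      ((Fintype.card ι : ℤ) = if (l : ℕ) = p then (p : ℤ) else 1 + (l : ℕ)) ∧
      (∀ f : CuspForm (Gamma0 p) 2,
        periodMap p ((heckeFormsGen p 2 l).1 f) (Additive.ofMul g) =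
          ∑ i, periodMap p f (Additive.ofMul (g' i))) ∧
      (∀ f : CuspForm (Gamma0 p) 2,
        periodMap p ((heckeFormsGen p 2 l).1 f) (Additive.ofMul (jConjGamma0 p g)) =
          ∑ i, periodMap p f (Additive.ofMul (jConjGamma0 p (g' i)))) := by
  by_cases hl : (l : ℕ) = p
  · have hdvd : (l : ℕ) ∣ p := dvd_of_eq hl
    rw [if_pos hl, heckeFormsGen_of_dvd hdvd]
    exact e16m_hecke_data_U p hdvd g (p : ℤ) (by exact_mod_cast hl)
  · have hndvd : ¬ (l : ℕ) ∣ p :=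
      fun h => hl ((Nat.prime_dvd_prime_iff_eq l.2 Fact.out).mp h)
    rw [if_neg hl, heckeFormsGen_of_not_dvd hndvd]
    exact e16m_hecke_data_T p l.2 hndvd g

end Fermat.Agent.E16
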