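import Fermat.Agent.Lib.FF_Defs
import Fermat.Prelude.Def_ModularCurve_ArithmeticGalois
import Fermat.Prelude.Def_ModularCurve_GenusNumerics

set_option autoImplicit false

/-!
# T24: shared definitions of the modular side (sorry-free)

`Kb`, `FN N`, `jF N`, `PN N`, `sP/tP/uP N`.  Piece files import THIS file (not `MC_Main`).
-/

noncomputable section

namespace Fermat.Agent.MC

open ModularCurve AlgebraicCurve Fermat.Agent.FF CongruenceSubgroup IntermediateField
open scoped MatrixGroups

/-- the constant field -/
abbrev Kb : Type := AlgebraicClosure ℚ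

/-- the function field of `X₀(N)` over `Kb`, as in S24 -/
abbrev FN (N : ℕ) [NeZero N] : Type := ↥(modularFunctionFieldBar N)

/-- the element `j` of the function field -/
def jF (N : ℕ) [NeZero N] : FN N :=
  ⟨coeffEmb Kb jq, coeffEmb_mem_laurentBaseChange Kb
    (by simpa [qExpand_one_apply] using jqd_mem_full N (one_dvd N))⟩

/-- cosets of `Γ₀(N)` -/
abbrev PN (N : ℕ) : Type := SL(2, ℤ) ⧸ Gamma0 N

instance instFintypePN (N : ℕ) [NeZero N] : Fintype (PN N) :=
  Subgroup.fintypeQuotientOfFiniteIndex

/-- the permutations of the cosets induced by `S`, `T`, `U = S * T` -/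
def sP (N : ℕ) : Equiv.Perm (PN N) := MulAction.toPerm ModularGroup.S
def tP (N : ℕ) : Equiv.Perm (PN N) := MulAction.toPerm ModularGroup.T
def uP (N : ℕ) : Equiv.Perm (PN N) := MulAction.toPerm (ModularGroup.S * ModularGroup.T)

end Fermat.Agent.MC
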