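import Mathlib
import Fermat.Prelude.Def_ModularCurve_PeriodMap
import Fermat.Agent.Lib.MC_Defs

set_option autoImplicit false

noncomputable section

namespace Fermat.Agent.ES

open Fermat.Agent.FF Equiv

section Orbit

variable {I : Type}

/-- functions invariant under a permutation -/
def invSub (σ : Perm I) : Submodule ℂ (I → ℂ) where
  carrier := {f | ∀ i, f (σ i) = f i}
  zero_mem' := fun _ => rfl
  add_mem' := by
    intro f g hf hg i
    show f (σ i) + g (σ i) = f i + g i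
    rw [hf i, hg i]
  smul_mem' := by
    intro c f hf i
    show c • f (σ i) = c • f i
    rw [hf i]

theorem mem_invSub (σ : Perm I) (f : I → ℂ) : f ∈ invSub σ ↔ ∀ i, f (σ i) = f i := Iff.rfl

theorem orbitCount_inv (σ : Perm I) : orbitCount σ⁻¹ = orbitCount σ := by
  unfold orbitCount
  have : Perm.SameCycle.setoid σ⁻¹ = Perm.SameCycle.setoid σ := by
    ext x y
    exact Perm.sameCycle_inv
  rw [this]

variable [Fintype I]

theorem finrank_invSub (σ : Perm I) : Module.finrank ℂ (invSub σ) = orbitCount σ := by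
  classical
  let Q := Quotient (Perm.SameCycle.setoid σ)
  let e : (Q → ℂ) →ₗ[ℂ] (I → ℂ) := LinearMap.funLeft ℂ ℂ (Quotient.mk (Perm.SameCycle.setoid σ))
  have he_inj : Function.Injective e :=
    LinearMap.funLeft_injective_of_surjective ℂ ℂ _ Quotient.mk_surjective
  have he_range : LinearMap.range e = invSub σ := by
    ext f
    rw [mem_invSub, LinearMap.mem_range]
    constructor
    · rintro ⟨g, rfl⟩ i
      change g (Quotient.mk _ (σ i)) = g (Quotient.mk _ i)
      congr 1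
      apply Quotient.sound
      change σ.SameCycle (σ i) i
      exact (Perm.sameCycle_apply_left).mpr (Perm.SameCycle.refl _ _)
    · intro h
      have hz : ∀ (k : ℤ) (i : I), f ((σ ^ k) i) = f i := by
        intro k
        induction k using Int.induction_on with
        | zero => intro i; simp
        | succ n ih =>
          intro i
          rw [zpow_add_one, Perm.mul_apply, ih, h]
        | pred n ih =>
          intro i
          rw [zpow_sub_one, Perm.mul_apply, ih]
          have h' := h (σ⁻¹ i)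
          have h2 : σ (σ⁻¹ i) = i := by simp
          rw [h2] at h'
          exact h'.symm
      refine ⟨Quotient.lift f ?_, ?_⟩
      · intro a b hab
        obtain ⟨k, hk⟩ := (hab : σ.SameCycle a b)
        rw [← hk, hz]
      · funext i; rfl
  have h1 : Module.finrank ℂ (LinearMap.range e) = Module.finrank ℂ (Q → ℂ) :=
    LinearMap.finrank_range_of_inj he_inj
  rw [← he_range, h1, Module.finrank_pi]
  unfold orbitCount
  rw [Nat.card_eq_fintype_card]

omit [Fintype I] in
theorem apply_closure_eq' {s u : Perm I} {f : I → ℂ} (hs : ∀ i, f (s i) = f i)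
    (hu : ∀ i, f (u i) = f i) {g : Perm I} (hg : g ∈ Subgroup.closure {s, u}) :
    ∀ i, f (g i) = f i := by
  induction hg using Subgroup.closure_induction with
  | mem x hx =>
    rcases hx with rfl | hx
    · exact hs
    · rw [Set.mem_singleton_iff] at hx; subst hx; exact hu
  | one => intro i; rfl
  | mul x y _ _ hx hy => intro i; rw [Perm.mul_apply, hx, hy]
  | inv x _ hx =>
    intro i
    have h' := hx (x⁻¹ i)
    have h2 : x (x⁻¹ i) = i := by simp
    rw [h2] at h'
    exact h'.symm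

/-- the space of functions with vanishing `s`-norm and `u`-norm (orders 2 and 3) -/
def antiSub (s u : Perm I) : Submodule ℂ (I → ℂ) where
  carrier := {c | (∀ i, c i + c (s i) = 0) ∧ ∀ i, c i + c (u i) + c (u (u i)) = 0}
  zero_mem' := ⟨fun _ => by simp, fun _ => by simp⟩
  add_mem' := by
    rintro f g ⟨hf1, hf2⟩ ⟨hg1, hg2⟩
    refine ⟨fun i => ?_, fun i => ?_⟩
    · have := hf1 i; have := hg1 i
      simp only [Pi.add_apply]; linear_combination hf1 i + hg1 i
    · simp only [Pi.add_apply]; linear_combination hf2 i + hg2 i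
  smul_mem' := by
    rintro c f ⟨hf1, hf2⟩
    refine ⟨fun i => ?_, fun i => ?_⟩
    · simp only [Pi.smul_apply, smul_eq_mul]; linear_combination c * hf1 i
    · simp only [Pi.smul_apply, smul_eq_mul]; linear_combination c * hf2 i

theorem finrank_antiSub_le [Nonempty I] (s u : Perm I)
    (htr : ∀ i j, ∃ g ∈ Subgroup.closure {s, u}, g i = j) :
    Module.finrank ℂ (antiSub s u) + orbitCount s + orbitCount u ≤ Fintype.card I + 1 := by
  classical
  obtain ⟨i₀⟩ := ‹Nonempty I›
  -- the intersection of the invariants is the constants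
  have hinf : Module.finrank ℂ (invSub s ⊓ invSub u : Submodule ℂ (I → ℂ)) ≤ 1 := by
    have hle : invSub s ⊓ invSub u ≤ Submodule.span ℂ {(fun _ => 1 : I → ℂ)} := by
      rintro f ⟨hs, hu⟩
      rw [Submodule.mem_span_singleton]
      refine ⟨f i₀, ?_⟩
      funext j
      obtain ⟨g, hg, hgj⟩ := htr i₀ j
      have := apply_closure_eq' hs hu hg i₀
      rw [hgj] at this
      simp [this]
    refine (Submodule.finrank_mono hle).trans ?_
    have hne : (fun _ => 1 : I → ℂ) ≠ 0 := fun h0 => by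
      have := congrFun h0 i₀
      simp at this
    exact (finrank_span_singleton hne).le
  -- the Hermitian pairing kills anti × inv
  have hpair : ∀ c ∈ antiSub s u, ∀ a ∈ invSub s ⊔ invSub u,
      ∑ i, (starRingEnd ℂ) (a i) * c i = 0 := by
    intro c hc a ha
    obtain ⟨a1, ha1, a2, ha2, rfl⟩ := Submodule.mem_sup.mp ha
    have h1 : ∑ i, (starRingEnd ℂ) (a1 i) * c i = 0 := by
      have e1 : ∑ i, (starRingEnd ℂ) (a1 i) * c (s i) = ∑ i, (starRingEnd ℂ) (a1 i) * c i := by
        rw [← Equiv.sum_comp s (fun i => (starRingEnd ℂ) (a1 i) * c i)]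
        refine Finset.sum_congr rfl fun i _ => ?_
        rw [ha1 i]
      have e2 : ∑ i, (starRingEnd ℂ) (a1 i) * (c i + c (s i)) = 0 :=
        Finset.sum_eq_zero fun i _ => by rw [hc.1 i, mul_zero]
      simp only [mul_add, Finset.sum_add_distrib, e1] at e2
      have : (2 : ℂ) * ∑ i, (starRingEnd ℂ) (a1 i) * c i = 0 := by rw [two_mul]; exact e2
      simpa using this
    have h2 : ∑ i, (starRingEnd ℂ) (a2 i) * c i = 0 := by
      have e1 : ∑ i, (starRingEnd ℂ) (a2 i) * c (u i) = ∑ i, (starRingEnd ℂ) (a2 i) * c i := by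
        rw [← Equiv.sum_comp u (fun i => (starRingEnd ℂ) (a2 i) * c i)]
        refine Finset.sum_congr rfl fun i _ => ?_
        rw [ha2 i]
      have e1' : ∑ i, (starRingEnd ℂ) (a2 i) * c (u (u i)) = ∑ i, (starRingEnd ℂ) (a2 i) * c i := by
        rw [← Equiv.sum_comp (u * u) (fun i => (starRingEnd ℂ) (a2 i) * c i)]
        refine Finset.sum_congr rfl fun i _ => ?_
        rw [Perm.mul_apply, ha2, ha2]
      have e2 : ∑ i, (starRingEnd ℂ) (a2 i) * (c i + c (u i) + c (u (u i))) = 0 :=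
        Finset.sum_eq_zero fun i _ => by rw [hc.2 i, mul_zero]
      simp only [mul_add, Finset.sum_add_distrib, e1, e1'] at e2
      have : (3 : ℂ) * ∑ i, (starRingEnd ℂ) (a2 i) * c i = 0 := by linear_combination e2
      simpa using this
    simp only [Pi.add_apply, map_add, add_mul, Finset.sum_add_distrib, h1, h2, add_zero]
  have hdisj : antiSub s u ⊓ (invSub s ⊔ invSub u) = ⊥ := by
    rw [eq_bot_iff]
    rintro c ⟨hc, ha⟩
    have h0 := hpair c hc c ha
    rw [Submodule.mem_bot]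
    funext i
    have hnn : ∀ j ∈ Finset.univ, (0 : ℝ) ≤ Complex.normSq (c j) := fun j _ => Complex.normSq_nonneg _
    have hsum : ∑ j, Complex.normSq (c j) = 0 := by
      have : ((∑ j, Complex.normSq (c j) : ℝ) : ℂ) = 0 := by
        rw [← h0]; push_cast
        refine Finset.sum_congr rfl fun j _ => ?_
        rw [Complex.normSq_eq_conj_mul_self]
      exact_mod_cast this
    have := (Finset.sum_eq_zero_iff_of_nonneg hnn).mp hsum i (Finset.mem_univ i)
    simpa using this
  have c1 := Submodule.finrank_sup_add_finrank_inf_eq (antiSub s u) (invSub s ⊔ invSub u)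
  have c2 := Submodule.finrank_sup_add_finrank_inf_eq (invSub s) (invSub u)
  rw [hdisj, finrank_bot] at c1
  have c3 : Module.finrank ℂ (antiSub s u ⊔ (invSub s ⊔ invSub u) : Submodule ℂ (I → ℂ))
      ≤ Fintype.card I := by
    have := Submodule.finrank_le (antiSub s u ⊔ (invSub s ⊔ invSub u) : Submodule ℂ (I → ℂ))
    simpa using this
  rw [finrank_invSub, finrank_invSub] at c2
  omega

end Orbit

section Main

open ModularCurve ModularCurve.Period CongruenceSubgroup Fermat.Agent.MC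
open scoped MatrixGroups

theorem S_inv_mul_S_inv : (ModularGroup.S⁻¹ * ModularGroup.S⁻¹ : SL(2, ℤ)) = -1 := by
  have h : (ModularGroup.S * ModularGroup.S : SL(2, ℤ)) = -1 := by
    apply Subtype.ext
    rw [Matrix.SpecialLinearGroup.coe_mul, ModularGroup.S_mul_S_eq]
    simp
  have h2 : (-1 : SL(2, ℤ)) * (-1) = 1 := by simp
  rw [← mul_inv_rev, h, inv_eq_iff_eq_inv, eq_comm, inv_eq_iff_mul_eq_one, h2]

theorem ST_cube : ((ModularGroup.S * ModularGroup.T) * ((ModularGroup.S * ModularGroup.T) *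
    (ModularGroup.S * ModularGroup.T)) : SL(2, ℤ)) = -1 := by
  apply Subtype.ext
  simp only [Matrix.SpecialLinearGroup.coe_mul, ModularGroup.coe_S, ModularGroup.coe_T,
    Matrix.SpecialLinearGroup.coe_neg, Matrix.SpecialLinearGroup.coe_one]
  ext i j
  fin_cases i <;> fin_cases j <;> simp [Matrix.mul_apply, Fin.sum_univ_two]

theorem ST_inv_cube : ((ModularGroup.S * ModularGroup.T)⁻¹ * ((ModularGroup.S * ModularGroup.T)⁻¹ *
    (ModularGroup.S * ModularGroup.T)⁻¹) : SL(2, ℤ)) = -1 := by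
  have h2 : (-1 : SL(2, ℤ)) * (-1) = 1 := by simp
  rw [← mul_inv_rev, ← mul_inv_rev, mul_assoc, ST_cube, inv_eq_iff_eq_inv, eq_comm,
    inv_eq_iff_mul_eq_one, h2]

theorem trace_conj_SL (g m : SL(2, ℤ)) :
    ((g⁻¹ * m * g : SL(2, ℤ)) : Matrix (Fin 2) (Fin 2) ℤ).trace
      = (m : Matrix (Fin 2) (Fin 2) ℤ).trace := by
  have h : g * (g⁻¹ * m) = m := by group
  rw [Matrix.SpecialLinearGroup.coe_mul, Matrix.trace_mul_comm,
    ← Matrix.SpecialLinearGroup.coe_mul, h]

theorem trace_zpowers_T {m : SL(2, ℤ)} (hm : m ∈ Subgroup.zpowers ModularGroup.T) :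
    (m : Matrix (Fin 2) (Fin 2) ℤ).trace = 2 := by
  obtain ⟨k, rfl⟩ := Subgroup.mem_zpowers_iff.mp hm
  have := ModularGroup.coe_T_zpow k
  change ((ModularGroup.T ^ k : SL(2, ℤ)) : Matrix (Fin 2) (Fin 2) ℤ) = _ at this
  rw [this, Matrix.trace_fin_two_of]
  norm_num

variable (N : ℕ)

theorem neg_one_mem_Gamma0 : (-1 : SL(2, ℤ)) ∈ Gamma0 N := by
  rw [Gamma0_mem]
  simp

theorem parabolic_neg_one {φ : Additive (Gamma0 N) →+ ℂ} (hφ : φ ∈ parabolicHoms ℂ (Gamma0 N) ℂ) :
    φ (Additive.ofMul ⟨-1, neg_one_mem_Gamma0 N⟩) = 0 := by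
  apply hφ
  simp

theorem parabolic_conj {φ : Additive (Gamma0 N) →+ ℂ} (hφ : φ ∈ parabolicHoms ℂ (Gamma0 N) ℂ)
    (γ : Gamma0 N) (g m : SL(2, ℤ)) (hm : m ∈ Subgroup.zpowers ModularGroup.T)
    (h : (γ : SL(2, ℤ)) = g⁻¹ * m * g) : φ (Additive.ofMul γ) = 0 := by
  apply hφ
  rw [h, trace_conj_SL, trace_zpowers_T hm]
  norm_num


/-- a `φ`-equivariant, left-`T`-invariant function on `SL(2,ℤ)` -/
theorem exists_lift {φ : Additive (Gamma0 N) →+ ℂ} (hφ : φ ∈ parabolicHoms ℂ (Gamma0 N) ℂ) :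
    ∃ F : SL(2, ℤ) → ℂ,
      (∀ (g : SL(2, ℤ)) (γ : Gamma0 N), F (g * γ) = F g + φ (Additive.ofMul γ)) ∧
      ∀ g, F (ModularGroup.T * g) = F g := by
  classical
  let H : Subgroup SL(2, ℤ) := Subgroup.zpowers ModularGroup.T
  have hex : ∀ g : SL(2, ℤ), ∃ p : SL(2, ℤ) × Gamma0 N, p.1 ∈ H ∧
      (DoubleCoset.mk H (Gamma0 N) g).out = p.1 * g * p.2 := by
    intro g
    obtain ⟨h, k, hh, hk, e⟩ := DoubleCoset.mk_out_eq_mul H (Gamma0 N) g
    exact ⟨(h, ⟨k, hk⟩), hh, e⟩
  choose P hP1 hP2 using hex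
  have key : ∀ (g t : SL(2, ℤ)) (_ : t ∈ H) (γ : Gamma0 N),
      φ (Additive.ofMul (P (t * g * γ)).2) = φ (Additive.ofMul (P g).2) - φ (Additive.ofMul γ) := by
    intro g t ht γ
    have hmk : DoubleCoset.mk H (Gamma0 N) (t * g * γ) = DoubleCoset.mk H (Gamma0 N) g := by
      rw [eq_comm, DoubleCoset.eq]
      exact ⟨t, ht, γ, γ.2, rfl⟩
    have E : (P g).1 * g * (P g).2 = (P (t * g * γ)).1 * (t * g * γ) * (P (t * g * γ)).2 := by
      rw [← hP2, ← hP2, hmk]
    set a := (P g).1 with ha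
    set k := (P g).2 with hk
    set a' := (P (t * g * γ)).1 with ha'
    set k' := (P (t * g * γ)).2 with hk'
    have hm : (a' * t)⁻¹ * a ∈ H :=
      H.mul_mem (H.inv_mem (H.mul_mem (hP1 _) ht)) (hP1 _)
    have E' : ((γ * k' * k⁻¹ : Gamma0 N) : SL(2, ℤ)) = g⁻¹ * ((a' * t)⁻¹ * a) * g := by
      have h1 : a * g = a' * (t * g * γ) * k' * (k : SL(2, ℤ))⁻¹ := by
        rw [eq_mul_inv_iff_mul_eq, E]
      have h2 : g⁻¹ * ((a' * t)⁻¹ * a) * g = g⁻¹ * (a' * t)⁻¹ * (a * g) := by group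
      rw [h2, h1]
      push_cast
      group
    have h0 := parabolic_conj N hφ (γ * k' * k⁻¹) g _ hm E'
    rw [ofMul_mul, ofMul_mul, ofMul_inv, map_add, map_add, map_neg] at h0
    linear_combination h0
  refine ⟨fun g => - φ (Additive.ofMul (P g).2), fun g γ => ?_, fun g => ?_⟩
  · have := key g 1 H.one_mem γ
    rw [one_mul] at this
    show - φ (Additive.ofMul (P (g * γ)).2) = - φ (Additive.ofMul (P g).2) + φ (Additive.ofMul γ)
    rw [this]; ring
  · have := key g ModularGroup.T (Subgroup.mem_zpowers _) 1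
    have e : ModularGroup.T * g * ((1 : Gamma0 N) : SL(2, ℤ)) = ModularGroup.T * g := by simp
    rw [e] at this
    show - φ (Additive.ofMul (P (ModularGroup.T * g)).2) = - φ (Additive.ofMul (P g).2)
    rw [this]
    simp

/-- the space of pairs `(φ, F)`: `φ` parabolic, `F` a `φ`-equivariant left-`T`-invariant function -/
def WSub : Submodule ℂ ((Additive (Gamma0 N) →+ ℂ) × (SL(2, ℤ) → ℂ)) where
  carrier := {p | p.1 ∈ parabolicHoms ℂ (Gamma0 N) ℂ ∧
    (∀ (g : SL(2, ℤ)) (γ : Gamma0 N), p.2 (g * γ) = p.2 g + p.1 (Additive.ofMul γ)) ∧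
    ∀ g : SL(2, ℤ), p.2 (ModularGroup.T * g) = p.2 g}
  zero_mem' := ⟨Submodule.zero_mem _, fun g γ => by simp, fun g => rfl⟩
  add_mem' := by
    rintro p q ⟨hp1, hp2, hp3⟩ ⟨hq1, hq2, hq3⟩
    refine ⟨Submodule.add_mem _ hp1 hq1, fun g γ => ?_, fun g => ?_⟩
    · show p.2 (g * γ) + q.2 (g * γ) = (p.2 g + q.2 g) + (p.1 _ + q.1 _)
      rw [hp2, hq2]; ring
    · show p.2 _ + q.2 _ = p.2 g + q.2 g
      rw [hp3, hq3]
  smul_mem' := by
    rintro c p ⟨hp1, hp2, hp3⟩
    refine ⟨Submodule.smul_mem _ c hp1, fun g γ => ?_, fun g => ?_⟩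
    · show c • p.2 (g * γ) = c • p.2 g + c • p.1 _
      rw [hp2]; simp [mul_add]
    · show c • p.2 _ = c • p.2 g
      rw [hp3]

variable {N}

theorem WSub.neg_mul {p : (Additive (Gamma0 N) →+ ℂ) × (SL(2, ℤ) → ℂ)} (hp : p ∈ WSub N)
    (g : SL(2, ℤ)) : p.2 (-1 * g) = p.2 g := by
  have h := hp.2.1 g ⟨-1, neg_one_mem_Gamma0 N⟩
  rw [parabolic_neg_one N hp.1, add_zero] at h
  rw [← h]
  simp

theorem WSub.T_inv_mul {p : (Additive (Gamma0 N) →+ ℂ) × (SL(2, ℤ) → ℂ)} (hp : p ∈ WSub N)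
    (g : SL(2, ℤ)) : p.2 (ModularGroup.T⁻¹ * g) = p.2 g := by
  have h := hp.2.2 (ModularGroup.T⁻¹ * g)
  rw [← h]
  group

/-- the `S`-coboundary of `F`, as a function on cosets -/
def cFun (F : SL(2, ℤ) → ℂ) (x : PN N) : ℂ := F (ModularGroup.S⁻¹ * x.out) - F x.out

theorem cFun_mk {p : (Additive (Gamma0 N) →+ ℂ) × (SL(2, ℤ) → ℂ)} (hp : p ∈ WSub N)
    (g : SL(2, ℤ)) : cFun p.2 (QuotientGroup.mk g : PN N) = p.2 (ModularGroup.S⁻¹ * g) - p.2 g := by
  obtain ⟨h, hh⟩ := QuotientGroup.mk_out_eq_mul (Gamma0 N) g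
  unfold cFun
  rw [hh, ← mul_assoc, hp.2.1, hp.2.1]
  ring

theorem sP_inv_mk (g : SL(2, ℤ)) :
    (sP N)⁻¹ (QuotientGroup.mk g : PN N) = QuotientGroup.mk (ModularGroup.S⁻¹ * g) := rfl

theorem uP_inv_mk (g : SL(2, ℤ)) :
    (uP N)⁻¹ (QuotientGroup.mk g : PN N)
      = QuotientGroup.mk ((ModularGroup.S * ModularGroup.T)⁻¹ * g) := rfl

theorem tP_mk (g : SL(2, ℤ)) :
    (tP N) (QuotientGroup.mk g : PN N) = QuotientGroup.mk (ModularGroup.T * g) := rfl

theorem cFun_mem_antiSub {p : (Additive (Gamma0 N) →+ ℂ) × (SL(2, ℤ) → ℂ)} (hp : p ∈ WSub N) :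
    cFun p.2 ∈ antiSub (sP N)⁻¹ (uP N)⁻¹ := by
  refine ⟨fun x => ?_, fun x => ?_⟩
  · obtain ⟨g, rfl⟩ := QuotientGroup.mk_surjective x
    rw [sP_inv_mk, cFun_mk hp, cFun_mk hp, ← mul_assoc, S_inv_mul_S_inv, WSub.neg_mul hp]
    ring
  · obtain ⟨g, rfl⟩ := QuotientGroup.mk_surjective x
    have hU : ∀ g : SL(2, ℤ), p.2 (ModularGroup.S⁻¹ * g)
        = p.2 ((ModularGroup.S * ModularGroup.T)⁻¹ * g) := by
      intro g
      rw [mul_inv_rev, mul_assoc, WSub.T_inv_mul hp]
    rw [uP_inv_mk, uP_inv_mk, cFun_mk hp, cFun_mk hp, cFun_mk hp, hU, hU, hU]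
    have h3 : (ModularGroup.S * ModularGroup.T)⁻¹ * ((ModularGroup.S * ModularGroup.T)⁻¹ *
        ((ModularGroup.S * ModularGroup.T)⁻¹ * g)) = -1 * g := by
      rw [← mul_assoc, ← mul_assoc, mul_assoc _ _ (ModularGroup.S * ModularGroup.T)⁻¹, ST_inv_cube]
    rw [h3, WSub.neg_mul hp]
    ring


/-- the projection to the parabolic homomorphisms -/
def pMap (N : ℕ) : WSub N →ₗ[ℂ] parabolicHoms ℂ (Gamma0 N) ℂ where
  toFun p := ⟨p.1.1, p.2.1⟩
  map_add' _ _ := rfl
  map_smul' _ _ := rfl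

theorem pMap_surjective (N : ℕ) : Function.Surjective (pMap N) := by
  rintro ⟨φ, hφ⟩
  obtain ⟨F, hF1, hF2⟩ := exists_lift N hφ
  exact ⟨⟨(φ, F), hφ, hF1, hF2⟩, rfl⟩

/-- the coboundary map -/
def qMap (N : ℕ) : WSub N →ₗ[ℂ] (antiSub (sP N)⁻¹ (uP N)⁻¹) × ℂ where
  toFun p := (⟨cFun p.1.2, cFun_mem_antiSub p.2⟩, p.1.2 1)
  map_add' p q := by
    refine Prod.ext (Subtype.ext (funext fun x => ?_)) rfl
    show (p.1.2 + q.1.2) _ - (p.1.2 + q.1.2) _ = (p.1.2 _ - p.1.2 _) + (q.1.2 _ - q.1.2 _)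
    simp only [Pi.add_apply]; ring
  map_smul' c p := by
    refine Prod.ext (Subtype.ext (funext fun x => ?_)) rfl
    show (c • p.1.2) _ - (c • p.1.2) _ = c • (p.1.2 _ - p.1.2 _)
    simp only [Pi.smul_apply, smul_eq_mul]; ring

theorem qMap_injective (N : ℕ) : Function.Injective (qMap N) := by
  rw [← LinearMap.ker_eq_bot, eq_bot_iff]
  rintro ⟨⟨φ, F⟩, hp⟩ hker
  rw [LinearMap.mem_ker] at hker
  have hc : cFun F = 0 := congrArg (fun z => (z.1 : PN N → ℂ)) hker
  have h1 : F 1 = 0 := congrArg Prod.snd hker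
  -- F is left-invariant under S⁻¹ and T, hence under everything
  have hS : ∀ g : SL(2, ℤ), F (ModularGroup.S⁻¹ * g) = F g := by
    intro g
    have := cFun_mk hp g
    rw [hc] at this
    simp only [Pi.zero_apply] at this
    linear_combination -this
  have hS' : ∀ g : SL(2, ℤ), F (ModularGroup.S * g) = F g := by
    intro g
    have := hS (ModularGroup.S * g)
    rw [← mul_assoc, inv_mul_cancel, one_mul] at this
    exact this.symm
  have hT : ∀ g : SL(2, ℤ), F (ModularGroup.T * g) = F g := hp.2.2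
  have hall : ∀ h : SL(2, ℤ), ∀ g, F (h * g) = F g := by
    intro h
    have hh : h ∈ Subgroup.closure ({ModularGroup.S, ModularGroup.T} : Set SL(2, ℤ)) := by
      rw [SpecialLinearGroup.SL2Z_generators]; exact Subgroup.mem_top h
    induction hh using Subgroup.closure_induction with
    | mem x hx =>
      rcases hx with rfl | hx
      · exact hS'
      · rw [Set.mem_singleton_iff] at hx; subst hx; exact hT
    | one => intro g; rw [one_mul]
    | mul x y _ _ hx hy => intro g; rw [mul_assoc, hx, hy]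
    | inv x _ hx =>
      intro g
      have := hx (x⁻¹ * g)
      rw [← mul_assoc, mul_inv_cancel, one_mul] at this
      exact this.symm
  have hF : F = 0 := by
    funext g
    have := hall g 1
    rw [mul_one] at this
    rw [this, h1]; rfl
  have hφ : φ = 0 := by
    refine AddMonoidHom.ext fun γ => ?_
    have := hp.2.1 1 (Additive.toMul γ)
    simp only [hF, Pi.zero_apply, zero_add] at this
    exact this.symm
  rw [Submodule.mem_bot]
  apply Subtype.ext
  show (φ, F) = 0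
  rw [hF, hφ]; rfl

/-- `T`-invariant functions on the cosets, inside the kernel of `pMap` -/
def kMap (N : ℕ) : invSub (tP N) →ₗ[ℂ] LinearMap.ker (pMap N) where
  toFun a := ⟨⟨(0, fun g => (a : PN N → ℂ) (QuotientGroup.mk g)),
      Submodule.zero_mem _, fun g γ => by
        show (a : PN N → ℂ) _ = (a : PN N → ℂ) _ + 0
        rw [add_zero, QuotientGroup.mk_mul_of_mem g γ.2],
      fun g => by
        show (a : PN N → ℂ) (QuotientGroup.mk (ModularGroup.T * g)) = (a : PN N → ℂ) _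
        rw [← tP_mk]
        exact a.2 _⟩, by
      rw [LinearMap.mem_ker]; rfl⟩
  map_add' a b := by
    apply Subtype.ext
    apply Subtype.ext
    exact Prod.ext (add_zero (0 : Additive (Gamma0 N) →+ ℂ)).symm rfl
  map_smul' c a := by
    apply Subtype.ext
    apply Subtype.ext
    exact Prod.ext (smul_zero c).symm rfl

theorem kMap_apply (N : ℕ) (a : invSub (tP N)) (g : SL(2, ℤ)) :
    ((kMap N a).1.1.2 : SL(2, ℤ) → ℂ) g = (a : PN N → ℂ) (QuotientGroup.mk g) := rfl

theorem kMap_injective (N : ℕ) : Function.Injective (kMap N) := by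
  intro a b hab
  apply Subtype.ext
  funext x
  obtain ⟨g, rfl⟩ := QuotientGroup.mk_surjective x
  rw [← kMap_apply, ← kMap_apply, hab]

theorem toPerm_mem_closure (N : ℕ) (h : SL(2, ℤ)) :
    (MulAction.toPerm h : Perm (PN N)) ∈ Subgroup.closure {(sP N)⁻¹, (uP N)⁻¹} := by
  have hs : (sP N)⁻¹ ∈ Subgroup.closure {(sP N)⁻¹, (uP N)⁻¹} :=
    Subgroup.subset_closure (Set.mem_insert _ _)
  have hu : (uP N)⁻¹ ∈ Subgroup.closure {(sP N)⁻¹, (uP N)⁻¹} :=
    Subgroup.subset_closure (Set.mem_insert_of_mem _ rfl)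
  have hmul : ∀ a b : SL(2, ℤ), (MulAction.toPerm (a * b) : Perm (PN N))
      = MulAction.toPerm a * MulAction.toPerm b := fun a b =>
    map_mul (MulAction.toPermHom SL(2, ℤ) (PN N)) a b
  have hh : h ∈ Subgroup.closure ({ModularGroup.S, ModularGroup.T} : Set SL(2, ℤ)) := by
    rw [SpecialLinearGroup.SL2Z_generators]; exact Subgroup.mem_top h
  induction hh using Subgroup.closure_induction with
  | mem x hx =>
    rcases hx with rfl | hx
    · have := Subgroup.inv_mem _ hs
      rwa [inv_inv] at this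
    · rw [Set.mem_singleton_iff] at hx; subst hx
      have e : (tP N) = (sP N)⁻¹ * ((uP N)⁻¹)⁻¹ := by
        rw [inv_inv]
        show MulAction.toPerm ModularGroup.T = (MulAction.toPerm ModularGroup.S)⁻¹
          * MulAction.toPerm (ModularGroup.S * ModularGroup.T)
        rw [hmul, ← mul_assoc, inv_mul_cancel, one_mul]
      show tP N ∈ _
      rw [e]
      exact Subgroup.mul_mem _ hs (Subgroup.inv_mem _ hu)
  | one => rw [MulAction.toPerm_one]; exact Subgroup.one_mem _
  | mul x y _ _ hx hy => rw [hmul]; exact Subgroup.mul_mem _ hx hy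
  | inv x _ hx =>
    have : (MulAction.toPerm x⁻¹ : Perm (PN N)) = (MulAction.toPerm x)⁻¹ :=
      map_inv (MulAction.toPermHom SL(2, ℤ) (PN N)) x
    rw [this]; exact Subgroup.inv_mem _ hx

/-- **Dimension bound for the parabolic cohomology of `Γ₀(N)`**. -/
theorem finrank_parabolicHoms_le (N : ℕ) [NeZero N] :
    FiniteDimensional ℂ (parabolicHoms ℂ (Gamma0 N) ℂ) ∧
    (Module.finrank ℂ (parabolicHoms ℂ (Gamma0 N) ℂ) : ℤ) + orbitCount (sP N)
      + orbitCount (uP N) + orbitCount (tP N) ≤ Fintype.card (PN N) + 2 := by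
  have hWfin : FiniteDimensional ℂ (WSub N) := FiniteDimensional.of_injective (qMap N) (qMap_injective N)
  have hPfin : FiniteDimensional ℂ (parabolicHoms ℂ (Gamma0 N) ℂ) :=
    Module.Finite.of_surjective (pMap N) (pMap_surjective N)
  refine ⟨hPfin, ?_⟩
  have htr : ∀ i j : PN N, ∃ g ∈ Subgroup.closure {(sP N)⁻¹, (uP N)⁻¹}, g i = j := by
    intro i j
    obtain ⟨a, rfl⟩ := QuotientGroup.mk_surjective i
    obtain ⟨b, rfl⟩ := QuotientGroup.mk_surjective j
    refine ⟨MulAction.toPerm (b * a⁻¹), toPerm_mem_closure N _, ?_⟩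
    show (QuotientGroup.mk (b * a⁻¹ * a) : PN N) = _
    rw [inv_mul_cancel_right]
  have hne : Nonempty (PN N) := ⟨QuotientGroup.mk 1⟩
  have h1 := finrank_antiSub_le (sP N)⁻¹ (uP N)⁻¹ htr
  rw [orbitCount_inv, orbitCount_inv] at h1
  have h2 : Module.finrank ℂ (WSub N) ≤ Module.finrank ℂ (antiSub (sP N)⁻¹ (uP N)⁻¹) + 1 := by
    have := LinearMap.finrank_le_finrank_of_injective (qMap_injective N)
    rwa [Module.finrank_prod, Module.finrank_self] at this
  have h3 := LinearMap.finrank_range_add_finrank_ker (pMap N)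
  rw [LinearMap.range_eq_top.mpr (pMap_surjective N), finrank_top] at h3
  have h4 : orbitCount (tP N) ≤ Module.finrank ℂ (LinearMap.ker (pMap N)) := by
    have := LinearMap.finrank_le_finrank_of_injective (kMap_injective N)
    rwa [finrank_invSub] at this
  omega

end Main

end Fermat.Agent.ES
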