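import Mathlib
import Fermat.Prelude.Def_AlgebraicCurve_CanonicalDivisor

set_option autoImplicit false

/-!
# T24 interface: local uniformisation data for a function field `F/K` over the `x`-line

`LocalData K F x a I` packages a family, indexed by the finite type `I` (of cardinality
`[F : K(x)]`), of distinct embeddings of `F` into `LaurentSeries ℂ`
(all with the same restriction to `K(x)`), in which `x - a` has order `e ≥ 1`, together with
a permutation `ρ` of the index set realising the substitution `w ↦ ζ w` (`ζ` a primitive
`e`-th root of unity).  The places of `F/K` above `x = a` are then in bijection with the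
`ρ`-orbits, the ramification index being the orbit size.
-/

noncomputable section

namespace Fermat.Agent.FF

open AlgebraicCurve

universe u v

/-- number of orbits (cycles, fixed points included) of a permutation -/
def orbitCount {I : Type} (ρ : Equiv.Perm I) : ℕ :=
  Nat.card (Quotient (Equiv.Perm.SameCycle.setoid ρ))

structure LocalData (K : Type u) (F : Type v) [Field K] [Field F] [Algebra K F]
    (x : F) (a : K) (I : Type) [Fintype I] where
  /-- the embedding of the constants -/
  φ : K →+* ℂ
  /-- the embeddings -/
  ι : I → (F →+* LaurentSeries ℂ)
  ι_algebraMap : ∀ k c, ι k (algebraMap K F c) = HahnSeries.C (φ c)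
  ι_injective : Function.Injective ι
  /-- common value of the embeddings on `x` -/
  ξ : LaurentSeries ℂ
  ι_x : ∀ k, ι k x = ξ
  /-- the order of `x - a` in the local coordinate -/
  e : ℕ
  e_pos : 0 < e
  ξ_ne : ξ - HahnSeries.C (φ a) ≠ 0
  order_ξ : (ξ - HahnSeries.C (φ a)).order = (e : ℤ)
  /-- the root of unity of the local monodromy -/
  ζ : ℂ
  ζ_prim : IsPrimitiveRoot ζ e
  /-- the permutation of the embeddings induced by `w ↦ ζ w` -/
  ρ : Equiv.Perm I
  ι_ρ : ∀ k f (m : ℤ), (ι (ρ k) f).coeff m = ζ ^ m * (ι k f).coeff m

namespace LocalData

variable {K : Type u} {F : Type v} [Field K] [Field F] [Algebra K F] {x : F} {a : K}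
  {I : Type} [Fintype I]

/-- number of `ρ`-orbits = number of places above `x = a` -/
def orbits (L : LocalData K F x a I) : ℕ := orbitCount L.ρ

end LocalData

end Fermat.Agent.FF
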