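import Mathlib
import Fermat.Agent.Lib.FF_Defs
import Fermat.Prelude.Def_ModularCurve_GenusNumerics

set_option autoImplicit false

/-!
# T24 [E]: combinatorics of the coset space `SL(2, ℤ) ⧸ Γ₀(N)`

Main results (namespace `Fermat.Agent.MC`), all stated for the coset space with the
left-multiplication action and the permutations `MulAction.toPerm S`, `MulAction.toPerm T`,
`MulAction.toPerm (S * T)`:

* `comb_card_PN : Nat.card (SL(2, ℤ) ⧸ Gamma0 N) = dedekindPsi N`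
* `comb_orbitCount_sP : 2 * orbitCount (toPerm S) = dedekindPsi N + nuTwo N`
* `comb_orbitCount_uP : 3 * orbitCount (toPerm (S * T)) = dedekindPsi N + 2 * nuThree N`
* `comb_orbitCount_tP : orbitCount (toPerm T) = cuspCount N`
* `comb_euler_PN : ∃ g : ℕ, card - orbits S - orbits (S * T) - orbits T + 2 = 2 * g`

General tools: `comb_orbitCount_prime` (orbits of a permutation of prime order),
`comb_ree_bound` (three permutations with `s * u = t` generating a transitive group: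
the Euler characteristic `n - c(s) - c(u) - c(t) + 2` is even and nonnegative),
`comb_sign_eq` (sign of a permutation in terms of the number of its orbits).
-/

noncomputable section

namespace Fermat.Agent.MC

open ModularCurve Fermat.Agent.FF CongruenceSubgroup
open scoped MatrixGroups

lemma comb_sameCycle_fixed {I : Type} (ρ : Equiv.Perm I) {x y : I} (hx : ρ x = x)
    (h : ρ.SameCycle x y) : y = x := by
  obtain ⟨i, hi⟩ := h
  rw [← hi, Equiv.Perm.zpow_apply_eq_self_of_apply_eq_self hx]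

lemma comb_card_sameCycle {I : Type} [Fintype I] (ρ : Equiv.Perm I) (p : ℕ) (hp : p.Prime)
    (hρ : ρ ^ p = 1) (x : I) (hx : ρ x ≠ x) :
    Nat.card {y : I // ρ.SameCycle x y} = p := by
  have hper : Function.IsPeriodicPt ρ p x := by
    rw [Function.IsPeriodicPt, Function.IsFixedPt, Equiv.Perm.iterate_eq_pow, hρ]; rfl
  have key : ∀ i j : ℕ, i ≤ j → j < p → (ρ ^ i) x = (ρ ^ j) x → i = j := by
    intro i j hij hj h
    by_contra hne
    have hlt : i < j := lt_of_le_of_ne hij hne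
    have h2 : (ρ ^ (j - i)) x = x := by
      have : ρ ^ j = ρ ^ i * ρ ^ (j - i) := by rw [← pow_add]; congr 1; omega
      rw [this, Equiv.Perm.mul_apply] at h
      exact ((ρ ^ i).injective h).symm
    have hper2 : Function.IsPeriodicPt ρ (j - i) x := by
      rw [Function.IsPeriodicPt, Function.IsFixedPt, Equiv.Perm.iterate_eq_pow]; exact h2
    have hd1 := hper.minimalPeriod_dvd
    have hd2 := hper2.minimalPeriod_dvd
    have hcop : Nat.Coprime p (j - i) := by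
      rw [Nat.Prime.coprime_iff_not_dvd hp]
      exact Nat.not_dvd_of_pos_of_lt (by omega) (by omega)
    have h1 : Function.minimalPeriod ρ x = 1 := Nat.eq_one_of_dvd_coprimes hcop hd1 hd2
    rw [Function.minimalPeriod_eq_one_iff_isFixedPt] at h1
    exact hx h1
  have hbij : Function.Bijective (fun i : Fin p =>
      (⟨(ρ ^ (i : ℕ)) x, ⟨((i : ℕ) : ℤ), by simp⟩⟩ : {y : I // ρ.SameCycle x y})) := by
    constructor
    · intro i j hij
      have hij' : (ρ ^ (i : ℕ)) x = (ρ ^ (j : ℕ)) x := congrArg Subtype.val hij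
      rcases le_total (i : ℕ) (j : ℕ) with h | h
      · exact Fin.ext (key _ _ h j.2 hij')
      · exact Fin.ext (key _ _ h i.2 hij'.symm).symm
    · rintro ⟨y, k, hk⟩
      have hp0 : (p : ℤ) ≠ 0 := by exact_mod_cast hp.ne_zero
      have hnn : 0 ≤ k % (p : ℤ) := Int.emod_nonneg _ hp0
      have hlt : k % (p : ℤ) < p := Int.emod_lt_of_pos _ (by exact_mod_cast hp.pos)
      refine ⟨⟨(k % (p : ℤ)).toNat, by omega⟩, ?_⟩
      apply Subtype.ext
      show (ρ ^ ((k % (p : ℤ)).toNat)) x = y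
      rw [← hk, zpow_eq_zpow_emod' k hρ, ← zpow_natCast, Int.toNat_of_nonneg hnn]
  rw [← Nat.card_congr (Equiv.ofBijective _ hbij), Nat.card_fin]

/-- orbits of a permutation of prime order -/
lemma comb_orbitCount_prime {I : Type} [Fintype I] (ρ : Equiv.Perm I) (p : ℕ) (hp : p.Prime)
    (hρ : ρ ^ p = 1) :
    p * orbitCount ρ = Fintype.card I + (p - 1) * Nat.card {x : I // ρ x = x} := by
  classical
  let Q := Quotient (Equiv.Perm.SameCycle.setoid ρ)
  letI : Fintype Q := Fintype.ofFinite Q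
  have h1 : orbitCount ρ = Fintype.card Q := Nat.card_eq_fintype_card
  have h2 : Fintype.card I = ∑ q : Q, Fintype.card {x : I // (Quotient.mk _ x : Q) = q} := by
    rw [← Fintype.card_sigma]
    exact Fintype.card_congr
      (Equiv.sigmaFiberEquiv (Quotient.mk (Equiv.Perm.SameCycle.setoid ρ))).symm
  have h3 : ∀ q : Q, Fintype.card {x : I // (Quotient.mk _ x : Q) = q}
      = if ρ q.out = q.out then 1 else p := by
    intro q
    have hq : ∀ y : I, (Quotient.mk _ y : Q) = q ↔ ρ.SameCycle q.out y := by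
      intro y
      conv_lhs => rw [← Quotient.out_eq q]
      rw [Quotient.eq]
      exact ⟨fun h => h.symm, fun h => h.symm⟩
    rw [← Nat.card_eq_fintype_card, Nat.card_congr (Equiv.subtypeEquivRight hq)]
    split_ifs with h
    · rw [Nat.card_eq_one_iff_unique]
      exact ⟨⟨fun a b => Subtype.ext ((comb_sameCycle_fixed ρ h a.2).trans
        (comb_sameCycle_fixed ρ h b.2).symm)⟩, ⟨⟨q.out, Equiv.Perm.SameCycle.refl _ _⟩⟩⟩
    · exact comb_card_sameCycle ρ p hp hρ _ h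
  have h4 : Nat.card {x : I // ρ x = x} = (Finset.univ.filter (fun q : Q => ρ q.out = q.out)).card := by
    rw [← Fintype.card_subtype, ← Nat.card_eq_fintype_card]
    refine Nat.card_congr (Equiv.ofBijective
      (fun x => ⟨(Quotient.mk _ x.1 : Q), ?_⟩) ⟨?_, ?_⟩)
    · have : (Quotient.mk (Equiv.Perm.SameCycle.setoid ρ) x.1).out = x.1 := by
        have h := Quotient.mk_out (s := Equiv.Perm.SameCycle.setoid ρ) x.1
        exact comb_sameCycle_fixed ρ x.2 (Equiv.Perm.SameCycle.symm h)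
      rw [this]; exact x.2
    · intro x y hxy
      have h : (Quotient.mk (Equiv.Perm.SameCycle.setoid ρ) x.1) = Quotient.mk _ y.1 :=
        congrArg Subtype.val hxy
      rw [Quotient.eq] at h
      exact Subtype.ext (comb_sameCycle_fixed ρ x.2 h).symm
    · rintro ⟨q, hq⟩
      exact ⟨⟨q.out, hq⟩, Subtype.ext (Quotient.out_eq q)⟩
  have h5 : Fintype.card Q = (Finset.univ.filter (fun q : Q => ρ q.out = q.out)).card
      + (Finset.univ.filter (fun q : Q => ¬ ρ q.out = q.out)).card := by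
    rw [Finset.card_filter_add_card_filter_not, Finset.card_univ]
  have h6 : Fintype.card I = (Finset.univ.filter (fun q : Q => ρ q.out = q.out)).card
      + p * (Finset.univ.filter (fun q : Q => ¬ ρ q.out = q.out)).card := by
    rw [h2, Finset.sum_congr rfl (fun q _ => h3 q), Finset.sum_ite]
    simp [mul_comm]
  rw [h1, h5, h6, h4]
  have hp1 : 1 ≤ p := hp.one_lt.le
  obtain ⟨k, rfl⟩ : ∃ k, p = k + 1 := ⟨p - 1, by omega⟩
  simp only [Nat.add_sub_cancel]
  ring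

section Ree

variable {I : Type} [Fintype I]

/-- the permutation operator on functions -/
def comb_L (σ : Equiv.Perm I) : (I → ℚ) →ₗ[ℚ] (I → ℚ) := LinearMap.funLeft ℚ ℚ σ

lemma comb_L_apply (σ : Equiv.Perm I) (f : I → ℚ) (i : I) : comb_L σ f i = f (σ i) := rfl

lemma comb_finrank_ker (σ : Equiv.Perm I) :
    Module.finrank ℚ (LinearMap.ker (LinearMap.id - comb_L σ)) = orbitCount σ := by
  classical
  let Q := Quotient (Equiv.Perm.SameCycle.setoid σ)
  letI : Fintype Q := Fintype.ofFinite Q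
  let Φ : (Q → ℚ) →ₗ[ℚ] (I → ℚ) := LinearMap.funLeft ℚ ℚ (Quotient.mk _)
  have hinj : Function.Injective Φ :=
    LinearMap.funLeft_injective_of_surjective ℚ ℚ _ Quotient.mk_surjective
  have hrange : LinearMap.range Φ = LinearMap.ker (LinearMap.id - comb_L σ) := by
    ext f
    simp only [LinearMap.mem_range, LinearMap.mem_ker, LinearMap.sub_apply, LinearMap.id_apply,
      sub_eq_zero]
    constructor
    · rintro ⟨g, rfl⟩
      ext i
      show g (Quotient.mk _ i) = g (Quotient.mk _ (σ i))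
      congr 1
      exact Quotient.sound (⟨1, by simp⟩ : σ.SameCycle i (σ i))
    · intro hf
      have hf' : ∀ i, f (σ i) = f i := fun i => (congrFun hf i).symm
      have hz : ∀ (k : ℤ) (i : I), f ((σ ^ k) i) = f i := by
        intro k
        induction k using Int.induction_on with
        | zero => intro i; simp
        | succ k ih => intro i; rw [zpow_add_one, Equiv.Perm.mul_apply, ih, hf']
        | pred k ih =>
          intro i
          rw [zpow_sub_one, Equiv.Perm.mul_apply, ih]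
          have := hf' (σ.symm i)
          rw [Equiv.apply_symm_apply] at this
          exact this.symm
      refine ⟨Quotient.lift f (fun a b hab => ?_), ?_⟩
      · obtain ⟨k, hk⟩ := hab
        rw [← hk, hz]
      · ext i; rfl
  have h1 : orbitCount σ = Fintype.card Q := Nat.card_eq_fintype_card
  rw [← hrange, LinearMap.finrank_range_of_inj hinj, Module.finrank_fintype_fun_eq_card, h1]

lemma comb_finrank_range (σ : Equiv.Perm I) :
    Module.finrank ℚ (LinearMap.range (LinearMap.id - comb_L σ)) + orbitCount σ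
      = Fintype.card I := by
  rw [← comb_finrank_ker σ, LinearMap.finrank_range_add_finrank_ker,
    Module.finrank_fintype_fun_eq_card]

lemma comb_single_comp (σ : Equiv.Perm I) [DecidableEq I] (i : I) :
    comb_L σ (Pi.single (σ i) (1 : ℚ)) = Pi.single i (1 : ℚ) := by
  ext j
  rw [comb_L_apply]
  by_cases h : j = i
  · subst h; simp
  · rw [Pi.single_eq_of_ne h, Pi.single_eq_of_ne]
    exact fun h' => h (σ.injective h')

lemma comb_ree_ineq [Nonempty I] (s u : Equiv.Perm I)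
    (htr : ∀ i j : I, ∃ g ∈ Subgroup.closure ({s, u} : Set (Equiv.Perm I)), g i = j) :
    orbitCount s + orbitCount u + orbitCount (s * u) ≤ Fintype.card I + 2 := by
  classical
  set A : (I → ℚ) →ₗ[ℚ] (I → ℚ) := LinearMap.id - comb_L s with hA_def
  set B : (I → ℚ) →ₗ[ℚ] (I → ℚ) := LinearMap.id - comb_L u with hB_def
  set C : (I → ℚ) →ₗ[ℚ] (I → ℚ) := LinearMap.id - comb_L (s * u) with hC_def
  have hC : ∀ v, C v = B v + comb_L u (A v) := by
    intro v
    ext i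
    simp only [hA_def, hB_def, hC_def, LinearMap.sub_apply, LinearMap.id_apply, Pi.sub_apply,
      Pi.add_apply, comb_L_apply, Equiv.Perm.mul_apply]
    ring
  have hBA : ∀ w, B w + comb_L u w = w := by
    intro w
    ext i
    simp only [hB_def, LinearMap.sub_apply, LinearMap.id_apply, Pi.sub_apply, Pi.add_apply,
      comb_L_apply]
    ring
  let δ : (LinearMap.range A × LinearMap.range B × LinearMap.range C) →ₗ[ℚ] (I → ℚ) :=
    (LinearMap.range B).subtype ∘ₗ (LinearMap.fst ℚ _ _) ∘ₗ (LinearMap.snd ℚ _ _)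
    + comb_L u ∘ₗ (LinearMap.range A).subtype ∘ₗ (LinearMap.fst ℚ _ _)
    - (LinearMap.range C).subtype ∘ₗ (LinearMap.snd ℚ _ _) ∘ₗ (LinearMap.snd ℚ _ _)
  have hδ : ∀ x : LinearMap.range A × LinearMap.range B × LinearMap.range C,
      δ x = (x.2.1 : I → ℚ) + comb_L u (x.1 : I → ℚ) - (x.2.2 : I → ℚ) := fun x => rfl
  let β : (I → ℚ) →ₗ[ℚ] (LinearMap.range A × LinearMap.range B × LinearMap.range C) :=
    LinearMap.prod A.rangeRestrict (LinearMap.prod B.rangeRestrict C.rangeRestrict)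
  have hδβ : ∀ v, δ (β v) = 0 := by
    intro v
    rw [hδ]
    show B v + comb_L u (A v) - C v = 0
    rw [hC, sub_self]
  -- rank-nullity for δ
  have h1 : Module.finrank ℚ (LinearMap.range δ) + Module.finrank ℚ (LinearMap.ker δ)
      = Module.finrank ℚ (LinearMap.range A) + (Module.finrank ℚ (LinearMap.range B)
        + Module.finrank ℚ (LinearMap.range C)) := by
    rw [LinearMap.finrank_range_add_finrank_ker, Module.finrank_prod, Module.finrank_prod]
  have h2 : Module.finrank ℚ (LinearMap.range β) ≤ Module.finrank ℚ (LinearMap.ker δ) := by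
    apply Submodule.finrank_mono
    rintro _ ⟨v, rfl⟩
    exact hδβ v
  have h3 : Module.finrank ℚ (LinearMap.range β) + Module.finrank ℚ (LinearMap.ker β)
      = Fintype.card I := by
    rw [LinearMap.finrank_range_add_finrank_ker, Module.finrank_fintype_fun_eq_card]
  -- invariant functions are constant
  have hconst : ∀ v : I → ℚ, A v = 0 → B v = 0 → ∀ i j, v i = v j := by
    intro v hAv hBv
    have hs : ∀ i, v (s i) = v i := by
      intro i
      have := congrFun hAv i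
      simp only [hA_def, LinearMap.sub_apply, LinearMap.id_apply, Pi.sub_apply, comb_L_apply,
        Pi.zero_apply] at this
      linarith
    have hu : ∀ i, v (u i) = v i := by
      intro i
      have := congrFun hBv i
      simp only [hB_def, LinearMap.sub_apply, LinearMap.id_apply, Pi.sub_apply, comb_L_apply,
        Pi.zero_apply] at this
      linarith
    have hcl : ∀ g ∈ Subgroup.closure ({s, u} : Set (Equiv.Perm I)), ∀ i, v (g i) = v i := by
      intro g hg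
      induction hg using Subgroup.closure_induction with
      | mem x hx =>
        rcases hx with rfl | rfl
        · exact hs
        · exact hu
      | one => intro i; rfl
      | mul x y _ _ hx hy => intro i; rw [Equiv.Perm.mul_apply, hx, hy]
      | inv x _ hx =>
        intro i
        have := hx (x.symm i)
        rw [Equiv.apply_symm_apply] at this
        exact this.symm
    intro i j
    obtain ⟨g, hg, rfl⟩ := htr i j
    exact (hcl g hg i).symm
  have h4 : Module.finrank ℚ (LinearMap.ker β) ≤ 1 := by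
    obtain ⟨i₀⟩ := ‹Nonempty I›
    have hle : LinearMap.ker β ≤ Submodule.span ℚ {(fun _ => 1 : I → ℚ)} := by
      intro v hv
      rw [LinearMap.mem_ker] at hv
      have hv1 : A v = 0 := congrArg Subtype.val (congrArg Prod.fst hv)
      have hv2 : B v = 0 := congrArg Subtype.val (congrArg Prod.fst (congrArg Prod.snd hv))
      rw [Submodule.mem_span_singleton]
      refine ⟨v i₀, ?_⟩
      ext j
      simp only [Pi.smul_apply, smul_eq_mul, mul_one]
      exact hconst v hv1 hv2 i₀ j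
    refine (Submodule.finrank_mono hle).trans ?_
    rw [finrank_span_singleton]
    intro h0
    have := congrFun h0 i₀
    simp at this
  -- the range of δ contains all sum-zero functions
  have hB_mem : ∀ v, B v ∈ LinearMap.range δ := by
    intro v
    refine ⟨(0, ⟨B v, LinearMap.mem_range_self B v⟩, 0), ?_⟩
    rw [hδ]
    simp
  have hA_mem : ∀ v, A v ∈ LinearMap.range δ := by
    intro v
    refine ⟨(⟨A v, LinearMap.mem_range_self A v⟩,
      ⟨B (A v), LinearMap.mem_range_self B (A v)⟩, 0), ?_⟩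
    rw [hδ]
    simp only [Submodule.coe_zero, sub_zero]
    exact hBA (A v)
  have hs_mem : ∀ i, (Pi.single (s i) (1 : ℚ) - Pi.single i (1 : ℚ) : I → ℚ)
      ∈ LinearMap.range δ := by
    intro i
    have := hA_mem (Pi.single (s i) (1 : ℚ))
    simpa only [hA_def, LinearMap.sub_apply, LinearMap.id_apply, comb_single_comp] using this
  have hu_mem : ∀ i, (Pi.single (u i) (1 : ℚ) - Pi.single i (1 : ℚ) : I → ℚ)
      ∈ LinearMap.range δ := by
    intro i
    have := hB_mem (Pi.single (u i) (1 : ℚ))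
    simpa only [hB_def, LinearMap.sub_apply, LinearMap.id_apply, comb_single_comp] using this
  have hcl_mem : ∀ g ∈ Subgroup.closure ({s, u} : Set (Equiv.Perm I)), ∀ i,
      (Pi.single (g i) (1 : ℚ) - Pi.single i (1 : ℚ) : I → ℚ) ∈ LinearMap.range δ := by
    intro g hg
    induction hg using Subgroup.closure_induction with
    | mem x hx =>
      rcases hx with rfl | rfl
      · exact hs_mem
      · exact hu_mem
    | one => intro i; simp
    | mul x y _ _ hx hy =>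
      intro i
      have := Submodule.add_mem _ (hx (y i)) (hy i)
      rw [Equiv.Perm.mul_apply]
      convert this using 1
      abel
    | inv x _ hx =>
      intro i
      have := Submodule.neg_mem _ (hx (x.symm i))
      rw [Equiv.apply_symm_apply] at this
      convert this using 1
      rw [neg_sub]
      rfl
  have hsum_mem : ∀ f : I → ℚ, ∑ i, f i = 0 → f ∈ LinearMap.range δ := by
    intro f hf
    obtain ⟨i₀⟩ := ‹Nonempty I›
    have hdecomp : f = ∑ i, f i • (Pi.single i (1 : ℚ) - Pi.single i₀ (1 : ℚ) : I → ℚ) := by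
      simp only [smul_sub, Finset.sum_sub_distrib, ← Finset.sum_smul, hf, zero_smul, sub_zero]
      ext j
      simp [Finset.sum_apply, Pi.single_apply]
    rw [hdecomp]
    refine Submodule.sum_mem _ (fun i _ => Submodule.smul_mem _ _ ?_)
    obtain ⟨g, hg, hgi⟩ := htr i₀ i
    rw [← hgi]
    exact hcl_mem g hg i₀
  have h5 : Fintype.card I ≤ Module.finrank ℚ (LinearMap.range δ) + 1 := by
    let sumL : (I → ℚ) →ₗ[ℚ] ℚ := ∑ i, LinearMap.proj i
    have hsumL : ∀ f, sumL f = ∑ i, f i := by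
      intro f
      simp [sumL, LinearMap.sum_apply]
    have hker : LinearMap.ker sumL ≤ LinearMap.range δ := by
      intro f hf
      rw [LinearMap.mem_ker, hsumL] at hf
      exact hsum_mem f hf
    have hrn : Module.finrank ℚ (LinearMap.range sumL) + Module.finrank ℚ (LinearMap.ker sumL)
        = Fintype.card I := by
      rw [LinearMap.finrank_range_add_finrank_ker, Module.finrank_fintype_fun_eq_card]
    have hr1 : Module.finrank ℚ (LinearMap.range sumL) ≤ 1 := by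
      have := Submodule.finrank_le (LinearMap.range sumL)
      rwa [Module.finrank_self] at this
    have := Submodule.finrank_mono hker
    omega
  have e1 : Module.finrank ℚ (LinearMap.range A) + orbitCount s = Fintype.card I :=
    comb_finrank_range s
  have e2 : Module.finrank ℚ (LinearMap.range B) + orbitCount u = Fintype.card I :=
    comb_finrank_range u
  have e3 : Module.finrank ℚ (LinearMap.range C) + orbitCount (s * u) = Fintype.card I :=
    comb_finrank_range (s * u)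
  omega

lemma comb_orbitCount_eq [DecidableEq I] (ρ : Equiv.Perm I) :
    orbitCount ρ + ρ.support.card = Multiset.card ρ.cycleType + Fintype.card I := by
  have hne : ∀ c : ρ.cycleFactorsFinset, (c : Equiv.Perm I).support.Nonempty := fun c =>
    (Equiv.Perm.mem_cycleFactorsFinset_iff.mp c.2).1.nonempty_support
  have hmem : ∀ c : ρ.cycleFactorsFinset, (hne c).choose ∈ (c : Equiv.Perm I).support :=
    fun c => (hne c).choose_spec
  have hcyc : ∀ c : ρ.cycleFactorsFinset, (c : Equiv.Perm I) = ρ.cycleOf (hne c).choose :=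
    fun c => Equiv.Perm.cycle_is_cycleOf (hmem c) c.2
  have hsupp : ∀ c : ρ.cycleFactorsFinset, ρ (hne c).choose ≠ (hne c).choose := fun c =>
    Equiv.Perm.mem_support.mp (Equiv.Perm.mem_cycleFactorsFinset_support_le c.2 (hmem c))
  let g : ρ.cycleFactorsFinset ⊕ {x : I // ρ x = x} →
      Quotient (Equiv.Perm.SameCycle.setoid ρ) :=
    Sum.elim (fun c => Quotient.mk _ (hne c).choose) (fun x => Quotient.mk _ x.1)
  have hbij : Function.Bijective g := by
    constructor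
    · rintro (c₁ | x₁) (c₂ | x₂) h
      · have h' : ρ.SameCycle (hne c₁).choose (hne c₂).choose := Quotient.exact h
        have : (c₁ : Equiv.Perm I) = c₂ := by
          rw [hcyc c₁, hcyc c₂]
          exact h'.cycleOf_eq
        exact congrArg Sum.inl (Subtype.ext this)
      · have h' : ρ.SameCycle (hne c₁).choose x₂.1 := Quotient.exact h
        have := comb_sameCycle_fixed ρ x₂.2 h'.symm
        exact absurd (this ▸ x₂.2) (hsupp c₁)
      · have h' : ρ.SameCycle x₁.1 (hne c₂).choose := Quotient.exact h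
        have := comb_sameCycle_fixed ρ x₁.2 h'
        exact absurd (this ▸ x₁.2) (hsupp c₂)
      · have h' : ρ.SameCycle x₁.1 x₂.1 := Quotient.exact h
        have := comb_sameCycle_fixed ρ x₁.2 h'
        exact congrArg Sum.inr (Subtype.ext this.symm)
    · intro q
      induction q using Quotient.inductionOn with
      | h x =>
        by_cases hx : ρ x = x
        · exact ⟨Sum.inr ⟨x, hx⟩, rfl⟩
        · have hxs : x ∈ ρ.support := Equiv.Perm.mem_support.mpr hx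
          refine ⟨Sum.inl ⟨ρ.cycleOf x, Equiv.Perm.cycleOf_mem_cycleFactorsFinset_iff.mpr hxs⟩, ?_⟩
          apply Quotient.sound
          have := hmem ⟨ρ.cycleOf x, Equiv.Perm.cycleOf_mem_cycleFactorsFinset_iff.mpr hxs⟩
          exact ((Equiv.Perm.mem_support_cycleOf_iff).mp this).1.symm
  have hcard : Nat.card (Quotient (Equiv.Perm.SameCycle.setoid ρ))
      = ρ.cycleFactorsFinset.card + Fintype.card {x : I // ρ x = x} := by
    rw [← Nat.card_congr (Equiv.ofBijective g hbij), Nat.card_eq_fintype_card, Fintype.card_sum,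
      Fintype.card_coe]
  have hfix : Fintype.card {x : I // ρ x = x} + ρ.support.card = Fintype.card I := by
    rw [Fintype.card_subtype]
    have h1 := Finset.card_filter_add_card_filter_not (s := (Finset.univ : Finset I))
      (fun x => ρ x = x)
    have h2 : ρ.support = Finset.univ.filter (fun x => ¬ ρ x = x) := by
      ext x
      simp [Equiv.Perm.mem_support]
    rw [h2, h1, Finset.card_univ]
  have hct : Multiset.card ρ.cycleType = ρ.cycleFactorsFinset.card := by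
    rw [Equiv.Perm.cycleType_def, Multiset.card_map]
    rfl
  unfold orbitCount
  omega

lemma comb_sign_eq [DecidableEq I] (ρ : Equiv.Perm I) :
    ((Equiv.Perm.sign ρ : ℤˣ) : ℤ) = (-1) ^ (Fintype.card I + orbitCount ρ) := by
  have h := comb_orbitCount_eq ρ
  rw [Equiv.Perm.sign_of_cycleType, Equiv.Perm.sum_cycleType]
  push_cast
  rw [neg_one_pow_eq_pow_mod_two, neg_one_pow_eq_pow_mod_two (n := Fintype.card I + orbitCount ρ)]
  congr 1
  omega

/-- Ree's theorem for three permutations: Euler characteristic is even and at most 2 -/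
theorem comb_ree_bound [Nonempty I] (s u t : Equiv.Perm I) (h : s * u = t)
    (htr : ∀ i j : I, ∃ g ∈ Subgroup.closure ({s, u} : Set (Equiv.Perm I)), g i = j) :
    ∃ g : ℕ, (Fintype.card I : ℤ) - orbitCount s - orbitCount u - orbitCount t + 2
      = 2 * (g : ℤ) := by
  classical
  subst h
  have hineq := comb_ree_ineq s u htr
  have hsign : ((Equiv.Perm.sign (s * u) : ℤˣ) : ℤ)
      = ((Equiv.Perm.sign s : ℤˣ) : ℤ) * ((Equiv.Perm.sign u : ℤˣ) : ℤ) := by
    rw [map_mul]; push_cast; rfl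
  rw [comb_sign_eq, comb_sign_eq, comb_sign_eq, ← pow_add] at hsign
  have hpar : (Fintype.card I + orbitCount (s * u)) % 2
      = (Fintype.card I + orbitCount s + (Fintype.card I + orbitCount u)) % 2 := by
    rw [neg_one_pow_eq_pow_mod_two,
      neg_one_pow_eq_pow_mod_two
        (n := Fintype.card I + orbitCount s + (Fintype.card I + orbitCount u))] at hsign
    rcases Nat.mod_two_eq_zero_or_one (Fintype.card I + orbitCount (s * u)) with h1 | h1 <;>
    rcases Nat.mod_two_eq_zero_or_one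
      (Fintype.card I + orbitCount s + (Fintype.card I + orbitCount u)) with h2 | h2 <;>
    rw [h1, h2] at hsign <;> simp at hsign <;> omega
  refine ⟨(Fintype.card I + 2 - (orbitCount s + orbitCount u + orbitCount (s * u))) / 2, ?_⟩
  omega

end Ree

/-- coset criterion: the first columns are proportional mod `N` -/
lemma comb_mk_eq_iff (N : ℕ) (γ₁ γ₂ : SL(2, ℤ)) :
    (QuotientGroup.mk γ₁ : SL(2, ℤ) ⧸ Gamma0 N) = QuotientGroup.mk γ₂ ↔
      (N : ℤ) ∣ γ₁ 0 0 * γ₂ 1 0 - γ₁ 1 0 * γ₂ 0 0 := by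
  rw [QuotientGroup.eq, Gamma0_mem, ← ZMod.intCast_zmod_eq_zero_iff_dvd]
  have : (γ₁⁻¹ * γ₂) 1 0 = γ₁ 0 0 * γ₂ 1 0 - γ₁ 1 0 * γ₂ 0 0 := by
    rw [Matrix.SpecialLinearGroup.coe_mul, Matrix.SpecialLinearGroup.coe_inv,
      Matrix.adjugate_fin_two, Matrix.mul_apply, Fin.sum_univ_two]
    simp
    ring
  rw [this]

lemma comb_toPerm_mk (N : ℕ) (g γ : SL(2, ℤ)) :
    (MulAction.toPerm g : Equiv.Perm (SL(2, ℤ) ⧸ Gamma0 N)) (QuotientGroup.mk γ)
      = QuotientGroup.mk (g * γ) := rfl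

lemma comb_S_mul_apply (γ : SL(2, ℤ)) :
    (ModularGroup.S * γ) 0 0 = - γ 1 0 ∧ (ModularGroup.S * γ) 1 0 = γ 0 0 := by
  constructor <;>
  · rw [Matrix.SpecialLinearGroup.coe_mul, ModularGroup.coe_S]
    simp [Matrix.mul_apply, Fin.sum_univ_two]

lemma comb_T_zpow_mul_apply (k : ℤ) (γ : SL(2, ℤ)) :
    (ModularGroup.T ^ k * γ) 0 0 = γ 0 0 + k * γ 1 0 ∧ (ModularGroup.T ^ k * γ) 1 0 = γ 1 0 := by
  constructor <;>
  simp [ModularGroup.coe_T_zpow, Matrix.SpecialLinearGroup.coe_mul, Matrix.mul_apply,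
    Fin.sum_univ_two]

lemma comb_U_mul_apply (γ : SL(2, ℤ)) :
    (ModularGroup.S * ModularGroup.T * γ) 0 0 = - γ 1 0 ∧
    (ModularGroup.S * ModularGroup.T * γ) 1 0 = γ 0 0 + γ 1 0 := by
  constructor <;>
  · rw [Matrix.SpecialLinearGroup.coe_mul, Matrix.SpecialLinearGroup.coe_mul, ModularGroup.coe_S,
      ModularGroup.coe_T]
    simp [Matrix.mul_apply, Fin.sum_univ_two]

/-- the first column of an element of `SL(2, ℤ)` is coprime -/
lemma comb_isCoprime_col (γ : SL(2, ℤ)) : IsCoprime (γ 0 0) (γ 1 0) := by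
  have h := γ.det_coe
  rw [Matrix.det_fin_two] at h
  exact ⟨γ 1 1, - γ 0 1, by linarith⟩

/-- a matrix with prescribed coprime first column -/
lemma comb_exists_col (a c : ℤ) (h : IsCoprime a c) : ∃ γ : SL(2, ℤ), γ 0 0 = a ∧ γ 1 0 = c := by
  obtain ⟨u, v, huv⟩ := h
  exact ⟨⟨!![a, -v; c, u], by rw [Matrix.det_fin_two_of]; linarith⟩, rfl, rfl⟩

/-- the lower unipotent matrix -/
def comb_low (x : ℤ) : SL(2, ℤ) := ⟨!![1, 0; x, 1], by simp [Matrix.det_fin_two_of]⟩

lemma comb_low_apply (x : ℤ) : (comb_low x) 0 0 = 1 ∧ (comb_low x) 1 0 = x := ⟨rfl, rfl⟩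

section Fixed

variable (N : ℕ) [NeZero N]

lemma comb_mk_low_inj (x y : ZMod N)
    (h : (QuotientGroup.mk (comb_low (x.val : ℤ)) : SL(2, ℤ) ⧸ Gamma0 N)
      = QuotientGroup.mk (comb_low (y.val : ℤ))) : x = y := by
  rw [comb_mk_eq_iff, (comb_low_apply _).1, (comb_low_apply _).2, (comb_low_apply _).1,
    (comb_low_apply _).2, ← ZMod.intCast_zmod_eq_zero_iff_dvd] at h
  push_cast at h
  rw [ZMod.natCast_zmod_val, ZMod.natCast_zmod_val] at h
  linear_combination -h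

lemma comb_fixed_surj (γ : SL(2, ℤ)) (k : ℤ)
    (h : (N : ℤ) ∣ γ 0 0 ^ 2 + k * γ 0 0 * γ 1 0 + γ 1 0 ^ 2) :
    ∃ x : ZMod N, x ^ 2 + k * x + 1 = 0 ∧
      (QuotientGroup.mk (comb_low (x.val : ℤ)) : SL(2, ℤ) ⧸ Gamma0 N) = QuotientGroup.mk γ := by
  have hc : IsCoprime (γ 0 0) (γ 1 0) := comb_isCoprime_col γ
  have h1 : IsCoprime (γ 0 0) (γ 0 0 ^ 2 + k * γ 0 0 * γ 1 0 + γ 1 0 ^ 2) := by
    have : γ 0 0 ^ 2 + k * γ 0 0 * γ 1 0 + γ 1 0 ^ 2
        = γ 1 0 ^ 2 + γ 0 0 * (γ 0 0 + k * γ 1 0) := by ring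
    rw [this]
    exact (hc.pow_right).add_mul_left_right _
  obtain ⟨u, v, huv⟩ := h1.of_isCoprime_of_dvd_right h
  have hua : (u : ZMod N) * (γ 0 0 : ZMod N) = 1 := by
    have := congrArg (Int.cast : ℤ → ZMod N) huv
    push_cast at this
    simpa using this
  have h0 : ((γ 0 0 : ZMod N)) ^ 2 + k * (γ 0 0 : ZMod N) * (γ 1 0 : ZMod N)
      + ((γ 1 0 : ZMod N)) ^ 2 = 0 := by
    have := (ZMod.intCast_zmod_eq_zero_iff_dvd _ N).mpr h
    push_cast at this
    exact this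
  refine ⟨(γ 1 0 : ZMod N) * u, ?_, ?_⟩
  · linear_combination (u : ZMod N) ^ 2 * h0
      - ((k : ZMod N) * (γ 1 0 : ZMod N) * (u : ZMod N) + 1
          + (u : ZMod N) * (γ 0 0 : ZMod N)) * hua
  · rw [comb_mk_eq_iff, (comb_low_apply _).1, (comb_low_apply _).2,
      ← ZMod.intCast_zmod_eq_zero_iff_dvd]
    push_cast
    rw [ZMod.natCast_zmod_val]
    linear_combination -(γ 1 0 : ZMod N) * hua

lemma comb_card_fixed_S :
    Nat.card {q : SL(2, ℤ) ⧸ Gamma0 N //
      (MulAction.toPerm ModularGroup.S : Equiv.Perm (SL(2, ℤ) ⧸ Gamma0 N)) q = q} = nuTwo N := by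
  rw [nuTwo]
  symm
  refine Nat.card_congr (Equiv.ofBijective
    (fun x => ⟨QuotientGroup.mk (comb_low (x.1.val : ℤ)), ?_⟩) ⟨?_, ?_⟩)
  · rw [comb_toPerm_mk, comb_mk_eq_iff, (comb_S_mul_apply _).1, (comb_S_mul_apply _).2,
      (comb_low_apply _).1, (comb_low_apply _).2, ← ZMod.intCast_zmod_eq_zero_iff_dvd]
    push_cast
    rw [ZMod.natCast_zmod_val]
    linear_combination - x.2
  · intro x y hxy
    exact Subtype.ext (comb_mk_low_inj N _ _ (congrArg Subtype.val hxy))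
  · rintro ⟨q, hq⟩
    induction q using QuotientGroup.induction_on with
    | H γ =>
      rw [comb_toPerm_mk, comb_mk_eq_iff, (comb_S_mul_apply _).1, (comb_S_mul_apply _).2] at hq
      obtain ⟨m, hm⟩ := hq
      obtain ⟨x, hx, hx2⟩ := comb_fixed_surj N γ 0 ⟨-m, by linear_combination -hm⟩
      exact ⟨⟨x, by simpa using hx⟩, Subtype.ext hx2⟩

lemma comb_card_fixed_U :
    Nat.card {q : SL(2, ℤ) ⧸ Gamma0 N //
      (MulAction.toPerm (ModularGroup.S * ModularGroup.T) :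
        Equiv.Perm (SL(2, ℤ) ⧸ Gamma0 N)) q = q} = nuThree N := by
  rw [nuThree]
  symm
  refine Nat.card_congr (Equiv.ofBijective
    (fun x => ⟨QuotientGroup.mk (comb_low (x.1.val : ℤ)), ?_⟩) ⟨?_, ?_⟩)
  · rw [comb_toPerm_mk, comb_mk_eq_iff, (comb_U_mul_apply _).1, (comb_U_mul_apply _).2,
      (comb_low_apply _).1, (comb_low_apply _).2, ← ZMod.intCast_zmod_eq_zero_iff_dvd]
    push_cast
    rw [ZMod.natCast_zmod_val]
    linear_combination - x.2
  · intro x y hxy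
    exact Subtype.ext (comb_mk_low_inj N _ _ (congrArg Subtype.val hxy))
  · rintro ⟨q, hq⟩
    induction q using QuotientGroup.induction_on with
    | H γ =>
      rw [comb_toPerm_mk, comb_mk_eq_iff, (comb_U_mul_apply _).1, (comb_U_mul_apply _).2] at hq
      obtain ⟨m, hm⟩ := hq
      obtain ⟨x, hx, hx2⟩ := comb_fixed_surj N γ 1 ⟨-m, by linear_combination -hm⟩
      exact ⟨⟨x, by simpa using hx⟩, Subtype.ext hx2⟩

lemma comb_sP_sq :
    (MulAction.toPerm ModularGroup.S : Equiv.Perm (SL(2, ℤ) ⧸ Gamma0 N)) ^ 2 = 1 := by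
  ext q
  induction q using QuotientGroup.induction_on with
  | H γ =>
    rw [pow_two, Equiv.Perm.mul_apply, comb_toPerm_mk, comb_toPerm_mk, Equiv.Perm.one_apply,
      comb_mk_eq_iff]
    simp only [(comb_S_mul_apply _).1, (comb_S_mul_apply _).2]
    exact ⟨0, by ring⟩

lemma comb_uP_cube :
    (MulAction.toPerm (ModularGroup.S * ModularGroup.T) :
      Equiv.Perm (SL(2, ℤ) ⧸ Gamma0 N)) ^ 3 = 1 := by
  ext q
  induction q using QuotientGroup.induction_on with
  | H γ =>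
    rw [pow_succ, pow_two, Equiv.Perm.mul_apply, Equiv.Perm.mul_apply, comb_toPerm_mk,
      comb_toPerm_mk, comb_toPerm_mk, Equiv.Perm.one_apply, comb_mk_eq_iff]
    simp only [(comb_U_mul_apply _).1, (comb_U_mul_apply _).2]
    exact ⟨0, by ring⟩

theorem comb_orbitCount_sP_aux :
    2 * orbitCount (MulAction.toPerm ModularGroup.S : Equiv.Perm (SL(2, ℤ) ⧸ Gamma0 N))
      = Nat.card (SL(2, ℤ) ⧸ Gamma0 N) + nuTwo N := by
  letI : Fintype (SL(2, ℤ) ⧸ Gamma0 N) := Subgroup.fintypeQuotientOfFiniteIndex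
  have h := comb_orbitCount_prime
    (MulAction.toPerm ModularGroup.S : Equiv.Perm (SL(2, ℤ) ⧸ Gamma0 N)) 2 Nat.prime_two
    (comb_sP_sq N)
  rw [comb_card_fixed_S, ← Nat.card_eq_fintype_card] at h
  simpa using h

theorem comb_orbitCount_uP_aux :
    3 * orbitCount (MulAction.toPerm (ModularGroup.S * ModularGroup.T) :
        Equiv.Perm (SL(2, ℤ) ⧸ Gamma0 N))
      = Nat.card (SL(2, ℤ) ⧸ Gamma0 N) + 2 * nuThree N := by
  letI : Fintype (SL(2, ℤ) ⧸ Gamma0 N) := Subgroup.fintypeQuotientOfFiniteIndex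
  have h := comb_orbitCount_prime
    (MulAction.toPerm (ModularGroup.S * ModularGroup.T) : Equiv.Perm (SL(2, ℤ) ⧸ Gamma0 N))
    3 Nat.prime_three (comb_uP_cube N)
  rw [comb_card_fixed_U, ← Nat.card_eq_fintype_card] at h
  simpa using h

end Fixed

lemma comb_zmod_unit_of_isCoprime (g : ℕ) (c M : ℤ) (hg : (g : ℤ) ∣ M) (h : IsCoprime c M) :
    (c : ZMod g) * (c : ZMod g)⁻¹ = 1 := by
  apply ZMod.mul_inv_of_unit
  obtain ⟨u, v, huv⟩ := h
  obtain ⟨m, rfl⟩ := hg
  have := congrArg (Int.cast : ℤ → ZMod g) huv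
  push_cast at this
  simp only [ZMod.natCast_self, zero_mul, mul_zero, add_zero] at this
  exact IsUnit.of_mul_eq_one _ (by rw [mul_comm]; exact this)

lemma comb_core (d M : ℕ) (hd : 0 < d) (a₁ a₂ c₁ c₂ : ℤ) (h₁ : IsCoprime c₁ (M : ℤ))
    (h₂ : IsCoprime c₂ (M : ℤ)) :
    (∃ k : ℤ, ((d * M : ℕ) : ℤ) ∣ (a₁ + k * (d * c₁)) * (d * c₂) - (d * c₁) * a₂) ↔
      (a₁ : ZMod (Nat.gcd d M)) * (c₁ : ZMod (Nat.gcd d M))⁻¹
        = (a₂ : ZMod (Nat.gcd d M)) * (c₂ : ZMod (Nat.gcd d M))⁻¹ := by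
  have hgM : ((Nat.gcd d M : ℕ) : ℤ) ∣ (M : ℤ) := Int.natCast_dvd_natCast.mpr (Nat.gcd_dvd_right d M)
  have hgd : ((Nat.gcd d M : ℕ) : ℤ) ∣ (d : ℤ) := Int.natCast_dvd_natCast.mpr (Nat.gcd_dvd_left d M)
  have hu₁ := comb_zmod_unit_of_isCoprime (Nat.gcd d M) c₁ M hgM h₁
  have hu₂ := comb_zmod_unit_of_isCoprime (Nat.gcd d M) c₂ M hgM h₂
  have hd0 : (d : ℤ) ≠ 0 := by exact_mod_cast hd.ne'
  have key : (a₁ : ZMod (Nat.gcd d M)) * (c₁ : ZMod (Nat.gcd d M))⁻¹
        = (a₂ : ZMod (Nat.gcd d M)) * (c₂ : ZMod (Nat.gcd d M))⁻¹ ↔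
      ((Nat.gcd d M : ℕ) : ℤ) ∣ a₁ * c₂ - c₁ * a₂ := by
    rw [← ZMod.intCast_zmod_eq_zero_iff_dvd]
    push_cast
    constructor
    · intro h
      linear_combination (c₁ : ZMod (Nat.gcd d M)) * (c₂ : ZMod (Nat.gcd d M)) * h
        - (a₁ : ZMod (Nat.gcd d M)) * (c₂ : ZMod (Nat.gcd d M)) * hu₁
        + (a₂ : ZMod (Nat.gcd d M)) * (c₁ : ZMod (Nat.gcd d M)) * hu₂
    · intro h
      linear_combination (c₁ : ZMod (Nat.gcd d M))⁻¹ * (c₂ : ZMod (Nat.gcd d M))⁻¹ * h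
        - (a₁ : ZMod (Nat.gcd d M)) * (c₁ : ZMod (Nat.gcd d M))⁻¹ * hu₂
        + (a₂ : ZMod (Nat.gcd d M)) * (c₂ : ZMod (Nat.gcd d M))⁻¹ * hu₁
  rw [key]
  constructor
  · rintro ⟨k, hk⟩
    have h1 : (d : ℤ) * (M : ℤ) ∣ (d : ℤ) * ((a₁ + k * (d * c₁)) * c₂ - c₁ * a₂) := by
      convert hk using 1
      · push_cast; ring
      · ring
    have h2 : (M : ℤ) ∣ (a₁ + k * (d * c₁)) * c₂ - c₁ * a₂ :=
      Int.dvd_of_mul_dvd_mul_left hd0 h1
    have h3 : ((Nat.gcd d M : ℕ) : ℤ) ∣ (a₁ + k * (d * c₁)) * c₂ - c₁ * a₂ := hgM.trans h2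
    have h4 : ((Nat.gcd d M : ℕ) : ℤ) ∣ (d : ℤ) * (k * c₁ * c₂) := Dvd.dvd.mul_right hgd _
    have h5 : a₁ * c₂ - c₁ * a₂
        = ((a₁ + k * (d * c₁)) * c₂ - c₁ * a₂) - (d : ℤ) * (k * c₁ * c₂) := by ring
    rw [h5]
    exact dvd_sub h3 h4
  · intro h
    obtain ⟨A', hA'⟩ := h
    have hbez : ((Nat.gcd d M : ℕ) : ℤ) = (d : ℤ) * Int.gcdA d M + (M : ℤ) * Int.gcdB d M := by
      rw [← Int.gcd_eq_gcd_ab]; simp [Int.gcd_natCast_natCast]
    obtain ⟨w, v, hwv⟩ := (h₁.mul_left h₂ : IsCoprime (c₁ * c₂) (M : ℤ))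
    refine ⟨-(Int.gcdA d M * A') * w, ⟨d * (Int.gcdA d M * A') * v + Int.gcdB d M * A', ?_⟩⟩
    push_cast
    have e1 : a₁ * c₂ - c₁ * a₂ = ((d : ℤ) * Int.gcdA d M + (M : ℤ) * Int.gcdB d M) * A' := by
      rw [hA', hbez]
    linear_combination (d : ℤ) * e1 - (d : ℤ) ^ 2 * (Int.gcdA d M * A') * hwv


lemma comb_card_quotient_eq {G X B : Type*} (r : Setoid X) (f : G → X)
    (hf : Function.Surjective f) (inv : G → B)
    (h : ∀ γ₁ γ₂, inv γ₁ = inv γ₂ ↔ r (f γ₁) (f γ₂)) :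
    Nat.card (Quotient r) = Nat.card (Set.range inv) := by
  symm
  refine Nat.card_congr (Equiv.ofBijective
    (fun b : Set.range inv => Quotient.mk r (f b.2.choose)) ⟨?_, ?_⟩)
  · intro b₁ b₂ hb
    have h1 : r (f b₁.2.choose) (f b₂.2.choose) := Quotient.exact hb
    have h2 := (h _ _).mpr h1
    rw [b₁.2.choose_spec, b₂.2.choose_spec] at h2
    exact Subtype.ext h2
  · intro q
    induction q using Quotient.inductionOn with
    | h x =>
      obtain ⟨γ, rfl⟩ := hf x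
      refine ⟨⟨inv γ, γ, rfl⟩, ?_⟩
      apply Quotient.sound
      have hspec : inv (Exists.choose (⟨γ, rfl⟩ : ∃ y, inv y = inv γ)) = inv γ :=
        Exists.choose_spec (⟨γ, rfl⟩ : ∃ y, inv y = inv γ)
      exact (h _ _).mp hspec

section Cusps

variable (N : ℕ) [NeZero N]

/-- `d = gcd(c, N)` -/
def comb_cd (γ : SL(2, ℤ)) : ℕ := Int.gcd (γ 1 0) N

/-- the class `a * (c/d)⁻¹` mod `gcd(d, N/d)` -/
def comb_tt (d : ℕ) (γ : SL(2, ℤ)) : ZMod (Nat.gcd d (N / d)) :=
  (γ 0 0 : ZMod (Nat.gcd d (N / d))) * ((γ 1 0 / (d : ℤ) : ℤ) : ZMod (Nat.gcd d (N / d)))⁻¹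

/-- the cusp invariant -/
def comb_cuspInv (γ : SL(2, ℤ)) : Σ _ : ℕ, ℕ := ⟨comb_cd N γ, (comb_tt N (comb_cd N γ) γ).val⟩

lemma comb_cd_dvd (γ : SL(2, ℤ)) : comb_cd N γ ∣ N :=
  Int.natCast_dvd_natCast.mp (Int.gcd_dvd_right _ _)

lemma comb_cd_pos (γ : SL(2, ℤ)) : 0 < comb_cd N γ :=
  Nat.pos_of_dvd_of_pos (comb_cd_dvd N γ) (NeZero.pos N)

lemma comb_cd_dvd_c (γ : SL(2, ℤ)) : (comb_cd N γ : ℤ) ∣ γ 1 0 := Int.gcd_dvd_left _ _

lemma comb_c_eq (γ : SL(2, ℤ)) : γ 1 0 = (comb_cd N γ : ℤ) * (γ 1 0 / (comb_cd N γ : ℤ)) :=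
  (Int.mul_ediv_cancel' (comb_cd_dvd_c N γ)).symm

lemma comb_N_eq (γ : SL(2, ℤ)) : N = comb_cd N γ * (N / comb_cd N γ) :=
  (Nat.mul_div_cancel' (comb_cd_dvd N γ)).symm

lemma comb_isCoprime_quot (γ : SL(2, ℤ)) :
    IsCoprime (γ 1 0 / (comb_cd N γ : ℤ)) ((N / comb_cd N γ : ℕ) : ℤ) := by
  rw [Int.isCoprime_iff_gcd_eq_one, Int.natCast_div]
  exact Int.gcd_div_gcd_div_gcd (comb_cd_pos N γ)

lemma comb_cd_dvd_of_dvd (γ₁ γ₂ : SL(2, ℤ))
    (h : (comb_cd N γ₁ : ℤ) ∣ γ₂ 1 0 * γ₁ 0 0) : comb_cd N γ₁ ∣ comb_cd N γ₂ := by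
  have hdN : (comb_cd N γ₁ : ℤ) ∣ (N : ℤ) := Int.gcd_dvd_right _ _
  have hdc : (comb_cd N γ₁ : ℤ) ∣ γ₁ 1 0 := Int.gcd_dvd_left _ _
  have hcop : IsCoprime (comb_cd N γ₁ : ℤ) (γ₁ 0 0) :=
    (comb_isCoprime_col γ₁).symm.of_isCoprime_of_dvd_left hdc
  have h2 : (comb_cd N γ₁ : ℤ) ∣ γ₂ 1 0 := hcop.dvd_of_dvd_mul_right h
  exact Int.natCast_dvd_natCast.mp (Int.dvd_coe_gcd h2 hdN)

lemma comb_cd_eq_of_dvd (γ₁ γ₂ : SL(2, ℤ)) (k : ℤ)
    (h : (N : ℤ) ∣ (γ₁ 0 0 + k * γ₁ 1 0) * γ₂ 1 0 - γ₁ 1 0 * γ₂ 0 0) :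
    comb_cd N γ₁ = comb_cd N γ₂ := by
  apply Nat.dvd_antisymm
  · apply comb_cd_dvd_of_dvd
    have hdN : (comb_cd N γ₁ : ℤ) ∣ (N : ℤ) := Int.gcd_dvd_right _ _
    have hdc : (comb_cd N γ₁ : ℤ) ∣ γ₁ 1 0 := Int.gcd_dvd_left _ _
    have e : γ₂ 1 0 * γ₁ 0 0 = ((γ₁ 0 0 + k * γ₁ 1 0) * γ₂ 1 0 - γ₁ 1 0 * γ₂ 0 0)
        - γ₁ 1 0 * (k * γ₂ 1 0 - γ₂ 0 0) := by ring
    rw [e]
    exact dvd_sub (hdN.trans h) (Dvd.dvd.mul_right hdc _)
  · apply comb_cd_dvd_of_dvd
    have hdN : (comb_cd N γ₂ : ℤ) ∣ (N : ℤ) := Int.gcd_dvd_right _ _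
    have hdc : (comb_cd N γ₂ : ℤ) ∣ γ₂ 1 0 := Int.gcd_dvd_left _ _
    have e : γ₁ 1 0 * γ₂ 0 0 = γ₂ 1 0 * (γ₁ 0 0 + k * γ₁ 1 0)
        - ((γ₁ 0 0 + k * γ₁ 1 0) * γ₂ 1 0 - γ₁ 1 0 * γ₂ 0 0) := by ring
    rw [e]
    exact dvd_sub (Dvd.dvd.mul_right hdc _) (hdN.trans h)

lemma comb_tt_eq_iff (d : ℕ) (γ₁ γ₂ : SL(2, ℤ)) (h₁ : comb_cd N γ₁ = d)
    (h₂ : comb_cd N γ₂ = d) :
    comb_tt N d γ₁ = comb_tt N d γ₂ ↔
      ∃ k : ℤ, (N : ℤ) ∣ (γ₁ 0 0 + k * γ₁ 1 0) * γ₂ 1 0 - γ₁ 1 0 * γ₂ 0 0 := by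
  subst h₁
  have e₁ := comb_c_eq N γ₁
  have e₂ := comb_c_eq N γ₂
  rw [h₂] at e₂
  have i₁ := comb_isCoprime_quot N γ₁
  have i₂ := comb_isCoprime_quot N γ₂
  rw [h₂] at i₂
  have hcore := comb_core (comb_cd N γ₁) (N / comb_cd N γ₁) (comb_cd_pos N γ₁) (γ₁ 0 0) (γ₂ 0 0)
    _ _ i₁ i₂
  rw [← comb_N_eq N γ₁, ← e₁, ← e₂] at hcore
  exact hcore.symm

lemma comb_cuspInv_eq_iff (γ₁ γ₂ : SL(2, ℤ)) :
    comb_cuspInv N γ₁ = comb_cuspInv N γ₂ ↔
      ∃ k : ℤ, (N : ℤ) ∣ (γ₁ 0 0 + k * γ₁ 1 0) * γ₂ 1 0 - γ₁ 1 0 * γ₂ 0 0 := by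
  constructor
  · intro h
    have hd : comb_cd N γ₁ = comb_cd N γ₂ := congrArg Sigma.fst h
    have hv : (comb_tt N (comb_cd N γ₁) γ₁).val = (comb_tt N (comb_cd N γ₂) γ₂).val := by
      have := (Sigma.mk.inj_iff.mp h).2
      exact eq_of_heq this
    rw [← hd] at hv
    haveI : NeZero (Nat.gcd (comb_cd N γ₁) (N / comb_cd N γ₁)) :=
      ⟨(Nat.gcd_pos_of_pos_left _ (comb_cd_pos N γ₁)).ne'⟩
    exact (comb_tt_eq_iff N _ γ₁ γ₂ rfl hd.symm).mp (ZMod.val_injective _ hv)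
  · rintro ⟨k, hk⟩
    have hd := comb_cd_eq_of_dvd N γ₁ γ₂ k hk
    have ht := (comb_tt_eq_iff N _ γ₁ γ₂ rfl hd.symm).mpr ⟨k, hk⟩
    unfold comb_cuspInv
    rw [← hd, ht]

lemma comb_sameCycle_tP_iff (γ₁ γ₂ : SL(2, ℤ)) :
    (MulAction.toPerm ModularGroup.T : Equiv.Perm (SL(2, ℤ) ⧸ Gamma0 N)).SameCycle
        (QuotientGroup.mk γ₁) (QuotientGroup.mk γ₂) ↔
      ∃ k : ℤ, (N : ℤ) ∣ (γ₁ 0 0 + k * γ₁ 1 0) * γ₂ 1 0 - γ₁ 1 0 * γ₂ 0 0 := by
  have hpow : ∀ k : ℤ, (MulAction.toPerm ModularGroup.T : Equiv.Perm (SL(2, ℤ) ⧸ Gamma0 N)) ^ k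
      = MulAction.toPerm (ModularGroup.T ^ k) := fun k =>
    (map_zpow (MulAction.toPermHom SL(2, ℤ) (SL(2, ℤ) ⧸ Gamma0 N)) ModularGroup.T k).symm
  unfold Equiv.Perm.SameCycle
  refine exists_congr (fun k => ?_)
  rw [hpow, comb_toPerm_mk, comb_mk_eq_iff, (comb_T_zpow_mul_apply k γ₁).1,
    (comb_T_zpow_mul_apply k γ₁).2]

/-- the finite set of cusp invariants -/
def comb_cuspSet : Finset (Σ _ : ℕ, ℕ) :=
  N.divisors.sigma (fun d => (Finset.range (Nat.gcd d (N / d))).filter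
    (fun r => (Nat.gcd d (N / d)).Coprime r))

lemma comb_card_cuspSet : (comb_cuspSet N).card = cuspCount N := by
  rw [comb_cuspSet, Finset.card_sigma, cuspCount]
  exact Finset.sum_congr rfl (fun d _ => (Nat.totient_eq_card_coprime _).symm)

lemma comb_cuspInv_mem (γ : SL(2, ℤ)) : comb_cuspInv N γ ∈ comb_cuspSet N := by
  haveI : NeZero (Nat.gcd (comb_cd N γ) (N / comb_cd N γ)) :=
    ⟨(Nat.gcd_pos_of_pos_left _ (comb_cd_pos N γ)).ne'⟩
  rw [comb_cuspSet, comb_cuspInv, Finset.mem_sigma]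
  refine ⟨Nat.mem_divisors.mpr ⟨comb_cd_dvd N γ, NeZero.ne N⟩, ?_⟩
  rw [Finset.mem_filter, Finset.mem_range]
  refine ⟨ZMod.val_lt _, ?_⟩
  -- the class is a unit
  have hg_d : ((Nat.gcd (comb_cd N γ) (N / comb_cd N γ) : ℕ) : ℤ) ∣ γ 1 0 :=
    (Int.natCast_dvd_natCast.mpr (Nat.gcd_dvd_left _ _)).trans (comb_cd_dvd_c N γ)
  have hg_M : ((Nat.gcd (comb_cd N γ) (N / comb_cd N γ) : ℕ) : ℤ) ∣ ((N / comb_cd N γ : ℕ) : ℤ) :=
    Int.natCast_dvd_natCast.mpr (Nat.gcd_dvd_right _ _)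
  have ha := comb_zmod_unit_of_isCoprime _ (γ 0 0) (γ 1 0) hg_d (comb_isCoprime_col γ)
  have hc := comb_zmod_unit_of_isCoprime _ _ _ hg_M (comb_isCoprime_quot N γ)
  have hu : IsUnit (comb_tt N (comb_cd N γ) γ) := by
    unfold comb_tt
    exact (IsUnit.of_mul_eq_one _ ha).mul (IsUnit.of_mul_eq_one _ (by rw [mul_comm]; exact hc))
  obtain ⟨u, hu⟩ := hu
  rw [← hu]
  exact (ZMod.val_coe_unit_coprime u).symm

lemma comb_cuspInv_surj (x : Σ _ : ℕ, ℕ) (hx : x ∈ comb_cuspSet N) :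
    ∃ γ : SL(2, ℤ), comb_cuspInv N γ = x := by
  obtain ⟨d, r⟩ := x
  rw [comb_cuspSet, Finset.mem_sigma, Finset.mem_filter, Finset.mem_range] at hx
  obtain ⟨hd, hr, hcop⟩ := hx
  have hdN : d ∣ N := (Nat.mem_divisors.mp hd).1
  have hdpos : 0 < d := Nat.pos_of_dvd_of_pos hdN (NeZero.pos N)
  haveI : NeZero d := ⟨hdpos.ne'⟩
  haveI : NeZero (Nat.gcd d (N / d)) := ⟨(Nat.gcd_pos_of_pos_left _ hdpos).ne'⟩
  obtain ⟨u, hu⟩ := ZMod.unitsMap_surjective (Nat.gcd_dvd_left d (N / d))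
    (ZMod.unitOfCoprime r hcop.symm)
  have hcop2 : IsCoprime (((u : ZMod d).val : ℕ) : ℤ) (d : ℤ) :=
    Nat.isCoprime_iff_coprime.mpr (ZMod.val_coe_unit_coprime u)
  obtain ⟨γ, hγ0, hγ1⟩ := comb_exists_col _ _ hcop2
  refine ⟨γ, ?_⟩
  have hcd : comb_cd N γ = d := by
    rw [comb_cd, hγ1, Int.gcd_natCast_natCast]
    exact Nat.gcd_eq_left hdN
  have htt : comb_tt N d γ = (r : ZMod (Nat.gcd d (N / d))) := by
    unfold comb_tt
    rw [hγ0, hγ1, Int.ediv_self (by exact_mod_cast hdpos.ne')]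
    have h1 : (((u : ZMod d).val : ℕ) : ZMod (Nat.gcd d (N / d)))
        = (r : ZMod (Nat.gcd d (N / d))) := by
      have := congrArg (Units.val) hu
      rw [ZMod.coe_unitOfCoprime] at this
      rw [← this, ZMod.natCast_val]
      rfl
    simp only [Int.cast_natCast, Int.cast_one, ZMod.inv_one, mul_one]
    exact h1
  unfold comb_cuspInv
  rw [hcd, htt, ZMod.val_natCast_of_lt hr]

theorem comb_orbitCount_tP_aux :
    orbitCount (MulAction.toPerm ModularGroup.T : Equiv.Perm (SL(2, ℤ) ⧸ Gamma0 N))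
      = cuspCount N := by
  unfold orbitCount
  rw [comb_card_quotient_eq
    (Equiv.Perm.SameCycle.setoid
      (MulAction.toPerm ModularGroup.T : Equiv.Perm (SL(2, ℤ) ⧸ Gamma0 N)))
    (QuotientGroup.mk : SL(2, ℤ) → SL(2, ℤ) ⧸ Gamma0 N) QuotientGroup.mk_surjective
    (comb_cuspInv N)
    (fun γ₁ γ₂ => (comb_cuspInv_eq_iff N γ₁ γ₂).trans (comb_sameCycle_tP_iff N γ₁ γ₂).symm)]
  have hrange : Set.range (comb_cuspInv N) = (comb_cuspSet N : Set (Σ _ : ℕ, ℕ)) := by
    ext x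
    constructor
    · rintro ⟨γ, rfl⟩
      exact comb_cuspInv_mem N γ
    · intro hx
      exact comb_cuspInv_surj N x hx
  rw [hrange, Nat.card_coe_set_eq, Set.ncard_coe_finset, comb_card_cuspSet]

end Cusps

lemma comb_sqf_dvd_of_dvd_mul (p N d : ℕ) (hp : p.Prime) (hpN : p ∣ N) (hd : d ∣ p * N)
    (hsq : Squarefree d) : d ∣ N := by
  by_cases hpd : p ∣ d
  · obtain ⟨d', rfl⟩ := hpd
    have hd' : d' ∣ N := Nat.dvd_of_mul_dvd_mul_left hp.pos hd
    have hcop : Nat.Coprime p d' := by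
      rw [Nat.Prime.coprime_iff_not_dvd hp]
      rintro ⟨e, rfl⟩
      have := hsq p ⟨e, by ring⟩
      exact hp.one_lt.ne' (Nat.isUnit_iff.mp this)
    exact Nat.Coprime.mul_dvd_of_dvd_of_dvd hcop hpN hd'
  · have hcop : Nat.Coprime d p := ((Nat.Prime.coprime_iff_not_dvd hp).mpr hpd).symm
    exact hcop.dvd_of_dvd_mul_left hd

lemma comb_psi_mul_of_dvd (p N : ℕ) (hp : p.Prime) (hN : N ≠ 0) (hpN : p ∣ N) :
    dedekindPsi (p * N) = p * dedekindPsi N := by
  unfold dedekindPsi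
  have hset : (p * N).divisors.filter (fun d => Squarefree d)
      = N.divisors.filter (fun d => Squarefree d) := by
    ext d
    simp only [Finset.mem_filter, Nat.mem_divisors]
    constructor
    · rintro ⟨⟨h1, _⟩, h3⟩
      exact ⟨⟨comb_sqf_dvd_of_dvd_mul p N d hp hpN h1 h3, hN⟩, h3⟩
    · rintro ⟨⟨h1, _⟩, h3⟩
      exact ⟨⟨Dvd.dvd.mul_left h1 p, mul_ne_zero hp.ne_zero hN⟩, h3⟩
  rw [hset, Finset.mul_sum]
  refine Finset.sum_congr rfl (fun d hd => ?_)
  rw [Finset.mem_filter, Nat.mem_divisors] at hd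
  exact Nat.mul_div_assoc p hd.1.1

lemma comb_psi_mul_of_not_dvd (p N : ℕ) (hp : p.Prime) (hN : N ≠ 0) (hpN : ¬ p ∣ N) :
    dedekindPsi (p * N) = (p + 1) * dedekindPsi N := by
  unfold dedekindPsi
  have hndvd : ∀ d, d ∣ N → ¬ p ∣ d := fun d hd hpd => hpN (hpd.trans hd)
  have hset : (p * N).divisors.filter (fun d => Squarefree d)
      = N.divisors.filter (fun d => Squarefree d)
        ∪ (N.divisors.filter (fun d => Squarefree d)).image (fun d => p * d) := by
    ext d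
    simp only [Finset.mem_filter, Nat.mem_divisors, Finset.mem_union, Finset.mem_image]
    constructor
    · rintro ⟨⟨h1, _⟩, h3⟩
      by_cases hpd : p ∣ d
      · right
        obtain ⟨d', rfl⟩ := hpd
        exact ⟨d', ⟨⟨Nat.dvd_of_mul_dvd_mul_left hp.pos h1, hN⟩, h3.of_mul_right⟩, rfl⟩
      · left
        have hcop : Nat.Coprime d p := ((Nat.Prime.coprime_iff_not_dvd hp).mpr hpd).symm
        exact ⟨⟨hcop.dvd_of_dvd_mul_left h1, hN⟩, h3⟩
    · rintro (⟨⟨h1, _⟩, h3⟩ | ⟨d', ⟨⟨h1, _⟩, h3⟩, rfl⟩)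
      · exact ⟨⟨Dvd.dvd.mul_left h1 p, mul_ne_zero hp.ne_zero hN⟩, h3⟩
      · refine ⟨⟨Nat.mul_dvd_mul_left p h1, mul_ne_zero hp.ne_zero hN⟩, ?_⟩
        rw [Nat.squarefree_mul_iff]
        exact ⟨(Nat.Prime.coprime_iff_not_dvd hp).mpr (hndvd d' h1), hp.prime.squarefree, h3⟩
  have hdisj : Disjoint (N.divisors.filter (fun d => Squarefree d))
      ((N.divisors.filter (fun d => Squarefree d)).image (fun d => p * d)) := by
    rw [Finset.disjoint_left]
    intro d hd hd'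
    rw [Finset.mem_filter, Nat.mem_divisors] at hd
    rw [Finset.mem_image] at hd'
    obtain ⟨d', _, rfl⟩ := hd'
    exact hndvd _ hd.1.1 (Dvd.intro _ rfl)
  rw [hset, Finset.sum_union hdisj, Finset.sum_image (fun x _ y _ h => Nat.eq_of_mul_eq_mul_left hp.pos h),
    add_mul, one_mul, Finset.mul_sum]
  congr 1
  · refine Finset.sum_congr rfl (fun d hd => ?_)
    rw [Finset.mem_filter, Nat.mem_divisors] at hd
    exact Nat.mul_div_assoc p hd.1.1
  · refine Finset.sum_congr rfl (fun d hd => ?_)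
    exact Nat.mul_div_mul_left _ _ hp.pos


section Index

lemma comb_mem_Gamma0_iff (N : ℕ) (A : SL(2, ℤ)) : A ∈ Gamma0 N ↔ (N : ℤ) ∣ A 1 0 := by
  rw [Gamma0_mem, ZMod.intCast_zmod_eq_zero_iff_dvd]

lemma comb_Gamma0_le (p N : ℕ) : Gamma0 (p * N) ≤ Gamma0 N := by
  intro A hA
  rw [comb_mem_Gamma0_iff] at hA ⊢
  exact (Int.natCast_dvd_natCast.mpr (Dvd.intro_left p rfl)).trans hA

lemma comb_mk_sub_eq_iff (p N : ℕ) (k₁ k₂ : Gamma0 N) :
    (QuotientGroup.mk k₁ : Gamma0 N ⧸ (Gamma0 (p * N)).subgroupOf (Gamma0 N))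
        = QuotientGroup.mk k₂ ↔
      ((p * N : ℕ) : ℤ) ∣ (k₁ : SL(2, ℤ)) 0 0 * (k₂ : SL(2, ℤ)) 1 0
        - (k₁ : SL(2, ℤ)) 1 0 * (k₂ : SL(2, ℤ)) 0 0 := by
  rw [← comb_mk_eq_iff, QuotientGroup.eq, QuotientGroup.eq, Subgroup.mem_subgroupOf]
  simp

/-- the lower unipotent element of `Γ₀(N)` -/
def comb_lowK (N : ℕ) (z : ℤ) : Gamma0 N :=
  ⟨comb_low (N * z), by rw [comb_mem_Gamma0_iff]; exact ⟨z, rfl⟩⟩

lemma comb_lowK_apply (N : ℕ) (z : ℤ) :
    (comb_lowK N z : SL(2, ℤ)) 0 0 = 1 ∧ (comb_lowK N z : SL(2, ℤ)) 1 0 = N * z := ⟨rfl, rfl⟩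

lemma comb_lowK_inj (p N : ℕ) [NeZero p] (hN : N ≠ 0) (z₁ z₂ : ZMod p)
    (h : (QuotientGroup.mk (comb_lowK N (z₁.val : ℤ)) :
        Gamma0 N ⧸ (Gamma0 (p * N)).subgroupOf (Gamma0 N))
      = QuotientGroup.mk (comb_lowK N (z₂.val : ℤ))) : z₁ = z₂ := by
  rw [comb_mk_sub_eq_iff, (comb_lowK_apply _ _).1, (comb_lowK_apply _ _).2,
    (comb_lowK_apply _ _).1, (comb_lowK_apply _ _).2] at h
  have h1 : (N : ℤ) * (p : ℤ) ∣ (N : ℤ) * ((z₂.val : ℤ) - (z₁.val : ℤ)) := by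
    convert h using 1
    · push_cast; ring
    · ring
  have h2 : (p : ℤ) ∣ (z₂.val : ℤ) - (z₁.val : ℤ) :=
    Int.dvd_of_mul_dvd_mul_left (by exact_mod_cast hN) h1
  rw [← ZMod.intCast_zmod_eq_zero_iff_dvd] at h2
  push_cast at h2
  rw [ZMod.natCast_zmod_val, ZMod.natCast_zmod_val] at h2
  exact (sub_eq_zero.mp h2).symm

lemma comb_lowK_surj (p N : ℕ) [NeZero p] (k : Gamma0 N)
    (hcop : IsCoprime ((k : SL(2, ℤ)) 0 0) (p : ℤ)) :
    ∃ z : ZMod p, (QuotientGroup.mk (comb_lowK N (z.val : ℤ)) :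
        Gamma0 N ⧸ (Gamma0 (p * N)).subgroupOf (Gamma0 N)) = QuotientGroup.mk k := by
  obtain ⟨c', hc'⟩ := (comb_mem_Gamma0_iff N k).mp k.2
  obtain ⟨u, v, huv⟩ := hcop
  have hua : (u : ZMod p) * (((k : SL(2, ℤ)) 0 0 : ℤ) : ZMod p) = 1 := by
    have := congrArg (Int.cast : ℤ → ZMod p) huv
    push_cast at this
    simpa using this
  refine ⟨((c' * u : ℤ) : ZMod p), ?_⟩
  rw [comb_mk_sub_eq_iff, (comb_lowK_apply _ _).1, (comb_lowK_apply _ _).2]
  have h1 : (p : ℤ) ∣ c' - ((((c' * u : ℤ) : ZMod p).val : ℕ) : ℤ) * (k : SL(2, ℤ)) 0 0 := by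
    rw [← ZMod.intCast_zmod_eq_zero_iff_dvd]
    push_cast
    rw [ZMod.natCast_zmod_val]
    push_cast
    linear_combination (-(c' : ZMod p)) * hua
  obtain ⟨m, hm⟩ := h1
  refine ⟨m, ?_⟩
  rw [hc', Nat.cast_mul]
  linear_combination (N : ℤ) * hm

lemma comb_relIndex_of_dvd (p N : ℕ) (hp : p.Prime) (hN : N ≠ 0) (hpN : p ∣ N) :
    (Gamma0 (p * N)).relIndex (Gamma0 N) = p := by
  haveI : NeZero p := ⟨hp.ne_zero⟩
  have hbij : Function.Bijective (fun z : ZMod p =>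
      (QuotientGroup.mk (comb_lowK N (z.val : ℤ)) :
        Gamma0 N ⧸ (Gamma0 (p * N)).subgroupOf (Gamma0 N))) := by
    constructor
    · intro z₁ z₂ h
      exact comb_lowK_inj p N hN z₁ z₂ h
    · intro q
      induction q using QuotientGroup.induction_on with
      | H k =>
        apply comb_lowK_surj p N k
        have hpc : (p : ℤ) ∣ (k : SL(2, ℤ)) 1 0 :=
          (Int.natCast_dvd_natCast.mpr hpN).trans ((comb_mem_Gamma0_iff N k).mp k.2)
        exact (comb_isCoprime_col (k : SL(2, ℤ))).of_isCoprime_of_dvd_right hpc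
  show Nat.card (Gamma0 N ⧸ (Gamma0 (p * N)).subgroupOf (Gamma0 N)) = p
  rw [← Nat.card_congr (Equiv.ofBijective _ hbij), Nat.card_zmod]

lemma comb_relIndex_of_not_dvd (p N : ℕ) (hp : p.Prime) (hN : N ≠ 0) (hpN : ¬ p ∣ N) :
    (Gamma0 (p * N)).relIndex (Gamma0 N) = p + 1 := by
  haveI : NeZero p := ⟨hp.ne_zero⟩
  have hcopN : IsCoprime (p : ℤ) (N : ℤ) :=
    Nat.isCoprime_iff_coprime.mpr ((Nat.Prime.coprime_iff_not_dvd hp).mpr hpN)
  obtain ⟨γ₀, hγ0, hγ1⟩ := comb_exists_col _ _ hcopN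
  have hγmem : γ₀ ∈ Gamma0 N := by rw [comb_mem_Gamma0_iff, hγ1]
  have hp0 : (p : ℤ) ≠ 0 := by exact_mod_cast hp.ne_zero
  have hN0 : (N : ℤ) ≠ 0 := by exact_mod_cast hN
  have hp1 : ¬ (p : ℤ) ∣ 1 := by
    intro h
    have := Int.natCast_dvd_natCast.mp (by simpa using h : (p : ℤ) ∣ ((1 : ℕ) : ℤ))
    exact hp.one_lt.ne' (Nat.dvd_one.mp this)
  have hns : ∀ z : ZMod p, (QuotientGroup.mk (⟨γ₀, hγmem⟩ : Gamma0 N) :
        Gamma0 N ⧸ (Gamma0 (p * N)).subgroupOf (Gamma0 N))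
      ≠ QuotientGroup.mk (comb_lowK N (z.val : ℤ)) := by
    intro z h
    rw [comb_mk_sub_eq_iff, (comb_lowK_apply _ _).1, (comb_lowK_apply _ _).2] at h
    simp only [hγ0, hγ1] at h
    obtain ⟨m, hm⟩ := h
    apply hp1
    refine ⟨(z.val : ℤ) - m, ?_⟩
    have : (N : ℤ) * 1 = (N : ℤ) * ((p : ℤ) * ((z.val : ℤ) - m)) := by
      push_cast at hm
      linear_combination (-1 : ℤ) * hm
    exact mul_left_cancel₀ hN0 this
  have hbij : Function.Bijective (fun z : Option (ZMod p) =>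
      (Option.elim z (QuotientGroup.mk (⟨γ₀, hγmem⟩ : Gamma0 N))
        (fun z => QuotientGroup.mk (comb_lowK N (z.val : ℤ))) :
        Gamma0 N ⧸ (Gamma0 (p * N)).subgroupOf (Gamma0 N))) := by
    constructor
    · intro z₁ z₂ h
      cases z₁ with
      | none =>
        cases z₂ with
        | none => rfl
        | some z₂ => exact absurd h (hns z₂)
      | some z₁ =>
        cases z₂ with
        | none => exact absurd h.symm (hns z₁)
        | some z₂ => exact congrArg some (comb_lowK_inj p N hN z₁ z₂ h)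
    · intro q
      induction q using QuotientGroup.induction_on with
      | H k =>
        by_cases hcop : IsCoprime ((k : SL(2, ℤ)) 0 0) (p : ℤ)
        · obtain ⟨z, hz⟩ := comb_lowK_surj p N k hcop
          exact ⟨some z, hz⟩
        · refine ⟨none, ?_⟩
          have hirr : Irreducible (p : ℤ) := (Nat.prime_iff_prime_int.mp hp).irreducible
          have hpa : (p : ℤ) ∣ (k : SL(2, ℤ)) 0 0 := by
            by_contra hnd
            exact hcop ((hirr.coprime_iff_not_dvd.mpr hnd).symm)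
          obtain ⟨a', ha'⟩ := hpa
          obtain ⟨c', hc'⟩ := (comb_mem_Gamma0_iff N k).mp k.2
          show (QuotientGroup.mk (⟨γ₀, hγmem⟩ : Gamma0 N) :
            Gamma0 N ⧸ (Gamma0 (p * N)).subgroupOf (Gamma0 N)) = QuotientGroup.mk k
          rw [comb_mk_sub_eq_iff]
          simp only [hγ0, hγ1]
          refine ⟨c' - a', ?_⟩
          rw [hc', ha']
          push_cast
          ring
  show Nat.card (Gamma0 N ⧸ (Gamma0 (p * N)).subgroupOf (Gamma0 N)) = p + 1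
  rw [← Nat.card_congr (Equiv.ofBijective _ hbij), Finite.card_option, Nat.card_zmod]

theorem comb_card_PN_aux (N : ℕ) (hN : N ≠ 0) :
    Nat.card (SL(2, ℤ) ⧸ Gamma0 N) = dedekindPsi N := by
  revert hN
  refine induction_on_primes
    (motive := fun N => N ≠ 0 → Nat.card (SL(2, ℤ) ⧸ Gamma0 N) = dedekindPsi N) ?_ ?_ ?_ N
  · intro h; exact absurd rfl h
  · intro _
    rw [dedekindPsi_one]
    have h1 : Gamma0 1 = ⊤ := by
      ext A
      simp only [Gamma0_mem, Subgroup.mem_top, iff_true]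
      exact Subsingleton.elim _ _
    show (Gamma0 1).index = 1
    rw [h1, Subgroup.index_top]
  · intro p a hp ih hpa0
    have ha : a ≠ 0 := fun h => hpa0 (by simp [h])
    have ih' := ih ha
    have hidx : (Gamma0 (p * a)).relIndex (Gamma0 a) * (Gamma0 a).index
        = (Gamma0 (p * a)).index := Subgroup.relIndex_mul_index (comb_Gamma0_le p a)
    have ih'' : (Gamma0 a).index = dedekindPsi a := ih'
    show (Gamma0 (p * a)).index = _
    rw [← hidx, ih'']
    by_cases hpa : p ∣ a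
    · rw [comb_relIndex_of_dvd p a hp ha hpa, comb_psi_mul_of_dvd p a hp ha hpa]
    · rw [comb_relIndex_of_not_dvd p a hp ha hpa, comb_psi_mul_of_not_dvd p a hp ha hpa]

end Index


section Final

lemma comb_transitive (N : ℕ) (i j : SL(2, ℤ) ⧸ Gamma0 N) :
    ∃ g ∈ Subgroup.closure
      ({(MulAction.toPerm ModularGroup.S : Equiv.Perm (SL(2, ℤ) ⧸ Gamma0 N)),
        (MulAction.toPerm ModularGroup.T : Equiv.Perm (SL(2, ℤ) ⧸ Gamma0 N))} :
        Set (Equiv.Perm (SL(2, ℤ) ⧸ Gamma0 N))), g i = j := by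
  induction i using QuotientGroup.induction_on with
  | H γ₁ =>
  induction j using QuotientGroup.induction_on with
  | H γ₂ =>
  have hmem : ∀ h : SL(2, ℤ),
      h ∈ Subgroup.closure ({ModularGroup.S, ModularGroup.T} : Set SL(2, ℤ)) →
      (MulAction.toPermHom SL(2, ℤ) (SL(2, ℤ) ⧸ Gamma0 N) h) ∈ Subgroup.closure
        ({(MulAction.toPerm ModularGroup.S : Equiv.Perm (SL(2, ℤ) ⧸ Gamma0 N)),
          (MulAction.toPerm ModularGroup.T : Equiv.Perm (SL(2, ℤ) ⧸ Gamma0 N))} :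
          Set (Equiv.Perm (SL(2, ℤ) ⧸ Gamma0 N))) := by
    intro h hh
    induction hh using Subgroup.closure_induction with
    | mem x hx =>
      rcases hx with rfl | rfl
      · exact Subgroup.subset_closure (Set.mem_insert _ _)
      · exact Subgroup.subset_closure (Set.mem_insert_of_mem _ rfl)
    | one => rw [map_one]; exact Subgroup.one_mem _
    | mul x y _ _ hx hy => rw [map_mul]; exact Subgroup.mul_mem _ hx hy
    | inv x _ hx => rw [map_inv]; exact Subgroup.inv_mem _ hx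
  refine ⟨MulAction.toPermHom SL(2, ℤ) (SL(2, ℤ) ⧸ Gamma0 N) (γ₂ * γ₁⁻¹),
    hmem _ (by rw [SpecialLinearGroup.SL2Z_generators]; trivial), ?_⟩
  show (MulAction.toPerm (γ₂ * γ₁⁻¹) : Equiv.Perm (SL(2, ℤ) ⧸ Gamma0 N)) (QuotientGroup.mk γ₁)
    = QuotientGroup.mk γ₂
  rw [comb_toPerm_mk]
  congr 1
  group

variable (N : ℕ) [NeZero N]

theorem comb_card_PN : Nat.card (SL(2, ℤ) ⧸ Gamma0 N) = dedekindPsi N :=
  comb_card_PN_aux N (NeZero.ne N)

theorem comb_orbitCount_sP :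
    2 * orbitCount (MulAction.toPerm ModularGroup.S : Equiv.Perm (SL(2, ℤ) ⧸ Gamma0 N))
      = dedekindPsi N + nuTwo N := by
  rw [comb_orbitCount_sP_aux, comb_card_PN]

theorem comb_orbitCount_uP :
    3 * orbitCount (MulAction.toPerm (ModularGroup.S * ModularGroup.T) :
        Equiv.Perm (SL(2, ℤ) ⧸ Gamma0 N))
      = dedekindPsi N + 2 * nuThree N := by
  rw [comb_orbitCount_uP_aux, comb_card_PN]

theorem comb_orbitCount_tP :
    orbitCount (MulAction.toPerm ModularGroup.T : Equiv.Perm (SL(2, ℤ) ⧸ Gamma0 N))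
      = cuspCount N :=
  comb_orbitCount_tP_aux N

/-- Euler characteristic: even and at most 2 -/
theorem comb_euler_PN : ∃ g : ℕ, (Nat.card (SL(2, ℤ) ⧸ Gamma0 N) : ℤ)
    - orbitCount (MulAction.toPerm ModularGroup.S : Equiv.Perm (SL(2, ℤ) ⧸ Gamma0 N))
    - orbitCount (MulAction.toPerm (ModularGroup.S * ModularGroup.T) :
        Equiv.Perm (SL(2, ℤ) ⧸ Gamma0 N))
    - orbitCount (MulAction.toPerm ModularGroup.T : Equiv.Perm (SL(2, ℤ) ⧸ Gamma0 N)) + 2
      = 2 * (g : ℤ) := by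
  letI : Fintype (SL(2, ℤ) ⧸ Gamma0 N) := Subgroup.fintypeQuotientOfFiniteIndex
  haveI : Nonempty (SL(2, ℤ) ⧸ Gamma0 N) := ⟨QuotientGroup.mk 1⟩
  obtain ⟨g, hg⟩ := comb_ree_bound
    (MulAction.toPerm ModularGroup.S : Equiv.Perm (SL(2, ℤ) ⧸ Gamma0 N))
    (MulAction.toPerm ModularGroup.T : Equiv.Perm (SL(2, ℤ) ⧸ Gamma0 N))
    (MulAction.toPerm (ModularGroup.S * ModularGroup.T) : Equiv.Perm (SL(2, ℤ) ⧸ Gamma0 N))
    (map_mul (MulAction.toPermHom SL(2, ℤ) (SL(2, ℤ) ⧸ Gamma0 N)) ModularGroup.S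
      ModularGroup.T).symm
    (comb_transitive N)
  refine ⟨g, ?_⟩
  rw [Nat.card_eq_fintype_card]
  linarith

end Final

end Fermat.Agent.MC
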