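import Fermat.Agent.Lib.ES_Inj
import Fermat.Agent.Lib.ES_Alg
import Fermat.Agent.Lib.MC_Comb

/-!
# T21 (S21): Eichler–Shimura, assembly

* `two_finrank_le`: `2 dim S₂(Γ₀(N)) ≤ dim Hom_par(Γ₀(N), ℂ)`;
* `finrank_cuspForm_le_genus`: `dim S₂(Γ₀(N)) ≤ genusFormula N` (the upper bound of S20);
* `finrank_eq_of_genus_le`: S20 from the lower bound;
* `eichlerShimura_of_finrank`: S21 from S20.
-/

set_option autoImplicit false

open ModularCurve ModularCurve.Period CongruenceSubgroup
open scoped MatrixGroups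

namespace Fermat.Agent.ES

variable (N : ℕ) [NeZero N]

/-- The range of the period pairing consists of parabolic homomorphisms. -/
theorem range_periodHomPair_le :
    LinearMap.range (periodHomPair N) ≤ parabolicHoms ℂ (Gamma0 N) ℂ := by
  obtain ⟨pml, hpml, hdef⟩ := periodHomPair_def N (existsPeriodMapLinear N)
  rintro _ ⟨⟨f, g⟩, rfl⟩
  rw [hdef]
  simp only [LinearMap.coprod_apply, LinearMap.comp_apply, LinearMap.add_apply,
    LinearMap.sub_apply, LinearMap.id_apply, hpml]
  have hf := periodMap_mem_parabolicHoms f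
  have hg := periodMap_mem_parabolicHoms g
  exact Submodule.add_mem _
    (Submodule.add_mem _ hf (charInvolution_mem_parabolicHoms N ℂ ℂ hf))
    (Submodule.sub_mem _ hg (charInvolution_mem_parabolicHoms N ℂ ℂ hg))

/-- The period pairing with values in the parabolic homomorphisms. -/
noncomputable def pairPar :
    (CuspForm (Gamma0 N) 2 × CuspForm (Gamma0 N) 2) →ₗ[ℂ] parabolicHoms ℂ (Gamma0 N) ℂ :=
  LinearMap.codRestrict (parabolicHoms ℂ (Gamma0 N) ℂ) (periodHomPair N)
    (fun x => range_periodHomPair_le N ⟨x, rfl⟩)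

theorem pairPar_injective : Function.Injective (pairPar N) := by
  intro x y h
  apply periodHomPair_injective N
  have := congrArg Subtype.val h
  exact this

theorem finiteDimensional_prod :
    FiniteDimensional ℂ (CuspForm (Gamma0 N) 2 × CuspForm (Gamma0 N) 2) := by
  have := (finrank_parabolicHoms_le N).1
  exact FiniteDimensional.of_injective (pairPar N) (pairPar_injective N)

theorem finiteDimensional_cuspForm : FiniteDimensional ℂ (CuspForm (Gamma0 N) 2) := by
  have := finiteDimensional_prod N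
  exact FiniteDimensional.of_injective
    (LinearMap.inl ℂ (CuspForm (Gamma0 N) 2) (CuspForm (Gamma0 N) 2)) LinearMap.inl_injective

theorem finrank_prod_eq :
    Module.finrank ℂ (CuspForm (Gamma0 N) 2 × CuspForm (Gamma0 N) 2) =
      2 * Module.finrank ℂ (CuspForm (Gamma0 N) 2) := by
  have := finiteDimensional_cuspForm N
  rw [Module.finrank_prod]
  ring

/-- `2 dim S₂(Γ₀(N)) ≤ dim Hom_par(Γ₀(N), ℂ)`. -/
theorem two_finrank_le :
    2 * Module.finrank ℂ (CuspForm (Gamma0 N) 2) ≤
      Module.finrank ℂ (parabolicHoms ℂ (Gamma0 N) ℂ) := by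
  have := (finrank_parabolicHoms_le N).1
  rw [← finrank_prod_eq]
  exact LinearMap.finrank_le_finrank_of_injective (pairPar_injective N)

/-- `dim Hom_par(Γ₀(N), ℂ) ≤ 2 g`. -/
theorem finrank_parabolicHoms_le_genus :
    (Module.finrank ℂ (parabolicHoms ℂ (Gamma0 N) ℂ) : ℚ) ≤ 2 * genusFormula N := by
  have h := (finrank_parabolicHoms_le N).2
  have hc : Fintype.card (Fermat.Agent.MC.PN N) = dedekindPsi N := by
    rw [← Nat.card_eq_fintype_card]
    exact Fermat.Agent.MC.comb_card_PN N
  have hs : 2 * Fermat.Agent.FF.orbitCount (Fermat.Agent.MC.sP N) = dedekindPsi N + nuTwo N :=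
    Fermat.Agent.MC.comb_orbitCount_sP N
  have hu : 3 * Fermat.Agent.FF.orbitCount (Fermat.Agent.MC.uP N) =
      dedekindPsi N + 2 * nuThree N := Fermat.Agent.MC.comb_orbitCount_uP N
  have ht : Fermat.Agent.FF.orbitCount (Fermat.Agent.MC.tP N) = cuspCount N :=
    Fermat.Agent.MC.comb_orbitCount_tP N
  rw [hc, ht] at h
  have hs' : (Fermat.Agent.FF.orbitCount (Fermat.Agent.MC.sP N) : ℚ) =
      ((dedekindPsi N : ℚ) + nuTwo N) / 2 := by
    have : (2 : ℚ) * Fermat.Agent.FF.orbitCount (Fermat.Agent.MC.sP N) =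
        (dedekindPsi N : ℚ) + nuTwo N := by exact_mod_cast hs
    linarith
  have hu' : (Fermat.Agent.FF.orbitCount (Fermat.Agent.MC.uP N) : ℚ) =
      ((dedekindPsi N : ℚ) + 2 * nuThree N) / 3 := by
    have : (3 : ℚ) * Fermat.Agent.FF.orbitCount (Fermat.Agent.MC.uP N) =
        (dedekindPsi N : ℚ) + 2 * nuThree N := by exact_mod_cast hu
    linarith
  have h' : (Module.finrank ℂ (parabolicHoms ℂ (Gamma0 N) ℂ) : ℚ) +
      Fermat.Agent.FF.orbitCount (Fermat.Agent.MC.sP N) +
      Fermat.Agent.FF.orbitCount (Fermat.Agent.MC.uP N) + cuspCount N ≤ dedekindPsi N + 2 := by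
    exact_mod_cast h
  rw [hs', hu'] at h'
  unfold genusFormula
  linarith

/-- The upper bound of S20: `dim S₂(Γ₀(N)) ≤ g`. -/
theorem finrank_cuspForm_le_genus :
    (Module.finrank ℂ (CuspForm (Gamma0 N) 2) : ℚ) ≤ genusFormula N := by
  have h1 := two_finrank_le N
  have h2 := finrank_parabolicHoms_le_genus N
  have h3 : (2 : ℚ) * Module.finrank ℂ (CuspForm (Gamma0 N) 2) ≤
      Module.finrank ℂ (parabolicHoms ℂ (Gamma0 N) ℂ) := by exact_mod_cast h1
  linarith

/-- S20 from the lower bound. -/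
theorem finrank_eq_of_genus_le
    (h : genusFormula N ≤ (Module.finrank ℂ (CuspForm (Gamma0 N) 2) : ℚ)) :
    (Module.finrank ℂ (CuspForm (Gamma0 N) 2) : ℚ) = genusFormula N :=
  le_antisymm (finrank_cuspForm_le_genus N) h

/-- S21 from S20. -/
theorem eichlerShimura_of_finrank
    (h : (Module.finrank ℂ (CuspForm (Gamma0 N) 2) : ℚ) = genusFormula N) :
    Function.Injective (periodHomPair N) ∧
      LinearMap.range (periodHomPair N) = parabolicHoms ℂ (Gamma0 N) ℂ := by
  refine ⟨periodHomPair_injective N, ?_⟩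
  have hfin := (finrank_parabolicHoms_le N).1
  have hprod := finiteDimensional_prod N
  apply Submodule.eq_of_le_of_finrank_le (range_periodHomPair_le N)
  rw [LinearMap.finrank_range_of_inj (periodHomPair_injective N), finrank_prod_eq]
  have h2 := finrank_parabolicHoms_le_genus N
  rw [← h] at h2
  exact_mod_cast h2

end Fermat.Agent.ES
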