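import Fermat.Agent.Lib.FF_Main

set_option autoImplicit false

/-!
# T20 [MF-P]: the explicit divisor of `dx` and the space `L(W)` in terms of local expansions
-/

noncomputable section

namespace Fermat.Agent.FF

open AlgebraicCurve KaehlerDifferential IntermediateField Polynomial

universe u v

variable {K : Type u} {F : Type v} [Field K] [Field F] [Algebra K F]

section Generic

variable [IsAlgClosed K] [CharZero K]

/-- every place lies above a point of the `x`-line -/
theorem place_over (x : F) (hx : Transcendental K x) [FiniteDimensional K⟮x⟯ F]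
    (v : Place K F) : (∃ a : K, 0 < v.ord (x - algebraMap K F a)) ∨ v.ord x < 0 := by
  by_cases h : 0 ≤ v.ord x
  · left
    obtain ⟨c, hc | hc⟩ := T24.exists_const_of_ord_nonneg x hx v x h
    · exfalso
      exact hx (hc ▸ isAlgebraic_algebraMap c)
    · exact ⟨c, hc⟩
  · right; exact not_le.mp h

/-- a function regular at all places where `x` is regular is integral over `K[x]` -/
theorem isIntegral_of_regular (x : F) (hx : Transcendental K x) [FiniteDimensional K⟮x⟯ F]
    (u : F) (h : ∀ v : Place K F, 0 ≤ v.ord x → 0 ≤ v.ord u) :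
    IsIntegral (Algebra.adjoin K ({x} : Set F)) u := by
  apply T24.exists_poly_structure x hx
  intro _ _ _ _ _ _ hX _
  have hxint : IsIntegral K[X] x := by
    rw [← hX]; exact isIntegral_algebraMap
  have hval : ∀ w : IsDedekindDomain.HeightOneSpectrum ↥(integralClosure K[X] F),
      IsDedekindDomain.HeightOneSpectrum.valuation F w u ≤ 1 := by
    intro w
    rw [← T24.mem_ofHeightOneSpectrum_iff (K := K) w u]
    have hxmem : x ∈ (Place.ofHeightOneSpectrum (K := K) w).toValuationSubring := by
      rw [T24.mem_ofHeightOneSpectrum_iff (K := K) w x]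
      exact IsDedekindDomain.HeightOneSpectrum.valuation_le_one w
        (⟨x, hxint⟩ : ↥(integralClosure K[X] F))
    have hx0 : 0 ≤ (Place.ofHeightOneSpectrum (K := K) w).ord x := by
      rcases (place_mem_iff _ x).mp hxmem with h0 | h0
      · rw [h0]; simp
      · exact h0
    exact (place_mem_iff _ u).mpr (Or.inr (h _ hx0))
  obtain ⟨b, hb⟩ := IsDedekindDomain.HeightOneSpectrum.mem_integers_of_valuation_le_one F u hval
  have hint : IsIntegral K[X] u := by
    rw [← hb]; exact b.2
  -- transfer to the subalgebra `K[x]`
  have hmem : ∀ p : K[X], algebraMap K[X] F p ∈ Algebra.adjoin K ({x} : Set F) := by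
    intro p
    induction p using Polynomial.induction_on with
    | C a =>
      have : algebraMap K[X] F (C a) = algebraMap K F a := by
        rw [IsScalarTower.algebraMap_apply K K[X] F a, Polynomial.algebraMap_eq]
      rw [this]
      exact Subalgebra.algebraMap_mem _ a
    | add p q hp hq => rw [map_add]; exact add_mem hp hq
    | monomial n a ih =>
      rw [pow_succ, ← mul_assoc, map_mul, hX]
      exact mul_mem ih (Algebra.subset_adjoin (Set.mem_singleton x))
  let φ : K[X] →+* Algebra.adjoin K ({x} : Set F) :=
    (algebraMap K[X] F).codRestrict (Algebra.adjoin K ({x} : Set F)).toSubring hmem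
  obtain ⟨q, hq, hq0⟩ := hint
  refine ⟨q.map φ, hq.map φ, ?_⟩
  rw [Polynomial.eval₂_map]
  exact hq0

variable (x : F) (hx : Transcendental K x) [FiniteDimensional K⟮x⟯ F] (I : Type) [Fintype I]
  (hn : Module.finrank K⟮x⟯ F = Fintype.card I)

include hx hn in
/-- **The divisor of `dx`**, constructed explicitly (no `HasCanonicalDivisor`). -/
theorem exists_canonical_divisor (S₀ : Finset K) (L : ∀ a : K, LocalData K F x a I)
    (hgen : ∀ a, a ∉ S₀ → (L a).e = 1) (Linf : LocalData K F x⁻¹ 0 I) :
    ∃ W : Divisor K F,
      (∀ (v : Place K F) (a : K), 0 < v.ord (x - algebraMap K F a) →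
        W v = v.ord (x - algebraMap K F a) - 1) ∧
      (∀ v : Place K F, v.ord x < 0 → W v = v.ord x - 1) ∧
      Divisor.degree W = ∑ a ∈ S₀, ((Fintype.card I : ℤ) - ((L a).orbits : ℤ))
        - (Fintype.card I : ℤ) - (Linf.orbits : ℤ) := by
  classical
  have hI : Nonempty I := (L 0).nonempty_of_finrank hn
  have hspan : Submodule.span F {KaehlerDifferential.D K F x} = ⊤ := span_D_eq_top x
  have hDx : KaehlerDifferential.D K F x ≠ 0 := (L 0).D_x_ne_zero
  have hx' : Transcendental K x⁻¹ := fun h => hx (by simpa using h.inv)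
  have hfin' : FiniteDimensional K⟮x⁻¹⟯ F := T24.finiteDimensional_of_transcendental x hx'
  have hn' : Module.finrank K⟮x⁻¹⟯ F = Fintype.card I := by
    rw [T24.finrank_adjoin_simple_inv, hn]
  have hspan' : Submodule.span F {KaehlerDifferential.D K F x⁻¹} = ⊤ := span_D_eq_top x⁻¹
  choose s hs hsum using fun a : K => T24.exists_finset_zeros_sub x x hx a
  obtain ⟨sinf, hsinf, hsuminf⟩ := T24.exists_finset_poles x x hx
  have hsupp : ∀ v : Place K F, v.ordDifferential (KaehlerDifferential.D K F x) ≠ 0 →
      v ∈ S₀.biUnion s ∪ sinf := by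
    intro v hv
    rcases place_over x hx v with ⟨a, ha⟩ | h
    · by_cases haS : a ∈ S₀
      · exact Finset.mem_union_left _ (Finset.mem_biUnion.mpr ⟨a, haS, (hs a v).mpr ha⟩)
      · exfalso
        apply hv
        rw [(L a).ordDifferential_of_over hn hspan v ha,
          (L a).ord_eq_one_of_over hn (hgen a haS) v ha]
        ring
    · exact Finset.mem_union_right _ ((hsinf v).mpr h)
  let W : Divisor K F := Finsupp.onFinset (S₀.biUnion s ∪ sinf)
    (fun v => v.ordDifferential (KaehlerDifferential.D K F x)) hsupp
  have hW : ∀ v : Place K F, W v = v.ordDifferential (KaehlerDifferential.D K F x) :=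
    fun v => rfl
  refine ⟨W, fun v a ha => ?_, fun v hv => ?_, ?_⟩
  · rw [hW]; exact (L a).ordDifferential_of_over hn hspan v ha
  · rw [hW]; exact ordDifferential_at_pole Linf hn' hspan' v hv
  · exact degree_canonical x hx I hn S₀ L hgen Linf _ hDx W hW

include hx hn in
/-- **`L(W)` in terms of expansions**: `y ∈ L(div dx)` iff every expansion of `y` at a finite
point has order `> -e` and every expansion at infinity has order `> e`. -/
theorem mem_L_iff_order (L : ∀ a : K, LocalData K F x a I) (Linf : LocalData K F x⁻¹ 0 I)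
    (W : Divisor K F)
    (hfin : ∀ (v : Place K F) (a : K), 0 < v.ord (x - algebraMap K F a) →
        W v = v.ord (x - algebraMap K F a) - 1)
    (hinf : ∀ v : Place K F, v.ord x < 0 → W v = v.ord x - 1)
    (y : F) (hy : y ≠ 0) :
    (∀ v : Place K F, 0 ≤ v.ord y + W v) ↔
      (∀ (a : K) (k : I), -((L a).e : ℤ) < ((L a).ι k y).order) ∧
        ∀ k : I, (Linf.e : ℤ) < (Linf.ι k y).order := by
  have hI : Nonempty I := (L 0).nonempty_of_finrank hn
  have hx' : Transcendental K x⁻¹ := fun h => hx (by simpa using h.inv)
  have hfin' : FiniteDimensional K⟮x⁻¹⟯ F := T24.finiteDimensional_of_transcendental x hx'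
  have hn' : Module.finrank K⟮x⁻¹⟯ F = Fintype.card I := by
    rw [T24.finrank_adjoin_simple_inv, hn]
  constructor
  · intro h
    refine ⟨fun a k => ?_, fun k => ?_⟩
    · have h1 := h ((L a).pl k)
      rw [hfin _ a ((L a).pl_over k)] at h1
      have h2 := (L a).cst_mul_ord_x_sub k
      have h3 := (L a).cst_pos k
      rw [(L a).order_ι k hy, ← h2]
      nlinarith
    · have h1 := h (Linf.pl k)
      have hov := Linf.pl_over k
      have h2 := Linf.cst_mul_ord_x_sub k
      rw [map_zero, sub_zero, Place.ord_inv] at hov h2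
      rw [hinf _ (by linarith)] at h1
      have h3 := Linf.cst_pos k
      rw [Linf.order_ι k hy, ← h2]
      nlinarith
  · rintro ⟨h1, h2⟩ v
    rcases place_over x hx v with ⟨a, ha⟩ | hv
    · obtain ⟨k, rfl⟩ := (L a).exists_pl_eq hn _ ha
      rw [hfin _ a ha]
      have h3 := h1 a k
      have h4 := (L a).cst_mul_ord_x_sub k
      have h5 := (L a).cst_pos k
      rw [(L a).order_ι k hy, ← h4] at h3
      have h6 : -((L a).pl k).ord (x - algebraMap K F a) < ((L a).pl k).ord y := by
        by_contra hcon
        rw [not_lt] at hcon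
        nlinarith
      linarith
    · have hv' : 0 < v.ord (x⁻¹ - algebraMap K F 0) := by
        rw [map_zero, sub_zero, v.ord_inv]; linarith
      obtain ⟨k, rfl⟩ := Linf.exists_pl_eq hn' _ hv'
      rw [hinf _ hv]
      have h3 := h2 k
      have h4 := Linf.cst_mul_ord_x_sub k
      have h5 := Linf.cst_pos k
      rw [map_zero, sub_zero, Place.ord_inv] at h4
      rw [Linf.order_ι k hy, ← h4] at h3
      have h6 : -(Linf.pl k).ord x < (Linf.pl k).ord y := by
        by_contra hcon
        rw [not_lt] at hcon
        nlinarith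
      linarith

include hx hn in
/-- regularity at the finite places in terms of expansions -/
theorem regular_iff_order (L : ∀ a : K, LocalData K F x a I) (u : F) (hu : u ≠ 0) :
    (∀ v : Place K F, 0 ≤ v.ord x → 0 ≤ v.ord u) ↔
      ∀ (a : K) (k : I), 0 ≤ ((L a).ι k u).order := by
  have hI : Nonempty I := (L 0).nonempty_of_finrank hn
  constructor
  · intro h a k
    rw [(L a).order_ι_nonneg_iff k hu]
    apply h
    have hxmem := place_x_mem ((L a).pl k) ((L a).pl_over k)
    rcases (place_mem_iff _ x).mp hxmem with h0 | h0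
    · exact absurd (isAlgebraic_zero (R := K) (A := F)) (h0 ▸ hx)
    · exact h0
  · intro h v hv
    rcases place_over x hx v with ⟨a, ha⟩ | hv'
    · obtain ⟨k, rfl⟩ := (L a).exists_pl_eq hn _ ha
      exact ((L a).order_ι_nonneg_iff k hu).mp (h a k)
    · exact absurd hv (not_le.mpr hv')

include hx hn in
/-- a function all of whose expansions at finite points have nonnegative order is integral
over `K[x]` -/
theorem isIntegral_of_order_nonneg (L : ∀ a : K, LocalData K F x a I) (u : F)
    (h : ∀ (a : K) (k : I), 0 ≤ ((L a).ι k u).order) :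
    IsIntegral (Algebra.adjoin K ({x} : Set F)) u := by
  rcases eq_or_ne u 0 with rfl | hu
  · exact isIntegral_zero
  · exact isIntegral_of_regular x hx u ((regular_iff_order x hx I hn L u hu).mpr h)

end Generic

end Fermat.Agent.FF
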