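/-
S24 project (T24), module [A] part A1-A3 (helper2): places of a function field in one variable
over an algebraically closed field of characteristic zero.

* basic lemmas on the Prelude's `Place.ord`;
* places containing `K[t]` are the height one primes of the integral closure of `K[t]`;
* A1: every place has degree one;
* A2: `∑_{v, ord_v t > 0} ord_v t = [F : K(t)]`;
* A3: principal divisors have degree zero.
-/
import Mathlib
import Fermat.Prelude.Def_AlgebraicCurve_DivisorClassGroup

set_option autoImplicit false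
set_option linter.unusedSectionVars false
set_option linter.style.haveILetI false
set_option linter.deprecated false

noncomputable section

namespace Fermat.Agent.T24

open AlgebraicCurve IntermediateField Polynomial IsDedekindDomain

section Basic

variable {K F : Type*} [Field K] [Field F] [Algebra K F] (v : Place K F)

/-- A nonzero element lies in the valuation ring iff its order is nonnegative. -/
theorem ord_nonneg_iff {f : F} (hf : f ≠ 0) : 0 ≤ v.ord f ↔ f ∈ v.toValuationSubring := by
  obtain ⟨π, hπ⟩ := IsDiscreteValuationRing.exists_irreducible v.toValuationSubring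
  constructor
  · intro h
    obtain ⟨u, hu⟩ := v.exists_unit_mul_zpow hf hπ
    obtain ⟨n, hn⟩ := Int.eq_ofNat_of_zero_le h
    rw [hu, hn, zpow_natCast]
    exact mul_mem (u : v.toValuationSubring).2 (pow_mem π.2 n)
  · intro h
    have hne : (⟨f, h⟩ : v.toValuationSubring) ≠ 0 := fun h0 => hf (congrArg Subtype.val h0)
    obtain ⟨n, u, hu⟩ := IsDiscreteValuationRing.eq_unit_mul_pow_irreducible hne hπ
    have hf' : f = ((u : v.toValuationSubring) : F) * ((π : F) ^ (n : ℤ)) := by
      have := congrArg Subtype.val hu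
      simpa using this
    rw [hf', v.ord_unit_smul_zpow u hπ]
    exact Int.natCast_nonneg n

/-- A nonzero element lies in the maximal ideal iff its order is positive. -/
theorem ord_pos_iff {f : F} (hf : f ≠ 0) :
    0 < v.ord f ↔ f ∈ v.toValuationSubring ∧ f⁻¹ ∉ v.toValuationSubring := by
  rw [← ord_nonneg_iff v hf, ← ord_nonneg_iff v (inv_ne_zero hf), v.ord_inv]
  omega

theorem ord_neg (f : F) : v.ord (-f) = v.ord f := by
  rcases eq_or_ne f 0 with rfl | hf
  · simp
  have h1 : v.ord (-1 : F) = 0 := by
    have h2 : v.ord ((-1 : F) * (-1)) = v.ord (-1 : F) + v.ord (-1 : F) :=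
      v.ord_mul (by simp) (by simp)
    rw [show ((-1 : F) * (-1)) = 1 by ring, v.ord_one] at h2
    omega
  rw [show -f = (-1 : F) * f by ring, v.ord_mul (by simp) hf, h1, zero_add]

/-- Elements of `K^×` have order zero. -/
theorem ord_algebraMap (a : K) : v.ord (algebraMap K F a) = 0 := by
  rcases eq_or_ne a 0 with rfl | ha
  · simp
  have h0 : algebraMap K F a ≠ 0 := by simpa using ha
  have h1 : 0 ≤ v.ord (algebraMap K F a) := (ord_nonneg_iff v h0).mpr (v.algebraMap_mem' a)
  have h2 : 0 ≤ v.ord (algebraMap K F a)⁻¹ := by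
    rw [← map_inv₀]
    exact (ord_nonneg_iff v (by simpa using ha)).mpr (v.algebraMap_mem' a⁻¹)
  rw [v.ord_inv] at h2
  omega

/-- The ultrametric inequality. -/
theorem ord_add_ge {f g : F} (hf : f ≠ 0) (hg : g ≠ 0) (hfg : f + g ≠ 0) :
    min (v.ord f) (v.ord g) ≤ v.ord (f + g) := by
  wlog h : v.ord f ≤ v.ord g generalizing f g
  · rw [min_comm, add_comm]
    exact this hg hf (by rwa [add_comm]) (le_of_not_ge h)
  rw [min_eq_left h]
  have h1 : g / f ∈ v.toValuationSubring := by
    rw [← ord_nonneg_iff v (div_ne_zero hg hf), div_eq_mul_inv, v.ord_mul hg (inv_ne_zero hf),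
      v.ord_inv]
    omega
  have h2 : (f + g) / f ∈ v.toValuationSubring := by
    rw [show (f + g) / f = 1 + g / f by field_simp]
    exact add_mem (one_mem _) h1
  have h3 := (ord_nonneg_iff v (div_ne_zero hfg hf)).mpr h2
  rw [div_eq_mul_inv, v.ord_mul hfg (inv_ne_zero hf), v.ord_inv] at h3
  omega

/-- If `ord f < ord g` then `ord (f + g) = ord f`. -/
theorem ord_add_eq_of_lt {f g : F} (hf : f ≠ 0) (hg : g ≠ 0) (h : v.ord f < v.ord g) :
    v.ord (f + g) = v.ord f := by
  have hfg : f + g ≠ 0 := by
    intro h0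
    have : f = -g := by linear_combination h0
    rw [this, ord_neg] at h
    exact lt_irrefl _ h
  have h1 := ord_add_ge v hf hg hfg
  rw [min_eq_left h.le] at h1
  have h2 := ord_add_ge v hfg (neg_ne_zero.mpr hg) (by simpa using hf)
  rw [add_neg_cancel_right, ord_neg] at h2
  rcases min_le_iff.mp h2 with h3 | h3
  · omega
  · omega

/-- A place is determined by its valuation ring up to inclusion. -/
theorem place_eq_of_le {v w : Place K F} (h : w.toValuationSubring ≤ v.toValuationSubring) :
    w = v := by
  refine Place.ext (le_antisymm h ?_)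
  obtain ⟨π, hπ⟩ := IsDiscreteValuationRing.exists_irreducible w.toValuationSubring
  have hπ0 : (π : F) ≠ 0 := fun h0 => hπ.ne_zero (Subtype.ext h0)
  intro f hf
  by_contra hfw
  have hf0 : f ≠ 0 := fun h0 => hfw (h0 ▸ zero_mem _)
  obtain ⟨u, hu⟩ := w.exists_unit_mul_zpow hf0 hπ
  have hneg : w.ord f < 0 := by
    by_contra hn
    exact hfw ((ord_nonneg_iff w hf0).mp (not_lt.mp hn))
  -- `π⁻¹ ∈ O_v`
  have hu' : ((u⁻¹ : w.toValuationSubringˣ) : F) * f = (π : F) ^ (w.ord f) := by
    have hinv : ((u⁻¹ : w.toValuationSubringˣ) : F) * ((u : w.toValuationSubring) : F) = 1 :=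
      congrArg Subtype.val (Units.inv_mul u)
    conv_lhs => rw [hu, ← mul_assoc, hinv, one_mul]
  have h1 : (π : F) ^ (w.ord f) ∈ v.toValuationSubring := by
    rw [← hu']
    exact mul_mem (h ((u⁻¹ : w.toValuationSubringˣ) : w.toValuationSubring).2) hf
  have h2 : (π : F)⁻¹ ∈ v.toValuationSubring := by
    have h3 : (π : F)⁻¹ = (π : F) ^ (w.ord f) * (π : F) ^ ((-w.ord f - 1).toNat) := by
      rw [← zpow_natCast, Int.toNat_of_nonneg (by omega), ← zpow_add₀ hπ0]
      rw [show w.ord f + (-w.ord f - 1) = -1 by ring, zpow_neg_one]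
    rw [h3]
    exact mul_mem h1 (pow_mem (h π.2) _)
  -- hence every element of `F` lies in `O_v`
  apply v.ne_top'
  refine SetLike.ext fun g => ⟨fun _ => ValuationSubring.mem_top g, fun _ => ?_⟩
  rcases eq_or_ne g 0 with rfl | hg0
  · exact zero_mem _
  obtain ⟨u', hu'⟩ := w.exists_unit_mul_zpow hg0 hπ
  rw [hu']
  refine mul_mem (h (u' : w.toValuationSubring).2) ?_
  rcases le_or_gt 0 (w.ord g) with hn | hn
  · obtain ⟨n, hn'⟩ := Int.eq_ofNat_of_zero_le hn
    rw [hn', zpow_natCast]
    exact pow_mem (h π.2) n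
  · obtain ⟨n, hn'⟩ := Int.eq_ofNat_of_zero_le (by omega : 0 ≤ -w.ord g)
    rw [show w.ord g = -(n : ℤ) by omega, zpow_neg, zpow_natCast, ← inv_pow]
    exact pow_mem h2 n

end Basic

/-! ### Places and the integral closure of `K[X]` -/

section Dedekind

variable {K F : Type*} [Field K] [Field F] [Algebra K F]
variable [Algebra K[X] F] [IsScalarTower K K[X] F]

/-- If `X ∈ O_v` then `K[X] ⊆ O_v`. -/
theorem poly_mem_place (v : Place K F) (hx : algebraMap K[X] F X ∈ v.toValuationSubring)
    (p : K[X]) : algebraMap K[X] F p ∈ v.toValuationSubring := by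
  induction p using Polynomial.induction_on with
  | C a =>
    have : algebraMap K[X] F (C a) = algebraMap K F a := by
      rw [IsScalarTower.algebraMap_apply K K[X] F a, Polynomial.algebraMap_eq]
    rw [this]
    exact v.algebraMap_mem' a
  | add p q hp hq => rw [map_add]; exact add_mem hp hq
  | monomial n a h =>
    rw [pow_succ, ← mul_assoc, map_mul]
    exact mul_mem h hx

/-- If `X ∈ O_v` then the integral closure of `K[X]` is contained in `O_v`. -/
theorem integralClosure_mem_place (v : Place K F)
    (hx : algebraMap K[X] F X ∈ v.toValuationSubring) (b : integralClosure K[X] F) :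
    (b : F) ∈ v.toValuationSubring := by
  have hb : IsIntegral K[X] (b : F) := b.2
  let φ : K[X] →+* v.toValuationSubring :=
    (algebraMap K[X] F).codRestrict v.toValuationSubring.toSubring (poly_mem_place v hx)
  obtain ⟨q, hq, hq0⟩ := hb
  have hint : IsIntegral v.toValuationSubring (b : F) := by
    refine ⟨q.map φ, hq.map φ, ?_⟩
    rw [Polynomial.eval₂_map]
    exact hq0
  obtain ⟨y, hy⟩ := (IsIntegrallyClosed.isIntegral_iff (R := v.toValuationSubring)).mp hint
  rw [← hy]
  exact y.2

variable [IsDedekindDomain ↥(integralClosure K[X] F)]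
  [IsFractionRing ↥(integralClosure K[X] F) F]

/-- A place containing the integral closure `B` of `K[X]` is the place of a height one prime
of `B`. -/
theorem exists_heightOneSpectrum_of_mem (v : Place K F)
    (hv : ∀ b : integralClosure K[X] F, (b : F) ∈ v.toValuationSubring) :
    ∃ w : HeightOneSpectrum ↥(integralClosure K[X] F),
      Place.ofHeightOneSpectrum (K := K) w = v := by
  let φ : ↥(integralClosure K[X] F) →+* v.toValuationSubring :=
    (algebraMap ↥(integralClosure K[X] F) F).codRestrict v.toValuationSubring.toSubring hv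
  have hφ : ∀ b, ((φ b : v.toValuationSubring) : F) = (b : F) := fun b => rfl
  -- non-elements of the centre are units of `O_v`
  have hinv : ∀ b : ↥(integralClosure K[X] F),
      φ b ∉ IsLocalRing.maximalIdeal v.toValuationSubring → (b : F)⁻¹ ∈ v.toValuationSubring := by
    intro b hb
    have hunit : IsUnit (φ b) := by
      by_contra hnu
      exact hb ((IsLocalRing.mem_maximalIdeal _).mpr hnu)
    obtain ⟨u, hu⟩ := hunit
    have h1 : ((u : v.toValuationSubring) : F) = (b : F) := by rw [hu, hφ]
    have h2 : ((u⁻¹ : (v.toValuationSubring)ˣ) : F) * ((u : v.toValuationSubring) : F) = 1 :=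
      congrArg Subtype.val (Units.inv_mul u)
    rw [← h1, ← eq_inv_of_mul_eq_one_left h2]
    exact ((u⁻¹ : (v.toValuationSubring)ˣ) : v.toValuationSubring).2
  let P : Ideal ↥(integralClosure K[X] F) :=
    (IsLocalRing.maximalIdeal v.toValuationSubring).comap φ
  have hPprime : P.IsPrime := Ideal.comap_isPrime φ _
  have hPne : P ≠ ⊥ := by
    intro hbot
    apply v.ne_top'
    refine SetLike.ext fun g => ⟨fun _ => ValuationSubring.mem_top g, fun _ => ?_⟩
    obtain ⟨a, b, hb, rfl⟩ := IsFractionRing.div_surjective (A := ↥(integralClosure K[X] F)) g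
    have hb0 : b ≠ 0 := nonZeroDivisors.ne_zero hb
    have hbP : φ b ∉ IsLocalRing.maximalIdeal v.toValuationSubring := by
      intro hmem
      have : b ∈ P := hmem
      rw [hbot, Ideal.mem_bot] at this
      exact hb0 this
    rw [div_eq_mul_inv]
    exact mul_mem (hv a) (hinv b hbP)
  refine ⟨⟨P, hPprime, hPne⟩, place_eq_of_le ?_⟩
  intro x hx
  have hx' : (HeightOneSpectrum.valuation F
      (⟨P, hPprime, hPne⟩ : HeightOneSpectrum ↥(integralClosure K[X] F))) x ≤ 1 := hx
  obtain ⟨n, d, hnd⟩ := HeightOneSpectrum.exists_primeCompl_mul_eq_of_integer _ x hx'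
  have hd : φ d ∉ IsLocalRing.maximalIdeal v.toValuationSubring := fun hmem => d.2 hmem
  have hd0 : ((d : ↥(integralClosure K[X] F)) : F) ≠ 0 := by
    intro h0
    have h1 : ((d : ↥(integralClosure K[X] F))) = 0 := Subtype.ext h0
    exact d.2 (by rw [h1]; exact Ideal.zero_mem _)
  have hxeq : x = (n : F) * ((d : ↥(integralClosure K[X] F)) : F)⁻¹ := by
    have h2 : x * ((d : ↥(integralClosure K[X] F)) : F) = (n : F) := hnd
    rw [← h2, mul_assoc, mul_inv_cancel₀ hd0, mul_one]
  rw [hxeq]
  exact mul_mem (hv n) (hinv d hd)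

/-- Membership in the valuation ring of the place of a height one prime. -/
theorem mem_ofHeightOneSpectrum_iff (w : HeightOneSpectrum ↥(integralClosure K[X] F)) (f : F) :
    f ∈ (Place.ofHeightOneSpectrum (K := K) w).toValuationSubring ↔
      HeightOneSpectrum.valuation F w f ≤ 1 := Iff.rfl

/-- The order at the place of a height one prime is the adic valuation of that prime. -/
theorem ord_ofHeightOneSpectrum (w : HeightOneSpectrum ↥(integralClosure K[X] F)) (f : F) :
    (Place.ofHeightOneSpectrum (K := K) w).ord f =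
      -(WithZero.log (HeightOneSpectrum.valuation F w f)) := by
  set v : Place K F := Place.ofHeightOneSpectrum (K := K) w with hv
  rcases eq_or_ne f 0 with rfl | hf
  · simp
  obtain ⟨ϖ, hϖ⟩ := IsDiscreteValuationRing.exists_irreducible v.toValuationSubring
  have hϖ0 : (ϖ : F) ≠ 0 := fun h0 => hϖ.ne_zero (Subtype.ext h0)
  have hval0 : ∀ {g : F}, g ≠ 0 → HeightOneSpectrum.valuation F w g ≠ 0 :=
    fun hg => (Valuation.ne_zero_iff _).mpr hg
  -- units of `O_v` have valuation one
  have hunit : ∀ u : (v.toValuationSubring)ˣ,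
      HeightOneSpectrum.valuation F w ((u : v.toValuationSubring) : F) = 1 := by
    intro u
    have h1 : HeightOneSpectrum.valuation F w ((u : v.toValuationSubring) : F) ≤ 1 :=
      (u : v.toValuationSubring).2
    have h2 : HeightOneSpectrum.valuation F w (((u⁻¹ : (v.toValuationSubring)ˣ) :
        v.toValuationSubring) : F) ≤ 1 := ((u⁻¹ : (v.toValuationSubring)ˣ) : v.toValuationSubring).2
    have h3 : ((u⁻¹ : (v.toValuationSubring)ˣ) : F) * ((u : v.toValuationSubring) : F) = 1 :=
      congrArg Subtype.val (Units.inv_mul u)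
    have h4 := congrArg (HeightOneSpectrum.valuation F w) h3
    rw [map_mul, map_one] at h4
    exact le_antisymm h1 (by
      by_contra hlt
      have hlt' := not_le.mp hlt
      have : HeightOneSpectrum.valuation F w (((u⁻¹ : (v.toValuationSubring)ˣ) :
          v.toValuationSubring) : F) * HeightOneSpectrum.valuation F w
            ((u : v.toValuationSubring) : F) < 1 := by
        calc _ ≤ 1 * HeightOneSpectrum.valuation F w ((u : v.toValuationSubring) : F) :=
              mul_le_mul_left h2 _
          _ = HeightOneSpectrum.valuation F w ((u : v.toValuationSubring) : F) := one_mul _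
          _ < 1 := hlt'
      rw [h4] at this
      exact lt_irrefl _ this)
  -- the valuation of a general element
  have key : ∀ {g : F}, g ≠ 0 → WithZero.log (HeightOneSpectrum.valuation F w g) =
      v.ord g * WithZero.log (HeightOneSpectrum.valuation F w (ϖ : F)) := by
    intro g hg
    obtain ⟨u, hu⟩ := v.exists_unit_mul_zpow hg hϖ
    conv_lhs => rw [hu, map_mul, hunit u, one_mul, map_zpow₀, WithZero.log_zpow, smul_eq_mul]
  -- the valuation of the uniformizer is `exp (-1)`
  obtain ⟨π, hπ⟩ := HeightOneSpectrum.valuation_exists_uniformizer F w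
  have hπ0 : π ≠ 0 := by
    intro h0
    rw [h0, map_zero] at hπ
    exact WithZero.exp_ne_zero hπ.symm
  have h1 := key hπ0
  rw [hπ, WithZero.log_exp] at h1
  have hle : WithZero.log (HeightOneSpectrum.valuation F w (ϖ : F)) ≤ 0 := by
    rw [WithZero.log_le_iff_le_exp (hval0 hϖ0), WithZero.exp_zero]
    exact ϖ.2
  have hc : WithZero.log (HeightOneSpectrum.valuation F w (ϖ : F)) = -1 := by
    have h2 : v.ord π * WithZero.log (HeightOneSpectrum.valuation F w (ϖ : F)) = -1 := h1.symm
    rcases Int.isUnit_iff.mp (IsUnit.of_mul_eq_one (a := WithZero.log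
        (HeightOneSpectrum.valuation F w (ϖ : F))) (b := -v.ord π) (by linarith)) with h3 | h3
    · omega
    · exact h3
  rw [key hf, hc]
  ring

/-- The place of a height one prime determines the prime. -/
theorem ofHeightOneSpectrum_injective :
    Function.Injective (Place.ofHeightOneSpectrum (K := K) (F := F)
      (R := ↥(integralClosure K[X] F))) := by
  intro w w' h
  apply HeightOneSpectrum.ext
  ext b
  rw [← HeightOneSpectrum.valuation_lt_one_iff_mem (K := F),
    ← HeightOneSpectrum.valuation_lt_one_iff_mem (K := F)]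
  rcases eq_or_ne b 0 with rfl | hb
  · simp
  have hbF : (algebraMap ↥(integralClosure K[X] F) F b) ≠ 0 := by
    simpa using hb
  have h1 := ord_ofHeightOneSpectrum (K := K) w (algebraMap ↥(integralClosure K[X] F) F b)
  have h2 := ord_ofHeightOneSpectrum (K := K) w' (algebraMap ↥(integralClosure K[X] F) F b)
  rw [h] at h1
  have h3 : WithZero.log (HeightOneSpectrum.valuation F w
      (algebraMap ↥(integralClosure K[X] F) F b)) = WithZero.log (HeightOneSpectrum.valuation F w'
      (algebraMap ↥(integralClosure K[X] F) F b)) := by linarith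
  have hv0 : HeightOneSpectrum.valuation F w (algebraMap ↥(integralClosure K[X] F) F b) ≠ 0 :=
    (Valuation.ne_zero_iff _).mpr hbF
  have hv0' : HeightOneSpectrum.valuation F w' (algebraMap ↥(integralClosure K[X] F) F b) ≠ 0 :=
    (Valuation.ne_zero_iff _).mpr hbF
  rw [← WithZero.exp_log hv0, ← WithZero.exp_log hv0', h3]

/-- Positivity of the order at the place of `w`, for elements of `B`. -/
theorem ord_ofHeightOneSpectrum_pos_iff (w : HeightOneSpectrum ↥(integralClosure K[X] F))
    {b : ↥(integralClosure K[X] F)} (hb : b ≠ 0) :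
    0 < (Place.ofHeightOneSpectrum (K := K) w).ord (b : F) ↔ b ∈ w.asIdeal := by
  have hbF : (algebraMap ↥(integralClosure K[X] F) F b) ≠ 0 := by simpa using hb
  have hv0 : HeightOneSpectrum.valuation F w (algebraMap ↥(integralClosure K[X] F) F b) ≠ 0 :=
    (Valuation.ne_zero_iff _).mpr hbF
  rw [← HeightOneSpectrum.valuation_lt_one_iff_mem (K := F)]
  have h1 := ord_ofHeightOneSpectrum (K := K) w (algebraMap ↥(integralClosure K[X] F) F b)
  have h2 : (b : F) = algebraMap ↥(integralClosure K[X] F) F b := rfl
  rw [h2, h1, neg_pos, WithZero.log_lt_iff_lt_exp hv0, WithZero.exp_zero]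

/-- The order at the place of `w` of an element of `B` counts the power of `w` containing it. -/
theorem le_ord_ofHeightOneSpectrum_iff (w : HeightOneSpectrum ↥(integralClosure K[X] F))
    {b : ↥(integralClosure K[X] F)} (hb : b ≠ 0) (n : ℕ) :
    (n : ℤ) ≤ (Place.ofHeightOneSpectrum (K := K) w).ord (b : F) ↔ b ∈ w.asIdeal ^ n := by
  have hbF : (algebraMap ↥(integralClosure K[X] F) F b) ≠ 0 := by simpa using hb
  have hv0 : HeightOneSpectrum.valuation F w (algebraMap ↥(integralClosure K[X] F) F b) ≠ 0 :=
    (Valuation.ne_zero_iff _).mpr hbF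
  rw [← HeightOneSpectrum.intValuation_le_pow_iff_mem,
    ← HeightOneSpectrum.valuation_of_algebraMap (K := F)]
  have h1 := ord_ofHeightOneSpectrum (K := K) w (algebraMap ↥(integralClosure K[X] F) F b)
  have h2 : (b : F) = algebraMap ↥(integralClosure K[X] F) F b := rfl
  rw [h2, h1, le_neg, WithZero.log_le_iff_le_exp hv0]

/-! ### The fundamental identity over a point `X = a` -/

section Fundamental

variable [FaithfulSMul K[X] F]

theorem faithfulSMul_integralClosure : FaithfulSMul K[X] ↥(integralClosure K[X] F) :=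
  (faithfulSMul_iff_algebraMap_injective _ _).mpr fun p q h =>
    FaithfulSMul.algebraMap_injective K[X] F (by
      have := congrArg (algebraMap ↥(integralClosure K[X] F) F) h
      rwa [← IsScalarTower.algebraMap_apply, ← IsScalarTower.algebraMap_apply] at this)

theorem span_X_sub_C_isMaximal (a : K) : (Ideal.span {X - C a} : Ideal K[X]).IsMaximal :=
  PrincipalIdealRing.isMaximal_of_irreducible (Polynomial.irreducible_X_sub_C a)

theorem span_X_sub_C_ne_bot (a : K) : (Ideal.span {X - C a} : Ideal K[X]) ≠ ⊥ := by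
  rw [Ne, Ideal.span_singleton_eq_bot]
  exact Polynomial.X_sub_C_ne_zero a

theorem algebraMap_X_sub_C (a : K) :
    algebraMap K[X] F (X - C a) = algebraMap K[X] F X - algebraMap K F a := by
  rw [map_sub, IsScalarTower.algebraMap_apply K K[X] F a, Polynomial.algebraMap_eq]

variable [IsAlgClosed K] [Module.Finite K[X] ↥(integralClosure K[X] F)]

/-- Modulo a prime over `X - a`, every element of `B` is congruent to a constant. -/
theorem exists_const_sub_mem (a : K) (P : Ideal ↥(integralClosure K[X] F)) [P.IsPrime]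
    [P.LiesOver (Ideal.span {X - C a} : Ideal K[X])] (b : ↥(integralClosure K[X] F)) :
    ∃ c : K, b - algebraMap K ↥(integralClosure K[X] F) c ∈ P := by
  haveI : Module.Finite K (K[X] ⧸ (Ideal.span {X - C a} : Ideal K[X])) :=
    Module.Finite.equiv (quotientSpanXSubCAlgEquiv a).symm.toLinearEquiv
  haveI : Module.Finite K (↥(integralClosure K[X] F) ⧸ P) :=
    Module.Finite.trans (K[X] ⧸ (Ideal.span {X - C a} : Ideal K[X])) _
  haveI : Algebra.IsIntegral K (↥(integralClosure K[X] F) ⧸ P) := Algebra.IsIntegral.of_finite K _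
  obtain ⟨c, hc⟩ := (IsAlgClosed.algebraMap_bijective_of_isIntegral (k := K)
    (K := ↥(integralClosure K[X] F) ⧸ P)).2 (Ideal.Quotient.mk P b)
  refine ⟨c, ?_⟩
  rw [← Ideal.Quotient.eq]
  exact hc.symm

/-- The inertia degree of a prime over `X - a` is one. -/
theorem inertiaDeg_eq_one (a : K) (P : Ideal ↥(integralClosure K[X] F)) [P.IsPrime]
    [P.LiesOver (Ideal.span {X - C a} : Ideal K[X])] :
    Ideal.inertiaDeg' (Ideal.span {X - C a} : Ideal K[X]) P = 1 := by
  haveI := span_X_sub_C_isMaximal a
  letI := Ideal.Quotient.field (Ideal.span {X - C a} : Ideal K[X])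
  rw [Ideal.inertiaDeg'_algebraMap, finrank_eq_one_iff']
  refine ⟨1, one_ne_zero, fun w => ?_⟩
  obtain ⟨b, rfl⟩ := Ideal.Quotient.mk_surjective w
  obtain ⟨c, hc⟩ := exists_const_sub_mem a P b
  refine ⟨Ideal.Quotient.mk _ (C c), ?_⟩
  rw [Algebra.smul_def, mul_one]
  have h1 : algebraMap (K[X] ⧸ (Ideal.span {X - C a} : Ideal K[X]))
      (↥(integralClosure K[X] F) ⧸ P) (Ideal.Quotient.mk _ (C c)) =
      Ideal.Quotient.mk P (algebraMap K[X] ↥(integralClosure K[X] F) (C c)) := rfl
  rw [h1, eq_comm, Ideal.Quotient.eq]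
  have h2 : algebraMap K[X] ↥(integralClosure K[X] F) (C c) =
      algebraMap K ↥(integralClosure K[X] F) c := by
    rw [IsScalarTower.algebraMap_apply K K[X] ↥(integralClosure K[X] F) c, Polynomial.algebraMap_eq]
  rw [h2]
  exact hc

/-- The ramification index of a prime over `X - a` is the order of `x - a` at its place. -/
theorem ramificationIdx_eq_ord (a : K) (w : HeightOneSpectrum ↥(integralClosure K[X] F)) :
    ((Ideal.ramificationIdx' (Ideal.span {X - C a} : Ideal K[X]) w.asIdeal : ℕ) : ℤ) =
      (Place.ofHeightOneSpectrum (K := K) w).ord (algebraMap K[X] F (X - C a)) := by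
  haveI := faithfulSMul_integralClosure (K := K) (F := F)
  set tB : ↥(integralClosure K[X] F) := algebraMap K[X] ↥(integralClosure K[X] F) (X - C a)
    with htB
  have htB0 : tB ≠ 0 := by
    rw [htB, Ne, map_eq_zero_iff _ (FaithfulSMul.algebraMap_injective K[X] _)]
    exact Polynomial.X_sub_C_ne_zero a
  have hcoe : algebraMap K[X] F (X - C a) = (tB : F) := by
    rw [htB, IsScalarTower.algebraMap_apply K[X] ↥(integralClosure K[X] F) F]
    rfl
  rw [hcoe]
  have h0 : (0 : ℤ) ≤ (Place.ofHeightOneSpectrum (K := K) w).ord (tB : F) := by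
    have := (le_ord_ofHeightOneSpectrum_iff (K := K) w htB0 0).mpr (by simp)
    simpa using this
  obtain ⟨n, hn⟩ := Int.eq_ofNat_of_zero_le h0
  rw [hn]
  have hmap : Ideal.map (algebraMap K[X] ↥(integralClosure K[X] F))
      (Ideal.span {X - C a} : Ideal K[X]) = Ideal.span {tB} := by
    rw [Ideal.map_span, Set.image_singleton]
  congr 1
  refine Ideal.ramificationIdx'_spec ?_ ?_
  · rw [hmap, Ideal.span_singleton_le_iff_mem]
    exact (le_ord_ofHeightOneSpectrum_iff (K := K) w htB0 n).mp (le_of_eq hn.symm)
  · rw [hmap, Ideal.span_singleton_le_iff_mem]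
    intro hmem
    have := (le_ord_ofHeightOneSpectrum_iff (K := K) w htB0 (n + 1)).mpr hmem
    rw [hn] at this
    push_cast at this
    omega

/-- **The fundamental identity over `X = a`**: the places `v` with `ord_v (x - a) > 0` are finite
in number and `∑ ord_v (x - a) = [F : K(x)]`. -/
theorem exists_finset_places_over (a : K) (L : Type*) [Field L] [Algebra K[X] L]
    [IsFractionRing K[X] L] [Algebra L F] [IsScalarTower K[X] L F] :
    ∃ s : Finset (Place K F),
      (∀ v, v ∈ s ↔ 0 < v.ord (algebraMap K[X] F X - algebraMap K F a)) ∧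
      ∑ v ∈ s, v.ord (algebraMap K[X] F X - algebraMap K F a) = (Module.finrank L F : ℤ) := by
  rw [← algebraMap_X_sub_C]
  haveI := span_X_sub_C_isMaximal a
  have hp0 := span_X_sub_C_ne_bot a
  haveI := faithfulSMul_integralClosure (K := K) (F := F)
  have hsum := Ideal.sum_ramification_inertia (R := K[X]) ↥(integralClosure K[X] F) L F hp0
  set S := IsDedekindDomain.primesOverFinset (Ideal.span {X - C a} : Ideal K[X])
    ↥(integralClosure K[X] F) with hSdef
  have hS : ∀ P ∈ S, P.IsPrime ∧ P.LiesOver (Ideal.span {X - C a} : Ideal K[X]) :=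
    fun P hP => (IsDedekindDomain.mem_primesOverFinset_iff hp0 _).mp hP
  set tB : ↥(integralClosure K[X] F) := algebraMap K[X] ↥(integralClosure K[X] F) (X - C a)
    with htB
  have htB0 : tB ≠ 0 := by
    rw [htB, Ne, map_eq_zero_iff _ (FaithfulSMul.algebraMap_injective K[X] _)]
    exact Polynomial.X_sub_C_ne_zero a
  have hcoe : algebraMap K[X] F (X - C a) = (tB : F) := by
    rw [htB, IsScalarTower.algebraMap_apply K[X] ↥(integralClosure K[X] F) F]
    rfl
  have htBmem : ∀ P ∈ S, tB ∈ P := by
    intro P hP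
    haveI := (hS P hP).2
    have h1 : (X - C a : K[X]) ∈ (Ideal.span {X - C a} : Ideal K[X]) :=
      Ideal.mem_span_singleton_self _
    rw [Ideal.LiesOver.over (P := P) (p := (Ideal.span {X - C a} : Ideal K[X]))] at h1
    exact h1
  have hne : ∀ P ∈ S, P ≠ ⊥ := by
    intro P hP hbot
    have := htBmem P hP
    rw [hbot, Ideal.mem_bot] at this
    exact htB0 this
  let g : {P // P ∈ S} → Place K F := fun P =>
    Place.ofHeightOneSpectrum (K := K) ⟨P.1, (hS P.1 P.2).1, hne P.1 P.2⟩
  have hg : Function.Injective g := by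
    intro P Q hPQ
    have := ofHeightOneSpectrum_injective (K := K) (F := F) hPQ
    exact Subtype.ext (congrArg HeightOneSpectrum.asIdeal this)
  refine ⟨S.attach.map ⟨g, hg⟩, fun v => ?_, ?_⟩
  · rw [Finset.mem_map]
    constructor
    · rintro ⟨P, -, rfl⟩
      rw [hcoe]
      exact (ord_ofHeightOneSpectrum_pos_iff (K := K) _ htB0).mpr (htBmem P.1 P.2)
    · intro hpos
      have ht0 : algebraMap K[X] F (X - C a) ≠ 0 := by
        rw [hcoe]
        exact fun h0 => htB0 (Subtype.ext h0)
      have hmem : algebraMap K[X] F (X - C a) ∈ v.toValuationSubring :=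
        (ord_nonneg_iff v ht0).mp hpos.le
      have hx : algebraMap K[X] F X ∈ v.toValuationSubring := by
        have h1 : algebraMap K[X] F X = algebraMap K[X] F (X - C a) + algebraMap K F a := by
          rw [algebraMap_X_sub_C]; ring
        rw [h1]
        exact add_mem hmem (v.algebraMap_mem' a)
      obtain ⟨w, rfl⟩ := exists_heightOneSpectrum_of_mem v (integralClosure_mem_place v hx)
      rw [hcoe] at hpos
      have htw : tB ∈ w.asIdeal := (ord_ofHeightOneSpectrum_pos_iff (K := K) w htB0).mp hpos
      have hle : (Ideal.span {X - C a} : Ideal K[X]) ≤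
          w.asIdeal.comap (algebraMap K[X] ↥(integralClosure K[X] F)) := by
        rw [Ideal.span_singleton_le_iff_mem]
        exact htw
      have hcomap_ne : w.asIdeal.comap (algebraMap K[X] ↥(integralClosure K[X] F)) ≠ ⊤ :=
        (Ideal.comap_isPrime _ _).ne_top
      have hover : w.asIdeal.LiesOver (Ideal.span {X - C a} : Ideal K[X]) :=
        ⟨(Ideal.IsMaximal.eq_of_le inferInstance hcomap_ne hle)⟩
      have hwS : w.asIdeal ∈ S :=
        (IsDedekindDomain.mem_primesOverFinset_iff hp0 _).mpr ⟨w.isPrime, hover⟩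
      exact ⟨⟨w.asIdeal, hwS⟩, Finset.mem_attach _ _, rfl⟩
  · rw [Finset.sum_map]
    have h1 : ∀ P ∈ S.attach, (g P).ord (algebraMap K[X] F (X - C a)) =
        ((Ideal.ramificationIdx' (Ideal.span {X - C a} : Ideal K[X]) P.1 *
          Ideal.inertiaDeg' (Ideal.span {X - C a} : Ideal K[X]) P.1 : ℕ) : ℤ) := by
      intro P _
      haveI := (hS P.1 P.2).1
      haveI := (hS P.1 P.2).2
      rw [inertiaDeg_eq_one a P.1, mul_one]
      exact (ramificationIdx_eq_ord (K := K) a ⟨P.1, (hS P.1 P.2).1, hne P.1 P.2⟩).symm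
    show ∑ P ∈ S.attach, (g P).ord (algebraMap K[X] F (X - C a)) = _
    rw [Finset.sum_congr rfl h1, ← hsum, Nat.cast_sum]
    exact Finset.sum_attach S
      (fun P => ((Ideal.ramificationIdx' (Ideal.span {X - C a} : Ideal K[X]) P *
        Ideal.inertiaDeg' (Ideal.span {X - C a} : Ideal K[X]) P : ℕ) : ℤ))

/-- Modulo any height one prime, every element of `B` is congruent to a constant. -/
theorem exists_const_sub_mem_heightOne (w : HeightOneSpectrum ↥(integralClosure K[X] F))
    (b : ↥(integralClosure K[X] F)) :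
    ∃ c : K, b - algebraMap K ↥(integralClosure K[X] F) c ∈ w.asIdeal := by
  haveI : w.asIdeal.IsMaximal := w.isMaximal
  letI := Ideal.Quotient.field w.asIdeal
  haveI : Algebra.FiniteType K ↥(integralClosure K[X] F) :=
    Algebra.FiniteType.trans (inferInstance : Algebra.FiniteType K K[X])
      (inferInstance : Algebra.FiniteType K[X] ↥(integralClosure K[X] F))
  haveI : Algebra.FiniteType K (↥(integralClosure K[X] F) ⧸ w.asIdeal) :=
    Algebra.FiniteType.of_surjective (Ideal.Quotient.mkₐ K w.asIdeal)
      (Ideal.Quotient.mkₐ_surjective K _)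
  haveI : Module.Finite K (↥(integralClosure K[X] F) ⧸ w.asIdeal) :=
    finite_of_finite_type_of_isJacobsonRing K _
  haveI : Algebra.IsIntegral K (↥(integralClosure K[X] F) ⧸ w.asIdeal) :=
    Algebra.IsIntegral.of_finite K _
  obtain ⟨c, hc⟩ := (IsAlgClosed.algebraMap_bijective_of_isIntegral (k := K)
    (K := ↥(integralClosure K[X] F) ⧸ w.asIdeal)).2 (Ideal.Quotient.mk w.asIdeal b)
  refine ⟨c, ?_⟩
  rw [← Ideal.Quotient.eq]
  exact hc.symm

/-- Every element of the valuation ring of the place of `w` is congruent to a constant. -/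
theorem exists_const_of_mem_ofHeightOneSpectrum
    (w : HeightOneSpectrum ↥(integralClosure K[X] F)) {f : F}
    (hf : f ∈ (Place.ofHeightOneSpectrum (K := K) w).toValuationSubring) :
    ∃ c : K, f = algebraMap K F c ∨
      0 < (Place.ofHeightOneSpectrum (K := K) w).ord (f - algebraMap K F c) := by
  obtain ⟨n, d, hnd⟩ := HeightOneSpectrum.exists_primeCompl_mul_eq_of_integer w f hf
  obtain ⟨α, hα⟩ := exists_const_sub_mem_heightOne w n
  obtain ⟨β, hβ⟩ := exists_const_sub_mem_heightOne w (d : ↥(integralClosure K[X] F))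
  have hd : (d : ↥(integralClosure K[X] F)) ∉ w.asIdeal := d.2
  have hβ0 : β ≠ 0 := by
    rintro rfl
    rw [map_zero, sub_zero] at hβ
    exact hd hβ
  have hd0 : (d : ↥(integralClosure K[X] F)) ≠ 0 := fun h0 => hd (h0 ▸ Ideal.zero_mem _)
  have hdF : ((d : ↥(integralClosure K[X] F)) : F) ≠ 0 := fun h0 => hd0 (Subtype.ext h0)
  refine ⟨α / β, ?_⟩
  by_cases hfc : f = algebraMap K F (α / β)
  · exact Or.inl hfc
  right
  -- `f - α/β = b' / d` with `b' ∈ w`
  set b' : ↥(integralClosure K[X] F) :=
    (n - algebraMap K _ α) - algebraMap K _ (α / β) * ((d : ↥(integralClosure K[X] F)) -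
      algebraMap K _ β) with hb'
  have hb'mem : b' ∈ w.asIdeal := Ideal.sub_mem _ hα (Ideal.mul_mem_left _ _ hβ)
  have hcoeK : ∀ c : K, ((algebraMap K ↥(integralClosure K[X] F) c :
      ↥(integralClosure K[X] F)) : F) = algebraMap K F c := fun c =>
    (IsScalarTower.algebraMap_apply K ↥(integralClosure K[X] F) F c).symm
  have hb'F : (b' : F) = (f - algebraMap K F (α / β)) * ((d : ↥(integralClosure K[X] F)) : F) := by
    have h1 : f * ((d : ↥(integralClosure K[X] F)) : F) = (n : F) := hnd
    have h2 : (b' : F) = ((n : F) - algebraMap K F α) - algebraMap K F (α / β) *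
        (((d : ↥(integralClosure K[X] F)) : F) - algebraMap K F β) := by
      have e1 := hcoeK α
      have e2 := hcoeK β
      have e3 := hcoeK (α / β)
      show ((n : F) - ((algebraMap K ↥(integralClosure K[X] F) α : ↥(integralClosure K[X] F)) : F))
        - ((algebraMap K ↥(integralClosure K[X] F) (α / β) : ↥(integralClosure K[X] F)) : F) *
          (((d : ↥(integralClosure K[X] F)) : F) -
            ((algebraMap K ↥(integralClosure K[X] F) β : ↥(integralClosure K[X] F)) : F)) = _
      rw [e1, e2, e3]
    rw [h2, ← h1, map_div₀]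
    have hβF : algebraMap K F β ≠ 0 := by simpa using hβ0
    field_simp
    ring
  have hsub : f - algebraMap K F (α / β) ≠ 0 := sub_ne_zero.mpr hfc
  have hb'0 : b' ≠ 0 := by
    intro h0
    have : (b' : F) = 0 := by rw [h0]; rfl
    rw [hb'F] at this
    exact (mul_ne_zero hsub hdF) this
  have h3 : 0 < (Place.ofHeightOneSpectrum (K := K) w).ord (b' : F) :=
    (ord_ofHeightOneSpectrum_pos_iff (K := K) w hb'0).mpr hb'mem
  have h4 : (Place.ofHeightOneSpectrum (K := K) w).ord
      (((d : ↥(integralClosure K[X] F)) : F)) = 0 := by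
    have h5 : ¬ 0 < (Place.ofHeightOneSpectrum (K := K) w).ord
        (((d : ↥(integralClosure K[X] F)) : F)) :=
      fun h => hd ((ord_ofHeightOneSpectrum_pos_iff (K := K) w hd0).mp h)
    have h6 : (0 : ℤ) ≤ (Place.ofHeightOneSpectrum (K := K) w).ord
        (((d : ↥(integralClosure K[X] F)) : F)) := by
      have := (le_ord_ofHeightOneSpectrum_iff (K := K) w hd0 0).mpr (by simp)
      simpa using this
    omega
  rw [hb'F, Place.ord_mul _ hsub hdF, h4, add_zero] at h3
  exact h3

end Fundamental

end Dedekind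

/-! ### Instantiating the Dedekind picture for a function field -/

section Instantiate

variable {K F : Type*} [Field K] [Field F] [Algebra K F] [IsAlgClosed K] [CharZero K]

/-- Packaging: for `t` transcendental with `F / K(t)` finite, `F` becomes a `K[X]`-algebra via
`X ↦ t`, the integral closure of `K[X]` is a Dedekind domain with fraction field `F`, finite over
`K[X]`, and the fundamental identity holds over every point. -/
theorem exists_poly_structure (t : F) (ht : Transcendental K t) [FiniteDimensional K⟮t⟯ F]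
    {motive : Prop}
    (h : ∀ [Algebra K[X] F] [IsScalarTower K K[X] F] [FaithfulSMul K[X] F]
      [IsDedekindDomain ↥(integralClosure K[X] F)]
      [IsFractionRing ↥(integralClosure K[X] F) F]
      [Module.Finite K[X] ↥(integralClosure K[X] F)],
      algebraMap K[X] F X = t →
      (∀ a : K, ∃ s : Finset (Place K F), (∀ v, v ∈ s ↔ 0 < v.ord (t - algebraMap K F a)) ∧
        ∑ v ∈ s, v.ord (t - algebraMap K F a) = (Module.finrank K⟮t⟯ F : ℤ)) → motive) :
    motive := by
  letI : Algebra K[X] F := (aeval t).toRingHom.toAlgebra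
  have halg : ∀ p : K[X], algebraMap K[X] F p = aeval t p := fun p => rfl
  haveI : IsScalarTower K K[X] F := IsScalarTower.of_algebraMap_eq fun a => by
    rw [halg, Polynomial.algebraMap_eq, aeval_C]
  haveI : FaithfulSMul K[X] F :=
    (faithfulSMul_iff_algebraMap_injective _ _).mpr (transcendental_iff_injective.mp ht)
  letI : Algebra K[X] K⟮t⟯ := (aeval (AdjoinSimple.gen K t)).toRingHom.toAlgebra
  have halg' : ∀ p : K[X], algebraMap K[X] K⟮t⟯ p = aeval (AdjoinSimple.gen K t) p := fun p => rfl
  have hcoe : ∀ p : K[X], ((aeval (AdjoinSimple.gen K t) p : K⟮t⟯) : F) = aeval t p := by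
    intro p
    have := aeval_algebraMap_apply F (AdjoinSimple.gen K t) p
    rw [AdjoinSimple.algebraMap_gen] at this
    exact this.symm
  haveI : IsScalarTower K[X] K⟮t⟯ F := IsScalarTower.of_algebraMap_eq fun p => by
    rw [halg, halg']
    exact (hcoe p).symm
  haveI : FaithfulSMul K[X] K⟮t⟯ := (faithfulSMul_iff_algebraMap_injective _ _).mpr (by
    intro p q hpq
    apply transcendental_iff_injective.mp ht
    have := congrArg (algebraMap K⟮t⟯ F) hpq
    rw [halg', halg'] at this
    exact (hcoe p).symm.trans (this.trans (hcoe q)))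
  haveI : IsFractionRing K[X] K⟮t⟯ := IsFractionRing.of_field K[X] K⟮t⟯ (by
    intro z
    obtain ⟨r, s, hrs⟩ := (mem_adjoin_simple_iff K (z : F)).mp z.2
    refine ⟨r, s, Subtype.ext ?_⟩
    rw [hrs, halg', halg']
    show _ = ((aeval (AdjoinSimple.gen K t) r : K⟮t⟯) : F) / ((aeval (AdjoinSimple.gen K t) s : K⟮t⟯) : F)
    rw [hcoe, hcoe])
  haveI : CharZero F := charZero_of_injective_algebraMap (algebraMap K F).injective
  haveI : CharZero K⟮t⟯ := charZero_of_injective_algebraMap (algebraMap K K⟮t⟯).injective
  haveI : Algebra.IsSeparable K⟮t⟯ F := inferInstance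
  haveI : IsDedekindDomain ↥(integralClosure K[X] F) :=
    IsIntegralClosure.isDedekindDomain K[X] K⟮t⟯ F _
  haveI : IsFractionRing ↥(integralClosure K[X] F) F :=
    IsIntegralClosure.isFractionRing_of_finite_extension K[X] K⟮t⟯ F _
  haveI : Module.Finite K[X] ↥(integralClosure K[X] F) :=
    IsIntegralClosure.finite K[X] K⟮t⟯ F _
  have hX : algebraMap K[X] F X = t := by rw [halg, aeval_X]
  refine h hX fun a => ?_
  have := exists_finset_places_over (K := K) (F := F) a K⟮t⟯
  rwa [hX] at this

end Instantiate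

/-! ### Exchange of the transcendental generator -/

section Exchange

/-- Finiteness passes to a larger ring of scalars. -/
theorem finite_of_algebraMap_mem {A B M : Type*} [CommRing A] [CommRing B] [CommRing M]
    [Algebra A M] [Algebra B M] [Module.Finite A M]
    (h : ∀ a : A, ∃ b : B, algebraMap B M b = algebraMap A M a) : Module.Finite B M := by
  obtain ⟨s, hs⟩ := (Module.Finite.fg_top : (⊤ : Submodule A M).FG)
  have key : ∀ f : M, f ∈ Submodule.span A (s : Set M) → f ∈ Submodule.span B (s : Set M) := by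
    intro f hf
    induction hf using Submodule.span_induction with
    | mem x hx => exact Submodule.subset_span hx
    | zero => exact zero_mem _
    | add x y _ _ hx hy => exact add_mem hx hy
    | smul a x _ hx =>
      obtain ⟨b, hb⟩ := h a
      rw [Algebra.smul_def, ← hb, ← Algebra.smul_def]
      exact Submodule.smul_mem _ b hx
  exact ⟨⟨s, top_le_iff.mp fun f _ => key f (hs ▸ Submodule.mem_top)⟩⟩

variable {K F : Type*} [Field K] [Field F] [Algebra K F]

open scoped algebraAdjoinAdjoin in
/-- If `F / K(x)` is algebraic, every transcendental element is a transcendence basis. -/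
theorem isAlgebraic_adjoin_simple_of_transcendental (x : F) [Algebra.IsAlgebraic K⟮x⟯ F] {g : F}
    (hg : Transcendental K g) : Algebra.IsAlgebraic K⟮g⟯ F := by
  haveI : Algebra.IsAlgebraic (Algebra.adjoin K ({x} : Set F)) F :=
    IsFractionRing.comap_isAlgebraic_iff.mpr (inferInstance : Algebra.IsAlgebraic K⟮x⟯ F)
  have h1 : Algebra.trdeg K F ≤ Cardinal.mk ({x} : Set F) :=
    Algebra.IsAlgebraic.trdeg_le_cardinalMk K ({x} : Set F)
  have h2 : AlgebraicIndependent K (fun _ : Unit => g) :=
    algebraicIndependent_unique_type_iff.mpr hg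
  have h3 : IsTranscendenceBasis K (fun _ : Unit => g) := by
    refine h2.isTranscendenceBasis_of_lift_trdeg_le_of_finite ?_
    have h4 : Cardinal.mk ({x} : Set F) = 1 := by simp
    rw [h4] at h1
    simpa using h1
  have h5 := h3.isAlgebraic_field
  rw [Set.range_const] at h5
  exact h5

/-- **Exchange**: if `F / K(x)` is finite, then `F / K(g)` is finite for every transcendental
`g`. -/
theorem finiteDimensional_of_transcendental (x : F) [FiniteDimensional K⟮x⟯ F] {g : F}
    (hg : Transcendental K g) : FiniteDimensional K⟮g⟯ F := by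
  haveI : Algebra.IsAlgebraic K⟮g⟯ F := isAlgebraic_adjoin_simple_of_transcendental x hg
  have hx : IsIntegral K⟮g⟯ x := (Algebra.IsAlgebraic.isAlgebraic x).isIntegral
  haveI : FiniteDimensional K⟮g⟯ K⟮g⟯⟮x⟯ := IntermediateField.adjoin.finiteDimensional hx
  haveI : Module.Finite K⟮g⟯⟮x⟯ F := by
    have hle : K⟮x⟯ ≤ (K⟮g⟯⟮x⟯).restrictScalars K := by
      rw [adjoin_simple_le_iff]
      exact mem_adjoin_simple_self K⟮g⟯ x
    exact finite_of_algebraMap_mem (A := K⟮x⟯) (B := K⟮g⟯⟮x⟯) (M := F)
      fun a => ⟨⟨(a : F), hle a.2⟩, rfl⟩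
  exact Module.Finite.trans K⟮g⟯⟮x⟯ F

end Exchange

/-! ### The main theorems A1, A2, A3 -/

section Main

variable {K F : Type*} [Field K] [Field F] [Algebra K F]

/-- Membership in the maximal ideal of a place in terms of `ord`. -/
theorem mem_maximalIdeal_iff (v : Place K F) (y : v.toValuationSubring) :
    y ∈ IsLocalRing.maximalIdeal v.toValuationSubring ↔ (y : F) = 0 ∨ 0 < v.ord (y : F) := by
  rw [IsLocalRing.mem_maximalIdeal, mem_nonunits_iff]
  constructor
  · intro hnu
    by_contra hcon
    rw [not_or, not_lt] at hcon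
    obtain ⟨hy0, hord⟩ := hcon
    have h0 : 0 ≤ v.ord (y : F) := (ord_nonneg_iff v hy0).mpr y.2
    have hinv : (y : F)⁻¹ ∈ v.toValuationSubring := by
      rw [← ord_nonneg_iff v (inv_ne_zero hy0), v.ord_inv]
      omega
    exact hnu (IsUnit.of_mul_eq_one (⟨(y : F)⁻¹, hinv⟩ : v.toValuationSubring)
      (Subtype.ext (mul_inv_cancel₀ hy0)))
  · rintro (h | h) hu
    · have : y = 0 := Subtype.ext h
      rw [this] at hu
      exact not_isUnit_zero hu
    · obtain ⟨u, rfl⟩ := hu
      rw [v.ord_coe_unit u] at h
      exact lt_irrefl _ h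

/-- The constant residue is unique. -/
theorem const_unique (v : Place K F) {f : F} {c c' : K}
    (h : f = algebraMap K F c ∨ 0 < v.ord (f - algebraMap K F c))
    (h' : f = algebraMap K F c' ∨ 0 < v.ord (f - algebraMap K F c')) : c = c' := by
  by_contra hne
  have hcc : algebraMap K F c' - algebraMap K F c ≠ 0 := by
    rw [← map_sub]
    simpa [sub_eq_zero] using (Ne.symm hne)
  have h0 : v.ord (algebraMap K F c' - algebraMap K F c) = 0 := by
    rw [← map_sub]; exact ord_algebraMap v _
  rcases h with h | h
  · rcases h' with h' | h'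
    · rw [h] at h'
      exact hne ((algebraMap K F).injective h')
    · rw [h, ← ord_neg, neg_sub, h0] at h'
      exact lt_irrefl _ h'
  · rcases h' with h' | h'
    · rw [h', h0] at h
      exact lt_irrefl _ h
    · have hf1 : f - algebraMap K F c ≠ 0 := by
        intro h1; rw [h1] at h; simp at h
      have hf2 : -(f - algebraMap K F c') ≠ 0 := by
        intro h1; rw [neg_eq_zero] at h1; rw [h1] at h'; simp at h'
      have hsum : (f - algebraMap K F c) + -(f - algebraMap K F c') =
          algebraMap K F c' - algebraMap K F c := by ring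
      have := ord_add_ge v hf1 hf2 (by rw [hsum]; exact hcc)
      rw [hsum, h0, ord_neg] at this
      rcases min_le_iff.mp this with h1 | h1 <;> omega

/-- If every element of the valuation ring is congruent to a constant, the place has degree
one. -/
theorem deg_eq_one_of_exists_const (v : Place K F)
    (h : ∀ f ∈ v.toValuationSubring, ∃ c : K, f = algebraMap K F c ∨
      0 < v.ord (f - algebraMap K F c)) : v.deg = 1 := by
  unfold Place.deg
  rw [finrank_eq_one_iff']
  refine ⟨1, one_ne_zero, fun w => ?_⟩
  obtain ⟨f, rfl⟩ := IsLocalRing.residue_surjective w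
  obtain ⟨c, hc⟩ := h (f : F) f.2
  refine ⟨c, ?_⟩
  rw [Algebra.smul_def, mul_one]
  have h1 : algebraMap K v.ResidueField c =
      IsLocalRing.residue v.toValuationSubring (algebraMap K v.toValuationSubring c) := rfl
  rw [h1, eq_comm, ← sub_eq_zero, ← map_sub, IsLocalRing.residue_eq_zero_iff, mem_maximalIdeal_iff]
  have h2 : ((f - algebraMap K v.toValuationSubring c : v.toValuationSubring) : F) =
      (f : F) - algebraMap K F c := rfl
  rw [h2]
  rcases hc with hc | hc
  · exact Or.inl (sub_eq_zero.mpr hc)
  · exact Or.inr hc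

variable [IsAlgClosed K] [CharZero K]

/-- Algebraic elements of `F` are constants. -/
theorem exists_algebraMap_eq_of_isAlgebraic {g : F} (hg : IsAlgebraic K g) :
    ∃ c : K, algebraMap K F c = g := by
  have hint : IsIntegral K g := hg.isIntegral
  have h1 : (minpoly K g).degree = 1 :=
    IsAlgClosed.degree_eq_one_of_irreducible K (minpoly.irreducible hint)
  exact minpoly.mem_range_of_degree_eq_one K g h1

theorem exists_const_of_mem_aux (t : F) (ht : Transcendental K t) [FiniteDimensional K⟮t⟯ F]
    (v : Place K F) (htv : t ∈ v.toValuationSubring) {f : F} (hf : f ∈ v.toValuationSubring) :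
    ∃ c : K, f = algebraMap K F c ∨ 0 < v.ord (f - algebraMap K F c) := by
  apply exists_poly_structure t ht
  intro _ _ _ _ _ _ hX _
  obtain ⟨w, rfl⟩ := exists_heightOneSpectrum_of_mem v
    (integralClosure_mem_place v (by rw [hX]; exact htv))
  exact exists_const_of_mem_ofHeightOneSpectrum w hf

/-- **A1 (residues)**: every element of the valuation ring of a place is congruent to a
constant. -/
theorem exists_const_of_mem (x : F) [FiniteDimensional K⟮x⟯ F] (hx : Transcendental K x) (v : Place K F) {f : F}
    (hf : f ∈ v.toValuationSubring) :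
    ∃ c : K, f = algebraMap K F c ∨ 0 < v.ord (f - algebraMap K F c) := by
  by_cases hxv : x ∈ v.toValuationSubring
  · exact exists_const_of_mem_aux x hx v hxv hf
  · have hinv : x⁻¹ ∈ v.toValuationSubring :=
      (v.toValuationSubring.mem_or_inv_mem x).resolve_left hxv
    have ht : Transcendental K x⁻¹ := fun h => hx (by simpa using h.inv)
    haveI := finiteDimensional_of_transcendental x ht
    exact exists_const_of_mem_aux x⁻¹ ht v hinv hf

/-- **A1 (residues)**, in terms of `ord`. -/
theorem exists_const_of_ord_nonneg (x : F) [FiniteDimensional K⟮x⟯ F] (hx : Transcendental K x) (v : Place K F) (f : F)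
    (hf : 0 ≤ v.ord f) :
    ∃ c : K, f = algebraMap K F c ∨ 0 < v.ord (f - algebraMap K F c) := by
  rcases eq_or_ne f 0 with rfl | hf0
  · exact ⟨0, Or.inl (by simp)⟩
  · exact exists_const_of_mem x hx v ((ord_nonneg_iff v hf0).mp hf)

/-- **A1**: every place has degree one. -/
theorem place_deg_eq_one (x : F) [FiniteDimensional K⟮x⟯ F] (hx : Transcendental K x) (v : Place K F) : v.deg = 1 :=
  deg_eq_one_of_exists_const v fun _ hf => exists_const_of_mem x hx v hf

/-- **A2**: the zeros of `t - a`, counted with multiplicity, are `[F : K(t)]` in number. -/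
theorem exists_finset_zeros_sub (x : F) [FiniteDimensional K⟮x⟯ F] (t : F) (ht : Transcendental K t) (a : K) :
    ∃ s : Finset (Place K F), (∀ v, v ∈ s ↔ 0 < v.ord (t - algebraMap K F a)) ∧
      ∑ v ∈ s, v.ord (t - algebraMap K F a) = (Module.finrank K⟮t⟯ F : ℤ) := by
  haveI := finiteDimensional_of_transcendental x ht
  apply exists_poly_structure t ht
  intro _ _ _ _ _ _ hX hfund
  exact hfund a

/-- **A2**: the zeros of `t`, counted with multiplicity, are `[F : K(t)]` in number. -/
theorem exists_finset_zeros (x : F) [FiniteDimensional K⟮x⟯ F] (t : F) (ht : Transcendental K t) :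
    ∃ s : Finset (Place K F), (∀ v, v ∈ s ↔ 0 < v.ord t) ∧
      ∑ v ∈ s, v.ord t = (Module.finrank K⟮t⟯ F : ℤ) := by
  simpa using exists_finset_zeros_sub x t ht 0

/-- `K(g⁻¹) = K(g)`. -/
theorem adjoin_simple_inv_eq (g : F) : K⟮g⁻¹⟯ = K⟮g⟯ :=
  le_antisymm (adjoin_simple_le_iff.mpr (inv_mem (mem_adjoin_simple_self K g)))
    (adjoin_simple_le_iff.mpr (by simpa using inv_mem (mem_adjoin_simple_self K g⁻¹)))

theorem finrank_eq_of_intermediateField_eq {E E' : IntermediateField K F} (h : E = E') :
    Module.finrank E F = Module.finrank E' F := by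
  subst h; rfl

/-- `[F : K(g⁻¹)] = [F : K(g)]`. -/
theorem finrank_adjoin_simple_inv (g : F) :
    Module.finrank K⟮g⁻¹⟯ F = Module.finrank K⟮g⟯ F :=
  finrank_eq_of_intermediateField_eq (adjoin_simple_inv_eq g)

/-- With all places of degree one, the degree of a divisor is the sum of its coefficients. -/
theorem degree_eq_sum (hdeg : ∀ v : Place K F, v.deg = 1) (D : Divisor K F)
    (s : Finset (Place K F)) (hs : D.support ⊆ s) : Divisor.degree D = ∑ v ∈ s, D v := by
  have h1 : Divisor.degree D = D.sum fun v n => n * (v.deg : ℤ) := by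
    simp [Divisor.degree, Finsupp.liftAddHom_apply]
  rw [h1]
  refine (Finsupp.sum_of_support_subset D hs (fun v n => n * (v.deg : ℤ))
    (fun v _ => zero_mul _)).trans ?_
  exact Finset.sum_congr rfl fun v _ => by rw [hdeg v]; simp

/-- **A2 (poles)**: the poles of `t`, counted with multiplicity, are `[F : K(t)]` in number. -/
theorem exists_finset_poles (x : F) [FiniteDimensional K⟮x⟯ F] (t : F) (ht : Transcendental K t) :
    ∃ s : Finset (Place K F), (∀ v, v ∈ s ↔ v.ord t < 0) ∧
      ∑ v ∈ s, v.ord t = -(Module.finrank K⟮t⟯ F : ℤ) := by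
  have ht' : Transcendental K t⁻¹ := fun h => ht (by simpa using h.inv)
  obtain ⟨s, hs, hsum⟩ := exists_finset_zeros x t⁻¹ ht'
  rw [finrank_adjoin_simple_inv] at hsum
  refine ⟨s, fun v => ?_, ?_⟩
  · rw [hs, v.ord_inv]; omega
  · rw [← hsum, ← Finset.sum_neg_distrib]
    exact Finset.sum_congr rfl fun v _ => by rw [v.ord_inv, neg_neg]

/-- **A3**: a principal divisor has degree zero. -/
theorem degree_eq_zero_of_principal (x : F) [FiniteDimensional K⟮x⟯ F] (hx : Transcendental K x)
    {g : F} (D : Divisor K F) (hD : ∀ v, D v = v.ord g) : Divisor.degree D = 0 := by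
  classical
  have hdeg := place_deg_eq_one x hx
  by_cases hga : IsAlgebraic K g
  · obtain ⟨c, rfl⟩ := exists_algebraMap_eq_of_isAlgebraic hga
    have hD0 : D = 0 := Finsupp.ext fun v => by rw [hD v, ord_algebraMap]; rfl
    rw [hD0, map_zero]
  · have hgt : Transcendental K g := hga
    obtain ⟨s₁, hs₁, hsum₁⟩ := exists_finset_zeros x g hgt
    obtain ⟨s₂, hs₂, hsum₂⟩ := exists_finset_poles x g hgt
    have hdisj : Disjoint s₁ s₂ := by
      rw [Finset.disjoint_left]
      intro v h1 h2
      have e1 := (hs₁ v).mp h1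
      have e2 := (hs₂ v).mp h2
      omega
    have hsupp : D.support ⊆ s₁ ∪ s₂ := by
      intro v hv
      rw [Finsupp.mem_support_iff, hD v] at hv
      rw [Finset.mem_union, hs₁, hs₂]
      omega
    rw [degree_eq_sum hdeg D _ hsupp, Finset.sum_union hdisj]
    have e1 : ∑ v ∈ s₁, D v = (Module.finrank K⟮g⟯ F : ℤ) := by
      rw [← hsum₁]; exact Finset.sum_congr rfl fun v _ => hD v
    have e2 : ∑ v ∈ s₂, D v = -(Module.finrank K⟮g⟯ F : ℤ) := by
      rw [← hsum₂]; exact Finset.sum_congr rfl fun v _ => hD v
    rw [e1, e2, add_neg_cancel]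

/-- Every nonzero function has a divisor. -/
theorem exists_divisor (x : F) [FiniteDimensional K⟮x⟯ F] (g : F) :
    ∃ D : Divisor K F, ∀ v, D v = v.ord g := by
  classical
  by_cases hga : IsAlgebraic K g
  · obtain ⟨c, rfl⟩ := exists_algebraMap_eq_of_isAlgebraic hga
    exact ⟨0, fun v => by rw [ord_algebraMap]; rfl⟩
  · have hgt : Transcendental K g := hga
    obtain ⟨s₁, hs₁, -⟩ := exists_finset_zeros x g hgt
    obtain ⟨s₂, hs₂, -⟩ := exists_finset_poles x g hgt
    refine ⟨Finsupp.onFinset (s₁ ∪ s₂) (fun v => v.ord g) (fun v hv => ?_), fun v => rfl⟩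
    rw [Finset.mem_union, hs₁, hs₂]
    omega

/-- A function has only finitely many zeros and poles. -/
theorem finite_ord_ne_zero (x : F) [FiniteDimensional K⟮x⟯ F] (g : F) :
    {v : Place K F | v.ord g ≠ 0}.Finite := by
  obtain ⟨D, hD⟩ := exists_divisor (K := K) x g
  refine D.support.finite_toSet.subset fun v hv => ?_
  rw [Finset.mem_coe, Finsupp.mem_support_iff, hD v]
  exact hv

/-- **A3**: every nonzero function has a principal divisor, of degree zero. -/
theorem exists_principal_divisor (x : F) [FiniteDimensional K⟮x⟯ F] (hx : Transcendental K x)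
    (g : F) (_hg : g ≠ 0) : ∃ D : Divisor K F, (∀ v, D v = v.ord g) ∧ Divisor.degree D = 0 := by
  obtain ⟨D, hD⟩ := exists_divisor (K := K) x g
  exact ⟨D, hD, degree_eq_zero_of_principal x hx D hD⟩

theorem hasPrincipalDivisors (x : F) [FiniteDimensional K⟮x⟯ F] (hx : Transcendental K x) :
    HasPrincipalDivisors K F :=
  ⟨fun f hf => exists_principal_divisor x hx f hf⟩

/-- A transcendental function has a zero. -/
theorem exists_place_ord_pos (x : F) [FiniteDimensional K⟮x⟯ F] (t : F) (ht : Transcendental K t) :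
    ∃ v : Place K F, 0 < v.ord t := by
  obtain ⟨s, hs, hsum⟩ := exists_finset_zeros x t ht
  haveI := finiteDimensional_of_transcendental x ht
  have hpos : 0 < Module.finrank K⟮t⟯ F := Module.finrank_pos
  have hne : s.Nonempty := by
    rw [Finset.nonempty_iff_ne_empty]
    rintro rfl
    rw [Finset.sum_empty] at hsum
    omega
  obtain ⟨v, hv⟩ := hne
  exact ⟨v, (hs v).mp hv⟩

/-- A transcendental function has a pole. -/
theorem exists_place_ord_neg (x : F) [FiniteDimensional K⟮x⟯ F] (t : F) (ht : Transcendental K t) :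
    ∃ v : Place K F, v.ord t < 0 := by
  have ht' : Transcendental K t⁻¹ := fun h => ht (by simpa using h.inv)
  obtain ⟨v, hv⟩ := exists_place_ord_pos x t⁻¹ ht'
  exact ⟨v, by rw [v.ord_inv] at hv; omega⟩

/-- A function without poles is constant. -/
theorem exists_const_of_forall_ord_nonneg (x : F) [FiniteDimensional K⟮x⟯ F] (f : F)
    (h : ∀ v : Place K F, 0 ≤ v.ord f) : ∃ c : K, f = algebraMap K F c := by
  by_cases hfa : IsAlgebraic K f
  · obtain ⟨c, rfl⟩ := exists_algebraMap_eq_of_isAlgebraic hfa
    exact ⟨c, rfl⟩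
  · obtain ⟨v, hv⟩ := exists_place_ord_neg x f hfa
    exact absurd (h v) (not_le.mpr hv)

/-- Elements integral over `K[x]` are regular at every place where `x` is regular. -/
theorem mem_of_isIntegral_adjoin (v : Place K F) {x : F} (hx : x ∈ v.toValuationSubring) {b : F}
    (hb : IsIntegral (Algebra.adjoin K ({x} : Set F)) b) : b ∈ v.toValuationSubring := by
  have hle : ∀ a : Algebra.adjoin K ({x} : Set F), (a : F) ∈ v.toValuationSubring := by
    intro a
    have h1 : Algebra.adjoin K ({x} : Set F) ≤
        { v.toValuationSubring.toSubring with algebraMap_mem' := v.algebraMap_mem' } :=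
      Algebra.adjoin_le (Set.singleton_subset_iff.mpr hx)
    exact h1 a.2
  let φ : Algebra.adjoin K ({x} : Set F) →+* v.toValuationSubring :=
    (algebraMap (Algebra.adjoin K ({x} : Set F)) F).codRestrict v.toValuationSubring.toSubring hle
  obtain ⟨q, hq, hq0⟩ := hb
  have hint : IsIntegral v.toValuationSubring b := by
    refine ⟨q.map φ, hq.map φ, ?_⟩
    rw [Polynomial.eval₂_map]
    exact hq0
  obtain ⟨y, hy⟩ := (IsIntegrallyClosed.isIntegral_iff (R := v.toValuationSubring)).mp hint
  rw [← hy]
  exact y.2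

end Main

end Fermat.Agent.T24
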