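/-
T20 project, piece [R-L] (helper2): Riemann-Roch spaces `L(D)` of a function field in one variable
over an algebraically closed field of characteristic zero.

* `LSpace D` is a `K`-subspace; `L(0) = K`; `L(D) = 0` if `deg D < 0`;
* `ℓ(D + v) ≤ ℓ(D) + 1`; `ℓ(D)` is finite; `deg D - ℓ(D)` is monotone in `D`;
* Riemann's inequality: `deg D - ℓ(D)` is bounded above.
-/
import Mathlib
import Fermat.Agent.Lib.T24_Places

set_option autoImplicit false
set_option linter.unusedSectionVars false
set_option linter.style.haveILetI false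

noncomputable section

namespace Fermat.Agent.RR

open AlgebraicCurve IntermediateField Fermat.Agent.T24

section Def

variable {K F : Type*} [Field K] [Field F] [Algebra K F]

/-- The Riemann-Roch space `L(D)` as a `K`-subspace of `F`. -/
def LSpace (D : Divisor K F) : Submodule K F where
  carrier := {f | f = 0 ∨ ∀ v : Place K F, 0 ≤ v.ord f + D v}
  zero_mem' := Or.inl rfl
  add_mem' := by
    rintro f g (rfl | hf) hg
    · rwa [zero_add]
    rcases hg with rfl | hg
    · rw [add_zero]; exact Or.inr hf
    by_cases hfg : f + g = 0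
    · exact Or.inl hfg
    right
    intro v
    by_cases hf0 : f = 0
    · subst hf0; rw [zero_add]; exact hg v
    by_cases hg0 : g = 0
    · subst hg0; rw [add_zero]; exact hf v
    have := ord_add_ge v hf0 hg0 hfg
    have h1 := hf v
    have h2 := hg v
    rcases min_le_iff.mp this with h | h <;> omega
  smul_mem' := by
    rintro c f (rfl | hf)
    · left; simp
    by_cases hc : c = 0
    · left; simp [hc]
    by_cases hf0 : f = 0
    · left; simp [hf0]
    right
    intro v
    rw [Algebra.smul_def, v.ord_mul (by simpa using hc) hf0, ord_algebraMap, zero_add]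
    exact hf v

theorem mem_LSpace {D : Divisor K F} {f : F} :
    f ∈ LSpace D ↔ f = 0 ∨ ∀ v : Place K F, 0 ≤ v.ord f + D v := Iff.rfl

theorem mem_LSpace_of_ne_zero {D : Divisor K F} {f : F} (hf : f ≠ 0) :
    f ∈ LSpace D ↔ ∀ v : Place K F, 0 ≤ v.ord f + D v := by
  rw [mem_LSpace]; exact or_iff_right hf

theorem LSpace_mono {D D' : Divisor K F} (h : ∀ v, D v ≤ D' v) : LSpace D ≤ LSpace D' := by
  rintro f (rfl | hf)
  · exact zero_mem _
  · exact Or.inr fun v => by have := hf v; have := h v; omega

theorem mul_mem_LSpace {D E : Divisor K F} {f g : F} (hf : f ∈ LSpace D) (hg : g ∈ LSpace E) :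
    f * g ∈ LSpace (D + E) := by
  rcases hf with rfl | hf
  · rw [zero_mul]; exact zero_mem _
  rcases hg with rfl | hg
  · rw [mul_zero]; exact zero_mem _
  by_cases hf0 : f = 0
  · rw [hf0, zero_mul]; exact zero_mem _
  by_cases hg0 : g = 0
  · rw [hg0, mul_zero]; exact zero_mem _
  right
  intro v
  rw [v.ord_mul hf0 hg0, Finsupp.add_apply]
  have := hf v
  have := hg v
  omega

/-- Multiplication by `f` as a linear map between Riemann-Roch spaces. -/
def mulMap (f : F) {E E' : Divisor K F} (h : ∀ g ∈ LSpace E, f * g ∈ LSpace E') :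
    LSpace E →ₗ[K] LSpace E' where
  toFun g := ⟨f * g, h g g.2⟩
  map_add' a b := Subtype.ext (mul_add f a b)
  map_smul' c a := Subtype.ext (mul_smul_comm c f (a : F))

theorem mulMap_injective {f : F} (hf : f ≠ 0) {E E' : Divisor K F}
    (h : ∀ g ∈ LSpace E, f * g ∈ LSpace E') : Function.Injective (mulMap f h) := by
  intro a b hab
  have h1 : f * (a : F) = f * (b : F) := congrArg Subtype.val hab
  exact Subtype.ext (mul_left_cancel₀ hf h1)

theorem finrank_LSpace_le_of_mul {f : F} (hf : f ≠ 0) {E E' : Divisor K F}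
    (h : ∀ g ∈ LSpace E, f * g ∈ LSpace E') [FiniteDimensional K (LSpace E')] :
    Module.finrank K (LSpace E) ≤ Module.finrank K (LSpace E') :=
  LinearMap.finrank_le_finrank_of_injective (mulMap_injective hf h)

end Def

section FunctionField

variable {K F : Type*} [Field K] [Field F] [Algebra K F] [IsAlgClosed K] [CharZero K]

/-- `L(0) = K`. -/
theorem LSpace_zero (x : F) [FiniteDimensional K⟮x⟯ F] :
    LSpace (0 : Divisor K F) = Submodule.span K {(1 : F)} := by
  ext f
  rw [Submodule.mem_span_singleton, mem_LSpace]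
  constructor
  · intro h
    have h' : ∀ v : Place K F, 0 ≤ v.ord f := by
      rcases h with rfl | h
      · intro v; simp
      · intro v; simpa using h v
    obtain ⟨c, hc⟩ := exists_const_of_forall_ord_nonneg x f h'
    exact ⟨c, by rw [hc, Algebra.smul_def, mul_one]⟩
  · rintro ⟨c, rfl⟩
    right
    intro v
    rw [Algebra.smul_def, mul_one, ord_algebraMap]
    simp

/-- `L(D + v) ⊆ L(D) + K g`. -/
theorem exists_LSpace_add_single_le (x : F) [FiniteDimensional K⟮x⟯ F] (hx : Transcendental K x)
    (D : Divisor K F) (v : Place K F) :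
    ∃ g : F, LSpace (D + Finsupp.single v 1) ≤ LSpace D ⊔ Submodule.span K {g} := by
  classical
  by_cases hle : LSpace (D + Finsupp.single v 1) ≤ LSpace D
  · exact ⟨0, le_sup_of_le_left hle⟩
  obtain ⟨g, hg, hgD⟩ := SetLike.not_le_iff_exists.mp hle
  have hg0 : g ≠ 0 := fun h0 => hgD (h0 ▸ zero_mem _)
  have hg' := (mem_LSpace_of_ne_zero hg0).mp hg
  have hother : ∀ {f : F}, f ≠ 0 → f ∈ LSpace (D + Finsupp.single v 1) →
      ∀ w : Place K F, w ≠ v → 0 ≤ w.ord f + D w := by
    intro f hf0 hf w hw
    have := (mem_LSpace_of_ne_zero hf0).mp hf w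
    rw [Finsupp.add_apply, Finsupp.single_apply, if_neg (Ne.symm hw)] at this
    simpa using this
  have hat : ∀ {f : F}, f ≠ 0 → f ∈ LSpace (D + Finsupp.single v 1) →
      0 ≤ v.ord f + D v + 1 := by
    intro f hf0 hf
    have := (mem_LSpace_of_ne_zero hf0).mp hf v
    rw [Finsupp.add_apply, Finsupp.single_apply, if_pos rfl] at this
    omega
  have hgv : v.ord g = -D v - 1 := by
    have h1 := hat hg0 hg
    have h2 : ¬ (0 ≤ v.ord g + D v) := by
      intro h3
      apply hgD
      refine (mem_LSpace_of_ne_zero hg0).mpr fun w => ?_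
      by_cases hw : w = v
      · rw [hw]; exact h3
      · exact hother hg0 hg w hw
    omega
  refine ⟨g, fun f hf => ?_⟩
  rcases eq_or_ne f 0 with rfl | hf0
  · exact zero_mem _
  have hfv := hat hf0 hf
  have hquot : 0 ≤ v.ord (f / g) := by
    rw [div_eq_mul_inv, v.ord_mul hf0 (inv_ne_zero hg0), v.ord_inv]
    omega
  obtain ⟨c, hc⟩ := exists_const_of_ord_nonneg x hx v (f / g) hquot
  rw [Submodule.mem_sup]
  refine ⟨f - c • g, ?_, c • g, Submodule.smul_mem _ c (Submodule.mem_span_singleton_self g),
    by ring⟩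
  rcases eq_or_ne (f - c • g) 0 with h0 | h0
  · rw [h0]; exact zero_mem _
  have hmem : f - c • g ∈ LSpace (D + Finsupp.single v 1) :=
    sub_mem hf (Submodule.smul_mem _ c hg)
  refine (mem_LSpace_of_ne_zero h0).mpr fun w => ?_
  by_cases hw : w = v
  · rw [hw]
    have hfact : f - c • g = (f / g - algebraMap K F c) * g := by
      rw [Algebra.smul_def]; field_simp
    have hne : f / g - algebraMap K F c ≠ 0 := by
      intro h1
      apply h0
      rw [hfact, h1, zero_mul]
    rcases hc with hc | hc
    · exact absurd (sub_eq_zero.mpr hc) hne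
    · rw [hfact, v.ord_mul hne hg0, hgv]
      omega
  · exact hother h0 hmem w hw

theorem finrank_span_singleton_le_one (g : F) :
    Module.finrank K (Submodule.span K {g}) ≤ 1 := by
  rcases eq_or_ne g 0 with rfl | hg
  · rw [Submodule.span_zero_singleton, finrank_bot]
    exact Nat.zero_le 1
  · exact (finrank_span_singleton hg).le

/-- `ℓ(D + v) ≤ ℓ(D) + 1`. -/
theorem LSpace_add_single_finite (x : F) [FiniteDimensional K⟮x⟯ F] (hx : Transcendental K x)
    (D : Divisor K F) (v : Place K F) [FiniteDimensional K (LSpace D)] :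
    FiniteDimensional K (LSpace (D + Finsupp.single v 1)) ∧
      Module.finrank K (LSpace (D + Finsupp.single v 1)) ≤ Module.finrank K (LSpace D) + 1 := by
  obtain ⟨g, hg⟩ := exists_LSpace_add_single_le x hx D v
  haveI : FiniteDimensional K (LSpace D ⊔ Submodule.span K {g} : Submodule K F) :=
    Submodule.finiteDimensional_sup _ _
  refine ⟨Submodule.finiteDimensional_of_le hg, ?_⟩
  calc Module.finrank K (LSpace (D + Finsupp.single v 1))
      ≤ Module.finrank K (LSpace D ⊔ Submodule.span K {g} : Submodule K F) :=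
        Submodule.finrank_mono hg
    _ ≤ Module.finrank K (LSpace D) + Module.finrank K (Submodule.span K {g}) :=
        Submodule.finrank_add_le_finrank_add_finrank _ _
    _ ≤ Module.finrank K (LSpace D) + 1 := Nat.add_le_add_left (finrank_span_singleton_le_one g) _

/-! ### Effective divisors -/

theorem degree_nonneg_of_effective (hdeg : ∀ v : Place K F, v.deg = 1) (D : Divisor K F)
    (hD : ∀ v, 0 ≤ D v) : 0 ≤ Divisor.degree D := by
  rw [degree_eq_sum hdeg D D.support subset_rfl]
  exact Finset.sum_nonneg fun v _ => hD v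

theorem eq_zero_of_effective_of_degree (hdeg : ∀ v : Place K F, v.deg = 1) (D : Divisor K F)
    (hD : ∀ v, 0 ≤ D v) (h0 : Divisor.degree D = 0) : D = 0 := by
  rw [degree_eq_sum hdeg D D.support subset_rfl] at h0
  ext v
  by_cases hv : v ∈ D.support
  · have := (Finset.sum_eq_zero_iff_of_nonneg (fun w _ => hD w)).mp h0 v hv
    rw [this]; rfl
  · rw [Finsupp.notMem_support_iff.mp hv]; rfl

/-- Induction on effective divisors. -/
theorem effective_induction (hdeg : ∀ v : Place K F, v.deg = 1) {P : Divisor K F → Prop}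
    (h0 : P 0)
    (hadd : ∀ (D : Divisor K F) (v : Place K F), (∀ w, 0 ≤ D w) → P D →
      P (D + Finsupp.single v 1)) :
    ∀ D : Divisor K F, (∀ w, 0 ≤ D w) → P D := by
  classical
  have key : ∀ n : ℕ, ∀ D : Divisor K F, (∀ w, 0 ≤ D w) → Divisor.degree D = n → P D := by
    intro n
    induction n with
    | zero =>
      intro D hD hdegD
      rw [eq_zero_of_effective_of_degree hdeg D hD (by simpa using hdegD)]
      exact h0
    | succ n ih =>
      intro D hD hdegD
      have hex : ∃ v, 0 < D v := by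
        by_contra hcon
        have hD0 : D = 0 := by
          ext v
          have h1 : ¬ 0 < D v := fun h => hcon ⟨v, h⟩
          have h2 := hD v
          have : D v = 0 := by omega
          rw [this]; rfl
        rw [hD0, map_zero] at hdegD
        push_cast at hdegD
        omega
      obtain ⟨v, hv⟩ := hex
      have hD' : ∀ w, 0 ≤ (D - Finsupp.single v 1 : Divisor K F) w := by
        intro w
        rw [Finsupp.sub_apply, Finsupp.single_apply]
        split_ifs with h
        · rw [← h]; omega
        · have := hD w; omega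
      have hdegD' : Divisor.degree (D - Finsupp.single v 1) = n := by
        rw [map_sub, hdegD, Divisor.degree_single, hdeg v]
        push_cast
        ring
      have := hadd _ v hD' (ih _ hD' hdegD')
      rwa [sub_add_cancel] at this
  intro D hD
  have hnn := degree_nonneg_of_effective hdeg D hD
  exact key (Divisor.degree D).toNat D hD (Int.toNat_of_nonneg hnn).symm

/-- The positive part of a divisor. -/
def posPart (D : Divisor K F) : Divisor K F := D.mapRange (fun n => max n 0) (by simp)

theorem posPart_apply (D : Divisor K F) (v : Place K F) : posPart D v = max (D v) 0 := by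
  simp [posPart]

theorem posPart_nonneg (D : Divisor K F) (v : Place K F) : 0 ≤ posPart D v := by
  rw [posPart_apply]; exact le_max_right _ _

theorem le_posPart (D : Divisor K F) (v : Place K F) : D v ≤ posPart D v := by
  rw [posPart_apply]; exact le_max_left _ _

/-- For effective `D`, `L(D)` is finite dimensional with `ℓ(D) ≤ deg D + 1`. -/
theorem LSpace_finite_of_effective (x : F) [FiniteDimensional K⟮x⟯ F] (hx : Transcendental K x)
    (D : Divisor K F) (hD : ∀ v, 0 ≤ D v) :
    FiniteDimensional K (LSpace D) ∧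
      (Module.finrank K (LSpace D) : ℤ) ≤ Divisor.degree D + 1 := by
  have hdeg := place_deg_eq_one x hx
  refine effective_induction hdeg (P := fun D => FiniteDimensional K (LSpace D) ∧
      (Module.finrank K (LSpace D) : ℤ) ≤ Divisor.degree D + 1) ?_ ?_ D hD
  · rw [LSpace_zero x]
    refine ⟨inferInstance, ?_⟩
    rw [finrank_span_singleton (one_ne_zero), map_zero]
    norm_num
  · rintro D v _ ⟨hfin, hle⟩
    haveI := hfin
    obtain ⟨h1, h2⟩ := LSpace_add_single_finite x hx D v
    refine ⟨h1, ?_⟩
    rw [map_add, Divisor.degree_single, hdeg v]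
    push_cast
    have : (Module.finrank K (LSpace (D + Finsupp.single v 1)) : ℤ) ≤
        (Module.finrank K (LSpace D) : ℤ) + 1 := by exact_mod_cast h2
    linarith

/-- `L(D)` is finite dimensional. -/
theorem LSpace_finiteDimensional (x : F) [FiniteDimensional K⟮x⟯ F] (hx : Transcendental K x)
    (D : Divisor K F) : FiniteDimensional K (LSpace D) := by
  haveI := (LSpace_finite_of_effective x hx (posPart D) (posPart_nonneg D)).1
  exact Submodule.finiteDimensional_of_le (LSpace_mono (le_posPart D))

/-- `ℓ(D + E) ≤ ℓ(D) + deg E` for effective `E`. -/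
theorem finrank_LSpace_add_le (x : F) [FiniteDimensional K⟮x⟯ F] (hx : Transcendental K x)
    (E : Divisor K F) (hE : ∀ v, 0 ≤ E v) (D : Divisor K F) :
    (Module.finrank K (LSpace (D + E)) : ℤ) ≤
      (Module.finrank K (LSpace D) : ℤ) + Divisor.degree E := by
  have hdeg := place_deg_eq_one x hx
  refine effective_induction hdeg (P := fun E => ∀ D : Divisor K F,
      (Module.finrank K (LSpace (D + E)) : ℤ) ≤
        (Module.finrank K (LSpace D) : ℤ) + Divisor.degree E) ?_ ?_ E hE D
  · intro D
    rw [add_zero, map_zero, add_zero]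
  · intro E v _ ih D
    haveI := LSpace_finiteDimensional x hx (D + E)
    obtain ⟨-, h2⟩ := LSpace_add_single_finite x hx (D + E) v
    rw [← add_assoc, map_add, Divisor.degree_single, hdeg v]
    push_cast
    have : (Module.finrank K (LSpace (D + E + Finsupp.single v 1)) : ℤ) ≤
        (Module.finrank K (LSpace (D + E)) : ℤ) + 1 := by exact_mod_cast h2
    linarith [ih D]

/-- **Monotonicity** of `deg D - ℓ(D)`. -/
theorem degree_sub_finrank_mono (x : F) [FiniteDimensional K⟮x⟯ F] (hx : Transcendental K x)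
    {D D' : Divisor K F} (h : ∀ v, D v ≤ D' v) :
    Divisor.degree D - (Module.finrank K (LSpace D) : ℤ) ≤
      Divisor.degree D' - (Module.finrank K (LSpace D') : ℤ) := by
  have h1 := finrank_LSpace_add_le x hx (D' - D)
    (fun v => by rw [Finsupp.sub_apply]; have := h v; omega) D
  rw [add_sub_cancel, map_sub] at h1
  linarith

/-- `L(D) = 0` if `deg D < 0`. -/
theorem LSpace_eq_bot_of_degree_neg (x : F) [FiniteDimensional K⟮x⟯ F] (hx : Transcendental K x)
    (D : Divisor K F) (hD : Divisor.degree D < 0) : LSpace D = ⊥ := by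
  have hdeg := place_deg_eq_one x hx
  rw [eq_bot_iff]
  intro f hf
  rw [Submodule.mem_bot]
  by_contra hf0
  obtain ⟨Df, hDf⟩ := exists_divisor (K := K) x f
  have h0 := degree_eq_zero_of_principal x hx Df hDf
  have h1 := degree_nonneg_of_effective hdeg (D + Df) (fun v => by
    rw [Finsupp.add_apply, hDf v]
    have := (mem_LSpace_of_ne_zero hf0).mp hf v
    omega)
  rw [map_add, h0] at h1
  omega

/-! ### Riemann's inequality -/

/-- The pole divisor of a transcendental function `t` has degree `[F : K(t)]`. -/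
theorem exists_pole_divisor (x : F) [FiniteDimensional K⟮x⟯ F] (hx : Transcendental K x) (t : F)
    (ht : Transcendental K t) :
    ∃ B : Divisor K F, (∀ v, B v = max (-(v.ord t)) 0) ∧
      Divisor.degree B = (Module.finrank K⟮t⟯ F : ℤ) := by
  classical
  have hdeg := place_deg_eq_one x hx
  obtain ⟨s, hs, hsum⟩ := exists_finset_poles x t ht
  have hsupp : ∀ v : Place K F, max (-(v.ord t)) 0 ≠ 0 → v ∈ s := by
    intro v hv
    rw [hs]
    by_contra h
    exact hv (max_eq_right (by omega))
  refine ⟨Finsupp.onFinset s (fun v => max (-(v.ord t)) 0) hsupp, fun v => rfl, ?_⟩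
  rw [degree_eq_sum hdeg _ s Finsupp.support_onFinset_subset]
  have h1 : ∀ v ∈ s, (Finsupp.onFinset s (fun v => max (-(v.ord t)) 0) hsupp) v = -(v.ord t) := by
    intro v hv
    have := (hs v).mp hv
    rw [Finsupp.onFinset_apply]
    exact max_eq_left (by omega)
  rw [Finset.sum_congr rfl h1, Finset.sum_neg_distrib, hsum, neg_neg]

/-- The monomials `x ^ j * b i` are linearly independent over `K` if the `b i` are linearly
independent over `K(x)`. -/
theorem linearIndependent_pow_mul {x : F} (hx : Transcendental K x) {ι : Type*} [Fintype ι]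
    (b : ι → F) (hb : LinearIndependent K⟮x⟯ b) (m : ℕ) :
    LinearIndependent K (fun p : ι × Fin (m + 1) => x ^ (p.2 : ℕ) * b p.1) := by
  classical
  rw [Fintype.linearIndependent_iff]
  intro g hg
  let P : ι → Polynomial K := fun i => ∑ j : Fin (m + 1), Polynomial.monomial (j : ℕ) (g (i, j))
  have hP : ∀ i, Polynomial.aeval x (P i) =
      ∑ j : Fin (m + 1), algebraMap K F (g (i, j)) * x ^ (j : ℕ) := by
    intro i
    simp [P, Polynomial.aeval_monomial]
  have hcoe : ∀ p : Polynomial K,
      ((Polynomial.aeval (AdjoinSimple.gen K x) p : K⟮x⟯) : F) = Polynomial.aeval x p := by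
    intro p
    have := Polynomial.aeval_algebraMap_apply F (AdjoinSimple.gen K x) p
    rw [AdjoinSimple.algebraMap_gen] at this
    exact this.symm
  have hsum : ∑ i, (Polynomial.aeval (AdjoinSimple.gen K x) (P i) : K⟮x⟯) • b i = 0 := by
    rw [← hg, Fintype.sum_prod_type]
    refine Finset.sum_congr rfl fun i _ => ?_
    have h1 : ((Polynomial.aeval (AdjoinSimple.gen K x) (P i) : K⟮x⟯) • b i) =
        ((Polynomial.aeval (AdjoinSimple.gen K x) (P i) : K⟮x⟯) : F) * b i := rfl
    rw [h1, hcoe, hP, Finset.sum_mul]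
    refine Finset.sum_congr rfl fun j _ => ?_
    rw [Algebra.smul_def]
    ring
  have hzero := (Fintype.linearIndependent_iff.mp hb) _ hsum
  rintro ⟨i, j⟩
  have h1 : Polynomial.aeval x (P i) = 0 := by
    rw [← hcoe, hzero i]; rfl
  have h2 : P i = 0 := (transcendental_iff.mp hx) (P i) h1
  have h3 : (P i).coeff (j : ℕ) = g (i, j) := by
    simp only [P, Polynomial.finsetSum_coeff, Polynomial.coeff_monomial]
    rw [Finset.sum_eq_single j]
    · simp
    · intro j' _ hj'
      rw [if_neg]
      exact fun h => hj' (Fin.ext h)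
    · intro h
      exact absurd (Finset.mem_univ j) h
  rw [← h3, h2, Polynomial.coeff_zero]

open scoped algebraAdjoinAdjoin in
/-- Lower bound for `ℓ((m + m₀) B)`, `B` the pole divisor of `x`. -/
theorem exists_lower_bound (x : F) [FiniteDimensional K⟮x⟯ F] (hx : Transcendental K x)
    (B : Divisor K F) (hB : ∀ v, B v = max (-(v.ord x)) 0) :
    ∃ m₀ : ℕ, ∀ m : ℕ,
      Module.finrank K⟮x⟯ F * (m + 1) ≤ Module.finrank K (LSpace ((m + m₀) • B)) := by
  classical
  obtain ⟨s, b, hb⟩ :=
    FiniteDimensional.exists_is_basis_integral (Algebra.adjoin K ({x} : Set F)) K⟮x⟯ F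
  have hx0 : x ≠ 0 := fun h => hx (h ▸ isAlgebraic_zero)
  have hreg : ∀ i, ∀ v : Place K F, 0 ≤ v.ord x → 0 ≤ v.ord (b i) := by
    intro i v hv
    rcases eq_or_ne (b i) 0 with h0 | h0
    · rw [h0]; simp
    · exact (ord_nonneg_iff v h0).mpr
        (mem_of_isIntegral_adjoin v ((ord_nonneg_iff v hx0).mp hv) (hb i))
  obtain ⟨sp, hsp, -⟩ := exists_finset_poles x x hx
  let m₀ : ℕ := ∑ i : s, ∑ v ∈ sp, (-(v.ord (b i))).toNat
  have hm₀ : ∀ i, ∀ v ∈ sp, -(v.ord (b i)) ≤ (m₀ : ℤ) := by
    intro i v hv
    have h1 : (-(v.ord (b i))).toNat ≤ ∑ v ∈ sp, (-(v.ord (b i))).toNat :=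
      Finset.single_le_sum (f := fun v : Place K F => (-(v.ord (b i))).toNat)
        (fun _ _ => Nat.zero_le _) hv
    have h2 : ∑ v ∈ sp, (-(v.ord (b i))).toNat ≤ m₀ :=
      Finset.single_le_sum (f := fun i : s => ∑ v ∈ sp, (-(v.ord (b i))).toNat)
        (fun _ _ => Nat.zero_le _) (Finset.mem_univ i)
    have h3 := Int.self_le_toNat (-(v.ord (b i)))
    omega
  have hbmem : ∀ i, b i ∈ LSpace (m₀ • B) := by
    intro i
    rcases eq_or_ne (b i) 0 with h0 | h0
    · rw [h0]; exact zero_mem _
    refine (mem_LSpace_of_ne_zero h0).mpr fun v => ?_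
    rw [Finsupp.smul_apply, hB v, nsmul_eq_mul]
    by_cases hv : v.ord x < 0
    · have h1 := hm₀ i v ((hsp v).mpr hv)
      have h2 : (1 : ℤ) ≤ max (-(v.ord x)) 0 := by
        rw [max_eq_left (by omega)]; omega
      have h3 : (0 : ℤ) ≤ (m₀ : ℤ) := Int.natCast_nonneg _
      nlinarith
    · have h1 := hreg i v (not_lt.mp hv)
      have h2 : (0 : ℤ) ≤ max (-(v.ord x)) 0 := le_max_right _ _
      exact add_nonneg h1 (mul_nonneg (Int.natCast_nonneg _) h2)
  have hxmem : ∀ (m j : ℕ), j ≤ m → x ^ j ∈ LSpace (m • B) := by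
    intro m j hj
    refine (mem_LSpace_of_ne_zero (pow_ne_zero j hx0)).mpr fun v => ?_
    rw [Finsupp.smul_apply, hB v, nsmul_eq_mul, ← zpow_natCast, v.ord_zpow]
    have hjm : (j : ℤ) ≤ m := by exact_mod_cast hj
    have hj0 : (0 : ℤ) ≤ j := Int.natCast_nonneg _
    by_cases hv : v.ord x < 0
    · rw [max_eq_left (by omega)]
      nlinarith
    · rw [max_eq_right (by omega)]
      have := not_lt.mp hv
      nlinarith
  refine ⟨m₀, fun m => ?_⟩
  haveI := LSpace_finiteDimensional x hx ((m + m₀) • B)
  have hmem : ∀ p : s × Fin (m + 1), x ^ (p.2 : ℕ) * b p.1 ∈ LSpace ((m + m₀) • B) := by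
    intro p
    rw [add_smul]
    exact mul_mem_LSpace (hxmem m p.2 (Nat.lt_succ_iff.mp p.2.2)) (hbmem p.1)
  have hli : LinearIndependent K (fun p : s × Fin (m + 1) =>
      (⟨x ^ (p.2 : ℕ) * b p.1, hmem p⟩ : LSpace ((m + m₀) • B))) := by
    apply LinearIndependent.of_comp (LSpace ((m + m₀) • B)).subtype
    exact linearIndependent_pow_mul hx (fun i => b i) b.linearIndependent m
  have hcard := hli.fintype_card_le_finrank
  rw [Fintype.card_prod, Fintype.card_fin] at hcard
  rw [Module.finrank_eq_card_basis b]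
  exact hcard

/-- **Riemann's inequality**: `deg D - ℓ(D)` is bounded above. -/
theorem exists_riemann_bound (x : F) [FiniteDimensional K⟮x⟯ F] (hx : Transcendental K x) :
    ∃ γ : ℤ, ∀ D : Divisor K F,
      Divisor.degree D - (Module.finrank K (LSpace D) : ℤ) ≤ γ := by
  have hdeg := place_deg_eq_one x hx
  obtain ⟨B, hB, hBdeg⟩ := exists_pole_divisor x hx x hx
  obtain ⟨m₀, hm₀⟩ := exists_lower_bound x hx B hB
  have hnpos : 0 < Module.finrank K⟮x⟯ F := Module.finrank_pos
  refine ⟨(Module.finrank K⟮x⟯ F : ℤ) * m₀ - Module.finrank K⟮x⟯ F, fun D => ?_⟩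
  have hPnn := degree_nonneg_of_effective hdeg (posPart D) (posPart_nonneg D)
  obtain ⟨m, hm⟩ := Int.eq_ofNat_of_zero_le hPnn
  have hEdeg : Divisor.degree ((m + m₀) • B) = (Module.finrank K⟮x⟯ F : ℤ) * (m + m₀) := by
    rw [map_nsmul, hBdeg, nsmul_eq_mul]
    push_cast
    ring
  have hEl : (Module.finrank K⟮x⟯ F : ℤ) * (m + 1) ≤
      Module.finrank K (LSpace ((m + m₀) • B)) := by exact_mod_cast hm₀ m
  have h1 := finrank_LSpace_add_le x hx (posPart D) (posPart_nonneg D) ((m + m₀) • B - posPart D)
  rw [sub_add_cancel] at h1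
  have hpos : 0 < Module.finrank K (LSpace ((m + m₀) • B - posPart D)) := by
    have h2 : (1 : ℤ) ≤ Module.finrank K⟮x⟯ F := by exact_mod_cast hnpos
    have h3 : (0 : ℤ) ≤ m := Int.natCast_nonneg _
    have h4 : (0 : ℤ) < Module.finrank K (LSpace ((m + m₀) • B - posPart D)) := by
      nlinarith
    exact_mod_cast h4
  haveI := LSpace_finiteDimensional x hx ((m + m₀) • B - posPart D)
  obtain ⟨⟨f, hfmem⟩, hf0'⟩ := Module.finrank_pos_iff_exists_ne_zero.mp hpos
  have hf0 : f ≠ 0 := fun h => hf0' (Subtype.ext h)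
  have hf := (mem_LSpace_of_ne_zero hf0).mp hfmem
  obtain ⟨Df, hDf⟩ := exists_divisor (K := K) x f
  have hDf0 := degree_eq_zero_of_principal x hx Df hDf
  have hle : ∀ v, D v ≤ ((m + m₀) • B + Df) v := by
    intro v
    have h5 := hf v
    rw [Finsupp.sub_apply] at h5
    rw [Finsupp.add_apply, hDf v]
    have h6 := le_posPart D v
    omega
  have h2 := degree_sub_finrank_mono x hx hle
  rw [map_add, hDf0, add_zero] at h2
  haveI := LSpace_finiteDimensional x hx ((m + m₀) • B + Df)
  have h3 : Module.finrank K (LSpace ((m + m₀) • B)) ≤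
      Module.finrank K (LSpace ((m + m₀) • B + Df)) := by
    refine finrank_LSpace_le_of_mul (f := f⁻¹) (inv_ne_zero hf0) (fun g hg => ?_)
    rcases eq_or_ne g 0 with rfl | hg0
    · rw [mul_zero]; exact zero_mem _
    refine (mem_LSpace_of_ne_zero (mul_ne_zero (inv_ne_zero hf0) hg0)).mpr fun v => ?_
    rw [v.ord_mul (inv_ne_zero hf0) hg0, v.ord_inv, Finsupp.add_apply, hDf v]
    have := (mem_LSpace_of_ne_zero hg0).mp hg v
    omega
  have h3' : (Module.finrank K (LSpace ((m + m₀) • B)) : ℤ) ≤
      Module.finrank K (LSpace ((m + m₀) • B + Df)) := by exact_mod_cast h3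
  nlinarith

end FunctionField

end Fermat.Agent.RR
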