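import Fermat.Agent.Lib.MF_Field
import Fermat.Agent.Lib.FF_Canon
import Fermat.Agent.Lib.ES_Alg
import Fermat.Agent.Lib.MC_Comb
import Fermat.Agent.Lib.RR_LSpace

set_option autoImplicit false

/-!
# T20 [MF-A]: assembly of the dimension formula `dim S₂(Γ₀(N)) = g`

The inputs that are proved elsewhere enter as hypotheses:
Riemann-Roch for the canonical divisor (`RR_Main.finrank_L_canonical`), the degree of the
function field `FC N` over `ℂ(j)`, the injective map `L(W) → S₂` and the Eichler-Shimura bound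
`2 dim S₂ ≤ dim Hom_par`.
-/

noncomputable section

namespace Fermat.Agent.MF

open ModularCurve ModularCurve.Period AlgebraicCurve CongruenceSubgroup IntermediateField
  Fermat.Agent.FF Fermat.Agent.MC
open scoped MatrixGroups

variable (N : ℕ) [NeZero N]

/-- the Riemann-Hurwitz count equals twice the genus formula -/
theorem genus_count :
    ((Fintype.card (PN N) : ℤ) - orbitCount (sP N) - orbitCount (uP N) - orbitCount (tP N) + 2 : ℤ)
      = (2 * genusFormula N : ℚ) := by
  have h1 : Fintype.card (PN N) = dedekindPsi N := by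
    rw [← Nat.card_eq_fintype_card]; exact comb_card_PN N
  have h2 : 2 * orbitCount (sP N) = dedekindPsi N + nuTwo N := comb_orbitCount_sP N
  have h3 : 3 * orbitCount (uP N) = dedekindPsi N + 2 * nuThree N := comb_orbitCount_uP N
  have h4 : orbitCount (tP N) = cuspCount N := comb_orbitCount_tP N
  have h2' : (2 : ℚ) * orbitCount (sP N) = dedekindPsi N + nuTwo N := by exact_mod_cast h2
  have h3' : (3 : ℚ) * orbitCount (uP N) = dedekindPsi N + 2 * nuThree N := by exact_mod_cast h3
  unfold genusFormula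
  push_cast
  rw [h1, h4]
  linarith

/-- **S20 from its inputs.** -/
theorem finrank_cusp_eq_genusFormula_of
    (htr : Transcendental ℂ (jC N)) (hfd : FiniteDimensional ℂ⟮jC N⟯ (FC N))
    (hdeg : Module.finrank ℂ⟮jC N⟯ (FC N) = Fintype.card (PN N))
    (hRR : ∀ W : Divisor ℂ (FC N),
      (∀ (v : Place ℂ (FC N)) (a : ℂ), 0 < v.ord (jC N - algebraMap ℂ (FC N) a) →
        W v = v.ord (jC N - algebraMap ℂ (FC N) a) - 1) →
      (∀ v : Place ℂ (FC N), v.ord (jC N) < 0 → W v = v.ord (jC N) - 1) →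
      ∃ V : Submodule ℂ (FC N),
        (∀ f, f ∈ V ↔ f = 0 ∨ ∀ v : Place ℂ (FC N), 0 ≤ v.ord f + W v) ∧
        FiniteDimensional ℂ V ∧ 2 * (Module.finrank ℂ V : ℤ) - 2 = Divisor.degree W)
    (hS : ∀ W : Divisor ℂ (FC N),
      (∀ (v : Place ℂ (FC N)) (a : ℂ), 0 < v.ord (jC N - algebraMap ℂ (FC N) a) →
        W v = v.ord (jC N - algebraMap ℂ (FC N) a) - 1) →
      (∀ v : Place ℂ (FC N), v.ord (jC N) < 0 → W v = v.ord (jC N) - 1) →
      ∃ Φ : ↥(RR.LSpace W) →ₗ[ℂ] CuspForm (Gamma0 N) 2, Function.Injective Φ)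
    (hES : FiniteDimensional ℂ (CuspForm (Gamma0 N) 2) ∧
      2 * Module.finrank ℂ (CuspForm (Gamma0 N) 2)
        ≤ Module.finrank ℂ (parabolicHoms ℂ (Gamma0 N) ℂ)) :
    (Module.finrank ℂ (CuspForm (Gamma0 N) 2) : ℚ) = genusFormula N := by
  classical
  obtain ⟨-, -, L, Linf, -, -, -, -, -, -, hgen, -, -, -, hρs, hρu, hρt, -, -⟩ := localDataC N
  have hgen' : ∀ a : ℂ, a ∉ ({0, 1728} : Finset ℂ) → (L a).e = 1 := by
    intro a ha
    rw [Finset.mem_insert, Finset.mem_singleton, not_or] at ha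
    exact hgen a ha.1 ha.2
  obtain ⟨W, hfin, hinf, hdegW⟩ :=
    exists_canonical_divisor (jC N) htr (PN N) hdeg {0, 1728} L hgen' Linf
  obtain ⟨V, hV, hVfd, hVdim⟩ := hRR W hfin hinf
  obtain ⟨Φ, hΦ⟩ := hS W hfin hinf
  have hVL : V = RR.LSpace W := Submodule.ext fun f => (hV f).trans RR.mem_LSpace.symm
  have hSfd := hES.1
  -- lower bound
  have hlow : Module.finrank ℂ V ≤ Module.finrank ℂ (CuspForm (Gamma0 N) 2) := by
    rw [hVL]
    exact LinearMap.finrank_le_finrank_of_injective hΦ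
  -- orbit counts of the local data
  have ho0 : (L 0).orbits = orbitCount (uP N) := by
    unfold LocalData.orbits
    rcases hρu with h | h
    · rw [h]
    · rw [h, ES.orbitCount_inv]
  have ho1 : (L 1728).orbits = orbitCount (sP N) := by
    unfold LocalData.orbits
    rcases hρs with h | h
    · rw [h]
    · rw [h, ES.orbitCount_inv]
  have hoi : Linf.orbits = orbitCount (tP N) := by
    unfold LocalData.orbits
    rcases hρt with h | h
    · rw [h]
    · rw [h, ES.orbitCount_inv]
  have hne : (0 : ℂ) ≠ 1728 := by norm_num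
  rw [Finset.sum_pair hne, ho0, ho1, hoi] at hdegW
  -- upper bound
  have hup := (ES.finrank_parabolicHoms_le N).2
  have hES2 : (2 * Module.finrank ℂ (CuspForm (Gamma0 N) 2) : ℤ)
      ≤ Module.finrank ℂ (parabolicHoms ℂ (Gamma0 N) ℂ) := by exact_mod_cast hES.2
  have hlow' : (Module.finrank ℂ V : ℤ) ≤ Module.finrank ℂ (CuspForm (Gamma0 N) 2) := by
    exact_mod_cast hlow
  have hkey : (2 * Module.finrank ℂ (CuspForm (Gamma0 N) 2) : ℤ)
      = (Fintype.card (PN N) : ℤ) - orbitCount (sP N) - orbitCount (uP N) - orbitCount (tP N) + 2 := by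
    linarith
  have hq := genus_count N
  rw [← hkey] at hq
  have hq' : (2 : ℚ) * (Module.finrank ℂ (CuspForm (Gamma0 N) 2) : ℚ) = 2 * genusFormula N := by
    rw [← hq]; push_cast; ring
  linarith

end Fermat.Agent.MF
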