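/-
T24 [C] (helper4): a field extension in characteristic 0 all of whose elements have degree `≤ n`
is finite of degree `≤ n` (primitive element theorem): `finrank_le_of_forall_degree_le`;
variant for a generating subalgebra containing `j`: `finrank_le_of_subalgebra`.
-/
import Mathlib

set_option autoImplicit false

namespace Fermat.Agent.MC

open IntermediateField Polynomial

/-- A field extension (char 0) in which every element satisfies a nonzero polynomial of degree
at most `n` is finite of degree at most `n`. -/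
theorem finrank_le_of_forall_degree_le {K L : Type*} [Field K] [Field L] [Algebra K L]
    [CharZero K] (n : ℕ)
    (h : ∀ x : L, ∃ p : Polynomial K, p ≠ 0 ∧ p.natDegree ≤ n ∧ Polynomial.aeval x p = 0) :
    FiniteDimensional K L ∧ Module.finrank K L ≤ n := by
  have halg : Algebra.IsAlgebraic K L := ⟨fun x => by
    obtain ⟨p, hp0, -, hp⟩ := h x
    exact ⟨p, hp0, hp⟩⟩
  have hint : ∀ x : L, IsIntegral K x := fun x => (halg.isAlgebraic x).isIntegral
  have hdeg : ∀ x : L, (minpoly K x).natDegree ≤ n := by
    intro x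
    obtain ⟨p, hp0, hpn, hp⟩ := h x
    exact (Polynomial.natDegree_le_natDegree (minpoly.degree_le_of_ne_zero K x hp0 hp)).trans hpn
  -- an element of maximal degree
  obtain ⟨x₀, hx₀⟩ : ∃ x₀ : L, ∀ y : L, (minpoly K y).natDegree ≤ (minpoly K x₀).natDegree := by
    set S : Set ℕ := Set.range fun x : L => (minpoly K x).natDegree with hS
    have hne : S.Nonempty := ⟨_, ⟨0, rfl⟩⟩
    have hbdd : BddAbove S := ⟨n, by rintro _ ⟨x, rfl⟩; exact hdeg x⟩
    obtain ⟨x₀, hx₀⟩ := Nat.sSup_mem hne hbdd
    refine ⟨x₀, fun y => ?_⟩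
    have hx₀' : (minpoly K x₀).natDegree = sSup S := hx₀
    rw [hx₀']
    exact le_csSup hbdd ⟨y, rfl⟩
  have hsep : Algebra.IsSeparable K L := Algebra.IsAlgebraic.isSeparable_of_perfectField
  have htop : K⟮x₀⟯ = ⊤ := by
    rw [eq_top_iff]
    intro y _
    set E : IntermediateField K L := IntermediateField.adjoin K {x₀, y} with hE
    have hfin : FiniteDimensional K E :=
      IntermediateField.finiteDimensional_adjoin (fun z _ => hint z)
    have hsepE : Algebra.IsSeparable K E := inferInstance
    obtain ⟨α, hα⟩ := Field.exists_primitive_element K E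
    have hαint : IsIntegral K α := IsIntegral.of_finite K α
    have h1 : Module.finrank K E = (minpoly K (α : L)).natDegree := by
      rw [← IntermediateField.minpoly_eq, ← IntermediateField.adjoin.finrank hαint, hα]
      exact (IntermediateField.finrank_top').symm
    have h2 : Module.finrank K K⟮x₀⟯ = (minpoly K x₀).natDegree :=
      IntermediateField.adjoin.finrank (hint x₀)
    have hle : K⟮x₀⟯ ≤ E := by
      rw [IntermediateField.adjoin_simple_le_iff]
      exact IntermediateField.subset_adjoin K _ (Set.mem_insert _ _)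
    have hfr : Module.finrank K E ≤ Module.finrank K K⟮x₀⟯ := by
      rw [h1, h2]; exact hx₀ _
    have heq : K⟮x₀⟯ = E := IntermediateField.eq_of_le_of_finrank_le hle hfr
    rw [heq]
    exact IntermediateField.subset_adjoin K _ (Set.mem_insert_of_mem _ rfl)
  have hfin0 : FiniteDimensional K K⟮x₀⟯ := IntermediateField.adjoin.finiteDimensional (hint x₀)
  have hfr0 : Module.finrank K K⟮x₀⟯ = (minpoly K x₀).natDegree :=
    IntermediateField.adjoin.finrank (hint x₀)
  rw [htop] at hfin0 hfr0
  have e := (IntermediateField.topEquiv (F := K) (E := L)).toLinearEquiv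
  refine ⟨e.finiteDimensional, ?_⟩
  rw [← e.finrank_eq, hfr0]
  exact hdeg x₀

/-- (ALG-2) degree bound from a generating subalgebra: if `F = K(S)` for a `K`-subalgebra `S`
containing `j`, and every element of `S` satisfies a nonzero polynomial of degree `≤ n` over
`K(j)`, then `[F : K(j)] ≤ n`. -/
theorem finrank_le_of_subalgebra {K F : Type*} [Field K] [Field F] [Algebra K F] [CharZero K]
    (j : F) (S : Subalgebra K F) (hj : j ∈ S)
    (hS : IntermediateField.adjoin K (S : Set F) = ⊤) (n : ℕ)
    (h : ∀ s ∈ S, ∃ p : Polynomial K⟮j⟯, p ≠ 0 ∧ p.natDegree ≤ n ∧ Polynomial.aeval s p = 0) :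
    FiniteDimensional K⟮j⟯ F ∧ Module.finrank K⟮j⟯ F ≤ n := by
  -- polynomials in `j` lie in `S` and in `K(j)`
  have hpS : ∀ q : K[X], aeval j q ∈ S := fun q =>
    (Algebra.adjoin_le (Set.singleton_subset_iff.mpr hj) : Algebra.adjoin K {j} ≤ S)
      (aeval_mem_adjoin_singleton K j)
  have hpK : ∀ q : K[X], aeval j q ∈ K⟮j⟯ := fun q =>
    IntermediateField.algebra_adjoin_le_adjoin K _ (aeval_mem_adjoin_singleton K j)
  -- the set of quotients `s / q(j)`
  let P : F → Prop := fun x => ∃ s ∈ S, ∃ q : K[X], aeval j q ≠ 0 ∧ x * aeval j q = s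
  have hPdeg : ∀ x : F, P x →
      ∃ p : Polynomial K⟮j⟯, p ≠ 0 ∧ p.natDegree ≤ n ∧ Polynomial.aeval x p = 0 := by
    rintro x ⟨s, hs, q, hq, hx⟩
    obtain ⟨p, hp0, hpn, hps⟩ := h s hs
    set c : K⟮j⟯ := ⟨aeval j q, hpK q⟩ with hc
    have hc0 : c ≠ 0 := by
      intro h0
      apply hq
      have := congrArg (fun z : K⟮j⟯ => (z : F)) h0
      simpa [hc] using this
    refine ⟨p.comp (C c * X), ?_, ?_, ?_⟩
    · intro h0
      rw [Polynomial.comp_eq_zero_iff] at h0
      rcases h0 with h0 | ⟨-, h0⟩
      · exact hp0 h0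
      · have := congrArg (fun r : K⟮j⟯[X] => r.coeff 1) h0
        simp at this
        exact hc0 this
    · rw [Polynomial.natDegree_comp, Polynomial.natDegree_C_mul_X c hc0, mul_one]
      exact hpn
    · rw [Polynomial.aeval_comp]
      have e : aeval x (C c * X : K⟮j⟯[X]) = s := by
        rw [map_mul, aeval_C, aeval_X, ← hx, mul_comm]
        rfl
      rw [e, hps]
  -- the quotients form a `K(j)`-subalgebra
  let M : Subalgebra K⟮j⟯ F :=
    { carrier := {x | P x}
      mul_mem' := by
        rintro x y ⟨s, hs, q, hq, hx⟩ ⟨t, ht, r, hr, hy⟩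
        refine ⟨s * t, S.mul_mem hs ht, q * r, ?_, ?_⟩
        · rw [map_mul]; exact mul_ne_zero hq hr
        · rw [map_mul, ← hx, ← hy]; ring
      add_mem' := by
        rintro x y ⟨s, hs, q, hq, hx⟩ ⟨t, ht, r, hr, hy⟩
        refine ⟨s * aeval j r + t * aeval j q,
          S.add_mem (S.mul_mem hs (hpS r)) (S.mul_mem ht (hpS q)), q * r, ?_, ?_⟩
        · rw [map_mul]; exact mul_ne_zero hq hr
        · rw [map_mul, ← hx, ← hy]; ring
      algebraMap_mem' := by
        intro r
        obtain ⟨a, b, hab⟩ := (IntermediateField.mem_adjoin_simple_iff K (r : F)).mp r.2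
        by_cases hb : aeval j b = 0
        · refine ⟨0, S.zero_mem, 1, by simp, ?_⟩
          rw [hb, div_zero] at hab
          show (r : F) * aeval j (1 : K[X]) = 0
          rw [hab, zero_mul]
        · refine ⟨aeval j a, hpS a, b, hb, ?_⟩
          show (r : F) * aeval j b = aeval j a
          rw [hab, div_mul_cancel₀ _ hb] }
  have hSM : ∀ s ∈ S, s ∈ M := fun s hs => ⟨s, hs, 1, by simp, by simp⟩
  have hall : ∀ x : F, x ∈ M := by
    intro x
    have hx : x ∈ IntermediateField.adjoin K (S : Set F) := by rw [hS]; trivial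
    induction hx using IntermediateField.adjoin_induction with
    | mem x hx => exact hSM x hx
    | algebraMap c => exact hSM _ (S.algebraMap_mem c)
    | add x y _ _ hx hy => exact M.add_mem hx hy
    | mul x y _ _ hx hy => exact M.mul_mem hx hy
    | inv x _ hx =>
      have halg : IsAlgebraic K⟮j⟯ x := by
        obtain ⟨p, hp0, -, hp⟩ := hPdeg x hx
        exact ⟨p, hp0, hp⟩
      exact M.inv_mem_of_algebraic (x := ⟨x, hx⟩) halg
  exact finrank_le_of_forall_degree_le n fun x => hPdeg x (hall x)

end Fermat.Agent.MC
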