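import Mathlib
import Fermat.Agent.Lib.MC_Defs

set_option autoImplicit false

/-!
# T24 [C]: `j` is transcendental over the constants, and the lower bound for the degree
(helper8)
-/

noncomputable section

namespace Fermat.Agent.MC

open ModularCurve AlgebraicCurve Fermat.Agent.FF IntermediateField Polynomial
open scoped MatrixGroups

theorem jF_val (N : ℕ) [NeZero N] : ((jF N : FN N) : LaurentSeries Kb) = coeffEmb Kb jq := rfl

/-- `j` is transcendental over the constant field -/
theorem transcendental_jF (N : ℕ) [NeZero N] : Transcendental Kb (jF N) := by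
  rw [transcendental_iff]
  intro P hP
  by_contra hne
  have h1 : Polynomial.aeval (coeffEmb Kb jq) P = 0 := by
    have h := Polynomial.aeval_algHom_apply (modularFunctionFieldBar N).val (jF N) P
    rw [hP, map_zero] at h
    exact h
  have h2 := congrArg (fun s : LaurentSeries Kb => s.coeff (-(P.natDegree : ℤ))) h1
  simp only [HahnSeries.coeff_zero] at h2
  rw [Polynomial.aeval_eq_sum_range, HahnSeries.coeff_sum] at h2
  rw [Finset.sum_eq_single P.natDegree] at h2
  · rw [Algebra.smul_def, algebraMap_laurentSeries_eq_single, HahnSeries.coeff_single_zero_mul,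
      ← map_pow, coeffEmb_coeff, coeff_jq_pow_self] at h2
    simp only [map_one, mul_one] at h2
    exact hne (Polynomial.leadingCoeff_eq_zero.mp h2)
  · intro i hi hin
    have hlt : i < P.natDegree := by
      have := Finset.mem_range.mp hi
      omega
    rw [Algebra.smul_def, algebraMap_laurentSeries_eq_single, HahnSeries.coeff_single_zero_mul,
      ← map_pow, coeffEmb_coeff, coeff_jq_pow_of_lt (by omega : -(P.natDegree : ℤ) < -(i : ℤ))]
    simp
  · intro h
    exact absurd (Finset.mem_range.mpr (Nat.lt_succ_self _)) h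

/-- two ring homs out of `F` which agree on the constants and on `x` agree on `K(x)` -/
theorem ringHom_eq_on_adjoin_simple {K F M : Type*} [Field K] [Field F] [Algebra K F]
    [Semiring M] [Nontrivial M] (x : F) (f g : F →+* M)
    (hK : ∀ c : K, f (algebraMap K F c) = g (algebraMap K F c)) (hx : f x = g x)
    (y : F) (hy : y ∈ K⟮x⟯) : f y = g y := by
  let S : IntermediateField K F := (RingHom.eqLocusField f g).toIntermediateField hK
  have hle : K⟮x⟯ ≤ S := by
    rw [IntermediateField.adjoin_simple_le_iff]
    exact hx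
  exact hle hy

/-- the number of embeddings in a local datum is at most the degree -/
theorem card_le_finrank_of_localData {K F : Type} [Field K] [Field F] [Algebra K F] (x : F)
    [FiniteDimensional K⟮x⟯ F] (a : K) (I : Type) [Fintype I] (L : FF.LocalData K F x a I) :
    Fintype.card I ≤ Module.finrank K⟮x⟯ F := by
  rcases isEmpty_or_nonempty I with hI | ⟨⟨k₀⟩⟩
  · simp
  let _ : Algebra K⟮x⟯ (LaurentSeries ℂ) :=
    ((L.ι k₀).comp (algebraMap K⟮x⟯ F)).toAlgebra
  have hagree : ∀ (k : I) (y : K⟮x⟯), L.ι k (y : F) = L.ι k₀ (y : F) := by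
    intro k y
    refine ringHom_eq_on_adjoin_simple (K := K) x (L.ι k) (L.ι k₀) ?_ ?_ (y : F) y.2
    · intro c
      rw [L.ι_algebraMap, L.ι_algebraMap]
    · rw [L.ι_x, L.ι_x]
  let emb : I → (F →ₐ[K⟮x⟯] LaurentSeries ℂ) := fun k =>
    { (L.ι k) with
      commutes' := fun y => hagree k y }
  have hinj : Function.Injective emb := by
    intro k k' h
    apply L.ι_injective
    ext f : 1
    exact congrArg (fun e : F →ₐ[K⟮x⟯] LaurentSeries ℂ => e f) h
  have h1 := card_algHom_le_finrank K⟮x⟯ F (LaurentSeries ℂ)
  have hfin : Finite (F →ₐ[K⟮x⟯] LaurentSeries ℂ) := inferInstance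
  have h2 : Nat.card I ≤ Nat.card (F →ₐ[K⟮x⟯] LaurentSeries ℂ) :=
    Nat.card_le_card_of_injective emb hinj
  rw [Nat.card_eq_fintype_card] at h2
  exact h2.trans h1

end Fermat.Agent.MC
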