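import Mathlib
import Fermat.Prelude.Def_ModularCurve_JqCoeff

set_option autoImplicit false

/-!
# T24 [B]: the analytic `j`-function (helper8)

`jfun z = E₄ z ^ 3 / Δ z` (Mathlib's `EisensteinSeries.E₄` and `ModularForm.discriminant`),
so that its `q`-expansion is the Prelude's formal `jq = q⁻¹ * jNum`.

Contents (all proved): invariance, holomorphy, values at `i` and `ρ`, `q`-expansion
(`jfun_hasSum`, `jqFun_hasSum`), growth at the cusp (`jfun_norm_tendsto`), surjectivity
(`jfun_surjective`), Ramanujan identities (`mcj_ramanujan_E4`, `mcj_ramanujan_E6`, `mcj_D_disc`),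
the derivative (`deriv_jfun`) and the orders of `j - j(z)` (`analyticOrderAt_jfun_generic`,
`analyticOrderAt_jfun_I`, `analyticOrderAt_jfun_ellRho`).
-/

noncomputable section

namespace Fermat.Agent.MC

open UpperHalfPlane ModularForm EisensteinSeries ModularCurve Complex Filter Derivative
open scoped MatrixGroups Real Manifold Topology

local notation "𝕢" => Function.Periodic.qParam

/-- the analytic `j`-function `E₄³ / Δ` on the upper half plane -/
def jfun (z : ℍ) : ℂ := E₄ z ^ 3 / ModularForm.discriminant z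

/-- pointwise modularity of level-one forms -/
theorem mcj_levelOne_smul {F : Type*} [FunLike F ℍ ℂ] {k : ℤ} [SlashInvariantFormClass F 𝒮ℒ k]
    (f : F) (γ : SL(2, ℤ)) (z : ℍ) :
    f (γ • z) = denom γ z ^ k * f z :=
  SlashInvariantForm.slash_action_eqn'' (Γ := 𝒮ℒ) f (γ := Matrix.SpecialLinearGroup.mapGL ℝ γ)
    (MonoidHom.mem_range.mpr ⟨γ, rfl⟩) z

theorem mcj_disc_smul (γ : SL(2, ℤ)) (z : ℍ) :
    ModularForm.discriminant (γ • z) = denom γ z ^ (12 : ℤ) * ModularForm.discriminant z :=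
  mcj_levelOne_smul (CuspForm.discriminant : CuspForm 𝒮ℒ 12) γ z

theorem jfun_smul (γ : SL(2, ℤ)) (z : ℍ) : jfun (γ • z) = jfun z := by
  unfold jfun
  rw [mcj_levelOne_smul E₄ γ z, mcj_disc_smul γ z]
  have hd : denom γ z ≠ 0 := denom_ne_zero _ _
  have hΔ := discriminant_ne_zero z
  field_simp

theorem mcj_disc_mdifferentiable : MDiff ModularForm.discriminant :=
  (CuspForm.discriminant : CuspForm 𝒮ℒ 12).holo'

theorem jfun_mdifferentiable : MDiff jfun := by
  have h4 : MDiff (E₄ : ℍ → ℂ) := E₄.holo'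
  have h : MDiff (fun z : ℍ => E₄ z ^ 3 / ModularForm.discriminant z) := by
    rw [UpperHalfPlane.mdifferentiable_iff] at h4 ⊢
    have hΔ := UpperHalfPlane.mdifferentiable_iff.mp mcj_disc_mdifferentiable
    refine ((h4.pow 3).div hΔ ?_).congr ?_
    · intro x hx
      simp only [Function.comp_apply]
      exact discriminant_ne_zero _
    · intro x hx
      simp [Function.comp_apply]
  exact h

theorem jfun_differentiableAt {z : ℂ} (hz : 0 < z.im) :
    DifferentiableAt ℂ (jfun ∘ ofComplex) z :=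
  UpperHalfPlane.mdifferentiableAt_iff.mp (jfun_mdifferentiable ⟨z, hz⟩)

theorem jfun_sub_1728 (z : ℍ) : jfun z - 1728 = E₆ z ^ 2 / ModularForm.discriminant z := by
  have hΔ := discriminant_ne_zero z
  have h := discriminant_eq_E₄_cube_sub_E₆_sq z
  unfold jfun
  field_simp
  rw [h]
  ring

/-- the elliptic point `ρ = e^{2πi/3}` -/
def ellRho : ℍ := ⟨⟨-1 / 2, Real.sqrt 3 / 2⟩, by positivity⟩

theorem mcj_S_smul_I : ModularGroup.S • UpperHalfPlane.I = UpperHalfPlane.I := by
  rw [modular_S_smul]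
  ext
  simp

theorem mcj_denom_S (z : ℍ) : denom ModularGroup.S z = z := by
  simp [ModularGroup.denom_S]

theorem mcj_E6_I : E₆ UpperHalfPlane.I = 0 := by
  have h := mcj_levelOne_smul E₆ ModularGroup.S UpperHalfPlane.I
  rw [mcj_S_smul_I, mcj_denom_S] at h
  have h6 : ((UpperHalfPlane.I : ℍ) : ℂ) ^ (6 : ℤ) = -1 := by
    have : ((UpperHalfPlane.I : ℍ) : ℂ) = Complex.I := rfl
    rw [this]
    norm_cast
    rw [show (6 : ℕ) = 2 * 3 by norm_num, pow_mul, Complex.I_sq]
    norm_num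
  rw [h6] at h
  linear_combination (1 / 2 : ℂ) * h

theorem mcj_rho_coe : ((ellRho : ℍ) : ℂ) = ⟨-1 / 2, Real.sqrt 3 / 2⟩ := rfl

theorem mcj_rho_sq : ((ellRho : ℍ) : ℂ) ^ 2 + (ellRho : ℂ) + 1 = 0 := by
  rw [mcj_rho_coe]
  have h3 : Real.sqrt 3 * Real.sqrt 3 = 3 := Real.mul_self_sqrt (by norm_num)
  apply Complex.ext
  · simp [pow_two]
    nlinarith
  · simp [pow_two]
    ring

theorem mcj_ST_smul_rho : (ModularGroup.S * ModularGroup.T) • ellRho = ellRho := by
  rw [mul_smul, modular_T_smul, modular_S_smul]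
  ext1
  have h := mcj_rho_sq
  have hne : ((ellRho : ℍ) : ℂ) ≠ 0 := ne_zero _
  simp only [coe_vadd, ofReal_one]
  exact inv_eq_of_mul_eq_one_right (by linear_combination -h)

theorem mcj_denom_ST (z : ℍ) :
    denom ((ModularGroup.S * ModularGroup.T : SL(2, ℤ))) z = (z : ℂ) + 1 := by
  have h10 : ((ModularGroup.S * ModularGroup.T : SL(2, ℤ)) 1 0) = 1 := by decide
  have h11 : ((ModularGroup.S * ModularGroup.T : SL(2, ℤ)) 1 1) = 1 := by decide
  rw [ModularGroup.denom_apply, h10, h11]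
  simp

theorem mcj_E4_rho : E₄ ellRho = 0 := by
  have h := mcj_levelOne_smul E₄ (ModularGroup.S * ModularGroup.T) ellRho
  rw [mcj_ST_smul_rho, mcj_denom_ST] at h
  have hr := mcj_rho_sq
  have h4 : (((ellRho : ℍ) : ℂ) + 1) ^ (4 : ℤ) = (ellRho : ℂ) ^ 2 := by
    norm_cast
    linear_combination ((ellRho : ℂ) ^ 2 + 3 * (ellRho : ℂ) + 1) * hr
  rw [h4] at h
  have hne : (1 : ℂ) - (ellRho : ℂ) ^ 2 ≠ 0 := by
    intro h0
    have h1 : ((ellRho : ℍ) : ℂ) = -2 := by linear_combination hr + h0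
    have := congrArg Complex.im h1
    rw [mcj_rho_coe] at this
    simp at this
  have : (1 - (ellRho : ℂ) ^ 2) * E₄ ellRho = 0 := by linear_combination h
  exact (mul_eq_zero.mp this).resolve_left hne

theorem jfun_I : jfun UpperHalfPlane.I = 1728 := by
  have h := jfun_sub_1728 UpperHalfPlane.I
  rw [mcj_E6_I] at h
  simp at h
  linear_combination h

theorem jfun_ellRho : jfun ellRho = 0 := by
  unfold jfun
  rw [mcj_E4_rho]
  simp


/-- The Taylor series at `0` of a function `ℂ → ℂ`, as a formal power series. -/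
def taylorPS (φ : ℂ → ℂ) : PowerSeries ℂ :=
  PowerSeries.mk fun m => (m.factorial : ℂ)⁻¹ * iteratedDeriv m φ 0

theorem taylorPS_coeff (φ : ℂ → ℂ) (m : ℕ) :
    PowerSeries.coeff m (taylorPS φ) = (m.factorial : ℂ)⁻¹ * iteratedDeriv m φ 0 := by
  simp [taylorPS]

theorem taylorPS_congr {φ ψ : ℂ → ℂ} (h : φ =ᶠ[𝓝 0] ψ) : taylorPS φ = taylorPS ψ := by
  ext m
  rw [taylorPS_coeff, taylorPS_coeff, h.iteratedDeriv_eq m]

theorem taylorPS_mul {φ ψ : ℂ → ℂ} (hφ : AnalyticAt ℂ φ 0) (hψ : AnalyticAt ℂ ψ 0) :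
    taylorPS (φ * ψ) = taylorPS φ * taylorPS ψ := by
  ext n
  simp only [taylorPS_coeff, iteratedDeriv_mul hφ.contDiffAt hψ.contDiffAt, Finset.mul_sum,
    PowerSeries.coeff_mul, Finset.Nat.sum_antidiagonal_eq_sum_range_succ_mk, Nat.succ_eq_add_one]
  refine Finset.sum_congr rfl fun i hi ↦ ?_
  rw [Nat.cast_choose _ (by grind)]
  field_simp [Nat.factorial_ne_zero]

theorem taylorPS_one : taylorPS (1 : ℂ → ℂ) = 1 := by
  ext m
  have h2 : iteratedDeriv m (1 : ℂ → ℂ) 0 = if m = 0 then 1 else 0 := by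
    simpa [ite_apply] using! iteratedDeriv_const
  rw [taylorPS_coeff, h2]
  rcases Nat.eq_zero_or_pos m with rfl | hm
  · simp
  · simp [hm.ne', PowerSeries.coeff_one]

theorem taylorPS_pow {φ : ℂ → ℂ} (hφ : AnalyticAt ℂ φ 0) (n : ℕ) :
    taylorPS (φ ^ n) = taylorPS φ ^ n := by
  induction n with
  | zero => simpa using taylorPS_one
  | succ n ih => rw [pow_succ, taylorPS_mul (hφ.pow n) hφ, ih, pow_succ]

/-- Taylor coefficients of a polynomial function. -/
theorem iteratedDeriv_aeval (p : Polynomial ℤ) (m : ℕ) :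
    iteratedDeriv m (fun x : ℂ => Polynomial.aeval x p) =
      fun x : ℂ => Polynomial.aeval x (Polynomial.derivative^[m] p) := by
  induction m with
  | zero => simp
  | succ m ih =>
    rw [iteratedDeriv_succ, ih]
    funext x
    rw [Polynomial.deriv_aeval, Function.iterate_succ_apply']

theorem taylorPS_aeval (p : Polynomial ℤ) (m : ℕ) :
    PowerSeries.coeff m (taylorPS (fun x : ℂ => Polynomial.aeval x p)) = ((p.coeff m : ℤ) : ℂ) := by
  rw [taylorPS_coeff, iteratedDeriv_aeval]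
  simp only
  rw [← Polynomial.coeff_zero_eq_aeval_zero', Polynomial.coeff_iterate_derivative]
  have hm : (m.factorial : ℂ) ≠ 0 := by exact_mod_cast Nat.factorial_ne_zero m
  simp [Nat.descFactorial_self]
  field_simp

/-- the analytic eta product on the unit disc -/
def etaFun (q : ℂ) : ℂ := ∏' n : ℕ, (1 - q ^ (n + 1))

/-- the partial products as integer polynomials -/
def etaPoly (N : ℕ) : Polynomial ℤ :=
  ∏ n ∈ Finset.range N, (1 - Polynomial.X ^ (n + 1))

theorem aeval_etaPoly (N : ℕ) (x : ℂ) :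
    Polynomial.aeval x (etaPoly N) = ∏ n ∈ Finset.range N, (1 - x ^ (n + 1)) := by
  simp [etaPoly, map_prod]

theorem etaPoly_tendstoLocallyUniformlyOn :
    TendstoLocallyUniformlyOn (fun N x => Polynomial.aeval x (etaPoly N)) etaFun atTop
      (Metric.ball (0 : ℂ) 1) := by
  have h := multipliableLocallyUniformlyOn_one_sub_pow.hasProdLocallyUniformlyOn
  intro u hu x hx
  obtain ⟨t, ht, hev⟩ := h u hu x hx
  refine ⟨t, ht, ?_⟩
  have := tendsto_finset_range.eventually hev
  filter_upwards [this] with N hN y hy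
  have := hN y hy
  simpa [aeval_etaPoly, etaFun] using this

theorem etaPoly_iteratedDeriv_tendsto (m : ℕ) :
    TendstoLocallyUniformlyOn (fun N => iteratedDeriv m (fun x : ℂ => Polynomial.aeval x (etaPoly N)))
      (iteratedDeriv m etaFun) atTop (Metric.ball (0 : ℂ) 1) := by
  induction m with
  | zero => simpa using etaPoly_tendstoLocallyUniformlyOn
  | succ m ih =>
    have hF : ∀ᶠ N in atTop, DifferentiableOn ℂ
        (iteratedDeriv m (fun x : ℂ => Polynomial.aeval x (etaPoly N))) (Metric.ball (0 : ℂ) 1) := by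
      refine Filter.Eventually.of_forall fun N => ?_
      rw [iteratedDeriv_aeval]
      exact Polynomial.differentiableOn_aeval _
    have := ih.deriv hF Metric.isOpen_ball
    simpa only [Function.comp_def, ← iteratedDeriv_succ] using this

theorem etaProd_coeff_tendsto (m : ℕ) :
    Tendsto (fun N => (((etaPoly N).coeff m : ℤ) : ℂ)) atTop
      (𝓝 ((PowerSeries.coeff m etaProd : ℤ) : ℂ)) := by
  open scoped PowerSeries.WithPiTopology in
  have h1 : Tendsto (fun N => ∏ n ∈ Finset.range N, ((1 : PowerSeries ℤ) - PowerSeries.X ^ (n + 1)))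
      atTop (𝓝 etaProd) :=
    (PowerSeries.WithPiTopology.multipliable_one_sub_X_pow ℤ).hasProd.tendsto_prod_nat
  have h2 := ((PowerSeries.WithPiTopology.continuous_coeff ℤ m).tendsto etaProd).comp h1
  have h3 : Continuous (fun z : ℤ => (z : ℂ)) := continuous_of_discreteTopology
  have h4 := (h3.tendsto _).comp h2
  refine h4.congr fun N => ?_
  simp only [Function.comp_apply]
  congr 1
  rw [← Polynomial.coeff_coe]
  congr 1
  simp [etaPoly, ← Polynomial.coeToPowerSeries.ringHom_apply, map_prod]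
  simp only [Polynomial.coeToPowerSeries.ringHom_apply, Polynomial.coe_X]

theorem taylorPS_etaFun : taylorPS etaFun = PowerSeries.map (Int.castRingHom ℂ) etaProd := by
  ext m
  rw [taylorPS_coeff, PowerSeries.coeff_map]
  have h0 : (0 : ℂ) ∈ Metric.ball (0 : ℂ) 1 := Metric.mem_ball_self one_pos
  have h1 := (etaPoly_iteratedDeriv_tendsto m).tendsto_at h0
  have h2 : Tendsto (fun N => (m.factorial : ℂ)⁻¹ *
      iteratedDeriv m (fun x : ℂ => Polynomial.aeval x (etaPoly N)) 0) atTop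
      (𝓝 ((m.factorial : ℂ)⁻¹ * iteratedDeriv m etaFun 0)) := h1.const_mul _
  have h3 : ∀ N, (m.factorial : ℂ)⁻¹ *
      iteratedDeriv m (fun x : ℂ => Polynomial.aeval x (etaPoly N)) 0 =
        (((etaPoly N).coeff m : ℤ) : ℂ) := fun N => by
    rw [← taylorPS_coeff, taylorPS_aeval]
  simp only [h3] at h2
  exact tendsto_nhds_unique h2 (etaProd_coeff_tendsto m)

theorem etaFun_ne_zero {q : ℂ} (hq : ‖q‖ < 1) : etaFun q ≠ 0 := by
  unfold etaFun
  simp_rw [sub_eq_add_neg]
  refine tprod_one_add_ne_zero_of_summable (f := fun n => -q ^ (n + 1)) ?_ ?_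
  · intro i h
    have h1 : q ^ (i + 1) = 1 := by linear_combination -h
    have h2 : ‖q‖ ^ (i + 1) = 1 := by rw [← norm_pow, h1, norm_one]
    have h3 : ‖q‖ ^ (i + 1) < 1 := pow_lt_one₀ (norm_nonneg _) hq (by omega)
    linarith
  · simpa using (summable_nat_add_iff 1).mpr (summable_geometric_of_lt_one (norm_nonneg _) hq)

theorem etaFun_differentiableOn : DifferentiableOn ℂ etaFun (Metric.ball (0 : ℂ) 1) :=
  differentiableOn_tprod_one_sub_pow

/-- the discriminant in terms of the eta product -/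
theorem mcj_disc_eq (z : ℍ) :
    ModularForm.discriminant z = 𝕢 1 z * etaFun (𝕢 1 z) ^ 24 := by
  have hq : ‖𝕢 1 (z : ℂ)‖ < 1 := by simpa using norm_qParam_lt_one 1 z
  rw [discriminant_eq_q_prod, etaFun]
  congr 1
  exact (multipliable_one_sub_pow hq).tprod_pow 24

/-- the cusp function of `E₄` -/
def e4Fun : ℂ → ℂ := cuspFunction 1 E₄

theorem e4Fun_differentiableOn : DifferentiableOn ℂ e4Fun (Metric.ball (0 : ℂ) 1) := fun q hq =>
  (ModularFormClass.differentiableAt_cuspFunction E₄ one_pos one_mem_strictPeriods_SL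
    (by simpa using hq)).differentiableWithinAt

theorem e4Fun_qParam (z : ℍ) : e4Fun (𝕢 1 z) = E₄ z :=
  SlashInvariantFormClass.eq_cuspFunction E₄ z one_mem_strictPeriods_SL one_ne_zero

theorem taylorPS_e4Fun : taylorPS e4Fun = PowerSeries.map (Int.castRingHom ℂ) eisenstein4 := by
  ext m
  have h := E_qExpansion_coeff (k := 4) (by norm_num) ⟨2, rfl⟩ m
  rw [PowerSeries.coeff_map]
  have h' : PowerSeries.coeff m (taylorPS e4Fun) =
      (m.factorial : ℂ)⁻¹ * iteratedDeriv m (cuspFunction 1 E₄) 0 := taylorPS_coeff _ _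
  rw [h', ← qExpansion_coeff, h]
  have hb : bernoulli 4 = -1 / 30 := by decide +kernel
  simp only [eisenstein4, PowerSeries.coeff_mk]
  split_ifs with hm
  · simp
  · rw [hb]
    simp [ArithmeticFunction.sigma_apply]
    norm_num

/-- the function `q ↦ q * j` on the unit disc -/
def jqFun (q : ℂ) : ℂ := e4Fun q ^ 3 / etaFun q ^ 24

theorem jqFun_differentiableOn : DifferentiableOn ℂ jqFun (Metric.ball (0 : ℂ) 1) := by
  refine (e4Fun_differentiableOn.pow 3).div (etaFun_differentiableOn.pow 24) ?_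
  intro q hq
  exact pow_ne_zero 24 (etaFun_ne_zero (by simpa using hq))

theorem jqFun_qParam (z : ℍ) : jqFun (𝕢 1 z) = 𝕢 1 z * jfun z := by
  have hq : ‖𝕢 1 (z : ℂ)‖ < 1 := by simpa using norm_qParam_lt_one 1 z
  have h1 := etaFun_ne_zero hq
  have h2 : 𝕢 1 (z : ℂ) ≠ 0 := Function.Periodic.qParam_ne_zero _
  unfold jqFun jfun
  rw [e4Fun_qParam, mcj_disc_eq]
  field_simp

theorem taylorPS_jqFun : taylorPS jqFun = PowerSeries.map (Int.castRingHom ℂ) jNum := by
  have hball : Metric.ball (0 : ℂ) 1 ∈ 𝓝 (0 : ℂ) := Metric.ball_mem_nhds _ one_pos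
  have hJ : AnalyticAt ℂ jqFun 0 := jqFun_differentiableOn.analyticAt hball
  have hE : AnalyticAt ℂ e4Fun 0 := e4Fun_differentiableOn.analyticAt hball
  have hη : AnalyticAt ℂ etaFun 0 := etaFun_differentiableOn.analyticAt hball
  have hmul : jqFun * etaFun ^ 24 =ᶠ[𝓝 0] e4Fun ^ 3 := by
    filter_upwards [hball] with q hq
    have h1 := etaFun_ne_zero (q := q) (by simpa using hq)
    simp only [Pi.mul_apply, Pi.pow_apply, jqFun]
    field_simp
  have h1 : taylorPS jqFun * taylorPS etaFun ^ 24 = taylorPS e4Fun ^ 3 := by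
    rw [← taylorPS_pow hη, ← taylorPS_mul hJ (hη.pow 24), taylorPS_congr hmul, taylorPS_pow hE]
  rw [taylorPS_etaFun, taylorPS_e4Fun] at h1
  have h2 : PowerSeries.map (Int.castRingHom ℂ) dedekindEtaUnit *
      PowerSeries.map (Int.castRingHom ℂ) dedekindEtaUnitInv = 1 := by
    rw [← map_mul, dedekindEtaUnit_mul_inv, map_one]
  calc taylorPS jqFun
      = taylorPS jqFun * (PowerSeries.map (Int.castRingHom ℂ) dedekindEtaUnit *
          PowerSeries.map (Int.castRingHom ℂ) dedekindEtaUnitInv) := by rw [h2, mul_one]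
    _ = (taylorPS jqFun * PowerSeries.map (Int.castRingHom ℂ) etaProd ^ 24) *
          PowerSeries.map (Int.castRingHom ℂ) dedekindEtaUnitInv := by
        rw [dedekindEtaUnit, map_pow, mul_assoc]
    _ = PowerSeries.map (Int.castRingHom ℂ) jNum := by
        rw [h1, jNum, map_mul, map_pow]

/-- `q`-expansion: `q * j(z) = ∑ c_n q^n` with `c_n` the coefficients of the Prelude's `jNum`. -/
theorem jqFun_hasSum {q : ℂ} (hq : ‖q‖ < 1) :
    HasSum (fun n : ℕ => ((PowerSeries.coeff n jNum : ℤ) : ℂ) * q ^ n) (jqFun q) := by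
  have h := hasSum_taylorSeries_on_ball jqFun_differentiableOn
    (show q ∈ Metric.ball (0 : ℂ) 1 by simpa using hq)
  have hfun : (fun n : ℕ => ((PowerSeries.coeff n jNum : ℤ) : ℂ) * q ^ n) =
      fun n : ℕ => (n.factorial : ℂ)⁻¹ • (q - 0) ^ n • iteratedDeriv n jqFun 0 := by
    funext n
    have h1 : ((PowerSeries.coeff n jNum : ℤ) : ℂ) =
        (n.factorial : ℂ)⁻¹ * iteratedDeriv n jqFun 0 := by
      rw [← taylorPS_coeff, taylorPS_jqFun, PowerSeries.coeff_map]
      simp
    rw [h1]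
    simp only [sub_zero, smul_eq_mul]
    ring
  rw [hfun]
  exact h

theorem jfun_hasSum (z : ℍ) :
    HasSum (fun n : ℕ => ((PowerSeries.coeff n jNum : ℤ) : ℂ) * 𝕢 1 z ^ n) (𝕢 1 z * jfun z) := by
  have hq : ‖𝕢 1 (z : ℂ)‖ < 1 := by simpa using norm_qParam_lt_one 1 z
  rw [← jqFun_qParam]
  exact jqFun_hasSum hq

/-! ### Surjectivity -/

theorem e4Fun_zero : e4Fun 0 = 1 := by
  have h := congrArg (PowerSeries.coeff 0) taylorPS_e4Fun
  rw [taylorPS_coeff, PowerSeries.coeff_map] at h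
  simpa [eisenstein4] using h

theorem mcj_E4_tendsto : Tendsto (fun z : ℍ => E₄ z) atImInfty (𝓝 1) := by
  have hball : Metric.ball (0 : ℂ) 1 ∈ 𝓝 (0 : ℂ) := Metric.ball_mem_nhds _ one_pos
  have hc : ContinuousAt e4Fun 0 :=
    (e4Fun_differentiableOn.differentiableAt hball).continuousAt
  have h := hc.tendsto.comp (qParam_tendsto_atImInfty (h := 1) one_pos)
  rw [e4Fun_zero] at h
  refine h.congr fun z => ?_
  simp only [Function.comp_apply]
  exact e4Fun_qParam z

theorem jfun_norm_tendsto : Tendsto (fun z : ℍ => ‖jfun z‖) atImInfty atTop := by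
  have h1 : Tendsto (fun z : ℍ => ‖E₄ z ^ 3‖) atImInfty (𝓝 1) := by
    have := (mcj_E4_tendsto.pow 3).norm
    simpa using this
  have h2 : Tendsto (fun z : ℍ => ‖ModularForm.discriminant z‖) atImInfty (𝓝[>] 0) := by
    rw [tendsto_nhdsWithin_iff]
    refine ⟨?_, Filter.Eventually.of_forall fun z => norm_pos_iff.mpr (discriminant_ne_zero z)⟩
    have := discriminant_isZeroAtImInfty.norm
    simpa [IsZeroAtImInfty, ZeroAtFilter] using this
  have h3 := h2.inv_tendsto_nhdsGT_zero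
  have h4 := h1.pos_mul_atTop (by norm_num : (0 : ℝ) < 1) h3
  refine h4.congr fun z => ?_
  simp [jfun, div_eq_mul_inv]

theorem jfun_range_isOpen : IsOpen (Set.range jfun) := by
  have hU : IsOpen {z : ℂ | 0 < z.im} := isOpen_lt continuous_const Complex.continuous_im
  have hconn : IsPreconnected {z : ℂ | 0 < z.im} := (convex_halfSpace_im_gt 0).isPreconnected
  have han : AnalyticOnNhd ℂ (jfun ∘ ofComplex) {z : ℂ | 0 < z.im} := by
    apply DifferentiableOn.analyticOnNhd _ hU
    intro z hz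
    exact (jfun_differentiableAt hz).differentiableWithinAt
  have hrange : Set.range jfun = (jfun ∘ ofComplex) '' {z : ℂ | 0 < z.im} := by
    ext w
    constructor
    · rintro ⟨z, rfl⟩
      exact ⟨(z : ℂ), z.im_pos, by simp⟩
    · rintro ⟨z, hz, rfl⟩
      exact ⟨ofComplex z, rfl⟩
  rw [hrange]
  rcases han.is_constant_or_isOpen hconn with ⟨w, hw⟩ | h
  · exfalso
    have hconst : ∀ z : ℍ, ‖jfun z‖ = ‖w‖ := fun z => by
      have := hw (z : ℂ) z.im_pos
      simp only [Function.comp_apply, ofComplex_apply] at this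
      rw [this]
    have h1 := jfun_norm_tendsto
    simp only [hconst] at h1
    exact not_tendsto_const_atTop _ _ h1
  · exact h _ subset_rfl hU

theorem jfun_range_isClosed : IsClosed (Set.range jfun) := by
  rw [← closure_subset_iff_isClosed]
  intro w hw
  -- a bound on the imaginary part
  have hev : ∀ᶠ z : ℍ in atImInfty, ‖w‖ + 1 < ‖jfun z‖ :=
    jfun_norm_tendsto.eventually (eventually_gt_atTop _)
  obtain ⟨B, hB⟩ := (atImInfty_mem _).mp hev
  -- the compact set
  set K : Set ℂ := {z : ℂ | |z.re| ≤ 1 / 2 ∧ 1 / 2 ≤ z.im ∧ z.im ≤ max B 1} with hK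
  have hKcl : IsClosed K := by
    have h1 : IsClosed {z : ℂ | |z.re| ≤ 1 / 2} :=
      isClosed_le (continuous_abs.comp Complex.continuous_re) continuous_const
    have h2 : IsClosed {z : ℂ | 1 / 2 ≤ z.im} := isClosed_le continuous_const Complex.continuous_im
    have h3 : IsClosed {z : ℂ | z.im ≤ max B 1} := isClosed_le Complex.continuous_im continuous_const
    exact h1.inter (h2.inter h3)
  have hKbd : Bornology.IsBounded K := by
    rw [Metric.isBounded_iff_subset_closedBall (0 : ℂ)]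
    refine ⟨1 / 2 + max B 1, fun z hz => ?_⟩
    rw [mem_closedBall_zero_iff]
    obtain ⟨h1, h2, h3⟩ := hz
    calc ‖z‖ ≤ |z.re| + |z.im| := Complex.norm_le_abs_re_add_abs_im z
      _ ≤ 1 / 2 + max B 1 := by
        have : |z.im| = z.im := abs_of_nonneg (by linarith)
        linarith
  have hKc : IsCompact K := Metric.isCompact_of_isClosed_isBounded hKcl hKbd
  have hKU : ∀ z ∈ K, 0 < z.im := fun z hz => by linarith [hz.2.1]
  have hcont : ContinuousOn (jfun ∘ ofComplex) K := fun z hz =>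
    (jfun_differentiableAt (hKU z hz)).continuousAt.continuousWithinAt
  have himcl : IsClosed ((jfun ∘ ofComplex) '' K) := (hKc.image_of_continuousOn hcont).isClosed
  -- the range near `w` is contained in the image of `K`
  have hsub : Set.range jfun ∩ Metric.ball w 1 ⊆ (jfun ∘ ofComplex) '' K := by
    rintro _ ⟨⟨z, rfl⟩, hz⟩
    obtain ⟨γ, hγ⟩ := ModularGroup.exists_smul_mem_fd z
    have hj : jfun (γ • z) = jfun z := jfun_smul γ z
    have hlt : ‖jfun (γ • z)‖ < ‖w‖ + 1 := by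
      rw [hj]
      have : ‖jfun z - w‖ < 1 := by simpa [dist_eq_norm] using hz
      calc ‖jfun z‖ = ‖w + (jfun z - w)‖ := by ring_nf
        _ ≤ ‖w‖ + ‖jfun z - w‖ := norm_add_le _ _
        _ < ‖w‖ + 1 := by linarith
    have him : (γ • z).im < B := by
      by_contra hcon
      exact absurd (hB _ (not_lt.mp hcon)) (not_lt.mpr hlt.le)
    obtain ⟨hn, hre⟩ := hγ
    have hsq : 1 ≤ (γ • z).re ^ 2 + (γ • z).im ^ 2 := by
      have := hn
      rw [Complex.normSq_apply] at this
      simpa [pow_two] using this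
    have hre2 : (γ • z).re ^ 2 ≤ 1 / 4 := by
      have := abs_le.mp hre
      nlinarith
    have him2 : 1 / 2 ≤ (γ • z).im := by
      have hpos := (γ • z).im_pos
      nlinarith
    refine ⟨((γ • z : ℍ) : ℂ), ⟨hre, him2, le_trans him.le (le_max_left _ _)⟩, ?_⟩
    simp only [Function.comp_apply, ofComplex_apply]
    exact hj
  -- conclude
  have hw2 : w ∈ closure (Set.range jfun ∩ Metric.ball w 1) := by
    rw [mem_closure_iff_nhds] at hw ⊢
    intro t ht
    have := hw (t ∩ Metric.ball w 1) (Filter.inter_mem ht (Metric.ball_mem_nhds w one_pos))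
    obtain ⟨x, ⟨hx1, hx2⟩, hx3⟩ := this
    exact ⟨x, hx1, hx3, hx2⟩
  have hw3 : w ∈ (jfun ∘ ofComplex) '' K := himcl.closure_subset_iff.mpr hsub hw2
  obtain ⟨z, -, rfl⟩ := hw3
  exact ⟨ofComplex z, rfl⟩

theorem jfun_surjective : Function.Surjective jfun := by
  have h : IsClopen (Set.range jfun) := ⟨jfun_range_isClosed, jfun_range_isOpen⟩
  have hne : (Set.range jfun).Nonempty := ⟨_, ⟨UpperHalfPlane.I, rfl⟩⟩
  exact Set.range_eq_univ.mp (h.eq_univ hne)

/-! ### Derivatives -/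

theorem mcj_hasDerivAt_qParam (z : ℂ) :
    HasDerivAt (𝕢 1) (2 * π * Complex.I * 𝕢 1 z) z := by
  have h : HasDerivAt (fun w : ℂ => 2 * π * Complex.I * w / ((1 : ℝ) : ℂ))
      (2 * π * Complex.I) z := by
    simpa using ((hasDerivAt_id z).const_mul (2 * π * Complex.I)).div_const ((1 : ℝ) : ℂ)
  have h2 : HasDerivAt (𝕢 1)
      (cexp (2 * π * Complex.I * z / ((1 : ℝ) : ℂ)) * (2 * π * Complex.I)) z := h.cexp
  have h3 : cexp (2 * π * Complex.I * z / ((1 : ℝ) : ℂ)) * (2 * π * Complex.I) =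
      2 * π * Complex.I * 𝕢 1 z := by
    rw [mul_comm]; rfl
  rw [← h3]
  exact h2

/-- the normalised derivative of a level one form in terms of its cusp function -/
theorem mcj_D_eq {k : ℤ} (f : ModularForm 𝒮ℒ k) (z : ℍ) :
    D f z = 𝕢 1 z * deriv (cuspFunction 1 f) (𝕢 1 z) := by
  have hq : ‖𝕢 1 (z : ℂ)‖ < 1 := by simpa using norm_qParam_lt_one 1 z
  have hc : DifferentiableAt ℂ (cuspFunction 1 f) (𝕢 1 z) :=
    ModularFormClass.differentiableAt_cuspFunction f one_pos one_mem_strictPeriods_SL hq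
  have heq : (f ∘ ofComplex) =ᶠ[𝓝 (z : ℂ)] (cuspFunction 1 f ∘ 𝕢 1) := by
    filter_upwards [isOpen_upperHalfPlaneSet.mem_nhds z.im_pos] with w hw
    have := SlashInvariantFormClass.eq_cuspFunction f ⟨w, hw⟩ one_mem_strictPeriods_SL one_ne_zero
    simp only [Function.comp_apply, ofComplex_apply_of_im_pos hw]
    exact this.symm
  have hd : HasDerivAt (cuspFunction 1 f ∘ 𝕢 1)
      (deriv (cuspFunction 1 f) (𝕢 1 z) * (2 * π * Complex.I * 𝕢 1 z)) z :=
    hc.hasDerivAt.comp (z : ℂ) (mcj_hasDerivAt_qParam z)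
  have hpi : (2 * (π : ℂ) * Complex.I) ≠ 0 := by
    simp [Real.pi_ne_zero]
  simp only [normalizedDerivOfComplex]
  rw [heq.deriv_eq, hd.deriv]
  field_simp

theorem mcj_D_tendsto {k : ℤ} (f : ModularForm 𝒮ℒ k) :
    Tendsto (D (f : ℍ → ℂ)) atImInfty (𝓝 0) := by
  have han : AnalyticAt ℂ (cuspFunction 1 f) 0 :=
    ModularFormClass.analyticAt_cuspFunction_zero f one_pos one_mem_strictPeriods_SL
  have hc : ContinuousAt (deriv (cuspFunction 1 f)) 0 := han.deriv.continuousAt
  have hq := qParam_tendsto_atImInfty (h := 1) one_pos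
  have h := hq.mul (hc.tendsto.comp hq)
  rw [zero_mul] at h
  refine h.congr fun z => ?_
  simp only [Function.comp_apply]
  exact (mcj_D_eq f z).symm

theorem mcj_tendsto_coeff_zero {k : ℤ} (f : ModularForm 𝒮ℒ k) :
    Tendsto (f : ℍ → ℂ) atImInfty (𝓝 ((qExpansion 1 f).coeff 0)) := by
  have han : AnalyticAt ℂ (cuspFunction 1 f) 0 :=
    ModularFormClass.analyticAt_cuspFunction_zero f one_pos one_mem_strictPeriods_SL
  have h := han.continuousAt.tendsto.comp (qParam_tendsto_atImInfty (h := 1) one_pos)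
  have h0 : (qExpansion 1 f).coeff 0 = cuspFunction 1 f 0 := by
    rw [qExpansion_coeff]; simp
  rw [h0]
  refine h.congr fun z => ?_
  simp only [Function.comp_apply]
  exact SlashInvariantFormClass.eq_cuspFunction f z one_mem_strictPeriods_SL one_ne_zero

theorem mcj_E2_hasSum (z : ℍ) :
    HasSum (fun m : ℕ => (if m = 0 then 1 else -24 * (ArithmeticFunction.sigma 1 m : ℂ)) •
      𝕢 1 z ^ m) (E2 z) := by
  simpa only [Function.Periodic.qParam, ofReal_one, div_one] using hasSum_qExpansion_E2 (z := z)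

theorem mcj_E2_periodic : Function.Periodic (E2 ∘ ofComplex) 1 := by
  intro w
  by_cases hw : 0 < w.im
  · have hw' : 0 < (w + 1).im := by simpa using hw
    simp only [Function.comp_apply, ofComplex_apply_of_im_pos hw, ofComplex_apply_of_im_pos hw']
    have h1 := mcj_E2_hasSum ⟨w + 1, hw'⟩
    have h2 := mcj_E2_hasSum ⟨w, hw⟩
    have hq : 𝕢 1 (((⟨w + 1, hw'⟩ : ℍ) : ℂ)) = 𝕢 1 (((⟨w, hw⟩ : ℍ) : ℂ)) := by
      show 𝕢 1 (w + 1) = 𝕢 1 w
      simp only [Function.Periodic.qParam, ofReal_one, div_one]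
      rw [mul_add, mul_one]
      exact Complex.exp_periodic _
    rw [hq] at h1
    exact h1.unique h2
  · have hw' : ¬ 0 < (w + 1).im := by simpa using hw
    simp only [Function.comp_apply, ofComplex_apply_of_im_nonpos (not_lt.mp hw),
      ofComplex_apply_of_im_nonpos (not_lt.mp hw')]

theorem mcj_E2_tendsto : Tendsto E2 atImInfty (𝓝 1) := by
  have han : AnalyticAt ℂ (cuspFunction 1 E2) 0 :=
    analyticAt_cuspFunction_zero one_pos mcj_E2_periodic E2_mdifferentiable isBoundedAtImInfty_E2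
  have hps := hasFPowerSeriesOnBall_cuspFunction one_pos han mcj_E2_hasSum
  have h0 : cuspFunction 1 E2 0 = 1 := by
    have := hps.coeff_zero (fun _ => 0)
    simpa using this.symm
  have h := han.continuousAt.tendsto.comp (qParam_tendsto_atImInfty (h := 1) one_pos)
  rw [h0] at h
  refine h.congr fun z => ?_
  simp only [Function.comp_apply]
  exact eq_cuspFunction z one_ne_zero mcj_E2_periodic

theorem mcj_serre_tendsto {k : ℤ} (f : ModularForm 𝒮ℒ k) :
    Tendsto (serreDerivative (k : ℂ) f) atImInfty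
      (𝓝 (-((k : ℂ) * 12⁻¹ * (qExpansion 1 f).coeff 0))) := by
  have h1 := mcj_D_tendsto f
  have h2 := (mcj_E2_tendsto.const_mul ((k : ℂ) * 12⁻¹)).mul (mcj_tendsto_coeff_zero f)
  have h3 := h1.sub h2
  simp only [mul_one, zero_sub] at h3
  refine h3.congr fun z => ?_
  simp [serreDerivative]

theorem mcj_serre_slash {k : ℤ} (f : ModularForm 𝒮ℒ k) (γ : SL(2, ℤ)) :
    serreDerivative (k : ℂ) (f : ℍ → ℂ) ∣[k + 2] γ = serreDerivative (k : ℂ) (f : ℍ → ℂ) :=
  serreDerivative_slash_invariant (ModularFormClass.holo f)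
    (SlashInvariantForm.slash_action_eqn f _ ⟨γ, rfl⟩)

/-- The Serre derivative of a level-one modular form, as a modular form of weight `k + 2`. -/
def serreMF {k : ℤ} (f : ModularForm 𝒮ℒ k) : ModularForm 𝒮ℒ (k + 2) where
  toFun := serreDerivative (k : ℂ) (f : ℍ → ℂ)
  slash_action_eq' A hA := by
    obtain ⟨A, rfl⟩ := hA
    exact mcj_serre_slash f A
  holo' := serreDerivative_mdifferentiable (k : ℂ) (ModularFormClass.holo f)
  bdd_at_cusps' hc := by
    rw [Subgroup.IsArithmetic.isCusp_iff_isCusp_SL2Z] at hc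
    rw [OnePoint.isBoundedAt_iff_forall_SL2Z hc]
    intro γ _
    have h := mcj_serre_slash f γ
    rw [h]
    exact (mcj_serre_tendsto f).isBigO_one ℝ

theorem serreMF_apply {k : ℤ} (f : ModularForm 𝒮ℒ k) (z : ℍ) :
    serreMF f z = D f z - (k : ℂ) * 12⁻¹ * E2 z * f z := rfl

/-- a level one form of weight `< 12` that tends to `0` at `i∞` is zero -/
theorem mcj_eq_zero_of_tendsto {k : ℤ} (hk : k < 12) (f : ModularForm 𝒮ℒ k)
    (h : Tendsto (f : ℍ → ℂ) atImInfty (𝓝 0)) : f = 0 := by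
  apply sturm_bound_levelOne
  have h0 : (qExpansion 1 f).coeff 0 = 0 := tendsto_nhds_unique (mcj_tendsto_coeff_zero f) h
  have hk' : k.toNat / 12 = 0 := by omega
  rw [hk']
  have h1 := PowerSeries.nat_le_order (qExpansion 1 f) 1 (by
    intro i hi
    interval_cases i
    exact h0)
  exact lt_of_lt_of_le (by norm_num) h1

/-- Ramanujan's identity `D E₄ = (E₂ E₄ - E₆) / 3`. -/
theorem mcj_ramanujan_E4 (z : ℍ) : D E₄ z = 3⁻¹ * (E2 z * E₄ z - E₆ z) := by
  let g : ModularForm 𝒮ℒ 6 := ModularForm.mcast (by norm_num) (serreMF E₄) + (3⁻¹ : ℂ) • E₆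
  have hlim : Tendsto (g : ℍ → ℂ) atImInfty (𝓝 0) := by
    have h1 := mcj_serre_tendsto E₄
    rw [E_qExpansion_coeff_zero _ ⟨2, rfl⟩] at h1
    have h2 := (mcj_tendsto_coeff_zero E₆).const_mul (3⁻¹ : ℂ)
    rw [E_qExpansion_coeff_zero _ ⟨3, rfl⟩] at h2
    have h3 := h1.add h2
    have h4 : -(((4 : ℤ) : ℂ) * 12⁻¹ * 1) + 3⁻¹ * 1 = 0 := by norm_num
    rw [h4] at h3
    exact h3
  have hg : g = 0 := mcj_eq_zero_of_tendsto (by norm_num) g hlim
  have h := congrArg (fun f : ModularForm 𝒮ℒ 6 => f z) hg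
  simp only [g, add_apply, ModularForm.coe_mcast, smul_apply,
    serreMF_apply, zero_apply, smul_eq_mul] at h
  push_cast at h
  linear_combination h

/-- Ramanujan's identity `D E₆ = (E₂ E₆ - E₄²) / 2`. -/
theorem mcj_ramanujan_E6 (z : ℍ) : D E₆ z = 2⁻¹ * (E2 z * E₆ z - E₄ z ^ 2) := by
  let g : ModularForm 𝒮ℒ 8 := ModularForm.mcast (by norm_num) (serreMF E₆) +
    (2⁻¹ : ℂ) • ModularForm.mcast (by norm_num) (E₄.mul E₄)
  have hlim : Tendsto (g : ℍ → ℂ) atImInfty (𝓝 0) := by
    have h1 := mcj_serre_tendsto E₆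
    rw [E_qExpansion_coeff_zero _ ⟨3, rfl⟩] at h1
    have h2 := ((mcj_E4_tendsto.mul mcj_E4_tendsto).const_mul (2⁻¹ : ℂ))
    have h3 := h1.add h2
    have h4 : -(((6 : ℤ) : ℂ) * 12⁻¹ * 1) + 2⁻¹ * (1 * 1) = 0 := by norm_num
    rw [h4] at h3
    exact h3
  have hg : g = 0 := mcj_eq_zero_of_tendsto (by norm_num) g hlim
  have h := congrArg (fun f : ModularForm 𝒮ℒ 8 => f z) hg
  simp only [g, add_apply, ModularForm.coe_mcast, smul_apply,
    serreMF_apply, zero_apply, smul_eq_mul, ModularForm.coe_mul, Pi.mul_apply] at h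
  push_cast at h
  linear_combination h

theorem mcj_D_disc (z : ℍ) :
    D ModularForm.discriminant z = E2 z * ModularForm.discriminant z := by
  have hz : (z : ℂ) ∈ upperHalfPlaneSet := z.im_pos
  have hη : DifferentiableAt ℂ ModularForm.eta z :=
    differentiableAt_eta_of_mem_upperHalfPlaneSet hz
  have heq : (ModularForm.discriminant ∘ ofComplex) =ᶠ[𝓝 (z : ℂ)]
      (fun w => ModularForm.eta w ^ 24) := by
    filter_upwards [isOpen_upperHalfPlaneSet.mem_nhds z.im_pos] with w hw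
    simp [ModularForm.discriminant, ofComplex_apply_of_im_pos hw]
  have hlog := logDeriv_eta_eq_E2 z
  have hne : ModularForm.eta z ≠ 0 := eta_ne_zero hz
  rw [logDeriv_apply, div_eq_iff hne] at hlog
  have hpi : (2 * (π : ℂ) * Complex.I) ≠ 0 := by simp [Real.pi_ne_zero]
  have hd : HasDerivAt (fun w => ModularForm.eta w ^ 24)
      (24 * ModularForm.eta z ^ 23 * deriv ModularForm.eta z) z := by
    have h0 := hη.hasDerivAt.pow 24
    have h1 : HasDerivAt (fun w => ModularForm.eta w ^ 24)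
        (((24 : ℕ) : ℂ) * ModularForm.eta z ^ (24 - 1) * deriv ModularForm.eta z) z := h0
    exact h1.congr_deriv (by norm_num)
  simp only [normalizedDerivOfComplex]
  rw [heq.deriv_eq, hd.deriv, hlog, ModularForm.discriminant]
  field_simp
  ring

theorem mcj_hasDerivAt_of_mdiff {F : ℍ → ℂ} (hF : MDiff F) (z : ℍ) :
    HasDerivAt (F ∘ ofComplex) (2 * π * Complex.I * D F z) z := by
  have h := (UpperHalfPlane.mdifferentiableAt_iff.mp (hF z)).hasDerivAt
  have hpi : (2 * (π : ℂ) * Complex.I) ≠ 0 := by simp [Real.pi_ne_zero]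
  have : 2 * π * Complex.I * D F z = deriv (F ∘ ofComplex) z := by
    simp only [normalizedDerivOfComplex]
    field_simp
  rw [this]
  exact h

theorem mcj_E4_ne_zero {z : ℍ} (h : jfun z ≠ 0) : E₄ z ≠ 0 := by
  intro h0
  exact h (by simp [jfun, h0])

theorem mcj_E6_ne_zero {z : ℍ} (h : jfun z ≠ 1728) : E₆ z ≠ 0 := by
  intro h0
  have := jfun_sub_1728 z
  rw [h0] at this
  simp at this
  exact h (by linear_combination this)

theorem deriv_jfun (z : ℍ) :
    deriv (jfun ∘ ofComplex) z =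
      -(2 * π * Complex.I) * E₄ z ^ 2 * E₆ z / ModularForm.discriminant z := by
  have h4 := mcj_hasDerivAt_of_mdiff (ModularFormClass.holo E₄) z
  have hΔ := mcj_hasDerivAt_of_mdiff mcj_disc_mdifferentiable z
  have hne : ModularForm.discriminant z ≠ 0 := discriminant_ne_zero z
  have hne' : (ModularForm.discriminant ∘ ofComplex) (z : ℂ) ≠ 0 := by
    simpa using hne
  have hq := (h4.pow 3).div hΔ hne'
  have hfun : (jfun ∘ ofComplex) =
      ((⇑E₄ ∘ ofComplex) ^ 3 / (ModularForm.discriminant ∘ ofComplex)) := by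
    funext w; rfl
  rw [hfun, hq.deriv, mcj_ramanujan_E4, mcj_D_disc]
  simp only [Function.comp_apply, ofComplex_apply, Pi.pow_apply]
  field_simp
  ring

theorem jfun_analyticAt (z : ℍ) : AnalyticAt ℂ (jfun ∘ ofComplex) (z : ℂ) := by
  have h := UpperHalfPlane.mdifferentiable_iff.mp jfun_mdifferentiable
  exact h.analyticAt (isOpen_upperHalfPlaneSet.mem_nhds z.im_pos)

theorem mcj_analyticAt_of_mdiff {F : ℍ → ℂ} (hF : MDiff F) (z : ℍ) :
    AnalyticAt ℂ (F ∘ ofComplex) (z : ℂ) :=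
  (UpperHalfPlane.mdifferentiable_iff.mp hF).analyticAt
    (isOpen_upperHalfPlaneSet.mem_nhds z.im_pos)

theorem deriv_jfun_ne_zero (z : ℍ) (h0 : jfun z ≠ 0) (h1 : jfun z ≠ 1728) :
    deriv (jfun ∘ ofComplex) z ≠ 0 := by
  rw [deriv_jfun]
  have hpi : (2 * (π : ℂ) * Complex.I) ≠ 0 := by simp [Real.pi_ne_zero]
  have h4 := mcj_E4_ne_zero h0
  have h6 := mcj_E6_ne_zero h1
  have hne : ModularForm.discriminant z ≠ 0 := discriminant_ne_zero z
  exact div_ne_zero (mul_ne_zero (mul_ne_zero (neg_ne_zero.mpr hpi) (pow_ne_zero 2 h4)) h6) hne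

theorem analyticOrderAt_jfun_generic (z : ℍ) (h0 : jfun z ≠ 0) (h1 : jfun z ≠ 1728) :
    analyticOrderAt (fun w : ℂ => jfun (ofComplex w) - jfun z) (z : ℂ) = 1 := by
  have h := (jfun_analyticAt z).analyticOrderAt_sub_eq_one_of_deriv_ne_zero
    (deriv_jfun_ne_zero z h0 h1)
  simpa using h

theorem mcj_analyticOrderAt_pow_mul_inv {F G : ℍ → ℂ} (hF : MDiff F) (hG : MDiff G) (z : ℍ)
    (hFz : F z = 0) (hDF : D F z ≠ 0) (hGz : G z ≠ 0) (n : ℕ) :
    analyticOrderAt (fun w : ℂ => F (ofComplex w) ^ n / G (ofComplex w)) (z : ℂ) = n := by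
  have hFa := mcj_analyticAt_of_mdiff hF z
  have hGa := mcj_analyticAt_of_mdiff hG z
  have hGz' : (G ∘ ofComplex) (z : ℂ) ≠ 0 := by simpa using hGz
  have hGi : AnalyticAt ℂ (G ∘ ofComplex)⁻¹ (z : ℂ) := hGa.inv hGz'
  have hfun : (fun w : ℂ => F (ofComplex w) ^ n / G (ofComplex w)) =
      (F ∘ ofComplex) ^ n * (G ∘ ofComplex)⁻¹ := by
    funext w
    simp [div_eq_mul_inv]
  have hpi : (2 * (π : ℂ) * Complex.I) ≠ 0 := by simp [Real.pi_ne_zero]
  have hd : deriv (F ∘ ofComplex) (z : ℂ) ≠ 0 := by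
    rw [(mcj_hasDerivAt_of_mdiff hF z).deriv]
    exact mul_ne_zero hpi hDF
  have h1 : analyticOrderAt (F ∘ ofComplex) (z : ℂ) = 1 := by
    have h := hFa.analyticOrderAt_sub_eq_one_of_deriv_ne_zero hd
    have hz0 : (F ∘ ofComplex) (z : ℂ) = 0 := by simpa using hFz
    simp only [hz0, sub_zero] at h
    exact h
  have h0 : analyticOrderAt (G ∘ ofComplex)⁻¹ (z : ℂ) = 0 := by
    rw [hGi.analyticOrderAt_eq_zero]
    simpa using hGz
  rw [hfun, analyticOrderAt_mul (hFa.pow n) hGi, analyticOrderAt_pow hFa, h1, h0]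
  simp

theorem mcj_E4_I_ne_zero : E₄ UpperHalfPlane.I ≠ 0 := by
  intro h
  have h1 := discriminant_eq_E₄_cube_sub_E₆_sq UpperHalfPlane.I
  rw [h, mcj_E6_I] at h1
  exact discriminant_ne_zero UpperHalfPlane.I (by simpa using h1)

theorem mcj_E6_rho_ne_zero : E₆ ellRho ≠ 0 := by
  intro h
  have h1 := discriminant_eq_E₄_cube_sub_E₆_sq ellRho
  rw [h, mcj_E4_rho] at h1
  exact discriminant_ne_zero ellRho (by simpa using h1)

theorem analyticOrderAt_jfun_I :
    analyticOrderAt (fun w : ℂ => jfun (ofComplex w) - 1728) Complex.I = 2 := by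
  have hfun : (fun w : ℂ => jfun (ofComplex w) - 1728) =
      fun w : ℂ => E₆ (ofComplex w) ^ 2 / ModularForm.discriminant (ofComplex w) := by
    funext w
    exact jfun_sub_1728 _
  have hD : D E₆ UpperHalfPlane.I ≠ 0 := by
    rw [mcj_ramanujan_E6, mcj_E6_I]
    simpa using mcj_E4_I_ne_zero
  have h := mcj_analyticOrderAt_pow_mul_inv (ModularFormClass.holo E₆) mcj_disc_mdifferentiable
    UpperHalfPlane.I mcj_E6_I hD (discriminant_ne_zero _) 2
  rw [hfun]
  exact h

theorem analyticOrderAt_jfun_ellRho :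
    analyticOrderAt (fun w : ℂ => jfun (ofComplex w)) (ellRho : ℂ) = 3 := by
  have hD : D E₄ ellRho ≠ 0 := by
    rw [mcj_ramanujan_E4, mcj_E4_rho]
    simpa using mcj_E6_rho_ne_zero
  exact mcj_analyticOrderAt_pow_mul_inv (ModularFormClass.holo E₄) mcj_disc_mdifferentiable
    ellRho mcj_E4_rho hD (discriminant_ne_zero _) 3

end Fermat.Agent.MC
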