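import Mathlib
import Fermat.Agent.Lib.MC_Defs
import Fermat.Agent.Lib.MC_J

set_option autoImplicit false

/-!
# T24 [C]: expansion systems and the shared definitions of the level-`N` side

* `ExpSys` : a class of functions on `ℍ`, closed under the ring operations, with an injective,
  ring-hom-like expansion map into `LaurentSeries ℂ`.  The Taylor expansions at a point of `ℍ`
  (Cayley coordinate) and the expansions at `∞` (in `w = exp(2πiτ/h)`) are instances ([D]).
* `phiC : Kb →+* ℂ` : the embedding of the constant field.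
* `jlev d γ` : the function `τ ↦ j(d · γ⁻¹ τ)`.
* `sF N d` : the formal generator `j(q^d)` of the function field `FN N`.
* `polyFun N P γ` : the function obtained by evaluating the polynomial `P` at the `jlev d γ`.
-/

noncomputable section

namespace Fermat.Agent.MC

open UpperHalfPlane ModularCurve MvPolynomial
open scoped MatrixGroups

/-- An expansion system. -/
structure ExpSys where
  /-- the class of admissible functions -/
  mem : (ℍ → ℂ) → Prop
  /-- the expansion -/
  exp : (ℍ → ℂ) → LaurentSeries ℂ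
  mem_const : ∀ c : ℂ, mem (fun _ => c)
  mem_add : ∀ {f g : ℍ → ℂ}, mem f → mem g → mem (f + g)
  mem_mul : ∀ {f g : ℍ → ℂ}, mem f → mem g → mem (f * g)
  exp_const : ∀ c : ℂ, exp (fun _ => c) = HahnSeries.C c
  exp_add : ∀ {f g : ℍ → ℂ}, mem f → mem g → exp (f + g) = exp f + exp g
  exp_mul : ∀ {f g : ℍ → ℂ}, mem f → mem g → exp (f * g) = exp f * exp g
  exp_eq_zero : ∀ {f : ℍ → ℂ}, mem f → exp f = 0 → f = 0

namespace ExpSys

variable (E : ExpSys)

theorem mem_neg {f : ℍ → ℂ} (hf : E.mem f) : E.mem (-f) := by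
  have h := E.mem_mul (E.mem_const (-1)) hf
  have e : (fun _ => (-1 : ℂ)) * f = -f := by
    funext τ
    simp
  rwa [e] at h

theorem exp_neg {f : ℍ → ℂ} (hf : E.mem f) : E.exp (-f) = -E.exp f := by
  have h := E.exp_mul (E.mem_const (-1)) hf
  have e : (fun _ => (-1 : ℂ)) * f = -f := by
    funext τ
    simp
  rw [e, E.exp_const] at h
  rw [h, map_neg, map_one]
  ring

theorem mem_sub {f g : ℍ → ℂ} (hf : E.mem f) (hg : E.mem g) : E.mem (f - g) := by
  rw [sub_eq_add_neg]
  exact E.mem_add hf (E.mem_neg hg)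

theorem exp_sub {f g : ℍ → ℂ} (hf : E.mem f) (hg : E.mem g) :
    E.exp (f - g) = E.exp f - E.exp g := by
  rw [sub_eq_add_neg, E.exp_add hf (E.mem_neg hg), E.exp_neg hg, sub_eq_add_neg]

theorem exp_inj {f g : ℍ → ℂ} (hf : E.mem f) (hg : E.mem g) (h : E.exp f = E.exp g) : f = g := by
  have h1 : E.exp (f - g) = 0 := by rw [E.exp_sub hf hg, h, sub_self]
  exact sub_eq_zero.mp (E.exp_eq_zero (E.mem_sub hf hg) h1)

/-- Polynomial expressions in admissible functions are admissible, and the expansion commutes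
with polynomial evaluation. -/
theorem eval₂_spec {K : Type*} [CommSemiring K] {D : Type*} (ψ : K →+* ℂ) (g : D → ℍ → ℂ)
    (hg : ∀ d, E.mem (g d)) (P : MvPolynomial D K) :
    E.mem (fun τ => P.eval₂ ψ (fun d => g d τ)) ∧
      E.exp (fun τ => P.eval₂ ψ (fun d => g d τ)) =
        P.eval₂ (HahnSeries.C.comp ψ) (fun d => E.exp (g d)) := by
  induction P using MvPolynomial.induction_on with
  | C a =>
      simp only [eval₂_C]
      exact ⟨E.mem_const _, E.exp_const _⟩
  | add p q hp hq =>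
      have e : (fun τ => (p + q).eval₂ ψ (fun d => g d τ)) =
          (fun τ => p.eval₂ ψ (fun d => g d τ)) + (fun τ => q.eval₂ ψ (fun d => g d τ)) := by
        funext τ
        simp [eval₂_add]
      rw [e]
      refine ⟨E.mem_add hp.1 hq.1, ?_⟩
      rw [E.exp_add hp.1 hq.1, hp.2, hq.2, eval₂_add]
  | mul_X p d hp =>
      have e : (fun τ => (p * X d).eval₂ ψ (fun d => g d τ)) =
          (fun τ => p.eval₂ ψ (fun d => g d τ)) * g d := by
        funext τ
        simp [eval₂_mul]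
      rw [e]
      refine ⟨E.mem_mul hp.1 (hg d), ?_⟩
      rw [E.exp_mul hp.1 (hg d), hp.2, eval₂_mul, eval₂_X]

theorem mem_eval₂ {K : Type*} [CommSemiring K] {D : Type*} (ψ : K →+* ℂ) (g : D → ℍ → ℂ)
    (hg : ∀ d, E.mem (g d)) (P : MvPolynomial D K) :
    E.mem (fun τ => P.eval₂ ψ (fun d => g d τ)) :=
  (E.eval₂_spec ψ g hg P).1

theorem exp_eval₂ {K : Type*} [CommSemiring K] {D : Type*} (ψ : K →+* ℂ) (g : D → ℍ → ℂ)
    (hg : ∀ d, E.mem (g d)) (P : MvPolynomial D K) :
    E.exp (fun τ => P.eval₂ ψ (fun d => g d τ)) =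
      P.eval₂ (HahnSeries.C.comp ψ) (fun d => E.exp (g d)) :=
  (E.eval₂_spec ψ g hg P).2

end ExpSys

theorem exists_phiC : Nonempty (Kb →+* ℂ) := by
  have : Algebra.IsAlgebraic ℚ (AlgebraicClosure ℚ) := AlgebraicClosure.isAlgebraic ℚ
  exact ⟨((IsAlgClosed.lift : AlgebraicClosure ℚ →ₐ[ℚ] ℂ) : AlgebraicClosure ℚ →+* ℂ)⟩

/-- The embedding of the constant field into `ℂ`. -/
def phiC : Kb →+* ℂ := Classical.choice exists_phiC

theorem phiC_injective : Function.Injective phiC := phiC.injective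

/-- The function `τ ↦ j(d · γ⁻¹ τ)` on the upper half plane (`d ≥ 1`). -/
def jlev (d : ℕ) (γ : SL(2, ℤ)) (τ : ℍ) : ℂ :=
  jfun (ofComplex ((d : ℂ) * ((γ⁻¹ • τ : ℍ) : ℂ)))

theorem jlev_smul (d : ℕ) (γ ε : SL(2, ℤ)) (τ : ℍ) : jlev d (ε⁻¹ * γ) τ = jlev d γ (ε • τ) := by
  unfold jlev
  rw [mul_inv_rev, inv_inv, mul_smul]

theorem jlev_one_right (d : ℕ) (γ : SL(2, ℤ)) (τ : ℍ) : jlev d γ τ = jlev d 1 (γ⁻¹ • τ) := by
  unfold jlev
  rw [inv_one, one_smul]

instance neZero_of_mem_divisors (N : ℕ) (d : N.divisors) : NeZero (d : ℕ) :=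
  ⟨(Nat.pos_of_mem_divisors d.2).ne'⟩

/-- The formal generator `j(q^d)` (`d ∣ N`) of the function field. -/
def sF (N : ℕ) [NeZero N] (d : N.divisors) : FN N :=
  ⟨coeffEmb Kb (qExpand ℚ (d : ℕ) jq), coeffEmb_mem_laurentBaseChange Kb
    (jqd_mem_full N (Nat.dvd_of_mem_divisors d.2))⟩

theorem sF_val (N : ℕ) [NeZero N] (d : N.divisors) :
    ((sF N d : FN N) : LaurentSeries Kb) = coeffEmb Kb (qExpand ℚ (d : ℕ) jq) := rfl

/-- The function obtained by evaluating the polynomial `P` at the functions `jlev d γ`, `d ∣ N`. -/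
def polyFun (N : ℕ) (P : MvPolynomial N.divisors Kb) (γ : SL(2, ℤ)) : ℍ → ℂ :=
  fun τ => P.eval₂ phiC (fun d : N.divisors => jlev (d : ℕ) γ τ)

theorem polyFun_apply (N : ℕ) (P : MvPolynomial N.divisors Kb) (γ : SL(2, ℤ)) (τ : ℍ) :
    polyFun N P γ τ = polyFun N P 1 (γ⁻¹ • τ) := by
  have e : (fun d : N.divisors => jlev (d : ℕ) γ τ) =
      (fun d : N.divisors => jlev (d : ℕ) 1 (γ⁻¹ • τ)) :=
    funext fun d => jlev_one_right _ γ τ
  show P.eval₂ phiC (fun d : N.divisors => jlev (d : ℕ) γ τ) =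
    P.eval₂ phiC (fun d : N.divisors => jlev (d : ℕ) 1 (γ⁻¹ • τ))
  rw [e]

theorem polyFun_eq_zero_iff (N : ℕ) (P : MvPolynomial N.divisors Kb) (γ : SL(2, ℤ)) :
    polyFun N P γ = 0 ↔ polyFun N P 1 = 0 := by
  constructor
  · intro h
    funext τ
    have h1 := congrFun h (γ • τ)
    rw [polyFun_apply, inv_smul_smul] at h1
    exact h1
  · intro h
    funext τ
    rw [polyFun_apply, h]
    rfl

end Fermat.Agent.MC
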