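import Mathlib

set_option autoImplicit false

/-!
# T24 [C]: ring homs out of a finitely generated field, from an equality of kernels

`exists_lift` : if `E = K(s_d : d ∈ D)` and a family `t : D → L` in a field `L` satisfies exactly
the same polynomial relations over `K` (via `ψ : K →+* L`) as `s`, there is a ring hom
`θ : E →+* L` with `θ ∘ algebraMap = ψ` and `θ (s d) = t d`.
`lift_unique` : such a `θ` is unique.
-/

namespace Fermat.Agent.MC

open MvPolynomial

theorem lift_unique {K E L : Type*} [Field K] [Field E] [Algebra K E] [Field L] {D : Type*}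
    (s : D → E) (hs : IntermediateField.adjoin K (Set.range s) = ⊤)
    (θ₁ θ₂ : E →+* L) (hc : ∀ c : K, θ₁ (algebraMap K E c) = θ₂ (algebraMap K E c))
    (hd : ∀ d, θ₁ (s d) = θ₂ (s d)) : θ₁ = θ₂ := by
  ext x
  have hx : x ∈ IntermediateField.adjoin K (Set.range s) := by rw [hs]; trivial
  induction hx using IntermediateField.adjoin_induction with
  | mem y hy =>
      obtain ⟨d, rfl⟩ := hy
      exact hd d
  | algebraMap c => exact hc c
  | add y z _ _ hy hz => rw [map_add, map_add, hy, hz]
  | inv y _ hy => rw [map_inv₀, map_inv₀, hy]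
  | mul y z _ _ hy hz => rw [map_mul, map_mul, hy, hz]

theorem exists_lift {K E L : Type*} [Field K] [Field E] [Algebra K E] [Field L] {D : Type*}
    (s : D → E) (hs : IntermediateField.adjoin K (Set.range s) = ⊤)
    (ψ : K →+* L) (t : D → L)
    (h : ∀ P : MvPolynomial D K, aeval s P = 0 ↔ P.eval₂ ψ t = 0) :
    ∃ θ : E →+* L, (∀ c : K, θ (algebraMap K E c) = ψ c) ∧ ∀ d, θ (s d) = t d := by
  classical
  -- the subalgebra generated by the `s d`
  let A : Subalgebra K E := Algebra.adjoin K (Set.range s)
  have hA : A = (aeval s : MvPolynomial D K →ₐ[K] E).range :=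
    Algebra.adjoin_range_eq_range_aeval K s
  -- the surjection `MvPolynomial D K → A`
  let f : MvPolynomial D K →+* A :=
    ((aeval s : MvPolynomial D K →ₐ[K] E).codRestrict A (fun P => by
      rw [hA]; exact AlgHom.mem_range_self _ P) : MvPolynomial D K →ₐ[K] A)
  have hf_val : ∀ P, ((f P : A) : E) = aeval s P := fun P => rfl
  have hf_surj : Function.Surjective f := by
    rintro ⟨a, ha⟩
    rw [hA] at ha
    obtain ⟨P, rfl⟩ := ha
    exact ⟨P, Subtype.ext rfl⟩
  let g : MvPolynomial D K →+* L := eval₂Hom ψ t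
  have hker : RingHom.ker f ≤ RingHom.ker g := by
    intro P hP
    rw [RingHom.mem_ker] at hP ⊢
    have h1 : aeval s P = 0 := by rw [← hf_val, hP]; rfl
    exact (h P).mp h1
  let θ₀ : A →+* L := RingHom.liftOfRightInverse f (Function.surjInv hf_surj)
    (Function.rightInverse_surjInv hf_surj) ⟨g, hker⟩
  have hθ₀ : ∀ P, θ₀ (f P) = g P := fun P =>
    RingHom.liftOfRightInverse_comp_apply f (Function.surjInv hf_surj)
      (Function.rightInverse_surjInv hf_surj) ⟨g, hker⟩ P
  have hθ₀_inj : Function.Injective θ₀ := by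
    rw [injective_iff_map_eq_zero]
    intro a ha
    obtain ⟨P, rfl⟩ := hf_surj a
    rw [hθ₀] at ha
    have h1 : aeval s P = 0 := (h P).mpr ha
    exact Subtype.ext (by rw [hf_val, h1]; rfl)
  -- `E` is the fraction field of `A`
  have : IsFractionRing A E := by
    refine IsFractionRing.of_field A E (fun z => ?_)
    have hz : z ∈ IntermediateField.adjoin K (Set.range s) := by rw [hs]; trivial
    obtain ⟨x, hx, y, hy, e⟩ := IntermediateField.mem_adjoin_iff_div.mp hz
    exact ⟨⟨x, hx⟩, ⟨y, hy⟩, e⟩
  refine ⟨IsFractionRing.lift hθ₀_inj, fun c => ?_, fun d => ?_⟩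
  · have h1 : algebraMap K E c = algebraMap A E (f (C c)) := by
      show algebraMap K E c = ((f (C c) : A) : E)
      rw [hf_val, aeval_C]
    rw [h1, IsFractionRing.lift_algebraMap, hθ₀]
    show eval₂ ψ t (C c) = ψ c
    rw [eval₂_C]
  · have h1 : s d = algebraMap A E (f (X d)) := by
      show s d = ((f (X d) : A) : E)
      rw [hf_val, aeval_X]
    rw [h1, IsFractionRing.lift_algebraMap, hθ₀]
    show eval₂ ψ t (X d) = t d
    rw [eval₂_X]

end Fermat.Agent.MC
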