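import Mathlib

set_option autoImplicit false

/-!
# T24: the substitution `w ↦ ζ w` on `LaurentSeries ℂ` as a ring homomorphism
-/

noncomputable section

namespace Fermat.Agent.MC

open HahnSeries

/-- The substitution `w ↦ ζ w`: the coefficient of `w ^ n` is multiplied by `ζ ^ n`. -/
def twistL (ζ : ℂ) (s : LaurentSeries ℂ) : LaurentSeries ℂ :=
  ⟨fun n => ζ ^ n * s.coeff n, s.isPWO_support.mono (fun n hn => by
    simp only [Function.mem_support, ne_eq] at hn ⊢
    exact fun h => hn (by rw [h, mul_zero]))⟩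

@[simp]
theorem twistL_coeff (ζ : ℂ) (s : LaurentSeries ℂ) (n : ℤ) :
    (twistL ζ s).coeff n = ζ ^ n * s.coeff n := rfl

theorem twistL_support {ζ : ℂ} (hζ : ζ ≠ 0) (s : LaurentSeries ℂ) :
    (twistL ζ s).support = s.support := by
  ext n
  simp only [HahnSeries.mem_support, twistL_coeff, ne_eq, mul_eq_zero, not_or]
  exact ⟨fun h => h.2, fun h => ⟨zpow_ne_zero n hζ, h⟩⟩

theorem twistL_zero (ζ : ℂ) : twistL ζ 0 = 0 := by
  ext n
  simp

theorem twistL_add (ζ : ℂ) (s t : LaurentSeries ℂ) :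
    twistL ζ (s + t) = twistL ζ s + twistL ζ t := by
  ext n
  simp [mul_add]

theorem twistL_one (ζ : ℂ) : twistL ζ 1 = 1 := by
  ext n
  rw [twistL_coeff, HahnSeries.coeff_one]
  split_ifs with h
  · subst h
    simp
  · simp

theorem twistL_mul {ζ : ℂ} (hζ : ζ ≠ 0) (s t : LaurentSeries ℂ) :
    twistL ζ (s * t) = twistL ζ s * twistL ζ t := by
  ext n
  rw [twistL_coeff, HahnSeries.coeff_mul, HahnSeries.coeff_mul, Finset.mul_sum]
  have hfin : Finset.antidiagonal (twistL ζ s).isPWO_support (twistL ζ t).isPWO_support n =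
      Finset.antidiagonal s.isPWO_support t.isPWO_support n := by
    ext ij
    simp only [Finset.mem_antidiagonal, twistL_support hζ]
  rw [hfin]
  refine Finset.sum_congr rfl (fun ij hij => ?_)
  have hsum : ij.1 + ij.2 = n := (Finset.mem_antidiagonal.mp hij).2.2
  rw [twistL_coeff, twistL_coeff, ← hsum, zpow_add₀ hζ]
  ring

/-- The substitution `w ↦ ζ w` as a ring homomorphism (`ζ ≠ 0`). -/
def twistHom (ζ : ℂ) (hζ : ζ ≠ 0) : LaurentSeries ℂ →+* LaurentSeries ℂ where
  toFun := twistL ζ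
  map_one' := twistL_one ζ
  map_mul' := twistL_mul hζ
  map_zero' := twistL_zero ζ
  map_add' := twistL_add ζ

@[simp]
theorem twistHom_coeff (ζ : ℂ) (hζ : ζ ≠ 0) (s : LaurentSeries ℂ) (n : ℤ) :
    (twistHom ζ hζ s).coeff n = ζ ^ n * s.coeff n := rfl

theorem twistHom_C (ζ : ℂ) (hζ : ζ ≠ 0) (c : ℂ) :
    twistHom ζ hζ (HahnSeries.C c) = HahnSeries.C c := by
  ext n
  rw [twistHom_coeff, HahnSeries.C_apply, HahnSeries.coeff_single]
  split_ifs with h
  · subst h
    simp
  · simp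

end Fermat.Agent.MC
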