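import Mathlib
import Fermat.Agent.Lib.MC_Exp
import Fermat.Agent.Lib.MC_Lift
import Fermat.Agent.Lib.MC_Twist
import Fermat.Prelude.Thm_ModularCurve_coeffMap_qExpand

set_option autoImplicit false

/-!
# T24 [C]: the bridge between the formal function field `FN N` and functions on `ℍ`

* `adjoin_sF` : `FN N` is generated over `Kb` by the `sF N d`, `d ∣ N`.
* `betaHom N` : the ring hom `FN N →+* LaurentSeries ℂ`, `f(q) ↦ f^φ(w^N)`.
-/

noncomputable section

namespace Fermat.Agent.MC

open UpperHalfPlane ModularCurve MvPolynomial IntermediateField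
open scoped MatrixGroups

section Generators

variable (N : ℕ) [NeZero N]

theorem coeffEmb_algebraMap_rat (c : ℚ) :
    coeffEmb Kb (algebraMap ℚ (LaurentSeries ℚ) c) =
      algebraMap Kb (LaurentSeries Kb) (algebraMap ℚ Kb c) := by
  rw [algebraMap_apply_eq_single, algebraMap_laurentSeries_eq_single]
  exact coeffMap_single _ _ _

theorem mk_coeffEmb_mem (y : LaurentSeries ℚ) (hy : y ∈ modularFunctionFieldFull N) :
    (⟨coeffEmb Kb y, coeffEmb_mem_laurentBaseChange Kb hy⟩ : FN N) ∈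
      IntermediateField.adjoin Kb (Set.range (sF N)) := by
  unfold modularFunctionFieldFull at hy
  induction hy using IntermediateField.adjoin_induction with
  | mem x hx =>
      obtain ⟨d, hd, hdvd, rfl⟩ := hx
      refine IntermediateField.subset_adjoin Kb _ ⟨⟨d, Nat.mem_divisors.mpr ⟨hdvd, NeZero.ne N⟩⟩, ?_⟩
      exact Subtype.ext rfl
  | algebraMap c =>
      have e : (⟨coeffEmb Kb (algebraMap ℚ (LaurentSeries ℚ) c),
          coeffEmb_mem_laurentBaseChange Kb ((modularFunctionFieldFull N).algebraMap_mem c)⟩ : FN N)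
          = algebraMap Kb (FN N) (algebraMap ℚ Kb c) :=
        Subtype.ext (coeffEmb_algebraMap_rat c)
      exact e ▸ (IntermediateField.adjoin Kb (Set.range (sF N))).algebraMap_mem _
  | add x y hx hy ihx ihy =>
      have e : (⟨coeffEmb Kb (x + y), coeffEmb_mem_laurentBaseChange Kb
          ((modularFunctionFieldFull N).add_mem hx hy)⟩ : FN N)
          = ⟨coeffEmb Kb x, coeffEmb_mem_laurentBaseChange Kb hx⟩ +
            ⟨coeffEmb Kb y, coeffEmb_mem_laurentBaseChange Kb hy⟩ :=
        Subtype.ext (map_add _ _ _)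
      exact e ▸ add_mem ihx ihy
  | inv x hx ihx =>
      have e : (⟨coeffEmb Kb x⁻¹, coeffEmb_mem_laurentBaseChange Kb
          ((modularFunctionFieldFull N).inv_mem hx)⟩ : FN N)
          = (⟨coeffEmb Kb x, coeffEmb_mem_laurentBaseChange Kb hx⟩ : FN N)⁻¹ :=
        Subtype.ext (map_inv₀ _ _)
      exact e ▸ inv_mem ihx
  | mul x y hx hy ihx ihy =>
      have e : (⟨coeffEmb Kb (x * y), coeffEmb_mem_laurentBaseChange Kb
          ((modularFunctionFieldFull N).mul_mem hx hy)⟩ : FN N)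
          = ⟨coeffEmb Kb x, coeffEmb_mem_laurentBaseChange Kb hx⟩ *
            ⟨coeffEmb Kb y, coeffEmb_mem_laurentBaseChange Kb hy⟩ :=
        Subtype.ext (map_mul _ _ _)
      exact e ▸ mul_mem ihx ihy

theorem mem_adjoin_sF (x : LaurentSeries Kb)
    (hx : x ∈ IntermediateField.adjoin Kb
      (⇑(coeffEmb Kb) '' (modularFunctionFieldFull N : Set (LaurentSeries ℚ)))) :
    ∀ h' : x ∈ modularFunctionFieldBar N,
      (⟨x, h'⟩ : FN N) ∈ IntermediateField.adjoin Kb (Set.range (sF N)) := by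
  induction hx using IntermediateField.adjoin_induction with
  | mem x hx1 =>
      intro h'
      obtain ⟨y, hy, rfl⟩ := hx1
      exact mk_coeffEmb_mem N y hy
  | algebraMap c =>
      intro h'
      exact (IntermediateField.adjoin Kb (Set.range (sF N))).algebraMap_mem c
  | add x y hx1 hy1 ihx ihy =>
      intro h'
      have e : (⟨x + y, h'⟩ : FN N) = (⟨x, hx1⟩ : FN N) + (⟨y, hy1⟩ : FN N) := Subtype.ext rfl
      rw [e]
      exact add_mem (ihx hx1) (ihy hy1)
  | inv x hx1 ihx =>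
      intro h'
      have e : (⟨x⁻¹, h'⟩ : FN N) = (⟨x, hx1⟩ : FN N)⁻¹ := Subtype.ext rfl
      rw [e]
      exact inv_mem (ihx hx1)
  | mul x y hx1 hy1 ihx ihy =>
      intro h'
      have e : (⟨x * y, h'⟩ : FN N) = (⟨x, hx1⟩ : FN N) * (⟨y, hy1⟩ : FN N) := Subtype.ext rfl
      rw [e]
      exact mul_mem (ihx hx1) (ihy hy1)

/-- `FN N` is generated over `Kb` by the `j(q^d)`, `d ∣ N`. -/
theorem adjoin_sF : IntermediateField.adjoin Kb (Set.range (sF N)) = ⊤ := by
  rw [eq_top_iff]
  rintro ⟨x, hx⟩ -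
  exact mem_adjoin_sF N x hx hx

theorem sF_one : sF N ⟨1, Nat.mem_divisors.mpr ⟨one_dvd N, NeZero.ne N⟩⟩ = jF N :=
  Subtype.ext (by
    show coeffEmb Kb (qExpand ℚ 1 jq) = coeffEmb Kb jq
    rw [qExpand_one_apply])

end Generators


section Beta

variable (N : ℕ) [NeZero N]

/-- The ring hom `FN N →+* LaurentSeries ℂ`, `f(q) ↦ f^φ(w^N)`. -/
def betaHom : FN N →+* LaurentSeries ℂ :=
  (qExpand ℂ N).comp ((coeffMap phiC).comp
    ((modularFunctionFieldBar N).val : FN N →+* LaurentSeries Kb))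

theorem betaHom_apply (f : FN N) :
    betaHom N f = qExpand ℂ N (coeffMap phiC (f : LaurentSeries Kb)) := rfl

theorem betaHom_algebraMap (c : Kb) :
    betaHom N (algebraMap Kb (FN N) c) = HahnSeries.C (phiC c) := by
  rw [betaHom_apply]
  have h1 : ((algebraMap Kb (FN N) c : FN N) : LaurentSeries Kb) =
      algebraMap Kb (LaurentSeries Kb) c := rfl
  rw [h1, algebraMap_laurentSeries_eq_single, coeffMap_single, qExpand_single, mul_zero]
  rfl

theorem coeffMap_phiC_coeffEmb (y : LaurentSeries ℚ) :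
    coeffMap phiC (coeffEmb Kb y) = coeffMap (algebraMap ℚ ℂ) y := by
  unfold coeffEmb
  rw [coeffMap_coeffMap]
  exact coeffMap_congr (Subsingleton.elim _ _) y

theorem coeffMap_jq : coeffMap (algebraMap ℚ ℂ) jq = jqModC ℂ := by
  rw [← jqModC_rat]
  exact map_jqModC (algebraMap ℚ ℂ)

theorem betaHom_sF (d : N.divisors) :
    betaHom N (sF N d) = qExpand ℂ (N * (d : ℕ)) (jqModC ℂ) := by
  rw [betaHom_apply, sF_val, coeffMap_phiC_coeffEmb, coeffMap_qExpand, coeffMap_jq,
    qExpand_qExpand]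

end Beta

section Bridge

variable (N : ℕ) [NeZero N]

/-- An expansion system in which `τ ↦ j(dτ)` (`d ∣ N`) is admissible and expands to the formal
series `j(w^{Nd})`. -/
structure IsBridge (E : ExpSys) : Prop where
  mem : ∀ d : N.divisors, E.mem (jlev (d : ℕ) 1)
  exp : ∀ d : N.divisors, E.exp (jlev (d : ℕ) 1) = qExpand ℂ (N * (d : ℕ)) (jqModC ℂ)

variable {N}

/-- THE BRIDGE: a polynomial relation between the formal `j(q^d)` holds iff it holds between
the functions `j(dτ)`. -/
theorem bridge {E : ExpSys} (hE : IsBridge N E) (P : MvPolynomial N.divisors Kb) :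
    aeval (sF N) P = 0 ↔ polyFun N P 1 = 0 := by
  have key : betaHom N (aeval (sF N) P) = E.exp (polyFun N P 1) := by
    have h1 : betaHom N (aeval (sF N) P) =
        P.eval₂ ((betaHom N).comp (algebraMap Kb (FN N))) (fun d => betaHom N (sF N d)) := by
      rw [aeval_def]
      exact eval₂_comp_left (betaHom N) (algebraMap Kb (FN N)) (sF N) P
    have h2 : (betaHom N).comp (algebraMap Kb (FN N)) = HahnSeries.C.comp phiC :=
      RingHom.ext fun c => betaHom_algebraMap N c
    have h3 : (fun d => betaHom N (sF N d)) = fun d : N.divisors => E.exp (jlev (d : ℕ) 1) :=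
      funext fun d => by rw [betaHom_sF, hE.exp d]
    rw [h1, h2, h3]
    exact (E.exp_eval₂ phiC (fun (d : N.divisors) => jlev (d : ℕ) 1) hE.mem P).symm
  constructor
  · intro h
    rw [h, map_zero] at key
    exact E.exp_eq_zero (E.mem_eval₂ phiC (fun (d : N.divisors) => jlev (d : ℕ) 1) hE.mem P)
      key.symm
  · intro h
    rw [h] at key
    have h0 : E.exp (0 : ℍ → ℂ) = 0 := by
      have := E.exp_const 0
      rwa [map_zero] at this
    rw [h0] at key
    exact (map_eq_zero_iff (betaHom N) (betaHom N).injective).mp key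

/-- The embedding of `FN N` attached to an expansion system `E` and `γ ∈ SL(2,ℤ)`:
`f ↦ E.exp (f ∘ γ⁻¹)`. -/
theorem exists_emb {E₀ : ExpSys} (hE₀ : IsBridge N E₀) (E : ExpSys) (γ : SL(2, ℤ))
    (hmem : ∀ d : N.divisors, E.mem (jlev (d : ℕ) γ)) :
    ∃ θ : FN N →+* LaurentSeries ℂ, (∀ c : Kb, θ (algebraMap Kb (FN N) c) = HahnSeries.C (phiC c)) ∧
      ∀ d : N.divisors, θ (sF N d) = E.exp (jlev (d : ℕ) γ) := by
  refine exists_lift (sF N) (adjoin_sF N) (HahnSeries.C.comp phiC)
    (fun d : N.divisors => E.exp (jlev (d : ℕ) γ)) (fun P => ?_)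
  rw [bridge hE₀ P, ← polyFun_eq_zero_iff N P γ,
    ← E.exp_eval₂ phiC (fun (d : N.divisors) => jlev (d : ℕ) γ) hmem P]
  constructor
  · intro h
    have h0 : E.exp (0 : ℍ → ℂ) = 0 := by
      have := E.exp_const 0
      rwa [map_zero] at this
    have e : (fun τ => P.eval₂ phiC (fun d : N.divisors => jlev (d : ℕ) γ τ)) = polyFun N P γ := rfl
    rw [e, h, h0]
  · intro h
    exact E.exp_eq_zero (E.mem_eval₂ phiC (fun (d : N.divisors) => jlev (d : ℕ) γ) hmem P) h

end Bridge

section LocalDataConstruction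

open Fermat.Agent.FF CongruenceSubgroup

variable {N : ℕ} [NeZero N]

theorem jlev_one_left (γ : SL(2, ℤ)) : jlev 1 γ = jfun := by
  funext τ
  unfold jlev
  rw [Nat.cast_one, one_mul, ofComplex_apply, jfun_smul]

/-- THE CONSTRUCTION OF LOCAL DATA from an expansion system `E`:
the embedding attached to the coset `k = γ Γ₀(N)` is `f ↦ E.exp (f ∘ γ⁻¹)`; if the substitution
`τ ↦ ε τ` acts on expansions by `w ↦ ζ w`, the monodromy permutation is `k ↦ ε⁻¹ k`. -/
theorem exists_localData {E₀ : ExpSys} (hE₀ : IsBridge N E₀) (E : ExpSys)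
    (hmem : ∀ (γ : SL(2, ℤ)) (d : N.divisors), E.mem (jlev (d : ℕ) γ))
    (hinv : ∀ (γ g : SL(2, ℤ)) (d : N.divisors), g ∈ Gamma0 N →
      jlev (d : ℕ) (γ * g) = jlev (d : ℕ) γ)
    (hdist : ∀ γ : SL(2, ℤ), jlev N γ = jlev N 1 → γ ∈ Gamma0 N)
    (x : FN N) (ξ : LaurentSeries ℂ)
    (hx : ∀ θ : FN N →+* LaurentSeries ℂ, θ (jF N) = E.exp jfun → θ x = ξ)
    (a : Kb) (e : ℕ) (he : 0 < e)
    (hne : ξ - HahnSeries.C (phiC a) ≠ 0) (hord : (ξ - HahnSeries.C (phiC a)).order = (e : ℤ))
    (ε : SL(2, ℤ)) (ζ : ℂ) (hζ : IsPrimitiveRoot ζ e)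
    (htw : ∀ f : ℍ → ℂ, E.mem f → ∀ m : ℤ,
      (E.exp (fun τ => f (ε • τ))).coeff m = ζ ^ m * (E.exp f).coeff m) :
    ∃ L : LocalData Kb (FN N) x a (PN N),
      L.ρ = (MulAction.toPerm ε : Equiv.Perm (PN N))⁻¹ ∧ L.e = e := by
  classical
  have hζ0 : ζ ≠ 0 := hζ.ne_zero he.ne'
  -- representatives and embeddings
  let rep : PN N → SL(2, ℤ) := fun k => Quotient.out k
  have hrep : ∀ k : PN N, (QuotientGroup.mk (rep k) : PN N) = k := fun k => QuotientGroup.out_eq' k
  have hθ := fun k : PN N => exists_emb hE₀ E (rep k) (hmem (rep k))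
  choose θ hθc hθd using hθ
  have hN : N ∈ N.divisors := Nat.mem_divisors.mpr ⟨dvd_rfl, NeZero.ne N⟩
  have h1 : (1 : ℕ) ∈ N.divisors := Nat.mem_divisors.mpr ⟨one_dvd N, NeZero.ne N⟩
  -- value on `j`
  have hθj : ∀ k, θ k (jF N) = E.exp jfun := by
    intro k
    rw [← sF_one N, hθd k ⟨1, h1⟩]
    show E.exp (jlev 1 (rep k)) = E.exp jfun
    rw [jlev_one_left]
  -- injectivity
  have hinj : Function.Injective θ := by
    intro k l hkl
    have e1 : E.exp (jlev N (rep k)) = E.exp (jlev N (rep l)) := by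
      have := hθd k ⟨N, hN⟩
      rw [hkl, hθd l ⟨N, hN⟩] at this
      exact this.symm
    have e2 : jlev N (rep k) = jlev N (rep l) :=
      E.exp_inj (hmem (rep k) ⟨N, hN⟩) (hmem (rep l) ⟨N, hN⟩) e1
    have e3 : jlev N ((rep k)⁻¹ * rep l) = jlev N 1 := by
      funext τ
      rw [jlev_smul, ← e2, ← jlev_smul, inv_mul_cancel]
    have e4 : (rep k)⁻¹ * rep l ∈ Gamma0 N := hdist _ e3
    rw [← hrep k, ← hrep l]
    exact QuotientGroup.eq.mpr e4
  -- the twist relation
  have htwist : ∀ k : PN N,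
      θ ((MulAction.toPerm ε : Equiv.Perm (PN N))⁻¹ k) = (twistHom ζ hζ0).comp (θ k) := by
    intro k
    refine lift_unique (sF N) (adjoin_sF N) _ _ (fun c => ?_) (fun d => ?_)
    · rw [hθc, RingHom.comp_apply, hθc, twistHom_C]
    · rw [hθd, RingHom.comp_apply, hθd]
      set k' : PN N := (MulAction.toPerm ε : Equiv.Perm (PN N))⁻¹ k with hk'
      have hk'' : k' = (QuotientGroup.mk (ε⁻¹ * rep k) : PN N) := by
        rw [hk']
        show ε⁻¹ • k = _
        conv_lhs => rw [← hrep k]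
        rfl
      have hg : (ε⁻¹ * rep k)⁻¹ * rep k' ∈ Gamma0 N := by
        apply QuotientGroup.eq.mp
        rw [hrep k', hk'']
      have e1 : jlev (d : ℕ) (rep k') = jlev (d : ℕ) (ε⁻¹ * rep k) := by
        have := hinv (ε⁻¹ * rep k) _ d hg
        rwa [mul_inv_cancel_left] at this
      have e2 : jlev (d : ℕ) (ε⁻¹ * rep k) = fun τ => jlev (d : ℕ) (rep k) (ε • τ) :=
        funext fun τ => jlev_smul _ _ _ τ
      rw [e1, e2]
      ext m
      rw [htw _ (hmem (rep k) d) m, twistHom_coeff]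
  refine ⟨{ φ := phiC
            ι := θ
            ι_algebraMap := hθc
            ι_injective := hinj
            ξ := ξ
            ι_x := fun k => hx (θ k) (hθj k)
            e := e
            e_pos := he
            ξ_ne := hne
            order_ξ := hord
            ζ := ζ
            ζ_prim := hζ
            ρ := (MulAction.toPerm ε : Equiv.Perm (PN N))⁻¹
            ι_ρ := fun k f m => by rw [htwist k, RingHom.comp_apply, twistHom_coeff] }, rfl, rfl⟩

end LocalDataConstruction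

end Fermat.Agent.MC
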