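import Mathlib

/-!
# T24 [C]: Hermite normal form for `diag(d,1) · γ`

For `γ ∈ SL(2,ℤ)` and `d ≥ 1` there are `δ ∈ SL(2,ℤ)` and `a, b, d'` with `a d' = d`,
`0 ≤ b < d'` and `diag(d,1) · γ = δ · [a b; 0 d']`; in terms of the action on the upper half
plane: `d · (γ τ) = δ ((a τ + b) / d')`.
-/

set_option autoImplicit false

noncomputable section

namespace Fermat.Agent.MC

open UpperHalfPlane
open scoped MatrixGroups

/-- arithmetic core of the Hermite normal form -/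
theorem hnf_arith (d : ℕ) (hd : 0 < d) (r s : ℤ) :
    ∃ (a b d' : ℕ) (r' t : ℤ), a * d' = d ∧ b < d' ∧ r = r' * a ∧
      (d' : ℤ) * t = s - r' * b := by
  have hd0 : (d : ℤ) ≠ 0 := by exact_mod_cast hd.ne'
  set g : ℕ := Int.gcd d r with hg
  have hgpos : 0 < g := Int.gcd_pos_of_ne_zero_left _ hd0
  have hgd : (g : ℤ) ∣ (d : ℤ) := Int.gcd_dvd_left _ _
  have hgr : (g : ℤ) ∣ r := Int.gcd_dvd_right _ _
  have hgd' : g ∣ d := by exact_mod_cast hgd
  obtain ⟨d', hd'⟩ := hgd'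
  obtain ⟨r', hr'⟩ := hgr
  have hd'pos : 0 < d' := by
    rcases Nat.eq_zero_or_pos d' with h | h
    · rw [h, mul_zero] at hd'; omega
    · exact h
  have hbez : (g : ℤ) = d * Int.gcdA d r + r * Int.gcdB d r := Int.gcd_eq_gcd_ab d r
  set x := Int.gcdA d r
  set y := Int.gcdB d r
  have hg0 : (g : ℤ) ≠ 0 := by exact_mod_cast hgpos.ne'
  have h1 : (d' : ℤ) * x + r' * y = 1 := by
    have : (g : ℤ) * ((d' : ℤ) * x + r' * y) = (g : ℤ) * 1 := by
      have hdz : (d : ℤ) = (g : ℤ) * d' := by exact_mod_cast hd'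
      linear_combination (-1 : ℤ) * hbez - x * hdz - y * hr'
    exact mul_left_cancel₀ hg0 this
  have hd'z : (0 : ℤ) < d' := by exact_mod_cast hd'pos
  set b₀ : ℤ := y * s
  have hb_nonneg : 0 ≤ b₀ % d' := Int.emod_nonneg _ hd'z.ne'
  have hb_lt : b₀ % d' < d' := Int.emod_lt_of_pos _ hd'z
  refine ⟨g, (b₀ % d').toNat, d', r', s * x + r' * (b₀ / d'), hd'.symm, ?_, ?_, ?_⟩
  · have : ((b₀ % d').toNat : ℤ) < d' := by rw [Int.toNat_of_nonneg hb_nonneg]; exact hb_lt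
    exact_mod_cast this
  · rw [hr']; ring
  · rw [Int.toNat_of_nonneg hb_nonneg]
    have hdiv : b₀ % d' = b₀ - d' * (b₀ / d') := by
      have := Int.emod_add_mul_ediv b₀ d'
      linarith
    rw [hdiv]
    linear_combination s * h1

/-- the affine map `z ↦ (a z + b) / d'` preserves the upper half plane -/
theorem hnf_im_pos {a d' : ℕ} (b : ℕ) (ha : 0 < a) (hd' : 0 < d') {z : ℂ} (hz : 0 < z.im) :
    0 < (((a : ℂ) * z + b) / d').im := by
  have hd'C : (d' : ℂ) ≠ 0 := by exact_mod_cast hd'.ne'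
  have : (((a : ℂ) * z + b) / d') = ((a / d' : ℝ) : ℂ) * z + ((b / d' : ℝ) : ℂ) := by
    push_cast; field_simp
  rw [this]
  simp only [Complex.add_im, Complex.mul_im, Complex.ofReal_re, Complex.ofReal_im, zero_mul,
    add_zero]
  have h1 : (0 : ℝ) < a / d' := by positivity
  exact mul_pos h1 hz

/-- the imaginary part of the affine map `z ↦ (a z + b) / d'` -/
theorem hnf_im {a d' : ℕ} (b : ℕ) (z : ℂ) :
    (((a : ℂ) * z + b) / d').im = (a : ℝ) / d' * z.im := by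
  rcases Nat.eq_zero_or_pos d' with h | hd'
  · subst h; simp
  have hd'C : (d' : ℂ) ≠ 0 := by exact_mod_cast hd'.ne'
  have : (((a : ℂ) * z + b) / d') = ((a / d' : ℝ) : ℂ) * z + ((b / d' : ℝ) : ℂ) := by
    push_cast; field_simp
  rw [this]
  simp only [Complex.add_im, Complex.mul_im, Complex.ofReal_re, Complex.ofReal_im, zero_mul,
    add_zero]

/-- Hermite normal form, in terms of the action on the upper half plane:
`d · (γ τ) = δ ((a τ + b) / d')`. -/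
theorem hnf_smul (d : ℕ) (hd : 0 < d) (γ : SL(2, ℤ)) :
    ∃ (δ : SL(2, ℤ)) (a b d' : ℕ), a * d' = d ∧ b < d' ∧ γ 1 0 = δ 1 0 * a ∧
      ∀ τ : ℍ, (d : ℂ) * ((γ • τ : ℍ) : ℂ) =
        ((δ • ofComplex (((a : ℂ) * τ + b) / d') : ℍ) : ℂ) := by
  obtain ⟨a, b, d', r', t, had, hb, hr, ht⟩ := hnf_arith d hd (γ 1 0) (γ 1 1)
  have hdet : γ 0 0 * γ 1 1 - γ 0 1 * γ 1 0 = 1 := by
    have := γ.det_coe
    rw [Matrix.det_fin_two] at this
    exact this
  let δ : SL(2, ℤ) := ⟨!![d' * γ 0 0, a * γ 0 1 - γ 0 0 * b; r', t], by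
    rw [Matrix.det_fin_two_of]
    linear_combination hdet + γ 0 0 * ht + γ 0 1 * hr⟩
  have hδ00 : δ 0 0 = d' * γ 0 0 := rfl
  have hδ01 : δ 0 1 = a * γ 0 1 - γ 0 0 * b := rfl
  have hδ10 : δ 1 0 = r' := rfl
  have hδ11 : δ 1 1 = t := rfl
  refine ⟨δ, a, b, d', had, hb, by rw [hδ10]; exact hr, fun τ => ?_⟩
  have ha : 0 < a := by
    rcases Nat.eq_zero_or_pos a with h | h
    · rw [h, zero_mul] at had; omega
    · exact h
  have hd' : 0 < d' := by
    rcases Nat.eq_zero_or_pos d' with h | h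
    · rw [h, mul_zero] at had; omega
    · exact h
  have hd'C : (d' : ℂ) ≠ 0 := by exact_mod_cast hd'.ne'
  have him : 0 < (((a : ℂ) * τ + b) / d').im := hnf_im_pos b ha hd' τ.im_pos
  have hden1 := UpperHalfPlane.denom_ne_zero (γ : GL (Fin 2) ℝ) τ
  have hden2 := UpperHalfPlane.denom_ne_zero (δ : GL (Fin 2) ℝ)
    (ofComplex (((a : ℂ) * τ + b) / d'))
  rw [coe_specialLinearGroup_apply, coe_specialLinearGroup_apply]
  rw [ofComplex_apply_of_im_pos him] at hden2 ⊢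
  simp only [eq_intCast, Complex.ofReal_intCast] at hden2 ⊢
  rw [hδ00, hδ01, hδ10, hδ11]
  have hrC : ((γ 1 0 : ℤ) : ℂ) = (r' : ℂ) * a := by exact_mod_cast hr
  have htC : (d' : ℂ) * (t : ℂ) = ((γ 1 1 : ℤ) : ℂ) - (r' : ℂ) * b := by exact_mod_cast ht
  have hadC : (a : ℂ) * d' = d := by exact_mod_cast had
  have hnum : ((d' * γ 0 0 : ℤ) : ℂ) * (((a : ℂ) * τ + b) / d') + ((a * γ 0 1 - γ 0 0 * b : ℤ) : ℂ)
      = a * ((γ 0 0 : ℂ) * τ + γ 0 1) := by
    push_cast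
    field_simp
    ring
  have hdn : (r' : ℂ) * (((a : ℂ) * τ + b) / d') + (t : ℂ)
      = ((γ 1 0 : ℂ) * τ + γ 1 1) / d' := by
    field_simp
    linear_combination (-(τ : ℂ)) * hrC + htC
  rw [hnum, hdn, ← hadC]
  field_simp

end Fermat.Agent.MC
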