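import Mathlib
import Fermat.Agent.Lib.MC_J

/-!
# T24 [C]: the analytic `j`-function and the INV lemma

`jfun τ = E₄(τ)³ / Δ(τ)`.  A holomorphic `SL(2,ℤ)`-invariant function on the upper half plane
with at most a pole of order `M` at `i∞` (i.e. `Δ^M · f` bounded at `i∞`) is a polynomial of
degree `≤ M` in `jfun`.
-/

set_option autoImplicit false

noncomputable section

namespace Fermat.Agent.MC

open UpperHalfPlane ModularForm MatrixGroups EisensteinSeries Filter
open scoped Manifold

/-- a level-one modular form from a holomorphic, slash-invariant function bounded at `i∞` -/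
def mkLevelOne (k : ℤ) (f : ℍ → ℂ) (hf : MDiff f) (hinv : ∀ γ : SL(2, ℤ), f ∣[k] γ = f)
    (hbd : IsBoundedAtImInfty f) : ModularForm 𝒮ℒ k where
  toFun := f
  slash_action_eq' := fun _ ⟨γ, hγ⟩ ↦ hγ ▸ hinv γ
  holo' := hf
  bdd_at_cusps' {c} hc := by
    rw [OnePoint.isBoundedAt_iff_forall_SL2Z hc]
    intro γ _
    rw [hinv γ]; exact hbd

@[simp]
theorem mkLevelOne_apply (k : ℤ) (f : ℍ → ℂ) (hf : MDiff f) (hinv : ∀ γ : SL(2, ℤ), f ∣[k] γ = f)
    (hbd : IsBoundedAtImInfty f) (τ : ℍ) : mkLevelOne k f hf hinv hbd τ = f τ := rfl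

/-- the transformation law of a level one form, for `γ : SL(2,ℤ)` -/
theorem levelOne_smul {k : ℤ} {F : Type*} [FunLike F ℍ ℂ] [SlashInvariantFormClass F 𝒮ℒ k]
    (f : F) (γ : SL(2, ℤ)) (τ : ℍ) : f (γ • τ) = denom γ τ ^ k * f τ := by
  have hmem : Matrix.SpecialLinearGroup.mapGL ℝ γ ∈ 𝒮ℒ := ⟨γ, rfl⟩
  have := SlashInvariantForm.slash_action_eqn'' f hmem τ
  exact this

theorem discriminant_smul (γ : SL(2, ℤ)) (τ : ℍ) :
    discriminant (γ • τ) = denom γ τ ^ (12 : ℤ) * discriminant τ :=
  levelOne_smul CuspForm.discriminant γ τ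

theorem mdiff_discriminant : MDiff discriminant := CuspForm.discriminant.holo'

theorem slash_zero_of_invariant (f : ℍ → ℂ)
    (hinv : ∀ (γ : SL(2, ℤ)) (τ : ℍ), f (γ • τ) = f τ) (γ : SL(2, ℤ)) : f ∣[(0 : ℤ)] γ = f := by
  ext τ
  rw [SL_slash_apply, hinv γ τ]
  simp

/-- **INV lemma.** A holomorphic `SL(2,ℤ)`-invariant function with a pole of order at most `M`
at `i∞` is a polynomial of degree at most `M` in `j`. -/
theorem inv_poly (M : ℕ) : ∀ (f : ℍ → ℂ), MDiff f →
    (∀ (γ : SL(2, ℤ)) (τ : ℍ), f (γ • τ) = f τ) →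
    IsBoundedAtImInfty (fun τ => discriminant τ ^ M * f τ) →
    ∃ Q : Polynomial ℂ, Q.natDegree ≤ M ∧ ∀ τ, f τ = Q.eval (jfun τ) := by
  induction M with
  | zero =>
    intro f hf hinv hbd
    have hbd' : IsBoundedAtImInfty f := by simpa using hbd
    obtain ⟨c, hc⟩ := ModularFormClass.levelOne_weight_zero_const
      (mkLevelOne 0 f hf (slash_zero_of_invariant f hinv) hbd')
    exact ⟨Polynomial.C c, by simp, fun τ => by simpa using congrFun hc τ⟩
  | succ M ih =>
    intro f hf hinv hbd
    set k : ℤ := 12 * ((M : ℤ) + 1) with hk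
    have hginv : ∀ γ : SL(2, ℤ), (fun τ => discriminant τ ^ (M + 1) * f τ) ∣[k] γ
        = fun τ => discriminant τ ^ (M + 1) * f τ := by
      intro γ
      ext τ
      rw [SL_slash_apply, hinv γ τ, discriminant_smul γ τ]
      have hd : (denom γ τ : ℂ) ≠ 0 := denom_ne_zero _ _
      rw [mul_pow, ← zpow_natCast (denom γ τ ^ (12 : ℤ)), ← zpow_mul]
      have : ((12 : ℤ) * ((M + 1 : ℕ) : ℤ)) = k := by rw [hk]; push_cast; ring
      rw [this, zpow_neg]
      field_simp
    have hgdiff : MDiff (fun τ => discriminant τ ^ (M + 1) * f τ) :=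
      (mdiff_discriminant.pow (M + 1)).mul hf
    let g : ModularForm 𝒮ℒ k := mkLevelOne k _ hgdiff hginv hbd
    let e : ModularForm 𝒮ℒ k :=
      ModularForm.mcast (by rw [hk]; push_cast; ring) (E₄.pow (3 * (M + 1)))
    have he0 : (qExpansion 1 e).coeff 0 = 1 := by
      have h1 : qExpansion 1 e = qExpansion 1 E₄ ^ (3 * (M + 1)) :=
        ModularForm.qExpansion_pow one_pos one_mem_strictPeriods_SL E₄ (3 * (M + 1))
      rw [h1, PowerSeries.coeff_zero_eq_constantCoeff, map_pow,
        ← PowerSeries.coeff_zero_eq_constantCoeff]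
      have h2 := E_qExpansion_coeff (by norm_num : 3 ≤ 4) (by decide) 0
      simp only [if_true] at h2
      rw [h2, one_pow]
    set c := (qExpansion 1 g).coeff 0 with hc
    have hcusp : (qExpansion 1 (g - c • e)).coeff 0 = 0 := by
      have h1 : qExpansion 1 (g - c • e) = qExpansion 1 g - c • qExpansion 1 e := by
        have := ModularForm.qExpansion_sub one_pos one_mem_strictPeriods_SL g (c • e)
        rw [← ModularForm.qExpansion_smul one_pos one_mem_strictPeriods_SL c e]
        exact this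
      rw [h1, map_sub, PowerSeries.coeff_smul, he0, ← hc]
      simp
    let h := CuspForm.discriminantEquiv (toCuspForm (g - c • e) hcusp)
    have hh : ∀ τ, h τ = discriminant τ ^ M * (f τ - c * jfun τ ^ (M + 1)) := by
      intro τ
      have hΔ := discriminant_ne_zero τ
      have hg : g τ = discriminant τ ^ (M + 1) * f τ := rfl
      have he : e τ = E₄ τ ^ (3 * (M + 1)) := by
        change (E₄.pow (3 * (M + 1))) τ = _
        rw [ModularForm.coe_pow]
        rfl
      have h1 : h τ = (discriminant τ ^ (M + 1) * f τ - c * E₄ τ ^ (3 * (M + 1)))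
          / discriminant τ := by
        rw [CuspForm.discriminantEquiv_apply, toCuspForm_apply, _root_.sub_apply,
          _root_.smul_apply, hg, he, smul_eq_mul]
      have key : c * (E₄ τ ^ 3 / discriminant τ) ^ (M + 1) * discriminant τ ^ (M + 1)
          = c * E₄ τ ^ (3 * (M + 1)) := by
        rw [div_pow, ← pow_mul, mul_assoc, div_mul_cancel₀ _ (pow_ne_zero _ hΔ)]
      rw [h1, jfun, div_eq_iff hΔ]
      linear_combination key
    obtain ⟨Q₁, hdeg, hQ₁⟩ := ih (fun τ => f τ - c * jfun τ ^ (M + 1))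
      (hf.sub ((jfun_mdifferentiable.pow (M + 1)).const_smul c))
      (fun γ τ => by simp only [hinv γ τ, jfun_smul])
      (by
        have : (fun τ => discriminant τ ^ M * (f τ - c * jfun τ ^ (M + 1))) = ⇑h := by
          ext τ; exact (hh τ).symm
        rw [this]
        exact ModularFormClass.bdd_at_infty h)
    refine ⟨Q₁ + Polynomial.C c * Polynomial.X ^ (M + 1), ?_, fun τ => ?_⟩
    · refine (Polynomial.natDegree_add_le _ _).trans (max_le (hdeg.trans (Nat.le_succ M)) ?_)
      exact (Polynomial.natDegree_C_mul_le _ _).trans (Polynomial.natDegree_X_pow_le _)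
    · have := hQ₁ τ
      simp only [Polynomial.eval_add, Polynomial.eval_mul, Polynomial.eval_C, Polynomial.eval_pow,
        Polynomial.eval_X]
      rw [← this]
      ring

end Fermat.Agent.MC
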