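import Mathlib
import Fermat.Agent.Lib.MC_Exp
import Fermat.Agent.Lib.MC_Inv
import Fermat.Agent.Lib.MC_Hnf

/-!
# T24 [C-deg]: the conjugates `jlev d γ` of the level-`N` functions

* `jlev_hnf` : `jlev d γ τ = j((a τ + b) / d')` with `a d' = d`, `0 ≤ b < d'`.
* `jlev_mdifferentiable`, `jlev_hasSum` (expansion in `w = exp(2πiτ/N)`).
* `jlev_mul_Gamma0` : `jlev d (γ g) = jlev d γ` for `g ∈ Γ₀(N)`, `d ∣ N`.
* `jlev_dist` : `jlev N γ = jlev N 1 → γ ∈ Γ₀(N)`.
* `jlev_growth` : moderate growth at `i∞`.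
-/

set_option autoImplicit false

noncomputable section

namespace Fermat.Agent.MC

open UpperHalfPlane ModularCurve CongruenceSubgroup Complex Filter ModularForm
open scoped MatrixGroups Real Manifold Topology

local notation "𝕢" => Function.Periodic.qParam

/-- Hermite normal form for the conjugates of `j(dτ)`. -/
theorem jlev_hnf (d : ℕ) (hd : 0 < d) (γ : SL(2, ℤ)) :
    ∃ (δ : SL(2, ℤ)) (a b d' : ℕ), a * d' = d ∧ b < d' ∧
      (γ⁻¹ : SL(2, ℤ)) 1 0 = δ 1 0 * a ∧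
      ∀ τ : ℍ, jlev d γ τ = jfun (ofComplex (((a : ℂ) * τ + b) / d')) := by
  obtain ⟨δ, a, b, d', had, hb, h10, h⟩ := hnf_smul d hd γ⁻¹
  refine ⟨δ, a, b, d', had, hb, h10, fun τ => ?_⟩
  unfold jlev
  rw [h τ, ofComplex_apply, jfun_smul]

theorem pos_of_mul_eq {a d' d : ℕ} (hd : 0 < d) (h : a * d' = d) : 0 < a ∧ 0 < d' := by
  constructor
  · rcases Nat.eq_zero_or_pos a with h0 | h0
    · rw [h0, zero_mul] at h; omega
    · exact h0
  · rcases Nat.eq_zero_or_pos d' with h0 | h0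
    · rw [h0, mul_zero] at h; omega
    · exact h0

theorem jlev_mdifferentiable (d : ℕ) (hd : 0 < d) (γ : SL(2, ℤ)) : MDiff (jlev d γ) := by
  obtain ⟨δ, a, b, d', had, hb, -, h⟩ := jlev_hnf d hd γ
  obtain ⟨ha, hd'⟩ := pos_of_mul_eq hd had
  rw [UpperHalfPlane.mdifferentiable_iff]
  intro z hz
  have hz' : 0 < z.im := hz
  have him : 0 < (((a : ℂ) * z + b) / d').im := hnf_im_pos b ha hd' hz'
  have hd1 : DifferentiableAt ℂ (fun w : ℂ => ((a : ℂ) * w + b) / d') z := by fun_prop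
  have hd2 : DifferentiableAt ℂ ((jfun ∘ ofComplex) ∘ (fun w : ℂ => ((a : ℂ) * w + b) / d')) z :=
    (jfun_differentiableAt him).comp z hd1
  have key : ∀ w : ℂ, 0 < w.im → (jlev d γ ∘ ofComplex) w
      = ((jfun ∘ ofComplex) ∘ (fun w : ℂ => ((a : ℂ) * w + b) / d')) w := by
    intro w hw
    simp only [Function.comp_apply]
    rw [h, ofComplex_apply_of_im_pos hw]
  exact hd2.differentiableWithinAt.congr (fun w hw => key w hw) (key z hz')

/-- the expansion of `jlev d γ` in `w = exp(2πiτ/N)`, for `d ∣ N`. -/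
theorem jlev_hasSum (N : ℕ) [NeZero N] (d : ℕ) (hdN : d ∣ N) (γ : SL(2, ℤ)) :
    ∃ (m : ℕ) (c : ℕ → ℂ), ∀ τ : ℍ,
      HasSum (fun n : ℕ => c n * Complex.exp (2 * π * Complex.I * τ / N) ^ n)
        (Complex.exp (2 * π * Complex.I * τ / N) ^ m * jlev d γ τ) := by
  have hN : 0 < N := Nat.pos_of_ne_zero (NeZero.ne N)
  have hd : 0 < d := Nat.pos_of_dvd_of_pos hdN hN
  obtain ⟨δ, a, b, d', had, hb, -, h⟩ := jlev_hnf d hd γ
  obtain ⟨ha, hd'⟩ := pos_of_mul_eq hd had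
  have hd'N : d' ∣ N := (Dvd.intro_left a had).trans hdN
  obtain ⟨N', hN'⟩ := hd'N
  have hN'pos : 0 < N' := by
    rcases Nat.eq_zero_or_pos N' with h0 | h0
    · rw [h0, mul_zero] at hN'; omega
    · exact h0
  set e : ℕ := a * N' with he
  have hepos : 0 < e := Nat.mul_pos ha hN'pos
  set ζ : ℂ := Complex.exp (2 * π * Complex.I * b / d') with hζ
  have hζ0 : ζ ≠ 0 := Complex.exp_ne_zero _
  set cj : ℕ → ℂ := fun n => ((PowerSeries.coeff n jNum : ℤ) : ℂ) with hcj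
  refine ⟨e, fun k => if e ∣ k then ζ⁻¹ * (cj (k / e) * ζ ^ (k / e)) else 0, fun τ => ?_⟩
  set w : ℂ := Complex.exp (2 * π * Complex.I * τ / N) with hw
  have him : 0 < (((a : ℂ) * τ + b) / d').im := hnf_im_pos b ha hd' τ.im_pos
  set z : ℍ := ofComplex (((a : ℂ) * τ + b) / d') with hz
  have hzc : (z : ℂ) = ((a : ℂ) * τ + b) / d' := by
    rw [hz, ofComplex_apply_of_im_pos him]
  have hd'C : (d' : ℂ) ≠ 0 := by exact_mod_cast hd'.ne'
  have hN'C : (N' : ℂ) ≠ 0 := by exact_mod_cast hN'pos.ne'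
  have hq : 𝕢 1 (z : ℂ) = ζ * w ^ e := by
    unfold Function.Periodic.qParam
    rw [hzc, hζ, hw, ← Complex.exp_nat_mul, ← Complex.exp_add]
    congr 1
    rw [hN', he]
    push_cast
    field_simp
    ring
  have hqn : ‖𝕢 1 (z : ℂ)‖ < 1 := by simpa using Function.Periodic.norm_qParam_lt_one one_pos z.im_pos
  have hs := jqFun_hasSum hqn
  rw [jqFun_qParam z, hq] at hs
  have hs2 := hs.mul_left ζ⁻¹
  have hval : ζ⁻¹ * (ζ * w ^ e * jfun z) = w ^ e * jlev d γ τ := by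
    rw [h τ, ← hz]
    field_simp
  rw [hval] at hs2
  have hinj : Function.Injective (fun n : ℕ => e * n) := fun x y hxy =>
    Nat.eq_of_mul_eq_mul_left hepos hxy
  refine (Function.Injective.hasSum_iff hinj ?_).mp ?_
  · intro k hk
    have : ¬ e ∣ k := fun ⟨n, hn⟩ => hk ⟨n, hn.symm⟩
    simp only [this, if_false, zero_mul]
  · have hfun : ((fun k : ℕ => (if e ∣ k then ζ⁻¹ * (cj (k / e) * ζ ^ (k / e)) else 0) * w ^ k)
        ∘ fun n : ℕ => e * n) = fun n : ℕ => ζ⁻¹ * (cj n * (ζ * w ^ e) ^ n) := by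
      funext n
      simp only [Function.comp_apply, dvd_mul_right, if_true, Nat.mul_div_cancel_left n hepos]
      rw [pow_mul, mul_pow]
      ring
    rw [hfun]
    exact hs2

theorem scale_im_pos {d : ℕ} (hd : 0 < d) (z : ℍ) : 0 < ((d : ℂ) * (z : ℂ)).im := by
  have : ((d : ℂ) * (z : ℂ)).im = d * z.im := by simp
  rw [this]
  exact mul_pos (by exact_mod_cast hd) z.im_pos

theorem jfun_scale_smul (d : ℕ) (hd : 0 < d) (h : SL(2, ℤ)) (hh : (d : ℤ) ∣ h 1 0) (z : ℍ) :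
    jfun (ofComplex ((d : ℂ) * ((h • z : ℍ) : ℂ))) = jfun (ofComplex ((d : ℂ) * (z : ℂ))) := by
  obtain ⟨k, hk⟩ := hh
  have hdet : h 0 0 * h 1 1 - h 0 1 * h 1 0 = 1 := by
    have := h.det_coe
    rw [Matrix.det_fin_two] at this
    exact this
  let h' : SL(2, ℤ) := ⟨!![h 0 0, d * h 0 1; k, h 1 1], by
    rw [Matrix.det_fin_two_of]
    linear_combination hdet + h 0 1 * hk⟩
  have h00 : h' 0 0 = h 0 0 := rfl
  have h01 : h' 0 1 = d * h 0 1 := rfl
  have h10 : h' 1 0 = k := rfl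
  have h11 : h' 1 1 = h 1 1 := rfl
  have him := scale_im_pos hd z
  have key : (d : ℂ) * ((h • z : ℍ) : ℂ) = ((h' • ofComplex ((d : ℂ) * (z : ℂ)) : ℍ) : ℂ) := by
    have hden1 := UpperHalfPlane.denom_ne_zero (h : GL (Fin 2) ℝ) z
    have hden2 := UpperHalfPlane.denom_ne_zero (h' : GL (Fin 2) ℝ) (ofComplex ((d : ℂ) * (z : ℂ)))
    rw [coe_specialLinearGroup_apply, coe_specialLinearGroup_apply]
    rw [ofComplex_apply_of_im_pos him] at hden2 ⊢
    simp only [eq_intCast, Complex.ofReal_intCast] at hden2 ⊢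
    rw [h00, h01, h10, h11]
    have hkC : ((h 1 0 : ℤ) : ℂ) = (d : ℂ) * k := by exact_mod_cast hk
    rw [hkC]
    push_cast
    field_simp
  rw [key, ofComplex_apply, jfun_smul]

theorem jlev_mul_Gamma0 (N d : ℕ) (hd : 0 < d) (hdN : d ∣ N) (γ g : SL(2, ℤ))
    (hg : g ∈ Gamma0 N) : jlev d (γ * g) = jlev d γ := by
  funext τ
  unfold jlev
  rw [mul_inv_rev, mul_smul]
  apply jfun_scale_smul d hd
  have hg' : g⁻¹ ∈ Gamma0 N := inv_mem hg
  rw [Gamma0_mem, ZMod.intCast_zmod_eq_zero_iff_dvd] at hg'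
  exact (Int.natCast_dvd_natCast.mpr hdN).trans hg'

theorem norm_qParam_aff {a d' : ℕ} (b : ℕ) (ha : 0 < a) (hd' : 0 < d') (τ : ℍ) :
    ‖𝕢 1 ((ofComplex (((a : ℂ) * τ + b) / d') : ℍ) : ℂ)‖ =
      Real.exp (-2 * π * ((a : ℝ) / d') * τ.im) := by
  rw [ofComplex_apply_of_im_pos (hnf_im_pos b ha hd' τ.im_pos), Function.Periodic.norm_qParam,
    hnf_im, UpperHalfPlane.coe_im]
  congr 1
  ring

theorem qParam_aff_tendsto {a d' : ℕ} (b : ℕ) (ha : 0 < a) (hd' : 0 < d') :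
    Tendsto (fun τ : ℍ => 𝕢 1 ((ofComplex (((a : ℂ) * τ + b) / d') : ℍ) : ℂ)) atImInfty (𝓝 0) := by
  rw [tendsto_zero_iff_norm_tendsto_zero]
  simp only [norm_qParam_aff b ha hd']
  refine Real.tendsto_exp_atBot.comp ?_
  have h1 : Tendsto (fun τ : ℍ => τ.im) atImInfty atTop := tendsto_comap
  have hc : -2 * π * ((a : ℝ) / d') < 0 := by
    have : (0 : ℝ) < (a : ℝ) / d' := by positivity
    nlinarith [Real.pi_pos]
  exact h1.const_mul_atTop_of_neg hc

theorem jqFun_zero : jqFun 0 = 1 := by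
  have h := jqFun_hasSum (q := 0) (by simp)
  have h2 : HasSum (fun n : ℕ => ((PowerSeries.coeff n jNum : ℤ) : ℂ) * (0 : ℂ) ^ n)
      (((PowerSeries.coeff 0 jNum : ℤ) : ℂ) * (0 : ℂ) ^ 0) := by
    apply hasSum_single 0
    intro n hn
    simp [hn]
  have h3 := h.unique h2
  rw [h3, PowerSeries.coeff_zero_eq_constantCoeff_apply, constantCoeff_jNum]
  simp

theorem jqFun_tendsto_one : Tendsto jqFun (𝓝 0) (𝓝 1) := by
  have hball : Metric.ball (0 : ℂ) 1 ∈ 𝓝 (0 : ℂ) := Metric.ball_mem_nhds _ one_pos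
  have := (jqFun_differentiableOn.continuousOn.continuousAt hball).tendsto
  rwa [jqFun_zero] at this

/-- `jlev N γ = jlev N 1` forces `γ ∈ Γ₀(N)`. -/
theorem jlev_dist (N : ℕ) [NeZero N] (γ : SL(2, ℤ)) (h : jlev N γ = jlev N 1) :
    γ ∈ Gamma0 N := by
  have hN : 0 < N := Nat.pos_of_ne_zero (NeZero.ne N)
  obtain ⟨δ, a, b, d', had, hb, h10, hj⟩ := jlev_hnf N hN γ
  obtain ⟨ha, hd'⟩ := pos_of_mul_eq hN had
  have hd1 : d' = 1 := by
    by_contra hne
    have hd2 : 2 ≤ d' := by omega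
    set q1 : ℍ → ℂ := fun τ => 𝕢 1 ((ofComplex (((a : ℂ) * τ + b) / d') : ℍ) : ℂ) with hq1
    set q2 : ℍ → ℂ := fun τ => 𝕢 1 ((ofComplex (((N : ℂ) * τ + (0 : ℕ)) / (1 : ℕ)) : ℍ) : ℂ)
      with hq2
    have hid : ∀ τ : ℍ, jqFun (q1 τ) * q2 τ = jqFun (q2 τ) * q1 τ := by
      intro τ
      simp only [hq1, hq2]
      rw [jqFun_qParam, jqFun_qParam]
      have e1 := hj τ
      have e2 : jlev N 1 τ = jfun (ofComplex (((N : ℂ) * τ + (0 : ℕ)) / (1 : ℕ))) := by
        unfold jlev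
        simp
      rw [← e1, ← e2, h]
      ring
    have hn : ∀ τ : ℍ, ‖jqFun (q1 τ)‖ * Real.exp (-2 * π * ((N : ℝ) - (a : ℝ) / d') * τ.im)
        = ‖jqFun (q2 τ)‖ := by
      intro τ
      have h1 := congrArg norm (hid τ)
      rw [norm_mul, norm_mul] at h1
      simp only [hq1, hq2] at h1 ⊢
      rw [norm_qParam_aff b ha hd', norm_qParam_aff 0 hN one_pos] at h1
      have hexp : Real.exp (-2 * π * ((N : ℝ) - (a : ℝ) / d') * τ.im) =
          Real.exp (-2 * π * ((N : ℝ) / (1 : ℕ)) * τ.im) *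
            (Real.exp (-2 * π * ((a : ℝ) / d') * τ.im))⁻¹ := by
        rw [← Real.exp_neg, ← Real.exp_add]
        congr 1
        push_cast
        ring
      rw [hexp, ← mul_assoc, h1, mul_assoc, mul_inv_cancel₀ (Real.exp_pos _).ne', mul_one]
    have ht1 : Tendsto (fun τ : ℍ => ‖jqFun (q1 τ)‖) atImInfty (𝓝 1) := by
      have := (jqFun_tendsto_one.comp (qParam_aff_tendsto b ha hd')).norm
      rw [norm_one] at this
      exact this
    have ht2 : Tendsto (fun τ : ℍ => ‖jqFun (q2 τ)‖) atImInfty (𝓝 1) := by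
      have := (jqFun_tendsto_one.comp (qParam_aff_tendsto 0 hN one_pos)).norm
      rw [norm_one] at this
      exact this
    have ht3 : Tendsto (fun τ : ℍ => Real.exp (-2 * π * ((N : ℝ) - (a : ℝ) / d') * τ.im))
        atImInfty (𝓝 0) := by
      refine Real.tendsto_exp_atBot.comp ?_
      have h1 : Tendsto (fun τ : ℍ => τ.im) atImInfty atTop := tendsto_comap
      have hc : -2 * π * ((N : ℝ) - (a : ℝ) / d') < 0 := by
        have h2 : (a : ℝ) / d' ≤ a :=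
          div_le_self (by positivity) (by exact_mod_cast hd')
        have h3 : a < N := by nlinarith
        have h4 : (a : ℝ) < N := by exact_mod_cast h3
        nlinarith [Real.pi_pos]
      exact h1.const_mul_atTop_of_neg hc
    have ht4 := ht1.mul ht3
    simp only [hn, one_mul] at ht4
    have := tendsto_nhds_unique ht2 ht4
    norm_num at this
  subst hd1
  have haN : a = N := by simpa using had
  have hdvd : (N : ℤ) ∣ (γ⁻¹ : SL(2, ℤ)) 1 0 := by
    rw [h10, haN]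
    exact Dvd.intro_left _ rfl
  have hmem : γ⁻¹ ∈ Gamma0 N := by
    rw [Gamma0_mem, ZMod.intCast_zmod_eq_zero_iff_dvd]
    exact hdvd
  simpa using inv_mem hmem

/-- moderate growth of the conjugates at `i∞`. -/
theorem jlev_growth (d : ℕ) (hd : 0 < d) (γ : SL(2, ℤ)) :
    ∃ m : ℕ, IsBoundedAtImInfty (fun τ => discriminant τ ^ m * jlev d γ τ) := by
  obtain ⟨δ, a, b, d', had, hb, -, hj⟩ := jlev_hnf d hd γ
  obtain ⟨ha, hd'⟩ := pos_of_mul_eq hd had
  refine ⟨a, ?_⟩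
  set q1 : ℍ → ℂ := fun τ => 𝕢 1 ((ofComplex (((a : ℂ) * τ + b) / d') : ℍ) : ℂ) with hq1
  have hfun : (fun τ : ℍ => discriminant τ ^ a * jlev d γ τ) =
      (fun τ : ℍ => (𝕢 1 (τ : ℂ)) ^ a / q1 τ) *
        ((fun τ : ℍ => etaFun (𝕢 1 (τ : ℂ)) ^ (24 * a)) * (fun τ : ℍ => jqFun (q1 τ))) := by
    funext τ
    simp only [Pi.mul_apply, hq1]
    rw [hj τ, mcj_disc_eq, jqFun_qParam]
    have : 𝕢 1 ((ofComplex (((a : ℂ) * τ + b) / d') : ℍ) : ℂ) ≠ 0 :=
      Function.Periodic.qParam_ne_zero _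
    field_simp
    ring
  rw [hfun]
  have hball : Metric.ball (0 : ℂ) 1 ∈ 𝓝 (0 : ℂ) := Metric.ball_mem_nhds _ one_pos
  refine BoundedAtFilter.mul ?_ (BoundedAtFilter.mul ?_ ?_)
  · show IsBoundedAtImInfty _
    rw [isBoundedAtImInfty_iff]
    refine ⟨1, 0, fun z _ => ?_⟩
    simp only [hq1]
    rw [norm_div, norm_pow, Function.Periodic.norm_qParam, norm_qParam_aff b ha hd',
      ← Real.exp_nat_mul, ← Real.exp_sub, Real.exp_le_one_iff, UpperHalfPlane.coe_im]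
    have h2 : (a : ℝ) / d' ≤ a := div_le_self (by positivity) (by exact_mod_cast hd')
    have h3 : 0 < z.im := z.im_pos
    have h4 : (a : ℝ) / d' * z.im ≤ a * z.im := mul_le_mul_of_nonneg_right h2 h3.le
    nlinarith [Real.pi_pos]
  · have hc : Tendsto etaFun (𝓝 0) (𝓝 (etaFun 0)) :=
      (etaFun_differentiableOn.continuousOn.continuousAt hball).tendsto
    exact ((hc.comp (qParam_tendsto_atImInfty one_pos)).pow (24 * a)).isBigO_one ℝ
  · exact (jqFun_tendsto_one.comp (qParam_aff_tendsto b ha hd')).isBigO_one ℝ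

end Fermat.Agent.MC
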