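/-
T24 [B], part B1 (helper4): Taylor series on the unit disc and the `q`-expansion of `E₄³/Δ`.

* `tay`, `tay_hasSum`, `tay_mul`, `tay_pow`, `tay_tendsto` : Taylor series at `0` of functions on
  the unit disc as formal power series; multiplicativity; continuity under locally uniform limits.
* `tay_eulerG` : the Euler product `∏ (1 - qⁿ)` has Taylor series the Prelude's formal `etaProd`.
* `tay_Gj` : `q ↦ E₄³/∏(1-qⁿ)^24` has Taylor series the Prelude's `jNum` (cast to `ℂ`).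
* `jq_raw_hasSum` : `q · E₄(τ)³/Δ(τ) = ∑ jNum_n qⁿ`  (this is `jfun_hasSum` of `MC_J.lean`).
* `jq_raw_smul`, `jq_raw_mdifferentiable`, `jq_raw_sub_1728`.
This file deliberately does NOT define `jfun` (owned by `MC_J.lean`).
-/
import Mathlib
import Fermat.Prelude.Def_ModularCurve_X0

set_option autoImplicit false

noncomputable section

namespace Fermat.Agent.MC

open Complex Filter Metric Set UpperHalfPlane ModularForm MatrixGroups
open scoped Real Topology Nat Manifold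



/-- Taylor series at `0` of a function on the unit disc, as a formal power series. -/
def tay (G : ℂ → ℂ) : PowerSeries ℂ :=
  PowerSeries.mk fun n => ((n ! : ℕ) : ℂ)⁻¹ * iteratedDeriv n G 0

lemma tay_coeff (G : ℂ → ℂ) (n : ℕ) :
    (tay G).coeff n = ((n ! : ℕ) : ℂ)⁻¹ * iteratedDeriv n G 0 := by
  simp [tay]

lemma tay_hasSum {G : ℂ → ℂ} (hG : DifferentiableOn ℂ G (ball 0 1)) {q : ℂ} (hq : ‖q‖ < 1) :
    HasSum (fun n : ℕ => (tay G).coeff n * q ^ n) (G q) := by
  have h := Complex.hasSum_taylorSeries_on_ball hG (z := q) (by simpa using hq)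
  have e : (fun n : ℕ => (tay G).coeff n * q ^ n)
      = fun n : ℕ => ((n ! : ℕ) : ℂ)⁻¹ • (q - 0) ^ n • iteratedDeriv n G 0 := by
    funext n
    rw [tay_coeff]
    simp only [smul_eq_mul, sub_zero]
    ring
  rw [e]
  exact h

lemma tay_congr {G₁ G₂ : ℂ → ℂ} (h : G₁ =ᶠ[𝓝 0] G₂) : tay G₁ = tay G₂ := by
  ext n
  rw [tay_coeff, tay_coeff, h.iteratedDeriv_eq n]

lemma tay_mul {G₁ G₂ : ℂ → ℂ} (h₁ : AnalyticAt ℂ G₁ 0) (h₂ : AnalyticAt ℂ G₂ 0) :
    tay (G₁ * G₂) = tay G₁ * tay G₂ := by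
  ext n
  simp only [tay_coeff, iteratedDeriv_mul h₁.contDiffAt h₂.contDiffAt, Finset.mul_sum,
    PowerSeries.coeff_mul, Finset.Nat.sum_antidiagonal_eq_sum_range_succ_mk, Nat.succ_eq_add_one]
  refine Finset.sum_congr rfl fun i hi ↦ ?_
  rw [Nat.cast_choose _ (by simpa [Nat.lt_succ_iff] using hi : i ≤ n)]
  field_simp [Nat.factorial_ne_zero]

lemma tay_const (c : ℂ) : tay (fun _ => c) = PowerSeries.C c := by
  ext n
  rw [tay_coeff, PowerSeries.coeff_C]
  rcases n with _ | n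
  · simp
  · simp [iteratedDeriv_const]

lemma tay_one : tay (1 : ℂ → ℂ) = 1 := by
  have : (1 : ℂ → ℂ) = fun _ => (1 : ℂ) := rfl
  rw [this, tay_const]; simp

lemma tay_id : tay (fun q : ℂ => q) = PowerSeries.X := by
  ext n
  rw [tay_coeff, PowerSeries.coeff_X, iteratedDeriv_fun_id_zero]
  split_ifs with h
  · subst h; simp
  · simp

lemma tay_sub {G₁ G₂ : ℂ → ℂ} (h₁ : AnalyticAt ℂ G₁ 0) (h₂ : AnalyticAt ℂ G₂ 0) :
    tay (G₁ - G₂) = tay G₁ - tay G₂ := by
  ext n
  simp only [tay_coeff, map_sub, iteratedDeriv_sub h₁.contDiffAt h₂.contDiffAt]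
  ring

lemma tay_pow {G : ℂ → ℂ} (h : AnalyticAt ℂ G 0) (k : ℕ) : tay (G ^ k) = tay G ^ k := by
  induction k with
  | zero => simpa using tay_one
  | succ k ih =>
    rw [pow_succ, pow_succ, tay_mul (h.pow k) h, ih]

lemma tay_prod {ι : Type*} (s : Finset ι) (G : ι → ℂ → ℂ) (h : ∀ i ∈ s, AnalyticAt ℂ (G i) 0) :
    tay (∏ i ∈ s, G i) = ∏ i ∈ s, tay (G i) := by
  classical
  induction s using Finset.induction_on with
  | empty => simpa using tay_one
  | insert a s ha ih =>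
    rw [Finset.prod_insert ha, Finset.prod_insert ha,
      tay_mul (h a (Finset.mem_insert_self a s))
        (Finset.analyticAt_prod _ fun i hi => h i (Finset.mem_insert_of_mem hi)),
      ih fun i hi => h i (Finset.mem_insert_of_mem hi)]


/-- Iterated derivatives converge under locally uniform convergence of holomorphic functions. -/
lemma tlu_iteratedDeriv {G : ℕ → ℂ → ℂ} {G' : ℂ → ℂ} {U : Set ℂ} (hU : IsOpen U)
    (hG : ∀ k, DifferentiableOn ℂ (G k) U) (h : TendstoLocallyUniformlyOn G G' atTop U) (m : ℕ) :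
    TendstoLocallyUniformlyOn (fun k => iteratedDeriv m (G k)) (iteratedDeriv m G') atTop U ∧
      ∀ k, DifferentiableOn ℂ (iteratedDeriv m (G k)) U := by
  induction m with
  | zero => simpa [iteratedDeriv_zero] using ⟨h, hG⟩
  | succ m ih =>
    obtain ⟨ih1, ih2⟩ := ih
    refine ⟨?_, fun k => ?_⟩
    · have := ih1.deriv (Eventually.of_forall ih2) hU
      simpa [iteratedDeriv_succ, Function.comp_def] using this
    · rw [iteratedDeriv_succ]; exact (ih2 k).deriv hU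

lemma tay_tendsto {G : ℕ → ℂ → ℂ} {G' : ℂ → ℂ} (hG : ∀ k, DifferentiableOn ℂ (G k) (ball 0 1))
    (h : TendstoLocallyUniformlyOn G G' atTop (ball 0 1)) (m : ℕ) :
    Tendsto (fun k => (tay (G k)).coeff m) atTop (𝓝 ((tay G').coeff m)) := by
  have h1 := (tlu_iteratedDeriv isOpen_ball hG h m).1.tendsto_at (mem_ball_self one_pos)
  simp only [tay_coeff]
  exact h1.const_mul _

/-- the Euler product `∏ (1 - q^(n+1))` on the unit disc -/
def eulerG (q : ℂ) : ℂ := ∏' n : ℕ, (1 - q ^ (n + 1))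

lemma eulerG_differentiableOn : DifferentiableOn ℂ eulerG (ball 0 1) :=
  ModularForm.differentiableOn_tprod_one_sub_pow

lemma eulerG_partial_tendsto :
    TendstoLocallyUniformlyOn (fun (k : ℕ) (q : ℂ) => ∏ n ∈ Finset.range k, (1 - q ^ (n + 1)))
      eulerG atTop (ball 0 1) := by
  have h := ModularForm.multipliableLocallyUniformlyOn_one_sub_pow.hasProdLocallyUniformlyOn
  have h2 : TendstoLocallyUniformlyOn
      (fun (s : Finset ℕ) (q : ℂ) => ∏ n ∈ s, (1 - q ^ (n + 1))) eulerG atTop (ball 0 1) := by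
    have e : eulerG = fun x : ℂ => ∏' (i : ℕ), (1 - x ^ (i + 1)) := rfl
    rw [e]
    simpa [HasProdLocallyUniformlyOn] using h
  intro u hu x hx
  obtain ⟨t, ht, H⟩ := h2 u hu x hx
  exact ⟨t, ht, tendsto_finset_range.eventually H⟩

open PowerSeries in
lemma tay_partial (k : ℕ) :
    tay (fun q : ℂ => ∏ n ∈ Finset.range k, (1 - q ^ (n + 1)))
      = ∏ n ∈ Finset.range k, ((1 : PowerSeries ℂ) - PowerSeries.X ^ (n + 1)) := by
  have hid : AnalyticAt ℂ (fun q : ℂ => q) 0 := analyticAt_id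
  have e : (fun q : ℂ => ∏ n ∈ Finset.range k, (1 - q ^ (n + 1)))
      = ∏ n ∈ Finset.range k, ((1 : ℂ → ℂ) - (fun q : ℂ => q) ^ (n + 1)) := by
    funext q
    simp [Finset.prod_apply]
  rw [e, tay_prod]
  · refine Finset.prod_congr rfl fun n _ => ?_
    have h1 : AnalyticAt ℂ (1 : ℂ → ℂ) 0 := analyticAt_const
    rw [tay_sub h1 (hid.pow _), tay_one, tay_pow hid, tay_id]
  · intro n _
    have h1 : AnalyticAt ℂ (1 : ℂ → ℂ) 0 := analyticAt_const
    exact h1.sub (hid.pow _)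

open PowerSeries.WithPiTopology in
lemma tay_eulerG : tay eulerG = ModularCurve.etaProd.map (Int.castRingHom ℂ) := by
  ext m
  have hA := tay_tendsto (G := fun (k : ℕ) (q : ℂ) => ∏ n ∈ Finset.range k, (1 - q ^ (n + 1)))
    (fun k => by fun_prop) eulerG_partial_tendsto m
  -- formal side
  have hC : Tendsto (fun k : ℕ => ∏ n ∈ Finset.range k,
      ((1 : PowerSeries ℤ) - PowerSeries.X ^ (n + 1))) atTop (𝓝 ModularCurve.etaProd) :=
    (PowerSeries.WithPiTopology.multipliable_one_sub_X_pow ℤ).hasProd.tendsto_prod_nat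
  have hC' := ((PowerSeries.WithPiTopology.continuous_coeff ℤ m).tendsto _).comp hC
  rw [nhds_discrete, tendsto_pure] at hC'
  have hD : (fun k : ℕ => (tay (fun q : ℂ => ∏ n ∈ Finset.range k, (1 - q ^ (n + 1)))).coeff m)
      =ᶠ[atTop] fun _ => ((ModularCurve.etaProd.map (Int.castRingHom ℂ)).coeff m) := by
    filter_upwards [hC'] with k hk
    rw [tay_partial, PowerSeries.coeff_map, ← hk]
    simp only [Function.comp_apply]
    rw [← PowerSeries.coeff_map]
    congr 1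
    simp [map_prod]
  exact tendsto_nhds_unique hA (tendsto_const_nhds.congr' hD.symm)





/-- `(E₄³/Δ - 1728) Δ = E₆²` -/
lemma jq_raw_sub_1728 (τ : ℍ) :
    E₄ τ ^ 3 / ModularForm.discriminant τ - 1728 = E₆ τ ^ 2 / ModularForm.discriminant τ := by
  have h := discriminant_eq_E₄_cube_sub_E₆_sq τ
  have hΔ := discriminant_ne_zero τ
  rw [div_sub' hΔ, div_left_inj' hΔ]
  linear_combination (-1728 : ℂ) * h

/-- `SL(2,ℤ)`-invariance of `E₄³/Δ`. -/
theorem jq_raw_smul (γ : SL(2, ℤ)) (τ : ℍ) :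
    E₄ (γ • τ) ^ 3 / ModularForm.discriminant (γ • τ)
      = E₄ τ ^ 3 / ModularForm.discriminant τ := by
  have hγ : (γ : GL (Fin 2) ℝ) ∈ 𝒮ℒ := ⟨γ, rfl⟩
  have h4 := SlashInvariantForm.slash_action_eqn'' E₄ hγ τ
  have h12 := SlashInvariantForm.slash_action_eqn'' CuspForm.discriminant hγ τ
  have hd : denom (γ : GL (Fin 2) ℝ) τ ≠ 0 := denom_ne_zero _ _
  have e1 : E₄ (γ • τ) = denom (γ : GL (Fin 2) ℝ) τ ^ (4 : ℤ) * E₄ τ := h4
  have e2 : ModularForm.discriminant (γ • τ)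
      = denom (γ : GL (Fin 2) ℝ) τ ^ (12 : ℤ) * ModularForm.discriminant τ := h12
  rw [e1, e2]
  have hΔ := discriminant_ne_zero τ
  rw [div_eq_div_iff (mul_ne_zero (zpow_ne_zero _ hd) hΔ) hΔ]
  have : (denom (γ : GL (Fin 2) ℝ) τ ^ (4 : ℤ)) ^ 3 = denom (γ : GL (Fin 2) ℝ) τ ^ (12 : ℤ) := by
    rw [← zpow_natCast, ← zpow_mul]; norm_num
  rw [mul_pow, this]; ring

/-- holomorphy of `E₄³/Δ`. -/
theorem jq_raw_mdifferentiable :
    MDifferentiable 𝓘(ℂ) 𝓘(ℂ) (fun τ : ℍ => E₄ τ ^ 3 / ModularForm.discriminant τ) := by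
  have h4 : MDifferentiable 𝓘(ℂ) 𝓘(ℂ) (E₄ : ℍ → ℂ) := ModularFormClass.holo E₄
  have h12 : MDifferentiable 𝓘(ℂ) 𝓘(ℂ) (ModularForm.discriminant : ℍ → ℂ) :=
    ModularFormClass.holo CuspForm.discriminant
  intro τ
  exact ((h4 τ).pow 3).div (h12 τ) (discriminant_ne_zero τ)

local notation "𝕢" => Function.Periodic.qParam

lemma jf_analyticAt_zero_of_diffOn {G : ℂ → ℂ} (hG : DifferentiableOn ℂ G (ball 0 1)) :
    AnalyticAt ℂ G 0 :=
  hG.analyticAt (ball_mem_nhds 0 one_pos)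

lemma jf_norm_q_lt_one (τ : ℍ) : ‖𝕢 1 (τ : ℂ)‖ < 1 :=
  Function.Periodic.norm_qParam_lt_one one_pos τ.im_pos

lemma eulerG_ne_zero {q : ℂ} (hq : ‖q‖ < 1) : eulerG q ≠ 0 := by
  unfold eulerG
  refine tprod_one_add_ne_zero_of_summable (f := fun n => -q ^ (n + 1)) ?_ ?_ |> fun h => by
    simpa [sub_eq_add_neg] using h
  · intro i h
    have h1 : q ^ (i + 1) = 1 := by linear_combination -h
    have h2 : ‖q‖ ^ (i + 1) = 1 := by rw [← norm_pow, h1, norm_one]
    have h3 : ‖q‖ ^ (i + 1) < 1 := pow_lt_one₀ (norm_nonneg _) hq (by omega)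
    linarith
  · simpa using (summable_nat_add_iff 1).mpr (summable_geometric_of_lt_one (norm_nonneg _) hq)

lemma jf_disc_eq (τ : ℍ) : ModularForm.discriminant τ = 𝕢 1 (τ : ℂ) * eulerG (𝕢 1 (τ : ℂ)) ^ 24 := by
  rw [discriminant_eq_q_prod, eulerG]
  congr 1
  exact (ModularForm.multipliable_one_sub_pow (jf_norm_q_lt_one τ)).tprod_pow 24

/-- cusp function of `E₄` -/
def cE4 : ℂ → ℂ := cuspFunction 1 E₄

lemma cE4_differentiableOn : DifferentiableOn ℂ cE4 (ball 0 1) := fun q hq =>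
  (ModularFormClass.differentiableAt_cuspFunction E₄ one_pos one_mem_strictPeriods_SL
    (by simpa using hq)).differentiableWithinAt

lemma cE4_apply (τ : ℍ) : cE4 (𝕢 1 (τ : ℂ)) = E₄ τ :=
  SlashInvariantFormClass.eq_cuspFunction E₄ τ one_mem_strictPeriods_SL one_ne_zero

lemma tay_cE4 : tay cE4 = ModularCurve.eisenstein4.map (Int.castRingHom ℂ) := by
  ext m
  have h := EisensteinSeries.E_qExpansion_coeff (k := 4) (by norm_num) ⟨2, rfl⟩ m
  have hb : bernoulli 4 = -1 / 30 := by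
    rw [bernoulli_eq_bernoulli'_of_ne_one (by norm_num), bernoulli'_four]
  have e : (tay cE4).coeff m = (qExpansion 1 E₄).coeff m := by
    rw [tay_coeff, qExpansion_coeff]; rfl
  rw [e, h, PowerSeries.coeff_map, ModularCurve.eisenstein4, PowerSeries.coeff_mk, hb]
  split_ifs with hm
  · simp
  · rw [ArithmeticFunction.sigma_apply]
    simp only [eq_intCast]
    push_cast
    ring

/-- the function `q ↦ E₄^3 / ∏ (1-q^n)^24 = q · j` on the unit disc -/
def Gj (q : ℂ) : ℂ := cE4 q ^ 3 / eulerG q ^ 24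

lemma Gj_differentiableOn : DifferentiableOn ℂ Gj (ball 0 1) := by
  unfold Gj
  refine DifferentiableOn.div (cE4_differentiableOn.pow 3) (eulerG_differentiableOn.pow 24) ?_
  intro q hq
  exact pow_ne_zero 24 (eulerG_ne_zero (by simpa using hq))

lemma tay_Gj : tay Gj = ModularCurve.jNum.map (Int.castRingHom ℂ) := by
  have hE := jf_analyticAt_zero_of_diffOn cE4_differentiableOn
  have hG := jf_analyticAt_zero_of_diffOn eulerG_differentiableOn
  have hJ := jf_analyticAt_zero_of_diffOn Gj_differentiableOn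
  have h1 : tay (Gj * eulerG ^ 24) = tay (cE4 ^ 3) := by
    apply tay_congr
    filter_upwards [ball_mem_nhds (0 : ℂ) one_pos] with q hq
    simp only [Pi.mul_apply, Pi.pow_apply, Gj]
    exact div_mul_cancel₀ _ (pow_ne_zero 24 (eulerG_ne_zero (by simpa using hq)))
  rw [tay_mul hJ (hG.pow 24), tay_pow hG, tay_pow hE, tay_eulerG, tay_cE4] at h1
  have h2 : ModularCurve.jNum.map (Int.castRingHom ℂ)
      * (ModularCurve.etaProd.map (Int.castRingHom ℂ)) ^ 24
      = (ModularCurve.eisenstein4.map (Int.castRingHom ℂ)) ^ 3 := by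
    rw [← map_pow, ← map_pow, ← map_mul]
    congr 1
    rw [ModularCurve.jNum, mul_assoc]
    have := ModularCurve.dedekindEtaUnit_mul_inv
    rw [ModularCurve.dedekindEtaUnit] at this
    rw [mul_comm ModularCurve.dedekindEtaUnitInv, this, mul_one]
  have hU : (ModularCurve.etaProd.map (Int.castRingHom ℂ)) ^ 24 ≠ 0 := by
    apply pow_ne_zero
    intro h0
    have := congrArg (PowerSeries.constantCoeff (R := ℂ)) h0
    rw [← PowerSeries.coeff_zero_eq_constantCoeff, PowerSeries.coeff_map,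
      PowerSeries.coeff_zero_eq_constantCoeff, ModularCurve.constantCoeff_etaProd] at this
    simp at this
  exact mul_right_cancel₀ hU (h1.trans h2.symm)

lemma jq_raw_mul_q (τ : ℍ) :
    𝕢 1 (τ : ℂ) * (E₄ τ ^ 3 / ModularForm.discriminant τ) = Gj (𝕢 1 (τ : ℂ)) := by
  have hq : 𝕢 1 (τ : ℂ) ≠ 0 := Function.Periodic.qParam_ne_zero _
  have hG : eulerG (𝕢 1 (τ : ℂ)) ^ 24 ≠ 0 := pow_ne_zero 24 (eulerG_ne_zero (jf_norm_q_lt_one τ))
  rw [Gj, jf_disc_eq, cE4_apply]
  field_simp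

/-- **B1**: `q · E₄³/Δ = ∑ c_n qⁿ` where `c` are the coefficients of the Prelude's formal `jNum`
(so `E₄³/Δ` has `q`-expansion the Prelude's `jq = q⁻¹ · jNum`). -/
theorem jq_raw_hasSum (τ : ℍ) :
    HasSum (fun n : ℕ => ((PowerSeries.coeff n ModularCurve.jNum : ℤ) : ℂ) * 𝕢 1 (τ : ℂ) ^ n)
      (𝕢 1 (τ : ℂ) * (E₄ τ ^ 3 / ModularForm.discriminant τ)) := by
  have h := tay_hasSum Gj_differentiableOn (jf_norm_q_lt_one τ)
  rw [← jq_raw_mul_q, tay_Gj] at h
  convert h using 3 with n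
  rw [PowerSeries.coeff_map]
  simp

end Fermat.Agent.MC
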