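/-
T24 [D] (helper4): local expansion systems (`ExpSys`, from `MC_Exp`).

* Cayley coordinate at `τ₀ : ℍ`: `cayInv`, `cayMap`, `cayFun`.
* `taylorSys τ₀ : ExpSys` (holomorphic functions on `ℍ`, Taylor expansion in the Cayley
  coordinate): `taylorSys_mem`, `taylorSys_exp`, `taylorSys_order`, `taylorSys_smul_coeff`,
  `taylorSys_smul`, `cayMult`, `cayMult_one`, `cayMult_S_I`, `cayMult_ST_rho`.
* `cuspSys h : ExpSys` (holomorphic `h`-periodic functions meromorphic at the cusp, Laurent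
  expansion in `w = exp(2πiτ/h)`): `cuspSys_mem`, `cuspSys_of_hasSum`, `cuspSys_T`,
  `cuspSys_bdd`.
-/
import Mathlib
import Fermat.Agent.Lib.MC_JQ
import Fermat.Agent.Lib.MC_Exp

set_option autoImplicit false

noncomputable section

namespace Fermat.Agent.MC

open Complex Filter Metric Set UpperHalfPlane ModularForm MatrixGroups Function
open scoped Real Topology Nat Manifold ComplexConjugate

local notation "𝕢" => Function.Periodic.qParam

/-! ## The Cayley coordinate at a point of the upper half plane -/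

/-- inverse Cayley map at `τ₀`: maps the unit disc onto the upper half plane, `0 ↦ τ₀` -/
def cayInv (τ₀ : ℍ) (w : ℂ) : ℂ := ((τ₀ : ℂ) - conj (τ₀ : ℂ) * w) / (1 - w)

/-- Cayley map at `τ₀` -/
def cayMap (τ₀ : ℍ) (z : ℂ) : ℂ := (z - τ₀) / (z - conj (τ₀ : ℂ))

lemma cay_one_sub_ne {w : ℂ} (hw : ‖w‖ < 1) : (1 : ℂ) - w ≠ 0 := by
  intro h
  have h1 : w = 1 := by linear_combination -h
  rw [h1] at hw
  simp at hw

lemma cayInv_zero (τ₀ : ℍ) : cayInv τ₀ 0 = τ₀ := by simp [cayInv]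

lemma cayInv_im_eq (τ₀ : ℍ) {w : ℂ} (hw : ‖w‖ < 1) :
    (cayInv τ₀ w).im = τ₀.im * (1 - normSq w) / normSq (1 - w) := by
  have h1 := cay_one_sub_ne hw
  have hns : normSq (1 - w) ≠ 0 := (normSq_pos.mpr h1).ne'
  unfold cayInv
  rw [Complex.div_im]
  have e1 : ((τ₀ : ℂ) - conj (τ₀ : ℂ) * w).im = τ₀.im - (τ₀.re * w.im - τ₀.im * w.re) := by
    simp [Complex.sub_im, Complex.mul_im]
    ring
  have e2 : ((τ₀ : ℂ) - conj (τ₀ : ℂ) * w).re = τ₀.re - (τ₀.re * w.re + τ₀.im * w.im) := by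
    simp [Complex.sub_re, Complex.mul_re]
  have e3 : ((1 : ℂ) - w).re = 1 - w.re := by simp
  have e4 : ((1 : ℂ) - w).im = - w.im := by simp
  rw [e1, e2, e3, e4]
  rw [Complex.normSq_apply w]
  field_simp
  ring

lemma cayInv_im (τ₀ : ℍ) {w : ℂ} (hw : ‖w‖ < 1) : 0 < (cayInv τ₀ w).im := by
  have h1 := cay_one_sub_ne hw
  have hns : 0 < normSq (1 - w) := normSq_pos.mpr h1
  have hw2 : normSq w < 1 := by
    rw [Complex.normSq_eq_norm_sq]; nlinarith [norm_nonneg w]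
  rw [cayInv_im_eq τ₀ hw]
  have := τ₀.im_pos
  have h3 : 0 < 1 - normSq w := by linarith
  positivity

lemma cayInv_differentiableAt (τ₀ : ℍ) {w : ℂ} (hw : ‖w‖ < 1) :
    DifferentiableAt ℂ (cayInv τ₀) w := by
  unfold cayInv
  exact ((differentiableAt_const _).sub ((differentiableAt_const _).mul differentiableAt_id)).div
    ((differentiableAt_const _).sub differentiableAt_id) (cay_one_sub_ne hw)

lemma cay_sub_conj_ne (τ₀ : ℍ) : (τ₀ : ℂ) - conj (τ₀ : ℂ) ≠ 0 := by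
  intro h
  have := congrArg Complex.im h
  simp at this
  have := τ₀.im_pos
  linarith

lemma cayInv_hasDerivAt_zero (τ₀ : ℍ) :
    HasDerivAt (cayInv τ₀) ((τ₀ : ℂ) - conj (τ₀ : ℂ)) 0 := by
  have h1 : HasDerivAt (fun w : ℂ => (τ₀ : ℂ) - conj (τ₀ : ℂ) * w) (-conj (τ₀ : ℂ)) 0 := by
    simpa using ((hasDerivAt_id (0 : ℂ)).const_mul (conj (τ₀ : ℂ))).const_sub (τ₀ : ℂ)
  have h2 : HasDerivAt (fun w : ℂ => (1 : ℂ) - w) (-1) 0 := by
    simpa using (hasDerivAt_id (0 : ℂ)).const_sub (1 : ℂ)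
  have h3 := h1.div h2 (by simp)
  have e : ((-conj (τ₀ : ℂ) * (1 - 0) - ((τ₀ : ℂ) - conj (τ₀ : ℂ) * 0) * -1) / (1 - 0) ^ 2)
      = (τ₀ : ℂ) - conj (τ₀ : ℂ) := by
    simp
    ring
  rw [e] at h3
  exact h3

lemma cayInv_analyticAt_zero (τ₀ : ℍ) : AnalyticAt ℂ (cayInv τ₀) 0 := by
  have : DifferentiableOn ℂ (cayInv τ₀) (ball 0 1) := fun w hw =>
    (cayInv_differentiableAt τ₀ (by simpa using hw)).differentiableWithinAt
  exact this.analyticAt (ball_mem_nhds 0 one_pos)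

lemma cayMap_norm_lt (τ₀ τ : ℍ) : ‖cayMap τ₀ (τ : ℂ)‖ < 1 := by
  unfold cayMap
  have hne : (τ : ℂ) - conj (τ₀ : ℂ) ≠ 0 := by
    intro h
    have := congrArg Complex.im h
    simp at this
    have := τ₀.im_pos; have := τ.im_pos
    linarith
  rw [norm_div, div_lt_one (norm_pos_iff.mpr hne)]
  have h0 := τ₀.im_pos
  have h1 := τ.im_pos
  have hsq : ‖(τ : ℂ) - τ₀‖ ^ 2 < ‖(τ : ℂ) - conj (τ₀ : ℂ)‖ ^ 2 := by
    rw [← Complex.normSq_eq_norm_sq, ← Complex.normSq_eq_norm_sq, Complex.normSq_apply,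
      Complex.normSq_apply]
    simp only [Complex.sub_re, Complex.sub_im, Complex.conj_re, Complex.conj_im,
      UpperHalfPlane.coe_re, UpperHalfPlane.coe_im]
    nlinarith
  exact lt_of_pow_lt_pow_left₀ 2 (norm_nonneg _) hsq

lemma cayInv_cayMap (τ₀ τ : ℍ) : cayInv τ₀ (cayMap τ₀ (τ : ℂ)) = τ := by
  have hne : (τ : ℂ) - conj (τ₀ : ℂ) ≠ 0 := by
    intro h
    have := congrArg Complex.im h
    simp at this
    have := τ₀.im_pos; have := τ.im_pos
    linarith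
  have h2 := cay_sub_conj_ne τ₀
  have h3 := cay_one_sub_ne (cayMap_norm_lt τ₀ τ)
  unfold cayInv
  rw [div_eq_iff h3]
  unfold cayMap
  field_simp
  ring

/-- a holomorphic function on `ℍ` in the Cayley coordinate at `τ₀` -/
def cayFun (τ₀ : ℍ) (f : ℍ → ℂ) (w : ℂ) : ℂ := f (ofComplex (cayInv τ₀ w))

lemma cayFun_differentiableOn (τ₀ : ℍ) {f : ℍ → ℂ} (hf : MDiff f) :
    DifferentiableOn ℂ (cayFun τ₀ f) (ball 0 1) := by
  have h1 := UpperHalfPlane.mdifferentiable_iff.mp hf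
  intro w hw
  have hw' : ‖w‖ < 1 := by simpa using hw
  have h2 : DifferentiableAt ℂ (f ∘ ofComplex) (cayInv τ₀ w) :=
    (h1 _ (cayInv_im τ₀ hw')).differentiableAt
      (isOpen_upperHalfPlaneSet.mem_nhds (cayInv_im τ₀ hw'))
  exact (h2.comp w (cayInv_differentiableAt τ₀ hw')).differentiableWithinAt

lemma cayFun_analyticAt (τ₀ : ℍ) {f : ℍ → ℂ} (hf : MDiff f) : AnalyticAt ℂ (cayFun τ₀ f) 0 :=
  (cayFun_differentiableOn τ₀ hf).analyticAt (ball_mem_nhds 0 one_pos)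

lemma cayFun_cayMap (τ₀ : ℍ) (f : ℍ → ℂ) (τ : ℍ) : cayFun τ₀ f (cayMap τ₀ (τ : ℂ)) = f τ := by
  unfold cayFun
  rw [cayInv_cayMap, ofComplex_apply]

lemma cayFun_add (τ₀ : ℍ) (f g : ℍ → ℂ) : cayFun τ₀ (f + g) = cayFun τ₀ f + cayFun τ₀ g := rfl

lemma cayFun_mul (τ₀ : ℍ) (f g : ℍ → ℂ) : cayFun τ₀ (f * g) = cayFun τ₀ f * cayFun τ₀ g := rfl

lemma cayFun_const (τ₀ : ℍ) (c : ℂ) : cayFun τ₀ (fun _ => c) = fun _ => c := rfl

/-! ## More Taylor-series calculus -/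

lemma tay_add {G₁ G₂ : ℂ → ℂ} (h₁ : AnalyticAt ℂ G₁ 0) (h₂ : AnalyticAt ℂ G₂ 0) :
    tay (G₁ + G₂) = tay G₁ + tay G₂ := by
  ext n
  simp only [tay_coeff, map_add, iteratedDeriv_add h₁.contDiffAt h₂.contDiffAt]
  ring

/-- Taylor coefficients of `w ↦ G (ζ w)` for `‖ζ‖ ≤ 1` -/
lemma tay_comp_mul {G : ℂ → ℂ} (hG : DifferentiableOn ℂ G (ball 0 1)) {ζ : ℂ} (hζ : ‖ζ‖ ≤ 1)
    (n : ℕ) : (tay (fun w => G (ζ * w))).coeff n = ζ ^ n * (tay G).coeff n := by
  have hmaps : Set.MapsTo (ζ * ·) (ball (0 : ℂ) 1) (ball (0 : ℂ) 1) := by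
    intro w hw
    simp only [mem_ball_zero_iff] at hw ⊢
    rw [norm_mul]
    calc ‖ζ‖ * ‖w‖ ≤ 1 * ‖w‖ := by gcongr
      _ < 1 := by simpa using hw
  have h0 : (0 : ℂ) ∈ ball (0 : ℂ) 1 := mem_ball_self one_pos
  have hcd : ContDiffOn ℂ n G (ball 0 1) := (hG.contDiffOn isOpen_ball).of_le (by exact le_top)
  have h1 := iteratedDerivWithin_comp_const_smul (n := n) h0 isOpen_ball.uniqueDiffOn hcd ζ hmaps
  rw [iteratedDerivWithin_of_isOpen isOpen_ball h0, mul_zero,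
    iteratedDerivWithin_of_isOpen isOpen_ball h0] at h1
  rw [tay_coeff, tay_coeff, h1, smul_eq_mul]
  ring

/-- uniqueness: a convergent power series expansion on the unit disc is the Taylor series -/
lemma tay_eq_zero_iff {G : ℂ → ℂ} (hG : DifferentiableOn ℂ G (ball 0 1)) :
    tay G = 0 ↔ ∀ q : ℂ, ‖q‖ < 1 → G q = 0 := by
  constructor
  · intro h q hq
    have h2 := tay_hasSum hG hq
    rw [h] at h2
    simp only [map_zero, zero_mul] at h2
    exact h2.unique hasSum_zero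
  · intro h
    have : G =ᶠ[𝓝 0] (fun _ => (0 : ℂ)) := by
      filter_upwards [ball_mem_nhds (0 : ℂ) one_pos] with q hq
      exact h q (by simpa using hq)
    rw [tay_congr this, tay_const]
    simp

/-! ## The Taylor expansion system at `τ₀` -/

/-- the Taylor-expansion system at `τ₀ : ℍ`: holomorphic functions on `ℍ`, expanded in the
Cayley coordinate `w = (τ - τ₀)/(τ - conj τ₀)` -/
def taylorSys (τ₀ : ℍ) : ExpSys where
  mem f := MDiff f
  exp f := HahnSeries.ofPowerSeries ℤ ℂ (tay (cayFun τ₀ f))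
  mem_const c := mdifferentiable_const
  mem_add hf hg := hf.add hg
  mem_mul hf hg := hf.mul hg
  exp_const c := by rw [cayFun_const, tay_const, HahnSeries.ofPowerSeries_C]
  exp_add hf hg := by
    rw [cayFun_add, tay_add (cayFun_analyticAt τ₀ hf) (cayFun_analyticAt τ₀ hg), map_add]
  exp_mul hf hg := by
    rw [cayFun_mul, tay_mul (cayFun_analyticAt τ₀ hf) (cayFun_analyticAt τ₀ hg), map_mul]
  exp_eq_zero := by
    intro f hf h0
    have h1 : tay (cayFun τ₀ f) = 0 := by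
      apply HahnSeries.ofPowerSeries_injective (Γ := ℤ)
      rw [h0, map_zero]
    funext τ
    have h2 := (tay_eq_zero_iff (cayFun_differentiableOn τ₀ hf)).mp h1 _ (cayMap_norm_lt τ₀ τ)
    rw [cayFun_cayMap] at h2
    simpa using h2

theorem taylorSys_mem (τ₀ : ℍ) (f : ℍ → ℂ) : (taylorSys τ₀).mem f ↔ MDiff f := Iff.rfl

theorem taylorSys_exp (τ₀ : ℍ) (f : ℍ → ℂ) :
    (taylorSys τ₀).exp f = HahnSeries.ofPowerSeries ℤ ℂ (tay (cayFun τ₀ f)) := rfl

theorem taylorSys_exp_coeff (τ₀ : ℍ) (f : ℍ → ℂ) (m : ℤ) :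
    ((taylorSys τ₀).exp f).coeff m = if 0 ≤ m then (tay (cayFun τ₀ f)).coeff m.toNat else 0 := by
  rw [taylorSys_exp]
  split_ifs with h
  · lift m to ℕ using h
    rw [HahnSeries.ofPowerSeries_apply_coeff, Int.toNat_natCast]
  · exact ModularCurve.ofPowerSeries_coeff_of_neg _ (not_le.mp h)

/-- the order of `f - a` at `τ₀` is the order of its expansion -/
theorem taylorSys_order (τ₀ : ℍ) {f : ℍ → ℂ} (hf : MDiff f) (a : ℂ) (n : ℕ)
    (hn : analyticOrderAt (fun z : ℂ => f (ofComplex z) - a) (τ₀ : ℂ) = n) :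
    ((taylorSys τ₀).exp f - HahnSeries.C a).order = (n : ℤ) ∧
      (n ≠ 0 → (taylorSys τ₀).exp f - HahnSeries.C a ≠ 0) := by
  set g : ℂ → ℂ := fun z => f (ofComplex z) - a with hg
  have hd : deriv (cayInv τ₀) 0 ≠ 0 := by
    rw [(cayInv_hasDerivAt_zero τ₀).deriv]; exact cay_sub_conj_ne τ₀
  have hcomp : analyticOrderAt (g ∘ cayInv τ₀) 0 = n := by
    rw [analyticOrderAt_comp_of_deriv_ne_zero (cayInv_analyticAt_zero τ₀) hd, cayInv_zero]
    exact hn
  have hGeq : g ∘ cayInv τ₀ = cayFun τ₀ f - fun _ => a := rfl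
  have hGan : AnalyticAt ℂ (g ∘ cayInv τ₀) 0 := by
    rw [hGeq]; exact (cayFun_analyticAt τ₀ hf).sub analyticAt_const
  obtain ⟨g₁, hg₁an, hg₁0, hg₁⟩ := (hGan.analyticOrderAt_eq_natCast).mp hcomp
  have htay : tay (cayFun τ₀ f) - PowerSeries.C a = PowerSeries.X ^ n * tay g₁ := by
    rw [← tay_const a, ← tay_sub (cayFun_analyticAt τ₀ hf) analyticAt_const]
    have : (cayFun τ₀ f - fun _ => a) =ᶠ[𝓝 0] ((fun q : ℂ => q) ^ n * g₁) := by
      filter_upwards [hg₁] with z hz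
      rw [← hGeq, hz]
      simp
    have hid : AnalyticAt ℂ (fun q : ℂ => q) 0 := analyticAt_id
    rw [tay_congr this, tay_mul (hid.pow n) hg₁an, tay_pow hid, tay_id]
  have hexp : (taylorSys τ₀).exp f - HahnSeries.C a
      = HahnSeries.single (n : ℤ) (1 : ℂ) * HahnSeries.ofPowerSeries ℤ ℂ (tay g₁) := by
    rw [taylorSys_exp, ← HahnSeries.ofPowerSeries_C, ← map_sub, htay, map_mul,
      HahnSeries.ofPowerSeries_X_pow]
  have hc0 : (HahnSeries.ofPowerSeries ℤ ℂ (tay g₁)).coeff 0 ≠ 0 := by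
    have := HahnSeries.ofPowerSeries_apply_coeff (Γ := ℤ) (tay g₁) 0
    simp only [Nat.cast_zero] at this
    rw [this, tay_coeff]
    simpa using hg₁0
  have hne1 : HahnSeries.ofPowerSeries ℤ ℂ (tay g₁) ≠ 0 := by
    intro h; rw [h] at hc0; simp at hc0
  have hord1 : (HahnSeries.ofPowerSeries ℤ ℂ (tay g₁)).order = 0 := by
    apply le_antisymm (HahnSeries.order_le_of_coeff_ne_zero hc0)
    rw [HahnSeries.le_order_iff_forall hne1]
    intro j hj
    exact ModularCurve.ofPowerSeries_coeff_of_neg _ hj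
  have hs : HahnSeries.single (n : ℤ) (1 : ℂ) ≠ 0 := by simp
  rw [hexp]
  refine ⟨?_, fun _ => mul_ne_zero hs hne1⟩
  rw [HahnSeries.order_mul hs hne1, HahnSeries.order_single one_ne_zero, hord1, add_zero]

/-! ## Substitution `τ ↦ γ τ` for `γ` fixing `τ₀` -/

/-- the multiplier of `γ` (fixing `τ₀`) in the Cayley coordinate at `τ₀`: `w ∘ γ = ζ · w` -/
def cayMult (γ : SL(2, ℤ)) (τ₀ : ℍ) : ℂ := conj (denom γ τ₀) / denom γ τ₀

lemma cayMult_norm (γ : SL(2, ℤ)) (τ₀ : ℍ) : ‖cayMult γ τ₀‖ = 1 := by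
  unfold cayMult
  rw [norm_div, RCLike.norm_conj, div_self]
  exact norm_ne_zero_iff.mpr (denom_ne_zero γ τ₀)

lemma cayMult_one (τ₀ : ℍ) : cayMult 1 τ₀ = 1 := by
  simp [cayMult]

/-- the action of `γ` in the Cayley coordinate at a fixed point `τ₀` is `w ↦ ζ w` -/
lemma smul_cayInv (τ₀ : ℍ) (γ : SL(2, ℤ)) (hγ : γ • τ₀ = τ₀) {w : ℂ} (hw : ‖w‖ < 1) :
    γ • ofComplex (cayInv τ₀ w) = ofComplex (cayInv τ₀ (cayMult γ τ₀ * w)) := by
  have hζw : ‖cayMult γ τ₀ * w‖ < 1 := by rw [norm_mul, cayMult_norm, one_mul]; exact hw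
  rw [ofComplex_apply_of_im_pos (cayInv_im τ₀ hw), ofComplex_apply_of_im_pos (cayInv_im τ₀ hζw)]
  apply UpperHalfPlane.ext
  rw [coe_specialLinearGroup_apply]
  simp only
  set a : ℂ := ((algebraMap ℤ ℝ (γ 0 0) : ℝ) : ℂ) with ha
  set b : ℂ := ((algebraMap ℤ ℝ (γ 0 1) : ℝ) : ℂ) with hb
  set c : ℂ := ((algebraMap ℤ ℝ (γ 1 0) : ℝ) : ℂ) with hc
  set d : ℂ := ((algebraMap ℤ ℝ (γ 1 1) : ℝ) : ℂ) with hd
  have hD : denom γ τ₀ = c * τ₀ + d := by
    rw [ModularGroup.denom_apply]; simp [hc, hd]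
  have hDne : c * (τ₀ : ℂ) + d ≠ 0 := hD ▸ denom_ne_zero γ τ₀
  have hconjD : conj (c * (τ₀ : ℂ) + d) = c * conj (τ₀ : ℂ) + d := by
    simp [hc, hd]
  have hfix : a * (τ₀ : ℂ) + b = τ₀ * (c * τ₀ + d) := by
    have h1 := congrArg (fun z : ℍ => (z : ℂ)) hγ
    simp only [coe_specialLinearGroup_apply] at h1
    rw [div_eq_iff hDne] at h1
    exact h1
  have hfix' : a * conj (τ₀ : ℂ) + b = conj (τ₀ : ℂ) * (c * conj (τ₀ : ℂ) + d) := by
    have h1 := congrArg conj hfix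
    simpa [ha, hb, hc, hd] using h1
  have h1w := cay_one_sub_ne hw
  have h1ζ := cay_one_sub_ne hζw
  have hζ : cayMult γ τ₀ = (c * conj (τ₀ : ℂ) + d) / (c * τ₀ + d) := by
    unfold cayMult; rw [hD, hconjD]
  have hden : c * cayInv τ₀ w + d ≠ 0 := by
    have := denom_ne_zero γ (⟨cayInv τ₀ w, cayInv_im τ₀ hw⟩ : ℍ)
    rw [ModularGroup.denom_apply] at this
    simpa [hc, hd] using this
  rw [div_eq_iff hden]
  have e1 : cayInv τ₀ (cayMult γ τ₀ * w) * (1 - cayMult γ τ₀ * w)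
      = (τ₀ : ℂ) - conj (τ₀ : ℂ) * (cayMult γ τ₀ * w) := by
    unfold cayInv; field_simp
  have e2 : cayInv τ₀ w * (1 - w) = (τ₀ : ℂ) - conj (τ₀ : ℂ) * w := by
    unfold cayInv; field_simp
  have e3 : cayMult γ τ₀ * (c * τ₀ + d) = c * conj (τ₀ : ℂ) + d := by
    rw [hζ]; field_simp
  -- clear denominators
  have key : (a * cayInv τ₀ w + b) * ((1 - w) * (1 - cayMult γ τ₀ * w) * (c * τ₀ + d))
      = cayInv τ₀ (cayMult γ τ₀ * w) * (c * cayInv τ₀ w + d)
        * ((1 - w) * (1 - cayMult γ τ₀ * w) * (c * τ₀ + d)) := by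
    have l1 : (a * cayInv τ₀ w + b) * (1 - w) = (a * τ₀ + b) - (a * conj (τ₀ : ℂ) + b) * w := by
      linear_combination a * e2
    have l2 : (c * cayInv τ₀ w + d) * (1 - w)
        = (c * τ₀ + d) - (c * conj (τ₀ : ℂ) + d) * w := by
      linear_combination c * e2
    have l3 : (1 - cayMult γ τ₀ * w) * (c * τ₀ + d)
        = (c * τ₀ + d) - (c * conj (τ₀ : ℂ) + d) * w := by
      linear_combination (-w) * e3
    have l4 : cayInv τ₀ (cayMult γ τ₀ * w) * ((1 - cayMult γ τ₀ * w) * (c * τ₀ + d))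
        = τ₀ * (c * τ₀ + d) - conj (τ₀ : ℂ) * (c * conj (τ₀ : ℂ) + d) * w := by
      linear_combination (c * τ₀ + d) * e1 - conj (τ₀ : ℂ) * w * e3
    calc (a * cayInv τ₀ w + b) * ((1 - w) * (1 - cayMult γ τ₀ * w) * (c * τ₀ + d))
        = ((a * cayInv τ₀ w + b) * (1 - w)) * ((1 - cayMult γ τ₀ * w) * (c * τ₀ + d)) := by ring
      _ = ((a * τ₀ + b) - (a * conj (τ₀ : ℂ) + b) * w)
            * ((c * τ₀ + d) - (c * conj (τ₀ : ℂ) + d) * w) := by rw [l1, l3]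
      _ = (τ₀ * (c * τ₀ + d) - conj (τ₀ : ℂ) * (c * conj (τ₀ : ℂ) + d) * w)
            * ((c * τ₀ + d) - (c * conj (τ₀ : ℂ) + d) * w) := by rw [hfix, hfix']
      _ = (cayInv τ₀ (cayMult γ τ₀ * w) * ((1 - cayMult γ τ₀ * w) * (c * τ₀ + d)))
            * ((c * cayInv τ₀ w + d) * (1 - w)) := by rw [l4, l2]
      _ = _ := by ring
  exact mul_right_cancel₀ (mul_ne_zero (mul_ne_zero h1w h1ζ) hDne) key

lemma cayFun_smul (τ₀ : ℍ) (γ : SL(2, ℤ)) (hγ : γ • τ₀ = τ₀) (f : ℍ → ℂ) {w : ℂ} (hw : ‖w‖ < 1) :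
    cayFun τ₀ (fun τ => f (γ • τ)) w = cayFun τ₀ f (cayMult γ τ₀ * w) := by
  show f (γ • ofComplex (cayInv τ₀ w)) = f (ofComplex (cayInv τ₀ (cayMult γ τ₀ * w)))
  rw [smul_cayInv τ₀ γ hγ hw]

theorem taylorSys_smul_coeff (τ₀ : ℍ) (γ : SL(2, ℤ)) (hγ : γ • τ₀ = τ₀) {f : ℍ → ℂ}
    (hf : MDiff f) (m : ℤ) :
    ((taylorSys τ₀).exp (fun τ => f (γ • τ))).coeff m
      = cayMult γ τ₀ ^ m * ((taylorSys τ₀).exp f).coeff m := by
  rw [taylorSys_exp_coeff, taylorSys_exp_coeff]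
  split_ifs with h
  · lift m to ℕ using h
    have : cayFun τ₀ (fun τ => f (γ • τ)) =ᶠ[𝓝 0] fun w => cayFun τ₀ f (cayMult γ τ₀ * w) := by
      filter_upwards [ball_mem_nhds (0 : ℂ) one_pos] with w hw
      exact cayFun_smul τ₀ γ hγ f (by simpa using hw)
    rw [tay_congr this, Int.toNat_natCast,
      tay_comp_mul (cayFun_differentiableOn τ₀ hf) (cayMult_norm γ τ₀).le, zpow_natCast]
  · simp

/-- the substitution rule: for `γ` fixing `τ₀`, `f ↦ f ∘ γ` acts on expansions by `w ↦ ζ w` -/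
theorem taylorSys_smul (τ₀ : ℍ) (γ : SL(2, ℤ)) (hγ : γ • τ₀ = τ₀) :
    ∃ ζ : ℂ, ∀ f : ℍ → ℂ, MDiff f → ∀ m : ℤ,
      ((taylorSys τ₀).exp (fun τ => f (γ • τ))).coeff m = ζ ^ m * ((taylorSys τ₀).exp f).coeff m :=
  ⟨cayMult γ τ₀, fun _ hf m => taylorSys_smul_coeff τ₀ γ hγ hf m⟩

theorem cayMult_S_I : cayMult ModularGroup.S UpperHalfPlane.I = -1 := by
  unfold cayMult
  rw [ModularGroup.denom_S]
  have : ((UpperHalfPlane.I : ℍ) : ℂ) = Complex.I := rfl
  rw [this, Complex.conj_I, neg_div, div_self Complex.I_ne_zero]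

theorem cayMult_ST_rho_eq :
    cayMult (ModularGroup.S * ModularGroup.T) ellRho = ⟨-1 / 2, -(Real.sqrt 3 / 2)⟩ := by
  unfold cayMult
  rw [mcj_denom_ST, mcj_rho_coe]
  have h3 : Real.sqrt 3 * Real.sqrt 3 = 3 := Real.mul_self_sqrt (by norm_num)
  have hne : ((⟨-1 / 2, Real.sqrt 3 / 2⟩ : ℂ) + 1) ≠ 0 := by
    intro h
    have := congrArg Complex.re h
    simp at this
    norm_num at this
  rw [div_eq_iff hne]
  apply Complex.ext
  · simp
    nlinarith
  · simp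
    ring

theorem cayMult_ST_rho : IsPrimitiveRoot (cayMult (ModularGroup.S * ModularGroup.T) ellRho) 3 := by
  rw [cayMult_ST_rho_eq]
  have h3 : Real.sqrt 3 * Real.sqrt 3 = 3 := Real.mul_self_sqrt (by norm_num)
  set ζ : ℂ := ⟨-1 / 2, -(Real.sqrt 3 / 2)⟩ with hζ
  have hq : ζ ^ 2 + ζ + 1 = 0 := by
    apply Complex.ext
    · simp [hζ, pow_two]
      nlinarith
    · simp [hζ, pow_two]
      ring
  have h1 : ζ ^ 3 = 1 := by linear_combination (ζ - 1) * hq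
  refine IsPrimitiveRoot.mk_of_lt ζ (by norm_num) h1 ?_
  intro l hl0 hl3
  interval_cases l
  · intro h
    rw [pow_one] at h
    rw [h] at hq
    norm_num at hq
  · intro h
    have h2 : ζ = -2 := by linear_combination hq - h
    rw [h2] at h
    norm_num at h

/-! ## Expansion at the cusp `∞` in the parameter `w = exp(2πiτ/h)` -/

/-- the local parameter at `∞` for width `h` -/
def cuspW (h : ℕ) (τ : ℍ) : ℂ := Complex.exp (2 * π * Complex.I * τ / h)

lemma cuspW_eq (h : ℕ) (τ : ℍ) : cuspW h τ = 𝕢 (h : ℝ) (τ : ℂ) := by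
  simp [cuspW, Function.Periodic.qParam]

lemma cusp_hpos (h : ℕ) [NeZero h] : (0 : ℝ) < (h : ℝ) :=
  Nat.cast_pos.mpr (NeZero.pos h)

lemma cuspW_ne_zero (h : ℕ) (τ : ℍ) : cuspW h τ ≠ 0 := Complex.exp_ne_zero _

lemma cuspW_norm_lt_one (h : ℕ) [NeZero h] (τ : ℍ) : ‖cuspW h τ‖ < 1 := by
  rw [cuspW_eq]; exact Function.Periodic.norm_qParam_lt_one (cusp_hpos h) τ.im_pos

lemma qParam_add_period {h : ℝ} (hh : h ≠ 0) (z : ℂ) : 𝕢 h (z + h) = 𝕢 h z := by
  unfold Function.Periodic.qParam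
  have hc : (h : ℂ) ≠ 0 := by exact_mod_cast hh
  have : 2 * π * Complex.I * (z + h) / h = 2 * π * Complex.I * z / h + 2 * π * Complex.I := by
    field_simp
  rw [this, Complex.exp_add, Complex.exp_two_pi_mul_I, mul_one]

lemma cuspW_vadd (h : ℕ) [NeZero h] (τ : ℍ) : cuspW h ((h : ℝ) +ᵥ τ) = cuspW h τ := by
  rw [cuspW_eq, cuspW_eq, UpperHalfPlane.coe_vadd, add_comm]
  exact qParam_add_period (cusp_hpos h).ne' _

/-- periodicity on `ℍ` gives periodicity of the extension by `ofComplex` -/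
lemma periodic_comp_ofComplex_of_vadd {f : ℍ → ℂ} {h : ℝ} (hf : ∀ τ : ℍ, f (h +ᵥ τ) = f τ) :
    Periodic (f ∘ ofComplex) h := by
  intro w
  by_cases hw : 0 < im w
  · have hw' : 0 < im (w + h) := by simp [hw]
    simp only [comp_apply, ofComplex_apply_of_im_pos hw', ofComplex_apply_of_im_pos hw]
    rw [← hf ⟨w, hw⟩]
    congr 1
    ext
    simp [add_comm]
  · have hw0 : im w ≤ 0 := not_lt.mp hw
    have hw' : im (w + h) ≤ 0 := by simpa using hw0
    simp [ofComplex_apply_of_im_nonpos hw', ofComplex_apply_of_im_nonpos hw0]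

lemma vadd_of_periodic_comp_ofComplex {f : ℍ → ℂ} {h : ℝ} (hf : Periodic (f ∘ ofComplex) h)
    (τ : ℍ) : f (h +ᵥ τ) = f τ := by
  have h1 := hf (τ : ℂ)
  simp only [comp_apply, ofComplex_apply] at h1
  rw [← h1]
  congr 1
  have : ((τ : ℂ) + h) = ((h +ᵥ τ : ℍ) : ℂ) := by simp [add_comm]
  rw [this, ofComplex_apply]

lemma cuspW_mdiff (h : ℕ) : MDiff (cuspW h) := by
  rw [UpperHalfPlane.mdifferentiable_iff]
  have h1 : DifferentiableOn ℂ (𝕢 (h : ℝ)) {z | 0 < z.im} :=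
    (Function.Periodic.differentiable_qParam (h := (h : ℝ))).differentiableOn
  refine h1.congr fun z hz => ?_
  simp only [comp_apply, cuspW_eq, ofComplex_apply_of_im_pos hz]

lemma cuspW_tendsto (h : ℕ) [NeZero h] : Tendsto (cuspW h) atImInfty (𝓝 0) := by
  have := UpperHalfPlane.qParam_tendsto_atImInfty (cusp_hpos h)
  refine this.congr fun τ => ?_
  rw [cuspW_eq]

lemma cuspW_bdd (h : ℕ) [NeZero h] : IsBoundedAtImInfty (cuspW h) :=
  (cuspW_tendsto h).isBigO_one ℝ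

lemma cuspW_pow_bdd (h : ℕ) [NeZero h] (m : ℕ) : IsBoundedAtImInfty (fun τ => cuspW h τ ^ m) := by
  have : Tendsto (fun τ => cuspW h τ ^ m) atImInfty (𝓝 (0 ^ m)) := (cuspW_tendsto h).pow m
  exact this.isBigO_one ℝ

/-- "regular at the cusp": holomorphic, `h`-periodic, bounded at `i∞` -/
structure CuspReg (h : ℕ) (g : ℍ → ℂ) : Prop where
  mdiff : MDiff g
  per : ∀ τ : ℍ, g ((h : ℝ) +ᵥ τ) = g τ
  bdd : IsBoundedAtImInfty g

namespace CuspReg

variable {h : ℕ} {g g' : ℍ → ℂ}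

lemma periodic (hg : CuspReg h g) : Periodic (g ∘ ofComplex) (h : ℝ) :=
  periodic_comp_ofComplex_of_vadd hg.per

lemma analyticAt [NeZero h] (hg : CuspReg h g) : AnalyticAt ℂ (cuspFunction (h : ℝ) g) 0 :=
  analyticAt_cuspFunction_zero (cusp_hpos h) hg.periodic hg.mdiff hg.bdd

lemma add (hg : CuspReg h g) (hg' : CuspReg h g') : CuspReg h (g + g') :=
  ⟨hg.mdiff.add hg'.mdiff, fun τ => by simp [hg.per τ, hg'.per τ], hg.bdd.add hg'.bdd⟩

lemma mul (hg : CuspReg h g) (hg' : CuspReg h g') : CuspReg h (g * g') :=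
  ⟨hg.mdiff.mul hg'.mdiff, fun τ => by simp [hg.per τ, hg'.per τ], hg.bdd.mul hg'.bdd⟩

lemma const (c : ℂ) : CuspReg h (fun _ => c) :=
  ⟨mdifferentiable_const, fun _ => rfl, Filter.const_boundedAtFilter _ c⟩

lemma cuspW [NeZero h] : CuspReg h (cuspW h) := ⟨cuspW_mdiff h, cuspW_vadd h, cuspW_bdd h⟩

lemma cuspW_pow [NeZero h] (m : ℕ) : CuspReg h (fun τ => Fermat.Agent.MC.cuspW h τ ^ m) := by
  induction m with
  | zero => simpa using const (h := h) 1
  | succ m ih =>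
    have e : (fun τ => Fermat.Agent.MC.cuspW h τ ^ (m + 1))
        = (fun τ => Fermat.Agent.MC.cuspW h τ ^ m) * Fermat.Agent.MC.cuspW h := by
      funext τ; simp [pow_succ]
    rw [e]; exact ih.mul cuspW

end CuspReg

namespace CuspReg

variable {h : ℕ} [NeZero h] {g g' : ℍ → ℂ}

lemma qExp_add (hg : CuspReg h g) (hg' : CuspReg h g') :
    qExpansion (h : ℝ) (g + g') = qExpansion (h : ℝ) g + qExpansion (h : ℝ) g' :=
  qExpansion_add hg.analyticAt hg'.analyticAt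

lemma qExp_mul (hg : CuspReg h g) (hg' : CuspReg h g') :
    qExpansion (h : ℝ) (g * g') = qExpansion (h : ℝ) g * qExpansion (h : ℝ) g' :=
  qExpansion_mul hg.analyticAt hg'.analyticAt

lemma qExp_hasSum (hg : CuspReg h g) (τ : ℍ) :
    HasSum (fun n : ℕ => (qExpansion (h : ℝ) g).coeff n * Fermat.Agent.MC.cuspW h τ ^ n) (g τ) := by
  have := hasSum_qExpansion (cusp_hpos h) hg.periodic hg.mdiff hg.bdd τ
  simpa [cuspW_eq, smul_eq_mul] using this

lemma qExp_unique (hg : CuspReg h g) {c : ℕ → ℂ}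
    (hs : ∀ τ : ℍ, HasSum (fun n : ℕ => c n * Fermat.Agent.MC.cuspW h τ ^ n) (g τ)) (n : ℕ) :
    (qExpansion (h : ℝ) g).coeff n = c n := by
  have hs' : ∀ τ : ℍ, HasSum (fun n : ℕ => c n • 𝕢 (h : ℝ) τ ^ n) (g τ) := by
    intro τ
    simpa [cuspW_eq, smul_eq_mul] using hs τ
  have h1 := (hasFPowerSeriesOnBall_cuspFunction (cusp_hpos h) hg.analyticAt hs').hasFPowerSeriesAt
  have h2 := hg.analyticAt.hasFPowerSeriesAt
  have h3 := h1.eq_formalMultilinearSeries h2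
  rw [FormalMultilinearSeries.ofScalars_series_eq_iff] at h3
  rw [qExpansion_coeff, h3]
  field_simp

lemma qExp_eq_zero (hg : CuspReg h g) (h0 : qExpansion (h : ℝ) g = 0) : g = 0 :=
  (qExpansion_eq_zero_iff (cusp_hpos h) hg.periodic hg.mdiff hg.bdd).mp h0

end CuspReg

section

variable {h : ℕ} [NeZero h]

lemma cusp_qExp_const (c : ℂ) : qExpansion (h : ℝ) (fun _ : ℍ => c) = PowerSeries.C c := by
  ext n
  rw [(CuspReg.const (h := h) c).qExp_unique (c := fun n => if n = 0 then c else 0) ?_ n,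
    PowerSeries.coeff_C]
  intro τ
  have e : (fun n : ℕ => (if n = 0 then c else 0) * cuspW h τ ^ n)
      = fun n : ℕ => if n = 0 then c else 0 := by
    funext n; split_ifs with hn
    · subst hn; simp
    · simp
  rw [e]; exact hasSum_ite_eq 0 c

lemma cusp_qExp_W : qExpansion (h : ℝ) (cuspW h) = PowerSeries.X := by
  ext n
  rw [(CuspReg.cuspW (h := h)).qExp_unique (c := fun n => if n = 1 then 1 else 0) ?_ n,
    PowerSeries.coeff_X]
  intro τ
  have e : (fun n : ℕ => (if n = 1 then (1 : ℂ) else 0) * cuspW h τ ^ n)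
      = fun n : ℕ => if n = 1 then cuspW h τ else 0 := by
    funext n; split_ifs with hn
    · subst hn; simp
    · simp
  rw [e]; exact hasSum_ite_eq 1 (cuspW h τ)

end

section

variable {h : ℕ} [NeZero h]

/-- the Laurent series `w^(-m) · (q-expansion of w^m f)` -/
def cuspLaurent (h : ℕ) (m : ℕ) (f : ℍ → ℂ) : LaurentSeries ℂ :=
  HahnSeries.single (-(m : ℤ)) (1 : ℂ) *
    HahnSeries.ofPowerSeries ℤ ℂ (qExpansion (h : ℝ) (fun τ => cuspW h τ ^ m * f τ))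

lemma cuspReg_of {f : ℍ → ℂ} (hf : MDiff f) (hper : ∀ τ : ℍ, f ((h : ℝ) +ᵥ τ) = f τ) {m : ℕ}
    (hb : IsBoundedAtImInfty (fun τ => cuspW h τ ^ m * f τ)) :
    CuspReg h (fun τ => cuspW h τ ^ m * f τ) :=
  ⟨(CuspReg.cuspW_pow (h := h) m).mdiff.mul hf, fun τ => by rw [cuspW_vadd, hper], hb⟩

lemma cuspReg_succ {f : ℍ → ℂ} {m : ℕ} (hg : CuspReg h (fun τ => cuspW h τ ^ m * f τ)) :
    CuspReg h (fun τ => cuspW h τ ^ (m + 1) * f τ) := by
  have e : (fun τ => cuspW h τ ^ (m + 1) * f τ) = cuspW h * (fun τ => cuspW h τ ^ m * f τ) := by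
    funext τ
    show cuspW h τ ^ (m + 1) * f τ = cuspW h τ * (cuspW h τ ^ m * f τ)
    ring
  rw [e]; exact CuspReg.cuspW.mul hg

lemma cuspLaurent_succ {f : ℍ → ℂ} {m : ℕ} (hg : CuspReg h (fun τ => cuspW h τ ^ m * f τ)) :
    cuspLaurent h (m + 1) f = cuspLaurent h m f := by
  have e : (fun τ => cuspW h τ ^ (m + 1) * f τ) = cuspW h * (fun τ => cuspW h τ ^ m * f τ) := by
    funext τ
    show cuspW h τ ^ (m + 1) * f τ = cuspW h τ * (cuspW h τ ^ m * f τ)
    ring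
  unfold cuspLaurent
  rw [e, CuspReg.cuspW.qExp_mul hg, cusp_qExp_W, map_mul, HahnSeries.ofPowerSeries_X, ← mul_assoc,
    HahnSeries.single_mul_single, one_mul]
  have e2 : (-((m + 1 : ℕ) : ℤ) + 1) = -(m : ℤ) := by push_cast; ring
  rw [e2]

lemma cuspLaurent_of_le {f : ℍ → ℂ} {m : ℕ} (hg : CuspReg h (fun τ => cuspW h τ ^ m * f τ))
    {m' : ℕ} (hm : m ≤ m') :
    CuspReg h (fun τ => cuspW h τ ^ m' * f τ) ∧ cuspLaurent h m' f = cuspLaurent h m f := by
  induction m', hm using Nat.le_induction with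
  | base => exact ⟨hg, rfl⟩
  | succ k _ ih => exact ⟨cuspReg_succ ih.1, (cuspLaurent_succ ih.1).trans ih.2⟩

/-- membership in the expansion system at `∞`: holomorphic, `h`-periodic, meromorphic at `∞` -/
def CuspMem (h : ℕ) (f : ℍ → ℂ) : Prop :=
  MDiff f ∧ (∀ τ : ℍ, f ((h : ℝ) +ᵥ τ) = f τ) ∧
    ∃ m : ℕ, IsBoundedAtImInfty (fun τ => cuspW h τ ^ m * f τ)

open Classical in
/-- the Laurent expansion in `w` at `∞` -/
def cuspExp (h : ℕ) (f : ℍ → ℂ) : LaurentSeries ℂ :=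
  if hf : ∃ m : ℕ, IsBoundedAtImInfty (fun τ => cuspW h τ ^ m * f τ) then
    cuspLaurent h (Nat.find hf) f else 0

lemma cuspExp_eq {f : ℍ → ℂ} (hf : MDiff f) (hper : ∀ τ : ℍ, f ((h : ℝ) +ᵥ τ) = f τ) {m : ℕ}
    (hb : IsBoundedAtImInfty (fun τ => cuspW h τ ^ m * f τ)) :
    cuspExp h f = cuspLaurent h m f := by
  classical
  have hex : ∃ m : ℕ, IsBoundedAtImInfty (fun τ => cuspW h τ ^ m * f τ) := ⟨m, hb⟩
  unfold cuspExp
  rw [dif_pos hex]
  exact (cuspLaurent_of_le (cuspReg_of hf hper (Nat.find_spec hex)) (Nat.find_min' hex hb)).2.symm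

lemma cuspBdd_of_le {f : ℍ → ℂ} (hf : MDiff f) (hper : ∀ τ : ℍ, f ((h : ℝ) +ᵥ τ) = f τ) {m : ℕ}
    (hb : IsBoundedAtImInfty (fun τ => cuspW h τ ^ m * f τ)) {m' : ℕ} (hm : m ≤ m') :
    IsBoundedAtImInfty (fun τ => cuspW h τ ^ m' * f τ) :=
  (cuspLaurent_of_le (cuspReg_of hf hper hb) hm).1.bdd

lemma cuspLaurent_add {f g : ℍ → ℂ} {m : ℕ} (hf : CuspReg h (fun τ => cuspW h τ ^ m * f τ))
    (hg : CuspReg h (fun τ => cuspW h τ ^ m * g τ)) :
    cuspLaurent h m (f + g) = cuspLaurent h m f + cuspLaurent h m g := by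
  have e : (fun τ => cuspW h τ ^ m * (f + g) τ)
      = (fun τ => cuspW h τ ^ m * f τ) + (fun τ => cuspW h τ ^ m * g τ) := by
    funext τ; simp [mul_add]
  unfold cuspLaurent
  rw [e, hf.qExp_add hg, map_add, mul_add]

lemma cuspLaurent_mul {f g : ℍ → ℂ} {m n : ℕ} (hf : CuspReg h (fun τ => cuspW h τ ^ m * f τ))
    (hg : CuspReg h (fun τ => cuspW h τ ^ n * g τ)) :
    cuspLaurent h (m + n) (f * g) = cuspLaurent h m f * cuspLaurent h n g := by
  have e : (fun τ => cuspW h τ ^ (m + n) * (f * g) τ)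
      = (fun τ => cuspW h τ ^ m * f τ) * (fun τ => cuspW h τ ^ n * g τ) := by
    funext τ
    show cuspW h τ ^ (m + n) * (f τ * g τ) = (cuspW h τ ^ m * f τ) * (cuspW h τ ^ n * g τ)
    ring
  unfold cuspLaurent
  rw [e, hf.qExp_mul hg, map_mul]
  have : HahnSeries.single (-((m + n : ℕ) : ℤ)) (1 : ℂ)
      = HahnSeries.single (-(m : ℤ)) (1 : ℂ) * HahnSeries.single (-(n : ℤ)) (1 : ℂ) := by
    have e2 : -((m + n : ℕ) : ℤ) = -(m : ℤ) + -(n : ℤ) := by push_cast; ring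
    rw [HahnSeries.single_mul_single, one_mul, e2]
  rw [this]; ring

lemma cuspLaurent_eq_zero {f : ℍ → ℂ} {m : ℕ} (hf : CuspReg h (fun τ => cuspW h τ ^ m * f τ))
    (h0 : cuspLaurent h m f = 0) : f = 0 := by
  unfold cuspLaurent at h0
  have hs : HahnSeries.single (-(m : ℤ)) (1 : ℂ) ≠ 0 := by simp
  have h1 := (mul_eq_zero.mp h0).resolve_left hs
  have h2 : qExpansion (h : ℝ) (fun τ => cuspW h τ ^ m * f τ) = 0 := by
    apply HahnSeries.ofPowerSeries_injective (Γ := ℤ)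
    rw [h1, map_zero]
  have h3 := hf.qExp_eq_zero h2
  funext τ
  have h4 := congrFun h3 τ
  simp only [Pi.zero_apply, mul_eq_zero] at h4
  exact h4.resolve_left (pow_ne_zero _ (cuspW_ne_zero h τ))

/-- the expansion system at the cusp `∞` of width `h` -/
def cuspSys (h : ℕ) [NeZero h] : ExpSys where
  mem := CuspMem h
  exp := cuspExp h
  mem_const c := ⟨mdifferentiable_const, fun _ => rfl, 0, by
    simpa using (CuspReg.const (h := h) c).bdd⟩
  mem_add := by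
    rintro f g ⟨hf, hfp, m, hfb⟩ ⟨hg, hgp, n, hgb⟩
    refine ⟨hf.add hg, fun τ => by simp [hfp τ, hgp τ], m + n, ?_⟩
    have h1 := cuspBdd_of_le hf hfp hfb (Nat.le_add_right m n)
    have h2 := cuspBdd_of_le hg hgp hgb (Nat.le_add_left n m)
    have e : (fun τ => cuspW h τ ^ (m + n) * (f + g) τ)
        = (fun τ => cuspW h τ ^ (m + n) * f τ) + (fun τ => cuspW h τ ^ (m + n) * g τ) := by
      funext τ; simp [mul_add]
    rw [e]; exact h1.add h2
  mem_mul := by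
    rintro f g ⟨hf, hfp, m, hfb⟩ ⟨hg, hgp, n, hgb⟩
    refine ⟨hf.mul hg, fun τ => by simp [hfp τ, hgp τ], m + n, ?_⟩
    have e : (fun τ => cuspW h τ ^ (m + n) * (f * g) τ)
        = (fun τ => cuspW h τ ^ m * f τ) * (fun τ => cuspW h τ ^ n * g τ) := by
      funext τ
      show cuspW h τ ^ (m + n) * (f τ * g τ) = (cuspW h τ ^ m * f τ) * (cuspW h τ ^ n * g τ)
      ring
    rw [e]; exact hfb.mul hgb
  exp_const c := by
    have hb : IsBoundedAtImInfty (fun τ => cuspW h τ ^ 0 * (fun _ : ℍ => c) τ) := by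
      simpa using (CuspReg.const (h := h) c).bdd
    rw [cuspExp_eq mdifferentiable_const (fun _ => rfl) hb]
    unfold cuspLaurent
    have e : (fun τ => cuspW h τ ^ 0 * (fun _ : ℍ => c) τ) = fun _ : ℍ => c := by
      funext τ; simp
    rw [e, cusp_qExp_const, HahnSeries.ofPowerSeries_C]
    simp
  exp_add := by
    rintro f g ⟨hf, hfp, m, hfb⟩ ⟨hg, hgp, n, hgb⟩
    have h1 := cuspBdd_of_le hf hfp hfb (Nat.le_add_right m n)
    have h2 := cuspBdd_of_le hg hgp hgb (Nat.le_add_left n m)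
    have r1 := cuspReg_of hf hfp h1
    have r2 := cuspReg_of hg hgp h2
    have e : (fun τ => cuspW h τ ^ (m + n) * (f + g) τ)
        = (fun τ => cuspW h τ ^ (m + n) * f τ) + (fun τ => cuspW h τ ^ (m + n) * g τ) := by
      funext τ; simp [mul_add]
    have h3 : IsBoundedAtImInfty (fun τ => cuspW h τ ^ (m + n) * (f + g) τ) := by
      rw [e]; exact h1.add h2
    rw [cuspExp_eq (hf.add hg) (fun τ => by simp [hfp τ, hgp τ]) h3, cuspExp_eq hf hfp h1,
      cuspExp_eq hg hgp h2, cuspLaurent_add r1 r2]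
  exp_mul := by
    rintro f g ⟨hf, hfp, m, hfb⟩ ⟨hg, hgp, n, hgb⟩
    have r1 := cuspReg_of hf hfp hfb
    have r2 := cuspReg_of hg hgp hgb
    have e : (fun τ => cuspW h τ ^ (m + n) * (f * g) τ)
        = (fun τ => cuspW h τ ^ m * f τ) * (fun τ => cuspW h τ ^ n * g τ) := by
      funext τ
      show cuspW h τ ^ (m + n) * (f τ * g τ) = (cuspW h τ ^ m * f τ) * (cuspW h τ ^ n * g τ)
      ring
    have h3 : IsBoundedAtImInfty (fun τ => cuspW h τ ^ (m + n) * (f * g) τ) := by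
      rw [e]; exact hfb.mul hgb
    rw [cuspExp_eq (hf.mul hg) (fun τ => by simp [hfp τ, hgp τ]) h3, cuspExp_eq hf hfp hfb,
      cuspExp_eq hg hgp hgb, cuspLaurent_mul r1 r2]
  exp_eq_zero := by
    rintro f ⟨hf, hfp, m, hfb⟩ h0
    rw [cuspExp_eq hf hfp hfb] at h0
    exact cuspLaurent_eq_zero (cuspReg_of hf hfp hfb) h0

theorem cuspSys_mem (f : ℍ → ℂ) : (cuspSys h).mem f ↔
    MDiff f ∧ (∀ τ : ℍ, f ((h : ℝ) +ᵥ τ) = f τ) ∧
      ∃ m : ℕ, IsBoundedAtImInfty (fun τ => Complex.exp (2 * π * Complex.I * τ / h) ^ m * f τ) :=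
  Iff.rfl

theorem cuspSys_exp_eq {f : ℍ → ℂ} (hf : MDiff f) (hper : ∀ τ : ℍ, f ((h : ℝ) +ᵥ τ) = f τ)
    {m : ℕ} (hb : IsBoundedAtImInfty (fun τ => cuspW h τ ^ m * f τ)) :
    (cuspSys h).exp f = cuspLaurent h m f := cuspExp_eq hf hper hb

end

/-- a power series converging on the punctured unit disc is holomorphic on the unit disc -/
lemma tsum_pow_differentiableOn {a : ℕ → ℂ}
    (hs : ∀ q : ℂ, q ≠ 0 → ‖q‖ < 1 → Summable (fun n : ℕ => a n * q ^ n)) :
    DifferentiableOn ℂ (fun q : ℂ => ∑' n : ℕ, a n * q ^ n) (ball 0 1) := by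
  set p := FormalMultilinearSeries.ofScalars ℂ a with hp
  have hrad : 1 ≤ p.radius := by
    refine le_of_forall_lt_imp_le_of_dense fun r hr ↦ ?_
    rcases eq_or_ne r 0 with rfl | hr'
    · simp
    · lift r to NNReal using hr.ne_top
      apply FormalMultilinearSeries.le_radius_of_summable
      have h1 : (r : ℂ) ≠ 0 := by exact_mod_cast hr'
      have h2 : ‖(r : ℂ)‖ < 1 := by simpa using hr
      have := (hs (r : ℂ) h1 h2).norm
      simpa [hp, norm_mul] using this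
  have hd : DifferentiableOn ℂ p.sum (Metric.eball 0 p.radius) :=
    (p.hasFPowerSeriesOnBall (lt_of_lt_of_le one_pos hrad)).differentiableOn
  have e : (fun q : ℂ => ∑' n : ℕ, a n * q ^ n) = p.sum := by
    funext q
    simp only [FormalMultilinearSeries.sum, hp, FormalMultilinearSeries.ofScalars_apply_eq,
      smul_eq_mul]
  rw [e]
  refine hd.mono fun q hq => ?_
  have hq' : q ∈ Metric.eball (0 : ℂ) 1 := by
    rw [← ENNReal.coe_one, Metric.eball_coe, NNReal.coe_one]; exact hq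
  exact Metric.eball_subset_eball hrad hq'

lemma isBoundedAtImInfty_pow {g : ℍ → ℂ} (hg : IsBoundedAtImInfty g) (n : ℕ) :
    IsBoundedAtImInfty (g ^ n) := by
  induction n with
  | zero => rw [pow_zero]; exact Filter.const_boundedAtFilter atImInfty (1 : ℂ)
  | succ n ih => rw [pow_succ]; exact ih.mul hg

section

variable (h : ℕ) [NeZero h]

/-- a function with a convergent `w`-series is in the expansion system, and its expansion is
that series -/
theorem cuspSys_of_hasSum (f : ℍ → ℂ) (m : ℕ) (a : ℕ → ℂ)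
    (hs : ∀ τ : ℍ, HasSum (fun n : ℕ => a n * Complex.exp (2 * π * Complex.I * τ / h) ^ n)
      (Complex.exp (2 * π * Complex.I * τ / h) ^ m * f τ)) :
    (cuspSys h).mem f ∧ ∀ k : ℤ,
      ((cuspSys h).exp f).coeff k = if 0 ≤ k + m then a (k + m).toNat else 0 := by
  have hs' : ∀ τ : ℍ, HasSum (fun n : ℕ => a n * cuspW h τ ^ n) (cuspW h τ ^ m * f τ) := hs
  have hsum : ∀ q : ℂ, q ≠ 0 → ‖q‖ < 1 → Summable (fun n : ℕ => a n * q ^ n) := by
    intro q hq0 hq1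
    have him := Function.Periodic.im_invQParam_pos_of_norm_lt_one (cusp_hpos h) hq1 hq0
    have := (hs' ⟨_, him⟩).summable
    rwa [cuspW_eq, UpperHalfPlane.coe_mk,
      Function.Periodic.qParam_right_inv (cusp_hpos h).ne' hq0] at this
  set G : ℂ → ℂ := fun q => ∑' n : ℕ, a n * q ^ n with hG
  have hGd : DifferentiableOn ℂ G (ball 0 1) := tsum_pow_differentiableOn hsum
  have hg : ∀ τ : ℍ, cuspW h τ ^ m * f τ = G (cuspW h τ) := fun τ => (hs' τ).tsum_eq.symm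
  have hf_eq : ∀ τ : ℍ, f τ = (cuspW h τ ^ m)⁻¹ * G (cuspW h τ) := by
    intro τ
    rw [← hg τ, inv_mul_cancel_left₀ (pow_ne_zero _ (cuspW_ne_zero h τ))]
  have hfm : MDiff f := by
    rw [UpperHalfPlane.mdifferentiable_iff]
    have : DifferentiableOn ℂ (fun z : ℂ => (𝕢 (h : ℝ) z ^ m)⁻¹ * G (𝕢 (h : ℝ) z))
        {z | 0 < z.im} := by
      intro z hz
      have hq : DifferentiableAt ℂ (𝕢 (h : ℝ)) z :=
        (Function.Periodic.differentiable_qParam (h := (h : ℝ))).differentiableAt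
      have hlt : ‖𝕢 (h : ℝ) z‖ < 1 := Function.Periodic.norm_qParam_lt_one (cusp_hpos h) hz
      have hGz : DifferentiableAt ℂ G (𝕢 (h : ℝ) z) :=
        (hGd _ (by simpa using hlt)).differentiableAt (isOpen_ball.mem_nhds (by simpa using hlt))
      exact (((hq.pow m).inv (pow_ne_zero _ (Function.Periodic.qParam_ne_zero _))).mul
        (hGz.comp z hq)).differentiableWithinAt
    refine this.congr fun z hz => ?_
    simp only [comp_apply, ofComplex_apply_of_im_pos hz, hf_eq, cuspW_eq]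
  have hfp : ∀ τ : ℍ, f ((h : ℝ) +ᵥ τ) = f τ := by
    intro τ; rw [hf_eq, hf_eq τ, cuspW_vadd]
  have hb : IsBoundedAtImInfty (fun τ => cuspW h τ ^ m * f τ) := by
    apply isBoundedAtImInfty_of_hasSum_qExpansion (h := (h : ℝ)) (c := a) (cusp_hpos h)
    intro τ
    simpa [cuspW_eq, smul_eq_mul] using hs' τ
  refine ⟨⟨hfm, hfp, m, hb⟩, fun k => ?_⟩
  rw [cuspSys_exp_eq hfm hfp hb]
  unfold cuspLaurent
  rw [HahnSeries.coeff_single_mul, one_mul, sub_neg_eq_add]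
  split_ifs with hk
  · obtain ⟨n, hn⟩ := Int.eq_ofNat_of_zero_le hk
    rw [hn, HahnSeries.ofPowerSeries_apply_coeff, Int.toNat_natCast]
    exact (cuspReg_of hfm hfp hb).qExp_unique hs' n
  · exact ModularCurve.ofPowerSeries_coeff_of_neg _ (not_le.mp hk)

omit [NeZero h] in
lemma cuspW_T_smul (τ : ℍ) :
    cuspW h (ModularGroup.T • τ) = Complex.exp (2 * π * Complex.I / h) * cuspW h τ := by
  rw [modular_T_smul]
  unfold cuspW
  rw [coe_vadd, ← Complex.exp_add]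
  congr 1
  push_cast
  ring

/-- the substitution `τ ↦ τ + 1` acts on expansions at `∞` by `w ↦ ζ_h w` -/
theorem cuspSys_T {f : ℍ → ℂ} (hf : (cuspSys h).mem f) :
    (cuspSys h).mem (fun τ => f (ModularGroup.T • τ)) ∧ ∀ k : ℤ,
      ((cuspSys h).exp (fun τ => f (ModularGroup.T • τ))).coeff k
        = Complex.exp (2 * π * Complex.I / h) ^ k * ((cuspSys h).exp f).coeff k := by
  obtain ⟨hfm, hfp, m, hb⟩ := hf
  have hr := cuspReg_of hfm hfp hb
  set ζ := Complex.exp (2 * π * Complex.I / h) with hζ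
  have hζ0 : ζ ≠ 0 := Complex.exp_ne_zero _
  set a : ℕ → ℂ := fun n => (qExpansion (h : ℝ) (fun τ => cuspW h τ ^ m * f τ)).coeff n with ha
  have hs : ∀ τ : ℍ, HasSum (fun n : ℕ => a n * cuspW h τ ^ n) (cuspW h τ ^ m * f τ) :=
    hr.qExp_hasSum
  have hsT : ∀ τ : ℍ, HasSum (fun n : ℕ => (ζ ^ ((n : ℤ) - m) * a n) * cuspW h τ ^ n)
      (cuspW h τ ^ m * f (ModularGroup.T • τ)) := by
    intro τ
    have h1 := hs (ModularGroup.T • τ)
    rw [cuspW_T_smul] at h1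
    have h2 := h1.mul_left (ζ ^ m)⁻¹
    have e1 : (fun n : ℕ => (ζ ^ ((n : ℤ) - m) * a n) * cuspW h τ ^ n)
        = fun n : ℕ => (ζ ^ m)⁻¹ * (a n * (ζ * cuspW h τ) ^ n) := by
      funext n
      rw [zpow_sub₀ hζ0, zpow_natCast, zpow_natCast, mul_pow]
      field_simp
    have e2 : cuspW h τ ^ m * f (ModularGroup.T • τ)
        = (ζ ^ m)⁻¹ * ((ζ * cuspW h τ) ^ m * f (ModularGroup.T • τ)) := by
      rw [mul_pow]
      field_simp
    rw [e1, e2]
    exact h2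
  have h1 := cuspSys_of_hasSum h (fun τ => f (ModularGroup.T • τ)) m _ hsT
  have h2 := cuspSys_of_hasSum h f m a hs
  refine ⟨h1.1, fun k => ?_⟩
  rw [h1.2 k, h2.2 k]
  split_ifs with hk
  · have : (((k + m).toNat : ℕ) : ℤ) - m = k := by rw [Int.toNat_of_nonneg hk]; ring
    rw [this]
  · simp

/-- moderate growth at `∞`: some power of `Δ` kills the pole -/
theorem cuspSys_bdd {f : ℍ → ℂ} (hf : (cuspSys h).mem f) :
    ∃ m : ℕ, IsBoundedAtImInfty (fun τ => ModularForm.discriminant τ ^ m * f τ) := by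
  obtain ⟨hfm, hfp, m, hb⟩ := hf
  refine ⟨m, ?_⟩
  have hq : ∀ τ : ℍ, 𝕢 1 (τ : ℂ) = cuspW h τ ^ h := by
    intro τ
    unfold cuspW Function.Periodic.qParam
    rw [← Complex.exp_nat_mul]
    congr 1
    have : (h : ℂ) ≠ 0 := Nat.cast_ne_zero.mpr (NeZero.ne h)
    field_simp
    simp
  have hE : IsBoundedAtImInfty (fun τ : ℍ => eulerG (𝕢 1 (τ : ℂ))) := by
    have hc : ContinuousAt eulerG 0 :=
      ((eulerG_differentiableOn 0 (mem_ball_self one_pos)).differentiableAt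
        (ball_mem_nhds 0 one_pos)).continuousAt
    have ht : Tendsto (fun τ : ℍ => 𝕢 1 (τ : ℂ)) atImInfty (𝓝 0) :=
      UpperHalfPlane.qParam_tendsto_atImInfty one_pos
    exact (hc.tendsto.comp ht).isBigO_one ℝ
  have e : (fun τ => ModularForm.discriminant τ ^ m * f τ)
      = (fun τ => cuspW h τ ^ m * f τ) *
        (((fun τ => cuspW h τ ^ (h - 1)) ^ m) * ((fun τ : ℍ => eulerG (𝕢 1 (τ : ℂ))) ^ 24) ^ m) := by
    funext τ
    have h1 : cuspW h τ ^ h = cuspW h τ * cuspW h τ ^ (h - 1) := by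
      rw [← pow_succ']
      congr 1
      have := NeZero.pos h
      omega
    simp only [Pi.mul_apply, Pi.pow_apply]
    rw [jf_disc_eq, hq, h1]
    ring
  rw [e]
  exact hb.mul ((isBoundedAtImInfty_pow (cuspW_pow_bdd h (h - 1)) m).mul
    (isBoundedAtImInfty_pow (isBoundedAtImInfty_pow hE 24) m))

end

end Fermat.Agent.MC
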