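import Mathlib
import Fermat.Agent.Lib.MC_Bridge
import Fermat.Agent.Lib.MC_Deg
import Fermat.Agent.Lib.MC_Local

set_option autoImplicit false

/-!
# T24 [C]: instantiation of the local data at every point of the `j`-line
-/

noncomputable section

namespace Fermat.Agent.MC

open UpperHalfPlane ModularCurve MvPolynomial IntermediateField Complex
open Fermat.Agent.FF CongruenceSubgroup
open scoped MatrixGroups Real Manifold

local notation "𝕢" => Function.Periodic.qParam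

section BridgeInst

variable (N : ℕ) [NeZero N]

/-- coefficients of the `w`-expansion of `j(dτ)`, `w = exp(2πiτ/N)` -/
def bridgeCoeff (M : ℕ) (k : ℕ) : ℂ :=
  if M ∣ k then ((PowerSeries.coeff (k / M) jNum : ℤ) : ℂ) else 0

theorem jlev_one_hasSum (d : ℕ) (hd : 0 < d) (τ : ℍ) :
    HasSum (fun k : ℕ => bridgeCoeff (N * d) k * cexp (2 * π * Complex.I * τ / N) ^ k)
      (cexp (2 * π * Complex.I * τ / N) ^ (N * d) * jlev d 1 τ) := by
  have hN : 0 < N := Nat.pos_of_ne_zero (NeZero.ne N)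
  have hM : 0 < N * d := Nat.mul_pos hN hd
  set w : ℂ := cexp (2 * π * Complex.I * τ / N) with hw
  -- the point `dτ`
  have him : 0 < ((d : ℂ) * (τ : ℂ)).im := scale_im_pos hd τ
  set z : ℍ := ofComplex ((d : ℂ) * (τ : ℂ)) with hz
  have hzc : (z : ℂ) = (d : ℂ) * (τ : ℂ) := by
    rw [hz, ofComplex_apply_of_im_pos him]
  have hq : 𝕢 1 (z : ℂ) = w ^ (N * d) := by
    rw [hw, ← Complex.exp_nat_mul, hzc]
    unfold Function.Periodic.qParam
    congr 1
    have hNC : (N : ℂ) ≠ 0 := Nat.cast_ne_zero.mpr (NeZero.ne N)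
    push_cast
    field_simp
  have hj : jlev d 1 τ = jfun z := by
    unfold jlev
    rw [inv_one, one_smul]
  have h0 := jfun_hasSum z
  rw [hq, ← hj] at h0
  -- reindex
  have hinj : Function.Injective (fun n : ℕ => (N * d) * n) :=
    fun a b hab => Nat.eq_of_mul_eq_mul_left hM hab
  refine (Function.Injective.hasSum_iff hinj ?_).mp ?_
  · intro k hk
    have : ¬ (N * d) ∣ k := fun ⟨n, hn⟩ => hk ⟨n, hn.symm⟩
    simp [bridgeCoeff, this]
  · have e : ((fun k : ℕ => bridgeCoeff (N * d) k * w ^ k) ∘ fun n : ℕ => (N * d) * n) =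
        fun n : ℕ => ((PowerSeries.coeff n jNum : ℤ) : ℂ) * (w ^ (N * d)) ^ n := by
      funext n
      simp only [Function.comp_apply, bridgeCoeff, dvd_mul_right, if_true,
        Nat.mul_div_cancel_left n hM, pow_mul]
    rw [e]
    exact h0

theorem jqModC_coeff (j : ℤ) :
    (jqModC ℂ).coeff j =
      if 0 ≤ j + 1 then ((PowerSeries.coeff (j + 1).toNat jNum : ℤ) : ℂ) else 0 := by
  unfold jqModC
  rw [HahnSeries.coeff_single_mul, one_mul, sub_neg_eq_add]
  split_ifs with h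
  · obtain ⟨n, hn⟩ := Int.eq_ofNat_of_zero_le h
    rw [hn, Int.toNat_natCast, HahnSeries.ofPowerSeries_apply_coeff, PowerSeries.coeff_map]
    simp
  · exact ofPowerSeries_coeff_of_neg _ (by omega)

theorem qExpand_jqModC_coeff (M : ℕ) [NeZero M] (k : ℤ) :
    (qExpand ℂ M (jqModC ℂ)).coeff k =
      if 0 ≤ k + M then bridgeCoeff M (k + M).toNat else 0 := by
  have hM : (0 : ℤ) < M := by exact_mod_cast Nat.pos_of_ne_zero (NeZero.ne M)
  by_cases hdvd : (M : ℤ) ∣ k
  · obtain ⟨j, rfl⟩ := hdvd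
    rw [qExpand_coeff_mul, jqModC_coeff]
    have e1 : (M : ℤ) * j + M = M * (j + 1) := by ring
    rw [e1]
    by_cases hj : 0 ≤ j + 1
    · have h1 : (0 : ℤ) ≤ M * (j + 1) := mul_nonneg hM.le hj
      rw [if_pos hj, if_pos h1]
      obtain ⟨n, hn⟩ := Int.eq_ofNat_of_zero_le hj
      rw [hn]
      have e2 : ((M : ℤ) * (n : ℤ)).toNat = M * n := by
        rw [← Nat.cast_mul, Int.toNat_natCast]
      rw [e2, Int.toNat_natCast]
      simp [bridgeCoeff, Nat.mul_div_cancel_left n (Nat.pos_of_ne_zero (NeZero.ne M))]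
    · have h1 : ¬ (0 : ℤ) ≤ M * (j + 1) := by
        rw [not_le] at hj ⊢
        exact mul_neg_of_pos_of_neg hM hj
      rw [if_neg hj, if_neg h1]
  · rw [qExpand_coeff_of_not_dvd M _ hdvd]
    split_ifs with h
    · have h2 : ¬ M ∣ (k + M).toNat := by
        intro hd
        apply hdvd
        have h3 : (M : ℤ) ∣ ((k + M).toNat : ℤ) := Int.natCast_dvd_natCast.mpr hd
        rw [Int.toNat_of_nonneg h] at h3
        exact (Int.dvd_add_left (dvd_refl _)).mp h3
      simp [bridgeCoeff, h2]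
    · rfl

/-- the expansion system at `∞` (in `w = exp(2πiτ/N)`) is a bridge. -/
theorem isBridge_cuspSys : IsBridge N (cuspSys N) := by
  have hpos : ∀ d : N.divisors, 0 < (d : ℕ) := fun d => Nat.pos_of_mem_divisors d.2
  have key := fun d : N.divisors => cuspSys_of_hasSum N (jlev (d : ℕ) 1) (N * (d : ℕ))
    (bridgeCoeff (N * (d : ℕ))) (fun τ => jlev_one_hasSum N d (hpos d) τ)
  refine ⟨fun d => (key d).1, fun d => ?_⟩
  ext k
  rw [(key d).2 k, qExpand_jqModC_coeff]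

end BridgeInst

section LocalDataInst

variable (N : ℕ) [NeZero N]

omit [NeZero N] in
theorem taylor_hmem (τ₀ : ℍ) (γ : SL(2, ℤ)) (d : N.divisors) :
    (taylorSys τ₀).mem (jlev (d : ℕ) γ) :=
  (taylorSys_mem τ₀ _).mpr (jlev_mdifferentiable d (Nat.pos_of_mem_divisors d.2) γ)

theorem cusp_hmem (γ : SL(2, ℤ)) (d : N.divisors) : (cuspSys N).mem (jlev (d : ℕ) γ) := by
  obtain ⟨m, c, hs⟩ := jlev_hasSum N d (Nat.dvd_of_mem_divisors d.2) γ
  exact (cuspSys_of_hasSum N _ m c hs).1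

omit [NeZero N] in
theorem hinv_all (γ g : SL(2, ℤ)) (d : N.divisors) (hg : g ∈ Gamma0 N) :
    jlev (d : ℕ) (γ * g) = jlev (d : ℕ) γ :=
  jlev_mul_Gamma0 N d (Nat.pos_of_mem_divisors d.2) (Nat.dvd_of_mem_divisors d.2) γ g hg

theorem phiC_ofNat (n : ℕ) [n.AtLeastTwo] : phiC (OfNat.ofNat n) = OfNat.ofNat n :=
  map_ofNat phiC n

theorem localData_generic_inst (a : Kb) (h0 : a ≠ 0) (h1 : a ≠ 1728) :
    ∃ L : LocalData Kb (FN N) (jF N) a (PN N), L.e = 1 := by
  obtain ⟨τ₀, hτ₀⟩ := jfun_surjective (phiC a)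
  have hj0 : jfun τ₀ ≠ 0 := by
    rw [hτ₀]
    exact (map_ne_zero phiC).mpr h0
  have hj1 : jfun τ₀ ≠ 1728 := by
    rw [hτ₀]
    intro h
    apply h1
    apply phiC.injective
    rw [h, phiC_ofNat]
  have hord := taylorSys_order τ₀ jfun_mdifferentiable (jfun τ₀) 1
    (by simpa using analyticOrderAt_jfun_generic τ₀ hj0 hj1)
  rw [hτ₀] at hord
  obtain ⟨L, -, hLe⟩ := exists_localData (isBridge_cuspSys N) (taylorSys τ₀) (taylor_hmem N τ₀)
    (hinv_all N) (jlev_dist N) (jF N) ((taylorSys τ₀).exp jfun) (fun θ h => h) a 1 one_pos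
    (hord.2 one_ne_zero) (by exact_mod_cast hord.1) 1 1 IsPrimitiveRoot.one
    (fun f hf m => by simp)
  exact ⟨L, hLe⟩

theorem localData_1728_inst :
    ∃ L : LocalData Kb (FN N) (jF N) 1728 (PN N), L.ρ = sP N ∨ L.ρ = (sP N)⁻¹ := by
  have hord := taylorSys_order UpperHalfPlane.I jfun_mdifferentiable 1728 2
    (by simpa using analyticOrderAt_jfun_I)
  have hφ : phiC (1728 : Kb) = 1728 := phiC_ofNat 1728
  obtain ⟨L, hLρ, -⟩ := exists_localData (isBridge_cuspSys N) (taylorSys UpperHalfPlane.I)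
    (taylor_hmem N UpperHalfPlane.I) (hinv_all N) (jlev_dist N) (jF N)
    ((taylorSys UpperHalfPlane.I).exp jfun) (fun θ h => h) 1728 2 two_pos
    (by rw [hφ]; exact hord.2 two_ne_zero) (by rw [hφ]; exact_mod_cast hord.1)
    ModularGroup.S (-1) (IsPrimitiveRoot.neg_one 0 (by norm_num))
    (fun f hf m => by
      have := taylorSys_smul_coeff UpperHalfPlane.I ModularGroup.S mcj_S_smul_I
        ((taylorSys_mem _ f).mp hf) m
      rwa [cayMult_S_I] at this)
  exact ⟨L, Or.inr hLρ⟩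

theorem localData_0_inst :
    ∃ L : LocalData Kb (FN N) (jF N) 0 (PN N), L.ρ = uP N ∨ L.ρ = (uP N)⁻¹ := by
  have hord := taylorSys_order ellRho jfun_mdifferentiable 0 3
    (by simpa using analyticOrderAt_jfun_ellRho)
  have hφ : phiC (0 : Kb) = 0 := map_zero phiC
  obtain ⟨L, hLρ, -⟩ := exists_localData (isBridge_cuspSys N) (taylorSys ellRho)
    (taylor_hmem N ellRho) (hinv_all N) (jlev_dist N) (jF N)
    ((taylorSys ellRho).exp jfun) (fun θ h => h) 0 3 (by norm_num)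
    (by rw [hφ]; exact hord.2 (by norm_num)) (by rw [hφ]; exact_mod_cast hord.1)
    (ModularGroup.S * ModularGroup.T) (cayMult (ModularGroup.S * ModularGroup.T) ellRho)
    cayMult_ST_rho
    (fun f hf m => taylorSys_smul_coeff ellRho (ModularGroup.S * ModularGroup.T) mcj_ST_smul_rho
      ((taylorSys_mem _ f).mp hf) m)
  exact ⟨L, Or.inr hLρ⟩

theorem order_qExpand_jqModC (M : ℕ) [NeZero M] :
    qExpand ℂ M (jqModC ℂ) ≠ 0 ∧ (qExpand ℂ M (jqModC ℂ)).order = -(M : ℤ) := by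
  have hc : (qExpand ℂ M (jqModC ℂ)).coeff (-(M : ℤ)) = 1 := by
    rw [qExpand_jqModC_coeff, if_pos (by simp)]
    simp [bridgeCoeff]
  have hne : qExpand ℂ M (jqModC ℂ) ≠ 0 := by
    intro h
    rw [h] at hc
    simp at hc
  refine ⟨hne, le_antisymm (HahnSeries.order_le_of_coeff_ne_zero (by rw [hc]; exact one_ne_zero)) ?_⟩
  by_contra hlt
  rw [not_le] at hlt
  have h1 : (qExpand ℂ M (jqModC ℂ)).coeff (qExpand ℂ M (jqModC ℂ)).order ≠ 0 :=
    fun h => hne (HahnSeries.coeff_order_eq_zero.mp h)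
  rw [qExpand_jqModC_coeff, if_neg (by omega)] at h1
  exact h1 rfl

theorem localData_inf_inst :
    ∃ L : LocalData Kb (FN N) (jF N)⁻¹ 0 (PN N), L.ρ = tP N ∨ L.ρ = (tP N)⁻¹ := by
  have h1 : (1 : ℕ) ∈ N.divisors := Nat.mem_divisors.mpr ⟨one_dvd N, NeZero.ne N⟩
  have hexp : (cuspSys N).exp jfun = qExpand ℂ N (jqModC ℂ) := by
    have := (isBridge_cuspSys N).exp ⟨1, h1⟩
    have e : jlev ((⟨1, h1⟩ : N.divisors) : ℕ) 1 = jfun := jlev_one_left 1
    rw [e] at this
    rw [this]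
    exact qExpand_congr (mul_one N) _
  obtain ⟨hne, hord⟩ := order_qExpand_jqModC N
  have hφ : phiC (0 : Kb) = 0 := map_zero phiC
  have hinvne : (qExpand ℂ N (jqModC ℂ))⁻¹ ≠ 0 := inv_ne_zero hne
  have hordinv : ((qExpand ℂ N (jqModC ℂ))⁻¹).order = (N : ℤ) := by
    have h2 := HahnSeries.order_mul hne hinvne
    rw [mul_inv_cancel₀ hne, HahnSeries.order_one, hord] at h2
    omega
  obtain ⟨L, hLρ, -⟩ := exists_localData (isBridge_cuspSys N) (cuspSys N)
    (cusp_hmem N) (hinv_all N) (jlev_dist N) (jF N)⁻¹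
    ((qExpand ℂ N (jqModC ℂ))⁻¹) (fun θ h => by rw [map_inv₀, h, hexp]) 0 N
    (Nat.pos_of_ne_zero (NeZero.ne N))
    (by rw [hφ, map_zero, sub_zero]; exact hinvne) (by rw [hφ, map_zero, sub_zero]; exact hordinv)
    ModularGroup.T (cexp (2 * π * Complex.I / N)) (Complex.isPrimitiveRoot_exp N (NeZero.ne N))
    (fun f hf m => (cuspSys_T N hf).2 m)
  exact ⟨L, Or.inr hLρ⟩

end LocalDataInst

end Fermat.Agent.MC
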