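import Mathlib
import Fermat.Agent.Lib.MC_Inst
import Fermat.Agent.Lib.MC_Ge

set_option autoImplicit false

/-!
# T20 [MF-F]: the function field of `X₀(N)` over `ℂ`, as a field of fractions of functions on `ℍ`

* `AN N` : the `ℂ`-algebra of functions on `ℍ` generated by the `τ ↦ j(dτ)`, `d ∣ N`.
* `FC N` : its field of fractions.
-/

noncomputable section

namespace Fermat.Agent.MF

open UpperHalfPlane ModularCurve MvPolynomial IntermediateField Complex
open Fermat.Agent.FF Fermat.Agent.MC CongruenceSubgroup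
open scoped MatrixGroups Real Manifold

/-- the generators `τ ↦ j(dτ)`, `d ∣ N`. -/
def genC (N : ℕ) (d : N.divisors) : ℍ → ℂ := jlev (d : ℕ) 1

/-- the `ℂ`-algebra of functions on `ℍ` generated by the `τ ↦ j(dτ)`, `d ∣ N`. -/
def AN (N : ℕ) : Subalgebra ℂ (ℍ → ℂ) :=
  Algebra.adjoin ℂ (Set.range fun d : N.divisors => jlev (d : ℕ) 1)

theorem genC_mem (N : ℕ) (d : N.divisors) : genC N d ∈ AN N :=
  Algebra.subset_adjoin ⟨d, rfl⟩

/-- Holomorphic functions on `ℍ` form a domain. -/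
theorem mf_mdiff_mul_eq_zero {F G : ℍ → ℂ} (hF : MDiff F) (hG : MDiff G)
    (h : ∀ z, F z * G z = 0) : F = 0 ∨ G = 0 := by
  have hU : IsOpen {z : ℂ | 0 < z.im} := UpperHalfPlane.isOpen_upperHalfPlaneSet
  have hF' := (UpperHalfPlane.mdifferentiable_iff.mp hF).analyticOnNhd hU
  have hG' := (UpperHalfPlane.mdifferentiable_iff.mp hG).analyticOnNhd hU
  have hpre : IsPreconnected {z : ℂ | 0 < z.im} := (convex_halfSpace_im_gt 0).isPreconnected
  have hmul : ∀ z ∈ {z : ℂ | 0 < z.im}, (F ∘ ofComplex) z * (G ∘ ofComplex) z = 0 := by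
    intro z _
    exact h _
  rcases hF'.eq_zero_or_eq_zero_of_mul_eq_zero hG' hmul hpre with h1 | h1
  · left
    funext τ
    have := h1 (τ : ℂ) τ.im_pos
    simpa using this
  · right
    funext τ
    have := h1 (τ : ℂ) τ.im_pos
    simpa using this

theorem mdiff_const (c : ℂ) : MDiff (fun _ : ℍ => c) := by
  rw [UpperHalfPlane.mdifferentiable_iff]
  exact differentiableOn_const c

theorem mdiff_add {F G : ℍ → ℂ} (hF : MDiff F) (hG : MDiff G) : MDiff (F + G) := by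
  rw [UpperHalfPlane.mdifferentiable_iff] at hF hG ⊢
  exact hF.add hG

theorem mdiff_mul {F G : ℍ → ℂ} (hF : MDiff F) (hG : MDiff G) : MDiff (F * G) := by
  rw [UpperHalfPlane.mdifferentiable_iff] at hF hG ⊢
  exact hF.mul hG

/-- elements of `AN N` are holomorphic -/
theorem AN_mdiff (N : ℕ) {f : ℍ → ℂ} (hf : f ∈ AN N) : MDiff f := by
  induction hf using Algebra.adjoin_induction with
  | mem x hx =>
      obtain ⟨d, rfl⟩ := hx
      exact jlev_mdifferentiable d (Nat.pos_of_mem_divisors d.2) 1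
  | algebraMap c => exact mdiff_const c
  | add x y _ _ hx hy => exact mdiff_add hx hy
  | mul x y _ _ hx hy => exact mdiff_mul hx hy

/-- elements of `AN N` are `Γ₀(N)`-invariant -/
theorem AN_invariant (N : ℕ) {f : ℍ → ℂ} (hf : f ∈ AN N) (g : SL(2, ℤ)) (hg : g ∈ Gamma0 N)
    (τ : ℍ) : f (g • τ) = f τ := by
  induction hf using Algebra.adjoin_induction with
  | mem x hx =>
      obtain ⟨d, rfl⟩ := hx
      have h1 := jlev_mul_Gamma0 N d (Nat.pos_of_mem_divisors d.2) (Nat.dvd_of_mem_divisors d.2)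
        1 g⁻¹ (inv_mem hg)
      have h2 := jlev_smul (d : ℕ) 1 g τ
      rw [one_mul] at h1
      rw [mul_one] at h2
      show jlev (d : ℕ) 1 (g • τ) = jlev (d : ℕ) 1 τ
      rw [← h2, h1]
  | algebraMap c => rfl
  | add x y _ _ hx hy => simp only [Pi.add_apply, hx, hy]
  | mul x y _ _ hx hy => simp only [Pi.mul_apply, hx, hy]

/-- translates of elements of `AN N` are admissible in an expansion system in which the
translates of the generators are. -/
theorem AN_mem (N : ℕ) (E : ExpSys) (γ : SL(2, ℤ))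
    (hmem : ∀ d : N.divisors, E.mem (jlev (d : ℕ) γ)) {f : ℍ → ℂ} (hf : f ∈ AN N) :
    E.mem (fun τ => f (γ⁻¹ • τ)) := by
  induction hf using Algebra.adjoin_induction with
  | mem x hx =>
      obtain ⟨d, rfl⟩ := hx
      have e : (fun τ => jlev (d : ℕ) 1 (γ⁻¹ • τ)) = jlev (d : ℕ) γ :=
        funext fun τ => (jlev_one_right (d : ℕ) γ τ).symm
      show E.mem (fun τ => jlev (d : ℕ) 1 (γ⁻¹ • τ))
      rw [e]
      exact hmem d
  | algebraMap c => exact E.mem_const c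
  | add x y _ _ hx hy => exact E.mem_add hx hy
  | mul x y _ _ hx hy => exact E.mem_mul hx hy

instance instNoZeroDivisorsAN (N : ℕ) : NoZeroDivisors (AN N) where
  eq_zero_or_eq_zero_of_mul_eq_zero := by
    rintro ⟨a, ha⟩ ⟨b, hb⟩ hab
    have h : ∀ z, a z * b z = 0 := fun z => congrFun (congrArg Subtype.val hab) z
    rcases mf_mdiff_mul_eq_zero (AN_mdiff N ha) (AN_mdiff N hb) h with h1 | h1
    · left; exact Subtype.ext h1
    · right; exact Subtype.ext h1

instance instIsDomainAN (N : ℕ) : IsDomain (AN N) := NoZeroDivisors.to_isDomain _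

/-- the function field of `X₀(N)` over `ℂ` -/
abbrev FC (N : ℕ) : Type := FractionRing (AN N)

/-- translation by `γ⁻¹` -/
def trans (γ : SL(2, ℤ)) (f : ℍ → ℂ) : ℍ → ℂ := fun τ => f (γ⁻¹ • τ)

theorem trans_apply (γ : SL(2, ℤ)) (f : ℍ → ℂ) (τ : ℍ) : trans γ f τ = f (γ⁻¹ • τ) := rfl

theorem trans_add (γ : SL(2, ℤ)) (f g : ℍ → ℂ) : trans γ (f + g) = trans γ f + trans γ g := rfl

theorem trans_mul (γ : SL(2, ℤ)) (f g : ℍ → ℂ) : trans γ (f * g) = trans γ f * trans γ g := rfl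

theorem trans_const (γ : SL(2, ℤ)) (c : ℂ) : trans γ (fun _ => c) = fun _ => c := rfl

theorem trans_eq_zero (γ : SL(2, ℤ)) {f : ℍ → ℂ} (h : trans γ f = 0) : f = 0 := by
  funext τ
  have := congrFun h (γ • τ)
  rwa [trans_apply, inv_smul_smul] at this

theorem trans_genC (N : ℕ) (γ : SL(2, ℤ)) (d : N.divisors) :
    trans γ (genC N d) = jlev (d : ℕ) γ :=
  funext fun τ => (jlev_one_right (d : ℕ) γ τ).symm

theorem AN_mem_trans (N : ℕ) (E : ExpSys) (γ : SL(2, ℤ))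
    (hmem : ∀ d : N.divisors, E.mem (jlev (d : ℕ) γ)) {f : ℍ → ℂ} (hf : f ∈ AN N) :
    E.mem (trans γ f) := AN_mem N E γ hmem hf

/-- the expansion of the `γ`-translate, as a ring hom on `AN N` -/
def expHomA (N : ℕ) (E : ExpSys) (γ : SL(2, ℤ))
    (hmem : ∀ d : N.divisors, E.mem (jlev (d : ℕ) γ)) : AN N →+* LaurentSeries ℂ where
  toFun f := E.exp (trans γ (f : ℍ → ℂ))
  map_one' := by
    have := E.exp_const 1
    rw [map_one] at this
    exact this
  map_mul' f g := by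
    show E.exp (trans γ ((f : ℍ → ℂ) * (g : ℍ → ℂ))) = _
    rw [trans_mul]
    exact E.exp_mul (AN_mem_trans N E γ hmem f.2) (AN_mem_trans N E γ hmem g.2)
  map_zero' := by
    have := E.exp_const 0
    rw [map_zero] at this
    exact this
  map_add' f g := by
    show E.exp (trans γ ((f : ℍ → ℂ) + (g : ℍ → ℂ))) = _
    rw [trans_add]
    exact E.exp_add (AN_mem_trans N E γ hmem f.2) (AN_mem_trans N E γ hmem g.2)

theorem expHomA_apply (N : ℕ) (E : ExpSys) (γ : SL(2, ℤ))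
    (hmem : ∀ d : N.divisors, E.mem (jlev (d : ℕ) γ)) (f : AN N) :
    expHomA N E γ hmem f = E.exp (trans γ (f : ℍ → ℂ)) := rfl

theorem expHomA_injective (N : ℕ) (E : ExpSys) (γ : SL(2, ℤ))
    (hmem : ∀ d : N.divisors, E.mem (jlev (d : ℕ) γ)) :
    Function.Injective (expHomA N E γ hmem) := by
  rw [injective_iff_map_eq_zero]
  intro f hf
  rw [expHomA_apply] at hf
  exact Subtype.ext (trans_eq_zero γ (E.exp_eq_zero (AN_mem_trans N E γ hmem f.2) hf))

/-- the expansion of the `γ`-translate, as a ring hom on the function field `FC N` -/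
def expHom (N : ℕ) (E : ExpSys) (γ : SL(2, ℤ))
    (hmem : ∀ d : N.divisors, E.mem (jlev (d : ℕ) γ)) : FC N →+* LaurentSeries ℂ :=
  IsFractionRing.lift (expHomA_injective N E γ hmem)

theorem expHom_algebraMap (N : ℕ) (E : ExpSys) (γ : SL(2, ℤ))
    (hmem : ∀ d : N.divisors, E.mem (jlev (d : ℕ) γ)) (f : AN N) :
    expHom N E γ hmem (algebraMap (AN N) (FC N) f) = E.exp (trans γ (f : ℍ → ℂ)) := by
  unfold expHom
  rw [IsFractionRing.lift_algebraMap, expHomA_apply]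

theorem expHom_const (N : ℕ) (E : ExpSys) (γ : SL(2, ℤ))
    (hmem : ∀ d : N.divisors, E.mem (jlev (d : ℕ) γ)) (c : ℂ) :
    expHom N E γ hmem (algebraMap ℂ (FC N) c) = HahnSeries.C c := by
  rw [IsScalarTower.algebraMap_apply ℂ (AN N) (FC N), expHom_algebraMap]
  exact E.exp_const c

theorem trans_mul_Gamma0 (N : ℕ) {f : ℍ → ℂ} (hf : f ∈ AN N) (γ g : SL(2, ℤ))
    (hg : g ∈ Gamma0 N) : trans (γ * g) f = trans γ f := by
  funext τ
  rw [trans_apply, trans_apply, mul_inv_rev, mul_smul]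
  exact AN_invariant N hf g⁻¹ (inv_mem hg) _

/-- the expansion hom only depends on the coset `γ Γ₀(N)` -/
theorem expHom_mul_Gamma0 (N : ℕ) (E : ExpSys) (γ g : SL(2, ℤ)) (hg : g ∈ Gamma0 N)
    (hmem : ∀ d : N.divisors, E.mem (jlev (d : ℕ) γ))
    (hmem' : ∀ d : N.divisors, E.mem (jlev (d : ℕ) (γ * g))) :
    expHom N E (γ * g) hmem' = expHom N E γ hmem := by
  apply IsLocalization.ringHom_ext (nonZeroDivisors (AN N))
  refine RingHom.ext fun f => ?_
  rw [RingHom.comp_apply, RingHom.comp_apply, expHom_algebraMap, expHom_algebraMap,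
    trans_mul_Gamma0 N f.2 γ g hg]

theorem expHom_of_mk_eq (N : ℕ) (E : ExpSys) (γ γ' : SL(2, ℤ))
    (h : (QuotientGroup.mk γ : PN N) = QuotientGroup.mk γ')
    (hmem : ∀ d : N.divisors, E.mem (jlev (d : ℕ) γ))
    (hmem' : ∀ d : N.divisors, E.mem (jlev (d : ℕ) γ')) :
    expHom N E γ' hmem' = expHom N E γ hmem := by
  have hg : γ⁻¹ * γ' ∈ Gamma0 N := QuotientGroup.eq.mp h
  have e : γ' = γ * (γ⁻¹ * γ') := by rw [mul_inv_cancel_left]
  have hmem'' : ∀ d : N.divisors, E.mem (jlev (d : ℕ) (γ * (γ⁻¹ * γ'))) := by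
    rw [← e]; exact hmem'
  have := expHom_mul_Gamma0 N E γ (γ⁻¹ * γ') hg hmem hmem''
  rw [← this]
  congr 1

section Field

variable (N : ℕ) [NeZero N]

theorem one_mem_divisors : (1 : ℕ) ∈ N.divisors :=
  Nat.mem_divisors.mpr ⟨one_dvd N, NeZero.ne N⟩

theorem self_mem_divisors : N ∈ N.divisors :=
  Nat.mem_divisors.mpr ⟨dvd_rfl, NeZero.ne N⟩

theorem jfun_mem_AN : jfun ∈ AN N := by
  have h := genC_mem N ⟨1, one_mem_divisors N⟩
  have e : genC N ⟨1, one_mem_divisors N⟩ = jfun := jlev_one_left 1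
  rwa [e] at h

theorem jlevN_mem_AN : jlev N 1 ∈ AN N := genC_mem N ⟨N, self_mem_divisors N⟩

/-- `j`, as an element of `AN N` -/
def jA : AN N := ⟨jfun, jfun_mem_AN N⟩

/-- `j`, as an element of the function field -/
def jC : FC N := algebraMap (AN N) (FC N) (jA N)

/-- `j(Nτ)`, as an element of `AN N` -/
def tA : AN N := ⟨jlev N 1, jlevN_mem_AN N⟩

/-- `j(Nτ)`, as an element of the function field -/
def tC : FC N := algebraMap (AN N) (FC N) (tA N)

theorem trans_jfun (γ : SL(2, ℤ)) : trans γ jfun = jfun :=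
  funext fun τ => jfun_smul γ⁻¹ τ

theorem expHom_jC (E : ExpSys) (γ : SL(2, ℤ))
    (hmem : ∀ d : N.divisors, E.mem (jlev (d : ℕ) γ)) :
    expHom N E γ hmem (jC N) = E.exp jfun := by
  unfold jC
  rw [expHom_algebraMap]
  show E.exp (trans γ jfun) = E.exp jfun
  rw [trans_jfun]

theorem expHom_tC (E : ExpSys) (γ : SL(2, ℤ))
    (hmem : ∀ d : N.divisors, E.mem (jlev (d : ℕ) γ)) :
    expHom N E γ hmem (tC N) = E.exp (jlev N γ) := by
  unfold tC
  rw [expHom_algebraMap]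
  show E.exp (trans γ (jlev N 1)) = E.exp (jlev N γ)
  have := trans_genC N γ ⟨N, self_mem_divisors N⟩
  exact congrArg E.exp this

/-- representatives of the cosets -/
def rep (k : PN N) : SL(2, ℤ) := Quotient.out k

omit [NeZero N] in
theorem mk_rep (k : PN N) : (QuotientGroup.mk (rep N k) : PN N) = k := QuotientGroup.out_eq' k

/-- **Local data of the function field `FC N` over `ℂ`** from an expansion system `E`:
the embedding attached to the coset `k = γ Γ₀(N)` is `f ↦ E.exp (f ∘ γ⁻¹)`; if the substitution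
`τ ↦ ε τ` acts on expansions by `w ↦ ζ w`, the monodromy permutation is `k ↦ ε⁻¹ k`. -/
def mkLocalData (E : ExpSys)
    (hmem : ∀ (γ : SL(2, ℤ)) (d : N.divisors), E.mem (jlev (d : ℕ) γ))
    (x : FC N) (ξ : LaurentSeries ℂ)
    (hx : ∀ θ : FC N →+* LaurentSeries ℂ, θ (jC N) = E.exp jfun → θ x = ξ)
    (a : ℂ) (e : ℕ) (he : 0 < e)
    (hne : ξ - HahnSeries.C a ≠ 0) (hord : (ξ - HahnSeries.C a).order = (e : ℤ))
    (ε : SL(2, ℤ)) (ζ : ℂ) (hζ : IsPrimitiveRoot ζ e)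
    (htw : ∀ f : ℍ → ℂ, E.mem f → ∀ m : ℤ,
      (E.exp (fun τ => f (ε • τ))).coeff m = ζ ^ m * (E.exp f).coeff m) :
    LocalData ℂ (FC N) x a (PN N) where
  φ := RingHom.id ℂ
  ι k := expHom N E (rep N k) (hmem (rep N k))
  ι_algebraMap k c := expHom_const N E (rep N k) (hmem (rep N k)) c
  ι_injective := by
    intro k l hkl
    have e1 : E.exp (jlev N (rep N k)) = E.exp (jlev N (rep N l)) := by
      rw [← expHom_tC N E (rep N k) (hmem (rep N k)), ← expHom_tC N E (rep N l) (hmem (rep N l))]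
      exact congrArg (fun θ : FC N →+* LaurentSeries ℂ => θ (tC N)) hkl
    have e2 : jlev N (rep N k) = jlev N (rep N l) :=
      E.exp_inj (hmem (rep N k) ⟨N, self_mem_divisors N⟩) (hmem (rep N l) ⟨N, self_mem_divisors N⟩) e1
    have e3 : jlev N ((rep N k)⁻¹ * rep N l) = jlev N 1 := by
      funext τ
      rw [jlev_smul, ← e2, ← jlev_smul, inv_mul_cancel]
    have e4 : (rep N k)⁻¹ * rep N l ∈ Gamma0 N := jlev_dist N _ e3
    rw [← mk_rep N k, ← mk_rep N l]
    exact QuotientGroup.eq.mpr e4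
  ξ := ξ
  ι_x k := hx _ (expHom_jC N E (rep N k) (hmem (rep N k)))
  e := e
  e_pos := he
  ξ_ne := by simpa using hne
  order_ξ := by simpa using hord
  ζ := ζ
  ζ_prim := hζ
  ρ := (MulAction.toPerm ε : Equiv.Perm (PN N))⁻¹
  ι_ρ k f m := by
    have hζ0 : ζ ≠ 0 := hζ.ne_zero he.ne'
    set k' : PN N := (MulAction.toPerm ε : Equiv.Perm (PN N))⁻¹ k with hk'
    have hk'' : (QuotientGroup.mk (ε⁻¹ * rep N k) : PN N) = QuotientGroup.mk (rep N k') := by
      rw [mk_rep N k', hk']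
      show _ = ε⁻¹ • k
      conv_rhs => rw [← mk_rep N k]
      rfl
    have h1 : expHom N E (rep N k') (hmem (rep N k')) =
        expHom N E (ε⁻¹ * rep N k) (hmem (ε⁻¹ * rep N k)) :=
      expHom_of_mk_eq N E _ _ hk'' _ _
    have h2 : expHom N E (ε⁻¹ * rep N k) (hmem (ε⁻¹ * rep N k)) =
        (twistHom ζ hζ0).comp (expHom N E (rep N k) (hmem (rep N k))) := by
      apply IsLocalization.ringHom_ext (nonZeroDivisors (AN N))
      refine RingHom.ext fun g => ?_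
      rw [RingHom.comp_apply, RingHom.comp_apply, RingHom.comp_apply, expHom_algebraMap,
        expHom_algebraMap]
      have e : trans (ε⁻¹ * rep N k) (g : ℍ → ℂ) =
          fun τ => trans (rep N k) (g : ℍ → ℂ) (ε • τ) := by
        funext τ
        rw [trans_apply, trans_apply, mul_inv_rev, inv_inv, mul_smul]
      rw [e]
      ext n
      rw [htw _ (AN_mem_trans N E (rep N k) (hmem (rep N k)) g.2) n, twistHom_coeff]
    show (expHom N E (rep N k') (hmem (rep N k')) f).coeff m = _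
    rw [h1, h2, RingHom.comp_apply, twistHom_coeff]

theorem mkLocalData_φ (E : ExpSys)
    (hmem : ∀ (γ : SL(2, ℤ)) (d : N.divisors), E.mem (jlev (d : ℕ) γ))
    (x : FC N) (ξ : LaurentSeries ℂ)
    (hx : ∀ θ : FC N →+* LaurentSeries ℂ, θ (jC N) = E.exp jfun → θ x = ξ)
    (a : ℂ) (e : ℕ) (he : 0 < e)
    (hne : ξ - HahnSeries.C a ≠ 0) (hord : (ξ - HahnSeries.C a).order = (e : ℤ))
    (ε : SL(2, ℤ)) (ζ : ℂ) (hζ : IsPrimitiveRoot ζ e)
    (htw : ∀ f : ℍ → ℂ, E.mem f → ∀ m : ℤ,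
      (E.exp (fun τ => f (ε • τ))).coeff m = ζ ^ m * (E.exp f).coeff m) :
    (mkLocalData N E hmem x ξ hx a e he hne hord ε ζ hζ htw).φ = RingHom.id ℂ := rfl

theorem mkLocalData_ι (E : ExpSys)
    (hmem : ∀ (γ : SL(2, ℤ)) (d : N.divisors), E.mem (jlev (d : ℕ) γ))
    (x : FC N) (ξ : LaurentSeries ℂ)
    (hx : ∀ θ : FC N →+* LaurentSeries ℂ, θ (jC N) = E.exp jfun → θ x = ξ)
    (a : ℂ) (e : ℕ) (he : 0 < e)
    (hne : ξ - HahnSeries.C a ≠ 0) (hord : (ξ - HahnSeries.C a).order = (e : ℤ))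
    (ε : SL(2, ℤ)) (ζ : ℂ) (hζ : IsPrimitiveRoot ζ e)
    (htw : ∀ f : ℍ → ℂ, E.mem f → ∀ m : ℤ,
      (E.exp (fun τ => f (ε • τ))).coeff m = ζ ^ m * (E.exp f).coeff m) (k : PN N) (G : AN N) :
    (mkLocalData N E hmem x ξ hx a e he hne hord ε ζ hζ htw).ι k (algebraMap (AN N) (FC N) G) =
      E.exp (fun z => (G : ℍ → ℂ) ((rep N k)⁻¹ • z)) :=
  expHom_algebraMap N E (rep N k) (hmem (rep N k)) G

/-- a point above `a` on the `j`-line, normalised at the elliptic points -/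
def tauC (a : ℂ) : ℍ :=
  if a = 1728 then UpperHalfPlane.I else if a = 0 then ellRho
  else Classical.choose (jfun_surjective a)

theorem tauC_1728 : tauC 1728 = UpperHalfPlane.I := if_pos rfl

theorem tauC_0 : tauC 0 = ellRho := by
  unfold tauC
  rw [if_neg (by norm_num), if_pos rfl]

theorem jfun_tauC (a : ℂ) : jfun (tauC a) = a := by
  unfold tauC
  split_ifs with h1 h2
  · rw [h1]; exact jfun_I
  · rw [h2]; exact jfun_ellRho
  · exact Classical.choose_spec (jfun_surjective a)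

/-- local data at a point of `ℍ` -/
theorem exists_LC_aux (a : ℂ) (τ₀ : ℍ) (e : ℕ) (he : 0 < e)
    (hord : analyticOrderAt (fun z : ℂ => jfun (ofComplex z) - a) (τ₀ : ℂ) = e)
    (ε : SL(2, ℤ)) (hε : ε • τ₀ = τ₀) (hζ : IsPrimitiveRoot (cayMult ε τ₀) e) :
    ∃ L : LocalData ℂ (FC N) (jC N) a (PN N), L.φ = RingHom.id ℂ ∧ L.e = e ∧
      L.ρ = (MulAction.toPerm ε : Equiv.Perm (PN N))⁻¹ ∧
      ∀ (k : PN N) (G : AN N), L.ι k (algebraMap (AN N) (FC N) G) =
        (taylorSys τ₀).exp (fun z => (G : ℍ → ℂ) ((rep N k)⁻¹ • z)) := by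
  have hord' := taylorSys_order τ₀ jfun_mdifferentiable a e hord
  refine ⟨mkLocalData N (taylorSys τ₀) (taylor_hmem N τ₀) (jC N) ((taylorSys τ₀).exp jfun)
    (fun θ h => h) a e he (hord'.2 he.ne') hord'.1 ε (cayMult ε τ₀) hζ
    (fun f hf m => taylorSys_smul_coeff τ₀ ε hε ((taylorSys_mem _ f).mp hf) m), rfl, rfl, rfl,
    fun k G => ?_⟩
  exact mkLocalData_ι N _ _ _ _ _ _ _ _ _ _ _ _ _ _ k G

theorem cayMult_one_eq (τ₀ : ℍ) : cayMult 1 τ₀ = 1 := cayMult_one τ₀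

/-- local data at every finite point of the `j`-line -/
theorem exists_LC (a : ℂ) :
    ∃ L : LocalData ℂ (FC N) (jC N) a (PN N), L.φ = RingHom.id ℂ ∧
      (a ≠ 0 → a ≠ 1728 → L.e = 1) ∧ (a = 1728 → L.e = 2 ∧ L.ρ = (sP N)⁻¹) ∧
      (a = 0 → L.e = 3 ∧ L.ρ = (uP N)⁻¹) ∧
      ∀ (k : PN N) (G : AN N), L.ι k (algebraMap (AN N) (FC N) G) =
        (taylorSys (tauC a)).exp (fun z => (G : ℍ → ℂ) ((rep N k)⁻¹ • z)) := by
  by_cases h1 : a = 1728
  · subst h1
    have hS : ModularGroup.S • tauC 1728 = tauC 1728 := by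
      rw [tauC_1728]; exact mcj_S_smul_I
    have hζ : IsPrimitiveRoot (cayMult ModularGroup.S (tauC 1728)) 2 := by
      rw [tauC_1728, cayMult_S_I]
      exact IsPrimitiveRoot.neg_one 0 (by norm_num)
    obtain ⟨L, hφ, he, hρ, hι⟩ := exists_LC_aux N 1728 (tauC 1728) 2 two_pos
      (by rw [tauC_1728]; simpa using analyticOrderAt_jfun_I) ModularGroup.S hS hζ
    exact ⟨L, hφ, fun _ h => absurd rfl h, fun _ => ⟨he, hρ⟩,
      fun h => absurd h (by norm_num), hι⟩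
  by_cases h0 : a = 0
  · subst h0
    have hU : (ModularGroup.S * ModularGroup.T) • tauC 0 = tauC 0 := by
      rw [tauC_0]; exact mcj_ST_smul_rho
    have hζ : IsPrimitiveRoot (cayMult (ModularGroup.S * ModularGroup.T) (tauC 0)) 3 := by
      rw [tauC_0]; exact cayMult_ST_rho
    obtain ⟨L, hφ, he, hρ, hι⟩ := exists_LC_aux N 0 (tauC 0) 3 (by norm_num)
      (by rw [tauC_0]; simpa using analyticOrderAt_jfun_ellRho)
      (ModularGroup.S * ModularGroup.T) hU hζ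
    exact ⟨L, hφ, fun h _ => absurd rfl h, fun h => absurd h h1, fun _ => ⟨he, hρ⟩, hι⟩
  · have hj0 : jfun (tauC a) ≠ 0 := by rw [jfun_tauC]; exact h0
    have hj1 : jfun (tauC a) ≠ 1728 := by rw [jfun_tauC]; exact h1
    have hord : analyticOrderAt (fun z : ℂ => jfun (ofComplex z) - a) (tauC a : ℂ) = (1 : ℕ) := by
      have := analyticOrderAt_jfun_generic (tauC a) hj0 hj1
      rw [jfun_tauC] at this
      simpa using this
    obtain ⟨L, hφ, he, -, hι⟩ := exists_LC_aux N a (tauC a) 1 one_pos hord 1 (one_smul _ _)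
      (by rw [cayMult_one_eq]; exact IsPrimitiveRoot.one)
    exact ⟨L, hφ, fun _ _ => he, fun h => absurd h h1, fun h => absurd h h0, hι⟩

/-- local data at `∞` -/
theorem exists_LinfC :
    ∃ L : LocalData ℂ (FC N) (jC N)⁻¹ 0 (PN N), L.φ = RingHom.id ℂ ∧ L.e = N ∧
      L.ρ = (tP N)⁻¹ ∧
      ∀ (k : PN N) (G : AN N), L.ι k (algebraMap (AN N) (FC N) G) =
        (cuspSys N).exp (fun z => (G : ℍ → ℂ) ((rep N k)⁻¹ • z)) := by
  have hexp : (cuspSys N).exp jfun = qExpand ℂ N (jqModC ℂ) := by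
    have := (isBridge_cuspSys N).exp ⟨1, one_mem_divisors N⟩
    have e : jlev ((⟨1, one_mem_divisors N⟩ : N.divisors) : ℕ) 1 = jfun := jlev_one_left 1
    rw [e] at this
    rw [this]
    exact qExpand_congr (mul_one N) _
  obtain ⟨hne, hord⟩ := order_qExpand_jqModC N
  have hinvne : (qExpand ℂ N (jqModC ℂ))⁻¹ ≠ 0 := inv_ne_zero hne
  have hordinv : ((qExpand ℂ N (jqModC ℂ))⁻¹).order = (N : ℤ) := by
    have h2 := HahnSeries.order_mul hne hinvne
    rw [mul_inv_cancel₀ hne, HahnSeries.order_one, hord] at h2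
    omega
  refine ⟨mkLocalData N (cuspSys N) (cusp_hmem N) (jC N)⁻¹ ((qExpand ℂ N (jqModC ℂ))⁻¹)
    (fun θ h => by rw [map_inv₀, h, hexp]) 0 N (Nat.pos_of_ne_zero (NeZero.ne N))
    (by rw [map_zero, sub_zero]; exact hinvne) (by rw [map_zero, sub_zero]; exact hordinv)
    ModularGroup.T (cexp (2 * π * Complex.I / N)) (Complex.isPrimitiveRoot_exp N (NeZero.ne N))
    (fun f hf m => (cuspSys_T N hf).2 m), rfl, rfl, rfl, fun k G => ?_⟩
  exact mkLocalData_ι N _ _ _ _ _ _ _ _ _ _ _ _ _ _ k G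

/-- **[MF-F]** local data of `FC N / ℂ(j)` at every point of the `j`-line, with the explicit
embeddings. -/
theorem localDataC :
    ∃ (rep : PN N → SL(2, ℤ)) (τ : ℂ → ℍ) (L : ∀ a : ℂ, LocalData ℂ (FC N) (jC N) a (PN N))
      (Linf : LocalData ℂ (FC N) (jC N)⁻¹ 0 (PN N)),
      (∀ k, (QuotientGroup.mk (rep k) : PN N) = k) ∧ (∀ a, jfun (τ a) = a) ∧
      τ 1728 = UpperHalfPlane.I ∧ τ 0 = ellRho ∧ (∀ a, (L a).φ = RingHom.id ℂ) ∧
      Linf.φ = RingHom.id ℂ ∧
      (∀ a, a ≠ 0 → a ≠ 1728 → (L a).e = 1) ∧ (L 1728).e = 2 ∧ (L 0).e = 3 ∧ Linf.e = N ∧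
      ((L 1728).ρ = sP N ∨ (L 1728).ρ = (sP N)⁻¹) ∧ ((L 0).ρ = uP N ∨ (L 0).ρ = (uP N)⁻¹) ∧
      (Linf.ρ = tP N ∨ Linf.ρ = (tP N)⁻¹) ∧
      (∀ a k (G : AN N), (L a).ι k (algebraMap (AN N) (FC N) G) =
        (taylorSys (τ a)).exp (fun z => (G : ℍ → ℂ) ((rep k)⁻¹ • z))) ∧
      (∀ k (G : AN N), Linf.ι k (algebraMap (AN N) (FC N) G) =
        (cuspSys N).exp (fun z => (G : ℍ → ℂ) ((rep k)⁻¹ • z))) := by
  choose L hLφ hLgen hL1728 hL0 hLι using exists_LC N
  obtain ⟨Linf, hIφ, hIe, hIρ, hIι⟩ := exists_LinfC N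
  exact ⟨rep N, tauC, L, Linf, mk_rep N, jfun_tauC, tauC_1728, tauC_0, hLφ, hIφ, hLgen,
    (hL1728 1728 rfl).1, (hL0 0 rfl).1, hIe, Or.inr (hL1728 1728 rfl).2, Or.inr (hL0 0 rfl).2,
    Or.inr hIρ, hLι, hIι⟩

end Field

end Fermat.Agent.MF
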