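import Mathlib
import Fermat.Agent.Lib.MC_Inv
import Fermat.Agent.Lib.MC_Defs

set_option autoImplicit false

/-!
# T20 [MF-F]: the function-level relation

A family `F c` (`c` a coset of `Γ₀(N)`) of holomorphic functions on `ℍ` of moderate growth at
`i∞` that is permuted by `SL(2,ℤ)` consists of roots of one monic polynomial of degree
`[SL(2,ℤ) : Γ₀(N)]` whose coefficients are polynomials in `j`.
-/

noncomputable section

namespace Fermat.Agent.MF

open UpperHalfPlane ModularForm Filter Fermat.Agent.MC Polynomial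
open scoped MatrixGroups Manifold

theorem discriminant_bdd : IsBoundedAtImInfty (discriminant : ℍ → ℂ) :=
  ModularFormClass.bdd_at_infty CuspForm.discriminant

theorem discriminant_pow_bdd (m : ℕ) : IsBoundedAtImInfty (fun τ : ℍ => discriminant τ ^ m) := by
  induction m with
  | zero =>
      simp only [pow_zero]
      exact Filter.const_boundedAtFilter _ _
  | succ m ih =>
      have : (fun τ : ℍ => discriminant τ ^ (m + 1)) =
          (fun τ : ℍ => discriminant τ ^ m) * discriminant := by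
        funext τ
        simp [pow_succ]
      rw [this]
      exact ih.mul discriminant_bdd

theorem bdd_pow_mono {f : ℍ → ℂ} {m m' : ℕ} (h : m ≤ m')
    (hb : IsBoundedAtImInfty (fun τ => discriminant τ ^ m * f τ)) :
    IsBoundedAtImInfty (fun τ => discriminant τ ^ m' * f τ) := by
  have : (fun τ => discriminant τ ^ m' * f τ) =
      (fun τ : ℍ => discriminant τ ^ (m' - m)) * (fun τ => discriminant τ ^ m * f τ) := by
    funext τ
    simp only [Pi.mul_apply]
    rw [← mul_assoc, ← pow_add, Nat.sub_add_cancel h]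
  rw [this]
  exact (discriminant_pow_bdd (m' - m)).mul hb

/-- the algebra of holomorphic functions on `ℍ` of moderate growth at `i∞` -/
def growthAlg : Subalgebra ℂ (ℍ → ℂ) where
  carrier := {f | MDiff f ∧ ∃ m : ℕ, IsBoundedAtImInfty (fun τ => discriminant τ ^ m * f τ)}
  mul_mem' := by
    rintro f g ⟨hf, m, hm⟩ ⟨hg, n, hn⟩
    refine ⟨hf.mul hg, m + n, ?_⟩
    have : (fun τ => discriminant τ ^ (m + n) * (f * g) τ) =
        (fun τ => discriminant τ ^ m * f τ) * (fun τ => discriminant τ ^ n * g τ) := by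
      funext τ
      simp only [Pi.mul_apply]
      ring
    rw [this]
    exact hm.mul hn
  add_mem' := by
    rintro f g ⟨hf, m, hm⟩ ⟨hg, n, hn⟩
    refine ⟨hf.add hg, m + n, ?_⟩
    have : (fun τ => discriminant τ ^ (m + n) * (f + g) τ) =
        (fun τ => discriminant τ ^ (m + n) * f τ) + (fun τ => discriminant τ ^ (m + n) * g τ) := by
      funext τ
      simp only [Pi.add_apply]
      ring
    rw [this]
    exact (bdd_pow_mono (Nat.le_add_right m n) hm).add (bdd_pow_mono (Nat.le_add_left n m) hn)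
  algebraMap_mem' := by
    intro c
    refine ⟨?_, 0, ?_⟩
    · exact mdifferentiable_const
    · simp only [pow_zero, one_mul]
      exact Filter.const_boundedAtFilter _ _

theorem mem_growthAlg {f : ℍ → ℂ} : f ∈ growthAlg ↔
    MDiff f ∧ ∃ m : ℕ, IsBoundedAtImInfty (fun τ => discriminant τ ^ m * f τ) := Iff.rfl

/-- evaluation at a point -/
def evalG (τ : ℍ) : growthAlg →+* ℂ :=
  (Pi.evalRingHom (fun _ : ℍ => ℂ) τ).comp growthAlg.subtype

theorem evalG_apply (τ : ℍ) (f : growthAlg) : evalG τ f = (f : ℍ → ℂ) τ := rfl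

section Family

variable {ι : Type} [Fintype ι]

/-- the polynomial with roots `F c` -/
def prodPoly (F : ι → growthAlg) : Polynomial growthAlg := ∏ c, (X - C (F c))

theorem prodPoly_map (F : ι → growthAlg) (τ : ℍ) :
    (prodPoly F).map (evalG τ) = ∏ c, (X - C ((F c : ℍ → ℂ) τ)) := by
  unfold prodPoly
  rw [Polynomial.map_prod]
  refine Finset.prod_congr rfl fun c _ => ?_
  rw [Polynomial.map_sub, Polynomial.map_X, Polynomial.map_C, evalG_apply]

theorem prodPoly_coeff_apply (F : ι → growthAlg) (i : ℕ) (τ : ℍ) :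
    (((prodPoly F).coeff i : growthAlg) : ℍ → ℂ) τ =
      (∏ c, (X - C ((F c : ℍ → ℂ) τ))).coeff i := by
  rw [← prodPoly_map, Polynomial.coeff_map, evalG_apply]

end Family

/-- **The relation.** -/
theorem exists_rel_of_family (N : ℕ) [NeZero N] (F : PN N → ℍ → ℂ) (hF : ∀ c, MDiff (F c))
    (hgr : ∀ c, ∃ m : ℕ, IsBoundedAtImInfty (fun τ => discriminant τ ^ m * F c τ))
    (hperm : ∀ (γ : SL(2, ℤ)) (c : PN N) (τ : ℍ), F c (γ • τ) = F (γ⁻¹ • c) τ) :
    ∃ Q : ℕ → Polynomial ℂ, Q (Fintype.card (PN N)) = 1 ∧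
      ∀ (c : PN N) (τ : ℍ), ∑ i ∈ Finset.range (Fintype.card (PN N) + 1),
        (Q i).eval (jfun τ) * F c τ ^ i = 0 := by
  classical
  set n := Fintype.card (PN N) with hn
  let F' : PN N → growthAlg := fun c => ⟨F c, hF c, hgr c⟩
  -- the pointwise polynomial
  let p : ℍ → Polynomial ℂ := fun τ => ∏ c, (X - C (F c τ))
  have hp : ∀ i τ, (((prodPoly F').coeff i : growthAlg) : ℍ → ℂ) τ = (p τ).coeff i :=
    fun i τ => prodPoly_coeff_apply F' i τ
  have hpinv : ∀ (γ : SL(2, ℤ)) (τ : ℍ), p (γ • τ) = p τ := by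
    intro γ τ
    show ∏ c, (X - C (F c (γ • τ))) = ∏ c, (X - C (F c τ))
    have h1 : ∀ c, (X - C (F c (γ • τ)) : Polynomial ℂ) =
        X - C (F ((MulAction.toPerm γ⁻¹ : Equiv.Perm (PN N)) c) τ) := by
      intro c
      rw [hperm γ c τ]
      rfl
    rw [Finset.prod_congr rfl fun c _ => h1 c]
    exact Equiv.prod_comp (MulAction.toPerm γ⁻¹ : Equiv.Perm (PN N)) (fun c => X - C (F c τ))
  have hmonic : ∀ τ, (p τ).Monic := fun τ =>
    Polynomial.monic_prod_of_monic _ _ fun c _ => Polynomial.monic_X_sub_C _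
  have hdeg : ∀ τ, (p τ).natDegree = n := by
    intro τ
    have := Polynomial.natDegree_finsetProd_X_sub_C_eq_card (Finset.univ : Finset (PN N))
      (fun c => F c τ)
    rw [Finset.card_univ] at this
    exact this
  -- the coefficients are polynomials in `j`
  have hcoef : ∀ i : ℕ, ∃ Q : Polynomial ℂ, ∀ τ, (p τ).coeff i = Q.eval (jfun τ) := by
    intro i
    obtain ⟨hmd, M, hM⟩ := ((prodPoly F').coeff i).2
    obtain ⟨Q, -, hQ⟩ := inv_poly M (((prodPoly F').coeff i : growthAlg) : ℍ → ℂ) hmd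
      (fun γ τ => by rw [hp, hp, hpinv]) hM
    exact ⟨Q, fun τ => by rw [← hp, hQ]⟩
  choose Q' hQ' using hcoef
  refine ⟨fun i => if i = n then 1 else Q' i, if_pos rfl, fun c τ => ?_⟩
  have hroot : (p τ).eval (F c τ) = 0 := by
    show (∏ c', (X - C (F c' τ))).eval (F c τ) = 0
    rw [Polynomial.eval_prod]
    exact Finset.prod_eq_zero (Finset.mem_univ c) (by simp)
  rw [Polynomial.eval_eq_sum_range, hdeg] at hroot
  rw [← hroot]
  refine Finset.sum_congr rfl fun i _ => ?_
  show (if i = n then (1 : Polynomial ℂ) else Q' i).eval (jfun τ) * F c τ ^ i = _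
  by_cases hi : i = n
  · rw [if_pos hi, hi]
    have := (hmonic τ).coeff_natDegree
    rw [hdeg] at this
    rw [this]
    simp
  · rw [if_neg hi, hQ' i τ]

end Fermat.Agent.MF
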