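import Mathlib
import Fermat.Agent.Lib.MF_Field
import Fermat.Agent.Lib.MF_Rel
import Fermat.Agent.Lib.MC_FinDeg

set_option autoImplicit false

/-!
# T20 [MF-F] part 2: `[FC N : ℂ(j)] = [SL(2,ℤ) : Γ₀(N)]`
-/

noncomputable section

namespace Fermat.Agent.MF

open UpperHalfPlane ModularCurve IntermediateField Complex Polynomial
open Fermat.Agent.FF Fermat.Agent.MC CongruenceSubgroup
open scoped MatrixGroups Real Manifold

/-- evaluation at a point, on `AN N` -/
def evalA (N : ℕ) (τ : ℍ) : AN N →ₐ[ℂ] ℂ :=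
  (Pi.evalAlgHom ℂ (fun _ : ℍ => ℂ) τ).comp (AN N).val

theorem evalA_apply (N : ℕ) (τ : ℍ) (G : AN N) : evalA N τ G = (G : ℍ → ℂ) τ := rfl

theorem trans_of_mk_eq (N : ℕ) {f : ℍ → ℂ} (hf : f ∈ AN N) (γ γ' : SL(2, ℤ))
    (h : (QuotientGroup.mk γ : PN N) = QuotientGroup.mk γ') : trans γ' f = trans γ f := by
  have hg : γ⁻¹ * γ' ∈ Gamma0 N := QuotientGroup.eq.mp h
  have e : γ' = γ * (γ⁻¹ * γ') := by rw [mul_inv_cancel_left]
  rw [e]
  exact trans_mul_Gamma0 N hf γ _ hg

theorem trans_one (f : ℍ → ℂ) : trans 1 f = f := by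
  funext τ
  rw [trans_apply, inv_one, one_smul]

section

variable (N : ℕ) [NeZero N]

theorem aeval_jA_apply (p : Polynomial ℂ) (τ : ℍ) :
    ((aeval (jA N) p : AN N) : ℍ → ℂ) τ = p.eval (jfun τ) := by
  rw [← evalA_apply, ← Polynomial.aeval_algHom_apply, evalA_apply]
  show aeval (jfun τ) p = _
  rw [Polynomial.coe_aeval_eq_eval]

theorem aeval_jC (p : Polynomial ℂ) :
    aeval (jC N) p = algebraMap (AN N) (FC N) (aeval (jA N) p) := by
  unfold jC
  rw [Polynomial.aeval_algebraMap_apply]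

/-- `j` is transcendental over `ℂ`. -/
theorem transcendental_jC : Transcendental ℂ (jC N) := by
  rintro ⟨p, hp0, hp⟩
  apply hp0
  rw [aeval_jC] at hp
  have h1 : aeval (jA N) p = 0 :=
    (IsFractionRing.injective (AN N) (FC N)) (by rw [hp, map_zero])
  apply Polynomial.funext
  intro a
  obtain ⟨τ, rfl⟩ := jfun_surjective a
  rw [← aeval_jA_apply N p τ, h1, Polynomial.eval_zero]
  rfl

/-- the function-level relation for an element of `AN N` -/
theorem exists_rel_AN {G : ℍ → ℂ} (hG : G ∈ AN N) :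
    ∃ Q : ℕ → Polynomial ℂ, Q (Fintype.card (PN N)) = 1 ∧
      ∀ τ : ℍ, ∑ i ∈ Finset.range (Fintype.card (PN N) + 1),
        (Q i).eval (jfun τ) * G τ ^ i = 0 := by
  obtain ⟨Q, hQ1, hQ⟩ := exists_rel_of_family N (fun c => trans (rep N c) G)
    (fun c => (taylorSys_mem UpperHalfPlane.I _).mp
      (AN_mem_trans N (taylorSys UpperHalfPlane.I) (rep N c)
        (taylor_hmem N UpperHalfPlane.I (rep N c)) hG))
    (fun c => cuspSys_bdd N (AN_mem_trans N (cuspSys N) (rep N c) (cusp_hmem N (rep N c)) hG))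
    (fun γ c τ => by
      have h1 : trans (rep N c) G (γ • τ) = trans (γ⁻¹ * rep N c) G τ := by
        rw [trans_apply, trans_apply, mul_inv_rev, inv_inv, mul_smul]
      have h2 : (QuotientGroup.mk (γ⁻¹ * rep N c) : PN N) = QuotientGroup.mk (rep N (γ⁻¹ • c)) := by
        rw [mk_rep N (γ⁻¹ • c)]
        conv_rhs => rw [← mk_rep N c]
        rfl
      show trans (rep N c) G (γ • τ) = trans (rep N (γ⁻¹ • c)) G τ
      rw [h1, trans_of_mk_eq N hG _ _ h2])
  refine ⟨Q, hQ1, fun τ => ?_⟩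
  have h3 : trans (rep N (QuotientGroup.mk 1 : PN N)) G = G := by
    rw [trans_of_mk_eq N hG 1 (rep N (QuotientGroup.mk 1 : PN N)) (mk_rep N _).symm, trans_one]
  have := hQ (QuotientGroup.mk 1 : PN N) τ
  simp only [h3] at this
  exact this

/-- the image of `AN N` in the function field -/
def SA : Subalgebra ℂ (FC N) := (IsScalarTower.toAlgHom ℂ (AN N) (FC N)).range

omit [NeZero N] in
theorem algebraMap_mem_SA (G : AN N) : algebraMap (AN N) (FC N) G ∈ SA N := ⟨G, rfl⟩

omit [NeZero N] in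
theorem adjoin_SA : IntermediateField.adjoin ℂ ((SA N : Subalgebra ℂ (FC N)) : Set (FC N)) = ⊤ := by
  rw [eq_top_iff]
  intro z _
  obtain ⟨a, b, -, rfl⟩ := IsFractionRing.div_surjective (A := AN N) z
  exact div_mem (IntermediateField.subset_adjoin ℂ _ (algebraMap_mem_SA N a))
    (IntermediateField.subset_adjoin ℂ _ (algebraMap_mem_SA N b))

theorem finrank_FC_le :
    FiniteDimensional ℂ⟮jC N⟯ (FC N) ∧ Module.finrank ℂ⟮jC N⟯ (FC N) ≤ Fintype.card (PN N) := by
  set n := Fintype.card (PN N) with hn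
  refine finrank_le_of_subalgebra (jC N) (SA N) (algebraMap_mem_SA N (jA N)) (adjoin_SA N) n ?_
  rintro s ⟨G, rfl⟩
  show ∃ p : Polynomial ℂ⟮jC N⟯, p ≠ 0 ∧ p.natDegree ≤ n ∧
    aeval (algebraMap (AN N) (FC N) G) p = 0
  obtain ⟨Q, hQ1, hQ⟩ := exists_rel_AN N G.2
  set gen : ℂ⟮jC N⟯ := IntermediateField.AdjoinSimple.gen ℂ (jC N) with hgen
  have hgen' : algebraMap ℂ⟮jC N⟯ (FC N) gen = jC N :=
    IntermediateField.AdjoinSimple.algebraMap_gen ℂ (jC N)
  refine ⟨∑ i ∈ Finset.range (n + 1), C (aeval gen (Q i)) * X ^ i, ?_, ?_, ?_⟩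
  · intro h0
    have h1 := congrArg (fun p : Polynomial ℂ⟮jC N⟯ => p.coeff n) h0
    simp only [Polynomial.finsetSum_coeff, Polynomial.coeff_C_mul_X_pow, Polynomial.coeff_zero]
      at h1
    rw [Finset.sum_eq_single n (fun i _ hi => by rw [if_neg (Ne.symm hi)])
      (fun h => absurd (Finset.mem_range.mpr (Nat.lt_succ_self n)) h), if_pos rfl, hQ1,
      map_one] at h1
    exact one_ne_zero h1
  · refine Polynomial.natDegree_sum_le_of_forall_le _ _ fun i hi => ?_
    exact (Polynomial.natDegree_C_mul_X_pow_le _ _).trans (Nat.lt_succ_iff.mp (Finset.mem_range.mp hi))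
  · rw [map_sum]
    have h1 : ∀ i, aeval (algebraMap (AN N) (FC N) G)
        (C (aeval gen (Q i)) * X ^ i : Polynomial ℂ⟮jC N⟯) =
        algebraMap (AN N) (FC N) (aeval (jA N) (Q i) * G ^ i) := by
      intro i
      rw [map_mul, Polynomial.aeval_C, map_pow, Polynomial.aeval_X, map_mul, map_pow,
        ← Polynomial.aeval_algebraMap_apply, hgen', aeval_jC]
    rw [Finset.sum_congr rfl fun i _ => h1 i, ← map_sum]
    have h2 : ∑ i ∈ Finset.range (n + 1), aeval (jA N) (Q i) * G ^ i = 0 := by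
      apply Subtype.ext
      funext τ
      have h3 : ((∑ i ∈ Finset.range (n + 1), aeval (jA N) (Q i) * G ^ i : AN N) : ℍ → ℂ) τ =
          ∑ i ∈ Finset.range (n + 1), (Q i).eval (jfun τ) * (G : ℍ → ℂ) τ ^ i := by
        rw [← evalA_apply, map_sum]
        refine Finset.sum_congr rfl fun i _ => ?_
        rw [map_mul, map_pow, evalA_apply, evalA_apply, aeval_jA_apply]
      rw [h3, hQ τ]
      rfl
    rw [h2, map_zero]

/-- `FC N` is a finite extension of `ℂ(j)`. -/
theorem finiteDimensional_FC : FiniteDimensional ℂ⟮jC N⟯ (FC N) := (finrank_FC_le N).1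

/-- `[FC N : ℂ(j)] = [SL(2,ℤ) : Γ₀(N)]`. -/
theorem finrank_FC : Module.finrank ℂ⟮jC N⟯ (FC N) = Fintype.card (PN N) := by
  haveI := finiteDimensional_FC N
  obtain ⟨L, -⟩ := exists_LC N 5
  exact le_antisymm (finrank_FC_le N).2 (card_le_finrank_of_localData (jC N) 5 (PN N) L)

end

end Fermat.Agent.MF
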