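import Fermat.Agent.Lib.MF_Degree
import Fermat.Agent.Lib.FF_Canon
import Fermat.Agent.Lib.RR_LSpace

set_option autoImplicit false

/-!
# T20 [MF-S] (S-a): elements of `L(div dj)` — integrality of `y⁶ j⁴ (j - 1728)³` and its order
at the cusps
-/

noncomputable section

namespace Fermat.Agent.MF

open ModularCurve AlgebraicCurve CongruenceSubgroup IntermediateField Fermat.Agent.FF
  Fermat.Agent.MC
open scoped MatrixGroups

section Generic

variable {K : Type*} {F : Type*} [Field K] [Field F] [Algebra K F]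

theorem sa_ord_x_sub_of_ne (v : Place K F) {x : F} {a c : K}
    (hv : 0 < v.ord (x - algebraMap K F a)) (hc : c ≠ a) :
    v.ord (x - algebraMap K F c) = 0 := by
  have h1 : x - algebraMap K F c = algebraMap K F (a - c) + (x - algebraMap K F a) := by
    rw [map_sub]; ring
  have h2 : algebraMap K F (a - c) ≠ 0 := (map_ne_zero _).mpr (sub_ne_zero.mpr (Ne.symm hc))
  rw [h1, place_ord_add_eq_of_lt v h2 (by rw [place_ord_algebraMap]; exact hv),
    place_ord_algebraMap]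

theorem sa_ord_x_sub_of_pole (v : Place K F) {x : F} (hv : v.ord x < 0) (c : K) :
    v.ord (x - algebraMap K F c) = v.ord x := by
  have hx : x ≠ 0 := by rintro rfl; simp at hv
  rw [sub_eq_add_neg]
  apply place_ord_add_eq_of_lt v hx
  rw [place_ord_neg, place_ord_algebraMap]; exact hv

end Generic

theorem sa_le_of_mul_eq {c E m : ℤ} (hc : 0 < c) (hE : 0 < E) (h : c * E = m) : E ≤ m := by
  nlinarith

theorem sa_case_zero {o E : ℤ} (h1 : 0 ≤ o + (E - 1)) (h2 : E ≤ 3) :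
    0 ≤ 6 * o + 4 * E + 3 * 0 := by linarith

theorem sa_case_one {o E : ℤ} (h1 : 0 ≤ o + (E - 1)) (h2 : E ≤ 2) :
    0 ≤ 6 * o + 4 * 0 + 3 * E := by linarith

theorem sa_case_gen {o E : ℤ} (h1 : 0 ≤ o + (E - 1)) (h2 : E ≤ 1) :
    0 ≤ 6 * o + 4 * 0 + 3 * 0 := by linarith

theorem sa_case_inf {o X c n : ℤ} (hc : 0 < c) (h : c * -X = n) (h1 : 0 ≤ o + (X - 1)) :
    -n < c * (6 * o + 4 * X + 3 * X) := by
  nlinarith [mul_nonneg hc.le h1]

variable (N : ℕ) [NeZero N]

theorem sa_jC_ne_zero : jC N ≠ 0 := fun h =>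
  transcendental_jC N (h ▸ isAlgebraic_zero)

theorem sa_jC_sub_ne_zero (c : ℂ) : jC N - algebraMap ℂ (FC N) c ≠ 0 := fun h =>
  transcendental_jC N ((sub_eq_zero.mp h) ▸ isAlgebraic_algebraMap c)

omit [NeZero N] in
theorem sa_ofNat : (1728 : FC N) = algebraMap ℂ (FC N) 1728 := (map_ofNat _ 1728).symm

theorem sa_ord_u6 (v : Place ℂ (FC N)) {y : FC N} (hy : y ≠ 0) :
    v.ord (y ^ 6 * jC N ^ 4 * (jC N - 1728) ^ 3)
      = 6 * v.ord y + 4 * v.ord (jC N) + 3 * v.ord (jC N - algebraMap ℂ (FC N) 1728) := by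
  have hx0 := sa_jC_ne_zero N
  have hx1 := sa_jC_sub_ne_zero N 1728
  rw [sa_ofNat N, Place.ord_mul _ (mul_ne_zero (pow_ne_zero _ hy) (pow_ne_zero _ hx0))
    (pow_ne_zero _ hx1), Place.ord_mul _ (pow_ne_zero _ hy) (pow_ne_zero _ hx0),
    place_ord_pow, place_ord_pow, place_ord_pow]
  push_cast
  ring

/-- (S-a), finite part: `y⁶ j⁴ (j - 1728)³` is integral over `ℂ[j]` for `y ∈ L(div dj)`. -/
theorem sa_integral (W : Divisor ℂ (FC N))
    (hfin : ∀ (v : Place ℂ (FC N)) (a : ℂ), 0 < v.ord (jC N - algebraMap ℂ (FC N) a) →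
      W v = v.ord (jC N - algebraMap ℂ (FC N) a) - 1)
    (y : FC N) (hy : y ∈ RR.LSpace W) :
    IsIntegral (Algebra.adjoin ℂ ({jC N} : Set (FC N)))
      (y ^ 6 * jC N ^ 4 * (jC N - 1728) ^ 3) := by
  have hfd := finiteDimensional_FC N
  have htr := transcendental_jC N
  rcases eq_or_ne y 0 with rfl | hy0
  · simpa using (isIntegral_zero (R := Algebra.adjoin ℂ ({jC N} : Set (FC N))) (B := FC N))
  obtain ⟨-, -, L, Linf, -, -, -, -, -, -, hgen, h1728, h0, -, -, -, -, -, -⟩ := localDataC N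
  have hn := finrank_FC N
  have hI : Nonempty (PN N) := ⟨QuotientGroup.mk 1⟩
  have hy' : ∀ v : Place ℂ (FC N), 0 ≤ v.ord y + W v := (RR.mem_LSpace_of_ne_zero hy0).mp hy
  apply isIntegral_of_regular (jC N) htr
  intro v hv
  rcases place_over (jC N) htr v with ⟨a, ha⟩ | hneg
  swap
  · exact absurd hv (not_le.mpr hneg)
  have hyv := hy' v
  rw [hfin v a ha] at hyv
  obtain ⟨k, hk⟩ := (L a).exists_pl_eq hn v ha
  have hcst := (L a).cst_mul_ord_x_sub k
  have hcpos := (L a).cst_pos k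
  rw [hk] at hcst
  rw [sa_ord_u6 N v hy0]
  obtain ⟨E, hE⟩ : ∃ E : ℤ, E = v.ord (jC N - algebraMap ℂ (FC N) a) := ⟨_, rfl⟩
  have haE : 0 < E := hE ▸ ha
  rw [← hE] at hyv hcst
  by_cases ha0 : a = 0
  · have hx : v.ord (jC N) = E := by rw [hE, ha0, map_zero, sub_zero]
    have hx' : v.ord (jC N - algebraMap ℂ (FC N) 1728) = 0 :=
      sa_ord_x_sub_of_ne v ha (by rw [ha0]; norm_num)
    have he3 : ((L a).e : ℤ) = 3 := by rw [ha0, h0]; rfl
    rw [he3] at hcst
    rw [hx, hx']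
    exact sa_case_zero hyv (sa_le_of_mul_eq hcpos haE hcst)
  · by_cases ha1 : a = 1728
    · have hx : v.ord (jC N) = 0 := by
        have := sa_ord_x_sub_of_ne v (c := 0) ha (Ne.symm ha0)
        rwa [map_zero, sub_zero] at this
      have hx' : v.ord (jC N - algebraMap ℂ (FC N) 1728) = E := by rw [hE, ha1]
      have he2 : ((L a).e : ℤ) = 2 := by rw [ha1, h1728]; rfl
      rw [he2] at hcst
      rw [hx, hx']
      exact sa_case_one hyv (sa_le_of_mul_eq hcpos haE hcst)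
    · have he1 : ((L a).e : ℤ) = 1 := by rw [hgen a ha0 ha1]; rfl
      rw [he1] at hcst
      have hx : v.ord (jC N) = 0 := by
        have := sa_ord_x_sub_of_ne v (c := 0) ha (Ne.symm ha0)
        rwa [map_zero, sub_zero] at this
      have hx' : v.ord (jC N - algebraMap ℂ (FC N) 1728) = 0 :=
        sa_ord_x_sub_of_ne v ha (Ne.symm ha1)
      rw [hx, hx']
      exact sa_case_gen hyv (sa_le_of_mul_eq hcpos haE hcst)

/-- (S-a), cusps: the expansion of `y⁶ j⁴ (j - 1728)³` at every cusp has order `> -N`. -/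
theorem sa_cusp_order (W : Divisor ℂ (FC N))
    (hinf : ∀ v : Place ℂ (FC N), v.ord (jC N) < 0 → W v = v.ord (jC N) - 1)
    (y : FC N) (hy : y ∈ RR.LSpace W) (γ : SL(2, ℤ)) :
    -(N : ℤ) < (expHom N (cuspSys N) γ (cusp_hmem N γ)
      (y ^ 6 * jC N ^ 4 * (jC N - 1728) ^ 3)).order := by
  have hNpos : (0 : ℤ) < N := by exact_mod_cast Nat.pos_of_ne_zero (NeZero.ne N)
  rcases eq_or_ne y 0 with rfl | hy0
  · simp only [ne_eq, OfNat.ofNat_ne_zero, not_false_eq_true, zero_pow, zero_mul, map_zero,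
      HahnSeries.order_zero]
    linarith
  obtain ⟨rep, -, L, Linf, hrep, -, -, -, -, -, -, -, -, hLe, -, -, -, -, hLι⟩ := localDataC N
  have hI : Nonempty (PN N) := ⟨QuotientGroup.mk 1⟩
  have hθ : expHom N (cuspSys N) γ (cusp_hmem N γ) = Linf.ι (QuotientGroup.mk γ) := by
    rw [expHom_of_mk_eq N (cuspSys N) (rep (QuotientGroup.mk γ)) γ (hrep _)
      (cusp_hmem N (rep (QuotientGroup.mk γ))) (cusp_hmem N γ)]
    apply IsLocalization.ringHom_ext (nonZeroDivisors (AN N))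
    refine RingHom.ext fun G => ?_
    rw [RingHom.comp_apply, RingHom.comp_apply, expHom_algebraMap, hLι]
    rfl
  rw [hθ]
  set k : PN N := QuotientGroup.mk γ with hk
  have hy' : ∀ v : Place ℂ (FC N), 0 ≤ v.ord y + W v := (RR.mem_LSpace_of_ne_zero hy0).mp hy
  have hu : y ^ 6 * jC N ^ 4 * (jC N - 1728) ^ 3 ≠ 0 := by
    rw [sa_ofNat N]
    exact mul_ne_zero (mul_ne_zero (pow_ne_zero _ hy0) (pow_ne_zero _ (sa_jC_ne_zero N)))
      (pow_ne_zero _ (sa_jC_sub_ne_zero N 1728))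
  have hov := Linf.pl_over k
  have hcst := Linf.cst_mul_ord_x_sub k
  have hcpos := Linf.cst_pos k
  rw [map_zero, sub_zero, Place.ord_inv] at hov hcst
  have hneg : (Linf.pl k).ord (jC N) < 0 := by linarith
  have hyv := hy' (Linf.pl k)
  rw [hinf _ hneg] at hyv
  rw [Linf.order_ι k hu, sa_ord_u6 N _ hy0, sa_ord_x_sub_of_pole _ hneg]
  rw [hLe] at hcst
  exact sa_case_inf hcpos hcst hyv

end Fermat.Agent.MF
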