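import Mathlib

/-!
# T23 piece (6): integrality over holomorphic functions
-/

set_option autoImplicit false

open UpperHalfPlane
open scoped Manifold Topology

namespace Fermat.Agent.T23

/-- Triangle inequality applied to a monic equation. -/
theorem div_norm_pow_le {m : ℕ} (u : ℂ) (a : Fin m → ℂ)
    (h : u ^ m + ∑ i : Fin m, a i * u ^ (m - 1 - (i : ℕ)) = 0) :
    ‖u‖ ^ m ≤ ∑ i : Fin m, ‖a i‖ * ‖u‖ ^ (m - 1 - (i : ℕ)) := by
  have h1 : u ^ m = -∑ i : Fin m, a i * u ^ (m - 1 - (i : ℕ)) := eq_neg_of_add_eq_zero_left h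
  calc ‖u‖ ^ m = ‖u ^ m‖ := (norm_pow u m).symm
    _ = ‖∑ i : Fin m, a i * u ^ (m - 1 - (i : ℕ))‖ := by rw [h1, norm_neg]
    _ ≤ ∑ i : Fin m, ‖a i * u ^ (m - 1 - (i : ℕ))‖ := norm_sum_le _ _
    _ = ∑ i : Fin m, ‖a i‖ * ‖u‖ ^ (m - 1 - (i : ℕ)) := by simp [norm_mul, norm_pow]

/-- A monic equation of degree `0` is absurd. -/
theorem div_pos_of_monic {m : ℕ} (u : ℂ) (a : Fin m → ℂ)
    (h : u ^ m + ∑ i : Fin m, a i * u ^ (m - 1 - (i : ℕ)) = 0) : 0 < m := by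
  rcases Nat.eq_zero_or_pos m with rfl | hm
  · simp at h
  · exact hm

/-- Root bound: a root of a monic polynomial is bounded by `1 +` the sum of the norms of the
lower coefficients. -/
theorem div_root_bound {m : ℕ} (u : ℂ) (a : Fin m → ℂ)
    (h : u ^ m + ∑ i : Fin m, a i * u ^ (m - 1 - (i : ℕ)) = 0) :
    ‖u‖ ≤ 1 + ∑ i : Fin m, ‖a i‖ := by
  by_contra hcon
  push_neg at hcon
  have hS : 0 ≤ ∑ i : Fin m, ‖a i‖ := Finset.sum_nonneg (fun i _ => norm_nonneg _)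
  have hu1 : 1 < ‖u‖ := by linarith
  have hm : 0 < m := div_pos_of_monic u a h
  have h1 := div_norm_pow_le u a h
  have h2 : ∑ i : Fin m, ‖a i‖ * ‖u‖ ^ (m - 1 - (i : ℕ))
      ≤ ∑ i : Fin m, ‖a i‖ * ‖u‖ ^ (m - 1) := by
    apply Finset.sum_le_sum
    intro i _
    apply mul_le_mul_of_nonneg_left _ (norm_nonneg _)
    exact pow_le_pow_right₀ hu1.le (Nat.sub_le _ _)
  have h3 : ‖u‖ ^ m = ‖u‖ * ‖u‖ ^ (m - 1) := by
    rw [← pow_succ']; congr 1; omega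
  have h4 : ‖u‖ * ‖u‖ ^ (m - 1) ≤ (∑ i : Fin m, ‖a i‖) * ‖u‖ ^ (m - 1) := by
    rw [← h3, Finset.sum_mul]; exact h1.trans h2
  have h5 : 0 < ‖u‖ ^ (m - 1) := pow_pos (by linarith) _
  have h6 : ‖u‖ ≤ ∑ i : Fin m, ‖a i‖ := le_of_mul_le_mul_right h4 h5
  linarith

/-- Root bound: small lower coefficients force a small root. -/
theorem div_root_small {m : ℕ} (u : ℂ) (a : Fin m → ℂ)
    (h : u ^ m + ∑ i : Fin m, a i * u ^ (m - 1 - (i : ℕ)) = 0) (ε : ℝ) (hε : 0 < ε)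
    (ha : ∀ i : Fin m, ‖a i‖ < ε ^ ((i : ℕ) + 1) / m) : ‖u‖ ≤ ε := by
  by_contra hcon
  push_neg at hcon
  have hm : 0 < m := div_pos_of_monic u a h
  have hu0 : 0 < ‖u‖ := by linarith
  have hmR : (0 : ℝ) < m := by exact_mod_cast hm
  have h1 := div_norm_pow_le u a h
  haveI : Nonempty (Fin m) := ⟨⟨0, hm⟩⟩
  have h2 : ∑ i : Fin m, ‖a i‖ * ‖u‖ ^ (m - 1 - (i : ℕ)) < ∑ _i : Fin m, ‖u‖ ^ m / m := by
    apply Finset.sum_lt_sum_of_nonempty Finset.univ_nonempty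
    intro i _
    have hi : (i : ℕ) + 1 + (m - 1 - (i : ℕ)) = m := by omega
    calc ‖a i‖ * ‖u‖ ^ (m - 1 - (i : ℕ))
        < ε ^ ((i : ℕ) + 1) / m * ‖u‖ ^ (m - 1 - (i : ℕ)) :=
          mul_lt_mul_of_pos_right (ha i) (pow_pos hu0 _)
      _ ≤ ‖u‖ ^ ((i : ℕ) + 1) / m * ‖u‖ ^ (m - 1 - (i : ℕ)) := by
          apply mul_le_mul_of_nonneg_right _ (pow_nonneg hu0.le _)
          apply div_le_div_of_nonneg_right _ hmR.le
          exact pow_le_pow_left₀ hε.le hcon.le _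
      _ = ‖u‖ ^ m / m := by
          rw [div_mul_eq_mul_div, ← pow_add, hi]
  have h3 : ∑ _i : Fin m, ‖u‖ ^ m / m = ‖u‖ ^ m := by
    rw [Finset.sum_const, Finset.card_univ, Fintype.card_fin, nsmul_eq_mul]
    field_simp
  linarith

/-- Two functions continuous at a point that agree on a punctured neighbourhood agree at the
point. -/
theorem div_eq_of_eventually_ne {φ ψ : ℂ → ℂ} {z₀ : ℂ} (hφ : ContinuousAt φ z₀)
    (hψ : ContinuousAt ψ z₀) (hev : ∀ᶠ z in 𝓝[≠] z₀, φ z = ψ z) : φ z₀ = ψ z₀ :=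
  tendsto_nhds_unique_of_eventuallyEq (hφ.tendsto.mono_left nhdsWithin_le_nhds)
    (hψ.tendsto.mono_left nhdsWithin_le_nhds) hev

/-- (6a) If `g, d, c i` are holomorphic on `ℍ`, `d ≠ 0` and
`g ^ m + ∑ i, c i · d ^ (i + 1) · g ^ (m - 1 - i) = 0`, then `g = d · F` with `F` holomorphic and
`F ^ m + ∑ i, c i · F ^ (m - 1 - i) = 0`. -/
theorem exists_div_of_monic {m : ℕ} (g d : ℍ → ℂ) (c : Fin m → ℍ → ℂ) (hg : MDiff g)
    (hd : MDiff d) (hc : ∀ i, MDiff (c i)) (hd0 : d ≠ 0)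
    (h : ∀ z, g z ^ m + ∑ i : Fin m, c i z * d z ^ ((i : ℕ) + 1) * g z ^ (m - 1 - (i : ℕ)) = 0) :
    ∃ F : ℍ → ℂ, MDiff F ∧ (∀ z, g z = d z * F z) ∧
      ∀ z, F z ^ m + ∑ i : Fin m, c i z * F z ^ (m - 1 - (i : ℕ)) = 0 := by
  classical
  obtain ⟨U, hU⟩ : ∃ U : Set ℂ, U = {z : ℂ | 0 < z.im} := ⟨_, rfl⟩
  have hUo : IsOpen U := by rw [hU]; exact isOpen_upperHalfPlaneSet
  have hUc : IsPreconnected U := by rw [hU]; exact (convex_halfSpace_im_gt 0).isPreconnected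
  obtain ⟨G, hG⟩ : ∃ G : ℂ → ℂ, G = g ∘ ofComplex := ⟨_, rfl⟩
  obtain ⟨D, hD⟩ : ∃ D : ℂ → ℂ, D = d ∘ ofComplex := ⟨_, rfl⟩
  obtain ⟨C, hC⟩ : ∃ C : Fin m → ℂ → ℂ, C = fun i => c i ∘ ofComplex := ⟨_, rfl⟩
  have hGd : DifferentiableOn ℂ G U := by rw [hG, hU]; exact UpperHalfPlane.mdifferentiable_iff.mp hg
  have hDd : DifferentiableOn ℂ D U := by rw [hD, hU]; exact UpperHalfPlane.mdifferentiable_iff.mp hd
  have hCd : ∀ i, DifferentiableOn ℂ (C i) U := fun i => by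
    rw [hC, hU]; exact UpperHalfPlane.mdifferentiable_iff.mp (hc i)
  have heq : ∀ z, G z ^ m
      + ∑ i : Fin m, C i z * D z ^ ((i : ℕ) + 1) * G z ^ (m - 1 - (i : ℕ)) = 0 := fun z => by
    rw [hG, hD, hC]; exact h (ofComplex z)
  have hGat : ∀ z ∈ U, DifferentiableAt ℂ G z := fun z hz =>
    hGd.differentiableAt (hUo.mem_nhds hz)
  have hDat : ∀ z ∈ U, DifferentiableAt ℂ D z := fun z hz =>
    hDd.differentiableAt (hUo.mem_nhds hz)
  have hCat : ∀ i, ∀ z ∈ U, DifferentiableAt ℂ (C i) z := fun i z hz =>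
    (hCd i).differentiableAt (hUo.mem_nhds hz)
  obtain ⟨Q, hQ⟩ : ∃ Q : ℂ → ℂ, Q = fun z => G z / D z := ⟨_, rfl⟩
  -- the monic equation for the quotient
  have key : ∀ z, D z ≠ 0 → Q z ^ m + ∑ i : Fin m, C i z * Q z ^ (m - 1 - (i : ℕ)) = 0 := by
    intro z hz
    have hDm : D z ^ m ≠ 0 := pow_ne_zero m hz
    apply mul_left_cancel₀ hDm
    rw [mul_zero, mul_add, Finset.mul_sum, ← heq z]
    congr 1
    · rw [hQ]; simp only; rw [div_pow, mul_div_cancel₀ _ hDm]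
    · apply Finset.sum_congr rfl
      intro i _
      have hsplit : D z ^ m = D z ^ ((i : ℕ) + 1) * D z ^ (m - 1 - (i : ℕ)) := by
        rw [← pow_add]; congr 1; omega
      have hk : D z ^ (m - 1 - (i : ℕ)) ≠ 0 := pow_ne_zero _ hz
      rw [hQ]; simp only; rw [hsplit, div_pow]
      field_simp
  -- zeros of `D` are isolated
  have hDa : AnalyticOnNhd ℂ D U := hDd.analyticOnNhd hUo
  obtain ⟨τ₁, hτ₁⟩ : ∃ τ₁ : ℍ, d τ₁ ≠ 0 := by
    by_contra hcon
    push_neg at hcon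
    exact hd0 (funext hcon)
  have hz₁ : D (τ₁ : ℂ) ≠ 0 := by
    rw [hD]; simpa [ofComplex_apply] using hτ₁
  have hz₁U : (τ₁ : ℂ) ∈ U := by rw [hU]; exact τ₁.im_pos
  have hiso : ∀ z₀ ∈ U, ∀ᶠ z in 𝓝[≠] z₀, D z ≠ 0 := by
    intro z₀ hz₀
    by_contra hcon
    rw [Filter.not_eventually] at hcon
    have hfreq : ∃ᶠ z in 𝓝[≠] z₀, D z = 0 := hcon.mono (fun z hz => not_not.mp hz)
    have := hDa.eqOn_zero_of_preconnected_of_frequently_eq_zero hUc hz₀ hfreq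
    exact hz₁ (this hz₁U)
  -- the candidate
  obtain ⟨Fc, hFc⟩ : ∃ Fc : ℂ → ℂ, Fc = fun z => Filter.limUnder (𝓝[≠] z) Q := ⟨_, rfl⟩
  have hQat : ∀ z ∈ U, D z ≠ 0 → DifferentiableAt ℂ Q z := by
    intro z hz hDz
    rw [hQ]
    exact (hGat z hz).div (hDat z hz) hDz
  have claim1 : ∀ z ∈ U, D z ≠ 0 → Fc z = Q z := by
    intro z hz hDz
    rw [hFc]
    exact ((hQat z hz hDz).continuousAt.tendsto.mono_left nhdsWithin_le_nhds).limUnder_eq
  have claim2 : ∀ z₀ ∈ U, DifferentiableAt ℂ Fc z₀ := by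
    intro z₀ hz₀
    have hs : ∀ᶠ z in 𝓝 z₀, z ∈ U ∧ (z ≠ z₀ → D z ≠ 0) ∧
        ∀ i : Fin m, ‖C i z‖ < ‖C i z₀‖ + 1 := by
      refine (hUo.eventually_mem hz₀).and ((eventually_nhdsWithin_iff.mp (hiso z₀ hz₀)).and ?_)
      rw [Filter.eventually_all]
      intro i
      exact ((hCat i z₀ hz₀).continuousAt.norm).eventually_lt continuousAt_const (by linarith)
    obtain ⟨s, hs_prop, hs_open, hz₀s⟩ := eventually_nhds_iff.mp hs
    have hdiff : DifferentiableOn ℂ Q (s \ {z₀}) := by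
      intro z hz
      obtain ⟨hzU, hzD, -⟩ := hs_prop z hz.1
      exact (hQat z hzU (hzD hz.2)).differentiableWithinAt
    have hbdd : BddAbove (norm ∘ Q '' (s \ {z₀})) := by
      refine ⟨1 + ∑ i : Fin m, (‖C i z₀‖ + 1), ?_⟩
      rintro _ ⟨z, hz, rfl⟩
      obtain ⟨hzU, hzD, hzC⟩ := hs_prop z hz.1
      have hb := div_root_bound (Q z) (fun i => C i z) (key z (hzD hz.2))
      have hsum : ∑ i : Fin m, ‖C i z‖ ≤ ∑ i : Fin m, (‖C i z₀‖ + 1) :=
        Finset.sum_le_sum (fun i _ => (hzC i).le)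
      simp only [Function.comp_apply]
      linarith
    have hupd := Complex.differentiableOn_update_limUnder_of_bddAbove
      (hs_open.mem_nhds hz₀s) hdiff hbdd
    have hagree : ∀ z ∈ s, Fc z = Function.update Q z₀ (Filter.limUnder (𝓝[≠] z₀) Q) z := by
      intro z hz
      by_cases hzz : z = z₀
      · subst hzz
        rw [Function.update_self, hFc]
      · rw [Function.update_of_ne hzz]
        obtain ⟨hzU, hzD, -⟩ := hs_prop z hz
        exact claim1 z hzU (hzD hzz)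
    have hFs : DifferentiableOn ℂ Fc s := hupd.congr hagree
    exact hFs.differentiableAt (hs_open.mem_nhds hz₀s)
  have hevU : ∀ z₀ ∈ U, ∀ᶠ z in 𝓝[≠] z₀, z ∈ U ∧ D z ≠ 0 := fun z₀ hz₀ =>
    (eventually_nhdsWithin_of_eventually_nhds (hUo.eventually_mem hz₀)).and (hiso z₀ hz₀)
  have claim3 : ∀ z₀ ∈ U, G z₀ = D z₀ * Fc z₀ := by
    intro z₀ hz₀
    refine div_eq_of_eventually_ne (hGat z₀ hz₀).continuousAt
      ((hDat z₀ hz₀).continuousAt.mul (claim2 z₀ hz₀).continuousAt) ?_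
    filter_upwards [hevU z₀ hz₀] with z hz
    show G z = D z * Fc z
    rw [claim1 z hz.1 hz.2, hQ]
    field_simp [hz.2]
  have claim4 : ∀ z₀ ∈ U, Fc z₀ ^ m + ∑ i : Fin m, C i z₀ * Fc z₀ ^ (m - 1 - (i : ℕ)) = 0 := by
    intro z₀ hz₀
    have hcont : ContinuousAt
        (fun z => Fc z ^ m + ∑ i : Fin m, C i z * Fc z ^ (m - 1 - (i : ℕ))) z₀ := by
      apply ContinuousAt.add ((claim2 z₀ hz₀).continuousAt.pow m)
      apply tendsto_finset_sum
      intro i _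
      exact ((hCat i z₀ hz₀).continuousAt.mul ((claim2 z₀ hz₀).continuousAt.pow _))
    have hev : ∀ᶠ z in 𝓝[≠] z₀,
        (fun z => Fc z ^ m + ∑ i : Fin m, C i z * Fc z ^ (m - 1 - (i : ℕ))) z
          = (fun _ => (0 : ℂ)) z := by
      filter_upwards [hevU z₀ hz₀] with z hz
      rw [claim1 z hz.1 hz.2]
      exact key z hz.2
    exact div_eq_of_eventually_ne
      (φ := fun z => Fc z ^ m + ∑ i : Fin m, C i z * Fc z ^ (m - 1 - (i : ℕ)))
      (ψ := fun _ => (0 : ℂ)) hcont continuousAt_const hev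
  -- back to the upper half plane
  refine ⟨fun τ => Fc (τ : ℂ), ?_, ?_, ?_⟩
  · rw [UpperHalfPlane.mdifferentiable_iff]
    have hFU : DifferentiableOn ℂ Fc {z : ℂ | 0 < z.im} := by
      rw [← hU]
      exact fun z hz => (claim2 z hz).differentiableWithinAt
    refine hFU.congr ?_
    intro z hz
    simp only [Function.comp_apply]
    rw [ofComplex_apply_of_im_pos hz]
  · intro τ
    have hτU : (τ : ℂ) ∈ U := by rw [hU]; exact τ.im_pos
    have := claim3 (τ : ℂ) hτU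
    rw [hG, hD] at this
    simpa [ofComplex_apply] using this
  · intro τ
    have hτU : (τ : ℂ) ∈ U := by rw [hU]; exact τ.im_pos
    have := claim4 (τ : ℂ) hτU
    rw [hC] at this
    simpa [ofComplex_apply] using this

/-- (6b) A root of a monic polynomial whose lower coefficients tend to `0` at `i∞` tends to `0`
at `i∞`. -/
theorem isZeroAtImInfty_of_monic {m : ℕ} (F : ℍ → ℂ) (c : Fin m → ℍ → ℂ)
    (hc : ∀ i, IsZeroAtImInfty (c i))
    (h : ∀ z, F z ^ m + ∑ i : Fin m, c i z * F z ^ (m - 1 - (i : ℕ)) = 0) :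
    IsZeroAtImInfty F := by
  have hm : 0 < m := div_pos_of_monic (F UpperHalfPlane.I) (fun i => c i UpperHalfPlane.I)
    (h UpperHalfPlane.I)
  have hmR : (0 : ℝ) < m := by exact_mod_cast hm
  unfold IsZeroAtImInfty Filter.ZeroAtFilter
  rw [Metric.tendsto_nhds]
  intro ε hε
  have hev : ∀ᶠ z in atImInfty, ∀ i : Fin m, ‖c i z‖ < (ε / 2) ^ ((i : ℕ) + 1) / m := by
    rw [Filter.eventually_all]
    intro i
    have hpos : 0 < (ε / 2) ^ ((i : ℕ) + 1) / m := by positivity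
    have h1 := (Metric.tendsto_nhds.mp (hc i)) _ hpos
    filter_upwards [h1] with z hz
    simpa [dist_zero_right] using hz
  filter_upwards [hev] with z hz
  rw [dist_zero_right]
  have := div_root_small (F z) (fun i => c i z) (h z) (ε / 2) (by positivity) hz
  linarith

end Fermat.Agent.T23
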