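import Mathlib
import Fermat.Agent.Lib.MF_Field
import Fermat.Agent.Lib.T23_Div

set_option autoImplicit false

/-!
# T20 [MF-S]: from the Riemann-Roch space to cusp forms of weight 2

For `y` in the function field `FC N` such that `y ^ 6 * j ^ 4 * (j - 1728) ^ 3` is integral over
`ℂ[j]` and has order `> -N` at every cusp, the differential `y dj` is holomorphic on `X₀(N)`:
the function `f = j' · y` is a cusp form of weight 2 and level `Γ₀(N)`.

Main result: `exists_injective_to_cuspForm`.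
-/

noncomputable section

namespace Fermat.Agent.MF

open UpperHalfPlane ModularForm EisensteinSeries ModularCurve Complex Filter
open Fermat.Agent.MC CongruenceSubgroup
open scoped MatrixGroups Real Manifold Topology

local notation "𝕢" => Function.Periodic.qParam

/-! ### The derivative of `j` -/

/-- the derivative of `j` -/
def jder (τ : ℍ) : ℂ := deriv (jfun ∘ ofComplex) τ

theorem jder_eq (τ : ℍ) :
    jder τ = -(2 * π * Complex.I) * E₄ τ ^ 2 * E₆ τ / ModularForm.discriminant τ :=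
  deriv_jfun τ

theorem jder_mdiff : MDiff jder := by
  have h4 : MDiff (E₄ : ℍ → ℂ) := E₄.holo'
  have h6 : MDiff (E₆ : ℍ → ℂ) := E₆.holo'
  have h : MDiff ((fun z : ℍ => -(2 * π * Complex.I) * E₄ z ^ 2 * E₆ z
      / ModularForm.discriminant z : ℍ → ℂ)) := by
    rw [UpperHalfPlane.mdifferentiable_iff] at h4 h6 ⊢
    have hΔ := UpperHalfPlane.mdifferentiable_iff.mp mcj_disc_mdifferentiable
    refine ((((differentiableOn_const (-(2 * π * Complex.I))).mul (h4.pow 2)).mul h6).div hΔ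
      ?_).congr ?_
    · intro x hx
      simp only [Function.comp_apply]
      exact discriminant_ne_zero _
    · intro x hx
      simp [Function.comp_apply]
  have e : jder = (fun z : ℍ => -(2 * π * Complex.I) * E₄ z ^ 2 * E₆ z
      / ModularForm.discriminant z : ℍ → ℂ) := funext jder_eq
  rw [e]
  exact h

theorem jder_smul (γ : SL(2, ℤ)) (τ : ℍ) : jder (γ • τ) = denom γ τ ^ 2 * jder τ := by
  rw [jder_eq, jder_eq, mcj_levelOne_smul E₄ γ τ, mcj_levelOne_smul E₆ γ τ, mcj_disc_smul γ τ]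
  have hd : denom γ τ ≠ 0 := denom_ne_zero _ _
  have hΔ := discriminant_ne_zero τ
  field_simp

theorem jder_pow_six (τ : ℍ) :
    jder τ ^ 6 = (-(2 * π * Complex.I)) ^ 6 *
      (jfun τ ^ 4 * (jfun τ - 1728) ^ 3 * ModularForm.discriminant τ) := by
  have hΔ := discriminant_ne_zero τ
  rw [jder_eq, jfun_sub_1728]
  unfold jfun
  field_simp

theorem jder_ne_zero : jder ≠ 0 := by
  obtain ⟨z, hz⟩ := jfun_surjective 1
  intro h
  have h1 := deriv_jfun_ne_zero z (by rw [hz]; norm_num) (by rw [hz]; norm_num)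
  exact h1 (congrFun h z)

/-! ### Translates of holomorphic functions -/

theorem mdiff_trans (γ : SL(2, ℤ)) {f : ℍ → ℂ} (hf : MDiff f) : MDiff (trans γ f) := by
  have e : trans γ f = f ∣[(0 : ℤ)] γ⁻¹ := by
    funext τ
    rw [ModularForm.SL_slash_apply]
    simp [trans_apply]
  rw [e, ModularForm.SL_slash]
  exact hf.slash 0 _

/-! ### The ring of holomorphic functions on `ℍ` and its field of fractions -/

/-- the `ℂ`-algebra of holomorphic functions on `ℍ` -/
def Hol : Subalgebra ℂ (ℍ → ℂ) where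
  carrier := {f | MDiff f}
  mul_mem' := fun {_ _} hf hg => mdiff_mul hf hg
  add_mem' := fun {_ _} hf hg => mdiff_add hf hg
  algebraMap_mem' := fun c => mdiff_const c

theorem mem_Hol {f : ℍ → ℂ} : f ∈ Hol ↔ MDiff f := Iff.rfl

instance instNoZeroDivisorsHol : NoZeroDivisors Hol where
  eq_zero_or_eq_zero_of_mul_eq_zero := by
    rintro ⟨a, ha⟩ ⟨b, hb⟩ hab
    have h : ∀ z, a z * b z = 0 := fun z => congrFun (congrArg Subtype.val hab) z
    rcases mf_mdiff_mul_eq_zero ha hb h with h1 | h1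
    · left; exact Subtype.ext h1
    · right; exact Subtype.ext h1

instance instIsDomainHol : IsDomain Hol := NoZeroDivisors.to_isDomain _

/-- the field of meromorphic functions (fractions of holomorphic functions) on `ℍ` -/
abbrev MH : Type := FractionRing Hol

/-- a holomorphic function, as an element of `MH` -/
def toMH (f : ℍ → ℂ) (hf : MDiff f) : MH := algebraMap Hol MH ⟨f, hf⟩

theorem toMH_injective {f g : ℍ → ℂ} {hf : MDiff f} {hg : MDiff g}
    (h : toMH f hf = toMH g hg) : f = g := by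
  have := IsFractionRing.injective Hol MH h
  exact congrArg Subtype.val this

theorem toMH_mul {f g : ℍ → ℂ} (hf : MDiff f) (hg : MDiff g) :
    toMH (f * g) (mdiff_mul hf hg) = toMH f hf * toMH g hg := by
  unfold toMH
  rw [← map_mul]
  rfl

theorem toMH_add {f g : ℍ → ℂ} (hf : MDiff f) (hg : MDiff g) :
    toMH (f + g) (mdiff_add hf hg) = toMH f hf + toMH g hg := by
  unfold toMH
  rw [← map_add]
  rfl

theorem toMH_congr {f g : ℍ → ℂ} (hf : MDiff f) (hg : MDiff g) (h : f = g) :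
    toMH f hf = toMH g hg := by
  subst h
  rfl

theorem toMH_eq_zero {f : ℍ → ℂ} {hf : MDiff f} (h : toMH f hf = 0) : f = 0 := by
  have h0 : toMH f hf = toMH 0 (mdiff_const 0) := by
    rw [h]
    unfold toMH
    exact (map_zero _).symm
  exact toMH_injective h0

theorem AN_le_Hol (N : ℕ) : AN N ≤ Hol := fun _ hf => AN_mdiff N hf

/-- the inclusion of `AN N` into the holomorphic functions -/
def inclH (N : ℕ) : AN N →ₐ[ℂ] Hol := Subalgebra.inclusion (AN_le_Hol N)

theorem inclH_injective (N : ℕ) : Function.Injective (inclH N) :=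
  Subalgebra.inclusion_injective (AN_le_Hol N)

/-- `AN N → MH` -/
def inclM (N : ℕ) : AN N →ₐ[ℂ] MH := (IsScalarTower.toAlgHom ℂ Hol MH).comp (inclH N)

theorem inclM_apply (N : ℕ) (G : AN N) : inclM N G = toMH (G : ℍ → ℂ) (AN_mdiff N G.2) := rfl

theorem inclM_injective (N : ℕ) : Function.Injective (inclM N) := by
  intro a b h
  exact inclH_injective N (IsFractionRing.injective Hol MH h)

/-- the embedding of the function field `FC N` into the meromorphic functions on `ℍ` -/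
def iotaM (N : ℕ) : FC N →ₐ[ℂ] MH := IsFractionRing.liftAlgHom (inclM_injective N)

theorem iotaM_algebraMap (N : ℕ) (G : AN N) :
    iotaM N (algebraMap (AN N) (FC N) G) = toMH (G : ℍ → ℂ) (AN_mdiff N G.2) := by
  unfold iotaM
  rw [IsFractionRing.liftAlgHom_apply, IsFractionRing.lift_algebraMap]
  rfl

theorem iotaM_injective (N : ℕ) : Function.Injective (iotaM N) := (iotaM N).toRingHom.injective

theorem toMH_one : toMH (fun _ => 1) (mdiff_const 1) = 1 := by
  unfold toMH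
  exact map_one _

/-- if `y = G / H`, a holomorphic `f` represents `k · y` iff `H f = k G`. -/
theorem toMH_eq_mul_iotaM_iff (N : ℕ) {y : FC N} {G H : AN N} (hH : H ≠ 0)
    (hy : y * algebraMap (AN N) (FC N) H = algebraMap (AN N) (FC N) G) {k f : ℍ → ℂ}
    (hk : MDiff k) (hf : MDiff f) :
    toMH f hf = toMH k hk * iotaM N y ↔ ∀ τ, (H : ℍ → ℂ) τ * f τ = k τ * (G : ℍ → ℂ) τ := by
  have hHm : MDiff (H : ℍ → ℂ) := AN_mdiff N H.2
  have hGm : MDiff (G : ℍ → ℂ) := AN_mdiff N G.2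
  have h1 : iotaM N y * toMH (H : ℍ → ℂ) hHm = toMH (G : ℍ → ℂ) hGm := by
    rw [← iotaM_algebraMap, ← iotaM_algebraMap, ← map_mul, hy]
  have hH' : toMH (H : ℍ → ℂ) hHm ≠ 0 := fun h => hH (Subtype.ext (toMH_eq_zero h))
  constructor
  · intro h τ
    have h2 : toMH ((H : ℍ → ℂ) * f) (mdiff_mul hHm hf)
        = toMH (k * (G : ℍ → ℂ)) (mdiff_mul hk hGm) := by
      rw [toMH_mul hHm hf, toMH_mul hk hGm, h, ← h1]
      ring
    exact congrFun (toMH_injective h2) τ
  · intro h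
    have h2 : toMH ((H : ℍ → ℂ) * f) (mdiff_mul hHm hf)
        = toMH (k * (G : ℍ → ℂ)) (mdiff_mul hk hGm) := toMH_congr _ _ (funext h)
    rw [toMH_mul hHm hf, toMH_mul hk hGm, ← h1] at h2
    apply mul_left_cancel₀ hH'
    rw [h2]
    ring

/-- if `y = G / H`, a holomorphic `f` represents `y` iff `H f = G`. -/
theorem toMH_eq_iotaM_iff (N : ℕ) {y : FC N} {G H : AN N} (hH : H ≠ 0)
    (hy : y * algebraMap (AN N) (FC N) H = algebraMap (AN N) (FC N) G) {f : ℍ → ℂ}
    (hf : MDiff f) :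
    toMH f hf = iotaM N y ↔ ∀ τ, (H : ℍ → ℂ) τ * f τ = (G : ℍ → ℂ) τ := by
  have h := toMH_eq_mul_iotaM_iff N hH hy (mdiff_const 1) hf
  rw [toMH_one, one_mul] at h
  rw [h]
  simp

/-- every element of the function field is a quotient of elements of `AN N` -/
theorem exists_frac (N : ℕ) (y : FC N) : ∃ G H : AN N, H ≠ 0 ∧
    y * algebraMap (AN N) (FC N) H = algebraMap (AN N) (FC N) G := by
  obtain ⟨G, H, hH, rfl⟩ := IsFractionRing.div_surjective (A := AN N) y
  have hH0 : H ≠ 0 := nonZeroDivisors.ne_zero hH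
  have hH1 : algebraMap (AN N) (FC N) H ≠ 0 := by
    intro h
    exact hH0 ((IsFractionRing.injective (AN N) (FC N)) (by rw [h, map_zero]))
  exact ⟨G, H, hH0, div_mul_cancel₀ _ hH1⟩

/-- evaluation at a point -/
def evA (N : ℕ) (z : ℍ) : AN N →+* ℂ :=
  (Pi.evalRingHom (fun _ : ℍ => ℂ) z).comp (AN N).val.toRingHom

theorem evA_apply (N : ℕ) (z : ℍ) (F : AN N) : evA N z F = (F : ℍ → ℂ) z := rfl

/-- integrality over `ℂ[j]` implies integrality over `AN N` -/
theorem isIntegral_AN_of_adjoin (N : ℕ) [NeZero N] (u : FC N)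
    (h : IsIntegral (Algebra.adjoin ℂ {jC N}) u) : IsIntegral (AN N) u := by
  obtain ⟨p, hp, hpu⟩ := h
  set q := p.map (algebraMap (Algebra.adjoin ℂ {jC N}) (FC N)) with hq
  have hqm : q.Monic := hp.map _
  have hqu : q.eval u = 0 := by
    rw [hq, Polynomial.eval_map]
    exact hpu
  have hle : Algebra.adjoin ℂ {jC N} ≤ (IsScalarTower.toAlgHom ℂ (AN N) (FC N)).range := by
    apply Algebra.adjoin_le
    rintro _ rfl
    exact ⟨jA N, rfl⟩
  have hlift : q ∈ Polynomial.lifts (algebraMap (AN N) (FC N)) := by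
    rw [Polynomial.lifts_iff_coeff_lifts]
    intro n
    rw [hq, Polynomial.coeff_map]
    obtain ⟨a, ha⟩ := hle (p.coeff n).2
    exact ⟨a, ha⟩
  obtain ⟨P, hP, -, hPm⟩ := Polynomial.lifts_and_natDegree_eq_and_monic hlift hqm
  refine ⟨P, hPm, ?_⟩
  rw [← Polynomial.eval_map, hP]
  exact hqu

/-- the monic equation satisfied by the numerator of an integral element -/
theorem exists_monic_fun_eq (N : ℕ) (u : FC N) (hint : IsIntegral (AN N) u) (G H : AN N)
    (hH : H ≠ 0) (hu : u * algebraMap (AN N) (FC N) H = algebraMap (AN N) (FC N) G) :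
    ∃ (m : ℕ) (c : Fin m → AN N), ∀ z : ℍ, (G : ℍ → ℂ) z ^ m + ∑ i : Fin m,
      (c i : ℍ → ℂ) z * (H : ℍ → ℂ) z ^ ((i : ℕ) + 1) * (G : ℍ → ℂ) z ^ (m - 1 - (i : ℕ)) = 0 := by
  obtain ⟨P, hP, hPu⟩ := hint
  have hinj : Function.Injective (algebraMap (AN N) (FC N)) := IsFractionRing.injective _ _
  have hH1 : algebraMap (AN N) (FC N) H ≠ 0 := by
    intro h
    exact hH (hinj (by rw [h, map_zero]))
  have hu' : u = algebraMap (AN N) (FC N) G / algebraMap (AN N) (FC N) H := by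
    rw [← hu, mul_div_cancel_right₀ _ hH1]
  rw [hu'] at hPu
  have h1 := Polynomial.scaleRoots_eval₂_eq_zero_of_eval₂_div_eq_zero hinj hPu
    (mem_nonZeroDivisors_of_ne_zero hH)
  rw [Polynomial.eval₂_at_apply] at h1
  have h2 : Polynomial.eval G (P.scaleRoots H) = 0 := hinj (by rw [h1, map_zero])
  rw [Polynomial.eval_eq_sum_range, Polynomial.natDegree_scaleRoots, Finset.sum_range_succ,
    Polynomial.coeff_scaleRoots, hP.coeff_natDegree, Nat.sub_self, pow_zero, mul_one, one_mul]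
    at h2
  refine ⟨P.natDegree, fun i => P.coeff (P.natDegree - 1 - (i : ℕ)), fun z => ?_⟩
  have h3 := congrArg (evA N z) h2
  simp only [map_add, map_sum, map_mul, map_pow, map_zero, Polynomial.coeff_scaleRoots,
    evA_apply] at h3
  rw [← h3, add_comm]
  congr 1
  rw [← Finset.sum_range (fun i => (P.coeff (P.natDegree - 1 - i) : ℍ → ℂ) z
    * (H : ℍ → ℂ) z ^ (i + 1) * (G : ℍ → ℂ) z ^ (P.natDegree - 1 - i)),
    ← Finset.sum_range_reflect]
  apply Finset.sum_congr rfl
  intro i hi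
  have hi' : i < P.natDegree := Finset.mem_range.mp hi
  have e1 : P.natDegree - 1 - (P.natDegree - 1 - i) = i := by omega
  have e2 : P.natDegree - 1 - i + 1 = P.natDegree - i := by omega
  rw [e1, e2]

/-! ### Orders at the cusp -/

/-- a lower bound on the order of the expansion at `∞` bounds the order of the pole -/
theorem cusp_bdd_of_order (h : ℕ) [NeZero h] {f : ℍ → ℂ} (hf : (cuspSys h).mem f) (n : ℕ)
    (hn : -(n : ℤ) ≤ ((cuspSys h).exp f).order) :
    IsBoundedAtImInfty (fun τ => cuspW h τ ^ n * f τ) := by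
  obtain ⟨hfm, hfp, m, hb⟩ := hf
  rcases le_or_gt m n with hmn | hmn
  · exact cuspBdd_of_le hfm hfp hb hmn
  · have hr := cuspReg_of hfm hfp hb
    obtain ⟨a, ha⟩ : ∃ a : ℕ → ℂ, a = fun i =>
        (qExpansion (h : ℝ) (fun τ => cuspW h τ ^ m * f τ)).coeff i := ⟨_, rfl⟩
    have hs : ∀ τ : ℍ, HasSum (fun i : ℕ => a i * cuspW h τ ^ i) (cuspW h τ ^ m * f τ) := by
      intro τ
      rw [ha]
      exact hr.qExp_hasSum τ
    have hexp := cuspSys_of_hasSum h f m a hs
    obtain ⟨k, hk⟩ : ∃ k : ℕ, k = m - n := ⟨_, rfl⟩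
    have hmk : m = n + k := by omega
    have ha0 : ∀ i, i < k → a i = 0 := by
      intro i hi
      have h1 := hexp.2 ((i : ℤ) - m)
      have e1 : (0 : ℤ) ≤ (i : ℤ) - m + m := by omega
      have e2 : ((i : ℤ) - m + m).toNat = i := by
        rw [sub_add_cancel, Int.toNat_natCast]
      rw [if_pos e1, e2] at h1
      rw [← h1]
      apply HahnSeries.coeff_eq_zero_of_lt_order
      omega
    have hs2 : ∀ τ : ℍ, HasSum (fun i : ℕ => a (i + k) * cuspW h τ ^ i) (cuspW h τ ^ n * f τ) := by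
      intro τ
      have hw : cuspW h τ ≠ 0 := cuspW_ne_zero h τ
      have h1 := (hasSum_nat_add_iff' k).mpr (hs τ)
      have h2 : ∑ i ∈ Finset.range k, a i * cuspW h τ ^ i = 0 :=
        Finset.sum_eq_zero (fun i hi => by rw [ha0 i (Finset.mem_range.mp hi), zero_mul])
      rw [h2, sub_zero] at h1
      have h3 := h1.mul_left (cuspW h τ ^ k)⁻¹
      have e1 : (fun i : ℕ => a (i + k) * cuspW h τ ^ i)
          = fun i : ℕ => (cuspW h τ ^ k)⁻¹ * (a (i + k) * cuspW h τ ^ (i + k)) := by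
        funext i
        rw [pow_add]
        field_simp
      have e2 : cuspW h τ ^ n * f τ = (cuspW h τ ^ k)⁻¹ * (cuspW h τ ^ m * f τ) := by
        rw [hmk, pow_add]
        field_simp
      rw [e1, e2]
      exact h3
    apply isBoundedAtImInfty_of_hasSum_qExpansion (h := (h : ℝ)) (c := fun i => a (i + k))
      (cusp_hpos h)
    intro τ
    simpa [cuspW_eq, smul_eq_mul] using hs2 τ

/-- if `g` has a pole of order `< h` in `w` at `∞`, then `Δ · g` vanishes at `∞`. -/
theorem disc_mul_isZeroAtImInfty (h : ℕ) [NeZero h] {g : ℍ → ℂ}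
    (hb : IsBoundedAtImInfty (fun τ => cuspW h τ ^ (h - 1) * g τ)) :
    IsZeroAtImInfty (fun τ => ModularForm.discriminant τ * g τ) := by
  have hq : ∀ τ : ℍ, 𝕢 1 (τ : ℂ) = cuspW h τ ^ h := by
    intro τ
    unfold cuspW Function.Periodic.qParam
    rw [← Complex.exp_nat_mul]
    congr 1
    have : (h : ℂ) ≠ 0 := Nat.cast_ne_zero.mpr (NeZero.ne h)
    field_simp
    simp
  have hE : IsBoundedAtImInfty (fun τ : ℍ => eulerG (𝕢 1 (τ : ℂ))) := by
    have hc : ContinuousAt eulerG 0 :=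
      ((eulerG_differentiableOn 0 (Metric.mem_ball_self one_pos)).differentiableAt
        (Metric.ball_mem_nhds 0 one_pos)).continuousAt
    have ht : Tendsto (fun τ : ℍ => 𝕢 1 (τ : ℂ)) atImInfty (𝓝 0) :=
      UpperHalfPlane.qParam_tendsto_atImInfty one_pos
    exact (hc.tendsto.comp ht).isBigO_one ℝ
  have e : (fun τ => ModularForm.discriminant τ * g τ)
      = cuspW h * ((fun τ => cuspW h τ ^ (h - 1) * g τ) *
          ((fun τ : ℍ => eulerG (𝕢 1 (τ : ℂ))) ^ 24)) := by
    funext τ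
    have h1 : cuspW h τ ^ h = cuspW h τ * cuspW h τ ^ (h - 1) := by
      rw [← pow_succ']
      congr 1
      have := NeZero.pos h
      omega
    simp only [Pi.mul_apply, Pi.pow_apply]
    rw [jf_disc_eq, hq, h1]
    ring
  rw [e]
  exact ZeroAtFilter.mul_boundedAtFilter (cuspW_tendsto h)
    (hb.mul (isBoundedAtImInfty_pow hE 24))

/-- a function whose sixth power vanishes at `∞` vanishes at `∞` -/
theorem isZeroAtImInfty_of_pow_six {F : ℍ → ℂ} (h : IsZeroAtImInfty (fun τ => F τ ^ 6)) :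
    IsZeroAtImInfty F := by
  unfold IsZeroAtImInfty Filter.ZeroAtFilter at h ⊢
  rw [Metric.tendsto_nhds] at h ⊢
  intro ε hε
  filter_upwards [h (ε ^ 6) (by positivity)] with z hz
  rw [dist_zero_right] at hz ⊢
  rw [norm_pow] at hz
  exact lt_of_pow_lt_pow_left₀ 6 hε.le hz

/-! ### (S-b): integral elements are holomorphic functions -/

/-- **(S-b)** an element of the function field that is integral over `AN N` is a holomorphic
function on `ℍ`, meromorphic at all cusps, and its expansions are the formal ones. -/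
theorem exists_holo_of_integral (N : ℕ) [NeZero N] (u : FC N) (hint : IsIntegral (AN N) u) :
    ∃ (U : ℍ → ℂ) (hU : MDiff U), toMH U hU = iotaM N u ∧
      ∀ γ : SL(2, ℤ), (cuspSys N).mem (trans γ U) ∧
        (cuspSys N).exp (trans γ U) = expHom N (cuspSys N) γ (cusp_hmem N γ) u := by
  obtain ⟨G, H, hH, hu⟩ := exists_frac N u
  obtain ⟨m, c, hc⟩ := exists_monic_fun_eq N u hint G H hH hu
  have hGm : MDiff (G : ℍ → ℂ) := AN_mdiff N G.2
  have hHm : MDiff (H : ℍ → ℂ) := AN_mdiff N H.2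
  have hH0 : (H : ℍ → ℂ) ≠ 0 := fun h => hH (Subtype.ext h)
  obtain ⟨U, hU, hGU, hmon⟩ := T23.exists_div_of_monic (G : ℍ → ℂ) (H : ℍ → ℂ)
    (fun i => (c i : ℍ → ℂ)) hGm hHm (fun i => AN_mdiff N (c i).2) hH0 hc
  refine ⟨U, hU, ?_, fun γ => ?_⟩
  · rw [toMH_eq_iotaM_iff N hH hu hU]
    intro τ
    exact (hGU τ).symm
  · have hGγ : (cuspSys N).mem (trans γ (G : ℍ → ℂ)) :=
      AN_mem_trans N (cuspSys N) γ (cusp_hmem N γ) G.2
    have hHγ : (cuspSys N).mem (trans γ (H : ℍ → ℂ)) :=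
      AN_mem_trans N (cuspSys N) γ (cusp_hmem N γ) H.2
    have hHγ0 : trans γ (H : ℍ → ℂ) ≠ 0 := fun h => hH0 (trans_eq_zero γ h)
    have hUγ : MDiff (trans γ U) := mdiff_trans γ hU
    have hmul : trans γ (G : ℍ → ℂ) = trans γ (H : ℍ → ℂ) * trans γ U := by
      funext τ
      exact hGU (γ⁻¹ • τ)
    -- periodicity
    have hper : ∀ τ : ℍ, trans γ U ((N : ℝ) +ᵥ τ) = trans γ U τ := by
      obtain ⟨D, hD⟩ : ∃ D : ℍ → ℂ,
        D = fun τ => trans γ U ((N : ℝ) +ᵥ τ) - trans γ U τ := ⟨_, rfl⟩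
      have hDm : MDiff D := by
        have e : D = trans ((ModularGroup.T ^ (N : ℤ))⁻¹) (trans γ U) - trans γ U := by
          rw [hD]
          funext τ
          simp only [Pi.sub_apply]
          rw [trans_apply ((ModularGroup.T ^ (N : ℤ))⁻¹), inv_inv,
            UpperHalfPlane.modular_T_zpow_smul]
          norm_cast
        rw [e]
        exact (mdiff_trans _ hUγ).sub hUγ
      have hz : ∀ z, trans γ (H : ℍ → ℂ) z * D z = 0 := by
        intro z
        have h1 := congrFun hmul ((N : ℝ) +ᵥ z)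
        have h2 := congrFun hmul z
        simp only [Pi.mul_apply] at h1 h2
        rw [hD]
        calc trans γ (H : ℍ → ℂ) z * (trans γ U ((N : ℝ) +ᵥ z) - trans γ U z)
            = trans γ (H : ℍ → ℂ) ((N : ℝ) +ᵥ z) * trans γ U ((N : ℝ) +ᵥ z)
              - trans γ (H : ℍ → ℂ) z * trans γ U z := by
              rw [hHγ.2.1 z]
              ring
          _ = trans γ (G : ℍ → ℂ) ((N : ℝ) +ᵥ z) - trans γ (G : ℍ → ℂ) z := by rw [← h1, ← h2]
          _ = 0 := by rw [hGγ.2.1 z, sub_self]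
      rcases mf_mdiff_mul_eq_zero hHγ.1 hDm hz with h | h
      · exact absurd h hHγ0
      · intro τ
        have := congrFun h τ
        rw [hD] at this
        exact sub_eq_zero.mp this
    -- growth
    have hgrow : ∃ M : ℕ, IsBoundedAtImInfty (fun τ => cuspW N τ ^ M * trans γ U τ) := by
      have hcγ : ∀ i : Fin m, (cuspSys N).mem (trans γ (c i : ℍ → ℂ)) := fun i =>
        AN_mem_trans N (cuspSys N) γ (cusp_hmem N γ) (c i).2
      have hcγ' : ∀ i : Fin m, ∃ k : ℕ,
          IsBoundedAtImInfty (fun τ => cuspW N τ ^ k * trans γ (c i : ℍ → ℂ) τ) :=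
        fun i => (hcγ i).2.2
      choose mc hcb using hcγ'
      obtain ⟨M, hM⟩ : ∃ M : ℕ, M = ∑ i, mc i := ⟨_, rfl⟩
      refine ⟨M, ?_⟩
      have hb : ∀ i, IsBoundedAtImInfty (fun τ => cuspW N τ ^ M * trans γ (c i : ℍ → ℂ) τ) :=
        fun i => cuspBdd_of_le (hcγ i).1 (hcγ i).2.1 (hcb i) (by
          rw [hM]
          exact Finset.single_le_sum (fun _ _ => Nat.zero_le _) (Finset.mem_univ i))
      have hbound : ∀ τ : ℍ, ‖cuspW N τ ^ M * trans γ U τ‖ ≤ ‖cuspW N τ ^ M‖
          + ∑ i : Fin m, ‖cuspW N τ ^ M * trans γ (c i : ℍ → ℂ) τ‖ := by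
        intro τ
        have h1 := T23.div_root_bound (U (γ⁻¹ • τ)) (fun i => (c i : ℍ → ℂ) (γ⁻¹ • τ))
          (hmon (γ⁻¹ • τ))
        rw [norm_mul]
        calc ‖cuspW N τ ^ M‖ * ‖trans γ U τ‖
            ≤ ‖cuspW N τ ^ M‖ * (1 + ∑ i : Fin m, ‖(c i : ℍ → ℂ) (γ⁻¹ • τ)‖) :=
              mul_le_mul_of_nonneg_left h1 (norm_nonneg _)
          _ = ‖cuspW N τ ^ M‖ + ∑ i : Fin m, ‖cuspW N τ ^ M * trans γ (c i : ℍ → ℂ) τ‖ := by
              rw [mul_add, mul_one, Finset.mul_sum]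
              congr 1
              apply Finset.sum_congr rfl
              intro i _
              rw [norm_mul]
              rfl
      have hO : (fun τ => cuspW N τ ^ M * trans γ U τ) =O[atImInfty]
          (fun τ => ‖cuspW N τ ^ M‖
            + ∑ i : Fin m, ‖cuspW N τ ^ M * trans γ (c i : ℍ → ℂ) τ‖) :=
        Asymptotics.IsBigO.of_norm_le hbound
      refine hO.trans ?_
      apply Asymptotics.IsBigO.add
      · exact (cuspW_pow_bdd N M).norm_left
      · have e : (fun x => ∑ i : Fin m, ‖cuspW N x ^ M * trans γ (c i : ℍ → ℂ) x‖)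
            = ∑ i : Fin m, (fun x => ‖cuspW N x ^ M * trans γ (c i : ℍ → ℂ) x‖) := by
          funext x
          rw [Finset.sum_apply]
        rw [e]
        apply Asymptotics.IsBigO.sum
        intro i _
        exact (hb i).norm_left
    have hmemU : (cuspSys N).mem (trans γ U) := ⟨hUγ, hper, hgrow⟩
    refine ⟨hmemU, ?_⟩
    have h1 : (cuspSys N).exp (trans γ (G : ℍ → ℂ))
        = (cuspSys N).exp (trans γ (H : ℍ → ℂ)) * (cuspSys N).exp (trans γ U) := by
      rw [hmul]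
      exact (cuspSys N).exp_mul hHγ hmemU
    have h2 : expHom N (cuspSys N) γ (cusp_hmem N γ) u * (cuspSys N).exp (trans γ (H : ℍ → ℂ))
        = (cuspSys N).exp (trans γ (G : ℍ → ℂ)) := by
      rw [← expHom_algebraMap N (cuspSys N) γ (cusp_hmem N γ) H,
        ← expHom_algebraMap N (cuspSys N) γ (cusp_hmem N γ) G, ← map_mul, hu]
    have h3 : (cuspSys N).exp (trans γ (H : ℍ → ℂ)) ≠ 0 :=
      fun h => hHγ0 ((cuspSys N).exp_eq_zero hHγ h)
    apply mul_left_cancel₀ h3
    rw [← h1, ← h2, mul_comm]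

/-! ### (S-c): the cusp form attached to `y` -/

theorem toMH_smul (c : ℂ) {f : ℍ → ℂ} (hf : MDiff f) (hcf : MDiff (c • f)) :
    toMH (c • f) hcf = c • toMH f hf := by
  have h := map_smul (IsScalarTower.toAlgHom ℂ Hol MH) c (⟨f, hf⟩ : Hol)
  exact h

theorem mdiff_smul_const (c : ℂ) {f : ℍ → ℂ} (hf : MDiff f) : MDiff (c • f) := by
  have e : c • f = (fun _ => c) * f := by
    funext τ
    simp [smul_eq_mul]
  rw [e]
  exact mdiff_mul (mdiff_const c) hf

/-- `f` is the holomorphic function `j' · y` -/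
def IsJLift (N : ℕ) (y : FC N) (f : ℍ → ℂ) : Prop :=
  ∃ hf : MDiff f, toMH f hf = toMH jder jder_mdiff * iotaM N y

theorem IsJLift.add {N : ℕ} {y y' : FC N} {f f' : ℍ → ℂ} (h : IsJLift N y f)
    (h' : IsJLift N y' f') : IsJLift N (y + y') (f + f') := by
  obtain ⟨hf, e⟩ := h
  obtain ⟨hf', e'⟩ := h'
  exact ⟨mdiff_add hf hf', by rw [toMH_add hf hf', e, e', map_add, mul_add]⟩

theorem IsJLift.smul {N : ℕ} {y : FC N} {f : ℍ → ℂ} (c : ℂ) (h : IsJLift N y f) :
    IsJLift N (c • y) (c • f) := by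
  obtain ⟨hf, e⟩ := h
  refine ⟨mdiff_smul_const c hf, ?_⟩
  rw [toMH_smul c hf, e, map_smul, mul_smul_comm]

theorem IsJLift.unique {N : ℕ} {y : FC N} {f f' : ℍ → ℂ} (h : IsJLift N y f)
    (h' : IsJLift N y f') : f = f' := by
  obtain ⟨hf, e⟩ := h
  obtain ⟨hf', e'⟩ := h'
  exact toMH_injective (e.trans e'.symm)

theorem IsJLift.eq_zero {N : ℕ} {y : FC N} (h : IsJLift N y 0) : y = 0 := by
  obtain ⟨hf, e⟩ := h
  have h0 : toMH 0 hf = 0 := map_zero _
  rw [h0] at e
  have hj : toMH jder jder_mdiff ≠ 0 := fun h => jder_ne_zero (toMH_eq_zero h)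
  have h1 := (mul_eq_zero.mp e.symm).resolve_left hj
  exact iotaM_injective N (by rw [h1, map_zero])

/-- **(S-c)** the cusp form `j' · y`. -/
theorem exists_cuspForm_lift (N : ℕ) [NeZero N] (y : FC N)
    (hA : IsIntegral (Algebra.adjoin ℂ {jC N}) (y ^ 6 * jC N ^ 4 * (jC N - 1728) ^ 3))
    (hB : ∀ γ : SL(2, ℤ), -(N : ℤ) <
      (expHom N (cuspSys N) γ (cusp_hmem N γ) (y ^ 6 * jC N ^ 4 * (jC N - 1728) ^ 3)).order) :
    ∃ F : CuspForm (Gamma0 N) 2, IsJLift N y F := by
  obtain ⟨U, hU, hUM, hUc⟩ := exists_holo_of_integral N _ (isIntegral_AN_of_adjoin N _ hA)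
  obtain ⟨G, H, hH, hy⟩ := exists_frac N y
  have hGm : MDiff (G : ℍ → ℂ) := AN_mdiff N G.2
  have hHm : MDiff (H : ℍ → ℂ) := AN_mdiff N H.2
  have hH0 : (H : ℍ → ℂ) ≠ 0 := fun h => hH (Subtype.ext h)
  obtain ⟨C, hC⟩ : ∃ C : ℂ, C = -(2 * π * Complex.I) := ⟨_, rfl⟩
  -- `H ^ 6 * U = G ^ 6 * j ^ 4 * (j - 1728) ^ 3`
  have hu6 : (y ^ 6 * jC N ^ 4 * (jC N - 1728) ^ 3) * algebraMap (AN N) (FC N) (H ^ 6)
      = algebraMap (AN N) (FC N) (G ^ 6 * jA N ^ 4 * (jA N - 1728) ^ 3) := by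
    rw [map_mul, map_mul, map_pow, map_pow, map_pow, map_pow, map_sub, ← hy, map_ofNat]
    unfold jC
    ring
  have hUH0 := (toMH_eq_iotaM_iff N (pow_ne_zero 6 hH) hu6 hU).mp hUM
  have hUH : ∀ τ, (H : ℍ → ℂ) τ ^ 6 * U τ
      = (G : ℍ → ℂ) τ ^ 6 * jfun τ ^ 4 * (jfun τ - 1728) ^ 3 := by
    intro τ
    have h1 := hUH0 τ
    rw [← evA_apply N τ (H ^ 6), ← evA_apply N τ (G ^ 6 * jA N ^ 4 * (jA N - 1728) ^ 3)] at h1
    simp only [map_mul, map_pow, map_sub, map_ofNat] at h1
    exact h1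
  -- the division
  obtain ⟨W, hW⟩ : ∃ W : ℍ → ℂ,
    W = (fun _ => -C ^ 6) * (ModularForm.discriminant * U) := ⟨_, rfl⟩
  have hWm : MDiff W := by
    rw [hW]
    exact mdiff_mul (mdiff_const _) (mdiff_mul mcj_disc_mdifferentiable hU)
  obtain ⟨c, hc⟩ : ∃ c : Fin 6 → ℍ → ℂ, c = fun i => if i = (5 : Fin 6) then W else 0 :=
    ⟨_, rfl⟩
  have hcm : ∀ i, MDiff (c i) := by
    intro i
    rw [hc]
    by_cases h : i = (5 : Fin 6)
    · simp only [h, if_true]
      exact hWm
    · simp only [h, if_false]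
      exact mdiff_const 0
  have hsum : ∀ (z : ℍ) (X Y : ℂ), ∑ i : Fin 6, c i z * X ^ ((i : ℕ) + 1) * Y ^ (6 - 1 - (i : ℕ))
      = W z * X ^ 6 := by
    intro z X Y
    rw [Finset.sum_eq_single (5 : Fin 6)]
    · rw [hc]
      have e5 : ((5 : Fin 6) : ℕ) = 5 := rfl
      simp only [if_true, e5]
      norm_num
    · intro i _ hi
      rw [hc]
      simp only [hi, if_false, Pi.zero_apply, zero_mul]
    · intro h
      exact absurd (Finset.mem_univ _) h
  have heq : ∀ z, (jder z * (G : ℍ → ℂ) z) ^ 6 + ∑ i : Fin 6,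
      c i z * (H : ℍ → ℂ) z ^ ((i : ℕ) + 1) * (jder z * (G : ℍ → ℂ) z) ^ (6 - 1 - (i : ℕ))
        = 0 := by
    intro z
    rw [hsum, mul_pow, jder_pow_six, hW, ← hC]
    simp only [Pi.mul_apply]
    linear_combination (-(C ^ 6 * ModularForm.discriminant z)) * hUH z
  obtain ⟨f, hf, hgf, hfmon⟩ := T23.exists_div_of_monic (jder * (G : ℍ → ℂ)) (H : ℍ → ℂ) c
    (mdiff_mul jder_mdiff hGm) hHm hcm hH0 heq
  have hgf' : ∀ z, jder z * (G : ℍ → ℂ) z = (H : ℍ → ℂ) z * f z := hgf
  have hf6 : ∀ z, f z ^ 6 = C ^ 6 * (ModularForm.discriminant z * U z) := by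
    intro z
    have h1 := hfmon z
    have h2 := hsum z 1 (f z)
    simp only [one_pow, mul_one] at h2
    rw [h2, hW] at h1
    simp only [Pi.mul_apply] at h1
    linear_combination h1
  have hlift : IsJLift N y f :=
    ⟨hf, (toMH_eq_mul_iotaM_iff N hH hy jder_mdiff hf).mpr (fun τ => (hgf' τ).symm)⟩
  -- invariance
  have hInv : ∀ γ : SL(2, ℤ), γ ∈ Gamma0 N → f ∣[(2 : ℤ)] γ = f := by
    intro γ hγ
    have h2 : ∀ z, (H : ℍ → ℂ) z * ((f ∣[(2 : ℤ)] γ - f) z) = 0 := by
      intro z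
      have hd0 : denom γ z ≠ 0 := denom_ne_zero γ z
      have hd : denom γ z ^ (-(2 : ℤ)) = (denom γ z ^ 2)⁻¹ := by
        rw [zpow_neg]
        norm_cast
      have hHγ : (H : ℍ → ℂ) (γ • z) = (H : ℍ → ℂ) z := AN_invariant N H.2 γ hγ z
      have hGγ : (G : ℍ → ℂ) (γ • z) = (G : ℍ → ℂ) z := AN_invariant N G.2 γ hγ z
      have h3 := hgf' (γ • z)
      rw [jder_smul, hHγ, hGγ] at h3
      have key : (H : ℍ → ℂ) z * f (γ • z) = denom γ z ^ 2 * ((H : ℍ → ℂ) z * f z) := by
        rw [← hgf' z, ← mul_assoc, ← h3]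
      rw [Pi.sub_apply, ModularForm.SL_slash_apply, hd, mul_sub]
      have e1 : (H : ℍ → ℂ) z * (f (γ • z) * (denom γ z ^ 2)⁻¹)
          = ((H : ℍ → ℂ) z * f (γ • z)) * (denom γ z ^ 2)⁻¹ := by ring
      rw [e1, key, mul_comm (denom γ z ^ 2), mul_assoc, mul_inv_cancel₀ (pow_ne_zero 2 hd0),
        mul_one, sub_self]
    have hmd : MDiff (f ∣[(2 : ℤ)] γ - f) := by
      refine MDifferentiable.sub ?_ hf
      rw [ModularForm.SL_slash]
      exact hf.slash 2 _
    rcases mf_mdiff_mul_eq_zero hHm hmd h2 with h | h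
    · exact absurd h hH0
    · exact sub_eq_zero.mp h
  -- vanishing at the cusps
  have hzero : ∀ γ : SL(2, ℤ), IsZeroAtImInfty (f ∣[(2 : ℤ)] γ) := by
    intro γ
    apply isZeroAtImInfty_of_pow_six
    have hUγ := hUc γ⁻¹
    have hord : -((N - 1 : ℕ) : ℤ) ≤ ((cuspSys N).exp (trans γ⁻¹ U)).order := by
      rw [hUγ.2]
      have h1 := hB γ⁻¹
      have hN := NeZero.pos N
      omega
    have hb := cusp_bdd_of_order N hUγ.1 (N - 1) hord
    have hz := disc_mul_isZeroAtImInfty N hb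
    have e : (fun τ => (f ∣[(2 : ℤ)] γ) τ ^ 6)
        = (fun _ => C ^ 6) * (fun τ => ModularForm.discriminant τ * trans γ⁻¹ U τ) := by
      funext τ
      have hd0 : denom γ τ ≠ 0 := denom_ne_zero γ τ
      have e1 : (denom γ τ ^ (-(2 : ℤ))) ^ 6 * denom γ τ ^ (12 : ℤ) = 1 := by
        rw [← zpow_natCast, ← zpow_mul, ← zpow_add₀ hd0]
        norm_num
      simp only [Pi.mul_apply]
      rw [ModularForm.SL_slash_apply, mul_pow, hf6 (γ • τ), mcj_disc_smul γ τ, trans_apply,
        inv_inv]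
      linear_combination (C ^ 6 * ModularForm.discriminant τ * U (γ • τ)) * e1
    rw [e]
    exact (const_boundedAtFilter _ _).mul_zeroAtFilter hz
  -- the cusp form
  let F : CuspForm (Gamma0 N) 2 :=
    { toFun := f
      slash_action_eq' := by
        rintro _ ⟨γ, hγ, rfl⟩
        exact hInv γ hγ
      holo' := hf
      zero_at_cusps' := fun {c} hc => by
        rw [Subgroup.IsArithmetic.isCusp_iff_isCusp_SL2Z] at hc
        rw [OnePoint.isZeroAt_iff_forall_SL2Z hc]
        intro γ _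
        exact hzero γ }
  exact ⟨F, hlift⟩

/-- **[MF-S]** a subspace of the function field consisting of `y` such that `y dj` is a
holomorphic differential embeds into the cusp forms of weight 2. -/
theorem exists_injective_to_cuspForm (N : ℕ) [NeZero N] (V : Submodule ℂ (FC N))
    (hA : ∀ y ∈ V, IsIntegral (Algebra.adjoin ℂ {jC N}) (y ^ 6 * jC N ^ 4 * (jC N - 1728) ^ 3))
    (hB : ∀ y ∈ V, ∀ γ : SL(2, ℤ), -(N : ℤ) <
      (expHom N (cuspSys N) γ (cusp_hmem N γ) (y ^ 6 * jC N ^ 4 * (jC N - 1728) ^ 3)).order) :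
    ∃ Φ : V →ₗ[ℂ] CuspForm (Gamma0 N) 2, Function.Injective Φ := by
  choose F hF using fun y : V => exists_cuspForm_lift N (y : FC N) (hA y y.2) (hB y y.2)
  refine ⟨{ toFun := F, map_add' := fun y y' => ?_, map_smul' := fun c y => ?_ }, ?_⟩
  · apply DFunLike.coe_injective
    rw [FunLike.coe_add]
    exact (hF (y + y')).unique ((hF y).add (hF y'))
  · apply DFunLike.coe_injective
    rw [RingHom.id_apply, FunLike.coe_smul]
    exact (hF (c • y)).unique ((hF y).smul c)
  · refine (injective_iff_map_eq_zero _).mpr fun y hy => ?_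
    have h0 : (F y : ℍ → ℂ) = 0 := by
      have h1 : F y = 0 := hy
      rw [h1]
      rfl
    have h2 := hF y
    rw [h0] at h2
    exact Subtype.ext h2.eq_zero

end Fermat.Agent.MF
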