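import Mathlib

set_option autoImplicit false

/-!
# T20 [RR]: definitions for the lattice proof of Riemann-Roch (Dedekind-Weber)

`F / K(x)` a finite extension.  Everything lives inside `F`:
* `polyRing K x = K[x]`, `inftyRing K x = {p(x)/q(x) | deg p ≤ deg q}` (the local ring at `x = ∞`),
* `latFin K x v`, `latInf K x w`: the `K[x]`-span resp. `R∞`-span of a family,
* `dualFin K x Λ`, `dualInf K x Λ`: the duals with respect to the trace form of `F / K(x)`.
-/

noncomputable section

namespace Fermat.Agent.RR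

open Polynomial IntermediateField

variable (K : Type*) {F : Type*} [Field K] [Field F] [Algebra K F]

/-- `K[x] ⊆ F` -/
def polyRing (x : F) : Set F := Set.range (Polynomial.aeval (R := K) x)

/-- the rational functions in `x` without pole at infinity -/
def inftyRing (x : F) : Set F :=
  {c | ∃ p q : K[X], q ≠ 0 ∧ p.natDegree ≤ q.natDegree ∧ c = Polynomial.aeval x p / Polynomial.aeval x q}

/-- the `K[x]`-span of a finite family -/
def latFin {ι : Type*} [Fintype ι] (x : F) (v : ι → F) : Set F :=
  {f | ∃ c : ι → F, (∀ i, c i ∈ polyRing K x) ∧ f = ∑ i, c i * v i}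

/-- the `R∞`-span of a finite family -/
def latInf {ι : Type*} [Fintype ι] (x : F) (w : ι → F) : Set F :=
  {f | ∃ c : ι → F, (∀ i, c i ∈ inftyRing K x) ∧ f = ∑ i, c i * w i}

/-- the trace dual with respect to `K[x]` -/
def dualFin (x : F) (Λ : Set F) : Set F :=
  {y | ∀ h ∈ Λ, algebraMap K⟮x⟯ F (Algebra.trace K⟮x⟯ F (y * h)) ∈ polyRing K x}

/-- the trace dual with respect to `R∞` -/
def dualInf (x : F) (Λ : Set F) : Set F :=
  {y | ∀ h ∈ Λ, algebraMap K⟮x⟯ F (Algebra.trace K⟮x⟯ F (y * h)) ∈ inftyRing K x}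

end Fermat.Agent.RR
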