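import Mathlib

set_option autoImplicit false

/-!
# T20 (P-c): tame different, pure Dedekind form (helper8)

Two statements about `Algebra.intTrace A B` modulo a maximal ideal `p` of `A`:
* `intTrace_mem_of_forall_mem`: if `z` lies in every prime above `p` then `Tr z ∈ p`;
* `intTrace_notMem`: if `pB = P ^ e * Q` with `Q ⊄ P`, the residue degree of `P` is one, `e` is
  invertible in `A ⧸ p`, and `z ∈ Q`, `z ∉ P`, then `Tr z ∉ p`.
-/

noncomputable section

namespace Fermat.Agent.RR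

open Module

attribute [local instance] Ideal.Quotient.field

variable {A B : Type*} [CommRing A] [CommRing B] [IsDedekindDomain A] [IsDedekindDomain B]
  [Algebra A B] [Module.IsTorsionFree A B] [Module.Finite A B]

/-- (TD-a) an element lying in all primes above `p` has trace in `p` -/
theorem intTrace_mem_of_forall_mem (p : Ideal A) [p.IsMaximal] (z : B)
    (hz : ∀ P : Ideal B, P.IsPrime → p.map (algebraMap A B) ≤ P → z ∈ P) :
    Algebra.intTrace A B z ∈ p := by
  have hrad : z ∈ (p.map (algebraMap A B)).radical := by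
    rw [Ideal.radical_eq_sInf, Ideal.mem_sInf]
    rintro P ⟨hle, hP⟩
    exact hz P hP hle
  obtain ⟨n, hn⟩ := hrad
  rw [← Ideal.Quotient.eq_zero_iff_mem, ← Algebra.trace_quotient_eq_of_isDedekindDomain,
    ← isNilpotent_iff_eq_zero]
  refine Algebra.isNilpotent_trace_of_isNilpotent ⟨n, ?_⟩
  rw [← map_pow, Ideal.Quotient.eq_zero_iff_mem]
  exact hn

set_option linter.deprecated false in
omit [IsDedekindDomain A] [IsTorsionFree A B] [Module.Finite A B] in
/-- the dimension of `B ⧸ P ^ e` over `A ⧸ p` when `P ^ e` exactly divides `pB` -/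
theorem finrank_quot_pow_of_exact (p : Ideal A) [p.IsMaximal] (P : Ideal B) [P.IsPrime]
    [P.LiesOver p] (hP0 : P ≠ ⊥) (e : ℕ) (he0 : e ≠ 0)
    (hle1 : p.map (algebraMap A B) ≤ P ^ e) (hle2 : ¬ p.map (algebraMap A B) ≤ P ^ (e + 1)) :
    @Module.finrank (A ⧸ p) (B ⧸ P ^ e) _ _
      (Ideal.Quotient.algebraQuotientOfLEComap (Ideal.map_le_iff_le_comap.mp hle1)).toModule =
      e * Module.finrank (A ⧸ p) (B ⧸ P) := by
  have hram : p.ramificationIdx' P = e := Ideal.ramificationIdx'_spec hle1 hle2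
  subst hram
  exact Ideal.finrank_prime_pow_ramificationIdx p P hP0 he0

/-- (TD-b) -/
theorem intTrace_notMem (p : Ideal A) [p.IsMaximal] (hp : p ≠ ⊥) (P : Ideal B) [P.IsPrime]
    [P.LiesOver p] (e : ℕ) (Q : Ideal B) (hPQ : P ^ e * Q = p.map (algebraMap A B))
    (hQ : ¬ Q ≤ P) (hf : Module.finrank (A ⧸ p) (B ⧸ P) = 1) (he : ((e : ℕ) : A ⧸ p) ≠ 0)
    (z : B) (hzQ : z ∈ Q) (hzP : z ∉ P) : Algebra.intTrace A B z ∉ p := by
  have hinj : Function.Injective (algebraMap A B) := FaithfulSMul.algebraMap_injective A B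
  have hp' : p.map (algebraMap A B) ≠ ⊥ := (Ideal.map_eq_bot_iff_of_injective hinj).not.mpr hp
  have he0 : e ≠ 0 := by
    rintro rfl
    simp at he
  have hP0 : P ≠ ⊥ := by
    rintro rfl
    apply hp'
    rw [← hPQ, ← Ideal.zero_eq_bot, zero_pow he0, zero_mul]
  have hPmax : P.IsMaximal := Ideal.IsPrime.isMaximal inferInstance hP0
  have hcop : IsCoprime (P ^ e) Q := by
    apply IsCoprime.pow_left
    rw [Ideal.isCoprime_iff_sup_eq]
    exact hPmax.out.2 _ (lt_of_le_of_ne le_sup_left (fun h => hQ (h ▸ le_sup_right)))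
  have hle1 : p.map (algebraMap A B) ≤ P ^ e := by
    rw [← hPQ]
    exact Ideal.mul_le_left
  have hle2 : ¬ p.map (algebraMap A B) ≤ P ^ (e + 1) := by
    intro h
    rw [← hPQ, ← Ideal.dvd_iff_le, pow_succ] at h
    have h2 := (mul_dvd_mul_iff_left (pow_ne_zero e hP0)).mp h
    exact hQ (Ideal.dvd_iff_le.mp h2)
  let _ : Algebra (A ⧸ p) (B ⧸ P ^ e) :=
    Ideal.Quotient.algebraQuotientOfLEComap (Ideal.map_le_iff_le_comap.mp hle1)
  let _ : Algebra (A ⧸ p) (B ⧸ Q) := Ideal.Quotient.algebraQuotientOfLEComap (by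
      rw [← Ideal.map_le_iff_le_comap, ← hPQ]
      exact Ideal.mul_le_right)
  have : IsScalarTower A (A ⧸ p) (B ⧸ P ^ e) := .of_algebraMap_eq' rfl
  have : IsScalarTower A (A ⧸ p) (B ⧸ Q) := .of_algebraMap_eq' rfl
  have : Module.Finite (A ⧸ p) (B ⧸ P ^ e) :=
    Module.Finite.of_restrictScalars_finite A (A ⧸ p) (B ⧸ P ^ e)
  have : Module.Finite (A ⧸ p) (B ⧸ Q) :=
    Module.Finite.of_restrictScalars_finite A (A ⧸ p) (B ⧸ Q)
  let ε : (B ⧸ p.map (algebraMap A B)) ≃ₐ[A ⧸ p] ((B ⧸ P ^ e) × B ⧸ Q) :=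
    { __ := (Ideal.quotEquivOfEq hPQ.symm).trans
        (Ideal.quotientMulEquivQuotientProd (P ^ e) Q hcop),
      commutes' := Quotient.ind fun _ ↦ rfl }
  have hε : ε (Ideal.Quotient.mk _ z) = (Ideal.Quotient.mk (P ^ e) z, 0) := by
    have h2 : (Ideal.Quotient.mk Q z) = 0 := Ideal.Quotient.eq_zero_iff_mem.mpr hzQ
    rw [← h2]
    rfl
  -- `z = c + n` with `c ∈ A ∖ p` and `n ∈ P`
  obtain ⟨c, hc⟩ : ∃ c : A, z - algebraMap A B c ∈ P := by
    have h1 := (finrank_eq_one_iff_of_nonzero' (1 : B ⧸ P) one_ne_zero).mp hf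
      (Ideal.Quotient.mk P z)
    obtain ⟨cbar, hcbar⟩ := h1
    obtain ⟨c, rfl⟩ := Ideal.Quotient.mk_surjective cbar
    refine ⟨c, ?_⟩
    rw [← Ideal.Quotient.eq_zero_iff_mem, map_sub, ← hcbar, Algebra.smul_def, mul_one]
    exact sub_self _
  have hcp : c ∉ p := by
    intro hcp
    apply hzP
    have h1 : algebraMap A B c ∈ P := by
      have : c ∈ P.under A := by
        rw [← Ideal.LiesOver.over (P := P) (p := p)]
        exact hcp
      exact this
    have := P.add_mem hc h1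
    simpa using this
  have hnil : IsNilpotent (Ideal.Quotient.mk (P ^ e) (z - algebraMap A B c)) := by
    refine ⟨e, ?_⟩
    rw [← map_pow, Ideal.Quotient.eq_zero_iff_mem]
    exact Ideal.pow_mem_pow hc e
  have hdecomp : Ideal.Quotient.mk (P ^ e) z =
      algebraMap (A ⧸ p) (B ⧸ P ^ e) (Ideal.Quotient.mk p c) +
        Ideal.Quotient.mk (P ^ e) (z - algebraMap A B c) := by
    have : algebraMap (A ⧸ p) (B ⧸ P ^ e) (Ideal.Quotient.mk p c) =
        Ideal.Quotient.mk (P ^ e) (algebraMap A B c) := rfl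
    rw [this, ← map_add]
    congr 1
    ring
  have htr0 : Algebra.trace (A ⧸ p) (B ⧸ P ^ e)
      (Ideal.Quotient.mk (P ^ e) (z - algebraMap A B c)) = 0 :=
    isNilpotent_iff_eq_zero.mp (Algebra.isNilpotent_trace_of_isNilpotent hnil)
  have hdim : Module.finrank (A ⧸ p) (B ⧸ P ^ e) = e := by
    have h := finrank_quot_pow_of_exact p P hP0 e he0 hle1 hle2
    rw [hf, mul_one] at h
    exact h
  rw [← Ideal.Quotient.eq_zero_iff_mem, ← Algebra.trace_quotient_eq_of_isDedekindDomain,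
    ← Algebra.trace_eq_of_algEquiv ε, hε, Algebra.trace_prod_apply]
  simp only [map_zero, add_zero]
  rw [hdecomp, map_add, htr0, add_zero, Algebra.trace_algebraMap, hdim, nsmul_eq_mul]
  refine mul_ne_zero he ?_
  rwa [Ne, Ideal.Quotient.eq_zero_iff_mem]

end Fermat.Agent.RR
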