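/-
T20 project, piece [RR-P] (helper2): the places side of the lattice proof of Riemann-Roch.

* polynomial values at places, clearing denominators;
* `regAt K t b`: rational functions in `t` regular at `t = b`; `inftyRing K x = regAt K x⁻¹ 0`;
* the lattice of functions regular at all finite places and its basis (P-b).
-/
import Mathlib
import Fermat.Agent.Lib.T24_Places
import Fermat.Agent.Lib.RR_Defs
import Fermat.Agent.Lib.RR_Different

set_option autoImplicit false
set_option linter.unusedSectionVars false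
set_option linter.style.haveILetI false
set_option linter.deprecated false

noncomputable section

namespace Fermat.Agent.RR

open AlgebraicCurve IntermediateField Polynomial IsDedekindDomain Fermat.Agent.T24

section PlaceBasics

variable {K F : Type*} [Field K] [Field F] [Algebra K F]

theorem ord_nonneg_iff_mem (v : Place K F) (f : F) : 0 ≤ v.ord f ↔ f ∈ v.toValuationSubring := by
  rcases eq_or_ne f 0 with rfl | hf
  · simp [zero_mem]
  · exact ord_nonneg_iff v hf

theorem aeval_mem_place (v : Place K F) {t : F} (ht : t ∈ v.toValuationSubring) (s : K[X]) :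
    aeval t s ∈ v.toValuationSubring := by
  induction s using Polynomial.induction_on with
  | C a => rw [aeval_C]; exact v.algebraMap_mem' a
  | add p q hp hq => rw [map_add]; exact add_mem hp hq
  | monomial n a h =>
    rw [pow_succ, ← mul_assoc, map_mul, aeval_X]
    exact mul_mem h ht

theorem ord_aeval_nonneg (v : Place K F) {t : F} (ht : 0 ≤ v.ord t) (s : K[X]) :
    0 ≤ v.ord (aeval t s) :=
  (ord_nonneg_iff_mem v _).mpr (aeval_mem_place v ((ord_nonneg_iff_mem v t).mp ht) s)

theorem mem_of_ord_sub_pos (v : Place K F) {t : F} {b : K}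
    (hv : 0 < v.ord (t - algebraMap K F b)) : t ∈ v.toValuationSubring := by
  have := (ord_nonneg_iff_mem v _).mp hv.le
  have h2 : t = (t - algebraMap K F b) + algebraMap K F b := by ring
  rw [h2]
  exact add_mem this (v.algebraMap_mem' b)

theorem ord_nonneg_of_ord_sub_pos (v : Place K F) {t : F} {b : K}
    (hv : 0 < v.ord (t - algebraMap K F b)) : 0 ≤ v.ord t :=
  (ord_nonneg_iff_mem v t).mpr (mem_of_ord_sub_pos v hv)

/-- A polynomial in `t` not vanishing at `b` is a unit at every place over `t = b`. -/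
theorem ord_aeval_eq_zero (v : Place K F) {t : F} {b : K}
    (hv : 0 < v.ord (t - algebraMap K F b)) {s : K[X]} (hs : s.eval b ≠ 0) :
    aeval t s ≠ 0 ∧ v.ord (aeval t s) = 0 := by
  have hdiv : s = (X - C b) * (s /ₘ (X - C b)) + C (s.eval b) := by
    have := Polynomial.modByMonic_add_div s (X - C b)
    rw [Polynomial.modByMonic_X_sub_C_eq_C_eval] at this
    conv_lhs => rw [← this]
    ring
  have h1 : aeval t s = (t - algebraMap K F b) * aeval t (s /ₘ (X - C b)) +
      algebraMap K F (s.eval b) := by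
    conv_lhs => rw [hdiv]
    simp [aeval_C]
  have hc0 : algebraMap K F (s.eval b) ≠ 0 := by simpa using hs
  have htb0 : t - algebraMap K F b ≠ 0 := by
    intro h0; rw [h0] at hv; simp at hv
  have htmem : t ∈ v.toValuationSubring := mem_of_ord_sub_pos v hv
  rw [h1]
  rcases eq_or_ne (aeval t (s /ₘ (X - C b))) 0 with h0 | h0
  · rw [h0, mul_zero, zero_add]
    exact ⟨hc0, ord_algebraMap v _⟩
  · have hlt : v.ord (algebraMap K F (s.eval b)) <
        v.ord ((t - algebraMap K F b) * aeval t (s /ₘ (X - C b))) := by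
      rw [ord_algebraMap, v.ord_mul htb0 h0]
      have := (ord_nonneg_iff_mem v _).mpr (aeval_mem_place v htmem (s /ₘ (X - C b)))
      omega
    have hne : (t - algebraMap K F b) * aeval t (s /ₘ (X - C b)) +
        algebraMap K F (s.eval b) ≠ 0 := by
      intro hzero
      have h2 : (t - algebraMap K F b) * aeval t (s /ₘ (X - C b)) =
          -algebraMap K F (s.eval b) := by linear_combination hzero
      rw [h2, ord_neg] at hlt
      exact lt_irrefl _ hlt
    refine ⟨hne, ?_⟩
    rw [add_comm, ord_add_eq_of_lt v hc0 (mul_ne_zero htb0 h0) hlt, ord_algebraMap]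

/-- Rational functions in `t` which are regular at `t = b`. -/
def regAt (K : Type*) {F : Type*} [Field K] [Field F] [Algebra K F] (t : F) (b : K) : Set F :=
  {c | ∃ q s : K[X], s.eval b ≠ 0 ∧ c * aeval t s = aeval t q}

theorem ord_nonneg_of_mem_regAt (v : Place K F) {t : F} {b : K}
    (hv : 0 < v.ord (t - algebraMap K F b)) {c : F} (hc : c ∈ regAt K t b) : 0 ≤ v.ord c := by
  obtain ⟨q, s, hs, hcs⟩ := hc
  rcases eq_or_ne c 0 with rfl | hc0
  · simp
  obtain ⟨hs0, hsord⟩ := ord_aeval_eq_zero v hv hs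
  have h1 : v.ord (c * aeval t s) = v.ord c := by
    rw [v.ord_mul hc0 hs0, hsord, add_zero]
  rw [← h1, hcs]
  exact ord_aeval_nonneg v (ord_nonneg_of_ord_sub_pos v hv) q

/-- `inftyRing K x ⊆ regAt K x⁻¹ 0`. -/
theorem inftyRing_subset_regAt {x : F} (hx : Transcendental K x) {c : F}
    (hc : c ∈ inftyRing K x) : c ∈ regAt K x⁻¹ (0 : K) := by
  obtain ⟨p, q, hq, hdeg, rfl⟩ := hc
  have hx0 : x ≠ 0 := fun h => hx (h ▸ isAlgebraic_zero)
  letI : Invertible x := invertibleOfNonzero hx0
  have hp := eval₂_reverse_mul_pow (algebraMap K F) x p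
  have hq' := eval₂_reverse_mul_pow (algebraMap K F) x q
  rw [invOf_eq_inv] at hp hq'
  have hqx : aeval x q ≠ 0 := fun h => hq ((transcendental_iff.mp hx) q h)
  refine ⟨p.reverse * X ^ (q.natDegree - p.natDegree), q.reverse, ?_, ?_⟩
  · rw [← coeff_zero_eq_eval_zero, coeff_zero_reverse]
    exact leadingCoeff_ne_zero.mpr hq
  · rw [div_mul_eq_mul_div, div_eq_iff hqx]
    simp only [aeval_def, eval₂_mul, eval₂_pow, eval₂_X] at *
    rw [← hp, ← hq']
    have hpow : x⁻¹ ^ (q.natDegree - p.natDegree) * x ^ q.natDegree = x ^ p.natDegree := by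
      rw [inv_pow, inv_mul_eq_div, div_eq_iff (pow_ne_zero _ hx0), ← pow_add]
      congr 1
      omega
    linear_combination (-(eval₂ (algebraMap K F) x⁻¹ p.reverse *
      eval₂ (algebraMap K F) x⁻¹ q.reverse)) * hpow

/-- `regAt K x⁻¹ 0 ⊆ inftyRing K x` (in quotient form). -/
theorem div_mem_inftyRing {x : F} (hx : Transcendental K x) (p s : K[X]) (hs : s.eval 0 ≠ 0) :
    aeval x⁻¹ p / aeval x⁻¹ s ∈ inftyRing K x := by
  have hx0 : x ≠ 0 := fun h => hx (h ▸ isAlgebraic_zero)
  have hxi0 : x⁻¹ ≠ 0 := inv_ne_zero hx0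
  letI : Invertible x⁻¹ := invertibleOfNonzero hxi0
  have hp := eval₂_reverse_mul_pow (algebraMap K F) x⁻¹ p
  have hs' := eval₂_reverse_mul_pow (algebraMap K F) x⁻¹ s
  rw [invOf_eq_inv, inv_inv] at hp hs'
  have hs0 : s ≠ 0 := by
    rintro rfl
    simp at hs
  have hsc : s.coeff 0 ≠ 0 := by rwa [coeff_zero_eq_eval_zero]
  have hsrev : s.reverse.natDegree = s.natDegree := by
    rw [reverse_natDegree, natTrailingDegree_eq_zero.mpr (Or.inr hsc), Nat.sub_zero]
  have hsrev0 : s.reverse ≠ 0 := by rwa [Ne, reverse_eq_zero]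
  refine ⟨p.reverse * X ^ s.natDegree, s.reverse * X ^ p.natDegree, ?_, ?_, ?_⟩
  · exact mul_ne_zero hsrev0 (pow_ne_zero _ X_ne_zero)
  · rw [natDegree_mul hsrev0 (pow_ne_zero _ X_ne_zero), natDegree_X_pow, hsrev]
    calc (p.reverse * X ^ s.natDegree).natDegree ≤ p.reverse.natDegree + (X ^ s.natDegree :
          K[X]).natDegree := natDegree_mul_le
      _ ≤ p.natDegree + s.natDegree := by
          rw [natDegree_X_pow]
          exact Nat.add_le_add_right (reverse_natDegree_le p) _
      _ = s.natDegree + p.natDegree := Nat.add_comm _ _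
  · simp only [aeval_def, eval₂_mul, eval₂_pow, eval₂_X] at *
    rw [← hp, ← hs']
    have hsx : eval₂ (algebraMap K F) x s.reverse ≠ 0 := by
      intro h
      exact hsrev0 ((transcendental_iff.mp hx) _ (by rw [aeval_def]; exact h))
    have h1 : x⁻¹ ^ p.natDegree * x ^ p.natDegree = 1 := by
      rw [inv_pow, inv_mul_cancel₀ (pow_ne_zero _ hx0)]
    have h2 : x⁻¹ ^ s.natDegree * x ^ s.natDegree = 1 := by
      rw [inv_pow, inv_mul_cancel₀ (pow_ne_zero _ hx0)]
    rw [div_eq_div_iff (mul_ne_zero hsx (pow_ne_zero _ hxi0))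
      (mul_ne_zero hsx (pow_ne_zero _ hx0))]
    linear_combination (eval₂ (algebraMap K F) x p.reverse *
      eval₂ (algebraMap K F) x s.reverse) * (h1 - h2)

end PlaceBasics

/-! ### Clearing denominators -/

section Clearing

variable {K F : Type*} [Field K] [Field F] [Algebra K F] [IsAlgClosed K] [CharZero K]

/-- Clearing denominators away from `t = b`: for every `f` there is a polynomial `s` with
`s(b) ≠ 0` such that `s(t) f` is regular at all places where `t` is regular and `≠ b`. -/
theorem exists_clearing (x : F) [FiniteDimensional K⟮x⟯ F] (hx : Transcendental K x) (t : F)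
    (ht : Transcendental K t) (b : K) (f : F) :
    ∃ s : K[X], s.eval b ≠ 0 ∧ ∀ v : Place K F, 0 ≤ v.ord t →
      ¬ (0 < v.ord (t - algebraMap K F b)) → 0 ≤ v.ord (aeval t s * f) := by
  classical
  rcases eq_or_ne f 0 with rfl | hf
  · exact ⟨1, by simp, fun v _ _ => by simp⟩
  have hfin := finite_ord_ne_zero (K := K) x f
  have hex : ∀ v : Place K F, ∃ a : K, 0 ≤ v.ord t → 0 < v.ord (t - algebraMap K F a) := by
    intro v
    by_cases hv : 0 ≤ v.ord t
    · obtain ⟨a, ha⟩ := exists_const_of_ord_nonneg x hx v t hv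
      refine ⟨a, fun _ => ?_⟩
      rcases ha with ha | ha
      · exact absurd (ha ▸ isAlgebraic_algebraMap a) ht
      · exact ha
    · exact ⟨0, fun h => absurd h hv⟩
  choose a ha using hex
  let T : Finset (Place K F) := hfin.toFinset.filter
    (fun v => v.ord f < 0 ∧ 0 ≤ v.ord t ∧ ¬ (0 < v.ord (t - algebraMap K F b)))
  let s : K[X] := ∏ v ∈ T, (X - C (a v)) ^ (-(v.ord f)).toNat
  have hT : ∀ v, v ∈ T ↔
      v.ord f < 0 ∧ 0 ≤ v.ord t ∧ ¬ (0 < v.ord (t - algebraMap K F b)) := by
    intro v
    simp only [T, Finset.mem_filter, Set.Finite.mem_toFinset, Set.mem_setOf_eq]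
    constructor
    · exact fun h => h.2
    · exact fun h => ⟨by omega, h⟩
  refine ⟨s, ?_, fun v hvt hvb => ?_⟩
  · rw [Polynomial.eval_prod, Finset.prod_ne_zero_iff]
    intro v hv
    rw [eval_pow, eval_sub, eval_X, eval_C]
    apply pow_ne_zero
    rw [sub_ne_zero]
    rintro rfl
    exact ((hT v).mp hv).2.2 (ha v ((hT v).mp hv).2.1)
  · rw [ord_nonneg_iff_mem]
    have htmem := (ord_nonneg_iff_mem v t).mp hvt
    by_cases hvf : v.ord f < 0
    · have hvT : v ∈ T := (hT v).mpr ⟨hvf, hvt, hvb⟩
      have hs : s = (X - C (a v)) ^ (-(v.ord f)).toNat *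
          ∏ u ∈ T.erase v, (X - C (a u)) ^ (-(u.ord f)).toNat :=
        (Finset.mul_prod_erase T _ hvT).symm
      rw [hs, map_mul, mul_right_comm]
      refine mul_mem ?_ (aeval_mem_place v htmem _)
      rw [← ord_nonneg_iff_mem]
      have h1 : aeval t ((X - C (a v)) ^ (-(v.ord f)).toNat) =
          (t - algebraMap K F (a v)) ^ (-(v.ord f)).toNat := by
        simp [aeval_C]
      have h2 : t - algebraMap K F (a v) ≠ 0 := by
        intro h0
        have := ha v hvt
        rw [h0] at this
        simp at this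
      rw [h1, v.ord_mul (pow_ne_zero _ h2) hf, ← zpow_natCast, v.ord_zpow,
        Int.toNat_of_nonneg (by omega)]
      have h3 := ha v hvt
      nlinarith
    · exact mul_mem (aeval_mem_place v htmem s) ((ord_nonneg_iff_mem v f).mp (not_lt.mp hvf))

end Clearing

/-! ### The extended `K[X]`-package -/

section Package

variable {K F : Type*} [Field K] [Field F] [Algebra K F] [IsAlgClosed K] [CharZero K]

/-- Packaging (extended version of `exists_poly_structure`): for `t` transcendental with
`F / K(t)` finite, `F` and `K(t)` become `K[X]`-algebras via `X ↦ t`, with all the instances of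
the AKLB setting. -/
theorem exists_poly_structure₂ (t : F) (ht : Transcendental K t) [FiniteDimensional K⟮t⟯ F]
    {motive : Prop}
    (h : ∀ [Algebra K[X] F] [IsScalarTower K K[X] F] [FaithfulSMul K[X] F]
      [IsDedekindDomain ↥(integralClosure K[X] F)]
      [IsFractionRing ↥(integralClosure K[X] F) F]
      [Module.Finite K[X] ↥(integralClosure K[X] F)]
      [Algebra K[X] K⟮t⟯] [IsFractionRing K[X] K⟮t⟯] [IsScalarTower K[X] K⟮t⟯ F],
      (∀ p : K[X], algebraMap K[X] F p = aeval t p) → motive) :
    motive := by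
  letI : Algebra K[X] F := (aeval t).toRingHom.toAlgebra
  have halg : ∀ p : K[X], algebraMap K[X] F p = aeval t p := fun p => rfl
  haveI : IsScalarTower K K[X] F := IsScalarTower.of_algebraMap_eq fun a => by
    rw [halg, Polynomial.algebraMap_eq, aeval_C]
  haveI : FaithfulSMul K[X] F :=
    (faithfulSMul_iff_algebraMap_injective _ _).mpr (transcendental_iff_injective.mp ht)
  letI : Algebra K[X] K⟮t⟯ := (aeval (AdjoinSimple.gen K t)).toRingHom.toAlgebra
  have halg' : ∀ p : K[X], algebraMap K[X] K⟮t⟯ p = aeval (AdjoinSimple.gen K t) p := fun p => rfl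
  have hcoe : ∀ p : K[X], ((aeval (AdjoinSimple.gen K t) p : K⟮t⟯) : F) = aeval t p := by
    intro p
    have := aeval_algebraMap_apply F (AdjoinSimple.gen K t) p
    rw [AdjoinSimple.algebraMap_gen] at this
    exact this.symm
  haveI : IsScalarTower K[X] K⟮t⟯ F := IsScalarTower.of_algebraMap_eq fun p => by
    rw [halg, halg']
    exact (hcoe p).symm
  haveI : FaithfulSMul K[X] K⟮t⟯ := (faithfulSMul_iff_algebraMap_injective _ _).mpr (by
    intro p q hpq
    apply transcendental_iff_injective.mp ht
    have := congrArg (algebraMap K⟮t⟯ F) hpq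
    rw [halg', halg'] at this
    exact (hcoe p).symm.trans (this.trans (hcoe q)))
  haveI : IsFractionRing K[X] K⟮t⟯ := IsFractionRing.of_field K[X] K⟮t⟯ (by
    intro z
    obtain ⟨r, s, hrs⟩ := (mem_adjoin_simple_iff K (z : F)).mp z.2
    refine ⟨r, s, Subtype.ext ?_⟩
    rw [hrs, halg', halg']
    show _ = ((aeval (AdjoinSimple.gen K t) r : K⟮t⟯) : F) /
      ((aeval (AdjoinSimple.gen K t) s : K⟮t⟯) : F)
    rw [hcoe, hcoe])
  haveI : CharZero F := charZero_of_injective_algebraMap (algebraMap K F).injective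
  haveI : CharZero K⟮t⟯ := charZero_of_injective_algebraMap (algebraMap K K⟮t⟯).injective
  haveI : Algebra.IsSeparable K⟮t⟯ F := inferInstance
  haveI : IsDedekindDomain ↥(integralClosure K[X] F) :=
    IsIntegralClosure.isDedekindDomain K[X] K⟮t⟯ F _
  haveI : IsFractionRing ↥(integralClosure K[X] F) F :=
    IsIntegralClosure.isFractionRing_of_finite_extension K[X] K⟮t⟯ F _
  haveI : Module.Finite K[X] ↥(integralClosure K[X] F) :=
    IsIntegralClosure.finite K[X] K⟮t⟯ F _
  exact h halg

end Package

/-! ### The lattice of functions regular at all finite places -/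

section DedekindLattice

variable {K F : Type*} [Field K] [Field F] [Algebra K F]
variable [Algebra K[X] F] [IsScalarTower K K[X] F] [FaithfulSMul K[X] F]
variable [IsDedekindDomain ↥(integralClosure K[X] F)]
  [IsFractionRing ↥(integralClosure K[X] F) F]

/-- The integral closure of `K[X]` consists of the functions regular at all finite places. -/
theorem mem_integralClosure_iff_places (f : F) :
    f ∈ integralClosure K[X] F ↔
      ∀ v : Place K F, 0 ≤ v.ord (algebraMap K[X] F X) → 0 ≤ v.ord f := by
  constructor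
  · intro hf v hv
    rw [ord_nonneg_iff_mem] at hv ⊢
    exact integralClosure_mem_place v hv ⟨f, hf⟩
  · intro h
    have h1 : ∀ w : HeightOneSpectrum ↥(integralClosure K[X] F),
        HeightOneSpectrum.valuation F w f ≤ 1 := by
      intro w
      have hX : algebraMap K[X] F X ∈
          (Place.ofHeightOneSpectrum (K := K) w).toValuationSubring := by
        rw [mem_ofHeightOneSpectrum_iff,
          IsScalarTower.algebraMap_apply K[X] ↥(integralClosure K[X] F) F]
        exact w.valuation_le_one _
      have := h (Place.ofHeightOneSpectrum (K := K) w) ((ord_nonneg_iff_mem _ _).mpr hX)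
      exact (mem_ofHeightOneSpectrum_iff w f).mp ((ord_nonneg_iff_mem _ _).mp this)
    obtain ⟨b, hb⟩ := HeightOneSpectrum.mem_integers_of_valuation_le_one F f h1
    rw [← hb]
    exact b.2

variable [Module.Finite K[X] ↥(integralClosure K[X] F)]

/-- A `K[X]`-basis of the integral closure, which is also a basis of `F` over `K(x)`. -/
theorem exists_basis_integralClosure (L : Type*) [Field L] [Algebra K[X] L]
    [IsFractionRing K[X] L] [Algebra L F] [IsScalarTower K[X] L F] [FiniteDimensional L F] :
    ∃ v : Fin (Module.finrank L F) → F, LinearIndependent L v ∧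
      ∀ f : F, f ∈ integralClosure K[X] F ↔
        ∃ c : Fin (Module.finrank L F) → K[X], f = ∑ i, algebraMap K[X] F (c i) * v i := by
  haveI := faithfulSMul_integralClosure (K := K) (F := F)
  haveI : Module.Free K[X] ↥(integralClosure K[X] F) := Module.free_of_finite_type_torsion_free'
  let b := Module.Free.chooseBasis K[X] ↥(integralClosure K[X] F)
  haveI : IsLocalization (Algebra.algebraMapSubmonoid ↥(integralClosure K[X] F)
      (nonZeroDivisors K[X])) F := IsIntegralClosure.isLocalization K[X] L F _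
  let bL := b.localizationLocalization L (nonZeroDivisors K[X]) F
  have hcard : Fintype.card (Module.Free.ChooseBasisIndex K[X] ↥(integralClosure K[X] F)) =
      Module.finrank L F := (Module.finrank_eq_card_basis bL).symm
  let e := Fintype.equivFinOfCardEq hcard
  refine ⟨fun i => ((b (e.symm i) : ↥(integralClosure K[X] F)) : F), ?_, fun f => ?_⟩
  · have h1 := (bL.reindex e).linearIndependent
    have h2 : (fun i => ((b (e.symm i) : ↥(integralClosure K[X] F)) : F)) = ⇑(bL.reindex e) := by
      ext i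
      rw [Module.Basis.reindex_apply, Module.Basis.localizationLocalization_apply]
      rfl
    rw [h2]
    exact h1
  · constructor
    · intro hf
      refine ⟨fun i => b.repr ⟨f, hf⟩ (e.symm i), ?_⟩
      have h1 := congrArg (integralClosure K[X] F).val (b.sum_repr ⟨f, hf⟩)
      rw [map_sum] at h1
      have h2 : f = ∑ j, algebraMap K[X] F (b.repr ⟨f, hf⟩ j) * ((b j : ↥(integralClosure K[X] F)) : F) := by
        conv_lhs => rw [show f = (integralClosure K[X] F).val ⟨f, hf⟩ from rfl, ← h1]
        refine Finset.sum_congr rfl fun j _ => ?_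
        rw [map_smul, Algebra.smul_def]
        rfl
      exact h2.trans (Equiv.sum_comp e.symm (fun j => algebraMap K[X] F (b.repr ⟨f, hf⟩ j) *
        ((b j : ↥(integralClosure K[X] F)) : F))).symm
    · rintro ⟨c, rfl⟩
      refine Subalgebra.sum_mem _ fun i _ => Subalgebra.mul_mem _ ?_ (b (e.symm i)).2
      exact Subalgebra.algebraMap_mem _ _

end DedekindLattice

section FiniteLattice

variable {K F : Type*} [Field K] [Field F] [Algebra K F] [IsAlgClosed K] [CharZero K]

/-- **(P-b), finite part**: the functions regular at all places where `t` is regular form a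
`K[t]`-lattice `latFin K t v`, for a `K(t)`-basis `v` of `F`. -/
theorem exists_finite_lattice (t : F) (ht : Transcendental K t) [FiniteDimensional K⟮t⟯ F] :
    ∃ v : Fin (Module.finrank K⟮t⟯ F) → F, LinearIndependent K⟮t⟯ v ∧
      ∀ f : F, f ∈ latFin K t v ↔ ∀ w : Place K F, 0 ≤ w.ord t → 0 ≤ w.ord f := by
  apply exists_poly_structure₂ t ht
  intro _ _ _ _ _ _ _ _ _ halg
  obtain ⟨v, hv, hmem⟩ := exists_basis_integralClosure (K := K) (F := F) K⟮t⟯
  refine ⟨v, hv, fun f => ?_⟩
  have hX : algebraMap K[X] F X = t := by rw [halg, aeval_X]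
  have key : (∀ w : Place K F, 0 ≤ w.ord t → 0 ≤ w.ord f) ↔ f ∈ integralClosure K[X] F := by
    rw [mem_integralClosure_iff_places, hX]
  rw [key, hmem]
  constructor
  · rintro ⟨c, hc, rfl⟩
    choose p hp using hc
    exact ⟨p, Finset.sum_congr rfl fun i _ => by rw [halg, hp i]⟩
  · rintro ⟨c, rfl⟩
    exact ⟨fun i => algebraMap K[X] F (c i), fun i => ⟨c i, (halg (c i)).symm⟩, rfl⟩

end FiniteLattice

/-! ### Local duality in the Dedekind picture -/

section LocalDualityDedekind

variable {K F : Type*} [Field K] [Field F] [Algebra K F]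
variable [Algebra K[X] F] [IsScalarTower K K[X] F] [FaithfulSMul K[X] F]
variable [IsDedekindDomain ↥(integralClosure K[X] F)]
  [IsFractionRing ↥(integralClosure K[X] F) F]

theorem ord_coe_nonneg (w : HeightOneSpectrum ↥(integralClosure K[X] F))
    (z : ↥(integralClosure K[X] F)) : 0 ≤ (Place.ofHeightOneSpectrum (K := K) w).ord (z : F) := by
  rcases eq_or_ne z 0 with rfl | hz
  · have : ((0 : ↥(integralClosure K[X] F)) : F) = 0 := rfl
    rw [this]; simp
  · have := (le_ord_ofHeightOneSpectrum_iff (K := K) w hz 0).mpr (by simp)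
    simpa using this

theorem mem_integralClosure_of_forall_ord (f : F)
    (h : ∀ w : HeightOneSpectrum ↥(integralClosure K[X] F),
      0 ≤ (Place.ofHeightOneSpectrum (K := K) w).ord f) : f ∈ integralClosure K[X] F := by
  have h1 : ∀ w : HeightOneSpectrum ↥(integralClosure K[X] F),
      HeightOneSpectrum.valuation F w f ≤ 1 := fun w =>
    (mem_ofHeightOneSpectrum_iff (K := K) w f).mp ((ord_nonneg_iff_mem _ _).mp (h w))
  obtain ⟨b, hb⟩ := HeightOneSpectrum.mem_integers_of_valuation_le_one F f h1
  rw [← hb]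
  exact b.2

theorem liesOver_of_mem (b : K) (w : HeightOneSpectrum ↥(integralClosure K[X] F))
    (hw : algebraMap K[X] ↥(integralClosure K[X] F) (X - C b) ∈ w.asIdeal) :
    w.asIdeal.LiesOver (Ideal.span {X - C b} : Ideal K[X]) := by
  haveI := span_X_sub_C_isMaximal (K := K) b
  have hle : (Ideal.span {X - C b} : Ideal K[X]) ≤
      w.asIdeal.comap (algebraMap K[X] ↥(integralClosure K[X] F)) := by
    rw [Ideal.span_singleton_le_iff_mem]
    exact hw
  have hcomap_ne : w.asIdeal.comap (algebraMap K[X] ↥(integralClosure K[X] F)) ≠ ⊤ :=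
    (Ideal.comap_isPrime _ _).ne_top
  exact ⟨(Ideal.IsMaximal.eq_of_le inferInstance hcomap_ne hle)⟩

variable [IsAlgClosed K] [CharZero K] [Module.Finite K[X] ↥(integralClosure K[X] F)]

/-- An integral element vanishing at all places over `x = b` has trace divisible by `X - b`. -/
theorem intTrace_mem_of_forall_over (b : K) (z : ↥(integralClosure K[X] F))
    (hz : ∀ w : HeightOneSpectrum ↥(integralClosure K[X] F),
      algebraMap K[X] ↥(integralClosure K[X] F) (X - C b) ∈ w.asIdeal → z ∈ w.asIdeal) :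
    Algebra.intTrace K[X] ↥(integralClosure K[X] F) z ∈ (Ideal.span {X - C b} : Ideal K[X]) := by
  haveI := span_X_sub_C_isMaximal (K := K) b
  haveI := faithfulSMul_integralClosure (K := K) (F := F)
  refine intTrace_mem_of_forall_mem _ z fun P hP hle => ?_
  have hmem : algebraMap K[X] ↥(integralClosure K[X] F) (X - C b) ∈ P :=
    hle (Ideal.mem_map_of_mem _ (Ideal.mem_span_singleton_self _))
  have hPne : P ≠ ⊥ := by
    rintro rfl
    rw [Ideal.mem_bot, map_eq_zero_iff _ (FaithfulSMul.algebraMap_injective K[X] _)] at hmem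
    exact Polynomial.X_sub_C_ne_zero b hmem
  exact hz ⟨P, hP, hPne⟩ hmem

/-- If `y` has a pole of order `≥ e` at a place over `x = b` (`e` the ramification index) and is
regular at the finite places not over `b`, there is an integral `h` with `(x - b) y h` integral
of trace not divisible by `X - b`. -/
theorem exists_intTrace_notMem (L : Type*) [Field L] [Algebra K[X] L] [IsFractionRing K[X] L]
    [Algebra L F] [IsScalarTower K[X] L F] (b : K)
    (w₀ : HeightOneSpectrum ↥(integralClosure K[X] F))
    (hw₀ : algebraMap K[X] ↥(integralClosure K[X] F) (X - C b) ∈ w₀.asIdeal)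
    (y : F) (hy : y ≠ 0)
    (hy₀ : (Place.ofHeightOneSpectrum (K := K) w₀).ord y +
      (Place.ofHeightOneSpectrum (K := K) w₀).ord (algebraMap K[X] F (X - C b)) ≤ 0)
    (hyreg : ∀ w : HeightOneSpectrum ↥(integralClosure K[X] F),
      algebraMap K[X] ↥(integralClosure K[X] F) (X - C b) ∉ w.asIdeal →
        0 ≤ (Place.ofHeightOneSpectrum (K := K) w).ord y) :
    ∃ h z : ↥(integralClosure K[X] F), (z : F) = algebraMap K[X] F (X - C b) * y * (h : F) ∧
      Algebra.intTrace K[X] ↥(integralClosure K[X] F) z ∉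
        (Ideal.span {X - C b} : Ideal K[X]) := by
  classical
  haveI := span_X_sub_C_isMaximal (K := K) b
  have hp0 := span_X_sub_C_ne_bot (K := K) b
  haveI := faithfulSMul_integralClosure (K := K) (F := F)
  set tB : ↥(integralClosure K[X] F) := algebraMap K[X] ↥(integralClosure K[X] F) (X - C b)
    with htB
  have htB0 : tB ≠ 0 := by
    rw [htB, Ne, map_eq_zero_iff _ (FaithfulSMul.algebraMap_injective K[X] _)]
    exact Polynomial.X_sub_C_ne_zero b
  have hcoe : algebraMap K[X] F (X - C b) = (tB : F) := by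
    rw [htB, IsScalarTower.algebraMap_apply K[X] ↥(integralClosure K[X] F) F]
    rfl
  have htBF0 : (tB : F) ≠ 0 := fun h0 => htB0 (Subtype.ext h0)
  have he₀ := ramificationIdx_eq_ord (K := K) b w₀
  rw [hcoe] at he₀ hy₀
  set e := Ideal.ramificationIdx' (Ideal.span {X - C b} : Ideal K[X]) w₀.asIdeal with he
  have hepos : 0 < e := by
    have := (ord_ofHeightOneSpectrum_pos_iff (K := K) w₀ htB0).mpr hw₀
    rw [← he₀] at this
    exact_mod_cast this
  have hmap : Ideal.map (algebraMap K[X] ↥(integralClosure K[X] F))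
      (Ideal.span {X - C b} : Ideal K[X]) = Ideal.span {tB} := by
    rw [Ideal.map_span, Set.image_singleton]
  have hle1 : Ideal.span {tB} ≤ w₀.asIdeal ^ e := by
    rw [Ideal.span_singleton_le_iff_mem]
    exact (le_ord_ofHeightOneSpectrum_iff (K := K) w₀ htB0 e).mp (le_of_eq he₀)
  have hle2 : ¬ Ideal.span {tB} ≤ w₀.asIdeal ^ (e + 1) := by
    rw [Ideal.span_singleton_le_iff_mem]
    intro hmem
    have := (le_ord_ofHeightOneSpectrum_iff (K := K) w₀ htB0 (e + 1)).mpr hmem
    rw [← he₀] at this
    push_cast at this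
    omega
  obtain ⟨Q, hQ⟩ := Ideal.dvd_iff_le.mpr hle1
  have hQle : ¬ Q ≤ w₀.asIdeal := by
    intro hQ'
    apply hle2
    rw [hQ, pow_succ]
    exact Ideal.mul_mono_right hQ'
  obtain ⟨q, hqQ, hqw⟩ := SetLike.not_le_iff_exists.mp hQle
  have hq0 : q ≠ 0 := fun h0 => hqw (h0 ▸ zero_mem _)
  have hqF0 : (q : F) ≠ 0 := fun h0 => hq0 (Subtype.ext h0)
  have hqord₀ : (Place.ofHeightOneSpectrum (K := K) w₀).ord (q : F) = 0 := by
    have h1 := ord_coe_nonneg (K := K) w₀ q
    have h2 : ¬ 0 < (Place.ofHeightOneSpectrum (K := K) w₀).ord (q : F) := fun h =>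
      hqw ((ord_ofHeightOneSpectrum_pos_iff (K := K) w₀ hq0).mp h)
    omega
  -- the uniformizing power
  have hme : (e : ℤ) ≤ -((Place.ofHeightOneSpectrum (K := K) w₀).ord y) := by omega
  obtain ⟨k, hk⟩ := Int.eq_ofNat_of_zero_le (by omega : (0 : ℤ) ≤ -((Place.ofHeightOneSpectrum (K := K) w₀).ord y) - e)
  obtain ⟨ϖ, hϖ1, hϖ2⟩ := SetLike.exists_of_lt (Ideal.pow_succ_lt_pow w₀.ne_bot k)
  have hϖ0 : ϖ ≠ 0 := fun h0 => hϖ2 (h0 ▸ zero_mem _)
  have hϖF0 : (ϖ : F) ≠ 0 := fun h0 => hϖ0 (Subtype.ext h0)
  have hϖord : (Place.ofHeightOneSpectrum (K := K) w₀).ord (ϖ : F) = k := by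
    have h1 := (le_ord_ofHeightOneSpectrum_iff (K := K) w₀ hϖ0 k).mpr hϖ1
    have h2 : ¬ ((k + 1 : ℕ) : ℤ) ≤ (Place.ofHeightOneSpectrum (K := K) w₀).ord (ϖ : F) := fun h =>
      hϖ2 ((le_ord_ofHeightOneSpectrum_iff (K := K) w₀ hϖ0 (k + 1)).mp h)
    push_cast at h2
    omega
  -- a bound for the poles of `y` over `b`
  obtain ⟨s, hs, -⟩ := exists_finset_places_over (K := K) (F := F) b L
  rw [← algebraMap_X_sub_C, hcoe] at hs
  set N := ∑ v ∈ s, (-(v.ord y)).toNat with hN
  have hNbound : ∀ w : HeightOneSpectrum ↥(integralClosure K[X] F), tB ∈ w.asIdeal →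
      -(N : ℤ) ≤ (Place.ofHeightOneSpectrum (K := K) w).ord y := by
    intro w hw
    have hmem : Place.ofHeightOneSpectrum (K := K) w ∈ s :=
      (hs _).mpr ((ord_ofHeightOneSpectrum_pos_iff (K := K) w htB0).mpr hw)
    have h1 := Finset.single_le_sum (f := fun v : Place K F => (-(v.ord y)).toNat)
      (fun _ _ => Nat.zero_le _) hmem
    have h2 := Int.self_le_toNat (-((Place.ofHeightOneSpectrum (K := K) w).ord y))
    have h3 : ((-((Place.ofHeightOneSpectrum (K := K) w).ord y)).toNat : ℤ) ≤ (N : ℤ) := by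
      exact_mod_cast h1
    omega
  -- orders of `r = (x - b) y q^N ϖ`
  have hord : ∀ u : Place K F, u.ord ((tB : F) * y * ((q : F) ^ N * (ϖ : F))) =
      u.ord (tB : F) + u.ord y + ((N : ℤ) * u.ord (q : F) + u.ord (ϖ : F)) := by
    intro u
    rw [u.ord_mul (mul_ne_zero htBF0 hy) (mul_ne_zero (pow_ne_zero _ hqF0) hϖF0),
      u.ord_mul htBF0 hy, u.ord_mul (pow_ne_zero _ hqF0) hϖF0, ← zpow_natCast, u.ord_zpow]
  have hr : (tB : F) * y * ((q : F) ^ N * (ϖ : F)) ∈ integralClosure K[X] F := by
    apply mem_integralClosure_of_forall_ord (K := K)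
    intro w
    rw [hord]
    have hq1 := ord_coe_nonneg (K := K) w q
    have hϖ1' := ord_coe_nonneg (K := K) w ϖ
    have ht1 := ord_coe_nonneg (K := K) w tB
    by_cases hw : tB ∈ w.asIdeal
    · by_cases hww : w = w₀
      · subst hww
        rw [hqord₀, hϖord, ← he₀]
        omega
      · have hQw : Q ≤ w.asIdeal := by
          have h1 : w₀.asIdeal ^ e * Q ≤ w.asIdeal := by
            rw [← hQ, Ideal.span_singleton_le_iff_mem]
            exact hw
          rcases (Ideal.IsPrime.mul_le w.isPrime).mp h1 with h2 | h2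
          · exfalso
            have h3 : w₀.asIdeal ≤ w.asIdeal :=
              (Ideal.IsPrime.pow_le_iff (hP := w.isPrime) hepos.ne').mp h2
            exact hww (HeightOneSpectrum.ext (w₀.isMaximal.eq_of_le w.isPrime.ne_top h3)).symm
          · exact h2
        have hq2 := (ord_ofHeightOneSpectrum_pos_iff (K := K) w hq0).mpr (hQw hqQ)
        have ht2 := (ord_ofHeightOneSpectrum_pos_iff (K := K) w htB0).mpr hw
        have hy2 := hNbound w hw
        nlinarith [Int.natCast_nonneg N]
    · have hy2 := hyreg w hw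
      have : (0 : ℤ) ≤ (N : ℤ) * (Place.ofHeightOneSpectrum (K := K) w).ord (q : F) :=
        mul_nonneg (Int.natCast_nonneg N) hq1
      omega
  have hord₀ : (Place.ofHeightOneSpectrum (K := K) w₀).ord ((tB : F) * y * ((q : F) ^ N * (ϖ : F))) = 0 := by
    rw [hord, hqord₀, hϖord, ← he₀]
    omega
  refine ⟨q ^ (N + 1) * ϖ, q * ⟨_, hr⟩, ?_, ?_⟩
  · rw [hcoe]
    show (q : F) * ((tB : F) * y * ((q : F) ^ N * (ϖ : F))) =
      (tB : F) * y * ((q : F) ^ (N + 1) * (ϖ : F))
    ring
  · haveI := liesOver_of_mem (K := K) b w₀ hw₀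
    have hf : Module.finrank (K[X] ⧸ (Ideal.span {X - C b} : Ideal K[X]))
        (↥(integralClosure K[X] F) ⧸ w₀.asIdeal) = 1 := by
      rw [← Ideal.inertiaDeg'_algebraMap]
      exact inertiaDeg_eq_one b w₀.asIdeal
    haveI : CharZero (K[X] ⧸ (Ideal.span {X - C b} : Ideal K[X])) :=
      charZero_of_injective_algebraMap
        (algebraMap K (K[X] ⧸ (Ideal.span {X - C b} : Ideal K[X]))).injective
    have hechar : ((e : ℕ) : K[X] ⧸ (Ideal.span {X - C b} : Ideal K[X])) ≠ 0 :=
      Nat.cast_ne_zero.mpr hepos.ne'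
    refine intTrace_notMem (Ideal.span {X - C b} : Ideal K[X]) hp0 w₀.asIdeal e Q
      (by rw [hmap, hQ]) hQle hf hechar _ (Ideal.mul_mem_right _ _ hqQ) ?_
    intro hmem
    have hz0 : q * (⟨_, hr⟩ : ↥(integralClosure K[X] F)) ≠ 0 := by
      intro h0
      have h1 : (q : F) * ((tB : F) * y * ((q : F) ^ N * (ϖ : F))) = 0 :=
        congrArg Subtype.val h0
      exact (mul_ne_zero hqF0 (mul_ne_zero (mul_ne_zero htBF0 hy)
        (mul_ne_zero (pow_ne_zero _ hqF0) hϖF0))) h1
    have hpos := (ord_ofHeightOneSpectrum_pos_iff (K := K) w₀ hz0).mpr hmem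
    have hval : (Place.ofHeightOneSpectrum (K := K) w₀).ord (((q * (⟨_, hr⟩ : ↥(integralClosure K[X] F)) :
        ↥(integralClosure K[X] F)) : F)) = 0 := by
      show (Place.ofHeightOneSpectrum (K := K) w₀).ord ((q : F) * ((tB : F) * y * ((q : F) ^ N * (ϖ : F)))) = 0
      rw [(Place.ofHeightOneSpectrum (K := K) w₀).ord_mul hqF0 (mul_ne_zero (mul_ne_zero htBF0 hy)
        (mul_ne_zero (pow_ne_zero _ hqF0) hϖF0)), hqord₀, hord₀, add_zero]
    rw [hval] at hpos
    exact lt_irrefl _ hpos

end LocalDualityDedekind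

section TraceDedekind

variable {K F : Type*} [Field K] [Field F] [Algebra K F]
variable [Algebra K[X] F] [IsScalarTower K K[X] F] [FaithfulSMul K[X] F]
variable [IsDedekindDomain ↥(integralClosure K[X] F)]
  [IsFractionRing ↥(integralClosure K[X] F) F]
variable [IsAlgClosed K] [CharZero K] [Module.Finite K[X] ↥(integralClosure K[X] F)]
variable (L : Type*) [Field L] [Algebra K[X] L] [IsFractionRing K[X] L]
  [Algebra L F] [IsScalarTower K[X] L F] [FiniteDimensional L F]

/-- The trace of an integral element is the integral trace. -/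
theorem algebraMap_trace_coe (z : ↥(integralClosure K[X] F)) :
    algebraMap L F (Algebra.trace L F (z : F)) =
      algebraMap K[X] F (Algebra.intTrace K[X] ↥(integralClosure K[X] F) z) := by
  haveI := faithfulSMul_integralClosure (K := K) (F := F)
  rw [IsScalarTower.algebraMap_apply K[X] L F, Algebra.algebraMap_intTrace (L := F)]
  rfl

/-- The trace is `K[X]`-linear. -/
theorem algebraMap_trace_mul (p : K[X]) (u : F) :
    algebraMap L F (Algebra.trace L F (algebraMap K[X] F p * u)) =
      algebraMap K[X] F p * algebraMap L F (Algebra.trace L F u) := by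
  rw [IsScalarTower.algebraMap_apply K[X] L F p, ← Algebra.smul_def, map_smul, smul_eq_mul,
    map_mul]

/-- If `(x - b) u` is integral and vanishes at all places over `b`, the trace of `u` is a
polynomial. -/
theorem exists_trace_eq_of_forall_over (b : K) (u : F)
    (hu : algebraMap K[X] F (X - C b) * u ∈ integralClosure K[X] F)
    (hvan : ∀ w : HeightOneSpectrum ↥(integralClosure K[X] F),
      algebraMap K[X] ↥(integralClosure K[X] F) (X - C b) ∈ w.asIdeal →
        (⟨_, hu⟩ : ↥(integralClosure K[X] F)) ∈ w.asIdeal) :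
    ∃ q₀ : K[X], algebraMap L F (Algebra.trace L F u) = algebraMap K[X] F q₀ := by
  have h1 := intTrace_mem_of_forall_over b ⟨_, hu⟩ hvan
  obtain ⟨q₀, hq₀⟩ := Ideal.mem_span_singleton.mp h1
  refine ⟨q₀, ?_⟩
  have h2 := algebraMap_trace_coe L (⟨_, hu⟩ : ↥(integralClosure K[X] F))
  have h3 : algebraMap L F (Algebra.trace L F (algebraMap K[X] F (X - C b) * u)) =
      algebraMap K[X] F (X - C b) * algebraMap K[X] F q₀ := by
    rw [← map_mul (algebraMap K[X] F), ← hq₀]
    exact h2
  rw [algebraMap_trace_mul] at h3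
  have hπ : algebraMap K[X] F (X - C b) ≠ 0 := by
    rw [Ne, map_eq_zero_iff _ (FaithfulSMul.algebraMap_injective K[X] F)]
    exact Polynomial.X_sub_C_ne_zero b
  exact mul_left_cancel₀ hπ h3

/-- If `z = (x - b) u` is integral with trace not divisible by `X - b`, the trace of `u` is not
regular at `b`. -/
theorem trace_not_regular (b : K) (u : F) (z : ↥(integralClosure K[X] F))
    (hz : (z : F) = algebraMap K[X] F (X - C b) * u)
    (htr : Algebra.intTrace K[X] ↥(integralClosure K[X] F) z ∉
      (Ideal.span {X - C b} : Ideal K[X]))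
    (q s : K[X]) (hs : s.eval b ≠ 0)
    (hqs : algebraMap L F (Algebra.trace L F u) * algebraMap K[X] F s = algebraMap K[X] F q) :
    False := by
  have h2 := algebraMap_trace_coe L z
  rw [hz, algebraMap_trace_mul] at h2
  have h3 : algebraMap K[X] F (Algebra.intTrace K[X] ↥(integralClosure K[X] F) z * s) =
      algebraMap K[X] F ((X - C b) * q) := by
    rw [map_mul, map_mul, ← h2, ← hqs]
    ring
  have h4 := FaithfulSMul.algebraMap_injective K[X] F h3
  have h5 : (X - C b) ∣ Algebra.intTrace K[X] ↥(integralClosure K[X] F) z * s := ⟨q, h4⟩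
  rcases (Polynomial.prime_X_sub_C b).dvd_or_dvd h5 with h6 | h6
  · exact htr (Ideal.mem_span_singleton.mpr h6)
  · exact hs (Polynomial.dvd_iff_isRoot.mp h6)

end TraceDedekind

end Fermat.Agent.RR
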