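/-
T20 project, piece [RR-P] part B (helper2): local duality for the trace form at a point of the
`t`-line, the lattice at infinity, and the trace duals of the two lattices in place form.
-/
import Mathlib
import Fermat.Agent.Lib.RR_Places

set_option autoImplicit false
set_option linter.unusedSectionVars false
set_option linter.style.haveILetI false
set_option linter.deprecated false

noncomputable section

namespace Fermat.Agent.RR

open AlgebraicCurve IntermediateField Polynomial IsDedekindDomain Fermat.Agent.T24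

section LocalDuality

variable {K F : Type*} [Field K] [Field F] [Algebra K F] [IsAlgClosed K] [CharZero K]

/-- **Local duality, easy direction**: if `ord_v y ≥ -(e_v - 1)` at all places over `t = b`, the
trace of `y h` is regular at `b` for every `h` regular over `b`. -/
theorem local_duality_of_ord (t : F) (ht : Transcendental K t) [FiniteDimensional K⟮t⟯ F] (b : K)
    {y : F}
    (hord : ∀ v : Place K F, 0 < v.ord (t - algebraMap K F b) →
      0 ≤ v.ord y + v.ord (t - algebraMap K F b) - 1)
    (h : F) (hh : ∀ v : Place K F, 0 < v.ord (t - algebraMap K F b) → 0 ≤ v.ord h) :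
    algebraMap K⟮t⟯ F (Algebra.trace K⟮t⟯ F (y * h)) ∈ regAt K t b := by
  obtain ⟨s₁, hs₁, hc₁⟩ := exists_clearing t ht t ht b h
  obtain ⟨s₂, hs₂, hc₂⟩ := exists_clearing t ht t ht b y
  -- the element `(t - b) s₂(t) y s₁(t) h`
  have hFa : ∀ v : Place K F, 0 < v.ord (t - algebraMap K F b) →
      (t - algebraMap K F b) * (aeval t s₂ * y) * (aeval t s₁ * h) = 0 ∨
        0 < v.ord ((t - algebraMap K F b) * (aeval t s₂ * y) * (aeval t s₁ * h)) := by
    intro v hvb
    rcases eq_or_ne h 0 with rfl | hh0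
    · left; simp
    rcases eq_or_ne y 0 with rfl | hy0
    · left; simp
    right
    obtain ⟨hs1ne, hs1ord⟩ := ord_aeval_eq_zero v hvb hs₁
    obtain ⟨hs2ne, hs2ord⟩ := ord_aeval_eq_zero v hvb hs₂
    have hπ0 : t - algebraMap K F b ≠ 0 := by
      intro h0; rw [h0] at hvb; simp at hvb
    rw [v.ord_mul (mul_ne_zero hπ0 (mul_ne_zero hs2ne hy0)) (mul_ne_zero hs1ne hh0),
      v.ord_mul hπ0 (mul_ne_zero hs2ne hy0), v.ord_mul hs2ne hy0, v.ord_mul hs1ne hh0,
      hs1ord, hs2ord]
    have := hord v hvb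
    have := hh v hvb
    omega
  have hFb : ∀ v : Place K F, 0 ≤ v.ord t → ¬ 0 < v.ord (t - algebraMap K F b) →
      0 ≤ v.ord ((t - algebraMap K F b) * (aeval t s₂ * y) * (aeval t s₁ * h)) := by
    intro v hv hvb
    rw [ord_nonneg_iff_mem]
    refine mul_mem (mul_mem ?_ ?_) ?_
    · exact sub_mem ((ord_nonneg_iff_mem v t).mp hv) (v.algebraMap_mem' b)
    · exact (ord_nonneg_iff_mem v _).mp (hc₂ v hv hvb)
    · exact (ord_nonneg_iff_mem v _).mp (hc₁ v hv hvb)
  apply exists_poly_structure₂ t ht
  intro _ _ _ _ _ _ _ _ _ halg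
  have hX : algebraMap K[X] F X = t := by rw [halg, aeval_X]
  have hπ : algebraMap K[X] F (X - C b) = t - algebraMap K F b := by
    rw [algebraMap_X_sub_C, hX]
  have heq : algebraMap K[X] F (X - C b) * (algebraMap K[X] F (s₂ * s₁) * (y * h)) =
      (t - algebraMap K F b) * (aeval t s₂ * y) * (aeval t s₁ * h) := by
    rw [hπ, map_mul, halg, halg]
    ring
  have hmem : algebraMap K[X] F (X - C b) * (algebraMap K[X] F (s₂ * s₁) * (y * h)) ∈
      integralClosure K[X] F := by
    rw [mem_integralClosure_iff_places, hX, heq]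
    intro v hv
    by_cases hvb : 0 < v.ord (t - algebraMap K F b)
    · rcases hFa v hvb with h0 | h0
      · rw [h0]; simp
      · exact h0.le
    · exact hFb v hv hvb
  have htB0 : algebraMap K[X] ↥(integralClosure K[X] F) (X - C b) ≠ 0 := by
    haveI := faithfulSMul_integralClosure (K := K) (F := F)
    rw [Ne, map_eq_zero_iff _ (FaithfulSMul.algebraMap_injective K[X] _)]
    exact Polynomial.X_sub_C_ne_zero b
  have hcoe : ((algebraMap K[X] ↥(integralClosure K[X] F) (X - C b) :
      ↥(integralClosure K[X] F)) : F) = t - algebraMap K F b := by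
    rw [← hπ]
    exact (IsScalarTower.algebraMap_apply K[X] ↥(integralClosure K[X] F) F _).symm
  have hvan : ∀ w : HeightOneSpectrum ↥(integralClosure K[X] F),
      algebraMap K[X] ↥(integralClosure K[X] F) (X - C b) ∈ w.asIdeal →
        (⟨_, hmem⟩ : ↥(integralClosure K[X] F)) ∈ w.asIdeal := by
    intro w hw
    by_cases hz0 : (⟨_, hmem⟩ : ↥(integralClosure K[X] F)) = 0
    · rw [hz0]; exact zero_mem _
    rw [← ord_ofHeightOneSpectrum_pos_iff (K := K) w hz0]
    have hvb : 0 < (Place.ofHeightOneSpectrum (K := K) w).ord (t - algebraMap K F b) := by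
      rw [← hcoe]
      exact (ord_ofHeightOneSpectrum_pos_iff (K := K) w htB0).mpr hw
    show 0 < (Place.ofHeightOneSpectrum (K := K) w).ord
      (algebraMap K[X] F (X - C b) * (algebraMap K[X] F (s₂ * s₁) * (y * h)))
    rw [heq]
    rcases hFa _ hvb with h0 | h0
    · exfalso
      apply hz0
      apply Subtype.ext
      show algebraMap K[X] F (X - C b) * (algebraMap K[X] F (s₂ * s₁) * (y * h)) = 0
      rw [heq, h0]
    · exact h0
  obtain ⟨q₀, hq₀⟩ := exists_trace_eq_of_forall_over K⟮t⟯ b _ hmem hvan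
  rw [algebraMap_trace_mul] at hq₀
  refine ⟨q₀, s₂ * s₁, ?_, ?_⟩
  · rw [eval_mul]
    exact mul_ne_zero hs₂ hs₁
  · rw [← halg, ← halg, ← hq₀]
    ring

/-- **Local duality, hard direction**: if the trace of `y h` is regular at `b` for every `h`
regular over `b`, then `ord_v y ≥ -(e_v - 1)` at all places over `t = b`. -/
theorem local_duality_of_trace (t : F) (ht : Transcendental K t) [FiniteDimensional K⟮t⟯ F]
    (b : K) {y : F} (hy : y ≠ 0)
    (htr : ∀ h : F, (∀ v : Place K F, 0 < v.ord (t - algebraMap K F b) → 0 ≤ v.ord h) →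
      algebraMap K⟮t⟯ F (Algebra.trace K⟮t⟯ F (y * h)) ∈ regAt K t b)
    (v₀ : Place K F) (hv₀ : 0 < v₀.ord (t - algebraMap K F b)) :
    0 ≤ v₀.ord y + v₀.ord (t - algebraMap K F b) - 1 := by
  by_contra hneg
  have hneg' : v₀.ord y + v₀.ord (t - algebraMap K F b) ≤ 0 := by omega
  obtain ⟨s₂, hs₂, hc₂⟩ := exists_clearing t ht t ht b y
  apply exists_poly_structure₂ t ht
  intro _ _ _ _ _ _ _ _ _ halg
  have hX : algebraMap K[X] F X = t := by rw [halg, aeval_X]
  have hπ : algebraMap K[X] F (X - C b) = t - algebraMap K F b := by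
    rw [algebraMap_X_sub_C, hX]
  have hv₀t : algebraMap K[X] F X ∈ v₀.toValuationSubring := by
    rw [hX]; exact mem_of_ord_sub_pos v₀ hv₀
  obtain ⟨w₀, hw₀eq⟩ := exists_heightOneSpectrum_of_mem v₀ (integralClosure_mem_place v₀ hv₀t)
  have htB0 : algebraMap K[X] ↥(integralClosure K[X] F) (X - C b) ≠ 0 := by
    haveI := faithfulSMul_integralClosure (K := K) (F := F)
    rw [Ne, map_eq_zero_iff _ (FaithfulSMul.algebraMap_injective K[X] _)]
    exact Polynomial.X_sub_C_ne_zero b
  have hcoe : ((algebraMap K[X] ↥(integralClosure K[X] F) (X - C b) :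
      ↥(integralClosure K[X] F)) : F) = t - algebraMap K F b := by
    rw [← hπ]
    exact (IsScalarTower.algebraMap_apply K[X] ↥(integralClosure K[X] F) F _).symm
  have hw₀ : algebraMap K[X] ↥(integralClosure K[X] F) (X - C b) ∈ w₀.asIdeal := by
    rw [← ord_ofHeightOneSpectrum_pos_iff (K := K) w₀ htB0, hw₀eq, hcoe]
    exact hv₀
  obtain ⟨hs2ne, hs2ord⟩ := ord_aeval_eq_zero v₀ hv₀ hs₂
  have hy'0 : aeval t s₂ * y ≠ 0 := mul_ne_zero hs2ne hy
  have hy₀ : (Place.ofHeightOneSpectrum (K := K) w₀).ord (aeval t s₂ * y) +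
      (Place.ofHeightOneSpectrum (K := K) w₀).ord (algebraMap K[X] F (X - C b)) ≤ 0 := by
    rw [hw₀eq, hπ, v₀.ord_mul hs2ne hy, hs2ord]
    omega
  have hyreg : ∀ w : HeightOneSpectrum ↥(integralClosure K[X] F),
      algebraMap K[X] ↥(integralClosure K[X] F) (X - C b) ∉ w.asIdeal →
        0 ≤ (Place.ofHeightOneSpectrum (K := K) w).ord (aeval t s₂ * y) := by
    intro w hw
    apply hc₂
    · have h1 := ord_coe_nonneg (K := K) w (algebraMap K[X] ↥(integralClosure K[X] F) X)
      have h2 : ((algebraMap K[X] ↥(integralClosure K[X] F) X : ↥(integralClosure K[X] F)) : F)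
          = t := by
        rw [← hX]
        exact (IsScalarTower.algebraMap_apply K[X] ↥(integralClosure K[X] F) F _).symm
      rwa [h2] at h1
    · intro hpos
      apply hw
      rw [← ord_ofHeightOneSpectrum_pos_iff (K := K) w htB0, hcoe]
      exact hpos
  obtain ⟨h₀, z, hz, hztr⟩ := exists_intTrace_notMem K⟮t⟯ b w₀ hw₀ _ hy'0 hy₀ hyreg
  have hreg : ∀ v : Place K F, 0 < v.ord (t - algebraMap K F b) →
      0 ≤ v.ord (aeval t s₂ * (h₀ : F)) := by
    intro v hv
    rw [ord_nonneg_iff_mem]
    have hvt := mem_of_ord_sub_pos v hv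
    exact mul_mem (aeval_mem_place v hvt s₂)
      (integralClosure_mem_place v (by rw [hX]; exact hvt) h₀)
  obtain ⟨q, s, hs, hqs⟩ := htr _ hreg
  refine trace_not_regular K⟮t⟯ b (y * (aeval t s₂ * (h₀ : F))) z ?_ hztr q s hs ?_
  · rw [hz]; ring
  · rw [halg, halg]; exact hqs

end LocalDuality

/-! ### Transport along `K(x⁻¹) = K(x)` and linearity of the trace -/

section Transport

variable {K F : Type*} [Field K] [Field F] [Algebra K F]

theorem trace_eq_of_intermediateField_eq {E E' : IntermediateField K F} (h : E = E') (u : F) :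
    algebraMap E F (Algebra.trace E F u) = algebraMap E' F (Algebra.trace E' F u) := by
  subst h; rfl

theorem exists_transport {E E' : IntermediateField K F} (h : E = E')
    {P : ∀ n : ℕ, (Fin n → F) → Prop}
    (hex : ∃ w : Fin (Module.finrank E F) → F, LinearIndependent E w ∧ P _ w) :
    ∃ w : Fin (Module.finrank E' F) → F, LinearIndependent E' w ∧ P _ w := by
  subst h; exact hex

/-- The trace over `K(t)` is linear with respect to polynomials in `t`. -/
theorem trace_aeval_mul (t : F) (s : K[X]) (u : F) :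
    algebraMap K⟮t⟯ F (Algebra.trace K⟮t⟯ F (aeval t s * u)) =
      aeval t s * algebraMap K⟮t⟯ F (Algebra.trace K⟮t⟯ F u) := by
  have hcoe : aeval t s = algebraMap K⟮t⟯ F (aeval (AdjoinSimple.gen K t) s) := by
    have := aeval_algebraMap_apply F (AdjoinSimple.gen K t) s
    rw [AdjoinSimple.algebraMap_gen] at this
    exact this
  rw [hcoe, ← Algebra.smul_def, map_smul, smul_eq_mul, map_mul]

end Transport

/-! ### The lattice at infinity -/

section InfiniteLattice

variable {K F : Type*} [Field K] [Field F] [Algebra K F] [IsAlgClosed K] [CharZero K]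

theorem exists_infinite_lattice_aux (x : F) (hx : Transcendental K x)
    [FiniteDimensional K⟮x⟯ F] :
    ∃ w : Fin (Module.finrank K⟮x⁻¹⟯ F) → F, LinearIndependent K⟮x⁻¹⟯ w ∧
      ∀ f : F, f ∈ latInf K x w ↔ ∀ v : Place K F, v.ord x < 0 → 0 ≤ v.ord f := by
  have hx0 : x ≠ 0 := fun h => hx (h ▸ isAlgebraic_zero)
  have ht : Transcendental K x⁻¹ := fun h => hx (by simpa using h.inv)
  haveI := finiteDimensional_of_transcendental x ht
  obtain ⟨w, hw, hmem⟩ := exists_finite_lattice x⁻¹ ht
  refine ⟨w, hw, fun f => ?_⟩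
  have hover : ∀ v : Place K F, v.ord x < 0 ↔ 0 < v.ord (x⁻¹ - algebraMap K F 0) := by
    intro v
    rw [map_zero, sub_zero, v.ord_inv]
    omega
  have hwmem : ∀ i, w i ∈ latFin K x⁻¹ w := by
    classical
    intro i
    refine ⟨fun j => if j = i then 1 else 0, fun j => ?_, by simp⟩
    by_cases hj : j = i
    · simp only [hj, if_true]
      exact ⟨1, by simp⟩
    · simp only [hj, if_false]
      exact ⟨0, by simp⟩
  constructor
  · rintro ⟨c, hc, rfl⟩ v hv
    rw [ord_nonneg_iff_mem]
    have hv' := (hover v).mp hv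
    refine sum_mem fun i _ => mul_mem ?_ ?_
    · exact (ord_nonneg_iff_mem v _).mp
        (ord_nonneg_of_mem_regAt v hv' (inftyRing_subset_regAt hx (hc i)))
    · exact (ord_nonneg_iff_mem v _).mp
        ((hmem (w i)).mp (hwmem i) v (ord_nonneg_of_ord_sub_pos v hv'))
  · intro hf
    obtain ⟨s, hs, hcl⟩ := exists_clearing x hx x⁻¹ ht 0 f
    have hs0 : s ≠ 0 := by
      rintro rfl
      simp at hs
    have hsx : aeval x⁻¹ s ≠ 0 := fun h => hs0 ((transcendental_iff.mp ht) s h)
    have h1 : aeval x⁻¹ s * f ∈ latFin K x⁻¹ w := by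
      rw [hmem]
      intro v hv
      by_cases hvb : 0 < v.ord (x⁻¹ - algebraMap K F 0)
      · rw [ord_nonneg_iff_mem]
        exact mul_mem (aeval_mem_place v ((ord_nonneg_iff_mem v _).mp hv) s)
          ((ord_nonneg_iff_mem v f).mp (hf v ((hover v).mpr hvb)))
      · exact hcl v hv hvb
    obtain ⟨c, hc, hsum⟩ := h1
    choose p hp using hc
    refine ⟨fun i => aeval x⁻¹ (p i) / aeval x⁻¹ s, fun i => div_mem_inftyRing hx (p i) s hs, ?_⟩
    have h2 : f = (aeval x⁻¹ s)⁻¹ * (aeval x⁻¹ s * f) := by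
      rw [← mul_assoc, inv_mul_cancel₀ hsx, one_mul]
    rw [h2, hsum, Finset.mul_sum]
    refine Finset.sum_congr rfl fun i _ => ?_
    rw [← hp i]
    have : (Polynomial.aeval (R := K) x⁻¹) (p i) = aeval x⁻¹ (p i) := rfl
    rw [this]
    field_simp

/-- **(P-b), infinite part**: the functions regular at all poles of `x` form an `R∞`-lattice
`latInf K x w`, for a `K(x)`-basis `w` of `F`. -/
theorem exists_infinite_lattice (x : F) (hx : Transcendental K x) [FiniteDimensional K⟮x⟯ F] :
    ∃ w : Fin (Module.finrank K⟮x⟯ F) → F, LinearIndependent K⟮x⟯ w ∧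
      ∀ f : F, f ∈ latInf K x w ↔ ∀ v : Place K F, v.ord x < 0 → 0 ≤ v.ord f :=
  exists_transport (adjoin_simple_inv_eq (K := K) x)
    (P := fun _ w => ∀ f : F, f ∈ latInf K x w ↔ ∀ v : Place K F, v.ord x < 0 → 0 ≤ v.ord f)
    (exists_infinite_lattice_aux x hx)

end InfiniteLattice

/-! ### The trace duals of the two lattices -/

section DualDedekind

variable {K F : Type*} [Field K] [Field F] [Algebra K F]
variable [Algebra K[X] F] [IsScalarTower K K[X] F] [FaithfulSMul K[X] F]
variable [IsDedekindDomain ↥(integralClosure K[X] F)]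
  [IsFractionRing ↥(integralClosure K[X] F) F]

/-- A rational function regular at all finite places is a polynomial. -/
theorem exists_poly_of_regular (L : Type*) [Field L] [Algebra K[X] L] [IsFractionRing K[X] L]
    [Algebra L F] [IsScalarTower K[X] L F] (c : L)
    (h : ∀ v : Place K F, 0 ≤ v.ord (algebraMap K[X] F X) → 0 ≤ v.ord (algebraMap L F c)) :
    ∃ p : K[X], algebraMap K[X] F p = algebraMap L F c := by
  have h1 : IsIntegral K[X] (algebraMap L F c) :=
    (mem_integralClosure_iff_places (K := K) _).mpr h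
  have h2 : IsIntegral K[X] c := (isIntegral_algebraMap_iff (algebraMap L F).injective).mp h1
  obtain ⟨p, hp⟩ := IsIntegrallyClosed.isIntegral_iff.mp h2
  exact ⟨p, by rw [IsScalarTower.algebraMap_apply K[X] L F, hp]⟩

end DualDedekind

section Duals

variable {K F : Type*} [Field K] [Field F] [Algebra K F] [IsAlgClosed K] [CharZero K]

/-- **(P-c), finite part**: the trace dual of the lattice of functions regular at all finite
places, in place form. -/
theorem mem_dualFin_iff (x : F) (hx : Transcendental K x) [FiniteDimensional K⟮x⟯ F] (Λ : Set F)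
    (hΛ : ∀ f, f ∈ Λ ↔ ∀ v : Place K F, 0 ≤ v.ord x → 0 ≤ v.ord f) {y : F} (hy : y ≠ 0) :
    y ∈ dualFin K x Λ ↔ ∀ (v : Place K F) (a : K), 0 < v.ord (x - algebraMap K F a) →
      0 ≤ v.ord y + (v.ord (x - algebraMap K F a) - 1) := by
  constructor
  · intro hyd v a hv
    have h1 := local_duality_of_trace x hx a hy ?_ v hv
    · omega
    intro h hh
    obtain ⟨s, hs, hcl⟩ := exists_clearing x hx x hx a h
    have hmem : aeval x s * h ∈ Λ := by
      rw [hΛ]
      intro u hu
      by_cases hub : 0 < u.ord (x - algebraMap K F a)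
      · rw [ord_nonneg_iff_mem]
        exact mul_mem (aeval_mem_place u ((ord_nonneg_iff_mem u x).mp hu) s)
          ((ord_nonneg_iff_mem u h).mp (hh u hub))
      · exact hcl u hu hub
    obtain ⟨q, hq⟩ := hyd _ hmem
    refine ⟨q, s, hs, ?_⟩
    rw [show y * (aeval x s * h) = aeval x s * (y * h) by ring, trace_aeval_mul] at hq
    rw [mul_comm]
    exact hq.symm
  · intro hord h hh
    rw [hΛ] at hh
    have hreg : ∀ v : Place K F, 0 ≤ v.ord x →
        0 ≤ v.ord (algebraMap K⟮x⟯ F (Algebra.trace K⟮x⟯ F (y * h))) := by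
      intro v hv
      obtain ⟨a, ha⟩ := exists_const_of_ord_nonneg x hx v x hv
      rcases ha with ha | ha
      · exact absurd (ha ▸ isAlgebraic_algebraMap a) hx
      · refine ord_nonneg_of_mem_regAt v ha (local_duality_of_ord x hx a (fun u hu => ?_) h
          (fun u hu => hh u (ord_nonneg_of_ord_sub_pos u hu)))
        have := hord u a hu
        omega
    apply exists_poly_structure₂ x hx
    intro _ _ _ _ _ _ _ _ _ halg
    have hX : algebraMap K[X] F X = x := by rw [halg, aeval_X]
    obtain ⟨p, hp⟩ := exists_poly_of_regular (K := K) K⟮x⟯ (Algebra.trace K⟮x⟯ F (y * h))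
      (by rw [hX]; exact hreg)
    exact ⟨p, by rw [← halg, hp]⟩

/-- **(P-c), infinite part**: the trace dual of the lattice of functions regular at the poles of
`x`, in place form. -/
theorem mem_dualInf_iff (x : F) (hx : Transcendental K x) [FiniteDimensional K⟮x⟯ F] (Λ : Set F)
    (hΛ : ∀ f, f ∈ Λ ↔ ∀ v : Place K F, v.ord x < 0 → 0 ≤ v.ord f) {y : F} (hy : y ≠ 0) :
    y ∈ dualInf K x Λ ↔ ∀ v : Place K F, v.ord x < 0 → 0 ≤ v.ord y + (-(v.ord x) - 1) := by
  have ht : Transcendental K x⁻¹ := fun h => hx (by simpa using h.inv)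
  haveI := finiteDimensional_of_transcendental x ht
  have hover : ∀ v : Place K F, v.ord x < 0 ↔ 0 < v.ord (x⁻¹ - algebraMap K F 0) := by
    intro v
    rw [map_zero, sub_zero, v.ord_inv]
    omega
  have hordt : ∀ v : Place K F, v.ord (x⁻¹ - algebraMap K F 0) = -(v.ord x) := by
    intro v
    rw [map_zero, sub_zero, v.ord_inv]
  have htrace : ∀ u : F, algebraMap K⟮x⟯ F (Algebra.trace K⟮x⟯ F u) =
      algebraMap K⟮x⁻¹⟯ F (Algebra.trace K⟮x⁻¹⟯ F u) := fun u =>
    trace_eq_of_intermediateField_eq (adjoin_simple_inv_eq (K := K) x).symm u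
  constructor
  · intro hyd v hv
    have h1 := local_duality_of_trace x⁻¹ ht 0 hy ?_ v ((hover v).mp hv)
    · rw [hordt] at h1
      omega
    intro h hh
    have hmem : h ∈ Λ := (hΛ h).mpr fun u hu => hh u ((hover u).mp hu)
    have h2 := hyd h hmem
    rw [htrace] at h2
    exact inftyRing_subset_regAt hx h2
  · intro hord h hh
    rw [hΛ] at hh
    have h1 := local_duality_of_ord x⁻¹ ht 0 (y := y)
      (fun u hu => by
        rw [hordt]
        have := hord u ((hover u).mpr hu)
        omega) h (fun u hu => hh u ((hover u).mpr hu))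
    obtain ⟨q, s, hs, hqs⟩ := h1
    have hs0 : s ≠ 0 := by
      rintro rfl
      simp at hs
    have hsx : aeval x⁻¹ s ≠ 0 := fun h => hs0 ((transcendental_iff.mp ht) s h)
    show algebraMap K⟮x⟯ F (Algebra.trace K⟮x⟯ F (y * h)) ∈ inftyRing K x
    rw [htrace]
    have h3 : algebraMap K⟮x⁻¹⟯ F (Algebra.trace K⟮x⁻¹⟯ F (y * h)) =
        aeval x⁻¹ q / aeval x⁻¹ s := by
      rw [eq_div_iff hsx]
      exact hqs
    rw [h3]
    exact div_mem_inftyRing hx q s hs

end Duals

end Fermat.Agent.RR
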