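/-
T20 project, piece [RR-P] part C (helper2): assembly of Riemann-Roch for the canonical divisor
`W = div(dx)` from the lattice statement (Dedekind-Weber), the duals in place form and the
monotonicity of `deg D - ℓ(D)`.
-/
import Mathlib
import Fermat.Agent.Lib.RR_LSpace
import Fermat.Agent.Lib.RR_Dual

set_option autoImplicit false
set_option linter.unusedSectionVars false
set_option linter.style.haveILetI false
set_option linter.deprecated false

noncomputable section

namespace Fermat.Agent.RR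

open AlgebraicCurve IntermediateField Polynomial Fermat.Agent.T24

section Canon

variable {K F : Type*} [Field K] [Field F] [Algebra K F] [IsAlgClosed K] [CharZero K]

theorem zero_mem_dualFin (x : F) (Λ : Set F) : (0 : F) ∈ dualFin K x Λ := by
  intro h _
  refine ⟨0, ?_⟩
  simp

theorem zero_mem_dualInf (x : F) (Λ : Set F) : (0 : F) ∈ dualInf K x Λ := by
  intro h _
  refine ⟨0, 1, one_ne_zero, by simp, ?_⟩
  simp

/-- The order of a finite product. -/
theorem ord_prod (u : Place K F) {α : Type*} (s : Finset α) (f : α → F)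
    (hf : ∀ a ∈ s, f a ≠ 0) : u.ord (∏ a ∈ s, f a) = ∑ a ∈ s, u.ord (f a) := by
  classical
  induction s using Finset.induction_on with
  | empty => simp
  | insert a s ha ih =>
    rw [Finset.prod_insert ha, Finset.sum_insert ha,
      u.ord_mul (hf a (Finset.mem_insert_self a s))
        (Finset.prod_ne_zero_iff.mpr fun b hb => hf b (Finset.mem_insert_of_mem hb)),
      ih fun b hb => hf b (Finset.mem_insert_of_mem hb)]

variable (x : F) (hx : Transcendental K x) [FiniteDimensional K⟮x⟯ F]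

/-- Every place where `x` is regular lies over a point `a` of the `x`-line. -/
theorem exists_over (hx : Transcendental K x) (u : Place K F) (hu : 0 ≤ u.ord x) :
    ∃ a : K, 0 < u.ord (x - algebraMap K F a) := by
  obtain ⟨a, ha⟩ := exists_const_of_ord_nonneg x hx u x hu
  rcases ha with ha | ha
  · exact absurd (ha ▸ isAlgebraic_algebraMap a) hx
  · exact ⟨a, ha⟩

/-- At a pole of `x`, `x - a` has the same order as `x`. -/
theorem ord_sub_const_of_neg (u : Place K F) (hu : u.ord x < 0) (a : K) :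
    u.ord (x - algebraMap K F a) = u.ord x := by
  have hx0 : x ≠ 0 := by
    rintro rfl
    simp at hu
  rcases eq_or_ne a 0 with rfl | ha
  · simp
  · rw [sub_eq_add_neg]
    refine ord_add_eq_of_lt u hx0 (neg_ne_zero.mpr (by simpa using ha)) ?_
    rw [ord_neg, ord_algebraMap]
    exact hu

/-- At a place over `a₀`, `x - a` is a unit for `a ≠ a₀`. -/
theorem ord_sub_const_of_ne (u : Place K F) {a₀ : K} (hu : 0 < u.ord (x - algebraMap K F a₀))
    {a : K} (ha : a ≠ a₀) : u.ord (x - algebraMap K F a) = 0 := by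
  have h1 : x - algebraMap K F a = algebraMap K F (a₀ - a) + (x - algebraMap K F a₀) := by
    rw [map_sub]; ring
  have hc : algebraMap K F (a₀ - a) ≠ 0 := by
    simpa [sub_eq_zero] using (Ne.symm ha)
  have h0 : x - algebraMap K F a₀ ≠ 0 := by
    intro h; rw [h] at hu; simp at hu
  rw [h1, ord_add_eq_of_lt u hc h0 (by rw [ord_algebraMap]; exact hu), ord_algebraMap]

variable (Λ Λi : Set F)
  (hΛ : ∀ f, f ∈ Λ ↔ ∀ v : Place K F, 0 ≤ v.ord x → 0 ≤ v.ord f)
  (hΛi : ∀ f, f ∈ Λi ↔ ∀ v : Place K F, v.ord x < 0 → 0 ≤ v.ord f)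
  (W : Divisor K F)
  (hfin : ∀ (v : Place K F) (a : K), 0 < v.ord (x - algebraMap K F a) →
    W v = v.ord (x - algebraMap K F a) - 1)
  (hinf : ∀ v : Place K F, v.ord x < 0 → W v = v.ord x - 1)
  (B : Divisor K F) (hB : ∀ v, B v = max (-(v.ord x)) 0)

/-- The space `Λ ∩ x^m Λi` is `L(m X)`. -/
theorem mem_space_one (hx : Transcendental K x)
    (hΛ : ∀ f, f ∈ Λ ↔ ∀ v : Place K F, 0 ≤ v.ord x → 0 ≤ v.ord f)
    (hΛi : ∀ f, f ∈ Λi ↔ ∀ v : Place K F, v.ord x < 0 → 0 ≤ v.ord f)
    (hB : ∀ v, B v = max (-(v.ord x)) 0) (m : ℤ) (f : F) :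
    (f ∈ Λ ∧ x ^ (-m) * f ∈ Λi) ↔ f ∈ LSpace (m • B) := by
  have hx0 : x ≠ 0 := fun h => hx (h ▸ isAlgebraic_zero)
  rcases eq_or_ne f 0 with rfl | hf
  · simp only [mul_zero, zero_mem, iff_true]
    exact ⟨(hΛ 0).mpr fun v _ => by simp, (hΛi 0).mpr fun v _ => by simp⟩
  rw [mem_LSpace_of_ne_zero hf, hΛ, hΛi]
  have hord : ∀ v : Place K F, v.ord (x ^ (-m) * f) = -m * v.ord x + v.ord f := by
    intro v
    rw [v.ord_mul (zpow_ne_zero _ hx0) hf, v.ord_zpow]
  constructor
  · rintro ⟨h1, h2⟩ v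
    rw [Finsupp.smul_apply, smul_eq_mul, hB v]
    by_cases hv : v.ord x < 0
    · have := h2 v hv
      rw [hord] at this
      rw [max_eq_left (by omega)]
      linarith
    · have := h1 v (not_lt.mp hv)
      rw [max_eq_right (by omega)]
      linarith
  · intro h
    refine ⟨fun v hv => ?_, fun v hv => ?_⟩
    · have := h v
      rw [Finsupp.smul_apply, smul_eq_mul, hB v, max_eq_right (by omega)] at this
      linarith
    · have := h v
      rw [Finsupp.smul_apply, smul_eq_mul, hB v, max_eq_left (by omega)] at this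
      rw [hord]
      linarith

/-- The space `Λ* ∩ x^(m-2) Λi*` is `L(W + m X)`. -/
theorem mem_space_two (hx : Transcendental K x)
    (hΛ : ∀ f, f ∈ Λ ↔ ∀ v : Place K F, 0 ≤ v.ord x → 0 ≤ v.ord f)
    (hΛi : ∀ f, f ∈ Λi ↔ ∀ v : Place K F, v.ord x < 0 → 0 ≤ v.ord f)
    (hfin : ∀ (v : Place K F) (a : K), 0 < v.ord (x - algebraMap K F a) →
      W v = v.ord (x - algebraMap K F a) - 1)
    (hinf : ∀ v : Place K F, v.ord x < 0 → W v = v.ord x - 1)
    (hB : ∀ v, B v = max (-(v.ord x)) 0) (m : ℤ) (y : F) :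
    (y ∈ dualFin K x Λ ∧ x ^ (2 - m) * y ∈ dualInf K x Λi) ↔ y ∈ LSpace (W + m • B) := by
  have hx0 : x ≠ 0 := fun h => hx (h ▸ isAlgebraic_zero)
  rcases eq_or_ne y 0 with rfl | hy
  · simp only [mul_zero, zero_mem, iff_true]
    exact ⟨zero_mem_dualFin x Λ, zero_mem_dualInf x Λi⟩
  have hy' : x ^ (2 - m) * y ≠ 0 := mul_ne_zero (zpow_ne_zero _ hx0) hy
  rw [mem_LSpace_of_ne_zero hy, mem_dualFin_iff x hx Λ hΛ hy, mem_dualInf_iff x hx Λi hΛi hy']
  have hord : ∀ v : Place K F, v.ord (x ^ (2 - m) * y) = (2 - m) * v.ord x + v.ord y := by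
    intro v
    rw [v.ord_mul (zpow_ne_zero _ hx0) hy, v.ord_zpow]
  constructor
  · rintro ⟨h1, h2⟩ v
    rw [Finsupp.add_apply, Finsupp.smul_apply, smul_eq_mul, hB v]
    by_cases hv : v.ord x < 0
    · have := h2 v hv
      rw [hord] at this
      rw [max_eq_left (by omega), hinf v hv]
      linarith
    · obtain ⟨a, ha⟩ := exists_over x hx v (not_lt.mp hv)
      have := h1 v a ha
      rw [max_eq_right (by omega), hfin v a ha]
      linarith
  · intro h
    refine ⟨fun v a hv => ?_, fun v hv => ?_⟩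
    · have := h v
      have hv0 := ord_nonneg_of_ord_sub_pos v hv
      rw [Finsupp.add_apply, Finsupp.smul_apply, smul_eq_mul, hB v, max_eq_right (by omega),
        hfin v a hv] at this
      linarith
    · have := h v
      rw [Finsupp.add_apply, Finsupp.smul_apply, smul_eq_mul, hB v, max_eq_left (by omega),
        hinf v hv] at this
      rw [hord]
      linarith

/-- **Assembly**: Riemann-Roch for the canonical divisor `W = div(dx)` from the dimension
formulas of the lattice pair. -/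
theorem finrank_L_canonical_of (x : F) (hx : Transcendental K x) [FiniteDimensional K⟮x⟯ F]
    (W : Divisor K F)
    (hfin : ∀ (v : Place K F) (a : K), 0 < v.ord (x - algebraMap K F a) →
      W v = v.ord (x - algebraMap K F a) - 1)
    (hinf : ∀ v : Place K F, v.ord x < 0 → W v = v.ord x - 1)
    (Λ Λi : Set F)
    (hΛ : ∀ f, f ∈ Λ ↔ ∀ v : Place K F, 0 ≤ v.ord x → 0 ≤ v.ord f)
    (hΛi : ∀ f, f ∈ Λi ↔ ∀ v : Place K F, v.ord x < 0 → 0 ≤ v.ord f)
    (g : ℕ) (M : ℤ)
    (h0 : ∃ V : Submodule K F,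
      (∀ y, y ∈ V ↔ y ∈ dualFin K x Λ ∧ x ^ 2 * y ∈ dualInf K x Λi) ∧
        FiniteDimensional K V ∧ Module.finrank K V = g)
    (hm : ∀ m : ℤ, M ≤ m →
      (∃ V : Submodule K F, (∀ f, f ∈ V ↔ f ∈ Λ ∧ x ^ (-m) * f ∈ Λi) ∧
        FiniteDimensional K V ∧
          (Module.finrank K V : ℤ) = (Module.finrank K⟮x⟯ F : ℤ) * m + 1 - g) ∧
      (∃ V : Submodule K F,
        (∀ y, y ∈ V ↔ y ∈ dualFin K x Λ ∧ x ^ (2 - m) * y ∈ dualInf K x Λi) ∧
        FiniteDimensional K V ∧
          (Module.finrank K V : ℤ) = (Module.finrank K⟮x⟯ F : ℤ) * m + g - 1)) :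
    2 * (Module.finrank K (LSpace W) : ℤ) - 2 = Divisor.degree W := by
  classical
  obtain ⟨B, hB, hBdeg⟩ := exists_pole_divisor x hx x hx
  -- `ℓ(W) = g`
  have hW : (Module.finrank K (LSpace W) : ℤ) = g := by
    obtain ⟨V, hV, -, hVr⟩ := h0
    have hVW : V = LSpace W := Submodule.ext fun y => by
      rw [hV]
      have h1 := mem_space_two x Λ Λi W B hx hΛ hΛi hfin hinf hB 0 y
      rw [sub_zero, zero_smul, add_zero] at h1
      rw [← h1]
      have h2 : x ^ (2 : ℤ) = x ^ 2 := zpow_ofNat x 2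
      rw [h2]
    rw [← hVW, hVr]
  have h1 : ∀ m : ℤ, M ≤ m →
      (Module.finrank K (LSpace (m • B)) : ℤ) = (Module.finrank K⟮x⟯ F : ℤ) * m + 1 - g := by
    intro m hmM
    obtain ⟨⟨V, hV, -, hVr⟩, -⟩ := hm m hmM
    have hVB : V = LSpace (m • B) := Submodule.ext fun f => by
      rw [hV]
      exact mem_space_one x Λ Λi B hx hΛ hΛi hB m f
    rw [← hVB, hVr]
  have h2 : ∀ m : ℤ, M ≤ m →
      (Module.finrank K (LSpace (W + m • B)) : ℤ) =
        (Module.finrank K⟮x⟯ F : ℤ) * m + g - 1 := by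
    intro m hmM
    obtain ⟨-, ⟨V, hV, -, hVr⟩⟩ := hm m hmM
    have hVB : V = LSpace (W + m • B) := Submodule.ext fun f => by
      rw [hV]
      exact mem_space_two x Λ Λi W B hx hΛ hΛi hfin hinf hB m f
    rw [← hVB, hVr]
  have hdegB : ∀ m : ℤ, Divisor.degree (m • B) = (Module.finrank K⟮x⟯ F : ℤ) * m := by
    intro m
    rw [map_zsmul, hBdeg, smul_eq_mul]
    ring
  -- (i) `2g - 2 ≤ deg W`
  have hW2 : ∀ u : Place K F, 0 ≤ W u + 2 * B u := by
    intro u
    rw [hB u]
    by_cases hu : u.ord x < 0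
    · rw [hinf u hu, max_eq_left (by omega)]
      omega
    · obtain ⟨a, ha⟩ := exists_over x hx u (not_lt.mp hu)
      rw [hfin u a ha, max_eq_right (by omega)]
      omega
  obtain ⟨m, hmM2⟩ : ∃ m : ℤ, M ≤ m - 2 := ⟨M + 2, by omega⟩
  have hmM : M ≤ m := by omega
  have hi := degree_sub_finrank_mono x hx (D := (m - 2) • B) (D' := W + m • B) (fun u => by
    rw [Finsupp.add_apply, Finsupp.smul_apply, Finsupp.smul_apply, smul_eq_mul, smul_eq_mul]
    have := hW2 u
    linarith)
  rw [map_add, hdegB, hdegB, h1 _ hmM2, h2 _ hmM] at hi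
  -- (ii) `deg W ≤ 2g - 2`
  have hbelow : ∀ u : Place K F, ∃ a : K, 0 ≤ u.ord x → 0 < u.ord (x - algebraMap K F a) := by
    intro u
    by_cases hu : 0 ≤ u.ord x
    · obtain ⟨a, ha⟩ := exists_over x hx u hu
      exact ⟨a, fun _ => ha⟩
    · exact ⟨0, fun h => absurd h hu⟩
  choose below hbelow' using hbelow
  have hfac : ∀ a ∈ W.support.image below, x - algebraMap K F a ≠ 0 := by
    intro a _ h0
    exact hx ((sub_eq_zero.mp h0) ▸ isAlgebraic_algebraMap a)
  have hh0 : ∏ a ∈ W.support.image below, (x - algebraMap K F a) ≠ 0 :=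
    Finset.prod_ne_zero_iff.mpr hfac
  obtain ⟨Dh, hDh⟩ := exists_divisor (K := K) x
    (∏ a ∈ W.support.image below, (x - algebraMap K F a))
  have hDh0 := degree_eq_zero_of_principal x hx Dh hDh
  have hm'M : M ≤ m - 1 + ((W.support.image below).card : ℤ) := by
    have := Int.natCast_nonneg (W.support.image below).card
    omega
  have hle : ∀ u : Place K F, (W + m • B) u ≤
      ((m - 1 + ((W.support.image below).card : ℤ)) • B + Dh) u := by
    intro u
    rw [Finsupp.add_apply, Finsupp.add_apply, Finsupp.smul_apply, Finsupp.smul_apply,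
      smul_eq_mul, smul_eq_mul, hDh u, ord_prod u _ _ hfac, hB u]
    by_cases hu : u.ord x < 0
    · rw [hinf u hu, max_eq_left (by omega),
        Finset.sum_congr rfl (fun a _ => ord_sub_const_of_neg x u hu a), Finset.sum_const,
        nsmul_eq_mul]
      nlinarith
    · have hu' := not_lt.mp hu
      have ha := hbelow' u hu'
      rw [max_eq_right (by omega), mul_zero, mul_zero, add_zero, zero_add]
      have hnn : ∀ a ∈ W.support.image below, 0 ≤ u.ord (x - algebraMap K F a) := fun a _ => by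
        rw [ord_nonneg_iff_mem]
        exact sub_mem ((ord_nonneg_iff_mem u x).mp hu') (u.algebraMap_mem' a)
      by_cases hWu : W u = 0
      · rw [hWu]
        exact Finset.sum_nonneg hnn
      · have hmemA : below u ∈ W.support.image below :=
          Finset.mem_image.mpr ⟨u, Finsupp.mem_support_iff.mpr hWu, rfl⟩
        rw [hfin u (below u) ha]
        have := Finset.single_le_sum hnn hmemA
        omega
  have hii := degree_sub_finrank_mono x hx hle
  rw [map_add, map_add, hdegB, hdegB, hDh0, add_zero, h2 _ hmM] at hii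
  haveI := LSpace_finiteDimensional x hx
    ((m - 1 + ((W.support.image below).card : ℤ)) • B + Dh)
  have h3 : Module.finrank K (LSpace ((m - 1 + ((W.support.image below).card : ℤ)) • B)) ≤
      Module.finrank K (LSpace ((m - 1 + ((W.support.image below).card : ℤ)) • B + Dh)) := by
    refine finrank_LSpace_le_of_mul
      (f := (∏ a ∈ W.support.image below, (x - algebraMap K F a))⁻¹) (inv_ne_zero hh0)
      (fun f hf => ?_)
    rcases eq_or_ne f 0 with rfl | hf0
    · rw [mul_zero]; exact zero_mem _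
    refine (mem_LSpace_of_ne_zero (mul_ne_zero (inv_ne_zero hh0) hf0)).mpr fun u => ?_
    rw [u.ord_mul (inv_ne_zero hh0) hf0, u.ord_inv, Finsupp.add_apply, hDh u]
    have := (mem_LSpace_of_ne_zero hf0).mp hf u
    omega
  have h3' : (Module.finrank K (LSpace ((m - 1 + ((W.support.image below).card : ℤ)) • B)) : ℤ)
      ≤ Module.finrank K (LSpace ((m - 1 + ((W.support.image below).card : ℤ)) • B + Dh)) := by
    exact_mod_cast h3
  rw [h1 _ hm'M] at h3'
  rw [hW]
  have e1 : 2 * (g : ℤ) - 2 ≤ Divisor.degree W := by nlinarith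
  have e2 : Divisor.degree W ≤ 2 * (g : ℤ) - 2 := by nlinarith
  omega

end Canon

end Fermat.Agent.RR
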