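import Fermat.Agent.Lib.RR_Lattice
import Fermat.Agent.Lib.RR_Canon
import Fermat.Prelude.Def_AlgebraicCurve_CanonicalDivisor

set_option autoImplicit false

/-!
# T20 [RR]: Riemann-Roch for the canonical divisor of a function field

`W` is the divisor of `dx`: `e_v - 1` at the finite places, `-e_v - 1` at the poles of `x`.
The proof combines the lattice pair theorem (`RR_Lattice.lattice_pair`, Dedekind-Weber), the two
lattices in place form (`RR_Places.exists_finite_lattice`, `RR_Dual.exists_infinite_lattice`) and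
the assembly `RR_Canon.finrank_L_canonical_of`.
-/

noncomputable section

namespace Fermat.Agent.RR

open AlgebraicCurve IntermediateField

/-- **Riemann-Roch, canonical case**, for the subspace `LSpace W`. -/
theorem finrank_LSpace_canonical {K F : Type*} [Field K] [Field F] [Algebra K F] [IsAlgClosed K]
    [CharZero K] (x : F) (hx : Transcendental K x) [FiniteDimensional K⟮x⟯ F]
    (W : Divisor K F)
    (hfin : ∀ (v : Place K F) (a : K), 0 < v.ord (x - algebraMap K F a) →
      W v = v.ord (x - algebraMap K F a) - 1)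
    (hinf : ∀ v : Place K F, v.ord x < 0 → W v = v.ord x - 1) :
    2 * (Module.finrank K (LSpace W) : ℤ) - 2 = Divisor.degree W := by
  obtain ⟨v, hv, hvmem⟩ := exists_finite_lattice x hx
  obtain ⟨w, hw, hwmem⟩ := exists_infinite_lattice x hx
  have h1 : (1 : F) ∈ latFin K x v := (hvmem 1).mpr fun p _ => by
    rw [Place.ord_one]
  have h1' : (1 : F) ∈ latInf K x w := (hwmem 1).mpr fun p _ => by
    rw [Place.ord_one]
  have h0 : ∀ f, f ∈ latFin K x v → f ∈ latInf K x w → f ∈ Set.range (algebraMap K F) := by
    intro f hf hf'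
    obtain ⟨c, hc⟩ := T24.exists_const_of_forall_ord_nonneg (K := K) x f fun p => by
      rcases lt_or_ge (p.ord x) 0 with h | h
      · exact (hwmem f).mp hf' p h
      · exact (hvmem f).mp hf p h
    exact ⟨c, hc.symm⟩
  obtain ⟨g, M, hg, hm⟩ := lattice_pair x hx (Fintype.card_fin _).symm v w hv hw h1 h1' h0
  rw [Fintype.card_fin] at hm
  exact finrank_L_canonical_of x hx W hfin hinf (latFin K x v) (latInf K x w) hvmem hwmem g M hg hm

/-- **Riemann-Roch, canonical case**: `2 ℓ(W) - 2 = deg W` for `W = div(dx)`. -/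
theorem finrank_L_canonical {K F : Type*} [Field K] [Field F] [Algebra K F] [IsAlgClosed K]
    [CharZero K] (x : F) (hx : Transcendental K x) [FiniteDimensional K⟮x⟯ F]
    (W : Divisor K F)
    (hfin : ∀ (v : Place K F) (a : K), 0 < v.ord (x - algebraMap K F a) →
      W v = v.ord (x - algebraMap K F a) - 1)
    (hinf : ∀ v : Place K F, v.ord x < 0 → W v = v.ord x - 1) :
    ∃ V : Submodule K F, (∀ f, f ∈ V ↔ f = 0 ∨ ∀ v : Place K F, 0 ≤ v.ord f + W v) ∧
      FiniteDimensional K V ∧ 2 * (Module.finrank K V : ℤ) - 2 = Divisor.degree W :=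
  ⟨LSpace W, fun _ => mem_LSpace, LSpace_finiteDimensional x hx W,
    finrank_LSpace_canonical x hx W hfin hinf⟩

end Fermat.Agent.RR
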