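-- S16 lower bound, rho-route [M2 + M4] (lead): integral Manin data give integral parabolic
-- homomorphisms (all the inequalities of `ES.finrank_parabolicHoms_le` are equalities by S20/S21),
-- and a character `ρ : Γ₀(N) → ℤ/n` with a lift `Fb` to `SL(2,ℤ)` lifts to an integral parabolic hom.
import Fermat.Agent.S21
import Fermat.Agent.Lib.ES_Alg
import Fermat.Agent.Lib.ES_Main
import Fermat.Agent.Lib.MC_Comb
import Fermat.Agent.Lib.E16_MFlow

set_option autoImplicit false

open ModularCurve ModularCurve.Period CongruenceSubgroup Fermat.Agent.MC Fermat.Agent.ES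
open Fermat.Agent.FF
open scoped MatrixGroups

namespace Fermat.Agent.E16

/-- the Manin-symbol map of `ES_Alg` is surjective -/
theorem e16m_qMap_surjective (N : ℕ) [NeZero N] : Function.Surjective (qMap N) := by
  classical
  have hWfin : FiniteDimensional ℂ (WSub N) :=
    FiniteDimensional.of_injective (qMap N) (qMap_injective N)
  have hPfin : FiniteDimensional ℂ (parabolicHoms ℂ (Gamma0 N) ℂ) :=
    (finrank_parabolicHoms_le N).1
  have hprod := finiteDimensional_prod N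
  have hcusp := finiteDimensional_cuspForm N
  -- dimension of the parabolic homs
  obtain ⟨hinj, hrange⟩ := Fermat.Agent.S21.result N
  have hP : Module.finrank ℂ (parabolicHoms ℂ (Gamma0 N) ℂ) =
      2 * Module.finrank ℂ (CuspForm (Gamma0 N) 2) := by
    rw [← hrange, LinearMap.finrank_range_of_inj hinj, finrank_prod_eq]
  have hg := Fermat.Agent.S20.result N
  -- the combinatorial identities
  have hc : Fintype.card (PN N) = dedekindPsi N := by
    rw [← Nat.card_eq_fintype_card]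
    exact comb_card_PN N
  have hs : 2 * orbitCount (sP N) = dedekindPsi N + nuTwo N := comb_orbitCount_sP N
  have hu : 3 * orbitCount (uP N) = dedekindPsi N + 2 * nuThree N := comb_orbitCount_uP N
  have ht : orbitCount (tP N) = cuspCount N := comb_orbitCount_tP N
  have hs' : (orbitCount (sP N) : ℚ) = ((dedekindPsi N : ℚ) + nuTwo N) / 2 := by
    have : (2 : ℚ) * orbitCount (sP N) = (dedekindPsi N : ℚ) + nuTwo N := by exact_mod_cast hs
    linarith
  have hu' : (orbitCount (uP N) : ℚ) = ((dedekindPsi N : ℚ) + 2 * nuThree N) / 3 := by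
    have : (3 : ℚ) * orbitCount (uP N) = (dedekindPsi N : ℚ) + 2 * nuThree N := by
      exact_mod_cast hu
    linarith
  have hPQ : (Module.finrank ℂ (parabolicHoms ℂ (Gamma0 N) ℂ) : ℚ) + orbitCount (sP N)
      + orbitCount (uP N) + orbitCount (tP N) = Fintype.card (PN N) + 2 := by
    rw [hP, hc, ht, hs', hu']
    push_cast
    rw [hg]
    unfold genusFormula
    ring
  have hPZ : Module.finrank ℂ (parabolicHoms ℂ (Gamma0 N) ℂ) + orbitCount (sP N)
      + orbitCount (uP N) + orbitCount (tP N) = Fintype.card (PN N) + 2 := by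
    exact_mod_cast hPQ
  -- the chain of inequalities
  have htr : ∀ i j : PN N, ∃ g ∈ Subgroup.closure {(sP N)⁻¹, (uP N)⁻¹}, g i = j := by
    intro i j
    obtain ⟨a, rfl⟩ := QuotientGroup.mk_surjective i
    obtain ⟨b, rfl⟩ := QuotientGroup.mk_surjective j
    refine ⟨MulAction.toPerm (b * a⁻¹), toPerm_mem_closure N _, ?_⟩
    show (QuotientGroup.mk (b * a⁻¹ * a) : PN N) = _
    rw [inv_mul_cancel_right]
  have hne : Nonempty (PN N) := ⟨QuotientGroup.mk 1⟩
  have h1 := finrank_antiSub_le (sP N)⁻¹ (uP N)⁻¹ htr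
  rw [orbitCount_inv, orbitCount_inv] at h1
  have h3 := LinearMap.finrank_range_add_finrank_ker (pMap N)
  rw [LinearMap.range_eq_top.mpr (pMap_surjective N), finrank_top] at h3
  have h4 : orbitCount (tP N) ≤ Module.finrank ℂ (LinearMap.ker (pMap N)) := by
    have := LinearMap.finrank_le_finrank_of_injective (kMap_injective N)
    rwa [finrank_invSub] at this
  have hfin2 : FiniteDimensional ℂ ((antiSub (sP N)⁻¹ (uP N)⁻¹) × ℂ) := inferInstance
  have hdim : Module.finrank ℂ (WSub N) =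
      Module.finrank ℂ ((antiSub (sP N)⁻¹ (uP N)⁻¹) × ℂ) := by
    have h2 := LinearMap.finrank_le_finrank_of_injective (qMap_injective N)
    rw [Module.finrank_prod, Module.finrank_self] at h2 ⊢
    omega
  exact (LinearMap.injective_iff_surjective_of_finrank_eq_finrank hdim).mp (qMap_injective N)

/-- **integral Manin data give integral parabolic homomorphisms** -/
theorem e16m_int (N : ℕ) [NeZero N] (c : PN N → ℤ)
    (hs : ∀ x, c x + c ((sP N)⁻¹ x) = 0)
    (hu : ∀ x, c x + c ((uP N)⁻¹ x) + c ((uP N)⁻¹ ((uP N)⁻¹ x)) = 0) :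
    ∃ (lam : Additive (Gamma0 N) →+ ℤ) (F : SL(2, ℤ) → ℤ),
      (Int.castAddHom ℂ).comp lam ∈ parabolicHoms ℂ (Gamma0 N) ℂ ∧
      (∀ (g : SL(2, ℤ)) (γ : Gamma0 N), F (g * γ) = F g + lam (Additive.ofMul γ)) ∧
      (∀ g : SL(2, ℤ), F (ModularGroup.T * g) = F g) ∧
      (∀ g : SL(2, ℤ), F (ModularGroup.S⁻¹ * g) - F g = c (QuotientGroup.mk g)) ∧ F 1 = 0 := by
  classical
  have hmem : (fun x => (c x : ℂ)) ∈ antiSub (sP N)⁻¹ (uP N)⁻¹ := by
    refine ⟨fun x => ?_, fun x => ?_⟩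
    · have := hs x
      show (c x : ℂ) + (c ((sP N)⁻¹ x) : ℂ) = 0
      exact_mod_cast this
    · have := hu x
      show (c x : ℂ) + (c ((uP N)⁻¹ x) : ℂ) + (c ((uP N)⁻¹ ((uP N)⁻¹ x)) : ℂ) = 0
      exact_mod_cast this
  obtain ⟨⟨⟨φ, F⟩, hp⟩, hw⟩ := e16m_qMap_surjective N (⟨fun x => (c x : ℂ), hmem⟩, 0)
  have hc : cFun F = fun x => (c x : ℂ) := congrArg (fun z => (z.1 : PN N → ℂ)) hw
  have hF1 : F 1 = 0 := congrArg Prod.snd hw
  have hS : ∀ g : SL(2, ℤ), F (ModularGroup.S⁻¹ * g) - F g = (c (QuotientGroup.mk g) : ℂ) := by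
    intro g
    have := cFun_mk hp g
    rw [hc] at this
    exact this.symm
  have hT : ∀ g : SL(2, ℤ), F (ModularGroup.T * g) = F g := hp.2.2
  have hEq : ∀ (g : SL(2, ℤ)) (γ : Gamma0 N), F (g * γ) = F g + φ (Additive.ofMul γ) := hp.2.1
  -- integrality
  have hall : ∀ h : SL(2, ℤ), ∀ g, ∃ k : ℤ, F (h * g) - F g = k := by
    intro h
    have hh : h ∈ Subgroup.closure ({ModularGroup.S, ModularGroup.T} : Set SL(2, ℤ)) := by
      rw [SpecialLinearGroup.SL2Z_generators]; exact Subgroup.mem_top h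
    induction hh using Subgroup.closure_induction with
    | mem x hx =>
      rcases hx with rfl | hx
      · intro g
        refine ⟨-c (QuotientGroup.mk (ModularGroup.S * g)), ?_⟩
        have := hS (ModularGroup.S * g)
        rw [← mul_assoc, inv_mul_cancel, one_mul] at this
        push_cast
        linear_combination -this
      · rw [Set.mem_singleton_iff] at hx; subst hx
        intro g
        exact ⟨0, by rw [hT]; simp⟩
    | one => intro g; exact ⟨0, by simp⟩
    | mul x y _ _ hx hy =>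
      intro g
      obtain ⟨k1, hk1⟩ := hx (y * g)
      obtain ⟨k2, hk2⟩ := hy g
      refine ⟨k1 + k2, ?_⟩
      rw [mul_assoc]
      push_cast
      linear_combination hk1 + hk2
    | inv x _ hx =>
      intro g
      obtain ⟨k, hk⟩ := hx (x⁻¹ * g)
      rw [← mul_assoc, mul_inv_cancel, one_mul] at hk
      exact ⟨-k, by push_cast; linear_combination -hk⟩
  have hint : ∀ g : SL(2, ℤ), ∃ k : ℤ, F g = k := by
    intro g
    obtain ⟨k, hk⟩ := hall g 1
    rw [mul_one, hF1, sub_zero] at hk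
    exact ⟨k, hk⟩
  choose Fz hFz using hint
  have hφ : ∀ γ : Gamma0 N, φ (Additive.ofMul γ) = (Fz (γ : SL(2, ℤ)) : ℂ) := by
    intro γ
    have := hEq 1 γ
    rw [one_mul, hF1, zero_add] at this
    rw [← this, hFz]
  have hadd : ∀ a b : Additive (Gamma0 N),
      Fz ((Additive.toMul (a + b) : Gamma0 N) : SL(2, ℤ)) =
        Fz ((Additive.toMul a : Gamma0 N) : SL(2, ℤ)) + Fz ((Additive.toMul b : Gamma0 N) : SL(2, ℤ)) := by
    intro a b
    have h1 := hφ (Additive.toMul (a + b))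
    have h2 := hφ (Additive.toMul a)
    have h3 := hφ (Additive.toMul b)
    have h4 : φ (Additive.ofMul (Additive.toMul (a + b))) =
        φ (Additive.ofMul (Additive.toMul a)) + φ (Additive.ofMul (Additive.toMul b)) := by
      rw [← map_add]; rfl
    have : ((Fz ((Additive.toMul (a + b) : Gamma0 N) : SL(2, ℤ)) : ℤ) : ℂ) =
        ((Fz ((Additive.toMul a : Gamma0 N) : SL(2, ℤ)) + Fz ((Additive.toMul b : Gamma0 N) : SL(2, ℤ)) : ℤ) : ℂ) := by
      push_cast
      rw [← h1, ← h2, ← h3, h4]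
    exact_mod_cast this
  let lam : Additive (Gamma0 N) →+ ℤ :=
    AddMonoidHom.mk' (fun a => Fz ((Additive.toMul a : Gamma0 N) : SL(2, ℤ))) hadd
  have hlam : (Int.castAddHom ℂ).comp lam = φ := by
    refine AddMonoidHom.ext fun a => ?_
    show ((Fz ((Additive.toMul a : Gamma0 N) : SL(2, ℤ)) : ℤ) : ℂ) = φ a
    rw [← hφ]; rfl
  refine ⟨lam, Fz, ?_, ?_, ?_, ?_, ?_⟩
  · rw [hlam]; exact hp.1
  · intro g γ
    have := hEq g γ
    rw [hFz, hFz, hφ] at this
    show Fz (g * γ) = Fz g + Fz ((γ : Gamma0 N) : SL(2, ℤ))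
    exact_mod_cast this
  · intro g
    have := hT g
    rw [hFz, hFz] at this
    exact_mod_cast this
  · intro g
    have := hS g
    rw [hFz, hFz] at this
    exact_mod_cast this
  · have := hF1
    rw [hFz] at this
    exact_mod_cast this

/-- a function on `SL(2,ℤ)` which is left invariant under `S⁻¹` and `T` is constant -/
theorem e16m_const {A : Type*} (D : SL(2, ℤ) → A)
    (hS : ∀ g, D (ModularGroup.S⁻¹ * g) = D g) (hT : ∀ g, D (ModularGroup.T * g) = D g) :
    ∀ g, D g = D 1 := by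
  have hS' : ∀ g : SL(2, ℤ), D (ModularGroup.S * g) = D g := by
    intro g
    have := hS (ModularGroup.S * g)
    rw [← mul_assoc, inv_mul_cancel, one_mul] at this
    exact this.symm
  have hall : ∀ h : SL(2, ℤ), ∀ g, D (h * g) = D g := by
    intro h
    have hh : h ∈ Subgroup.closure ({ModularGroup.S, ModularGroup.T} : Set SL(2, ℤ)) := by
      rw [SpecialLinearGroup.SL2Z_generators]; exact Subgroup.mem_top h
    induction hh using Subgroup.closure_induction with
    | mem x hx =>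
      rcases hx with rfl | hx
      · exact hS'
      · rw [Set.mem_singleton_iff] at hx; subst hx; exact hT
    | one => intro g; rw [one_mul]
    | mul x y _ _ hx hy => intro g; rw [mul_assoc, hx, hy]
    | inv x _ hx =>
      intro g
      have := hx (x⁻¹ * g)
      rw [← mul_assoc, mul_inv_cancel, one_mul] at this
      exact this.symm
  intro g
  have := hall g 1
  rwa [mul_one] at this

/-- **lifting a character with a Manin lift to an integral parabolic homomorphism** -/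
theorem e16m_lift_of (N : ℕ) [NeZero N] (n : ℕ) (hn : n ≠ 0) (ρ : Gamma0 N → ZMod n)
    (Fb : SL(2, ℤ) → ZMod n)
    (h1 : ∀ (g : SL(2, ℤ)) (γ : Gamma0 N), Fb (g * γ) = Fb g + ρ γ)
    (h2 : ∀ g : SL(2, ℤ), Fb (ModularGroup.T * g) = Fb g) (h3 : Fb 1 = 0)
    (hneg : ∀ g : SL(2, ℤ), Fb (-1 * g) = Fb g)
    (hfS : ∀ g : SL(2, ℤ), (QuotientGroup.mk (ModularGroup.S⁻¹ * g) : SL(2, ℤ) ⧸ Gamma0 N) =
      QuotientGroup.mk g → Fb (ModularGroup.S⁻¹ * g) = Fb g)
    (hfU : ∀ g : SL(2, ℤ),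
      (QuotientGroup.mk ((ModularGroup.S * ModularGroup.T)⁻¹ * g) : SL(2, ℤ) ⧸ Gamma0 N) =
      QuotientGroup.mk g → Fb (ModularGroup.S⁻¹ * g) = Fb g) :
    ∃ lam : Additive (Gamma0 N) →+ ℤ,
      (Int.castAddHom ℂ).comp lam ∈ parabolicHoms ℂ (Gamma0 N) ℂ ∧
      ∀ γ : Gamma0 N, ((lam (Additive.ofMul γ) : ℤ) : ZMod n) = ρ γ := by
  classical
  -- the Manin datum of `Fb`
  let cb : PN N → ZMod n := fun x => Fb (ModularGroup.S⁻¹ * x.out) - Fb x.out
  have cb_mk : ∀ g : SL(2, ℤ), cb (QuotientGroup.mk g) = Fb (ModularGroup.S⁻¹ * g) - Fb g := by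
    intro g
    obtain ⟨h, hh⟩ := QuotientGroup.mk_out_eq_mul (Gamma0 N) g
    show Fb (ModularGroup.S⁻¹ * (QuotientGroup.mk g : PN N).out) - Fb (QuotientGroup.mk g : PN N).out = _
    rw [hh, ← mul_assoc, h1, h1]
    ring
  have hTinv : ∀ g : SL(2, ℤ), Fb (ModularGroup.T⁻¹ * g) = Fb g := by
    intro g
    have := h2 (ModularGroup.T⁻¹ * g)
    rw [← this]
    group
  have hU : ∀ g : SL(2, ℤ), Fb (ModularGroup.S⁻¹ * g) =
      Fb ((ModularGroup.S * ModularGroup.T)⁻¹ * g) := by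
    intro g
    rw [mul_inv_rev, mul_assoc, hTinv]
  have r1 : ∀ i, cb i + cb ((sP N)⁻¹ i) = 0 := by
    intro x
    obtain ⟨g, rfl⟩ := QuotientGroup.mk_surjective x
    rw [sP_inv_mk, cb_mk, cb_mk, ← mul_assoc, S_inv_mul_S_inv, hneg]
    ring
  have r2 : ∀ i, cb i + cb ((uP N)⁻¹ i) + cb ((uP N)⁻¹ ((uP N)⁻¹ i)) = 0 := by
    intro x
    obtain ⟨g, rfl⟩ := QuotientGroup.mk_surjective x
    rw [uP_inv_mk, uP_inv_mk, cb_mk, cb_mk, cb_mk, hU, hU, hU]
    have e3 : (ModularGroup.S * ModularGroup.T)⁻¹ * ((ModularGroup.S * ModularGroup.T)⁻¹ *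
        ((ModularGroup.S * ModularGroup.T)⁻¹ * g)) = -1 * g := by
      rw [← mul_assoc, ← mul_assoc, mul_assoc _ _ (ModularGroup.S * ModularGroup.T)⁻¹, ST_inv_cube]
    rw [e3, hneg]
    ring
  have r3 : ∀ i, (sP N)⁻¹ i = i → cb i = 0 := by
    intro x hx
    obtain ⟨g, rfl⟩ := QuotientGroup.mk_surjective x
    rw [sP_inv_mk] at hx
    rw [cb_mk, hfS g hx, sub_self]
  have r4 : ∀ i, (uP N)⁻¹ i = i → cb i = 0 := by
    intro x hx
    obtain ⟨g, rfl⟩ := QuotientGroup.mk_surjective x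
    rw [uP_inv_mk] at hx
    rw [cb_mk, hfU g hx, sub_self]
  have hmkneg : ∀ g : SL(2, ℤ), (QuotientGroup.mk (-1 * g) : PN N) = QuotientGroup.mk g := by
    intro g
    have : -1 * g = g * (-1 : SL(2, ℤ)) := by simp
    rw [this]
    exact QuotientGroup.mk_mul_of_mem g (neg_one_mem_Gamma0 N)
  have q1 : ∀ i, (sP N)⁻¹ ((sP N)⁻¹ i) = i := by
    intro x
    obtain ⟨g, rfl⟩ := QuotientGroup.mk_surjective x
    rw [sP_inv_mk, sP_inv_mk, ← mul_assoc, S_inv_mul_S_inv, hmkneg]
  have q2 : ∀ i, (uP N)⁻¹ ((uP N)⁻¹ ((uP N)⁻¹ i)) = i := by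
    intro x
    obtain ⟨g, rfl⟩ := QuotientGroup.mk_surjective x
    rw [uP_inv_mk, uP_inv_mk, uP_inv_mk]
    have e3 : (ModularGroup.S * ModularGroup.T)⁻¹ * ((ModularGroup.S * ModularGroup.T)⁻¹ *
        ((ModularGroup.S * ModularGroup.T)⁻¹ * g)) = -1 * g := by
      rw [← mul_assoc, ← mul_assoc, mul_assoc _ _ (ModularGroup.S * ModularGroup.T)⁻¹, ST_inv_cube]
    rw [e3, hmkneg]
  have htr : ∀ i j : PN N, ∃ g ∈ Subgroup.closure {(sP N)⁻¹, (uP N)⁻¹}, g i = j := by
    intro i j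
    obtain ⟨a, rfl⟩ := QuotientGroup.mk_surjective i
    obtain ⟨b, rfl⟩ := QuotientGroup.mk_surjective j
    refine ⟨MulAction.toPerm (b * a⁻¹), toPerm_mem_closure N _, ?_⟩
    show (QuotientGroup.mk (b * a⁻¹ * a) : PN N) = _
    rw [inv_mul_cancel_right]
  obtain ⟨c, hc0, hc1, hc2⟩ := e16m_flow (sP N)⁻¹ (uP N)⁻¹ q1 q2 htr n hn cb r1 r2 r3 r4
  obtain ⟨lam, F, hpar, hF1, hF2, hF3, hF4⟩ := e16m_int N c hc1 hc2
  refine ⟨lam, hpar, fun γ => ?_⟩
  -- the difference of the two lifts is constant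
  have hD := e16m_const (fun g => ((F g : ℤ) : ZMod n) - Fb g)
    (fun g => by
      have e1 := hF3 g
      have e2 := cb_mk g
      have e3 : ((F (ModularGroup.S⁻¹ * g) : ℤ) : ZMod n) - (F g : ZMod n) =
          ((c (QuotientGroup.mk g) : ℤ) : ZMod n) := by
        rw [← e1]; push_cast; ring
      rw [hc0, e2] at e3
      show ((F (ModularGroup.S⁻¹ * g) : ℤ) : ZMod n) - Fb (ModularGroup.S⁻¹ * g) =
        ((F g : ℤ) : ZMod n) - Fb g
      linear_combination e3)
    (fun g => by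
      show ((F (ModularGroup.T * g) : ℤ) : ZMod n) - Fb (ModularGroup.T * g) =
        ((F g : ℤ) : ZMod n) - Fb g
      rw [hF2, h2])
  have e1 := hD ((γ : Gamma0 N) : SL(2, ℤ))
  simp only [hF4, h3, Int.cast_zero, sub_zero] at e1
  have e2 := hF1 1 γ
  rw [one_mul, hF4, zero_add] at e2
  have e3 := h1 1 γ
  rw [one_mul, h3, zero_add] at e3
  rw [← e2, ← e3]
  exact sub_eq_zero.mp e1

end Fermat.Agent.E16
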