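import Mathlib

set_option autoImplicit false

namespace Fermat.Agent.Lib.H3

/-- A ring of endomorphisms of a complex vector space generated by operators preserving a
finitely generated, separating lattice of linear functionals is a finite `ℤ`-module. -/
theorem moduleFinite_adjoin_of_lattice {V : Type*} [AddCommGroup V] [Module ℂ V]
    (gens : Set (Module.End ℂ V)) (Λ : Submodule ℤ (Module.Dual ℂ V)) (hfg : Λ.FG)
    (hstab : ∀ T ∈ gens, ∀ l ∈ Λ, l ∘ₗ T ∈ Λ)
    (hsep : ∀ f : V, (∀ l ∈ Λ, l f = 0) → f = 0) :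
    Module.Finite ℤ (Algebra.adjoin ℤ gens) := by
  have hstab' : ∀ t ∈ Algebra.adjoin ℤ gens, ∀ l ∈ Λ, l ∘ₗ t ∈ Λ := by
    intro t ht
    induction ht using Algebra.adjoin_induction with
    | mem x hx => exact hstab x hx
    | algebraMap r =>
      intro l hl
      have : l ∘ₗ (algebraMap ℤ (Module.End ℂ V) r) = r • l := by
        ext v
        simp [Algebra.algebraMap_eq_smul_one]
      rw [this]
      exact Λ.smul_mem r hl
    | add x y _ _ hx hy =>
      intro l hl
      rw [LinearMap.comp_add]
      exact Λ.add_mem (hx l hl) (hy l hl)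
    | mul x y _ _ hx hy =>
      intro l hl
      have : l ∘ₗ (x * y) = (l ∘ₗ x) ∘ₗ y := rfl
      rw [this]
      exact hy _ (hx l hl)
  haveI : Module.Finite ℤ Λ := Module.Finite.iff_fg.mpr hfg
  haveI : IsAddTorsionFree (Module.Dual ℂ V) := .of_isTorsionFree ℂ _
  haveI : Module.Free ℤ Λ := Module.free_of_finite_type_torsion_free'
  let Φ : (Algebra.adjoin ℤ gens) →ₗ[ℤ] (Λ →ₗ[ℤ] Λ) :=
    { toFun := fun t =>
        { toFun := fun l => ⟨l.1 ∘ₗ t.1, hstab' t.1 t.2 l.1 l.2⟩
          map_add' := fun l l' => Subtype.ext (LinearMap.add_comp _ _ _)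
          map_smul' := fun c l => Subtype.ext (LinearMap.smul_comp _ _ _) }
      map_add' := fun t t' => LinearMap.ext fun l => Subtype.ext (LinearMap.comp_add _ _ _)
      map_smul' := fun c t => LinearMap.ext fun l => Subtype.ext (by
        ext v
        simp) }
  have hΦ : Function.Injective Φ := by
    rw [← LinearMap.ker_eq_bot, LinearMap.ker_eq_bot']
    intro t ht
    apply Subtype.ext
    apply LinearMap.ext
    intro v
    apply hsep
    intro l hl
    have := congrArg (fun F : Λ →ₗ[ℤ] Λ => ((F ⟨l, hl⟩ : Λ) : Module.Dual ℂ V) v) ht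
    simpa [Φ] using this
  exact Module.Finite.of_injective Φ hΦ

end Fermat.Agent.Lib.H3
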