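import Fermat.Agent.Lib.H3_Prim

set_option autoImplicit false

namespace Fermat.Agent.Lib.H3

open Complex Filter Topology Function UpperHalfPlane

/-- A holomorphic periodic function on the upper half plane of polynomial growth in `im τ`
(on a vertical strip) is bounded at `i∞`. -/
theorem isBoundedAtImInfty_of_periodic_of_polyGrowth {φ : ℍ → ℂ} {h : ℝ} (hh : 0 < h)
    (hdiff : DifferentiableOn ℂ (φ ∘ ofComplex) UH)
    (hper : Function.Periodic (φ ∘ ofComplex) (h : ℂ))
    {C : ℝ} {m : ℕ} (hbd : ∀ τ : ℍ, 1 ≤ τ.im → |τ.re| ≤ h → ‖φ τ‖ ≤ C * τ.im ^ m) :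
    IsBoundedAtImInfty φ := by
  set f : ℂ → ℂ := φ ∘ ofComplex with hf
  set F := Function.Periodic.cuspFunction h f with hF
  have hpi : (0 : ℝ) < 2 * Real.pi := by positivity
  -- the imaginary part of `invQParam`
  have him : ∀ q : ℂ, (Function.Periodic.invQParam h q).im = -h / (2 * Real.pi) * Real.log ‖q‖ :=
    fun q => Function.Periodic.im_invQParam h q
  have hre : ∀ q : ℂ, |(Function.Periodic.invQParam h q).re| ≤ h := by
    intro q
    have : (Function.Periodic.invQParam h q).re = h / (2 * Real.pi) * Complex.arg q := by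
      simp only [Function.Periodic.invQParam]
      have h2 : (h : ℂ) / (2 * Real.pi * Complex.I) =
          ((-(h / (2 * Real.pi)) : ℝ) : ℂ) * Complex.I := by
        rw [← div_div, Complex.div_I]; push_cast; ring
      rw [h2, mul_assoc, Complex.re_ofReal_mul, Complex.I_mul_re, Complex.log_im]; ring
    rw [this, abs_mul, abs_of_pos (div_pos hh hpi)]
    have harg : |Complex.arg q| ≤ Real.pi := Complex.abs_arg_le_pi q
    calc h / (2 * Real.pi) * |Complex.arg q| ≤ h / (2 * Real.pi) * Real.pi :=
          mul_le_mul_of_nonneg_left harg (div_pos hh hpi).le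
      _ = h / 2 := by field_simp
      _ ≤ h := by linarith
  -- differentiability on a punctured neighbourhood
  have hd : ∀ᶠ q in 𝓝[≠] (0 : ℂ), DifferentiableAt ℂ F q := by
    have hball : Metric.ball (0 : ℂ) 1 ∈ 𝓝 (0 : ℂ) := Metric.ball_mem_nhds 0 one_pos
    filter_upwards [mem_nhdsWithin_of_mem_nhds hball, self_mem_nhdsWithin] with q hq hq0
    have hq0' : q ≠ 0 := hq0
    have hz : 0 < (Function.Periodic.invQParam h q).im := by
      rw [him]
      have hq1 : ‖q‖ < 1 := by simpa using hq
      have hlog : Real.log ‖q‖ < 0 := Real.log_neg (norm_pos_iff.mpr hq0') hq1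
      have : -h / (2 * Real.pi) < 0 := div_neg_of_neg_of_pos (by linarith) hpi
      exact mul_pos_of_neg_of_neg this hlog
    have := Function.Periodic.differentiableAt_cuspFunction hh.ne' hper
      (hdiff.differentiableAt (isOpen_UH.mem_nhds hz))
    rwa [Function.Periodic.qParam_right_inv hh.ne' hq0'] at this
  -- the growth bound near `0`
  set r : ℝ := Real.exp (-2 * Real.pi / h) with hr
  have hr0 : 0 < r := Real.exp_pos _
  have hr1 : r < 1 := by
    rw [hr, ← Real.exp_zero]
    exact Real.exp_lt_exp.mpr (div_neg_of_neg_of_pos (by linarith) hh)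
  have hbound : ∀ᶠ q in 𝓝[≠] (0 : ℂ),
      ‖F q - F 0‖ ≤ |C| * (h / (2 * Real.pi)) ^ m * |Real.log ‖q‖| ^ m + ‖F 0‖ := by
    have hball : Metric.ball (0 : ℂ) r ∈ 𝓝 (0 : ℂ) := Metric.ball_mem_nhds 0 hr0
    filter_upwards [mem_nhdsWithin_of_mem_nhds hball, self_mem_nhdsWithin] with q hq hq0
    have hq0' : q ≠ 0 := hq0
    have hqr : ‖q‖ < r := by simpa using hq
    have hlog : Real.log ‖q‖ < -2 * Real.pi / h := by
      have := Real.log_lt_log (norm_pos_iff.mpr hq0') hqr
      rwa [hr, Real.log_exp] at this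
    have hlogneg : Real.log ‖q‖ < 0 := hlog.trans (div_neg_of_neg_of_pos (by linarith) hh)
    have him1 : 1 ≤ (Function.Periodic.invQParam h q).im := by
      rw [him]
      have h1 : -h / (2 * Real.pi) * Real.log ‖q‖ = h / (2 * Real.pi) * (-Real.log ‖q‖) := by ring
      rw [h1]
      have h2 : 2 * Real.pi / h < -Real.log ‖q‖ := by
        have : -(-2 * Real.pi / h) = 2 * Real.pi / h := by ring
        linarith
      have h3 : h / (2 * Real.pi) * (2 * Real.pi / h) = 1 := by field_simp
      have h4 := mul_lt_mul_of_pos_left h2 (div_pos hh hpi)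
      linarith
    have hz : 0 < (Function.Periodic.invQParam h q).im := lt_of_lt_of_le one_pos him1
    have hFq : F q = φ ⟨Function.Periodic.invQParam h q, hz⟩ := by
      rw [hF, Function.Periodic.cuspFunction_eq_of_nonzero _ _ hq0', hf, Function.comp_apply,
        ofComplex_apply_of_im_pos hz]
    have hb := hbd ⟨Function.Periodic.invQParam h q, hz⟩ him1 (hre q)
    have himeq : (⟨Function.Periodic.invQParam h q, hz⟩ : ℍ).im =
        h / (2 * Real.pi) * |Real.log ‖q‖| := by
      show (Function.Periodic.invQParam h q).im = _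
      rw [him, abs_of_neg hlogneg]; ring
    rw [himeq] at hb
    calc ‖F q - F 0‖ ≤ ‖F q‖ + ‖F 0‖ := norm_sub_le _ _
      _ ≤ |C| * (h / (2 * Real.pi)) ^ m * |Real.log ‖q‖| ^ m + ‖F 0‖ := by
          have : ‖F q‖ ≤ |C| * (h / (2 * Real.pi)) ^ m * |Real.log ‖q‖| ^ m := by
            rw [hFq]
            refine hb.trans ?_
            rw [mul_pow, ← mul_assoc]
            apply mul_le_mul_of_nonneg_right _ (by positivity)
            exact mul_le_mul_of_nonneg_right (le_abs_self C) (by positivity)
          linarith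
  -- little-o
  have ho : (fun q => F q - F 0) =o[𝓝[≠] (0 : ℂ)] fun q => (q - 0)⁻¹ := by
    have h1 : (fun x : ℝ => |Real.log x| ^ (m : ℝ)) =o[𝓝[>] 0] fun x => x ^ (-1 : ℝ) :=
      isLittleO_abs_log_rpow_rpow_nhdsGT_zero (m : ℝ) (by norm_num)
    have h2 : (fun _ : ℝ => (1 : ℝ)) =o[𝓝[>] 0] fun x => x ^ (-1 : ℝ) := by
      have := isLittleO_abs_log_rpow_rpow_nhdsGT_zero (s := -1) (0 : ℝ) (by norm_num)
      simpa using this
    have h3 : (fun x : ℝ => |C| * (h / (2 * Real.pi)) ^ m * |Real.log x| ^ (m : ℝ) + ‖F 0‖ * 1)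
        =o[𝓝[>] 0] fun x => x ^ (-1 : ℝ) :=
      (h1.const_mul_left _).add (h2.const_mul_left _)
    have h4 := h3.comp_tendsto (tendsto_norm_nhdsNE_zero (E := ℂ))
    refine Asymptotics.IsBigO.trans_isLittleO ?_ (h4.trans_isBigO ?_)
    · refine Asymptotics.IsBigO.of_bound 1 ?_
      filter_upwards [hbound] with q hq
      rw [one_mul]
      refine hq.trans ?_
      simp only [Function.comp_apply, Real.rpow_natCast, mul_one]
      exact le_abs_self _
    · refine Asymptotics.IsBigO.of_bound 1 ?_
      filter_upwards [self_mem_nhdsWithin] with q hq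
      have hq0 : q ≠ 0 := hq
      simp only [Function.comp_apply, sub_zero, norm_inv, one_mul]
      rw [Real.rpow_neg_one, Real.norm_of_nonneg (by positivity)]
  have ht := Complex.tendsto_limUnder_of_differentiable_on_punctured_nhds_of_isLittleO hd ho
  obtain ⟨B, hB⟩ := ht.norm.isBoundedUnder_le
  rw [eventually_map] at hB
  have hB' : ∀ᶠ z in comap Complex.im atTop, ‖F (Function.Periodic.qParam h z)‖ ≤ B :=
    (Function.Periodic.qParam_tendsto hh).eventually hB
  rw [eventually_comap] at hB'
  obtain ⟨A, hA⟩ := eventually_atTop.mp hB'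
  rw [isBoundedAtImInfty_iff]
  refine ⟨B, A, fun z hz => ?_⟩
  have := hA z.im hz (z : ℂ) rfl
  rwa [hF, Function.Periodic.eq_cuspFunction hh.ne' hper, hf, Function.comp_apply,
    ofComplex_apply] at this

end Fermat.Agent.Lib.H3
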