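import Fermat.Agent.Lib.H3_Cusp
import Fermat.Agent.Lib.H3_Bdd

/-!
# S22: the period functionals separate cusp forms
-/

set_option autoImplicit false

namespace Fermat.Agent.Lib.H3

open Complex Filter Topology Function UpperHalfPlane
open scoped MatrixGroups ModularForm Manifold

/-- Binomial expansion of the Eichler integrals in the vector variable. -/
theorem ibp_pv (g : ℂ → ℂ) (n w : ℕ) (v : Fin 2 → ℂ) (z : ℂ) :
    ibp g n (pv w v) z = ∑ m ∈ Finset.range (w + 1),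
      v 0 ^ m * v 1 ^ (w - m) * (w.choose m : ℂ) * ibp g n (Polynomial.X ^ m) z := by
  have h : pv w v = ∑ m ∈ Finset.range (w + 1),
      (v 0 ^ m * v 1 ^ (w - m) * (w.choose m : ℂ)) • (Polynomial.X ^ m : Polynomial ℂ) := by
    rw [pv, add_pow]
    refine Finset.sum_congr rfl fun m _ => ?_
    rw [Polynomial.smul_eq_C_mul]
    simp only [map_mul, map_pow, map_natCast, mul_pow]
    ring
  rw [h, ibp_sum]
  refine Finset.sum_congr rfl fun m _ => ?_
  rw [ibp_smul]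

/-- A period which vanishes on integral vectors vanishes on all vectors. -/
theorem per_eq_zero_of_int {g : ℂ → ℂ} {w : ℕ} {M : GL (Fin 2) ℝ}
    (h : ∀ n : Fin 2 → ℤ, per g w M (fun i => (n i : ℂ)) = 0) (v : Fin 2 → ℂ) :
    per g w M v = 0 := by
  classical
  let A : ℕ → ℂ := fun m => ibp g (w + 1) (Polynomial.X ^ m) (mob M Complex.I)
  let B : ℕ → ℂ := fun m => ibp g (w + 1) (Polynomial.X ^ m) Complex.I
  let P : MvPolynomial (Fin 2) ℂ :=
    ∑ m ∈ Finset.range (w + 1),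
      ((MvPolynomial.X 0 * MvPolynomial.C (M 1 1 : ℂ) -
          MvPolynomial.X 1 * MvPolynomial.C (M 1 0 : ℂ)) ^ m *
        (-(MvPolynomial.X 0 * MvPolynomial.C (M 0 1 : ℂ)) +
          MvPolynomial.X 1 * MvPolynomial.C (M 0 0 : ℂ)) ^ (w - m) *
        MvPolynomial.C ((w.choose m : ℂ) * A m)) -
    ∑ m ∈ Finset.range (w + 1),
      (MvPolynomial.X 0 ^ m * MvPolynomial.X 1 ^ (w - m) *
        MvPolynomial.C ((w.choose m : ℂ) * B m))
  have hP : ∀ v : Fin 2 → ℂ, MvPolynomial.eval v P = per g w M v := by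
    intro v
    simp only [P, A, B, per, EIc, ibp_pv, map_sub, map_sum, map_mul, map_pow, map_neg, map_add,
      MvPolynomial.eval_X, MvPolynomial.eval_C, vadj_zero, vadj_one']
    congr 1 <;> refine Finset.sum_congr rfl fun m _ => ?_ <;> ring
  have hP0 : P = 0 := by
    refine MvPolynomial.funext_set (fun _ => Set.range (Int.cast : ℤ → ℂ))
      (fun _ => Set.infinite_range_of_injective Int.cast_injective) ?_
    intro x hx
    rw [map_zero, hP]
    choose n hn using fun i => hx i (Set.mem_univ i)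
    have hx' : x = fun i => (n i : ℂ) := funext fun i => (hn i).symm
    rw [hx']
    exact h n
  rw [← hP, hP0, map_zero]

/-- Vanishing of all periods along `M` makes the top Eichler integral invariant. -/
theorem chain_inv_of_per {g : ℂ → ℂ} (hg : Cls g) {w : ℕ} {M : GL (Fin 2) ℝ} (hM : Inv g w M)
    (h : ∀ v : Fin 2 → ℂ, per g w M v = 0) {z : ℂ} (hz : z ∈ UH) :
    chain g (w + 1) (mob M z) * denom M z ^ w = chain g (w + 1) z := by
  have hspec := per_spec hg hM ![1, -z] hz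
  rw [h] at hspec
  have hden : denom M z ≠ 0 := denom_ne_zero_of_im M (ne_of_gt hz)
  have h1 : pv w ![1, -z] = (Polynomial.X - Polynomial.C z) ^ w := by
    simp [pv, sub_eq_add_neg]
  have h2 : pv w (vadj M ![1, -z]) =
      (denom M z ^ w) • (Polynomial.X - Polynomial.C (mob M z)) ^ w := by
    rw [pv, Polynomial.smul_eq_C_mul, Polynomial.C_pow, ← mul_pow]
    congr 1
    have e0 : vadj M ![1, -z] 0 = denom M z := by
      simp [vadj, denom]; ring
    have e1 : vadj M ![1, -z] 1 = -(denom M z * mob M z) := by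
      rw [mob, mul_div_cancel₀ _ hden]
      simp [vadj, num]; ring
    rw [e0, e1]
    simp only [map_neg, map_mul]
    ring
  rw [EIc, EIc, h1, h2, ibp_smul, ibp_diag, ibp_diag] at hspec
  have hne : ((-1 : ℂ) ^ w * (w.factorial : ℂ)) ≠ 0 :=
    mul_ne_zero (pow_ne_zero _ (by norm_num)) (Nat.cast_ne_zero.mpr w.factorial_ne_zero)
  apply mul_left_cancel₀ hne
  linear_combination hspec

variable {N : ℕ} [NeZero N]

omit [NeZero N] in
theorem conj_T_zpow_mem_Gamma0 (δ : SL(2, ℤ)) :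
    δ * ModularGroup.T ^ (N : ℤ) * δ⁻¹ ∈ CongruenceSubgroup.Gamma0 N := by
  have h1 : ModularGroup.T ^ (N : ℤ) ∈ CongruenceSubgroup.Gamma N := by
    simpa using CongruenceSubgroup.ModularGroup_T_pow_mem_Gamma (N : ℤ) (N : ℤ) dvd_rfl
  have h2 := (CongruenceSubgroup.Gamma_normal N).conj_mem _ h1 δ
  exact CongruenceSubgroup.Gamma0_mem.mpr (CongruenceSubgroup.Gamma_mem.mp h2).2.2.1

/-- A function in the class `Cls` which is invariant of weight `-w` under `Γ₀(N)` vanishes. -/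
theorem eq_zero_of_weight_neg_inv {E : ℂ → ℂ} (hE : Cls E) (w : ℕ)
    (hinv : ∀ γ ∈ CongruenceSubgroup.Gamma0 N, ∀ z ∈ UH,
      E (mob (Matrix.SpecialLinearGroup.mapGL ℝ γ) z) *
        denom (Matrix.SpecialLinearGroup.mapGL ℝ γ) z ^ w = E z) :
    ∀ z ∈ UH, E z = 0 := by
  set φ : ℍ → ℂ := fun τ => E τ with hφ
  -- the slash action on `φ`
  have hslash : ∀ (δ : SL(2, ℤ)) (τ : ℍ), (φ ∣[-(w : ℤ)] δ) τ =
      E (mob (Matrix.SpecialLinearGroup.mapGL ℝ δ) τ) *
        denom (Matrix.SpecialLinearGroup.mapGL ℝ δ) τ ^ w := by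
    intro δ τ
    rw [ModularForm.SL_slash_apply, neg_neg, zpow_natCast]
    have h1 : ((δ • τ : ℍ) : ℂ) = mob (Matrix.SpecialLinearGroup.mapGL ℝ δ) τ :=
      coe_smul_eq_mob (det_mapGL_pos δ) τ
    show E ((δ • τ : ℍ) : ℂ) * _ = _
    rw [h1]
    rfl
  have hinvφ : ∀ γ ∈ CongruenceSubgroup.Gamma0 N, φ ∣[-(w : ℤ)] γ = φ := by
    intro γ hγ
    funext τ
    rw [hslash]
    exact hinv γ hγ τ τ.im_pos
  have hholo : MDifferentiable 𝓘(ℂ) 𝓘(ℂ) φ := by
    rw [UpperHalfPlane.mdifferentiable_iff]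
    refine hE.diff.congr fun z hz => ?_
    simp only [Function.comp_apply, hφ, ofComplex_apply_of_im_pos hz]
  -- periodicity of the translates
  have hperiod : ∀ (δ : SL(2, ℤ)) (τ : ℍ),
      (φ ∣[-(w : ℤ)] δ) ((((N : ℤ) : ℝ)) +ᵥ τ) = (φ ∣[-(w : ℤ)] δ) τ := by
    intro δ τ
    have hγ' := conj_T_zpow_mem_Gamma0 (N := N) δ
    have h1 : (φ ∣[-(w : ℤ)] δ) ∣[-(w : ℤ)] (ModularGroup.T ^ (N : ℤ)) = φ ∣[-(w : ℤ)] δ := by
      rw [← SlashAction.slash_mul]
      have h3 : δ * ModularGroup.T ^ (N : ℤ) = (δ * ModularGroup.T ^ (N : ℤ) * δ⁻¹) * δ := by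
        group
      rw [h3, SlashAction.slash_mul, hinvφ _ hγ']
    have h2 := congrFun h1 τ
    rw [ModularForm.SL_slash_apply, modular_T_zpow_smul] at h2
    have hd : denom (ModularGroup.T ^ (N : ℤ) : SL(2, ℤ)) τ = 1 := by
      have hT := ModularGroup.coe_T_zpow (N : ℤ)
      rw [ModularGroup.denom_apply]
      show ((((ModularGroup.T ^ (N : ℤ) : SL(2, ℤ)).1 1 0 : ℤ) : ℂ)) * τ +
        ((((ModularGroup.T ^ (N : ℤ) : SL(2, ℤ)).1 1 1 : ℤ) : ℂ)) = 1
      rw [hT]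
      simp
    rw [hd, one_zpow, mul_one] at h2
    exact h2
  have hperC : ∀ δ : SL(2, ℤ),
      Function.Periodic ((φ ∣[-(w : ℤ)] δ) ∘ ofComplex) (((N : ℝ)) : ℂ) := by
    intro δ z
    by_cases hz : 0 < z.im
    · have hz' : 0 < (z + ((N : ℝ) : ℂ)).im := by simpa using hz
      simp only [Function.comp_apply, ofComplex_apply_of_im_pos hz', ofComplex_apply_of_im_pos hz]
      have h1 := hperiod δ ⟨z, hz⟩
      convert h1 using 2
      ext
      simp [add_comm]
    · have hz0 : z.im ≤ 0 := not_lt.mp hz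
      have hz' : (z + ((N : ℝ) : ℂ)).im ≤ 0 := by simpa using hz0
      show (φ ∣[-(w : ℤ)] δ) (ofComplex (z + ((N : ℝ) : ℂ))) = (φ ∣[-(w : ℤ)] δ) (ofComplex z)
      rw [ofComplex_apply_of_im_nonpos hz', ofComplex_apply_of_im_nonpos hz0]
  -- boundedness of the translates
  have hbddδ : ∀ δ : SL(2, ℤ), IsBoundedAtImInfty (φ ∣[-(w : ℤ)] δ) := by
    intro δ
    obtain ⟨C₀, M₀, hC₀⟩ := hE.bound
    set c : ℝ := ((δ 1 0 : ℤ) : ℝ) with hc
    set d : ℝ := ((δ 1 1 : ℤ) : ℝ) with hd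
    set D : ℝ := |c| * ((N : ℝ) + 1) + |d| + 1 with hD
    have hN0 : (0 : ℝ) ≤ (N : ℝ) := Nat.cast_nonneg N
    have hD1 : 1 ≤ D := by
      have := mul_nonneg (abs_nonneg c) (by linarith : (0 : ℝ) ≤ (N : ℝ) + 1)
      have := abs_nonneg d
      linarith
    have hNpos : (0 : ℝ) < (N : ℝ) := Nat.cast_pos.mpr (Nat.pos_of_ne_zero (NeZero.ne N))
    have hdiffF : DifferentiableOn ℂ ((φ ∣[-(w : ℤ)] δ) ∘ ofComplex) UH :=
      UpperHalfPlane.mdifferentiable_iff.mp
        (hholo.slash (-(w : ℤ)) (Matrix.SpecialLinearGroup.mapGL ℝ δ))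
    refine isBoundedAtImInfty_of_periodic_of_polyGrowth hNpos hdiffF (hperC δ)
      (C := |C₀| * 2 ^ M₀ * D ^ (2 * M₀ + w)) (m := 2 * M₀ + w) ?_
    intro τ h1 h2
    rw [hslash, norm_mul, norm_pow]
    have hmem : mob (Matrix.SpecialLinearGroup.mapGL ℝ δ) τ ∈ UH :=
      mob_mem_UH (det_mapGL_pos δ) τ.im_pos
    have hden_le : ‖denom (Matrix.SpecialLinearGroup.mapGL ℝ δ) τ‖ ≤ D * τ.im := by
      have h3 : denom (Matrix.SpecialLinearGroup.mapGL ℝ δ) (τ : ℂ) = (c : ℂ) * τ + d := by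
        simp [denom, hc, hd]
      rw [h3]
      have h4 : ‖(τ : ℂ)‖ ≤ (N : ℝ) + τ.im := by
        have h5 : ‖(τ : ℂ)‖ ≤ |(τ : ℂ).re| + |(τ : ℂ).im| := Complex.norm_le_abs_re_add_abs_im τ
        have h6 : |(τ : ℂ).im| = τ.im := abs_of_pos τ.im_pos
        have h7 : |(τ : ℂ).re| ≤ (N : ℝ) := h2
        linarith
      calc ‖(c : ℂ) * τ + d‖ ≤ ‖(c : ℂ) * τ‖ + ‖(d : ℂ)‖ := norm_add_le _ _
        _ = |c| * ‖(τ : ℂ)‖ + |d| := by
            rw [norm_mul, Complex.norm_real, Complex.norm_real, Real.norm_eq_abs,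
              Real.norm_eq_abs]
        _ ≤ |c| * ((N : ℝ) + τ.im) + |d| := by
            have := mul_le_mul_of_nonneg_left h4 (abs_nonneg c)
            linarith
        _ ≤ D * τ.im := by
            rw [hD]
            nlinarith [abs_nonneg c, abs_nonneg d,
              mul_nonneg (mul_nonneg (abs_nonneg c) hN0) (sub_nonneg.mpr h1),
              mul_nonneg (abs_nonneg d) (sub_nonneg.mpr h1)]
    have him : (mob (Matrix.SpecialLinearGroup.mapGL ℝ δ) τ).im =
        τ.im / Complex.normSq (denom (Matrix.SpecialLinearGroup.mapGL ℝ δ) τ) := by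
      rw [← coe_smul_eq_mob (det_mapGL_pos δ) τ]
      have h3 := UpperHalfPlane.im_smul_eq_div_normSq (Matrix.SpecialLinearGroup.mapGL ℝ δ) τ
      rw [det_mapGL, abs_one, one_mul] at h3
      exact h3
    have hDy : 1 ≤ D * τ.im := one_le_mul_of_one_le_of_one_le hD1 h1
    have hinv_le : ((mob (Matrix.SpecialLinearGroup.mapGL ℝ δ) τ).im)⁻¹ ≤ (D * τ.im) ^ 2 := by
      rw [him, inv_div, Complex.normSq_eq_norm_sq]
      calc ‖denom (Matrix.SpecialLinearGroup.mapGL ℝ δ) τ‖ ^ 2 / τ.im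
          ≤ ‖denom (Matrix.SpecialLinearGroup.mapGL ℝ δ) τ‖ ^ 2 := div_le_self (sq_nonneg _) h1
        _ ≤ (D * τ.im) ^ 2 := pow_le_pow_left₀ (norm_nonneg _) hden_le 2
    have hinv_nonneg : 0 ≤ ((mob (Matrix.SpecialLinearGroup.mapGL ℝ δ) τ).im)⁻¹ :=
      inv_nonneg.mpr (le_of_lt hmem)
    have hE1 : ‖E (mob (Matrix.SpecialLinearGroup.mapGL ℝ δ) τ)‖ ≤
        |C₀| * (2 * (D * τ.im) ^ 2) ^ M₀ := by
      calc ‖E (mob (Matrix.SpecialLinearGroup.mapGL ℝ δ) τ)‖
          ≤ C₀ * (1 + ((mob (Matrix.SpecialLinearGroup.mapGL ℝ δ) τ).im)⁻¹) ^ M₀ := hC₀ _ hmem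
        _ ≤ |C₀| * (1 + ((mob (Matrix.SpecialLinearGroup.mapGL ℝ δ) τ).im)⁻¹) ^ M₀ :=
            mul_le_mul_of_nonneg_right (le_abs_self _) (pow_nonneg (by linarith) _)
        _ ≤ |C₀| * (2 * (D * τ.im) ^ 2) ^ M₀ := by
            apply mul_le_mul_of_nonneg_left _ (abs_nonneg _)
            apply pow_le_pow_left₀ (by linarith)
            have : 1 ≤ (D * τ.im) ^ 2 := one_le_pow₀ hDy
            linarith
    have hden_pow : ‖denom (Matrix.SpecialLinearGroup.mapGL ℝ δ) τ‖ ^ w ≤ (D * τ.im) ^ w :=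
      pow_le_pow_left₀ (norm_nonneg _) hden_le w
    calc ‖E (mob (Matrix.SpecialLinearGroup.mapGL ℝ δ) τ)‖ *
          ‖denom (Matrix.SpecialLinearGroup.mapGL ℝ δ) τ‖ ^ w
        ≤ (|C₀| * (2 * (D * τ.im) ^ 2) ^ M₀) * (D * τ.im) ^ w :=
          mul_le_mul hE1 hden_pow (pow_nonneg (norm_nonneg _) _)
            (mul_nonneg (abs_nonneg _) (pow_nonneg (by positivity) _))
      _ = (|C₀| * 2 ^ M₀ * D ^ (2 * M₀ + w)) * τ.im ^ (2 * M₀ + w) := by
          have e : (2 * (D * τ.im) ^ 2) ^ M₀ * (D * τ.im) ^ w =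
              2 ^ M₀ * (D ^ (2 * M₀ + w) * τ.im ^ (2 * M₀ + w)) := by
            rw [mul_pow, ← pow_mul, mul_assoc, ← pow_add, mul_pow]
          rw [mul_assoc, e]
          ring
  -- the modular form of weight `-w`
  let Emf : ModularForm (CongruenceSubgroup.Gamma0 N) (-(w : ℤ)) :=
    { toFun := φ
      slash_action_eq' := by
        rintro _ ⟨γ, hγ, rfl⟩
        exact hinvφ γ hγ
      holo' := hholo
      bdd_at_cusps' := fun {c} hc => by
        rw [Subgroup.IsArithmetic.isCusp_iff_isCusp_SL2Z] at hc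
        rw [OnePoint.isBoundedAt_iff_forall_SL2Z hc]
        intro δ _
        exact hbddδ δ }
  have hφ0 : ∀ τ : ℍ, φ τ = 0 := by
    rcases Nat.eq_zero_or_pos w with hw | hw
    · have hk0 : -(w : ℤ) = 0 := by simp [hw]
      obtain ⟨c, hc⟩ := ModularForm.eq_const_of_weight_zero (ModularForm.mcast hk0 Emf)
      have hcφ : ∀ τ : ℍ, φ τ = c := fun τ => congrFun hc τ
      have hlim : Tendsto (fun t : ℝ => E ((t : ℂ) * Complex.I)) atTop (𝓝 0) := by
        refine hE.zero.comp ?_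
        rw [tendsto_comap_iff]
        have : (Complex.im ∘ fun t : ℝ => (t : ℂ) * Complex.I) = id := by
          funext t; simp
        rw [this]
        exact tendsto_id
      have hev : ∀ᶠ t : ℝ in atTop, E ((t : ℂ) * Complex.I) = c := by
        filter_upwards [eventually_gt_atTop (0 : ℝ)] with t ht
        exact hcφ ⟨(t : ℂ) * Complex.I, by simpa using ht⟩
      have hc0 : c = 0 :=
        tendsto_nhds_unique (tendsto_const_nhds.congr' (hev.mono fun t ht => ht.symm)) hlim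
      intro τ
      rw [hcφ, hc0]
    · have hk : -(w : ℤ) < 0 := by
        have : (0 : ℤ) < (w : ℤ) := by exact_mod_cast hw
        linarith
      have h0 := ModularForm.isZero_of_neg_weight hk Emf
      intro τ
      have h2 := congrArg (fun f : ModularForm (CongruenceSubgroup.Gamma0 N) (-(w : ℤ)) => f τ) h0
      exact h2
  intro z hz
  exact hφ0 ⟨z, hz⟩

/-- The period functionals separate cusp forms. -/
theorem period_separating {w : ℕ}
    (f : CuspForm (CongruenceSubgroup.Gamma0 N) ((w : ℤ) + 2))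
    (h : ∀ γ ∈ CongruenceSubgroup.Gamma0 N, ∀ n : Fin 2 → ℤ,
      perL N w γ (fun i => (n i : ℂ)) f = 0) : f = 0 := by
  have hg := fC_cls f
  have hper : ∀ γ ∈ CongruenceSubgroup.Gamma0 N, ∀ v : Fin 2 → ℂ,
      per (fC f) w (Matrix.SpecialLinearGroup.mapGL ℝ γ) v = 0 := by
    intro γ hγ
    apply per_eq_zero_of_int
    intro n
    rw [← perL_apply]
    exact h γ hγ n
  have hE0 := eq_zero_of_weight_neg_inv (N := N) (chain_cls hg (w + 1)) w
    (fun γ hγ z hz => chain_inv_of_per hg (fC_inv f hγ) (hper γ hγ) hz)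
  have hf0 := chain_eq_zero hg (w + 1) hE0
  ext τ
  have h1 := hf0 τ τ.im_pos
  rw [fC_coe] at h1
  simpa using h1

end Fermat.Agent.Lib.H3
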