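import Mathlib
import Fermat.Prelude.Thm_ModularForm_sturm_bound_Gamma0
import Fermat.Prelude.Thm_CongruenceSubgroup_one_mem_strictPeriods_Gamma0

/-!
# S22: cusp forms of weight at most one on `Γ₀(N)` vanish
-/

set_option autoImplicit false

open UpperHalfPlane ModularForm CuspForm ModularFormClass

namespace Fermat.Agent.Lib.H3

/-- A cusp form viewed as a modular form. -/
noncomputable def cuspToMod {N : ℕ} {k : ℤ} (f : CuspForm (CongruenceSubgroup.Gamma0 N) k) :
    ModularForm (CongruenceSubgroup.Gamma0 N) k :=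
  { toSlashInvariantForm := f.toSlashInvariantForm
    holo' := f.holo'
    bdd_at_cusps' := fun hc γ hγ => (f.zero_at_cusps' hc γ hγ).isBoundedAtImInfty }

theorem cuspToMod_apply {N : ℕ} {k : ℤ} (f : CuspForm (CongruenceSubgroup.Gamma0 N) k) (τ : ℍ) :
    cuspToMod f τ = f τ := rfl

theorem cuspForm_eq_zero_of_cuspToMod {N : ℕ} {k : ℤ}
    (f : CuspForm (CongruenceSubgroup.Gamma0 N) k) (h : cuspToMod f = 0) : f = 0 := by
  ext τ
  have := congrArg (fun g : ModularForm (CongruenceSubgroup.Gamma0 N) k => g τ) h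
  exact this

theorem cuspForm_eq_zero_of_weight_le_zero {N : ℕ} [NeZero N] {k : ℤ} (hk : k ≤ 0)
    (f : CuspForm (CongruenceSubgroup.Gamma0 N) k) : f = 0 := by
  apply cuspForm_eq_zero_of_cuspToMod
  apply ModularForm.sturm_bound_Gamma0 N (cuspToMod f)
  intro n hn
  have h0 : (k * ((CongruenceSubgroup.Gamma0 N).index : ℤ)).toNat = 0 := by
    apply Int.toNat_of_nonpos
    exact mul_nonpos_of_nonpos_of_nonneg hk (Int.natCast_nonneg _)
  rw [h0] at hn
  have hn0 : n = 0 := by omega
  subst hn0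
  exact CuspFormClass.qExpansion_coeff_zero f one_pos
    (CongruenceSubgroup.one_mem_strictPeriods_Gamma0 N)

theorem cuspForm_eq_zero_of_weight_one {N : ℕ}
    (f : CuspForm (CongruenceSubgroup.Gamma0 N) 1) : f = 0 := by
  apply cuspForm_eq_zero_of_cuspToMod
  apply ModularForm.eq_zero_of_neg_one_mem _ (by decide : Odd (1 : ℤ))
  refine ⟨-1, ?_, ?_⟩
  · simp [CongruenceSubgroup.Gamma0_mem]
  · ext i j
    fin_cases i <;> fin_cases j <;> simp [Matrix.SpecialLinearGroup.mapGL]

theorem cuspForm_eq_zero_of_weight_le_one {N : ℕ} [NeZero N] {k : ℤ} (hk : k ≤ 1)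
    (f : CuspForm (CongruenceSubgroup.Gamma0 N) k) : f = 0 := by
  rcases hk.lt_or_eq with h | h
  · exact cuspForm_eq_zero_of_weight_le_zero (by omega) f
  · subst h
    exact cuspForm_eq_zero_of_weight_one f

end Fermat.Agent.Lib.H3
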