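import Fermat.Agent.Lib.T23_Defs
import Fermat.Agent.S22
import Fermat.Prelude.Thm_ModularFormClass_qCoeff_heckeT
import Fermat.Prelude.Thm_ModularFormClass_qCoeff_heckeU

/-!
# T23 piece (9): bounded denominators, from finite generation of the Hecke algebra (S22)
-/

set_option autoImplicit false

open UpperHalfPlane ModularForm CuspForm ModularFormClass
open scoped MatrixGroups Manifold

namespace Fermat.Agent.T23

theorem hΓ0 (N : ℕ) :
    (1 : ℝ) ∈ (Subgroup.map (Matrix.SpecialLinearGroup.mapGL ℝ)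
      (CongruenceSubgroup.Gamma0 N)).strictPeriods :=
  CongruenceSubgroup.one_mem_strictPeriods_Gamma0 N

theorem qcoeff_add {N : ℕ} {k : ℤ} (f g : CuspForm (CongruenceSubgroup.Gamma0 N) k) (n : ℕ) :
    qCoeff ⇑(f + g) n = qCoeff ⇑f n + qCoeff ⇑g n := by
  simp only [qCoeff, CuspForm.coe_add]
  rw [ModularFormClass.qExpansion_add one_pos (hΓ0 N) f g, map_add]

theorem qcoeff_smul {N : ℕ} {k : ℤ} (c : ℂ) (f : CuspForm (CongruenceSubgroup.Gamma0 N) k)
    (n : ℕ) : qCoeff ⇑(c • f) n = c * qCoeff ⇑f n := by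
  have h1 : ⇑(c • f) = c • ⇑f := by
    ext z
    simp
  simp only [qCoeff, h1]
  rw [ModularFormClass.qExpansion_smul one_pos (hΓ0 N) c f]
  simp

theorem qcoeff_zero {N : ℕ} {k : ℤ} (n : ℕ) :
    qCoeff ⇑(0 : CuspForm (CongruenceSubgroup.Gamma0 N) k) n = 0 := by
  simp only [qCoeff, CuspForm.coe_zero]
  rw [UpperHalfPlane.qExpansion_zero, map_zero]

theorem qcoeff_cusp {N : ℕ} {k : ℤ} (f : CuspForm (CongruenceSubgroup.Gamma0 N) k) :
    qCoeff ⇑f 0 = 0 :=
  CuspFormClass.qExpansion_coeff_zero f one_pos (hΓ0 N)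

theorem qcoeff_heckeT {N : ℕ} {k : ℤ} {p : ℕ} (hp : p.Prime) (hpN : ¬ p ∣ N)
    (f : CuspForm (CongruenceSubgroup.Gamma0 N) k) (n : ℕ) :
    qCoeff ⇑(CuspForm.heckeTLin k hp hpN f) n =
      qCoeff ⇑f (n * p) + if p ∣ n then (p : ℂ) ^ (k - 1) * qCoeff ⇑f (n / p) else 0 := by
  rw [CuspForm.coe_heckeTLin_apply, ModularFormClass.qCoeff_heckeT f (hΓ0 N) hp.ne_zero n,
    ModularForm.coeffHeckeT_apply]

theorem qcoeff_heckeU {N : ℕ} [NeZero N] {k : ℤ} {p : ℕ} (hp : p ≠ 0) (hpN : p ∣ N)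
    (f : CuspForm (CongruenceSubgroup.Gamma0 N) k) (n : ℕ) :
    qCoeff ⇑(CuspForm.heckeULin k hpN f) n = qCoeff ⇑f (n * p) := by
  rw [CuspForm.coe_heckeULin_apply, ModularFormClass.qCoeff_heckeU f (hΓ0 N) hp n,
    ModularForm.coeffHeckeU_apply]

/-- Cusp forms with rational `q`-coefficients. -/
def RatForm {N : ℕ} {k : ℤ} (f : CuspForm (CongruenceSubgroup.Gamma0 N) k) : Prop :=
  ∀ n : ℕ, ∃ r : ℚ, qCoeff ⇑f n = (r : ℂ)

theorem RatForm.add {N : ℕ} {k : ℤ} {f g : CuspForm (CongruenceSubgroup.Gamma0 N) k}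
    (hf : RatForm f) (hg : RatForm g) : RatForm (f + g) := by
  intro n
  obtain ⟨r, hr⟩ := hf n
  obtain ⟨s, hs⟩ := hg n
  exact ⟨r + s, by rw [qcoeff_add, hr, hs]; push_cast; ring⟩

theorem RatForm.zero {N : ℕ} {k : ℤ} :
    RatForm (0 : CuspForm (CongruenceSubgroup.Gamma0 N) k) := by
  intro n
  exact ⟨0, by rw [qcoeff_zero]; simp⟩

theorem RatForm.smul_rat {N : ℕ} {k : ℤ} {f : CuspForm (CongruenceSubgroup.Gamma0 N) k}
    (c : ℚ) (hf : RatForm f) : RatForm ((c : ℂ) • f) := by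
  intro n
  obtain ⟨r, hr⟩ := hf n
  exact ⟨c * r, by rw [qcoeff_smul, hr]; push_cast; ring⟩

theorem RatForm.heckeT {N : ℕ} {k : ℤ} (hk : 1 ≤ k) {p : ℕ} (hp : p.Prime) (hpN : ¬ p ∣ N)
    {f : CuspForm (CongruenceSubgroup.Gamma0 N) k} (hf : RatForm f) :
    RatForm (CuspForm.heckeTLin k hp hpN f) := by
  intro n
  rw [qcoeff_heckeT]
  obtain ⟨r, hr⟩ := hf (n * p)
  obtain ⟨s, hs⟩ := hf (n / p)
  obtain ⟨e, he⟩ : ∃ e : ℕ, k - 1 = (e : ℤ) := ⟨(k - 1).toNat, by omega⟩
  by_cases hpn : p ∣ n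
  · refine ⟨r + (p : ℚ) ^ e * s, ?_⟩
    rw [if_pos hpn, hr, hs, he, zpow_natCast]
    push_cast; ring
  · exact ⟨r, by rw [if_neg hpn, hr, add_zero]⟩

theorem RatForm.heckeU {N : ℕ} [NeZero N] {k : ℤ} {p : ℕ} (hp : p ≠ 0) (hpN : p ∣ N)
    {f : CuspForm (CongruenceSubgroup.Gamma0 N) k} (hf : RatForm f) :
    RatForm (CuspForm.heckeULin k hpN f) := by
  intro n
  rw [qcoeff_heckeU hp]
  exact hf (n * p)

/-- The Hecke algebra preserves forms with rational coefficients. -/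
theorem RatForm.hecke {N : ℕ} [NeZero N] {k : ℤ} (hk : 1 ≤ k)
    {t : Module.End ℂ (CuspForm (CongruenceSubgroup.Gamma0 N) k)}
    (ht : t ∈ CuspForm.heckeAlgebra N k ∅) :
    ∀ f : CuspForm (CongruenceSubgroup.Gamma0 N) k, RatForm f → RatForm (t f) := by
  unfold CuspForm.heckeAlgebra at ht
  induction ht using Algebra.adjoin_induction with
  | mem x hx =>
    intro f hf
    rcases hx with ⟨ℓ, hℓ, hℓN, -, rfl⟩ | ⟨q, hqN, hq, -, rfl⟩
    · exact hf.heckeT hk hℓ hℓN
    · exact hf.heckeU hq.ne_zero hqN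
  | algebraMap r =>
    intro f hf
    have : (algebraMap ℤ (Module.End ℂ (CuspForm (CongruenceSubgroup.Gamma0 N) k)) r) f
        = ((r : ℚ) : ℂ) • f := by
      rw [Algebra.algebraMap_eq_smul_one, LinearMap.smul_apply, Module.End.one_apply,
        ← Int.cast_smul_eq_zsmul ℂ r f]
      push_cast
      rfl
    rw [this]
    exact hf.smul_rat _
  | add x y _ _ hx hy =>
    intro f hf
    rw [LinearMap.add_apply]
    exact (hx f hf).add (hy f hf)
  | mul x y _ _ hx hy =>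
    intro f hf
    rw [Module.End.mul_apply]
    exact hx _ (hy f hf)

/-- The first `q`-coefficient as a `ℤ`-linear functional on the Hecke algebra, `t ↦ a₁(t f)`. -/
noncomputable def coeffMap {N : ℕ} [NeZero N] {k : ℤ}
    (f : CuspForm (CongruenceSubgroup.Gamma0 N) k) : CuspForm.heckeAlgebra N k ∅ →ₗ[ℤ] ℂ where
  toFun t := qCoeff ⇑(t.1 f) 1
  map_add' s t := by
    have : (s + t).1 f = s.1 f + t.1 f := rfl
    rw [this, qcoeff_add]
  map_smul' r t := by
    have : (r • t).1 f = (r : ℂ) • t.1 f := by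
      have h1 : (r • t).1 = r • t.1 := rfl
      rw [h1, LinearMap.smul_apply, ← Int.cast_smul_eq_zsmul ℂ r (t.1 f)]
    rw [this, qcoeff_smul]
    simp

/-- The `ℤ`-module of first coefficients of Hecke translates of `f`. -/
noncomputable def coeffLattice {N : ℕ} [NeZero N] {k : ℤ}
    (f : CuspForm (CongruenceSubgroup.Gamma0 N) k) : Submodule ℤ ℂ :=
  LinearMap.range (coeffMap f)

theorem mem_coeffLattice {N : ℕ} [NeZero N] {k : ℤ}
    (f : CuspForm (CongruenceSubgroup.Gamma0 N) k) (x : ℂ) :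
    x ∈ coeffLattice f ↔ ∃ t ∈ CuspForm.heckeAlgebra N k ∅, qCoeff ⇑(t f) 1 = x := by
  unfold coeffLattice
  rw [LinearMap.mem_range]
  constructor
  · rintro ⟨t, rfl⟩
    exact ⟨t.1, t.2, rfl⟩
  · rintro ⟨t, ht, rfl⟩
    exact ⟨⟨t, ht⟩, rfl⟩

theorem coeffLattice_fg {N : ℕ} [NeZero N] {k : ℤ}
    (f : CuspForm (CongruenceSubgroup.Gamma0 N) k) : (coeffLattice f).FG := by
  have : Module.Finite ℤ (CuspForm.heckeAlgebra N k ∅) := Fermat.Agent.S22.result N k ∅
  unfold coeffLattice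
  exact Submodule.fg_range _

theorem coeffLattice_mono {N : ℕ} [NeZero N] {k : ℤ}
    (f : CuspForm (CongruenceSubgroup.Gamma0 N) k)
    {s : Module.End ℂ (CuspForm (CongruenceSubgroup.Gamma0 N) k)}
    (hs : s ∈ CuspForm.heckeAlgebra N k ∅) : coeffLattice (s f) ≤ coeffLattice f := by
  intro x hx
  rw [mem_coeffLattice] at hx ⊢
  obtain ⟨t, ht, rfl⟩ := hx
  exact ⟨t * s, Subalgebra.mul_mem _ ht hs, rfl⟩

/-- Every `q`-coefficient of `f` lies in the coefficient lattice. -/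
theorem qCoeff_mem_coeffLattice {N : ℕ} [NeZero N] {k : ℤ} (hk : 1 ≤ k) (n : ℕ) :
    ∀ f : CuspForm (CongruenceSubgroup.Gamma0 N) k, qCoeff ⇑f n ∈ coeffLattice f := by
  induction n using Nat.strong_induction_on with
  | _ n ih =>
    intro f
    rcases Nat.eq_zero_or_pos n with rfl | hn
    · rw [qcoeff_cusp]; exact Submodule.zero_mem _
    rcases Nat.lt_or_ge 1 n with h1 | h1
    · -- n > 1
      have hp : (Nat.minFac n).Prime := Nat.minFac_prime (by omega)
      obtain ⟨m, hm⟩ := Nat.minFac_dvd n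
      set p := Nat.minFac n with hpdef
      have hm' : n = m * p := by rw [hm, mul_comm]
      have hmpos : 0 < m := by
        rcases Nat.eq_zero_or_pos m with h0 | h0
        · rw [h0] at hm'; omega
        · exact h0
      have hmlt : m < n := by
        rw [hm']
        have := hp.one_lt
        nlinarith
      by_cases hpN : p ∣ N
      · -- U_p
        have hU := qcoeff_heckeU (k := k) hp.ne_zero hpN f m
        rw [hm', ← hU]
        exact coeffLattice_mono f (CuspForm.heckeULin_mem_heckeAlgebra hp hpN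
          (Set.notMem_empty _)) (ih m hmlt _)
      · have hT := qcoeff_heckeT (k := k) hp hpN f m
        have hmem := coeffLattice_mono f (CuspForm.heckeTLin_mem_heckeAlgebra hp hpN
          (Set.notMem_empty _)) (ih m hmlt (CuspForm.heckeTLin k hp hpN f))
        rw [hT] at hmem
        by_cases hpm : p ∣ m
        · rw [if_pos hpm] at hmem
          have hlt : m / p < n := lt_of_le_of_lt (Nat.div_le_self _ _) hmlt
          have h2 := ih (m / p) hlt f
          obtain ⟨e, he⟩ : ∃ e : ℕ, k - 1 = (e : ℤ) := ⟨(k - 1).toNat, by omega⟩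
          have h3 : ((p : ℤ) ^ e) • qCoeff ⇑f (m / p) ∈ coeffLattice f :=
            Submodule.smul_mem _ _ h2
          have h4 := Submodule.sub_mem _ hmem h3
          have h5 : qCoeff ⇑f (m * p) + (p : ℂ) ^ (k - 1) * qCoeff ⇑f (m / p)
              - ((p : ℤ) ^ e) • qCoeff ⇑f (m / p) = qCoeff ⇑f (m * p) := by
            rw [he, zpow_natCast, zsmul_eq_mul]
            push_cast
            ring
          rw [h5] at h4
          rw [hm']
          exact h4
        · rw [if_neg hpm, add_zero] at hmem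
          rw [hm']
          exact hmem
    · have : n = 1 := by omega
      subst this
      rw [mem_coeffLattice]
      exact ⟨1, Subalgebra.one_mem _, rfl⟩

/-- A finitely generated `ℤ`-submodule of `ℂ` consisting of rational numbers has a common
denominator. -/
theorem exists_common_denominator (Λ : Submodule ℤ ℂ) (hfg : Λ.FG)
    (hrat : ∀ x ∈ Λ, ∃ r : ℚ, x = (r : ℂ)) :
    ∃ D : ℤ, D ≠ 0 ∧ ∀ x ∈ Λ, ∃ m : ℤ, (D : ℂ) * x = (m : ℂ) := by
  classical
  obtain ⟨S, hS⟩ := hfg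
  choose! r hr using hrat
  have key : ∀ D : ℤ, (∀ s ∈ S, ((r s).den : ℤ) ∣ D) →
      ∀ x ∈ Submodule.span ℤ (S : Set ℂ), ∃ m : ℤ, (D : ℂ) * x = (m : ℂ) := by
    intro D hdiv x hx
    induction hx using Submodule.span_induction with
    | mem s hs =>
      have hsΛ : s ∈ Λ := hS ▸ Submodule.subset_span hs
      obtain ⟨c, hc⟩ := hdiv s hs
      refine ⟨c * (r s).num, ?_⟩
      have h1 : ((r s).den : ℂ) * ((r s : ℚ) : ℂ) = ((r s).num : ℂ) := by
        have := Rat.den_mul_eq_num (r s)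
        exact_mod_cast congrArg (fun q : ℚ => (q : ℂ)) this
      have h2 : s = ((r s : ℚ) : ℂ) := hr s hsΛ
      have h3 : (D : ℂ) = ((r s).den : ℂ) * (c : ℂ) := by
        rw [hc]; push_cast; ring
      calc (D : ℂ) * s = (D : ℂ) * ((r s : ℚ) : ℂ) := by rw [← h2]
        _ = (c : ℂ) * (((r s).den : ℂ) * ((r s : ℚ) : ℂ)) := by rw [h3]; ring
        _ = ((c * (r s).num : ℤ) : ℂ) := by rw [h1]; push_cast; ring
    | zero => exact ⟨0, by simp⟩
    | add x y _ _ hx hy =>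
      obtain ⟨a, ha⟩ := hx
      obtain ⟨b, hb⟩ := hy
      exact ⟨a + b, by rw [mul_add, ha, hb]; push_cast; ring⟩
    | smul n x _ hx =>
      obtain ⟨a, ha⟩ := hx
      refine ⟨n * a, ?_⟩
      rw [zsmul_eq_mul]
      push_cast
      linear_combination (n : ℂ) * ha
  refine ⟨∏ s ∈ S, ((r s).den : ℤ), ?_, ?_⟩
  · exact Finset.prod_ne_zero_iff.mpr (fun s _ => by exact_mod_cast (r s).den_ne_zero)
  · intro x hx
    rw [← hS] at hx
    exact key _ (fun s hs => Finset.dvd_prod_of_mem (fun s => ((r s).den : ℤ)) hs) x hx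

/-- (9) A cusp form of weight `2` with rational `q`-coefficients has an integer multiple with
integral `q`-coefficients. -/
theorem exists_int_multiple (N : ℕ) [NeZero N] (f : CuspForm (CongruenceSubgroup.Gamma0 N) 2)
    (hf : ∀ n : ℕ, ∃ r : ℚ, ModularFormClass.qCoeff f n = (r : ℂ)) :
    ∃ D : ℤ, D ≠ 0 ∧ ∀ n : ℕ, ∃ m : ℤ, ModularFormClass.qCoeff ((D : ℂ) • f) n = (m : ℂ) := by
  have hrat : ∀ x ∈ coeffLattice f, ∃ r : ℚ, x = (r : ℂ) := by
    intro x hx
    rw [mem_coeffLattice] at hx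
    obtain ⟨t, ht, rfl⟩ := hx
    exact RatForm.hecke (by norm_num) ht f hf 1
  obtain ⟨D, hD, hDΛ⟩ := exists_common_denominator _ (coeffLattice_fg f) hrat
  refine ⟨D, hD, fun n => ?_⟩
  obtain ⟨m, hm⟩ := hDΛ _ (qCoeff_mem_coeffLattice (by norm_num) n f)
  have h := qcoeff_smul (D : ℂ) f n
  exact ⟨m, by rw [← hm, ← h]; rfl⟩

end Fermat.Agent.T23
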