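import Fermat.Agent.Lib.T23_Descent
import Fermat.Agent.Lib.T23_Bdd

/-!
# T23: `S₂(Γ₀(N))` has an integral structure
-/

set_option autoImplicit false

namespace Fermat.Agent.T23

theorem hasIntegralStructure_two (N : ℕ) [NeZero N] : CuspForm.HasIntegralStructure N 2 := by
  unfold CuspForm.HasIntegralStructure
  rw [eq_top_iff, ← span_rational N 2, Submodule.span_le]
  intro f hf
  obtain ⟨D, hD, hDf⟩ := exists_int_multiple N f hf
  have h1 : (D : ℂ) • f ∈ CuspForm.intLattice N 2 := Submodule.subset_span hDf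
  have h2 : f = (D : ℂ)⁻¹ • ((D : ℂ) • f) := by
    rw [smul_smul, inv_mul_cancel₀ (by exact_mod_cast hD), one_smul]
  rw [h2]
  exact Submodule.smul_mem _ _ (Submodule.subset_span h1)

end Fermat.Agent.T23
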