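-- S16 lower bound, rho-route [LB6 = ASSEMBLY] (helper7): from an integral parabolic homomorphism
-- `lam : Γ₀(p) → ℤ` which reduces modulo `n = eisensteinNumerator p` to a surjective character `ρ`
-- that is an Eisenstein eigenvector for the coset Hecke relations, to the lower bound `hLB` of
-- `e16_s16`: a cusp form with integer `q`-expansion congruent to the Eisenstein series modulo `n`.
import Fermat.Agent.Lib.E16_MCore
import Fermat.Agent.Lib.E16_Dual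
import Fermat.Agent.Lib.T23_Main

set_option autoImplicit false
set_option linter.unusedSectionVars false

namespace Fermat.Agent.E16

open CongruenceSubgroup ModularCurve ModularCurve.Period CuspForm
open scoped MatrixGroups

variable (p : ℕ) [Fact p.Prime]

/-- `p = 1` in `ℤ / n`, `n` the numerator of `(p - 1) / 12`. -/
theorem e16m_p_eq_one : ((p : ℕ) : ZMod (eisensteinNumerator p)) = 1 := by
  have hp : 1 ≤ p := (Fact.out : p.Prime).one_lt.le
  obtain ⟨n, hn⟩ : ∃ n, n = eisensteinNumerator p := ⟨_, rfl⟩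
  have hd : n ∣ p - 1 := hn ▸ eisensteinNumerator_dvd p
  rw [← hn]
  have h1 : ((p - 1 : ℕ) : ZMod n) = 0 := (ZMod.natCast_eq_zero_iff _ _).mpr hd
  have h3 : ((p : ℕ) : ZMod n) = ((p - 1 : ℕ) : ZMod n) + 1 := by
    rw [← Nat.cast_one (R := ZMod n), ← Nat.cast_add]
    congr 1
    omega
  rw [h3, h1, zero_add]

/-- **(LB\*) ⟹ hLB**: if every Hecke polynomial killing `S₂(Γ₀(p))` has Eisenstein value divisible
by `m`, there is a cusp form with integer `q`-expansion congruent to `δ` modulo `m`. -/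
theorem e16m_lb_of_star (m : ℤ)
    (hstar : ∀ t : HeckeAlg, heckeEvalForms p 2 t = 0 →
      m ∣ MvPolynomial.aeval (R := ℤ) (eisensteinSystem p) t) :
    ∃ f ∈ CuspForm.intLattice p 2, ∀ k : ℕ, 1 ≤ k →
      ∃ c : ℤ, ModularFormClass.qCoeff (⇑f) k = (c : ℂ) ∧ m ∣ c - e16δ p k := by
  have hinj := (latticeRestrictHom_bijective p ∅ (Fermat.Agent.T23.hasIntegralStructure_two p)).1
  obtain ⟨f, hf⟩ := e16_upper p m (fun t ht => by
    rw [e16χ_apply]
    apply hstar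
    have h0 : (latticeRestrictHom p ∅) (heckeEvalForms p 2 t) = 0 := ht
    exact hinj (by rw [h0, map_zero]))
  exact ⟨f.1, f.2, fun k hk => ⟨e16a p f k, e16a_spec p f k, hf k hk⟩⟩

/-- **(LB\*) from an Eisenstein eigenvector modulo `M`** which takes a value prime to `M`. -/
theorem e16m_star_of (M : ℕ) (hM : M ≠ 0) (lam : Additive (Gamma0 p) →+ ℤ)
    (hpar : (Int.castAddHom ℂ).comp lam ∈ parabolicHoms ℂ (Gamma0 p) ℂ)
    (hH : E16mHecke p M lam) (γ₀ : Gamma0 p)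
    (hγ₀ : ((lam (Additive.ofMul γ₀) : ℤ) : ZMod M) = 1)
    (t : HeckeAlg) (ht : heckeEvalForms p 2 t = 0) :
    (M : ℤ) ∣ MvPolynomial.aeval (R := ℤ) (eisensteinSystem p) t := by
  have h := e16m_core p (M : ℤ) (by exact_mod_cast hM) lam hpar hH t ht γ₀
  rw [← ZMod.intCast_zmod_eq_zero_iff_dvd] at h ⊢
  rw [Int.cast_mul, hγ₀, mul_one] at h
  exact h

/-- **the Hecke hypothesis of the core from the coset relations**: `ρ` is an Eisenstein
eigenvector for every family of upper triangular coset representatives with top left entries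
prime to `p` (abstract form of M3), `lam` reduces to `ρ`, and the periods of `T_ℓ f`, `U_p f` are
given by such families (M5). -/
theorem e16m_hecke_of (n : ℕ) (hn : ((p : ℕ) : ZMod n) = 1)
    (ρ : Gamma0 p → ZMod n)
    (hρ : ∀ (I : Type) [Fintype I] (A : I → Matrix (Fin 2) (Fin 2) ℤ), (∀ i, A i 1 0 = 0) →
      (∀ i, IsCoprime (A i 0 0) (p : ℤ)) → ∀ (π : Equiv.Perm I) (g : Gamma0 p)
      (g' : I → Gamma0 p),
      (∀ i, A i * ((g : SL(2, ℤ)) : Matrix (Fin 2) (Fin 2) ℤ) =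
        ((g' i : SL(2, ℤ)) : Matrix (Fin 2) (Fin 2) ℤ) * A (π i)) →
      ∑ i, ρ (g' i) = (Fintype.card I : ZMod n) * ρ g)
    (lam : Additive (Gamma0 p) →+ ℤ)
    (hlam : ∀ γ : Gamma0 p, ((lam (Additive.ofMul γ) : ℤ) : ZMod n) = ρ γ)
    (hM5 : ∀ (ℓ : Nat.Primes) (g : Gamma0 p), ∃ (I : Type) (_ : Fintype I)
      (A : I → Matrix (Fin 2) (Fin 2) ℤ) (π : Equiv.Perm I) (g' : I → Gamma0 p),
      (∀ i, A i 1 0 = 0) ∧ (∀ i, IsCoprime (A i 0 0) (p : ℤ)) ∧
      (∀ i, A i * ((g : SL(2, ℤ)) : Matrix (Fin 2) (Fin 2) ℤ) =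
        ((g' i : SL(2, ℤ)) : Matrix (Fin 2) (Fin 2) ℤ) * A (π i)) ∧
      ((Fintype.card I : ℤ) = if (ℓ : ℕ) = p then (p : ℤ) else 1 + (ℓ : ℕ)) ∧
      (∀ f : CuspForm (Gamma0 p) 2,
        periodMap p ((heckeFormsGen p 2 ℓ).1 f) (Additive.ofMul g) =
          ∑ i, periodMap p f (Additive.ofMul (g' i))) ∧
      (∀ f : CuspForm (Gamma0 p) 2,
        periodMap p ((heckeFormsGen p 2 ℓ).1 f) (Additive.ofMul (jConjGamma0 p g)) =
          ∑ i, periodMap p f (Additive.ofMul (jConjGamma0 p (g' i))))) :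
    E16mHecke p n lam := by
  intro ℓ γ
  obtain ⟨I, hI, A, π, g', hA10, hA00, hrel, hcard, h1, h2⟩ := hM5 ℓ γ
  refine ⟨I, hI, g', h1, h2, ?_⟩
  rw [← ZMod.intCast_zmod_eq_zero_iff_dvd]
  have hsum := hρ I A hA10 hA00 π γ g' hrel
  have hcard' : ((Fintype.card I : ℕ) : ZMod n) = ((eisensteinSystem p ℓ : ℤ) : ZMod n) := by
    have h3 : (((Fintype.card I : ℕ) : ℤ) : ZMod n) =
        (((if (ℓ : ℕ) = p then (p : ℤ) else 1 + (ℓ : ℕ)) : ℤ) : ZMod n) := by
      rw [hcard]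
    rw [Int.cast_natCast] at h3
    rw [h3]
    by_cases hℓ : (ℓ : ℕ) = p
    · rw [if_pos hℓ, eisensteinSystem_of_dvd (by rw [hℓ])]
      rw [Int.cast_natCast, hn]
      simp
    · rw [if_neg hℓ]
      have h4 : ¬ (ℓ : ℕ) ∣ p := fun hd =>
        hℓ ((Nat.prime_dvd_prime_iff_eq ℓ.2 (Fact.out : p.Prime)).mp hd)
      rw [eisensteinSystem_of_not_dvd h4]
  rw [Int.cast_sub, Int.cast_sum, Int.cast_mul, hlam]
  simp only [hlam]
  rw [hsum, hcard', sub_self]

/-- **the lower bound of S16, assembled** (rho-route): inputs are M3 (`ρ`, its Hecke property and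
surjectivity), M4 (the integral parabolic lift `lam`) and M5 (coset formulas for the periods). -/
theorem e16m_lb
    (ρ : Gamma0 p → ZMod (eisensteinNumerator p))
    (hρ : ∀ (I : Type) [Fintype I] (A : I → Matrix (Fin 2) (Fin 2) ℤ), (∀ i, A i 1 0 = 0) →
      (∀ i, IsCoprime (A i 0 0) (p : ℤ)) → ∀ (π : Equiv.Perm I) (g : Gamma0 p)
      (g' : I → Gamma0 p),
      (∀ i, A i * ((g : SL(2, ℤ)) : Matrix (Fin 2) (Fin 2) ℤ) =
        ((g' i : SL(2, ℤ)) : Matrix (Fin 2) (Fin 2) ℤ) * A (π i)) →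
      ∑ i, ρ (g' i) = (Fintype.card I : ZMod (eisensteinNumerator p)) * ρ g)
    (hsurj : ∃ γ : Gamma0 p, ρ γ = 1)
    (lam : Additive (Gamma0 p) →+ ℤ)
    (hpar : (Int.castAddHom ℂ).comp lam ∈ parabolicHoms ℂ (Gamma0 p) ℂ)
    (hlam : ∀ γ : Gamma0 p,
      ((lam (Additive.ofMul γ) : ℤ) : ZMod (eisensteinNumerator p)) = ρ γ)
    (hM5 : ∀ (ℓ : Nat.Primes) (g : Gamma0 p), ∃ (I : Type) (_ : Fintype I)
      (A : I → Matrix (Fin 2) (Fin 2) ℤ) (π : Equiv.Perm I) (g' : I → Gamma0 p),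
      (∀ i, A i 1 0 = 0) ∧ (∀ i, IsCoprime (A i 0 0) (p : ℤ)) ∧
      (∀ i, A i * ((g : SL(2, ℤ)) : Matrix (Fin 2) (Fin 2) ℤ) =
        ((g' i : SL(2, ℤ)) : Matrix (Fin 2) (Fin 2) ℤ) * A (π i)) ∧
      ((Fintype.card I : ℤ) = if (ℓ : ℕ) = p then (p : ℤ) else 1 + (ℓ : ℕ)) ∧
      (∀ f : CuspForm (Gamma0 p) 2,
        periodMap p ((heckeFormsGen p 2 ℓ).1 f) (Additive.ofMul g) =
          ∑ i, periodMap p f (Additive.ofMul (g' i))) ∧
      (∀ f : CuspForm (Gamma0 p) 2,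
        periodMap p ((heckeFormsGen p 2 ℓ).1 f) (Additive.ofMul (jConjGamma0 p g)) =
          ∑ i, periodMap p f (Additive.ofMul (jConjGamma0 p (g' i))))) :
    ∃ f ∈ CuspForm.intLattice p 2, ∀ k : ℕ, 1 ≤ k →
      ∃ c : ℤ, ModularFormClass.qCoeff (⇑f) k = (c : ℂ) ∧
        (eisensteinNumerator p : ℤ) ∣ c - e16δ p k := by
  obtain ⟨γ₀, hγ₀⟩ := hsurj
  have hn0 : eisensteinNumerator p ≠ 0 := by
    have hp : 2 ≤ p := (Fact.out : p.Prime).two_le
    unfold eisensteinNumerator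
    have h1 : 0 < p - 1 := by omega
    have h2 : Nat.gcd (p - 1) 12 ∣ p - 1 := Nat.gcd_dvd_left _ _
    exact (Nat.div_pos (Nat.le_of_dvd h1 h2) (Nat.gcd_pos_of_pos_left _ h1)).ne'
  have hH := e16m_hecke_of p (eisensteinNumerator p) (e16m_p_eq_one p) ρ hρ lam hlam hM5
  exact e16m_lb_of_star p (eisensteinNumerator p : ℤ) (fun t ht =>
    e16m_star_of p (eisensteinNumerator p) hn0 lam hpar hH γ₀ (by rw [hlam, hγ₀]) t ht)

end Fermat.Agent.E16
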