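/-
S16 lower bound, rho-route, piece [M3]: the Shimura character `ρ : Γ₀(p) → ℤ/n`,
`n = (p - 1) / gcd (p - 1, 12)`, and its Manin lift `Fb : SL(2, ℤ) → ℤ/n`.
-/
import Mathlib
import Fermat.Prelude.Def_ModularCurve_ModularUnit

set_option autoImplicit false
set_option linter.unusedSectionVars false

namespace Fermat.Agent.E16

open CongruenceSubgroup ModularCurve
open scoped MatrixGroups

variable (p : ℕ) [Fact p.Prime]

theorem e16mr_dvd_card : eisensteinNumerator p ∣ Nat.card (ZMod p)ˣ := by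
  rw [Nat.card_eq_fintype_card, ZMod.card_units]
  exact eisensteinNumerator_dvd p

theorem e16mr_num_mul : eisensteinNumerator p * Nat.gcd (p - 1) 12 = p - 1 :=
  Nat.div_mul_cancel (Nat.gcd_dvd_left _ _)

theorem e16mr_num_ne_zero : eisensteinNumerator p ≠ 0 := by
  have hp : 2 ≤ p := (Fact.out : p.Prime).two_le
  intro h
  have := e16mr_num_mul p
  rw [h] at this
  omega

theorem e16mr_neZero : NeZero (eisensteinNumerator p) := ⟨e16mr_num_ne_zero p⟩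

/-- The surjection `ψ : (ℤ/p)ˣ → ℤ/n` (written additively). -/
noncomputable def e16mPsi (x : (ZMod p)ˣ) : ZMod (eisensteinNumerator p) :=
  ZMod.castHom (e16mr_dvd_card p) (ZMod (eisensteinNumerator p))
    (Multiplicative.toAdd ((zmodCyclicMulEquiv (inferInstance : IsCyclic (ZMod p)ˣ)).symm x))

theorem e16mPsi_mul (x y : (ZMod p)ˣ) : e16mPsi p (x * y) = e16mPsi p x + e16mPsi p y := by
  unfold e16mPsi
  rw [map_mul, toAdd_mul, map_add]

theorem e16mPsi_one : e16mPsi p 1 = 0 := by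
  unfold e16mPsi
  rw [map_one, toAdd_one, map_zero]

theorem e16mPsi_surj : ∃ x : (ZMod p)ˣ, e16mPsi p x = 1 := by
  refine ⟨zmodCyclicMulEquiv (inferInstance : IsCyclic (ZMod p)ˣ) (Multiplicative.ofAdd 1), ?_⟩
  unfold e16mPsi
  rw [MulEquiv.symm_apply_apply, toAdd_ofAdd, map_one]

/-- `ψ` kills the `gcd (p - 1, 12)`-torsion. -/
theorem e16mPsi_of_pow (x : (ZMod p)ˣ) (h : x ^ Nat.gcd (p - 1) 12 = 1) : e16mPsi p x = 0 := by
  have hp : 2 ≤ p := (Fact.out : p.Prime).two_le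
  have hcard : Nat.card (ZMod p)ˣ = p - 1 := by
    rw [Nat.card_eq_fintype_card, ZMod.card_units]
  have hN : NeZero (Nat.card (ZMod p)ˣ) := ⟨by rw [hcard]; omega⟩
  unfold e16mPsi
  set y := (zmodCyclicMulEquiv (inferInstance : IsCyclic (ZMod p)ˣ)).symm x with hy
  have h1 : y ^ Nat.gcd (p - 1) 12 = 1 := by
    rw [hy, ← map_pow, h, map_one]
  have h2 : Nat.gcd (p - 1) 12 • Multiplicative.toAdd y = 0 := by
    rw [← toAdd_pow, h1, toAdd_one]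
  set a := Multiplicative.toAdd y with ha
  have h3 : ((Nat.gcd (p - 1) 12 * a.val : ℕ) : ZMod (Nat.card (ZMod p)ˣ)) = 0 := by
    rw [Nat.cast_mul, ZMod.natCast_zmod_val, ← nsmul_eq_mul]
    exact h2
  rw [ZMod.natCast_eq_zero_iff] at h3
  have h3' : Nat.gcd (p - 1) 12 * eisensteinNumerator p ∣ Nat.gcd (p - 1) 12 * a.val := by
    rw [mul_comm, e16mr_num_mul p]
    exact dvd_trans (dvd_of_eq hcard.symm) h3
  have hg : 0 < Nat.gcd (p - 1) 12 := Nat.gcd_pos_of_pos_right _ (by norm_num)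
  have h4 : eisensteinNumerator p ∣ a.val := Nat.dvd_of_mul_dvd_mul_left hg h3'
  rw [ZMod.castHom_apply, ← ZMod.natCast_val, ZMod.natCast_eq_zero_iff]
  exact h4

/-- `ψ` extended by zero to `ℤ/p`. -/
noncomputable def e16mPsi0 (x : ZMod p) : ZMod (eisensteinNumerator p) :=
  if h : x = 0 then 0 else e16mPsi p (Units.mk0 x h)

theorem e16mPsi0_mul {x y : ZMod p} (hx : x ≠ 0) (hy : y ≠ 0) :
    e16mPsi0 p (x * y) = e16mPsi0 p x + e16mPsi0 p y := by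
  unfold e16mPsi0
  rw [dif_neg hx, dif_neg hy, dif_neg (mul_ne_zero hx hy), ← e16mPsi_mul]
  congr 1
  exact Units.ext rfl

theorem e16mPsi0_one : e16mPsi0 p 1 = 0 := by
  unfold e16mPsi0
  rw [dif_neg one_ne_zero]
  have : Units.mk0 (1 : ZMod p) one_ne_zero = 1 := Units.ext rfl
  rw [this, e16mPsi_one]

/-- `ψ₀` kills every `x` with `x ^ k = 1`, `k ∣ 12`. -/
theorem e16mPsi0_of_pow {x : ZMod p} (k : ℕ) (hk : k ∣ 12) (h : x ^ k = 1) :
    e16mPsi0 p x = 0 := by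
  have hk0 : k ≠ 0 := by rintro rfl; simp at hk
  have hx : x ≠ 0 := by
    rintro rfl
    rw [zero_pow hk0] at h
    exact zero_ne_one h
  unfold e16mPsi0
  rw [dif_neg hx]
  apply e16mPsi_of_pow
  apply Units.ext
  rw [Units.val_pow_eq_pow_val, Units.val_mk0, Units.val_one]
  have h1 : x ^ (p - 1) = 1 := ZMod.pow_card_sub_one_eq_one hx
  have h2 : x ^ Nat.gcd k (p - 1) = 1 := pow_gcd_eq_one.mpr ⟨h, h1⟩
  have h3 : Nat.gcd k (p - 1) ∣ Nat.gcd (p - 1) 12 :=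
    Nat.dvd_gcd (Nat.gcd_dvd_right _ _) (dvd_trans (Nat.gcd_dvd_left _ _) hk)
  obtain ⟨m, hm⟩ := h3
  rw [hm, pow_mul, h2, one_pow]

theorem e16mPsi0_neg {x : ZMod p} (hx : x ≠ 0) : e16mPsi0 p (-x) = e16mPsi0 p x := by
  have h1 : e16mPsi0 p (-1 : ZMod p) = 0 := e16mPsi0_of_pow p 2 (by norm_num) (by ring)
  have h2 : (-x : ZMod p) = -1 * x := by ring
  rw [h2, e16mPsi0_mul p (neg_ne_zero.mpr one_ne_zero) hx, h1, zero_add]

theorem e16mPsi0_surj : ∃ x : (ZMod p)ˣ, e16mPsi0 p (x : ZMod p) = 1 := by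
  obtain ⟨x, hx⟩ := e16mPsi_surj p
  refine ⟨x, ?_⟩
  unfold e16mPsi0
  rw [dif_neg x.ne_zero]
  have : Units.mk0 (x : ZMod p) x.ne_zero = x := Units.ext rfl
  rw [this, hx]

/-! ### Matrix entries -/

theorem e16mr_mul_apply (g h : SL(2, ℤ)) (i j : Fin 2) :
    (g * h) i j = g i 0 * h 0 j + g i 1 * h 1 j := by
  show (g * h).1 i j = _
  rw [Matrix.SpecialLinearGroup.coe_mul, Matrix.mul_apply, Fin.sum_univ_two]

theorem e16mr_det (g : SL(2, ℤ)) : g 0 0 * g 1 1 - g 0 1 * g 1 0 = 1 := by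
  have h := g.det_coe
  rw [Matrix.det_fin_two] at h
  exact h

theorem e16mr_mem (γ : Gamma0 p) : (((γ : SL(2, ℤ)) 1 0 : ℤ) : ZMod p) = 0 :=
  Gamma0_mem.mp γ.2

/-- the top-left entry mod `p` of `g` is nonzero when the bottom-left one vanishes -/
theorem e16mr_ne_zero (g : SL(2, ℤ)) (h : ((g 1 0 : ℤ) : ZMod p) = 0) :
    ((g 0 0 : ℤ) : ZMod p) ≠ 0 := by
  intro h0
  have hd := congrArg (fun z : ℤ => (z : ZMod p)) (e16mr_det g)
  simp only [Int.cast_sub, Int.cast_mul, Int.cast_one, h, h0] at hd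
  simp at hd

/-- The Shimura character `ρ γ = ψ (γ₀₀ mod p)`. -/
noncomputable def e16mRho : ↥(Gamma0 p) → ZMod (eisensteinNumerator p) :=
  fun γ => e16mPsi0 p (((γ : SL(2, ℤ)) 0 0 : ℤ) : ZMod p)

/-- The Manin lift of `ρ`. -/
noncomputable def e16mFb : SL(2, ℤ) → ZMod (eisensteinNumerator p) :=
  fun g => if ((g 1 0 : ℤ) : ZMod p) = 0 then e16mPsi0 p ((g 0 0 : ℤ) : ZMod p)
    else e16mPsi0 p ((g 1 0 : ℤ) : ZMod p)

theorem e16mFb_mul (g : SL(2, ℤ)) (γ : Gamma0 p) :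
    e16mFb p (g * γ) = e16mFb p g + e16mRho p γ := by
  have hγ := e16mr_mem p γ
  have hγ0 := e16mr_ne_zero p γ hγ
  have h00 : (((g * (γ : SL(2, ℤ))) 0 0 : ℤ) : ZMod p) =
      ((g 0 0 : ℤ) : ZMod p) * (((γ : SL(2, ℤ)) 0 0 : ℤ) : ZMod p) := by
    rw [e16mr_mul_apply]
    push_cast
    rw [hγ]; ring
  have h10 : (((g * (γ : SL(2, ℤ))) 1 0 : ℤ) : ZMod p) =
      ((g 1 0 : ℤ) : ZMod p) * (((γ : SL(2, ℤ)) 0 0 : ℤ) : ZMod p) := by
    rw [e16mr_mul_apply]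
    push_cast
    rw [hγ]; ring
  unfold e16mFb e16mRho
  rw [h00, h10]
  by_cases hg : ((g 1 0 : ℤ) : ZMod p) = 0
  · rw [if_pos hg, if_pos (by rw [hg, zero_mul]),
      e16mPsi0_mul p (e16mr_ne_zero p g hg) hγ0]
  · rw [if_neg hg, if_neg (mul_ne_zero hg hγ0), e16mPsi0_mul p hg hγ0]

theorem e16mFb_T (g : SL(2, ℤ)) : e16mFb p (ModularGroup.T * g) = e16mFb p g := by
  have h00 : ((ModularGroup.T * g) 0 0 : ℤ) = g 0 0 + g 1 0 := by
    rw [e16mr_mul_apply]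
    simp [ModularGroup.T]
  have h10 : ((ModularGroup.T * g) 1 0 : ℤ) = g 1 0 := by
    rw [e16mr_mul_apply]
    simp [ModularGroup.T]
  unfold e16mFb
  rw [h00, h10]
  by_cases hg : ((g 1 0 : ℤ) : ZMod p) = 0
  · rw [if_pos hg, if_pos hg]
    push_cast
    rw [hg, add_zero]
  · rw [if_neg hg, if_neg hg]

theorem e16mFb_one : e16mFb p 1 = 0 := by
  unfold e16mFb
  have h10 : ((1 : SL(2, ℤ)) 1 0 : ℤ) = 0 := by simp
  have h00 : ((1 : SL(2, ℤ)) 0 0 : ℤ) = 1 := by simp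
  rw [h10, h00]
  simp [e16mPsi0_one]

theorem e16mFb_neg (g : SL(2, ℤ)) : e16mFb p (-1 * g) = e16mFb p g := by
  have h : ∀ i j : Fin 2, ((-1 * g : SL(2, ℤ)) i j : ℤ) = -(g i j) := by
    intro i j
    rw [neg_one_mul]
    show (-g).1 i j = -(g.1 i j)
    rw [Matrix.SpecialLinearGroup.coe_neg]
    rfl
  unfold e16mFb
  rw [h, h]
  push_cast
  by_cases hg : ((g 1 0 : ℤ) : ZMod p) = 0
  · rw [if_pos hg, if_pos (by rw [hg, neg_zero]), e16mPsi0_neg p (e16mr_ne_zero p g hg)]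
  · rw [if_neg hg, if_neg (neg_ne_zero.mpr hg), e16mPsi0_neg p hg]

/-- the top-left entry mod `p` as a monoid homomorphism on `Γ₀(p)` -/
noncomputable def e16mChi0 : ↥(Gamma0 p) →* ZMod p where
  toFun γ := (((γ : SL(2, ℤ)) 0 0 : ℤ) : ZMod p)
  map_one' := by simp
  map_mul' γ γ' := by
    show ((((γ : SL(2, ℤ)) * (γ' : SL(2, ℤ))) 0 0 : ℤ) : ZMod p) = _
    rw [e16mr_mul_apply]
    push_cast
    rw [e16mr_mem p γ']; ring

theorem e16mRho_eq (γ : Gamma0 p) : e16mRho p γ = e16mPsi0 p (e16mChi0 p γ) := rfl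

/-- `ρ` vanishes on elements of order dividing `k ∣ 12`. -/
theorem e16mRho_of_pow (γ : Gamma0 p) (k : ℕ) (hk : k ∣ 12) (h : (γ : SL(2, ℤ)) ^ k = 1) :
    e16mRho p γ = 0 := by
  rw [e16mRho_eq]
  apply e16mPsi0_of_pow p k hk
  rw [← map_pow]
  have : γ ^ k = 1 := Subtype.ext (by rw [Subgroup.coe_pow, h]; rfl)
  rw [this, map_one]

theorem e16mr_S_pow : (ModularGroup.S : SL(2, ℤ)) ^ 4 = 1 := by
  apply Subtype.ext
  simp only [Matrix.SpecialLinearGroup.coe_pow, Matrix.SpecialLinearGroup.coe_one,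
    ModularGroup.coe_S]
  ext i j
  fin_cases i <;> fin_cases j <;>
    simp [pow_succ, Matrix.mul_apply, Fin.sum_univ_two]

theorem e16mr_ST_pow : (ModularGroup.S * ModularGroup.T : SL(2, ℤ)) ^ 6 = 1 := by
  apply Subtype.ext
  simp only [Matrix.SpecialLinearGroup.coe_pow, Matrix.SpecialLinearGroup.coe_mul,
    Matrix.SpecialLinearGroup.coe_one, ModularGroup.coe_S, ModularGroup.coe_T]
  ext i j
  fin_cases i <;> fin_cases j <;>
    simp [pow_succ, Matrix.mul_apply, Fin.sum_univ_two]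

/-- a fixed-point relation `x⁻¹ g Γ₀(p) = g Γ₀(p)` with `x ^ k = 1`, `k ∣ 12`, gives
`Fb (x⁻¹ g) = Fb g` -/
theorem e16mFb_fix (x g : SL(2, ℤ)) (k : ℕ) (hk : k ∣ 12) (hx : x ^ k = 1)
    (h : (QuotientGroup.mk (x⁻¹ * g) : SL(2, ℤ) ⧸ Gamma0 p) = QuotientGroup.mk g) :
    e16mFb p (x⁻¹ * g) = e16mFb p g := by
  rw [QuotientGroup.eq] at h
  set γ : Gamma0 p := ⟨(x⁻¹ * g)⁻¹ * g, h⟩ with hγ
  have h1 : g = (x⁻¹ * g) * (γ : SL(2, ℤ)) := by
    show g = (x⁻¹ * g) * ((x⁻¹ * g)⁻¹ * g)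
    rw [mul_inv_cancel_left]
  have h2 : e16mRho p γ = 0 := by
    apply e16mRho_of_pow p γ k hk
    have : (γ : SL(2, ℤ)) = g⁻¹ * x * g⁻¹⁻¹ := by
      show (x⁻¹ * g)⁻¹ * g = g⁻¹ * x * g⁻¹⁻¹
      group
    rw [this, conj_pow, hx]
    simp
  have h3 := e16mFb_mul p (x⁻¹ * g) γ
  rw [← h1, h2, add_zero] at h3
  exact h3.symm

theorem e16mFb_fixS (g : SL(2, ℤ))
    (h : (QuotientGroup.mk (ModularGroup.S⁻¹ * g) : SL(2, ℤ) ⧸ Gamma0 p) = QuotientGroup.mk g) :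
    e16mFb p (ModularGroup.S⁻¹ * g) = e16mFb p g :=
  e16mFb_fix p ModularGroup.S g 4 (by norm_num) e16mr_S_pow h

theorem e16mFb_fixU (g : SL(2, ℤ))
    (h : (QuotientGroup.mk ((ModularGroup.S * ModularGroup.T)⁻¹ * g) : SL(2, ℤ) ⧸ Gamma0 p) =
      QuotientGroup.mk g) :
    e16mFb p (ModularGroup.S⁻¹ * g) = e16mFb p g := by
  have h1 := e16mFb_fix p (ModularGroup.S * ModularGroup.T) g 6 (by norm_num) e16mr_ST_pow h
  have h2 : ModularGroup.S⁻¹ * g =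
      ModularGroup.T * ((ModularGroup.S * ModularGroup.T)⁻¹ * g) := by
    rw [mul_inv_rev]; group
  rw [h2, e16mFb_T, h1]

theorem e16mRho_surj : ∃ γ : Gamma0 p, e16mRho p γ = 1 := by
  obtain ⟨x, hx⟩ := e16mPsi0_surj p
  set a : ℤ := ((x : ZMod p).val : ℤ) with ha
  set d : ℤ := (((x⁻¹ : (ZMod p)ˣ) : ZMod p).val : ℤ) with hd
  have ha' : ((a : ℤ) : ZMod p) = (x : ZMod p) := by
    rw [ha, Int.cast_natCast, ZMod.natCast_zmod_val]
  have hd' : ((d : ℤ) : ZMod p) = ((x⁻¹ : (ZMod p)ˣ) : ZMod p) := by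
    rw [hd, Int.cast_natCast, ZMod.natCast_zmod_val]
  have hdvd : (p : ℤ) ∣ a * d - 1 := by
    rw [← ZMod.intCast_zmod_eq_zero_iff_dvd]
    push_cast
    rw [ha', hd', ← Units.val_mul, mul_inv_cancel, Units.val_one, sub_self]
  obtain ⟨m, hm⟩ := hdvd
  have hdet : Matrix.det !![a, m; (p : ℤ), d] = 1 := by
    rw [Matrix.det_fin_two_of]
    linarith
  obtain ⟨γ0, hγ0⟩ : ∃ γ0 : SL(2, ℤ),
      (γ0 : Matrix (Fin 2) (Fin 2) ℤ) = !![a, m; (p : ℤ), d] := ⟨⟨_, hdet⟩, rfl⟩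
  have h10 : (γ0 1 0 : ℤ) = (p : ℤ) := by
    show (γ0 : Matrix (Fin 2) (Fin 2) ℤ) 1 0 = _
    rw [hγ0]; rfl
  have h00 : (γ0 0 0 : ℤ) = a := by
    show (γ0 : Matrix (Fin 2) (Fin 2) ℤ) 0 0 = _
    rw [hγ0]; rfl
  have hmem : γ0 ∈ Gamma0 p := by
    rw [Gamma0_mem, h10]
    simp
  refine ⟨⟨γ0, hmem⟩, ?_⟩
  unfold e16mRho
  have : ((((⟨γ0, hmem⟩ : Gamma0 p) : SL(2, ℤ)) 0 0 : ℤ) : ZMod p) = (x : ZMod p) := by
    rw [← ha', ← h00]
  rw [this, hx]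

theorem e16mr_coprime_ne_zero (a : ℤ) (h : IsCoprime a (p : ℤ)) : ((a : ℤ) : ZMod p) ≠ 0 := by
  intro h0
  obtain ⟨u, v, huv⟩ := h
  have := congrArg (fun z : ℤ => (z : ZMod p)) huv
  simp only [Int.cast_add, Int.cast_mul, h0, Int.cast_natCast, ZMod.natCast_self,
    mul_zero, add_zero, Int.cast_one] at this
  exact zero_ne_one this

theorem e16mRho_hecke {ι : Type} [Fintype ι] (A : ι → Matrix (Fin 2) (Fin 2) ℤ)
    (hA10 : ∀ i, A i 1 0 = 0) (hA00 : ∀ i, IsCoprime (A i 0 0) (p : ℤ)) (π : Equiv.Perm ι)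
    (g : Gamma0 p) (g' : ι → Gamma0 p)
    (h : ∀ i, A i * ((g : SL(2, ℤ)) : Matrix (Fin 2) (Fin 2) ℤ) =
      ((g' i : SL(2, ℤ)) : Matrix (Fin 2) (Fin 2) ℤ) * A (π i)) :
    ∑ i, e16mRho p (g' i) = (Fintype.card ι : ZMod (eisensteinNumerator p)) * e16mRho p g := by
  have hg0 := e16mr_ne_zero p g (e16mr_mem p g)
  have key : ∀ i, e16mPsi0 p ((A i 0 0 : ℤ) : ZMod p) + e16mRho p g =
      e16mRho p (g' i) + e16mPsi0 p ((A (π i) 0 0 : ℤ) : ZMod p) := by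
    intro i
    have h1 := congrFun (congrFun (h i) 0) 0
    rw [Matrix.mul_apply, Matrix.mul_apply, Fin.sum_univ_two, Fin.sum_univ_two, hA10 (π i)] at h1
    have h2 := congrArg (fun z : ℤ => (z : ZMod p)) h1
    simp only [Int.cast_add, Int.cast_mul, mul_zero, add_zero] at h2
    have h3 : ((((g : SL(2, ℤ)) : Matrix (Fin 2) (Fin 2) ℤ) 1 0 : ℤ) : ZMod p) = 0 :=
      e16mr_mem p g
    rw [h3, mul_zero, add_zero] at h2
    have h4 := e16mPsi0_mul p (e16mr_coprime_ne_zero p _ (hA00 i)) hg0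
    have h5 := e16mPsi0_mul p (e16mr_ne_zero p (g' i) (e16mr_mem p (g' i)))
      (e16mr_coprime_ne_zero p _ (hA00 (π i)))
    unfold e16mRho
    rw [← h4, ← h5]
    exact congrArg (e16mPsi0 p) h2
  have hsum := Finset.sum_congr (rfl : (Finset.univ : Finset ι) = Finset.univ)
    (fun i _ => key i)
  rw [Finset.sum_add_distrib, Finset.sum_add_distrib,
    Equiv.sum_comp π (fun i => e16mPsi0 p ((A i 0 0 : ℤ) : ZMod p)), Finset.sum_const,
    Finset.card_univ, nsmul_eq_mul] at hsum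
  have := add_left_cancel (a := ∑ i, e16mPsi0 p ((A i 0 0 : ℤ) : ZMod p))
    (b := (Fintype.card ι : ZMod (eisensteinNumerator p)) * e16mRho p g)
    (c := ∑ i, e16mRho p (g' i)) (by rw [hsum]; ring)
  exact this.symm

theorem e16m_p_one : ((p : ℕ) : ZMod (eisensteinNumerator p)) = 1 := by
  have hp : 1 ≤ p := (Fact.out : p.Prime).one_le
  have h1 : ((p - 1 : ℕ) : ZMod (eisensteinNumerator p)) = 0 := by
    rw [ZMod.natCast_eq_zero_iff]
    exact eisensteinNumerator_dvd p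
  have h2 : p - 1 + 1 = p := by omega
  calc ((p : ℕ) : ZMod (eisensteinNumerator p))
      = ((p - 1 + 1 : ℕ) : ZMod (eisensteinNumerator p)) := by rw [h2]
    _ = 1 := by rw [Nat.cast_succ, h1, zero_add]

end Fermat.Agent.E16
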