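import Fermat.Agent.Lib.E16_Dual
import Fermat.Agent.Lib.E16_CardOf

set_option autoImplicit false

/-!
# S16, (R) duality: final form (helper4 + helper8)

`e16_card` : the index of the Eisenstein ideal in the integral Hecke algebra of weight 2 and
level `p` equals `n` as soon as (LB) some cusp form with integer `q`-expansion is congruent to
the Eisenstein coefficients `e16δ p` (sum of the divisors prime to `p`) modulo `n`, and (UB) every
modulus `M` of such a congruence divides `n`.
-/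

open ModularCurve CuspForm

namespace Fermat.Agent.E16

/-- **(R) duality**: the quotient of the frozen statement S16 has cardinality `n`, given the
lower bound (a congruence modulo `n`) and the upper bound (every congruence modulus divides `n`).
-/
theorem e16_card (p : ℕ) [Fact p.Prime] (n : ℕ) (hn : 0 < n)
    (hLB : ∃ f ∈ CuspForm.intLattice p 2, ∀ k : ℕ, 1 ≤ k →
      ∃ c : ℤ, ModularFormClass.qCoeff (⇑f) k = (c : ℂ) ∧ (n : ℤ) ∣ c - e16δ p k)
    (hUB : ∀ M : ℕ, 0 < M → (∃ f ∈ CuspForm.intLattice p 2, ∀ k : ℕ, 1 ≤ k →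
      ∃ c : ℤ, ModularFormClass.qCoeff (⇑f) k = (c : ℂ) ∧ (M : ℤ) ∣ c - e16δ p k) → M ∣ n) :
    Nat.card (↥(heckeLatticeAlgebra p ∅) ⧸
        Ideal.map ((latticeRestrictHom p ∅).toRingHom.comp (heckeEvalForms p 2))
          (eisensteinIdeal p)) = n :=
  e16_card_of_upper p (fun m hm => e16_upper p (m : ℤ) hm) n hn hLB hUB

/-- the numerator of `(p - 1) / 12` is positive -/
theorem e16_numerator_pos (p : ℕ) [Fact p.Prime] : 0 < eisensteinNumerator p := by
  have hp : 2 ≤ p := (Fact.out : p.Prime).two_le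
  unfold eisensteinNumerator
  have h1 : 0 < p - 1 := by omega
  have h2 : Nat.gcd (p - 1) 12 ∣ p - 1 := Nat.gcd_dvd_left _ _
  exact Nat.div_pos (Nat.le_of_dvd h1 h2) (Nat.gcd_pos_of_pos_left _ h1)

/-- **S16 from the two bounds** -/
theorem e16_s16 (p : ℕ) [Fact p.Prime]
    (hLB : ∃ f ∈ CuspForm.intLattice p 2, ∀ k : ℕ, 1 ≤ k →
      ∃ c : ℤ, ModularFormClass.qCoeff (⇑f) k = (c : ℂ) ∧
        (eisensteinNumerator p : ℤ) ∣ c - e16δ p k)
    (hUB : ∀ M : ℕ, 0 < M → (∃ f ∈ CuspForm.intLattice p 2, ∀ k : ℕ, 1 ≤ k →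
      ∃ c : ℤ, ModularFormClass.qCoeff (⇑f) k = (c : ℂ) ∧ (M : ℤ) ∣ c - e16δ p k) →
        M ∣ eisensteinNumerator p) :
    Nat.card (↥(heckeLatticeAlgebra p ∅) ⧸
        Ideal.map ((latticeRestrictHom p ∅).toRingHom.comp (heckeEvalForms p 2))
          (eisensteinIdeal p)) = eisensteinNumerator p :=
  e16_card p (eisensteinNumerator p) (e16_numerator_pos p) hLB hUB

end Fermat.Agent.E16
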