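-- S16 lower bound, rho-route [FINAL] (lead): every Hecke polynomial killing `S₂(Γ₀(p))` has
-- Eisenstein value divisible by `n = (p-1)/gcd(p-1,12)`.
import Fermat.Agent.Lib.E16_MCore
import Fermat.Agent.Lib.E16_MInt
import Fermat.Agent.Lib.E16_MRho
import Fermat.Agent.Lib.E16_MHecke
import Fermat.Agent.Lib.E16_Main
import Fermat.Agent.S23

set_option autoImplicit false

open CongruenceSubgroup ModularCurve ModularCurve.Period CuspForm
open scoped MatrixGroups

namespace Fermat.Agent.E16

variable (p : ℕ) [Fact p.Prime]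

/-- **(LB\*)**: a Hecke polynomial which kills the cusp forms has Eisenstein value divisible by
the Eisenstein numerator. -/
theorem e16m_star (t : HeckeAlg) (ht : heckeEvalForms p 2 t = 0) :
    (eisensteinNumerator p : ℤ) ∣ MvPolynomial.aeval (R := ℤ) (eisensteinSystem p) t := by
  have hn : eisensteinNumerator p ≠ 0 := (e16_numerator_pos p).ne'
  obtain ⟨lam, hpar, hlam⟩ := e16m_lift_of p (eisensteinNumerator p) hn (e16mRho p) (e16mFb p)
    (e16mFb_mul p) (e16mFb_T p) (e16mFb_one p) (e16mFb_neg p) (e16mFb_fixS p) (e16mFb_fixU p)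
  have hH : E16mHecke p (eisensteinNumerator p : ℤ) lam := by
    intro ℓ γ
    obtain ⟨ι, hι, A, π, g', hA10, hA00, hrel, hcard, h1, h2⟩ := e16m_hecke_data p ℓ γ
    refine ⟨ι, hι, g', h1, h2, ?_⟩
    rw [← ZMod.intCast_zmod_eq_zero_iff_dvd]
    push_cast
    simp only [hlam]
    rw [e16mRho_hecke p A hA10 hA00 π γ g' hrel]
    have hc : (Fintype.card ι : ZMod (eisensteinNumerator p)) =
        ((eisensteinSystem p ℓ : ℤ) : ZMod (eisensteinNumerator p)) := by
      have h3 : ((Fintype.card ι : ℤ) : ZMod (eisensteinNumerator p)) =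
          (((if (ℓ : ℕ) = p then (p : ℤ) else 1 + (ℓ : ℕ)) : ℤ) : ZMod (eisensteinNumerator p)) := by
        rw [hcard]
      rw [Int.cast_natCast] at h3
      rw [h3]
      by_cases hℓ : (ℓ : ℕ) = p
      · rw [if_pos hℓ, eisensteinSystem_of_dvd (by rw [hℓ])]
        push_cast
        exact e16m_p_one p
      · have hnd : ¬ (ℓ : ℕ) ∣ p := by
          intro hd
          rcases (Nat.dvd_prime (Fact.out : p.Prime)).mp hd with h | h
          · exact ℓ.2.one_lt.ne' h
          · exact hℓ h
        rw [if_neg hℓ, eisensteinSystem_of_not_dvd hnd]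
    rw [hc]
    ring
  obtain ⟨γ₀, hγ₀⟩ := e16mRho_surj p
  have hcore := e16m_core p (eisensteinNumerator p : ℤ) (by exact_mod_cast hn) lam hpar hH t ht γ₀
  rw [← ZMod.intCast_zmod_eq_zero_iff_dvd] at hcore ⊢
  push_cast at hcore
  rw [hlam, hγ₀, mul_one] at hcore
  exact hcore

/-- **the lower bound of S16**: a cusp form with integral `q`-expansion congruent to the Eisenstein
series modulo `n = (p-1)/gcd(p-1,12)`. -/
theorem e16m_LB : ∃ f ∈ CuspForm.intLattice p 2, ∀ k : ℕ, 1 ≤ k →
    ∃ c : ℤ, ModularFormClass.qCoeff (⇑f) k = (c : ℂ) ∧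
      (eisensteinNumerator p : ℤ) ∣ c - e16δ p k := by
  haveI : NeZero p := ⟨(Fact.out : p.Prime).ne_zero⟩
  have hinj : Function.Injective (latticeRestrictHom p ∅) :=
    (latticeRestrictHom_bijective p ∅ (Fermat.Agent.S23.result p)).1
  obtain ⟨f, hf⟩ := e16_upper p (eisensteinNumerator p : ℤ) (fun t ht => by
    have h0 : latticeRestrictHom p ∅ (heckeEvalForms p 2 t) = latticeRestrictHom p ∅ 0 := by
      rw [map_zero]; exact ht
    exact e16m_star p t (hinj h0))
  exact ⟨f.1, f.2, fun k hk => ⟨e16a p f k, e16a_spec p f k, hf k hk⟩⟩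

end Fermat.Agent.E16
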