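import Mathlib
import Fermat.Agent.Lib.E16_TrFour

/-!
# S16: the trace from `Γ₀(p)` to level one on `q`-expansions, any weight

`Q (Tr F) = Q F + p^(2-k) • V_p (Q (F|W))`.
-/

set_option autoImplicit false

open UpperHalfPlane ModularForm CuspForm ModularFormClass SlashInvariantForm EisensteinSeries
open scoped MatrixGroups Manifold

namespace Fermat.Agent.E16
open Fermat.Agent.T23 Matrix.SpecialLinearGroup

variable (p : ℕ) [NeZero p] {k : ℤ}

/-- `F|W` is nice. -/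
theorem e16_nice_W (F : ModularForm (CongruenceSubgroup.Gamma0 p) k) :
    QNice (⇑F ∣[k] e16W p) :=
  QNice.of_Gamma0 (e16WMod p F)

/-- The `q`-expansion of the trace to level one of a form of weight `k` on `Γ₀(p)`. -/
theorem e16_trace_qExp [Fact p.Prime] (F : ModularForm (CongruenceSubgroup.Gamma0 p) k) :
    qExpansion 1 ⇑(ModularForm.trace 𝒮ℒ F) =
      qExpansion 1 ⇑F + (p : ℂ) ^ (2 - k) • e16V p (qExpansion 1 (⇑F ∣[k] e16W p)) := by
  have hF := QNice.of_Gamma0 F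
  have hW := e16_nice_W p F
  have hU := e16_nice_heckeU p hW k
  rw [e16_trace_eq, e16tr_qExp_add hF (hU.smul _), e16tr_qExp_smul hU, e16_qExp_heckeU p hW]

/-- The same for cusp forms. -/
theorem e16_trace_cusp_qExp [Fact p.Prime] (F : CuspForm (CongruenceSubgroup.Gamma0 p) k) :
    qExpansion 1 ⇑(CuspForm.trace 𝒮ℒ F) =
      qExpansion 1 ⇑F + (p : ℂ) ^ (2 - k) • e16V p (qExpansion 1 (⇑F ∣[k] e16W p)) := by
  have h := e16_trace_qExp p (CuspForm.toModularFormₗ F)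
  have h1 : ⇑(CuspForm.trace 𝒮ℒ F) = ⇑(ModularForm.trace 𝒮ℒ (CuspForm.toModularFormₗ F)) := by
    rw [e16_trace_cusp_eq, e16_trace_eq]
    rfl
  rw [h1, h]
  rfl

/-- Coefficientwise form. -/
theorem e16_trace_coeff [Fact p.Prime] (F : ModularForm (CongruenceSubgroup.Gamma0 p) k) (n : ℕ) :
    PowerSeries.coeff n (qExpansion 1 ⇑(ModularForm.trace 𝒮ℒ F)) =
      PowerSeries.coeff n (qExpansion 1 ⇑F) +
        (p : ℂ) ^ (2 - k) * PowerSeries.coeff (n * p) (qExpansion 1 (⇑F ∣[k] e16W p)) := by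
  rw [e16_trace_qExp, map_add, PowerSeries.coeff_smul, e16V_coeff, smul_eq_mul]

/-- The `q`-expansion of `(F|W)|W`. -/
theorem e16_qExp_W_W (F : ModularForm (CongruenceSubgroup.Gamma0 p) k) :
    qExpansion 1 ((⇑F ∣[k] e16W p) ∣[k] e16W p) =
      ((-1 : ℂ) ^ k * (p : ℂ) ^ (k - 2)) • qExpansion 1 ⇑F := by
  rw [e16_slash_W_W, e16tr_qExp_smul (QNice.of_Gamma0 F)]

/-- Product rule for the Fricke matrix. -/
theorem e16_mul_slash_W (k₁ k₂ : ℤ) (f g : ℍ → ℂ) :
    (f * g) ∣[k₁ + k₂] e16W p = (p : ℂ) • (f ∣[k₁] e16W p * g ∣[k₂] e16W p) := by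
  have h3 := ModularForm.mul_slash k₁ k₂ (e16W p) f g
  have h4 : |((Matrix.GeneralLinearGroup.det (e16W p) : ℝˣ) : ℝ)| = p := by
    rw [Matrix.GeneralLinearGroup.val_det_apply, val_e16W, Matrix.det_fin_two_of]
    simp
  rw [h4] at h3
  rw [h3]
  ext τ
  simp

end Fermat.Agent.E16
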