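/-
S16 (upper bound), helper3: the linear bound (U3).  A cusp form `f` on `Γ₀(p)` congruent to the
Eisenstein series modulo `M` forces `M ∣ ((p²-1)/24)(10(p-1)σ₃(k) - δ_k)` for all `k ≥ 1`.
-/
import Fermat.Agent.Lib.E16_TrFour
import Fermat.Agent.Lib.E16_Eis
import Fermat.Agent.Lib.E16_NormP

set_option autoImplicit false

open UpperHalfPlane ModularForm Function Complex SlashInvariantForm ModularFormClass
open UpperHalfPlane hiding I
open scoped MatrixGroups Manifold Real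

namespace Fermat.Agent.E16
open Fermat.Agent.T23 Matrix.SpecialLinearGroup

theorem e16u3_V_C (p : ℕ) (hp : p ≠ 0) (c : ℂ) : e16V p (PowerSeries.C c) = PowerSeries.C c := by
  ext n
  rw [e16V_coeff, PowerSeries.coeff_C, PowerSeries.coeff_C]
  by_cases hn : n = 0
  · simp [hn]
  · rw [if_neg hn, if_neg (Nat.mul_ne_zero hn hp)]

theorem e16u3_V_sub (p : ℕ) (φ ψ : PowerSeries ℂ) : e16V p (φ - ψ) = e16V p φ - e16V p ψ := by
  ext n; simp

theorem e16u3_V_C_mul (p : ℕ) (c : ℂ) (φ : PowerSeries ℂ) :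
    e16V p (PowerSeries.C c * φ) = PowerSeries.C c * e16V p φ := by
  rw [← PowerSeries.smul_eq_C_mul, e16V_smul, PowerSeries.smul_eq_C_mul]

theorem e16u3_V_eq_cU (p : ℕ) (φ : PowerSeries ℂ) : e16V p φ = e16cU p φ := by
  ext n; rw [e16V_coeff, coeff_e16cU]

/-- `V_p E = E` on `q`-expansions. -/
theorem e16u3_V_Eis (p : ℕ) [Fact p.Prime] :
    e16V p (qExpansion 1 (e16Eis p)) = qExpansion 1 (e16Eis p) := by
  have hp : p.Prime := Fact.out
  ext n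
  rw [e16V_coeff, e16Eis_qExpansion_coeff, e16Eis_qExpansion_coeff]
  unfold e16Ec
  rcases Nat.eq_zero_or_pos n with rfl | hn
  · simp
  · rw [if_neg (Nat.mul_ne_zero hn.ne' hp.ne_zero), if_neg hn.ne', e16δ_mul_p]

/-- The key identity: with `Dh = Q(E) - Q(f)`: `p Dh E + V(V(Dh) E) = c₀² (p+1) E₄`. -/
theorem e16u3_key (p : ℕ) [Fact p.Prime] (f : CuspForm (CongruenceSubgroup.Gamma0 p) 2) :
    PowerSeries.C (p : ℂ) * ((qExpansion 1 (e16Eis p) - qExpansion 1 f) * qExpansion 1 (e16Eis p)) +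
      e16V p (e16V p (qExpansion 1 (e16Eis p) - qExpansion 1 f) * qExpansion 1 (e16Eis p)) =
      PowerSeries.C ((((p : ℂ) - 1) / 24) ^ 2 * ((p : ℂ) + 1)) * qExpansion 1 E₄ := by
  have hp : p.Prime := Fact.out
  have : NeZero p := ⟨hp.ne_zero⟩
  have hE := e16u3_V_Eis p
  have h1 := e16_I1_cusp p f (e16Eis p) hE
  have h2 := e16_I2 p (e16Eis p) hE
  have h0 : (qExpansion 1 (e16Eis p)).coeff 0 = ((p : ℂ) - 1) / 24 := by
    rw [e16Eis_qExpansion_coeff]; simp [e16Ec]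
  rw [h0] at h2
  rw [PowerSeries.smul_eq_C_mul] at h1 h2
  rw [PowerSeries.smul_eq_C_mul] at h2
  rw [← h2, e16u3_V_sub, hE, sub_mul, sub_mul, e16u3_V_sub]
  have h3 : e16V p (qExpansion 1 (e16Eis p) * qExpansion 1 (e16Eis p)) =
      e16V p (qExpansion 1 (e16Eis p) ^ 2) := by rw [sq]
  rw [h3]
  linear_combination -h1

theorem e16u3_cU_zero (p : ℕ) : e16cU p (0 : PowerSeries ℂ) = 0 := by
  ext n; rw [coeff_e16cU]; simp

/-- `24 ∣ p² - 1` for a prime `p ≥ 5`. -/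
theorem e16u3_dvd (p : ℕ) (hp : p.Prime) (hp5 : 5 ≤ p) : 24 ∣ p ^ 2 - 1 := by
  have hp2 : ¬ 2 ∣ p := fun h => by
    have := (Nat.prime_dvd_prime_iff_eq Nat.prime_two hp).mp h
    omega
  have hp3 : ¬ 3 ∣ p := fun h => by
    have := (Nat.prime_dvd_prime_iff_eq Nat.prime_three hp).mp h
    omega
  have hr : p % 24 = 1 ∨ p % 24 = 5 ∨ p % 24 = 7 ∨ p % 24 = 11 ∨ p % 24 = 13 ∨ p % 24 = 17 ∨
      p % 24 = 19 ∨ p % 24 = 23 := by omega
  have h := Nat.pow_mod p 2 24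
  have h1 : p ^ 2 % 24 = 1 := by
    rcases hr with h' | h' | h' | h' | h' | h' | h' | h' <;> rw [h, h']
  have h2 : 1 ≤ p ^ 2 := Nat.one_le_pow _ _ hp.pos
  omega

/-- **The linear bound, all coefficients**, with an integer multiplier `m` clearing the
denominator of `(p² - 1)/24`. -/
theorem e16u3_coeff_m (p : ℕ) [Fact p.Prime] (m N0 : ℤ)
    (hN : (m : ℂ) * (((p : ℂ) + 1) * (((p : ℂ) - 1) / 24)) = (N0 : ℂ)) (M : ℕ)
    (f : CuspForm (CongruenceSubgroup.Gamma0 p) 2)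
    (hf : ∀ k : ℕ, 1 ≤ k → ∃ c : ℤ, qCoeff (⇑f) k = (c : ℂ) ∧ (M : ℤ) ∣ c - e16δ p k)
    (k : ℕ) (hk : 1 ≤ k) :
    (M : ℤ) ∣ N0 *
      (10 * ((p : ℤ) - 1) * ((ArithmeticFunction.sigma 3 k : ℕ) : ℤ) - e16δ p k) := by
  have hp : p.Prime := Fact.out
  have : NeZero p := ⟨hp.ne_zero⟩
  have hp0 : p ≠ 0 := hp.ne_zero
  have hk0 : k ≠ 0 := by omega
  have hΓ := CongruenceSubgroup.one_mem_strictPeriods_Gamma0 p
  have hkey := e16u3_key p f
  have hVV := e16_VV_cusp p f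
  have hVE := e16u3_V_Eis p
  have hE4 := e16_E4_int
  set A : PowerSeries ℂ := qExpansion 1 (e16Eis p) with hA
  set F : PowerSeries ℂ := qExpansion 1 f with hF
  set c0 : ℂ := ((p : ℂ) - 1) / 24 with hc0
  set cC : PowerSeries ℂ := PowerSeries.C c0 with hcC
  set R : Subring ℂ := (Int.castRingHom ℂ).range with hR
  have hRint : ∀ n : ℤ, (n : ℂ) ∈ R := fun n => ⟨n, rfl⟩
  have hMR : (M : ℂ) ∈ R := ⟨(M : ℤ), by simp⟩
  have hpR : (p : ℂ) ∈ R := ⟨(p : ℤ), by simp⟩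
  set δ1 : PowerSeries ℂ := A - cC with hδ1
  set D1 : PowerSeries ℂ := A - F - cC with hD1
  have hA0 : A.coeff 0 = c0 := by rw [hA, e16Eis_qExpansion_coeff]; simp [e16Ec, hc0]
  have hAk : ∀ j, j ≠ 0 → A.coeff j = (e16δ p j : ℂ) := fun j hj => by
    rw [hA, e16Eis_qExpansion_coeff]; simp [e16Ec, hj]
  have hF0 : F.coeff 0 = 0 := CuspFormClass.qExpansion_coeff_zero f one_pos hΓ
  have hδ1k : δ1.coeff k = (e16δ p k : ℂ) := by
    rw [hδ1, map_sub, hcC, PowerSeries.coeff_C, hAk k hk0, if_neg hk0, sub_zero]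
  have hδ1int : E16Int R δ1 := fun j => by
    rw [hδ1, map_sub, hcC, PowerSeries.coeff_C]
    rcases Nat.eq_zero_or_pos j with rfl | hj
    · rw [hA0, if_pos rfl, sub_self]; exact R.zero_mem
    · rw [hAk j hj.ne', if_neg hj.ne', sub_zero]; exact hRint _
  have hD1cong : E16Cong R (M : ℂ) D1 0 := by
    refine E16Cong.of_mem fun j => ?_
    rw [hD1, map_sub, map_sub, hcC, PowerSeries.coeff_C]
    rcases Nat.eq_zero_or_pos j with rfl | hj
    · rw [hA0, hF0, if_pos rfl, sub_zero, sub_self]; exact (e16lR R _).zero_mem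
    · obtain ⟨c, hc, m, hm⟩ := hf j hj
      have hFj : F.coeff j = (c : ℂ) := hc
      rw [hAk j hj.ne', hFj, if_neg hj.ne', sub_zero]
      refine mem_e16lR.mpr ⟨((-m : ℤ) : ℂ), hRint _, ?_⟩
      have h' : (c : ℂ) - (e16δ p j : ℂ) = (M : ℂ) * (m : ℂ) := by
        exact_mod_cast congrArg (Int.cast : ℤ → ℂ) hm
      push_cast
      linear_combination h'
  have hY : E16Cong R (M : ℂ) (D1 * δ1) 0 := by
    have h1 := hD1cong.mul (E16Cong.refl δ1) hδ1int E16Int.zero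
    rwa [zero_mul] at h1
  have hVD1 : E16Cong R (M : ℂ) (e16cU p D1) 0 := by
    have h1 := hD1cong.cU p
    rwa [e16u3_cU_zero] at h1
  have hX2 : E16Cong R (M : ℂ) (e16cU p (e16cU p D1 * δ1)) 0 := by
    have h1 := hVD1.mul (E16Cong.refl δ1) hδ1int E16Int.zero
    rw [zero_mul] at h1
    have h2 := h1.cU p
    rwa [e16u3_cU_zero] at h2
  -- rewrite the key identity
  have hVc : e16V p cC = cC := e16u3_V_C p hp0 c0
  have hVδ1 : e16V p δ1 = δ1 := by rw [hδ1, e16u3_V_sub, hVE, hVc]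
  have hVVD1 : e16V p (e16V p D1) = D1 := by
    rw [hD1, e16u3_V_sub, e16u3_V_sub, e16u3_V_sub, e16u3_V_sub, hVE, hVE, hVV, hVc, hVc]
  have hAeq : A = cC + δ1 := by rw [hδ1]; ring
  have hAFeq : A - F = cC + D1 := by rw [hD1]; ring
  have hVsplit : e16V p (e16V p (A - F) * A) =
      cC * cC + cC * δ1 + cC * D1 + e16V p (e16V p D1 * δ1) := by
    rw [hAFeq, hAeq, e16V_add, hVc]
    have h1 : (cC + e16V p D1) * (cC + δ1) =
        cC * cC + cC * δ1 + cC * e16V p D1 + e16V p D1 * δ1 := by ring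
    rw [h1, e16V_add, e16V_add, e16V_add, hcC, e16u3_V_C_mul, e16u3_V_C_mul, e16u3_V_C_mul,
      ← hcC, hVc, hVδ1, hVVD1]
  rw [hVsplit, hAFeq] at hkey
  nth_rewrite 1 [hAeq] at hkey
  -- take the coefficient at `k`
  have hcoef := congrArg (PowerSeries.coeff k) hkey
  have hD1k : D1.coeff k = A.coeff k - F.coeff k := by
    rw [hD1, map_sub, map_sub, hcC, PowerSeries.coeff_C, if_neg hk0, sub_zero]
  have hexp : PowerSeries.C (p : ℂ) * ((cC + D1) * (cC + δ1)) +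
      (cC * cC + cC * δ1 + cC * D1 + e16V p (e16V p D1 * δ1)) =
      PowerSeries.C (((p : ℂ) + 1) * (c0 * c0)) + PowerSeries.C (((p : ℂ) + 1) * c0) * δ1 +
        PowerSeries.C (((p : ℂ) + 1) * c0) * D1 + PowerSeries.C (p : ℂ) * (D1 * δ1) +
        e16V p (e16V p D1 * δ1) := by
    rw [hcC]; simp only [map_add, map_mul, map_one]; ring
  rw [hexp] at hcoef
  rw [map_add, map_add, map_add, map_add, PowerSeries.coeff_C, if_neg hk0,
    PowerSeries.coeff_C_mul, PowerSeries.coeff_C_mul, PowerSeries.coeff_C_mul, zero_add,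
    PowerSeries.coeff_C_mul, hE4, PowerSeries.coeff_map, e16sE4, map_add,
    PowerSeries.coeff_one, if_neg hk0, zero_add] at hcoef
  have h240 : (240 : PowerSeries ℤ) = PowerSeries.C (240 : ℤ) := by
    rw [map_ofNat]
  rw [h240, PowerSeries.coeff_C_mul] at hcoef
  simp only [e16sA, PowerSeries.coeff_mk] at hcoef
  obtain ⟨y, hy, hyk⟩ := mem_e16lR.mp (hY k)
  obtain ⟨x2, hx2, hx2k⟩ := mem_e16lR.mp (hX2 k)
  obtain ⟨d, hd, hdk⟩ := mem_e16lR.mp (hD1cong k)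
  obtain ⟨yz, rfl⟩ := hy
  obtain ⟨xz, rfl⟩ := hx2
  obtain ⟨dz, rfl⟩ := hd
  rw [map_zero, sub_zero] at hyk hx2k hdk
  rw [← e16u3_V_eq_cU, ← e16u3_V_eq_cU] at hx2k
  rw [← hyk, ← hx2k, ← hdk, hδ1k] at hcoef
  refine ⟨N0 * dz + m * (p : ℤ) * yz + m * xz, ?_⟩
  have hfin : ((N0 : ℤ) : ℂ) * (10 * ((p : ℂ) - 1) * ((ArithmeticFunction.sigma 3 k : ℕ) : ℂ) -
      (e16δ p k : ℂ)) =
      (M : ℂ) * ((N0 : ℂ) * (dz : ℂ) + (m : ℂ) * (p : ℂ) * (yz : ℂ) + (m : ℂ) * (xz : ℂ)) := by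
    simp only [eq_intCast, Int.cast_natCast, Int.cast_mul, Int.cast_ofNat] at hcoef ⊢
    have hc0' : c0 * 24 = (p : ℂ) - 1 := by rw [hc0]; ring
    linear_combination (-(m : ℂ)) * hcoef + ((e16δ p k : ℂ) + (M : ℂ) * (dz : ℂ) -
        10 * ((p : ℂ) - 1) * ((ArithmeticFunction.sigma 3 k : ℕ) : ℂ)) * hN -
      (10 * ((ArithmeticFunction.sigma 3 k : ℕ) : ℂ) * (m : ℂ) * ((p : ℂ) + 1) * c0) * hc0'
  exact_mod_cast hfin

/-- **The linear bound, all coefficients**, `p ≥ 5`. -/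
theorem e16u3_coeff (p : ℕ) [Fact p.Prime] (hp5 : 5 ≤ p) (M : ℕ)
    (f : CuspForm (CongruenceSubgroup.Gamma0 p) 2)
    (hf : ∀ k : ℕ, 1 ≤ k → ∃ c : ℤ, qCoeff (⇑f) k = (c : ℂ) ∧ (M : ℤ) ∣ c - e16δ p k)
    (k : ℕ) (hk : 1 ≤ k) :
    (M : ℤ) ∣ (((p ^ 2 - 1) / 24 : ℕ) : ℤ) *
      (10 * ((p : ℤ) - 1) * ((ArithmeticFunction.sigma 3 k : ℕ) : ℤ) - e16δ p k) := by
  have hp : p.Prime := Fact.out
  obtain ⟨N0, hN0⟩ := e16u3_dvd p hp hp5
  have hN0' : (p ^ 2 - 1) / 24 = N0 := by rw [hN0, Nat.mul_div_cancel_left _ (by norm_num)]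
  rw [hN0']
  refine e16u3_coeff_m p 1 (N0 : ℤ) ?_ M f hf k hk
  have h1 : ((p ^ 2 - 1 : ℕ) : ℂ) = ((24 * N0 : ℕ) : ℂ) := by rw [hN0]
  rw [Nat.cast_sub (Nat.one_le_pow _ _ hp.pos)] at h1
  push_cast at h1
  push_cast
  linear_combination h1 / 24

theorem e16u3_delta_two (p : ℕ) [Fact p.Prime] (hp5 : 5 ≤ p) : e16δ p 2 = 3 := by
  unfold e16δ
  have h2 : (2 : ℕ).divisors = {1, 2} := by decide
  rw [h2, Finset.filter_true_of_mem]
  · simp
  · intro d hd hpd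
    have hd' : d ≤ 2 := by
      simp only [Finset.mem_insert, Finset.mem_singleton] at hd
      rcases hd with rfl | rfl <;> norm_num
    have hd0 : 0 < d := by
      simp only [Finset.mem_insert, Finset.mem_singleton] at hd
      rcases hd with rfl | rfl <;> norm_num
    have := Nat.le_of_dvd hd0 hpd
    omega

/-- **The linear bound (U3)**: `h1`, `h2` of `e16_ub_arith`. -/
theorem e16u3_lin (p : ℕ) [Fact p.Prime] (hp5 : 5 ≤ p) (M : ℕ)
    (f : CuspForm (CongruenceSubgroup.Gamma0 p) 2)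
    (hf : ∀ k : ℕ, 1 ≤ k → ∃ c : ℤ, qCoeff (⇑f) k = (c : ℂ) ∧ (M : ℤ) ∣ c - e16δ p k) :
    (M : ℤ) ∣ (((p ^ 2 - 1) / 24 : ℕ) : ℤ) * (10 * (p : ℤ) - 11) ∧
    (M : ℤ) ∣ (((p ^ 2 - 1) / 24 : ℕ) : ℤ) * (90 * (p : ℤ) - 93) := by
  have h1 := e16u3_coeff p hp5 M f hf 1 le_rfl
  have h2 := e16u3_coeff p hp5 M f hf 2 (by norm_num)
  have hσ1 : ArithmeticFunction.sigma 3 1 = 1 := by simp
  have hσ2 : ArithmeticFunction.sigma 3 2 = 9 := by decide
  rw [hσ1, e16δ_one] at h1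
  rw [hσ2, e16u3_delta_two p hp5] at h2
  constructor
  · have e : (10 * ((p : ℤ) - 1) * ((1 : ℕ) : ℤ) - 1) = 10 * (p : ℤ) - 11 := by push_cast; ring
    rwa [e] at h1
  · have e : (10 * ((p : ℤ) - 1) * ((9 : ℕ) : ℤ) - 3) = 90 * (p : ℤ) - 93 := by push_cast; ring
    rwa [e] at h2

/-- **Small primes**: for `p = 2, 3` a congruence modulus is `1`. -/
theorem e16u3_small (p : ℕ) [Fact p.Prime] (hp23 : p = 2 ∨ p = 3) (M : ℕ)
    (f : CuspForm (CongruenceSubgroup.Gamma0 p) 2)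
    (hf : ∀ k : ℕ, 1 ≤ k → ∃ c : ℤ, qCoeff (⇑f) k = (c : ℂ) ∧ (M : ℤ) ∣ c - e16δ p k) :
    M = 1 := by
  have hσ1 : ArithmeticFunction.sigma 3 1 = 1 := by simp
  have hσ2 : ArithmeticFunction.sigma 3 2 = 9 := by decide
  have hdiv2 : (2 : ℕ).divisors = {1, 2} := by decide
  rcases hp23 with rfl | rfl
  · have h1 := e16u3_coeff_m 2 8 1 (by push_cast; norm_num) M f hf 1 le_rfl
    have h2 := e16u3_coeff_m 2 8 1 (by push_cast; norm_num) M f hf 2 (by norm_num)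
    have hδ2 : e16δ 2 2 = 1 := by
      unfold e16δ
      rw [hdiv2]
      decide
    rw [hσ1, e16δ_one] at h1
    rw [hσ2, hδ2] at h2
    have h3 : (M : ℤ) ∣ 1 := by
      have e : (1 : ℤ) = 10 * (1 * (10 * (((2 : ℕ) : ℤ) - 1) * ((1 : ℕ) : ℤ) - 1)) -
          (1 * (10 * (((2 : ℕ) : ℤ) - 1) * ((9 : ℕ) : ℤ) - 1)) + 0 := by norm_num
      rw [e]
      exact dvd_add (dvd_sub (Dvd.dvd.mul_left h1 _) h2) (dvd_zero _)
    exact Nat.dvd_one.mp (by exact_mod_cast h3)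
  · have h1 := e16u3_coeff_m 3 3 1 (by push_cast; norm_num) M f hf 1 le_rfl
    have h2 := e16u3_coeff_m 3 3 1 (by push_cast; norm_num) M f hf 2 (by norm_num)
    have hδ2 : e16δ 3 2 = 3 := by
      unfold e16δ
      rw [hdiv2]
      decide
    rw [hσ1, e16δ_one] at h1
    rw [hσ2, hδ2] at h2
    have h3 : (M : ℤ) ∣ 1 := by
      have e : (1 : ℤ) = 28 * (1 * (10 * (((3 : ℕ) : ℤ) - 1) * ((1 : ℕ) : ℤ) - 1)) -
          3 * (1 * (10 * (((3 : ℕ) : ℤ) - 1) * ((9 : ℕ) : ℤ) - 3)) + 0 := by norm_num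
      rw [e]
      exact dvd_add (dvd_sub (Dvd.dvd.mul_left h1 _) (Dvd.dvd.mul_left h2 _)) (dvd_zero _)
    exact Nat.dvd_one.mp (by exact_mod_cast h3)

end Fermat.Agent.E16
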