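/-
S16 (upper bound), helper5: the **assembly of the upper bound** `hUB` of `e16_s16`.

`e16_ub_of_lin`: from the linear bound `U3` (the two divisibilities `h1`, `h2` of `e16_ub_arith`,
taken as a hypothesis in the cusp form shape) and the cases `(A)` (`e16_caseA`), `(B)`
(`e16_caseB'`), `(C)` (`e16_caseC`), every congruence modulus `M` between a lattice cusp form and
the Eisenstein series divides `eisensteinNumerator p`.  For `p = 2, 3` the space `S₂(Γ₀(p))` is
zero by the Sturm bound (`e16ub_small_zero`, with `e16ub_index : [SL₂(ℤ) : Γ₀(p)] = p + 1`).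
-/
import Fermat.Agent.Lib.E16_CaseA
import Fermat.Agent.Lib.E16_CaseB
import Fermat.Agent.Lib.E16_CaseC
import Fermat.Agent.Lib.E16_Arith
import Fermat.Agent.Lib.E16_Main
import Fermat.Prelude.Thm_ModularForm_sturm_bound_Gamma0

set_option autoImplicit false

open UpperHalfPlane ModularForm CuspForm ModularFormClass ModularCurve
open scoped MatrixGroups Manifold

namespace Fermat.Agent.E16
open Fermat.Agent.T23 Matrix.SpecialLinearGroup

/-- The index of `Γ₀(p)` in `SL(2, ℤ)` is `p + 1`. -/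
theorem e16ub_index (p : ℕ) [Fact p.Prime] : (CongruenceSubgroup.Gamma0 p).index = p + 1 := by
  have hp : p.Prime := Fact.out
  have : NeZero p := ⟨hp.ne_zero⟩
  rw [← Subgroup.relIndex_top_right, ← Subgroup.relIndex_map_map_of_injective _ _
    (mapGL_injective (R := ℤ) (S := ℝ) (n := Fin 2)), ← MonoidHom.range_eq_map, ← e16_card_J p]
  rfl

/-- `S₂(Γ₀(p)) = 0` for `p = 2, 3`. -/
theorem e16ub_small_zero (p : ℕ) [Fact p.Prime] (hp : p < 5)
    (f : CuspForm (CongruenceSubgroup.Gamma0 p) 2) : f = 0 := by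
  have hp' : p.Prime := Fact.out
  have : NeZero p := ⟨hp'.ne_zero⟩
  have hF : (CuspForm.toModularFormₗ f : ModularForm (CongruenceSubgroup.Gamma0 p) 2) = 0 := by
    apply ModularForm.sturm_bound_Gamma0 p
    intro n hn
    have hn0 : n = 0 := by
      rw [e16ub_index p] at hn
      have : ((2 : ℤ) * ((p + 1 : ℕ) : ℤ)).toNat / 12 = 0 := by
        apply Nat.div_eq_of_lt
        omega
      omega
    subst hn0
    exact CuspFormClass.qExpansion_coeff_zero f one_pos
      (CongruenceSubgroup.one_mem_strictPeriods_Gamma0 p)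
  ext z
  have := congrArg (fun F : ModularForm (CongruenceSubgroup.Gamma0 p) 2 => F z) hF
  simpa using this

/-- **The upper bound** `hUB` of `e16_s16`, from the linear bound `U3` (as a hypothesis) and the
three residual cases `(A)`, `(B)`, `(C)`. -/
theorem e16_ub_of_lin (p : ℕ) [Fact p.Prime]
    (hlin : 5 ≤ p → ∀ (M : ℕ) (f : CuspForm (CongruenceSubgroup.Gamma0 p) 2),
      (∀ k : ℕ, 1 ≤ k → ∃ c : ℤ, ModularFormClass.qCoeff (⇑f) k = (c : ℂ) ∧
        (M : ℤ) ∣ c - e16δ p k) →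
      (M : ℤ) ∣ (((p ^ 2 - 1) / 24 : ℕ) : ℤ) * (10 * (p : ℤ) - 11) ∧
        (M : ℤ) ∣ (((p ^ 2 - 1) / 24 : ℕ) : ℤ) * (90 * (p : ℤ) - 93))
    (M : ℕ) (_hM : 0 < M)
    (h : ∃ f ∈ CuspForm.intLattice p 2, ∀ k : ℕ, 1 ≤ k →
      ∃ c : ℤ, ModularFormClass.qCoeff (⇑f) k = (c : ℂ) ∧ (M : ℤ) ∣ c - e16δ p k) :
    M ∣ eisensteinNumerator p := by
  have hp : p.Prime := Fact.out
  obtain ⟨f, -, hf⟩ := h
  have hdiv : ∀ l : ℕ, l ∣ M → ∀ k : ℕ, 1 ≤ k →
      ∃ c : ℤ, ModularFormClass.qCoeff (⇑f) k = (c : ℂ) ∧ (l : ℤ) ∣ c - e16δ p k := by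
    intro l hl k hk
    obtain ⟨c, hc, hd⟩ := hf k hk
    exact ⟨c, hc, (Int.natCast_dvd_natCast.mpr hl).trans hd⟩
  by_cases hp5 : 5 ≤ p
  · obtain ⟨h1, h2⟩ := hlin hp5 M f hf
    exact e16_ub_arith p hp hp5 M h1 h2
      (fun l hl hl5 hlp hlM => e16_caseA p l hl hl5 hlp f (hdiv l hlM))
      (fun hp3 h3M => e16_caseB' p hp3 f (hdiv 3 h3M))
      (fun hp8 h2M => e16_caseC p hp8 f (hdiv 2 h2M))
  · have hf0 : f = 0 := e16ub_small_zero p (by omega) f
    obtain ⟨c, hc, hd⟩ := hf 1 le_rfl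
    have hc0 : c = 0 := by
      have h0 : ModularFormClass.qCoeff (⇑f) 1 = 0 := by
        rw [hf0, ModularFormClass.qCoeff]
        have : (⇑(0 : CuspForm (CongruenceSubgroup.Gamma0 p) 2) : ℍ → ℂ) = 0 := rfl
        rw [this, qExpansion_zero]
        simp
      rw [h0] at hc
      exact_mod_cast hc.symm
    rw [hc0, e16δ_one, zero_sub] at hd
    have hM1 : (M : ℤ) ∣ 1 := (dvd_neg.mp hd)
    have : M ∣ 1 := by exact_mod_cast hM1
    exact (Nat.dvd_one.mp this) ▸ one_dvd _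

end Fermat.Agent.E16
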