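import Fermat.Agent.Lib.E16_Defs
import Fermat.Agent.Lib.E16_Lin

/-!
# S16, upper bound: the linear bound for lattice elements

`e16_ub_lin`: from the two trace identities (I1), (I2) (stated for the `q`-expansion `qE` of the
Eisenstein series of level `p`) and `U_p² = 1` on the lattice, a congruence `f ≡ δ mod M` gives
`M ∣ ((p²-1)/24)(10p-11)` and `M ∣ ((p²-1)/24)(90p-93)`: the hypotheses `h1`, `h2` of
`e16_ub_arith`.
-/

set_option autoImplicit false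

namespace Fermat.Agent.E16

open ModularCurve CuspForm ModularFormClass

theorem e16_sq_sub_one (p : ℕ) (hp : p.Prime) (hp5 : 5 ≤ p) : 24 ∣ p ^ 2 - 1 := by
  have h2 : p % 2 = 1 := by
    by_contra hne
    have h0 : p % 2 = 0 := by omega
    rcases Nat.Prime.eq_one_or_self_of_dvd hp 2 (Nat.dvd_of_mod_eq_zero h0) with h | h <;> omega
  have h3 : p % 3 ≠ 0 := by
    intro h0
    rcases Nat.Prime.eq_one_or_self_of_dvd hp 3 (Nat.dvd_of_mod_eq_zero h0) with h | h <;> omega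
  have h24 : p ^ 2 % 24 = 1 := by
    rw [Nat.pow_mod]
    have : p % 24 < 24 := Nat.mod_lt _ (by norm_num)
    have h2' : p % 24 % 2 = 1 := by omega
    have h3' : p % 24 % 3 ≠ 0 := by omega
    interval_cases (p % 24) <;> simp_all
  exact (Nat.modEq_iff_dvd' (Nat.one_le_pow _ _ (by omega))).mp h24.symm

theorem e16δ_zero (p : ℕ) : e16δ p 0 = 0 := by
  simp [e16δ]

theorem e16δ_two (p : ℕ) (hp5 : 5 ≤ p) : e16δ p 2 = 3 := by
  have h1 : ¬ p ∣ 1 := fun h => by have := Nat.le_of_dvd (by norm_num) h; omega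
  have h2 : ¬ p ∣ 2 := fun h => by have := Nat.le_of_dvd (by norm_num) h; omega
  have hd : Nat.divisors 2 = {1, 2} := by decide
  rw [e16δ, hd, Finset.filter_insert, if_pos h1, Finset.filter_singleton, if_pos h2]
  simp

/-- **The linear bound** (inputs `h1`, `h2` of `e16_ub_arith`). -/
theorem e16_ub_lin (p : ℕ) [Fact p.Prime] (hp5 : 5 ≤ p)
    (qE : PowerSeries ℂ) (hE0 : qE.coeff 0 = ((p : ℂ) - 1) / 24)
    (hEk : ∀ k, 1 ≤ k → qE.coeff k = (e16δ p k : ℂ))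
    (s : ℕ → ℤ) (hs1 : s 1 = 1) (hs2 : s 2 = 9)
    (I1 : ∀ (f : e16L p) (k : ℕ),
      (p : ℂ) * ((PowerSeries.mk fun i => (e16a p f i : ℂ)) * qE).coeff k
        + ((PowerSeries.mk fun i => (e16a p f (p * i) : ℂ)) * qE).coeff (p * k) = 0)
    (I2 : ∀ k, 1 ≤ k → (p : ℂ) * (qE * qE).coeff k + (qE * qE).coeff (p * k)
        = (((p : ℂ) - 1) / 24) ^ 2 * ((p : ℂ) + 1) * (240 * (s k : ℂ)))
    (hUU : ∀ (f : e16L p) (k : ℕ), e16a p f (p * (p * k)) = e16a p f k)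
    (M : ℕ) (f : e16L p) (hf : ∀ k, 1 ≤ k → (M : ℤ) ∣ e16a p f k - e16δ p k) :
    (M : ℤ) ∣ (((p ^ 2 - 1) / 24 : ℕ) : ℤ) * (10 * (p : ℤ) - 11) ∧
      (M : ℤ) ∣ (((p ^ 2 - 1) / 24 : ℕ) : ℤ) * (90 * (p : ℤ) - 93) := by
  have hp : p.Prime := Fact.out
  have hqE : qE = PowerSeries.C (((p : ℂ) - 1) / 24) + PowerSeries.mk fun i => (e16δ p i : ℂ) := by
    ext k
    rcases Nat.eq_zero_or_pos k with rfl | hk
    · simp [hE0, e16δ_zero]
    · rw [hEk k hk, map_add, PowerSeries.coeff_C, if_neg (by omega), PowerSeries.coeff_mk,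
        zero_add]
  obtain ⟨N₀, hN₀⟩ := e16_sq_sub_one p hp hp5
  have hdiv : (p ^ 2 - 1) / 24 = N₀ := by rw [hN₀, Nat.mul_div_cancel_left _ (by norm_num)]
  have hN : ((p : ℂ) - 1) / 24 * ((p : ℂ) + 1) = ((N₀ : ℤ) : ℂ) := by
    have h1 : ((p ^ 2 - 1 : ℕ) : ℂ) = (p : ℂ) ^ 2 - 1 := by
      rw [Nat.cast_sub (Nat.one_le_pow _ _ (by omega))]; push_cast; ring
    have h2 : ((p ^ 2 - 1 : ℕ) : ℂ) = 24 * (N₀ : ℂ) := by rw [hN₀]; push_cast; ring
    rw [h1] at h2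
    push_cast
    linear_combination h2 / 24
  have key := fun k hk => e16_lin p (((p : ℂ) - 1) / 24) (N₀ : ℤ) (by ring) hN
    (e16δ p) (e16a p f) s (e16δ_zero p) (e16a_coeff_zero p f)
    (fun k => by rw [mul_comm]; exact e16δ_mul_p p k) (hUU f)
    (fun k => by have := I1 f k; rwa [hqE] at this)
    (fun k hk => by have := I2 k hk; rwa [hqE] at this)
    (M : ℤ) hf k hk hp.one_le
  rw [hdiv]
  constructor
  · have h := key 1 le_rfl
    rw [hs1, e16δ_one] at h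
    rw [show 10 * (p : ℤ) - 11 = 10 * ((p : ℤ) - 1) * 1 - 1 by ring]
    exact h
  · have h := key 2 (by norm_num)
    rw [hs2, e16δ_two p hp5] at h
    rw [show 90 * (p : ℤ) - 93 = 10 * ((p : ℤ) - 1) * 9 - 3 by ring]
    exact h

end Fermat.Agent.E16
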