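/-
S16 (upper bound), helper5: **the upper bound** `hUB` of `e16_s16`, unconditionally:
`e16_ub` = `e16_ub_of_lin` (E16_UB: cases (A), (B), (C), arithmetic, small primes) fed with the
linear bound `e16u3_lin` (E16_U3), and `e16_s16_of_lb`: the frozen S16 conclusion from the lower
bound alone.
-/
import Fermat.Agent.Lib.E16_UB
import Fermat.Agent.Lib.E16_U3

set_option autoImplicit false

open ModularCurve CuspForm

namespace Fermat.Agent.E16

/-- **The upper bound**: every congruence modulus between a lattice cusp form of level `Γ₀(p)`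
and the Eisenstein series divides the numerator of `(p - 1)/12`. -/
theorem e16_ub (p : ℕ) [Fact p.Prime] (M : ℕ) (hM : 0 < M)
    (h : ∃ f ∈ CuspForm.intLattice p 2, ∀ k : ℕ, 1 ≤ k →
      ∃ c : ℤ, ModularFormClass.qCoeff (⇑f) k = (c : ℂ) ∧ (M : ℤ) ∣ c - e16δ p k) :
    M ∣ eisensteinNumerator p :=
  e16_ub_of_lin p (fun hp5 M f hf => e16u3_lin p hp5 M f hf) M hM h

/-- **S16 from the lower bound alone.** -/
theorem e16_s16_of_lb (p : ℕ) [Fact p.Prime]
    (hLB : ∃ f ∈ CuspForm.intLattice p 2, ∀ k : ℕ, 1 ≤ k →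
      ∃ c : ℤ, ModularFormClass.qCoeff (⇑f) k = (c : ℂ) ∧
        (eisensteinNumerator p : ℤ) ∣ c - e16δ p k) :
    Nat.card (↥(heckeLatticeAlgebra p ∅) ⧸
        Ideal.map ((latticeRestrictHom p ∅).toRingHom.comp (heckeEvalForms p 2))
          (eisensteinIdeal p)) = eisensteinNumerator p :=
  e16_s16 p hLB (fun M hM h => e16_ub p M hM h)

end Fermat.Agent.E16
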