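/-
Rational points on the elliptic curves `15a1 : Y^2 = X (X - 16) (X + 9)` and
`15a2 : y^2 = x (x - 1) (x - 81)` by an elementary descent (for S51, project T51).

* `concordant_1_81` : no rational `x` has `x`, `x - 1`, `x - 81` all squares
  (descent on the denominator of `x`).
* `no_point_sq_15a2` : no rational point with `y ≠ 0` on `y^2 = x (x-1) (x-81)` has `x = s^2`.
* `descent_15a1` : `Y^2 = X (X - 16) (X + 9)` over `ℚ` forces `X ∈ {0, 16, -9, 36, -4}`.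
-/
import Mathlib

set_option autoImplicit false

namespace Fermat.Agent.E51


/-- If `δ * t ^ 2` is an integer with `δ` squarefree, then the rational `t` is an integer. -/
lemma d15_int_of_sqfree_mul_sq {δ : ℤ} (hδ : Squarefree δ) {t : ℚ} {n : ℤ}
    (h : (δ : ℚ) * t ^ 2 = n) : ∃ V : ℤ, t = V := by
  have hden : (t.den : ℚ) ≠ 0 := by exact_mod_cast t.den_nz
  have ht : t = (t.num : ℚ) / (t.den : ℚ) := (Rat.num_div_den t).symm
  have h1 : (δ : ℚ) * (t.num : ℚ) ^ 2 = n * (t.den : ℚ) ^ 2 := by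
    rw [← h]
    nth_rewrite 2 [ht]
    field_simp
  have h2 : δ * t.num ^ 2 = n * (t.den : ℤ) ^ 2 := by exact_mod_cast h1
  have hcop : IsCoprime ((t.den : ℤ) ^ 2) (t.num ^ 2) :=
    (Rat.isCoprime_num_den t).symm.pow
  have hdvd : ((t.den : ℤ) ^ 2) ∣ δ * t.num ^ 2 := ⟨n, by rw [h2]; ring⟩
  have hdvd' : ((t.den : ℤ) ^ 2) ∣ δ := hcop.dvd_of_dvd_mul_right hdvd
  have hunit : IsUnit (t.den : ℤ) := hδ _ (by rwa [← sq])
  have hone : t.den = 1 := by
    rw [Int.ofNat_isUnit] at hunit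
    exact Nat.isUnit_iff.mp hunit
  refine ⟨t.num, ?_⟩
  rw [ht]
  simp [hone]

/-- Squarefree divisors of `80`. -/
lemma d15_sqfree_dvd_80 {δ : ℤ} (hδ : Squarefree δ) (h : δ ∣ 80) :
    δ = 1 ∨ δ = -1 ∨ δ = 5 ∨ δ = -5 ∨ δ = 2 ∨ δ = -2 ∨ δ = 10 ∨ δ = -10 := by
  have h1 : δ.natAbs ∣ 80 := by
    have := Int.natAbs_dvd_natAbs.mpr h
    simpa using this
  have h2 : Squarefree δ.natAbs := Int.squarefree_natAbs.mpr hδ
  have h3 : δ.natAbs ≤ 80 := Nat.le_of_dvd (by norm_num) h1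
  have h4 : δ.natAbs = 1 ∨ δ.natAbs = 2 ∨ δ.natAbs = 5 ∨ δ.natAbs = 10 := by
    have hn2 : ∀ k : ℕ, δ.natAbs = 4 * k → False := by
      intro k hk
      have := h2 2 ⟨k, by omega⟩
      rw [Nat.isUnit_iff] at this
      omega
    generalize δ.natAbs = m at h1 h3 hn2 ⊢
    interval_cases m <;> first | omega | (exfalso; exact hn2 1 rfl) | (exfalso; exact hn2 2 rfl) | (exfalso; exact hn2 4 rfl) | (exfalso; exact hn2 5 rfl) | (exfalso; exact hn2 10 rfl) | (exfalso; exact hn2 20 rfl)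
  omega




lemma d15_sq_odd_mod8 (U : ℤ) (h : U % 2 = 1) : ∃ c : ℤ, U ^ 2 = 8 * c + 1 := by
  obtain ⟨a, ha⟩ : ∃ a, U = 2 * a + 1 := ⟨U / 2, by omega⟩
  obtain ⟨c, hc⟩ := Int.even_mul_succ_self a
  exact ⟨c, by rw [ha]; linear_combination 4 * hc⟩

lemma d15_sq_even (V : ℤ) (h : V % 2 = 0) : ∃ c : ℤ, V ^ 2 = 4 * c ∧ (c % 4 = 0 ∨ c % 4 = 1) := by
  obtain ⟨a, ha⟩ : ∃ a, V = 2 * a := ⟨V / 2, by omega⟩
  refine ⟨a ^ 2, by rw [ha]; ring, ?_⟩
  rcases Int.emod_two_eq_zero_or_one a with h0 | h1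
  · obtain ⟨b, hb⟩ : ∃ b, a = 2 * b := ⟨a / 2, by omega⟩
    left
    rw [hb]
    have : (2 * b) ^ 2 = 4 * b ^ 2 := by ring
    rw [this]; omega
  · obtain ⟨c, hc⟩ := d15_sq_odd_mod8 a h1
    right
    rw [hc]; omega

/-- The classes `δ ≡ 2 mod 4` do not occur. -/
lemma d15_no_even (d U E V W : ℤ) (hd : d % 4 = 2) (hc : IsCoprime U E)
    (h1 : U ^ 2 - E ^ 2 = d * V ^ 2) (h2 : U ^ 2 - 81 * E ^ 2 = d * W ^ 2) : False := by
  -- `U`, `E` are both odd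
  have hUE : U % 2 = 1 ∧ E % 2 = 1 := by
    rcases Int.emod_two_eq_zero_or_one U with hU | hU <;>
      rcases Int.emod_two_eq_zero_or_one E with hE | hE
    · exfalso
      have h2U : (2 : ℤ) ∣ U := Int.dvd_of_emod_eq_zero hU
      have h2E : (2 : ℤ) ∣ E := Int.dvd_of_emod_eq_zero hE
      have := hc.isUnit_of_dvd' h2U h2E
      rw [Int.isUnit_iff] at this
      omega
    · exfalso
      obtain ⟨c, hc'⟩ := d15_sq_odd_mod8 E hE
      obtain ⟨a, ha⟩ : ∃ a, U = 2 * a := ⟨U / 2, by omega⟩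
      obtain ⟨k, hk⟩ : ∃ k, d = 2 * k := ⟨d / 2, by omega⟩
      have : (2 * a) ^ 2 - (8 * c + 1) = 2 * k * V ^ 2 := by rw [← ha, ← hc', ← hk]; exact h1
      have h3 : 2 * (2 * a ^ 2 - 4 * c - k * V ^ 2) = 1 := by linear_combination this
      omega
    · exfalso
      obtain ⟨c, hc'⟩ := d15_sq_odd_mod8 U hU
      obtain ⟨a, ha⟩ : ∃ a, E = 2 * a := ⟨E / 2, by omega⟩
      obtain ⟨k, hk⟩ : ∃ k, d = 2 * k := ⟨d / 2, by omega⟩
      have : (8 * c + 1) - (2 * a) ^ 2 = 2 * k * V ^ 2 := by rw [← ha, ← hc', ← hk]; exact h1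
      have h3 : 2 * (4 * c - 2 * a ^ 2 - k * V ^ 2) = -1 := by linear_combination this
      omega
    · exact ⟨hU, hE⟩
  obtain ⟨hU, hE⟩ := hUE
  obtain ⟨cU, hcU⟩ := d15_sq_odd_mod8 U hU
  obtain ⟨cE, hcE⟩ := d15_sq_odd_mod8 E hE
  -- `V` and `W` are even
  have hV : V % 2 = 0 := by
    rcases Int.emod_two_eq_zero_or_one V with hV | hV
    · exact hV
    · exfalso
      obtain ⟨cV, hcV⟩ := d15_sq_odd_mod8 V hV
      rw [hcU, hcE, hcV] at h1
      have h3 : 8 * (cU - cE - d * cV) = d := by linear_combination h1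
      omega
  have hW : W % 2 = 0 := by
    rcases Int.emod_two_eq_zero_or_one W with hW | hW
    · exact hW
    · exfalso
      obtain ⟨cW, hcW⟩ := d15_sq_odd_mod8 W hW
      rw [hcU, hcE, hcW] at h2
      have h3 : 8 * (cU - 81 * cE - 10 - d * cW) = d := by linear_combination h2
      omega
  obtain ⟨cV, hcV, hcV4⟩ := d15_sq_even V hV
  obtain ⟨cW, hcW, hcW4⟩ := d15_sq_even W hW
  rw [hcU, hcE, hcV] at h1
  rw [hcU, hcE, hcW] at h2
  obtain ⟨k, hk⟩ : ∃ k, d = 4 * k + 2 := ⟨d / 4, by omega⟩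
  -- 80 E^2 = d (V^2 - W^2) = 4 d (cV - cW)
  have h4 : 80 * cE + 10 = (2 * k + 1) * (cV - cW) := by
    rw [hk] at h1 h2
    have h8 : (8 : ℤ) * (80 * cE + 10) = 8 * ((2 * k + 1) * (cV - cW)) := by
      linear_combination h1 - h2
    exact mul_left_cancel₀ (by norm_num) h8
  -- parity: cV - cW ≡ 0, 1, 3 mod 4
  obtain ⟨m, hm⟩ : ∃ m, cV - cW = 4 * m ∨ cV - cW = 4 * m + 1 ∨ cV - cW = 4 * m + 3 := by
    refine ⟨(cV - cW) / 4, ?_⟩
    omega
  rcases hm with hm | hm | hm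
  · rw [hm] at h4
    have : 2 * (40 * cE + 5 - (2 * k + 1) * (2 * m)) = 0 := by linear_combination h4
    have h5 : 40 * cE + 5 - (2 * k + 1) * (2 * m) = 0 := by omega
    have h6 : 2 * (20 * cE + 2 - (2 * k + 1) * m) = -1 := by linear_combination h5
    omega
  · rw [hm] at h4
    have h6 : 2 * (40 * cE + 5 - (2 * k + 1) * (2 * m) - k) = 1 := by linear_combination h4
    omega
  · rw [hm] at h4
    have h6 : 2 * (40 * cE + 5 - (2 * k + 1) * (2 * m) - 3 * k - 1) = 1 := by linear_combination h4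
    omega




/-- The 2-descent class restriction: if `s^2 - 1 = δ t^2` and `s^2 - 81 = δ r^2` with `δ`
squarefree, then `δ ∈ {1, -1, 5, -5}`. -/
lemma d15_delta_cases (δ : ℤ) (hδ : Squarefree δ) (s t r : ℚ) (h1 : s ^ 2 - 1 = δ * t ^ 2)
    (h81 : s ^ 2 - 81 = δ * r ^ 2) : δ = 1 ∨ δ = -1 ∨ δ = 5 ∨ δ = -5 := by
  have hden : (s.den : ℚ) ≠ 0 := by exact_mod_cast s.den_nz
  have hs : s = (s.num : ℚ) / (s.den : ℚ) := (Rat.num_div_den s).symm
  set U : ℤ := s.num with hU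
  set E : ℤ := (s.den : ℤ) with hE
  have hEq : (s.den : ℚ) = (E : ℚ) := by rw [hE]; push_cast; rfl
  rw [hEq] at hs hden
  have hcop : IsCoprime U E := Rat.isCoprime_num_den s
  have e1 : (δ : ℚ) * (t * E) ^ 2 = ((U ^ 2 - E ^ 2 : ℤ) : ℚ) := by
    have : (δ : ℚ) * (t * E) ^ 2 = (s ^ 2 - 1) * (E : ℚ) ^ 2 := by rw [h1]; ring
    rw [this, hs]; push_cast; field_simp
  have e2 : (δ : ℚ) * (r * E) ^ 2 = ((U ^ 2 - 81 * E ^ 2 : ℤ) : ℚ) := by
    have : (δ : ℚ) * (r * E) ^ 2 = (s ^ 2 - 81) * (E : ℚ) ^ 2 := by rw [h81]; ring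
    rw [this, hs]; push_cast; field_simp
  obtain ⟨V, hV⟩ := d15_int_of_sqfree_mul_sq hδ e1
  obtain ⟨W, hW⟩ := d15_int_of_sqfree_mul_sq hδ e2
  rw [hV] at e1
  rw [hW] at e2
  have i1 : U ^ 2 - E ^ 2 = δ * V ^ 2 := by exact_mod_cast e1.symm
  have i2 : U ^ 2 - 81 * E ^ 2 = δ * W ^ 2 := by exact_mod_cast e2.symm
  -- `δ` is coprime to `E`
  have hcδ : IsCoprime δ E := by
    obtain ⟨a, b, hab⟩ := hcop.pow_left (m := 2)
    exact ⟨a * V ^ 2, a * E + b, by linear_combination hab - a * i1⟩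
  have hdvd : δ ∣ 80 * E ^ 2 := ⟨V ^ 2 - W ^ 2, by linear_combination i1 - i2⟩
  have hdvd80 : δ ∣ 80 := (hcδ.pow_right (n := 2)).dvd_of_dvd_mul_right hdvd
  rcases d15_sqfree_dvd_80 hδ hdvd80 with h | h | h | h | h | h | h | h
  · exact Or.inl h
  · exact Or.inr (Or.inl h)
  · exact Or.inr (Or.inr (Or.inl h))
  · exact Or.inr (Or.inr (Or.inr h))
  all_goals
    exfalso
    exact d15_no_even δ U E V W (by rw [h]; norm_num) hcop i1 i2




/-- From `u^2 - f^2 = v^2` with `u > 0` coprime to `f`: `u + v` is a square (`f` odd)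
or twice a square (`f` even). -/
lemma d15_pyth_sum (u v f : ℤ) (hu : 0 < u) (hcop : IsCoprime u f) (h : u ^ 2 - f ^ 2 = v ^ 2) :
    (f % 2 = 1 → ∃ a : ℤ, u + v = a ^ 2) ∧ (f % 2 = 0 → ∃ a : ℤ, u + v = 2 * a ^ 2) := by
  have hvf : IsCoprime v f := by
    obtain ⟨a, b, hab⟩ := hcop.pow_left (m := 2)
    exact ⟨a * v, a * f + b, by linear_combination hab - a * h⟩
  constructor
  · intro hf
    have hpy : PythagoreanTriple f v u := by
      unfold PythagoreanTriple; linear_combination -h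
    have hg : Int.gcd f v = 1 := Int.isCoprime_iff_gcd_eq_one.mp hvf.symm
    obtain ⟨m, n, hf', hv', hu', -⟩ := hpy.coprime_classification' hg hf hu
    exact ⟨m + n, by rw [hu', hv']; ring⟩
  · intro hf
    have hv2 : v % 2 = 1 := by
      rcases Int.emod_two_eq_zero_or_one v with hv | hv
      · exfalso
        have := hvf.isUnit_of_dvd' (Int.dvd_of_emod_eq_zero hv) (Int.dvd_of_emod_eq_zero hf)
        rw [Int.isUnit_iff] at this
        omega
      · exact hv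
    have hpy : PythagoreanTriple v f u := by
      unfold PythagoreanTriple; linear_combination -h
    have hg : Int.gcd v f = 1 := Int.isCoprime_iff_gcd_eq_one.mp hvf
    obtain ⟨m, n, hv', hf', hu', -⟩ := hpy.coprime_classification' hg hv2 hu
    exact ⟨m, by rw [hu', hv']; ring⟩

/-- `3 ∤ u` when `u^2 - e^2 = v^2` with `u`, `e` coprime. -/
lemma d15_three_coprime (u e v : ℤ) (hcop : IsCoprime u e) (h : u ^ 2 - e ^ 2 = v ^ 2) :
    IsCoprime u 3 := by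
  have h3 : u % 3 = 1 ∨ u % 3 = 2 := by
    by_contra hcon
    have hu0 : u % 3 = 0 := by omega
    obtain ⟨a, ha⟩ : ∃ a, u = 3 * a := ⟨u / 3, by omega⟩
    have he0 : e % 3 = 0 := by
      by_contra he
      have he' : e % 3 = 1 ∨ e % 3 = 2 := by omega
      have hv' : v % 3 = 0 ∨ v % 3 = 1 ∨ v % 3 = 2 := by omega
      obtain ⟨b, hb⟩ : ∃ b, e = 3 * b + 1 ∨ e = 3 * b + 2 := ⟨e / 3, by omega⟩
      obtain ⟨c, hc⟩ : ∃ c, v = 3 * c ∨ v = 3 * c + 1 ∨ v = 3 * c + 2 := ⟨v / 3, by omega⟩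
      rw [ha] at h
      rcases hb with hb | hb <;> rcases hc with hc | hc | hc <;> rw [hb, hc] at h
      · have : 3 * (3 * a ^ 2 - 3 * b ^ 2 - 2 * b - 3 * c ^ 2) = 1 := by linear_combination h
        omega
      · have : 3 * (3 * a ^ 2 - 3 * b ^ 2 - 2 * b - 3 * c ^ 2 - 2 * c) = 2 := by
          linear_combination h
        omega
      · have : 3 * (3 * a ^ 2 - 3 * b ^ 2 - 2 * b - 3 * c ^ 2 - 4 * c - 1) = 2 := by
          linear_combination h
        omega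
      · have : 3 * (3 * a ^ 2 - 3 * b ^ 2 - 4 * b - 3 * c ^ 2 - 1) = 1 := by linear_combination h
        omega
      · have : 3 * (3 * a ^ 2 - 3 * b ^ 2 - 4 * b - 3 * c ^ 2 - 2 * c - 1) = 2 := by
          linear_combination h
        omega
      · have : 3 * (3 * a ^ 2 - 3 * b ^ 2 - 4 * b - 3 * c ^ 2 - 4 * c - 2) = 2 := by
          linear_combination h
        omega
    have := hcop.isUnit_of_dvd' (Int.dvd_of_emod_eq_zero hu0) (Int.dvd_of_emod_eq_zero he0)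
    rw [Int.isUnit_iff] at this
    omega
  rcases h3 with h3 | h3
  · exact ⟨1, -(u / 3), by omega⟩
  · exact ⟨-1, u / 3 + 1, by omega⟩




/-- integer form of the data of a solution -/
lemma d15_sol_int (x : ℚ) (h0 : IsSquare x) (h1 : IsSquare (x - 1)) (h81 : IsSquare (x - 81)) :
    ∃ (u v w : ℤ) (e : ℕ), 0 < e ∧ 0 ≤ u ∧ 0 ≤ v ∧ 0 ≤ w ∧ IsCoprime u (e : ℤ) ∧
      u ^ 2 - (e : ℤ) ^ 2 = v ^ 2 ∧ u ^ 2 - 81 * (e : ℤ) ^ 2 = w ^ 2 ∧
      x = (u : ℚ) ^ 2 / (e : ℚ) ^ 2 ∧ x.den = e ^ 2 := by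
  obtain ⟨σ0, hσ0⟩ := h0
  obtain ⟨τ, hτ⟩ := h1
  obtain ⟨ρ, hρ⟩ := h81
  set σ : ℚ := |σ0| with hσdef
  have hσ : x = σ ^ 2 := by rw [hσdef, sq_abs, hσ0]; ring
  have hσnn : 0 ≤ σ := abs_nonneg _
  have hden : (σ.den : ℚ) ≠ 0 := by exact_mod_cast σ.den_nz
  have hs : σ = (σ.num : ℚ) / (σ.den : ℚ) := (Rat.num_div_den σ).symm
  have hx : x = (σ.num : ℚ) ^ 2 / (σ.den : ℚ) ^ 2 := by rw [hσ]; nth_rewrite 1 [hs]; ring
  have q1 : IsSquare (((σ.num ^ 2 - (σ.den : ℤ) ^ 2 : ℤ)) : ℚ) := by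
    refine ⟨τ * σ.den, ?_⟩
    have : (τ * σ.den) * (τ * σ.den) = (x - 1) * (σ.den : ℚ) ^ 2 := by rw [hτ]; ring
    rw [this, hx]; push_cast; field_simp
  have q2 : IsSquare (((σ.num ^ 2 - 81 * (σ.den : ℤ) ^ 2 : ℤ)) : ℚ) := by
    refine ⟨ρ * σ.den, ?_⟩
    have : (ρ * σ.den) * (ρ * σ.den) = (x - 81) * (σ.den : ℚ) ^ 2 := by rw [hρ]; ring
    rw [this, hx]; push_cast; field_simp
  rw [Rat.isSquare_intCast_iff] at q1 q2
  obtain ⟨v0, hv0⟩ := q1
  obtain ⟨w0, hw0⟩ := q2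
  refine ⟨σ.num, |v0|, |w0|, σ.den, σ.den_pos, Rat.num_nonneg.mpr hσnn, abs_nonneg _, abs_nonneg _,
    Rat.isCoprime_num_den σ, ?_, ?_, ?_, ?_⟩
  · rw [sq_abs, hv0]; ring
  · rw [sq_abs, hw0]; ring
  · rw [hx]
  · rw [hσ, Rat.den_pow]


lemma d15_den_le_of_div (N D : ℤ) (hD : 0 < D) : (((N : ℚ) / (D : ℚ)).den : ℤ) ≤ D := by
  have h := Rat.den_dvd N D
  rw [Rat.divInt_eq_div] at h
  exact Int.le_of_dvd hD h

/-- The descent d15_step. -/
lemma d15_step (x : ℚ) (h0 : IsSquare x) (h1 : IsSquare (x - 1)) (h81 : IsSquare (x - 81)) :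
    ∃ x' : ℚ, IsSquare x' ∧ IsSquare (x' - 1) ∧ IsSquare (x' - 81) ∧ x'.den < x.den := by
  obtain ⟨u, v, w, e, he, hu0, hv0, hw0, hcop, e1, e2, hx, hxden⟩ := d15_sol_int x h0 h1 h81
  have heZ : (0 : ℤ) < (e : ℤ) := by exact_mod_cast he
  have he1 : (1 : ℤ) ≤ (e : ℤ) := heZ
  -- basic inequalities
  have hv_lt_u : v < u := by nlinarith
  have hw_lt_v : w < v := by nlinarith
  have hv1 : 1 ≤ v := by omega
  have hu1 : 0 < u := by omega
  have hprod : (u - v) * (u + v) = (e : ℤ) ^ 2 := by linear_combination e1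
  -- (u+v)(u+w) is a square
  have hc3 : IsCoprime u 3 := d15_three_coprime u e v hcop e1
  have hcop9 : IsCoprime u (9 * (e : ℤ)) := by
    have : IsCoprime u 9 := by
      have h33 : IsCoprime u (3 * 3) := hc3.mul_right hc3
      norm_num at h33
      exact h33
    exact this.mul_right hcop
  have e2' : u ^ 2 - (9 * (e : ℤ)) ^ 2 = w ^ 2 := by linear_combination e2
  obtain ⟨pA1, pA2⟩ := d15_pyth_sum u v e hu1 hcop e1
  obtain ⟨pB1, pB2⟩ := d15_pyth_sum u w (9 * e) hu1 hcop9 e2'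
  have hk : ∃ k : ℤ, (u + v) * (u + w) = k ^ 2 := by
    rcases Int.emod_two_eq_zero_or_one (e : ℤ) with hpar | hpar
    · obtain ⟨a, ha⟩ := pA2 hpar
      obtain ⟨c, hc⟩ := pB2 (by omega)
      exact ⟨2 * a * c, by rw [ha, hc]; ring⟩
    · obtain ⟨a, ha⟩ := pA1 hpar
      obtain ⟨c, hc⟩ := pB1 (by omega)
      exact ⟨a * c, by rw [ha, hc]; ring⟩
  obtain ⟨k, hk⟩ := hk
  -- rational versions
  have heQ : (e : ℚ) ≠ 0 := by exact_mod_cast he.ne'
  have he2Q : (e : ℚ) ^ 2 ≠ 0 := pow_ne_zero 2 heQ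
  have huvQ : ((u : ℚ) - v) ≠ 0 := by
    have : (0 : ℚ) < (u : ℚ) - v := by exact_mod_cast sub_pos.mpr hv_lt_u
    exact this.ne'
  have huwQ : ((u : ℚ) + w) ≠ 0 := by
    have : (0 : ℚ) < (u : ℚ) + w := by exact_mod_cast (by omega : 0 < u + w)
    exact this.ne'
  have hvwQ : ((v : ℚ) + w) ≠ 0 := by
    have : (0 : ℚ) < (v : ℚ) + w := by exact_mod_cast (by omega : 0 < v + w)
    exact this.ne'
  have e1Q : (u : ℚ) ^ 2 - (e : ℚ) ^ 2 = (v : ℚ) ^ 2 := by exact_mod_cast e1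
  have e2Q : (u : ℚ) ^ 2 - 81 * (e : ℚ) ^ 2 = (w : ℚ) ^ 2 := by exact_mod_cast e2
  have hkQ : ((u : ℚ) + v) * (u + w) = (k : ℚ) ^ 2 := by exact_mod_cast hk
  have hkne : (k : ℚ) ≠ 0 := by
    intro hk0
    rw [hk0] at hkQ
    have : (0 : ℚ) < ((u : ℚ) + v) * (u + w) := by
      have h1 : (0 : ℚ) < (u : ℚ) + v := by exact_mod_cast (by omega : 0 < u + v)
      have h2 : (0 : ℚ) < (u : ℚ) + w := by exact_mod_cast (by omega : 0 < u + w)
      positivity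
    rw [hkQ] at this
    norm_num at this
  set XR : ℚ := ((u : ℚ) + w) / ((u : ℚ) - v) with hXR
  have hXR0 : XR = ((k : ℚ) / e) ^ 2 := by
    rw [hXR, div_pow, ← hkQ, div_eq_div_iff huvQ he2Q]
    linear_combination (-(u : ℚ) - w) * e1Q
  have hXR1 : XR - 1 = ((v : ℚ) + w) / ((u : ℚ) - v) := by
    rw [hXR, div_sub_one huvQ]; congr 1; ring
  have hXR81 : XR - 81 = ((u : ℚ) + w) * (v + w) / (e : ℚ) ^ 2 := by
    rw [sub_eq_iff_eq_add, hXR, div_add' _ _ _ he2Q, div_eq_div_iff huvQ he2Q]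
    linear_combination (-(u : ℚ) - w) * e1Q + ((u : ℚ) - v) * e2Q
  -- squarefree decomposition of `XR - 1`
  obtain ⟨δ, b, hb, hδ⟩ := Nat.sq_mul_squarefree ((v + w) * (u - v)).toNat
  have hpos : 0 < (v + w) * (u - v) := by
    have h1 : 0 < v + w := by omega
    have h2 : 0 < u - v := by omega
    positivity
  have hbZ : (b : ℤ) ^ 2 * (δ : ℤ) = (v + w) * (u - v) := by
    have : ((b ^ 2 * δ : ℕ) : ℤ) = (((v + w) * (u - v)).toNat : ℤ) := by rw [hb]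
    rw [Int.toNat_of_nonneg hpos.le] at this
    rw [← this]; push_cast; ring
  have hbQ : (b : ℚ) ^ 2 * (δ : ℚ) = ((v : ℚ) + w) * ((u : ℚ) - v) := by exact_mod_cast hbZ
  have hbne : (b : ℚ) ≠ 0 := by
    intro hb0
    rw [hb0] at hbQ
    have : ((v : ℚ) + w) * ((u : ℚ) - v) ≠ 0 := mul_ne_zero hvwQ huvQ
    apply this
    rw [← hbQ]; ring
  have hδne : (δ : ℚ) ≠ 0 := by
    intro hd0
    rw [hd0] at hbQ
    have : ((v : ℚ) + w) * ((u : ℚ) - v) ≠ 0 := mul_ne_zero hvwQ huvQ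
    apply this
    rw [← hbQ]; ring
  set τ : ℚ := (b : ℚ) / ((u : ℚ) - v) with hτ
  have hτne : τ ≠ 0 := div_ne_zero hbne huvQ
  have hT1 : XR - 1 = (δ : ℚ) * τ ^ 2 := by
    rw [hXR1, hτ, div_pow, ← mul_div_assoc, div_eq_div_iff huvQ (pow_ne_zero 2 huvQ)]
    linear_combination (-((u : ℚ) - v)) * hbQ
  have hδτ : (δ : ℚ) * τ ^ 2 ≠ 0 := mul_ne_zero hδne (pow_ne_zero 2 hτne)
  set M : ℚ := (k : ℚ) * (v + w) / (e : ℚ) ^ 2 with hM
  have hMne : M ≠ 0 := div_ne_zero (mul_ne_zero hkne hvwQ) he2Q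
  have hMsq : (XR - 1) * (XR - 81) = M ^ 2 := by
    rw [hXR1, hXR81, hM, div_pow, mul_pow, ← hkQ, div_mul_div_comm,
      div_eq_div_iff (mul_ne_zero huvQ he2Q) (pow_ne_zero 2 he2Q)]
    linear_combination (-((u : ℚ) + w) * (v + w) ^ 2 * (e : ℚ) ^ 2) * e1Q
  set ρ : ℚ := M / ((δ : ℚ) * τ) with hρ
  have hρne : ρ ≠ 0 := div_ne_zero hMne (mul_ne_zero hδne hτne)
  have hT81 : XR - 81 = (δ : ℚ) * ρ ^ 2 := by
    have h3 : (δ : ℚ) * ρ ^ 2 * ((δ : ℚ) * τ ^ 2) = M ^ 2 := by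
      rw [hρ]; field_simp
    apply mul_left_cancel₀ hδτ
    rw [← hT1] at h3 ⊢
    rw [hMsq]; linear_combination -h3
  have hδsq : Squarefree ((δ : ℕ) : ℤ) := Int.squarefree_natCast.mpr hδ
  have hcases := d15_delta_cases (δ : ℤ) hδsq ((k : ℚ) / e) τ ρ
    (by rw [← hXR0]; exact_mod_cast hT1) (by rw [← hXR0]; exact_mod_cast hT81)
  have hδ15 : δ = 1 ∨ δ = 5 := by omega
  rcases hδ15 with hδ1 | hδ5
  · -- class (1,1,1): x' = XR
    refine ⟨XR, ⟨(k : ℚ) / e, by rw [hXR0]; ring⟩, ⟨τ, by rw [hT1, hδ1]; push_cast; ring⟩,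
      ⟨ρ, by rw [hT81, hδ1]; push_cast; ring⟩, ?_⟩
    have hle : ((XR.den : ℕ) : ℤ) ≤ u - v := by
      have := d15_den_le_of_div (u + w) (u - v) (by omega)
      have hXR' : XR = ((u + w : ℤ) : ℚ) / ((u - v : ℤ) : ℚ) := by rw [hXR]; push_cast; ring
      rw [hXR']; exact this
    have hlt : u - v < (e : ℤ) ^ 2 := by nlinarith
    have : ((XR.den : ℕ) : ℤ) < ((e ^ 2 : ℕ) : ℤ) := by push_cast; omega
    rw [hxden]; exact_mod_cast this
  · -- class (1,5,5): x' = 81 (u+v)/(u+w)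
    set X' : ℚ := 81 * ((u : ℚ) + v) / ((u : ℚ) + w) with hX'
    have hT1' : XR - 1 = 5 * τ ^ 2 := by rw [hT1, hδ5]; push_cast; ring
    have hT81' : XR - 81 = 5 * ρ ^ 2 := by rw [hT81, hδ5]; push_cast; ring
    have hXmul : X' * (XR - 81) = 81 * (XR - 1) := by
      rw [hXR1, hXR81, hX', div_mul_div_comm, ← mul_div_assoc,
        div_eq_div_iff (mul_ne_zero huwQ he2Q) huvQ]
      linear_combination (81 * ((u : ℚ) + w) * (v + w)) * e1Q
    have hXRe : XR * (e : ℚ) ^ 2 = (k : ℚ) ^ 2 := by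
      rw [hXR0, div_pow, div_mul_cancel₀ _ he2Q]
    have hρρ : ρ * ρ ≠ 0 := mul_ne_zero hρne hρne
    refine ⟨X', ⟨9 * τ / ρ, ?_⟩, ⟨4 * k / (e * ρ), ?_⟩, ⟨36 / ρ, ?_⟩, ?_⟩
    · rw [div_mul_div_comm, eq_div_iff hρρ]
      rw [hT1', hT81'] at hXmul
      linear_combination (1 / 5 : ℚ) * hXmul
    · rw [div_mul_div_comm, eq_div_iff (mul_ne_zero (mul_ne_zero heQ hρne) (mul_ne_zero heQ hρne))]
      have hX1 : (X' - 1) * (5 * ρ ^ 2) = 80 * XR := by
        rw [← hT81']; linear_combination hXmul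
      linear_combination (1 / 5 : ℚ) * (e : ℚ) ^ 2 * hX1 + 16 * hXRe
    · rw [div_mul_div_comm, eq_div_iff hρρ]
      have hX81 : (X' - 81) * (5 * ρ ^ 2) = 6480 := by
        rw [← hT81']; linear_combination hXmul
      linear_combination (1 / 5 : ℚ) * hX81
    · have hle : ((X'.den : ℕ) : ℤ) ≤ u + w := by
        have := d15_den_le_of_div (81 * (u + v)) (u + w) (by omega)
        have hX'' : X' = ((81 * (u + v) : ℤ) : ℚ) / ((u + w : ℤ) : ℚ) := by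
          rw [hX']; push_cast; ring
        rw [hX'']; exact this
      have hlt : u + v ≤ (e : ℤ) ^ 2 := by nlinarith
      have : ((X'.den : ℕ) : ℤ) < ((e ^ 2 : ℕ) : ℤ) := by push_cast; omega
      rw [hxden]; exact_mod_cast this

/-- **Concordant-form theorem**: no rational `x` has `x`, `x - 1`, `x - 81` all squares. -/
theorem concordant_1_81 (x : ℚ) (h0 : IsSquare x) (h1 : IsSquare (x - 1)) (h81 : IsSquare (x - 81)) :
    False := by
  induction' hn : x.den using Nat.strong_induction_on with n ih generalizing x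
  obtain ⟨x', h0', h1', h81', hlt⟩ := d15_step x h0 h1 h81
  exact ih x'.den (hn ▸ hlt) x' h0' h1' h81' rfl




/-- Every nonzero rational is a squarefree integer times a nonzero rational square. -/
lemma d15_sqfree_decomp (q : ℚ) (hq : q ≠ 0) :
    ∃ (δ : ℤ) (τ : ℚ), Squarefree δ ∧ τ ≠ 0 ∧ q = δ * τ ^ 2 := by
  obtain ⟨a, b, hab, ha⟩ := Nat.sq_mul_squarefree (q.num.natAbs * q.den)
  have hnum : q.num ≠ 0 := Rat.num_ne_zero.mpr hq
  have hden : (q.den : ℚ) ≠ 0 := by exact_mod_cast q.den_nz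
  have hpos : 0 < q.num.natAbs * q.den := Nat.mul_pos (Int.natAbs_pos.mpr hnum) q.den_pos
  have hb : b ≠ 0 := by
    rintro rfl
    rw [zero_pow two_ne_zero, zero_mul] at hab
    omega
  have hbQ : (b : ℚ) ≠ 0 := by exact_mod_cast hb
  refine ⟨Int.sign q.num * a, (b : ℚ) / q.den, ?_, div_ne_zero hbQ hden, ?_⟩
  · rw [← Int.squarefree_natAbs, Int.natAbs_mul, Int.natAbs_sign_of_ne_zero hnum, one_mul,
      Int.natAbs_natCast]
    exact ha
  · have h1 : ((Int.sign q.num * (a : ℤ) * (b : ℤ) ^ 2 : ℤ)) = q.num * q.den := by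
      have : ((b ^ 2 * a : ℕ) : ℤ) = ((q.num.natAbs * q.den : ℕ) : ℤ) := by rw [hab]
      push_cast at this
      have h2 : Int.sign q.num * |q.num| = q.num := Int.sign_mul_abs q.num
      calc Int.sign q.num * (a : ℤ) * (b : ℤ) ^ 2 = Int.sign q.num * ((b : ℤ) ^ 2 * a) := by ring
        _ = Int.sign q.num * (|q.num| * q.den) := by rw [this]
        _ = (Int.sign q.num * |q.num|) * q.den := by ring
        _ = q.num * q.den := by rw [h2]
    have h1Q : ((Int.sign q.num : ℤ) : ℚ) * (a : ℚ) * (b : ℚ) ^ 2 = (q.num : ℚ) * (q.den : ℚ) := by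
      exact_mod_cast h1
    have hq' : q = (q.num : ℚ) / (q.den : ℚ) := (Rat.num_div_den q).symm
    push_cast
    rw [div_pow, ← mul_div_assoc, eq_div_iff (pow_ne_zero 2 hden), h1Q]
    nth_rewrite 1 [hq']
    field_simp

/-- No rational point with `y ≠ 0` on `y^2 = x (x - 1) (x - 81)` has `x` a square. -/
theorem no_point_sq_15a2 (s y : ℚ) (hy : y ≠ 0) (h : y ^ 2 = s ^ 2 * (s ^ 2 - 1) * (s ^ 2 - 81)) :
    False := by
  have hs : s ≠ 0 := by
    rintro rfl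
    apply hy
    have : y ^ 2 = 0 := by rw [h]; ring
    exact pow_eq_zero_iff (two_ne_zero) |>.mp this
  have hs1 : s ^ 2 - 1 ≠ 0 := by
    intro h0
    apply hy
    have : y ^ 2 = 0 := by rw [h, h0]; ring
    exact pow_eq_zero_iff (two_ne_zero) |>.mp this
  have hs81 : s ^ 2 - 81 ≠ 0 := by
    intro h0
    apply hy
    have : y ^ 2 = 0 := by rw [h, h0]; ring
    exact pow_eq_zero_iff (two_ne_zero) |>.mp this
  obtain ⟨δ, τ, hδ, hτ, hdec⟩ := d15_sqfree_decomp (s ^ 2 - 1) hs1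
  have hδQ : (δ : ℚ) ≠ 0 := by
    intro h0
    rw [h0] at hdec
    apply hs1
    rw [hdec]; ring
  set r : ℚ := y / (s * (δ * τ)) with hr
  have hrne : r ≠ 0 := div_ne_zero hy (mul_ne_zero hs (mul_ne_zero hδQ hτ))
  have hdec81 : s ^ 2 - 81 = δ * r ^ 2 := by
    have h3 : (δ : ℚ) * r ^ 2 * (s ^ 2 * ((δ : ℚ) * τ ^ 2)) = y ^ 2 := by
      rw [hr]; field_simp
    have hne : s ^ 2 * ((δ : ℚ) * τ ^ 2) ≠ 0 :=
      mul_ne_zero (pow_ne_zero 2 hs) (mul_ne_zero hδQ (pow_ne_zero 2 hτ))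
    apply mul_left_cancel₀ hne
    rw [← hdec] at h3 ⊢
    linear_combination -h3 - h
  rcases d15_delta_cases δ hδ s τ r hdec hdec81 with hd | hd | hd | hd
  · -- δ = 1
    rw [hd] at hdec hdec81
    push_cast at hdec hdec81
    exact concordant_1_81 (s ^ 2) ⟨s, by ring⟩ ⟨τ, by rw [hdec]; ring⟩ ⟨r, by rw [hdec81]; ring⟩
  · -- δ = -1 : x' = 81 / s^2
    rw [hd] at hdec hdec81
    push_cast at hdec hdec81
    refine concordant_1_81 (81 / s ^ 2) ⟨9 / s, by field_simp; norm_num⟩ ⟨r / s, ?_⟩ ⟨9 * τ / s, ?_⟩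
    · rw [div_mul_div_comm, div_sub_one (pow_ne_zero 2 hs), div_eq_div_iff (pow_ne_zero 2 hs) (mul_ne_zero hs hs)]
      linear_combination (-s ^ 2) * hdec81
    · rw [div_mul_div_comm, div_sub' (pow_ne_zero 2 hs), div_eq_div_iff (pow_ne_zero 2 hs) (mul_ne_zero hs hs)]
      linear_combination (-81 * s ^ 2) * hdec
  · -- δ = 5 : x' = 81 (s^2 - 1)/(s^2 - 81)
    rw [hd] at hdec hdec81
    push_cast at hdec hdec81
    have hrr : r * r ≠ 0 := mul_ne_zero hrne hrne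
    refine concordant_1_81 (81 * (s ^ 2 - 1) / (s ^ 2 - 81)) ⟨9 * τ / r, ?_⟩ ⟨4 * s / r, ?_⟩ ⟨36 / r, ?_⟩
    · rw [div_mul_div_comm, div_eq_div_iff hs81 hrr]
      linear_combination (81 * r ^ 2) * hdec - (81 * τ ^ 2) * hdec81
    · rw [div_mul_div_comm, div_sub_one hs81, div_eq_div_iff hs81 hrr]
      linear_combination (-16 * s ^ 2) * hdec81
    · rw [div_mul_div_comm, div_sub' hs81, div_eq_div_iff hs81 hrr]
      linear_combination (-1296 : ℚ) * hdec81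
  · -- δ = -5 : x' = (s^2 - 81)/(s^2 - 1)
    rw [hd] at hdec hdec81
    push_cast at hdec hdec81
    have hττ : τ * τ ≠ 0 := mul_ne_zero hτ hτ
    refine concordant_1_81 ((s ^ 2 - 81) / (s ^ 2 - 1)) ⟨r / τ, ?_⟩ ⟨4 / τ, ?_⟩ ⟨4 * s / τ, ?_⟩
    · rw [div_mul_div_comm, div_eq_div_iff hs1 hττ]
      linear_combination (τ ^ 2) * hdec81 - (r ^ 2) * hdec
    · rw [div_mul_div_comm, div_sub_one hs1, div_eq_div_iff hs1 hττ]
      linear_combination (-16 : ℚ) * hdec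
    · rw [div_mul_div_comm, div_sub' hs1, div_eq_div_iff hs1 hττ]
      linear_combination (-16 * s ^ 2) * hdec

/-- **Rational points of `15a1`**: `Y^2 = X (X - 16) (X + 9)`. -/
theorem descent_15a1 (X Y : ℚ) (h : Y ^ 2 = X * (X - 16) * (X + 9)) :
    X = 0 ∨ X = 16 ∨ X = -9 ∨ X = 36 ∨ X = -4 := by
  by_contra hcon
  simp only [not_or] at hcon
  obtain ⟨h0, h16, h9, h36, h4⟩ := hcon
  have h16' : X - 16 ≠ 0 := sub_ne_zero.mpr h16
  have h9' : X + 9 ≠ 0 := fun hh => h9 (by linarith)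
  have h36' : X - 36 ≠ 0 := sub_ne_zero.mpr h36
  have h4' : X + 4 ≠ 0 := fun hh => h4 (by linarith)
  have hY : Y ≠ 0 := by
    rintro rfl
    have : X * (X - 16) * (X + 9) ≠ 0 := mul_ne_zero (mul_ne_zero h0 h16') h9'
    apply this; rw [← h]; ring
  refine no_point_sq_15a2 (Y / (X - 16)) (Y * (X + 4) * (X - 36) / (X - 16) ^ 2)
    (div_ne_zero (mul_ne_zero (mul_ne_zero hY h4') h36') (pow_ne_zero 2 h16')) ?_
  have e0 : (Y / (X - 16)) ^ 2 = X * (X + 9) / (X - 16) := by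
    rw [div_pow, h, div_eq_div_iff (pow_ne_zero 2 h16') h16']; ring
  have e1 : X * (X + 9) / (X - 16) - 1 = (X + 4) ^ 2 / (X - 16) := by
    rw [div_sub_one h16']; congr 1; ring
  have e81 : X * (X + 9) / (X - 16) - 81 = (X - 36) ^ 2 / (X - 16) := by
    rw [div_sub' h16']; congr 1; ring
  rw [e0, e1, e81, div_pow, mul_pow, mul_pow, h, div_mul_div_comm, div_mul_div_comm,
    div_eq_div_iff (pow_ne_zero 2 (pow_ne_zero 2 h16')) (mul_ne_zero (mul_ne_zero h16' h16') h16')]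
  ring



end Fermat.Agent.E51
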