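import Fermat.Agent.Lib.ES_Period

/-!
# T21 (S21) piece (ES-B): injectivity of the period pairing

If `(1 + ι) P(f) + (1 - ι) P(g) = 0` then the harmonic function `Φ(z) = A(z) + B(-z̄)`
(`A`, `B` the primitives of `f + g`, `f - g`) is `Γ₀(N)`-invariant.  For every `λ` the holomorphic
function `exp (λ A + λ̄ B*)`, `B*(z) = conj (B(-z̄))`, has invariant modulus `exp (Re (λ Φ))` and
extends holomorphically across every cusp, so by the maximum modulus principle it is constant.
Hence `Φ` is constant and `f + g = f - g = 0`.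
-/

set_option autoImplicit false
set_option linter.unusedSectionVars false
set_option linter.style.haveILetI false

open Complex Filter Topology Function UpperHalfPlane CongruenceSubgroup
open scoped MatrixGroups ModularForm Pointwise ComplexConjugate
open Fermat.Agent.Lib.H3

namespace Fermat.Agent.ES

variable {N : ℕ} [NeZero N]

/-- The cusp function of a function of class `Cls` is holomorphic on the unit disc. -/
theorem cls_cuspFunction_diff {G : ℂ → ℂ} (hG : Cls G) :
    DifferentiableOn ℂ (Function.Periodic.cuspFunction 1 G) (Metric.ball 0 1) := by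
  have h1 : (0 : ℝ) < 1 := one_pos
  have hev : ∀ᶠ z in comap Complex.im atTop, DifferentiableAt ℂ G z := by
    have : ∀ᶠ z in comap Complex.im atTop, 0 < z.im :=
      tendsto_comap.eventually (eventually_gt_atTop 0)
    filter_upwards [this] with z hz
    exact hG.diff.differentiableAt (isOpen_UH.mem_nhds hz)
  have hFd0 : DifferentiableAt ℂ (Function.Periodic.cuspFunction 1 G) 0 :=
    Function.Periodic.differentiableAt_cuspFunction_zero h1 hG.per hev hG.zero.boundedAtFilter
  intro q hq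
  rcases eq_or_ne q 0 with rfl | hq0
  · exact hFd0.differentiableWithinAt
  · have hz : 0 < (Function.Periodic.invQParam 1 q).im := by
      rw [Function.Periodic.im_invQParam]
      have hq1 : ‖q‖ < 1 := by simpa using hq
      have hlog : Real.log ‖q‖ < 0 := Real.log_neg (norm_pos_iff.mpr hq0) hq1
      have hpi : (-1 : ℝ) / (2 * Real.pi) < 0 := by
        apply div_neg_of_neg_of_pos <;> [norm_num; positivity]
      exact mul_pos_of_neg_of_neg hpi hlog
    have := Function.Periodic.differentiableAt_cuspFunction one_ne_zero hG.per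
      (hG.diff.differentiableAt (isOpen_UH.mem_nhds hz))
    rw [Function.Periodic.qParam_right_inv one_ne_zero hq0] at this
    exact this.differentiableWithinAt

theorem cls_cuspFunction_eq {G : ℂ → ℂ} (hG : Cls G) (z : ℂ) :
    Function.Periodic.cuspFunction 1 G (Function.Periodic.qParam 1 z) = G z :=
  Function.Periodic.eq_cuspFunction one_ne_zero hG.per z

/-- Maximum modulus principle on `Γ₀(N) \ ℍ` for functions with holomorphic extensions across
the cusps. -/
theorem const_of_cusp_extension (E : ℍ → ℂ) (e : SL(2, ℤ) → ℂ → ℂ)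
    (he : ∀ δ, DifferentiableOn ℂ (e δ) (Metric.ball 0 1))
    (heE : ∀ δ (w : ℍ), e δ (Function.Periodic.qParam 1 ((w : ℂ) / (N : ℂ))) = E (δ • w))
    (hinv : ∀ γ ∈ Gamma0 N, ∀ z : ℍ, ‖E (γ • z)‖ = ‖E z‖) :
    ∀ z z' : ℍ, E z = E z' := by
  classical
  haveI : Fintype (SL(2, ℤ) ⧸ Gamma0 N) := Subgroup.fintypeQuotientOfFiniteIndex
  have : Nonempty (SL(2, ℤ) ⧸ Gamma0 N) := ⟨QuotientGroup.mk 1⟩
  have hN : (0 : ℝ) < N := by exact_mod_cast Nat.pos_of_ne_zero (NeZero.ne N)
  have hNC : (N : ℂ) ≠ 0 := by exact_mod_cast (NeZero.ne N)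
  obtain ⟨r, hr⟩ : ∃ r : ℝ, r = Real.exp (-Real.pi / N) := ⟨_, rfl⟩
  have hr0 : 0 < r := by rw [hr]; exact Real.exp_pos _
  have hr1 : r < 1 := by
    rw [hr, ← Real.exp_zero]
    apply Real.exp_lt_exp.mpr
    have := Real.pi_pos
    exact div_neg_of_neg_of_pos (by linarith) hN
  have hK : IsCompact (Metric.closedBall (0 : ℂ) r) := isCompact_closedBall 0 r
  have hKne : (Metric.closedBall (0 : ℂ) r).Nonempty := ⟨0, Metric.mem_closedBall_self hr0.le⟩
  have hsub : Metric.closedBall (0 : ℂ) r ⊆ Metric.ball 0 1 := Metric.closedBall_subset_ball hr1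
  have hmax : ∀ x : SL(2, ℤ) ⧸ Gamma0 N, ∃ q ∈ Metric.closedBall (0 : ℂ) r,
      IsMaxOn (fun q => ‖e (x.out)⁻¹ q‖) (Metric.closedBall (0 : ℂ) r) q := by
    intro x
    apply hK.exists_isMaxOn hKne
    exact ((he _).continuousOn.mono hsub).norm
  choose qx hqx hqmax using hmax
  obtain ⟨x₀, hx₀⟩ := Finite.exists_max
    (fun x : SL(2, ℤ) ⧸ Gamma0 N => ‖e (x.out)⁻¹ (qx x)‖)
  have hqball : ∀ w : ℍ, Function.Periodic.qParam 1 ((w : ℂ) / (N : ℂ)) ∈ Metric.ball (0 : ℂ) 1 := by
    intro w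
    have him : 0 < ((w : ℂ) / (N : ℂ)).im := by
      rw [show (N : ℂ) = ((N : ℝ) : ℂ) by push_cast; rfl, Complex.div_ofReal_im]
      exact div_pos w.im_pos hN
    simpa using Function.Periodic.norm_qParam_lt_one one_pos him
  -- the global bound
  have hA : ∀ z : ℍ, ‖E z‖ ≤ ‖e (x₀.out)⁻¹ (qx x₀)‖ := by
    intro z
    obtain ⟨g, hg⟩ := ModularGroup.exists_smul_mem_fd z
    obtain ⟨γ', hγ'⟩ := QuotientGroup.mk_out_eq_mul (Gamma0 N) g
    obtain ⟨x, hx⟩ : ∃ x : SL(2, ℤ) ⧸ Gamma0 N, x = QuotientGroup.mk g := ⟨_, rfl⟩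
    rw [← hx] at hγ'
    have hz : (γ' : SL(2, ℤ)) • ((x.out)⁻¹ • (g • z)) = z := by
      rw [hγ', ← mul_smul, ← mul_smul]
      have : (γ' : SL(2, ℤ)) * (g * (γ' : SL(2, ℤ)))⁻¹ * g = 1 := by group
      rw [this, one_smul]
    have hw : Function.Periodic.qParam 1 (((g • z : ℍ) : ℂ) / (N : ℂ)) ∈
        Metric.closedBall (0 : ℂ) r := by
      rw [Metric.mem_closedBall, dist_zero_right, Function.Periodic.norm_qParam, hr]
      apply Real.exp_le_exp.mpr
      have him : (((g • z : ℍ) : ℂ) / (N : ℂ)).im = (g • z).im / N := by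
        rw [show (N : ℂ) = ((N : ℝ) : ℂ) by push_cast; rfl, Complex.div_ofReal_im]
        rfl
      have h3 := ModularGroup.three_le_four_mul_im_sq_of_mem_fd hg
      have hhalf : 1 / 2 ≤ (g • z).im := by nlinarith [(g • z).im_pos]
      rw [him, div_one]
      have hpi := Real.pi_pos
      have h5 : Real.pi / N ≤ 2 * Real.pi * ((g • z).im / N) := by
        rw [← mul_div_assoc]
        apply div_le_div_of_nonneg_right _ hN.le
        nlinarith
      have h6 : -Real.pi / N = -(Real.pi / N) := by ring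
      rw [h6]
      linarith
    have h1 := hinv γ' γ'.2 ((x.out)⁻¹ • (g • z))
    rw [hz] at h1
    rw [h1, ← heE]
    exact le_trans (isMaxOn_iff.mp (hqmax x) _ hw) (hx₀ x)
  -- the bound on the disc
  have hB : IsMaxOn (norm ∘ e (x₀.out)⁻¹) (Metric.ball 0 1) (qx x₀) := by
    rw [isMaxOn_iff]
    intro q hq
    show ‖e (x₀.out)⁻¹ q‖ ≤ ‖e (x₀.out)⁻¹ (qx x₀)‖
    rcases eq_or_ne q 0 with rfl | hq0
    · exact isMaxOn_iff.mp (hqmax x₀) _ (Metric.mem_closedBall_self hr0.le)
    · have hu : 0 < (Function.Periodic.invQParam 1 q).im := by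
        rw [Function.Periodic.im_invQParam]
        have hq1 : ‖q‖ < 1 := by simpa using hq
        have hlog : Real.log ‖q‖ < 0 := Real.log_neg (norm_pos_iff.mpr hq0) hq1
        have hpi : (-1 : ℝ) / (2 * Real.pi) < 0 := by
          apply div_neg_of_neg_of_pos <;> [norm_num; positivity]
        exact mul_pos_of_neg_of_neg hpi hlog
      have hw : 0 < ((N : ℂ) * Function.Periodic.invQParam 1 q).im := by
        have : ((N : ℂ) * Function.Periodic.invQParam 1 q).im =
            N * (Function.Periodic.invQParam 1 q).im := by simp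
        rw [this]
        exact mul_pos hN hu
      have h2 := heE (x₀.out)⁻¹ ⟨(N : ℂ) * Function.Periodic.invQParam 1 q, hw⟩
      have h3 : (((⟨(N : ℂ) * Function.Periodic.invQParam 1 q, hw⟩ : ℍ) : ℂ)) / (N : ℂ) =
          Function.Periodic.invQParam 1 q := by
        show (N : ℂ) * Function.Periodic.invQParam 1 q / (N : ℂ) = _
        rw [mul_div_cancel_left₀ _ hNC]
      rw [h3, Function.Periodic.qParam_right_inv one_ne_zero hq0] at h2
      rw [h2]
      exact hA _
  have hconst := Complex.eqOn_of_isPreconnected_of_isMaxOn_norm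
    (convex_ball (0 : ℂ) 1).isPreconnected Metric.isOpen_ball (he (x₀.out)⁻¹)
    (hsub (hqx x₀)) hB
  have hall : ∀ z : ℍ, E z = e (x₀.out)⁻¹ (qx x₀) := by
    intro z
    have h1 := heE (x₀.out)⁻¹ ((x₀.out) • z)
    rw [← mul_smul, inv_mul_cancel, one_smul] at h1
    rw [← h1]
    exact hconst (hqball _)
  intro z z'
  rw [hall z, hall z']

/-- The reflection `z ↦ -z̄` intertwines `δ` and its conjugate by `diag(1, -1)`. -/
theorem J_smul_smul (δ : SL(2, ℤ)) (w : ℍ) :
    J • (δ • w) = (ModularCurve.Period.jConjSL δ) • (J • w) := by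
  ext
  have h1 := coe_smul_eq_mob (det_mapGL_pos δ) w
  have h2 := coe_smul_eq_mob (det_mapGL_pos (ModularCurve.Period.jConjSL δ)) (J • w)
  have h3 : ((J • (δ • w) : ℍ) : ℂ) = -conj (mob (Matrix.SpecialLinearGroup.mapGL ℝ δ) w) := by
    rw [coe_J_smul]
    congr 2
  have h4 : (((ModularCurve.Period.jConjSL δ) • (J • w) : ℍ) : ℂ) =
      mob (Matrix.SpecialLinearGroup.mapGL ℝ (ModularCurve.Period.jConjSL δ)) (-conj (w : ℂ)) := by
    rw [← coe_J_smul]
    exact h2
  rw [h3, h4]
  simp only [mob, num, denom, map_div₀, map_add, map_mul, Complex.conj_ofReal]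
  have e00 : ((Matrix.SpecialLinearGroup.mapGL ℝ (ModularCurve.Period.jConjSL δ) :
      GL (Fin 2) ℝ) 0 0 : ℝ) = (Matrix.SpecialLinearGroup.mapGL ℝ δ : GL (Fin 2) ℝ) 0 0 := by
    simp [ModularCurve.Period.jConjMat]
  have e01 : ((Matrix.SpecialLinearGroup.mapGL ℝ (ModularCurve.Period.jConjSL δ) :
      GL (Fin 2) ℝ) 0 1 : ℝ) = -(Matrix.SpecialLinearGroup.mapGL ℝ δ : GL (Fin 2) ℝ) 0 1 := by
    simp [ModularCurve.Period.jConjMat]
  have e10 : ((Matrix.SpecialLinearGroup.mapGL ℝ (ModularCurve.Period.jConjSL δ) :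
      GL (Fin 2) ℝ) 1 0 : ℝ) = -(Matrix.SpecialLinearGroup.mapGL ℝ δ : GL (Fin 2) ℝ) 1 0 := by
    simp [ModularCurve.Period.jConjMat]
  have e11 : ((Matrix.SpecialLinearGroup.mapGL ℝ (ModularCurve.Period.jConjSL δ) :
      GL (Fin 2) ℝ) 1 1 : ℝ) = (Matrix.SpecialLinearGroup.mapGL ℝ δ : GL (Fin 2) ℝ) 1 1 := by
    simp [ModularCurve.Period.jConjMat]
  rw [e00, e01, e10, e11]
  push_cast
  rw [← neg_div]
  congr 1 <;> ring

theorem conj_qParam (u : ℂ) :
    conj (Function.Periodic.qParam 1 u) = Function.Periodic.qParam 1 (-conj u) := by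
  unfold Function.Periodic.qParam
  rw [← Complex.exp_conj]
  congr 1
  simp only [map_div₀, map_mul, Complex.conj_ofReal, Complex.conj_I, map_ofNat]
  ring

/-- The holomorphic extension across the cusp `δ ∞`. -/
theorem exists_cusp_extension (a b : CuspForm (Gamma0 N) 2) (l : ℂ) (δ : SL(2, ℤ)) :
    ∃ e : ℂ → ℂ, DifferentiableOn ℂ e (Metric.ball 0 1) ∧
      ∀ w : ℍ, e (Function.Periodic.qParam 1 ((w : ℂ) / (N : ℂ))) =
        Complex.exp (l * PFh a (δ • w) + conj l * conj (PFh b (J • (δ • w)))) := by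
  obtain ⟨LA, GA, hGA, -, hA⟩ := PF_cusp a δ
  obtain ⟨LB, GB, hGB, -, hB⟩ := PF_cusp b (ModularCurve.Period.jConjSL δ)
  have h1 : DifferentiableOn ℂ (Function.Periodic.cuspFunction 1 GA) (Metric.ball 0 1) :=
    cls_cuspFunction_diff hGA
  have h2 : DifferentiableOn ℂ (fun q => conj (Function.Periodic.cuspFunction 1 GB (conj q)))
      (Metric.ball 0 1) := by
    intro q hq
    have hq' : conj q ∈ Metric.ball (0 : ℂ) 1 := by
      rw [Metric.mem_ball, dist_zero_right] at hq ⊢
      rwa [RCLike.norm_conj]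
    have h3 := ((cls_cuspFunction_diff hGB).differentiableAt
      (Metric.isOpen_ball.mem_nhds hq')).conj_conj
    rw [Complex.conj_conj] at h3
    exact h3.differentiableWithinAt
  refine ⟨fun q => Complex.exp (l * (LA + Function.Periodic.cuspFunction 1 GA q) +
    conj l * (conj LB + conj (Function.Periodic.cuspFunction 1 GB (conj q)))), ?_, ?_⟩
  · exact (((h1.const_add LA).const_mul l).add ((h2.const_add (conj LB)).const_mul (conj l))).cexp
  · intro w
    have hNR : (N : ℂ) = ((N : ℝ) : ℂ) := by push_cast; rfl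
    have e1 : PFh a (δ • w) = LA + GA ((w : ℂ) / (N : ℂ)) := by
      rw [PFh_smul, hA w w.im_pos]
    have e2 : PFh b (J • (δ • w)) = LB + GB (-conj ((w : ℂ) / (N : ℂ))) := by
      rw [J_smul_smul, PFh_smul, hB _ (J • w).im_pos, coe_J_smul]
      congr 2
      rw [map_div₀, hNR, Complex.conj_ofReal]
      ring
    show Complex.exp (l * (LA + Function.Periodic.cuspFunction 1 GA
        (Function.Periodic.qParam 1 ((w : ℂ) / (N : ℂ)))) +
      conj l * (conj LB + conj (Function.Periodic.cuspFunction 1 GB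
        (conj (Function.Periodic.qParam 1 ((w : ℂ) / (N : ℂ))))))) = _
    rw [conj_qParam, cls_cuspFunction_eq hGA, cls_cuspFunction_eq hGB, e1, e2, map_add]

/-- If `Φ(z) = A(z) + B(-z̄)` is constant, both cusp forms vanish. -/
theorem eq_zero_of_const (a b : CuspForm (Gamma0 N) 2)
    (h : ∀ z z' : ℍ, PFh a z + PFh b (J • z) = PFh a z' + PFh b (J • z')) : a = 0 ∧ b = 0 := by
  obtain ⟨κ, hκ⟩ : ∃ κ : ℂ, κ = PFh a UpperHalfPlane.I + PFh b (J • UpperHalfPlane.I) := ⟨_, rfl⟩
  have hΦ : ∀ z : ℂ, ∀ hz : z ∈ UH, PF a z + PF b (-conj z) = κ := by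
    intro z hz
    have h1 := h ⟨z, hz⟩ UpperHalfPlane.I
    rw [← hκ] at h1
    have h2 : PFh b (J • (⟨z, hz⟩ : ℍ)) = PF b (-conj z) := by
      unfold PFh
      rw [coe_J_smul]
    rw [h2] at h1
    exact h1
  have key : ∀ (z₀ : ℂ) (hz₀ : z₀ ∈ UH) (hz₀' : -conj z₀ ∈ UH),
      a ⟨z₀, hz₀⟩ = 0 ∧ b ⟨-conj z₀, hz₀'⟩ = 0 := by
    intro z₀ hz₀ hz₀'
    have hda := PF_deriv a hz₀
    have hdb := PF_deriv b hz₀'
    -- horizontal direction
    have hd1 : HasDerivAt (fun s : ℂ => PF a (z₀ + s) + PF b (-conj z₀ - s))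
        (a ⟨z₀, hz₀⟩ * 1 + b ⟨-conj z₀, hz₀'⟩ * (-1)) ((0 : ℝ) : ℂ) := by
      have i1 : HasDerivAt (fun s : ℂ => z₀ + s) 1 ((0 : ℝ) : ℂ) :=
        (hasDerivAt_id _).const_add z₀
      have i2 : HasDerivAt (fun s : ℂ => -conj z₀ - s) (-1) ((0 : ℝ) : ℂ) :=
        (hasDerivAt_id _).const_sub (-conj z₀)
      have o1 : HasDerivAt (PF a) (a ⟨z₀, hz₀⟩) ((fun s : ℂ => z₀ + s) ((0 : ℝ) : ℂ)) := by
        simpa using hda
      have o2 : HasDerivAt (PF b) (b ⟨-conj z₀, hz₀'⟩)
          ((fun s : ℂ => -conj z₀ - s) ((0 : ℝ) : ℂ)) := by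
        simpa using hdb
      have c1 : HasDerivAt (PF a ∘ fun s : ℂ => z₀ + s)
          (a ⟨z₀, hz₀⟩ * 1) ((0 : ℝ) : ℂ) :=
        HasDerivAt.comp (h := fun s : ℂ => z₀ + s) _ o1 i1
      have c2 : HasDerivAt (PF b ∘ fun s : ℂ => -conj z₀ - s)
          (b ⟨-conj z₀, hz₀'⟩ * (-1)) ((0 : ℝ) : ℂ) :=
        HasDerivAt.comp (h := fun s : ℂ => -conj z₀ - s) _ o2 i2
      exact c1.add c2
    have hd1' := hd1.comp_ofReal
    have hc1 : (fun t : ℝ => PF a (z₀ + (t : ℂ)) + PF b (-conj z₀ - (t : ℂ))) = fun _ => κ := by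
      funext t
      have hmem : z₀ + (t : ℂ) ∈ UH := by
        have hz₀im : 0 < z₀.im := hz₀
        show 0 < (z₀ + (t : ℂ)).im
        simpa using hz₀im
      have := hΦ _ hmem
      rw [← this]
      congr 2
      simp only [map_add, Complex.conj_ofReal]
      ring
    rw [hc1] at hd1'
    have e1 := hd1'.unique (hasDerivAt_const (0 : ℝ) κ)
    -- vertical direction
    have hd2 : HasDerivAt (fun s : ℂ => PF a (z₀ + s * Complex.I) + PF b (-conj z₀ + s * Complex.I))
        (a ⟨z₀, hz₀⟩ * Complex.I + b ⟨-conj z₀, hz₀'⟩ * Complex.I) ((0 : ℝ) : ℂ) := by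
      have i0 : HasDerivAt (fun s : ℂ => s * Complex.I) Complex.I ((0 : ℝ) : ℂ) := by
        simpa using (hasDerivAt_id ((0 : ℝ) : ℂ)).mul_const Complex.I
      have i1 : HasDerivAt (fun s : ℂ => z₀ + s * Complex.I) Complex.I ((0 : ℝ) : ℂ) :=
        i0.const_add z₀
      have i2 : HasDerivAt (fun s : ℂ => -conj z₀ + s * Complex.I) Complex.I ((0 : ℝ) : ℂ) :=
        i0.const_add (-conj z₀)
      have o1 : HasDerivAt (PF a) (a ⟨z₀, hz₀⟩)
          ((fun s : ℂ => z₀ + s * Complex.I) ((0 : ℝ) : ℂ)) := by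
        simpa using hda
      have o2 : HasDerivAt (PF b) (b ⟨-conj z₀, hz₀'⟩)
          ((fun s : ℂ => -conj z₀ + s * Complex.I) ((0 : ℝ) : ℂ)) := by
        simpa using hdb
      have c1 : HasDerivAt (PF a ∘ fun s : ℂ => z₀ + s * Complex.I)
          (a ⟨z₀, hz₀⟩ * Complex.I) ((0 : ℝ) : ℂ) :=
        HasDerivAt.comp (h := fun s : ℂ => z₀ + s * Complex.I) _ o1 i1
      have c2 : HasDerivAt (PF b ∘ fun s : ℂ => -conj z₀ + s * Complex.I)
          (b ⟨-conj z₀, hz₀'⟩ * Complex.I) ((0 : ℝ) : ℂ) :=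
        HasDerivAt.comp (h := fun s : ℂ => -conj z₀ + s * Complex.I) _ o2 i2
      exact c1.add c2
    have hd2' := hd2.comp_ofReal
    have hc2 : (fun t : ℝ => PF a (z₀ + (t : ℂ) * Complex.I) +
        PF b (-conj z₀ + (t : ℂ) * Complex.I)) =ᶠ[𝓝 (0 : ℝ)] fun _ => κ := by
      have hz₀im : 0 < z₀.im := hz₀
      filter_upwards [Ioi_mem_nhds (neg_lt_zero.mpr hz₀im)] with t ht
      have ht' : -z₀.im < t := ht
      have hmem : z₀ + (t : ℂ) * Complex.I ∈ UH := by
        show 0 < (z₀ + (t : ℂ) * Complex.I).im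
        simp
        linarith
      have := hΦ _ hmem
      rw [← this]
      congr 2
      simp only [map_add, map_mul, Complex.conj_ofReal, Complex.conj_I]
      ring
    have e2 := (hd2'.congr_of_eventuallyEq hc2.symm).unique (hasDerivAt_const (0 : ℝ) κ)
    have hI : Complex.I ≠ 0 := Complex.I_ne_zero
    have e3 : a ⟨z₀, hz₀⟩ + b ⟨-conj z₀, hz₀'⟩ = 0 := by
      have : (a ⟨z₀, hz₀⟩ + b ⟨-conj z₀, hz₀'⟩) * Complex.I = 0 := by
        linear_combination e2
      exact (mul_eq_zero.mp this).resolve_right hI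
    constructor
    · linear_combination (1 / 2 : ℂ) * e1 + (1 / 2 : ℂ) * e3
    · linear_combination (1 / 2 : ℂ) * e3 - (1 / 2 : ℂ) * e1
  have hJmem : ∀ z : ℍ, -conj (z : ℂ) ∈ UH := by
    intro z
    show 0 < (-conj (z : ℂ)).im
    simpa using z.im_pos
  constructor
  · ext z
    exact (key z z.im_pos (hJmem z)).1
  · ext z
    have hzz : -conj (-conj (z : ℂ)) = z := by simp
    have hmem2 : -conj (-conj (z : ℂ)) ∈ UH := by rw [hzz]; exact z.im_pos
    have h1 := (key (-conj (z : ℂ)) (hJmem z) hmem2).2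
    have h2 : (⟨-conj (-conj (z : ℂ)), hmem2⟩ : ℍ) = z := by
      ext
      exact hzz
    rw [h2] at h1
    exact h1

/-- (ES-B) The period pairing is injective. -/
theorem periodHomPair_injective (N : ℕ) [NeZero N] :
    Function.Injective (ModularCurve.periodHomPair N) := by
  obtain ⟨pml, hpml, hdef⟩ := ModularCurve.periodHomPair_def N (existsPeriodMapLinear N)
  rw [injective_iff_map_eq_zero]
  rintro ⟨f, g⟩ h
  rw [hdef] at h
  have hper : ∀ γ : Gamma0 N, ModularCurve.periodMap N (f + g) (Additive.ofMul γ) +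
      ModularCurve.periodMap N (f - g)
        (Additive.ofMul (ModularCurve.Period.jConjGamma0 N γ)) = 0 := by
    intro γ
    have h1 := DFunLike.congr_fun h (Additive.ofMul γ)
    simp only [LinearMap.coprod_apply, LinearMap.comp_apply, LinearMap.add_apply,
      LinearMap.sub_apply, LinearMap.id_apply, AddMonoidHom.add_apply, AddMonoidHom.sub_apply,
      ModularCurve.Period.charInvolution_apply, hpml, AddMonoidHom.zero_apply,
      toMul_ofMul] at h1
    have h2 : ModularCurve.periodMap N (f + g) =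
        ModularCurve.periodMap N f + ModularCurve.periodMap N g := (periodLin N).map_add f g
    have h3 : ModularCurve.periodMap N (f - g) =
        ModularCurve.periodMap N f - ModularCurve.periodMap N g := (periodLin N).map_sub f g
    rw [h2, h3, AddMonoidHom.add_apply, AddMonoidHom.sub_apply]
    linear_combination h1
  obtain ⟨a, ha⟩ : ∃ a : CuspForm (Gamma0 N) 2, a = f + g := ⟨_, rfl⟩
  obtain ⟨b, hb⟩ : ∃ b : CuspForm (Gamma0 N) 2, b = f - g := ⟨_, rfl⟩
  rw [← ha, ← hb] at hper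
  have hΦ : ∀ γ ∈ Gamma0 N, ∀ z : ℍ,
      PFh a (γ • z) + PFh b (J • (γ • z)) = PFh a z + PFh b (J • z) := by
    intro γ hγ z
    have h1 := periodMap_apply a ⟨γ, hγ⟩ z
    have h2 := periodMap_apply b (ModularCurve.Period.jConjGamma0 N ⟨γ, hγ⟩) (J • z)
    have h3 := hper ⟨γ, hγ⟩
    rw [J_smul_smul]
    have h4 : ((ModularCurve.Period.jConjGamma0 N ⟨γ, hγ⟩ : Gamma0 N) : SL(2, ℤ)) =
        ModularCurve.Period.jConjSL γ := rfl
    rw [h4] at h2
    linear_combination h3 - h1 - h2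
  have key : ∀ (l : ℂ) (z : ℍ), ‖Complex.exp (l * PFh a z + conj l * conj (PFh b (J • z)))‖ =
      Real.exp ((l * (PFh a z + PFh b (J • z))).re) := by
    intro l z
    rw [Complex.norm_exp, ← map_mul, Complex.add_re, Complex.conj_re, ← Complex.add_re, mul_add]
  have hconst : ∀ l : ℂ, ∀ z z' : ℍ,
      Complex.exp (l * PFh a z + conj l * conj (PFh b (J • z))) =
        Complex.exp (l * PFh a z' + conj l * conj (PFh b (J • z'))) := by
    intro l
    choose e he heE using fun δ => exists_cusp_extension a b l δ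
    refine const_of_cusp_extension
      (fun z => Complex.exp (l * PFh a z + conj l * conj (PFh b (J • z)))) e he heE ?_
    intro γ hγ z
    show ‖Complex.exp (l * PFh a (γ • z) + conj l * conj (PFh b (J • (γ • z))))‖ =
      ‖Complex.exp (l * PFh a z + conj l * conj (PFh b (J • z)))‖
    rw [key, key, hΦ γ hγ z]
  have hΦc : ∀ z z' : ℍ, PFh a z + PFh b (J • z) = PFh a z' + PFh b (J • z') := by
    intro z z'
    have h1 := congrArg norm (hconst 1 z z')
    have hi := congrArg norm (hconst Complex.I z z')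
    rw [key, key, Real.exp_eq_exp] at h1 hi
    apply Complex.ext
    · simpa using h1
    · have hre : ∀ w : ℂ, (Complex.I * w).re = -w.im := by intro w; simp
      rw [hre, hre] at hi
      linarith
  obtain ⟨h0a, h0b⟩ := eq_zero_of_const a b hΦc
  rw [ha] at h0a
  rw [hb] at h0b
  have hf : f = 0 := by
    ext z
    have h1 : f z + g z = 0 := by
      have := DFunLike.congr_fun h0a z
      simpa using this
    have h2 : f z - g z = 0 := by
      have := DFunLike.congr_fun h0b z
      simpa using this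
    show f z = 0
    linear_combination (1 / 2 : ℂ) * h1 + (1 / 2 : ℂ) * h2
  have hg : g = 0 := by
    ext z
    have h1 : f z + g z = 0 := by
      have := DFunLike.congr_fun h0a z
      simpa using this
    have h2 : f z - g z = 0 := by
      have := DFunLike.congr_fun h0b z
      simpa using this
    show g z = 0
    linear_combination (1 / 2 : ℂ) * h1 - (1 / 2 : ℂ) * h2
  rw [hf, hg]
  rfl

end Fermat.Agent.ES
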