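import Fermat.Agent.Lib.F5_Defs

set_option autoImplicit false

/-!
# T05 (S05), WP-D1: triples with a point of class `0` (helper9)

* `sgn_dichotomy` : a point near the node lies on exactly one of the two branches.
* `LegTriple.caseEE`  : two points of class `0` ⇒ the third has class `0`.
* `LegTriple.caseNNE` : two points near the node and one of class `0` ⇒ equal valuations and
  opposite branches.
* `LegTriple.caseNME` : impossible.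
-/

namespace Fermat.Agent.F5

variable {K : Type*} [Field K] {A : ValuationSubring K}

theorem caseE_not_wgt_self (v : RVal A) {x : K} (hx : x ≠ 0) : ¬v.Wgt x (v.w x) := fun h =>
  lt_irrefl _ (h.lt hx)

theorem caseE_wge_of_sq (v : RVal A) {x : K} {r : ℝ} (h : v.Wge (x ^ 2) r) :
    v.Wge x (r / 2) := by
  rcases eq_or_ne x 0 with rfl | hx
  · exact RVal.wge_zero _
  · have h1 := h.le (pow_ne_zero 2 hx)
    rw [v.w_sq hx] at h1
    exact RVal.wge_of_le (by linarith)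

theorem caseE_wgt_of_mul (v : RVal A) {x y : K} {r : ℝ} (hy : y ≠ 0) (h : v.Wgt (x * y) r) :
    v.Wgt x (r - v.w y) := by
  rcases eq_or_ne x 0 with rfl | hx
  · exact RVal.wgt_zero _
  · have h1 := h.lt (mul_ne_zero hx hy)
    rw [v.w_mul x y hx hy] at h1
    exact RVal.wgt_of_lt (by linarith)

theorem caseE_wge_two (v : RVal A) {D U ω : K} (h : NodeData v D U ω) : v.Wge (2 : K) 0 :=
  RVal.wge_of_le (le_of_eq h.two_unit.symm)

theorem caseE_wge_four (v : RVal A) {D U ω : K} (h : NodeData v D U ω) : v.Wge (4 : K) 0 := by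
  have e : (4 : K) = 2 * 2 := by norm_num
  rw [e]
  exact ((caseE_wge_two v h).mul (caseE_wge_two v h)).mono (by norm_num)

/-- a point near the node: `w Y = w X` -/
theorem caseE_node_point (v : RVal A) {D U ω : K} (h : NodeData v D U ω) {X Y : K}
    (hY : Y ^ 2 = X * (X - D) * (X + U)) (hN : IsN v D X) : Y ≠ 0 ∧ v.w Y = v.w X := by
  obtain ⟨hX, hpos, hlt⟩ := hN
  obtain ⟨hXD, hwXD⟩ := RVal.w_sub_of_wgt hX (RVal.wgt_of_lt hlt)
  obtain ⟨hXU, hwXU⟩ := RVal.w_add_of_wgt' h.U_ne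
    (show v.Wgt X (v.w U) from RVal.wgt_of_lt (by rw [h.U_unit]; exact hpos))
  have hY2 : Y ^ 2 ≠ 0 := by
    rw [hY]
    exact mul_ne_zero (mul_ne_zero hX hXD) hXU
  have hY0 : Y ≠ 0 := fun h0 => hY2 (by rw [h0]; ring)
  refine ⟨hY0, ?_⟩
  have e := v.w_sq hY0
  rw [hY, v.w_mul _ _ (mul_ne_zero hX hXD) hXU, v.w_mul _ _ hX hXD, hwXD, hwXU, h.U_unit] at e
  linarith

/-- exactly one branch for a point near the node -/
theorem sgn_dichotomy (v : RVal A) {D U ω : K} (h : NodeData v D U ω) {X Y : K}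
    (hY : Y ^ 2 = X * (X - D) * (X + U)) (hN : IsN v D X) :
    (SgnPos v ω X Y ∨ SgnPos v (-ω) X Y) ∧ ¬(SgnPos v ω X Y ∧ SgnPos v (-ω) X Y) := by
  obtain ⟨hX, hpos, hlt⟩ := hN
  have hprod : (Y - ω * X) * (Y - -ω * X) = X * (X ^ 2 - D * X - D * U) := by
    linear_combination hY - X ^ 2 * h.ω_sq
  have hE : v.Wgt (X ^ 2 - D * X - D * U) (v.w X) := by
    have hD : v.Wge D (v.w D) := RVal.wge_self
    have hXs : v.Wge X (v.w X) := RVal.wge_self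
    have hUs : v.Wge U 0 := RVal.wge_of_le (le_of_eq h.U_unit.symm)
    have t1 : v.Wgt (X ^ 2) (v.w X) := (hXs.pow 2).wgt_of_lt (by push_cast; linarith)
    have t2 : v.Wgt (D * X) (v.w X) := (hD.mul hXs).wgt_of_lt (by linarith)
    have t3 : v.Wgt (D * U) (v.w X) := (hD.mul hUs).wgt_of_lt (by linarith)
    exact (t1.sub t2).sub t3
  have hXE : v.Wgt (X * (X ^ 2 - D * X - D * U)) (v.w X + v.w X) :=
    (RVal.wge_self (v := v) (x := X)).mul_wgt hE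
  have h2ωX : (2 : K) * ω * X ≠ 0 := mul_ne_zero (mul_ne_zero h.two_ne h.ω_ne) hX
  have hw2ωX : v.w ((2 : K) * ω * X) = v.w X := by
    rw [v.w_mul _ _ (mul_ne_zero h.two_ne h.ω_ne) hX, v.w_mul _ _ h.two_ne h.ω_ne, h.two_unit,
      h.ω_unit]
    ring
  constructor
  · by_contra hcon
    rw [not_or] at hcon
    obtain ⟨hc1, hc2⟩ := hcon
    have hn1 : Y - ω * X ≠ 0 := fun h0 => hc1 (Or.inl h0)
    have hn2 : Y - -ω * X ≠ 0 := fun h0 => hc2 (Or.inl h0)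
    have hl1 : v.w (Y - ω * X) ≤ v.w X := not_lt.mp fun hl => hc1 (Or.inr hl)
    have hl2 : v.w (Y - -ω * X) ≤ v.w X := not_lt.mp fun hl => hc2 (Or.inr hl)
    have hne : (Y - ω * X) * (Y - -ω * X) ≠ 0 := mul_ne_zero hn1 hn2
    have hw := v.w_mul _ _ hn1 hn2
    have hlt2 := hXE.lt (by rw [← hprod]; exact hne)
    rw [← hprod, hw] at hlt2
    linarith
  · rintro ⟨hs1, hs2⟩
    have hd : v.Wgt ((Y - -ω * X) - (Y - ω * X)) (v.w X) := RVal.Wgt.sub hs2 hs1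
    have e : (Y - -ω * X) - (Y - ω * X) = 2 * ω * X := by ring
    rw [e] at hd
    have := hd.lt h2ωX
    rw [hw2ωX] at this
    exact lt_irrefl _ this

/-- two points of class `0` ⇒ the third one has class `0` -/
theorem LegTriple.caseEE (v : RVal A) {D U ω : K} (h : NodeData v D U ω) (t : LegTriple D U)
    (h1 : IsE v t.X₁) (h2 : IsE v t.X₂) : IsE v t.X₃ := by
  obtain ⟨hX1, h1le⟩ := h1
  obtain ⟨hX2, h2le⟩ := h2
  by_contra hcon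
  have hX3 : v.Wgt t.X₃ 0 := by
    by_cases h0 : t.X₃ = 0
    · exact Or.inl h0
    · exact Or.inr (not_le.mp fun hle => hcon ⟨h0, hle⟩)
  have hμ1 : min (v.w t.X₁) (v.w t.X₂) ≤ v.w t.X₁ := min_le_left _ _
  have hμ2 : min (v.w t.X₁) (v.w t.X₂) ≤ v.w t.X₂ := min_le_right _ _
  have hμs : v.w t.X₁ + v.w t.X₂ ≤ min (v.w t.X₁) (v.w t.X₂) := by
    rcases min_choice (v.w t.X₁) (v.w t.X₂) with hm | hm <;> rw [hm] <;> linarith
  have hμ0 : min (v.w t.X₁) (v.w t.X₂) ≤ 0 := le_trans hμ1 h1le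
  have hD : v.Wge D (v.w D) := RVal.wge_self
  have hUs : v.Wge U 0 := RVal.wge_of_le (le_of_eq h.U_unit.symm)
  have hX1s : v.Wge t.X₁ (v.w t.X₁) := RVal.wge_self
  have hX2s : v.Wge t.X₂ (v.w t.X₂) := RVal.wge_self
  have hDpos := h.D_pos
  have key : 4 * (t.X₁ + t.X₂ + t.X₃ - D + U) * (t.X₁ * t.X₂ * t.X₃) =
      (t.X₁ * t.X₂ + (t.X₃ * (t.X₁ + t.X₂) + D * U)) ^ 2 := by
    linear_combination 4 * (t.X₁ * t.X₂ * t.X₃) * t.s1 + 4 * t.L ^ 2 * t.s3 -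
      (t.X₁ * t.X₂ + t.X₃ * (t.X₁ + t.X₂) + D * U - 2 * t.L * t.ν) * t.s2
  -- the right-hand side
  have hX12 : t.X₁ * t.X₂ ≠ 0 := mul_ne_zero hX1 hX2
  have hw12 : v.w (t.X₁ * t.X₂) = v.w t.X₁ + v.w t.X₂ := v.w_mul _ _ hX1 hX2
  have hsum12 : v.Wge (t.X₁ + t.X₂) (min (v.w t.X₁) (v.w t.X₂)) :=
    (hX1s.mono hμ1).add (hX2s.mono hμ2)
  have hrest : v.Wgt (t.X₃ * (t.X₁ + t.X₂) + D * U) (v.w (t.X₁ * t.X₂)) := by
    rw [hw12]
    have t1 : v.Wgt (t.X₃ * (t.X₁ + t.X₂)) (v.w t.X₁ + v.w t.X₂) :=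
      (hX3.mul_wge hsum12).mono (by linarith)
    have t2 : v.Wgt (D * U) (v.w t.X₁ + v.w t.X₂) := (hD.mul hUs).wgt_of_lt (by linarith)
    exact t1.add t2
  obtain ⟨hR, hwR⟩ := RVal.w_add_of_wgt hX12 hrest
  have hR2 : (t.X₁ * t.X₂ + (t.X₃ * (t.X₁ + t.X₂) + D * U)) ^ 2 ≠ 0 := pow_ne_zero 2 hR
  have hwR2 := v.w_sq hR
  rw [hwR, hw12] at hwR2
  -- the left-hand side
  have hP : v.Wge (t.X₁ + t.X₂ + t.X₃ - D + U) (min (v.w t.X₁) (v.w t.X₂)) :=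
    (((hsum12.add (hX3.wge.mono hμ0)).sub (hD.mono (by linarith))).add (hUs.mono hμ0))
  have hQ : v.Wgt (t.X₁ * t.X₂ * t.X₃) (v.w t.X₁ + v.w t.X₂ + 0) :=
    (hX1s.mul hX2s).mul_wgt hX3
  have hL : v.Wgt (4 * (t.X₁ + t.X₂ + t.X₃ - D + U) * (t.X₁ * t.X₂ * t.X₃))
      (2 * (v.w t.X₁ + v.w t.X₂)) :=
    (((caseE_wge_four v h).mul hP).mul_wgt hQ).mono (by linarith)
  rw [key] at hL
  have := hL.lt hR2
  rw [hwR2] at this
  exact lt_irrefl _ this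

/-- near node, middle, class `0`: impossible -/
theorem LegTriple.caseNME (v : RVal A) {D U ω : K} (h : NodeData v D U ω) (t : LegTriple D U)
    (h1 : IsN v D t.X₁) (h2 : IsM v D t.X₂) (h3 : IsE v t.X₃) : False := by
  obtain ⟨hX1, h1pos, h1lt⟩ := h1
  obtain ⟨hX3, h3le⟩ := h3
  have hX2 : v.Wge t.X₂ (v.w D) := h2
  have hD : v.Wge D (v.w D) := RVal.wge_self
  have hUs : v.Wge U 0 := RVal.wge_of_le (le_of_eq h.U_unit.symm)
  have hX1s : v.Wge t.X₁ (v.w t.X₁) := RVal.wge_self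
  have hX3s : v.Wge t.X₃ (v.w t.X₃) := RVal.wge_self
  have hX13 : t.X₁ * t.X₃ ≠ 0 := mul_ne_zero hX1 hX3
  have hw13 : v.w (t.X₁ * t.X₃) = v.w t.X₁ + v.w t.X₃ := v.w_mul _ _ hX1 hX3
  have hL : v.Wge t.L (v.w t.X₃ / 2) := by
    apply caseE_wge_of_sq
    have e : t.L ^ 2 = t.X₁ + t.X₂ + t.X₃ - D + U := by linear_combination -t.s1
    rw [e]
    exact ((((hX1s.mono (by linarith)).add (hX2.mono (by linarith))).add hX3s).sub
      (hD.mono (by linarith))).add (hUs.mono h3le)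
  have hν : v.Wge t.ν ((v.w t.X₁ + v.w D + v.w t.X₃) / 2) := by
    apply caseE_wge_of_sq
    rw [← t.s3]
    exact (hX1s.mul hX2).mul hX3s
  have key : t.X₁ * t.X₃ = -(D * U) - 2 * t.L * t.ν - t.X₁ * t.X₂ - t.X₂ * t.X₃ := by
    linear_combination t.s2
  have t1 : v.Wgt (D * U) (v.w t.X₁ + v.w t.X₃) := (hD.mul hUs).wgt_of_lt (by linarith)
  have t2 : v.Wgt (2 * t.L * t.ν) (v.w t.X₁ + v.w t.X₃) :=
    (((caseE_wge_two v h).mul hL).mul hν).wgt_of_lt (by linarith)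
  have t3 : v.Wgt (t.X₁ * t.X₂) (v.w t.X₁ + v.w t.X₃) := (hX1s.mul hX2).wgt_of_lt (by linarith)
  have t4 : v.Wgt (t.X₂ * t.X₃) (v.w t.X₁ + v.w t.X₃) := (hX2.mul hX3s).wgt_of_lt (by linarith)
  have hall : v.Wgt (t.X₁ * t.X₃) (v.w t.X₁ + v.w t.X₃) := by
    rw [key]
    exact ((t1.neg.sub t2).sub t3).sub t4
  have := hall.lt hX13
  rw [hw13] at this
  exact lt_irrefl _ this

/-- two points near the node and a point of class `0`: equal valuations, opposite branches -/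
theorem LegTriple.caseNNE (v : RVal A) {D U ω : K} (h : NodeData v D U ω) (t : LegTriple D U)
    (h1 : IsN v D t.X₁) (h2 : IsN v D t.X₂) (h3 : IsE v t.X₃) :
    v.w t.X₁ = v.w t.X₂ ∧ (SgnPos v ω t.X₁ t.Y₁ ↔ ¬SgnPos v ω t.X₂ t.Y₂) := by
  obtain ⟨hY1, hwY1⟩ := caseE_node_point v h t.eq₁ h1
  have hd2 := sgn_dichotomy v h t.eq₂ h2
  obtain ⟨hX1, h1pos, h1lt⟩ := h1
  obtain ⟨hX2, h2pos, h2lt⟩ := h2
  obtain ⟨hX3, h3le⟩ := h3
  have hD : v.Wge D (v.w D) := RVal.wge_self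
  have hUs : v.Wge U 0 := RVal.wge_of_le (le_of_eq h.U_unit.symm)
  have hX1s : v.Wge t.X₁ (v.w t.X₁) := RVal.wge_self
  have hX2s : v.Wge t.X₂ (v.w t.X₂) := RVal.wge_self
  have hν2 : t.ν ^ 2 ≠ 0 := by
    rw [← t.s3]
    exact mul_ne_zero (mul_ne_zero hX1 hX2) hX3
  have hν : t.ν ≠ 0 := fun h0 => hν2 (by rw [h0]; ring)
  have hwν : v.w t.ν = (v.w t.X₁ + v.w t.X₂ + v.w t.X₃) / 2 := by
    have e := v.w_sq hν
    rw [← t.s3, v.w_mul _ _ (mul_ne_zero hX1 hX2) hX3, v.w_mul _ _ hX1 hX2] at e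
    linarith
  have I1 : (t.Y₁ * t.X₂ + t.Y₂ * t.X₁) * t.ν = -(t.X₁ * t.X₂ * (D * U + t.X₁ * t.X₂)) := by
    unfold LegTriple.Y₁ LegTriple.Y₂
    linear_combination t.X₁ * t.X₂ * t.s2 - (t.X₁ + t.X₂) * t.s3
  -- `T = Y₁ X₂ + Y₂ X₁` is small
  have hT : v.Wgt (t.Y₁ * t.X₂ + t.Y₂ * t.X₁) (v.w t.X₁ + v.w t.X₂) := by
    have t1 : v.Wgt (D * U) ((v.w t.X₁ + v.w t.X₂) / 2) := (hD.mul hUs).wgt_of_lt (by linarith)
    have t2 : v.Wgt (t.X₁ * t.X₂) ((v.w t.X₁ + v.w t.X₂) / 2) :=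
      (hX1s.mul hX2s).wgt_of_lt (by linarith)
    have t3 : v.Wgt (t.X₁ * t.X₂ * (D * U + t.X₁ * t.X₂))
        (v.w t.X₁ + v.w t.X₂ + (v.w t.X₁ + v.w t.X₂) / 2) :=
      (hX1s.mul hX2s).mul_wgt (t1.add t2)
    have t4 := caseE_wgt_of_mul v hν (by rw [I1]; exact t3.neg)
    exact t4.mono (by rw [hwν]; linarith)
  refine ⟨?_, ?_, ?_⟩
  · -- equal valuations
    have I2 : t.Y₁ * t.X₂ - t.Y₂ * t.X₁ = t.ν * (t.X₂ - t.X₁) := by
      unfold LegTriple.Y₁ LegTriple.Y₂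
      ring
    have h2Y : (2 : K) * t.Y₁ * t.X₂ ≠ 0 := mul_ne_zero (mul_ne_zero h.two_ne hY1) hX2
    have hw2Y : v.w ((2 : K) * t.Y₁ * t.X₂) = v.w t.X₁ + v.w t.X₂ := by
      rw [v.w_mul _ _ (mul_ne_zero h.two_ne hY1) hX2, v.w_mul _ _ h.two_ne hY1, h.two_unit, hwY1]
      ring
    obtain ⟨hT', hwT'⟩ := RVal.w_sub_of_wgt h2Y
      (show v.Wgt (t.Y₁ * t.X₂ + t.Y₂ * t.X₁) (v.w ((2 : K) * t.Y₁ * t.X₂)) by rw [hw2Y]; exact hT)
    have e : (2 : K) * t.Y₁ * t.X₂ - (t.Y₁ * t.X₂ + t.Y₂ * t.X₁) = t.ν * (t.X₂ - t.X₁) := by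
      rw [← I2]; ring
    rw [e] at hT' hwT'
    have hdiff : t.X₂ - t.X₁ ≠ 0 := right_ne_zero_of_mul hT'
    rw [v.w_mul _ _ hν hdiff, hw2Y, hwν] at hwT'
    by_contra hne
    rcases lt_or_gt_of_ne hne with hlt | hgt
    · obtain ⟨hd, hwd⟩ := RVal.w_sub_of_wgt hX1 (show v.Wgt t.X₂ (v.w t.X₁) from RVal.wgt_of_lt hlt)
      have e2 : t.X₂ - t.X₁ = -(t.X₁ - t.X₂) := by ring
      rw [e2, v.w_neg, hwd] at hwT'
      linarith
    · obtain ⟨hd, hwd⟩ := RVal.w_sub_of_wgt hX2 (show v.Wgt t.X₁ (v.w t.X₂) from RVal.wgt_of_lt hgt)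
      rw [hwd] at hwT'
      linarith
  · intro hs1 hs2
    refine hd2.2 ⟨hs2, ?_⟩
    have e : (t.Y₂ - -ω * t.X₂) * t.X₁ =
        (t.Y₁ * t.X₂ + t.Y₂ * t.X₁) - (t.Y₁ - ω * t.X₁) * t.X₂ := by ring
    have t1 : v.Wgt ((t.Y₁ - ω * t.X₁) * t.X₂) (v.w t.X₁ + v.w t.X₂) := hs1.mul_wge hX2s
    have t2 := caseE_wgt_of_mul v hX1 (by rw [e]; exact hT.sub t1)
    exact t2.mono (by linarith)
  · intro hns2
    have hs2 : SgnPos v (-ω) t.X₂ t.Y₂ := hd2.1.resolve_left hns2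
    have e : (t.Y₁ - ω * t.X₁) * t.X₂ =
        (t.Y₁ * t.X₂ + t.Y₂ * t.X₁) - (t.Y₂ - -ω * t.X₂) * t.X₁ := by ring
    have t1 : v.Wgt ((t.Y₂ - -ω * t.X₂) * t.X₁) (v.w t.X₁ + v.w t.X₂) := by
      have := hs2.mul_wge hX1s
      exact this.mono (by linarith)
    have t2 := caseE_wgt_of_mul v hX2 (by rw [e]; exact hT.sub t1)
    exact t2.mono (by linarith)

end Fermat.Agent.F5
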