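import Mathlib

set_option autoImplicit false

/-!
# T05 (S05): shared definitions (helper8)

* `RVal A` : a real-valued additive valuation on a field `K` adapted to a valuation subring `A`
  (junk value at `0`), with the predicates `Wge x r` (`x = 0 ∨ r ≤ w x`) and `Wgt x r`.
* `LegTriple D U` : three "collinear" points `(Xᵢ, L Xᵢ + ν)` of `Y² = X (X - D) (X + U)`,
  encoded by the three symmetric-function identities.
* `cval` : the class of a point near the node.
-/

namespace Fermat.Agent.F5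

variable {K : Type*} [Field K]

/-- a real-valued additive valuation adapted to the valuation subring `A` (junk at `0`) -/
structure RVal (A : ValuationSubring K) where
  w : K → ℝ
  w_mul : ∀ x y : K, x ≠ 0 → y ≠ 0 → w (x * y) = w x + w y
  w_add : ∀ x y : K, x ≠ 0 → y ≠ 0 → x + y ≠ 0 → min (w x) (w y) ≤ w (x + y)
  mem_iff : ∀ x : K, x ≠ 0 → (x ∈ A ↔ 0 ≤ w x)

namespace RVal

variable {A : ValuationSubring K} (v : RVal A)

theorem w_one : v.w 1 = 0 := by
  have h := v.w_mul 1 1 one_ne_zero one_ne_zero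
  rw [mul_one] at h
  linarith

theorem w_neg_one : v.w (-1) = 0 := by
  have h := v.w_mul (-1) (-1) (neg_ne_zero.mpr one_ne_zero) (neg_ne_zero.mpr one_ne_zero)
  rw [neg_mul_neg, mul_one, v.w_one] at h
  linarith

theorem w_neg (x : K) : v.w (-x) = v.w x := by
  rcases eq_or_ne x 0 with rfl | hx
  · rw [neg_zero]
  · have h := v.w_mul (-1) x (neg_ne_zero.mpr one_ne_zero) hx
    rw [neg_one_mul, v.w_neg_one, zero_add] at h
    exact h

theorem w_inv {x : K} (hx : x ≠ 0) : v.w x⁻¹ = -v.w x := by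
  have h := v.w_mul x x⁻¹ hx (inv_ne_zero hx)
  rw [mul_inv_cancel₀ hx, v.w_one] at h
  linarith

theorem w_div {x y : K} (hx : x ≠ 0) (hy : y ≠ 0) : v.w (x / y) = v.w x - v.w y := by
  rw [div_eq_mul_inv, v.w_mul x y⁻¹ hx (inv_ne_zero hy), v.w_inv hy]
  ring

theorem w_pow {x : K} (hx : x ≠ 0) (n : ℕ) : v.w (x ^ n) = n * v.w x := by
  induction n with
  | zero => simp [v.w_one]
  | succ n ih =>
    rw [pow_succ, v.w_mul _ _ (pow_ne_zero n hx) hx, ih]
    push_cast
    ring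

theorem w_sq {x : K} (hx : x ≠ 0) : v.w (x ^ 2) = 2 * v.w x := by
  rw [v.w_pow hx]
  norm_num

theorem w_sub {x y : K} (hx : x ≠ 0) (hy : y ≠ 0) (hxy : x - y ≠ 0) :
    min (v.w x) (v.w y) ≤ v.w (x - y) := by
  have h := v.w_add x (-y) hx (neg_ne_zero.mpr hy) (by rwa [← sub_eq_add_neg])
  rwa [v.w_neg, ← sub_eq_add_neg] at h

/-- `x = 0` or `r ≤ w x` -/
def Wge (x : K) (r : ℝ) : Prop := x = 0 ∨ r ≤ v.w x

/-- `x = 0` or `r < w x` -/
def Wgt (x : K) (r : ℝ) : Prop := x = 0 ∨ r < v.w x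

variable {v}

theorem wge_zero (r : ℝ) : v.Wge 0 r := Or.inl rfl

theorem wgt_zero (r : ℝ) : v.Wgt 0 r := Or.inl rfl

theorem wge_of_le {x : K} {r : ℝ} (h : r ≤ v.w x) : v.Wge x r := Or.inr h

theorem wgt_of_lt {x : K} {r : ℝ} (h : r < v.w x) : v.Wgt x r := Or.inr h

theorem Wge.le {x : K} {r : ℝ} (h : v.Wge x r) (hx : x ≠ 0) : r ≤ v.w x := h.resolve_left hx

theorem Wgt.lt {x : K} {r : ℝ} (h : v.Wgt x r) (hx : x ≠ 0) : r < v.w x := h.resolve_left hx

theorem Wgt.wge {x : K} {r : ℝ} (h : v.Wgt x r) : v.Wge x r := h.imp id le_of_lt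

theorem Wge.mono {x : K} {r s : ℝ} (h : v.Wge x r) (hs : s ≤ r) : v.Wge x s :=
  h.imp id (le_trans hs)

theorem Wgt.mono {x : K} {r s : ℝ} (h : v.Wgt x r) (hs : s ≤ r) : v.Wgt x s :=
  h.imp id (lt_of_le_of_lt hs)

theorem Wge.wgt_of_lt {x : K} {r s : ℝ} (h : v.Wge x r) (hs : s < r) : v.Wgt x s :=
  h.imp id (lt_of_lt_of_le hs)

theorem Wge.neg {x : K} {r : ℝ} (h : v.Wge x r) : v.Wge (-x) r := by
  rcases h with rfl | h
  · rw [neg_zero]; exact wge_zero r
  · exact Or.inr (by rwa [v.w_neg])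

theorem Wgt.neg {x : K} {r : ℝ} (h : v.Wgt x r) : v.Wgt (-x) r := by
  rcases h with rfl | h
  · rw [neg_zero]; exact wgt_zero r
  · exact Or.inr (by rwa [v.w_neg])

theorem Wge.add {x y : K} {r : ℝ} (hx : v.Wge x r) (hy : v.Wge y r) : v.Wge (x + y) r := by
  rcases hx with rfl | hx
  · rwa [zero_add]
  rcases hy with rfl | hy
  · rw [add_zero]; exact Or.inr hx
  by_cases hxy : x + y = 0
  · exact Or.inl hxy
  by_cases hx0 : x = 0
  · rw [hx0, zero_add]; exact Or.inr hy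
  by_cases hy0 : y = 0
  · rw [hy0, add_zero]; exact Or.inr hx
  exact Or.inr (le_trans (le_min hx hy) (v.w_add x y hx0 hy0 hxy))

theorem Wgt.add {x y : K} {r : ℝ} (hx : v.Wgt x r) (hy : v.Wgt y r) : v.Wgt (x + y) r := by
  rcases hx with rfl | hx
  · rwa [zero_add]
  rcases hy with rfl | hy
  · rw [add_zero]; exact Or.inr hx
  by_cases hxy : x + y = 0
  · exact Or.inl hxy
  by_cases hx0 : x = 0
  · rw [hx0, zero_add]; exact Or.inr hy
  by_cases hy0 : y = 0
  · rw [hy0, add_zero]; exact Or.inr hx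
  exact Or.inr (lt_of_lt_of_le (lt_min hx hy) (v.w_add x y hx0 hy0 hxy))

theorem Wge.sub {x y : K} {r : ℝ} (hx : v.Wge x r) (hy : v.Wge y r) : v.Wge (x - y) r := by
  rw [sub_eq_add_neg]; exact hx.add hy.neg

theorem Wgt.sub {x y : K} {r : ℝ} (hx : v.Wgt x r) (hy : v.Wgt y r) : v.Wgt (x - y) r := by
  rw [sub_eq_add_neg]; exact hx.add hy.neg

theorem Wge.mul {x y : K} {r s : ℝ} (hx : v.Wge x r) (hy : v.Wge y s) :
    v.Wge (x * y) (r + s) := by
  rcases hx with rfl | hx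
  · rw [zero_mul]; exact wge_zero _
  rcases hy with rfl | hy
  · rw [mul_zero]; exact wge_zero _
  by_cases hx0 : x = 0
  · rw [hx0, zero_mul]; exact wge_zero _
  by_cases hy0 : y = 0
  · rw [hy0, mul_zero]; exact wge_zero _
  exact Or.inr (by rw [v.w_mul x y hx0 hy0]; linarith)

theorem Wgt.mul_wge {x y : K} {r s : ℝ} (hx : v.Wgt x r) (hy : v.Wge y s) :
    v.Wgt (x * y) (r + s) := by
  rcases hx with rfl | hx
  · rw [zero_mul]; exact wgt_zero _
  rcases hy with rfl | hy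
  · rw [mul_zero]; exact wgt_zero _
  by_cases hx0 : x = 0
  · rw [hx0, zero_mul]; exact wgt_zero _
  by_cases hy0 : y = 0
  · rw [hy0, mul_zero]; exact wgt_zero _
  exact Or.inr (by rw [v.w_mul x y hx0 hy0]; linarith)

theorem Wge.mul_wgt {x y : K} {r s : ℝ} (hx : v.Wge x r) (hy : v.Wgt y s) :
    v.Wgt (x * y) (r + s) := by
  rw [mul_comm, add_comm]; exact hy.mul_wge hx

theorem Wge.pow {x : K} {r : ℝ} (hx : v.Wge x r) (n : ℕ) : v.Wge (x ^ n) (n * r) := by
  induction n with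
  | zero => simp only [pow_zero, Nat.cast_zero, zero_mul]; exact Or.inr (by rw [v.w_one])
  | succ n ih =>
    rw [pow_succ]
    have := ih.mul hx
    convert this using 1
    push_cast; ring

/-- exact valuation as `Wge` -/
theorem wge_self {x : K} : v.Wge x (v.w x) := Or.inr le_rfl

/-- the dominant term lemma -/
theorem w_add_of_wgt {x y : K} (hx : x ≠ 0) (hy : v.Wgt y (v.w x)) :
    x + y ≠ 0 ∧ v.w (x + y) = v.w x := by
  rcases hy with rfl | hy
  · rw [add_zero]; exact ⟨hx, rfl⟩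
  by_cases hy0 : y = 0
  · rw [hy0, add_zero]; exact ⟨hx, rfl⟩
  have hxy : x + y ≠ 0 := by
    intro h
    have : y = -x := by linear_combination h
    rw [this, v.w_neg] at hy
    exact lt_irrefl _ hy
  refine ⟨hxy, le_antisymm ?_ ?_⟩
  · -- w x ≥ min (w (x+y)) (w y)
    have h := v.w_sub hxy hy0 (by rwa [add_sub_cancel_right])
    rw [add_sub_cancel_right] at h
    rcases min_le_iff.mp h with h | h
    · exact h
    · exact absurd h (not_le.mpr hy)
  · have h := v.w_add x y hx hy0 hxy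
    rwa [min_eq_left hy.le] at h

theorem w_add_of_wgt' {x y : K} (hx : x ≠ 0) (hy : v.Wgt y (v.w x)) :
    y + x ≠ 0 ∧ v.w (y + x) = v.w x := by
  rw [add_comm]; exact w_add_of_wgt hx hy

theorem w_sub_of_wgt {x y : K} (hx : x ≠ 0) (hy : v.Wgt y (v.w x)) :
    x - y ≠ 0 ∧ v.w (x - y) = v.w x := by
  rw [sub_eq_add_neg]; exact w_add_of_wgt hx hy.neg

/-- if `x + y = 0` then the valuations agree -/
theorem w_eq_of_add_eq_zero {x y : K} (h : x + y = 0) : v.w x = v.w y := by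
  have : x = -y := by linear_combination h
  rw [this, v.w_neg]

theorem mem_iff_wge {x : K} : x ∈ A ↔ v.Wge x 0 := by
  rcases eq_or_ne x 0 with rfl | hx
  · exact ⟨fun _ => wge_zero 0, fun _ => A.zero_mem⟩
  · rw [v.mem_iff x hx]
    exact ⟨fun h => Or.inr h, fun h => h.resolve_left hx⟩

theorem mem_nonunits_iff_wgt {x : K} : x ∈ A.nonunits ↔ v.Wgt x 0 := by
  rw [ValuationSubring.mem_nonunits_iff]
  rcases eq_or_ne x 0 with rfl | hx
  · simp [wgt_zero]
  · have h1 : A.valuation x < 1 ↔ x⁻¹ ∉ A := by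
      rw [← A.valuation_le_one_iff, map_inv₀, not_le]
      constructor
      · intro h
        exact (one_lt_inv₀ (zero_lt_iff.mpr (A.valuation.ne_zero_iff.mpr hx))).mpr h
      · intro h
        exact (one_lt_inv₀ (zero_lt_iff.mpr (A.valuation.ne_zero_iff.mpr hx))).mp h
    rw [h1, v.mem_iff _ (inv_ne_zero hx), v.w_inv hx]
    constructor
    · intro h; exact Or.inr (by linarith [not_le.mp h])
    · intro h; have := h.resolve_left hx; exact not_le.mpr (by linarith)

end RVal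

/-! ### Collinear triples on `Y² = X (X - D) (X + U)` -/

/-- three collinear points `(Xᵢ, L Xᵢ + ν)` on the cubic `Y² = X (X - D) (X + U)`, encoded by the
identity `T (T - D) (T + U) - (L T + ν)² = (T - X₁) (T - X₂) (T - X₃)` (three coefficients) -/
structure LegTriple (D U : K) where
  L : K
  ν : K
  X₁ : K
  X₂ : K
  X₃ : K
  s1 : X₁ + X₂ + X₃ = L ^ 2 + D - U
  s2 : X₁ * X₂ + X₁ * X₃ + X₂ * X₃ = -(D * U + 2 * L * ν)
  s3 : X₁ * X₂ * X₃ = ν ^ 2

namespace LegTriple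

variable {D U : K} (t : LegTriple D U)

/-- the `Y`-coordinate of the first point -/
def Y₁ : K := t.L * t.X₁ + t.ν

/-- the `Y`-coordinate of the second point -/
def Y₂ : K := t.L * t.X₂ + t.ν

/-- the `Y`-coordinate of the third point -/
def Y₃ : K := t.L * t.X₃ + t.ν

theorem poly_id (T : K) :
    T * (T - D) * (T + U) - (t.L * T + t.ν) ^ 2 = (T - t.X₁) * (T - t.X₂) * (T - t.X₃) := by
  linear_combination T ^ 2 * t.s1 - T * t.s2 + t.s3

theorem eq₁ : t.Y₁ ^ 2 = t.X₁ * (t.X₁ - D) * (t.X₁ + U) := by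
  have h := t.poly_id t.X₁
  rw [sub_self, zero_mul, zero_mul] at h
  rw [Y₁]
  linear_combination -h

theorem eq₂ : t.Y₂ ^ 2 = t.X₂ * (t.X₂ - D) * (t.X₂ + U) := by
  have h := t.poly_id t.X₂
  rw [sub_self, mul_zero, zero_mul] at h
  rw [Y₂]
  linear_combination -h

theorem eq₃ : t.Y₃ ^ 2 = t.X₃ * (t.X₃ - D) * (t.X₃ + U) := by
  have h := t.poly_id t.X₃
  rw [sub_self, mul_zero] at h
  rw [Y₃]
  linear_combination -h

/-- evaluation of the identity at the root `D` -/
theorem rD : (t.ν + t.L * D) ^ 2 = (t.X₁ - D) * (t.X₂ - D) * (t.X₃ - D) := by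
  have h := t.poly_id D
  linear_combination -h

/-- evaluation of the identity at the root `-U` -/
theorem rU : (t.ν - t.L * U) ^ 2 = (t.X₁ + U) * (t.X₂ + U) * (t.X₃ + U) := by
  have h := t.poly_id (-U)
  linear_combination -h

/-- exchange the first two points -/
def swap12 : LegTriple D U where
  L := t.L
  ν := t.ν
  X₁ := t.X₂
  X₂ := t.X₁
  X₃ := t.X₃
  s1 := by linear_combination t.s1
  s2 := by linear_combination t.s2
  s3 := by linear_combination t.s3

/-- exchange the last two points -/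
def swap23 : LegTriple D U where
  L := t.L
  ν := t.ν
  X₁ := t.X₁
  X₂ := t.X₃
  X₃ := t.X₂
  s1 := by linear_combination t.s1
  s2 := by linear_combination t.s2
  s3 := by linear_combination t.s3

/-- exchange the first and the last point -/
def swap13 : LegTriple D U where
  L := t.L
  ν := t.ν
  X₁ := t.X₃
  X₂ := t.X₂
  X₃ := t.X₁
  s1 := by linear_combination t.s1
  s2 := by linear_combination t.s2
  s3 := by linear_combination t.s3

/-- cyclic rotation `(1, 2, 3) ↦ (2, 3, 1)` -/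
def rot : LegTriple D U where
  L := t.L
  ν := t.ν
  X₁ := t.X₂
  X₂ := t.X₃
  X₃ := t.X₁
  s1 := by linear_combination t.s1
  s2 := by linear_combination t.s2
  s3 := by linear_combination t.s3

/-- a triple for the cubic `(T - e₁) (T - e₂) (T - e₃)`, recentred at the root `e₁` -/
def ofRoots (e₁ e₂ e₃ L N X₁ X₂ X₃ : K)
    (h1 : X₁ + X₂ + X₃ = L ^ 2 + (e₁ + e₂ + e₃))
    (h2 : X₁ * X₂ + X₁ * X₃ + X₂ * X₃ = e₁ * e₂ + e₁ * e₃ + e₂ * e₃ - 2 * L * N)
    (h3 : X₁ * X₂ * X₃ = e₁ * e₂ * e₃ + N ^ 2) : LegTriple (e₂ - e₁) (e₁ - e₃) where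
  L := L
  ν := L * e₁ + N
  X₁ := X₁ - e₁
  X₂ := X₂ - e₁
  X₃ := X₃ - e₁
  s1 := by linear_combination h1
  s2 := by linear_combination h2 - 2 * e₁ * h1
  s3 := by linear_combination h3 - e₁ * h2 + e₁ ^ 2 * h1

end LegTriple

/-! ### The class of a point near the node -/

section cval

variable {A : ValuationSubring K}

/-- the point `(X, Y)` lies on the branch of the node with tangent direction `ω`:
`Y / X ≡ ω` modulo the maximal ideal, written without division -/
def SgnPos (v : RVal A) (ω X Y : K) : Prop := v.Wgt (Y - ω * X) (v.w X)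

open Classical in
/-- the class `c(P) ∈ (-a, a]`, `a = w D`, of a point `(X, Y)` of `Y² = X (X - D) (X + U)`
(`ω² = U`): `a` in the middle class (`X = 0` or `w X ≥ a`), `0` if `w X ≤ 0`, and `± w X` otherwise
(sign `+` iff `Y / X ≡ ω`) -/
noncomputable def cval (v : RVal A) (D ω X Y : K) : ℝ :=
  if X = 0 then v.w D
  else if v.w X ≤ 0 then 0
  else if v.w X < v.w D then (if SgnPos v ω X Y then v.w X else -v.w X)
  else v.w D

/-- the nodal situation: `w D > 0`, `U` a unit with square root `ω`, `2` a unit -/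
structure NodeData (v : RVal A) (D U ω : K) : Prop where
  D_ne : D ≠ 0
  D_pos : 0 < v.w D
  U_ne : U ≠ 0
  U_unit : v.w U = 0
  ω_sq : ω ^ 2 = U
  two_ne : (2 : K) ≠ 0
  two_unit : v.w (2 : K) = 0

theorem NodeData.ω_ne {v : RVal A} {D U ω : K} (h : NodeData v D U ω) : ω ≠ 0 := by
  intro h0
  have := h.ω_sq
  rw [h0] at this
  exact h.U_ne (by rw [← this]; ring)

theorem NodeData.ω_unit {v : RVal A} {D U ω : K} (h : NodeData v D U ω) : v.w ω = 0 := by
  have h1 := v.w_sq h.ω_ne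
  rw [h.ω_sq, h.U_unit] at h1
  linarith

theorem NodeData.neg {v : RVal A} {D U ω : K} (h : NodeData v D U ω) : NodeData v D U (-ω) :=
  { h with ω_sq := by rw [neg_sq]; exact h.ω_sq }

/-- class `0`: the reduction is not the node (`X ≠ 0`, `w X ≤ 0`) -/
def IsE (v : RVal A) (X : K) : Prop := X ≠ 0 ∧ v.w X ≤ 0

/-- near the node, class `± w X` -/
def IsN (v : RVal A) (D X : K) : Prop := X ≠ 0 ∧ 0 < v.w X ∧ v.w X < v.w D

/-- the middle class (class `a = w D`) -/
def IsM (v : RVal A) (D X : K) : Prop := X = 0 ∨ v.w D ≤ v.w X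

theorem type_cases (v : RVal A) (D X : K) : IsE v X ∨ IsN v D X ∨ IsM v D X := by
  by_cases hX : X = 0
  · exact Or.inr (Or.inr (Or.inl hX))
  by_cases h1 : v.w X ≤ 0
  · exact Or.inl ⟨hX, h1⟩
  by_cases h2 : v.w X < v.w D
  · exact Or.inr (Or.inl ⟨hX, not_le.mp h1, h2⟩)
  · exact Or.inr (Or.inr (Or.inr (not_lt.mp h2)))

theorem cval_of_isE {v : RVal A} {D ω X Y : K} (h : IsE v X) : cval v D ω X Y = 0 := by
  rw [cval, if_neg h.1, if_pos h.2]

theorem cval_of_isN_pos {v : RVal A} {D ω X Y : K} (h : IsN v D X) (hs : SgnPos v ω X Y) :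
    cval v D ω X Y = v.w X := by
  rw [cval, if_neg h.1, if_neg (not_le.mpr h.2.1), if_pos h.2.2, if_pos hs]

theorem cval_of_isN_neg {v : RVal A} {D ω X Y : K} (h : IsN v D X) (hs : ¬SgnPos v ω X Y) :
    cval v D ω X Y = -v.w X := by
  rw [cval, if_neg h.1, if_neg (not_le.mpr h.2.1), if_pos h.2.2, if_neg hs]

theorem cval_of_isM {v : RVal A} {D ω X Y : K} (hD : 0 < v.w D) (h : IsM v D X) :
    cval v D ω X Y = v.w D := by
  rw [cval]
  by_cases hX : X = 0
  · rw [if_pos hX]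
  · have h1 := h.resolve_left hX
    rw [if_neg hX, if_neg (not_le.mpr (lt_of_lt_of_le hD h1)), if_neg (not_lt.mpr h1)]

end cval

/-! ### The Frey-type Weierstrass curve and its triples -/

/-- `W` is the curve `y² + x y = x³ + ((B - 1 - A)/4) x² - (A B / 16) x`; in the coordinates
`X = 4 x`, `Y = 8 y + 4 x` it is `Y² = X (X - A) (X + B)` -/
structure IsFreyW (W : WeierstrassCurve.Affine K) (A B : K) : Prop where
  a1 : W.a₁ = 1
  a2 : W.a₂ = (B - 1 - A) / 4
  a3 : W.a₃ = 0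
  a4 : W.a₄ = -(A * B) / 16
  a6 : W.a₆ = 0

open WeierstrassCurve.Affine in
/-- **group law ⇒ collinear triple**: three affine points of the Frey-type curve with sum `0`
give, in the coordinates `X = 4 x`, `Y = 8 y + 4 x`, a line `Y = L X + N` with
`T (T - A) (T + B) - (L T + N)² = ∏ (T - Xᵢ)` -/
theorem frey_triple [DecidableEq K] [CharZero K] {W : WeierstrassCurve.Affine K} {A B : K}
    (hW : IsFreyW W A B) {x₁ y₁ x₂ y₂ x₃ y₃ : K} (h₁ : W.Nonsingular x₁ y₁)
    (h₂ : W.Nonsingular x₂ y₂) (h₃ : W.Nonsingular x₃ y₃)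
    (hsum : Point.some x₁ y₁ h₁ + Point.some x₂ y₂ h₂ + Point.some x₃ y₃ h₃ = 0) :
    ∃ L N : K, 8 * y₁ + 4 * x₁ = L * (4 * x₁) + N ∧ 8 * y₂ + 4 * x₂ = L * (4 * x₂) + N ∧
      8 * y₃ + 4 * x₃ = L * (4 * x₃) + N ∧
      4 * x₁ + 4 * x₂ + 4 * x₃ = L ^ 2 + A - B ∧
      (4 * x₁) * (4 * x₂) + (4 * x₁) * (4 * x₃) + (4 * x₂) * (4 * x₃) = -(A * B + 2 * L * N) ∧
      (4 * x₁) * (4 * x₂) * (4 * x₃) = N ^ 2 := by
  have hne : ¬(x₁ = x₂ ∧ y₁ = W.negY x₂ y₂) := by
    rintro ⟨hx, hy⟩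
    rw [Point.add_of_Y_eq hx hy, zero_add] at hsum
    exact Point.some_ne_zero h₃ hsum
  have hadd : Point.some x₁ y₁ h₁ + Point.some x₂ y₂ h₂ = -Point.some x₃ y₃ h₃ :=
    eq_neg_of_add_eq_zero_left hsum
  rw [Point.add_some hne, Point.neg_some, Point.some.injEq] at hadd
  obtain ⟨hx3, hy3⟩ := hadd
  set ℓ := W.slope x₁ x₂ y₁ y₂ with hℓ
  -- the third point is on the line
  have hy3' : y₃ = ℓ * (x₃ - x₁) + y₁ := by
    have h := congrArg (W.negY x₃) hy3
    rw [WeierstrassCurve.Affine.negY_negY] at h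
    rw [← h, addY, hx3, WeierstrassCurve.Affine.negY_negY, negAddY, hx3]
  -- the second point is on the line
  have hy2' : y₂ = ℓ * (x₂ - x₁) + y₁ := by
    by_cases hx : x₁ = x₂
    · have hy : y₁ ≠ W.negY x₂ y₂ := fun h => hne ⟨hx, h⟩
      have := Y_eq_of_Y_ne h₁.1 h₂.1 hx hy
      rw [← hx, sub_self, mul_zero, zero_add, this]
    · rw [hℓ, slope_of_X_ne hx]
      have : x₁ - x₂ ≠ 0 := sub_ne_zero.mpr hx
      field_simp
      ring
  have hpoly := addPolynomial_slope h₁.1 h₂.1 hne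
  rw [← hℓ, hx3, addPolynomial_eq] at hpoly
  have e0 := congrArg (Polynomial.eval 0) hpoly
  have e1 := congrArg (Polynomial.eval 1) hpoly
  simp only [Cubic.toPoly, Polynomial.eval_neg, Polynomial.eval_add, Polynomial.eval_mul,
    Polynomial.eval_C, Polynomial.eval_pow, Polynomial.eval_X, Polynomial.eval_sub,
    hW.a1, hW.a2, hW.a3, hW.a4, hW.a6] at e0 e1
  have hx3' : x₃ = ℓ ^ 2 + ℓ - (B - 1 - A) / 4 - x₁ - x₂ := by
    rw [← hx3, addX, hW.a1, hW.a2]; ring
  refine ⟨2 * ℓ + 1, 8 * (y₁ - ℓ * x₁), by ring, by rw [hy2']; ring, by rw [hy3']; ring, ?_, ?_, ?_⟩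
  · linear_combination 4 * hx3'
  · linear_combination 16 * e1 - 16 * e0 + 16 * hx3'
  · linear_combination (-64 : K) * e0

end Fermat.Agent.F5
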