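import Fermat.Agent.Lib.F5_Defs

set_option autoImplicit false

/-!
# T05 (S05): the kernel of reduction `E₁` (helper7)

Abstract statements on collinear triples (`LegTriple D U`, cubic `Y² = X (X - D) (X + U)` with
`D`, `U` integral), for a real valuation `v : RVal A`:

* `IsK v X` : `X ≠ 0 ∧ w X < 0` (the point lies in the kernel of reduction);
* `e1_closed` : two points of a triple in `E₁` ⇒ the third one is in `E₁`;
* `e1_add` : for a triple in `E₁`, `z = X / Y` is additive up to higher order;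
* `e1_of_same_red` : two points with the same non-singular reduction differ by a point of `E₁`.
-/

namespace Fermat.Agent.F5

variable {K : Type*} [Field K] {A : ValuationSubring K}

/-- kernel of reduction: `X ≠ 0` and `w X < 0` -/
def IsK (v : RVal A) (X : K) : Prop := X ≠ 0 ∧ v.w X < 0

open RVal

theorem e1_wge_of_sq {v : RVal A} {x : K} {r : ℝ} (h : v.Wge (x ^ 2) (2 * r)) : v.Wge x r := by
  rcases eq_or_ne x 0 with rfl | hx
  · exact wge_zero r
  · have := h.le (pow_ne_zero 2 hx)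
    rw [v.w_sq hx] at this
    exact Or.inr (by linarith)

theorem e1_wge_natCast (v : RVal A) (n : ℕ) : v.Wge (n : K) 0 :=
  mem_iff_wge.mp (natCast_mem A n)

theorem e1_wge_two (v : RVal A) : v.Wge (2 : K) 0 := by
  have := e1_wge_natCast v 2
  simpa using this

/-- not in the kernel of reduction = integral -/
theorem e1_not_isK {v : RVal A} {X : K} (h : ¬IsK v X) : v.Wge X 0 := by
  by_cases hX : X = 0
  · exact Or.inl hX
  · exact Or.inr (not_lt.mp fun hlt => h ⟨hX, hlt⟩)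

/-- the `Y`-coordinate of a point of `E₁` -/
theorem e1_w_Y {v : RVal A} {D U X Y : K} (hD : v.Wge D 0) (hU : v.Wge U 0) (hX : IsK v X)
    (hY : Y ^ 2 = X * (X - D) * (X + U)) : Y ≠ 0 ∧ 2 * v.w Y = 3 * v.w X := by
  have h1 := w_sub_of_wgt hX.1 (hD.wgt_of_lt hX.2)
  have h2 := w_add_of_wgt hX.1 (hU.wgt_of_lt hX.2)
  have hne : X * (X - D) * (X + U) ≠ 0 := mul_ne_zero (mul_ne_zero hX.1 h1.1) h2.1
  have hY0 : Y ≠ 0 := by
    rintro rfl
    apply hne
    rw [← hY]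
    ring
  have h3 : v.w (Y ^ 2) = 3 * v.w X := by
    rw [hY, v.w_mul _ _ (mul_ne_zero hX.1 h1.1) h2.1, v.w_mul _ _ hX.1 h1.1, h1.2, h2.2]
    ring
  rw [v.w_sq hY0] at h3
  exact ⟨hY0, h3⟩

/-- an integral point has an integral `Y`-coordinate -/
theorem e1_wge_Y {v : RVal A} {D U X Y : K} (hD : v.Wge D 0) (hU : v.Wge U 0) (hX : v.Wge X 0)
    (hY : Y ^ 2 = X * (X - D) * (X + U)) : v.Wge Y 0 := by
  apply e1_wge_of_sq
  rw [hY]
  have := (hX.mul (hX.sub hD)).mul (hX.add hU)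
  simpa using this

/-- **`E₁` is closed**: if two points of a collinear triple lie in the kernel of reduction, so
does the third. -/
theorem e1_closed {v : RVal A} {D U : K} (hD : v.Wge D 0) (hU : v.Wge U 0) (t : LegTriple D U)
    (h1 : IsK v t.X₁) (h2 : IsK v t.X₂) : IsK v t.X₃ := by
  by_contra hK
  have h3 : v.Wge t.X₃ 0 := e1_not_isK hK
  obtain ⟨hY1, hwY1⟩ := e1_w_Y hD hU h1 t.eq₁
  obtain ⟨hY2, hwY2⟩ := e1_w_Y hD hU h2 t.eq₂
  have hY3 : v.Wge t.Y₃ 0 := e1_wge_Y hD hU h3 t.eq₃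
  have e13 : t.Y₁ - t.Y₃ = t.L * (t.X₁ - t.X₃) := by
    simp only [LegTriple.Y₁, LegTriple.Y₃]; ring
  have e23 : t.Y₂ - t.Y₃ = t.L * (t.X₂ - t.X₃) := by
    simp only [LegTriple.Y₂, LegTriple.Y₃]; ring
  have a1 := w_sub_of_wgt hY1 (hY3.wgt_of_lt (show v.w t.Y₁ < 0 by linarith [h1.2]))
  have b1 := w_sub_of_wgt h1.1 (h3.wgt_of_lt h1.2)
  have a2 := w_sub_of_wgt hY2 (hY3.wgt_of_lt (show v.w t.Y₂ < 0 by linarith [h2.2]))
  have b2 := w_sub_of_wgt h2.1 (h3.wgt_of_lt h2.2)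
  have hL : t.L ≠ 0 := by
    intro h
    rw [h, zero_mul] at e13
    exact a1.1 e13
  have hwL1 : 2 * v.w t.L = v.w t.X₁ := by
    have := v.w_mul _ _ hL b1.1
    rw [← e13, a1.2, b1.2] at this
    linarith
  have hwL2 : 2 * v.w t.L = v.w t.X₂ := by
    have := v.w_mul _ _ hL b2.1
    rw [← e23, a2.2, b2.2] at this
    linarith
  have hν : v.Wge t.ν (v.w t.L) := by
    have e : t.ν = t.Y₃ - t.L * t.X₃ := by simp only [LegTriple.Y₃]; ring
    rw [e]
    refine (hY3.mono (by linarith [h1.2])).sub ?_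
    have := (wge_self (v := v) (x := t.L)).mul h3
    simpa using this
  have hX12 : t.X₁ * t.X₂ ≠ 0 := mul_ne_zero h1.1 h2.1
  have hw12 : v.w (t.X₁ * t.X₂) = 4 * v.w t.L := by
    rw [v.w_mul _ _ h1.1 h2.1]; linarith
  have hrest : v.Wgt (t.X₁ * t.X₃ + t.X₂ * t.X₃) (v.w (t.X₁ * t.X₂)) := by
    rw [hw12]
    have r1 := (wge_self (v := v) (x := t.X₁)).mul h3
    have r2 := (wge_self (v := v) (x := t.X₂)).mul h3
    have r3 := (r1.mono (s := 2 * v.w t.L) (by linarith)).add (r2.mono (s := 2 * v.w t.L) (by linarith))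
    exact r3.wgt_of_lt (by linarith [h1.2])
  have hlhs := w_add_of_wgt hX12 hrest
  have hrhs : v.Wge (-(D * U + 2 * t.L * t.ν)) (2 * v.w t.L) := by
    refine Wge.neg (Wge.add ((hD.mul hU).mono (by linarith [h1.2])) ?_)
    have := ((e1_wge_two v).mul (wge_self (v := v) (x := t.L))).mul hν
    exact this.mono (by linarith)
  have e : t.X₁ * t.X₂ + (t.X₁ * t.X₃ + t.X₂ * t.X₃) = -(D * U + 2 * t.L * t.ν) := by
    rw [← t.s2]; ring
  rw [e] at hlhs
  have := hrhs.le hlhs.1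
  linarith [hlhs.2, h1.2]

theorem e1_wge_div {v : RVal A} {x y : K} {r : ℝ} (hx : v.Wge x r) (hy : y ≠ 0) :
    v.Wge (x / y) (r - v.w y) := by
  rcases eq_or_ne x 0 with rfl | hx0
  · rw [zero_div]; exact wge_zero _
  · exact Or.inr (by rw [v.w_div hx0 hy]; linarith [hx.le hx0])

/-- `z = X / Y` of a point of `E₁` -/
theorem e1_w_z {v : RVal A} {D U X Y : K} (hD : v.Wge D 0) (hU : v.Wge U 0) (hX : IsK v X)
    (hY : Y ^ 2 = X * (X - D) * (X + U)) : X / Y ≠ 0 ∧ v.w (X / Y) = -v.w X / 2 := by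
  obtain ⟨hY0, hw⟩ := e1_w_Y hD hU hX hY
  refine ⟨div_ne_zero hX.1 hY0, ?_⟩
  rw [v.w_div hX.1 hY0]
  linarith

/-- the exact identity behind the additivity of `z = X / Y` -/
theorem e1_sum_identity {D U : K} (t : LegTriple D U) :
    t.X₁ * t.Y₂ * t.Y₃ + t.X₂ * t.Y₁ * t.Y₃ + t.X₃ * t.Y₁ * t.Y₂ =
      t.ν * (t.ν * (D - U) - 2 * D * U * t.L) := by
  simp only [LegTriple.Y₁, LegTriple.Y₂, LegTriple.Y₃]
  linear_combination 3 * t.L ^ 2 * t.s3 + 2 * t.L * t.ν * t.s2 + t.ν ^ 2 * t.s1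

/-- **additivity of `z = X / Y` on `E₁` up to higher order**: for a collinear triple in the
kernel of reduction, `w (z₁ + z₂ + z₃) ≥ h₁ + h₂ + h₃` where `hᵢ = - w Xᵢ / 2 = w zᵢ`. -/
theorem e1_add {v : RVal A} {D U : K} (hD : v.Wge D 0) (hU : v.Wge U 0) (t : LegTriple D U)
    (h1 : IsK v t.X₁) (h2 : IsK v t.X₂) (h3 : IsK v t.X₃) :
    v.Wge (t.X₁ / t.Y₁ + t.X₂ / t.Y₂ + t.X₃ / t.Y₃)
      (-(v.w t.X₁ + v.w t.X₂ + v.w t.X₃) / 2) := by
  obtain ⟨hY1, hwY1⟩ := e1_w_Y hD hU h1 t.eq₁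
  obtain ⟨hY2, hwY2⟩ := e1_w_Y hD hU h2 t.eq₂
  obtain ⟨hY3, hwY3⟩ := e1_w_Y hD hU h3 t.eq₃
  set H : ℝ := -(v.w t.X₁ + v.w t.X₂ + v.w t.X₃) / 2 with hH
  have hX123 : t.X₁ * t.X₂ * t.X₃ ≠ 0 := mul_ne_zero (mul_ne_zero h1.1 h2.1) h3.1
  have hν0 : t.ν ≠ 0 := by
    intro h
    apply hX123
    rw [t.s3, h]; ring
  have hwν : v.w t.ν = -H := by
    have := v.w_sq hν0
    rw [← t.s3, v.w_mul _ _ (mul_ne_zero h1.1 h2.1) h3.1, v.w_mul _ _ h1.1 h2.1] at this
    rw [hH]; linarith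
  have hL : v.Wge t.L (-H) := by
    apply e1_wge_of_sq
    have e : t.L ^ 2 = t.X₁ + t.X₂ + t.X₃ - D + U := by linear_combination -t.s1
    rw [e]
    have r1 : v.Wge t.X₁ (2 * -H) := Or.inr (by rw [hH]; linarith [h2.2, h3.2])
    have r2 : v.Wge t.X₂ (2 * -H) := Or.inr (by rw [hH]; linarith [h1.2, h3.2])
    have r3 : v.Wge t.X₃ (2 * -H) := Or.inr (by rw [hH]; linarith [h1.2, h2.2])
    have hH0 : 2 * -H ≤ 0 := by rw [hH]; linarith [h1.2, h2.2, h3.2]
    exact (((r1.add r2).add r3).sub (hD.mono hH0)).add (hU.mono hH0)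
  have hH0 : 0 ≤ H := by rw [hH]; linarith [h1.2, h2.2, h3.2]
  have hnum : v.Wge (t.ν * (t.ν * (D - U) - 2 * D * U * t.L)) (-H + -H) := by
    have hν : v.Wge t.ν (-H) := Or.inr hwν.ge
    refine hν.mul (Wge.sub ?_ ?_)
    · have := hν.mul (hD.sub hU)
      simpa using this
    · have := (((e1_wge_two v).mul hD).mul hU).mul hL
      simpa using this
  have hY123 : t.Y₁ * t.Y₂ * t.Y₃ ≠ 0 := mul_ne_zero (mul_ne_zero hY1 hY2) hY3
  have hwY : v.w (t.Y₁ * t.Y₂ * t.Y₃) = -3 * H := by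
    rw [v.w_mul _ _ (mul_ne_zero hY1 hY2) hY3, v.w_mul _ _ hY1 hY2, hH]; linarith
  have e : t.X₁ / t.Y₁ + t.X₂ / t.Y₂ + t.X₃ / t.Y₃ =
      t.ν * (t.ν * (D - U) - 2 * D * U * t.L) / (t.Y₁ * t.Y₂ * t.Y₃) := by
    rw [← e1_sum_identity t]
    field_simp
  rw [e]
  have := e1_wge_div hnum hY123
  rw [hwY] at this
  exact this.mono (by linarith)

/-- **same non-singular reduction ⇒ the difference lies in `E₁`**: for a collinear triple
`(P', -P, P₃)` (so `X₁ = X(P')`, `Y₁ = Y(P')`, `X₂ = X(P)`, `Y₂ = -Y(P)`) with `P` integral,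
`P' ≡ P` modulo the maximal ideal and non-singular reduction at `P`
(`Y(P) ≡ 0 → f'(X(P))` a unit, `f = T (T - D) (T + U)`), the third point is in the kernel of
reduction. -/
theorem e1_of_same_red {v : RVal A} {D U : K} (hD : v.Wge D 0) (hU : v.Wge U 0)
    (h2 : (2 : K) ≠ 0) (hw2 : v.w (2 : K) = 0) (t : LegTriple D U)
    (hX2 : v.Wge t.X₂ 0) (hX : v.Wgt (t.X₁ - t.X₂) 0) (hY : v.Wgt (t.Y₁ + t.Y₂) 0)
    (hns : v.Wgt t.Y₂ 0 → 3 * t.X₂ ^ 2 + 2 * (U - D) * t.X₂ - D * U ≠ 0 ∧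
      v.w (3 * t.X₂ ^ 2 + 2 * (U - D) * t.X₂ - D * U) = 0) : IsK v t.X₃ := by
  have hX1 : v.Wge t.X₁ 0 := by
    have := hX.wge.add hX2
    rwa [sub_add_cancel] at this
  have hY2 : v.Wge t.Y₂ 0 := e1_wge_Y hD hU hX2 t.eq₂
  -- the slope has negative valuation
  have hL : t.L ≠ 0 ∧ v.w t.L < 0 := by
    by_cases hcase : v.Wgt t.Y₂ 0
    · -- `Y ≡ 0`: use `L (Y₁ + Y₂) = g`
      obtain ⟨hf0, hwf⟩ := hns hcase
      have eg : t.L * (t.Y₁ + t.Y₂) = (3 * t.X₂ ^ 2 + 2 * (U - D) * t.X₂ - D * U) +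
          (t.X₁ - t.X₂) * (t.X₁ + 2 * t.X₂ + U - D) := by
        simp only [LegTriple.Y₁, LegTriple.Y₂]
        linear_combination -(t.X₁ + t.X₂) * t.s1 + t.s2
      have hsmall : v.Wgt ((t.X₁ - t.X₂) * (t.X₁ + 2 * t.X₂ + U - D))
          (v.w (3 * t.X₂ ^ 2 + 2 * (U - D) * t.X₂ - D * U)) := by
        rw [hwf]
        have r : v.Wge (t.X₁ + 2 * t.X₂ + U - D) 0 := by
          have r2 : v.Wge (2 * t.X₂) 0 := by
            have := (e1_wge_two v).mul hX2
            simpa using this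
          exact ((hX1.add r2).add hU).sub hD
        have := hX.mul_wge r
        simpa using this
      have hg := w_add_of_wgt hf0 hsmall
      rw [← eg, hwf] at hg
      have hL0 : t.L ≠ 0 := by
        intro h
        rw [h, zero_mul] at hg
        exact hg.1 rfl
      have hYY0 : t.Y₁ + t.Y₂ ≠ 0 := by
        intro h
        rw [h, mul_zero] at hg
        exact hg.1 rfl
      have := v.w_mul _ _ hL0 hYY0
      rw [hg.2] at this
      exact ⟨hL0, by linarith [hY.lt hYY0]⟩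
    · -- `Y` a unit: use `Y₁ - Y₂ = L (X₁ - X₂)`
      have hY20 : t.Y₂ ≠ 0 := fun h => hcase (Or.inl h)
      have hwY2 : v.w t.Y₂ = 0 := by
        have h1 := hY2.le hY20
        have h3 : ¬ (0 < v.w t.Y₂) := fun h => hcase (Or.inr h)
        linarith [not_lt.mp h3]
      have e : t.Y₁ - t.Y₂ = t.L * (t.X₁ - t.X₂) := by
        simp only [LegTriple.Y₁, LegTriple.Y₂]; ring
      have e' : t.Y₁ - t.Y₂ = -(2 * t.Y₂) + (t.Y₁ + t.Y₂) := by ring
      have h2Y : -(2 * t.Y₂) ≠ 0 := neg_ne_zero.mpr (mul_ne_zero h2 hY20)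
      have hw2Y : v.w (-(2 * t.Y₂)) = 0 := by
        rw [v.w_neg, v.w_mul _ _ h2 hY20, hw2, hwY2]; ring
      have hd := w_add_of_wgt h2Y (show v.Wgt (t.Y₁ + t.Y₂) (v.w (-(2 * t.Y₂))) by rwa [hw2Y])
      rw [← e', e, hw2Y] at hd
      have hL0 : t.L ≠ 0 := by
        intro h
        rw [h, zero_mul] at hd
        exact hd.1 rfl
      have hXX0 : t.X₁ - t.X₂ ≠ 0 := by
        intro h
        rw [h, mul_zero] at hd
        exact hd.1 rfl
      have := v.w_mul _ _ hL0 hXX0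
      rw [hd.2] at this
      exact ⟨hL0, by linarith [hX.lt hXX0]⟩
  obtain ⟨hL0, hwL⟩ := hL
  have e3 : t.X₃ = t.L ^ 2 + (D - U - t.X₁ - t.X₂) := by linear_combination t.s1
  have hL2 : t.L ^ 2 ≠ 0 := pow_ne_zero 2 hL0
  have hwL2 : v.w (t.L ^ 2) = 2 * v.w t.L := v.w_sq hL0
  have hrest : v.Wgt (D - U - t.X₁ - t.X₂) (v.w (t.L ^ 2)) := by
    rw [hwL2]
    exact ((((hD.sub hU).sub hX1).sub hX2)).wgt_of_lt (by linarith)
  have h := w_add_of_wgt hL2 hrest
  rw [← e3] at h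
  exact ⟨h.1, by rw [h.2, hwL2]; linarith⟩

/-! ### Group level: points of the Frey-type curve -/

section Group

open WeierstrassCurve.Affine

set_option linter.unusedSectionVars false

variable [DecidableEq K] {W : WeierstrassCurve.Affine K} {A' B' : K}

/-- the Legendre coordinate `X = 4 x` of a point (`0` at the origin) -/
def e1_X : W.Point → K
  | .zero => 0
  | .some x _ _ => 4 * x

/-- the Legendre coordinate `Y = 8 y + 4 x` of a point (`0` at the origin) -/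
def e1_Y : W.Point → K
  | .zero => 0
  | .some x y _ => 8 * y + 4 * x

/-- the local parameter `z = X / Y` at the origin (`0` at the origin) -/
def e1_Z (P : W.Point) : K := e1_X P / e1_Y P

/-- the kernel of reduction as a set of points -/
def E1 (v : RVal A) (P : W.Point) : Prop := P = 0 ∨ IsK v (e1_X P)

@[simp] theorem e1_X_zero : e1_X (0 : W.Point) = 0 := rfl

@[simp] theorem e1_Y_zero : e1_Y (0 : W.Point) = 0 := rfl

@[simp] theorem e1_Z_zero : e1_Z (0 : W.Point) = 0 := by simp [e1_Z]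

@[simp] theorem e1_X_some {x y : K} (h : W.Nonsingular x y) : e1_X (Point.some x y h) = 4 * x :=
  rfl

@[simp] theorem e1_Y_some {x y : K} (h : W.Nonsingular x y) :
    e1_Y (Point.some x y h) = 8 * y + 4 * x := rfl

theorem e1_X_neg (P : W.Point) : e1_X (-P) = e1_X P := by
  cases P with
  | zero => rfl
  | some x y h => rw [Point.neg_some]; rfl

theorem e1_Y_neg (hW : IsFreyW W A' B') (P : W.Point) : e1_Y (-P) = -e1_Y P := by
  cases P with
  | zero => show e1_Y (-(0 : W.Point)) = -e1_Y (0 : W.Point); simp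
  | some x y h =>
    rw [Point.neg_some, e1_Y_some, e1_Y_some, WeierstrassCurve.Affine.negY, hW.a1, hW.a3]
    ring

theorem e1_Z_neg (hW : IsFreyW W A' B') (P : W.Point) : e1_Z (-P) = -e1_Z P := by
  rw [e1_Z, e1_Z, e1_X_neg, e1_Y_neg hW, div_neg]

/-- the Legendre equation `Y² = X (X - A) (X + B)` -/
theorem e1_equation [CharZero K] (hW : IsFreyW W A' B') (P : W.Point) :
    e1_Y P ^ 2 = e1_X P * (e1_X P - A') * (e1_X P + B') := by
  cases P with
  | zero => show e1_Y (0 : W.Point) ^ 2 = e1_X (0 : W.Point) * _ * _; simp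
  | some x y h =>
    have h1 := (WeierstrassCurve.Affine.equation_iff _ _).mp h.1
    rw [hW.a1, hW.a2, hW.a3, hW.a4, hW.a6] at h1
    have h4 : (4 : K) ≠ 0 := by norm_num
    have h16 : (16 : K) ≠ 0 := by norm_num
    have e2 : (B' - 1 - A') / 4 * 4 = B' - 1 - A' := div_mul_cancel₀ _ h4
    have e4 : -(A' * B') / 16 * 16 = -(A' * B') := div_mul_cancel₀ _ h16
    rw [e1_X_some, e1_Y_some]
    linear_combination 64 * h1 + 16 * x ^ 2 * e2 + 4 * x * e4

/-- three non-zero points with sum `0` form a collinear triple -/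
theorem e1_exists_triple [CharZero K] (hW : IsFreyW W A' B') {P Q R : W.Point} (hP : P ≠ 0)
    (hQ : Q ≠ 0) (hR : R ≠ 0) (h : P + Q + R = 0) :
    ∃ t : LegTriple A' B', t.X₁ = e1_X P ∧ t.X₂ = e1_X Q ∧ t.X₃ = e1_X R ∧
      t.Y₁ = e1_Y P ∧ t.Y₂ = e1_Y Q ∧ t.Y₃ = e1_Y R := by
  cases P with
  | zero => exact absurd rfl hP
  | some x₁ y₁ h₁ =>
  cases Q with
  | zero => exact absurd rfl hQ
  | some x₂ y₂ h₂ =>
  cases R with
  | zero => exact absurd rfl hR
  | some x₃ y₃ h₃ =>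
  obtain ⟨L, N, e1, e2, e3, s1, s2, s3⟩ := frey_triple hW h₁ h₂ h₃ h
  exact ⟨⟨L, N, 4 * x₁, 4 * x₂, 4 * x₃, s1, s2, s3⟩, rfl, rfl, rfl, e1.symm, e2.symm, e3.symm⟩

theorem e1_neg_mem {v : RVal A} {P : W.Point} (hP : E1 v P) : E1 v (-P) := by
  rcases hP with rfl | hP
  · exact Or.inl neg_zero
  · exact Or.inr (by rwa [e1_X_neg])

/-- **`E₁` is closed under addition** -/
theorem e1_add_mem [CharZero K] (hW : IsFreyW W A' B') {v : RVal A} (hA : v.Wge A' 0)
    (hB : v.Wge B' 0) {P Q : W.Point} (hP : E1 v P) (hQ : E1 v Q) : E1 v (P + Q) := by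
  rcases hP with rfl | hP
  · rwa [zero_add]
  rcases hQ with rfl | hQ
  · rw [add_zero]; exact Or.inr hP
  by_cases hR : P + Q = 0
  · exact Or.inl hR
  have hP0 : P ≠ 0 := by rintro rfl; exact hP.1 rfl
  have hQ0 : Q ≠ 0 := by rintro rfl; exact hQ.1 rfl
  obtain ⟨t, tX1, tX2, tX3, -, -, -⟩ := e1_exists_triple hW hP0 hQ0 (neg_ne_zero.mpr hR)
    (add_neg_cancel (P + Q))
  have := e1_closed hA hB t (by rwa [tX1]) (by rwa [tX2])
  rw [tX3, e1_X_neg] at this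
  exact Or.inr this

/-- `z` of a non-zero point of `E₁` -/
theorem e1_w_Z [CharZero K] (hW : IsFreyW W A' B') {v : RVal A} (hA : v.Wge A' 0) (hB : v.Wge B' 0)
    {P : W.Point} (hP : IsK v (e1_X P)) : e1_Z P ≠ 0 ∧ v.w (e1_Z P) = -v.w (e1_X P) / 2 :=
  e1_w_z hA hB hP (e1_equation hW P)

/-- **`z` is additive on `E₁` up to higher order** -/
theorem e1_Z_add [CharZero K] (hW : IsFreyW W A' B') {v : RVal A} (hA : v.Wge A' 0)
    (hB : v.Wge B' 0) {P Q : W.Point} {h : ℝ} (hh : 0 < h) (hP : E1 v P) (hQ : E1 v Q)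
    (hPh : v.Wge (e1_Z P) h) (hQh : v.Wge (e1_Z Q) h) :
    v.Wge (e1_Z (P + Q) - e1_Z P - e1_Z Q) (3 * h) := by
  rcases hP with rfl | hP
  · simp [wge_zero]
  rcases hQ with rfl | hQ
  · simp [wge_zero]
  have hP0 : P ≠ 0 := by rintro rfl; exact hP.1 rfl
  have hQ0 : Q ≠ 0 := by rintro rfl; exact hQ.1 rfl
  by_cases hR : P + Q = 0
  · have : Q = -P := (neg_eq_of_add_eq_zero_right hR).symm
    rw [hR, this, e1_Z_neg hW]
    simp [wge_zero]
  obtain ⟨t, tX1, tX2, tX3, tY1, tY2, tY3⟩ := e1_exists_triple hW hP0 hQ0 (neg_ne_zero.mpr hR)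
    (add_neg_cancel (P + Q))
  have hK3 := e1_closed hA hB t (by rwa [tX1]) (by rwa [tX2])
  have hadd := e1_add hA hB t (by rwa [tX1]) (by rwa [tX2]) hK3
  rw [tX1, tX2, tX3, tY1, tY2, tY3, e1_X_neg, e1_Y_neg hW, div_neg] at hadd
  rw [tX3, e1_X_neg] at hK3
  have zP := e1_w_Z hW hA hB hP
  have zQ := e1_w_Z hW hA hB hQ
  have zR := e1_w_Z hW hA hB hK3
  have hhP : h ≤ -v.w (e1_X P) / 2 := by rw [← zP.2]; exact hPh.le zP.1
  have hhQ : h ≤ -v.w (e1_X Q) / 2 := by rw [← zQ.2]; exact hQh.le zQ.1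
  change v.Wge (e1_Z P + e1_Z Q + -e1_Z (P + Q)) _ at hadd
  have hhR : h ≤ -v.w (e1_X (P + Q)) / 2 := by
    have h1 : v.Wge (e1_Z P + e1_Z Q + -e1_Z (P + Q)) h := hadd.mono (by linarith [hK3.2])
    have h2 : v.Wge (e1_Z (P + Q)) h := by
      have := (hPh.add hQh).sub h1
      have e : e1_Z P + e1_Z Q - (e1_Z P + e1_Z Q + -e1_Z (P + Q)) = e1_Z (P + Q) := by ring
      rwa [e] at this
    rw [← zR.2]; exact h2.le zR.1
  have e : e1_Z (P + Q) - e1_Z P - e1_Z Q = -(e1_Z P + e1_Z Q + -e1_Z (P + Q)) := by ring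
  rw [e]
  exact (hadd.mono (by linarith)).neg

/-- multiples of a point of `E₁`: `z (k • P) ≡ k z(P)` up to higher order -/
theorem e1_nsmul [CharZero K] (hW : IsFreyW W A' B') {v : RVal A} (hA : v.Wge A' 0)
    (hB : v.Wge B' 0) {P : W.Point} (hP : IsK v (e1_X P)) (k : ℕ) :
    E1 v (k • P) ∧ v.Wge (e1_Z (k • P) - k * e1_Z P) (3 * (-v.w (e1_X P) / 2)) := by
  have zP := e1_w_Z hW hA hB hP
  set h : ℝ := -v.w (e1_X P) / 2 with hh
  have hpos : 0 < h := by rw [hh]; linarith [hP.2]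
  have hPh : v.Wge (e1_Z P) h := Or.inr zP.2.ge
  induction k with
  | zero => simp [E1, wge_zero]
  | succ k ih =>
    obtain ⟨ihE, ihZ⟩ := ih
    rw [succ_nsmul]
    refine ⟨e1_add_mem hW hA hB ihE (Or.inr hP), ?_⟩
    have hkP : v.Wge ((k : K) * e1_Z P) h := by
      have := (e1_wge_natCast v k).mul hPh
      simpa using this
    have hQh : v.Wge (e1_Z (k • P)) h := by
      have := (ihZ.mono (show h ≤ 3 * h by linarith)).add hkP
      rwa [sub_add_cancel] at this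
    have hadd := e1_Z_add hW hA hB hpos ihE (Or.inr hP) hQh hPh
    have e : e1_Z (k • P + P) - ((k + 1 : ℕ) : K) * e1_Z P =
        (e1_Z (k • P + P) - e1_Z (k • P) - e1_Z P) + (e1_Z (k • P) - k * e1_Z P) := by
      push_cast; ring
    rw [e]
    exact hadd.add ihZ

/-- **the kernel of reduction has no `n`-torsion for `n` a unit** -/
theorem e1_no_torsion [CharZero K] (hW : IsFreyW W A' B') {v : RVal A} (hA : v.Wge A' 0)
    (hB : v.Wge B' 0) {P : W.Point} (hP : E1 v P) {n : ℕ} (hn : n ≠ 0) (hwn : v.w (n : K) = 0)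
    (h : n • P = 0) : P = 0 := by
  rcases hP with hP | hP
  · exact hP
  exfalso
  have zP := e1_w_Z hW hA hB hP
  have key := (e1_nsmul hW hA hB hP n).2
  rw [h, e1_Z_zero, zero_sub] at key
  have hn0 : (n : K) ≠ 0 := Nat.cast_ne_zero.mpr hn
  have hne : -((n : K) * e1_Z P) ≠ 0 := neg_ne_zero.mpr (mul_ne_zero hn0 zP.1)
  have := key.le hne
  rw [v.w_neg, v.w_mul _ _ hn0 zP.1, hwn, zP.2] at this
  linarith [hP.2]

end Group

end Fermat.Agent.F5
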