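import Fermat.Agent.Lib.F5_E1

set_option autoImplicit false

/-!
# T05 (S05): the kernel of reduction, statements in the shape of the work-package list (helper7)

`LegTriple.e1_closed`, `LegTriple.e1_z`, `no_torsion_E1`: corollaries of `F5_E1`.
-/

namespace Fermat.Agent.F5

variable {K : Type*} [Field K] {A : ValuationSubring K}

open RVal

theorem LegTriple.e1_closed (v : RVal A) {D U : K} (hD : v.Wge D 0) (hU : U ≠ 0)
    (hU0 : v.w U = 0) (t : LegTriple D U) (h1 : t.X₁ ≠ 0 ∧ v.w t.X₁ < 0)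
    (h2 : t.X₂ ≠ 0 ∧ v.w t.X₂ < 0) : t.X₃ ≠ 0 ∧ v.w t.X₃ < 0 :=
  Fermat.Agent.F5.e1_closed hD (Or.inr hU0.ge) t h1 h2

theorem LegTriple.e1_z (v : RVal A) {D U : K} (hD : v.Wge D 0) (hU : v.Wge U 0)
    (t : LegTriple D U) (h1 : t.X₁ ≠ 0 ∧ v.w t.X₁ < 0) (h2 : t.X₂ ≠ 0 ∧ v.w t.X₂ < 0)
    (h3 : t.X₃ ≠ 0 ∧ v.w t.X₃ < 0) :
    t.Y₁ ≠ 0 ∧ t.Y₂ ≠ 0 ∧ t.Y₃ ≠ 0 ∧
      v.Wge (t.X₁ / t.Y₁ + t.X₂ / t.Y₂ + t.X₃ / t.Y₃)
        (-(v.w t.X₁ + v.w t.X₂ + v.w t.X₃) / 2) :=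
  ⟨(e1_w_Y hD hU h1 t.eq₁).1, (e1_w_Y hD hU h2 t.eq₂).1, (e1_w_Y hD hU h3 t.eq₃).1,
    e1_add hD hU t h1 h2 h3⟩

/-- group level: no `p`-torsion in the kernel of reduction. `e₁ e₂ e₃` = the three roots
`0, a, -b` (in any order). -/
theorem no_torsion_E1 [DecidableEq K] [CharZero K] {W : WeierstrassCurve.Affine K} {a b : K}
    (hW : IsFreyW W a b) (v : RVal A) {e₁ e₂ e₃ : K}
    (hr1 : e₁ + e₂ + e₃ = a - b) (hr2 : e₁ * e₂ + e₁ * e₃ + e₂ * e₃ = -(a * b))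
    (hr3 : e₁ * e₂ * e₃ = 0) (he1 : v.Wge e₁ 0) (he2 : v.Wge e₂ 0) (he3 : v.Wge e₃ 0)
    (hU : e₁ - e₃ ≠ 0) (hU0 : v.w (e₁ - e₃) = 0) (h2 : v.w (2 : K) = 0)
    {p : ℕ} (hp : p.Prime) (hpw : v.w (p : K) = 0)
    {x y : K} (h : W.Nonsingular x y) (hP : p • WeierstrassCurve.Affine.Point.some x y h = 0) :
    v.Wge x 0 := by
  -- `a` and `-b` are among the roots
  have ha : v.Wge a 0 := by
    have e : (a - e₁) * (a - e₂) * (a - e₃) = 0 := by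
      linear_combination (-a ^ 2) * hr1 + a * hr2 - hr3
    rcases mul_eq_zero.mp e with e | e
    · rcases mul_eq_zero.mp e with e | e
      · rwa [sub_eq_zero.mp e]
      · rwa [sub_eq_zero.mp e]
    · rwa [sub_eq_zero.mp e]
  have hb : v.Wge b 0 := by
    have e : (-b - e₁) * (-b - e₂) * (-b - e₃) = 0 := by
      linear_combination (-b ^ 2) * hr1 - b * hr2 - hr3
    have hnb : v.Wge (-b) 0 := by
      rcases mul_eq_zero.mp e with e | e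
      · rcases mul_eq_zero.mp e with e | e
        · rwa [sub_eq_zero.mp e]
        · rwa [sub_eq_zero.mp e]
      · rwa [sub_eq_zero.mp e]
    have := hnb.neg
    rwa [neg_neg] at this
  by_contra hx
  have hx0 : x ≠ 0 := fun h0 => hx (Or.inl h0)
  have hxw : v.w x < 0 := not_le.mp fun hle => hx (Or.inr hle)
  have h20 : (2 : K) ≠ 0 := two_ne_zero
  have h4 : (4 : K) = 2 * 2 := by norm_num
  have hK : IsK v (4 * x) := by
    refine ⟨mul_ne_zero (by norm_num) hx0, ?_⟩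
    rw [h4, v.w_mul _ _ (mul_ne_zero h20 h20) hx0, v.w_mul _ _ h20 h20, h2]
    linarith
  have := e1_no_torsion hW ha hb (P := WeierstrassCurve.Affine.Point.some x y h) (Or.inr hK)
    hp.ne_zero hpw hP
  exact WeierstrassCurve.Affine.Point.some_ne_zero h this

end Fermat.Agent.F5
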