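import Fermat.Agent.Lib.F5_Defs

set_option autoImplicit false

/-!
# T05 (S05): the class of a point near the node is additive on collinear triples (helper1)

`node_triple` : for a collinear triple on `Y² = X (X - D) (X + U)` (`w D > 0`, `U = ω²` a unit,
`2` a unit) the classes satisfy `c₁ + c₂ + c₃ ∈ 2 (w D) ℤ`.
-/

namespace Fermat.Agent.F5

variable {K : Type*} [Field K] {A : ValuationSubring K}

/-! ### small valuation tools -/

theorem node_wgt_of_sq {v : RVal A} {x : K} {r : ℝ} (h : v.Wgt (x ^ 2) (2 * r)) : v.Wgt x r := by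
  by_cases hx : x = 0
  · exact Or.inl hx
  · have := h.lt (pow_ne_zero 2 hx)
    rw [v.w_sq hx] at this
    exact Or.inr (by linarith)

theorem node_wge_of_sq {v : RVal A} {x : K} {r : ℝ} (h : v.Wge (x ^ 2) (2 * r)) : v.Wge x r := by
  by_cases hx : x = 0
  · exact Or.inl hx
  · have := h.le (pow_ne_zero 2 hx)
    rw [v.w_sq hx] at this
    exact Or.inr (by linarith)

/-- `Wge` from an exact valuation -/
theorem node_wge_of_eq {v : RVal A} {x : K} {r : ℝ} (h : r ≤ v.w x) : v.Wge x r := Or.inr h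

/-- a nonzero element with `w x ≤ r` is not `Wgt r` -/
theorem node_not_wgt {v : RVal A} {x : K} {r : ℝ} (hx : x ≠ 0) (h : v.w x ≤ r) : ¬v.Wgt x r :=
  fun h' => absurd (h'.lt hx) (not_lt.mpr h)

/-- exact valuation of a product of three nonzero elements -/
theorem node_w_mul3 (v : RVal A) {x y z : K} (hx : x ≠ 0) (hy : y ≠ 0) (hz : z ≠ 0) :
    v.w (x * y * z) = v.w x + v.w y + v.w z := by
  rw [v.w_mul _ _ (mul_ne_zero hx hy) hz, v.w_mul _ _ hx hy]

/-! ### the basic obstruction: one point dominating two others, one of them of class `0` -/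

/-- if `X₁` is of class `0`, `w X₁ ≤ w X₂`, `w X₁ + w X₂ < w D` and `w X₃ > w X₂`
(or `X₃ = 0`), the triple cannot exist. -/
theorem node_obstruction (v : RVal A) {D U ω : K} (h : NodeData v D U ω) (t : LegTriple D U)
    (hX1 : t.X₁ ≠ 0) (hX2 : t.X₂ ≠ 0) (ht1 : v.w t.X₁ ≤ 0) (h12 : v.w t.X₁ ≤ v.w t.X₂)
    (ha : v.w t.X₁ + v.w t.X₂ < v.w D) (h3 : v.Wgt t.X₃ (v.w t.X₂)) : False := by
  have hX12 : t.X₁ * t.X₂ ≠ 0 := mul_ne_zero hX1 hX2
  have hw12 : v.w (t.X₁ * t.X₂) = v.w t.X₁ + v.w t.X₂ := v.w_mul _ _ hX1 hX2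
  have e2 : t.X₁ * t.X₂ + (t.X₃ * (t.X₁ + t.X₂) + D * U) = -(2 * t.L * t.ν) := by
    linear_combination t.s2
  have hsum : v.Wge (t.X₁ + t.X₂) (v.w t.X₁) :=
    RVal.Wge.add RVal.wge_self (node_wge_of_eq h12)
  have hrest : v.Wgt (t.X₃ * (t.X₁ + t.X₂) + D * U) (v.w (t.X₁ * t.X₂)) := by
    apply RVal.Wgt.add
    · have := h3.mul_wge hsum
      exact this.mono (by rw [hw12]; linarith)
    · exact Or.inr (by rw [v.w_mul _ _ h.D_ne h.U_ne, h.U_unit, hw12]; linarith)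
  obtain ⟨hne, hw⟩ := RVal.w_add_of_wgt hX12 hrest
  rw [e2] at hne hw
  have hLν : 2 * t.L * t.ν ≠ 0 := neg_ne_zero.mp hne
  have hL : t.L ≠ 0 := fun h0 => hLν (by rw [h0]; ring)
  have hν : t.ν ≠ 0 := fun h0 => hLν (by rw [h0]; ring)
  have hX3 : t.X₃ ≠ 0 := by
    intro h0
    have h3' := t.s3
    rw [h0, mul_zero] at h3'
    exact hν (pow_eq_zero_iff two_ne_zero |>.mp h3'.symm)
  have ht3 : v.w t.X₂ < v.w t.X₃ := h3.lt hX3
  have hn : 2 * v.w t.ν = v.w t.X₁ + v.w t.X₂ + v.w t.X₃ := by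
    have := congrArg v.w t.s3
    rw [v.w_sq hν, node_w_mul3 v hX1 hX2 hX3] at this
    linarith
  have hl : v.w t.L + v.w t.ν = v.w t.X₁ + v.w t.X₂ := by
    rw [v.w_neg, v.w_mul _ _ (mul_ne_zero h.two_ne hL) hν, v.w_mul _ _ h.two_ne hL, h.two_unit,
      hw12] at hw
    linarith
  have e1 : t.L ^ 2 = t.X₁ + t.X₂ + t.X₃ + U - D := by linear_combination -t.s1
  have hge : v.Wge (t.L ^ 2) (v.w t.X₁) := by
    rw [e1]
    refine RVal.Wge.sub (RVal.Wge.add (RVal.Wge.add hsum (node_wge_of_eq (by linarith))) ?_) ?_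
    · exact node_wge_of_eq (by rw [h.U_unit]; exact ht1)
    · exact node_wge_of_eq (by linarith [h.D_pos])
  have := hge.le (pow_ne_zero 2 hL)
  rw [v.w_sq hL] at this
  linarith

/-- two points of class `0` force the third one to be of class `0` -/
theorem node_isE_of_isE (v : RVal A) {D U ω : K} (h : NodeData v D U ω) (t : LegTriple D U)
    (h1 : IsE v t.X₁) (h2 : IsE v t.X₂) : IsE v t.X₃ := by
  by_contra h3
  have h3' : v.Wgt t.X₃ 0 := by
    by_cases hX : t.X₃ = 0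
    · exact Or.inl hX
    · exact Or.inr (not_le.mp fun hle => h3 ⟨hX, hle⟩)
  rcases le_total (v.w t.X₁) (v.w t.X₂) with h12 | h12
  · exact node_obstruction v h t h1.1 h2.1 h1.2 h12 (by linarith [h1.2, h2.2, h.D_pos])
      (h3'.mono h2.2)
  · exact node_obstruction v h t.swap12 h2.1 h1.1 h2.2 h12
      (show v.w t.X₂ + v.w t.X₁ < v.w D by linarith [h1.2, h2.2, h.D_pos]) (h3'.mono h1.2)

/-! ### signs -/

/-- a point near the node lies on one of the two branches -/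
theorem node_sgn_dich (v : RVal A) {D U ω : K} (h : NodeData v D U ω) {X Y : K}
    (hN : IsN v D X) (heq : Y ^ 2 = X * (X - D) * (X + U)) :
    SgnPos v ω X Y ∨ SgnPos v (-ω) X Y := by
  by_cases hs : SgnPos v ω X Y
  · exact Or.inl hs
  right
  have hprod : (Y - ω * X) * (Y + ω * X) = X * (X ^ 2 - D * X - D * U) := by
    linear_combination heq - X ^ 2 * h.ω_sq
  obtain ⟨hX, ht0, hta⟩ := hN
  have h1 : v.Wgt (X ^ 2 - D * X - D * U) (v.w X) := by
    refine RVal.Wgt.sub (RVal.Wgt.sub ?_ ?_) ?_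
    · exact Or.inr (by rw [v.w_sq hX]; linarith)
    · exact Or.inr (by rw [v.w_mul _ _ h.D_ne hX]; linarith)
    · exact Or.inr (by rw [v.w_mul _ _ h.D_ne h.U_ne, h.U_unit]; linarith)
  have h2 : v.Wgt ((Y - ω * X) * (Y + ω * X)) (v.w X + v.w X) := by
    rw [hprod]; exact RVal.wge_self.mul_wgt h1
  have hne : Y - ω * X ≠ 0 := fun h0 => hs (Or.inl h0)
  have hle : v.w (Y - ω * X) ≤ v.w X := not_lt.mp fun hlt => hs (Or.inr hlt)
  show v.Wgt (Y - -ω * X) (v.w X)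
  have e : Y - -ω * X = Y + ω * X := by ring
  rw [e]
  by_cases h0 : Y + ω * X = 0
  · exact Or.inl h0
  · have := h2.lt (mul_ne_zero hne h0)
    rw [v.w_mul _ _ hne h0] at this
    exact Or.inr (by linarith)

theorem node_I1 {D U : K} (t : LegTriple D U) :
    (t.Y₂ * t.X₃ + t.Y₃ * t.X₂) * t.ν = -(t.X₂ * t.X₃ * (D * U + t.X₂ * t.X₃)) := by
  simp only [LegTriple.Y₂, LegTriple.Y₃]
  linear_combination (t.X₂ * t.X₃) * t.s2 - (t.X₂ + t.X₃) * t.s3

theorem node_I2 {D U : K} (t : LegTriple D U) :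
    t.Y₂ * t.X₃ - t.Y₃ * t.X₂ = t.ν * (t.X₃ - t.X₂) := by
  simp only [LegTriple.Y₂, LegTriple.Y₃]; ring

theorem node_w_sub_of_lt (v : RVal A) {x y : K} (hx : x ≠ 0) (hxy : v.w x < v.w y) :
    v.w (y - x) = v.w x := by
  have h1 := (RVal.w_add_of_wgt (v := v) (neg_ne_zero.mpr hx) (y := y)
    (Or.inr (by rw [v.w_neg]; exact hxy))).2
  rw [v.w_neg] at h1
  rw [← h1]
  congr 1
  ring

/-- `ν ≠ 0` and `2 w ν = w X₁ + w X₂ + w X₃` when the three abscissas are nonzero -/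
theorem node_w_nu (v : RVal A) {D U : K} (t : LegTriple D U)
    (hX1 : t.X₁ ≠ 0) (hX2 : t.X₂ ≠ 0) (hX3 : t.X₃ ≠ 0) :
    t.ν ≠ 0 ∧ 2 * v.w t.ν = v.w t.X₁ + v.w t.X₂ + v.w t.X₃ := by
  have hν : t.ν ≠ 0 := by
    intro h0
    have h3 := t.s3
    rw [h0] at h3
    exact mul_ne_zero (mul_ne_zero hX1 hX2) hX3 (by rw [h3]; ring)
  refine ⟨hν, ?_⟩
  have := congrArg v.w t.s3
  rw [v.w_sq hν, node_w_mul3 v hX1 hX2 hX3] at this
  linarith

/-- class `0` plus two points near the node on the same branch: impossible -/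
theorem node_B_same (v : RVal A) {D U ω : K} (h : NodeData v D U ω) (t : LegTriple D U)
    (h1 : IsE v t.X₁) (h2 : IsN v D t.X₂) (h3 : IsN v D t.X₃)
    (s2 : SgnPos v ω t.X₂ t.Y₂) (s3 : SgnPos v ω t.X₃ t.Y₃) : False := by
  obtain ⟨hX1, ht1⟩ := h1
  obtain ⟨hX2, ht2, hta2⟩ := h2
  obtain ⟨hX3, ht3, hta3⟩ := h3
  obtain ⟨hν, hn⟩ := node_w_nu v t hX1 hX2 hX3
  have hX23 : t.X₂ * t.X₃ ≠ 0 := mul_ne_zero hX2 hX3
  have hmain : 2 * ω * (t.X₂ * t.X₃) ≠ 0 :=
    mul_ne_zero (mul_ne_zero h.two_ne h.ω_ne) hX23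
  have hwmain : v.w (2 * ω * (t.X₂ * t.X₃)) = v.w t.X₂ + v.w t.X₃ := by
    rw [v.w_mul _ _ (mul_ne_zero h.two_ne h.ω_ne) hX23, v.w_mul _ _ h.two_ne h.ω_ne,
      h.two_unit, h.ω_unit, v.w_mul _ _ hX2 hX3]
    ring
  have e : t.Y₂ * t.X₃ + t.Y₃ * t.X₂ = 2 * ω * (t.X₂ * t.X₃) +
      ((t.Y₂ - ω * t.X₂) * t.X₃ + (t.Y₃ - ω * t.X₃) * t.X₂) := by ring
  have hsmall : v.Wgt ((t.Y₂ - ω * t.X₂) * t.X₃ + (t.Y₃ - ω * t.X₃) * t.X₂)
      (v.w (2 * ω * (t.X₂ * t.X₃))) := by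
    rw [hwmain]
    refine RVal.Wgt.add (s2.mul_wge RVal.wge_self) ?_
    have := s3.mul_wge (RVal.wge_self (v := v) (x := t.X₂))
    exact this.mono (by linarith)
  obtain ⟨hne, hw⟩ := RVal.w_add_of_wgt hmain hsmall
  rw [← e, hwmain] at hw
  rw [← e] at hne
  have hI := node_I1 t
  have hlhs : (t.Y₂ * t.X₃ + t.Y₃ * t.X₂) * t.ν ≠ 0 := mul_ne_zero hne hν
  have hwl : v.w ((t.Y₂ * t.X₃ + t.Y₃ * t.X₂) * t.ν) = v.w t.X₂ + v.w t.X₃ + v.w t.ν := by
    rw [v.w_mul _ _ hne hν, hw]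
  rw [hI] at hlhs hwl
  have hr : t.X₂ * t.X₃ * (D * U + t.X₂ * t.X₃) ≠ 0 := neg_ne_zero.mp hlhs
  have hq : D * U + t.X₂ * t.X₃ ≠ 0 := fun h0 => hr (by rw [h0]; ring)
  rw [v.w_neg, v.w_mul _ _ hX23 hq, v.w_mul _ _ hX2 hX3] at hwl
  have hge : v.Wge (D * U + t.X₂ * t.X₃) (min (v.w D) (v.w t.X₂ + v.w t.X₃)) := by
    refine RVal.Wge.add ?_ ?_
    · exact Or.inr (by rw [v.w_mul _ _ h.D_ne h.U_ne, h.U_unit]; simp)
    · exact Or.inr (by rw [v.w_mul _ _ hX2 hX3]; simp)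
  have h4 := hge.le hq
  rcases min_le_iff.mp h4 with h5 | h5 <;> linarith

/-- class `0` plus two points near the node on opposite branches: same depth -/
theorem node_B_opp (v : RVal A) {D U ω : K} (h : NodeData v D U ω) (t : LegTriple D U)
    (h1 : IsE v t.X₁) (h2 : IsN v D t.X₂) (h3 : IsN v D t.X₃)
    (s2 : SgnPos v ω t.X₂ t.Y₂) (s3 : SgnPos v (-ω) t.X₃ t.Y₃) : v.w t.X₂ = v.w t.X₃ := by
  obtain ⟨hX1, ht1⟩ := h1
  obtain ⟨hX2, ht2, hta2⟩ := h2
  obtain ⟨hX3, ht3, hta3⟩ := h3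
  obtain ⟨hν, hn⟩ := node_w_nu v t hX1 hX2 hX3
  have hX23 : t.X₂ * t.X₃ ≠ 0 := mul_ne_zero hX2 hX3
  have hmain : 2 * ω * (t.X₂ * t.X₃) ≠ 0 :=
    mul_ne_zero (mul_ne_zero h.two_ne h.ω_ne) hX23
  have hwmain : v.w (2 * ω * (t.X₂ * t.X₃)) = v.w t.X₂ + v.w t.X₃ := by
    rw [v.w_mul _ _ (mul_ne_zero h.two_ne h.ω_ne) hX23, v.w_mul _ _ h.two_ne h.ω_ne,
      h.two_unit, h.ω_unit, v.w_mul _ _ hX2 hX3]
    ring
  have e : t.Y₂ * t.X₃ - t.Y₃ * t.X₂ = 2 * ω * (t.X₂ * t.X₃) +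
      ((t.Y₂ - ω * t.X₂) * t.X₃ - (t.Y₃ - -ω * t.X₃) * t.X₂) := by ring
  have hsmall : v.Wgt ((t.Y₂ - ω * t.X₂) * t.X₃ - (t.Y₃ - -ω * t.X₃) * t.X₂)
      (v.w (2 * ω * (t.X₂ * t.X₃))) := by
    rw [hwmain]
    refine RVal.Wgt.sub (s2.mul_wge RVal.wge_self) ?_
    have := s3.mul_wge (RVal.wge_self (v := v) (x := t.X₂))
    exact this.mono (by linarith)
  obtain ⟨hne, hw⟩ := RVal.w_add_of_wgt hmain hsmall
  rw [← e, hwmain] at hw
  rw [← e] at hne
  rw [node_I2 t] at hne hw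
  have hd : t.X₃ - t.X₂ ≠ 0 := fun h0 => hne (by rw [h0]; ring)
  rw [v.w_mul _ _ hν hd] at hw
  by_contra hneq
  rcases lt_or_gt_of_ne hneq with hlt | hlt
  · have := node_w_sub_of_lt v hX2 hlt
    linarith
  · have h6 := node_w_sub_of_lt v hX3 hlt
    have h7 : v.w (t.X₃ - t.X₂) = v.w (t.X₂ - t.X₃) := by
      rw [← v.w_neg]; congr 1; ring
    linarith

/-- one point of class `0`: the classes of the two others are opposite modulo `2 w D` -/
theorem node_B (v : RVal A) {D U ω : K} (h : NodeData v D U ω) (t : LegTriple D U)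
    (h1 : IsE v t.X₁) (h2 : ¬IsE v t.X₂) (h3 : ¬IsE v t.X₃) :
    cval v D ω t.X₂ t.Y₂ + cval v D ω t.X₃ t.Y₃ = 0 ∨
      cval v D ω t.X₂ t.Y₂ + cval v D ω t.X₃ t.Y₃ = 2 * v.w D := by
  rcases type_cases v D t.X₂ with h2' | h2' | h2'
  · exact absurd h2' h2
  · rcases type_cases v D t.X₃ with h3' | h3' | h3'
    · exact absurd h3' h3
    · -- both near the node
      left
      have hm : NodeData v D U (-ω) := h.neg
      by_cases s2 : SgnPos v ω t.X₂ t.Y₂
      · by_cases s3 : SgnPos v ω t.X₃ t.Y₃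
        · exact (node_B_same v h t h1 h2' h3' s2 s3).elim
        · have s3' := (node_sgn_dich v h h3' t.eq₃).resolve_left s3
          rw [cval_of_isN_pos h2' s2, cval_of_isN_neg h3' s3, node_B_opp v h t h1 h2' h3' s2 s3']
          ring
      · have s2' := (node_sgn_dich v h h2' t.eq₂).resolve_left s2
        by_cases s3 : SgnPos v ω t.X₃ t.Y₃
        · have s3' : SgnPos v (- -ω) t.X₃ t.Y₃ := by rw [neg_neg]; exact s3
          rw [cval_of_isN_neg h2' s2, cval_of_isN_pos h3' s3,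
            node_B_opp v hm t h1 h2' h3' s2' s3']
          ring
        · have s3' := (node_sgn_dich v h h3' t.eq₃).resolve_left s3
          exact (node_B_same v hm t h1 h2' h3' s2' s3').elim
    · -- near the node / middle : impossible
      exfalso
      refine node_obstruction v h t h1.1 h2'.1 h1.2 (by linarith [h1.2, h2'.2.1])
        (by linarith [h1.2, h2'.2.2]) ?_
      rcases h3' with h0 | h0
      · exact Or.inl h0
      · exact Or.inr (by linarith [h2'.2.2])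
  · rcases type_cases v D t.X₃ with h3' | h3' | h3'
    · exact absurd h3' h3
    · exfalso
      refine node_obstruction v h t.swap23 h1.1 h3'.1 h1.2
        (show v.w t.X₁ ≤ v.w t.X₃ by linarith [h1.2, h3'.2.1])
        (show v.w t.X₁ + v.w t.X₃ < v.w D by linarith [h1.2, h3'.2.2]) ?_
      show v.Wgt t.X₂ (v.w t.X₃)
      rcases h2' with h0 | h0
      · exact Or.inl h0
      · exact Or.inr (by linarith [h3'.2.2])
    · right
      rw [cval_of_isM h.D_pos h2', cval_of_isM h.D_pos h3']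
      ring

/-! ### no point of class `0`: the line has slope `≡ ± ω` -/

theorem node_C_L (v : RVal A) {D U ω : K} (h : NodeData v D U ω) {L : K}
    (hL : v.Wgt (L - ω) 0) : (L ≠ 0 ∧ v.w L = 0) ∧ (L + ω ≠ 0 ∧ v.w (L + ω) = 0) := by
  constructor
  · have := RVal.w_add_of_wgt (v := v) h.ω_ne (y := L - ω) (by rw [h.ω_unit]; exact hL)
    rw [add_sub_cancel, h.ω_unit] at this
    exact this
  · have h2 : (2 * ω) ≠ 0 := mul_ne_zero h.two_ne h.ω_ne
    have hw2 : v.w (2 * ω) = 0 := by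
      rw [v.w_mul _ _ h.two_ne h.ω_ne, h.two_unit, h.ω_unit]; ring
    have := RVal.w_add_of_wgt (v := v) h2 (y := L - ω) (by rw [hw2]; exact hL)
    have e : 2 * ω + (L - ω) = L + ω := by ring
    rw [e, hw2] at this
    exact this

/-- a point near the node on a line of slope `≡ ω`: either `ν` is deeper than `X` (branch `ω`)
or exactly as deep as `X` (branch `-ω`) -/
theorem node_C_pt (v : RVal A) {D U ω : K} (h : NodeData v D U ω) {L ν X : K}
    (hL : v.Wgt (L - ω) 0) (hN : IsN v D X)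
    (heq : (L * X + ν) ^ 2 = X * (X - D) * (X + U)) :
    (v.Wgt ν (v.w X) ∧ cval v D ω X (L * X + ν) = v.w X) ∨
    (ν ≠ 0 ∧ v.w ν = v.w X ∧ cval v D ω X (L * X + ν) = -v.w X) := by
  by_cases hs : SgnPos v ω X (L * X + ν)
  · left
    refine ⟨?_, cval_of_isN_pos hN hs⟩
    have e : ν = (L * X + ν - ω * X) - (L - ω) * X := by ring
    rw [e]
    refine RVal.Wgt.sub hs ?_
    have := hL.mul_wge (RVal.wge_self (v := v) (x := X))
    rwa [zero_add] at this
  · right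
    have hs' := (node_sgn_dich v h hN heq).resolve_left hs
    obtain ⟨⟨hL0, hLw⟩, hLp0, hLpw⟩ := node_C_L v h hL
    have hx : -((L + ω) * X) ≠ 0 := neg_ne_zero.mpr (mul_ne_zero hLp0 hN.1)
    have hwx : v.w (-((L + ω) * X)) = v.w X := by
      rw [v.w_neg, v.w_mul _ _ hLp0 hN.1, hLpw, zero_add]
    have e : ν = -((L + ω) * X) + (L * X + ν - -ω * X) := by ring
    have := RVal.w_add_of_wgt (v := v) hx (y := L * X + ν - -ω * X) (by rw [hwx]; exact hs')
    rw [← e, hwx] at this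
    exact ⟨this.1, this.2, cval_of_isN_neg hN hs⟩

/-- three points near the node -/
theorem node_C0 (v : RVal A) {D U ω : K} (h : NodeData v D U ω) (t : LegTriple D U)
    (hL : v.Wgt (t.L - ω) 0) (h1 : IsN v D t.X₁) (h2 : IsN v D t.X₂) (h3 : IsN v D t.X₃) :
    ∃ k : ℤ, cval v D ω t.X₁ t.Y₁ + cval v D ω t.X₂ t.Y₂ + cval v D ω t.X₃ t.Y₃ =
      2 * k * v.w D := by
  obtain ⟨hν, hn⟩ := node_w_nu v t h1.1 h2.1 h3.1
  obtain ⟨⟨hL0, hLw⟩, -⟩ := node_C_L v h hL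
  have hall : v.w t.X₁ < v.w t.ν → v.w t.X₂ < v.w t.ν → v.w t.X₃ < v.w t.ν →
      v.w t.ν = v.w D := by
    intro g1 g2 g3
    apply le_antisymm
    · by_contra hlt
      rw [not_le] at hlt
      have hLD : t.L * D ≠ 0 := mul_ne_zero hL0 h.D_ne
      have hwLD : v.w (t.L * D) = v.w D := by rw [v.w_mul _ _ hL0 h.D_ne, hLw, zero_add]
      have hs := RVal.w_add_of_wgt' (v := v) hLD (y := t.ν) (Or.inr (by rw [hwLD]; exact hlt))
      have hr := congrArg v.w t.rD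
      have d1 := RVal.w_sub_of_wgt (v := v) h1.1 (y := D) (Or.inr h1.2.2)
      have d2 := RVal.w_sub_of_wgt (v := v) h2.1 (y := D) (Or.inr h2.2.2)
      have d3 := RVal.w_sub_of_wgt (v := v) h3.1 (y := D) (Or.inr h3.2.2)
      rw [v.w_sq hs.1, hs.2, hwLD, node_w_mul3 v d1.1 d2.1 d3.1, d1.2, d2.2, d3.2] at hr
      linarith
    · by_contra hlt
      rw [not_le] at hlt
      have e2 : 2 * t.L * t.ν = -(t.X₁ * t.X₂ + t.X₁ * t.X₃ + t.X₂ * t.X₃ + D * U) := by
        linear_combination t.s2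
      have hlhs : 2 * t.L * t.ν ≠ 0 := mul_ne_zero (mul_ne_zero h.two_ne hL0) hν
      have hwl : v.w (2 * t.L * t.ν) = v.w t.ν := by
        rw [v.w_mul _ _ (mul_ne_zero h.two_ne hL0) hν, v.w_mul _ _ h.two_ne hL0, h.two_unit,
          hLw]
        ring
      have hr : v.Wgt (-(t.X₁ * t.X₂ + t.X₁ * t.X₃ + t.X₂ * t.X₃ + D * U)) (v.w t.ν) := by
        refine RVal.Wgt.neg (RVal.Wgt.add (RVal.Wgt.add (RVal.Wgt.add ?_ ?_) ?_) ?_)
        · exact Or.inr (by rw [v.w_mul _ _ h1.1 h2.1]; linarith)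
        · exact Or.inr (by rw [v.w_mul _ _ h1.1 h3.1]; linarith)
        · exact Or.inr (by rw [v.w_mul _ _ h2.1 h3.1]; linarith)
        · exact Or.inr (by rw [v.w_mul _ _ h.D_ne h.U_ne, h.U_unit]; linarith)
      rw [← e2] at hr
      have := hr.lt hlhs
      rw [hwl] at this
      exact lt_irrefl _ this
  have p1 : (v.Wgt t.ν (v.w t.X₁) ∧ cval v D ω t.X₁ t.Y₁ = v.w t.X₁) ∨
      (t.ν ≠ 0 ∧ v.w t.ν = v.w t.X₁ ∧ cval v D ω t.X₁ t.Y₁ = -v.w t.X₁) :=
    node_C_pt v h hL h1 t.eq₁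
  have p2 : (v.Wgt t.ν (v.w t.X₂) ∧ cval v D ω t.X₂ t.Y₂ = v.w t.X₂) ∨
      (t.ν ≠ 0 ∧ v.w t.ν = v.w t.X₂ ∧ cval v D ω t.X₂ t.Y₂ = -v.w t.X₂) :=
    node_C_pt v h hL h2 t.eq₂
  have p3 : (v.Wgt t.ν (v.w t.X₃) ∧ cval v D ω t.X₃ t.Y₃ = v.w t.X₃) ∨
      (t.ν ≠ 0 ∧ v.w t.ν = v.w t.X₃ ∧ cval v D ω t.X₃ t.Y₃ = -v.w t.X₃) :=
    node_C_pt v h hL h3 t.eq₃
  have g1 := h1.2.1
  have g2 := h2.2.1
  have g3 := h3.2.1
  rcases p1 with ⟨q1, c1⟩ | ⟨-, q1, c1⟩ <;> rcases p2 with ⟨q2, c2⟩ | ⟨-, q2, c2⟩ <;>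
    rcases p3 with ⟨q3, c3⟩ | ⟨-, q3, c3⟩ <;> rw [c1, c2, c3]
  · have e := hall (q1.lt hν) (q2.lt hν) (q3.lt hν)
    exact ⟨1, by push_cast; linarith⟩
  · exact ⟨0, by push_cast; linarith⟩
  · exact ⟨0, by push_cast; linarith⟩
  · exfalso; linarith
  · exact ⟨0, by push_cast; linarith⟩
  · exfalso; linarith
  · exfalso; linarith
  · exfalso; linarith

/-- two points near the node and one in the middle class -/
theorem node_C1 (v : RVal A) {D U ω : K} (h : NodeData v D U ω) (t : LegTriple D U)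
    (hL : v.Wgt (t.L - ω) 0) (h1 : IsN v D t.X₁) (h2 : IsN v D t.X₂) (h3 : IsM v D t.X₃) :
    cval v D ω t.X₁ t.Y₁ + cval v D ω t.X₂ t.Y₂ = v.w D := by
  obtain ⟨⟨hL0, hLw⟩, -⟩ := node_C_L v h hL
  have p1 : (v.Wgt t.ν (v.w t.X₁) ∧ cval v D ω t.X₁ t.Y₁ = v.w t.X₁) ∨
      (t.ν ≠ 0 ∧ v.w t.ν = v.w t.X₁ ∧ cval v D ω t.X₁ t.Y₁ = -v.w t.X₁) :=
    node_C_pt v h hL h1 t.eq₁
  have p2 : (v.Wgt t.ν (v.w t.X₂) ∧ cval v D ω t.X₂ t.Y₂ = v.w t.X₂) ∨
      (t.ν ≠ 0 ∧ v.w t.ν = v.w t.X₂ ∧ cval v D ω t.X₂ t.Y₂ = -v.w t.X₂) :=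
    node_C_pt v h hL h2 t.eq₂
  have hw12 : v.w (t.X₁ * t.X₂) = v.w t.X₁ + v.w t.X₂ := v.w_mul _ _ h1.1 h2.1
  by_cases hX3 : t.X₃ = 0
  · have hν : t.ν = 0 := by
      have := t.s3
      rw [hX3, mul_zero] at this
      exact pow_eq_zero_iff two_ne_zero |>.mp this.symm
    have e2 : t.X₁ * t.X₂ = -(D * U) := by
      have := t.s2
      rw [hX3, hν] at this
      linear_combination this
    have hw : v.w t.X₁ + v.w t.X₂ = v.w D := by
      rw [← hw12, e2, v.w_neg, v.w_mul _ _ h.D_ne h.U_ne, h.U_unit, add_zero]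
    rcases p1 with ⟨-, c1⟩ | ⟨q1, -, -⟩
    · rcases p2 with ⟨-, c2⟩ | ⟨q2, -, -⟩
      · rw [c1, c2, hw]
      · exact absurd hν q2
    · exact absurd hν q1
  · have ht3 : v.w D ≤ v.w t.X₃ := h3.resolve_left hX3
    obtain ⟨hν, hn⟩ := node_w_nu v t h1.1 h2.1 hX3
    have c1 : cval v D ω t.X₁ t.Y₁ = v.w t.X₁ ∧ v.w t.X₁ < v.w t.ν := by
      rcases p1 with ⟨q1, c1⟩ | ⟨-, q1, -⟩
      · exact ⟨c1, q1.lt hν⟩
      · exfalso; linarith [h1.2.2, h2.2.1]
    have c2 : cval v D ω t.X₂ t.Y₂ = v.w t.X₂ ∧ v.w t.X₂ < v.w t.ν := by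
      rcases p2 with ⟨q2, c2⟩ | ⟨-, q2, -⟩
      · exact ⟨c2, q2.lt hν⟩
      · exfalso; linarith [h2.2.2, h1.2.1]
    rw [c1.1, c2.1]
    apply le_antisymm
    · by_contra hlt
      rw [not_le] at hlt
      have hna : v.w D < v.w t.ν := by linarith
      have hLD : t.L * D ≠ 0 := mul_ne_zero hL0 h.D_ne
      have hwLD : v.w (t.L * D) = v.w D := by rw [v.w_mul _ _ hL0 h.D_ne, hLw, zero_add]
      have hs := RVal.w_add_of_wgt' (v := v) hLD (y := t.ν) (Or.inr (by rw [hwLD]; exact hna))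
      have hr := congrArg v.w t.rD
      have d1 := RVal.w_sub_of_wgt (v := v) h1.1 (y := D) (Or.inr h1.2.2)
      have d2 := RVal.w_sub_of_wgt (v := v) h2.1 (y := D) (Or.inr h2.2.2)
      have d3 : t.X₃ - D ≠ 0 := by
        intro h0
        have := t.rD
        rw [h0, mul_zero] at this
        exact hs.1 (pow_eq_zero_iff two_ne_zero |>.mp this)
      have hd3 : v.Wge (t.X₃ - D) (v.w D) := RVal.Wge.sub (Or.inr ht3) RVal.wge_self
      rw [v.w_sq hs.1, hs.2, hwLD, node_w_mul3 v d1.1 d2.1 d3, d1.2, d2.2] at hr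
      linarith [hd3.le d3]
    · by_contra hlt
      rw [not_le] at hlt
      have e2 : t.X₁ * t.X₂ = -(2 * t.L * t.ν) - D * U - t.X₁ * t.X₃ - t.X₂ * t.X₃ := by
        linear_combination t.s2
      have hr : v.Wgt (-(2 * t.L * t.ν) - D * U - t.X₁ * t.X₃ - t.X₂ * t.X₃)
          (v.w t.X₁ + v.w t.X₂) := by
        refine RVal.Wgt.sub (RVal.Wgt.sub (RVal.Wgt.sub (RVal.Wgt.neg ?_) ?_) ?_) ?_
        · exact Or.inr (by
            rw [v.w_mul _ _ (mul_ne_zero h.two_ne hL0) hν, v.w_mul _ _ h.two_ne hL0,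
              h.two_unit, hLw]
            linarith)
        · exact Or.inr (by rw [v.w_mul _ _ h.D_ne h.U_ne, h.U_unit]; linarith)
        · exact Or.inr (by rw [v.w_mul _ _ h1.1 hX3]; linarith [h2.2.2])
        · exact Or.inr (by rw [v.w_mul _ _ h2.1 hX3]; linarith [h1.2.2])
      rw [← e2] at hr
      have := hr.lt (mul_ne_zero h1.1 h2.1)
      rw [hw12] at this
      exact lt_irrefl _ this

/-- two points in the middle class and a third one not of class `0`: impossible -/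
theorem node_C2 (v : RVal A) {D U ω : K} (h : NodeData v D U ω) (t : LegTriple D U)
    (hL : v.Wgt (t.L - ω) 0) (h1 : v.Wgt t.X₁ 0) (h2 : IsM v D t.X₂) (h3 : IsM v D t.X₃) :
    False := by
  obtain ⟨⟨hL0, hLw⟩, -⟩ := node_C_L v h hL
  have hD : v.Wge D (v.w D) := RVal.wge_self
  have d2 : v.Wge (t.X₂ - D) (v.w D) := RVal.Wge.sub h2 hD
  have d3 : v.Wge (t.X₃ - D) (v.w D) := RVal.Wge.sub h3 hD
  have d1 : v.Wgt (t.X₁ - D) 0 := RVal.Wgt.sub h1 (Or.inr h.D_pos)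
  have hp : v.Wgt ((t.X₁ - D) * (t.X₂ - D) * (t.X₃ - D)) (2 * v.w D) := by
    have := (d1.mul_wge d2).mul_wge d3
    exact this.mono (by linarith)
  rw [← t.rD] at hp
  have hs := node_wgt_of_sq hp
  have hLD : t.L * D ≠ 0 := mul_ne_zero hL0 h.D_ne
  have hwLD : v.w (t.L * D) = v.w D := by rw [v.w_mul _ _ hL0 h.D_ne, hLw, zero_add]
  have hx : -(t.L * D) ≠ 0 := neg_ne_zero.mpr hLD
  have hν := RVal.w_add_of_wgt (v := v) hx (y := t.ν + t.L * D)
    (by rw [v.w_neg, hwLD]; exact hs)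
  have e : -(t.L * D) + (t.ν + t.L * D) = t.ν := by ring
  rw [e, v.w_neg, hwLD] at hν
  have hprod : t.X₁ * t.X₂ * t.X₃ ≠ 0 := by rw [t.s3]; exact pow_ne_zero 2 hν.1
  have hX1 : t.X₁ ≠ 0 := fun h0 => hprod (by rw [h0]; ring)
  have hX2 : t.X₂ ≠ 0 := fun h0 => hprod (by rw [h0]; ring)
  have hX3 : t.X₃ ≠ 0 := fun h0 => hprod (by rw [h0]; ring)
  obtain ⟨-, hn⟩ := node_w_nu v t hX1 hX2 hX3
  have g1 := h1.lt hX1
  have g2 := h2.resolve_left hX2
  have g3 := h3.resolve_left hX3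
  linarith [hν.2]

theorem node_wgt_of_not_isE {v : RVal A} {X : K} (h : ¬IsE v X) : v.Wgt X 0 := by
  by_cases hX : X = 0
  · exact Or.inl hX
  · exact Or.inr (not_le.mp fun hle => h ⟨hX, hle⟩)

/-- no point of class `0`, slope `≡ ω` -/
theorem node_C (v : RVal A) {D U ω : K} (h : NodeData v D U ω) (t : LegTriple D U)
    (hL : v.Wgt (t.L - ω) 0) (h1 : ¬IsE v t.X₁) (h2 : ¬IsE v t.X₂) (h3 : ¬IsE v t.X₃) :
    ∃ k : ℤ, cval v D ω t.X₁ t.Y₁ + cval v D ω t.X₂ t.Y₂ + cval v D ω t.X₃ t.Y₃ =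
      2 * k * v.w D := by
  rcases type_cases v D t.X₁ with h1' | h1' | h1'
  · exact absurd h1' h1
  · rcases type_cases v D t.X₂ with h2' | h2' | h2'
    · exact absurd h2' h2
    · rcases type_cases v D t.X₃ with h3' | h3' | h3'
      · exact absurd h3' h3
      · exact node_C0 v h t hL h1' h2' h3'
      · have e := node_C1 v h t hL h1' h2' h3'
        exact ⟨1, by rw [cval_of_isM h.D_pos h3']; push_cast; linarith⟩
    · rcases type_cases v D t.X₃ with h3' | h3' | h3'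
      · exact absurd h3' h3
      · have e : cval v D ω t.X₁ t.Y₁ + cval v D ω t.X₃ t.Y₃ = v.w D :=
          node_C1 v h t.swap23 hL h1' h3' h2'
        exact ⟨1, by rw [cval_of_isM h.D_pos h2']; push_cast; linarith⟩
      · exact (node_C2 v h t hL (node_wgt_of_not_isE h1) h2' h3').elim
  · rcases type_cases v D t.X₂ with h2' | h2' | h2'
    · exact absurd h2' h2
    · rcases type_cases v D t.X₃ with h3' | h3' | h3'
      · exact absurd h3' h3
      · have e : cval v D ω t.X₂ t.Y₂ + cval v D ω t.X₃ t.Y₃ = v.w D :=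
          node_C1 v h t.rot hL h2' h3' h1'
        exact ⟨1, by rw [cval_of_isM h.D_pos h1']; push_cast; linarith⟩
      · exact (node_C2 v h t.swap12 hL (node_wgt_of_not_isE h2) h1' h3').elim
    · exact (node_C2 v h t.swap13 hL (node_wgt_of_not_isE h3) h2' h1').elim

/-- a point near the node is not on both branches -/
theorem node_sgn_excl (v : RVal A) {D U ω : K} (h : NodeData v D U ω) {X Y : K}
    (hN : IsN v D X) : ¬(SgnPos v ω X Y ∧ SgnPos v (-ω) X Y) := by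
  rintro ⟨hs, hs'⟩
  have hd : v.Wgt ((Y - -ω * X) - (Y - ω * X)) (v.w X) := RVal.Wgt.sub hs' hs
  have e : (Y - -ω * X) - (Y - ω * X) = 2 * ω * X := by ring
  rw [e] at hd
  have hne : 2 * ω * X ≠ 0 := mul_ne_zero (mul_ne_zero h.two_ne h.ω_ne) hN.1
  have := hd.lt hne
  rw [v.w_mul _ _ (mul_ne_zero h.two_ne h.ω_ne) hN.1, v.w_mul _ _ h.two_ne h.ω_ne,
    h.two_unit, h.ω_unit] at this
  linarith

/-- changing the branch `ω ↦ -ω` changes the class by a sign modulo `2 w D` -/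
theorem node_cval_neg (v : RVal A) {D U ω : K} (h : NodeData v D U ω) {X Y : K}
    (heq : Y ^ 2 = X * (X - D) * (X + U)) :
    ∃ j : ℤ, cval v D (-ω) X Y = -cval v D ω X Y + 2 * j * v.w D := by
  rcases type_cases v D X with hE | hN | hM
  · exact ⟨0, by rw [cval_of_isE hE, cval_of_isE hE]; simp⟩
  · refine ⟨0, ?_⟩
    by_cases hs : SgnPos v ω X Y
    · have hs' : ¬SgnPos v (-ω) X Y := fun hs' => node_sgn_excl v h hN ⟨hs, hs'⟩
      rw [cval_of_isN_pos hN hs, cval_of_isN_neg hN hs']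
      simp
    · have hs' := (node_sgn_dich v h hN heq).resolve_left hs
      rw [cval_of_isN_neg hN hs, cval_of_isN_pos hN hs']
      simp
  · exact ⟨1, by rw [cval_of_isM h.D_pos hM, cval_of_isM h.D_pos hM]; push_cast; ring⟩

/-- **additivity of the class on collinear triples** -/
theorem node_triple (v : RVal A) {D U ω : K} (h : NodeData v D U ω) (t : LegTriple D U) :
    ∃ k : ℤ, cval v D ω t.X₁ t.Y₁ + cval v D ω t.X₂ t.Y₂ + cval v D ω t.X₃ t.Y₃ =
      2 * k * v.w D := by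
  by_cases h1 : IsE v t.X₁
  · by_cases h2 : IsE v t.X₂
    · have h3 := node_isE_of_isE v h t h1 h2
      exact ⟨0, by rw [cval_of_isE h1, cval_of_isE h2, cval_of_isE h3]; simp⟩
    · by_cases h3 : IsE v t.X₃
      · exact absurd (node_isE_of_isE v h t.swap23 h1 h3) h2
      · rcases node_B v h t h1 h2 h3 with hb | hb
        · exact ⟨0, by rw [cval_of_isE h1]; push_cast; linarith⟩
        · exact ⟨1, by rw [cval_of_isE h1]; push_cast; linarith⟩
  · by_cases h2 : IsE v t.X₂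
    · by_cases h3 : IsE v t.X₃
      · exact absurd (node_isE_of_isE v h t.rot h2 h3) h1
      · have hb : cval v D ω t.X₁ t.Y₁ + cval v D ω t.X₃ t.Y₃ = 0 ∨
            cval v D ω t.X₁ t.Y₁ + cval v D ω t.X₃ t.Y₃ = 2 * v.w D :=
          node_B v h t.swap12 h2 h1 h3
        rcases hb with hb | hb
        · exact ⟨0, by rw [cval_of_isE h2]; push_cast; linarith⟩
        · exact ⟨1, by rw [cval_of_isE h2]; push_cast; linarith⟩
    · by_cases h3 : IsE v t.X₃
      · have hb : cval v D ω t.X₂ t.Y₂ + cval v D ω t.X₁ t.Y₁ = 0 ∨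
            cval v D ω t.X₂ t.Y₂ + cval v D ω t.X₁ t.Y₁ = 2 * v.w D :=
          node_B v h t.swap13 h3 h2 h1
        rcases hb with hb | hb
        · exact ⟨0, by rw [cval_of_isE h3]; push_cast; linarith⟩
        · exact ⟨1, by rw [cval_of_isE h3]; push_cast; linarith⟩
      · by_cases hL : v.Wgt (t.L - ω) 0
        · exact node_C v h t hL h1 h2 h3
        · have hL' : v.Wgt (t.L - -ω) 0 := by
            have e : t.L - -ω = t.L + ω := by ring
            rw [e]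
            have hne : t.L - ω ≠ 0 := fun h0 => hL (Or.inl h0)
            have hle : v.w (t.L - ω) ≤ 0 := not_lt.mp fun hlt => hL (Or.inr hlt)
            by_cases h0 : t.L + ω = 0
            · exact Or.inl h0
            have hprod : (t.L - ω) * (t.L + ω) = t.X₁ + t.X₂ + t.X₃ - D := by
              linear_combination -t.s1 - h.ω_sq
            have hsm : v.Wgt (t.X₁ + t.X₂ + t.X₃ - D) 0 :=
              RVal.Wgt.sub (RVal.Wgt.add (RVal.Wgt.add (node_wgt_of_not_isE h1)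
                (node_wgt_of_not_isE h2)) (node_wgt_of_not_isE h3)) (Or.inr h.D_pos)
            rw [← hprod] at hsm
            have := hsm.lt (mul_ne_zero hne h0)
            rw [v.w_mul _ _ hne h0] at this
            exact Or.inr (by linarith)
          obtain ⟨k, hk⟩ := node_C v h.neg t hL' h1 h2 h3
          obtain ⟨j1, e1⟩ := node_cval_neg v h t.eq₁
          obtain ⟨j2, e2⟩ := node_cval_neg v h t.eq₂
          obtain ⟨j3, e3⟩ := node_cval_neg v h t.eq₃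
          exact ⟨j1 + j2 + j3 - k, by push_cast; linarith⟩

/-- the statement in the shape of the work-package list -/
theorem LegTriple.cval_sum (v : RVal A) {D U ω : K} (h : NodeData v D U ω) (t : LegTriple D U) :
    ∃ k : ℤ, cval v D ω t.X₁ t.Y₁ + cval v D ω t.X₂ t.Y₂ + cval v D ω t.X₃ t.Y₃ =
      2 * v.w D * k := by
  obtain ⟨k, hk⟩ := node_triple v h t
  exact ⟨k, by rw [hk]; ring⟩

/-! ### negation of a point -/

theorem node_sgnPos_negY (v : RVal A) (ω X Y : K) :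
    SgnPos v ω X (-Y) ↔ SgnPos v (-ω) X Y := by
  unfold SgnPos
  have e : -Y - ω * X = -(Y - -ω * X) := by ring
  rw [e]
  constructor
  · intro hh
    have := hh.neg
    rwa [neg_neg] at this
  · intro hh
    exact hh.neg

theorem node_cval_negY_eq (v : RVal A) (D ω X Y : K) :
    cval v D ω X (-Y) = cval v D (-ω) X Y := by
  unfold cval
  by_cases hs : SgnPos v ω X (-Y)
  · rw [if_pos hs, if_pos ((node_sgnPos_negY v ω X Y).mp hs)]
  · rw [if_neg hs, if_neg (fun h' => hs ((node_sgnPos_negY v ω X Y).mpr h'))]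

/-- the class of the opposite point `(X, -Y)` -/
theorem node_cval_negY (v : RVal A) {D U ω : K} (h : NodeData v D U ω) {X Y : K}
    (heq : Y ^ 2 = X * (X - D) * (X + U)) :
    ∃ j : ℤ, cval v D ω X (-Y) = -cval v D ω X Y + 2 * j * v.w D := by
  rw [node_cval_negY_eq]
  exact node_cval_neg v h heq

/-- the class is `0` exactly for the points of class `0` (`X ≠ 0`, `w X ≤ 0`) -/
theorem node_cval_eq_zero_iff (v : RVal A) {D U ω : K} (h : NodeData v D U ω) {X Y : K} :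
    cval v D ω X Y = 0 ↔ IsE v X := by
  constructor
  · intro hc
    rcases type_cases v D X with hE | hN | hM
    · exact hE
    · exfalso
      by_cases hs : SgnPos v ω X Y
      · rw [cval_of_isN_pos hN hs] at hc
        linarith [hN.2.1]
      · rw [cval_of_isN_neg hN hs] at hc
        linarith [hN.2.1]
    · exfalso
      rw [cval_of_isM h.D_pos hM] at hc
      linarith [h.D_pos]
  · intro hE
    exact cval_of_isE hE

/-- the class always lies in `(-a, a]`, `a = w D` -/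
theorem node_cval_range (v : RVal A) {D U ω : K} (h : NodeData v D U ω) (X Y : K) :
    -v.w D < cval v D ω X Y ∧ cval v D ω X Y ≤ v.w D := by
  rcases type_cases v D X with hE | hN | hM
  · rw [cval_of_isE hE]
    exact ⟨by linarith [h.D_pos], h.D_pos.le⟩
  · by_cases hs : SgnPos v ω X Y
    · rw [cval_of_isN_pos hN hs]
      exact ⟨by linarith [hN.2.1, hN.2.2], hN.2.2.le⟩
    · rw [cval_of_isN_neg hN hs]
      exact ⟨by linarith [hN.2.1, hN.2.2], by linarith [hN.2.1, hN.2.2]⟩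
  · rw [cval_of_isM h.D_pos hM]
    exact ⟨by linarith [h.D_pos], le_rfl⟩

end Fermat.Agent.F5
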