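/-
S05 (helper6): group level on Mathlib points for a Frey-type curve `W` (`IsFreyW W a b`) with
roots `e₁ e₂ e₃` of `T (T - a) (T + b)`:
* `grp_triple` : three affine points with sum `0` give a `LegTriple (e₂ - e₁) (e₁ - e₃)`;
* `cpt`, `cpt_neg`, `cpt_add`, `cpt_nsmul` : the class map on points is additive modulo
  `2 w(e₂ - e₁)`.
(The kernel-of-reduction statement `no_torsion_E1` is in `F5_E1b`.)
-/
import Fermat.Agent.Lib.F5_Defs
import Fermat.Agent.Lib.F5_CaseE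
import Fermat.Agent.Lib.F5_Node

set_option autoImplicit false

namespace Fermat.Agent.F5

open WeierstrassCurve.Affine

variable {K : Type*} [Field K] {A : ValuationSubring K} [DecidableEq K] [CharZero K]
  {W : WeierstrassCurve.Affine K} {a b : K}

/-! ### Coordinates -/

omit [DecidableEq K] in
/-- the curve equation in the recentred Legendre coordinates `X = 4 x - e₁`, `Y = 8 y + 4 x` -/
theorem grp_eqn (hW : IsFreyW W a b) {e₁ e₂ e₃ : K} (hr1 : e₁ + e₂ + e₃ = a - b)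
    (hr2 : e₁ * e₂ + e₁ * e₃ + e₂ * e₃ = -(a * b)) (hr3 : e₁ * e₂ * e₃ = 0) {x y : K}
    (h : W.Equation x y) :
    (8 * y + 4 * x) ^ 2 =
      (4 * x - e₁) * ((4 * x - e₁) - (e₂ - e₁)) * ((4 * x - e₁) + (e₁ - e₃)) := by
  rw [equation_iff, hW.a1, hW.a2, hW.a3, hW.a4, hW.a6] at h
  linear_combination 64 * h + 16 * x ^ 2 * hr1 - 4 * x * hr2 + hr3

omit [DecidableEq K] [CharZero K] in
/-- negation of a point changes the sign of `Y = 8 y + 4 x` -/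
theorem grp_negY (hW : IsFreyW W a b) (x y : K) :
    8 * W.negY x y + 4 * x = -(8 * y + 4 * x) := by
  rw [negY, hW.a1, hW.a3]
  ring

/-- **group law ⇒ recentred collinear triple** -/
theorem grp_triple (hW : IsFreyW W a b) {e₁ e₂ e₃ : K} (hr1 : e₁ + e₂ + e₃ = a - b)
    (hr2 : e₁ * e₂ + e₁ * e₃ + e₂ * e₃ = -(a * b)) (hr3 : e₁ * e₂ * e₃ = 0)
    {x₁ y₁ x₂ y₂ x₃ y₃ : K} (h₁ : W.Nonsingular x₁ y₁)
    (h₂ : W.Nonsingular x₂ y₂) (h₃ : W.Nonsingular x₃ y₃)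
    (hsum : Point.some x₁ y₁ h₁ + Point.some x₂ y₂ h₂ + Point.some x₃ y₃ h₃ = 0) :
    ∃ t : LegTriple (e₂ - e₁) (e₁ - e₃), t.X₁ = 4 * x₁ - e₁ ∧ t.X₂ = 4 * x₂ - e₁ ∧
      t.X₃ = 4 * x₃ - e₁ ∧ t.Y₁ = 8 * y₁ + 4 * x₁ ∧ t.Y₂ = 8 * y₂ + 4 * x₂ ∧
      t.Y₃ = 8 * y₃ + 4 * x₃ := by
  obtain ⟨L, N, hy1, hy2, hy3, s1, s2, s3⟩ := frey_triple hW h₁ h₂ h₃ hsum
  refine ⟨LegTriple.ofRoots e₁ e₂ e₃ L N (4 * x₁) (4 * x₂) (4 * x₃)
    (by linear_combination s1 - hr1) (by linear_combination s2 - hr2)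
    (by linear_combination s3 - hr3), rfl, rfl, rfl, ?_, ?_, ?_⟩
  · show L * (4 * x₁ - e₁) + (L * e₁ + N) = _
    rw [hy1]; ring
  · show L * (4 * x₂ - e₁) + (L * e₁ + N) = _
    rw [hy2]; ring
  · show L * (4 * x₃ - e₁) + (L * e₁ + N) = _
    rw [hy3]; ring

/-! ### The class map on points -/

omit [DecidableEq K] [CharZero K] in
/-- changing the sign of `Y` negates the class modulo `2 w(D)` -/
theorem cval_neg_Y (v : RVal A) {D U ω : K} (h : NodeData v D U ω) {X Y : K}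
    (hY : Y ^ 2 = X * (X - D) * (X + U)) :
    ∃ k : ℤ, cval v D ω X (-Y) = -cval v D ω X Y + 2 * v.w D * k := by
  rcases type_cases v D X with hE | hN | hM
  · refine ⟨0, ?_⟩
    rw [cval_of_isE hE, cval_of_isE hE]
    simp
  · have hdich := sgn_dichotomy v h hY hN
    have hiff : SgnPos v ω X (-Y) ↔ SgnPos v (-ω) X Y := by
      unfold SgnPos
      have e : -Y - ω * X = -(Y - -ω * X) := by ring
      rw [e]
      constructor
      · intro h1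
        have := h1.neg
        rwa [neg_neg] at this
      · intro h1
        exact h1.neg
    refine ⟨0, ?_⟩
    by_cases hs : SgnPos v ω X Y
    · have hs' : ¬SgnPos v ω X (-Y) := fun h1 => hdich.2 ⟨hs, hiff.mp h1⟩
      rw [cval_of_isN_pos hN hs, cval_of_isN_neg hN hs']
      simp
    · have hs' : SgnPos v ω X (-Y) := hiff.mpr (hdich.1.resolve_left hs)
      rw [cval_of_isN_neg hN hs, cval_of_isN_pos hN hs']
      simp
  · refine ⟨1, ?_⟩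
    rw [cval_of_isM h.D_pos hM, cval_of_isM h.D_pos hM]
    push_cast
    ring

/-- the class of a point of `W`: `0` at the zero point and
`cval v D ω (4 x - e₁) (8 y + 4 x)` at the affine point `(x, y)` -/
noncomputable def cpt (v : RVal A) (e₁ D ω : K) : W.Point → ℝ
  | .zero => 0
  | .some x y _ => cval v D ω (4 * x - e₁) (8 * y + 4 * x)

omit [DecidableEq K] [CharZero K] in
@[simp] theorem cpt_zero (v : RVal A) (e₁ D ω : K) : cpt v e₁ D ω (0 : W.Point) = 0 := rfl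

omit [DecidableEq K] [CharZero K] in
@[simp] theorem cpt_some (v : RVal A) (e₁ D ω : K) {x y : K} (h : W.Nonsingular x y) :
    cpt v e₁ D ω (Point.some x y h) = cval v D ω (4 * x - e₁) (8 * y + 4 * x) := rfl

/-- the class of `-P` -/
theorem cpt_neg (hW : IsFreyW W a b) (v : RVal A) {e₁ e₂ e₃ ω : K}
    (hr1 : e₁ + e₂ + e₃ = a - b) (hr2 : e₁ * e₂ + e₁ * e₃ + e₂ * e₃ = -(a * b))
    (hr3 : e₁ * e₂ * e₃ = 0) (h : NodeData v (e₂ - e₁) (e₁ - e₃) ω) (P : W.Point) :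
    ∃ k : ℤ, cpt v e₁ (e₂ - e₁) ω (-P) = -cpt v e₁ (e₂ - e₁) ω P + 2 * v.w (e₂ - e₁) * k := by
  rcases P with _ | ⟨x, y, hxy⟩
  · refine ⟨0, ?_⟩
    rw [← Point.zero_def, neg_zero, cpt_zero]
    simp
  · rw [Point.neg_some, cpt_some, cpt_some, grp_negY hW]
    exact cval_neg_Y v h (grp_eqn hW hr1 hr2 hr3 hxy.1)

/-- **the class map is additive modulo `2 w(e₂ - e₁)`** -/
theorem cpt_add (hW : IsFreyW W a b) (v : RVal A) {e₁ e₂ e₃ ω : K}
    (hr1 : e₁ + e₂ + e₃ = a - b) (hr2 : e₁ * e₂ + e₁ * e₃ + e₂ * e₃ = -(a * b))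
    (hr3 : e₁ * e₂ * e₃ = 0) (h : NodeData v (e₂ - e₁) (e₁ - e₃) ω) (P Q : W.Point) :
    ∃ k : ℤ, cpt v e₁ (e₂ - e₁) ω (P + Q) =
      cpt v e₁ (e₂ - e₁) ω P + cpt v e₁ (e₂ - e₁) ω Q + 2 * v.w (e₂ - e₁) * k := by
  rcases P with _ | ⟨x₁, y₁, h₁⟩
  · refine ⟨0, ?_⟩
    rw [← Point.zero_def, zero_add, cpt_zero]
    simp
  rcases Q with _ | ⟨x₂, y₂, h₂⟩
  · refine ⟨0, ?_⟩
    rw [← Point.zero_def, add_zero, cpt_zero]
    simp
  rcases hR : Point.some x₁ y₁ h₁ + Point.some x₂ y₂ h₂ with _ | ⟨x₃, y₃, h₃⟩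
  · -- the sum is zero
    have hQ : Point.some x₂ y₂ h₂ = -Point.some x₁ y₁ h₁ := by
      rw [← Point.zero_def] at hR
      exact eq_neg_of_add_eq_zero_right hR
    obtain ⟨k, hk⟩ := cpt_neg hW v hr1 hr2 hr3 h (Point.some x₁ y₁ h₁)
    refine ⟨-k, ?_⟩
    rw [hQ, hk]
    show (0 : ℝ) = _
    push_cast
    ring
  · have hsum : Point.some x₁ y₁ h₁ + Point.some x₂ y₂ h₂ +
        Point.some x₃ (W.negY x₃ y₃) ((nonsingular_neg x₃ y₃).mpr h₃) = 0 := by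
      rw [← Point.neg_some h₃, hR]
      exact add_neg_cancel _
    obtain ⟨t, hX1, hX2, hX3, hY1, hY2, hY3⟩ :=
      grp_triple hW hr1 hr2 hr3 h₁ h₂ ((nonsingular_neg x₃ y₃).mpr h₃) hsum
    obtain ⟨k, hk⟩ := node_triple v h t
    rw [hX1, hX2, hX3, hY1, hY2, hY3, grp_negY hW] at hk
    obtain ⟨k', hk'⟩ := cval_neg_Y v h (grp_eqn hW hr1 hr2 hr3 h₃.1)
    refine ⟨k' - k, ?_⟩
    rw [cpt_some, cpt_some, cpt_some]
    rw [hk'] at hk
    push_cast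
    linarith

/-- the class of a multiple -/
theorem cpt_nsmul (hW : IsFreyW W a b) (v : RVal A) {e₁ e₂ e₃ ω : K}
    (hr1 : e₁ + e₂ + e₃ = a - b) (hr2 : e₁ * e₂ + e₁ * e₃ + e₂ * e₃ = -(a * b))
    (hr3 : e₁ * e₂ * e₃ = 0) (h : NodeData v (e₂ - e₁) (e₁ - e₃) ω) (n : ℕ) (P : W.Point) :
    ∃ k : ℤ, cpt v e₁ (e₂ - e₁) ω (n • P) =
      n * cpt v e₁ (e₂ - e₁) ω P + 2 * v.w (e₂ - e₁) * k := by
  induction n with
  | zero =>
    refine ⟨0, ?_⟩
    rw [zero_nsmul, cpt_zero]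
    simp
  | succ n ih =>
    obtain ⟨k, hk⟩ := ih
    obtain ⟨k', hk'⟩ := cpt_add hW v hr1 hr2 hr3 h (n • P) P
    refine ⟨k + k', ?_⟩
    rw [succ_nsmul, hk', hk]
    push_cast
    ring

end Fermat.Agent.F5
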