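import Fermat.Agent.Lib.F5_Node

set_option autoImplicit false

/-!
# T05 (S05): two close points near the node on opposite branches (helper3)

`LegTriple.near_node_close` : if `P₁`, `P₂` are near the node, `X₁ / X₂ ≡ 1` and they lie on
opposite branches, the third point of the collinear triple lies in the kernel of reduction.
Uses the additivity of the class (`node_triple`, helper1).
-/

namespace Fermat.Agent.F5

variable {K : Type*} [Field K] {A : ValuationSubring K}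

/-- an element of `2 a ℤ` in the open interval `(-a, a)` is zero -/
theorem nearNode_int_aux {a c : ℝ} (ha : 0 < a) {k : ℤ} (hc : c = 2 * k * a) (h1 : -a < c)
    (h2 : c < a) : c = 0 := by
  have hk1 : (-1 : ℝ) < 2 * k := by
    by_contra hh
    push Not at hh
    nlinarith
  have hk2 : 2 * (k : ℝ) < 1 := by
    by_contra hh
    push Not at hh
    nlinarith
  have hk1' : (-1 : ℤ) < 2 * k := by exact_mod_cast hk1
  have hk2' : 2 * k < (1 : ℤ) := by exact_mod_cast hk2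
  have hk0 : k = 0 := by omega
  rw [hc, hk0]
  simp

/-- two points near the node on opposite branches with `X₁ / X₂ ≡ 1`: third point in `E1` -/
theorem LegTriple.near_node_close (v : RVal A) {D U ω : K} (h : NodeData v D U ω)
    (t : LegTriple D U) (h1 : IsN v D t.X₁) (hX : v.Wgt (t.X₁ - t.X₂) (v.w t.X₁))
    (hs1 : SgnPos v ω t.X₁ t.Y₁) (hs2 : SgnPos v (-ω) t.X₂ t.Y₂) :
    t.X₃ ≠ 0 ∧ v.w t.X₃ < 0 := by
  obtain ⟨hX1, hα0, hαa⟩ := h1
  -- `X₂ = X₁ - (X₁ - X₂)` has the same valuation as `X₁`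
  have hX2' := RVal.w_sub_of_wgt hX1 hX
  rw [sub_sub_cancel] at hX2'
  obtain ⟨hX2, hw2⟩ := hX2'
  have h2 : IsN v D t.X₂ := ⟨hX2, by rw [hw2]; exact hα0, by rw [hw2]; exact hαa⟩
  -- `X₁ + X₂ = 2 X₁ - (X₁ - X₂)` has the same valuation as `X₁`
  have h2X1 : (2 : K) * t.X₁ ≠ 0 := mul_ne_zero h.two_ne hX1
  have hw2X1 : v.w (2 * t.X₁) = v.w t.X₁ := by
    rw [v.w_mul _ _ h.two_ne hX1, h.two_unit, zero_add]
  have hsum := RVal.w_sub_of_wgt h2X1 (y := t.X₁ - t.X₂) (by rw [hw2X1]; exact hX)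
  have e : 2 * t.X₁ - (t.X₁ - t.X₂) = t.X₁ + t.X₂ := by ring
  rw [e, hw2X1] at hsum
  obtain ⟨hsum0, hwsum⟩ := hsum
  -- the second point is not on the branch `ω`
  have hs2' : ¬SgnPos v ω t.X₂ t.Y₂ := by
    intro hs
    have hd : v.Wgt ((t.Y₂ - -ω * t.X₂) - (t.Y₂ - ω * t.X₂)) (v.w t.X₂) := RVal.Wgt.sub hs2 hs
    have e : (t.Y₂ - -ω * t.X₂) - (t.Y₂ - ω * t.X₂) = 2 * ω * t.X₂ := by ring
    rw [e] at hd
    have hne : 2 * ω * t.X₂ ≠ 0 := mul_ne_zero (mul_ne_zero h.two_ne h.ω_ne) hX2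
    have := hd.lt hne
    rw [v.w_mul _ _ (mul_ne_zero h.two_ne h.ω_ne) hX2, v.w_mul _ _ h.two_ne h.ω_ne,
      h.two_unit, h.ω_unit] at this
    linarith
  -- the class of the third point vanishes modulo `2 w D`
  obtain ⟨k, hk⟩ := node_triple v h t
  rw [cval_of_isN_pos ⟨hX1, hα0, hαa⟩ hs1, cval_of_isN_neg h2 hs2', hw2] at hk
  have hc3 : cval v D ω t.X₃ t.Y₃ = 2 * k * v.w D := by linarith
  have hE : IsE v t.X₃ := by
    rcases type_cases v D t.X₃ with hE | hN | hM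
    · exact hE
    · exfalso
      by_cases hs : SgnPos v ω t.X₃ t.Y₃
      · rw [cval_of_isN_pos hN hs] at hc3
        have := nearNode_int_aux h.D_pos hc3 (by linarith [hN.2.1, h.D_pos]) hN.2.2
        linarith [hN.2.1]
      · rw [cval_of_isN_neg hN hs] at hc3
        have := nearNode_int_aux h.D_pos hc3 (by linarith [hN.2.2]) (by linarith [hN.2.1, h.D_pos])
        linarith [hN.2.1]
    · exfalso
      rw [cval_of_isM h.D_pos hM] at hc3
      have hD := h.D_pos
      have h1 : (1 : ℝ) = 2 * k := by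
        have : v.w D * 1 = v.w D * (2 * k) := by linarith
        exact mul_left_cancel₀ hD.ne' this
      have h1' : (1 : ℤ) = 2 * k := by exact_mod_cast h1
      omega
  refine ⟨hE.1, lt_of_le_of_ne hE.2 ?_⟩
  intro hw3
  -- then the slope is integral
  have e1 : t.L ^ 2 = t.X₁ + t.X₂ + t.X₃ + U - D := by linear_combination -t.s1
  have hL : v.Wge t.L 0 := by
    apply node_wge_of_sq
    rw [e1, mul_zero]
    refine RVal.Wge.sub (RVal.Wge.add (RVal.Wge.add (RVal.Wge.add ?_ ?_) ?_) ?_) ?_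
    · exact Or.inr hα0.le
    · exact Or.inr (by rw [hw2]; exact hα0.le)
    · exact Or.inr hw3.ge
    · exact Or.inr h.U_unit.ge
    · exact Or.inr h.D_pos.le
  -- subtract the two branch conditions
  have hd : v.Wgt ((t.Y₁ - ω * t.X₁) - (t.Y₂ - -ω * t.X₂)) (v.w t.X₁) :=
    RVal.Wgt.sub hs1 (by rw [← hw2]; exact hs2)
  have e2 : ω * (t.X₁ + t.X₂) =
      t.L * (t.X₁ - t.X₂) - ((t.Y₁ - ω * t.X₁) - (t.Y₂ - -ω * t.X₂)) := by
    simp only [LegTriple.Y₁, LegTriple.Y₂]; ring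
  have hbad : v.Wgt (ω * (t.X₁ + t.X₂)) (v.w t.X₁) := by
    rw [e2]
    refine RVal.Wgt.sub ?_ hd
    have := hL.mul_wgt hX
    rwa [zero_add] at this
  have := hbad.lt (mul_ne_zero h.ω_ne hsum0)
  rw [v.w_mul _ _ h.ω_ne hsum0, h.ω_unit, hwsum] at this
  linarith

end Fermat.Agent.F5
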