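import Fermat.Agent.Lib.F5_E1

set_option autoImplicit false

/-!
# T05 (S05): same reduction ⇒ the difference lies in the kernel of reduction (helper7)

`LegTriple.same_red_good` (good reduction) and `LegTriple.same_red_node` (multiplicative
reduction, points whose reduction is not the node), both corollaries of `e1_of_same_red`.
-/

namespace Fermat.Agent.F5

variable {K : Type*} [Field K] {A : ValuationSubring K}

open RVal

/-- a product of three integral elements in the maximal ideal has a factor in the maximal ideal -/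
theorem red_wgt_of_mul {v : RVal A} {x y z : K} (hx : v.Wge x 0) (hy : v.Wge y 0)
    (hz : v.Wge z 0) (h : v.Wgt (x * y * z) 0) : v.Wgt x 0 ∨ v.Wgt y 0 ∨ v.Wgt z 0 := by
  by_contra hcon
  simp only [not_or] at hcon
  obtain ⟨h1, h2, h3⟩ := hcon
  have hx0 : x ≠ 0 := fun h0 => h1 (Or.inl h0)
  have hy0 : y ≠ 0 := fun h0 => h2 (Or.inl h0)
  have hz0 : z ≠ 0 := fun h0 => h3 (Or.inl h0)
  have hxw : v.w x ≤ 0 := not_lt.mp fun hlt => h1 (Or.inr hlt)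
  have hyw : v.w y ≤ 0 := not_lt.mp fun hlt => h2 (Or.inr hlt)
  have hzw : v.w z ≤ 0 := not_lt.mp fun hlt => h3 (Or.inr hlt)
  have := h.lt (mul_ne_zero (mul_ne_zero hx0 hy0) hz0)
  rw [v.w_mul _ _ (mul_ne_zero hx0 hy0) hz0, v.w_mul _ _ hx0 hy0] at this
  linarith

/-- a unit plus an element of the maximal ideal is a unit -/
theorem red_unit_add {v : RVal A} {u e : K} (hu : u ≠ 0) (hu0 : v.w u = 0) (he : v.Wgt e 0) :
    u + e ≠ 0 ∧ v.w (u + e) = 0 := by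
  have := w_add_of_wgt hu (show v.Wgt e (v.w u) by rwa [hu0])
  rwa [hu0] at this

theorem LegTriple.same_red_good (v : RVal A) {D U : K} (hD : D ≠ 0) (hD0 : v.w D = 0)
    (hU : U ≠ 0) (hU0 : v.w U = 0) (hDU : D + U ≠ 0) (hDU0 : v.w (D + U) = 0)
    (h2 : (2 : K) ≠ 0) (h20 : v.w (2 : K) = 0) (t : LegTriple D U)
    (hX1 : v.Wge t.X₁ 0) (hX2 : v.Wge t.X₂ 0) (hX : v.Wgt (t.X₁ - t.X₂) 0)
    (hY : v.Wgt (t.Y₁ + t.Y₂) 0) : t.X₃ ≠ 0 ∧ v.w t.X₃ < 0 := by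
  have hDg : v.Wge D 0 := Or.inr hD0.ge
  have hUg : v.Wge U 0 := Or.inr hU0.ge
  have h2g : v.Wge (2 : K) 0 := Or.inr h20.ge
  have h3g : v.Wge (3 : K) 0 := by simpa using e1_wge_natCast v 3
  have h4g : v.Wge (4 : K) 0 := by simpa using e1_wge_natCast v 4
  refine e1_of_same_red hDg hUg h2 h20 t hX2 hX hY fun hY2 => ?_
  have hsq : v.Wgt (t.X₂ * (t.X₂ - D) * (t.X₂ + U)) 0 := by
    rw [← t.eq₂, sq]
    have := hY2.mul_wge hY2.wge
    simpa using this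
  rcases red_wgt_of_mul hX2 (hX2.sub hDg) (hX2.add hUg) hsq with hc | hc | hc
  · -- `X₂ ≡ 0`
    have e : 3 * t.X₂ ^ 2 + 2 * (U - D) * t.X₂ - D * U =
        -(D * U) + t.X₂ * (3 * t.X₂ + 2 * (U - D)) := by ring
    rw [e]
    refine red_unit_add (neg_ne_zero.mpr (mul_ne_zero hD hU))
      (by rw [v.w_neg, v.w_mul _ _ hD hU, hD0, hU0]; ring) ?_
    have := hc.mul_wge ((h3g.mul hX2).add (h2g.mul (hUg.sub hDg)))
    simpa using this
  · -- `X₂ ≡ D`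
    have e : 3 * t.X₂ ^ 2 + 2 * (U - D) * t.X₂ - D * U =
        D * (D + U) + (t.X₂ - D) * (3 * (t.X₂ - D) + 4 * D + 2 * U) := by ring
    rw [e]
    refine red_unit_add (mul_ne_zero hD hDU) (by rw [v.w_mul _ _ hD hDU, hD0, hDU0]; ring) ?_
    have := hc.mul_wge (((h3g.mul (hX2.sub hDg)).add (h4g.mul hDg)).add (h2g.mul hUg))
    simpa using this
  · -- `X₂ ≡ -U`
    have e : 3 * t.X₂ ^ 2 + 2 * (U - D) * t.X₂ - D * U =
        U * (D + U) + (t.X₂ + U) * (3 * (t.X₂ + U) - 4 * U - 2 * D) := by ring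
    rw [e]
    refine red_unit_add (mul_ne_zero hU hDU) (by rw [v.w_mul _ _ hU hDU, hU0, hDU0]; ring) ?_
    have := hc.mul_wge (((h3g.mul (hX2.add hUg)).sub (h4g.mul hUg)).sub (h2g.mul hDg))
    simpa using this

theorem LegTriple.same_red_node (v : RVal A) {D U ω : K} (h : NodeData v D U ω)
    (t : LegTriple D U) (hX1 : t.X₁ ≠ 0 ∧ v.w t.X₁ = 0) (hX2 : t.X₂ ≠ 0 ∧ v.w t.X₂ = 0)
    (hX : v.Wgt (t.X₁ - t.X₂) 0) (hY : v.Wgt (t.Y₁ + t.Y₂) 0) :
    t.X₃ ≠ 0 ∧ v.w t.X₃ < 0 := by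
  have hDg : v.Wge D 0 := Or.inr h.D_pos.le
  have hDgt : v.Wgt D 0 := Or.inr h.D_pos
  have hUg : v.Wge U 0 := Or.inr h.U_unit.ge
  have h2g : v.Wge (2 : K) 0 := Or.inr h.two_unit.ge
  have h3g : v.Wge (3 : K) 0 := by simpa using e1_wge_natCast v 3
  have h4g : v.Wge (4 : K) 0 := by simpa using e1_wge_natCast v 4
  have hX2g : v.Wge t.X₂ 0 := Or.inr hX2.2.ge
  refine e1_of_same_red hDg hUg h.two_ne h.two_unit t hX2g hX hY fun hY2 => ?_
  have hsq : v.Wgt (t.X₂ * (t.X₂ - D) * (t.X₂ + U)) 0 := by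
    rw [← t.eq₂, sq]
    have := hY2.mul_wge hY2.wge
    simpa using this
  have hXD := w_sub_of_wgt hX2.1 (show v.Wgt D (v.w t.X₂) by rwa [hX2.2])
  have hc : v.Wgt (t.X₂ + U) 0 := by
    rcases red_wgt_of_mul hX2g (hX2g.sub hDg) (hX2g.add hUg) hsq with hc | hc | hc
    · exact absurd (hc.lt hX2.1) (by rw [hX2.2]; exact lt_irrefl 0)
    · exact absurd (hc.lt hXD.1) (by rw [hXD.2, hX2.2]; exact lt_irrefl 0)
    · exact hc
  have hDU := red_unit_add h.U_ne h.U_unit hDgt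
  rw [add_comm] at hDU
  have e : 3 * t.X₂ ^ 2 + 2 * (U - D) * t.X₂ - D * U =
      U * (D + U) + (t.X₂ + U) * (3 * (t.X₂ + U) - 4 * U - 2 * D) := by ring
  rw [e]
  refine red_unit_add (mul_ne_zero h.U_ne hDU.1)
    (by rw [v.w_mul _ _ h.U_ne hDU.1, h.U_unit, hDU.2]; ring) ?_
  have := hc.mul_wge (((h3g.mul (hX2g.add hUg)).sub (h4g.mul hUg)).sub (h2g.mul hDg))
  simpa using this

end Fermat.Agent.F5
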