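import Fermat.Agent.Lib.F5_E1b
import Fermat.Agent.Lib.F5_Red
import Fermat.Agent.Lib.F5_CaseE
import Fermat.Agent.Lib.F5_NearNode
import Fermat.Agent.Lib.F5_Group

set_option autoImplicit false

/-!
# T05 (S05): end lemmas on points (helper8)

`σ`-free versions of "inertia fixes the `p`-torsion": `final_good`, `final_node`.
-/

namespace Fermat.Agent.F5

open WeierstrassCurve.Affine

variable {K : Type*} [Field K] {A : ValuationSubring K} [DecidableEq K] [CharZero K]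
  {W : WeierstrassCurve.Affine K} {a b : K}

/-- the equation of the Frey-type curve in the coordinates `X = 4 x`, `Y = 8 y + 4 x` -/
theorem fin_frey_eq (hW : IsFreyW W a b) {x y : K} (h : W.Equation x y) :
    (8 * y + 4 * x) ^ 2 = (4 * x) * (4 * x - a) * (4 * x + b) := by
  rw [WeierstrassCurve.Affine.equation_iff, hW.a1, hW.a2, hW.a3, hW.a4, hW.a6] at h
  linear_combination 64 * h

/-- the same equation, factored with the roots `e₁, e₂, e₃` -/
theorem fin_frey_eq_roots (hW : IsFreyW W a b) {e₁ e₂ e₃ : K} (hr1 : e₁ + e₂ + e₃ = a - b)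
    (hr2 : e₁ * e₂ + e₁ * e₃ + e₂ * e₃ = -(a * b)) (hr3 : e₁ * e₂ * e₃ = 0) {x y : K}
    (h : W.Equation x y) :
    (8 * y + 4 * x) ^ 2 = (4 * x - e₁) * (4 * x - e₂) * (4 * x - e₃) := by
  have := fin_frey_eq hW h
  linear_combination this + (4 * x) ^ 2 * hr1 - (4 * x) * hr2 + hr3

theorem fin_w_four (v : RVal A) (h2 : v.w (2 : K) = 0) : v.w (4 : K) = 0 := by
  have : (4 : K) = 2 * 2 := by norm_num
  rw [this, v.w_mul _ _ two_ne_zero two_ne_zero, h2, add_zero]

theorem fin_w_eight (v : RVal A) (h2 : v.w (2 : K) = 0) : v.w (8 : K) = 0 := by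
  have : (8 : K) = 2 * 4 := by norm_num
  rw [this, v.w_mul _ _ two_ne_zero (by norm_num), h2, fin_w_four v h2, add_zero]

theorem fin_mul0 {v : RVal A} {x y : K} (hx : v.Wge x 0) (hy : v.Wge y 0) : v.Wge (x * y) 0 := by
  simpa using hx.mul hy

theorem fin_mul_wgt0 {v : RVal A} {x y : K} (hx : v.Wge x 0) (hy : v.Wgt y 0) :
    v.Wgt (x * y) 0 := by
  simpa using hx.mul_wgt hy

/-- `y` is integral if `x` is -/
theorem fin_wge_y (hW : IsFreyW W a b) (v : RVal A) {e₁ e₂ e₃ : K} (hr1 : e₁ + e₂ + e₃ = a - b)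
    (hr2 : e₁ * e₂ + e₁ * e₃ + e₂ * e₃ = -(a * b)) (hr3 : e₁ * e₂ * e₃ = 0)
    (he1 : v.Wge e₁ 0) (he2 : v.Wge e₂ 0) (he3 : v.Wge e₃ 0) (h2 : v.w (2 : K) = 0)
    {x y : K} (h : W.Equation x y) (hx : v.Wge x 0) : v.Wge y 0 := by
  have h4 : v.Wge (4 : K) 0 := RVal.wge_of_le (fin_w_four v h2).ge
  have hX : v.Wge (4 * x) 0 := fin_mul0 h4 hx
  have hY2 : v.Wge ((8 * y + 4 * x) ^ 2) 0 := by
    rw [fin_frey_eq_roots hW hr1 hr2 hr3 h]
    exact fin_mul0 (fin_mul0 (hX.sub he1) (hX.sub he2)) (hX.sub he3)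
  have hY : v.Wge (8 * y + 4 * x) 0 := by
    by_cases h0 : 8 * y + 4 * x = 0
    · exact Or.inl h0
    · have := hY2.le (pow_ne_zero 2 h0)
      rw [v.w_sq h0] at this
      exact Or.inr (by linarith)
  have h8y : v.Wge (8 * y) 0 := by
    have := hY.sub hX
    rwa [add_sub_cancel_right] at this
  rcases eq_or_ne y 0 with rfl | hy
  · exact RVal.wge_zero 0
  · have := h8y.le (mul_ne_zero (by norm_num) hy)
    rw [v.w_mul _ _ (by norm_num) hy, fin_w_eight v h2] at this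
    exact Or.inr (by linarith)

/-- the triple attached to two distinct affine points `P'`, `P`: `P' + (-P) + (P - P') = 0` -/
theorem fin_exists_triple (hW : IsFreyW W a b) {e₁ e₂ e₃ : K} (hr1 : e₁ + e₂ + e₃ = a - b)
    (hr2 : e₁ * e₂ + e₁ * e₃ + e₂ * e₃ = -(a * b)) (hr3 : e₁ * e₂ * e₃ = 0)
    {x y x' y' : K} (h : W.Nonsingular x y) (h' : W.Nonsingular x' y')
    (hne : Point.some x' y' h' ≠ Point.some x y h) :
    ∃ (x₃ y₃ : K) (h₃ : W.Nonsingular x₃ y₃) (t : LegTriple (e₂ - e₁) (e₁ - e₃)),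
      Point.some x₃ y₃ h₃ = Point.some x y h - Point.some x' y' h' ∧
      t.X₁ = 4 * x' - e₁ ∧ t.X₂ = 4 * x - e₁ ∧ t.X₃ = 4 * x₃ - e₁ ∧
      t.Y₁ = 8 * y' + 4 * x' ∧ t.Y₂ = -(8 * y + 4 * x) ∧ t.Y₃ = 8 * y₃ + 4 * x₃ := by
  have hQ : Point.some x y h - Point.some x' y' h' ≠ 0 := by
    intro h0
    exact hne (sub_eq_zero.mp h0).symm
  obtain ⟨x₃, y₃, h₃, hQ3⟩ : ∃ (x₃ y₃ : K) (h₃ : W.Nonsingular x₃ y₃),
      Point.some x₃ y₃ h₃ = Point.some x y h - Point.some x' y' h' := by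
    cases hq : Point.some x y h - Point.some x' y' h' with
    | zero => exact absurd hq hQ
    | some x₃ y₃ h₃ => exact ⟨x₃, y₃, h₃, rfl⟩
  have hsum : Point.some x' y' h' + Point.some x (W.negY x y) ((nonsingular_neg ..).mpr h) +
      Point.some x₃ y₃ h₃ = 0 := by
    have hneg : -Point.some x y h = Point.some x (W.negY x y) ((nonsingular_neg ..).mpr h) :=
      Point.neg_some h
    rw [hQ3, ← hneg]
    abel
  obtain ⟨L, N, e1, e2, e3, s1, s2, s3⟩ := frey_triple hW h' ((nonsingular_neg ..).mpr h) h₃ hsum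
  have hnegY : W.negY x y = -y - x := by
    rw [negY, hW.a1, hW.a3]; ring
  rw [hnegY] at e2
  refine ⟨x₃, y₃, h₃, LegTriple.ofRoots e₁ e₂ e₃ L N (4 * x') (4 * x) (4 * x₃)
    (by linear_combination s1 - hr1) (by linear_combination s2 - hr2)
    (by linear_combination s3 - hr3), hQ3, rfl, rfl, rfl, ?_, ?_, ?_⟩
  · show L * (4 * x' - e₁) + (L * e₁ + N) = 8 * y' + 4 * x'
    linear_combination -e1
  · show L * (4 * x - e₁) + (L * e₁ + N) = -(8 * y + 4 * x)
    linear_combination -e2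
  · show L * (4 * x₃ - e₁) + (L * e₁ + N) = 8 * y₃ + 4 * x₃
    linear_combination -e3

/-- if `4 x - e₁` has negative valuation then `x` is not integral -/
theorem fin_not_wge_of_E1 (v : RVal A) {e₁ x : K} (he1 : v.Wge e₁ 0) (h2 : v.w (2 : K) = 0)
    (hX : 4 * x - e₁ ≠ 0 ∧ v.w (4 * x - e₁) < 0) : ¬v.Wge x 0 := by
  intro hx
  have h4 : v.Wge (4 : K) 0 := RVal.wge_of_le (fin_w_four v h2).ge
  have : v.Wge (4 * x - e₁) 0 := (fin_mul0 h4 hx).sub he1
  exact absurd (this.le hX.1) (not_le.mpr hX.2)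

section good

variable (hW : IsFreyW W a b) (v : RVal A)
include hW

/-- **good reduction**: a ring endomorphism `σ` which is the identity modulo the maximal ideal
fixes every `p`-torsion point whose image is again a `p`-torsion point -/
theorem final_good (ha : a ≠ 0) (ha0 : v.w a = 0) (hb : b ≠ 0) (hb0 : v.w b = 0)
    (hab : a + b ≠ 0) (hab0 : v.w (a + b) = 0) (h2 : v.w (2 : K) = 0)
    {p : ℕ} (hp : p.Prime) (hpw : v.w (p : K) = 0)
    (σ : K →+* K) (hσ : ∀ z, v.Wge z 0 → v.Wgt (σ z - z) 0)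
    {x y : K} (hxy : W.Nonsingular x y) (hxy' : W.Nonsingular (σ x) (σ y))
    (hP : p • Point.some x y hxy = 0) (hP' : p • Point.some (σ x) (σ y) hxy' = 0) :
    σ x = x ∧ σ y = y := by
  have hr1 : (0 : K) + a + -b = a - b := by ring
  have hr2 : (0 : K) * a + 0 * -b + a * -b = -(a * b) := by ring
  have hr3 : (0 : K) * a * -b = 0 := by ring
  have he1 : v.Wge (0 : K) 0 := RVal.wge_zero 0
  have he2 : v.Wge a 0 := RVal.wge_of_le ha0.ge
  have he3 : v.Wge (-b) 0 := (RVal.wge_of_le hb0.ge).neg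
  have hU : (0 : K) - -b ≠ 0 := by simpa using hb
  have hU0 : v.w ((0 : K) - -b) = 0 := by simpa using hb0
  have hnt := fun {x y : K} (h : W.Nonsingular x y) (hP : p • Point.some x y h = 0) =>
    no_torsion_E1 hW v hr1 hr2 hr3 he1 he2 he3 hU hU0 h2 hp hpw h hP
  have hx : v.Wge x 0 := hnt hxy hP
  have hy : v.Wge y 0 := fin_wge_y hW v hr1 hr2 hr3 he1 he2 he3 h2 hxy.1 hx
  by_contra hcon
  have hne : Point.some (σ x) (σ y) hxy' ≠ Point.some x y hxy := by
    intro h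
    rw [Point.some.injEq] at h
    exact hcon h
  obtain ⟨x₃, y₃, h₃, t, hQ, hX1, hX2, hX3, hY1, hY2, hY3⟩ :=
    fin_exists_triple hW hr1 hr2 hr3 hxy hxy' hne
  have hQp : p • Point.some x₃ y₃ h₃ = 0 := by
    rw [hQ, smul_sub, hP, hP', sub_zero]
  have hx3 : v.Wge x₃ 0 := hnt h₃ hQp
  have h4 : v.Wge (4 : K) 0 := RVal.wge_of_le (fin_w_four v h2).ge
  have h8 : v.Wge (8 : K) 0 := RVal.wge_of_le (fin_w_eight v h2).ge
  have hD : a - 0 ≠ 0 := by simpa using ha
  have key := LegTriple.same_red_good v (D := a - 0) (U := 0 - -b) hD (by simpa using ha0) hU hU0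
    (by simpa using hab) (by simpa using hab0) two_ne_zero h2 t
    (by rw [hX1]; exact (fin_mul0 h4 (hnt hxy' hP')).sub he1)
    (by rw [hX2]; exact (fin_mul0 h4 hx).sub he1)
    (by
      rw [hX1, hX2]
      have : 4 * σ x - 0 - (4 * x - 0) = 4 * (σ x - x) := by ring
      rw [this]
      exact fin_mul_wgt0 h4 (hσ x hx))
    (by
      rw [hY1, hY2]
      have : 8 * σ y + 4 * σ x + -(8 * y + 4 * x) = 8 * (σ y - y) + 4 * (σ x - x) := by ring
      rw [this]
      exact (fin_mul_wgt0 h8 (hσ y hy)).add (fin_mul_wgt0 h4 (hσ x hx)))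
  rw [hX3] at key
  exact fin_not_wge_of_E1 v he1 h2 key hx3

end good

section node

variable (hW : IsFreyW W a b) (v : RVal A) {e₁ e₂ e₃ ω d : K} (hr1 : e₁ + e₂ + e₃ = a - b)
  (hr2 : e₁ * e₂ + e₁ * e₃ + e₂ * e₃ = -(a * b)) (hr3 : e₁ * e₂ * e₃ = 0)
  (h : NodeData v (e₂ - e₁) (e₁ - e₃) ω)
include hW hr1 hr2 hr3 h

/-- a `p`-torsion point (`p` odd, `w D = p · w d`) is in class `0`, or near the node with
`w (4 x - e₁) = 2 j · w d` -/
theorem fin_torsion_class {p : ℕ} (hDd : v.w (e₂ - e₁) = p * v.w d) (hp : p.Prime)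
    (hp2 : p ≠ 2) {x y : K} (hxy : W.Nonsingular x y) (hP : p • Point.some x y hxy = 0) :
    IsE v (4 * x - e₁) ∨
      (IsN v (e₂ - e₁) (4 * x - e₁) ∧ ∃ j : ℕ, v.w (4 * x - e₁) = 2 * j * v.w d) := by
  obtain ⟨k, hk⟩ := cpt_nsmul hW v hr1 hr2 hr3 h p (Point.some x y hxy)
  rw [hP] at hk
  have hc0 : cpt v e₁ (e₂ - e₁) ω (0 : W.Point) = 0 := rfl
  have hc1 : cpt v e₁ (e₂ - e₁) ω (Point.some x y hxy) =
      cval v (e₂ - e₁) ω (4 * x - e₁) (8 * y + 4 * x) := rfl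
  rw [hc0, hc1] at hk
  have hp0 : (0 : ℝ) < p := by exact_mod_cast hp.pos
  have hd0 : 0 < v.w d := by
    have := h.D_pos
    rw [hDd] at this
    exact (mul_pos_iff_of_pos_left hp0).mp this
  rcases type_cases v (e₂ - e₁) (4 * x - e₁) with hE | hN | hM
  · exact Or.inl hE
  · right
    refine ⟨hN, ?_⟩
    by_cases hs : SgnPos v ω (4 * x - e₁) (8 * y + 4 * x)
    · rw [cval_of_isN_pos hN hs, hDd] at hk
      have e : v.w (4 * x - e₁) = 2 * ((-k : ℤ) : ℝ) * v.w d := by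
        have : (p : ℝ) * (v.w (4 * x - e₁) + 2 * k * v.w d) = 0 := by linarith
        rcases mul_eq_zero.mp this with h0 | h0
        · exact absurd h0 hp0.ne'
        · push_cast; linarith
      have hk' : 0 ≤ -k := by
        by_contra hcon
        have h1 : -k ≤ -1 := by omega
        have h2 : ((-k : ℤ) : ℝ) ≤ -1 := by exact_mod_cast h1
        nlinarith [hN.2.1]
      refine ⟨(-k).toNat, ?_⟩
      rw [e]
      have : (((-k).toNat : ℕ) : ℝ) = ((-k : ℤ) : ℝ) := by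
        exact_mod_cast congrArg (Int.cast : ℤ → ℝ) (Int.toNat_of_nonneg hk')
      rw [this]
    · rw [cval_of_isN_neg hN hs, hDd] at hk
      have e : v.w (4 * x - e₁) = 2 * ((k : ℤ) : ℝ) * v.w d := by
        have : (p : ℝ) * (-v.w (4 * x - e₁) + 2 * k * v.w d) = 0 := by linarith
        rcases mul_eq_zero.mp this with h0 | h0
        · exact absurd h0 hp0.ne'
        · linarith
      have hk' : 0 ≤ k := by
        by_contra hcon
        have h1 : k ≤ -1 := by omega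
        have h2 : ((k : ℤ) : ℝ) ≤ -1 := by exact_mod_cast h1
        nlinarith [hN.2.1]
      refine ⟨k.toNat, ?_⟩
      rw [e]
      have : ((k.toNat : ℕ) : ℝ) = ((k : ℤ) : ℝ) := by
        exact_mod_cast congrArg (Int.cast : ℤ → ℝ) (Int.toNat_of_nonneg hk')
      rw [this]
  · exfalso
    rw [cval_of_isM h.D_pos hM] at hk
    have : v.w (e₂ - e₁) * ((p : ℝ) + 2 * k) = 0 := by linarith
    rcases mul_eq_zero.mp this with h0 | h0
    · exact absurd h0 h.D_pos.ne'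
    · have hz : (p : ℤ) + 2 * k = 0 := by exact_mod_cast h0
      have h2 : (2 : ℤ) ∣ (p : ℤ) := ⟨-k, by linarith⟩
      have h2' : 2 ∣ p := by exact_mod_cast h2
      exact hp2 ((Nat.prime_dvd_prime_iff_eq Nat.prime_two hp).mp h2').symm

/-- **multiplicative reduction**: a ring endomorphism `σ` which is the identity modulo the maximal
ideal and fixes `e₁`, `d`, `ω` fixes every `p`-torsion point whose image is a `p`-torsion point -/
theorem final_node {p : ℕ} (he1 : v.Wge e₁ 0) (he2 : v.Wge e₂ 0) (he3 : v.Wge e₃ 0) (hd : d ≠ 0)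
    (hDd : v.w (e₂ - e₁) = p * v.w d) (hp : p.Prime) (hp2 : p ≠ 2) (hpw : v.w (p : K) = 0)
    (σ : K →+* K) (hσ : ∀ z, v.Wge z 0 → v.Wgt (σ z - z) 0) (hσe : σ e₁ = e₁) (hσd : σ d = d)
    (hσω : σ ω = ω) {x y : K} (hxy : W.Nonsingular x y) (hxy' : W.Nonsingular (σ x) (σ y))
    (hP : p • Point.some x y hxy = 0) (hP' : p • Point.some (σ x) (σ y) hxy' = 0) :
    σ x = x ∧ σ y = y := by
  have h2 := h.two_unit
  have hnt := fun {x y : K} (hh : W.Nonsingular x y) (hP : p • Point.some x y hh = 0) =>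
    no_torsion_E1 hW v hr1 hr2 hr3 he1 he2 he3 h.U_ne h.U_unit h2 hp hpw hh hP
  have hx : v.Wge x 0 := hnt hxy hP
  have hy : v.Wge y 0 := fin_wge_y hW v hr1 hr2 hr3 he1 he2 he3 h2 hxy.1 hx
  by_contra hcon
  have hne : Point.some (σ x) (σ y) hxy' ≠ Point.some x y hxy := by
    intro hh
    rw [Point.some.injEq] at hh
    exact hcon hh
  obtain ⟨x₃, y₃, h₃, t, hQ, hX1, hX2, hX3, hY1, hY2, hY3⟩ :=
    fin_exists_triple hW hr1 hr2 hr3 hxy hxy' hne
  have hQp : p • Point.some x₃ y₃ h₃ = 0 := by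
    rw [hQ, smul_sub, hP, hP', sub_zero]
  have hx3 : v.Wge x₃ 0 := hnt h₃ hQp
  suffices key : t.X₃ ≠ 0 ∧ v.w t.X₃ < 0 by
    rw [hX3] at key
    exact fin_not_wge_of_E1 v he1 h2 key hx3
  have h4 : v.Wge (4 : K) 0 := RVal.wge_of_le (fin_w_four v h2).ge
  have h8 : v.Wge (8 : K) 0 := RVal.wge_of_le (fin_w_eight v h2).ge
  have hσX : σ (4 * x - e₁) = 4 * σ x - e₁ := by
    rw [map_sub, map_mul, hσe, map_ofNat]
  have hσY : σ (8 * y + 4 * x) = 8 * σ y + 4 * σ x := by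
    rw [map_add, map_mul, map_mul, map_ofNat, map_ofNat]
  have hYsum : v.Wgt (8 * σ y + 4 * σ x + -(8 * y + 4 * x)) 0 := by
    have : 8 * σ y + 4 * σ x + -(8 * y + 4 * x) = 8 * (σ y - y) + 4 * (σ x - x) := by ring
    rw [this]
    exact (fin_mul_wgt0 h8 (hσ y hy)).add (fin_mul_wgt0 h4 (hσ x hx))
  rcases fin_torsion_class hW v hr1 hr2 hr3 h hDd hp hp2 hxy hP with hE | ⟨hN, j, hj⟩
  · -- class `0`: the point has unit `X`-coordinate
    have hXA : v.Wge (4 * x - e₁) 0 := (fin_mul0 h4 hx).sub he1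
    have hw0 : v.w (4 * x - e₁) = 0 := le_antisymm hE.2 (hXA.le hE.1)
    have hdiff : v.Wgt (4 * σ x - e₁ - (4 * x - e₁)) 0 := by
      have : 4 * σ x - e₁ - (4 * x - e₁) = 4 * (σ x - x) := by ring
      rw [this]
      exact fin_mul_wgt0 h4 (hσ x hx)
    have hX' : 4 * σ x - e₁ ≠ 0 ∧ v.w (4 * σ x - e₁) = 0 := by
      have := RVal.w_add_of_wgt hE.1 (by rw [hw0]; exact hdiff)
      rw [add_sub_cancel] at this
      rwa [hw0] at this
    exact LegTriple.same_red_node v h t (by rw [hX1]; exact hX') (by rw [hX2]; exact ⟨hE.1, hw0⟩)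
      (by rw [hX1, hX2]; exact hdiff) (by rw [hY1, hY2]; exact hYsum)
  · -- near the node
    have hdj : d ^ (2 * j) ≠ 0 := pow_ne_zero _ hd
    have hwdj : v.w (d ^ (2 * j)) = v.w (4 * x - e₁) := by
      rw [v.w_pow hd, hj]; push_cast; ring
    have hu : (4 * x - e₁) / d ^ (2 * j) ≠ 0 := div_ne_zero hN.1 hdj
    have hwu : v.w ((4 * x - e₁) / d ^ (2 * j)) = 0 := by
      rw [v.w_div hN.1 hdj, hwdj, sub_self]
    have hσu := hσ _ (RVal.wge_of_le hwu.ge)
    have hσXeq : σ (4 * x - e₁) - (4 * x - e₁) =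
        (σ ((4 * x - e₁) / d ^ (2 * j)) - (4 * x - e₁) / d ^ (2 * j)) * d ^ (2 * j) := by
      rw [map_div₀, map_pow, hσd]
      field_simp
    have hdiff : v.Wgt (σ (4 * x - e₁) - (4 * x - e₁)) (v.w (4 * x - e₁)) := by
      rw [hσXeq]
      have := hσu.mul_wge (RVal.wge_self (x := d ^ (2 * j)))
      rwa [zero_add, hwdj] at this
    have hX' : σ (4 * x - e₁) ≠ 0 ∧ v.w (σ (4 * x - e₁)) = v.w (4 * x - e₁) := by
      have := RVal.w_add_of_wgt hN.1 hdiff
      rwa [add_sub_cancel] at this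
    have hN' : IsN v (e₂ - e₁) (σ (4 * x - e₁)) :=
      ⟨hX'.1, by rw [hX'.2]; exact hN.2.1, by rw [hX'.2]; exact hN.2.2⟩
    have sign_transfer : ∀ ω' : K, σ ω' = ω' →
        SgnPos v ω' (4 * x - e₁) (8 * y + 4 * x) →
        SgnPos v ω' (σ (4 * x - e₁)) (σ (8 * y + 4 * x)) := by
      intro ω' hω' hs
      have hs0 : v.Wgt ((8 * y + 4 * x - ω' * (4 * x - e₁)) / (4 * x - e₁)) 0 := by
        by_cases hz : 8 * y + 4 * x - ω' * (4 * x - e₁) = 0
        · left; rw [hz, zero_div]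
        · right
          rw [v.w_div hz hN.1]
          have := hs.lt hz
          linarith
      have hσs : v.Wgt (σ ((8 * y + 4 * x - ω' * (4 * x - e₁)) / (4 * x - e₁))) 0 := by
        have := (hσ _ hs0.wge).add hs0
        rwa [sub_add_cancel] at this
      have e1 : σ (8 * y + 4 * x - ω' * (4 * x - e₁)) =
          σ (8 * y + 4 * x) - ω' * σ (4 * x - e₁) := by
        rw [map_sub, map_mul, hω']
      have e : σ (8 * y + 4 * x) - ω' * σ (4 * x - e₁) =
          σ ((8 * y + 4 * x - ω' * (4 * x - e₁)) / (4 * x - e₁)) * σ (4 * x - e₁) := by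
        rw [← e1, ← map_mul, div_mul_cancel₀ _ hN.1]
      show v.Wgt (σ (8 * y + 4 * x) - ω' * σ (4 * x - e₁)) (v.w (σ (4 * x - e₁)))
      rw [e]
      have := hσs.mul_wge (RVal.wge_self (x := σ (4 * x - e₁)))
      rwa [zero_add] at this
    have hcurve : (8 * y + 4 * x) ^ 2 =
        (4 * x - e₁) * ((4 * x - e₁) - (e₂ - e₁)) * ((4 * x - e₁) + (e₁ - e₃)) := by
      rw [fin_frey_eq_roots hW hr1 hr2 hr3 hxy.1]; ring
    have hXdiff : v.Wgt (t.X₁ - t.X₂) (v.w t.X₁) := by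
      rw [hX1, hX2, ← hσX, hX'.2]; exact hdiff
    rcases (sgn_dichotomy v h hcurve hN).1 with hs | hs
    · refine LegTriple.near_node_close v h t (by rw [hX1, ← hσX]; exact hN') hXdiff ?_ ?_
      · rw [hX1, hY1, ← hσX, ← hσY]; exact sign_transfer ω hσω hs
      · rw [hX2, hY2]
        have : -(8 * y + 4 * x) - -ω * (4 * x - e₁) = -(8 * y + 4 * x - ω * (4 * x - e₁)) := by
          ring
        show v.Wgt (-(8 * y + 4 * x) - -ω * (4 * x - e₁)) _
        rw [this]; exact hs.neg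
    · refine LegTriple.near_node_close v h.neg t (by rw [hX1, ← hσX]; exact hN') hXdiff ?_ ?_
      · rw [hX1, hY1, ← hσX, ← hσY]; exact sign_transfer (-ω) (by rw [map_neg, hσω]) hs
      · rw [hX2, hY2]
        have : -(8 * y + 4 * x) - - -ω * (4 * x - e₁) = -(8 * y + 4 * x - -ω * (4 * x - e₁)) := by
          ring
        show v.Wgt (-(8 * y + 4 * x) - - -ω * (4 * x - e₁)) _
        rw [this]; exact hs.neg

end node

end Fermat.Agent.F5
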