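import Mathlib
import Fermat.Prelude.Def_FLTPrelim_Ramification
import Fermat.Agent.Lib.F5_Defs

set_option autoImplicit false

/-!
# T05 (S05): the Frey glue (helper4)

* `frey_isFreyW` : the base change of `P.freyCurve` to `ℚ̄` is `IsFreyW _ (a^p) (b^p)`.
* `frey_unramified_of_points` : unfolding of `P.GaloisRepUnramifiedAt q`.
* `IsRecentring`, `frey_legTriple` : the recentred collinear triple of three points of sum `0`.
* `frey_arith` : the arithmetic of `a^p + b^p = c^p` at an odd prime `q`.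
* `frey_sigma_close`, `frey_sigma_sqrt` : consequences of `σ` acting trivially on the residue
  field.
-/

namespace Fermat.Agent.F5

open WeierstrassCurve WeierstrassCurve.Affine

/-! ### General valuation facts -/

section general

variable {K : Type*} [Field K] {A : ValuationSubring K} (v : RVal A)

/-- integers are integral -/
theorem frey_wge_int (n : ℤ) : v.Wge (n : K) 0 :=
  RVal.mem_iff_wge.mp (intCast_mem A n)

theorem frey_w_int_nonneg {n : ℤ} (hn : (n : K) ≠ 0) : 0 ≤ v.w (n : K) :=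
  (frey_wge_int v n).le hn

/-- an integer divisible by `q` has positive valuation -/
theorem frey_w_int_pos [CharZero K] {q : ℕ} (hq : 0 < v.w (q : K)) {n : ℤ} (hn : n ≠ 0)
    (h : (q : ℤ) ∣ n) : 0 < v.w (n : K) := by
  obtain ⟨m, rfl⟩ := h
  have hq0 : (q : ℤ) ≠ 0 := left_ne_zero_of_mul hn
  have hm0 : m ≠ 0 := right_ne_zero_of_mul hn
  have hqK : ((q : ℤ) : K) ≠ 0 := Int.cast_ne_zero.mpr hq0
  have hmK : (m : K) ≠ 0 := Int.cast_ne_zero.mpr hm0
  rw [Int.cast_mul, v.w_mul _ _ hqK hmK]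
  have := frey_w_int_nonneg v hmK
  have hq' : 0 < v.w (((q : ℤ) : K)) := by simpa using hq
  linarith

/-- if `w x = w d` with `d` fixed by `σ`, and `σ` acts trivially on the residue field, then
`σ x ≡ x` modulo higher valuation -/
theorem frey_sigma_close {σ : K →+* K} (hσ : ∀ x ∈ A, σ x - x ∈ A.nonunits) {x d : K}
    (hd : σ d = d) (hd0 : d ≠ 0) (hx0 : x ≠ 0) (hw : v.w x = v.w d) :
    v.Wgt (σ x - x) (v.w x) := by
  have hu0 : x / d ≠ 0 := div_ne_zero hx0 hd0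
  have hu : x / d ∈ A := by
    rw [v.mem_iff _ hu0, v.w_div hx0 hd0, hw, sub_self]
  have h1 : v.Wgt (σ (x / d) - x / d) 0 := RVal.mem_nonunits_iff_wgt.mp (hσ _ hu)
  have h2 : σ x - x = d * (σ (x / d) - x / d) := by
    rw [map_div₀, hd]
    field_simp
  rw [h2, hw]
  have := (RVal.wge_self (v := v) (x := d)).mul_wgt h1
  rwa [add_zero] at this

/-- a unit square root of a `σ`-fixed element is `σ`-fixed (residue characteristic `≠ 2`) -/
theorem frey_sigma_sqrt {σ : K →+* K} (hσ : ∀ x ∈ A, σ x - x ∈ A.nonunits) {U ω : K}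
    (hω : ω ^ 2 = U) (hU : σ U = U) (hω0 : ω ≠ 0) (hωu : v.w ω = 0) (h20 : (2 : K) ≠ 0)
    (h2 : v.w (2 : K) = 0) : σ ω = ω := by
  have h1 : (σ ω) ^ 2 = ω ^ 2 := by rw [← map_pow, hω, hU]
  rcases sq_eq_sq_iff_eq_or_eq_neg.mp h1 with h | h
  · exact h
  · exfalso
    have hmem : ω ∈ A := by rw [v.mem_iff _ hω0, hωu]
    have h3 : v.Wgt (σ ω - ω) 0 := RVal.mem_nonunits_iff_wgt.mp (hσ _ hmem)
    have h4 : σ ω - ω = -(2 * ω) := by rw [h]; ring
    rw [h4] at h3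
    have h5 : (2 : K) * ω ≠ 0 := mul_ne_zero h20 hω0
    have h6 := h3.lt (neg_ne_zero.mpr h5)
    rw [v.w_neg, v.w_mul _ _ h20 hω0, h2, hωu] at h6
    linarith

end general

/-! ### Recentring the roots `{0, A, -B}` -/

section recentring

variable {K : Type*} [Field K]

/-- `(e₁, e₂, e₃)` is an ordering of the roots `{0, A, -B}` of `T (T - A) (T + B)` -/
structure IsRecentring (A B e₁ e₂ e₃ : K) : Prop where
  sum : e₁ + e₂ + e₃ = A - B
  pair : e₁ * e₂ + e₁ * e₃ + e₂ * e₃ = -(A * B)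
  prod : e₁ * e₂ * e₃ = 0

theorem isRecentring_a (A B : K) : IsRecentring A B 0 A (-B) :=
  ⟨by ring, by ring, by ring⟩

theorem isRecentring_b (A B : K) : IsRecentring A B 0 (-B) A :=
  ⟨by ring, by ring, by ring⟩

theorem isRecentring_c (A B : K) : IsRecentring A B A (-B) 0 :=
  ⟨by ring, by ring, by ring⟩

open WeierstrassCurve.Affine in
/-- **group law ⇒ recentred collinear triple**: three affine points of the Frey-type curve with
sum `0` give, in the coordinates `X = 4 x - e₁`, `Y = 8 y + 4 x`, a `LegTriple (e₂ - e₁) (e₁ - e₃)`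
-/
theorem frey_legTriple [DecidableEq K] [CharZero K] {W : WeierstrassCurve.Affine K} {A B : K}
    (hW : IsFreyW W A B) {e₁ e₂ e₃ : K} (hr : IsRecentring A B e₁ e₂ e₃)
    {x₁ y₁ x₂ y₂ x₃ y₃ : K} (h₁ : W.Nonsingular x₁ y₁)
    (h₂ : W.Nonsingular x₂ y₂) (h₃ : W.Nonsingular x₃ y₃)
    (hsum : Point.some x₁ y₁ h₁ + Point.some x₂ y₂ h₂ + Point.some x₃ y₃ h₃ = 0) :
    ∃ t : LegTriple (e₂ - e₁) (e₁ - e₃),
      t.X₁ = 4 * x₁ - e₁ ∧ t.X₂ = 4 * x₂ - e₁ ∧ t.X₃ = 4 * x₃ - e₁ ∧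
      t.Y₁ = 8 * y₁ + 4 * x₁ ∧ t.Y₂ = 8 * y₂ + 4 * x₂ ∧ t.Y₃ = 8 * y₃ + 4 * x₃ := by
  obtain ⟨L, N, hy1, hy2, hy3, hs1, hs2, hs3⟩ := frey_triple hW h₁ h₂ h₃ hsum
  refine ⟨LegTriple.ofRoots e₁ e₂ e₃ L N (4 * x₁) (4 * x₂) (4 * x₃) ?_ ?_ ?_,
    rfl, rfl, rfl, ?_, ?_, ?_⟩
  · rw [hs1, hr.sum]; ring
  · rw [hs2, hr.pair]; ring
  · rw [hs3, hr.prod]; ring
  · simp only [LegTriple.Y₁, LegTriple.ofRoots]; rw [hy1]; ring
  · simp only [LegTriple.Y₂, LegTriple.ofRoots]; rw [hy2]; ring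
  · simp only [LegTriple.Y₃, LegTriple.ofRoots]; rw [hy3]; ring

end recentring

/-! ### The Frey curve -/

section frey

/-- the base change of the Frey curve to `ℚ̄` is of Frey type with `A = a^p`, `B = b^p` -/
theorem frey_isFreyW (P : FreyPackage) :
    IsFreyW (P.freyCurve⁄(AlgebraicClosure ℚ)) ((P.a : AlgebraicClosure ℚ) ^ P.p)
      ((P.b : AlgebraicClosure ℚ) ^ P.p) := by
  constructor <;>
    simp [FreyPackage.freyCurve, WeierstrassCurve.baseChange, WeierstrassCurve.map]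

/-- **unfolding** of `P.GaloisRepUnramifiedAt q`: it suffices that inertia at every place over `q`
fixes every `p`-torsion point -/
theorem frey_unramified_of_points (P : FreyPackage) (q : ℕ)
    (h : ∀ A : ValuationSubring (AlgebraicClosure ℚ), (q : AlgebraicClosure ℚ) ∈ A.nonunits →
      ∀ σ ∈ A.inertiaSubgroupIn ℚ, ∀ Pt : (P.freyCurve⁄(AlgebraicClosure ℚ)).Point,
        (P.p : ℤ) • Pt = 0 → Point.map (W' := P.freyCurve) σ.toAlgHom Pt = Pt) :
    P.GaloisRepUnramifiedAt q := by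
  intro A hA σ hσ x
  apply Subtype.ext
  have hx := x.2
  rw [Submodule.mem_torsionBy_iff] at hx
  exact h A hA σ hσ x.1 hx

/-- the local data of the Frey curve at a place over an odd prime: an ordering `(e₁, e₂, e₃)` of
the (integral) roots `{0, a^p, -b^p}` such that `U = e₁ - e₃` is a unit with square root `ω` -/
structure FreyLocal (P : FreyPackage) {A : ValuationSubring (AlgebraicClosure ℚ)} (v : RVal A)
    (e₁ e₂ e₃ : ℤ) (ω : AlgebraicClosure ℚ) : Prop where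
  rcn : IsRecentring ((P.a : AlgebraicClosure ℚ) ^ P.p) ((P.b : AlgebraicClosure ℚ) ^ P.p)
    (e₁ : AlgebraicClosure ℚ) (e₂ : AlgebraicClosure ℚ) (e₃ : AlgebraicClosure ℚ)
  ω_sq : ω ^ 2 = (e₁ : AlgebraicClosure ℚ) - e₃
  U_ne : (e₁ : AlgebraicClosure ℚ) - e₃ ≠ 0
  U_unit : v.w ((e₁ : AlgebraicClosure ℚ) - e₃) = 0
  D_ne : (e₂ : AlgebraicClosure ℚ) - e₁ ≠ 0
  DU_ne : (e₂ : AlgebraicClosure ℚ) - e₃ ≠ 0
  two_unit : v.w (2 : AlgebraicClosure ℚ) = 0

namespace FreyLocal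

variable {P : FreyPackage} {A : ValuationSubring (AlgebraicClosure ℚ)} {v : RVal A}
  {e₁ e₂ e₃ : ℤ} {ω : AlgebraicClosure ℚ}

theorem ω_ne (h : FreyLocal P v e₁ e₂ e₃ ω) : ω ≠ 0 := by
  intro h0
  have := h.ω_sq
  rw [h0] at this
  exact h.U_ne (by rw [← this]; ring)

theorem ω_unit (h : FreyLocal P v e₁ e₂ e₃ ω) : v.w ω = 0 := by
  have h1 := v.w_sq h.ω_ne
  rw [h.ω_sq, h.U_unit] at h1
  linarith

/-- the nodal situation when `D = e₂ - e₁` has positive valuation -/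
theorem nodeData (h : FreyLocal P v e₁ e₂ e₃ ω)
    (hD : 0 < v.w ((e₂ : AlgebraicClosure ℚ) - e₁)) :
    NodeData v ((e₂ : AlgebraicClosure ℚ) - e₁) ((e₁ : AlgebraicClosure ℚ) - e₃) ω where
  D_ne := h.D_ne
  D_pos := hD
  U_ne := h.U_ne
  U_unit := h.U_unit
  ω_sq := h.ω_sq
  two_ne := two_ne_zero
  two_unit := h.two_unit

/-- `ω` is fixed by every automorphism acting trivially on the residue field -/
theorem sigma_ω (h : FreyLocal P v e₁ e₂ e₃ ω) {σ : AlgebraicClosure ℚ ≃ₐ[ℚ] AlgebraicClosure ℚ}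
    (hσ : ∀ x ∈ A, σ x - x ∈ A.nonunits) : σ ω = ω := by
  have hU : (σ : AlgebraicClosure ℚ →+* AlgebraicClosure ℚ)
      ((e₁ : AlgebraicClosure ℚ) - e₃) = (e₁ : AlgebraicClosure ℚ) - e₃ := by
    simp
  exact frey_sigma_sqrt v (σ := (σ : AlgebraicClosure ℚ →+* AlgebraicClosure ℚ)) hσ h.ω_sq hU
    h.ω_ne h.ω_unit two_ne_zero h.two_unit

end FreyLocal

/-- a prime cannot divide two coprime integers -/
theorem frey_not_dvd_of_gcd {q : ℕ} (hq : q.Prime) {a b : ℤ} (hab : gcd a b = 1)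
    (ha : (q : ℤ) ∣ a) : ¬ (q : ℤ) ∣ b := by
  intro hb
  have h1 : (q : ℤ) ∣ 1 := hab ▸ dvd_gcd ha hb
  have h2 : q ∣ 1 := Int.natCast_dvd_natCast.mp (by exact_mod_cast h1)
  exact hq.one_lt.ne' (Nat.dvd_one.mp h2)

/-- **the arithmetic of the Frey curve at an odd prime `q`**: there is an ordering of the roots
such that either all root differences are units (good reduction), or `D = e₂ - e₁` has valuation
`p * w d > 0` for a nonzero integer `d` (multiplicative reduction) -/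
theorem frey_arith (P : FreyPackage) {q : ℕ} (hq : q.Prime) (hq2 : q ≠ 2)
    {A : ValuationSubring (AlgebraicClosure ℚ)} (v : RVal A)
    (hvq : 0 < v.w (q : AlgebraicClosure ℚ))
    (hvu : ∀ n : ℤ, ¬ (q : ℤ) ∣ n → v.w (n : AlgebraicClosure ℚ) = 0) :
    ∃ (e₁ e₂ e₃ : ℤ) (ω : AlgebraicClosure ℚ), FreyLocal P v e₁ e₂ e₃ ω ∧
      ((v.w ((e₂ : AlgebraicClosure ℚ) - e₁) = 0 ∧ v.w ((e₂ : AlgebraicClosure ℚ) - e₃) = 0) ∨
       ∃ d : ℤ, d ≠ 0 ∧ 0 < v.w (d : AlgebraicClosure ℚ) ∧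
         v.w ((e₂ : AlgebraicClosure ℚ) - e₁) = P.p * v.w (d : AlgebraicClosure ℚ)) := by
  classical
  have ha0 : (P.a : AlgebraicClosure ℚ) ≠ 0 := Int.cast_ne_zero.mpr P.ha0
  have hb0 : (P.b : AlgebraicClosure ℚ) ≠ 0 := Int.cast_ne_zero.mpr P.hb0
  have hc0 : (P.c : AlgebraicClosure ℚ) ≠ 0 := Int.cast_ne_zero.mpr P.hc0
  have hA0 : (P.a : AlgebraicClosure ℚ) ^ P.p ≠ 0 := pow_ne_zero _ ha0
  have hB0 : (P.b : AlgebraicClosure ℚ) ^ P.p ≠ 0 := pow_ne_zero _ hb0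
  have hC0 : (P.c : AlgebraicClosure ℚ) ^ P.p ≠ 0 := pow_ne_zero _ hc0
  have hC : (P.a : AlgebraicClosure ℚ) ^ P.p + (P.b : AlgebraicClosure ℚ) ^ P.p
      = (P.c : AlgebraicClosure ℚ) ^ P.p := by
    exact_mod_cast congrArg (Int.cast : ℤ → AlgebraicClosure ℚ) P.hFLT
  have hwA : v.w ((P.a : AlgebraicClosure ℚ) ^ P.p) = P.p * v.w (P.a : AlgebraicClosure ℚ) :=
    v.w_pow ha0 _
  have hwB : v.w ((P.b : AlgebraicClosure ℚ) ^ P.p) = P.p * v.w (P.b : AlgebraicClosure ℚ) :=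
    v.w_pow hb0 _
  have hwC : v.w ((P.c : AlgebraicClosure ℚ) ^ P.p) = P.p * v.w (P.c : AlgebraicClosure ℚ) :=
    v.w_pow hc0 _
  have h2 : v.w (2 : AlgebraicClosure ℚ) = 0 := by
    have := hvu 2 (by
      intro h
      have h' : q ∣ 2 := Int.natCast_dvd_natCast.mp (by exact_mod_cast h)
      exact hq2 ((Nat.prime_dvd_prime_iff_eq hq Nat.prime_two).mp h'))
    simpa using this
  -- square roots exist
  have hsqrt : ∀ U : AlgebraicClosure ℚ, ∃ ω : AlgebraicClosure ℚ, ω ^ 2 = U := fun U =>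
    IsAlgClosed.exists_pow_nat_eq U (by norm_num)
  by_cases hqa : (q : ℤ) ∣ P.a
  · -- `q ∣ a`
    have hqb : ¬ (q : ℤ) ∣ P.b := frey_not_dvd_of_gcd hq P.hgcdab hqa
    have hwb := hvu _ hqb
    have hwa := frey_w_int_pos v hvq P.ha0 hqa
    obtain ⟨ω, hω⟩ := hsqrt ((P.b : AlgebraicClosure ℚ) ^ P.p)
    refine ⟨0, P.a ^ P.p, -(P.b ^ P.p), ω, ⟨?_, ?_, ?_, ?_, ?_, ?_, h2⟩,
      Or.inr ⟨P.a, P.ha0, hwa, ?_⟩⟩
    · push_cast; exact isRecentring_a _ _
    · rw [hω]; push_cast; ring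
    · push_cast; simpa using hB0
    · push_cast; rw [zero_sub, neg_neg, hwB, hwb, mul_zero]
    · push_cast; simpa using hA0
    · push_cast; rw [sub_neg_eq_add, hC]; exact hC0
    · push_cast; rw [sub_zero, hwA]
  by_cases hqb : (q : ℤ) ∣ P.b
  · -- `q ∣ b`
    have hwa := hvu _ hqa
    have hwb := frey_w_int_pos v hvq P.hb0 hqb
    obtain ⟨ω, hω⟩ := hsqrt (-(P.a : AlgebraicClosure ℚ) ^ P.p)
    refine ⟨0, -(P.b ^ P.p), P.a ^ P.p, ω, ⟨?_, ?_, ?_, ?_, ?_, ?_, h2⟩,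
      Or.inr ⟨P.b, P.hb0, hwb, ?_⟩⟩
    · push_cast; exact isRecentring_b _ _
    · rw [hω]; push_cast; ring
    · push_cast; simpa using hA0
    · push_cast; rw [zero_sub, v.w_neg, hwA, hwa, mul_zero]
    · push_cast; simpa using hB0
    · push_cast
      have : -(P.b : AlgebraicClosure ℚ) ^ P.p - (P.a : AlgebraicClosure ℚ) ^ P.p
          = -((P.c : AlgebraicClosure ℚ) ^ P.p) := by rw [← hC]; ring
      rw [this]; exact neg_ne_zero.mpr hC0
    · push_cast; rw [sub_zero, v.w_neg, hwB]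
  by_cases hqc : (q : ℤ) ∣ P.c
  · -- `q ∣ c`
    have hwa := hvu _ hqa
    have hwb := hvu _ hqb
    have hwc := frey_w_int_pos v hvq P.hc0 hqc
    obtain ⟨ω, hω⟩ := hsqrt ((P.a : AlgebraicClosure ℚ) ^ P.p)
    have hD : -(P.b : AlgebraicClosure ℚ) ^ P.p - (P.a : AlgebraicClosure ℚ) ^ P.p
        = -((P.c : AlgebraicClosure ℚ) ^ P.p) := by rw [← hC]; ring
    refine ⟨P.a ^ P.p, -(P.b ^ P.p), 0, ω, ⟨?_, ?_, ?_, ?_, ?_, ?_, h2⟩,
      Or.inr ⟨P.c, P.hc0, hwc, ?_⟩⟩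
    · push_cast; exact isRecentring_c _ _
    · rw [hω]; push_cast; ring
    · push_cast; simpa using hA0
    · push_cast; rw [sub_zero, hwA, hwa, mul_zero]
    · push_cast; rw [hD]; exact neg_ne_zero.mpr hC0
    · push_cast; simpa using hB0
    · push_cast; rw [hD, v.w_neg, hwC]
  · -- good reduction
    have hwa := hvu _ hqa
    have hwb := hvu _ hqb
    have hwc := hvu _ hqc
    obtain ⟨ω, hω⟩ := hsqrt ((P.b : AlgebraicClosure ℚ) ^ P.p)
    refine ⟨0, P.a ^ P.p, -(P.b ^ P.p), ω, ⟨?_, ?_, ?_, ?_, ?_, ?_, h2⟩, Or.inl ⟨?_, ?_⟩⟩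
    · push_cast; exact isRecentring_a _ _
    · rw [hω]; push_cast; ring
    · push_cast; simpa using hB0
    · push_cast; rw [zero_sub, neg_neg, hwB, hwb, mul_zero]
    · push_cast; simpa using hA0
    · push_cast; rw [sub_neg_eq_add, hC]; exact hC0
    · push_cast; rw [sub_zero, hwA, hwa, mul_zero]
    · push_cast; rw [sub_neg_eq_add, hC, hwC, hwc, mul_zero]

end frey

end Fermat.Agent.F5
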