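/-
S05 support (helper6): a rational-valued additive valuation `wq A q` on `AlgebraicClosure ℚ`
attached to a valuation subring `A` lying over the prime `q`, with `wq A q q = 1`, together with
its behaviour under the decomposition and inertia subgroups.
-/
import Mathlib
import Fermat.Prelude.Def_FLTPrelim_Ramification

set_option autoImplicit false

namespace Fermat.Agent.F5

open ValuationSubring
open scoped Pointwise

local notation "Qb" => AlgebraicClosure ℚ

variable {A : ValuationSubring Qb} {q : ℕ}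

/-! ### The valuation of `A` on rational numbers -/

theorem val_q_lt_one (hA : A.LiesOverPrime q) : A.valuation (q : Qb) < 1 :=
  A.mem_nonunits_iff.mp hA

theorem val_q_ne_zero (hq : q.Prime) : A.valuation (q : Qb) ≠ 0 := by
  rw [Valuation.ne_zero_iff]
  exact_mod_cast hq.ne_zero

theorem val_q_pos (hq : q.Prime) : 0 < A.valuation (q : Qb) :=
  zero_lt_iff.mpr (val_q_ne_zero hq)

theorem val_intCast_le_one (n : ℤ) : A.valuation (n : Qb) ≤ 1 :=
  (A.valuation_le_one_iff _).mpr (intCast_mem A n)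

theorem val_intCast_eq_one (hq : q.Prime) (hA : A.LiesOverPrime q) (n : ℤ)
    (hn : ¬ (q : ℤ) ∣ n) : A.valuation (n : Qb) = 1 := by
  have hcop : IsCoprime n (q : ℤ) := by
    have := (Nat.prime_iff_prime_int.mp hq).coprime_iff_not_dvd.mpr hn
    exact this.symm
  obtain ⟨a, b, hab⟩ := hcop
  by_contra hne
  have hlt : A.valuation (n : Qb) < 1 := lt_of_le_of_ne (val_intCast_le_one n) hne
  have h1 : A.valuation ((a : Qb) * (n : Qb)) < 1 := by
    rw [map_mul]
    calc A.valuation (a : Qb) * A.valuation (n : Qb) ≤ 1 * A.valuation (n : Qb) :=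
          mul_le_mul_left (val_intCast_le_one a) _
      _ = A.valuation (n : Qb) := one_mul _
      _ < 1 := hlt
  have h2 : A.valuation ((b : Qb) * (q : Qb)) < 1 := by
    rw [map_mul]
    calc A.valuation (b : Qb) * A.valuation (q : Qb) ≤ 1 * A.valuation (q : Qb) :=
          mul_le_mul_left (val_intCast_le_one b) _
      _ = A.valuation (q : Qb) := one_mul _
      _ < 1 := val_q_lt_one hA
  have h3 : A.valuation ((a : Qb) * (n : Qb) + (b : Qb) * (q : Qb)) < 1 :=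
    A.valuation.map_add_lt h1 h2
  have h4 : ((a : Qb) * (n : Qb) + (b : Qb) * (q : Qb)) = 1 := by
    have := congrArg (Int.cast : ℤ → Qb) hab
    push_cast at this
    exact this
  rw [h4, map_one] at h3
  exact lt_irrefl _ h3

theorem val_natCast_exists (hq : q.Prime) (hA : A.LiesOverPrime q) (n : ℕ) (hn : n ≠ 0) :
    ∃ e : ℕ, A.valuation (n : Qb) = A.valuation (q : Qb) ^ e := by
  obtain ⟨e, n', hn', rfl⟩ := Nat.exists_eq_pow_mul_and_not_dvd hn q hq.ne_one
  refine ⟨e, ?_⟩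
  have h1 : A.valuation ((n' : ℤ) : Qb) = 1 :=
    val_intCast_eq_one hq hA n' (by exact_mod_cast hn')
  push_cast
  rw [map_mul, map_pow]
  have h2 : A.valuation (n' : Qb) = 1 := by exact_mod_cast h1
  rw [h2, mul_one]

theorem val_intCast_natAbs (z : ℤ) :
    A.valuation (z : Qb) = A.valuation ((z.natAbs : ℕ) : Qb) := by
  obtain ⟨n, rfl | rfl⟩ := Int.eq_nat_or_neg z
  · simp
  · simp [Valuation.map_neg]

theorem val_ratCast_exists (hq : q.Prime) (hA : A.LiesOverPrime q) (r : ℚ) (hr : r ≠ 0) :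
    ∃ m : ℤ, A.valuation (r : Qb) = A.valuation (q : Qb) ^ m := by
  have hnum : r.num.natAbs ≠ 0 := by
    simpa using Rat.num_ne_zero.mpr hr
  obtain ⟨e1, he1⟩ := val_natCast_exists hq hA r.num.natAbs hnum
  obtain ⟨e2, he2⟩ := val_natCast_exists hq hA r.den r.den_ne_zero
  refine ⟨(e1 : ℤ) - e2, ?_⟩
  have hr' : (r : Qb) = (r.num : Qb) / (r.den : Qb) := by
    conv_lhs => rw [← Rat.num_div_den r]
    push_cast
    rfl
  have hnum' : A.valuation (r.num : Qb) = A.valuation ((r.num.natAbs : ℕ) : Qb) :=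
    val_intCast_natAbs r.num
  rw [hr', map_div₀, hnum', he1, he2, zpow_sub₀ (val_q_ne_zero hq), zpow_natCast, zpow_natCast]

/-! ### Rank one: every nonzero algebraic number has a power of valuation `v(q)^m` -/

theorem exists_val_eq_of_sum_eq_zero {ι : Type*} [DecidableEq ι] (s : Finset ι) (t : ι → Qb)
    (hs : s.Nonempty) (ht : ∀ i ∈ s, t i ≠ 0) (hsum : ∑ i ∈ s, t i = 0) :
    ∃ i ∈ s, ∃ j ∈ s, i ≠ j ∧ A.valuation (t i) = A.valuation (t j) := by
  obtain ⟨i₀, hi₀, hmax⟩ := Finset.exists_max_image s (fun i => A.valuation (t i)) hs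
  by_contra hcon
  push Not at hcon
  have hlt : ∀ j ∈ s.erase i₀, A.valuation (t j) < A.valuation (t i₀) := by
    intro j hj
    have hj' := Finset.mem_erase.mp hj
    exact lt_of_le_of_ne (hmax j hj'.2) (fun h => hcon i₀ hi₀ j hj'.2 (Ne.symm hj'.1) h.symm)
  have hne : A.valuation (t i₀) ≠ 0 := (Valuation.ne_zero_iff _).mpr (ht i₀ hi₀)
  have h1 : A.valuation (∑ j ∈ s.erase i₀, t j) < A.valuation (t i₀) :=
    A.valuation.map_sum_lt hne hlt
  have h2 : t i₀ = -∑ j ∈ s.erase i₀, t j := by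
    have := Finset.add_sum_erase s t hi₀
    rw [hsum] at this
    exact eq_neg_of_add_eq_zero_left this
  rw [h2, Valuation.map_neg] at h1
  exact lt_irrefl _ h1

theorem exists_val_pow_eq (hq : q.Prime) (hA : A.LiesOverPrime q) (x : Qb) (hx : x ≠ 0) :
    ∃ n : ℕ, 0 < n ∧ ∃ m : ℤ, A.valuation x ^ n = A.valuation (q : Qb) ^ m := by
  classical
  have halg : IsIntegral ℚ x :=
    ((AlgebraicClosure.isAlgebraic ℚ).isAlgebraic x).isIntegral
  set f := minpoly ℚ x with hf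
  have hf0 : f ≠ 0 := minpoly.ne_zero halg
  have hsum : ∑ i ∈ f.support, algebraMap ℚ Qb (f.coeff i) * x ^ i = 0 := by
    have := minpoly.aeval ℚ x
    rw [Polynomial.aeval_def, Polynomial.eval₂_eq_sum, Polynomial.sum_def] at this
    exact this
  have hne : f.support.Nonempty := Polynomial.support_nonempty.mpr hf0
  have ht : ∀ i ∈ f.support, algebraMap ℚ Qb (f.coeff i) * x ^ i ≠ 0 := by
    intro i hi
    have hc : f.coeff i ≠ 0 := Polynomial.mem_support_iff.mp hi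
    exact mul_ne_zero ((map_ne_zero (algebraMap ℚ Qb)).mpr hc) (pow_ne_zero _ hx)
  obtain ⟨i, hi, j, hj, hij, hv⟩ :=
    exists_val_eq_of_sum_eq_zero (A := A) f.support
      (fun i => algebraMap ℚ Qb (f.coeff i) * x ^ i) hne ht hsum
  -- wlog i < j
  have key : ∀ i j : ℕ, i ∈ f.support → j ∈ f.support → i < j →
      A.valuation (algebraMap ℚ Qb (f.coeff i) * x ^ i) =
        A.valuation (algebraMap ℚ Qb (f.coeff j) * x ^ j) →
      ∃ n : ℕ, 0 < n ∧ ∃ m : ℤ, A.valuation x ^ n = A.valuation (q : Qb) ^ m := by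
    intro i j hi hj hlt hv
    have hci : f.coeff i ≠ 0 := Polynomial.mem_support_iff.mp hi
    have hcj : f.coeff j ≠ 0 := Polynomial.mem_support_iff.mp hj
    obtain ⟨mi, hmi⟩ := val_ratCast_exists hq hA (f.coeff i) hci
    obtain ⟨mj, hmj⟩ := val_ratCast_exists hq hA (f.coeff j) hcj
    refine ⟨j - i, Nat.sub_pos_of_lt hlt, mi - mj, ?_⟩
    have hvx : A.valuation x ≠ 0 := (Valuation.ne_zero_iff _).mpr hx
    have hvq : A.valuation (q : Qb) ≠ 0 := val_q_ne_zero hq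
    have e1 : algebraMap ℚ Qb (f.coeff i) = ((f.coeff i : ℚ) : Qb) := rfl
    have e2 : algebraMap ℚ Qb (f.coeff j) = ((f.coeff j : ℚ) : Qb) := rfl
    rw [map_mul, map_mul, map_pow, map_pow, e1, e2, hmi, hmj] at hv
    have hj' : j = (j - i) + i := by omega
    rw [hj', pow_add] at hv
    -- v(q)^mi * v(x)^i = v(q)^mj * (v(x)^(j-i) * v(x)^i)
    have hxi : A.valuation x ^ i ≠ 0 := pow_ne_zero _ hvx
    have h3 : A.valuation (q : Qb) ^ mi = A.valuation (q : Qb) ^ mj * A.valuation x ^ (j - i) := by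
      have := hv
      rw [← mul_assoc] at this
      exact mul_right_cancel₀ hxi this
    rw [zpow_sub₀ hvq, h3]
    field_simp
  rcases lt_or_gt_of_ne hij with h | h
  · exact key i j hi hj h hv
  · exact key j i hj hi h hv.symm

/-! ### The rational-valued additive valuation -/

open Classical in
/-- The additive valuation attached to `A`, normalised by `wq A q q = 1` (value `0` at `0`). -/
noncomputable def wq (A : ValuationSubring Qb) (q : ℕ) (x : Qb) : ℚ :=
  if h : ∃ n : ℕ, 0 < n ∧ ∃ m : ℤ, A.valuation x ^ n = A.valuation (q : Qb) ^ m then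
    (h.choose_spec.2.choose : ℚ) / (h.choose : ℚ)
  else 0

theorem wq_eq (hq : q.Prime) (hA : A.LiesOverPrime q) {x : Qb} {n : ℕ} (hn : 0 < n) {m : ℤ}
    (h : A.valuation x ^ n = A.valuation (q : Qb) ^ m) : wq A q x = (m : ℚ) / (n : ℚ) := by
  have hex : ∃ n : ℕ, 0 < n ∧ ∃ m : ℤ, A.valuation x ^ n = A.valuation (q : Qb) ^ m :=
    ⟨n, hn, m, h⟩
  have key : ∀ (n' : ℕ) (m' : ℤ), 0 < n' → A.valuation x ^ n' = A.valuation (q : Qb) ^ m' →
      (m' : ℚ) / (n' : ℚ) = (m : ℚ) / (n : ℚ) := by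
    intro n' m' hn' h'
    have hvq : A.valuation (q : Qb) ≠ 0 := val_q_ne_zero hq
    have e1 : A.valuation (q : Qb) ^ (m * n') = A.valuation (q : Qb) ^ (m' * n) := by
      rw [zpow_mul, zpow_mul, ← h, ← h', zpow_natCast, zpow_natCast, ← pow_mul, ← pow_mul,
        mul_comm]
    have e2 : m * n' = m' * n :=
      zpow_right_injective₀ (val_q_pos hq) (ne_of_lt (val_q_lt_one hA)) e1
    have hnQ : (n : ℚ) ≠ 0 := by exact_mod_cast hn.ne'
    have hn'Q : (n' : ℚ) ≠ 0 := by exact_mod_cast hn'.ne'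
    rw [div_eq_div_iff hn'Q hnQ]
    exact_mod_cast e2.symm
  unfold wq
  rw [dif_pos hex]
  exact key _ _ hex.choose_spec.1 hex.choose_spec.2.choose_spec

theorem wq_spec (hq : q.Prime) (hA : A.LiesOverPrime q) {x : Qb} (hx : x ≠ 0) :
    ∃ n : ℕ, 0 < n ∧ ∃ m : ℤ, A.valuation x ^ n = A.valuation (q : Qb) ^ m ∧
      wq A q x = (m : ℚ) / (n : ℚ) := by
  obtain ⟨n, hn, m, h⟩ := exists_val_pow_eq hq hA x hx
  exact ⟨n, hn, m, h, wq_eq hq hA hn h⟩

theorem wq_zero (hq : q.Prime) : wq A q 0 = 0 := by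
  unfold wq
  rw [dif_neg]
  rintro ⟨n, hn, m, h⟩
  rw [map_zero, zero_pow hn.ne'] at h
  exact zpow_ne_zero m (val_q_ne_zero hq) h.symm

theorem wq_mul (hq : q.Prime) (hA : A.LiesOverPrime q) {x y : Qb} (hx : x ≠ 0) (hy : y ≠ 0) :
    wq A q (x * y) = wq A q x + wq A q y := by
  obtain ⟨n, hn, m, h, e⟩ := wq_spec hq hA hx
  obtain ⟨n', hn', m', h', e'⟩ := wq_spec hq hA hy
  have hvq : A.valuation (q : Qb) ≠ 0 := val_q_ne_zero hq
  have h3 : A.valuation (x * y) ^ (n * n') = A.valuation (q : Qb) ^ (m * n' + m' * n) := by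
    rw [map_mul, mul_pow, pow_mul, h, mul_comm n n', pow_mul, h', zpow_add₀ hvq, zpow_mul,
      zpow_mul, zpow_natCast, zpow_natCast]
  rw [wq_eq hq hA (Nat.mul_pos hn hn') h3, e, e']
  have hnQ : (n : ℚ) ≠ 0 := by exact_mod_cast hn.ne'
  have hn'Q : (n' : ℚ) ≠ 0 := by exact_mod_cast hn'.ne'
  push_cast
  field_simp

theorem wq_one (hq : q.Prime) (hA : A.LiesOverPrime q) : wq A q 1 = 0 := by
  have h : A.valuation (1 : Qb) ^ 1 = A.valuation (q : Qb) ^ (0 : ℤ) := by simp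
  rw [wq_eq hq hA one_pos h]
  simp

theorem wq_q (hq : q.Prime) (hA : A.LiesOverPrime q) : wq A q (q : Qb) = 1 := by
  have h : A.valuation (q : Qb) ^ 1 = A.valuation (q : Qb) ^ (1 : ℤ) := by simp
  rw [wq_eq hq hA one_pos h]
  simp

theorem wq_inv (hq : q.Prime) (hA : A.LiesOverPrime q) {x : Qb} (hx : x ≠ 0) :
    wq A q x⁻¹ = -wq A q x := by
  have h := wq_mul hq hA hx (inv_ne_zero hx)
  rw [mul_inv_cancel₀ hx, wq_one hq hA] at h
  linarith

theorem wq_div (hq : q.Prime) (hA : A.LiesOverPrime q) {x y : Qb} (hx : x ≠ 0) (hy : y ≠ 0) :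
    wq A q (x / y) = wq A q x - wq A q y := by
  rw [div_eq_mul_inv, wq_mul hq hA hx (inv_ne_zero hy), wq_inv hq hA hy]
  ring

theorem wq_pow (hq : q.Prime) (hA : A.LiesOverPrime q) {x : Qb} (hx : x ≠ 0) (k : ℕ) :
    wq A q (x ^ k) = k * wq A q x := by
  induction k with
  | zero => simp [wq_one hq hA]
  | succ k ih =>
    rw [pow_succ, wq_mul hq hA (pow_ne_zero _ hx) hx, ih]
    push_cast
    ring

theorem wq_neg (hq : q.Prime) (hA : A.LiesOverPrime q) (x : Qb) :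
    wq A q (-x) = wq A q x := by
  rcases eq_or_ne x 0 with rfl | hx
  · rw [neg_zero]
  obtain ⟨n, hn, m, h, e⟩ := wq_spec hq hA hx
  rw [e]
  refine wq_eq hq hA hn ?_
  rw [Valuation.map_neg]
  exact h

theorem wq_nonneg_iff (hq : q.Prime) (hA : A.LiesOverPrime q) {x : Qb} (hx : x ≠ 0) :
    0 ≤ wq A q x ↔ x ∈ A := by
  obtain ⟨n, hn, m, h, e⟩ := wq_spec hq hA hx
  have hnQ : (0 : ℚ) < n := by exact_mod_cast hn
  rw [e, ← A.valuation_le_one_iff, div_nonneg_iff]
  have h1 : A.valuation x ≤ 1 ↔ A.valuation x ^ n ≤ 1 := (pow_le_one_iff hn.ne').symm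
  rw [h1, h, zpow_le_one_iff_right_of_lt_one₀ (val_q_pos hq) (val_q_lt_one hA)]
  constructor
  · rintro (⟨h2, -⟩ | ⟨-, h2⟩)
    · exact_mod_cast h2
    · exact absurd h2 (not_le.mpr hnQ)
  · intro h2
    exact Or.inl ⟨by exact_mod_cast h2, hnQ.le⟩

theorem wq_pos_iff (hq : q.Prime) (hA : A.LiesOverPrime q) {x : Qb} (hx : x ≠ 0) :
    0 < wq A q x ↔ x ∈ A.nonunits := by
  obtain ⟨n, hn, m, h, e⟩ := wq_spec hq hA hx
  have hnQ : (0 : ℚ) < n := by exact_mod_cast hn
  rw [e, A.mem_nonunits_iff, div_pos_iff_of_pos_right hnQ]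
  have h1 : A.valuation x < 1 ↔ A.valuation x ^ n < 1 := (pow_lt_one_iff hn.ne').symm
  rw [h1, h, zpow_lt_one_iff_right_of_lt_one₀ (val_q_pos hq) (val_q_lt_one hA)]
  exact_mod_cast Iff.rfl

theorem wq_add (hq : q.Prime) (hA : A.LiesOverPrime q) {x y : Qb} (hx : x ≠ 0) (hy : y ≠ 0)
    (hxy : x + y ≠ 0) : min (wq A q x) (wq A q y) ≤ wq A q (x + y) := by
  have key : ∀ x y : Qb, x ≠ 0 → y ≠ 0 → x + y ≠ 0 → wq A q x ≤ wq A q y →
      wq A q x ≤ wq A q (x + y) := by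
    intro x y hx hy hxy hle
    have h1 : y / x ∈ A := by
      rw [← wq_nonneg_iff hq hA (div_ne_zero hy hx), wq_div hq hA hy hx]
      linarith
    have h2 : 1 + y / x ∈ A := A.add_mem _ _ A.one_mem h1
    have h3 : x + y = x * (1 + y / x) := by field_simp
    have h4 : 1 + y / x ≠ 0 := by
      intro h0
      rw [h0, mul_zero] at h3
      exact hxy h3
    rw [h3, wq_mul hq hA hx h4]
    have := (wq_nonneg_iff hq hA h4).mpr h2
    linarith
  rcases le_total (wq A q x) (wq A q y) with h | h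
  · rw [min_eq_left h]
    exact key x y hx hy hxy h
  · rw [min_eq_right h, add_comm]
    exact key y x hy hx (by rwa [add_comm]) h

theorem wq_add_eq_of_lt (hq : q.Prime) (hA : A.LiesOverPrime q) {x y : Qb} (hx : x ≠ 0)
    (h : wq A q x < wq A q y ∨ y = 0) : wq A q (x + y) = wq A q x := by
  rcases eq_or_ne y 0 with rfl | hy
  · rw [add_zero]
  have h : wq A q x < wq A q y := h.resolve_right hy
  have hxy : x + y ≠ 0 := by
    intro h0
    have : y = -x := eq_neg_of_add_eq_zero_right h0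
    rw [this, wq_neg hq hA] at h
    exact lt_irrefl _ h
  apply le_antisymm
  · by_contra hcon
    push Not at hcon
    have h1 := wq_add hq hA hxy (neg_ne_zero.mpr hy) (by simpa using hx)
    rw [wq_neg hq hA] at h1
    have h2 : x + y + -y = x := by ring
    rw [h2] at h1
    have := lt_min hcon h
    exact absurd h1 (not_le.mpr this)
  · have := wq_add hq hA hx hy hxy
    rwa [min_eq_left h.le] at this

theorem wq_intCast_of_not_dvd (hq : q.Prime) (hA : A.LiesOverPrime q) {n : ℤ}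
    (hn : ¬ (q : ℤ) ∣ n) : wq A q (n : Qb) = 0 := by
  have h : A.valuation (n : Qb) ^ 1 = A.valuation (q : Qb) ^ (0 : ℤ) := by
    rw [val_intCast_eq_one hq hA n hn]
    simp
  rw [wq_eq hq hA one_pos h]
  simp

theorem wq_natCast_of_not_dvd (hq : q.Prime) (hA : A.LiesOverPrime q) {n : ℕ}
    (hn : ¬ q ∣ n) : wq A q (n : Qb) = 0 := by
  have := wq_intCast_of_not_dvd hq hA (n := (n : ℤ)) (by exact_mod_cast hn)
  exact_mod_cast this

theorem wq_intCast_nonneg (hq : q.Prime) (hA : A.LiesOverPrime q) (n : ℤ) :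
    0 ≤ wq A q (n : Qb) := by
  rcases eq_or_ne n 0 with rfl | hn
  · simp [wq_zero hq]
  · exact (wq_nonneg_iff hq hA (by exact_mod_cast hn)).mpr (intCast_mem A n)

theorem wq_intCast_pos (hq : q.Prime) (hA : A.LiesOverPrime q) {n : ℤ} (hn0 : n ≠ 0)
    (hn : (q : ℤ) ∣ n) : 0 < wq A q (n : Qb) := by
  obtain ⟨k, rfl⟩ := hn
  have hk : k ≠ 0 := by
    rintro rfl
    simp at hn0
  have hq0 : (q : Qb) ≠ 0 := by exact_mod_cast hq.ne_zero
  have hk0 : (k : Qb) ≠ 0 := by exact_mod_cast hk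
  push_cast
  rw [wq_mul hq hA hq0 hk0, wq_q hq hA]
  have := wq_intCast_nonneg hq hA k
  linarith

/-! ### Decomposition and inertia subgroups -/

theorem apply_mem_of_mem_decomp {σ : Qb ≃ₐ[ℚ] Qb} (hσ : σ ∈ A.decompositionSubgroup ℚ)
    {x : Qb} (hx : x ∈ A) : σ x ∈ A := by
  have h1 : σ • A = A := MulAction.mem_stabilizer_iff.mp hσ
  have h2 : σ • x ∈ σ • A := ValuationSubring.smul_mem_pointwise_smul σ x A hx
  rw [h1] at h2
  exact h2

theorem wq_apply_of_mem_decomp (hq : q.Prime) (hA : A.LiesOverPrime q) {σ : Qb ≃ₐ[ℚ] Qb}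
    (hσ : σ ∈ A.decompositionSubgroup ℚ) (x : Qb) : wq A q (σ x) = wq A q x := by
  rcases eq_or_ne x 0 with rfl | hx
  · rw [map_zero]
  obtain ⟨n, hn, m, h, e⟩ := wq_spec hq hA hx
  rw [e]
  refine wq_eq hq hA hn ?_
  have hq0 : (q : Qb) ≠ 0 := by exact_mod_cast hq.ne_zero
  have hvq : A.valuation (q : Qb) ≠ 0 := val_q_ne_zero hq
  set u : Qb := x ^ n / (q : Qb) ^ m with hu
  have hvu : A.valuation u = 1 := by
    rw [hu, map_div₀, map_pow, map_zpow₀, h]
    exact div_self (zpow_ne_zero m hvq)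
  have hu0 : u ≠ 0 := by
    intro h0
    rw [h0, map_zero] at hvu
    exact zero_ne_one hvu
  have huA : u ∈ A := (A.valuation_le_one_iff u).mp hvu.le
  have huA' : u⁻¹ ∈ A := by
    rw [← A.valuation_le_one_iff, map_inv₀, hvu, inv_one]
  have h1 : σ u ∈ A := apply_mem_of_mem_decomp hσ huA
  have h2 : (σ u)⁻¹ ∈ A := by
    rw [← map_inv₀]
    exact apply_mem_of_mem_decomp hσ huA'
  have hσu : A.valuation (σ u) = 1 := by
    have l1 : A.valuation (σ u) ≤ 1 := (A.valuation_le_one_iff _).mpr h1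
    have l2 : A.valuation (σ u)⁻¹ ≤ 1 := (A.valuation_le_one_iff _).mpr h2
    rw [map_inv₀] at l2
    have hne : A.valuation (σ u) ≠ 0 := (Valuation.ne_zero_iff _).mpr (by simpa using hu0)
    have l3 : 1 ≤ A.valuation (σ u) := by
      rwa [inv_le_one₀ (zero_lt_iff.mpr hne)] at l2
    exact le_antisymm l1 l3
  have h3 : σ u = σ x ^ n / (q : Qb) ^ m := by
    rw [hu, map_div₀, map_pow, map_zpow₀, map_natCast]
  rw [h3, map_div₀, map_pow, map_zpow₀] at hσu
  rw [div_eq_one_iff_eq (zpow_ne_zero m hvq)] at hσu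
  exact hσu

theorem mem_decomp_of_mem_inertia {σ : Qb ≃ₐ[ℚ] Qb} (hσ : σ ∈ A.inertiaSubgroupIn ℚ) :
    σ ∈ A.decompositionSubgroup ℚ := by
  obtain ⟨τ, -, rfl⟩ := Subgroup.mem_map.mp hσ
  exact τ.2

theorem sub_mem_nonunits_of_mem_inertia {σ : Qb ≃ₐ[ℚ] Qb} (hσ : σ ∈ A.inertiaSubgroupIn ℚ)
    {x : Qb} (hx : x ∈ A) : σ x - x ∈ A.nonunits := by
  obtain ⟨τ, hτ, rfl⟩ := Subgroup.mem_map.mp hσ
  have h1 : MulSemiringAction.toRingAut (A.decompositionSubgroup ℚ) (IsLocalRing.ResidueField A) τ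
      = 1 := MonoidHom.mem_ker.mp hτ
  have h2 : τ • IsLocalRing.residue A ⟨x, hx⟩ = IsLocalRing.residue A ⟨x, hx⟩ := by
    have := congrArg (fun f : RingAut (IsLocalRing.ResidueField A) =>
      f (IsLocalRing.residue A ⟨x, hx⟩)) h1
    exact this
  rw [← IsLocalRing.ResidueField.residue_smul] at h2
  have h3 : (τ • (⟨x, hx⟩ : A)) - ⟨x, hx⟩ ∈ IsLocalRing.maximalIdeal A := by
    rw [← Ideal.Quotient.eq]
    exact h2
  have h4 := (A.coe_mem_nonunits_iff).mpr h3
  exact h4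

theorem wq_sub_pos_of_mem_inertia (hq : q.Prime) (hA : A.LiesOverPrime q) {σ : Qb ≃ₐ[ℚ] Qb}
    (hσ : σ ∈ A.inertiaSubgroupIn ℚ) {x : Qb} (hx : x ∈ A) (hne : σ x ≠ x) :
    0 < wq A q (σ x - x) :=
  (wq_pos_iff hq hA (sub_ne_zero.mpr hne)).mpr (sub_mem_nonunits_of_mem_inertia hσ hx)

/-! ### Packaged real-valued form -/

/-- Real-valued version of `wq`. -/
noncomputable def wr (A : ValuationSubring Qb) (q : ℕ) (x : Qb) : ℝ := ((wq A q x : ℚ) : ℝ)

theorem wr_mul (hq : q.Prime) (hA : A.LiesOverPrime q) {x y : Qb} (hx : x ≠ 0) (hy : y ≠ 0) :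
    wr A q (x * y) = wr A q x + wr A q y := by
  unfold wr
  rw [wq_mul hq hA hx hy]
  push_cast
  rfl

theorem wr_add (hq : q.Prime) (hA : A.LiesOverPrime q) {x y : Qb} (hx : x ≠ 0) (hy : y ≠ 0)
    (hxy : x + y ≠ 0) : min (wr A q x) (wr A q y) ≤ wr A q (x + y) := by
  unfold wr
  have := wq_add hq hA hx hy hxy
  exact_mod_cast this

theorem wr_nonneg_iff (hq : q.Prime) (hA : A.LiesOverPrime q) {x : Qb} (hx : x ≠ 0) :
    0 ≤ wr A q x ↔ x ∈ A := by
  unfold wr
  rw [← wq_nonneg_iff hq hA hx]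
  exact_mod_cast Iff.rfl

theorem wr_pos_iff (hq : q.Prime) (hA : A.LiesOverPrime q) {x : Qb} (hx : x ≠ 0) :
    0 < wr A q x ↔ x ∈ A.nonunits := by
  unfold wr
  rw [← wq_pos_iff hq hA hx]
  exact_mod_cast Iff.rfl

/-- The real-valued valuation attached to a valuation subring of `AlgebraicClosure ℚ` over `q`,
with all the properties needed for local computations. -/
theorem exists_real_valuation (A : ValuationSubring Qb) {q : ℕ} (hq : q.Prime)
    (hA : A.LiesOverPrime q) : ∃ w : Qb → ℝ,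
      (∀ x y, x ≠ 0 → y ≠ 0 → w (x * y) = w x + w y) ∧
      (∀ x y, x ≠ 0 → y ≠ 0 → x + y ≠ 0 → min (w x) (w y) ≤ w (x + y)) ∧
      (∀ x, x ≠ 0 → (0 ≤ w x ↔ x ∈ A)) ∧
      (∀ x, x ≠ 0 → (0 < w x ↔ x ∈ A.nonunits)) ∧
      w (q : Qb) = 1 ∧
      (∀ n : ℤ, ¬ (q : ℤ) ∣ n → w (n : Qb) = 0) ∧
      (∀ σ : Qb ≃ₐ[ℚ] Qb, σ ∈ A.decompositionSubgroup ℚ → ∀ x, w (σ x) = w x) ∧
      (∀ σ : Qb ≃ₐ[ℚ] Qb, σ ∈ A.inertiaSubgroupIn ℚ →
        (∀ x, w (σ x) = w x) ∧ ∀ x, x ∈ A → σ x - x ∈ A.nonunits ∨ σ x = x) := by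
  refine ⟨wr A q, fun x y hx hy => wr_mul hq hA hx hy, fun x y hx hy hxy => wr_add hq hA hx hy hxy,
    fun x hx => wr_nonneg_iff hq hA hx, fun x hx => wr_pos_iff hq hA hx, ?_, ?_, ?_, ?_⟩
  · unfold wr
    rw [wq_q hq hA]
    norm_num
  · intro n hn
    unfold wr
    rw [wq_intCast_of_not_dvd hq hA hn]
    norm_num
  · intro σ hσ x
    unfold wr
    rw [wq_apply_of_mem_decomp hq hA hσ]
  · intro σ hσ
    refine ⟨fun x => ?_, fun x hx => Or.inl (sub_mem_nonunits_of_mem_inertia hσ hx)⟩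
    unfold wr
    rw [wq_apply_of_mem_decomp hq hA (mem_decomp_of_mem_inertia hσ)]

end Fermat.Agent.F5
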