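/-
S05 support (helper6): the real valuation of `F5_Val` packaged as an `RVal` (work package V).
-/
import Fermat.Agent.Lib.F5_Defs
import Fermat.Agent.Lib.F5_Val

set_option autoImplicit false

namespace Fermat.Agent.F5

open ValuationSubring

/-- the `RVal` attached to a valuation subring of `AlgebraicClosure ℚ` lying over `q` -/
noncomputable def rvalOf (A : ValuationSubring (AlgebraicClosure ℚ)) {q : ℕ} (hq : q.Prime)
    (hA : A.LiesOverPrime q) : RVal A where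
  w := wr A q
  w_mul := fun _ _ hx hy => wr_mul hq hA hx hy
  w_add := fun _ _ hx hy hxy => wr_add hq hA hx hy hxy
  mem_iff := fun _ hx => (wr_nonneg_iff hq hA hx).symm

theorem rvalOf_w (A : ValuationSubring (AlgebraicClosure ℚ)) {q : ℕ} (hq : q.Prime)
    (hA : A.LiesOverPrime q) (x : AlgebraicClosure ℚ) : (rvalOf A hq hA).w x = wr A q x := rfl

theorem rvalOf_q (A : ValuationSubring (AlgebraicClosure ℚ)) {q : ℕ} (hq : q.Prime)
    (hA : A.LiesOverPrime q) : (rvalOf A hq hA).w (q : AlgebraicClosure ℚ) = 1 := by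
  rw [rvalOf_w, wr, wq_q hq hA]
  norm_num

theorem rvalOf_intCast (A : ValuationSubring (AlgebraicClosure ℚ)) {q : ℕ} (hq : q.Prime)
    (hA : A.LiesOverPrime q) {n : ℤ} (hn : ¬(q : ℤ) ∣ n) :
    (rvalOf A hq hA).w (n : AlgebraicClosure ℚ) = 0 := by
  rw [rvalOf_w, wr, wq_intCast_of_not_dvd hq hA hn]
  norm_num

theorem rvalOf_apply_decomp (A : ValuationSubring (AlgebraicClosure ℚ)) {q : ℕ} (hq : q.Prime)
    (hA : A.LiesOverPrime q) {σ : AlgebraicClosure ℚ ≃ₐ[ℚ] AlgebraicClosure ℚ}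
    (hσ : σ ∈ A.decompositionSubgroup ℚ) (x : AlgebraicClosure ℚ) :
    (rvalOf A hq hA).w (σ x) = (rvalOf A hq hA).w x := by
  rw [rvalOf_w, rvalOf_w, wr, wr, wq_apply_of_mem_decomp hq hA hσ]

theorem rvalOf_apply_inertia (A : ValuationSubring (AlgebraicClosure ℚ)) {q : ℕ} (hq : q.Prime)
    (hA : A.LiesOverPrime q) {σ : AlgebraicClosure ℚ ≃ₐ[ℚ] AlgebraicClosure ℚ}
    (hσ : σ ∈ A.inertiaSubgroupIn ℚ) (x : AlgebraicClosure ℚ) :
    (rvalOf A hq hA).w (σ x) = (rvalOf A hq hA).w x :=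
  rvalOf_apply_decomp A hq hA (mem_decomp_of_mem_inertia hσ) x

/-- **WP-V (1)** -/
theorem exists_rval (A : ValuationSubring (AlgebraicClosure ℚ)) {q : ℕ} (hq : q.Prime)
    (hA : A.LiesOverPrime q) :
    ∃ v : RVal A, 0 < v.w (q : AlgebraicClosure ℚ) ∧
      ∀ n : ℤ, ¬(q : ℤ) ∣ n → v.w (n : AlgebraicClosure ℚ) = 0 :=
  ⟨rvalOf A hq hA, by rw [rvalOf_q]; exact one_pos, fun _ hn => rvalOf_intCast A hq hA hn⟩

/-- variant of `exists_rval` that also records `w q = 1` and the invariance of `w` under the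
inertia subgroup -/
theorem exists_rval_inv (A : ValuationSubring (AlgebraicClosure ℚ)) {q : ℕ} (hq : q.Prime)
    (hA : A.LiesOverPrime q) :
    ∃ v : RVal A, v.w (q : AlgebraicClosure ℚ) = 1 ∧
      (∀ n : ℤ, ¬(q : ℤ) ∣ n → v.w (n : AlgebraicClosure ℚ) = 0) ∧
      ∀ σ : AlgebraicClosure ℚ ≃ₐ[ℚ] AlgebraicClosure ℚ, σ ∈ A.inertiaSubgroupIn ℚ →
        ∀ x, v.w (σ x) = v.w x :=
  ⟨rvalOf A hq hA, rvalOf_q A hq hA, fun _ hn => rvalOf_intCast A hq hA hn,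
    fun _ hσ x => rvalOf_apply_inertia A hq hA hσ x⟩

/-- **WP-V (2)** -/
theorem inertia_mem (A : ValuationSubring (AlgebraicClosure ℚ))
    (σ : AlgebraicClosure ℚ ≃ₐ[ℚ] AlgebraicClosure ℚ) (hσ : σ ∈ A.inertiaSubgroupIn ℚ)
    (x : AlgebraicClosure ℚ) (hx : x ∈ A) : σ x ∈ A ∧ σ x - x ∈ A.nonunits :=
  ⟨apply_mem_of_mem_decomp (mem_decomp_of_mem_inertia hσ) hx,
    sub_mem_nonunits_of_mem_inertia hσ hx⟩

end Fermat.Agent.F5
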