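import Mathlib
import Fermat.Prelude.Def_FLTPrelim_Ramification
import Fermat.Agent.Lib.F5_Defs
import Fermat.Agent.Lib.F5_RVal
import Fermat.Agent.Lib.F5_Frey

set_option autoImplicit false

/-!
# T05 (S05): top-level reduction lemmas (helper4)

Everything needed to apply the two end lemmas `final_good` / `final_node` to the Frey curve:

* `frey_sigma_wgt` : the hypothesis `hσ` of the end lemmas for `σ` in the inertia subgroup.
* `frey_w_prime` : `w p = 0` for a prime `p ≠ q`.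
* `frey_cases` : the good / node alternative, the good case in the un-recentred shape.
* `frey_unramified_of_coords` : unfolding of `P.GaloisRepUnramifiedAt q` down to coordinates.
-/

namespace Fermat.Agent.F5

open WeierstrassCurve WeierstrassCurve.Affine

/-- the hypothesis `hσ` of the end lemmas: an element of the inertia subgroup moves every integral
element by an element of the maximal ideal -/
theorem frey_sigma_wgt {A : ValuationSubring (AlgebraicClosure ℚ)} (v : RVal A)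
    {σ : AlgebraicClosure ℚ ≃ₐ[ℚ] AlgebraicClosure ℚ} (hσ : σ ∈ A.inertiaSubgroupIn ℚ) :
    ∀ z, v.Wge z 0 → v.Wgt ((σ : AlgebraicClosure ℚ →+* AlgebraicClosure ℚ) z - z) 0 := by
  intro z hz
  exact RVal.mem_nonunits_iff_wgt.mp (inertia_mem A σ hσ z (RVal.mem_iff_wge.mpr hz)).2

/-- the same in terms of membership -/
theorem frey_sigma_mem {A : ValuationSubring (AlgebraicClosure ℚ)}
    {σ : AlgebraicClosure ℚ ≃ₐ[ℚ] AlgebraicClosure ℚ} (hσ : σ ∈ A.inertiaSubgroupIn ℚ) :
    ∀ x ∈ A, σ x - x ∈ A.nonunits :=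
  fun x hx => (inertia_mem A σ hσ x hx).2

/-- a prime different from `q` is a unit -/
theorem frey_w_prime {A : ValuationSubring (AlgebraicClosure ℚ)} (v : RVal A) {q : ℕ}
    (hq : q.Prime) (hvu : ∀ n : ℤ, ¬ (q : ℤ) ∣ n → v.w (n : AlgebraicClosure ℚ) = 0)
    {p : ℕ} (hp : p.Prime) (hqp : q ≠ p) : v.w (p : AlgebraicClosure ℚ) = 0 := by
  have := hvu (p : ℤ) (by
    intro h
    have h' : q ∣ p := Int.natCast_dvd_natCast.mp h
    exact hqp ((Nat.prime_dvd_prime_iff_eq hq hp).mp h'))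
  simpa using this

/-- `2` is a unit at an odd prime -/
theorem frey_w_two {A : ValuationSubring (AlgebraicClosure ℚ)} (v : RVal A) {q : ℕ}
    (hq : q.Prime) (hq2 : q ≠ 2)
    (hvu : ∀ n : ℤ, ¬ (q : ℤ) ∣ n → v.w (n : AlgebraicClosure ℚ) = 0) :
    v.w (2 : AlgebraicClosure ℚ) = 0 := by
  have := frey_w_prime v hq hvu Nat.prime_two hq2
  simpa using this

theorem frey_a_ne (P : FreyPackage) : (P.a : AlgebraicClosure ℚ) ^ P.p ≠ 0 :=
  pow_ne_zero _ (Int.cast_ne_zero.mpr P.ha0)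

theorem frey_b_ne (P : FreyPackage) : (P.b : AlgebraicClosure ℚ) ^ P.p ≠ 0 :=
  pow_ne_zero _ (Int.cast_ne_zero.mpr P.hb0)

theorem frey_ab_eq (P : FreyPackage) :
    (P.a : AlgebraicClosure ℚ) ^ P.p + (P.b : AlgebraicClosure ℚ) ^ P.p
      = (P.c : AlgebraicClosure ℚ) ^ P.p := by
  exact_mod_cast congrArg (Int.cast : ℤ → AlgebraicClosure ℚ) P.hFLT

theorem frey_ab_ne (P : FreyPackage) :
    (P.a : AlgebraicClosure ℚ) ^ P.p + (P.b : AlgebraicClosure ℚ) ^ P.p ≠ 0 := by
  rw [frey_ab_eq]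
  exact pow_ne_zero _ (Int.cast_ne_zero.mpr P.hc0)

/-- **the good / node alternative** at an odd prime `q`: either `a^p`, `b^p`, `a^p + b^p` are all
units (good reduction; the shape of `final_good`), or there is a recentring with nodal data (the
shape of `final_node`) -/
theorem frey_cases (P : FreyPackage) {q : ℕ} (hq : q.Prime) (hq2 : q ≠ 2)
    {A : ValuationSubring (AlgebraicClosure ℚ)} (v : RVal A)
    (hvq : 0 < v.w (q : AlgebraicClosure ℚ))
    (hvu : ∀ n : ℤ, ¬ (q : ℤ) ∣ n → v.w (n : AlgebraicClosure ℚ) = 0) :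
    (v.w ((P.a : AlgebraicClosure ℚ) ^ P.p) = 0 ∧ v.w ((P.b : AlgebraicClosure ℚ) ^ P.p) = 0 ∧
      v.w ((P.a : AlgebraicClosure ℚ) ^ P.p + (P.b : AlgebraicClosure ℚ) ^ P.p) = 0) ∨
    ∃ (e₁ e₂ e₃ d : ℤ) (ω : AlgebraicClosure ℚ), FreyLocal P v e₁ e₂ e₃ ω ∧ d ≠ 0 ∧
      NodeData v ((e₂ : AlgebraicClosure ℚ) - e₁) ((e₁ : AlgebraicClosure ℚ) - e₃) ω ∧
      v.w ((e₂ : AlgebraicClosure ℚ) - e₁) = P.p * v.w (d : AlgebraicClosure ℚ) := by
  by_cases hgood : ¬ (q : ℤ) ∣ P.a ∧ ¬ (q : ℤ) ∣ P.b ∧ ¬ (q : ℤ) ∣ P.c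
  · left
    obtain ⟨ha, hb, hc⟩ := hgood
    have ha0 : (P.a : AlgebraicClosure ℚ) ≠ 0 := Int.cast_ne_zero.mpr P.ha0
    have hb0 : (P.b : AlgebraicClosure ℚ) ≠ 0 := Int.cast_ne_zero.mpr P.hb0
    have hc0 : (P.c : AlgebraicClosure ℚ) ≠ 0 := Int.cast_ne_zero.mpr P.hc0
    refine ⟨?_, ?_, ?_⟩
    · rw [v.w_pow ha0, hvu _ ha, mul_zero]
    · rw [v.w_pow hb0, hvu _ hb, mul_zero]
    · rw [frey_ab_eq, v.w_pow hc0, hvu _ hc, mul_zero]
  · right
    obtain ⟨e₁, e₂, e₃, ω, hloc, hcase⟩ := frey_arith P hq hq2 v hvq hvu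
    rcases hcase with ⟨hD0, hDU0⟩ | ⟨d, hd, hdpos, hDd⟩
    · -- impossible: all three differences are units, but `q` divides one of `a`, `b`, `c`
      exfalso
      -- the product of the differences is `± (a b c)^p`
      have ha0 : (P.a : AlgebraicClosure ℚ) ≠ 0 := Int.cast_ne_zero.mpr P.ha0
      have hb0 : (P.b : AlgebraicClosure ℚ) ≠ 0 := Int.cast_ne_zero.mpr P.hb0
      have hc0 : (P.c : AlgebraicClosure ℚ) ≠ 0 := Int.cast_ne_zero.mpr P.hc0
      have hprod : (((e₂ : AlgebraicClosure ℚ) - e₁) * ((e₁ : AlgebraicClosure ℚ) - e₃)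
          * ((e₂ : AlgebraicClosure ℚ) - e₃)) ^ 2
          = ((P.a : AlgebraicClosure ℚ) ^ P.p * (P.b : AlgebraicClosure ℚ) ^ P.p
            * (P.c : AlgebraicClosure ℚ) ^ P.p) ^ 2 := by
        rw [← frey_ab_eq]
        have h1 := hloc.rcn.sum
        have h2 := hloc.rcn.pair
        have h3 := hloc.rcn.prod
        -- discriminant of the cubic with roots `e₁, e₂, e₃` in terms of symmetric functions
        have e3 : (e₃ : AlgebraicClosure ℚ) = (P.a : AlgebraicClosure ℚ) ^ P.p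
            - (P.b : AlgebraicClosure ℚ) ^ P.p - e₁ - e₂ := by linear_combination h1
        set a := (P.a : AlgebraicClosure ℚ) ^ P.p
        set b := (P.b : AlgebraicClosure ℚ) ^ P.p
        set x := (e₁ : AlgebraicClosure ℚ)
        set y := (e₂ : AlgebraicClosure ℚ)
        set z := (e₃ : AlgebraicClosure ℚ)
        have hdisc : ((y - x) * (x - z) * (y - z)) ^ 2
            = (x + y + z) ^ 2 * (x * y + x * z + y * z) ^ 2 - 4 * (x * y + x * z + y * z) ^ 3
              - 4 * (x + y + z) ^ 3 * (x * y * z) + 18 * (x + y + z) * (x * y + x * z + y * z)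
                * (x * y * z) - 27 * (x * y * z) ^ 2 := by ring
        rw [hdisc, h1, h2, h3]
        ring
      have hne1 := hloc.D_ne
      have hne2 := hloc.U_ne
      have hne3 := hloc.DU_ne
      have hw1 : v.w ((((e₂ : AlgebraicClosure ℚ) - e₁) * ((e₁ : AlgebraicClosure ℚ) - e₃)
          * ((e₂ : AlgebraicClosure ℚ) - e₃)) ^ 2) = 0 := by
        rw [v.w_sq (mul_ne_zero (mul_ne_zero hne1 hne2) hne3),
          v.w_mul _ _ (mul_ne_zero hne1 hne2) hne3, v.w_mul _ _ hne1 hne2, hD0, hloc.U_unit,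
          hDU0]
        ring
      have hA0 := frey_a_ne P
      have hB0 := frey_b_ne P
      have hC0 : (P.c : AlgebraicClosure ℚ) ^ P.p ≠ 0 := pow_ne_zero _ hc0
      rw [hprod, v.w_sq (mul_ne_zero (mul_ne_zero hA0 hB0) hC0),
        v.w_mul _ _ (mul_ne_zero hA0 hB0) hC0, v.w_mul _ _ hA0 hB0, v.w_pow ha0, v.w_pow hb0,
        v.w_pow hc0] at hw1
      have hpp : (0 : ℝ) < P.p := by exact_mod_cast P.hppos
      have hna := frey_w_int_nonneg v ha0
      have hnb := frey_w_int_nonneg v hb0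
      have hnc := frey_w_int_nonneg v hc0
      have hsum : v.w (P.a : AlgebraicClosure ℚ) + v.w (P.b : AlgebraicClosure ℚ)
          + v.w (P.c : AlgebraicClosure ℚ) = 0 := by
        have : (P.p : ℝ) * (v.w (P.a : AlgebraicClosure ℚ) + v.w (P.b : AlgebraicClosure ℚ)
          + v.w (P.c : AlgebraicClosure ℚ)) = 0 := by linarith
        rcases mul_eq_zero.mp this with h | h
        · exact absurd h hpp.ne'
        · exact h
      apply hgood
      refine ⟨fun h => ?_, fun h => ?_, fun h => ?_⟩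
      · have := frey_w_int_pos v hvq P.ha0 h; linarith
      · have := frey_w_int_pos v hvq P.hb0 h; linarith
      · have := frey_w_int_pos v hvq P.hc0 h; linarith
    · exact ⟨e₁, e₂, e₃, d, ω, hloc, hd, hloc.nodeData (by rw [hDd]; exact mul_pos (by exact_mod_cast P.hppos) hdpos), hDd⟩

/-- **unfolding down to coordinates**: it suffices that for every place `A` over `q`, every `σ` in
the inertia subgroup and every affine `p`-torsion point `(x, y)`, `σ x = x` and `σ y = y` (the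
conjugate point `(σ x, σ y)` is provided together with its `p`-torsion property) -/
theorem frey_unramified_of_coords (P : FreyPackage) (q : ℕ)
    (h : ∀ A : ValuationSubring (AlgebraicClosure ℚ), A.LiesOverPrime q →
      ∀ σ : AlgebraicClosure ℚ ≃ₐ[ℚ] AlgebraicClosure ℚ, σ ∈ A.inertiaSubgroupIn ℚ →
      ∀ (x y : AlgebraicClosure ℚ) (hxy : (P.freyCurve⁄(AlgebraicClosure ℚ)).Nonsingular x y)
        (hxy' : (P.freyCurve⁄(AlgebraicClosure ℚ)).Nonsingular
          ((σ : AlgebraicClosure ℚ →+* AlgebraicClosure ℚ) x)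
          ((σ : AlgebraicClosure ℚ →+* AlgebraicClosure ℚ) y)),
        P.p • Point.some x y hxy = 0 →
        P.p • Point.some ((σ : AlgebraicClosure ℚ →+* AlgebraicClosure ℚ) x)
          ((σ : AlgebraicClosure ℚ →+* AlgebraicClosure ℚ) y) hxy' = 0 →
        (σ : AlgebraicClosure ℚ →+* AlgebraicClosure ℚ) x = x ∧
          (σ : AlgebraicClosure ℚ →+* AlgebraicClosure ℚ) y = y) :
    P.GaloisRepUnramifiedAt q := by
  apply frey_unramified_of_points
  intro A hA σ hσ Pt hPt
  rcases Pt with _ | ⟨x, y, hxy⟩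
  · rfl
  have hP : P.p • Point.some x y hxy = 0 := by
    rw [← hPt, natCast_zsmul]
  have hP' : P.p • Point.map (W' := P.freyCurve) σ.toAlgHom (Point.some x y hxy) = 0 := by
    rw [← map_nsmul, hP, map_zero]
  rw [Point.map_some] at hP' ⊢
  obtain ⟨hx, hy⟩ := h A hA σ hσ x y hxy _ hP hP'
  have hx' : σ.toAlgHom x = x := hx
  have hy' : σ.toAlgHom y = y := hy
  simp only [hx', hy']

end Fermat.Agent.F5
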