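import Fermat.Agent.Lib.FF_Int

set_option autoImplicit false

/-!
# T24 [A-local], part 3: places above `x = a` ↔ orbits of the monodromy permutation
-/

noncomputable section

namespace Fermat.Agent.FF

open AlgebraicCurve IntermediateField

universe u v

variable {K : Type u} {F : Type v} [Field K] [Field F] [Algebra K F]

namespace LocalData

variable {x : F} {a : K} {I : Type} [Fintype I] (L : LocalData K F x a I)

theorem ζ_ne_zero : L.ζ ≠ 0 := L.ζ_prim.ne_zero L.e_pos.ne'

/-- the substitution `w ↦ ζ w` does not change the place -/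
theorem pl_ρ (k : I) : L.pl (L.ρ k) = L.pl k := by
  apply place_eq_of_ord (L.cst_pos _) (L.cst_pos _)
  intro f hf
  rw [← L.order_ι _ hf, ← L.order_ι _ hf]
  exact order_eq_of_coeff_twist L.ζ_ne_zero (fun m => L.ι_ρ k f m)

theorem pl_ρ_pow (k : I) (n : ℕ) : L.pl ((L.ρ ^ n) k) = L.pl k := by
  induction n with
  | zero => simp
  | succ n ih =>
    rw [pow_succ', Equiv.Perm.mul_apply, L.pl_ρ, ih]

theorem pl_sameCycle {k l : I} (h : L.ρ.SameCycle k l) : L.pl k = L.pl l := by
  obtain ⟨i, rfl⟩ := h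
  rcases Int.eq_nat_or_neg i with ⟨n, rfl | rfl⟩
  · rw [zpow_natCast, L.pl_ρ_pow]
  · have h1 := L.pl_ρ_pow ((L.ρ ^ (-(n : ℤ))) k) n
    rw [← zpow_natCast, ← Equiv.Perm.mul_apply, ← zpow_add] at h1
    simp only [add_neg_cancel, zpow_zero, Equiv.Perm.coe_one, id_eq] at h1
    exact h1

theorem ι_ρ_pow (k : I) (n : ℕ) (f : F) (m : ℤ) :
    (L.ι ((L.ρ ^ n) k) f).coeff m = (L.ζ ^ m) ^ n * (L.ι k f).coeff m := by
  induction n with
  | zero => simp
  | succ n ih =>
    rw [pow_succ', Equiv.Perm.mul_apply, L.ι_ρ, ih, pow_succ]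
    ring

/-- if `ρ ^ h` fixes `k` then the ramification index of `pl k` divides `h` -/
theorem ord_dvd_of_pow_fixed [Nonempty I] (k : I) (h : ℕ) (hk : (L.ρ ^ h) k = k) :
    (L.pl k).ord (x - algebraMap K F a) ∣ (h : ℤ) := by
  obtain ⟨π, hπ⟩ := IsDiscreteValuationRing.exists_irreducible (L.pl k).toValuationSubring
  have hπ1 : (L.pl k).ord (π : F) = 1 := (L.pl k).ord_coe_irreducible hπ
  have hπ0 : (π : F) ≠ 0 := by
    intro h0; rw [h0] at hπ1; simp at hπ1
  have hord : (L.ι k (π : F)).order = L.cst k := by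
    rw [L.order_ι k hπ0, hπ1, mul_one]
  have hcoeff : (L.ι k (π : F)).coeff (L.cst k) ≠ 0 := by
    rw [← hord]
    exact HahnSeries.coeff_order_eq_zero.not.mpr (emb_ne_zero _ hπ0)
  have h1 := L.ι_ρ_pow k h (π : F) (L.cst k)
  rw [hk] at h1
  have h2 : (L.ζ ^ (L.cst k)) ^ h = 1 := by
    have h3 : ((L.ζ ^ (L.cst k)) ^ h - 1) * (L.ι k (π : F)).coeff (L.cst k) = 0 := by
      rw [sub_mul, one_mul, ← h1, sub_self]
    rcases mul_eq_zero.mp h3 with h4 | h4
    · exact sub_eq_zero.mp h4
    · exact absurd h4 hcoeff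
  obtain ⟨c, hc⟩ := Int.eq_ofNat_of_zero_le (L.cst_pos k).le
  rw [hc, zpow_natCast, ← pow_mul, L.ζ_prim.pow_eq_one_iff_dvd] at h2
  have h5 : (L.e : ℤ) ∣ ((c * h : ℕ) : ℤ) := Int.natCast_dvd_natCast.mpr h2
  rw [← L.cst_mul_ord_x_sub k, hc] at h5
  push_cast at h5
  have hc0 : (c : ℤ) ≠ 0 := by
    rw [← hc]; exact (L.cst_pos k).ne'
  exact (mul_dvd_mul_iff_left hc0).mp h5

section Count

variable [CharZero K] [FiniteDimensional K⟮x⟯ F]

/-- **Counting.** The places above `x = a` are in bijection with the `ρ`-orbits. -/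
theorem card_places (hn : Module.finrank K⟮x⟯ F = Fintype.card I)
    (s : Finset (Place K F)) (hs : ∀ v, v ∈ s ↔ 0 < v.ord (x - algebraMap K F a))
    (hsum : ∑ v ∈ s, v.ord (x - algebraMap K F a) = (Fintype.card I : ℤ)) :
    s.card = L.orbits := by
  classical
  have hI : Nonempty I := L.nonempty_of_finrank hn
  -- the fibres of `pl`
  have hmaps : ((Finset.univ : Finset I) : Set I).MapsTo L.pl s := fun k _ =>
    Finset.mem_coe.mpr ((hs _).mpr (L.pl_over k))
  have hfib := Finset.card_eq_sum_card_fiberwise hmaps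
  -- the first `e_v` iterates are distinct
  have hinj : ∀ k : I, Set.InjOn (fun i : ℕ => (L.ρ ^ i) k)
      (Finset.range ((L.pl k).ord (x - algebraMap K F a)).toNat : Set ℕ) := by
    intro k
    have key : ∀ i j : ℕ, i < j → j < ((L.pl k).ord (x - algebraMap K F a)).toNat →
        (L.ρ ^ i) k ≠ (L.ρ ^ j) k := by
      intro i j hij hj heq
      have h1 : (L.ρ ^ (j - i)) k = k := by
        have h2 : (L.ρ ^ j) k = (L.ρ ^ i) ((L.ρ ^ (j - i)) k) := by
          rw [← Equiv.Perm.mul_apply, ← pow_add, Nat.add_sub_cancel' hij.le]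
        rw [h2] at heq
        exact ((L.ρ ^ i).injective heq).symm
      have h3 := L.ord_dvd_of_pow_fixed k (j - i) h1
      have h4 := Int.le_of_dvd (by omega) h3
      omega
    intro i hi j hj heq
    simp only [Finset.coe_range, Set.mem_Iio] at hi hj
    rcases lt_trichotomy i j with h | h | h
    · exact absurd heq (key i j h hj)
    · exact h
    · exact absurd heq.symm (key j i h hi)
  have himg_sub : ∀ k : I, (Finset.range ((L.pl k).ord (x - algebraMap K F a)).toNat).image
      (fun i : ℕ => (L.ρ ^ i) k) ⊆ Finset.univ.filter (fun l => L.pl l = L.pl k) := by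
    intro k l hl
    obtain ⟨i, -, rfl⟩ := Finset.mem_image.mp hl
    simp only [Finset.mem_filter, Finset.mem_univ, true_and]
    exact L.pl_ρ_pow k i
  have hle : ∀ v ∈ s, (v.ord (x - algebraMap K F a)).toNat
      ≤ (Finset.univ.filter (fun l => L.pl l = v)).card := by
    intro v hv
    obtain ⟨k, rfl⟩ := L.exists_pl_eq hn v ((hs v).mp hv)
    calc ((L.pl k).ord (x - algebraMap K F a)).toNat
        = ((Finset.range ((L.pl k).ord (x - algebraMap K F a)).toNat).image
            (fun i : ℕ => (L.ρ ^ i) k)).card := by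
          rw [Finset.card_image_of_injOn (hinj k), Finset.card_range]
      _ ≤ _ := Finset.card_le_card (himg_sub k)
  have hsum' : ∑ v ∈ s, (v.ord (x - algebraMap K F a)).toNat
      = ∑ v ∈ s, (Finset.univ.filter (fun l => L.pl l = v)).card := by
    rw [← hfib, Finset.card_univ]
    have h1 : ((∑ v ∈ s, (v.ord (x - algebraMap K F a)).toNat : ℕ) : ℤ)
        = (Fintype.card I : ℤ) := by
      rw [← hsum]
      push_cast
      refine Finset.sum_congr rfl fun v hv => ?_
      exact Int.toNat_of_nonneg ((hs v).mp hv).le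
    exact_mod_cast h1
  have heq := (Finset.sum_eq_sum_iff_of_le hle).mp hsum'
  -- the fibre of `pl k` is the set of the first `e` iterates
  have hfibre : ∀ k : I, (Finset.range ((L.pl k).ord (x - algebraMap K F a)).toNat).image
      (fun i : ℕ => (L.ρ ^ i) k) = Finset.univ.filter (fun l => L.pl l = L.pl k) := by
    intro k
    apply Finset.eq_of_subset_of_card_le (himg_sub k)
    rw [← heq (L.pl k) ((hs _).mpr (L.pl_over k)), Finset.card_image_of_injOn (hinj k),
      Finset.card_range]
  -- the bijection orbits ≃ places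
  let Φ : Quotient (Equiv.Perm.SameCycle.setoid L.ρ) → s :=
    Quotient.lift (fun k => (⟨L.pl k, (hs _).mpr (L.pl_over k)⟩ : s))
      (fun k l (h : L.ρ.SameCycle k l) => Subtype.ext (L.pl_sameCycle h))
  have hΦinj : Function.Injective Φ := by
    intro q₁ q₂
    induction q₁ using Quotient.inductionOn with | _ k =>
    induction q₂ using Quotient.inductionOn with | _ l =>
    intro h
    have h1 : L.pl k = L.pl l := congrArg Subtype.val h
    apply Quotient.sound
    have h2 : l ∈ Finset.univ.filter (fun l => L.pl l = L.pl k) := by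
      simp only [Finset.mem_filter, Finset.mem_univ, true_and]
      exact h1.symm
    rw [← hfibre k] at h2
    obtain ⟨i, -, rfl⟩ := Finset.mem_image.mp h2
    exact ⟨i, by rw [zpow_natCast]⟩
  have hΦsurj : Function.Surjective Φ := by
    rintro ⟨v, hv⟩
    obtain ⟨k, rfl⟩ := L.exists_pl_eq hn v ((hs v).mp hv)
    exact ⟨Quotient.mk _ k, rfl⟩
  have hcard := Nat.card_congr (Equiv.ofBijective Φ ⟨hΦinj, hΦsurj⟩)
  have hs_card : Nat.card (s : Type v) = s.card := by
    rw [Nat.card_eq_fintype_card, Fintype.card_coe]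
  rw [← hs_card, ← hcard]
  rfl

end Count

end LocalData

end Fermat.Agent.FF
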