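import Fermat.Agent.Lib.FF_Count

set_option autoImplicit false

/-!
# T24 [A-local], part 4: differentials

* `span_D_eq_top`: `Ω[F⁄K]` is spanned by `D x` when `F / K(x)` is separable algebraic;
* `exists_diff_map`: an embedding `ι : F → ℂ((w))`, constant on `K`, induces an additive map
  `ψ : Ω[F⁄K] → ℂ((w))` with `ψ (D f) = θ (ι f)` and `ψ (g • ω) = ι g * ψ ω`;
* for a `LocalData`: `D x ≠ 0`, `DCoordGenerates` at the places above `a`, and
  `ordDifferential (D x) = ord (x - a) - 1` there.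
-/

noncomputable section

namespace Fermat.Agent.FF

open AlgebraicCurve IntermediateField KaehlerDifferential

universe u v

variable {K : Type u} {F : Type v} [Field K] [Field F] [Algebra K F]

/-! ### `Ω[F⁄K]` is spanned by `D x` -/

theorem D_mem_span_of_mem_adjoin (x : F) {c : F} (hc : c ∈ K⟮x⟯) :
    D K F c ∈ Submodule.span F {D K F x} := by
  obtain ⟨r, s, rfl⟩ := (IntermediateField.mem_adjoin_simple_iff K c).mp hc
  rw [Derivation.leibniz_div, Derivation.map_aeval, Derivation.map_aeval]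
  apply Submodule.smul_mem
  apply Submodule.sub_mem <;> apply Submodule.smul_mem <;> apply Submodule.smul_mem <;>
    exact Submodule.mem_span_singleton_self _

open Polynomial in
theorem D_aeval_sub_mem (N : Submodule F Ω[F⁄K]) (E : IntermediateField K F)
    (hE : ∀ c : E, D K F (c : F) ∈ N) (f : F) (P : E[X]) :
    D K F (aeval f P) - aeval f (derivative P) • D K F f ∈ N := by
  induction P using Polynomial.induction_on with
  | C c =>
    simp only [aeval_C, derivative_C, map_zero, zero_smul, sub_zero]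
    exact hE c
  | add p q hp hq =>
    have : D K F (aeval f (p + q)) - aeval f (derivative (p + q)) • D K F f
        = (D K F (aeval f p) - aeval f (derivative p) • D K F f)
          + (D K F (aeval f q) - aeval f (derivative q) • D K F f) := by
      simp only [map_add, add_smul]
      abel
    rw [this]
    exact N.add_mem hp hq
  | monomial n c _ =>
    have h1 : aeval f (C c * X ^ (n + 1)) = (c : F) * f ^ (n + 1) := by
      simp [IntermediateField.algebraMap_apply]
    have h2 : aeval f (derivative (C c * X ^ (n + 1))) = (c : F) * ((n + 1 : ℕ) : F) * f ^ n := by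
      simp [IntermediateField.algebraMap_apply, mul_assoc]
    rw [h1, h2, Derivation.leibniz, Derivation.leibniz_pow]
    have h3 : (c : F) • ((n + 1) • f ^ (n + 1 - 1) • D K F f) + f ^ (n + 1) • D K F (c : F)
        - ((c : F) * ((n + 1 : ℕ) : F) * f ^ n) • D K F f = f ^ (n + 1) • D K F (c : F) := by
      simp only [Nat.add_sub_cancel, ← Nat.cast_smul_eq_nsmul F, smul_smul]
      module
    rw [h3]
    exact N.smul_mem _ (hE c)

/-- **A4.** `Ω[F⁄K]` is spanned by `D x`. -/
theorem span_D_eq_top (x : F) [Algebra.IsAlgebraic K⟮x⟯ F] [Algebra.IsSeparable K⟮x⟯ F] :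
    Submodule.span F {D K F x} = ⊤ := by
  rw [eq_top_iff, ← KaehlerDifferential.span_range_derivation K F, Submodule.span_le]
  rintro _ ⟨f, rfl⟩
  have hsep : (minpoly K⟮x⟯ f).Separable := Algebra.IsSeparable.isSeparable K⟮x⟯ f
  have h0 : Polynomial.aeval f (minpoly K⟮x⟯ f) = 0 := minpoly.aeval _ _
  have hne := hsep.aeval_derivative_ne_zero h0
  have h1 := D_aeval_sub_mem (Submodule.span F {D K F x}) K⟮x⟯
    (fun c => D_mem_span_of_mem_adjoin x c.2) f (minpoly K⟮x⟯ f)
  rw [h0, map_zero, zero_sub, Submodule.neg_mem_iff] at h1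
  have h2 := Submodule.smul_mem _ (Polynomial.aeval f (Polynomial.derivative (minpoly K⟮x⟯ f)))⁻¹ h1
  rwa [smul_smul, inv_mul_cancel₀ hne, one_smul] at h2

/-! ### the differential map of an embedding -/

/-- `LaurentSeries ℂ` as an `F`-module via an embedding. -/
def LMod (_ι : F →+* LaurentSeries ℂ) : Type := LaurentSeries ℂ

instance (ι : F →+* LaurentSeries ℂ) : AddCommGroup (LMod ι) :=
  inferInstanceAs (AddCommGroup (LaurentSeries ℂ))

instance instModuleLMod (ι : F →+* LaurentSeries ℂ) : Module F (LMod ι) :=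
  Module.compHom (LaurentSeries ℂ) ι

instance instModuleLModBase (ι : F →+* LaurentSeries ℂ) : Module K (LMod ι) :=
  Module.compHom (LaurentSeries ℂ) (ι.comp (algebraMap K F))

instance (ι : F →+* LaurentSeries ℂ) : IsScalarTower K F (LMod ι) :=
  ⟨fun c f (m : LaurentSeries ℂ) => by
    show ι (c • f) * m = ι (algebraMap K F c) * (ι f * m)
    rw [Algebra.smul_def, map_mul, mul_assoc]⟩

/-- the derivation `f ↦ θ (ι f)` -/
def embDer (ι : F →+* LaurentSeries ℂ) (φ : K →+* ℂ)
    (hι : ∀ c : K, ι (algebraMap K F c) = HahnSeries.C (φ c)) : Derivation K F (LMod ι) where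
  toFun f := eulerD (ι f)
  map_add' f g := by
    show eulerD (ι (f + g)) = eulerD (ι f) + eulerD (ι g)
    rw [map_add, eulerD_add]
  map_smul' c f := by
    show eulerD (ι (c • f)) = ι (algebraMap K F c) * eulerD (ι f)
    rw [Algebra.smul_def, map_mul, eulerD_mul, hι, eulerD_C, mul_zero, add_zero]
  map_one_eq_zero' := by
    show eulerD (ι 1) = 0
    rw [map_one, ← HahnSeries.C_one, eulerD_C]
  leibniz' f g := by
    show eulerD (ι (f * g)) = ι f * eulerD (ι g) + ι g * eulerD (ι f)
    rw [map_mul, eulerD_mul]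

/-- The differential map attached to an embedding. -/
theorem exists_diff_map (ι : F →+* LaurentSeries ℂ) (φ : K →+* ℂ)
    (hι : ∀ c : K, ι (algebraMap K F c) = HahnSeries.C (φ c)) :
    ∃ ψ : Ω[F⁄K] → LaurentSeries ℂ, (∀ f, ψ (D K F f) = eulerD (ι f)) ∧
      (∀ (g : F) (ω : Ω[F⁄K]), ψ (g • ω) = ι g * ψ ω) ∧
      (∀ ω ω' : Ω[F⁄K], ψ (ω + ω') = ψ ω + ψ ω') ∧ ψ 0 = 0 := by
  refine ⟨fun ω => (embDer ι φ hι).liftKaehlerDifferential ω, ?_, ?_, ?_, ?_⟩
  · intro f
    exact Derivation.liftKaehlerDifferential_comp_D (embDer ι φ hι) f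
  · intro g ω
    exact map_smul (embDer ι φ hι).liftKaehlerDifferential g ω
  · intro ω ω'
    exact map_add (embDer ι φ hι).liftKaehlerDifferential ω ω'
  · exact map_zero (embDer ι φ hι).liftKaehlerDifferential

/-! ### the coordinate differential of a place -/

/-- The coordinate differential of a place is `D π` for a uniformizer `π`. -/
theorem exists_dCoord_eq (v : Place K F) :
    ∃ π : F, v.ord π = 1 ∧ v.dCoord = D K F π :=
  ⟨_, v.ord_coe_irreducible
    (IsDiscreteValuationRing.exists_irreducible v.toValuationSubring).choose_spec, rfl⟩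

/-! ### differentials and `LocalData` -/

namespace LocalData

variable {x : F} {a : K} {I : Type} [Fintype I] (L : LocalData K F x a I)

theorem exists_ψ (k : I) : ∃ ψ : Ω[F⁄K] → LaurentSeries ℂ, (∀ f, ψ (D K F f) = eulerD (L.ι k f)) ∧
    (∀ (g : F) (ω : Ω[F⁄K]), ψ (g • ω) = L.ι k g * ψ ω) ∧
    (∀ ω ω' : Ω[F⁄K], ψ (ω + ω') = ψ ω + ψ ω') ∧ ψ 0 = 0 :=
  exists_diff_map (L.ι k) L.φ (L.ι_algebraMap k)

theorem eulerD_ι_x (k : I) : eulerD (L.ι k x) = eulerD (L.ξ - HahnSeries.C (L.φ a)) := by
  rw [L.ι_x, eulerD_sub, eulerD_C, sub_zero]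

theorem order_eulerD_ι_x (k : I) :
    (eulerD (L.ι k x)).order = (L.e : ℤ) ∧ eulerD (L.ι k x) ≠ 0 := by
  rw [L.eulerD_ι_x]
  have he : (L.ξ - HahnSeries.C (L.φ a)).order ≠ 0 := by
    rw [L.order_ξ]; exact_mod_cast L.e_pos.ne'
  exact ⟨by rw [order_eulerD L.ξ_ne he, L.order_ξ], eulerD_ne_zero L.ξ_ne he⟩

include L in
/-- `D x ≠ 0` -/
theorem D_x_ne_zero [Nonempty I] : D K F x ≠ 0 := by
  obtain ⟨k⟩ := ‹Nonempty I›
  obtain ⟨ψ, hψD, -, -, hψ0⟩ := L.exists_ψ k
  intro h
  have h1 := hψD x
  rw [h, hψ0] at h1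
  exact (L.order_eulerD_ι_x k).2 h1.symm

/-- the differential of a uniformizer at `pl k` is nonzero -/
theorem D_unif_ne_zero (k : I) {π : F} (hπ : (L.pl k).ord π = 1) : D K F π ≠ 0 := by
  obtain ⟨ψ, hψD, -, -, hψ0⟩ := L.exists_ψ k
  have hπ0 : π ≠ 0 := by rintro rfl; simp at hπ
  have hord : (L.ι k π).order = L.cst k := by rw [L.order_ι k hπ0, hπ, mul_one]
  intro h
  have h1 := hψD π
  rw [h, hψ0] at h1
  exact eulerD_ne_zero (emb_ne_zero _ hπ0) (by rw [hord]; exact (L.cst_pos k).ne') h1.symm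

theorem dCoordGenerates_pl (hspan : Submodule.span F {D K F x} = ⊤) (k : I) :
    (L.pl k).DCoordGenerates := by
  obtain ⟨π, hπ, hd⟩ := exists_dCoord_eq (L.pl k)
  have hne := L.D_unif_ne_zero k hπ
  constructor
  rw [hd]
  have hmem : D K F π ∈ Submodule.span F {D K F x} := by rw [hspan]; trivial
  obtain ⟨g, hg⟩ := Submodule.mem_span_singleton.mp hmem
  have hg0 : g ≠ 0 := by
    rintro rfl
    rw [zero_smul] at hg
    exact hne hg.symm
  rw [eq_top_iff, ← hspan, Submodule.span_le, Set.singleton_subset_iff]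
  have h1 : D K F x = g⁻¹ • D K F π := by
    rw [← hg, smul_smul, inv_mul_cancel₀ hg0, one_smul]
  rw [SetLike.mem_coe, h1]
  exact Submodule.smul_mem _ _ (Submodule.mem_span_singleton_self _)

theorem ordDifferential_pl [Nonempty I] (hspan : Submodule.span F {D K F x} = ⊤) (k : I) :
    (L.pl k).ordDifferential (D K F x) = (L.pl k).ord (x - algebraMap K F a) - 1 := by
  have hgen := L.dCoordGenerates_pl hspan k
  obtain ⟨π, hπ, hd⟩ := exists_dCoord_eq (L.pl k)
  obtain ⟨ψ, hψD, hψsmul, -, hψ0⟩ := L.exists_ψ k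
  have hgeq : (L.pl k).differentialCoeff (D K F x) • D K F π = D K F x := by
    rw [← hd]; exact (L.pl k).differentialCoeff_smul_dCoord _
  have hg0 : (L.pl k).differentialCoeff (D K F x) ≠ 0 := by
    intro h0
    rw [h0, zero_smul] at hgeq
    exact L.D_x_ne_zero hgeq.symm
  have hπ0 : π ≠ 0 := by rintro rfl; simp at hπ
  have h1 : eulerD (L.ι k x)
      = L.ι k ((L.pl k).differentialCoeff (D K F x)) * eulerD (L.ι k π) := by
    rw [← hψD, ← hψD, ← hψsmul, hgeq]
  have hordπ : (L.ι k π).order = L.cst k := by rw [L.order_ι k hπ0, hπ, mul_one]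
  have hordπ0 : (L.ι k π).order ≠ 0 := by rw [hordπ]; exact (L.cst_pos k).ne'
  have h2 : (eulerD (L.ι k π)).order = L.cst k := by
    rw [order_eulerD (emb_ne_zero _ hπ0) hordπ0, hordπ]
  have h3 := congrArg HahnSeries.order h1
  rw [(L.order_eulerD_ι_x k).1,
    HahnSeries.order_mul (emb_ne_zero _ hg0) (eulerD_ne_zero (emb_ne_zero _ hπ0) hordπ0), h2,
    L.order_ι k hg0, ← L.cst_mul_ord_x_sub k] at h3
  have hc := L.cst_pos k
  have h4 : L.cst k * ((L.pl k).ord (x - algebraMap K F a))
      = L.cst k * ((L.pl k).ord ((L.pl k).differentialCoeff (D K F x)) + 1) := by linarith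
  have h5 := mul_left_cancel₀ hc.ne' h4
  show (L.pl k).ord ((L.pl k).differentialCoeff (D K F x)) = _
  linarith

/-- unramified data: the places above `a` have `ord (x - a) = 1` -/
theorem ord_pl_eq_one [Nonempty I] (he : L.e = 1) (k : I) :
    (L.pl k).ord (x - algebraMap K F a) = 1 := by
  have h1 := L.cst_mul_ord_x_sub k
  rw [he] at h1
  have h2 := L.pl_over k
  have h3 := L.cst_pos k
  have h4 : (L.pl k).ord (x - algebraMap K F a) ∣ 1 := ⟨L.cst k, by rw [mul_comm]; exact_mod_cast h1.symm⟩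
  exact Int.eq_one_of_dvd_one h2.le h4

section Over

variable [CharZero K] [FiniteDimensional K⟮x⟯ F]

include L in
theorem dCoordGenerates_of_over (hn : Module.finrank K⟮x⟯ F = Fintype.card I)
    (hspan : Submodule.span F {D K F x} = ⊤) (v : Place K F)
    (hv : 0 < v.ord (x - algebraMap K F a)) : v.DCoordGenerates := by
  obtain ⟨k, rfl⟩ := L.exists_pl_eq hn v hv
  exact L.dCoordGenerates_pl hspan k

include L in
theorem ordDifferential_of_over (hn : Module.finrank K⟮x⟯ F = Fintype.card I)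
    (hspan : Submodule.span F {D K F x} = ⊤) (v : Place K F)
    (hv : 0 < v.ord (x - algebraMap K F a)) :
    v.ordDifferential (D K F x) = v.ord (x - algebraMap K F a) - 1 := by
  have hI : Nonempty I := L.nonempty_of_finrank hn
  obtain ⟨k, rfl⟩ := L.exists_pl_eq hn v hv
  exact L.ordDifferential_pl hspan k

theorem ord_eq_one_of_over (hn : Module.finrank K⟮x⟯ F = Fintype.card I) (he : L.e = 1)
    (v : Place K F) (hv : 0 < v.ord (x - algebraMap K F a)) :
    v.ord (x - algebraMap K F a) = 1 := by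
  have hI : Nonempty I := L.nonempty_of_finrank hn
  obtain ⟨k, rfl⟩ := L.exists_pl_eq hn v hv
  exact L.ord_pl_eq_one he k

end Over

end LocalData

end Fermat.Agent.FF
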