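import Mathlib

set_option autoImplicit false

/-!
# T24 [A-local], part 0: Laurent series facts

* the Euler derivation `θ = w d/dw` on `LaurentSeries ℂ` (coefficientwise `m * f_m`);
* the subring of series of order `≥ 0`;
* orders are preserved by the twist `f_m ↦ ζ^m f_m`.
-/

noncomputable section

namespace Fermat.Agent.FF

open HahnSeries

/-- The Euler operator `w d/dw` on Laurent series. -/
def eulerD (f : LaurentSeries ℂ) : LaurentSeries ℂ where
  coeff m := (m : ℂ) * f.coeff m
  isPWO_support' := f.isPWO_support.mono (by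
    intro m hm
    simp only [Function.mem_support, ne_eq, mul_eq_zero, not_or] at hm
    exact hm.2)

@[simp] theorem eulerD_coeff (f : LaurentSeries ℂ) (m : ℤ) :
    (eulerD f).coeff m = (m : ℂ) * f.coeff m := rfl

theorem eulerD_support_subset (f : LaurentSeries ℂ) : (eulerD f).support ⊆ f.support := by
  intro m hm
  simp only [HahnSeries.mem_support, eulerD_coeff, ne_eq, mul_eq_zero, not_or] at hm ⊢
  exact hm.2

@[simp] theorem eulerD_zero : eulerD 0 = 0 := by
  ext m; simp

theorem eulerD_add (f g : LaurentSeries ℂ) : eulerD (f + g) = eulerD f + eulerD g := by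
  ext m; simp [mul_add]

theorem eulerD_neg (f : LaurentSeries ℂ) : eulerD (-f) = -eulerD f := by
  ext m; simp

theorem eulerD_sub (f g : LaurentSeries ℂ) : eulerD (f - g) = eulerD f - eulerD g := by
  ext m; simp [mul_sub]

theorem eulerD_C (c : ℂ) : eulerD (C c) = 0 := by
  ext m
  by_cases hm : m = 0
  · subst hm; simp
  · rw [eulerD_coeff, HahnSeries.C_apply, HahnSeries.coeff_single_of_ne hm]; simp

theorem eulerD_mul (f g : LaurentSeries ℂ) :
    eulerD (f * g) = f * eulerD g + g * eulerD f := by
  ext m
  rw [HahnSeries.coeff_add, eulerD_coeff, HahnSeries.coeff_mul,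
    HahnSeries.coeff_mul_right' g.isPWO_support (eulerD_support_subset g),
    mul_comm g (eulerD f),
    HahnSeries.coeff_mul_left' f.isPWO_support (eulerD_support_subset f),
    Finset.mul_sum, ← Finset.sum_add_distrib]
  refine Finset.sum_congr rfl fun ij hij => ?_
  have h := (Finset.mem_antidiagonal.mp hij).2.2
  simp only [eulerD_coeff]
  rw [← h]
  push_cast
  ring

/-- `θ f` has the same order as `f` when that order is nonzero. -/
theorem eulerD_coeff_order_ne_zero {f : LaurentSeries ℂ} (hf : f ≠ 0) (ho : f.order ≠ 0) :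
    (eulerD f).coeff f.order ≠ 0 := by
  rw [eulerD_coeff]
  exact mul_ne_zero (by exact_mod_cast ho) (HahnSeries.coeff_order_eq_zero.not.mpr hf)

theorem eulerD_ne_zero {f : LaurentSeries ℂ} (hf : f ≠ 0) (ho : f.order ≠ 0) : eulerD f ≠ 0 :=
  HahnSeries.ne_zero_of_coeff_ne_zero (eulerD_coeff_order_ne_zero hf ho)

theorem order_eulerD {f : LaurentSeries ℂ} (hf : f ≠ 0) (ho : f.order ≠ 0) :
    (eulerD f).order = f.order := by
  apply le_antisymm
  · exact HahnSeries.order_le_of_coeff_ne_zero (eulerD_coeff_order_ne_zero hf ho)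
  · have h1 : (eulerD f).coeff (eulerD f).order ≠ 0 :=
      HahnSeries.coeff_order_eq_zero.not.mpr (eulerD_ne_zero hf ho)
    have h2 : f.coeff (eulerD f).order ≠ 0 := by
      intro h
      apply h1
      rw [eulerD_coeff, h, mul_zero]
    exact HahnSeries.order_le_of_coeff_ne_zero h2

/-! ### order lemmas -/

theorem order_inv' {f : LaurentSeries ℂ} (hf : f ≠ 0) : (f⁻¹).order = -f.order := by
  have h := HahnSeries.order_mul hf (inv_ne_zero hf)
  rw [mul_inv_cancel₀ hf, HahnSeries.order_one] at h
  linarith

theorem order_pow' (f : LaurentSeries ℂ) (n : ℕ) : (f ^ n).order = n * f.order := by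
  by_cases hf : f = 0
  · subst hf
    rcases Nat.eq_zero_or_pos n with rfl | hn
    · simp
    · rw [zero_pow hn.ne']; simp
  induction n with
  | zero => simp
  | succ n ih =>
    rw [pow_succ, HahnSeries.order_mul (pow_ne_zero n hf) hf, ih]
    push_cast; ring


theorem order_zpow' {f : LaurentSeries ℂ} (hf : f ≠ 0) (n : ℤ) : (f ^ n).order = n * f.order := by
  rcases Int.eq_nat_or_neg n with ⟨m, rfl | rfl⟩
  · rw [zpow_natCast, order_pow']
  · rw [zpow_neg, zpow_natCast, order_inv' (pow_ne_zero m hf), order_pow']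
    ring

/-- the twist `f_m ↦ ζ^m f_m` preserves the order -/
theorem order_eq_of_coeff_twist {f g : LaurentSeries ℂ} {ζ : ℂ} (hζ : ζ ≠ 0)
    (h : ∀ m : ℤ, g.coeff m = ζ ^ m * f.coeff m) : g.order = f.order := by
  have hsupp : ∀ m : ℤ, g.coeff m = 0 ↔ f.coeff m = 0 := by
    intro m
    rw [h m, mul_eq_zero]
    constructor
    · rintro (h1 | h1)
      · exact absurd h1 (zpow_ne_zero m hζ)
      · exact h1
    · exact fun h1 => Or.inr h1
  by_cases hf : f = 0
  · have hg : g = 0 := by
      ext m
      rw [(hsupp m).mpr (by rw [hf]; simp)]; simp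
    rw [hf, hg]
  · have hg : g ≠ 0 := by
      intro hg
      apply hf
      ext m
      rw [(hsupp m).mp (by rw [hg]; simp)]; simp
    apply le_antisymm
    · apply HahnSeries.order_le_of_coeff_ne_zero
      rw [ne_eq, hsupp]
      exact HahnSeries.coeff_order_eq_zero.not.mpr hf
    · apply HahnSeries.order_le_of_coeff_ne_zero
      rw [ne_eq, ← hsupp]
      exact HahnSeries.coeff_order_eq_zero.not.mpr hg

/-- The subring of Laurent series of order `≥ 0` (power series). -/
def ordRing : Subring (LaurentSeries ℂ) where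
  carrier := {f | 0 ≤ f.order}
  mul_mem' := by
    intro f g hf hg
    simp only [Set.mem_ofPred_eq] at hf hg ⊢
    by_cases hf0 : f = 0
    · subst hf0; simp
    by_cases hg0 : g = 0
    · subst hg0; simp
    rw [HahnSeries.order_mul hf0 hg0]
    exact add_nonneg hf hg
  one_mem' := by simp
  add_mem' := by
    intro f g hf hg
    simp only [Set.mem_ofPred_eq] at hf hg ⊢
    by_cases hfg : f + g = 0
    · rw [hfg]; simp
    exact le_trans (le_min hf hg) (HahnSeries.min_order_le_order_add hfg)
  zero_mem' := by simp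
  neg_mem' := by
    intro f hf
    simp only [Set.mem_ofPred_eq] at hf ⊢
    rw [HahnSeries.order_neg]; exact hf

theorem mem_ordRing {f : LaurentSeries ℂ} : f ∈ ordRing ↔ 0 ≤ f.order := Iff.rfl

end Fermat.Agent.FF
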