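import Fermat.Agent.Lib.FF_Defs
import Fermat.Prelude.Def_AlgebraicCurve_Repartitions
import Fermat.Agent.Lib.FF_Laurent

set_option autoImplicit false

/-!
# T24 [A-local], part 1: the place attached to an embedding `F → ℂ((w))`

* a small toolkit for `Place.ord`;
* `exists_place_of_emb`: an embedding `ι : F →+* LaurentSeries ℂ`, constant on `K`, under which
  some element has positive order, defines a place `v` with `order (ι f) = c * v.ord f`;
* `place_eq_of_ord`: a place is determined by the sign of its `ord`.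
-/

noncomputable section

namespace Fermat.Agent.FF

open AlgebraicCurve HahnSeries

universe u v

variable {K : Type u} {F : Type v} [Field K] [Field F] [Algebra K F]

/-! ### toolkit for `Place.ord` -/

section PlaceOrd

variable (v : Place K F)

theorem place_mem_iff (f : F) : f ∈ v.toValuationSubring ↔ f = 0 ∨ 0 ≤ v.ord f := by
  constructor
  · intro hf
    exact v.adicValuation_le_one_iff.mp (v.adicValuation_le_one_of_mem hf)
  · rintro (rfl | hf)
    · exact zero_mem _
    · by_cases h0 : f = 0
      · subst h0; exact zero_mem _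
      obtain ⟨π, hπ⟩ := IsDiscreteValuationRing.exists_irreducible v.toValuationSubring
      obtain ⟨u, hu⟩ := v.exists_unit_mul_zpow h0 hπ
      rw [hu]
      apply mul_mem (u : v.toValuationSubring).2
      obtain ⟨n, hn⟩ := Int.eq_ofNat_of_zero_le hf
      rw [hn, zpow_natCast]
      exact pow_mem π.2 n

theorem place_ord_neg (f : F) : v.ord (-f) = v.ord f := by
  simp [Place.ord, Valuation.map_neg]

theorem place_ord_algebraMap (c : K) : v.ord (algebraMap K F c) = 0 := by
  by_cases hc : c = 0
  · subst hc; simp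
  have h1 : algebraMap K F c ∈ v.toValuationSubring := v.algebraMap_mem' c
  have h2 : algebraMap K F c⁻¹ ∈ v.toValuationSubring := v.algebraMap_mem' c⁻¹
  have hc' : algebraMap K F c ≠ 0 := (map_ne_zero _).mpr hc
  rw [place_mem_iff] at h1 h2
  rw [map_inv₀, v.ord_inv] at h2
  rcases h1 with h1 | h1
  · exact absurd h1 hc'
  rcases h2 with h2 | h2
  · exact absurd h2 (inv_ne_zero hc')
  linarith

theorem place_ord_add {f g : F} (hfg : f + g ≠ 0) :
    min (v.ord f) (v.ord g) ≤ v.ord (f + g) := by
  have h1 : v.adicValuation f ≤ WithZero.exp (-(min (v.ord f) (v.ord g))) := by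
    rw [v.adicValuation_le_exp_iff]
    right; rw [neg_neg]; exact min_le_left _ _
  have h2 : v.adicValuation g ≤ WithZero.exp (-(min (v.ord f) (v.ord g))) := by
    rw [v.adicValuation_le_exp_iff]
    right; rw [neg_neg]; exact min_le_right _ _
  have h3 : v.adicValuation (f + g) ≤ WithZero.exp (-(min (v.ord f) (v.ord g))) :=
    (Valuation.map_add _ _ _).trans (max_le h1 h2)
  rw [v.adicValuation_le_exp_iff, neg_neg] at h3
  exact h3.resolve_left hfg

theorem place_ord_add_eq_of_lt {f g : F} (hf : f ≠ 0) (h : v.ord f < v.ord g) :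
    v.ord (f + g) = v.ord f := by
  have hfg : f + g ≠ 0 := by
    intro h0
    have : g = -f := by linear_combination h0
    rw [this, place_ord_neg] at h
    exact lt_irrefl _ h
  apply le_antisymm
  · have h2 : f + g + -g = f := by ring
    have h1 := place_ord_add v (f := f + g) (g := -g) (by rw [h2]; exact hf)
    rw [place_ord_neg, h2] at h1
    rcases min_le_iff.mp h1 with h3 | h3
    · exact h3
    · exact absurd h3 (not_le.mpr h)
  · have := place_ord_add v hfg
    rwa [min_eq_left h.le] at this

theorem place_ord_pow (f : F) (n : ℕ) : v.ord (f ^ n) = n * v.ord f := by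
  have := v.ord_zpow f n
  rwa [zpow_natCast] at this

/-- A place is determined by the set of elements of nonnegative order. -/
theorem place_eq_of_nonneg {v v' : Place K F}
    (h : ∀ f : F, f ≠ 0 → (0 ≤ v.ord f ↔ 0 ≤ v'.ord f)) : v = v' := by
  apply Place.ext
  ext f
  rw [place_mem_iff, place_mem_iff]
  by_cases hf : f = 0
  · simp [hf]
  · simp [hf, h f hf]

/-- A place is determined by the sign of its order function. -/
theorem place_eq_of_ord {v v' : Place K F} {c c' : ℤ} (hc : 0 < c) (hc' : 0 < c')
    (h : ∀ f : F, f ≠ 0 → c * v.ord f = c' * v'.ord f) : v = v' := by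
  apply place_eq_of_nonneg
  intro f hf
  have := h f hf
  constructor
  · intro h1
    have h2 : 0 ≤ c * v.ord f := mul_nonneg hc.le h1
    rw [this] at h2
    exact nonneg_of_mul_nonneg_right h2 hc'
  · intro h1
    have h2 : 0 ≤ c' * v'.ord f := mul_nonneg hc'.le h1
    rw [← this] at h2
    exact nonneg_of_mul_nonneg_right h2 hc

/-- If every element of positive order at `v` has positive order at `v'`, then `v = v'`. -/
theorem place_eq_of_pos_imp {v v' : Place K F}
    (h : ∀ f : F, f ≠ 0 → 0 < v.ord f → 0 < v'.ord f) : v = v' := by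
  obtain ⟨π, hπ⟩ := IsDiscreteValuationRing.exists_irreducible v.toValuationSubring
  have hπ1 : v.ord (π : F) = 1 := v.ord_coe_irreducible hπ
  have hπ0 : (π : F) ≠ 0 := by
    intro h0; rw [h0] at hπ1; simp at hπ1
  have hπ' : 0 < v'.ord (π : F) := h _ hπ0 (by rw [hπ1]; exact one_pos)
  apply place_eq_of_nonneg
  intro f hf
  constructor
  · intro h1
    by_contra h2
    rw [not_le] at h2
    -- consider f ^ N * π with N large
    set N : ℕ := (v'.ord (π : F)).toNat with hN
    have hfN : f ^ N * (π : F) ≠ 0 := mul_ne_zero (pow_ne_zero N hf) hπ0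
    have h3 : 0 < v.ord (f ^ N * (π : F)) := by
      rw [v.ord_mul (pow_ne_zero N hf) hπ0, place_ord_pow, hπ1]
      have : 0 ≤ (N : ℤ) * v.ord f := mul_nonneg (Int.natCast_nonneg N) h1
      linarith
    have h4 := h _ hfN h3
    rw [v'.ord_mul (pow_ne_zero N hf) hπ0, place_ord_pow] at h4
    have h5 : (N : ℤ) = v'.ord (π : F) := by rw [hN]; exact Int.toNat_of_nonneg hπ'.le
    rw [h5] at h4
    nlinarith
  · intro h1
    by_contra h2
    rw [not_le] at h2
    have h3 : 0 < v.ord f⁻¹ := by rw [v.ord_inv]; linarith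
    have h4 := h _ (inv_ne_zero hf) h3
    rw [v'.ord_inv] at h4
    linarith

end PlaceOrd

/-! ### the place of an embedding -/

section Emb

variable (ι : F →+* LaurentSeries ℂ)

theorem emb_ne_zero {f : F} (hf : f ≠ 0) : ι f ≠ 0 := (map_ne_zero ι).mpr hf

theorem emb_order_mul {f g : F} (hf : f ≠ 0) (hg : g ≠ 0) :
    (ι (f * g)).order = (ι f).order + (ι g).order := by
  rw [map_mul, HahnSeries.order_mul (emb_ne_zero ι hf) (emb_ne_zero ι hg)]

theorem emb_order_inv (f : F) : (ι f⁻¹).order = -(ι f).order := by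
  by_cases hf : f = 0
  · subst hf; simp
  · rw [map_inv₀, order_inv' (emb_ne_zero ι hf)]

theorem emb_order_zpow {f : F} (hf : f ≠ 0) (n : ℤ) : (ι (f ^ n)).order = n * (ι f).order := by
  rw [map_zpow₀, order_zpow' (emb_ne_zero ι hf)]

theorem emb_order_pow (f : F) (n : ℕ) : (ι (f ^ n)).order = n * (ι f).order := by
  rw [map_pow, order_pow']

/-- The valuation subring of elements whose expansion has nonnegative order. -/
def embValuationSubring : ValuationSubring F where
  toSubring := ordRing.comap ι
  mem_or_inv_mem' := by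
    intro f
    show 0 ≤ (ι f).order ∨ 0 ≤ (ι f⁻¹).order
    rw [emb_order_inv]
    rcases le_total 0 (ι f).order with h | h
    · exact Or.inl h
    · exact Or.inr (by linarith)

theorem mem_embValuationSubring {f : F} :
    f ∈ embValuationSubring ι ↔ 0 ≤ (ι f).order := Iff.rfl

/-- **The place of an embedding.** -/
theorem exists_place_of_emb (φ : K →+* ℂ)
    (hι : ∀ c : K, ι (algebraMap K F c) = HahnSeries.C (φ c))
    (t : F) (ht : 0 < (ι t).order) :
    ∃ (v : Place K F) (c : ℤ), 0 < c ∧ ∀ f : F, f ≠ 0 → (ι f).order = c * v.ord f := by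
  classical
  have hex : ∃ m : ℕ, 0 < m ∧ ∃ f : F, (ι f).order = (m : ℤ) :=
    ⟨(ι t).order.toNat, by omega, t, by omega⟩
  obtain ⟨hcpos, π, hπ⟩ := Nat.find_spec hex
  have hmin : ∀ m : ℕ, 0 < m → (∃ f : F, (ι f).order = (m : ℤ)) → Nat.find hex ≤ m :=
    fun m hm hf => Nat.find_min' hex ⟨hm, hf⟩
  generalize Nat.find hex = c at hcpos hπ hmin
  have hcpos' : (0 : ℤ) < c := by exact_mod_cast hcpos
  have hπ0 : π ≠ 0 := by
    rintro rfl
    rw [map_zero, HahnSeries.order_zero] at hπ
    omega
  -- every order is a multiple of `c`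
  have hdvd : ∀ f : F, ∃ q : ℤ, (ι f).order = q * c := by
    intro f
    by_contra hcon
    have hr0 : (ι f).order % (c : ℤ) ≠ 0 := fun h =>
      hcon ⟨(ι f).order / c, by rw [Int.ediv_mul_cancel (Int.dvd_of_emod_eq_zero h)]⟩
    have hrpos : 0 < (ι f).order % (c : ℤ) :=
      lt_of_le_of_ne (Int.emod_nonneg _ hcpos'.ne') (Ne.symm hr0)
    have hrlt : (ι f).order % (c : ℤ) < c := Int.emod_lt_of_pos _ hcpos'
    have hf0 : f ≠ 0 := by
      rintro rfl
      rw [map_zero, HahnSeries.order_zero] at hr0
      simp at hr0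
    have h1 : (ι (f * π ^ (-((ι f).order / (c : ℤ))))).order = (ι f).order % (c : ℤ) := by
      rw [emb_order_mul ι hf0 (zpow_ne_zero _ hπ0), emb_order_zpow ι hπ0, hπ]
      have := Int.emod_add_mul_ediv (ι f).order c
      linarith
    have h2 := hmin ((ι f).order % (c : ℤ)).toNat (by omega) ⟨_, by rw [h1]; omega⟩
    omega
  have hπA : π ∈ embValuationSubring ι := by
    show 0 ≤ (ι π).order
    rw [hπ]; exact hcpos'.le
  -- units
  have hunit : ∀ a : embValuationSubring ι, (ι (a : F)).order = 0 → (a : F) ≠ 0 → IsUnit a := by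
    intro a ha ha0
    have hmem : (a : F)⁻¹ ∈ embValuationSubring ι := by
      show 0 ≤ (ι (a : F)⁻¹).order
      rw [emb_order_inv, ha]; simp
    exact IsUnit.of_mul_eq_one (⟨_, hmem⟩ : embValuationSubring ι)
      (Subtype.ext (mul_inv_cancel₀ ha0))
  have hunit' : ∀ a : embValuationSubring ι, IsUnit a → (ι (a : F)).order = 0 := by
    intro a ha
    obtain ⟨b, hb⟩ := ha.exists_right_inv
    have h1 : (a : F) * (b : F) = 1 := congrArg Subtype.val hb
    have ha0 : (a : F) ≠ 0 := left_ne_zero_of_mul_eq_one h1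
    have hb0 : (b : F) ≠ 0 := right_ne_zero_of_mul_eq_one h1
    have h4 := emb_order_mul ι ha0 hb0
    rw [h1, map_one, HahnSeries.order_one] at h4
    have h2 : 0 ≤ (ι (a : F)).order := a.2
    have h3 : 0 ≤ (ι (b : F)).order := b.2
    omega
  have hirr : Irreducible (⟨π, hπA⟩ : embValuationSubring ι) := by
    constructor
    · intro hu
      have := hunit' _ hu
      simp only at this
      rw [hπ] at this; omega
    · intro a b hab
      have hab' : π = (a : F) * (b : F) := congrArg Subtype.val hab
      have ha0 : (a : F) ≠ 0 := by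
        intro h; rw [h, zero_mul] at hab'; exact hπ0 hab'
      have hb0 : (b : F) ≠ 0 := by
        intro h; rw [h, mul_zero] at hab'; exact hπ0 hab'
      obtain ⟨qa, hqa⟩ := hdvd a
      obtain ⟨qb, hqb⟩ := hdvd b
      have hsum := emb_order_mul ι ha0 hb0
      rw [← hab', hπ, hqa, hqb] at hsum
      have h2 : 0 ≤ (ι (a : F)).order := a.2
      have h3 : 0 ≤ (ι (b : F)).order := b.2
      rw [hqa] at h2
      rw [hqb] at h3
      have hqa0 : 0 ≤ qa := nonneg_of_mul_nonneg_left h2 hcpos'
      have hqb0 : 0 ≤ qb := nonneg_of_mul_nonneg_left h3 hcpos'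
      have hq1 : qa + qb = 1 := by
        have : (qa + qb) * (c : ℤ) = 1 * c := by linarith
        exact mul_right_cancel₀ hcpos'.ne' this
      rcases (by omega : qa = 0 ∨ qb = 0) with h | h
      · left; exact hunit a (by rw [hqa, h, zero_mul]) ha0
      · right; exact hunit b (by rw [hqb, h, zero_mul]) hb0
  have hfact : IsDiscreteValuationRing.HasUnitMulPowIrreducibleFactorization
      (embValuationSubring ι) := by
    refine ⟨⟨π, hπA⟩, hirr, ?_⟩
    intro x hx
    have hx0 : (x : F) ≠ 0 := fun h => hx (Subtype.ext h)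
    obtain ⟨q, hq⟩ := hdvd x
    have hq0 : 0 ≤ q := by
      have h2 : 0 ≤ (ι (x : F)).order := x.2
      rw [hq] at h2
      exact nonneg_of_mul_nonneg_left h2 hcpos'
    obtain ⟨n, rfl⟩ := Int.eq_ofNat_of_zero_le hq0
    refine ⟨n, ?_⟩
    have hu_ord : (ι ((x : F) * (π ^ n)⁻¹)).order = 0 := by
      rw [emb_order_mul ι hx0 (inv_ne_zero (pow_ne_zero n hπ0)), emb_order_inv, emb_order_pow,
        hq, hπ]
      ring
    have hu_mem : (x : F) * (π ^ n)⁻¹ ∈ embValuationSubring ι := by
      show 0 ≤ (ι ((x : F) * (π ^ n)⁻¹)).order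
      rw [hu_ord]
    obtain ⟨u, hu'⟩ := hunit ⟨_, hu_mem⟩ hu_ord
      (mul_ne_zero hx0 (inv_ne_zero (pow_ne_zero n hπ0)))
    refine ⟨u, ?_⟩
    rw [hu']
    apply Subtype.ext
    show π ^ n * ((x : F) * (π ^ n)⁻¹) = x
    field_simp
  have hdvr : IsDiscreteValuationRing (embValuationSubring ι) :=
    IsDiscreteValuationRing.ofHasUnitMulPowIrreducibleFactorization hfact
  let v : Place K F :=
    { toValuationSubring := embValuationSubring ι
      algebraMap_mem' := fun a => by
        show 0 ≤ (ι (algebraMap K F a)).order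
        rw [hι, HahnSeries.order_C]
      ne_top' := by
        intro htop
        have ht0 : t ≠ 0 := by
          rintro rfl
          rw [map_zero, HahnSeries.order_zero] at ht
          exact lt_irrefl _ ht
        have : t⁻¹ ∈ embValuationSubring ι := by rw [htop]; exact ValuationSubring.mem_top _
        have h1 : 0 ≤ (ι t⁻¹).order := this
        rw [emb_order_inv] at h1
        linarith
      isPrincipalIdealRing' := inferInstance }
  refine ⟨v, c, hcpos', ?_⟩
  intro f hf
  obtain ⟨u, hu⟩ := v.exists_unit_mul_zpow hf hirr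
  have hu0 : ((u : embValuationSubring ι) : F) ≠ 0 := by
    intro h0
    rw [h0, zero_mul] at hu
    exact hf hu
  have h1 : (ι f).order = (ι (((u : embValuationSubring ι) : F) * π ^ v.ord f)).order := by
    conv_lhs => rw [hu]
  rw [h1, emb_order_mul ι hu0 (zpow_ne_zero _ hπ0), emb_order_zpow ι hπ0, hπ,
    hunit' _ u.isUnit]
  ring

end Emb

end Fermat.Agent.FF
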