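import Fermat.Agent.Lib.FF_Emb

set_option autoImplicit false

/-!
# T24 [A-local], part 2: every place above `x = a` comes from one of the embeddings

`L : LocalData K F x a I` with `card I = [F : K(x)]`.

* `LocalData.pl L k` : the place of the embedding `L.ι k`, with `order (ι k f) = cst k * ord f`;
* `LocalData.integral_at`: an element whose expansions all have nonnegative order is regular
  at every place above `a` (the `ι k` are all the `K(x)`-embeddings of `F`, so the minimal
  polynomial over `K(x)` has coefficients regular at `a`);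
* `LocalData.exists_pl_eq`: every place above `a` is some `pl k`.
-/

noncomputable section

namespace Fermat.Agent.FF

open AlgebraicCurve IntermediateField Polynomial

universe u v

variable {K : Type u} {F : Type v} [Field K] [Field F] [Algebra K F]

/-! ### rational functions of `x` at a place above `x = a` -/

section Rat

variable (v : Place K F) {x : F} {a : K}

theorem place_mem_of_pos {f : F} (h : 0 < v.ord f) : f ∈ v.toValuationSubring :=
  (place_mem_iff v f).mpr (Or.inr h.le)

theorem place_x_mem (hv : 0 < v.ord (x - algebraMap K F a)) : x ∈ v.toValuationSubring := by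
  have h1 := place_mem_of_pos v hv
  have h2 := v.algebraMap_mem' a
  have := add_mem h1 h2
  rwa [sub_add_cancel] at this

theorem place_aeval_mem (hv : 0 < v.ord (x - algebraMap K F a)) (q : K[X]) :
    aeval x q ∈ v.toValuationSubring := by
  have hx := place_x_mem v hv
  have h := Polynomial.aeval_algebraMap_apply F (⟨x, hx⟩ : v.toValuationSubring) q
  have h2 : algebraMap v.toValuationSubring F ⟨x, hx⟩ = x := rfl
  rw [h2] at h
  rw [h]
  exact (aeval (⟨x, hx⟩ : v.toValuationSubring) q).2

/-- a polynomial not vanishing at `a` is a unit at every place above `a` -/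
theorem place_aeval_unit (hv : 0 < v.ord (x - algebraMap K F a)) {r : K[X]}
    (hr : r.eval a ≠ 0) : aeval x r ≠ 0 ∧ v.ord (aeval x r) = 0 := by
  have hdec : aeval x r = algebraMap K F (r.eval a)
      + (x - algebraMap K F a) * aeval x (r /ₘ (X - C a)) := by
    conv_lhs => rw [← Polynomial.modByMonic_add_div r (X - C a),
      Polynomial.modByMonic_X_sub_C_eq_C_eval]
    simp
  set w := (x - algebraMap K F a) * aeval x (r /ₘ (X - C a)) with hw
  have hc0 : algebraMap K F (r.eval a) ≠ 0 := (_root_.map_ne_zero _).mpr hr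
  have hcord : v.ord (algebraMap K F (r.eval a)) = 0 := place_ord_algebraMap v _
  by_cases hw0 : w = 0
  · rw [hdec, hw0, add_zero]
    exact ⟨hc0, hcord⟩
  · have hq0 : aeval x (r /ₘ (X - C a)) ≠ 0 := right_ne_zero_of_mul hw0
    have hxa0 : x - algebraMap K F a ≠ 0 := left_ne_zero_of_mul hw0
    have hq1 : 0 ≤ v.ord (aeval x (r /ₘ (X - C a))) :=
      ((place_mem_iff v _).mp (place_aeval_mem v hv _)).resolve_left hq0
    have hword : 0 < v.ord w := by
      rw [hw, v.ord_mul hxa0 hq0]; linarith
    have h1 := place_ord_add_eq_of_lt v (f := algebraMap K F (r.eval a)) (g := w) hc0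
      (by rw [hcord]; exact hword)
    rw [hdec, h1]
    refine ⟨?_, hcord⟩
    intro h0
    have : w = -algebraMap K F (r.eval a) := by linear_combination h0
    rw [this, place_ord_neg, hcord] at hword
    exact lt_irrefl _ hword

/-- the order at a place above `a` of a polynomial in `x` -/
theorem place_ord_aeval (hv : 0 < v.ord (x - algebraMap K F a)) {r : K[X]} (hr : r ≠ 0) :
    aeval x r ≠ 0 ∧
      v.ord (aeval x r) = (r.rootMultiplicity a : ℤ) * v.ord (x - algebraMap K F a) := by
  obtain ⟨q, hq, hndvd⟩ := Polynomial.exists_eq_pow_rootMultiplicity_mul_and_not_dvd r hr a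
  have hqa : q.eval a ≠ 0 := by
    intro h
    exact hndvd (Polynomial.dvd_iff_isRoot.mpr h)
  obtain ⟨hu0, hu⟩ := place_aeval_unit v hv hqa
  have hxa0 : x - algebraMap K F a ≠ 0 := by
    intro h0; rw [h0] at hv; simp at hv
  have heq : aeval x r = (x - algebraMap K F a) ^ r.rootMultiplicity a * aeval x q := by
    conv_lhs => rw [hq]
    simp
  rw [heq]
  refine ⟨mul_ne_zero (pow_ne_zero _ hxa0) hu0, ?_⟩
  rw [v.ord_mul (pow_ne_zero _ hxa0) hu0, place_ord_pow, hu, add_zero]

/-- regularity at `a` of an element of `K(x)` does not depend on the place above `a` -/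
theorem place_ord_nonneg_of_adjoin {v v' : Place K F}
    (hv : 0 < v.ord (x - algebraMap K F a)) (hv' : 0 < v'.ord (x - algebraMap K F a))
    {q : F} (hq : q ∈ K⟮x⟯) (h : 0 ≤ v.ord q) : 0 ≤ v'.ord q := by
  by_cases hq0 : q = 0
  · rw [hq0]; simp
  obtain ⟨r, s, hrs⟩ := (IntermediateField.mem_adjoin_simple_iff K q).mp hq
  have hr0 : aeval x r ≠ 0 := by
    intro h0; apply hq0; rw [hrs, h0, zero_div]
  have hs0 : aeval x s ≠ 0 := by
    intro h0; apply hq0; rw [hrs, h0, div_zero]
  have hr : r ≠ 0 := by rintro rfl; simp at hr0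
  have hs : s ≠ 0 := by rintro rfl; simp at hs0
  have key : ∀ w : Place K F, 0 < w.ord (x - algebraMap K F a) →
      w.ord q = ((r.rootMultiplicity a : ℤ) - s.rootMultiplicity a)
        * w.ord (x - algebraMap K F a) := by
    intro w hw
    rw [hrs, div_eq_mul_inv, w.ord_mul hr0 (inv_ne_zero hs0), w.ord_inv,
      (place_ord_aeval w hw hr).2, (place_ord_aeval w hw hs).2]
    ring
  rw [key v hv] at h
  rw [key v' hv']
  have h1 : 0 ≤ (r.rootMultiplicity a : ℤ) - s.rootMultiplicity a :=
    nonneg_of_mul_nonneg_left h hv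
  exact mul_nonneg h1 hv'.le

end Rat

/-! ### the maximal ideal of a place as a `K`-subspace -/

/-- the `K`-subspace of elements of positive order -/
def placeMax (v : Place K F) : Submodule K F where
  carrier := {f | f = 0 ∨ 0 < v.ord f}
  zero_mem' := Or.inl rfl
  add_mem' := by
    rintro f g (rfl | hf) (rfl | hg)
    · left; simp
    · right; simpa using hg
    · right; simpa using hf
    · by_cases hfg : f + g = 0
      · exact Or.inl hfg
      · right
        exact lt_of_lt_of_le (lt_min hf hg) (place_ord_add v hfg)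
  smul_mem' := by
    rintro c f (rfl | hf)
    · left; simp
    · by_cases hc : c = 0
      · left; simp [hc]
      · right
        have hf0 : f ≠ 0 := by rintro rfl; simp at hf
        rw [Algebra.smul_def, v.ord_mul ((_root_.map_ne_zero _).mpr hc) hf0, place_ord_algebraMap,
          zero_add]
        exact hf

theorem mem_placeMax {v : Place K F} {f : F} : f ∈ placeMax v ↔ f = 0 ∨ 0 < v.ord f := Iff.rfl

theorem place_eq_of_placeMax_le {v v' : Place K F} (h : placeMax v ≤ placeMax v') : v = v' := by
  apply place_eq_of_pos_imp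
  intro f hf hpos
  exact (h (Or.inr hpos : f ∈ placeMax v)).resolve_left hf

/-! ### the places of a `LocalData` -/

namespace LocalData

variable {x : F} {a : K} {I : Type} [Fintype I] (L : LocalData K F x a I)

theorem ι_x_sub (k : I) : L.ι k (x - algebraMap K F a) = L.ξ - HahnSeries.C (L.φ a) := by
  rw [map_sub, L.ι_x, L.ι_algebraMap]

theorem order_ι_x_sub (k : I) : (L.ι k (x - algebraMap K F a)).order = (L.e : ℤ) := by
  rw [L.ι_x_sub, L.order_ξ]

include L in
theorem x_sub_ne_zero [Nonempty I] : x - algebraMap K F a ≠ 0 := by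
  obtain ⟨k⟩ := ‹Nonempty I›
  intro h
  have := L.ι_x_sub k
  rw [h, map_zero] at this
  exact L.ξ_ne this.symm

theorem exists_pl (k : I) : ∃ (v : Place K F) (c : ℤ), 0 < c ∧
    ∀ f : F, f ≠ 0 → (L.ι k f).order = c * v.ord f :=
  exists_place_of_emb (L.ι k) L.φ (L.ι_algebraMap k) (x - algebraMap K F a)
    (by rw [L.order_ι_x_sub]; exact_mod_cast L.e_pos)

/-- the place of the `k`-th embedding -/
def pl (k : I) : Place K F := (L.exists_pl k).choose

/-- the ramification index of the `k`-th embedding over its place -/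
def cst (k : I) : ℤ := (L.exists_pl k).choose_spec.choose

theorem cst_pos (k : I) : 0 < L.cst k := (L.exists_pl k).choose_spec.choose_spec.1

theorem order_ι (k : I) {f : F} (hf : f ≠ 0) : (L.ι k f).order = L.cst k * (L.pl k).ord f :=
  (L.exists_pl k).choose_spec.choose_spec.2 f hf

theorem order_ι_nonneg_iff (k : I) {f : F} (hf : f ≠ 0) :
    0 ≤ (L.ι k f).order ↔ 0 ≤ (L.pl k).ord f := by
  rw [L.order_ι k hf]
  constructor
  · intro h; exact nonneg_of_mul_nonneg_right h (L.cst_pos k)
  · intro h; exact mul_nonneg (L.cst_pos k).le h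

theorem order_ι_pos_iff (k : I) {f : F} (hf : f ≠ 0) :
    0 < (L.ι k f).order ↔ 0 < (L.pl k).ord f := by
  rw [L.order_ι k hf]
  constructor
  · intro h; exact pos_of_mul_pos_right h (L.cst_pos k).le
  · intro h; exact mul_pos (L.cst_pos k) h

theorem cst_mul_ord_x_sub [Nonempty I] (k : I) :
    L.cst k * (L.pl k).ord (x - algebraMap K F a) = (L.e : ℤ) := by
  rw [← L.order_ι k L.x_sub_ne_zero, L.order_ι_x_sub]

theorem pl_over [Nonempty I] (k : I) : 0 < (L.pl k).ord (x - algebraMap K F a) := by
  have h := L.cst_mul_ord_x_sub k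
  have he : (0 : ℤ) < L.e := by exact_mod_cast L.e_pos
  rw [← h] at he
  exact pos_of_mul_pos_right he (L.cst_pos k).le

/-- all embeddings agree on `K(x)` -/
theorem ι_agree (k l : I) {c : F} (hc : c ∈ K⟮x⟯) : L.ι k c = L.ι l c := by
  let S : IntermediateField K F :=
    (RingHom.eqLocusField (L.ι k) (L.ι l)).toIntermediateField (fun c => by
      show L.ι k (algebraMap K F c) = L.ι l (algebraMap K F c)
      rw [L.ι_algebraMap, L.ι_algebraMap])
  have hx : x ∈ S := by
    show L.ι k x = L.ι l x
    rw [L.ι_x, L.ι_x]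
  have hle : K⟮x⟯ ≤ S := IntermediateField.adjoin_simple_le_iff.mpr hx
  exact hle hc

/-! ### integrality -/

section Integral

variable [CharZero K] [FiniteDimensional K⟮x⟯ F]

/-- The coefficients of the minimal polynomial over `K(x)` of an element all of whose expansions
have nonnegative order again have nonnegative order. -/
theorem minpoly_coeff_order_nonneg (hn : Module.finrank K⟮x⟯ F = Fintype.card I) (g : F)
    (hg : ∀ k, 0 ≤ (L.ι k g).order) (k₀ : I) (n : ℕ) :
    0 ≤ (L.ι k₀ (((minpoly K⟮x⟯ g).coeff n : K⟮x⟯) : F)).order := by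
  classical
  let E := AlgebraicClosure (LaurentSeries ℂ)
  let j : F →+* E := (algebraMap (LaurentSeries ℂ) E).comp (L.ι k₀)
  let algE : Algebra K⟮x⟯ E := (j.comp (algebraMap K⟮x⟯ F)).toAlgebra
  let σ : I → (F →ₐ[K⟮x⟯] E) := fun k =>
    { toRingHom := (algebraMap (LaurentSeries ℂ) E).comp (L.ι k)
      commutes' := fun c => by
        show algebraMap (LaurentSeries ℂ) E (L.ι k (c : F))
          = algebraMap (LaurentSeries ℂ) E (L.ι k₀ (c : F))
        rw [L.ι_agree k k₀ c.2] }
  have hσ : ∀ k f, σ k f = algebraMap (LaurentSeries ℂ) E (L.ι k f) := fun k f => rfl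
  have hEinj : Function.Injective (algebraMap (LaurentSeries ℂ) E) :=
    (algebraMap (LaurentSeries ℂ) E).injective
  have hσinj : Function.Injective σ := by
    intro k l hkl
    apply L.ι_injective
    ext1 f
    apply hEinj
    rw [← hσ, ← hσ, hkl]
  have hcard : Nat.card (F →ₐ[K⟮x⟯] E) = Nat.card I := by
    rw [AlgHom.natCard_of_splits K⟮x⟯ F E (fun _ => IsAlgClosed.splits _), hn,
      Nat.card_eq_fintype_card]
  have hσsurj : Function.Surjective σ :=
    ((Nat.bijective_iff_injective_and_card σ).mpr ⟨hσinj, hcard.symm⟩).2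
  have hint : IsIntegral K⟮x⟯ g := Algebra.IsIntegral.isIntegral g
  set P := minpoly K⟮x⟯ g with hP
  have hPmonic : (P.map (algebraMap K⟮x⟯ E)).Monic := (minpoly.monic hint).map _
  have hroots : ∀ r ∈ (P.map (algebraMap K⟮x⟯ E)).roots,
      ∃ s : ordRing, algebraMap (LaurentSeries ℂ) E (s : LaurentSeries ℂ) = r := by
    intro r hr
    have hr' : r ∈ P.rootSet E := by
      rw [Polynomial.mem_rootSet']
      refine ⟨hPmonic.ne_zero, ?_⟩
      rw [Polynomial.mem_roots hPmonic.ne_zero, Polynomial.IsRoot.def, Polynomial.eval_map] at hr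
      rw [Polynomial.aeval_def]; exact hr
    rw [hP, ← Algebra.IsAlgebraic.range_eval_eq_rootSet_minpoly] at hr'
    obtain ⟨ψ, rfl⟩ := hr'
    obtain ⟨k, rfl⟩ := hσsurj ψ
    exact ⟨⟨L.ι k g, hg k⟩, rfl⟩
  let f₀ : ordRing →+* E := (algebraMap (LaurentSeries ℂ) E).comp ordRing.subtype
  have hlift : P.map (algebraMap K⟮x⟯ E) ∈ Polynomial.liftsRing f₀ := by
    rw [(IsAlgClosed.splits (P.map (algebraMap K⟮x⟯ E))).eq_prod_roots_of_monic hPmonic]
    apply Subring.multiset_prod_mem
    intro q hq
    obtain ⟨r, hr, rfl⟩ := Multiset.mem_map.mp hq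
    obtain ⟨s, rfl⟩ := hroots r hr
    exact ⟨X - C s, by simp [f₀]⟩
  obtain ⟨Q, hQ⟩ := hlift
  have h1 := congrArg (fun p => p.coeff n) hQ
  simp only [Polynomial.coe_mapRingHom, Polynomial.coeff_map] at h1
  have h2 : ((Q.coeff n : ordRing) : LaurentSeries ℂ) = L.ι k₀ ((P.coeff n : K⟮x⟯) : F) :=
    hEinj h1
  rw [← h2]
  exact (Q.coeff n).2

omit [CharZero K] in
include L in
theorem nonempty_of_finrank (hn : Module.finrank K⟮x⟯ F = Fintype.card I) : Nonempty I := by
  have : 0 < Module.finrank K⟮x⟯ F := Module.finrank_pos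
  rw [hn] at this
  exact Fintype.card_pos_iff.mp this

/-- **Integrality.** An element all of whose expansions have nonnegative order is regular at
every place above `x = a`. -/
theorem integral_at (hn : Module.finrank K⟮x⟯ F = Fintype.card I) (v : Place K F)
    (hv : 0 < v.ord (x - algebraMap K F a)) (g : F) (hg : ∀ k, 0 ≤ (L.ι k g).order) :
    g ∈ v.toValuationSubring := by
  have hI : Nonempty I := L.nonempty_of_finrank hn
  obtain ⟨k₀⟩ := id hI
  have hint : IsIntegral K⟮x⟯ g := Algebra.IsIntegral.isIntegral g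
  have hcoeff : ∀ n, (((minpoly K⟮x⟯ g).coeff n : K⟮x⟯) : F) ∈ v.toValuationSubring := by
    intro n
    rw [place_mem_iff]
    by_cases h0 : (((minpoly K⟮x⟯ g).coeff n : K⟮x⟯) : F) = 0
    · exact Or.inl h0
    right
    have h1 := L.minpoly_coeff_order_nonneg hn g hg k₀ n
    rw [L.order_ι_nonneg_iff k₀ h0] at h1
    exact place_ord_nonneg_of_adjoin (L.pl_over k₀) hv ((minpoly K⟮x⟯ g).coeff n).2 h1
  have hlifts : (minpoly K⟮x⟯ g).map (algebraMap K⟮x⟯ F)
      ∈ Polynomial.lifts (algebraMap v.toValuationSubring F) := by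
    rw [Polynomial.lifts_iff_coeff_lifts]
    intro n
    rw [Polynomial.coeff_map]
    exact ⟨⟨_, hcoeff n⟩, rfl⟩
  obtain ⟨Q, hQ, -, hQm⟩ :=
    Polynomial.lifts_and_natDegree_eq_and_monic hlifts ((minpoly.monic hint).map _)
  have hintO : IsIntegral v.toValuationSubring g := by
    refine ⟨Q, hQm, ?_⟩
    rw [← Polynomial.eval_map, hQ, Polynomial.eval_map, ← Polynomial.aeval_def]
    exact minpoly.aeval _ _
  obtain ⟨y, hy⟩ := IsIntegrallyClosed.isIntegral_iff.mp hintO
  rw [← hy]; exact y.2

/-- **Surjectivity.** Every place above `x = a` is the place of one of the embeddings. -/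
theorem exists_pl_eq (hn : Module.finrank K⟮x⟯ F = Fintype.card I) (v : Place K F)
    (hv : 0 < v.ord (x - algebraMap K F a)) : ∃ k, L.pl k = v := by
  have hI : Nonempty I := L.nonempty_of_finrank hn
  have hcover : ∀ f ∈ placeMax v, ∃ k, f ∈ placeMax (L.pl k) := by
    intro f hf
    rcases hf with rfl | hf
    · obtain ⟨k₀⟩ := id hI
      exact ⟨k₀, Or.inl rfl⟩
    have hf0 : f ≠ 0 := by rintro rfl; simp at hf
    by_contra hcon
    have hg : ∀ k, 0 ≤ (L.ι k f⁻¹).order := by
      intro k
      rw [L.order_ι_nonneg_iff k (inv_ne_zero hf0), Place.ord_inv]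
      have h1 : ¬ 0 < (L.pl k).ord f := fun h => hcon ⟨k, Or.inr h⟩
      linarith
    have hmem := L.integral_at hn v hv f⁻¹ hg
    rw [place_mem_iff] at hmem
    rcases hmem with h | h
    · exact inv_ne_zero hf0 h
    · rw [v.ord_inv] at h; linarith
  let p : I → Submodule K (placeMax v) := fun k =>
    (placeMax (L.pl k)).comap (placeMax v).subtype
  have hunion : ⋃ k, (p k : Set (placeMax v)) = Set.univ := by
    ext f
    simp only [Set.mem_iUnion, Set.mem_univ, iff_true]
    obtain ⟨k, hk⟩ := hcover f f.2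
    exact ⟨k, hk⟩
  obtain ⟨k, hk⟩ := Subspace.exists_eq_top_of_iUnion_eq_univ hunion
  refine ⟨k, (place_eq_of_placeMax_le ?_).symm⟩
  intro f hf
  have : (⟨f, hf⟩ : placeMax v) ∈ p k := by rw [hk]; trivial
  exact this

end Integral

end LocalData

end Fermat.Agent.FF
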