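import Fermat.Agent.Lib.FF_Defs
import Fermat.Agent.Lib.FF_Diff
import Fermat.Agent.Lib.T24_Places

set_option autoImplicit false

/-!
# T24 [A6]: the degree of a canonical divisor from local data
-/

noncomputable section

namespace Fermat.Agent.FF

open AlgebraicCurve KaehlerDifferential IntermediateField

universe u v

variable {K : Type u} {F : Type v} [Field K] [Field F] [Algebra K F]

/-- existence of a nonzero differential -/
theorem exists_differential_ne_zero [IsAlgClosed K] [CharZero K] (x : F) (a : K)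
    (I : Type) [Fintype I] [Nonempty I] (L : LocalData K F x a I) : ∃ ω : Ω[F⁄K], ω ≠ 0 :=
  ⟨D K F x, L.D_x_ne_zero⟩

/-- the order of `D x` at a pole of `x`, from local data at `x⁻¹ = 0` -/
theorem ordDifferential_at_pole [CharZero K] {x : F} {I : Type} [Fintype I]
    (Linf : LocalData K F x⁻¹ 0 I) [FiniteDimensional K⟮x⁻¹⟯ F]
    (hn : Module.finrank K⟮x⁻¹⟯ F = Fintype.card I)
    (hspan : Submodule.span F {D K F x⁻¹} = ⊤) (v : Place K F) (hv : v.ord x < 0) :
    v.ordDifferential (D K F x) = v.ord x - 1 := by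
  have hI : Nonempty I := Linf.nonempty_of_finrank hn
  have hx0 : x ≠ 0 := by rintro rfl; simp at hv
  have hv' : 0 < v.ord (x⁻¹ - algebraMap K F 0) := by
    rw [map_zero, sub_zero, v.ord_inv]; linarith
  have hgen : v.DCoordGenerates := Linf.dCoordGenerates_of_over hn hspan v hv'
  have hDx' : D K F x⁻¹ ≠ 0 := Linf.D_x_ne_zero
  have hnt : Nontrivial Ω[F⁄K] := ⟨⟨D K F x⁻¹, 0, hDx'⟩⟩
  have h1 := Linf.ordDifferential_of_over hn hspan v hv'
  rw [map_zero, sub_zero, v.ord_inv] at h1
  have h2 : D K F x = (-x ^ 2) • D K F x⁻¹ := by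
    have := Derivation.leibniz_inv (D K F) x⁻¹
    rw [inv_inv] at this
    exact this
  have hcoeff : v.differentialCoeff (D K F x⁻¹) ≠ 0 := by
    intro h0
    have h3 := v.differentialCoeff_smul_dCoord (D K F x⁻¹)
    rw [h0, zero_smul] at h3
    exact hDx' h3.symm
  have hc : (-x ^ 2 : F) ≠ 0 := neg_ne_zero.mpr (pow_ne_zero 2 hx0)
  rw [h2, v.ordDifferential_smul hc hcoeff, h1, place_ord_neg, place_ord_pow]
  push_cast
  ring

/-- A6: the degree of the divisor of any nonzero differential, from local data at every point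
of the `x`-line (`L a` at `x = a`, `Linf` at `x = ∞`, i.e. at `x⁻¹ = 0`); `S₀` is a finite set
of branch values outside of which the data are unramified (`e = 1`). -/
theorem degree_canonical [IsAlgClosed K] [CharZero K] (x : F) (hx : Transcendental K x)
    [FiniteDimensional K⟮x⟯ F] (I : Type) [Fintype I]
    (hn : Module.finrank K⟮x⟯ F = Fintype.card I)
    (S₀ : Finset K) (L : ∀ a : K, LocalData K F x a I) (hgen : ∀ a, a ∉ S₀ → (L a).e = 1)
    (Linf : LocalData K F x⁻¹ 0 I)
    (ω : Ω[F⁄K]) (hω : ω ≠ 0) (D : Divisor K F)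
    (hD : ∀ v : Place K F, D v = v.ordDifferential ω) :
    Divisor.degree D = ∑ a ∈ S₀, ((Fintype.card I : ℤ) - ((L a).orbits : ℤ))
      - (Fintype.card I : ℤ) - (Linf.orbits : ℤ) := by
  classical
  have hI : Nonempty I := (L 0).nonempty_of_finrank hn
  have hspan : Submodule.span F {KaehlerDifferential.D K F x} = ⊤ := span_D_eq_top x
  have hDx : KaehlerDifferential.D K F x ≠ 0 := (L 0).D_x_ne_zero
  have hnt : Nontrivial Ω[F⁄K] := ⟨⟨KaehlerDifferential.D K F x, 0, hDx⟩⟩
  -- data at infinity
  have hx' : Transcendental K x⁻¹ := fun h => hx (by simpa using h.inv)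
  have hfin' : FiniteDimensional K⟮x⁻¹⟯ F := T24.finiteDimensional_of_transcendental x hx'
  have hn' : Module.finrank K⟮x⁻¹⟯ F = Fintype.card I := by
    rw [T24.finrank_adjoin_simple_inv, hn]
  have hspan' : Submodule.span F {KaehlerDifferential.D K F x⁻¹} = ⊤ := span_D_eq_top x⁻¹
  -- every place lies above a point of the line
  have hover : ∀ v : Place K F,
      (∃ a : K, 0 < v.ord (x - algebraMap K F a)) ∨ v.ord x < 0 := by
    intro v
    by_cases h : 0 ≤ v.ord x
    · left
      obtain ⟨c, hc | hc⟩ := T24.exists_const_of_ord_nonneg x hx v x h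
      · exfalso
        exact hx (hc ▸ isAlgebraic_algebraMap c)
      · exact ⟨c, hc⟩
    · right; exact not_le.mp h
  have hgenv : ∀ v : Place K F, v.DCoordGenerates := by
    intro v
    rcases hover v with ⟨a, ha⟩ | h
    · exact (L a).dCoordGenerates_of_over hn hspan v ha
    · exact Linf.dCoordGenerates_of_over hn' hspan' v
        (by rw [map_zero, sub_zero, v.ord_inv]; linarith)
  -- `ω = g • D x`
  obtain ⟨g, hg⟩ : ∃ g : F, g • KaehlerDifferential.D K F x = ω :=
    Submodule.mem_span_singleton.mp (hspan ▸ Submodule.mem_top)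
  have hg0 : g ≠ 0 := by
    rintro rfl
    rw [zero_smul] at hg
    exact hω hg.symm
  have hcoeff : ∀ v : Place K F, v.differentialCoeff (KaehlerDifferential.D K F x) ≠ 0 := by
    intro v h0
    have := hgenv v
    have h3 := v.differentialCoeff_smul_dCoord (KaehlerDifferential.D K F x)
    rw [h0, zero_smul] at h3
    exact hDx h3.symm
  have hordω : ∀ v : Place K F,
      v.ordDifferential ω = v.ord g + v.ordDifferential (KaehlerDifferential.D K F x) := by
    intro v
    have := hgenv v
    rw [← hg]
    exact v.ordDifferential_smul hg0 (hcoeff v)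
  -- subtract the principal divisor of `g`
  obtain ⟨Dg, hDg, hDg0⟩ := T24.exists_principal_divisor x hx g hg0
  have hE : ∀ v : Place K F,
      (D - Dg) v = v.ordDifferential (KaehlerDifferential.D K F x) := by
    intro v
    rw [Finsupp.sub_apply, hD, hDg, hordω]; ring
  have hdeg : Divisor.degree D = Divisor.degree (D - Dg) := by
    rw [map_sub, hDg0, sub_zero]
  rw [hdeg]
  -- the fibres
  choose s hs hsum using fun a : K => T24.exists_finset_zeros_sub x x hx a
  obtain ⟨sinf, hsinf, hsuminf⟩ := T24.exists_finset_poles x x hx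
  have hord_nonneg : ∀ (a : K) (v : Place K F), v ∈ s a → 0 ≤ v.ord x := by
    intro a v hv
    have h1 := (hs a v).mp hv
    have h2 := place_x_mem v h1
    rcases (place_mem_iff v x).mp h2 with h3 | h3
    · rw [h3]; simp
    · exact h3
  have hsupp : (D - Dg).support ⊆ S₀.biUnion s ∪ sinf := by
    intro v hv
    rw [Finsupp.mem_support_iff, hE] at hv
    rcases hover v with ⟨a, ha⟩ | h
    · by_cases haS : a ∈ S₀
      · exact Finset.mem_union_left _ (Finset.mem_biUnion.mpr ⟨a, haS, (hs a v).mpr ha⟩)
      · exfalso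
        apply hv
        rw [(L a).ordDifferential_of_over hn hspan v ha,
          (L a).ord_eq_one_of_over hn (hgen a haS) v ha]
        ring
    · exact Finset.mem_union_right _ ((hsinf v).mpr h)
  rw [T24.degree_eq_sum (T24.place_deg_eq_one x hx) _ _ hsupp]
  have hdisj1 : Disjoint (S₀.biUnion s) sinf := by
    rw [Finset.disjoint_left]
    intro v h1 h2
    obtain ⟨a, -, ha⟩ := Finset.mem_biUnion.mp h1
    have h3 := hord_nonneg a v ha
    have h4 := (hsinf v).mp h2
    linarith
  have hdisj2 : (S₀ : Set K).PairwiseDisjoint s := by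
    intro a _ b _ hab
    rw [Function.onFun, Finset.disjoint_left]
    intro v h1 h2
    exact hab (T24.const_unique v (Or.inr ((hs a v).mp h1)) (Or.inr ((hs b v).mp h2)))
  rw [Finset.sum_union hdisj1, Finset.sum_biUnion hdisj2]
  have h1 : ∀ a ∈ S₀, ∑ v ∈ s a, (D - Dg) v
      = (Fintype.card I : ℤ) - ((L a).orbits : ℤ) := by
    intro a _
    have hcard := (L a).card_places hn (s a) (hs a) (by rw [hsum a, hn])
    calc ∑ v ∈ s a, (D - Dg) v
        = ∑ v ∈ s a, (v.ord (x - algebraMap K F a) - 1) :=
          Finset.sum_congr rfl (fun v hv => by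
            rw [hE, (L a).ordDifferential_of_over hn hspan v ((hs a v).mp hv)])
      _ = (∑ v ∈ s a, v.ord (x - algebraMap K F a)) - ((s a).card : ℤ) := by
          rw [Finset.sum_sub_distrib]; simp
      _ = _ := by rw [hsum a, hn, hcard]
  have h2 : ∑ v ∈ sinf, (D - Dg) v = -(Fintype.card I : ℤ) - (Linf.orbits : ℤ) := by
    have hs' : ∀ v, v ∈ sinf ↔ 0 < v.ord (x⁻¹ - algebraMap K F 0) := by
      intro v
      rw [hsinf, map_zero, sub_zero, v.ord_inv]
      constructor <;> intro h <;> linarith
    have hsum' : ∑ v ∈ sinf, v.ord (x⁻¹ - algebraMap K F 0) = (Fintype.card I : ℤ) := by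
      have h3 : ∀ v ∈ sinf, v.ord (x⁻¹ - algebraMap K F 0) = -v.ord x := by
        intro v _
        rw [map_zero, sub_zero, v.ord_inv]
      rw [Finset.sum_congr rfl h3, Finset.sum_neg_distrib, hsuminf, hn]
      ring
    have hcard := Linf.card_places hn' sinf hs' hsum'
    have hinf : ∀ v ∈ sinf, (D - Dg) v = v.ord x - 1 := by
      intro v hv
      rw [hE]
      exact ordDifferential_at_pole Linf hn' hspan' v ((hsinf v).mp hv)
    rw [Finset.sum_congr rfl hinf, Finset.sum_sub_distrib, hsuminf, hn]
    simp only [Finset.sum_const, nsmul_eq_mul, mul_one]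
    rw [hcard]
  rw [Finset.sum_congr rfl h1, h2]
  ring

end Fermat.Agent.FF
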