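import Fermat.Agent.Lib.H3_Cusp
import Fermat.Prelude.Sol.S_ModularForm_heckeT_slash_eq_self_of_mem_Gamma0

set_option autoImplicit false

namespace Fermat.Agent.Lib.H3

open Complex Filter Topology Function Polynomial UpperHalfPlane
open scoped MatrixGroups ModularForm
open P2MW.S_ModularForm_heckeT_slash_eq_self_of_mem_Gamma0.ModularForm.HeckeSlashInvariance

variable {N : ℕ} [NeZero N] {w : ℕ}

theorem LDecay.sum {ι : Type*} (s : Finset ι) {G : ι → ℂ → ℂ} (h : ∀ i ∈ s, LDecay (G i)) :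
    LDecay (fun z => ∑ i ∈ s, G i z) := by
  intro x
  have := tendsto_finsetSum s fun i hi => h i hi x
  simpa using this

/-- The slash action of a matrix of positive determinant, in terms of `fC` and `mob`. -/
theorem slash_eq_fC_mob (f : CuspForm (CongruenceSubgroup.Gamma0 N) ((w : ℤ) + 2))
    {M : GL (Fin 2) ℝ} (hM : 0 < M.det.val) {z : ℂ} (hz : z ∈ UH) :
    ((f : ℍ → ℂ) ∣[(w : ℤ) + 2] M) ⟨z, hz⟩ =
      fC f (mob M z) * (M.det.val : ℂ) ^ (w + 1) / (denom M z) ^ (w + 2) := by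
  rw [ModularForm.slash_apply, fC_mob f hM hz]
  have hσ : UpperHalfPlane.σ M = .refl ℝ ℂ := by rw [UpperHalfPlane.σ, if_pos hM]
  rw [hσ, abs_of_pos hM]
  have h1 : ((w : ℤ) + 2 - 1) = ((w + 1 : ℕ) : ℤ) := by push_cast; ring
  have h2 : (-((w : ℤ) + 2)) = -((w + 2 : ℕ) : ℤ) := by push_cast; ring
  rw [h1, h2, zpow_natCast, zpow_neg, zpow_natCast]
  simp only [ContinuousAlgEquiv.refl_apply]
  rfl

/-- The Eichler integral of a Hecke translate. -/
theorem EIc_hecke {ι : Type} [Fintype ι] (α : ι → GL (Fin 2) ℝ) (hα : ∀ i, IsUT (α i))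
    (f Tf : CuspForm (CongruenceSubgroup.Gamma0 N) ((w : ℤ) + 2))
    (hT : (Tf : ℍ → ℂ) = ∑ i, (f : ℍ → ℂ) ∣[(w : ℤ) + 2] α i) (v : Fin 2 → ℂ) {z : ℂ}
    (hz : z ∈ UH) :
    EIc (fC Tf) w v z = ∑ i, EIc (fC f) w (vadj (α i) v) (mob (α i) z) := by
  refine eq_of_hasDerivAt_of_ldecay (φ := fun z => fC Tf z * (v 0 * z + v 1) ^ w)
    (G₂ := fun z => ∑ i, EIc (fC f) w (vadj (α i) v) (mob (α i) z))
    (fun z hz => EIc_hasDerivAt (fC_cls Tf) w v hz) (fun z hz => ?_)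
    (EIc_ldecay (fC_cls Tf) w v) ?_ hz
  · have h1 := HasDerivAt.fun_sum (u := Finset.univ) fun i _ =>
      EIc_comp_mob_hasDerivAt (fC_cls f) w (hα i).det_pos v hz
    refine h1.congr_deriv ?_
    rw [fC_apply Tf hz, hT, Finset.sum_apply, Finset.sum_mul]
    refine Finset.sum_congr rfl fun i _ => ?_
    rw [slash_eq_fC_mob f (hα i).det_pos hz]
  · exact LDecay.sum _ fun i _ => (EIc_ldecay (fC_cls f) w _).comp_mob (hα i)

/-- The period of a Hecke translate. -/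
theorem per_hecke {ι : Type} [Fintype ι] (α : ι → GL (Fin 2) ℝ) (hα : ∀ i, IsUT (α i))
    (f Tf : CuspForm (CongruenceSubgroup.Gamma0 N) ((w : ℤ) + 2))
    (hT : (Tf : ℍ → ℂ) = ∑ i, (f : ℍ → ℂ) ∣[(w : ℤ) + 2] α i)
    (γ : SL(2, ℤ)) (π : Equiv.Perm ι) (g' : ι → SL(2, ℤ))
    (hg' : ∀ i, g' i ∈ CongruenceSubgroup.Gamma0 N)
    (hmul : ∀ i, α i * Matrix.SpecialLinearGroup.mapGL ℝ γ =
      Matrix.SpecialLinearGroup.mapGL ℝ (g' i) * α (π i)) (v : Fin 2 → ℂ) :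
    per (fC Tf) w (Matrix.SpecialLinearGroup.mapGL ℝ γ) v =
      ∑ i, per (fC f) w (Matrix.SpecialLinearGroup.mapGL ℝ (g' i)) (vadj (α (π i)) v) := by
  set M := Matrix.SpecialLinearGroup.mapGL ℝ γ with hMdef
  have hMpos : 0 < M.det.val := det_mapGL_pos γ
  have hterm : ∀ i, EIc (fC f) w (vadj (α i) (vadj M v)) (mob (α i) (mob M Complex.I)) =
      EIc (fC f) w (vadj (α (π i)) v) (mob (α (π i)) Complex.I) +
        per (fC f) w (Matrix.SpecialLinearGroup.mapGL ℝ (g' i)) (vadj (α (π i)) v) := by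
    intro i
    have hpos' := det_mapGL_pos (g' i)
    rw [← vadj_mul, ← mob_mul (hα i).det_pos hMpos I_mem_UH, hmul i, vadj_mul,
      mob_mul hpos' (hα (π i)).det_pos I_mem_UH]
    have := per_spec (fC_cls f) (fC_inv f (hg' i)) (vadj (α (π i)) v)
      (mob_mem_UH (hα (π i)).det_pos I_mem_UH)
    rw [← this]; ring
  rw [per, EIc_hecke α hα f Tf hT _ (mob_mem_UH hMpos I_mem_UH),
    EIc_hecke α hα f Tf hT _ I_mem_UH]
  simp only [hterm, Finset.sum_add_distrib]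
  rw [Equiv.sum_comp π (fun j => EIc (fC f) w (vadj (α j) v) (mob (α j) Complex.I))]
  ring

/-- Integer vectors. -/
def IsIntVec (v : Fin 2 → ℂ) : Prop := ∃ n : Fin 2 → ℤ, v = fun i => (n i : ℂ)

/-- Integer matrices. -/
def IsIntMat (M : GL (Fin 2) ℝ) : Prop := ∀ i j, ∃ n : ℤ, M i j = n

theorem IsIntVec.vadj {v : Fin 2 → ℂ} (hv : IsIntVec v) {M : GL (Fin 2) ℝ} (hM : IsIntMat M) :
    IsIntVec (vadj M v) := by
  obtain ⟨n, rfl⟩ := hv
  obtain ⟨a, ha⟩ := hM 0 0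
  obtain ⟨b, hb⟩ := hM 0 1
  obtain ⟨c, hc⟩ := hM 1 0
  obtain ⟨d, hd⟩ := hM 1 1
  refine ⟨![n 0 * d - n 1 * c, -(n 0 * b) + n 1 * a], ?_⟩
  funext i
  fin_cases i
  · simp [H3.vadj, hc, hd]
  · simp [H3.vadj, ha, hb]

theorem isIntMat_mapGL (γ : SL(2, ℤ)) : IsIntMat (Matrix.SpecialLinearGroup.mapGL ℝ γ) := by
  intro i j
  exact ⟨γ i j, by simp⟩

theorem isUT_heckeMatrix {p : ℕ} (hp : p ≠ 0) (j : ℕ) : IsUT (ModularForm.heckeMatrix p j) := by
  have h := ModularForm.val_heckeMatrix hp j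
  have hp' : (0 : ℝ) < p := by exact_mod_cast Nat.pos_of_ne_zero hp
  refine ⟨?_, ?_, ?_⟩
  · show (ModularForm.heckeMatrix p j : Matrix (Fin 2) (Fin 2) ℝ) 1 0 = 0
    rw [h]; simp
  · show 0 < (ModularForm.heckeMatrix p j : Matrix (Fin 2) (Fin 2) ℝ) 0 0
    rw [h]; simp
  · show 0 < (ModularForm.heckeMatrix p j : Matrix (Fin 2) (Fin 2) ℝ) 1 1
    rw [h]; simpa using hp'

theorem isUT_heckeDiagMatrix {p : ℕ} (hp : p ≠ 0) : IsUT (ModularForm.heckeDiagMatrix p) := by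
  have h := ModularForm.val_heckeDiagMatrix hp
  have hp' : (0 : ℝ) < p := by exact_mod_cast Nat.pos_of_ne_zero hp
  refine ⟨?_, ?_, ?_⟩
  · show (ModularForm.heckeDiagMatrix p : Matrix (Fin 2) (Fin 2) ℝ) 1 0 = 0
    rw [h]; simp
  · show 0 < (ModularForm.heckeDiagMatrix p : Matrix (Fin 2) (Fin 2) ℝ) 0 0
    rw [h]; simpa using hp'
  · show 0 < (ModularForm.heckeDiagMatrix p : Matrix (Fin 2) (Fin 2) ℝ) 1 1
    rw [h]; simp

theorem isIntMat_heckeMatrix {p : ℕ} (hp : p ≠ 0) (j : ℕ) :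
    IsIntMat (ModularForm.heckeMatrix p j) := by
  have h := ModularForm.val_heckeMatrix hp j
  intro a b
  show ∃ n : ℤ, (ModularForm.heckeMatrix p j : Matrix (Fin 2) (Fin 2) ℝ) a b = n
  rw [h]
  fin_cases a <;> fin_cases b
  · exact ⟨1, by simp⟩
  · exact ⟨j, by simp⟩
  · exact ⟨0, by simp⟩
  · exact ⟨p, by simp⟩

theorem isIntMat_heckeDiagMatrix {p : ℕ} (hp : p ≠ 0) :
    IsIntMat (ModularForm.heckeDiagMatrix p) := by
  have h := ModularForm.val_heckeDiagMatrix hp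
  intro a b
  show ∃ n : ℤ, (ModularForm.heckeDiagMatrix p : Matrix (Fin 2) (Fin 2) ℝ) a b = n
  rw [h]
  fin_cases a <;> fin_cases b
  · exact ⟨p, by simp⟩
  · exact ⟨0, by simp⟩
  · exact ⟨0, by simp⟩
  · exact ⟨1, by simp⟩

theorem isUT_heckeRep {p : ℕ} (hp : p ≠ 0) (x : OnePoint (ZMod p)) : IsUT (heckeRep p x) := by
  induction x using OnePoint.rec with
  | infty => exact isUT_heckeDiagMatrix hp
  | coe j => exact isUT_heckeMatrix hp _

theorem isIntMat_heckeRep {p : ℕ} (hp : p ≠ 0) (x : OnePoint (ZMod p)) :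
    IsIntMat (heckeRep p x) := by
  induction x using OnePoint.rec with
  | infty => exact isIntMat_heckeDiagMatrix hp
  | coe j => exact isIntMat_heckeMatrix hp _

/-- The period lattice. -/
def perLattice (N : ℕ) [NeZero N] (w : ℕ) :
    Submodule ℤ (Module.Dual ℂ (CuspForm (CongruenceSubgroup.Gamma0 N) ((w : ℤ) + 2))) :=
  Submodule.span ℤ {l | ∃ γ ∈ CongruenceSubgroup.Gamma0 N, ∃ v : Fin 2 → ℂ, IsIntVec v ∧
    l = perL N w γ v}

theorem perL_mem_perLattice {γ : SL(2, ℤ)} (hγ : γ ∈ CongruenceSubgroup.Gamma0 N)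
    {v : Fin 2 → ℂ} (hv : IsIntVec v) : perL N w γ v ∈ perLattice N w :=
  Submodule.subset_span ⟨γ, hγ, v, hv, rfl⟩

/-- Stability of the period lattice under an operator with a coset decomposition. -/
theorem perLattice_stable {ι : Type} [Fintype ι] (α : ι → GL (Fin 2) ℝ) (hα : ∀ i, IsUT (α i))
    (hαint : ∀ i, IsIntMat (α i))
    (T : Module.End ℂ (CuspForm (CongruenceSubgroup.Gamma0 N) ((w : ℤ) + 2)))
    (hT : ∀ f, ((T f : CuspForm (CongruenceSubgroup.Gamma0 N) ((w : ℤ) + 2)) : ℍ → ℂ) =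
      ∑ i, (f : ℍ → ℂ) ∣[(w : ℤ) + 2] α i)
    (hcoset : ∀ γ ∈ CongruenceSubgroup.Gamma0 N, ∃ (π : Equiv.Perm ι) (g' : ι → SL(2, ℤ)),
      (∀ i, g' i ∈ CongruenceSubgroup.Gamma0 N) ∧
      ∀ i, α i * Matrix.SpecialLinearGroup.mapGL ℝ γ =
        Matrix.SpecialLinearGroup.mapGL ℝ (g' i) * α (π i)) :
    ∀ l ∈ perLattice N w, l ∘ₗ T ∈ perLattice N w := by
  intro l hl
  induction hl using Submodule.span_induction with
  | mem l hl =>
    obtain ⟨γ, hγ, v, hv, rfl⟩ := hl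
    obtain ⟨π, g', hg', hmul⟩ := hcoset γ hγ
    have : perL N w γ v ∘ₗ T = ∑ i, perL N w (g' i) (vadj (α (π i)) v) := by
      ext f
      rw [LinearMap.comp_apply, perL_apply, LinearMap.sum_apply]
      simp only [perL_apply]
      exact per_hecke α hα f (T f) (hT f) γ π g' hg' hmul v
    rw [this]
    exact Submodule.sum_mem _ fun i _ => perL_mem_perLattice (hg' i) (hv.vadj (hαint _))
  | zero => simp
  | add x y _ _ hx hy => rw [LinearMap.add_comp]; exact Submodule.add_mem _ hx hy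
  | smul a x _ hx => rw [LinearMap.smul_comp]; exact Submodule.smul_mem _ a hx

end Fermat.Agent.Lib.H3
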