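import Fermat.Agent.Lib.H3_Prim

set_option autoImplicit false

namespace Fermat.Agent.Lib.H3

open Complex Filter Topology Function Polynomial

/-- A decaying primitive (junk value `0` if `g` is not in the class). -/
noncomputable def primOf (g : ℂ → ℂ) : ℂ → ℂ :=
  open scoped Classical in if h : Cls g then (exists_prim h).choose else 0

theorem primOf_cls {g : ℂ → ℂ} (h : Cls g) : Cls (primOf g) := by
  rw [primOf, dif_pos h]; exact (exists_prim h).choose_spec.1

theorem primOf_deriv {g : ℂ → ℂ} (h : Cls g) : ∀ z ∈ UH, HasDerivAt (primOf g) (g z) z := by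
  rw [primOf, dif_pos h]; exact (exists_prim h).choose_spec.2

/-- Iterated decaying primitives. -/
noncomputable def chain (g : ℂ → ℂ) : ℕ → ℂ → ℂ
  | 0 => g
  | n + 1 => primOf (chain g n)

@[simp] theorem chain_zero (g : ℂ → ℂ) : chain g 0 = g := rfl

theorem chain_succ (g : ℂ → ℂ) (n : ℕ) : chain g (n + 1) = primOf (chain g n) := rfl

theorem chain_cls {g : ℂ → ℂ} (h : Cls g) (n : ℕ) : Cls (chain g n) := by
  induction n with
  | zero => exact h
  | succ n ih => exact primOf_cls ih

theorem chain_deriv {g : ℂ → ℂ} (h : Cls g) (n : ℕ) :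
    ∀ z ∈ UH, HasDerivAt (chain g (n + 1)) (chain g n z) z :=
  primOf_deriv (chain_cls h n)

/-- Integration by parts: a primitive of `p * g` built from the iterated primitives of `g`. -/
noncomputable def ibp (g : ℂ → ℂ) (n : ℕ) (p : ℂ[X]) (z : ℂ) : ℂ :=
  ∑ i ∈ Finset.range n, (-1) ^ i * (derivative^[i] p).eval z * chain g (i + 1) z

theorem ibp_add (g : ℂ → ℂ) (n : ℕ) (p q : ℂ[X]) (z : ℂ) :
    ibp g n (p + q) z = ibp g n p z + ibp g n q z := by
  simp only [ibp, ← Finset.sum_add_distrib]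
  refine Finset.sum_congr rfl fun i _ => ?_
  rw [iterate_map_add, eval_add]; ring

theorem ibp_smul (g : ℂ → ℂ) (n : ℕ) (c : ℂ) (p : ℂ[X]) (z : ℂ) :
    ibp g n (c • p) z = c * ibp g n p z := by
  simp only [ibp, Finset.mul_sum]
  refine Finset.sum_congr rfl fun i _ => ?_
  rw [iterate_derivative_smul, eval_smul, smul_eq_mul]; ring

theorem ibp_sum {ι : Type*} (g : ℂ → ℂ) (n : ℕ) (s : Finset ι) (p : ι → ℂ[X]) (z : ℂ) :
    ibp g n (∑ j ∈ s, p j) z = ∑ j ∈ s, ibp g n (p j) z := by
  classical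
  induction s using Finset.induction_on with
  | empty => simp [ibp]
  | insert a s ha ih => rw [Finset.sum_insert ha, Finset.sum_insert ha, ibp_add, ih]

theorem ibp_hasDerivAt {g : ℂ → ℂ} (h : Cls g) (n : ℕ) (p : ℂ[X]) {z : ℂ} (hz : z ∈ UH) :
    HasDerivAt (ibp g n p)
      (p.eval z * g z - (-1) ^ n * (derivative^[n] p).eval z * chain g n z) z := by
  induction n with
  | zero =>
    have : ibp g 0 p = fun _ => 0 := by funext z; simp [ibp]
    rw [this]
    simpa using hasDerivAt_const z (0 : ℂ)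
  | succ n ih =>
    have hfun : ibp g (n + 1) p = fun z => ibp g n p z +
        (-1) ^ n * ((derivative^[n] p).eval z * chain g (n + 1) z) := by
      funext z; simp [ibp, Finset.sum_range_succ, mul_assoc]
    rw [hfun]
    have h1 : HasDerivAt (fun z => (derivative^[n] p).eval z)
        ((derivative^[n + 1] p).eval z) z := by
      rw [Function.iterate_succ_apply']
      exact (derivative^[n] p).hasDerivAt z
    have h2 := chain_deriv h n z hz
    have h3 := (h1.mul h2).const_mul ((-1 : ℂ) ^ n)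
    refine (ih.add h3).congr_deriv ?_
    rw [pow_succ]; ring

theorem ibp_hasDerivAt' {g : ℂ → ℂ} (h : Cls g) {w : ℕ} {p : ℂ[X]} (hp : p.natDegree ≤ w)
    {z : ℂ} (hz : z ∈ UH) : HasDerivAt (ibp g (w + 1) p) (g z * p.eval z) z := by
  have := ibp_hasDerivAt h (w + 1) p hz
  rw [iterate_derivative_eq_zero (Nat.lt_succ_of_le hp)] at this
  refine this.congr_deriv ?_
  simp [mul_comm]

theorem ibp_diag (g : ℂ → ℂ) (w : ℕ) (τ : ℂ) :
    ibp g (w + 1) ((X - C τ) ^ w) τ = (-1) ^ w * (w.factorial : ℂ) * chain g (w + 1) τ := by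
  rw [ibp, Finset.sum_eq_single w]
  · rw [iterate_derivative_X_sub_pow, Nat.descFactorial_self, Nat.sub_self, pow_zero]
    simp
  · intro i hi hiw
    have hlt : i < w := lt_of_le_of_ne (Nat.lt_succ_iff.mp (Finset.mem_range.mp hi)) hiw
    rw [iterate_derivative_X_sub_pow]
    have : w - i ≠ 0 := by omega
    simp [this]
  · intro hw
    exact absurd (Finset.mem_range.mpr (Nat.lt_succ_self w)) hw

/-- Decay along every vertical line. -/
def LDecay (G : ℂ → ℂ) : Prop :=
  ∀ x : ℝ, Tendsto (fun t : ℝ => G (x + t * I)) atTop (𝓝 0)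

/-- Rapid decay along every vertical line. -/
def RDecay (G : ℂ → ℂ) : Prop :=
  ∀ (x : ℝ) (n : ℕ), Tendsto (fun t : ℝ => (t : ℂ) ^ n * G (x + t * I)) atTop (𝓝 0)

theorem RDecay.ldecay {G : ℂ → ℂ} (h : RDecay G) : LDecay G := fun x => by
  simpa using h x 0

theorem RDecay.add {G₁ G₂ : ℂ → ℂ} (h₁ : RDecay G₁) (h₂ : RDecay G₂) :
    RDecay (fun z => G₁ z + G₂ z) := fun x n => by
  simpa [mul_add] using (h₁ x n).add (h₂ x n)

theorem RDecay.const_mul {G : ℂ → ℂ} (h : RDecay G) (c : ℂ) :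
    RDecay (fun z => c * G z) := fun x n => by
  have := (h x n).const_mul c
  simp only [mul_zero] at this
  refine this.congr fun t => ?_
  ring

theorem RDecay.id_mul {G : ℂ → ℂ} (h : RDecay G) : RDecay (fun z => z * G z) := fun x n => by
  have h1 := ((h x n).const_mul (x : ℂ)).add ((h x (n + 1)).const_mul I)
  simp only [mul_zero, add_zero] at h1
  refine h1.congr fun t => ?_
  ring

theorem RDecay.zero : RDecay (fun _ => (0 : ℂ)) := fun x n => by simp

theorem RDecay.sum {ι : Type*} (s : Finset ι) {G : ι → ℂ → ℂ} (h : ∀ i ∈ s, RDecay (G i)) :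
    RDecay (fun z => ∑ i ∈ s, G i z) := by
  classical
  induction s using Finset.induction_on with
  | empty => simpa using RDecay.zero
  | insert a s ha ih =>
    have := (h a (Finset.mem_insert_self a s)).add (ih fun i hi => h i (Finset.mem_insert_of_mem hi))
    simpa [Finset.sum_insert ha] using this

theorem RDecay.eval_mul {G : ℂ → ℂ} (h : RDecay G) (q : ℂ[X]) :
    RDecay (fun z => q.eval z * G z) := by
  induction q using Polynomial.induction_on with
  | C a => simpa using h.const_mul a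
  | add p q hp hq => simpa [add_mul] using hp.add hq
  | monomial n a ih =>
    have := ih.id_mul
    refine fun x m => (this x m).congr fun t => ?_
    simp only [Polynomial.eval_mul, Polynomial.eval_C, Polynomial.eval_pow, Polynomial.eval_X]
    ring

theorem Cls.rdecay {g : ℂ → ℂ} (hg : Cls g) : RDecay g := by
  intro x n
  have hev : ∀ᶠ z in comap Complex.im atTop, DifferentiableAt ℂ g z := by
    have : ∀ᶠ z in comap Complex.im atTop, 0 < z.im :=
      tendsto_comap.eventually (eventually_gt_atTop 0)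
    filter_upwards [this] with z hz
    exact hg.diff.differentiableAt (isOpen_UH.mem_nhds hz)
  have hO := Function.Periodic.exp_decay_of_zero_at_inf one_pos hg.per hev hg.zero
  have hline : Tendsto (fun t : ℝ => (x : ℂ) + t * I) atTop (comap Complex.im atTop) := by
    rw [tendsto_comap_iff]
    have : (Complex.im ∘ fun t : ℝ => (x : ℂ) + t * I) = id := by funext t; simp
    rw [this]; exact tendsto_id
  obtain ⟨C, hC⟩ := (hO.comp_tendsto hline).bound
  rw [tendsto_zero_iff_norm_tendsto_zero]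
  have hlim : Tendsto (fun t : ℝ => |C| * (t ^ n * Real.exp (-t))) atTop (𝓝 0) := by
    simpa using (Real.tendsto_pow_mul_exp_neg_atTop_nhds_zero n).const_mul |C|
  refine squeeze_zero' (Eventually.of_forall fun t => norm_nonneg _) ?_ hlim
  filter_upwards [hC, eventually_ge_atTop (0 : ℝ)] with t ht ht0
  simp only [Function.comp_apply] at ht
  rw [norm_mul, norm_pow, Complex.norm_real, Real.norm_of_nonneg ht0]
  have hexp : ‖Real.exp (-2 * Real.pi * ((x : ℂ) + t * I).im / 1)‖ ≤ Real.exp (-t) := by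
    rw [Real.norm_of_nonneg (Real.exp_pos _).le]
    apply Real.exp_le_exp.mpr
    have : ((x : ℂ) + t * I).im = t := by simp
    rw [this, div_one]
    nlinarith [Real.pi_gt_three]
  calc t ^ n * ‖g (x + t * I)‖ ≤ t ^ n * (C * ‖Real.exp (-2 * Real.pi * ((x : ℂ) + t * I).im / 1)‖) :=
        mul_le_mul_of_nonneg_left ht (pow_nonneg ht0 n)
    _ ≤ t ^ n * (|C| * Real.exp (-t)) := by
        apply mul_le_mul_of_nonneg_left _ (pow_nonneg ht0 n)
        calc C * ‖Real.exp (-2 * Real.pi * ((x : ℂ) + t * I).im / 1)‖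
            ≤ |C| * ‖Real.exp (-2 * Real.pi * ((x : ℂ) + t * I).im / 1)‖ :=
              mul_le_mul_of_nonneg_right (le_abs_self C) (norm_nonneg _)
          _ ≤ |C| * Real.exp (-t) := mul_le_mul_of_nonneg_left hexp (abs_nonneg C)
    _ = |C| * (t ^ n * Real.exp (-t)) := by ring

theorem ibp_rdecay {g : ℂ → ℂ} (h : Cls g) (n : ℕ) (p : ℂ[X]) : RDecay (ibp g n p) := by
  unfold ibp
  refine RDecay.sum _ fun i _ => ?_
  have := (((chain_cls h (i + 1)).rdecay).eval_mul (derivative^[i] p)).const_mul ((-1) ^ i)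
  refine fun x m => (this x m).congr fun t => ?_
  ring

theorem ibp_ldecay {g : ℂ → ℂ} (h : Cls g) (n : ℕ) (p : ℂ[X]) : LDecay (ibp g n p) :=
  (ibp_rdecay h n p).ldecay

/-- Two primitives on the upper half plane of the same function differ by a constant. -/
theorem sub_const_of_hasDerivAt {G₁ G₂ φ : ℂ → ℂ}
    (h₁ : ∀ z ∈ UH, HasDerivAt G₁ (φ z) z) (h₂ : ∀ z ∈ UH, HasDerivAt G₂ (φ z) z)
    {z z' : ℂ} (hz : z ∈ UH) (hz' : z' ∈ UH) : G₁ z - G₂ z = G₁ z' - G₂ z' := by
  have hd : ∀ z ∈ UH, HasDerivAt (fun z => G₁ z - G₂ z) 0 z := fun z hz => by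
    have h3 : HasDerivAt (fun z => G₁ z - G₂ z) (φ z - φ z) z := (h₁ z hz).sub (h₂ z hz)
    rwa [sub_self] at h3
  exact isOpen_UH.is_const_of_deriv_eq_zero convex_UH.isPreconnected
    (fun z hz => (hd z hz).differentiableAt.differentiableWithinAt)
    (fun z hz => (hd z hz).deriv) hz hz'

/-- Uniqueness of decaying primitives. -/
theorem eq_of_hasDerivAt_of_ldecay {G₁ G₂ φ : ℂ → ℂ}
    (h₁ : ∀ z ∈ UH, HasDerivAt G₁ (φ z) z) (h₂ : ∀ z ∈ UH, HasDerivAt G₂ (φ z) z)
    (d₁ : LDecay G₁) (d₂ : LDecay G₂) {z : ℂ} (hz : z ∈ UH) : G₁ z = G₂ z := by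
  have hlim : Tendsto (fun t : ℝ => G₁ ((0 : ℝ) + t * I) - G₂ ((0 : ℝ) + t * I)) atTop (𝓝 0) := by
    simpa using (d₁ 0).sub (d₂ 0)
  have hconst : ∀ᶠ t : ℝ in atTop, G₁ ((0 : ℝ) + t * I) - G₂ ((0 : ℝ) + t * I) = G₁ z - G₂ z := by
    filter_upwards [eventually_gt_atTop (0 : ℝ)] with t ht
    exact sub_const_of_hasDerivAt h₁ h₂ (by simpa [mem_UH] using ht) hz
  have := tendsto_nhds_unique (hlim.congr' hconst) tendsto_const_nhds
  exact sub_eq_zero.mp this.symm

theorem chain_eq_zero {g : ℂ → ℂ} (h : Cls g) (n : ℕ)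
    (h0 : ∀ z ∈ UH, chain g n z = 0) : ∀ z ∈ UH, g z = 0 := by
  induction n with
  | zero => simpa using h0
  | succ n ih =>
    apply ih
    intro z hz
    have h1 := chain_deriv h n z hz
    have h2 : HasDerivAt (chain g (n + 1)) 0 z := by
      refine (hasDerivAt_const z (0 : ℂ)).congr_of_eventuallyEq ?_
      filter_upwards [isOpen_UH.mem_nhds hz] with y hy using h0 y hy
    exact h1.unique h2

end Fermat.Agent.Lib.H3
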