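import Fermat.Agent.Lib.H3_IBP

set_option autoImplicit false

namespace Fermat.Agent.Lib.H3

open Complex Filter Topology Function Polynomial UpperHalfPlane

/-- Möbius transformations on `ℂ`. -/
noncomputable def mob (M : GL (Fin 2) ℝ) (z : ℂ) : ℂ := num M z / denom M z

theorem coe_smul_eq_mob {M : GL (Fin 2) ℝ} (hM : 0 < M.det.val) (τ : ℍ) :
    ((M • τ : ℍ) : ℂ) = mob M τ := coe_smul_of_det_pos hM τ

theorem mob_mem_UH {M : GL (Fin 2) ℝ} (hM : 0 < M.det.val) {z : ℂ} (hz : z ∈ UH) :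
    mob M z ∈ UH := by
  have := coe_smul_eq_mob hM ⟨z, hz⟩
  show 0 < (mob M z).im
  rw [← this]
  exact (M • (⟨z, hz⟩ : ℍ)).im_pos

theorem mob_one (z : ℂ) : mob 1 z = z := by
  simp [mob, num, denom]

theorem det_pos_mul {M M' : GL (Fin 2) ℝ} (hM : 0 < M.det.val) (hM' : 0 < M'.det.val) :
    0 < (M * M').det.val := by
  rw [map_mul, Units.val_mul]; exact mul_pos hM hM'

theorem mob_mul {M M' : GL (Fin 2) ℝ} (hM : 0 < M.det.val) (hM' : 0 < M'.det.val) {z : ℂ}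
    (hz : z ∈ UH) : mob (M * M') z = mob M (mob M' z) := by
  have h1 := coe_smul_eq_mob (det_pos_mul hM hM') ⟨z, hz⟩
  have h2 := coe_smul_eq_mob hM' ⟨z, hz⟩
  have h3 := coe_smul_eq_mob hM (M' • (⟨z, hz⟩ : ℍ))
  rw [mul_smul] at h1
  rw [← h1, h3, h2]

theorem val_det_eq (M : GL (Fin 2) ℝ) : M.det.val = M 0 0 * M 1 1 - M 0 1 * M 1 0 := by
  rw [Matrix.GeneralLinearGroup.val_det_apply, Matrix.det_fin_two]

theorem hasDerivAt_mob (M : GL (Fin 2) ℝ) {z : ℂ} (hz : denom M z ≠ 0) :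
    HasDerivAt (mob M) ((M.det.val : ℂ) / (denom M z) ^ 2) z := by
  have hn : HasDerivAt (num M) (M 0 0 : ℂ) z := by
    unfold num
    simpa using ((hasDerivAt_id z).const_mul (M 0 0 : ℂ)).add_const (M 0 1 : ℂ)
  have hd : HasDerivAt (denom M) (M 1 0 : ℂ) z := by
    unfold denom
    simpa using ((hasDerivAt_id z).const_mul (M 1 0 : ℂ)).add_const (M 1 1 : ℂ)
  have := hn.div hd hz
  refine this.congr_deriv ?_
  rw [val_det_eq]
  simp only [num, denom]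
  push_cast
  ring

/-- The row vector `v * adj M`. -/
def vadj (M : GL (Fin 2) ℝ) (v : Fin 2 → ℂ) : Fin 2 → ℂ :=
  ![v 0 * M 1 1 - v 1 * M 1 0, -(v 0 * M 0 1) + v 1 * M 0 0]

@[simp] theorem vadj_zero (M : GL (Fin 2) ℝ) (v : Fin 2 → ℂ) :
    vadj M v 0 = v 0 * M 1 1 - v 1 * M 1 0 := rfl

@[simp] theorem vadj_one' (M : GL (Fin 2) ℝ) (v : Fin 2 → ℂ) :
    vadj M v 1 = -(v 0 * M 0 1) + v 1 * M 0 0 := rfl

theorem vadj_mul (M M' : GL (Fin 2) ℝ) (v : Fin 2 → ℂ) :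
    vadj (M * M') v = vadj M (vadj M' v) := by
  funext i
  fin_cases i
  · simp [vadj, Matrix.mul_apply, Fin.sum_univ_two]; ring
  · simp [vadj, Matrix.mul_apply, Fin.sum_univ_two]; ring

theorem vadj_id (v : Fin 2 → ℂ) : vadj 1 v = v := by
  funext i
  fin_cases i <;> simp [vadj]

theorem vadj_key (M : GL (Fin 2) ℝ) (v : Fin 2 → ℂ) (z : ℂ) :
    vadj M v 0 * num M z + vadj M v 1 * denom M z = (M.det.val : ℂ) * (v 0 * z + v 1) := by
  rw [val_det_eq]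
  simp only [vadj_zero, vadj_one', num, denom]
  push_cast
  ring

/-- The polynomial `(v₀ X + v₁) ^ w`. -/
noncomputable def pv (w : ℕ) (v : Fin 2 → ℂ) : ℂ[X] := (C (v 0) * X + C (v 1)) ^ w

theorem pv_eval (w : ℕ) (v : Fin 2 → ℂ) (z : ℂ) : (pv w v).eval z = (v 0 * z + v 1) ^ w := by
  simp [pv]

theorem pv_natDegree_le (w : ℕ) (v : Fin 2 → ℂ) : (pv w v).natDegree ≤ w := by
  unfold pv
  refine (natDegree_pow_le).trans ?_
  have : (C (v 0) * X + C (v 1)).natDegree ≤ 1 := natDegree_linear_le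
  calc w * (C (v 0) * X + C (v 1)).natDegree ≤ w * 1 := Nat.mul_le_mul_left w this
    _ = w := mul_one w

/-- The Eichler integral of `g` against `(v₀ z + v₁) ^ w`. -/
noncomputable def EIc (g : ℂ → ℂ) (w : ℕ) (v : Fin 2 → ℂ) : ℂ → ℂ := ibp g (w + 1) (pv w v)

theorem EIc_hasDerivAt {g : ℂ → ℂ} (hg : Cls g) (w : ℕ) (v : Fin 2 → ℂ) {z : ℂ} (hz : z ∈ UH) :
    HasDerivAt (EIc g w v) (g z * (v 0 * z + v 1) ^ w) z := by
  have := ibp_hasDerivAt' hg (pv_natDegree_le w v) hz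
  rwa [pv_eval] at this

theorem EIc_ldecay {g : ℂ → ℂ} (hg : Cls g) (w : ℕ) (v : Fin 2 → ℂ) : LDecay (EIc g w v) :=
  ibp_ldecay hg _ _

theorem EIc_comp_mob_hasDerivAt {g : ℂ → ℂ} (hg : Cls g) (w : ℕ) {M : GL (Fin 2) ℝ}
    (hM : 0 < M.det.val) (v : Fin 2 → ℂ) {z : ℂ} (hz : z ∈ UH) :
    HasDerivAt (fun z => EIc g w (vadj M v) (mob M z))
      (g (mob M z) * (M.det.val : ℂ) ^ (w + 1) / (denom M z) ^ (w + 2) * (v 0 * z + v 1) ^ w) z := by
  have hden : denom M z ≠ 0 := denom_ne_zero_of_im M (ne_of_gt hz)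
  have h1 := (EIc_hasDerivAt hg w (vadj M v) (mob_mem_UH hM hz)).comp z (hasDerivAt_mob M hden)
  refine h1.congr_deriv ?_
  have hkey := vadj_key M v z
  have : vadj M v 0 * mob M z + vadj M v 1 = (M.det.val : ℂ) * (v 0 * z + v 1) / denom M z := by
    rw [← hkey, mob]; field_simp
  rw [this, div_pow, mul_pow, pow_succ, pow_add]
  field_simp
  ring

/-- Upper triangular matrices with positive diagonal. -/
def IsUT (M : GL (Fin 2) ℝ) : Prop := M 1 0 = 0 ∧ 0 < M 0 0 ∧ 0 < M 1 1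

theorem IsUT.det_pos {M : GL (Fin 2) ℝ} (h : IsUT M) : 0 < M.det.val := by
  rw [val_det_eq, h.1, mul_zero, sub_zero]; exact mul_pos h.2.1 h.2.2

theorem LDecay.comp_mob {G : ℂ → ℂ} (hG : LDecay G) {M : GL (Fin 2) ℝ} (hM : IsUT M) :
    LDecay (fun z => G (mob M z)) := by
  intro x
  have h11 : (M 1 1 : ℂ) ≠ 0 := by exact_mod_cast hM.2.2.ne'
  have hpos : 0 < M 0 0 / M 1 1 := div_pos hM.2.1 hM.2.2
  have ht : Tendsto (fun t : ℝ => M 0 0 / M 1 1 * t) atTop atTop :=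
    tendsto_id.const_mul_atTop hpos
  have := (hG ((M 0 0 * x + M 0 1) / M 1 1)).comp ht
  refine this.congr fun t => ?_
  simp only [Function.comp_apply, mob, num, denom, hM.1]
  congr 1
  push_cast
  rw [zero_mul, zero_add, eq_div_iff h11]
  field_simp
  ring

/-- The period of `g` along `M` against `v`. -/
noncomputable def per (g : ℂ → ℂ) (w : ℕ) (M : GL (Fin 2) ℝ) (v : Fin 2 → ℂ) : ℂ :=
  EIc g w (vadj M v) (mob M Complex.I) - EIc g w v Complex.I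

/-- Invariance of `g` under the weight `w + 2` action of `M`. -/
def Inv (g : ℂ → ℂ) (w : ℕ) (M : GL (Fin 2) ℝ) : Prop :=
  0 < M.det.val ∧
    ∀ z ∈ UH, g (mob M z) * (M.det.val : ℂ) ^ (w + 1) / (denom M z) ^ (w + 2) = g z

theorem I_mem_UH : Complex.I ∈ UH := by simp [mem_UH]

theorem per_spec {g : ℂ → ℂ} (hg : Cls g) {w : ℕ} {M : GL (Fin 2) ℝ} (hM : Inv g w M)
    (v : Fin 2 → ℂ) {z : ℂ} (hz : z ∈ UH) :
    EIc g w (vadj M v) (mob M z) - EIc g w v z = per g w M v := by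
  have h1 : ∀ z ∈ UH, HasDerivAt (fun z => EIc g w (vadj M v) (mob M z))
      (g z * (v 0 * z + v 1) ^ w) z := fun z hz => by
    have := EIc_comp_mob_hasDerivAt hg w hM.1 v hz
    rwa [hM.2 z hz] at this
  have h2 : ∀ z ∈ UH, HasDerivAt (EIc g w v) (g z * (v 0 * z + v 1) ^ w) z :=
    fun z hz => EIc_hasDerivAt hg w v hz
  exact sub_const_of_hasDerivAt h1 h2 hz I_mem_UH

theorem per_one (g : ℂ → ℂ) (w : ℕ) (v : Fin 2 → ℂ) : per g w 1 v = 0 := by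
  simp [per, vadj_id, mob_one]

theorem per_mul {g : ℂ → ℂ} (hg : Cls g) {w : ℕ} {M M' : GL (Fin 2) ℝ} (hM : Inv g w M)
    (hM' : 0 < M'.det.val) (v : Fin 2 → ℂ) :
    per g w (M * M') v = per g w M (vadj M' v) + per g w M' v := by
  have h1 := per_spec hg hM (vadj M' v) (mob_mem_UH hM' I_mem_UH)
  rw [← h1]
  simp only [per]
  rw [vadj_mul, mob_mul hM.1 hM' I_mem_UH]
  ring

end Fermat.Agent.Lib.H3
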