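import Mathlib

set_option autoImplicit false

namespace Fermat.Agent.Lib.H3

open Complex Filter Topology Function

/-- The upper half plane as a subset of `ℂ`. -/
def UH : Set ℂ := {z | 0 < z.im}

theorem isOpen_UH : IsOpen UH := isOpen_lt continuous_const Complex.continuous_im

theorem convex_UH : Convex ℝ UH := convex_halfSpace_im_gt 0

theorem mem_UH {z : ℂ} : z ∈ UH ↔ 0 < z.im := Iff.rfl

/-- Holomorphic, 1-periodic functions on the upper half plane that vanish at `i∞` and have
moderate growth towards the real axis. -/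
structure Cls (g : ℂ → ℂ) : Prop where
  diff : DifferentiableOn ℂ g UH
  per : Function.Periodic g ((1 : ℝ) : ℂ)
  zero : ZeroAtFilter (comap Complex.im atTop) g
  bound : ∃ (C : ℝ) (M : ℕ), ∀ z ∈ UH, ‖g z‖ ≤ C * (1 + (z.im)⁻¹) ^ M

theorem qParam_one_add_one (z : ℂ) :
    Function.Periodic.qParam 1 (z + 1) = Function.Periodic.qParam 1 z := by
  unfold Function.Periodic.qParam
  have : 2 * (Real.pi : ℂ) * I * (z + 1) / ((1 : ℝ) : ℂ) = 2 * Real.pi * I * z / ((1 : ℝ) : ℂ) + 2 * Real.pi * I := by
    push_cast; ring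
  rw [this, Complex.exp_periodic]

theorem hasDerivAt_qParam_one (z : ℂ) :
    HasDerivAt (Function.Periodic.qParam 1) (2 * Real.pi * I * Function.Periodic.qParam 1 z) z := by
  unfold Function.Periodic.qParam
  have h1 : HasDerivAt (fun z : ℂ => 2 * (Real.pi : ℂ) * I * z / ((1 : ℝ) : ℂ)) (2 * Real.pi * I) z := by
    have := ((hasDerivAt_id z).const_mul (2 * (Real.pi : ℂ) * I)).div_const ((1 : ℝ) : ℂ)
    simpa using this
  have := h1.cexp
  refine this.congr_deriv ?_
  ring

theorem exists_prim {g : ℂ → ℂ} (hg : Cls g) :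
    ∃ G : ℂ → ℂ, Cls G ∧ ∀ z ∈ UH, HasDerivAt G (g z) z := by
  have h1 : (0 : ℝ) < 1 := one_pos
  set F := Function.Periodic.cuspFunction 1 g with hF
  have hev : ∀ᶠ z in comap Complex.im atTop, DifferentiableAt ℂ g z := by
    have : ∀ᶠ z in comap Complex.im atTop, 0 < z.im :=
      tendsto_comap.eventually (eventually_gt_atTop 0)
    filter_upwards [this] with z hz
    exact hg.diff.differentiableAt (isOpen_UH.mem_nhds hz)
  have hF0 : F 0 = 0 := Function.Periodic.cuspFunction_zero_of_zero_at_inf h1 hg.zero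
  have hFd0 : DifferentiableAt ℂ F 0 :=
    Function.Periodic.differentiableAt_cuspFunction_zero h1 hg.per hev hg.zero.boundedAtFilter
  have hFd : DifferentiableOn ℂ F (Metric.ball 0 1) := by
    intro q hq
    rcases eq_or_ne q 0 with rfl | hq0
    · exact hFd0.differentiableWithinAt
    · have hz : 0 < (Function.Periodic.invQParam 1 q).im := by
        rw [Function.Periodic.im_invQParam]
        have hq1 : ‖q‖ < 1 := by simpa using hq
        have hlog : Real.log ‖q‖ < 0 := Real.log_neg (norm_pos_iff.mpr hq0) hq1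
        have hpi : (-1 : ℝ) / (2 * Real.pi) < 0 := by
          apply div_neg_of_neg_of_pos <;> [norm_num; positivity]
        exact mul_pos_of_neg_of_neg hpi hlog
      have := Function.Periodic.differentiableAt_cuspFunction one_ne_zero hg.per
        (hg.diff.differentiableAt (isOpen_UH.mem_nhds hz))
      rw [Function.Periodic.qParam_right_inv one_ne_zero hq0] at this
      exact this.differentiableWithinAt
  have hD : DifferentiableOn ℂ (dslope F 0) (Metric.ball 0 1) :=
    (Complex.differentiableOn_dslope (Metric.ball_mem_nhds 0 one_pos)).mpr hFd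
  obtain ⟨H, hH0, hH⟩ := (hD.isExactOn_ball).with_val_at 0 0
  have hqball : ∀ z ∈ UH, Function.Periodic.qParam 1 z ∈ Metric.ball (0 : ℂ) 1 := by
    intro z hz
    simpa using Function.Periodic.norm_qParam_lt_one h1 hz
  have hderiv : ∀ z ∈ UH, HasDerivAt (fun z => (2 * Real.pi * I)⁻¹ * H (Function.Periodic.qParam 1 z)) (g z) z := by
    intro z hz
    have hq := hqball z hz
    have hq0 : Function.Periodic.qParam 1 z ≠ 0 := Function.Periodic.qParam_ne_zero z
    have hc := (hH _ hq).comp z (hasDerivAt_qParam_one z)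
    have hc2 := hc.const_mul ((2 * Real.pi * I)⁻¹)
    refine HasDerivAt.congr_deriv hc2 ?_
    rw [dslope_of_ne _ hq0, slope_def_field, hF0, sub_zero, sub_zero]
    have hgz : F (Function.Periodic.qParam 1 z) = g z :=
      Function.Periodic.eq_cuspFunction one_ne_zero hg.per z
    rw [hgz]
    have hpi : (2 * (Real.pi : ℂ) * I) ≠ 0 := Complex.two_pi_I_ne_zero
    field_simp
  refine ⟨fun z => (2 * Real.pi * I)⁻¹ * H (Function.Periodic.qParam 1 z), ⟨?_, ?_, ?_, ?_⟩, hderiv⟩
  · intro z hz
    exact (hderiv z hz).differentiableAt.differentiableWithinAt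
  · intro z
    show (2 * Real.pi * I)⁻¹ * H (Function.Periodic.qParam 1 (z + ((1 : ℝ) : ℂ))) = _
    rw [Complex.ofReal_one, qParam_one_add_one]
  · have hHc : ContinuousAt H 0 := (hH 0 (Metric.mem_ball_self one_pos)).continuousAt
    have ht : Tendsto (Function.Periodic.qParam 1) (comap Complex.im atTop) (𝓝 0) :=
      (Function.Periodic.qParam_tendsto h1).mono_right nhdsWithin_le_nhds
    have := (hHc.tendsto.comp ht).const_mul ((2 * Real.pi * I)⁻¹)
    rw [hH0, mul_zero] at this
    exact this
  · obtain ⟨C, M, hCM⟩ := hg.bound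
    -- bound of H on a closed ball of radius r < 1
    set r : ℝ := Real.exp (-2 * Real.pi) with hr
    have hr1 : r < 1 := by
      rw [hr, ← Real.exp_zero]; exact Real.exp_lt_exp.mpr (by nlinarith [Real.pi_pos])
    have hr0 : 0 < r := Real.exp_pos _
    have hHcont : ContinuousOn H (Metric.closedBall 0 r) := fun q hq =>
      (hH q (Metric.closedBall_subset_ball hr1 hq)).continuousAt.continuousWithinAt
    obtain ⟨B, hB⟩ := (isCompact_closedBall (0 : ℂ) r).exists_bound_of_continuousOn hHcont
    have hB0 : 0 ≤ B := (norm_nonneg _).trans (hB 0 (Metric.mem_closedBall_self hr0.le))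
    set c : ℝ := ‖(2 * Real.pi * I : ℂ)⁻¹‖ with hc
    have hc0 : 0 ≤ c := norm_nonneg _
    have hbig : ∀ z : ℂ, 1 ≤ z.im → ‖(2 * Real.pi * I)⁻¹ * H (Function.Periodic.qParam 1 z)‖ ≤ c * B := by
      intro z hz
      rw [norm_mul]
      apply mul_le_mul_of_nonneg_left _ hc0
      apply hB
      rw [Metric.mem_closedBall, dist_zero_right, Function.Periodic.norm_qParam, hr]
      apply Real.exp_le_exp.mpr
      have := Real.pi_pos
      rw [div_one]
      nlinarith
    refine ⟨c * B + |C|, M, fun z hz => ?_⟩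
    have hy : 0 < z.im := hz
    have hpow1 : 1 ≤ (1 + (z.im)⁻¹) ^ M := one_le_pow₀ (by linarith [inv_pos.mpr hy])
    rcases le_or_gt 1 z.im with h1z | h1z
    · calc _ ≤ c * B := hbig z h1z
        _ ≤ (c * B + |C|) * 1 := by linarith [abs_nonneg C]
        _ ≤ _ := mul_le_mul_of_nonneg_left hpow1 (by positivity)
    · -- mean value inequality along the vertical segment
      set z₁ : ℂ := ⟨z.re, 1⟩ with hz₁
      set s : Set ℂ := {ζ | z.im ≤ ζ.im} with hs
      have hsconv : Convex ℝ s := convex_halfSpace_im_ge _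
      have hsUH : ∀ ζ ∈ s, ζ ∈ UH := fun ζ hζ => lt_of_lt_of_le hy hζ
      have hmv := Convex.norm_image_sub_le_of_norm_hasDerivWithin_le
        (f := fun z => (2 * Real.pi * I)⁻¹ * H (Function.Periodic.qParam 1 z)) (f' := g)
        (s := s) (x := z₁) (y := z) (C := |C| * (1 + (z.im)⁻¹) ^ M)
        (fun ζ hζ => (hderiv ζ (hsUH ζ hζ)).hasDerivWithinAt)
        (fun ζ hζ => by
          have hζ0 : 0 < ζ.im := hsUH ζ hζ
          refine (hCM ζ (hsUH ζ hζ)).trans ?_
          have : (1 + (ζ.im)⁻¹) ^ M ≤ (1 + (z.im)⁻¹) ^ M := by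
            apply pow_le_pow_left₀ (by positivity)
            have : (ζ.im)⁻¹ ≤ (z.im)⁻¹ := inv_anti₀ hy hζ
            linarith
          calc C * (1 + (ζ.im)⁻¹) ^ M ≤ |C| * (1 + (ζ.im)⁻¹) ^ M :=
                mul_le_mul_of_nonneg_right (le_abs_self C) (by positivity)
            _ ≤ _ := mul_le_mul_of_nonneg_left this (abs_nonneg C))
        hsconv (by show z.im ≤ z₁.im; exact h1z.le) (by show z.im ≤ z.im; exact le_refl _)
      have hdist : ‖z - z₁‖ ≤ 1 := by
        have : z - z₁ = ((z.im - 1 : ℝ) : ℂ) * I := by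
          apply Complex.ext <;> simp [hz₁]
        rw [this, norm_mul, Complex.norm_I, mul_one, Complex.norm_real, Real.norm_eq_abs, abs_le]
        constructor <;> linarith
      have hz1 : ‖(2 * Real.pi * I)⁻¹ * H (Function.Periodic.qParam 1 z₁)‖ ≤ c * B :=
        hbig z₁ (le_of_eq rfl)
      have hCpos : 0 ≤ |C| * (1 + (z.im)⁻¹) ^ M := by positivity
      calc ‖(2 * Real.pi * I)⁻¹ * H (Function.Periodic.qParam 1 z)‖
          ≤ ‖(2 * Real.pi * I)⁻¹ * H (Function.Periodic.qParam 1 z₁)‖ +
            ‖(2 * Real.pi * I)⁻¹ * H (Function.Periodic.qParam 1 z) -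
              (2 * Real.pi * I)⁻¹ * H (Function.Periodic.qParam 1 z₁)‖ := by
            have := norm_add_le ((2 * Real.pi * I)⁻¹ * H (Function.Periodic.qParam 1 z₁))
              ((2 * Real.pi * I)⁻¹ * H (Function.Periodic.qParam 1 z) -
              (2 * Real.pi * I)⁻¹ * H (Function.Periodic.qParam 1 z₁))
            simpa using this
        _ ≤ c * B + |C| * (1 + (z.im)⁻¹) ^ M * 1 := by
            apply add_le_add hz1
            exact hmv.trans (mul_le_mul_of_nonneg_left hdist hCpos)
        _ ≤ (c * B + |C|) * (1 + (z.im)⁻¹) ^ M := by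
            have : c * B ≤ c * B * (1 + (z.im)⁻¹) ^ M :=
              le_mul_of_one_le_right (by positivity) hpow1
            linarith

end Fermat.Agent.Lib.H3
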