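/-
helper6: a compactness lemma for adically (pre)complete rings with finite quotients
(used for the universal deformation ring, S53).
-/
import Mathlib

set_option autoImplicit false

namespace Fermat.Agent.Lib.H6D

section Compact

variable {Λ : Type} [CommRing Λ] (𝔪 : Ideal Λ)

/-- `x` is congruent modulo `𝔪 ^ n` to an element of every member of the family. -/
private def CP (𝒮 : Set (Set Λ)) (n : ℕ) (x : Λ) : Prop :=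
  ∀ S ∈ 𝒮, ∃ s ∈ S, s - x ∈ 𝔪 ^ n

private theorem CP_anti {𝒮 : Set (Set Λ)} {m n : ℕ} (h : n ≤ m) {x : Λ} (hx : CP 𝔪 𝒮 m x) :
    CP 𝔪 𝒮 n x := by
  intro S hS
  obtain ⟨s, hs, hsx⟩ := hx S hS
  exact ⟨s, hs, Ideal.pow_le_pow_right h hsx⟩

private theorem CP_congr {𝒮 : Set (Set Λ)} {n : ℕ} {x y : Λ} (hxy : y - x ∈ 𝔪 ^ n)
    (hy : CP 𝔪 𝒮 n y) : CP 𝔪 𝒮 n x := by
  intro S hS
  obtain ⟨s, hs, hsy⟩ := hy S hS
  refine ⟨s, hs, ?_⟩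
  have : s - x = (s - y) + (y - x) := by ring
  rw [this]
  exact Ideal.add_mem _ hsy hxy

private theorem exists_CP (hfin : ∀ n, Finite (Λ ⧸ 𝔪 ^ n)) (𝒮 : Set (Set Λ))
    (hne : ∀ S ∈ 𝒮, S.Nonempty)
    (hdir : ∀ S ∈ 𝒮, ∀ T ∈ 𝒮, ∃ U ∈ 𝒮, U ⊆ S ∩ T) (n : ℕ) : ∃ x, CP 𝔪 𝒮 n x := by
  classical
  by_cases hemp : 𝒮 = ∅
  · exact ⟨0, fun S hS => by simp [hemp] at hS⟩
  have hne' : 𝒮.Nonempty := Set.nonempty_iff_ne_empty.mpr hemp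
  have := hfin n
  let mk : Λ → Λ ⧸ 𝔪 ^ n := Ideal.Quotient.mk (𝔪 ^ n)
  -- choose a member whose image has minimal cardinality
  let card : Set Λ → ℕ := fun S => (mk '' S).ncard
  have hex : ∃ k, ∃ S ∈ 𝒮, card S = k := by
    obtain ⟨S, hS⟩ := hne'
    exact ⟨_, S, hS, rfl⟩
  obtain ⟨S₀, hS₀, hcard⟩ := Nat.find_spec hex
  have hmin : ∀ S ∈ 𝒮, card S₀ ≤ card S := by
    intro S hS
    rw [hcard]
    exact Nat.find_min' hex ⟨S, hS, rfl⟩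
  obtain ⟨x, hx⟩ := hne S₀ hS₀
  refine ⟨x, fun S hS => ?_⟩
  obtain ⟨U, hU, hUsub⟩ := hdir S₀ hS₀ S hS
  have hsub : mk '' U ⊆ mk '' S₀ := Set.image_mono fun u hu => (hUsub hu).1
  have heq : mk '' U = mk '' S₀ :=
    Set.eq_of_subset_of_ncard_le hsub (hmin U hU) (Set.toFinite _)
  have hxmem : mk x ∈ mk '' U := heq ▸ Set.mem_image_of_mem mk hx
  obtain ⟨u, hu, hux⟩ := hxmem
  refine ⟨u, (hUsub hu).2, ?_⟩
  exact Ideal.Quotient.eq.mp hux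

/-- `x` modulo `𝔪 ^ n` lifts to elements satisfying `CP` at all higher levels. -/
private def CQ (𝒮 : Set (Set Λ)) (n : ℕ) (x : Λ) : Prop :=
  ∀ m, n ≤ m → ∃ y, y - x ∈ 𝔪 ^ n ∧ CP 𝔪 𝒮 m y

private theorem CQ_step (hfin : ∀ n, Finite (Λ ⧸ 𝔪 ^ n)) (𝒮 : Set (Set Λ)) (n : ℕ) (x : Λ)
    (hx : CQ 𝔪 𝒮 n x) : ∃ x', x' - x ∈ 𝔪 ^ n ∧ CQ 𝔪 𝒮 (n + 1) x' := by
  classical
  have := hfin (n + 1)
  have hch : ∀ j : ℕ, ∃ y, y - x ∈ 𝔪 ^ n ∧ CP 𝔪 𝒮 (j + n + 1) y := fun j =>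
    hx (j + n + 1) (by omega)
  choose y hy1 hy2 using hch
  let f : ℕ → Λ ⧸ 𝔪 ^ (n + 1) := fun j => Ideal.Quotient.mk (𝔪 ^ (n + 1)) (y j)
  obtain ⟨z, hz⟩ := Finite.exists_infinite_fiber f
  have hinf : (f ⁻¹' {z}).Infinite := Set.infinite_coe_iff.mp hz
  obtain ⟨j₀, hj₀⟩ := hinf.nonempty
  refine ⟨y j₀, hy1 j₀, fun m hm => ?_⟩
  obtain ⟨j, hj, hjm⟩ := hinf.exists_gt m
  refine ⟨y j, ?_, CP_anti 𝔪 (by omega) (hy2 j)⟩
  have h1 : f j = f j₀ := by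
    rw [Set.mem_preimage, Set.mem_singleton_iff] at hj hj₀
    rw [hj, hj₀]
  exact Ideal.Quotient.eq.mp h1

/-- **Compactness.** In a ring which is precomplete for an ideal `𝔪` with all `Λ ⧸ 𝔪 ^ n` finite,
a downward directed family of nonempty subsets, each stable under translation by some power of
`𝔪`, has a common point. -/
theorem exists_mem_of_directed_cosets [IsPrecomplete 𝔪 Λ]
    (hfin : ∀ n, Finite (Λ ⧸ 𝔪 ^ n)) (𝒮 : Set (Set Λ)) (hne : ∀ S ∈ 𝒮, S.Nonempty)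
    (hstab : ∀ S ∈ 𝒮, ∃ n, ∀ x ∈ S, ∀ y ∈ 𝔪 ^ n, x + y ∈ S)
    (hdir : ∀ S ∈ 𝒮, ∀ T ∈ 𝒮, ∃ U ∈ 𝒮, U ⊆ S ∩ T) : ∃ x, ∀ S ∈ 𝒮, x ∈ S := by
  classical
  have h0 : CQ 𝔪 𝒮 0 0 := by
    intro m _
    obtain ⟨y, hy⟩ := exists_CP 𝔪 hfin 𝒮 hne hdir m
    exact ⟨y, by simp, hy⟩
  let seq : (n : ℕ) → {x : Λ // CQ 𝔪 𝒮 n x} := fun n =>
    Nat.rec (motive := fun n => {x : Λ // CQ 𝔪 𝒮 n x}) ⟨0, h0⟩
      (fun n p => ⟨Classical.choose (CQ_step 𝔪 hfin 𝒮 n p.1 p.2),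
        (Classical.choose_spec (CQ_step 𝔪 hfin 𝒮 n p.1 p.2)).2⟩) n
  have hseq : ∀ n, (seq (n + 1)).1 - (seq n).1 ∈ 𝔪 ^ n := fun n =>
    (Classical.choose_spec (CQ_step 𝔪 hfin 𝒮 n (seq n).1 (seq n).2)).1
  have hcauchy : ∀ m n, m ≤ n → (seq n).1 - (seq m).1 ∈ 𝔪 ^ m := by
    intro m n hmn
    induction n, hmn using Nat.le_induction with
    | base => simp
    | succ n hmn ih =>
      have : (seq (n + 1)).1 - (seq m).1 = ((seq (n + 1)).1 - (seq n).1) + ((seq n).1 - (seq m).1) := by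
        ring
      rw [this]
      exact Ideal.add_mem _ (Ideal.pow_le_pow_right hmn (hseq n)) ih
  obtain ⟨L, hL⟩ := IsPrecomplete.prec' (I := 𝔪) (M := Λ) (fun n => (seq n).1) (by
    intro m n hmn
    rw [SModEq.sub_mem, smul_eq_mul, Ideal.mul_top]
    have := hcauchy m n hmn
    rw [← neg_sub]
    exact Ideal.neg_mem_iff _ |>.mpr this)
  have hL' : ∀ n, L - (seq n).1 ∈ 𝔪 ^ n := by
    intro n
    have := hL n
    rw [SModEq.sub_mem, smul_eq_mul, Ideal.mul_top] at this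
    rw [← neg_sub]
    exact Ideal.neg_mem_iff _ |>.mpr this
  refine ⟨L, fun S hS => ?_⟩
  obtain ⟨N, hN⟩ := hstab S hS
  obtain ⟨y, hy1, hy2⟩ := (seq N).2 N le_rfl
  obtain ⟨s, hs, hsx⟩ := CP_congr 𝔪 hy1 hy2 S hS
  have : L = s + ((L - (seq N).1) - (s - (seq N).1)) := by ring
  rw [this]
  exact hN s hs _ (Ideal.sub_mem _ (hL' N) hsx)

section Ideals

variable [IsPrecomplete 𝔪 Λ] (hfin : ∀ n, Finite (Λ ⧸ 𝔪 ^ n)) (𝒥 : Set (Ideal Λ))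
  (hopen : ∀ J ∈ 𝒥, ∃ n, 𝔪 ^ n ≤ J) (hinf : ∀ J ∈ 𝒥, ∀ J' ∈ 𝒥, J ⊓ J' ∈ 𝒥)

include hfin hopen hinf

/-- **Mittag-Leffler.** A compatible family of residue classes modulo the members of a family of
open ideals closed under intersection is induced by a single element. -/
theorem exists_sub_mem_of_compatible (a : Ideal Λ → Λ)
    (compat : ∀ J ∈ 𝒥, ∀ J' ∈ 𝒥, J ≤ J' → a J - a J' ∈ J') : ∃ x, ∀ J ∈ 𝒥, x - a J ∈ J := by
  classical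
  let 𝒮 : Set (Set Λ) := (fun J : Ideal Λ => {y : Λ | y - a J ∈ J}) '' 𝒥
  have key : ∃ x, ∀ S ∈ 𝒮, x ∈ S := by
    refine exists_mem_of_directed_cosets 𝔪 hfin 𝒮 ?_ ?_ ?_
    · rintro S ⟨J, -, rfl⟩
      exact ⟨a J, by simp⟩
    · rintro S ⟨J, hJ, rfl⟩
      obtain ⟨n, hn⟩ := hopen J hJ
      refine ⟨n, fun x hx y hy => ?_⟩
      have : x + y - a J = (x - a J) + y := by ring
      simp only [Set.mem_ofPred_eq] at hx ⊢
      rw [this]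
      exact Ideal.add_mem _ hx (hn hy)
    · rintro S ⟨J, hJ, rfl⟩ T ⟨J', hJ', rfl⟩
      refine ⟨_, ⟨J ⊓ J', hinf J hJ J' hJ', rfl⟩, fun y hy => ?_⟩
      simp only [Set.mem_ofPred_eq] at hy
      have h1 := compat (J ⊓ J') (hinf J hJ J' hJ') J hJ inf_le_left
      have h2 := compat (J ⊓ J') (hinf J hJ J' hJ') J' hJ' inf_le_right
      constructor
      · have : y - a J = (y - a (J ⊓ J')) + (a (J ⊓ J') - a J) := by ring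
        simp only [Set.mem_ofPred_eq]
        rw [this]
        exact Ideal.add_mem _ (Ideal.mem_inf.mp hy).1 h1
      · have : y - a J' = (y - a (J ⊓ J')) + (a (J ⊓ J') - a J') := by ring
        simp only [Set.mem_ofPred_eq]
        rw [this]
        exact Ideal.add_mem _ (Ideal.mem_inf.mp hy).2 h2
  obtain ⟨x, hx⟩ := key
  exact ⟨x, fun J hJ => hx _ ⟨J, hJ, rfl⟩⟩

/-- **Chevalley.** For a nonempty family of open ideals closed under intersection, every power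
of `𝔪` contains, modulo the intersection of the family, some member of the family. -/
theorem exists_le_sInf_sup_pow (h𝒥 : 𝒥.Nonempty) (n : ℕ) : ∃ J ∈ 𝒥, J ≤ sInf 𝒥 ⊔ 𝔪 ^ n := by
  classical
  have := hfin n
  let mk : Λ → Λ ⧸ 𝔪 ^ n := Ideal.Quotient.mk (𝔪 ^ n)
  let card : Ideal Λ → ℕ := fun J => (mk '' (J : Set Λ)).ncard
  have hex : ∃ k, ∃ J ∈ 𝒥, card J = k := by
    obtain ⟨J, hJ⟩ := h𝒥
    exact ⟨_, J, hJ, rfl⟩
  obtain ⟨J₀, hJ₀, hcard⟩ := Nat.find_spec hex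
  have hmin : ∀ J ∈ 𝒥, card J₀ ≤ card J := by
    intro J hJ
    rw [hcard]
    exact Nat.find_min' hex ⟨J, hJ, rfl⟩
  -- `J₀ ≤ J ⊔ 𝔪 ^ n` for all `J` in the family
  have hle : ∀ J ∈ 𝒥, ∀ x ∈ J₀, ∃ j ∈ J, j - x ∈ 𝔪 ^ n := by
    intro J hJ x hx
    have hU := hinf J₀ hJ₀ J hJ
    have hsub : mk '' ((J₀ ⊓ J : Ideal Λ) : Set Λ) ⊆ mk '' (J₀ : Set Λ) :=
      Set.image_mono fun u hu => (Ideal.mem_inf.mp hu).1
    have heq : mk '' ((J₀ ⊓ J : Ideal Λ) : Set Λ) = mk '' (J₀ : Set Λ) :=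
      Set.eq_of_subset_of_ncard_le hsub (hmin _ hU) (Set.toFinite _)
    have hxmem : mk x ∈ mk '' ((J₀ ⊓ J : Ideal Λ) : Set Λ) := heq ▸ Set.mem_image_of_mem mk hx
    obtain ⟨u, hu, hux⟩ := hxmem
    exact ⟨u, (Ideal.mem_inf.mp hu).2, Ideal.Quotient.eq.mp hux⟩
  refine ⟨J₀, hJ₀, fun x hx => ?_⟩
  let 𝒮 : Set (Set Λ) := (fun J : Ideal Λ => {y : Λ | y ∈ J ∧ y - x ∈ 𝔪 ^ n}) '' 𝒥
  have key : ∃ y, ∀ S ∈ 𝒮, y ∈ S := by
    refine exists_mem_of_directed_cosets 𝔪 hfin 𝒮 ?_ ?_ ?_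
    · rintro S ⟨J, hJ, rfl⟩
      obtain ⟨j, hj, hjx⟩ := hle J hJ x hx
      exact ⟨j, hj, hjx⟩
    · rintro S ⟨J, hJ, rfl⟩
      obtain ⟨N, hN⟩ := hopen J hJ
      refine ⟨max N n, fun y hy z hz => ?_⟩
      simp only [Set.mem_ofPred_eq] at hy ⊢
      refine ⟨Ideal.add_mem _ hy.1 (hN (Ideal.pow_le_pow_right (le_max_left _ _) hz)), ?_⟩
      have : y + z - x = (y - x) + z := by ring
      rw [this]
      exact Ideal.add_mem _ hy.2 (Ideal.pow_le_pow_right (le_max_right _ _) hz)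
    · rintro S ⟨J, hJ, rfl⟩ T ⟨J', hJ', rfl⟩
      refine ⟨_, ⟨J ⊓ J', hinf J hJ J' hJ', rfl⟩, fun y hy => ?_⟩
      simp only [Set.mem_ofPred_eq] at hy
      exact ⟨⟨(Ideal.mem_inf.mp hy.1).1, hy.2⟩, ⟨(Ideal.mem_inf.mp hy.1).2, hy.2⟩⟩
  obtain ⟨y, hy⟩ := key
  have hyK : y ∈ sInf 𝒥 := by
    rw [Ideal.mem_sInf]
    intro J hJ
    exact (hy _ ⟨J, hJ, rfl⟩).1
  obtain ⟨J, hJ⟩ := h𝒥
  have hyx : y - x ∈ 𝔪 ^ n := (hy _ ⟨J, hJ, rfl⟩).2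
  have : x = y + (x - y) := by ring
  rw [this]
  refine Ideal.add_mem _ (Ideal.mem_sup_left hyK) (Ideal.mem_sup_right ?_)
  rw [← neg_sub]
  exact (Ideal.neg_mem_iff _).mpr hyx

end Ideals

end Compact

end Fermat.Agent.Lib.H6D
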