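import Mathlib

set_option autoImplicit false

namespace Fermat.Agent.Lib.H6

section Simultaneous

variable {V : Type*} [AddCommGroup V] [Module ℂ V] [FiniteDimensional ℂ V]

theorem exists_simultaneous_eigenvector_aux (S : Set (Module.End ℂ V))
    (hcomm : ∀ s ∈ S, ∀ t ∈ S, s * t = t * s) :
    ∀ (n : ℕ) (W : Submodule ℂ V), Module.finrank ℂ W = n → W ≠ ⊥ →
      (∀ s ∈ S, ∀ w ∈ W, s w ∈ W) →
      ∃ g ∈ W, g ≠ 0 ∧ ∀ s ∈ S, ∃ μ : ℂ, s g = μ • g := by
  intro n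
  induction n using Nat.strong_induction_on with
  | _ n ih =>
    intro W hn hW hstab
    by_cases hsc : ∀ s ∈ S, ∃ μ : ℂ, ∀ w ∈ W, s w = μ • w
    · obtain ⟨g, hgW, hg0⟩ := (Submodule.ne_bot_iff W).1 hW
      exact ⟨g, hgW, hg0, fun s hs => (hsc s hs).imp fun μ hμ => hμ g hgW⟩
    · simp only [not_forall, not_exists] at hsc
      obtain ⟨s, hsS, hs⟩ := hsc
      let sW : Module.End ℂ W := s.restrict (hstab s hsS)
      have hWnt : Nontrivial W := Submodule.nontrivial_iff_ne_bot.2 hW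
      obtain ⟨μ, hμ⟩ := Module.End.exists_eigenvalue sW
      obtain ⟨v, hv⟩ := hμ.exists_hasEigenvector
      let E : Submodule ℂ V := W ⊓ LinearMap.ker (s - μ • (1 : Module.End ℂ V))
      have hEmem : ∀ w : V, w ∈ E ↔ w ∈ W ∧ s w = μ • w := by
        intro w
        simp only [E, Submodule.mem_inf, LinearMap.mem_ker, LinearMap.sub_apply,
          LinearMap.smul_apply, Module.End.one_apply, sub_eq_zero]
      have hEW : E ≤ W := inf_le_left
      have hvE : (v : V) ∈ E := by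
        rw [hEmem]
        refine ⟨v.2, ?_⟩
        have h1 := hv.apply_eq_smul
        have h2 := congrArg (Subtype.val) h1
        simpa [sW] using h2
      have hv0 : (v : V) ≠ 0 := fun h => hv.2 (Subtype.ext h)
      have hEbot : E ≠ ⊥ := fun h => hv0 (by simpa [h] using hvE)
      have hElt : E < W := by
        refine lt_of_le_of_ne hEW ?_
        intro hEq
        obtain ⟨w, hwW, hw⟩ := hs μ
        exact hw (((hEmem w).1 (hEq ▸ hwW)).2)
      have hEstab : ∀ t ∈ S, ∀ w ∈ E, t w ∈ E := by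
        intro t ht w hw
        rw [hEmem] at hw ⊢
        refine ⟨hstab t ht w hw.1, ?_⟩
        have hc := hcomm s hsS t ht
        have : s (t w) = t (s w) := by
          have := congrArg (fun f : Module.End ℂ V => f w) hc
          simpa using this
        rw [this, hw.2, map_smul]
      have hlt : Module.finrank ℂ E < n := hn ▸ Submodule.finrank_lt_finrank_of_lt hElt
      obtain ⟨g, hgE, hg0, hg⟩ := ih _ hlt E rfl hEbot hEstab
      exact ⟨g, hEW hgE, hg0, hg⟩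

theorem exists_simultaneous_eigenvector (S : Set (Module.End ℂ V))
    (hcomm : ∀ s ∈ S, ∀ t ∈ S, s * t = t * s) (W : Submodule ℂ V) (hW : W ≠ ⊥)
    (hstab : ∀ s ∈ S, ∀ w ∈ W, s w ∈ W) :
    ∃ g ∈ W, g ≠ 0 ∧ ∀ s ∈ S, ∃ μ : ℂ, s g = μ • g :=
  exists_simultaneous_eigenvector_aux S hcomm _ W rfl hW hstab

end Simultaneous

section Main

variable {V : Type*} [AddCommGroup V] [Module ℂ V] [FiniteDimensional ℂ V]
variable {R : Type*} [CommRing R]

theorem exists_stable_subspace (ρ : R →+* Module.End ℂ V) (𝔪 : Ideal R) [h𝔪 : 𝔪.IsPrime]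
    (hker : RingHom.ker ρ ≤ 𝔪) :
    ∃ W : Submodule ℂ V, W ≠ ⊥ ∧ (∀ r : R, ∀ w ∈ W, ρ r w ∈ W) ∧
      ∀ s : R, s ∉ 𝔪 → ∀ w ∈ W, ρ s w = 0 → w = 0 := by
  classical
  set n := Module.finrank ℂ V with hn
  have h1 : (1 : R) ∉ 𝔪 := (Ideal.ne_top_iff_one 𝔪).1 h𝔪.ne_top
  have hVnt : Nontrivial V := by
    by_contra hV
    rw [not_nontrivial_iff_subsingleton] at hV
    apply h1
    apply hker
    rw [RingHom.mem_ker]
    ext v
    exact Subsingleton.elim _ _
  have hnpos : 0 < n := Module.finrank_pos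
  let Wf : R → Submodule ℂ V := fun s => LinearMap.range ((ρ s) ^ n)
  have hex : ∃ k, ∃ s : R, s ∉ 𝔪 ∧ Module.finrank ℂ (Wf s) = k := ⟨_, 1, h1, rfl⟩
  obtain ⟨s₀, hs₀, hs₀k⟩ := Nat.find_spec hex
  have hmin : ∀ s : R, s ∉ 𝔪 → Module.finrank ℂ (Wf s₀) ≤ Module.finrank ℂ (Wf s) := by
    intro s hs
    rw [hs₀k]
    exact Nat.find_min' hex ⟨s, hs, rfl⟩
  have hstab : ∀ r : R, ∀ w ∈ Wf s₀, ρ r w ∈ Wf s₀ := by
    rintro r w ⟨v, rfl⟩
    refine ⟨ρ r v, ?_⟩
    have : (ρ s₀) ^ n * ρ r = ρ r * (ρ s₀) ^ n := by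
      rw [← map_pow, ← map_mul, ← map_mul, mul_comm]
    exact congrArg (fun f : Module.End ℂ V => f v) this
  refine ⟨Wf s₀, ?_, hstab, ?_⟩
  · intro hbot
    apply hs₀
    have h0 : (ρ s₀) ^ n = 0 := LinearMap.range_eq_bot.1 hbot
    have h2 : s₀ ^ n ∈ 𝔪 := hker (by rw [RingHom.mem_ker, map_pow, h0])
    exact h𝔪.mem_of_pow_mem n h2
  · intro s hs w hw hsw
    have hss : s * s₀ ∉ 𝔪 := fun h => (h𝔪.mem_or_mem h).elim hs hs₀
    have hpow : (ρ (s * s₀)) ^ n = (ρ s) ^ n * (ρ s₀) ^ n := by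
      rw [← map_pow, mul_pow, map_mul, map_pow, map_pow]
    have hpow' : (ρ (s * s₀)) ^ n = (ρ s₀) ^ n * (ρ s) ^ n := by
      rw [← map_pow, mul_pow, mul_comm, map_mul, map_pow, map_pow]
    have hle : Wf (s * s₀) ≤ Wf s₀ := by
      rintro x ⟨v, rfl⟩
      refine ⟨((ρ s) ^ n) v, ?_⟩
      rw [hpow']
      rfl
    have heq : Wf (s * s₀) = Wf s₀ := Submodule.eq_of_le_of_finrank_le hle (hmin _ hss)
    have hmaps : ∀ x ∈ Wf s₀, ((ρ s) ^ n) x ∈ Wf s₀ := by
      intro x hx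
      rw [← map_pow]
      exact hstab _ x hx
    let T : Module.End ℂ (Wf s₀) := ((ρ s) ^ n).restrict hmaps
    have hsurj : Function.Surjective T := by
      rintro ⟨y, hy⟩
      have hy' : y ∈ Wf (s * s₀) := heq ▸ hy
      obtain ⟨v, rfl⟩ := hy'
      refine ⟨⟨((ρ s₀) ^ n) v, v, rfl⟩, ?_⟩
      apply Subtype.ext
      show ((ρ s) ^ n) (((ρ s₀) ^ n) v) = ((ρ (s * s₀)) ^ n) v
      rw [hpow]
      rfl
    have hinj : Function.Injective T := LinearMap.injective_iff_surjective.2 hsurj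
    have hT0 : T ⟨w, hw⟩ = 0 := by
      apply Subtype.ext
      show ((ρ s) ^ n) w = 0
      obtain ⟨m, hm⟩ : ∃ m, n = m + 1 := ⟨n - 1, by omega⟩
      rw [hm, pow_succ, Module.End.mul_apply, hsw, map_zero]
    have h3 := hinj (hT0.trans (map_zero T).symm)
    exact congrArg Subtype.val h3

omit [FiniteDimensional ℂ V] in
theorem eval₂_eq_zero_of_eigenvector {f : Module.End ℂ V} {μ : ℂ} {g : V} (hg0 : g ≠ 0)
    (hfg : f g = μ • g) {P : Polynomial ℤ}
    (hP : Polynomial.eval₂ (algebraMap ℤ (Module.End ℂ V)) f P = 0) :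
    Polynomial.eval₂ (algebraMap ℤ ℂ) μ P = 0 := by
  have hvec : f.HasEigenvector μ g := ⟨Module.End.mem_eigenspace_iff.2 hfg, hg0⟩
  have h1 := Module.End.aeval_apply_of_hasEigenvector (p := P.map (algebraMap ℤ ℂ)) hvec
  rw [Polynomial.aeval_map_algebraMap, Polynomial.aeval_def, hP, LinearMap.zero_apply,
    Polynomial.eval_map] at h1
  exact (smul_eq_zero.1 h1.symm).resolve_right hg0

theorem exists_eigenvector_over_maximal (ρ : R →+* Module.End ℂ V)
    (hint : ∀ r : R, IsIntegral ℤ (ρ r))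
    (𝔪 : Ideal R) [h𝔪 : 𝔪.IsMaximal] (hker : RingHom.ker ρ ≤ 𝔪) :
    ∃ (g : V) (χ : R →+* integralClosure ℤ ℂ) (𝔪' : Ideal (integralClosure ℤ ℂ)),
      g ≠ 0 ∧ (∀ r : R, ρ r g = ((χ r : integralClosure ℤ ℂ) : ℂ) • g) ∧
      𝔪'.IsMaximal ∧ ∀ r ∈ 𝔪, χ r ∈ 𝔪' := by
  classical
  have h𝔪p : 𝔪.IsPrime := h𝔪.isPrime
  obtain ⟨W, hW0, hWstab, hWinj⟩ := exists_stable_subspace ρ 𝔪 hker
  obtain ⟨g, hgW, hg0, hg⟩ := exists_simultaneous_eigenvector (Set.range ρ)
    (by rintro _ ⟨a, rfl⟩ _ ⟨b, rfl⟩; rw [← map_mul, ← map_mul, mul_comm]) W hW0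
    (by rintro _ ⟨a, rfl⟩ w hw; exact hWstab a w hw)
  have hg' : ∀ r : R, ∃ μ : ℂ, ρ r g = μ • g := fun r => hg _ ⟨r, rfl⟩
  choose χ₀ hχ₀ using hg'
  have huniq : ∀ {a b : ℂ}, a • g = b • g → a = b := fun h => smul_left_injective ℂ hg0 h
  let χ₁ : R →+* ℂ :=
    { toFun := χ₀
      map_one' := huniq (by rw [← hχ₀, map_one, Module.End.one_apply, one_smul])
      map_mul' := fun a b => huniq (by
        rw [← hχ₀, map_mul, Module.End.mul_apply, hχ₀ b, map_smul, hχ₀ a, smul_smul, mul_comm])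
      map_zero' := huniq (by rw [← hχ₀, map_zero, LinearMap.zero_apply, zero_smul])
      map_add' := fun a b => huniq (by
        rw [← hχ₀, map_add, LinearMap.add_apply, hχ₀ a, hχ₀ b, add_smul]) }
  have hχint : ∀ r, χ₁ r ∈ integralClosure ℤ ℂ := by
    intro r
    obtain ⟨P, hPm, hP⟩ := hint r
    exact ⟨P, hPm, eval₂_eq_zero_of_eigenvector hg0 (hχ₀ r) hP⟩
  let χ : R →+* integralClosure ℤ ℂ := χ₁.codRestrict (integralClosure ℤ ℂ) hχint
  let _ : Algebra R (integralClosure ℤ ℂ) := χ.toAlgebra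
  have hint' : Algebra.IsIntegral R (integralClosure ℤ ℂ) := by
    refine ⟨fun z => ?_⟩
    have hz : IsIntegral ℤ z := Algebra.IsIntegral.isIntegral z
    obtain ⟨P, hPm, hP⟩ := hz
    refine ⟨P.map (algebraMap ℤ R), hPm.map _, ?_⟩
    rw [Polynomial.eval₂_map]
    have : (algebraMap R (integralClosure ℤ ℂ)).comp (algebraMap ℤ R)
        = algebraMap ℤ (integralClosure ℤ ℂ) := RingHom.ext_int _ _
    rw [this]
    exact hP
  have hkerχ : RingHom.ker (algebraMap R (integralClosure ℤ ℂ)) ≤ 𝔪 := by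
    intro r hr
    by_contra hrm
    have h0 : χ r = 0 := hr
    have h1 : χ₀ r = 0 := congrArg Subtype.val h0
    have h2 : ρ r g = 0 := by rw [hχ₀, h1, zero_smul]
    exact hg0 (hWinj r hrm g hgW h2)
  obtain ⟨Q, hQmax, hQ⟩ := Ideal.exists_ideal_over_maximal_of_isIntegral 𝔪 hkerχ
  refine ⟨g, χ, Q, hg0, fun r => hχ₀ r, hQmax, fun r hr => ?_⟩
  have hr' : r ∈ Q.comap (algebraMap R (integralClosure ℤ ℂ)) := hQ ▸ hr
  exact hr'

end Main

section Lattice

variable {V : Type*} [AddCommGroup V] [Module ℂ V]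

theorem finiteDimensional_of_lattice (L : Submodule ℤ V) (hfg : L.FG)
    (hspan : Submodule.span ℂ (L : Set V) = ⊤) : FiniteDimensional ℂ V := by
  obtain ⟨s, hs⟩ := hfg
  refine Module.finite_def.2 ⟨s, ?_⟩
  refine top_le_iff.1 ?_
  rw [← hspan]
  refine Submodule.span_le.2 ?_
  intro x hx
  have hx' : x ∈ Submodule.span ℤ (s : Set V) := hs ▸ hx
  exact (Submodule.span_le_restrictScalars ℤ ℂ (s : Set V)) hx'

theorem aeval_apply_of_stable (L : Submodule ℤ V) (t : Module.End ℂ V)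
    (ht : ∀ x ∈ L, t x ∈ L) (P : Polynomial ℤ) (x : L) :
    (Polynomial.aeval t P) (x : V) =
      ((Polynomial.aeval ((t.restrictScalars ℤ).restrict ht) P) x : V) := by
  have hpow : ∀ (n : ℕ) (y : L), (t ^ n) (y : V) =
      ((((t.restrictScalars ℤ).restrict ht) ^ n) y : V) := by
    intro n
    induction n with
    | zero => intro y; simp
    | succ n ih =>
      intro y
      rw [pow_succ, pow_succ, Module.End.mul_apply, Module.End.mul_apply]
      exact ih ⟨t y, ht y y.2⟩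
  induction P using Polynomial.induction_on' with
  | add p q hp hq =>
    rw [map_add, map_add, LinearMap.add_apply, LinearMap.add_apply, hp, hq]
    rfl
  | monomial n a =>
    rw [Polynomial.aeval_monomial, Polynomial.aeval_monomial]
    rw [Module.End.mul_apply, Module.End.mul_apply, hpow n x]
    simp

theorem isIntegral_end_of_lattice (L : Submodule ℤ V) (hfg : L.FG)
    (hspan : Submodule.span ℂ (L : Set V) = ⊤) (t : Module.End ℂ V)
    (ht : ∀ x ∈ L, t x ∈ L) : IsIntegral ℤ t := by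
  have hfin : Module.Finite ℤ L := Module.Finite.iff_fg.2 hfg
  obtain ⟨P, hPm, hP⟩ :=
    LinearMap.exists_monic_and_aeval_eq_zero ℤ ((t.restrictScalars ℤ).restrict ht)
  refine ⟨P, hPm, ?_⟩
  rw [← Polynomial.aeval_def]
  have hzero : ∀ x ∈ L, (Polynomial.aeval t P) x = 0 := by
    intro x hx
    rw [aeval_apply_of_stable L t ht P ⟨x, hx⟩, hP]
    rfl
  apply LinearMap.ext
  intro v
  have hv : v ∈ Submodule.span ℂ (L : Set V) := hspan ▸ Submodule.mem_top
  refine Submodule.span_induction (p := fun v _ => (Polynomial.aeval t P) v = 0)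
    ?_ ?_ ?_ ?_ hv
  · intro x hx; exact hzero x hx
  · simp
  · intro x y _ _ hx hy; rw [map_add, hx, hy, add_zero]
  · intro a x _ hx; rw [map_smul, hx, smul_zero]

end Lattice

section Maximal

variable {R : Type*} [CommRing R]

theorem isMaximal_of_forall_exists_int (𝔪 : Ideal R) {p : ℕ} (hp : p.Prime)
    (hp𝔪 : (p : R) ∈ 𝔪) (h1 : (1 : R) ∉ 𝔪) (h : ∀ r : R, ∃ n : ℤ, r - (n : R) ∈ 𝔪) :
    𝔪.IsMaximal := by
  rw [Ideal.isMaximal_iff]
  refine ⟨h1, fun J x hle hx hxJ => ?_⟩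
  obtain ⟨n, hn⟩ := h x
  have hpn : ¬ (p : ℤ) ∣ n := by
    rintro ⟨k, rfl⟩
    apply hx
    have h2 : (((p : ℤ) * k : ℤ) : R) ∈ 𝔪 := by
      push_cast
      exact 𝔪.mul_mem_right _ hp𝔪
    have h3 := 𝔪.add_mem hn h2
    simpa using h3
  have hcop : IsCoprime (p : ℤ) n :=
    (Nat.prime_iff_prime_int.1 hp).coprime_iff_not_dvd.2 hpn
  obtain ⟨a, b, hab⟩ := hcop
  have hnJ : (n : R) ∈ J := by
    have h4 : x - (x - (n : R)) ∈ J := J.sub_mem hxJ (hle hn)
    simpa using h4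
  have h5 : ((a * p + b * n : ℤ) : R) ∈ J := by
    push_cast
    exact J.add_mem (J.mul_mem_left _ (hle hp𝔪)) (J.mul_mem_left _ hnJ)
  rw [hab] at h5
  simpa using h5

end Maximal

end Fermat.Agent.Lib.H6
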