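import Mathlib

set_option autoImplicit false

namespace Fermat.Agent.Lib.H7

/-- A `ℤ`-algebra of `ℂ`-endomorphisms generated by operators whose transposes preserve a
finitely generated, point-separating `ℤ`-lattice of functionals is a finite `ℤ`-module. -/
theorem finite_adjoin_of_stable_lattice {V : Type*} [AddCommGroup V] [Module ℂ V]
    (gens : Set (Module.End ℂ V)) (Lam : Submodule ℤ (Module.Dual ℂ V)) (hfg : Lam.FG)
    (hstab : ∀ T ∈ gens, ∀ l ∈ Lam, l ∘ₗ T ∈ Lam)
    (hsep : ∀ v : V, (∀ l ∈ Lam, l v = 0) → v = 0) :
    Module.Finite ℤ (Algebra.adjoin ℤ gens) := by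
  classical
  -- stability for the whole algebra
  have hstab' : ∀ T ∈ Algebra.adjoin ℤ gens, ∀ l ∈ Lam, l ∘ₗ T ∈ Lam := by
    intro T hT
    induction hT using Algebra.adjoin_induction with
    | mem x hx => exact hstab x hx
    | algebraMap r =>
      intro l hl
      have : l ∘ₗ (algebraMap ℤ (Module.End ℂ V) r) = r • l := by
        ext v
        simp
      rw [this]
      exact Lam.smul_mem r hl
    | add x y _ _ hx hy =>
      intro l hl
      rw [LinearMap.comp_add]
      exact Lam.add_mem (hx l hl) (hy l hl)
    | mul x y _ _ hx hy =>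
      intro l hl
      have : l ∘ₗ (x * y) = (l ∘ₗ x) ∘ₗ y := rfl
      rw [this]
      exact hy _ (hx l hl)
  have : Module.Finite ℤ Lam := Module.Finite.iff_fg.mpr hfg
  have : IsAddTorsionFree (Module.Dual ℂ V) := .of_isTorsionFree ℂ _
  have : Module.Free ℤ Lam := Module.free_of_finite_type_torsion_free'
  let Φ : (Algebra.adjoin ℤ gens) →ₗ[ℤ] (Lam →ₗ[ℤ] Lam) :=
    { toFun := fun T =>
        { toFun := fun l => ⟨(l : Module.Dual ℂ V) ∘ₗ (T : Module.End ℂ V), hstab' T T.2 l l.2⟩
          map_add' := fun l l' => by
            apply Subtype.ext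
            simp [LinearMap.add_comp]
          map_smul' := fun n l => by
            apply Subtype.ext
            simp [LinearMap.smul_comp] }
      map_add' := fun T T' => by
        apply LinearMap.ext
        intro l
        apply Subtype.ext
        simp [LinearMap.comp_add]
      map_smul' := fun n T => by
        apply LinearMap.ext
        intro l
        apply Subtype.ext
        apply LinearMap.ext
        intro v
        simp [Module.End.mul_apply] }
  have hinj : Function.Injective Φ := by
    rw [← LinearMap.ker_eq_bot, LinearMap.ker_eq_bot']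
    intro T hT
    apply Subtype.ext
    apply LinearMap.ext
    intro v
    apply hsep
    intro l hl
    have h1 : (Φ T) ⟨l, hl⟩ = 0 := by rw [hT]; rfl
    have h2 := congrArg (fun x : Lam => (x : Module.Dual ℂ V) v) h1
    simpa [Φ] using h2
  exact Module.Finite.of_injective Φ hinj

end Fermat.Agent.Lib.H7
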