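import Fermat.Agent.Lib.H3_Cusp
import Fermat.Agent.Lib.H3_Bdd
import Fermat.Prelude.Thm_ModularForm_sturm_bound_Gamma0

set_option autoImplicit false

namespace Fermat.Agent.Lib.H7

open Complex Filter Topology Function Polynomial UpperHalfPlane
open scoped MatrixGroups ModularForm Manifold
open Fermat.Agent.Lib.H3

/-- A polynomial vanishing at all integers is zero. -/
theorem poly_eq_zero_of_int {q : ℂ[X]} (hq : ∀ m : ℤ, q.eval (m : ℂ) = 0) : q = 0 :=
  Polynomial.eq_zero_of_infinite_isRoot q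
    (Set.infinite_of_injective_forall_mem (f := fun m : ℤ => (m : ℂ)) Int.cast_injective
      (fun m => hq m))

/-- A function of two complex variables, separately polynomial, vanishing on `ℤ × ℤ`, is zero. -/
theorem eq_zero_of_forall_int {F : ℂ → ℂ → ℂ}
    (h1 : ∀ t : ℂ, ∃ q : ℂ[X], ∀ s : ℂ, F s t = q.eval s)
    (h2 : ∀ s : ℂ, ∃ q : ℂ[X], ∀ t : ℂ, F s t = q.eval t)
    (h0 : ∀ m n : ℤ, F m n = 0) : ∀ s t : ℂ, F s t = 0 := by
  have step1 : ∀ (s : ℂ) (n : ℤ), F s n = 0 := by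
    intro s n
    obtain ⟨q, hq⟩ := h1 n
    have : q = 0 := poly_eq_zero_of_int fun m => by rw [← hq]; exact h0 m n
    rw [hq, this, eval_zero]
  intro s t
  obtain ⟨q, hq⟩ := h2 s
  have : q = 0 := poly_eq_zero_of_int fun n => by rw [← hq]; exact step1 s n
  rw [hq, this, eval_zero]

/-- Binomial expansion of the integration-by-parts primitive against `(u₀ X + u₁) ^ w`. -/
theorem ibp_pv_expand (g : ℂ → ℂ) (n w : ℕ) (u : Fin 2 → ℂ) (z : ℂ) :
    ibp g n (pv w u) z =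
      ∑ j ∈ Finset.range (w + 1),
        (w.choose j : ℂ) * u 0 ^ j * u 1 ^ (w - j) * ibp g n (X ^ j) z := by
  have h : pv w u = ∑ j ∈ Finset.range (w + 1),
      ((w.choose j : ℂ) * u 0 ^ j * u 1 ^ (w - j)) • (X ^ j : ℂ[X]) := by
    rw [pv, add_pow]
    refine Finset.sum_congr rfl fun j _ => ?_
    rw [smul_eq_C_mul, mul_pow, ← C_pow, ← C_pow]
    simp only [C_mul, map_natCast]
    ring
  rw [h, ibp_sum]
  refine Finset.sum_congr rfl fun j _ => ?_
  rw [ibp_smul]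

/-- Sums of the binomial shape with affine arguments are polynomial functions. -/
theorem exists_poly_binom (w : ℕ) (a b a' b' : ℂ) (β : ℕ → ℂ) :
    ∃ q : ℂ[X], ∀ s : ℂ,
      ∑ j ∈ Finset.range (w + 1),
        (w.choose j : ℂ) * (a * s + b) ^ j * (a' * s + b') ^ (w - j) * β j = q.eval s := by
  refine ⟨∑ j ∈ Finset.range (w + 1),
    C (w.choose j : ℂ) * (C a * X + C b) ^ j * (C a' * X + C b') ^ (w - j) * C (β j), fun s => ?_⟩
  simp [eval_finset_sum]

theorem per_expand (g : ℂ → ℂ) (w : ℕ) (M : GL (Fin 2) ℝ) (v : Fin 2 → ℂ) :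
    per g w M v =
      ∑ j ∈ Finset.range (w + 1),
        (w.choose j : ℂ) * (v 0 * M 1 1 - v 1 * M 1 0) ^ j *
          (-(v 0 * M 0 1) + v 1 * M 0 0) ^ (w - j) * ibp g (w + 1) (X ^ j) (mob M Complex.I) -
      ∑ j ∈ Finset.range (w + 1),
        (w.choose j : ℂ) * v 0 ^ j * v 1 ^ (w - j) * ibp g (w + 1) (X ^ j) Complex.I := by
  rw [per, EIc, EIc, ibp_pv_expand, ibp_pv_expand]
  rfl

/-- If the periods vanish on integral vectors, they vanish on all vectors. -/
theorem per_eq_zero_of_int (g : ℂ → ℂ) (w : ℕ) (M : GL (Fin 2) ℝ)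
    (h : ∀ n : Fin 2 → ℤ, per g w M (fun i => (n i : ℂ)) = 0) (v : Fin 2 → ℂ) :
    per g w M v = 0 := by
  have key := eq_zero_of_forall_int (F := fun s t => per g w M ![s, t]) ?_ ?_ ?_ (v 0) (v 1)
  · have hv : v = ![v 0, v 1] := by
      funext i; fin_cases i <;> rfl
    rw [hv]
    exact key
  · intro t
    obtain ⟨q1, hq1⟩ := exists_poly_binom w (M 1 1 : ℂ) (-(t * M 1 0)) (-(M 0 1 : ℂ)) (t * M 0 0)
      (fun j => ibp g (w + 1) (X ^ j) (mob M Complex.I))
    obtain ⟨q2, hq2⟩ := exists_poly_binom w 1 0 0 t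
      (fun j => ibp g (w + 1) (X ^ j) Complex.I)
    refine ⟨q1 - q2, fun s => ?_⟩
    rw [eval_sub, ← hq1, ← hq2, per_expand]
    congr 1
    · refine Finset.sum_congr rfl fun j _ => ?_
      simp only [Matrix.cons_val_zero, Matrix.cons_val_one]
      ring
    · refine Finset.sum_congr rfl fun j _ => ?_
      simp only [Matrix.cons_val_zero, Matrix.cons_val_one]
      ring
  · intro s
    obtain ⟨q1, hq1⟩ := exists_poly_binom w (-(M 1 0 : ℂ)) (s * M 1 1) (M 0 0 : ℂ) (-(s * M 0 1))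
      (fun j => ibp g (w + 1) (X ^ j) (mob M Complex.I))
    obtain ⟨q2, hq2⟩ := exists_poly_binom w 0 s 1 0
      (fun j => ibp g (w + 1) (X ^ j) Complex.I)
    refine ⟨q1 - q2, fun t => ?_⟩
    rw [eval_sub, ← hq1, ← hq2, per_expand]
    congr 1
    · refine Finset.sum_congr rfl fun j _ => ?_
      simp only [Matrix.cons_val_zero, Matrix.cons_val_one]
      ring
    · refine Finset.sum_congr rfl fun j _ => ?_
      simp only [Matrix.cons_val_zero, Matrix.cons_val_one]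
      ring
  · intro m n
    have := h ![m, n]
    have e : (fun i => ((![m, n] : Fin 2 → ℤ) i : ℂ)) = ![(m : ℂ), (n : ℂ)] := by
      funext i; fin_cases i <;> rfl
    rw [e] at this
    exact this

/-- Invariance of the iterated primitive under `M` when all periods along `M` vanish. -/
theorem chain_inv {g : ℂ → ℂ} (hg : Cls g) {w : ℕ} {M : GL (Fin 2) ℝ} (hM : Inv g w M)
    (h : ∀ v : Fin 2 → ℂ, per g w M v = 0) {z : ℂ} (hz : z ∈ UH) :
    denom M z ^ w * chain g (w + 1) (mob M z) = chain g (w + 1) z := by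
  have hden : denom M z ≠ 0 := denom_ne_zero_of_im M (ne_of_gt hz)
  have hspec := per_spec hg hM ![1, -z] hz
  rw [h] at hspec
  have e1 : pv w ![1, -z] = (X - C z) ^ w := by
    simp [pv, sub_eq_add_neg]
  have e2 : pv w (vadj M ![1, -z]) = (denom M z ^ w) • (X - C (mob M z)) ^ w := by
    have h0 : vadj M ![1, -z] 0 = denom M z := by
      simp [vadj, denom]; ring
    have h1 : vadj M ![1, -z] 1 = -num M z := by
      simp [vadj, num]; ring
    rw [pv, h0, h1, smul_eq_C_mul, C_pow, ← mul_pow]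
    congr 1
    rw [mob, mul_sub, ← C_mul, mul_div_cancel₀ _ hden]
    simp [sub_eq_add_neg]
  rw [EIc, EIc, e1, e2, ibp_smul, ibp_diag, ibp_diag] at hspec
  have hne : ((-1 : ℂ) ^ w * (w.factorial : ℂ)) ≠ 0 :=
    mul_ne_zero (pow_ne_zero _ (by norm_num)) (by exact_mod_cast w.factorial_ne_zero)
  have : (-1 : ℂ) ^ w * (w.factorial : ℂ) *
      (denom M z ^ w * chain g (w + 1) (mob M z) - chain g (w + 1) z) = 0 := by
    rw [← hspec]; ring
  rcases mul_eq_zero.mp this with h' | h'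
  · exact absurd h' hne
  · exact sub_eq_zero.mp h'

variable {N : ℕ} [NeZero N] {w : ℕ}

/-- The iterated primitive of a cusp form, as a function on `ℍ`. -/
noncomputable def EF (f : CuspForm (CongruenceSubgroup.Gamma0 N) ((w : ℤ) + 2)) : ℍ → ℂ :=
  fun τ => chain (fC f) (w + 1) (τ : ℂ)

theorem EF_mdiff (f : CuspForm (CongruenceSubgroup.Gamma0 N) ((w : ℤ) + 2)) : MDiff (EF f) := by
  rw [UpperHalfPlane.mdifferentiable_iff]
  refine ((chain_cls (fC_cls f) (w + 1)).diff).congr ?_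
  intro z hz
  have hz' : 0 < z.im := hz
  simp [EF, ofComplex_apply_of_im_pos hz']

theorem EF_zero (f : CuspForm (CongruenceSubgroup.Gamma0 N) ((w : ℤ) + 2)) :
    IsZeroAtImInfty (EF f) :=
  ((chain_cls (fC_cls f) (w + 1)).zero).comp tendsto_coe_atImInfty

theorem slash_mapGL_apply (F : ℍ → ℂ) (k : ℤ) (γ : SL(2, ℤ)) (τ : ℍ) :
    (F ∣[k] (Matrix.SpecialLinearGroup.mapGL ℝ γ : GL (Fin 2) ℝ)) τ =
      F ((Matrix.SpecialLinearGroup.mapGL ℝ γ : GL (Fin 2) ℝ) • τ) *
        denom (Matrix.SpecialLinearGroup.mapGL ℝ γ : GL (Fin 2) ℝ) τ ^ (-k) := by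
  have hdet := det_mapGL γ
  rw [ModularForm.slash_apply, hdet]
  have hσ : σ (Matrix.SpecialLinearGroup.mapGL ℝ γ : GL (Fin 2) ℝ) = .refl ℝ ℂ := by
    rw [σ, if_pos (by rw [hdet]; exact one_pos)]
  rw [hσ]
  simp

theorem EF_slash (f : CuspForm (CongruenceSubgroup.Gamma0 N) ((w : ℤ) + 2))
    (hper : ∀ γ ∈ CongruenceSubgroup.Gamma0 N, ∀ v : Fin 2 → ℂ,
      per (fC f) w (Matrix.SpecialLinearGroup.mapGL ℝ γ) v = 0)
    (γ : SL(2, ℤ)) (hγ : γ ∈ CongruenceSubgroup.Gamma0 N) :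
    EF f ∣[-(w : ℤ)] (Matrix.SpecialLinearGroup.mapGL ℝ γ : GL (Fin 2) ℝ) = EF f := by
  funext τ
  rw [slash_mapGL_apply, neg_neg, zpow_natCast]
  have h := chain_inv (fC_cls f) (fC_inv f hγ) (hper γ hγ) (z := (τ : ℂ)) τ.im_pos
  rw [← coe_smul_eq_mob (det_mapGL_pos γ) τ] at h
  simp only [EF]
  rw [mul_comm]
  exact h

open ConjAct Pointwise in
theorem EF_bdd (f : CuspForm (CongruenceSubgroup.Gamma0 N) ((w : ℤ) + 2))
    (hper : ∀ γ ∈ CongruenceSubgroup.Gamma0 N, ∀ v : Fin 2 → ℂ,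
      per (fC f) w (Matrix.SpecialLinearGroup.mapGL ℝ γ) v = 0)
    (δ : SL(2, ℤ)) :
    IsBoundedAtImInfty (EF f ∣[-(w : ℤ)] (Matrix.SpecialLinearGroup.mapGL ℝ δ : GL (Fin 2) ℝ)) := by
  set g : GL (Fin 2) ℝ := Matrix.SpecialLinearGroup.mapGL ℝ δ with hg
  have hψm : MDiff (EF f ∣[-(w : ℤ)] g) := (EF_mdiff f).slash _ g
  obtain ⟨C, M, hCM⟩ := (chain_cls (fC_cls f) (w + 1)).bound
  have hN : (0 : ℝ) < (N : ℝ) := by exact_mod_cast Nat.pos_of_ne_zero (NeZero.ne N)
  set K : ℝ := |g 1 0| * ((N : ℝ) + 1) + |g 1 1| with hK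
  have hK0 : 0 ≤ K := by positivity
  refine isBoundedAtImInfty_of_periodic_of_polyGrowth (h := (N : ℝ)) hN
    (UpperHalfPlane.mdifferentiable_iff.mp hψm) ?_
    (C := |C| * (1 + K ^ 2) ^ M * K ^ w) (m := 2 * M + w) ?_
  · -- periodicity
    let E0 : SlashInvariantForm (CongruenceSubgroup.Gamma0 N) (-(w : ℤ)) :=
      { toFun := EF f
        slash_action_eq' := by
          intro γ' hγ'
          obtain ⟨γ, hγ, rfl⟩ := Subgroup.mem_map.mp hγ'
          exact EF_slash f hper γ hγ }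
    have hmem : (N : ℝ) ∈ (toConjAct g⁻¹ •
        (CongruenceSubgroup.Gamma0 N : Subgroup (GL (Fin 2) ℝ))).strictPeriods := by
      rw [Subgroup.mem_strictPeriods_iff, map_inv, Subgroup.mem_inv_pointwise_smul_iff,
        toConjAct_smul]
      have hN' : (N : ℝ) ∈ (CongruenceSubgroup.Gamma N : Subgroup (GL (Fin 2) ℝ)).strictPeriods := by
        rw [CongruenceSubgroup.strictPeriods_Gamma]
        exact AddSubgroup.mem_zmultiples _
      obtain ⟨t, ht, htU⟩ := Subgroup.mem_map.mp (Subgroup.mem_strictPeriods_iff.mp hN')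
      refine Subgroup.mem_map.mpr ⟨δ * t * δ⁻¹, ?_, by rw [map_mul, map_mul, map_inv, htU]⟩
      have h1 : δ * t * δ⁻¹ ∈ CongruenceSubgroup.Gamma N :=
        (CongruenceSubgroup.Gamma_normal N).conj_mem t ht δ
      rw [CongruenceSubgroup.Gamma_mem] at h1
      rw [CongruenceSubgroup.Gamma0_mem]
      exact h1.2.2.1
    exact SlashInvariantFormClass.periodic_comp_ofComplex
      (SlashInvariantForm.translate E0 g) hmem
  · -- polynomial growth
    intro τ hτ1 hτre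
    rw [hg, slash_mapGL_apply, neg_neg, zpow_natCast, ← hg, norm_mul, norm_pow]
    have hy0 : 0 < τ.im := τ.im_pos
    -- bound for the automorphy factor
    have hden : ‖denom g τ‖ ≤ K * τ.im := by
      have h1 : ‖denom g τ‖ ≤ |g 1 0| * ‖(τ : ℂ)‖ + |g 1 1| := by
        unfold denom
        refine (norm_add_le _ _).trans ?_
        rw [norm_mul, Complex.norm_real, Complex.norm_real, Real.norm_eq_abs, Real.norm_eq_abs]
      have h2 : ‖(τ : ℂ)‖ ≤ ((N : ℝ) + 1) * τ.im := by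
        have := Complex.norm_le_abs_re_add_abs_im (τ : ℂ)
        have h3 : |(τ : ℂ).im| = τ.im := abs_of_pos hy0
        have h4 : |(τ : ℂ).re| ≤ (N : ℝ) := hτre
        nlinarith
      have h5 : |g 1 1| ≤ |g 1 1| * τ.im := le_mul_of_one_le_right (abs_nonneg _) hτ1
      have h6 : |g 1 0| * ‖(τ : ℂ)‖ ≤ |g 1 0| * (((N : ℝ) + 1) * τ.im) :=
        mul_le_mul_of_nonneg_left h2 (abs_nonneg _)
      rw [hK]
      nlinarith
    -- bound for the function
    have him : ((g • τ : ℍ) : ℂ).im = τ.im / Complex.normSq (denom g τ) := by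
      rw [UpperHalfPlane.coe_im, UpperHalfPlane.im_smul_eq_div_normSq, hg, det_mapGL]
      simp
    have hdne : denom g τ ≠ 0 := denom_ne_zero g τ
    have hnsq : 0 < Complex.normSq (denom g τ) := Complex.normSq_pos.mpr hdne
    have hinv : (((g • τ : ℍ) : ℂ).im)⁻¹ ≤ (K * τ.im) ^ 2 := by
      rw [him, inv_div, Complex.normSq_eq_norm_sq]
      calc ‖denom g τ‖ ^ 2 / τ.im ≤ ‖denom g τ‖ ^ 2 / 1 :=
            div_le_div_of_nonneg_left (by positivity) one_pos hτ1
        _ = ‖denom g τ‖ ^ 2 := div_one _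
        _ ≤ (K * τ.im) ^ 2 := pow_le_pow_left₀ (norm_nonneg _) hden 2
    have hE : ‖EF f (g • τ)‖ ≤ |C| * ((1 + K ^ 2) * τ.im ^ 2) ^ M := by
      have h1 := hCM ((g • τ : ℍ) : ℂ) (g • τ).im_pos
      have hpos : 0 < (((g • τ : ℍ) : ℂ).im)⁻¹ := inv_pos.mpr (g • τ).im_pos
      have h2 : 1 + (((g • τ : ℍ) : ℂ).im)⁻¹ ≤ (1 + K ^ 2) * τ.im ^ 2 := by
        have : (1 : ℝ) ≤ τ.im ^ 2 := one_le_pow₀ hτ1
        nlinarith [sq_nonneg K]
      calc ‖EF f (g • τ)‖ ≤ C * (1 + (((g • τ : ℍ) : ℂ).im)⁻¹) ^ M := h1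
        _ ≤ |C| * (1 + (((g • τ : ℍ) : ℂ).im)⁻¹) ^ M :=
            mul_le_mul_of_nonneg_right (le_abs_self C) (by positivity)
        _ ≤ |C| * ((1 + K ^ 2) * τ.im ^ 2) ^ M :=
            mul_le_mul_of_nonneg_left (pow_le_pow_left₀ (by positivity) h2 M) (abs_nonneg C)
    calc ‖EF f (g • τ)‖ * ‖denom g τ‖ ^ w
        ≤ (|C| * ((1 + K ^ 2) * τ.im ^ 2) ^ M) * (K * τ.im) ^ w :=
          mul_le_mul hE (pow_le_pow_left₀ (norm_nonneg _) hden w) (by positivity) (by positivity)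
      _ = |C| * (1 + K ^ 2) ^ M * K ^ w * τ.im ^ (2 * M + w) := by
          rw [mul_pow, mul_pow, ← pow_mul, pow_add]
          ring

theorem EF_eq_zero (f : CuspForm (CongruenceSubgroup.Gamma0 N) ((w : ℤ) + 2))
    (hper : ∀ γ ∈ CongruenceSubgroup.Gamma0 N, ∀ v : Fin 2 → ℂ,
      per (fC f) w (Matrix.SpecialLinearGroup.mapGL ℝ γ) v = 0) (τ : ℍ) : EF f τ = 0 := by
  let EE : ModularForm (CongruenceSubgroup.Gamma0 N) (-(w : ℤ)) :=
    { toFun := EF f
      slash_action_eq' := by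
        intro γ' hγ'
        obtain ⟨γ, hγ, rfl⟩ := Subgroup.mem_map.mp hγ'
        exact EF_slash f hper γ hγ
      holo' := EF_mdiff f
      bdd_at_cusps' := by
        intro c hc
        rw [Subgroup.IsArithmetic.isCusp_iff_isCusp_SL2Z] at hc
        rw [OnePoint.isBoundedAt_iff_forall_SL2Z hc]
        intro δ _
        exact EF_bdd f hper δ }
  have hEE : EE = 0 := by
    apply ModularForm.sturm_bound_Gamma0 N EE
    intro n hn
    have hn0 : n = 0 := by
      have h1 : (-(w : ℤ) * ((CongruenceSubgroup.Gamma0 N).index : ℤ)).toNat = 0 := by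
        apply Int.toNat_of_nonpos
        have : (0 : ℤ) ≤ (w : ℤ) * ((CongruenceSubgroup.Gamma0 N).index : ℤ) := by positivity
        linarith
      rw [h1] at hn
      simpa using hn
    subst hn0
    have hz : cuspFunction 1 (EF f) 0 = 0 := (EF_zero f).cuspFunction_apply_zero one_pos
    rw [qExpansion_coeff]
    simp only [Nat.factorial_zero, Nat.cast_one, inv_one, iteratedDeriv_zero, one_mul]
    exact hz
  have := congrArg (fun F : ModularForm (CongruenceSubgroup.Gamma0 N) (-(w : ℤ)) => F τ) hEE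
  exact this

/-- **Separation**: a cusp form all of whose integral periods vanish is zero. -/
theorem period_separating {N : ℕ} [NeZero N] {w : ℕ}
    (f : CuspForm (CongruenceSubgroup.Gamma0 N) ((w : ℤ) + 2))
    (h : ∀ γ ∈ CongruenceSubgroup.Gamma0 N, ∀ n : Fin 2 → ℤ,
      Fermat.Agent.Lib.H3.perL N w γ (fun i => (n i : ℂ)) f = 0) : f = 0 := by
  have hper : ∀ γ ∈ CongruenceSubgroup.Gamma0 N, ∀ v : Fin 2 → ℂ,
      per (fC f) w (Matrix.SpecialLinearGroup.mapGL ℝ γ) v = 0 := by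
    intro γ hγ v
    refine per_eq_zero_of_int _ _ _ (fun n => ?_) v
    rw [← perL_apply]
    exact h γ hγ n
  have h0 : ∀ z ∈ UH, chain (fC f) (w + 1) z = 0 := fun z hz => EF_eq_zero f hper ⟨z, hz⟩
  have h1 := chain_eq_zero (fC_cls f) (w + 1) h0
  ext τ
  have := h1 (τ : ℂ) τ.im_pos
  rw [fC_coe] at this
  simpa using this

end Fermat.Agent.Lib.H7
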