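import Mathlib
import Fermat.Prelude.Def_ModularCurve_X0ModL

set_option autoImplicit false

/-!
# S28 (Igusa): shared definitions

* `igTw ζ hζ`   : the substitution `q ↦ ζ q` on `LaurentSeries K` (`K` a field), a ring hom
* `igTheta`     : the derivation `q d/dq` on `LaurentSeries R`
* `igD R`       : the discriminant series `q ∏ (1 - q^n)^24`, and its inverse `igDinv R`
* `igEv x`      : evaluation `ℤ[Y] →+* LaurentSeries R`, `Y ↦ x`
-/

noncomputable section

namespace Fermat.Agent.IG

open HahnSeries ModularCurve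

section Twist

variable {K : Type*} [Field K]

/-- The substitution `q ↦ ζ q`: the coefficient of `q ^ n` is multiplied by `ζ ^ n`. -/
def igTwL (ζ : K) (s : LaurentSeries K) : LaurentSeries K :=
  ⟨fun n => ζ ^ n * s.coeff n, s.isPWO_support.mono (fun n hn => by
    simp only [Function.mem_support, ne_eq] at hn ⊢
    exact fun h => hn (by rw [h, mul_zero]))⟩

@[simp]
theorem igTwL_coeff (ζ : K) (s : LaurentSeries K) (n : ℤ) :
    (igTwL ζ s).coeff n = ζ ^ n * s.coeff n := rfl

theorem igTwL_support {ζ : K} (hζ : ζ ≠ 0) (s : LaurentSeries K) :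
    (igTwL ζ s).support = s.support := by
  ext n
  simp only [HahnSeries.mem_support, igTwL_coeff, ne_eq, mul_eq_zero, not_or]
  exact ⟨fun h => h.2, fun h => ⟨zpow_ne_zero n hζ, h⟩⟩

theorem igTwL_zero (ζ : K) : igTwL ζ 0 = 0 := by
  ext n
  simp

theorem igTwL_add (ζ : K) (s t : LaurentSeries K) :
    igTwL ζ (s + t) = igTwL ζ s + igTwL ζ t := by
  ext n
  simp [mul_add]

theorem igTwL_one (ζ : K) : igTwL ζ 1 = 1 := by
  ext n
  rw [igTwL_coeff, HahnSeries.coeff_one]
  split_ifs with h
  · subst h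
    simp
  · simp

theorem igTwL_mul {ζ : K} (hζ : ζ ≠ 0) (s t : LaurentSeries K) :
    igTwL ζ (s * t) = igTwL ζ s * igTwL ζ t := by
  ext n
  rw [igTwL_coeff, HahnSeries.coeff_mul, HahnSeries.coeff_mul, Finset.mul_sum]
  have hfin : Finset.antidiagonal (igTwL ζ s).isPWO_support (igTwL ζ t).isPWO_support n =
      Finset.antidiagonal s.isPWO_support t.isPWO_support n := by
    ext ij
    simp only [Finset.mem_antidiagonal, igTwL_support hζ]
  rw [hfin]
  refine Finset.sum_congr rfl (fun ij hij => ?_)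
  have hsum : ij.1 + ij.2 = n := (Finset.mem_antidiagonal.mp hij).2.2
  rw [igTwL_coeff, igTwL_coeff, ← hsum, zpow_add₀ hζ]
  ring

/-- The substitution `q ↦ ζ q` as a ring homomorphism (`ζ ≠ 0`). -/
def igTw (ζ : K) (hζ : ζ ≠ 0) : LaurentSeries K →+* LaurentSeries K where
  toFun := igTwL ζ
  map_one' := igTwL_one ζ
  map_mul' := igTwL_mul hζ
  map_zero' := igTwL_zero ζ
  map_add' := igTwL_add ζ

@[simp]
theorem igTw_coeff (ζ : K) (hζ : ζ ≠ 0) (s : LaurentSeries K) (n : ℤ) :
    (igTw ζ hζ s).coeff n = ζ ^ n * s.coeff n := rfl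

theorem igTw_C (ζ : K) (hζ : ζ ≠ 0) (c : K) :
    igTw ζ hζ (HahnSeries.C c) = HahnSeries.C c := by
  ext n
  rw [igTw_coeff, HahnSeries.C_apply, HahnSeries.coeff_single]
  split_ifs with h
  · subst h
    simp
  · simp

theorem igTw_one_apply (s : LaurentSeries K) : igTw (1 : K) one_ne_zero s = s := by
  ext n
  simp

theorem igTw_igTw (ζ ξ : K) (hζ : ζ ≠ 0) (hξ : ξ ≠ 0) (s : LaurentSeries K) :
    igTw ζ hζ (igTw ξ hξ s) = igTw (ζ * ξ) (mul_ne_zero hζ hξ) s := by
  ext n
  rw [igTw_coeff, igTw_coeff, igTw_coeff, mul_zpow, mul_assoc]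

theorem igTw_injective (ζ : K) (hζ : ζ ≠ 0) : Function.Injective (igTw ζ hζ) :=
  (igTw ζ hζ).injective

/-- `q ↦ ζ q` after `q ↦ q^p` is `q ↦ q^p` after `q ↦ ζ^p q`. -/
theorem igTw_qExpand (p : ℕ) [NeZero p] (ζ : K) (hζ : ζ ≠ 0) (s : LaurentSeries K) :
    igTw ζ hζ (qExpand K p s) = qExpand K p (igTw (ζ ^ p) (pow_ne_zero p hζ) s) := by
  ext n
  rw [igTw_coeff]
  by_cases hn : (p : ℤ) ∣ n
  · obtain ⟨k, rfl⟩ := hn
    rw [qExpand_coeff_mul, qExpand_coeff_mul, igTw_coeff, zpow_mul, zpow_natCast]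
  · rw [qExpand_coeff_of_not_dvd p _ hn, qExpand_coeff_of_not_dvd p _ hn, mul_zero]

/-- a `p`-th root of unity twist fixes the image of `q ↦ q^p`. -/
theorem igTw_qExpand_of_pow_eq_one (p : ℕ) [NeZero p] (ζ : K) (hζ : ζ ≠ 0) (hp : ζ ^ p = 1)
    (s : LaurentSeries K) : igTw ζ hζ (qExpand K p s) = qExpand K p s := by
  rw [igTw_qExpand]
  congr 1
  ext n
  simp [hp]

end Twist

section Theta

variable {R : Type*} [CommRing R]

/-- The derivation `q d/dq`: the coefficient of `q ^ n` is multiplied by `n`. -/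
def igTheta (s : LaurentSeries R) : LaurentSeries R :=
  ⟨fun n => (n : R) * s.coeff n, s.isPWO_support.mono (fun n hn => by
    simp only [Function.mem_support, ne_eq] at hn ⊢
    exact fun h => hn (by rw [h, mul_zero]))⟩

@[simp]
theorem igTheta_coeff (s : LaurentSeries R) (n : ℤ) :
    (igTheta s).coeff n = (n : R) * s.coeff n := rfl

theorem igTheta_support_subset (s : LaurentSeries R) : (igTheta s).support ⊆ s.support := by
  intro n hn
  simp only [HahnSeries.mem_support, igTheta_coeff, ne_eq] at hn ⊢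
  exact fun h => hn (by rw [h, mul_zero])

@[simp]
theorem igTheta_zero : igTheta (0 : LaurentSeries R) = 0 := by
  ext n
  simp

theorem igTheta_add (s t : LaurentSeries R) : igTheta (s + t) = igTheta s + igTheta t := by
  ext n
  simp [mul_add]

theorem igTheta_neg (s : LaurentSeries R) : igTheta (-s) = -igTheta s := by
  ext n
  simp

theorem igTheta_sub (s t : LaurentSeries R) : igTheta (s - t) = igTheta s - igTheta t := by
  ext n
  simp [mul_sub]

/-- the Leibniz rule -/
theorem igTheta_mul (s t : LaurentSeries R) :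
    igTheta (s * t) = igTheta s * t + s * igTheta t := by
  ext n
  rw [igTheta_coeff, HahnSeries.coeff_add, HahnSeries.coeff_mul,
    HahnSeries.coeff_mul_left' s.isPWO_support (igTheta_support_subset s),
    HahnSeries.coeff_mul_right' t.isPWO_support (igTheta_support_subset t),
    Finset.mul_sum, ← Finset.sum_add_distrib]
  refine Finset.sum_congr rfl (fun ij hij => ?_)
  have hsum : ij.1 + ij.2 = n := (Finset.mem_antidiagonal.mp hij).2.2
  rw [igTheta_coeff, igTheta_coeff, ← hsum]
  push_cast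
  ring

theorem igTheta_C (c : R) : igTheta (HahnSeries.C c) = 0 := by
  ext n
  rw [igTheta_coeff, HahnSeries.C_apply, HahnSeries.coeff_single]
  split_ifs with h
  · subst h
    simp
  · simp

@[simp]
theorem igTheta_one : igTheta (1 : LaurentSeries R) = 0 := by
  have h := igTheta_C (1 : R)
  rwa [map_one] at h

theorem igTheta_pow (s : LaurentSeries R) (n : ℕ) :
    igTheta (s ^ (n + 1)) = HahnSeries.C ((n + 1 : ℕ) : R) * s ^ n * igTheta s := by
  induction n with
  | zero => simp
  | succ n ih =>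
    rw [pow_succ, igTheta_mul, ih]
    have h : (HahnSeries.C ((n + 1 + 1 : ℕ) : R) : LaurentSeries R) =
        HahnSeries.C ((n + 1 : ℕ) : R) + 1 := by
      rw [← map_one (HahnSeries.C : R →+* LaurentSeries R), ← map_add]
      congr 1
      push_cast
      ring
    rw [h]
    ring

/-- `q d/dq` after `q ↦ q^p` is `p` times `q ↦ q^p` after `q d/dq`. -/
theorem igTheta_qExpand (p : ℕ) [NeZero p] (s : LaurentSeries R) :
    igTheta (qExpand R p s) = HahnSeries.C (p : R) * qExpand R p (igTheta s) := by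
  ext n
  rw [igTheta_coeff, HahnSeries.C_mul_eq_smul, HahnSeries.coeff_smul, smul_eq_mul]
  by_cases hn : (p : ℤ) ∣ n
  · obtain ⟨k, rfl⟩ := hn
    rw [qExpand_coeff_mul, qExpand_coeff_mul, igTheta_coeff]
    push_cast
    ring
  · rw [qExpand_coeff_of_not_dvd p _ hn, qExpand_coeff_of_not_dvd p _ hn, mul_zero, mul_zero]

theorem coeffMap_igTheta {S : Type*} [CommRing S] (φ : R →+* S) (s : LaurentSeries R) :
    coeffMap φ (igTheta s) = igTheta (coeffMap φ s) := by
  ext n
  simp

end Theta

section Delta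

variable (R : Type*) [CommRing R]

/-- the discriminant series `q ∏ (1 - q^n)^24` -/
def igD : LaurentSeries R :=
  HahnSeries.single (1 : ℤ) 1 *
    HahnSeries.ofPowerSeries ℤ R (dedekindEtaUnit.map (Int.castRingHom R))

/-- the inverse of the discriminant series -/
def igDinv : LaurentSeries R :=
  HahnSeries.single (-1 : ℤ) 1 *
    HahnSeries.ofPowerSeries ℤ R (dedekindEtaUnitInv.map (Int.castRingHom R))

theorem igD_mul_igDinv : igD R * igDinv R = 1 := by
  have h1 : (HahnSeries.single (1 : ℤ) (1 : R)) * HahnSeries.single (-1 : ℤ) (1 : R) = 1 := by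
    rw [HahnSeries.single_mul_single]
    simp
  have h2 : HahnSeries.ofPowerSeries ℤ R (dedekindEtaUnit.map (Int.castRingHom R)) *
      HahnSeries.ofPowerSeries ℤ R (dedekindEtaUnitInv.map (Int.castRingHom R)) = 1 := by
    rw [← map_mul, ← map_mul, dedekindEtaUnit_mul_inv, map_one, map_one]
  calc igD R * igDinv R
      = (HahnSeries.single (1 : ℤ) (1 : R) * HahnSeries.single (-1 : ℤ) (1 : R)) *
        (HahnSeries.ofPowerSeries ℤ R (dedekindEtaUnit.map (Int.castRingHom R)) *
          HahnSeries.ofPowerSeries ℤ R (dedekindEtaUnitInv.map (Int.castRingHom R))) := by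
        unfold igD igDinv; ring
    _ = 1 := by rw [h1, h2, mul_one]

theorem igDinv_mul_igD : igDinv R * igD R = 1 := by
  rw [mul_comm, igD_mul_igDinv]

variable {R}

theorem coeffMap_igD {S : Type*} [CommRing S] (φ : R →+* S) : coeffMap φ (igD R) = igD S := by
  rw [igD, map_mul, coeffMap_single, map_one, coeffMap_ofPowerSeries,
    ← RingHom.comp_apply (PowerSeries.map φ) (PowerSeries.map (Int.castRingHom R)),
    ← PowerSeries.map_comp, RingHom.ext_int (φ.comp (Int.castRingHom R)) (Int.castRingHom S)]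
  rfl

theorem coeffMap_igDinv {S : Type*} [CommRing S] (φ : R →+* S) :
    coeffMap φ (igDinv R) = igDinv S := by
  rw [igDinv, map_mul, coeffMap_single, map_one, coeffMap_ofPowerSeries,
    ← RingHom.comp_apply (PowerSeries.map φ) (PowerSeries.map (Int.castRingHom R)),
    ← PowerSeries.map_comp, RingHom.ext_int (φ.comp (Int.castRingHom R)) (Int.castRingHom S)]
  rfl

end Delta

section Eval

variable {R : Type*} [CommRing R]

/-- evaluation `ℤ[Y] →+* LaurentSeries R`, `Y ↦ x` -/
def igEv (x : LaurentSeries R) : Polynomial ℤ →+* LaurentSeries R :=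
  Polynomial.eval₂RingHom (Int.castRingHom (LaurentSeries R)) x

@[simp]
theorem igEv_X (x : LaurentSeries R) : igEv x Polynomial.X = x := by
  simp [igEv]

@[simp]
theorem igEv_C (x : LaurentSeries R) (c : ℤ) : igEv x (Polynomial.C c) = (c : LaurentSeries R) := by
  simp [igEv]

theorem coeffMap_igEv {S : Type*} [CommRing S] (φ : R →+* S) (x : LaurentSeries R)
    (P : Polynomial ℤ) : coeffMap φ (igEv x P) = igEv (coeffMap φ x) P := by
  unfold igEv
  rw [Polynomial.coe_eval₂RingHom, Polynomial.coe_eval₂RingHom, Polynomial.hom_eval₂]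
  congr 1
  exact RingHom.ext_int _ _

/-- a two-variable relation over `ℤ` is preserved by `coeffMap` -/
theorem coeffMap_eval₂_igEv {S : Type*} [CommRing S] (φ : R →+* S) (x y : LaurentSeries R)
    (Φ : Polynomial (Polynomial ℤ)) :
    coeffMap φ (Φ.eval₂ (igEv y) x) = Φ.eval₂ (igEv (coeffMap φ y)) (coeffMap φ x) := by
  rw [Polynomial.hom_eval₂]
  congr 1
  exact RingHom.ext fun P => coeffMap_igEv φ y P

end Eval

section Lattice

/-- the `ℤ`-algebra `ℤ[J_d : d ∣ N]` of integral `q`-series -/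
def igA (N : ℕ) : Subalgebra ℤ (LaurentSeries ℤ) :=
  Algebra.adjoin ℤ {x | ∃ (d : ℕ) (_ : NeZero d), d ∣ N ∧ x = qExpand ℤ d (jqModC ℤ)}

theorem igA_mem {N d : ℕ} [NeZero d] (hd : d ∣ N) : qExpand ℤ d (jqModC ℤ) ∈ igA N :=
  Algebra.subset_adjoin ⟨d, ‹_›, hd, rfl⟩

theorem igA_J_mem (N : ℕ) : jqModC ℤ ∈ igA N := by
  have h := igA_mem (one_dvd N)
  rwa [qExpand_one_apply] at h

end Lattice

end Fermat.Agent.IG
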