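import Mathlib
import Fermat.Agent.Lib.MC_Deg
import Fermat.Agent.Lib.MC_Bridge
import Fermat.Agent.Lib.MC_Inst
import Fermat.Agent.Lib.MC_Ge

/-!
# T24 [C-deg] (v): the degree bound `[FN N : Kb(j)] ≤ [SL(2,ℤ) : Γ₀(N)]`

* `modAlg` : the algebra of holomorphic functions on `ℍ` of moderate growth at `i∞`.
* `polyFunQ N P c`, `conjPoly N P = ∏_c (X - polyFunQ N P c)` : the conjugates of a polynomial
  expression `polyFun N P 1` in the `j(dτ)`; the coefficients of `conjPoly` are invariant,
  holomorphic, of moderate growth, hence polynomials in `j` (`inv_poly`).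
* `conj_relation`, `exp_relation` : the resulting relation of degree `n = card (PN N)` over `ℂ[j]`,
  for functions and for Laurent series.
* `betaHom_descent` : `Kb`-linear independence in `FN N` persists over `ℂ`.
* `minpoly_natDegree_le` : every `aeval (sF N) P` has degree `≤ n` over `Kb(j)`.
* `finrank_FN_le`, `finrank_FN_le_inst` : `FN N` is finite over `Kb(j)` of degree `≤ n`.
-/

set_option autoImplicit false
set_option linter.unusedSectionVars false

noncomputable section

namespace Fermat.Agent.MC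

open UpperHalfPlane ModularCurve CongruenceSubgroup Complex Filter ModularForm IntermediateField
open scoped MatrixGroups Real Manifold Topology

theorem disc_pow_bounded (k : ℕ) : IsBoundedAtImInfty (fun τ : ℍ => discriminant τ ^ k) := by
  induction k with
  | zero =>
    have e : (fun τ : ℍ => discriminant τ ^ 0) = Function.const ℍ (1 : ℂ) := by
      funext τ
      simp
    rw [e]
    exact const_boundedAtFilter atImInfty (1 : ℂ)
  | succ k ih =>
    have h1 : IsBoundedAtImInfty (discriminant : ℍ → ℂ) :=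
      ModularFormClass.bdd_at_infty CuspForm.discriminant
    have e : (fun τ : ℍ => discriminant τ ^ (k + 1)) =
        (fun τ : ℍ => discriminant τ ^ k) * discriminant := by
      funext τ
      simp [pow_succ]
    rw [e]
    exact BoundedAtFilter.mul ih h1

/-- holomorphic functions on `ℍ` of moderate growth at `i∞` -/
def modAlg : Subalgebra ℂ (ℍ → ℂ) where
  carrier := {f | MDiff f ∧ ∃ m : ℕ, IsBoundedAtImInfty (fun τ => discriminant τ ^ m * f τ)}
  mul_mem' := by
    rintro f g ⟨hf, m₁, h₁⟩ ⟨hg, m₂, h₂⟩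
    refine ⟨hf.mul hg, m₁ + m₂, ?_⟩
    have e : (fun τ => discriminant τ ^ (m₁ + m₂) * (f * g) τ) =
        (fun τ => discriminant τ ^ m₁ * f τ) * (fun τ => discriminant τ ^ m₂ * g τ) := by
      funext τ
      simp only [Pi.mul_apply]
      ring
    rw [e]
    exact BoundedAtFilter.mul h₁ h₂
  add_mem' := by
    rintro f g ⟨hf, m₁, h₁⟩ ⟨hg, m₂, h₂⟩
    refine ⟨hf.add hg, m₁ + m₂, ?_⟩
    have e : (fun τ => discriminant τ ^ (m₁ + m₂) * (f + g) τ) =
        (fun τ => discriminant τ ^ m₂) * (fun τ => discriminant τ ^ m₁ * f τ) +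
        (fun τ => discriminant τ ^ m₁) * (fun τ => discriminant τ ^ m₂ * g τ) := by
      funext τ
      simp only [Pi.mul_apply, Pi.add_apply]
      ring
    rw [e]
    exact BoundedAtFilter.add (BoundedAtFilter.mul (disc_pow_bounded m₂) h₁)
      (BoundedAtFilter.mul (disc_pow_bounded m₁) h₂)
  algebraMap_mem' := by
    intro c
    refine ⟨mdifferentiable_const, 0, ?_⟩
    have e : (fun τ : ℍ => discriminant τ ^ 0 * (algebraMap ℂ (ℍ → ℂ) c) τ) =
        Function.const ℍ c := by
      funext τ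
      simp
    rw [e]
    exact const_boundedAtFilter atImInfty c

theorem mem_modAlg {f : ℍ → ℂ} : f ∈ modAlg ↔
    MDiff f ∧ ∃ m : ℕ, IsBoundedAtImInfty (fun τ => discriminant τ ^ m * f τ) := Iff.rfl

theorem jlev_mem_modAlg (d : ℕ) (hd : 0 < d) (γ : SL(2, ℤ)) : jlev d γ ∈ modAlg :=
  ⟨jlev_mdifferentiable d hd γ, jlev_growth d hd γ⟩

theorem eval₂_mem_subalgebra (A : Subalgebra ℂ (ℍ → ℂ)) {K D : Type*} [CommSemiring K]
    (ψ : K →+* ℂ) (g : D → ℍ → ℂ) (hg : ∀ d, g d ∈ A) (P : MvPolynomial D K) :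
    (fun τ => P.eval₂ ψ (fun d => g d τ)) ∈ A := by
  induction P using MvPolynomial.induction_on with
  | C a =>
      have e : (fun τ : ℍ => (MvPolynomial.C a : MvPolynomial D K).eval₂ ψ (fun d => g d τ)) =
          algebraMap ℂ (ℍ → ℂ) (ψ a) := by
        funext τ
        simp
      rw [e]
      exact A.algebraMap_mem _
  | add p q hp hq =>
      have e : (fun τ => (p + q).eval₂ ψ (fun d => g d τ)) =
          (fun τ => p.eval₂ ψ (fun d => g d τ)) + (fun τ => q.eval₂ ψ (fun d => g d τ)) := by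
        funext τ
        simp [MvPolynomial.eval₂_add]
      rw [e]
      exact A.add_mem hp hq
  | mul_X p d hp =>
      have e : (fun τ => (p * MvPolynomial.X d).eval₂ ψ (fun d => g d τ)) =
          (fun τ => p.eval₂ ψ (fun d => g d τ)) * g d := by
        funext τ
        simp [MvPolynomial.eval₂_mul]
      rw [e]
      exact A.mul_mem hp (hg d)

section Conj

variable (N : ℕ) [NeZero N] (P : MvPolynomial N.divisors Kb)

theorem polyFun_mem_modAlg (γ : SL(2, ℤ)) : polyFun N P γ ∈ modAlg :=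
  eval₂_mem_subalgebra modAlg phiC (fun d : N.divisors => jlev (d : ℕ) γ)
    (fun d => jlev_mem_modAlg d (Nat.pos_of_mem_divisors d.2) γ) P

theorem polyFun_mul_Gamma0 (γ g : SL(2, ℤ)) (hg : g ∈ Gamma0 N) :
    polyFun N P (γ * g) = polyFun N P γ := by
  funext τ
  have e : (fun d : N.divisors => jlev (d : ℕ) (γ * g) τ) =
      (fun d : N.divisors => jlev (d : ℕ) γ τ) :=
    funext fun d => congrFun (jlev_mul_Gamma0 N d (Nat.pos_of_mem_divisors d.2)
      (Nat.dvd_of_mem_divisors d.2) γ g hg) τ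
  show P.eval₂ phiC (fun d : N.divisors => jlev (d : ℕ) (γ * g) τ) =
    P.eval₂ phiC (fun d : N.divisors => jlev (d : ℕ) γ τ)
  rw [e]

/-- `polyFun` on the cosets of `Γ₀(N)` -/
def polyFunQ (c : PN N) : ℍ → ℂ :=
  Quotient.liftOn' c (polyFun N P) (fun γ γ' h => by
    have h' : γ⁻¹ * γ' ∈ Gamma0 N := QuotientGroup.leftRel_apply.mp h
    have h2 := polyFun_mul_Gamma0 N P γ (γ⁻¹ * γ') h'
    rw [mul_inv_cancel_left] at h2
    exact h2.symm)

theorem polyFunQ_mk (γ : SL(2, ℤ)) : polyFunQ N P (QuotientGroup.mk γ) = polyFun N P γ := rfl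

theorem polyFunQ_mem (c : PN N) : polyFunQ N P c ∈ modAlg := by
  induction c using QuotientGroup.induction_on with
  | H γ => exact polyFun_mem_modAlg N P γ

theorem polyFunQ_smul (ε : SL(2, ℤ)) (c : PN N) (τ : ℍ) :
    polyFunQ N P c (ε • τ) = polyFunQ N P (ε⁻¹ • c) τ := by
  induction c using QuotientGroup.induction_on with
  | H γ =>
    show P.eval₂ phiC (fun d : N.divisors => jlev (d : ℕ) γ (ε • τ)) =
      P.eval₂ phiC (fun d : N.divisors => jlev (d : ℕ) (ε⁻¹ * γ) τ)
    have e : (fun d : N.divisors => jlev (d : ℕ) (ε⁻¹ * γ) τ) =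
        (fun d : N.divisors => jlev (d : ℕ) γ (ε • τ)) := funext fun d => jlev_smul _ γ ε τ
    rw [e]

/-- the polynomial `∏ (X - f ∘ γ)` over the cosets -/
def conjPoly : Polynomial (ℍ → ℂ) :=
  ∏ c : PN N, (Polynomial.X - Polynomial.C (polyFunQ N P c))

theorem conjPoly_monic : (conjPoly N P).Monic :=
  Polynomial.monic_prod_of_monic _ _ (fun _ _ => Polynomial.monic_X_sub_C _)

theorem conjPoly_natDegree : (conjPoly N P).natDegree = Fintype.card (PN N) := by
  unfold conjPoly
  rw [Polynomial.natDegree_prod_of_monic _ _ (fun _ _ => Polynomial.monic_X_sub_C _)]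
  simp

theorem conjPoly_coeff_mem (i : ℕ) : (conjPoly N P).coeff i ∈ modAlg := by
  have h : conjPoly N P = (∏ c : PN N, (Polynomial.X -
      Polynomial.C (⟨polyFunQ N P c, polyFunQ_mem N P c⟩ : modAlg))).map
        (algebraMap modAlg (ℍ → ℂ)) := by
    rw [Polynomial.map_prod]
    unfold conjPoly
    refine Finset.prod_congr rfl (fun c _ => ?_)
    rw [Polynomial.map_sub, Polynomial.map_X, Polynomial.map_C]
    rfl
  rw [h, Polynomial.coeff_map]
  exact SetLike.coe_mem _

theorem conjPoly_coeff_apply (i : ℕ) (τ : ℍ) : (conjPoly N P).coeff i τ =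
    (∏ c : PN N, (Polynomial.X - Polynomial.C (polyFunQ N P c τ))).coeff i := by
  have h : (conjPoly N P).map (Pi.evalRingHom (fun _ : ℍ => ℂ) τ) =
      ∏ c : PN N, (Polynomial.X - Polynomial.C (polyFunQ N P c τ)) := by
    unfold conjPoly
    rw [Polynomial.map_prod]
    refine Finset.prod_congr rfl (fun c _ => ?_)
    rw [Polynomial.map_sub, Polynomial.map_X, Polynomial.map_C]
    rfl
  rw [← h, Polynomial.coeff_map]
  rfl

theorem conjPoly_coeff_smul (i : ℕ) (ε : SL(2, ℤ)) (τ : ℍ) :
    (conjPoly N P).coeff i (ε • τ) = (conjPoly N P).coeff i τ := by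
  rw [conjPoly_coeff_apply, conjPoly_coeff_apply]
  congr 1
  simp only [polyFunQ_smul]
  exact Equiv.prod_comp (MulAction.toPerm ε⁻¹ : Equiv.Perm (PN N))
    (fun c => Polynomial.X - Polynomial.C (polyFunQ N P c τ))

theorem conjPoly_eval : (conjPoly N P).eval (polyFun N P 1) = 0 := by
  unfold conjPoly
  rw [Polynomial.eval_prod]
  apply Finset.prod_eq_zero (Finset.mem_univ (QuotientGroup.mk 1 : PN N))
  rw [Polynomial.eval_sub, Polynomial.eval_X, Polynomial.eval_C, polyFunQ_mk, sub_self]

/-- the relation of degree `card (PN N)` satisfied by `polyFun N P 1` over `ℂ[j]` -/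
theorem conj_relation : ∃ Q : ℕ → Polynomial ℂ, Q (Fintype.card (PN N)) = 1 ∧
    ∀ τ, ∑ i ∈ Finset.range (Fintype.card (PN N) + 1),
      (Q i).eval (jfun τ) * (polyFun N P 1 τ) ^ i = 0 := by
  have h : ∀ i, ∃ Q : Polynomial ℂ, ∀ τ, (conjPoly N P).coeff i τ = Q.eval (jfun τ) := by
    intro i
    obtain ⟨hmd, m, hm⟩ := conjPoly_coeff_mem N P i
    obtain ⟨Q, -, hQ⟩ := inv_poly m _ hmd (fun γ τ => conjPoly_coeff_smul N P i γ τ) hm
    exact ⟨Q, hQ⟩
  choose Q hQ using h
  set n := Fintype.card (PN N) with hn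
  refine ⟨fun i => if i = n then 1 else Q i, by simp, fun τ => ?_⟩
  have h0 := conjPoly_eval N P
  rw [Polynomial.eval_eq_sum_range, conjPoly_natDegree] at h0
  have h1 := congrFun h0 τ
  rw [Finset.sum_apply] at h1
  rw [← hn] at h1
  rw [Finset.sum_range_succ] at h1 ⊢
  have hlead : (conjPoly N P).coeff n = 1 := by
    have := (conjPoly_monic N P).coeff_natDegree
    rwa [conjPoly_natDegree] at this
  simp only [Pi.mul_apply, Pi.pow_apply, Pi.zero_apply, hlead, Pi.one_apply, hQ] at h1
  rw [← h1]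
  congr 1
  · refine Finset.sum_congr rfl (fun i hi => ?_)
    have : i ≠ n := (Finset.mem_range.mp hi).ne
    simp [this]
  · simp

end Conj

/-- the admissible functions of an expansion system, as a subalgebra -/
def ExpSys.alg (E : ExpSys) : Subalgebra ℂ (ℍ → ℂ) where
  carrier := {f | E.mem f}
  mul_mem' := fun hf hg => E.mem_mul hf hg
  add_mem' := fun hf hg => E.mem_add hf hg
  algebraMap_mem' := fun c => E.mem_const c

/-- the expansion, as an algebra hom -/
def ExpSys.hom (E : ExpSys) : E.alg →ₐ[ℂ] LaurentSeries ℂ where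
  toFun f := E.exp f.1
  map_one' := by
    have h := E.exp_const 1
    rw [map_one] at h
    exact h
  map_mul' f g := E.exp_mul f.2 g.2
  map_zero' := by
    have h := E.exp_const 0
    rw [map_zero] at h
    exact h
  map_add' f g := E.exp_add f.2 g.2
  commutes' c := by
    show E.exp (fun _ => c) = algebraMap ℂ (LaurentSeries ℂ) c
    rw [E.exp_const, algebraMap_laurentSeries_eq_single]
    rfl

theorem ExpSys.hom_apply (E : ExpSys) (f : E.alg) : E.hom f = E.exp f.1 := rfl

section Rel

variable (N : ℕ) [NeZero N]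

theorem betaHom_aeval_sF {E : ExpSys} (hE : IsBridge N E) (P : MvPolynomial N.divisors Kb) :
    betaHom N (MvPolynomial.aeval (sF N) P) = E.exp (polyFun N P 1) := by
  have h1 : betaHom N (MvPolynomial.aeval (sF N) P) =
      P.eval₂ ((betaHom N).comp (algebraMap Kb (FN N))) (fun d => betaHom N (sF N d)) := by
    rw [MvPolynomial.aeval_def]
    exact MvPolynomial.eval₂_comp_left (betaHom N) (algebraMap Kb (FN N)) (sF N) P
  have h2 : (betaHom N).comp (algebraMap Kb (FN N)) = HahnSeries.C.comp phiC :=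
    RingHom.ext fun c => betaHom_algebraMap N c
  have h3 : (fun d => betaHom N (sF N d)) = fun d : N.divisors => E.exp (jlev (d : ℕ) 1) :=
    funext fun d => by rw [betaHom_sF, hE.exp d]
  rw [h1, h2, h3]
  exact (E.exp_eval₂ phiC (fun (d : N.divisors) => jlev (d : ℕ) 1) hE.mem P).symm

/-- the relation of degree `card (PN N)` over `ℂ[j]`, in Laurent series -/
theorem exp_relation {E : ExpSys} (hE : IsBridge N E) (P : MvPolynomial N.divisors Kb) :
    ∃ Q : ℕ → Polynomial ℂ, Q (Fintype.card (PN N)) = 1 ∧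
      ∑ i ∈ Finset.range (Fintype.card (PN N) + 1),
        Polynomial.aeval (betaHom N (jF N)) (Q i) *
          betaHom N (MvPolynomial.aeval (sF N) P) ^ i = 0 := by
  obtain ⟨Q, hQ1, hQ⟩ := conj_relation N P
  refine ⟨Q, hQ1, ?_⟩
  have h1 : (1 : ℕ) ∈ N.divisors := Nat.mem_divisors.mpr ⟨one_dvd N, NeZero.ne N⟩
  have hjmem : E.mem jfun := by
    have h : E.mem (jlev 1 1) := hE.mem ⟨1, h1⟩
    rwa [jlev_one_left] at h
  have hjexp : E.exp jfun = betaHom N (jF N) := by
    have h : E.exp (jlev 1 1) = qExpand ℂ (N * 1) (jqModC ℂ) := hE.exp ⟨1, h1⟩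
    rw [jlev_one_left] at h
    rw [h, ← sF_one N, betaHom_sF]
  have hfmem : E.mem (polyFun N P 1) :=
    E.mem_eval₂ phiC (fun d : N.divisors => jlev (d : ℕ) 1) hE.mem P
  have hfexp : E.exp (polyFun N P 1) = betaHom N (MvPolynomial.aeval (sF N) P) :=
    (betaHom_aeval_sF N hE P).symm
  set n := Fintype.card (PN N) with hn
  let jf : E.alg := ⟨jfun, hjmem⟩
  let ff : E.alg := ⟨polyFun N P 1, hfmem⟩
  have hz : ∑ i ∈ Finset.range (n + 1), Polynomial.aeval jf (Q i) * ff ^ i = 0 := by
    apply Subtype.ext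
    funext τ
    let ev : E.alg →ₐ[ℂ] ℂ := (Pi.evalAlgHom ℂ (fun _ : ℍ => ℂ) τ).comp E.alg.val
    show ev (∑ i ∈ Finset.range (n + 1), Polynomial.aeval jf (Q i) * ff ^ i) = 0
    rw [map_sum]
    simp only [map_mul, map_pow, ← Polynomial.aeval_algHom_apply]
    have := hQ τ
    simpa [ev, jf, ff, Polynomial.coe_aeval_eq_eval] using this
  have h2 := congrArg E.hom hz
  rw [map_sum, map_zero] at h2
  simp only [map_mul, map_pow, ← Polynomial.aeval_algHom_apply] at h2
  rw [← hfexp, ← hjexp]
  exact h2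

theorem betaHom_coeff_mul (f : FN N) (m : ℤ) :
    (betaHom N f).coeff ((N : ℤ) * m) = phiC ((f : LaurentSeries Kb).coeff m) := by
  rw [betaHom_apply, qExpand_coeff_mul, coeffMap_coeff]

theorem algebraMap_laurent_C (c : ℂ) : algebraMap ℂ (LaurentSeries ℂ) c = HahnSeries.C c := by
  rw [algebraMap_laurentSeries_eq_single]
  rfl

/-- DESCENT: `Kb`-linearly independent elements of `FN N` stay linearly independent over `ℂ`
(stated with explicit constants, to stay clear of the module instances on Laurent series). -/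
theorem betaHom_descent {ι : Type*} (v : ι → FN N) (hv : LinearIndependent Kb v)
    (s : Finset ι) (g : ι → ℂ)
    (hg : ∑ i ∈ s, HahnSeries.C (g i) * betaHom N (v i) = 0) : ∀ i ∈ s, g i = 0 := by
  classical
  let _ : Algebra Kb ℂ := phiC.toAlgebra
  rw [linearIndependent_iff'] at hv
  intro k hk
  by_contra hne
  obtain ⟨ℓ, hℓ⟩ := Module.Projective.exists_dual_ne_zero Kb hne
  have key : ∑ i ∈ s, ℓ (g i) • v i = 0 := by
    apply Subtype.ext
    ext m
    have h1 : ((∑ i ∈ s, ℓ (g i) • v i : FN N) : LaurentSeries Kb).coeff m =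
        ∑ i ∈ s, ℓ (g i) * ((v i : FN N) : LaurentSeries Kb).coeff m := by
      rw [AddSubmonoidClass.coe_finsetSum, HahnSeries.coeff_sum]
      refine Finset.sum_congr rfl (fun i _ => ?_)
      rw [IntermediateField.coe_smul, Algebra.smul_def, algebraMap_laurentSeries_eq_single,
        HahnSeries.coeff_single_zero_mul]
    rw [h1]
    show _ = (0 : LaurentSeries Kb).coeff m
    rw [HahnSeries.coeff_zero]
    have h2 := congrArg (fun y : LaurentSeries ℂ => y.coeff ((N : ℤ) * m)) hg
    simp only [HahnSeries.coeff_sum, HahnSeries.C_apply, HahnSeries.coeff_single_zero_mul,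
      betaHom_coeff_mul, HahnSeries.coeff_zero] at h2
    have h3 := congrArg ℓ h2
    rw [map_sum, map_zero] at h3
    rw [← h3]
    refine Finset.sum_congr rfl (fun i _ => ?_)
    have h4 : g i * phiC (((v i : FN N) : LaurentSeries Kb).coeff m) =
        (((v i : FN N) : LaurentSeries Kb).coeff m) • g i := by
      rw [Algebra.smul_def, mul_comm]
      rfl
    rw [h4, map_smul, smul_eq_mul, mul_comm]
  exact hℓ (hv s (fun i => ℓ (g i)) key k hk)

end Rel

section Deg

variable (N : ℕ) [NeZero N]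

theorem linearIndependent_pow_jF (htr : Transcendental Kb (jF N)) :
    LinearIndependent Kb (fun a : ℕ => (AdjoinSimple.gen Kb (jF N)) ^ a) := by
  have h1 : LinearIndependent Kb (fun a : ℕ => (jF N) ^ a) := by
    have h := (Polynomial.basisMonomials Kb).linearIndependent.map'
      (Polynomial.aeval (jF N)).toLinearMap
      (LinearMap.ker_eq_bot.2 (transcendental_iff_injective.1 htr))
    have e : ((Polynomial.aeval (jF N)).toLinearMap ∘ ⇑(Polynomial.basisMonomials Kb)) =
        fun a : ℕ => (jF N) ^ a := by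
      funext a
      simp [Polynomial.coe_basisMonomials]
    rwa [e] at h
  refine LinearIndependent.of_comp (Kb⟮jF N⟯.val.toLinearMap) ?_
  have e : (⇑(Kb⟮jF N⟯.val.toLinearMap) ∘ fun a : ℕ => (AdjoinSimple.gen Kb (jF N)) ^ a) =
      fun a : ℕ => (jF N) ^ a := by
    funext a
    simp [AdjoinSimple.coe_gen]
  rw [e]
  exact h1

theorem minpoly_natDegree_le {E : ExpSys} (hE : IsBridge N E) (htr : Transcendental Kb (jF N))
    (P : MvPolynomial N.divisors Kb) :
    IsIntegral Kb⟮jF N⟯ (MvPolynomial.aeval (sF N) P) ∧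
      (minpoly Kb⟮jF N⟯ (MvPolynomial.aeval (sF N) P)).natDegree ≤ Fintype.card (PN N) := by
  classical
  obtain ⟨Q, hQ1, hQ⟩ := exp_relation N hE P
  set x := MvPolynomial.aeval (sF N) P with hx
  set n := Fintype.card (PN N) with hn
  have hdep : ¬ LinearIndependent Kb⟮jF N⟯ (fun i : Fin (n + 1) => x ^ (i : ℕ)) := by
    intro hc
    have hb := linearIndependent_pow_jF N htr
    have hbc := linearIndependent_smul hb hc
    set M := (Finset.range (n + 1)).sup (fun i => (Q i).natDegree) with hM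
    have hsum : ∑ p ∈ (Finset.range (M + 1)) ×ˢ (Finset.univ : Finset (Fin (n + 1))),
        HahnSeries.C ((Q (p.2 : ℕ)).coeff p.1) *
          betaHom N (AdjoinSimple.gen Kb (jF N) ^ p.1 • x ^ (p.2 : ℕ)) = 0 := by
      rw [Finset.sum_product_right]
      rw [Fin.sum_univ_eq_sum_range (fun i => ∑ a ∈ Finset.range (M + 1),
        HahnSeries.C ((Q i).coeff a) *
          betaHom N (AdjoinSimple.gen Kb (jF N) ^ a • x ^ i)) (n + 1)]
      rw [← hQ]
      refine Finset.sum_congr rfl (fun i hi => ?_)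
      have hdeg : (Q i).natDegree < M + 1 :=
        Nat.lt_succ_of_le (Finset.le_sup (f := fun i => (Q i).natDegree) hi)
      rw [Polynomial.aeval_def, Polynomial.eval₂_eq_sum_range' _ hdeg, Finset.sum_mul]
      refine Finset.sum_congr rfl (fun a _ => ?_)
      have h1 : betaHom N (AdjoinSimple.gen Kb (jF N) ^ a • x ^ i) =
          betaHom N (jF N) ^ a * betaHom N x ^ i := by
        rw [Algebra.smul_def, map_mul, map_pow, map_pow, map_pow, AdjoinSimple.algebraMap_gen]
      rw [h1, algebraMap_laurent_C, mul_assoc]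
    have h0 := betaHom_descent N _ hbc _ _ hsum (0, Fin.last n) (by simp)
    simp only [Fin.val_last] at h0
    rw [hQ1, Polynomial.coeff_one_zero] at h0
    exact one_ne_zero h0
  rw [Fintype.not_linearIndependent_iff] at hdep
  obtain ⟨g, hg, i₀, hi₀⟩ := hdep
  set p : Polynomial Kb⟮jF N⟯ := ∑ i : Fin (n + 1), Polynomial.monomial (i : ℕ) (g i) with hp
  have hp0 : p ≠ 0 := by
    intro h
    have h1 := congrArg (fun q => q.coeff (i₀ : ℕ)) h
    simp only [hp, Polynomial.finsetSum_coeff, Polynomial.coeff_monomial,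
      Polynomial.coeff_zero] at h1
    rw [Finset.sum_eq_single i₀] at h1
    · simp only [if_true] at h1
      exact hi₀ h1
    · intro b _ hb
      rw [if_neg]
      exact fun h => hb (Fin.ext h)
    · simp
  have hpx : Polynomial.aeval x p = 0 := by
    rw [hp, map_sum, ← hg]
    refine Finset.sum_congr rfl (fun i _ => ?_)
    rw [Polynomial.aeval_monomial, Algebra.smul_def]
  have hpdeg : p.natDegree ≤ n := by
    rw [hp]
    refine Polynomial.natDegree_sum_le_of_forall_le _ _ (fun i _ => ?_)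
    exact (Polynomial.natDegree_monomial_le _).trans (Nat.lt_succ_iff.mp i.2)
  have hint : IsIntegral Kb⟮jF N⟯ x := isAlgebraic_iff_isIntegral.mp ⟨p, hp0, hpx⟩
  refine ⟨hint, ?_⟩
  exact (Polynomial.natDegree_le_natDegree (minpoly.degree_le_of_ne_zero _ x hp0 hpx)).trans hpdeg

end Deg

section Fin

variable (N : ℕ) [NeZero N]

/-- polynomials in `j` are polynomials in the generators -/
theorem aeval_jF_mem_range (r : Polynomial Kb) :
    Polynomial.aeval (jF N) r ∈ (MvPolynomial.aeval (sF N) : MvPolynomial N.divisors Kb →ₐ[Kb] FN N).range := by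
  have h1 : (1 : ℕ) ∈ N.divisors := Nat.mem_divisors.mpr ⟨one_dvd N, NeZero.ne N⟩
  refine ⟨Polynomial.aeval (MvPolynomial.X ⟨1, h1⟩) r, ?_⟩
  show MvPolynomial.aeval (sF N) (Polynomial.aeval (MvPolynomial.X ⟨1, h1⟩) r) = _
  rw [← Polynomial.aeval_algHom_apply, MvPolynomial.aeval_X, sF_one]

/-- every element of the `Kb(j)`-algebra generated by the `sF N d` is a polynomial in the
generators divided by a nonzero polynomial in `j` -/
theorem exists_denominator (α : FN N)
    (hα : α ∈ Algebra.adjoin Kb⟮jF N⟯ (Set.range (sF N))) :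
    ∃ q : Polynomial Kb, Polynomial.aeval (jF N) q ≠ 0 ∧
      α * Polynomial.aeval (jF N) q ∈
        (MvPolynomial.aeval (sF N) : MvPolynomial N.divisors Kb →ₐ[Kb] FN N).range := by
  induction hα using Algebra.adjoin_induction with
  | mem x hx =>
      obtain ⟨d, rfl⟩ := hx
      refine ⟨1, by simp, ?_⟩
      rw [map_one, mul_one]
      exact ⟨MvPolynomial.X d, MvPolynomial.aeval_X _ _⟩
  | algebraMap c =>
      obtain ⟨r, s₀, hc⟩ := (mem_adjoin_simple_iff Kb (c : FN N)).mp c.2
      by_cases hs : Polynomial.aeval (jF N) s₀ = 0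
      · refine ⟨1, by simp, ?_⟩
        have h0 : algebraMap Kb⟮jF N⟯ (FN N) c = 0 := by
          show (c : FN N) = 0
          rw [hc, hs, div_zero]
        rw [h0, zero_mul]
        exact Subalgebra.zero_mem _
      · refine ⟨s₀, hs, ?_⟩
        have h0 : algebraMap Kb⟮jF N⟯ (FN N) c * Polynomial.aeval (jF N) s₀ =
            Polynomial.aeval (jF N) r := by
          show (c : FN N) * _ = _
          rw [hc, div_mul_cancel₀ _ hs]
        rw [h0]
        exact aeval_jF_mem_range N r
  | add x y _ _ hx hy =>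
      obtain ⟨q₁, h1, h1'⟩ := hx
      obtain ⟨q₂, h2, h2'⟩ := hy
      refine ⟨q₁ * q₂, by rw [map_mul]; exact mul_ne_zero h1 h2, ?_⟩
      have e : (x + y) * Polynomial.aeval (jF N) (q₁ * q₂) =
          (x * Polynomial.aeval (jF N) q₁) * Polynomial.aeval (jF N) q₂ +
          (y * Polynomial.aeval (jF N) q₂) * Polynomial.aeval (jF N) q₁ := by
        rw [map_mul]
        ring
      rw [e]
      exact Subalgebra.add_mem _ (Subalgebra.mul_mem _ h1' (aeval_jF_mem_range N q₂))
        (Subalgebra.mul_mem _ h2' (aeval_jF_mem_range N q₁))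
  | mul x y _ _ hx hy =>
      obtain ⟨q₁, h1, h1'⟩ := hx
      obtain ⟨q₂, h2, h2'⟩ := hy
      refine ⟨q₁ * q₂, by rw [map_mul]; exact mul_ne_zero h1 h2, ?_⟩
      have e : (x * y) * Polynomial.aeval (jF N) (q₁ * q₂) =
          (x * Polynomial.aeval (jF N) q₁) * (y * Polynomial.aeval (jF N) q₂) := by
        rw [map_mul]
        ring
      rw [e]
      exact Subalgebra.mul_mem _ h1' h2'

theorem isIntegral_sF {E : ExpSys} (hE : IsBridge N E) (htr : Transcendental Kb (jF N)) :
    ∀ x ∈ Set.range (sF N), IsIntegral Kb⟮jF N⟯ x := by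
  rintro x ⟨d, rfl⟩
  have := (minpoly_natDegree_le N hE htr (MvPolynomial.X d)).1
  rwa [MvPolynomial.aeval_X] at this

theorem adjoin_sF_top : IntermediateField.adjoin Kb⟮jF N⟯ (Set.range (sF N)) = ⊤ :=
  IntermediateField.adjoin_eq_top_of_adjoin_eq_top Kb (adjoin_sF N)

theorem finiteDimensional_FN_of {E : ExpSys} (hE : IsBridge N E)
    (htr : Transcendental Kb (jF N)) : FiniteDimensional Kb⟮jF N⟯ (FN N) := by
  have hfd' : FiniteDimensional Kb⟮jF N⟯
      (IntermediateField.adjoin Kb⟮jF N⟯ (Set.range (sF N))) :=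
    IntermediateField.finiteDimensional_adjoin (isIntegral_sF N hE htr)
  rw [adjoin_sF_top N] at hfd'
  exact Module.Finite.equiv (IntermediateField.topEquiv (F := Kb⟮jF N⟯) (E := FN N)).toLinearEquiv

theorem mem_algebra_adjoin_sF {E : ExpSys} (hE : IsBridge N E)
    (htr : Transcendental Kb (jF N)) (α : FN N) :
    α ∈ Algebra.adjoin Kb⟮jF N⟯ (Set.range (sF N)) := by
  rw [← IntermediateField.adjoin_toSubalgebra_of_isAlgebraic
    (fun x hx => (isIntegral_sF N hE htr x hx).isAlgebraic), adjoin_sF_top N]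
  trivial

theorem exists_primitive_aeval {E : ExpSys} (hE : IsBridge N E)
    (htr : Transcendental Kb (jF N)) :
    ∃ P : MvPolynomial N.divisors Kb, Kb⟮jF N⟯⟮MvPolynomial.aeval (sF N) P⟯ = ⊤ := by
  have hfd := finiteDimensional_FN_of N hE htr
  have : CharZero Kb⟮jF N⟯ :=
    charZero_of_injective_algebraMap (algebraMap Kb Kb⟮jF N⟯).injective
  have : Algebra.IsAlgebraic Kb⟮jF N⟯ (FN N) := Algebra.IsAlgebraic.of_finite _ _
  have : Algebra.IsSeparable Kb⟮jF N⟯ (FN N) := Algebra.IsAlgebraic.isSeparable_of_perfectField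
  obtain ⟨α, hα⟩ := Field.exists_primitive_element Kb⟮jF N⟯ (FN N)
  obtain ⟨q, hq, hmem⟩ := exists_denominator N α (mem_algebra_adjoin_sF N hE htr α)
  obtain ⟨P, hP'⟩ := (AlgHom.mem_range _).mp hmem
  refine ⟨P, ?_⟩
  have hqmem : Polynomial.aeval (jF N) q ∈ Kb⟮jF N⟯⟮MvPolynomial.aeval (sF N) P⟯ := by
    have h1 : Polynomial.aeval (jF N) q ∈ Kb⟮jF N⟯ := by
      have := Subalgebra.aeval_coe (Kb⟮jF N⟯.toSubalgebra) (AdjoinSimple.gen Kb (jF N)) q
      rw [AdjoinSimple.coe_gen] at this
      rw [this]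
      exact SetLike.coe_mem _
    exact (Kb⟮jF N⟯⟮MvPolynomial.aeval (sF N) P⟯).algebraMap_mem ⟨_, h1⟩
  rw [eq_top_iff, ← hα, adjoin_simple_le_iff]
  have e : α = MvPolynomial.aeval (sF N) P * (Polynomial.aeval (jF N) q)⁻¹ := by
    rw [hP']
    field_simp
  rw [e]
  exact mul_mem (mem_adjoin_simple_self _ _) (inv_mem hqmem)

/-- **the degree bound**: `[FN N : Kb(j)] ≤ [SL(2,ℤ) : Γ₀(N)]`. -/
theorem finrank_FN_le {E : ExpSys} (hE : IsBridge N E) (htr : Transcendental Kb (jF N)) :
    FiniteDimensional Kb⟮jF N⟯ (FN N) ∧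
      Module.finrank Kb⟮jF N⟯ (FN N) ≤ Fintype.card (PN N) := by
  refine ⟨finiteDimensional_FN_of N hE htr, ?_⟩
  obtain ⟨P, hxtop⟩ := exists_primitive_aeval N hE htr
  have hxint := (minpoly_natDegree_le N hE htr P).1
  have hdeg := (minpoly_natDegree_le N hE htr P).2
  rw [← IntermediateField.finrank_top', ← hxtop, IntermediateField.adjoin.finrank hxint]
  exact hdeg

end Fin

section Inst

variable (N : ℕ) [NeZero N]

/-- the degree bound, with the bridge `cuspSys N` and the transcendence of `j` plugged in -/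
theorem finrank_FN_le_inst : FiniteDimensional Kb⟮jF N⟯ (FN N) ∧
    Module.finrank Kb⟮jF N⟯ (FN N) ≤ Fintype.card (PN N) :=
  finrank_FN_le N (isBridge_cuspSys N) (transcendental_jF N)

end Inst

end Fermat.Agent.MC
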