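import Mathlib
import Fermat.Agent.Lib.FF_Defs

set_option autoImplicit false

/-!
# T24 [E5]: the Riemann-Hurwitz genus of a transitive triple of permutations is a natural number
-/

noncomputable section

namespace Fermat.Agent.MC

open Fermat.Agent.FF Equiv

section Parity

variable {I : Type} [Fintype I] [DecidableEq I]

/-- orbits of `σ` = nontrivial cycles + fixed points -/
theorem orbitCount_add_support (σ : Perm I) :
    orbitCount σ + σ.support.card = Multiset.card σ.cycleType + Fintype.card I := by
  classical
  -- the classifying map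
  let F : I → ({c // c ∈ σ.cycleFactorsFinset} ⊕ {i // σ i = i}) := fun i =>
    if h : σ i = i then Sum.inr ⟨i, h⟩
    else Sum.inl ⟨σ.cycleOf i, Perm.cycleOf_mem_cycleFactorsFinset_iff.mpr (Perm.mem_support.mpr h)⟩
  have hF : ∀ i j, (Perm.SameCycle.setoid σ).r i j → F i = F j := by
    intro i j hij
    change σ.SameCycle i j at hij
    by_cases h : σ i = i
    · have : i = j := hij.eq_of_left h
      subst this; rfl
    · have hj : ¬ σ j = j := fun hj => h (hij.apply_eq_self_iff.mpr hj)
      simp only [F, dif_neg h, dif_neg hj]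
      congr 2
      exact hij.cycleOf_eq
  let G : Quotient (Perm.SameCycle.setoid σ) → ({c // c ∈ σ.cycleFactorsFinset} ⊕ {i // σ i = i}) :=
    Quotient.lift F hF
  have hG : Function.Bijective G := by
    constructor
    · intro a b
      induction a using Quotient.inductionOn with | _ i => ?_
      induction b using Quotient.inductionOn with | _ j => ?_
      intro hab
      change F i = F j at hab
      apply Quotient.sound
      change σ.SameCycle i j
      by_cases hi : σ i = i
      · by_cases hj : σ j = j
        · simp only [F, dif_pos hi, dif_pos hj, Sum.inr.injEq, Subtype.mk.injEq] at hab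
          subst hab; exact Perm.SameCycle.refl _ _
        · simp [F, dif_pos hi, dif_neg hj] at hab
      · by_cases hj : σ j = j
        · simp [F, dif_neg hi, dif_pos hj] at hab
        · simp only [F, dif_neg hi, dif_neg hj, Sum.inl.injEq, Subtype.mk.injEq] at hab
          exact (Perm.sameCycle_iff_cycleOf_eq_of_mem_support (Perm.mem_support.mpr hi)
            (Perm.mem_support.mpr hj)).mpr hab
    · rintro (⟨c, hc⟩ | ⟨i, hi⟩)
      · obtain ⟨a, ha⟩ : ∃ a, a ∈ c.support := by
          have hcyc := (Perm.mem_cycleFactorsFinset_iff.mp hc).1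
          obtain ⟨a, ha, -⟩ := hcyc
          exact ⟨a, Perm.mem_support.mpr ha⟩
        have hca : c = σ.cycleOf a := Perm.cycle_is_cycleOf ha hc
        have hsa : ¬ σ a = a := by
          have := Perm.mem_cycleFactorsFinset_support_le hc ha
          exact Perm.mem_support.mp this
        refine ⟨Quotient.mk _ a, ?_⟩
        change F a = _
        simp only [F, dif_neg hsa]
        congr 2
        exact hca.symm
      · refine ⟨Quotient.mk _ i, ?_⟩
        change F i = _
        simp only [F, dif_pos hi]
  have hcard : Nat.card (Quotient (Perm.SameCycle.setoid σ)) =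
      Nat.card ({c // c ∈ σ.cycleFactorsFinset} ⊕ {i // σ i = i}) :=
    Nat.card_eq_of_bijective G hG
  have h1 : Nat.card {c // c ∈ σ.cycleFactorsFinset} = Multiset.card σ.cycleType := by
    rw [Nat.card_eq_fintype_card, Fintype.card_coe, Perm.cycleType_def, Multiset.card_map]
    rfl
  have h2 : Nat.card {i // σ i = i} + σ.support.card = Fintype.card I := by
    rw [Nat.card_eq_fintype_card, Fintype.card_subtype]
    have : (Finset.univ.filter fun i => σ i = i) = σ.supportᶜ := by
      ext i; simp [Perm.mem_support]
    rw [this, Finset.card_compl]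
    have := Finset.card_le_univ σ.support
    omega
  unfold orbitCount
  rw [hcard, Nat.card_sum, h1]
  omega

theorem sign_eq_neg_one_pow_orbitCount (σ : Perm I) :
    Perm.sign σ = (-1 : ℤˣ) ^ (Fintype.card I + orbitCount σ) := by
  rw [Perm.sign_of_cycleType, Perm.sum_cycleType]
  have h := orbitCount_add_support σ
  have hle := Finset.card_le_univ σ.support
  have : Fintype.card I + orbitCount σ =
      (σ.support.card + Multiset.card σ.cycleType) + 2 * (Fintype.card I - σ.support.card) := by
    omega
  rw [this, pow_add _ (_ + _) (2 * _), pow_mul]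
  simp

end Parity

section Linear

variable {I : Type}

/-- precomposition with a permutation on functions `I → ℚ` -/
def permMap (σ : Perm I) : (I → ℚ) →ₗ[ℚ] (I → ℚ) := LinearMap.funLeft ℚ ℚ σ

@[simp] theorem permMap_apply (σ : Perm I) (f : I → ℚ) (i : I) : permMap σ f i = f (σ i) := rfl

/-- `f ↦ f - f ∘ σ` -/
def dMap (σ : Perm I) : (I → ℚ) →ₗ[ℚ] (I → ℚ) := LinearMap.id - permMap σ

@[simp] theorem dMap_apply (σ : Perm I) (f : I → ℚ) (i : I) : dMap σ f i = f i - f (σ i) := rfl

theorem mem_ker_dMap (σ : Perm I) (f : I → ℚ) :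
    f ∈ LinearMap.ker (dMap σ) ↔ ∀ i, f (σ i) = f i := by
  rw [LinearMap.mem_ker]
  constructor
  · intro h i
    have := congrFun h i
    simp only [dMap_apply, Pi.zero_apply] at this
    linarith
  · intro h
    funext i
    simp [h i]

variable [Fintype I]

/-- the fixed space of `σ` has dimension the number of orbits -/
theorem finrank_ker_dMap (σ : Perm I) :
    Module.finrank ℚ (LinearMap.ker (dMap σ)) = orbitCount σ := by
  classical
  let Q := Quotient (Perm.SameCycle.setoid σ)
  -- linear equivalence with functions on the quotient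
  let e : (Q → ℚ) →ₗ[ℚ] (I → ℚ) := LinearMap.funLeft ℚ ℚ (Quotient.mk (Perm.SameCycle.setoid σ))
  have he_inj : Function.Injective e :=
    LinearMap.funLeft_injective_of_surjective ℚ ℚ _ Quotient.mk_surjective
  have he_range : LinearMap.range e = LinearMap.ker (dMap σ) := by
    ext f
    rw [mem_ker_dMap, LinearMap.mem_range]
    constructor
    · rintro ⟨g, rfl⟩ i
      change g (Quotient.mk _ (σ i)) = g (Quotient.mk _ i)
      congr 1
      apply Quotient.sound
      change σ.SameCycle (σ i) i
      exact (Perm.sameCycle_apply_left).mpr (Perm.SameCycle.refl _ _)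
    · intro h
      have hz : ∀ (k : ℤ) (i : I), f ((σ ^ k) i) = f i := by
        intro k
        induction k using Int.induction_on with
        | zero => intro i; simp
        | succ n ih =>
          intro i
          rw [zpow_add_one, Perm.mul_apply, ih, h]
        | pred n ih =>
          intro i
          rw [zpow_sub_one, Perm.mul_apply, ih]
          have h' := h (σ⁻¹ i)
          have h2 : σ (σ⁻¹ i) = i := by simp
          rw [h2] at h'
          exact h'.symm
      refine ⟨Quotient.lift f ?_, ?_⟩
      · intro a b hab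
        obtain ⟨k, hk⟩ := (hab : σ.SameCycle a b)
        rw [← hk, hz]
      · funext i; rfl
  have h1 : Module.finrank ℚ (LinearMap.range e) = Module.finrank ℚ (Q → ℚ) :=
    LinearMap.finrank_range_of_inj he_inj
  rw [← he_range, h1, Module.finrank_pi]
  unfold orbitCount
  rw [Nat.card_eq_fintype_card]

theorem finrank_range_dMap (σ : Perm I) :
    Module.finrank ℚ (LinearMap.range (dMap σ)) + orbitCount σ = Fintype.card I := by
  have := LinearMap.finrank_range_add_finrank_ker (dMap σ)
  rw [finrank_ker_dMap, Module.finrank_pi] at this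
  simpa using this

end Linear

section Main

variable {I : Type} [Fintype I]

omit [Fintype I] in
theorem apply_closure_eq {s u : Perm I} {f : I → ℚ} (hs : ∀ i, f (s i) = f i)
    (hu : ∀ i, f (u i) = f i) {g : Perm I} (hg : g ∈ Subgroup.closure {s, u}) :
    ∀ i, f (g i) = f i := by
  induction hg using Subgroup.closure_induction with
  | mem x hx =>
    rcases hx with rfl | hx
    · exact hs
    · rw [Set.mem_singleton_iff] at hx; subst hx; exact hu
  | one => intro i; rfl
  | mul x y _ _ hx hy => intro i; rw [Perm.mul_apply, hx, hy]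
  | inv x _ hx =>
    intro i
    have h' := hx (x⁻¹ i)
    have h2 : x (x⁻¹ i) = i := by simp
    rw [h2] at h'
    exact h'.symm

theorem dMap_single [DecidableEq I] (σ : Perm I) (i : I) :
    dMap σ (Pi.single (σ i) (1 : ℚ)) = Pi.single (σ i) (1 : ℚ) - Pi.single i (1 : ℚ) := by
  funext k
  simp only [dMap_apply, Pi.sub_apply, Pi.single_apply]
  have : (σ k = σ i) = (k = i) := by simp
  simp only [this]

theorem ree_ineq [Nonempty I] (s u t : Perm I) (h : s * u = t)
    (htr : ∀ i j, ∃ g ∈ Subgroup.closure {s, u}, g i = j) :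
    orbitCount s + orbitCount u + orbitCount t ≤ Fintype.card I + 2 := by
  classical
  let Ws := LinearMap.range (dMap s)
  let Wu := LinearMap.range (dMap u)
  let Wt := LinearMap.range (dMap t)
  let β : (I → ℚ) →ₗ[ℚ] (Ws × Wu × Wt) :=
    (dMap s).rangeRestrict.prod ((dMap u).rangeRestrict.prod (dMap t).rangeRestrict)
  let δ : (Ws × Wu × Wt) →ₗ[ℚ] (I → ℚ) :=
    (permMap u ∘ₗ Ws.subtype) ∘ₗ LinearMap.fst ℚ Ws (Wu × Wt)
      + Wu.subtype ∘ₗ LinearMap.fst ℚ Wu Wt ∘ₗ LinearMap.snd ℚ Ws (Wu × Wt)
      - Wt.subtype ∘ₗ LinearMap.snd ℚ Wu Wt ∘ₗ LinearMap.snd ℚ Ws (Wu × Wt)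
  have hδ : ∀ (a : Ws) (b : Wu) (c : Wt), δ (a, b, c) = permMap u (a : I → ℚ) + (b : I → ℚ)
      - (c : I → ℚ) := fun a b c => rfl
  have hβ : ∀ f, β f = (⟨dMap s f, LinearMap.mem_range_self _ f⟩,
      ⟨dMap u f, LinearMap.mem_range_self _ f⟩, ⟨dMap t f, LinearMap.mem_range_self _ f⟩) :=
    fun f => rfl
  -- δ ∘ β = 0
  have hδβ : LinearMap.range β ≤ LinearMap.ker δ := by
    rintro _ ⟨f, rfl⟩
    rw [LinearMap.mem_ker, hβ, hδ]
    funext i
    simp only [Pi.add_apply, Pi.sub_apply, permMap_apply, dMap_apply, Pi.zero_apply]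
    rw [← h, Perm.mul_apply]
    ring
  -- ker β consists of constants
  obtain ⟨i₀⟩ := ‹Nonempty I›
  have hker : Module.finrank ℚ (LinearMap.ker β) ≤ 1 := by
    have hle : LinearMap.ker β ≤ Submodule.span ℚ {(fun _ => 1 : I → ℚ)} := by
      intro f hf
      rw [LinearMap.mem_ker, hβ] at hf
      have h1 : dMap s f = 0 := by
        have := congrArg (fun p => (p.1 : I → ℚ)) hf
        exact this
      have h2 : dMap u f = 0 := by
        have := congrArg (fun p => (p.2.1 : I → ℚ)) hf
        exact this
      have hs := (mem_ker_dMap s f).mp h1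
      have hu := (mem_ker_dMap u f).mp h2
      rw [Submodule.mem_span_singleton]
      refine ⟨f i₀, ?_⟩
      funext j
      obtain ⟨g, hg, hgj⟩ := htr i₀ j
      have := apply_closure_eq hs hu hg i₀
      rw [hgj] at this
      simp [this]
    refine (Submodule.finrank_mono hle).trans ?_
    have hne : (fun _ => 1 : I → ℚ) ≠ 0 := fun h0 => by
      have := congrFun h0 i₀
      simp at this
    exact (finrank_span_singleton hne).le
  -- range δ is large
  have hsub_s : LinearMap.range (dMap s) ≤ LinearMap.range δ := by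
    rintro _ ⟨f, rfl⟩
    refine ⟨(⟨dMap s f, LinearMap.mem_range_self _ f⟩,
      ⟨dMap u (dMap s f), LinearMap.mem_range_self _ _⟩, 0), ?_⟩
    rw [hδ]
    funext i
    simp only [Pi.add_apply, Pi.sub_apply, permMap_apply, dMap_apply, ZeroMemClass.coe_zero,
      Pi.zero_apply]
    ring
  have hsub_u : LinearMap.range (dMap u) ≤ LinearMap.range δ := by
    rintro _ ⟨f, rfl⟩
    refine ⟨(0, ⟨dMap u f, LinearMap.mem_range_self _ f⟩, 0), ?_⟩
    rw [hδ]
    funext i
    simp
  have hdiff : ∀ (g : Perm I), g ∈ Subgroup.closure {s, u} → ∀ i,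
      (Pi.single (g i) (1 : ℚ) - Pi.single i (1 : ℚ) : I → ℚ) ∈ LinearMap.range δ := by
    intro g hg
    induction hg using Subgroup.closure_induction with
    | mem x hx =>
      intro i
      rcases hx with rfl | hx
      · rw [← dMap_single]; exact hsub_s (LinearMap.mem_range_self _ _)
      · rw [Set.mem_singleton_iff] at hx; subst hx
        rw [← dMap_single]; exact hsub_u (LinearMap.mem_range_self _ _)
    | one => intro i; simp
    | mul x y _ _ hx hy =>
      intro i
      have := Submodule.add_mem _ (hx (y i)) (hy i)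
      rw [Perm.mul_apply]
      convert this using 1
      abel
    | inv x _ hx =>
      intro i
      have h' := hx (x⁻¹ i)
      have h2 : x (x⁻¹ i) = i := by simp
      rw [h2] at h'
      have := Submodule.neg_mem _ h'
      convert this using 1
      abel
  have htop : (⊤ : Submodule ℚ (I → ℚ)) ≤
      LinearMap.range δ ⊔ Submodule.span ℚ {(Pi.single i₀ (1 : ℚ) : I → ℚ)} := by
    rw [← (Pi.basisFun ℚ I).span_eq, Submodule.span_le]
    rintro _ ⟨j, rfl⟩
    rw [Pi.basisFun_apply]
    obtain ⟨g, hg, hgj⟩ := htr i₀ j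
    have h1 := hdiff g hg i₀
    rw [hgj] at h1
    have h2 : (Pi.single i₀ (1 : ℚ) : I → ℚ) ∈ Submodule.span ℚ {(Pi.single i₀ (1 : ℚ) : I → ℚ)} :=
      Submodule.mem_span_singleton_self _
    have := Submodule.add_mem_sup h1 h2
    have e : (Pi.single j (1 : ℚ) : I → ℚ) =
        (Pi.single j (1 : ℚ) - Pi.single i₀ (1 : ℚ)) + Pi.single i₀ (1 : ℚ) := by abel
    rw [SetLike.mem_coe, e]
    exact this
  have hrange : Fintype.card I ≤ Module.finrank ℚ (LinearMap.range δ) + 1 := by
    have h1 : Module.finrank ℚ (⊤ : Submodule ℚ (I → ℚ)) ≤ _ := Submodule.finrank_mono htop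
    rw [finrank_top, Module.finrank_pi] at h1
    have h2 := Submodule.finrank_add_le_finrank_add_finrank (LinearMap.range δ)
      (Submodule.span ℚ {(Pi.single i₀ (1 : ℚ) : I → ℚ)})
    have h3 : Module.finrank ℚ (Submodule.span ℚ {(Pi.single i₀ (1 : ℚ) : I → ℚ)}) ≤ 1 := by
      have := finrank_span_le_card (R := ℚ) ({(Pi.single i₀ (1 : ℚ) : I → ℚ)} : Set (I → ℚ))
      simpa using this
    omega
  -- counting
  have c1 := LinearMap.finrank_range_add_finrank_ker β
  have c2 := LinearMap.finrank_range_add_finrank_ker δ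
  have c3 : Module.finrank ℚ (LinearMap.range β) ≤ Module.finrank ℚ (LinearMap.ker δ) :=
    Submodule.finrank_mono hδβ
  have c4 : Module.finrank ℚ (Ws × Wu × Wt) =
      Module.finrank ℚ Ws + (Module.finrank ℚ Wu + Module.finrank ℚ Wt) := by
    rw [Module.finrank_prod, Module.finrank_prod]
  have c5 : Module.finrank ℚ (I → ℚ) = Fintype.card I := by simp
  have es := finrank_range_dMap s
  have eu := finrank_range_dMap u
  have et := finrank_range_dMap t
  change Module.finrank ℚ Ws + _ = _ at es
  change Module.finrank ℚ Wu + _ = _ at eu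
  change Module.finrank ℚ Wt + _ = _ at et
  omega

/-- **Ree / Riemann-Hurwitz**: the genus of a transitive triple of permutations. -/
theorem ree_bound [Nonempty I] (s u t : Equiv.Perm I) (h : s * u = t)
    (htr : ∀ i j, ∃ g ∈ Subgroup.closure {s, u}, g i = j) :
    ∃ g : ℕ, (Fintype.card I : ℤ) - orbitCount s - orbitCount u - orbitCount t + 2 = 2 * g := by
  classical
  have hineq := ree_ineq s u t h htr
  have hsign : Perm.sign t = Perm.sign s * Perm.sign u := by rw [← h, map_mul]
  rw [sign_eq_neg_one_pow_orbitCount, sign_eq_neg_one_pow_orbitCount,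
    sign_eq_neg_one_pow_orbitCount, ← pow_add] at hsign
  have hpar : Even (Fintype.card I + orbitCount t + (Fintype.card I + orbitCount s +
      (Fintype.card I + orbitCount u))) := by
    by_contra hodd
    rw [Nat.not_even_iff_odd] at hodd
    have h1 : (-1 : ℤˣ) ^ (Fintype.card I + orbitCount t + (Fintype.card I + orbitCount s +
      (Fintype.card I + orbitCount u))) = 1 := by
      rw [pow_add, hsign, ← pow_add, ← two_mul, pow_mul]
      simp
    rw [Odd.neg_one_pow hodd] at h1
    exact absurd h1 (by decide)
  obtain ⟨m, hm⟩ := hpar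
  refine ⟨2 * Fintype.card I + 1 - m, ?_⟩
  omega

end Main


end Fermat.Agent.MC
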