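import Fermat.Agent.Lib.MC_Defs
import Fermat.Agent.Lib.MC_Ge
import Fermat.Agent.Lib.MC_Inst
import Fermat.Agent.Lib.MC_Ree
import Fermat.Agent.Lib.MC_Comb
import Fermat.Agent.Lib.MC_Deg2

set_option autoImplicit false

/-!
# T24 [B]-[E]: targets for the modular side (statements frozen)

The definitions (`Kb`, `FN`, `jF`, `PN`, `sP`, `tP`, `uP`) live in `MC_Defs.lean`; piece files
import `MC_Defs`, and this file imports the piece files and proves the targets.
-/

noncomputable section

namespace Fermat.Agent.MC

open ModularCurve AlgebraicCurve Fermat.Agent.FF CongruenceSubgroup IntermediateField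
open scoped MatrixGroups

section Analytic

variable (N : ℕ) [NeZero N]

theorem jF_transcendental : Transcendental Kb (jF N) :=
  transcendental_jF N

theorem finiteDimensional_FN : FiniteDimensional Kb⟮jF N⟯ (FN N) :=
  (finrank_FN_le_inst N).1

theorem finrank_FN_le_card : Module.finrank Kb⟮jF N⟯ (FN N) ≤ Fintype.card (PN N) :=
  (finrank_FN_le_inst N).2

theorem localData_generic (a : Kb) (h0 : a ≠ 0) (h1 : a ≠ 1728) :
    ∃ L : LocalData Kb (FN N) (jF N) a (PN N), L.e = 1 :=
  localData_generic_inst N a h0 h1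

theorem finrank_FN : Module.finrank Kb⟮jF N⟯ (FN N) = Fintype.card (PN N) := by
  have := finiteDimensional_FN N
  obtain ⟨L, -⟩ := localData_generic N 1 one_ne_zero (by norm_num)
  exact le_antisymm (finrank_FN_le_card N) (card_le_finrank_of_localData (jF N) 1 (PN N) L)

theorem localData_1728 :
    ∃ L : LocalData Kb (FN N) (jF N) 1728 (PN N), L.ρ = sP N ∨ L.ρ = (sP N)⁻¹ :=
  localData_1728_inst N

theorem localData_0 :
    ∃ L : LocalData Kb (FN N) (jF N) 0 (PN N), L.ρ = uP N ∨ L.ρ = (uP N)⁻¹ :=
  localData_0_inst N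

theorem localData_inf :
    ∃ L : LocalData Kb (FN N) (jF N)⁻¹ 0 (PN N), L.ρ = tP N ∨ L.ρ = (tP N)⁻¹ :=
  localData_inf_inst N

end Analytic

section EulerGlue

theorem mcm_neg_one_mem_Gamma0 (N : ℕ) : (-1 : SL(2, ℤ)) ∈ Gamma0 N := by
  rw [Gamma0_mem]
  simp

theorem mcm_sP_mul_uP (N : ℕ) : sP N * uP N = tP N := by
  ext x
  induction x using QuotientGroup.induction_on with | _ g => ?_
  show (ModularGroup.S • (ModularGroup.S * ModularGroup.T) • (QuotientGroup.mk g : PN N)) =
    ModularGroup.T • (QuotientGroup.mk g : PN N)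
  rw [← mul_smul]
  show (QuotientGroup.mk (ModularGroup.S * (ModularGroup.S * ModularGroup.T) * g) : PN N) =
    QuotientGroup.mk (ModularGroup.T * g)
  rw [QuotientGroup.eq]
  have hS : ModularGroup.S * ModularGroup.S = -1 := by
    apply Subtype.ext
    rw [Matrix.SpecialLinearGroup.coe_mul, ModularGroup.S_mul_S_eq]
    simp
  have h : (ModularGroup.S * (ModularGroup.S * ModularGroup.T) * g)⁻¹ * (ModularGroup.T * g) = -1 := by
    have e : ModularGroup.S * (ModularGroup.S * ModularGroup.T) * g = -(ModularGroup.T * g) := by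
      rw [← mul_assoc, hS, mul_assoc, neg_one_mul]
    rw [e]
    have e2 : (-(ModularGroup.T * g))⁻¹ = -(ModularGroup.T * g)⁻¹ := by
      rw [eq_comm, ← mul_eq_one_iff_eq_inv]
      simp
    rw [e2, neg_mul, inv_mul_cancel]
  rw [h]
  exact mcm_neg_one_mem_Gamma0 N

theorem mcm_transitive_sP_uP (N : ℕ) (i j : PN N) :
    ∃ g ∈ Subgroup.closure {sP N, uP N}, g i = j := by
  induction i using QuotientGroup.induction_on with | _ a => ?_
  induction j using QuotientGroup.induction_on with | _ b => ?_
  -- the group element moving `a` to `b`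
  have hmem : ∀ γ : SL(2, ℤ), γ ∈ Subgroup.closure {ModularGroup.S, ModularGroup.T} →
      (MulAction.toPerm γ : Equiv.Perm (PN N)) ∈ Subgroup.closure {sP N, uP N} := by
    intro γ hγ
    induction hγ using Subgroup.closure_induction with
    | mem x hx =>
      rcases hx with rfl | hx
      · exact Subgroup.subset_closure (by simp [sP])
      · rw [Set.mem_singleton_iff] at hx
        subst hx
        have : (MulAction.toPerm ModularGroup.T : Equiv.Perm (PN N)) = (sP N)⁻¹ * uP N := by
          ext x
          show ModularGroup.T • x = (ModularGroup.S)⁻¹ • (ModularGroup.S * ModularGroup.T) • x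
          rw [← mul_smul, inv_mul_cancel_left]
        rw [this]
        exact Subgroup.mul_mem _ (Subgroup.inv_mem _ (Subgroup.subset_closure (by simp)))
          (Subgroup.subset_closure (by simp))
    | one =>
      have : (MulAction.toPerm (1 : SL(2, ℤ)) : Equiv.Perm (PN N)) = 1 := by
        ext x; simp
      rw [this]; exact Subgroup.one_mem _
    | mul x y _ _ hx hy =>
      have : (MulAction.toPerm (x * y) : Equiv.Perm (PN N)) =
          MulAction.toPerm x * MulAction.toPerm y := by
        ext z; simp [mul_smul]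
      rw [this]; exact Subgroup.mul_mem _ hx hy
    | inv x _ hx =>
      have : (MulAction.toPerm (x⁻¹) : Equiv.Perm (PN N)) = (MulAction.toPerm x)⁻¹ := by
        ext z; simp
      rw [this]; exact Subgroup.inv_mem _ hx
  refine ⟨MulAction.toPerm (b * a⁻¹), hmem _ (by rw [SpecialLinearGroup.SL2Z_generators]; trivial), ?_⟩
  show ((b * a⁻¹) • (QuotientGroup.mk a : PN N)) = QuotientGroup.mk b
  show (QuotientGroup.mk (b * a⁻¹ * a) : PN N) = QuotientGroup.mk b
  simp

end EulerGlue

section Combinatorics

variable (N : ℕ) [NeZero N]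

theorem card_PN : Fintype.card (PN N) = dedekindPsi N := by
  rw [← Nat.card_eq_fintype_card]
  exact comb_card_PN N

theorem orbitCount_sP : 2 * orbitCount (sP N) = dedekindPsi N + nuTwo N :=
  comb_orbitCount_sP N

theorem orbitCount_uP : 3 * orbitCount (uP N) = dedekindPsi N + 2 * nuThree N :=
  comb_orbitCount_uP N

theorem orbitCount_tP : orbitCount (tP N) = cuspCount N :=
  comb_orbitCount_tP N

/-- Euler characteristic: even and at most 2 -/
theorem euler_PN : ∃ g : ℕ, (Fintype.card (PN N) : ℤ) - orbitCount (sP N) - orbitCount (uP N)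
    - orbitCount (tP N) + 2 = 2 * (g : ℤ) := by
  have : Nonempty (PN N) := ⟨QuotientGroup.mk 1⟩
  exact ree_bound (sP N) (uP N) (tP N) (mcm_sP_mul_uP N) (mcm_transitive_sP_uP N)

end Combinatorics

end Fermat.Agent.MC
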