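import Mathlib
import Fermat.Agent.Lib.MC_Main

set_option autoImplicit false

/-!
# T28 (S28), input (I): the degree of the function field of `X₀(N)` over `ℚ(j)` (helper1)

`deg_full_dependent` : any `ψ(N) + 1` elements of `modularFunctionFieldFull N ⊂ ℚ((q))` are
linearly dependent over `ℤ[j]`.  Obtained from `MC.finrank_FN` (degree `ψ(N)` over `ℚ̄(j)`) by
descent of linear relations from `ℚ̄` to `ℚ`.
-/

noncomputable section

namespace Fermat.Agent.IG

open ModularCurve Fermat.Agent.MC IntermediateField Polynomial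

variable (N : ℕ) [NeZero N]

/-- `ψ(N) + 1` elements of `FN N` are linearly dependent over `ℚ̄[j]` -/
theorem deg_dependent_bar (X : Fin (dedekindPsi N + 1) → FN N) :
    ∃ P : Fin (dedekindPsi N + 1) → Polynomial Kb, P ≠ 0 ∧
      ∑ i, (aeval (jF N) (P i) : FN N) * X i = 0 := by
  classical
  have hfd := finiteDimensional_FN N
  have hrank : Module.finrank Kb⟮jF N⟯ (FN N) = dedekindPsi N := by
    rw [finrank_FN, card_PN]
  have hdep : ¬LinearIndependent Kb⟮jF N⟯ X := by
    intro hli
    have := hli.fintype_card_le_finrank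
    rw [hrank, Fintype.card_fin] at this
    omega
  rw [Fintype.not_linearIndependent_iff] at hdep
  obtain ⟨g, hg, i₀, hi₀⟩ := hdep
  have hrs : ∀ i, ∃ r s : Polynomial Kb, aeval (jF N) s ≠ 0 ∧
      ((g i : Kb⟮jF N⟯) : FN N) * aeval (jF N) s = aeval (jF N) r := by
    intro i
    obtain ⟨r, s, hrs⟩ := (mem_adjoin_simple_iff Kb ((g i : Kb⟮jF N⟯) : FN N)).mp (g i).2
    by_cases hs : aeval (jF N) s = 0
    · refine ⟨0, 1, by simp, ?_⟩
      rw [hs, div_zero] at hrs
      rw [hrs]
      simp
    · exact ⟨r, s, hs, by rw [hrs, div_mul_cancel₀ _ hs]⟩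
  choose r s hs hr using hrs
  refine ⟨fun i => r i * ∏ k ∈ Finset.univ.erase i, s k, ?_, ?_⟩
  · intro h0
    have h1 := congrFun h0 i₀
    simp only [Pi.zero_apply] at h1
    have h2 := congrArg (aeval (jF N)) h1
    rw [map_mul, map_prod, map_zero] at h2
    rcases mul_eq_zero.mp h2 with h3 | h3
    · have h4 := hr i₀
      rw [h3] at h4
      rcases mul_eq_zero.mp h4 with h5 | h5
      · exact hi₀ (Subtype.ext (by simpa using h5))
      · exact hs i₀ h5
    · obtain ⟨k, -, hk⟩ := Finset.prod_eq_zero_iff.mp h3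
      exact hs k hk
  · have key : ∀ i, (aeval (jF N) (r i * ∏ k ∈ Finset.univ.erase i, s k) : FN N) * X i
        = (∏ k, aeval (jF N) (s k)) * (g i • X i) := by
      intro i
      rw [map_mul, map_prod, ← hr i, Algebra.smul_def,
        ← Finset.mul_prod_erase Finset.univ (fun k => aeval (jF N) (s k)) (Finset.mem_univ i)]
      show _ = _ * (((g i : Kb⟮jF N⟯) : FN N) * X i)
      ring
    simp_rw [key]
    rw [← Finset.mul_sum, hg, mul_zero]

/-- coefficients of `p(J) * y` in Laurent series -/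
theorem deg_coeff_aeval_mul {k : Type*} [Field k] (J y : LaurentSeries k) (p : Polynomial k)
    (m : ℤ) :
    (aeval J p * y).coeff m = ∑ e ∈ p.support, p.coeff e * (J ^ e * y).coeff m := by
  rw [Polynomial.aeval_def, Polynomial.eval₂_eq_sum, Polynomial.sum, Finset.sum_mul,
    HahnSeries.coeff_sum]
  refine Finset.sum_congr rfl fun e _ => ?_
  rw [mul_assoc, algebraMap_laurentSeries_eq_single, HahnSeries.coeff_single_zero_mul]

/-- `ψ(N) + 1` elements of the function field over `ℚ` are linearly dependent over `ℚ[j]` -/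
theorem deg_full_dependent_rat (x : Fin (dedekindPsi N + 1) → LaurentSeries ℚ)
    (hx : ∀ i, x i ∈ modularFunctionFieldFull N) :
    ∃ Q : Fin (dedekindPsi N + 1) → Polynomial ℚ, Q ≠ 0 ∧ ∑ i, aeval jq (Q i) * x i = 0 := by
  classical
  obtain ⟨P, hP0, hP⟩ := deg_dependent_bar N
    (fun i => (⟨coeffEmb Kb (x i), coeffEmb_mem_laurentBaseChange Kb (hx i)⟩ : FN N))
  have hP' : ∑ i, aeval (coeffEmb Kb jq) (P i) * coeffEmb Kb (x i) = 0 := by
    have h1 := congrArg (fun f : FN N => (f : LaurentSeries Kb)) hP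
    simp only [AddSubmonoidClass.coe_finsetSum, MulMemClass.coe_mul, ZeroMemClass.coe_zero,
      ← IntermediateField.aeval_coe] at h1
    exact h1
  obtain ⟨i₀, hi₀⟩ : ∃ i₀, P i₀ ≠ 0 := by
    by_contra h
    exact hP0 (funext fun i => not_not.mp ((not_exists.mp h) i))
  obtain ⟨k₀, hk₀⟩ : ∃ k₀, (P i₀).coeff k₀ ≠ 0 := by
    by_contra h
    exact hi₀ (Polynomial.ext fun k => by
      rw [Polynomial.coeff_zero]; exact not_not.mp ((not_exists.mp h) k))
  obtain ⟨lam, hlam⟩ := Module.Projective.exists_dual_ne_zero ℚ hk₀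
  let Q : Fin (dedekindPsi N + 1) → Polynomial ℚ := fun i =>
    ∑ k ∈ (P i).support, Polynomial.monomial k (lam ((P i).coeff k))
  have hQc : ∀ i k, (Q i).coeff k = lam ((P i).coeff k) := by
    intro i k
    simp only [Q, Polynomial.finsetSum_coeff, Polynomial.coeff_monomial]
    rw [Finset.sum_ite_eq']
    split_ifs with h
    · rfl
    · rw [Polynomial.notMem_support_iff.mp h, map_zero]
  refine ⟨Q, ?_, ?_⟩
  · intro h0
    have h1 : (Q i₀).coeff k₀ = 0 := by rw [h0]; simp
    rw [hQc] at h1
    exact hlam h1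
  · ext m
    rw [HahnSeries.coeff_sum, HahnSeries.coeff_zero]
    have h1 := congrArg (fun f : LaurentSeries Kb => f.coeff m) hP'
    simp only [HahnSeries.coeff_sum, HahnSeries.coeff_zero] at h1
    -- expand both sides
    have e1 : ∀ i, (aeval (coeffEmb Kb jq) (P i) * coeffEmb Kb (x i)).coeff m
        = ∑ e ∈ (P i).support, ((jq ^ e * x i).coeff m) • (P i).coeff e := by
      intro i
      rw [deg_coeff_aeval_mul]
      refine Finset.sum_congr rfl fun e _ => ?_
      rw [← map_pow, ← map_mul, coeffEmb_coeff, Algebra.smul_def, mul_comm]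
    have e2 : ∀ i, (aeval jq (Q i) * x i).coeff m
        = ∑ e ∈ (P i).support, ((jq ^ e * x i).coeff m) * lam ((P i).coeff e) := by
      intro i
      rw [deg_coeff_aeval_mul]
      have hsub : (Q i).support ⊆ (P i).support := by
        intro e he
        rw [Polynomial.mem_support_iff, hQc] at he
        rw [Polynomial.mem_support_iff]
        intro h0
        exact he (by rw [h0, map_zero])
      rw [Finset.sum_subset hsub (fun e _ he => by
        rw [Polynomial.notMem_support_iff.mp he, zero_mul])]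
      refine Finset.sum_congr rfl fun e _ => ?_
      rw [hQc, mul_comm]
    simp only [e1] at h1
    have h2 := congrArg lam h1
    rw [map_sum, map_zero] at h2
    simp only [map_sum, map_smul, smul_eq_mul] at h2
    simp only [e2]
    exact h2

/-- `evalAtJ` on an integral polynomial is `aeval j` on its image in `ℚ[X]` -/
theorem deg_evalAtJ_eq (c : Polynomial ℤ) :
    evalAtJ c = aeval jq (c.map (Int.castRingHom ℚ)) := by
  rw [Polynomial.aeval_def, Polynomial.eval₂_map]
  show Polynomial.eval₂ (algebraMap ℤ (LaurentSeries ℚ)) jq c = _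
  congr 1
  exact RingHom.ext_int _ _

/-- **`ψ(N) + 1` elements of the function field of `X₀(N)` over `ℚ` are linearly dependent over
`ℤ[j]`** (`evalAtJ : ℤ[X] →+* ℚ((q))`, `X ↦ j`) -/
theorem deg_full_dependent (x : Fin (dedekindPsi N + 1) → LaurentSeries ℚ)
    (hx : ∀ i, x i ∈ modularFunctionFieldFull N) :
    ∃ c : Fin (dedekindPsi N + 1) → Polynomial ℤ, c ≠ 0 ∧ ∑ i, evalAtJ (c i) * x i = 0 := by
  classical
  obtain ⟨Q, hQ0, hQ⟩ := deg_full_dependent_rat N x hx
  have hnorm : ∀ i, ∃ b : ℤ, b ≠ 0 ∧ ∃ c : Polynomial ℤ,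
      c.map (Int.castRingHom ℚ) = Polynomial.C (b : ℚ) * Q i := by
    intro i
    obtain ⟨b, hb, hc⟩ := IsLocalization.integerNormalization_spec (nonZeroDivisors ℤ) (Q i)
    refine ⟨b, nonZeroDivisors.ne_zero hb,
      IsLocalization.integerNormalization (nonZeroDivisors ℤ) (Q i), ?_⟩
    rw [show (Int.castRingHom ℚ) = algebraMap ℤ ℚ from rfl, hc, Algebra.smul_def]
    congr 1
  choose b hb c hc using hnorm
  set D : ℤ := ∏ k, b k with hD
  have hD0 : D ≠ 0 := Finset.prod_ne_zero_iff.mpr fun k _ => hb k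
  have hmap : ∀ i, (Polynomial.C (∏ k ∈ Finset.univ.erase i, b k) * c i).map (Int.castRingHom ℚ)
      = Polynomial.C (D : ℚ) * Q i := by
    intro i
    rw [Polynomial.map_mul, Polynomial.map_C, hc i, ← mul_assoc, ← Polynomial.C_mul, hD,
      ← Finset.mul_prod_erase Finset.univ b (Finset.mem_univ i)]
    congr 2
    simp only [eq_intCast]
    push_cast
    ring
  refine ⟨fun i => Polynomial.C (∏ k ∈ Finset.univ.erase i, b k) * c i, ?_, ?_⟩
  · intro h0
    apply hQ0
    funext i
    have h1 := hmap i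
    have h2 : Polynomial.C (∏ k ∈ Finset.univ.erase i, b k) * c i = 0 := congrFun h0 i
    rw [h2, Polynomial.map_zero] at h1
    rcases mul_eq_zero.mp h1.symm with h4 | h4
    · rw [Polynomial.C_eq_zero] at h4
      exact absurd (by exact_mod_cast h4) hD0
    · exact h4
  · have key : ∀ i, evalAtJ (Polynomial.C (∏ k ∈ Finset.univ.erase i, b k) * c i) * x i
        = algebraMap ℚ (LaurentSeries ℚ) (D : ℚ) * (aeval jq (Q i) * x i) := by
      intro i
      rw [deg_evalAtJ_eq, hmap i, map_mul, Polynomial.aeval_C, mul_assoc]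
    simp_rw [key]
    rw [← Finset.mul_sum, hQ, mul_zero]

end Fermat.Agent.IG
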