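import Mathlib
import Fermat.Prelude.Def_ModularCurve_X0ModL

set_option autoImplicit false

/-!
# S28 (Igusa): `θ = q d/dq` on Laurent series and the formal discriminant (helper8)

Purely formal (no analysis): `thetaL R` (additive map, Leibniz rule `theta_mul`, `theta_qExpand`,
`theta_coeffMap`, `theta_single`, `theta_ofPowerSeries`) and `deltaL R = q ∏ (1 - q^n)^24`
(`theta_coeffMap_deltaL`). The identity `(θ j)^6 = Δ j^4 (j - 1728)^3` is in `IG_Theta`.
-/

noncomputable section

namespace Fermat.Agent.IG

open ModularCurve

/-! ### The derivation `θ = q d/dq` on Laurent series -/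

section formal

open HahnSeries

variable (R : Type*) [CommRing R]

/-- the coefficient function of `θ f` -/
def thetaRaw (f : LaurentSeries R) : LaurentSeries R :=
  ⟨fun n => (n : R) * f.coeff n, f.isPWO_support.mono fun n hn => by
    simp only [Function.mem_support, ne_eq, HahnSeries.mem_support] at hn ⊢
    intro h
    exact hn (by rw [h, mul_zero])⟩

theorem theta_raw_coeff (f : LaurentSeries R) (n : ℤ) :
    (thetaRaw R f).coeff n = (n : R) * f.coeff n := rfl

theorem theta_raw_support (f : LaurentSeries R) : (thetaRaw R f).support ⊆ f.support := by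
  intro n hn
  simp only [HahnSeries.mem_support, ne_eq, theta_raw_coeff] at hn ⊢
  intro h
  exact hn (by rw [h, mul_zero])

theorem theta_raw_mul (f g : LaurentSeries R) :
    thetaRaw R (f * g) = f * thetaRaw R g + g * thetaRaw R f := by
  ext n
  rw [theta_raw_coeff, HahnSeries.coeff_add, mul_comm g, HahnSeries.coeff_mul,
    HahnSeries.coeff_mul_right' g.isPWO_support (theta_raw_support R g),
    HahnSeries.coeff_mul_left' f.isPWO_support (theta_raw_support R f),
    Finset.mul_sum, ← Finset.sum_add_distrib]
  refine Finset.sum_congr rfl fun ij hij => ?_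
  have h : ij.1 + ij.2 = n := (Finset.mem_antidiagonal.mp hij).2.2
  rw [theta_raw_coeff, theta_raw_coeff, ← h]
  push_cast
  ring

/-- `θ = q d/dq` on Laurent series, as an additive map (it is a derivation: `theta_mul`) -/
def thetaL : LaurentSeries R →+ LaurentSeries R where
  toFun := thetaRaw R
  map_zero' := by
    ext n
    simp [theta_raw_coeff]
  map_add' f g := by
    ext n
    simp [theta_raw_coeff, mul_add]

@[simp]
theorem theta_coeff (f : LaurentSeries R) (n : ℤ) :
    (thetaL R f).coeff n = (n : R) * f.coeff n := rfl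

theorem theta_mul (f g : LaurentSeries R) :
    thetaL R (f * g) = thetaL R f * g + f * thetaL R g := by
  have h := theta_raw_mul R f g
  show thetaRaw R (f * g) = thetaRaw R f * g + f * thetaRaw R g
  rw [h]
  ring

theorem theta_single (n : ℤ) (r : R) :
    thetaL R (HahnSeries.single n r) = HahnSeries.single n ((n : R) * r) := by
  ext m
  rw [theta_coeff]
  rcases eq_or_ne m n with rfl | hm
  · rw [HahnSeries.coeff_single_same, HahnSeries.coeff_single_same]
  · rw [HahnSeries.coeff_single_of_ne hm, HahnSeries.coeff_single_of_ne hm, mul_zero]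

theorem theta_ofPowerSeries (u : PowerSeries R) :
    thetaL R (HahnSeries.ofPowerSeries ℤ R u) =
      HahnSeries.ofPowerSeries ℤ R (PowerSeries.X * PowerSeries.derivative R u) := by
  ext k
  rw [theta_coeff]
  rcases le_or_gt 0 k with hk | hk
  · lift k to ℕ using hk
    rw [HahnSeries.ofPowerSeries_apply_coeff, HahnSeries.ofPowerSeries_apply_coeff]
    rcases k with _ | m
    · simp
    · rw [mul_comm PowerSeries.X, PowerSeries.coeff_succ_mul_X, PowerSeries.coeff_derivative]
      push_cast
      ring
  · rw [ofPowerSeries_coeff_of_neg _ hk, ofPowerSeries_coeff_of_neg _ hk, mul_zero]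

theorem theta_qExpand (d : ℕ) [NeZero d] (f : LaurentSeries R) :
    thetaL R (qExpand R d f) = d • qExpand R d (thetaL R f) := by
  ext n
  rw [theta_coeff, HahnSeries.coeff_nsmul, Pi.smul_apply]
  by_cases hn : (d : ℤ) ∣ n
  · obtain ⟨m, rfl⟩ := hn
    rw [qExpand_coeff_mul, qExpand_coeff_mul, theta_coeff]
    push_cast
    rw [nsmul_eq_mul]
    ring
  · rw [qExpand_coeff_of_not_dvd d f hn, qExpand_coeff_of_not_dvd d _ hn, mul_zero, smul_zero]

theorem theta_coeffMap {S : Type*} [CommRing S] (φ : R →+* S) (f : LaurentSeries R) :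
    coeffMap φ (thetaL R f) = thetaL S (coeffMap φ f) := by
  ext n
  simp

/-- the formal discriminant `Δ = q ∏ (1 - q^n)^24` -/
def deltaL : LaurentSeries R :=
  HahnSeries.single (1 : ℤ) (1 : R) *
    HahnSeries.ofPowerSeries ℤ R ((etaProd ^ 24).map (Int.castRingHom R))

theorem theta_coeffMap_deltaL {S : Type*} [CommRing S] (φ : R →+* S) :
    coeffMap φ (deltaL R) = deltaL S := by
  rw [deltaL, map_mul, coeffMap_single, map_one, coeffMap_ofPowerSeries,
    ← RingHom.comp_apply (PowerSeries.map φ) (PowerSeries.map (Int.castRingHom R)),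
    ← PowerSeries.map_comp, RingHom.ext_int (φ.comp (Int.castRingHom R)) (Int.castRingHom S)]
  rfl

theorem theta_map_int (u : PowerSeries ℤ) : PowerSeries.map (Int.castRingHom ℤ) u = u := by
  ext n
  simp

end formal

end Fermat.Agent.IG
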