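import Mathlib
import Fermat.Prelude.Def_ModularCurve_JqCoeff
import Fermat.Prelude.Thm_ModularCurve_coeff_jqModC_neg_one
import Fermat.Prelude.Thm_ModularCurve_coeff_jqModC_pow_of_lt
import Fermat.Prelude.Thm_ModularCurve_coeff_jqModC_pow_self
import Fermat.Agent.Lib.IG_ThetaDefs

set_option autoImplicit false

/-!
# S28 [B], input (nm): `j(q^p)` is not a rational function of `j(q)` in characteristic `≠ p`
(helper3)

On top of `IG_ThetaDefs` (`thetaL`, `deltaL`, helper8). Purely algebraic.

* `nm_thetaD` : `θ = q d/dq` bundled as a derivation of the `R`-algebra `LaurentSeries R`.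
* `nm_aeval_injective` : `j` is transcendental over `k`; `nm_ev : RatFunc k →+* LaurentSeries k`
  (evaluation at `j`), `nm_mem_adjoin`, `nm_theta_ev`.
* `nm_main` / `prm_not_mem` : if `(θ j)⁶ = Δ j⁴ (j - 1728)³` and `φ = Δ(q^p)/Δ(q)` is
  integral over `k[j]`, then `j(q^p) ∉ k(j)` (for `2 ≤ p`, `p ≠ 0` in `k`).
-/

noncomputable section

namespace Fermat.Agent.IG

open ModularCurve Polynomial

section Theta

variable {R : Type*} [CommRing R]

theorem nm_algebraMap_eq_C (r : R) : algebraMap R (LaurentSeries R) r = HahnSeries.C r := by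
  have h1 : algebraMap R (PowerSeries R) r = PowerSeries.C r := rfl
  rw [HahnSeries.algebraMap_apply', h1, HahnSeries.ofPowerSeries_C]

theorem nm_theta_algebraMap (r : R) : thetaL R (algebraMap R (LaurentSeries R) r) = 0 := by
  rw [nm_algebraMap_eq_C, HahnSeries.C_apply, theta_single]
  simp

variable (R) in
/-- `q d/dq` as a derivation -/
def nm_thetaD : Derivation R (LaurentSeries R) (LaurentSeries R) where
  toFun := thetaL R
  map_add' := map_add (thetaL R)
  map_smul' r f := by
    rw [RingHom.id_apply, Algebra.smul_def, theta_mul, nm_theta_algebraMap,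
      zero_mul, zero_add, nm_algebraMap_eq_C, HahnSeries.C_mul_eq_smul]
  map_one_eq_zero' := by
    have h := nm_theta_algebraMap (1 : R)
    rwa [map_one] at h
  leibniz' f g := by
    simp only [LinearMap.coe_mk, AddHom.coe_mk, smul_eq_mul]
    rw [theta_mul]
    ring

@[simp]
theorem nm_thetaD_apply (f : LaurentSeries R) : nm_thetaD R f = thetaL R f := rfl

theorem nm_deltaL_coeff_one : (deltaL R).coeff 1 = 1 := by
  have h := HahnSeries.coeff_single_mul_add (r := (1 : R)) (a := (0 : ℤ)) (b := (1 : ℤ))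
    (x := HahnSeries.ofPowerSeries ℤ R ((etaProd ^ 24).map (Int.castRingHom R)))
  rw [zero_add, one_mul] at h
  rw [deltaL, h]
  have h2 := HahnSeries.ofPowerSeries_apply_coeff (Γ := ℤ)
    ((etaProd ^ 24).map (Int.castRingHom R)) 0
  rw [Nat.cast_zero] at h2
  rw [h2, PowerSeries.coeff_map, PowerSeries.coeff_zero_eq_constantCoeff_apply, map_pow,
    constantCoeff_etaProd]
  simp

theorem nm_deltaL_ne_zero [Nontrivial R] : deltaL R ≠ 0 := by
  intro h
  have := nm_deltaL_coeff_one (R := R)
  rw [h] at this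
  simp at this

end Theta

section Main

variable (k : Type*) [Field k]

theorem nm_coeff_algebraMap_mul (c : k) (f : LaurentSeries k) (n : ℤ) :
    (algebraMap k (LaurentSeries k) c * f).coeff n = c * f.coeff n := by
  rw [nm_algebraMap_eq_C, HahnSeries.C_mul_eq_smul, HahnSeries.coeff_smul, smul_eq_mul]

/-- the coefficient of `q^(-deg P)` in `P(j)` is the leading coefficient of `P` -/
theorem nm_aeval_coeff (P : k[X]) :
    (aeval (jqModC k) P).coeff (-(P.natDegree : ℤ)) = P.leadingCoeff := by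
  rw [aeval_eq_sum_range, HahnSeries.coeff_sum, Finset.sum_eq_single P.natDegree]
  · rw [Algebra.smul_def, nm_coeff_algebraMap_mul, coeff_jqModC_pow_self, mul_one]
    rfl
  · intro i hi hne
    have hlt : i < P.natDegree := lt_of_le_of_ne (Nat.lt_succ_iff.mp (Finset.mem_range.mp hi)) hne
    rw [Algebra.smul_def, nm_coeff_algebraMap_mul,
      coeff_jqModC_pow_of_lt k (by exact_mod_cast neg_lt_neg (Int.ofNat_lt.mpr hlt)), mul_zero]
  · intro h
    exact absurd (Finset.mem_range.mpr (Nat.lt_succ_self _)) h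

/-- `j` is transcendental over `k` -/
theorem nm_aeval_injective :
    Function.Injective (aeval (jqModC k) : k[X] → LaurentSeries k) := by
  rw [injective_iff_map_eq_zero]
  intro P hP
  have h := nm_aeval_coeff k P
  rw [hP, HahnSeries.coeff_zero] at h
  exact leadingCoeff_eq_zero.mp h.symm

/-- evaluation of rational functions at `j` -/
def nm_ev : RatFunc k →+* LaurentSeries k :=
  RatFunc.liftRingHom (aeval (jqModC k) : k[X] →ₐ[k] LaurentSeries k).toRingHom
    (nonZeroDivisors_le_comap_nonZeroDivisors_of_injective _ (nm_aeval_injective k))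

theorem nm_ev_div (P Q : k[X]) :
    nm_ev k (algebraMap k[X] (RatFunc k) P / algebraMap k[X] (RatFunc k) Q) =
      aeval (jqModC k) P / aeval (jqModC k) Q :=
  RatFunc.liftRingHom_apply_div _ _ P Q

theorem nm_ev_algebraMap (P : k[X]) :
    nm_ev k (algebraMap k[X] (RatFunc k) P) = aeval (jqModC k) P := by
  have h := nm_ev_div k P 1
  rwa [map_one, div_one, map_one, div_one] at h

theorem nm_ev_X : nm_ev k RatFunc.X = jqModC k := by
  rw [← RatFunc.algebraMap_X, nm_ev_algebraMap, aeval_X]

theorem nm_mem_adjoin {x : LaurentSeries k}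
    (hx : x ∈ IntermediateField.adjoin k {jqModC k}) : ∃ r : RatFunc k, x = nm_ev k r := by
  obtain ⟨P, Q, rfl⟩ := (IntermediateField.mem_adjoin_simple_iff k x).mp hx
  exact ⟨_, (nm_ev_div k P Q).symm⟩

theorem nm_ev_mem_adjoin (r : RatFunc k) : nm_ev k r ∈ IntermediateField.adjoin k {jqModC k} := by
  induction r using RatFunc.induction_on with
  | f P Q hQ =>
    rw [nm_ev_div]
    exact (IntermediateField.mem_adjoin_simple_iff k _).mpr ⟨P, Q, rfl⟩

/-- `θ` of a rational function of `j` is a rational function of `j` times `θ j` -/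
theorem nm_theta_ev (r : RatFunc k) :
    ∃ s : RatFunc k, thetaL k (nm_ev k r) = nm_ev k s * thetaL k (jqModC k) := by
  induction r using RatFunc.induction_on with
  | f P Q hQ =>
    refine ⟨(algebraMap k[X] (RatFunc k) Q * algebraMap k[X] (RatFunc k) (derivative P) -
      algebraMap k[X] (RatFunc k) P * algebraMap k[X] (RatFunc k) (derivative Q)) /
        (algebraMap k[X] (RatFunc k) Q) ^ 2, ?_⟩
    have h := (nm_thetaD k).leibniz_div (aeval (jqModC k) P) (aeval (jqModC k) Q)
    rw [Derivation.map_aeval, Derivation.map_aeval] at h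
    simp only [nm_thetaD_apply, smul_eq_mul] at h
    rw [nm_ev_div, h, map_div₀, map_sub, map_mul, map_mul, map_pow, nm_ev_algebraMap,
      nm_ev_algebraMap, nm_ev_algebraMap, nm_ev_algebraMap]
    ring

theorem nm_jq_ne_zero : jqModC k ≠ 0 := by
  intro h
  have := coeff_jqModC_neg_one k
  rw [h] at this
  simp at this

theorem nm_jq_sub_ne_zero (c : k) : jqModC k - algebraMap k (LaurentSeries k) c ≠ 0 := by
  intro h
  have h1 := congrArg (fun f : LaurentSeries k => f.coeff (-1)) h
  simp only [HahnSeries.coeff_sub, HahnSeries.coeff_zero] at h1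
  rw [coeff_jqModC_neg_one, nm_algebraMap_eq_C, HahnSeries.C_apply, HahnSeries.coeff_single] at h1
  simp at h1

/-- an element integral over `k[j]` is a root of a monic polynomial with coefficients
polynomials in `j` -/
theorem nm_lift_integral {x : LaurentSeries k}
    (hx : IsIntegral (Algebra.adjoin k {jqModC k}) x) :
    ∃ F : Polynomial (Polynomial k), F.Monic ∧
      F.eval₂ (aeval (jqModC k) : k[X] →ₐ[k] LaurentSeries k).toRingHom x = 0 := by
  obtain ⟨f, hf, hfx⟩ := hx
  have hmem : ∀ P : k[X], aeval (jqModC k) P ∈ Algebra.adjoin k {jqModC k} := fun P => by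
    rw [Algebra.adjoin_singleton_eq_range_aeval]
    exact ⟨P, rfl⟩
  let φ : k[X] →+* Algebra.adjoin k {jqModC k} :=
    ((aeval (jqModC k) : k[X] →ₐ[k] LaurentSeries k).codRestrict _ hmem).toRingHom
  have hφ : Function.Surjective φ := by
    rintro ⟨y, hy⟩
    rw [Algebra.adjoin_singleton_eq_range_aeval] at hy
    obtain ⟨P, rfl⟩ := hy
    exact ⟨P, rfl⟩
  obtain ⟨F, hFf, -, hFm⟩ := Polynomial.lifts_and_natDegree_eq_and_monic
    ((Polynomial.mem_lifts f).mpr (Polynomial.map_surjective φ hφ f)) hf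
  refine ⟨F, hFm, ?_⟩
  have hcomp : (algebraMap (Algebra.adjoin k {jqModC k}) (LaurentSeries k)).comp φ =
      (aeval (jqModC k) : k[X] →ₐ[k] LaurentSeries k).toRingHom := RingHom.ext fun P => rfl
  rw [← hcomp, ← Polynomial.eval₂_map, hFf]
  exact hfx

/-- the lowest coefficient of a product -/
theorem nm_coeff_mul_of_low {R : Type*} [CommRing R] (f g : LaurentSeries R) (m m' : ℤ)
    (hf : ∀ n < m, f.coeff n = 0) (hg : ∀ n < m', g.coeff n = 0) :
    (f * g).coeff (m + m') = f.coeff m * g.coeff m' := by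
  rw [HahnSeries.coeff_mul]
  rw [Finset.sum_eq_single (m, m')]
  · rintro ⟨a, b⟩ hab hne
    exfalso
    obtain ⟨ha, hb, hsum⟩ := Finset.mem_antidiagonal.mp hab
    have ha' : m ≤ a := not_lt.mp fun h => (HahnSeries.mem_support _ _).mp ha (hf a h)
    have hb' : m' ≤ b := not_lt.mp fun h => (HahnSeries.mem_support _ _).mp hb (hg b h)
    simp only at hsum
    have h1 : a = m := by omega
    have h2 : b = m' := by omega
    exact hne (by rw [h1, h2])
  · intro hnot
    by_cases h0 : f.coeff m = 0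
    · rw [h0, zero_mul]
    · by_cases h0' : g.coeff m' = 0
      · rw [h0', mul_zero]
      · exact absurd (Finset.mem_antidiagonal.mpr ⟨(HahnSeries.mem_support _ _).mpr h0,
          (HahnSeries.mem_support _ _).mpr h0', rfl⟩) hnot

theorem nm_deltaL_coeff_of_lt {R : Type*} [CommRing R] {n : ℤ} (hn : n < 1) :
    (deltaL R).coeff n = 0 := by
  have h := HahnSeries.coeff_single_mul_add (r := (1 : R)) (a := n - 1) (b := (1 : ℤ))
    (x := HahnSeries.ofPowerSeries ℤ R ((etaProd ^ 24).map (Int.castRingHom R)))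
  rw [sub_add_cancel, one_mul] at h
  rw [deltaL, h]
  exact ofPowerSeries_coeff_of_neg _ (by omega)

theorem nm_aeval_coeff_of_lt (P : k[X]) {n : ℤ} (hn : n < -(P.natDegree : ℤ)) :
    (aeval (jqModC k) P).coeff n = 0 := by
  rw [aeval_eq_sum_range, HahnSeries.coeff_sum]
  refine Finset.sum_eq_zero fun i hi => ?_
  have hle : i ≤ P.natDegree := Nat.lt_succ_iff.mp (Finset.mem_range.mp hi)
  rw [Algebra.smul_def, nm_coeff_algebraMap_mul,
    coeff_jqModC_pow_of_lt k (by have := Int.ofNat_le.mpr hle; omega), mul_zero]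

/-- **(nm)**, polynomial form: `j(q^p)` is not a rational function of `j(q)` -/
theorem nm_main {p : ℕ} [NeZero p] (hp2 : 2 ≤ p) (hpk : (p : k) ≠ 0)
    (hTheta : thetaL k (jqModC k) ^ 6 = deltaL k * jqModC k ^ 4 * (jqModC k - 1728) ^ 3)
    (F : Polynomial (Polynomial k)) (hF : F.Monic)
    (hFφ : F.eval₂ (aeval (jqModC k) : k[X] →ₐ[k] LaurentSeries k).toRingHom
      (qExpand k p (deltaL k) / deltaL k) = 0) :
    qExpand k p (jqModC k) ∉ IntermediateField.adjoin k {jqModC k} := by
  intro hmem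
  obtain ⟨r, hr⟩ := nm_mem_adjoin k hmem
  obtain ⟨s, hs⟩ := nm_theta_ev k r
  have hJ0 : jqModC k ≠ 0 := nm_jq_ne_zero k
  have h1728 : (1728 : LaurentSeries k) = algebraMap k (LaurentSeries k) 1728 := by
    rw [map_ofNat]
  have hJ1 : jqModC k - 1728 ≠ 0 := by
    rw [h1728]; exact nm_jq_sub_ne_zero k 1728
  have hΔ : deltaL k ≠ 0 := nm_deltaL_ne_zero
  have hΔp : qExpand k p (deltaL k) ≠ 0 := (_root_.map_ne_zero _).mpr hΔ
  have hpL : (p : LaurentSeries k) ≠ 0 := by
    rw [← map_natCast (algebraMap k (LaurentSeries k))]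
    exact (_root_.map_ne_zero _).mpr hpk
  have hr0 : nm_ev k r ≠ 0 := by
    rw [← hr]; exact (_root_.map_ne_zero _).mpr hJ0
  have hr1 : nm_ev k r - 1728 ≠ 0 := by
    have : qExpand k p (jqModC k - 1728) ≠ 0 := (_root_.map_ne_zero _).mpr hJ1
    rwa [map_sub, map_ofNat, hr] at this
  -- apply `θ` to `j(q^p) = r(j)`
  have h1 : (p : LaurentSeries k) * qExpand k p (thetaL k (jqModC k)) =
      nm_ev k s * thetaL k (jqModC k) := by
    rw [← nsmul_eq_mul, ← theta_qExpand, hr, hs]
  have h2 : (p : LaurentSeries k) ^ 6 * (qExpand k p (deltaL k) * nm_ev k r ^ 4 *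
      (nm_ev k r - 1728) ^ 3) =
      nm_ev k s ^ 6 * (deltaL k * jqModC k ^ 4 * (jqModC k - 1728) ^ 3) := by
    have h3 := congrArg (fun x => x ^ 6) h1
    simp only [mul_pow] at h3
    rw [← map_pow, hTheta, map_mul, map_mul, map_pow, map_pow, map_sub, map_ofNat, hr] at h3
    exact h3
  -- `φ` is a rational function of `j`
  obtain ⟨t, ht⟩ : ∃ t : RatFunc k, qExpand k p (deltaL k) / deltaL k = nm_ev k t := by
    refine ⟨s ^ 6 * RatFunc.X ^ 4 * (RatFunc.X - 1728) ^ 3 /
      ((p : RatFunc k) ^ 6 * r ^ 4 * (r - 1728) ^ 3), ?_⟩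
    rw [map_div₀, map_mul, map_mul, map_mul, map_mul, map_pow, map_pow, map_pow,
      map_pow, map_pow, map_pow, map_sub, map_sub, nm_ev_X, map_natCast, map_ofNat]
    field_simp
    linear_combination h2
  have hcomp : (nm_ev k).comp (algebraMap k[X] (RatFunc k)) =
      (aeval (jqModC k) : k[X] →ₐ[k] LaurentSeries k).toRingHom :=
    RingHom.ext fun P => nm_ev_algebraMap k P
  -- hence a polynomial in `j`, by integrality
  have hint : IsIntegral k[X] t := by
    refine ⟨F, hF, (nm_ev k).injective ?_⟩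
    rw [map_zero, Polynomial.hom_eval₂, hcomp, ← ht]
    exact hFφ
  obtain ⟨a, ha⟩ := IsIntegrallyClosed.isIntegral_iff.mp hint
  have h4 : qExpand k p (deltaL k) = aeval (jqModC k) a * deltaL k := by
    have h5 : qExpand k p (deltaL k) / deltaL k = aeval (jqModC k) a := by
      rw [ht, ← ha, nm_ev_algebraMap]
    rw [← h5, div_mul_cancel₀ _ hΔ]
  -- compare the coefficients of `q^(1 - deg a)`
  have h6 := congrArg (fun f : LaurentSeries k => f.coeff (-(a.natDegree : ℤ) + 1)) h4
  rw [nm_coeff_mul_of_low _ _ _ _ (fun n hn => nm_aeval_coeff_of_lt k a hn)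
    (fun n hn => nm_deltaL_coeff_of_lt hn), nm_aeval_coeff, nm_deltaL_coeff_one, mul_one] at h6
  have h7 : (qExpand k p (deltaL k)).coeff (-(a.natDegree : ℤ) + 1) = 0 := by
    by_cases hdvd : (p : ℤ) ∣ -(a.natDegree : ℤ) + 1
    · obtain ⟨m, hm⟩ := hdvd
      rw [hm, qExpand_coeff_mul]
      apply nm_deltaL_coeff_of_lt
      by_contra hm1
      have hm1' : 1 ≤ m := not_lt.mp hm1
      have hp2' : (2 : ℤ) ≤ (p : ℤ) := by exact_mod_cast hp2
      nlinarith [Int.natCast_nonneg a.natDegree]
    · exact qExpand_coeff_of_not_dvd p _ hdvd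
  rw [h7] at h6
  have ha0 : a = 0 := leadingCoeff_eq_zero.mp h6.symm
  rw [ha0, map_zero, zero_mul] at h4
  exact hΔp h4

/-- **(nm)**: `j(q^p)` is not a rational function of `j(q)` when `p` is invertible in `k`,
given the `θ`-identity and the integrality of `Δ(q^p)/Δ(q)` over `k[j]`. -/
theorem prm_not_mem (p : ℕ) [NeZero p] (hp : 2 ≤ p) (hpk : (p : k) ≠ 0)
    (hTheta : thetaL k (jqModC k) ^ 6 = deltaL k * jqModC k ^ 4 * (jqModC k - 1728) ^ 3)
    (h1 : IsIntegral (Algebra.adjoin k {jqModC k}) (qExpand k p (deltaL k) / deltaL k)) :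
    qExpand k p (jqModC k) ∉ IntermediateField.adjoin k {jqModC k} := by
  obtain ⟨F, hF, hFφ⟩ := nm_lift_integral k h1
  exact nm_main k hp hpk hTheta F hF hFφ

end Main

end Fermat.Agent.IG
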