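import Mathlib
import Fermat.Prelude.Def_ModularCurve_X0ModL
import Fermat.Agent.Lib.IG_Defs
import Fermat.Agent.Lib.IG_Deg
import Fermat.Agent.Lib.IG_NM

set_option autoImplicit false

/-!
# S28: bridge lemmas between the packages (helper3)

* `brg_hbeta` : elements of the lattice `igA N = ℤ[J_d : d ∣ N]` lie in the function field.
* `brg_hdep`  : from `deg_full_dependent`: every element of the function field is a `ℤ[j]`-linear
  combination of `ψ(N)` given elements, up to a `ℤ[j]`-multiple.
* `brg_hind`  : linear independence over `k(j)` in polynomial form.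
* `brg_jq_inv` : `1 / j` has integral coefficients.
* `prm_not_mem_h1` : alias of `prm_not_mem`.
-/

noncomputable section

namespace Fermat.Agent.IG

open ModularCurve Polynomial

/-- the rational form of an element of the lattice `ℤ[J_d : d ∣ N]` lies in the function field -/
theorem brg_hbeta (N : ℕ) [NeZero N] {b : LaurentSeries ℤ} (hb : b ∈ igA N) :
    coeffMap (Int.castRingHom ℚ) b ∈ modularFunctionFieldFull N := by
  unfold igA at hb
  induction hb using Algebra.adjoin_induction with
  | mem x hx =>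
    obtain ⟨d, hd, hdN, rfl⟩ := hx
    rw [coeffMap_qExpand, coeffMap_jqModC, jqModC_rat]
    exact jqd_mem_full N hdN
  | algebraMap r =>
    rw [eq_intCast, map_intCast]
    exact intCast_mem _ r
  | add x y _ _ hx hy =>
    rw [map_add]
    exact add_mem hx hy
  | mul x y _ _ hx hy =>
    rw [map_mul]
    exact mul_mem hx hy

/-- every element of the function field is, up to a multiple in `ℤ[j]`, a `ℤ[j]`-combination
of any `ψ(N)` given elements (or these are `ℤ[j]`-dependent) -/
theorem brg_hdep (N : ℕ) [NeZero N] (β : Fin (dedekindPsi N) → LaurentSeries ℤ)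
    (hβ : ∀ i, coeffMap (Int.castRingHom ℚ) (β i) ∈ modularFunctionFieldFull N) :
    ∀ x ∈ modularFunctionFieldFull N, ∃ (s : Polynomial ℤ)
      (c : Fin (dedekindPsi N) → Polynomial ℤ), (s ≠ 0 ∨ c ≠ 0) ∧
        evalAtJ s * x = ∑ i, evalAtJ (c i) * coeffMap (Int.castRingHom ℚ) (β i) := by
  intro x hx
  obtain ⟨c', hc0, hc⟩ := deg_full_dependent N
    (Fin.snoc (fun i => coeffMap (Int.castRingHom ℚ) (β i)) x : Fin (dedekindPsi N + 1) →
      LaurentSeries ℚ)
    (fun i => by
      refine Fin.lastCases ?_ (fun j => ?_) i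
      · rw [Fin.snoc_last]; exact hx
      · rw [Fin.snoc_castSucc]; exact hβ j)
  rw [Fin.sum_univ_castSucc] at hc
  simp only [Fin.snoc_castSucc, Fin.snoc_last] at hc
  refine ⟨c' (Fin.last _), fun i => -c' (Fin.castSucc i), ?_, ?_⟩
  · by_contra hcon
    push Not at hcon
    obtain ⟨h1, h2⟩ := hcon
    apply hc0
    funext i
    refine Fin.lastCases ?_ (fun j => ?_) i
    · exact h1
    · have := congrFun h2 j
      simpa using this
  · simp only [map_neg, neg_mul, Finset.sum_neg_distrib]
    linear_combination hc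

/-- linear independence over `k(j)` gives independence with polynomial coefficients -/
theorem brg_hind {k : Type*} [Field k] {m : ℕ} (v : Fin m → LaurentSeries k)
    (h : LinearIndependent ↥(IntermediateField.adjoin k {jqModC k}) v) :
    ∀ c : Fin m → Polynomial k, ∑ i, Polynomial.aeval (jqModC k) (c i) * v i = 0 →
      ∀ i, c i = 0 := by
  intro c hc i
  have hmem : ∀ P : Polynomial k,
      aeval (jqModC k) P ∈ IntermediateField.adjoin k {jqModC k} := fun P =>
    IntermediateField.algebra_adjoin_le_adjoin k _ (aeval_mem_adjoin_singleton k (jqModC k))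
  have h2 := Fintype.linearIndependent_iff.mp h
    (fun i => (⟨aeval (jqModC k) (c i), hmem (c i)⟩ : IntermediateField.adjoin k {jqModC k}))
    (by
      rw [← hc]
      exact Finset.sum_congr rfl fun i _ => rfl) i
  have h3 : aeval (jqModC k) (c i) = 0 := congrArg Subtype.val h2
  exact (injective_iff_map_eq_zero (aeval (jqModC k) : Polynomial k →ₐ[k] LaurentSeries k)).mp
    (nm_aeval_injective k) _ h3

/-- `1 / j` has integral coefficients -/
theorem brg_jq_inv : ∃ y : LaurentSeries ℤ, coeffMap (Int.castRingHom ℚ) y * jq = 1 := by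
  refine ⟨HahnSeries.single (1 : ℤ) (1 : ℤ) *
    HahnSeries.ofPowerSeries ℤ ℤ (jNum.invOfUnit 1), ?_⟩
  have h1 : (jNum.invOfUnit 1).map (Int.castRingHom ℚ) * jNumQ = 1 := by
    rw [jNumQ, ← map_mul, mul_comm, PowerSeries.mul_invOfUnit _ _ (by
      rw [constantCoeff_jNum]; rfl), map_one]
  have h2 : HahnSeries.single (1 : ℤ) (1 : ℚ) * HahnSeries.single (-1 : ℤ) (1 : ℚ) = 1 := by
    rw [HahnSeries.single_mul_single]
    simp
  have hjq : jq = HahnSeries.single (-1 : ℤ) (1 : ℚ) * HahnSeries.ofPowerSeries ℤ ℚ jNumQ := rfl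
  rw [map_mul, coeffMap_single, coeffMap_ofPowerSeries, map_one, hjq]
  calc HahnSeries.single (1 : ℤ) (1 : ℚ) *
        HahnSeries.ofPowerSeries ℤ ℚ ((jNum.invOfUnit 1).map (Int.castRingHom ℚ)) *
        (HahnSeries.single (-1 : ℤ) (1 : ℚ) * HahnSeries.ofPowerSeries ℤ ℚ jNumQ)
      = (HahnSeries.single (1 : ℤ) (1 : ℚ) * HahnSeries.single (-1 : ℤ) (1 : ℚ)) *
        (HahnSeries.ofPowerSeries ℤ ℚ ((jNum.invOfUnit 1).map (Int.castRingHom ℚ)) *
          HahnSeries.ofPowerSeries ℤ ℚ jNumQ) := by ring
    _ = 1 := by rw [h2, ← map_mul, h1, map_one, mul_one]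

/-- alias of `prm_not_mem` (only the integrality of `Δ(q^p)/Δ(q)` is needed) -/
theorem prm_not_mem_h1 (k : Type*) [Field k] (p : ℕ) [NeZero p] (hp : 2 ≤ p) (hpk : (p : k) ≠ 0)
    (hTheta : thetaL k (jqModC k) ^ 6 = deltaL k * jqModC k ^ 4 * (jqModC k - 1728) ^ 3)
    (h1 : IsIntegral (Algebra.adjoin k {jqModC k}) (qExpand k p (deltaL k) / deltaL k)) :
    qExpand k p (jqModC k) ∉ IntermediateField.adjoin k {jqModC k} :=
  prm_not_mem k p hp hpk hTheta h1

end Fermat.Agent.IG
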