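import Mathlib
import Fermat.Agent.Lib.MC_J

set_option autoImplicit false

/-!
# S28 (Igusa), inputs [A1]/[A2]: the two `SL(2,ℤ)`-permuted families at a prime level (helper4)

* `affH a b d τ` : the point `(a τ + b) / d` of the upper half plane.
* `jFam p` : the family `j(p τ)`, `j((τ + b) / p)` (`b < p`), indexed by `Option (Fin p)`.
* `dFam p` : the family `p¹² Δ(p τ) / Δ(τ)`, `Δ((τ + b) / p) / Δ(τ)`.
-/

noncomputable section

namespace Fermat.Agent.IG

open UpperHalfPlane Fermat.Agent.MC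
open scoped Real

/-- the point `(a τ + b) / d` of the upper half plane (junk if `a = 0` or `d = 0`) -/
def affH (a b d : ℕ) (τ : ℍ) : ℍ := ofComplex (((a : ℂ) * τ + b) / d)

theorem affH_im_pos {a d : ℕ} (b : ℕ) (ha : 0 < a) (hd : 0 < d) (τ : ℍ) :
    0 < (((a : ℂ) * τ + b) / d).im := by
  have h1 : (((a : ℂ) * τ + b) / d) = (((a : ℝ) / d : ℝ) : ℂ) * τ + ((b : ℝ) / d : ℝ) := by
    have hdC : (d : ℂ) ≠ 0 := by exact_mod_cast hd.ne'
    push_cast
    field_simp
  rw [h1]
  simp only [Complex.add_im, Complex.mul_im, Complex.ofReal_re, Complex.ofReal_im, zero_mul,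
    add_zero]
  have : (0 : ℝ) < (a : ℝ) / d := div_pos (by exact_mod_cast ha) (by exact_mod_cast hd)
  exact mul_pos this τ.im_pos

theorem affH_coe {a d : ℕ} (b : ℕ) (ha : 0 < a) (hd : 0 < d) (τ : ℍ) :
    ((affH a b d τ : ℍ) : ℂ) = ((a : ℂ) * τ + b) / d := by
  rw [affH, ofComplex_apply_of_im_pos (affH_im_pos b ha hd τ)]

/-- the standard primitive `p`-th root of unity `exp(2πi/p)` -/
def zetaC (p : ℕ) : ℂ := Complex.exp (2 * π * Complex.I / p)

theorem zetaC_ne_zero (p : ℕ) : zetaC p ≠ 0 := Complex.exp_ne_zero _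

/-- the family `j(p τ)`, `j((τ + b) / p)` -/
def jFam (p : ℕ) : Option (Fin p) → ℍ → ℂ
  | none => fun τ => jfun (affH p 0 1 τ)
  | some b => fun τ => jfun (affH 1 b p τ)

/-- the family `p¹² Δ(p τ) / Δ(τ)`, `Δ((τ + b) / p) / Δ(τ)` -/
def dFam (p : ℕ) : Option (Fin p) → ℍ → ℂ
  | none => fun τ => (p : ℂ) ^ 12 * ModularForm.discriminant (affH p 0 1 τ)
      / ModularForm.discriminant τ
  | some b => fun τ => ModularForm.discriminant (affH 1 b p τ) / ModularForm.discriminant τ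

theorem jFam_none (p : ℕ) (τ : ℍ) : jFam p none τ = jfun (affH p 0 1 τ) := rfl

theorem jFam_some (p : ℕ) (b : Fin p) (τ : ℍ) : jFam p (some b) τ = jfun (affH 1 b p τ) := rfl

theorem dFam_none (p : ℕ) (τ : ℍ) : dFam p none τ =
    (p : ℂ) ^ 12 * ModularForm.discriminant (affH p 0 1 τ) / ModularForm.discriminant τ := rfl

theorem dFam_some (p : ℕ) (b : Fin p) (τ : ℍ) : dFam p (some b) τ =
    ModularForm.discriminant (affH 1 b p τ) / ModularForm.discriminant τ := rfl

end Fermat.Agent.IG
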