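import Mathlib
import Fermat.Agent.Lib.MC_Local
import Fermat.Agent.Lib.MC_Inst
import Fermat.Agent.Lib.IG_Defs
import Fermat.Agent.Lib.IG_FamDefs

set_option autoImplicit false

/-!
# S28 (Igusa), inputs [A1]/[A2]: expansions of the two families in `u = exp(2πiτ/p)` (helper4)

All expansions are taken in the expansion system `MC.cuspSys p` (holomorphic, `p`-periodic,
meromorphic at `i∞`; expansion in `w = exp(2πiτ/p)`).

* `exp_comp_affH` : substitution `τ ↦ (aτ+b)/d` in a function with a `q`-expansion.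
* `cusp_one_jfun`, `cusp_one_disc`, `cusp_one_disc_inv` : the `q`-expansions of `j`, `Δ`, `Δ⁻¹`.
* `jFam_exp`, `dFam_exp`, `jfun_exp` : the expansions of the two families and of `j`.
-/

noncomputable section

namespace Fermat.Agent.IG

open UpperHalfPlane ModularCurve Fermat.Agent.MC Complex Metric ModularForm
open scoped Real

/-! ### General lemmas -/

theorem cuspLaurent_coeff (h m : ℕ) (f : ℍ → ℂ) (k : ℤ) :
    (cuspLaurent h m f).coeff k =
      if 0 ≤ k + m then
        (qExpansion (h : ℝ) (fun τ => cuspW h τ ^ m * f τ)).coeff (k + m).toNat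
      else 0 := by
  unfold cuspLaurent
  rw [HahnSeries.coeff_single_mul, one_mul, sub_neg_eq_add]
  split_ifs with hk
  · obtain ⟨n, hn⟩ := Int.eq_ofNat_of_zero_le hk
    rw [hn, Int.toNat_natCast, HahnSeries.ofPowerSeries_apply_coeff]
  · exact ofPowerSeries_coeff_of_neg _ (by omega)

/-- **substitution lemma**: if `G` has a `q`-expansion `s` and `a h = d e`, then
`τ ↦ G((aτ+b)/d)` has the expansion `s((ρ w)^e)` in `w = exp(2πiτ/h)`, `ρ = exp(2πi b/(a h))` -/
theorem exp_comp_affH (h : ℕ) [NeZero h] {a d e : ℕ} (b : ℕ) (ha : 0 < a) (hd : 0 < d)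
    [NeZero e] (he : a * h = d * e) {G : ℍ → ℂ} (hG : (cuspSys 1).mem G) :
    (cuspSys h).mem (fun τ => G (affH a b d τ)) ∧
    (cuspSys h).exp (fun τ => G (affH a b d τ)) =
      igTw (Complex.exp (2 * π * Complex.I * b / (a * h))) (Complex.exp_ne_zero _)
        (qExpand ℂ e ((cuspSys 1).exp G)) := by
  obtain ⟨hGm, hGp, m, hb⟩ := hG
  have hr := cuspReg_of hGm hGp hb
  have hexpG : (cuspSys 1).exp G = cuspLaurent 1 m G := cuspSys_exp_eq hGm hGp hb
  set c : ℕ → ℂ := fun n =>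
    (qExpansion ((1 : ℕ) : ℝ) (fun τ => cuspW 1 τ ^ m * G τ)).coeff n with hc
  have hsG : ∀ z : ℍ, HasSum (fun n : ℕ => c n * cuspW 1 z ^ n) (cuspW 1 z ^ m * G z) :=
    fun z => hr.qExp_hasSum z
  set ρ : ℂ := Complex.exp (2 * π * Complex.I * b / (a * h)) with hρdef
  have hρ : ρ ≠ 0 := Complex.exp_ne_zero _
  have hepos : 0 < e := Nat.pos_of_ne_zero (NeZero.ne e)
  have hhpos : 0 < h := Nat.pos_of_ne_zero (NeZero.ne h)
  have haC : (a : ℂ) ≠ 0 := by exact_mod_cast ha.ne'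
  have hdC : (d : ℂ) ≠ 0 := by exact_mod_cast hd.ne'
  have hhC : (h : ℂ) ≠ 0 := by exact_mod_cast hhpos.ne'
  have heC : (a : ℂ) * h = d * e := by exact_mod_cast he
  -- the `q`-parameter of `(aτ+b)/d`
  have hq : ∀ τ : ℍ, cuspW 1 (affH a b d τ) = (ρ * cuspW h τ) ^ e := by
    intro τ
    unfold cuspW
    rw [affH_coe b ha hd, hρdef, ← Complex.exp_add, ← Complex.exp_nat_mul]
    congr 1
    push_cast
    field_simp
    linear_combination ((a : ℂ) * τ + b) * heC
  set A : ℕ → ℂ := fun k => if e ∣ k then ρ ^ ((k : ℤ) - ((e * m : ℕ) : ℤ)) * c (k / e) else 0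
    with hA
  have hs : ∀ τ : ℍ, HasSum (fun k : ℕ => A k * Complex.exp (2 * π * Complex.I * τ / h) ^ k)
      (Complex.exp (2 * π * Complex.I * τ / h) ^ (e * m) * G (affH a b d τ)) := by
    intro τ
    have hw : Complex.exp (2 * π * Complex.I * τ / h) = cuspW h τ := rfl
    rw [hw]
    set w : ℂ := cuspW h τ with hwdef
    have hw0 : w ≠ 0 := cuspW_ne_zero h τ
    have h1 := hsG (affH a b d τ)
    rw [hq τ] at h1
    have h2 := h1.mul_left (ρ ^ (-((e * m : ℕ) : ℤ)))
    have hval : ρ ^ (-((e * m : ℕ) : ℤ)) * (((ρ * w) ^ e) ^ m * G (affH a b d τ))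
        = w ^ (e * m) * G (affH a b d τ) := by
      rw [← pow_mul, mul_pow, zpow_neg, zpow_natCast]
      field_simp
    rw [hval] at h2
    have hinj : Function.Injective (fun n : ℕ => e * n) := fun x y hxy =>
      Nat.eq_of_mul_eq_mul_left hepos hxy
    refine (Function.Injective.hasSum_iff hinj ?_).mp ?_
    · intro k hk
      have : ¬ e ∣ k := fun ⟨n, hn⟩ => hk ⟨n, hn.symm⟩
      simp only [hA, this, if_false, zero_mul]
    · have hfun : ((fun k : ℕ => A k * w ^ k) ∘ fun n : ℕ => e * n)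
          = fun n : ℕ => ρ ^ (-((e * m : ℕ) : ℤ)) * (c n * ((ρ * w) ^ e) ^ n) := by
        funext n
        simp only [Function.comp_apply, hA, dvd_mul_right, if_true,
          Nat.mul_div_cancel_left n hepos]
        rw [sub_eq_add_neg, zpow_add₀ hρ, zpow_natCast, ← pow_mul, mul_pow]
        ring
      rw [hfun]
      exact h2
  obtain ⟨hmem, hcoef⟩ := cuspSys_of_hasSum h (fun τ => G (affH a b d τ)) (e * m) A hs
  refine ⟨hmem, ?_⟩
  ext k
  rw [hcoef k, igTw_coeff, hexpG]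
  have heZ : (0 : ℤ) < e := by exact_mod_cast hepos
  by_cases hk : (e : ℤ) ∣ k
  · obtain ⟨k', rfl⟩ := hk
    rw [qExpand_coeff_mul, cuspLaurent_coeff]
    have e1 : (e : ℤ) * k' + ((e * m : ℕ) : ℤ) = e * (k' + m) := by push_cast; ring
    rw [e1]
    by_cases hk' : 0 ≤ k' + (m : ℤ)
    · have h1 : (0 : ℤ) ≤ e * (k' + m) := mul_nonneg heZ.le hk'
      rw [if_pos hk', if_pos h1]
      obtain ⟨n, hn⟩ := Int.eq_ofNat_of_zero_le hk'
      rw [hn]
      have e2 : ((e : ℤ) * (n : ℤ)).toNat = e * n := by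
        rw [← Nat.cast_mul, Int.toNat_natCast]
      rw [e2, Int.toNat_natCast]
      simp only [hA, dvd_mul_right, if_true, Nat.mul_div_cancel_left n hepos]
      have e3 : (((e * n : ℕ) : ℤ)) - ((e * m : ℕ) : ℤ) = (e : ℤ) * k' := by
        push_cast
        have : (n : ℤ) = k' + m := hn.symm
        rw [this]; ring
      rw [e3]
    · have h1 : ¬ (0 : ℤ) ≤ e * (k' + m) := by
        rw [not_le] at hk' ⊢
        exact mul_neg_of_pos_of_neg heZ hk'
      rw [if_neg hk', if_neg h1, mul_zero]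
  · rw [qExpand_coeff_of_not_dvd e _ hk, mul_zero]
    split_ifs with h0
    · have h2 : ¬ e ∣ (k + ((e * m : ℕ) : ℤ)).toNat := by
        intro hdv
        apply hk
        have h3 : (e : ℤ) ∣ (((k + ((e * m : ℕ) : ℤ)).toNat : ℕ) : ℤ) :=
          Int.natCast_dvd_natCast.mpr hdv
        rw [Int.toNat_of_nonneg h0] at h3
        have h4 : (e : ℤ) ∣ ((e * m : ℕ) : ℤ) := by push_cast; exact dvd_mul_right _ _
        exact (Int.dvd_add_left h4).mp h3
      simp only [hA, h2, if_false]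
    · rfl

theorem affH_one (τ : ℍ) : affH 1 0 1 τ = τ := by
  apply UpperHalfPlane.ext
  rw [affH_coe 0 one_pos one_pos]
  simp

/-! ### The `q`-expansions of `j`, `Δ`, `Δ⁻¹` -/

theorem cusp_one_jfun : (cuspSys 1).mem jfun ∧ (cuspSys 1).exp jfun = jqModC ℂ := by
  have hb := isBridge_cuspSys 1
  have h1 : (1 : ℕ) ∈ (1 : ℕ).divisors := by simp
  have hm := hb.mem ⟨1, h1⟩
  have he := hb.exp ⟨1, h1⟩
  rw [jlev_one_left] at hm he
  refine ⟨hm, ?_⟩
  rw [he]
  exact qExpand_one_apply _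

/-- `q ↦ q ∏ (1 - q^n)^24` on the unit disc -/
def discG (q : ℂ) : ℂ := q * eulerG q ^ 24

theorem discG_differentiableOn : DifferentiableOn ℂ discG (ball 0 1) :=
  differentiableOn_id.mul (eulerG_differentiableOn.pow 24)

theorem tay_discG : tay discG =
    PowerSeries.X * (dedekindEtaUnit.map (Int.castRingHom ℂ)) := by
  have h1 : AnalyticAt ℂ (fun q : ℂ => q) 0 := analyticAt_id
  have h2 : AnalyticAt ℂ eulerG 0 := jf_analyticAt_zero_of_diffOn eulerG_differentiableOn
  have e : discG = (fun q : ℂ => q) * eulerG ^ 24 := rfl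
  rw [e, tay_mul h1 (h2.pow 24), tay_id, tay_pow h2, tay_eulerG, dedekindEtaUnit, map_pow]

theorem cusp_one_disc : (cuspSys 1).mem ModularForm.discriminant ∧
    (cuspSys 1).exp ModularForm.discriminant = igD ℂ := by
  have hs : ∀ τ : ℍ, HasSum (fun n : ℕ => (tay discG).coeff n *
      Complex.exp (2 * π * Complex.I * τ / (1 : ℕ)) ^ n)
      (Complex.exp (2 * π * Complex.I * τ / (1 : ℕ)) ^ 0 * ModularForm.discriminant τ) := by
    intro τ
    have hq : Complex.exp (2 * π * Complex.I * τ / (1 : ℕ)) = Function.Periodic.qParam 1 (τ : ℂ) := by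
      unfold Function.Periodic.qParam
      simp
    rw [hq, pow_zero, one_mul, jf_disc_eq]
    exact tay_hasSum discG_differentiableOn (jf_norm_q_lt_one τ)
  obtain ⟨hmem, hcoef⟩ := cuspSys_of_hasSum 1 ModularForm.discriminant 0 _ hs
  refine ⟨hmem, ?_⟩
  have hD : igD ℂ = HahnSeries.ofPowerSeries ℤ ℂ (tay discG) := by
    rw [tay_discG, map_mul, HahnSeries.ofPowerSeries_X, igD]
  ext k
  rw [hcoef k, hD]
  split_ifs with hk
  · have hk' : 0 ≤ k := by simpa using hk
    obtain ⟨n, hn⟩ := Int.eq_ofNat_of_zero_le hk'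
    rw [hn]
    simp only [Nat.cast_zero, add_zero, Int.toNat_natCast]
    rw [HahnSeries.ofPowerSeries_apply_coeff]
  · exact (ofPowerSeries_coeff_of_neg _ (by simpa using hk)).symm

/-- `q ↦ (∏ (1 - q^n)^24)⁻¹` on the unit disc -/
def discInvG (q : ℂ) : ℂ := (eulerG q ^ 24)⁻¹

theorem discInvG_differentiableOn : DifferentiableOn ℂ discInvG (ball 0 1) :=
  (eulerG_differentiableOn.pow 24).inv (fun q hq =>
    pow_ne_zero 24 (eulerG_ne_zero (by simpa using hq)))

theorem cusp_one_disc_inv : (cuspSys 1).mem (fun τ => (ModularForm.discriminant τ)⁻¹) ∧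
    (cuspSys 1).exp (fun τ => (ModularForm.discriminant τ)⁻¹) = igDinv ℂ := by
  have hs : ∀ τ : ℍ, HasSum (fun n : ℕ => (tay discInvG).coeff n *
      Complex.exp (2 * π * Complex.I * τ / (1 : ℕ)) ^ n)
      (Complex.exp (2 * π * Complex.I * τ / (1 : ℕ)) ^ 1 * (ModularForm.discriminant τ)⁻¹) := by
    intro τ
    have hq : Complex.exp (2 * π * Complex.I * τ / (1 : ℕ)) = Function.Periodic.qParam 1 (τ : ℂ) := by
      unfold Function.Periodic.qParam
      simp
    have hq0 : Function.Periodic.qParam 1 (τ : ℂ) ≠ 0 := Function.Periodic.qParam_ne_zero _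
    have hG : eulerG (Function.Periodic.qParam 1 (τ : ℂ)) ^ 24 ≠ 0 :=
      pow_ne_zero 24 (eulerG_ne_zero (jf_norm_q_lt_one τ))
    have hval : Function.Periodic.qParam 1 (τ : ℂ) ^ 1 * (ModularForm.discriminant τ)⁻¹
        = discInvG (Function.Periodic.qParam 1 (τ : ℂ)) := by
      rw [jf_disc_eq, discInvG]
      field_simp
    rw [hq, hval]
    exact tay_hasSum discInvG_differentiableOn (jf_norm_q_lt_one τ)
  obtain ⟨hmem, -⟩ := cuspSys_of_hasSum 1 (fun τ => (ModularForm.discriminant τ)⁻¹) 1 _ hs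
  refine ⟨hmem, ?_⟩
  have hmul := (cuspSys 1).exp_mul hmem cusp_one_disc.1
  have hone : (fun τ : ℍ => (ModularForm.discriminant τ)⁻¹) * ModularForm.discriminant
      = fun _ => (1 : ℂ) := by
    funext τ
    exact inv_mul_cancel₀ (ModularForm.discriminant_ne_zero τ)
  rw [hone, (cuspSys 1).exp_const, cusp_one_disc.2, map_one] at hmul
  calc (cuspSys 1).exp (fun τ => (ModularForm.discriminant τ)⁻¹)
      = (cuspSys 1).exp (fun τ => (ModularForm.discriminant τ)⁻¹) * (igD ℂ * igDinv ℂ) := by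
        rw [igD_mul_igDinv, mul_one]
    _ = igDinv ℂ := by rw [← mul_assoc, ← hmul, one_mul]

/-! ### The families -/

variable (p : ℕ) [NeZero p]

omit [NeZero p] in
theorem zetaC_pow (b : ℕ) :
    Complex.exp (2 * π * Complex.I * b / ((1 : ℕ) * p)) = zetaC p ^ b := by
  rw [zetaC, ← Complex.exp_nat_mul]
  congr 1
  push_cast
  ring

/-- the formal `j`-family `J(u^(p²))`, `J(ζ^b u)` -/
def jFamL : Option (Fin p) → LaurentSeries ℂ
  | none => qExpand ℂ (p * p) (jqModC ℂ)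
  | some b => igTw (zetaC p ^ (b : ℕ)) (pow_ne_zero _ (zetaC_ne_zero p)) (jqModC ℂ)

/-- the formal `Δ`-family `p¹² D(u^(p²)) / D(u^p)`, `D(ζ^b u) / D(u^p)` -/
def dFamL : Option (Fin p) → LaurentSeries ℂ
  | none => HahnSeries.C ((p : ℂ) ^ 12) * qExpand ℂ (p * p) (igD ℂ) * qExpand ℂ p (igDinv ℂ)
  | some b => igTw (zetaC p ^ (b : ℕ)) (pow_ne_zero _ (zetaC_ne_zero p)) (igD ℂ)
      * qExpand ℂ p (igDinv ℂ)

/-- `G(pτ)` in the variable `u` -/
theorem exp_comp_none {G : ℍ → ℂ} (hG : (cuspSys 1).mem G) :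
    (cuspSys p).mem (fun τ => G (affH p 0 1 τ)) ∧
    (cuspSys p).exp (fun τ => G (affH p 0 1 τ)) = qExpand ℂ (p * p) ((cuspSys 1).exp G) := by
  have hp : 0 < p := Nat.pos_of_ne_zero (NeZero.ne p)
  obtain ⟨h1, h2⟩ := exp_comp_affH p (a := p) (d := 1) (e := p * p) 0 hp one_pos
    (by ring) hG
  refine ⟨h1, ?_⟩
  rw [h2]
  have : Complex.exp (2 * π * Complex.I * ((0 : ℕ) : ℂ) / ((p : ℂ) * p)) = 1 := by simp
  ext n
  rw [igTw_coeff, this, one_zpow, one_mul]

/-- `G((τ+b)/p)` in the variable `u` -/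
theorem exp_comp_some (b : ℕ) {G : ℍ → ℂ} (hG : (cuspSys 1).mem G) :
    (cuspSys p).mem (fun τ => G (affH 1 b p τ)) ∧
    (cuspSys p).exp (fun τ => G (affH 1 b p τ)) =
      igTw (zetaC p ^ b) (pow_ne_zero _ (zetaC_ne_zero p)) ((cuspSys 1).exp G) := by
  have hp : 0 < p := Nat.pos_of_ne_zero (NeZero.ne p)
  obtain ⟨h1, h2⟩ := exp_comp_affH p (a := 1) (d := p) (e := 1) b one_pos hp
    (by ring) hG
  refine ⟨h1, ?_⟩
  rw [h2, qExpand_one_apply]
  ext n
  rw [igTw_coeff, igTw_coeff, zetaC_pow]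

/-- `G(τ)` in the variable `u` -/
theorem exp_comp_id {G : ℍ → ℂ} (hG : (cuspSys 1).mem G) :
    (cuspSys p).mem G ∧ (cuspSys p).exp G = qExpand ℂ p ((cuspSys 1).exp G) := by
  obtain ⟨h1, h2⟩ := exp_comp_affH p (a := 1) (d := 1) (e := p) 0 one_pos one_pos
    (by ring) hG
  have hfun : (fun τ => G (affH 1 0 1 τ)) = G := by
    funext τ
    rw [affH_one]
  rw [hfun] at h1 h2
  refine ⟨h1, ?_⟩
  rw [h2]
  have : Complex.exp (2 * π * Complex.I * ((0 : ℕ) : ℂ) / (((1 : ℕ) : ℂ) * p)) = 1 := by simp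
  ext n
  rw [igTw_coeff, this, one_zpow, one_mul]

/-- the expansion of `j` in the variable `u` -/
theorem jfun_exp : (cuspSys p).mem jfun ∧ (cuspSys p).exp jfun = qExpand ℂ p (jqModC ℂ) := by
  obtain ⟨h1, h2⟩ := exp_comp_id p cusp_one_jfun.1
  exact ⟨h1, by rw [h2, cusp_one_jfun.2]⟩

/-- **[A1] expansions**: the `j`-family -/
theorem jFam_exp (i : Option (Fin p)) :
    (cuspSys p).mem (jFam p i) ∧ (cuspSys p).exp (jFam p i) = jFamL p i := by
  rcases i with _ | b
  · obtain ⟨h1, h2⟩ := exp_comp_none p cusp_one_jfun.1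
    rw [cusp_one_jfun.2] at h2
    exact ⟨h1, h2⟩
  · obtain ⟨h1, h2⟩ := exp_comp_some p (b : ℕ) cusp_one_jfun.1
    rw [cusp_one_jfun.2] at h2
    exact ⟨h1, h2⟩

/-- **[A2] expansions**: the `Δ`-family -/
theorem dFam_exp (i : Option (Fin p)) :
    (cuspSys p).mem (dFam p i) ∧ (cuspSys p).exp (dFam p i) = dFamL p i := by
  obtain ⟨hI1, hI2⟩ := exp_comp_id p cusp_one_disc_inv.1
  rw [cusp_one_disc_inv.2] at hI2
  rcases i with _ | b
  · obtain ⟨h1, h2⟩ := exp_comp_none p cusp_one_disc.1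
    rw [cusp_one_disc.2] at h2
    have hfun : dFam p none = (fun _ : ℍ => (p : ℂ) ^ 12)
        * (fun τ => ModularForm.discriminant (affH p 0 1 τ))
        * (fun τ => (ModularForm.discriminant τ)⁻¹) := by
      funext τ
      simp only [dFam, Pi.mul_apply, div_eq_mul_inv]
    have hc := (cuspSys p).mem_const ((p : ℂ) ^ 12)
    rw [hfun]
    refine ⟨(cuspSys p).mem_mul ((cuspSys p).mem_mul hc h1) hI1, ?_⟩
    rw [(cuspSys p).exp_mul ((cuspSys p).mem_mul hc h1) hI1, (cuspSys p).exp_mul hc h1,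
      (cuspSys p).exp_const, h2, hI2]
    rfl
  · obtain ⟨h1, h2⟩ := exp_comp_some p (b : ℕ) cusp_one_disc.1
    rw [cusp_one_disc.2] at h2
    have hfun : dFam p (some b) = (fun τ => ModularForm.discriminant (affH 1 b p τ))
        * (fun τ => (ModularForm.discriminant τ)⁻¹) := by
      funext τ
      simp only [dFam, Pi.mul_apply, div_eq_mul_inv]
    rw [hfun]
    refine ⟨(cuspSys p).mem_mul h1 hI1, ?_⟩
    rw [(cuspSys p).exp_mul h1 hI1, h2, hI2]
    rfl

end Fermat.Agent.IG
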