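import Fermat.Agent.Lib.IG_Defs
import Fermat.Agent.Lib.IG_ThetaDefs
import Fermat.Agent.Lib.IG_Expand

set_option autoImplicit false

/-!
# S28 (Igusa): Laurent series with coefficients in a subring (helper8)

`coeffsIn A` is the subring of `LaurentSeries B` of the series all of whose coefficients lie in the
subring `A` of `B`. It contains the integral series (`jqModC`, `deltaL`, `igDinv`), is stable under
`qExpand` and under the twist by a unit of `A`; hence the formal expansions of the two families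
`j(p τ), j((τ + b)/p)` and `p¹² Δ(p τ)/Δ(τ), Δ((τ + b)/p)/Δ(τ)` have coefficients in every subring
of `ℂ` containing `exp(2πi/p)`.
-/

noncomputable section

namespace Fermat.Agent.IG

open HahnSeries ModularCurve

section general

variable {B : Type*} [CommRing B] (A : Subring B)

/-- the Laurent series with all coefficients in `A` -/
def coeffsIn : Subring (LaurentSeries B) where
  carrier := {s | ∀ n, s.coeff n ∈ A}
  mul_mem' {s t} hs ht n := by
    rw [HahnSeries.coeff_mul]
    exact Subring.sum_mem _ fun ij _ => A.mul_mem (hs _) (ht _)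
  one_mem' n := by
    rw [HahnSeries.coeff_one]
    split_ifs
    · exact A.one_mem
    · exact A.zero_mem
  add_mem' {s t} hs ht n := by
    rw [HahnSeries.coeff_add]
    exact A.add_mem (hs n) (ht n)
  zero_mem' n := by
    rw [HahnSeries.coeff_zero]
    exact A.zero_mem
  neg_mem' {s} hs n := by
    rw [HahnSeries.coeff_neg]
    exact A.neg_mem (hs n)

variable {A}

theorem cin_mem_iff {s : LaurentSeries B} : s ∈ coeffsIn A ↔ ∀ n, s.coeff n ∈ A := Iff.rfl

theorem cin_coeff {s : LaurentSeries B} (hs : s ∈ coeffsIn A) (n : ℤ) : s.coeff n ∈ A := hs n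

theorem cin_single (n : ℤ) {r : B} (hr : r ∈ A) : HahnSeries.single n r ∈ coeffsIn A := by
  intro m
  rw [HahnSeries.coeff_single]
  split_ifs
  · exact hr
  · exact A.zero_mem

theorem cin_C {r : B} (hr : r ∈ A) : (HahnSeries.C r : LaurentSeries B) ∈ coeffsIn A :=
  cin_single 0 hr

/-- every series with integer coefficients is in `coeffsIn A` -/
theorem cin_coeffMap_int (s : LaurentSeries ℤ) :
    coeffMap (Int.castRingHom B) s ∈ coeffsIn A := by
  intro n
  rw [coeffMap_coeff]
  exact intCast_mem A _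

theorem cin_qExpand (d : ℕ) [NeZero d] {s : LaurentSeries B} (hs : s ∈ coeffsIn A) :
    qExpand B d s ∈ coeffsIn A := by
  intro n
  by_cases hn : (d : ℤ) ∣ n
  · obtain ⟨m, rfl⟩ := hn
    rw [qExpand_coeff_mul]
    exact hs m
  · rw [qExpand_coeff_of_not_dvd d s hn]
    exact A.zero_mem

variable (A) (B)

theorem cin_jqModC : jqModC B ∈ coeffsIn A := by
  rw [← coeffMap_jqModC (Int.castRingHom B)]
  exact cin_coeffMap_int _

theorem cin_deltaL : deltaL B ∈ coeffsIn A := by
  rw [← theta_coeffMap_deltaL ℤ (Int.castRingHom B)]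
  exact cin_coeffMap_int _

theorem cin_coeffMap_igDinv {S : Type*} [CommRing S] (φ : B →+* S) :
    coeffMap φ (igDinv B) = igDinv S := by
  rw [igDinv, map_mul, coeffMap_single, map_one, coeffMap_ofPowerSeries,
    ← RingHom.comp_apply (PowerSeries.map φ) (PowerSeries.map (Int.castRingHom B)),
    ← PowerSeries.map_comp, RingHom.ext_int (φ.comp (Int.castRingHom B)) (Int.castRingHom S)]
  rfl

theorem cin_igDinv : igDinv B ∈ coeffsIn A := by
  rw [← cin_coeffMap_igDinv ℤ (Int.castRingHom B)]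
  exact cin_coeffMap_int _

end general

section field

variable {K : Type*} [Field K] {A : Subring K}

/-- the twist by `z` preserves `coeffsIn A` if `z` and `z⁻¹` are in `A` -/
theorem cin_igTwL {z : K} (hz : z ∈ A) (hz' : z⁻¹ ∈ A) {s : LaurentSeries K}
    (hs : s ∈ coeffsIn A) : igTwL z s ∈ coeffsIn A := by
  intro n
  rw [igTwL_coeff]
  refine A.mul_mem ?_ (hs n)
  rcases le_or_gt 0 n with hn | hn
  · lift n to ℕ using hn
    rw [zpow_natCast]
    exact A.pow_mem hz n
  · obtain ⟨m, rfl⟩ : ∃ m : ℕ, n = -(m : ℤ) := ⟨(-n).toNat, by omega⟩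
    rw [zpow_neg, zpow_natCast, ← inv_pow]
    exact A.pow_mem hz' m

theorem cin_igTw {z : K} (hz0 : z ≠ 0) (hz : z ∈ A) (hz' : z⁻¹ ∈ A) {s : LaurentSeries K}
    (hs : s ∈ coeffsIn A) : igTw z hz0 s ∈ coeffsIn A :=
  cin_igTwL hz hz' hs

end field

section complex

variable {A : Subring ℂ}

theorem cin_zetaC_pow_p (p : ℕ) [NeZero p] : zetaC p ^ p = 1 := by
  have hp : (p : ℂ) ≠ 0 := Nat.cast_ne_zero.mpr (NeZero.ne p)
  rw [zetaC, ← Complex.exp_nat_mul, mul_div_cancel₀ _ hp]
  exact Complex.exp_two_pi_mul_I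

theorem cin_zetaC_pow_inv_mem (p : ℕ) [NeZero p] (hζ : zetaC p ∈ A) (b : ℕ) :
    (zetaC p ^ b)⁻¹ ∈ A := by
  have h : (zetaC p ^ b)⁻¹ = zetaC p ^ (b * (p - 1)) := by
    have h1 : zetaC p ^ b * zetaC p ^ (b * (p - 1)) = 1 := by
      rw [← _root_.pow_add]
      have : b + b * (p - 1) = p * b := by
        have hp : 1 ≤ p := Nat.one_le_iff_ne_zero.mpr (NeZero.ne p)
        obtain ⟨m, rfl⟩ : ∃ m, p = m + 1 := ⟨p - 1, by omega⟩
        simp
        ring
      rw [this, pow_mul, cin_zetaC_pow_p, one_pow]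
    exact inv_eq_of_mul_eq_one_right h1
  rw [h]
  exact A.pow_mem hζ _

variable (A)

/-- the formal `j`-family has coefficients in every subring of `ℂ` containing `exp(2πi/p)` -/
theorem jFamL_coeff_mem (p : ℕ) [NeZero p] (hζ : zetaC p ∈ A) (i : Option (Fin p)) (n : ℤ) :
    (jFamL p i).coeff n ∈ A := by
  rcases i with _ | b
  · exact cin_qExpand _ (cin_jqModC ℂ A) n
  · exact cin_igTw _ (A.pow_mem hζ b) (cin_zetaC_pow_inv_mem p hζ b) (cin_jqModC ℂ A) n

/-- the formal `Δ`-family has coefficients in every subring of `ℂ` containing `exp(2πi/p)` -/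
theorem dFamL_coeff_mem (p : ℕ) [NeZero p] (hζ : zetaC p ∈ A) (i : Option (Fin p)) (n : ℤ) :
    (dFamL p i).coeff n ∈ A := by
  have hD : igD ℂ ∈ coeffsIn A := cin_deltaL ℂ A
  rcases i with _ | b
  · exact (coeffsIn A).mul_mem ((coeffsIn A).mul_mem
      (cin_C (A.pow_mem (natCast_mem A p) 12)) (cin_qExpand _ hD))
      (cin_qExpand _ (cin_igDinv ℂ A)) n
  · exact (coeffsIn A).mul_mem
      (cin_igTw _ (A.pow_mem hζ b) (cin_zetaC_pow_inv_mem p hζ b) hD)
      (cin_qExpand _ (cin_igDinv ℂ A)) n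

theorem jFamL_mem_coeffsIn (p : ℕ) [NeZero p] (hζ : zetaC p ∈ A) (i : Option (Fin p)) :
    jFamL p i ∈ coeffsIn A := jFamL_coeff_mem A p hζ i

theorem dFamL_mem_coeffsIn (p : ℕ) [NeZero p] (hζ : zetaC p ∈ A) (i : Option (Fin p)) :
    dFamL p i ∈ coeffsIn A := dFamL_coeff_mem A p hζ i

end complex

end Fermat.Agent.IG
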