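import Mathlib
import Fermat.Agent.Lib.IG_Expand
import Fermat.Agent.Lib.MC_Twist
import Fermat.Agent.Lib.IG_ThetaDefs

set_option autoImplicit false

/-!
# S28 (Igusa): the formal series `jFamL` / `dFamL` in the other vocabularies

`IG_Expand` states the expansions of the two families with `igTw`, `igD`, `igDinv` and
`qExpand ℂ (p * p)`.  Here are the same series written with `MC.twistL`, `deltaL`,
inverses / quotients and `qExpand ℂ (p ^ 2)`, and as `qExpand ℂ p` of a series in `q`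
(for the un-substitution `u ^ p → q`).
-/

noncomputable section

namespace Fermat.Agent.IG

open ModularCurve Complex

open scoped Real

theorem zetaC_eq (p : ℕ) : zetaC p = cexp (2 * π * I / p) := rfl

theorem igTw_eq_twistL (ζ : ℂ) (hζ : ζ ≠ 0) (s : LaurentSeries ℂ) :
    igTw ζ hζ s = MC.twistL ζ s := rfl

theorem igTw_eq_twistHom (ζ : ℂ) (hζ : ζ ≠ 0) (s : LaurentSeries ℂ) :
    igTw ζ hζ s = MC.twistHom ζ hζ s := rfl

theorem igD_eq_deltaL (R : Type*) [CommRing R] : igD R = deltaL R := rfl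

theorem qExpand_igD_inv (R : Type*) [Field R] (p : ℕ) [NeZero p] :
    (qExpand R p (igD R))⁻¹ = qExpand R p (igDinv R) := by
  have h : qExpand R p (igD R) * qExpand R p (igDinv R) = 1 := by
    rw [← map_mul, igD_mul_igDinv, map_one]
  exact inv_eq_of_mul_eq_one_right h

theorem igD_inv (R : Type*) [Field R] : (igD R)⁻¹ = igDinv R := by
  have h := qExpand_igD_inv R 1
  rwa [qExpand_one_apply, qExpand_one_apply] at h

theorem jFamL_none_sq (p : ℕ) [NeZero p] :
    jFamL p none = qExpand ℂ (p ^ 2) (jqModC ℂ) :=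
  qExpand_congr (by ring) _

theorem jFamL_none_sub (p : ℕ) [NeZero p] :
    jFamL p none = qExpand ℂ p (qExpand ℂ p (jqModC ℂ)) :=
  (qExpand_qExpand p p _).symm

theorem jFamL_some_twistL (p : ℕ) [NeZero p] (b : Fin p) :
    jFamL p (some b) = MC.twistL (cexp (2 * π * I / p) ^ (b : ℕ)) (jqModC ℂ) := rfl

theorem dFamL_none_sub (p : ℕ) [NeZero p] :
    dFamL p none =
      qExpand ℂ p (HahnSeries.C ((p : ℂ) ^ 12) * qExpand ℂ p (igD ℂ) * igDinv ℂ) := by
  rw [map_mul, map_mul, qExpand_C, qExpand_qExpand]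
  rfl

theorem dFamL_none_div (p : ℕ) [NeZero p] :
    dFamL p none =
      qExpand ℂ p ((p : LaurentSeries ℂ) ^ 12 * (qExpand ℂ p (deltaL ℂ) / deltaL ℂ)) := by
  rw [dFamL_none_sub, div_eq_mul_inv, ← igD_eq_deltaL, igD_inv, ← mul_assoc]
  congr 3
  rw [map_pow, map_natCast]

theorem dFamL_none_inv (p : ℕ) [NeZero p] :
    dFamL p none = HahnSeries.C ((p : ℂ) ^ 12) * qExpand ℂ (p ^ 2) (deltaL ℂ) *
      (qExpand ℂ p (deltaL ℂ))⁻¹ := by
  rw [← igD_eq_deltaL, qExpand_igD_inv, ← qExpand_congr (R := ℂ) (show p * p = p ^ 2 by ring)]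
  rfl

theorem dFamL_some_inv (p : ℕ) [NeZero p] (b : Fin p) :
    dFamL p (some b) =
      MC.twistL (zetaC p ^ (b : ℕ)) (deltaL ℂ) * (qExpand ℂ p (deltaL ℂ))⁻¹ := by
  rw [← igD_eq_deltaL, qExpand_igD_inv]
  rfl

end Fermat.Agent.IG
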