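import Mathlib
import Fermat.Prelude.Thm_ModularCurve_coeff_jqModC_pow_self
import Fermat.Prelude.Thm_ModularCurve_coeff_jqModC_pow_of_lt
import Fermat.Agent.Lib.MC_Main

set_option autoImplicit false

/-!
# S28 (Igusa), generic input (G): symmetric functions of an `SL(2,ℤ)`-permuted family (helper1)

A finite family `f i` of functions on the upper half plane, each admissible for the expansion
system `MC.cuspSys h` at `∞` (variable `u = exp(2πiτ/h)`), permuted by `SL(2,ℤ)`.  Then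
`∏ i, (X - F i)`, `F i = (cuspSys h).exp (f i) ∈ ℂ((u))`, is `Φ(X, J(u^h))` for a monic
`Φ ∈ ℂ[Y][X]` (`gen_symm_mem`).  If moreover all coefficients of the `F i` lie in a subring
`A ⊆ ℂ`, then so do all coefficients of `Φ` (`gen_integral`, purely formal).
-/

noncomputable section

namespace Fermat.Agent.IG

open UpperHalfPlane ModularCurve Fermat.Agent.MC Polynomial
open scoped MatrixGroups Real Manifold

/-! ### the formal part -/

/-- Laurent series all of whose coefficients lie in a subring `A` -/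
def genSub (A : Subring ℂ) : Subring (LaurentSeries ℂ) where
  carrier := {s | ∀ n, s.coeff n ∈ A}
  mul_mem' := by
    intro x y hx hy n
    rw [HahnSeries.coeff_mul]
    exact Subring.sum_mem _ (fun ij _ => A.mul_mem (hx _) (hy _))
  one_mem' := by
    intro n
    rw [HahnSeries.coeff_one]
    split_ifs
    · exact A.one_mem
    · exact A.zero_mem
  add_mem' := by
    intro x y hx hy n
    rw [HahnSeries.coeff_add]
    exact A.add_mem (hx n) (hy n)
  zero_mem' := by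
    intro n
    rw [HahnSeries.coeff_zero]
    exact A.zero_mem
  neg_mem' := by
    intro x hx n
    rw [HahnSeries.coeff_neg]
    exact A.neg_mem (hx n)

theorem mem_genSub {A : Subring ℂ} {s : LaurentSeries ℂ} :
    s ∈ genSub A ↔ ∀ n, s.coeff n ∈ A := Iff.rfl

theorem gen_coeff_smul (a : ℂ) (s : LaurentSeries ℂ) (n : ℤ) :
    (algebraMap ℂ (LaurentSeries ℂ) a * s).coeff n = a * s.coeff n := by
  rw [algebraMap_laurentSeries_eq_single, HahnSeries.coeff_single_zero_mul]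

theorem gen_smul_mem {A : Subring ℂ} {a : ℂ} (ha : a ∈ A) {s : LaurentSeries ℂ}
    (hs : s ∈ genSub A) : algebraMap ℂ (LaurentSeries ℂ) a * s ∈ genSub A := by
  intro n
  rw [gen_coeff_smul]
  exact A.mul_mem ha (hs n)

section Formal

variable (h : ℕ) [NeZero h]

theorem gen_J_mem (A : Subring ℂ) : qExpand ℂ h (jqModC ℂ) ∈ genSub A := by
  intro n
  rw [qExpand_jqModC_coeff]
  split_ifs
  · unfold bridgeCoeff
    split_ifs
    · exact intCast_mem A _
    · exact A.zero_mem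
  · exact A.zero_mem

theorem gen_jpow_coeff_self (d : ℕ) :
    ((qExpand ℂ h (jqModC ℂ)) ^ d).coeff ((h : ℤ) * (-(d : ℤ))) = 1 := by
  rw [← map_pow, qExpand_coeff_mul, coeff_jqModC_pow_self]

theorem gen_jpow_coeff_lt {k d : ℕ} (hk : k < d) :
    ((qExpand ℂ h (jqModC ℂ)) ^ k).coeff ((h : ℤ) * (-(d : ℤ))) = 0 := by
  rw [← map_pow, qExpand_coeff_mul]
  exact coeff_jqModC_pow_of_lt ℂ (by omega)

/-- the coefficient of `u^(-h d)` in `Q(J(u^h))`, `d = deg Q`, is the leading coefficient -/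
theorem gen_lead (Q : Polynomial ℂ) :
    (aeval (qExpand ℂ h (jqModC ℂ)) Q).coeff ((h : ℤ) * (-(Q.natDegree : ℤ)))
      = Q.leadingCoeff := by
  rw [aeval_def, eval₂_eq_sum_range, HahnSeries.coeff_sum, Finset.sum_range_succ,
    Finset.sum_eq_zero, zero_add, gen_coeff_smul, gen_jpow_coeff_self, mul_one]
  · rfl
  · intro k hk
    rw [gen_coeff_smul, gen_jpow_coeff_lt h (Finset.mem_range.mp hk), mul_zero]

/-- `Q ↦ Q(J(u^h))` is injective -/
theorem gen_aeval_injective :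
    Function.Injective (aeval (qExpand ℂ h (jqModC ℂ)) : Polynomial ℂ → LaurentSeries ℂ) := by
  rw [injective_iff_map_eq_zero]
  intro Q hQ
  have := gen_lead h Q
  rw [hQ, HahnSeries.coeff_zero] at this
  exact leadingCoeff_eq_zero.mp this.symm

theorem gen_coeff_mem_aux (A : Subring ℂ) : ∀ (n : ℕ) (Q : Polynomial ℂ), Q.natDegree < n →
    aeval (qExpand ℂ h (jqModC ℂ)) Q ∈ genSub A → ∀ k, Q.coeff k ∈ A := by
  intro n
  induction n with
  | zero => intro Q hQ; omega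
  | succ n ih =>
    intro Q hd hQ k
    have hlead : Q.leadingCoeff ∈ A := by
      rw [← gen_lead h Q]; exact hQ _
    by_cases hk : k = Q.natDegree
    · rw [hk]; exact hlead
    · rw [← eraseLead_coeff_of_ne _ hk]
      by_cases h0 : Q.natDegree = 0
      · have h1 : Q.eraseLead = 0 := by
          rw [eq_C_of_natDegree_eq_zero h0]; exact eraseLead_C _
        rw [h1, coeff_zero]
        exact A.zero_mem
      · apply ih Q.eraseLead
        · have := eraseLead_natDegree_le Q; omega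
        · have e0 := eraseLead_add_C_mul_X_pow Q
          have e1 := congrArg (aeval (qExpand ℂ h (jqModC ℂ))) e0
          rw [map_add, map_mul, aeval_C, map_pow, aeval_X] at e1
          rw [eq_sub_of_add_eq e1]
          exact Subring.sub_mem _ hQ
            (gen_smul_mem hlead (Subring.pow_mem _ (gen_J_mem h A) _))

/-- if `Q(J(u^h))` has all its coefficients in the subring `A`, then so does `Q` -/
theorem gen_coeff_mem (A : Subring ℂ) (Q : Polynomial ℂ)
    (hQ : aeval (qExpand ℂ h (jqModC ℂ)) Q ∈ genSub A) (k : ℕ) : Q.coeff k ∈ A :=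
  gen_coeff_mem_aux h A _ Q (Nat.lt_succ_self _) hQ k

/-- **integrality.** If `Φ(X, J(u^h)) = ∏ (X - F i)` with all `F i` having coefficients in the
subring `A`, then all coefficients of `Φ` lie in `A`. -/
theorem gen_integral {ι : Type} [Fintype ι] (A : Subring ℂ) (F : ι → LaurentSeries ℂ)
    (hF : ∀ i n, (F i).coeff n ∈ A) (Φ : Polynomial (Polynomial ℂ))
    (hΦ : Φ.map ((aeval (qExpand ℂ h (jqModC ℂ)) : Polynomial ℂ →ₐ[ℂ] LaurentSeries ℂ) :
        Polynomial ℂ →+* LaurentSeries ℂ) = ∏ i, (X - C (F i))) :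
    ∀ k n, (Φ.coeff k).coeff n ∈ A := by
  intro k
  apply gen_coeff_mem h A
  have e1 : aeval (qExpand ℂ h (jqModC ℂ)) (Φ.coeff k) = (∏ i, (X - C (F i))).coeff k := by
    rw [← hΦ, coeff_map]
    rfl
  have e2 : (∏ i, (X - C (F i))) =
      (∏ i, (X - C (⟨F i, hF i⟩ : genSub A))).map (genSub A).subtype := by
    rw [Polynomial.map_prod]
    refine Finset.prod_congr rfl fun i _ => ?_
    rw [Polynomial.map_sub, Polynomial.map_X, Polynomial.map_C]
    rfl
  rw [e1, e2, coeff_map]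
  exact SetLike.coe_mem _

/-- the constant term of `Φ` -/
theorem gen_coeff_zero {ι : Type} [Fintype ι] (F : ι → LaurentSeries ℂ)
    (Φ : Polynomial (Polynomial ℂ))
    (hΦ : Φ.map ((aeval (qExpand ℂ h (jqModC ℂ)) : Polynomial ℂ →ₐ[ℂ] LaurentSeries ℂ) :
        Polynomial ℂ →+* LaurentSeries ℂ) = ∏ i, (X - C (F i))) :
    aeval (qExpand ℂ h (jqModC ℂ)) (Φ.coeff 0) = (-1) ^ Fintype.card ι * ∏ i, F i := by
  have e1 : aeval (qExpand ℂ h (jqModC ℂ)) (Φ.coeff 0) = (∏ i, (X - C (F i))).coeff 0 := by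
    rw [← hΦ, coeff_map]
    rfl
  rw [e1, coeff_zero_eq_eval_zero, eval_prod]
  simp only [eval_sub, eval_X, eval_C, zero_sub]
  have e2 : ∀ i, -F i = (-1) * F i := fun i => by ring
  simp only [e2, Finset.prod_mul_distrib, Finset.prod_const, Finset.card_univ]

end Formal

/-! ### the analytic part -/

section Analytic

variable (h : ℕ) [NeZero h]

/-- `j` in the expansion system at `∞` of width `h`: its expansion is `J(u^h)` -/
theorem gen_jfun_exp :
    (cuspSys h).mem jfun ∧ (cuspSys h).exp jfun = qExpand ℂ h (jqModC ℂ) := by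
  have hE := isBridge_cuspSys h
  have h1 : (1 : ℕ) ∈ h.divisors := Nat.mem_divisors.mpr ⟨one_dvd h, NeZero.ne h⟩
  have hm : (cuspSys h).mem (jlev 1 1) := hE.mem ⟨1, h1⟩
  have he : (cuspSys h).exp (jlev 1 1) = qExpand ℂ (h * 1) (jqModC ℂ) := hE.exp ⟨1, h1⟩
  rw [jlev_one_left] at hm he
  refine ⟨hm, ?_⟩
  rw [he]
  congr 2
  exact mul_one h

/-- **(G), existence.** The polynomial `∏ (X - F i)` of an `SL(2,ℤ)`-permuted family is
`Φ(X, J(u^h))` for a monic `Φ ∈ ℂ[Y][X]`. -/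
theorem gen_symm_mem {ι : Type} [Fintype ι] (f : ι → ℍ → ℂ)
    (hmem : ∀ i, (cuspSys h).mem (f i))
    (hperm : ∀ γ : SL(2, ℤ), ∃ σ : Equiv.Perm ι, ∀ i τ, f i (γ • τ) = f (σ i) τ) :
    ∃ Φ : Polynomial (Polynomial ℂ), Φ.Monic ∧ Φ.natDegree = Fintype.card ι ∧
      Φ.map ((aeval (qExpand ℂ h (jqModC ℂ)) : Polynomial ℂ →ₐ[ℂ] LaurentSeries ℂ) :
        Polynomial ℂ →+* LaurentSeries ℂ) = ∏ i, (X - C ((cuspSys h).exp (f i))) := by
  classical
  obtain ⟨hjm, hje⟩ := gen_jfun_exp h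
  set E := cuspSys h with hE
  let jf : E.alg := ⟨jfun, hjm⟩
  let g : Polynomial E.alg := ∏ i, (X - C (⟨f i, hmem i⟩ : E.alg))
  have hgm : g.Monic := monic_prod_of_monic _ _ (fun _ _ => monic_X_sub_C _)
  have hgd : g.natDegree = Fintype.card ι := by
    rw [natDegree_prod_of_monic _ _ (fun _ _ => monic_X_sub_C _)]
    simp
  -- evaluation at a point
  have hev : ∀ (k : ℕ) (τ : ℍ), (g.coeff k : ℍ → ℂ) τ = (∏ i, (X - C (f i τ))).coeff k := by
    intro k τ
    let ev : E.alg →ₐ[ℂ] ℂ := (Pi.evalAlgHom ℂ (fun _ : ℍ => ℂ) τ).comp E.alg.val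
    have e : g.map (ev : E.alg →+* ℂ) = ∏ i, (X - C (f i τ)) := by
      rw [Polynomial.map_prod]
      refine Finset.prod_congr rfl (fun i _ => ?_)
      rw [Polynomial.map_sub, Polynomial.map_X, Polynomial.map_C]
      rfl
    rw [← e, coeff_map]
    rfl
  have hinv : ∀ (k : ℕ) (γ : SL(2, ℤ)) (τ : ℍ),
      (g.coeff k : ℍ → ℂ) (γ • τ) = (g.coeff k : ℍ → ℂ) τ := by
    intro k γ τ
    obtain ⟨σ, hσ⟩ := hperm γ
    rw [hev, hev]
    congr 1
    simp only [hσ]
    exact Equiv.prod_comp σ (fun i => X - C (f i τ))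
  have hQ : ∀ k, g.coeff k ∈ Set.range ((aeval jf : Polynomial ℂ →ₐ[ℂ] E.alg) :
      Polynomial ℂ →+* E.alg) := by
    intro k
    have hm : E.mem (g.coeff k : ℍ → ℂ) := (g.coeff k).2
    obtain ⟨m, hb⟩ := cuspSys_bdd h hm
    obtain ⟨hmd, -, -⟩ := (cuspSys_mem _).mp hm
    obtain ⟨Q, -, hQ⟩ := inv_poly m _ hmd (hinv k) hb
    refine ⟨Q, Subtype.ext (funext fun τ => ?_)⟩
    let ev : E.alg →ₐ[ℂ] ℂ := (Pi.evalAlgHom ℂ (fun _ : ℍ => ℂ) τ).comp E.alg.val
    show ev (aeval jf Q) = _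
    rw [← aeval_algHom_apply, hQ τ]
    simp [ev, jf, coe_aeval_eq_eval]
  obtain ⟨Φ, hΦ, hΦd, hΦm⟩ :=
    lifts_and_natDegree_eq_and_monic ((lifts_iff_coeff_lifts g).mpr hQ) hgm
  refine ⟨Φ, hΦm, hΦd.trans hgd, ?_⟩
  have e1 : (aeval (qExpand ℂ h (jqModC ℂ)) : Polynomial ℂ →ₐ[ℂ] LaurentSeries ℂ)
      = E.hom.comp (aeval jf) := by
    rw [← aeval_algHom, ExpSys.hom_apply, hje]
  rw [e1, AlgHom.comp_toRingHom, ← Polynomial.map_map, hΦ, Polynomial.map_prod]
  refine Finset.prod_congr rfl (fun i _ => ?_)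
  rw [Polynomial.map_sub, Polynomial.map_X, Polynomial.map_C]
  rfl

/-- **(G).** A finite family of functions on the upper half plane, admissible at `∞` in the
variable `u = exp(2πiτ/h)`, permuted by `SL(2,ℤ)`, with expansions `F i` having coefficients in
a subring `A ⊆ ℂ`:  `∏ (X - F i) = Φ(X, J(u^h))` for a monic `Φ ∈ A[Y][X]`. -/
theorem gen_symm {ι : Type} [Fintype ι] (f : ι → ℍ → ℂ)
    (hmem : ∀ i, (cuspSys h).mem (f i))
    (hperm : ∀ γ : SL(2, ℤ), ∃ σ : Equiv.Perm ι, ∀ i τ, f i (γ • τ) = f (σ i) τ)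
    (A : Subring ℂ) (hA : ∀ i n, ((cuspSys h).exp (f i)).coeff n ∈ A) :
    ∃ Φ : Polynomial (Polynomial ℂ), Φ.Monic ∧ Φ.natDegree = Fintype.card ι ∧
      (∀ k n, (Φ.coeff k).coeff n ∈ A) ∧
      Φ.map ((aeval (qExpand ℂ h (jqModC ℂ)) : Polynomial ℂ →ₐ[ℂ] LaurentSeries ℂ) :
        Polynomial ℂ →+* LaurentSeries ℂ) = ∏ i, (X - C ((cuspSys h).exp (f i))) := by
  obtain ⟨Φ, hm, hd, hΦ⟩ := gen_symm_mem h f hmem hperm
  exact ⟨Φ, hm, hd, gen_integral h A _ hA Φ hΦ, hΦ⟩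

/-- the Laurent series `u^(-M) * Σ a n u^n` -/
def genSeries (M : ℕ) (a : ℕ → ℂ) : LaurentSeries ℂ :=
  HahnSeries.single (-(M : ℤ)) (1 : ℂ) * HahnSeries.ofPowerSeries ℤ ℂ (PowerSeries.mk a)

theorem genSeries_coeff (M : ℕ) (a : ℕ → ℂ) (k : ℤ) :
    (genSeries M a).coeff k = if 0 ≤ k + M then a (k + M).toNat else 0 := by
  unfold genSeries
  rw [HahnSeries.coeff_single_mul, one_mul, sub_neg_eq_add]
  split_ifs with hk
  · obtain ⟨n, hn⟩ := Int.eq_ofNat_of_zero_le hk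
    rw [hn, HahnSeries.ofPowerSeries_apply_coeff, Int.toNat_natCast, PowerSeries.coeff_mk]
  · exact ModularCurve.ofPowerSeries_coeff_of_neg _ (not_le.mp hk)

/-- **(G), convergent-series form.** -/
theorem gen_symm_hasSum {ι : Type} [Fintype ι] (f : ι → ℍ → ℂ)
    (hperm : ∀ γ : SL(2, ℤ), ∃ σ : Equiv.Perm ι, ∀ i τ, f i (γ • τ) = f (σ i) τ)
    (M : ι → ℕ) (a : ι → ℕ → ℂ)
    (hexp : ∀ i (τ : ℍ), HasSum (fun n : ℕ => a i n * Complex.exp (2 * π * Complex.I * τ / h) ^ n)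
      (Complex.exp (2 * π * Complex.I * τ / h) ^ M i * f i τ))
    (A : Subring ℂ) (ha : ∀ i n, a i n ∈ A) :
    ∃ Φ : Polynomial (Polynomial ℂ), Φ.Monic ∧ Φ.natDegree = Fintype.card ι ∧
      (∀ k n, (Φ.coeff k).coeff n ∈ A) ∧
      Φ.map ((aeval (qExpand ℂ h (jqModC ℂ)) : Polynomial ℂ →ₐ[ℂ] LaurentSeries ℂ) :
        Polynomial ℂ →+* LaurentSeries ℂ) = ∏ i, (X - C (genSeries (M i) (a i))) := by
  have key := fun i => cuspSys_of_hasSum h (f i) (M i) (a i) (hexp i)
  have hF : ∀ i, (cuspSys h).exp (f i) = genSeries (M i) (a i) := by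
    intro i
    ext k
    rw [(key i).2 k, genSeries_coeff]
  have hA : ∀ i n, ((cuspSys h).exp (f i)).coeff n ∈ A := by
    intro i n
    rw [(key i).2 n]
    split_ifs
    · exact ha i _
    · exact A.zero_mem
  obtain ⟨Φ, hm, hd, hint, hΦ⟩ := gen_symm h f (fun i => (key i).1) hperm A hA
  refine ⟨Φ, hm, hd, hint, ?_⟩
  rw [hΦ]
  exact Finset.prod_congr rfl (fun i _ => by rw [hF i])

end Analytic

end Fermat.Agent.IG
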