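import Mathlib
import Fermat.Prelude.Def_ModularCurve_IgusaScheme

set_option autoImplicit false

/-!
# S28 (Igusa): scheme-level glue (helper7)

The base change of the Igusa scheme to a field `K` is integral as soon as the two chart algebras
tensored with `K` are domains and the overlap algebra tensored with `K` is non-trivial.
-/

open AlgebraicGeometry CategoryTheory CategoryTheory.Limits ModularCurve ModularCurve.IgusaScheme
open scoped TensorProduct

namespace Fermat.Agent.IG

/-- a space covered by two (pre)irreducible open subsets with non-empty intersection is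
irreducible -/
theorem irreducibleSpace_of_two_opens {X : Type*} [TopologicalSpace X] {U V : Set X}
    (hU : IsOpen U) (hUi : IsPreirreducible U) (hVi : IsPreirreducible V)
    (hUV : (U ∩ V).Nonempty) (hcov : U ∪ V = Set.univ) : IrreducibleSpace X := by
  have key : ∀ W : Set X, IsOpen W → W.Nonempty → (U ∩ W).Nonempty := by
    rintro W hW ⟨x, hx⟩
    have hx' : x ∈ U ∪ V := hcov ▸ Set.mem_univ x
    rcases hx' with hxU | hxV
    · exact ⟨x, hxU, hx⟩
    · obtain ⟨y, -, hyU, hyW⟩ := hVi U W hU hW (by rwa [Set.inter_comm] at hUV) ⟨x, hxV, hx⟩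
      exact ⟨y, hyU, hyW⟩
  have : Nonempty X := ⟨hUV.some⟩
  refine { toPreirreducibleSpace := ⟨?_⟩, toNonempty := inferInstance }
  rintro W₁ W₂ h₁ h₂ ⟨x₁, -, hx₁⟩ ⟨x₂, -, hx₂⟩
  obtain ⟨y, -, hy⟩ := hUi W₁ W₂ h₁ h₂ (key W₁ h₁ ⟨x₁, hx₁⟩) (key W₂ h₂ ⟨x₂, hx₂⟩)
  exact ⟨y, Set.mem_univ y, hy⟩

section Glue

variable (N : ℕ) [NeZero N] (ℓ : ℕ) [Fact ℓ.Prime] (K : Type) [Field K]
  [Algebra ↥(GaloisRep.ratLocalizedAt ℓ) K]

set_option quotPrecheck false in
local notation "ℤℓ" => ↥(GaloisRep.ratLocalizedAt ℓ)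

/-- the base-change morphism `Spec K ⟶ Spec ℤ_(ℓ)` -/
noncomputable abbrev baseK : Spec (CommRingCat.of K) ⟶ Spec (CommRingCat.of ℤℓ) :=
  Spec.map (CommRingCat.ofHom (algebraMap ℤℓ K))

/-- the base change of the Igusa scheme to `K` -/
noncomputable abbrev igusaK : Scheme.{0} := pullback (igusaTo N ℓ) (baseK ℓ K)

/-- the finite chart of the base change -/
noncomputable def chartFinK :
    pullback (Spec.map (CommRingCat.ofHom (algebraMap ℤℓ (chartAlgFin N ℓ)))) (baseK ℓ K) ⟶
      igusaK N ℓ K :=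
  pullback.map _ _ _ _ (ιFin N ℓ) (𝟙 _) (𝟙 _) (by simp) (by simp)

/-- the chart at infinity of the base change -/
noncomputable def chartInfK :
    pullback (Spec.map (CommRingCat.ofHom (algebraMap ℤℓ (chartAlgInf N ℓ)))) (baseK ℓ K) ⟶
      igusaK N ℓ K :=
  pullback.map _ _ _ _ (ιInf N ℓ) (𝟙 _) (𝟙 _) (by simp) (by simp)

instance : IsOpenImmersion (chartFinK N ℓ K) := by
  unfold chartFinK; infer_instance

instance : IsOpenImmersion (chartInfK N ℓ K) := by
  unfold chartInfK; infer_instance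

theorem range_chartFinK :
    Set.range (chartFinK N ℓ K) = pullback.fst (igusaTo N ℓ) (baseK ℓ K) ⁻¹' Set.range (ιFin N ℓ) := by
  unfold chartFinK
  rw [Scheme.Pullback.range_map]
  simp

theorem range_chartInfK :
    Set.range (chartInfK N ℓ K) = pullback.fst (igusaTo N ℓ) (baseK ℓ K) ⁻¹' Set.range (ιInf N ℓ) := by
  unfold chartInfK
  rw [Scheme.Pullback.range_map]
  simp

/-- the overlap chart of the base change -/
noncomputable def chartMidK :
    pullback (Spec.map (CommRingCat.ofHom (algebraMap ℤℓ (chartAlgMid N ℓ)))) (baseK ℓ K) ⟶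
      igusaK N ℓ K :=
  pullback.map _ _ _ _ (fFin N ℓ ≫ ιFin N ℓ) (𝟙 _) (𝟙 _) (by
    rw [Category.comp_id, Category.assoc, ιFin_igusaTo, ← Spec.map_comp, ← CommRingCat.ofHom_comp]
    congr 2) (by simp)

theorem chartMidK_fst :
    chartMidK N ℓ K ≫ pullback.fst (igusaTo N ℓ) (baseK ℓ K) =
      pullback.fst _ _ ≫ fFin N ℓ ≫ ιFin N ℓ := by
  unfold chartMidK
  exact pullback.lift_fst _ _ _

/-- the two charts and their sources, indexed by `Bool` -/
noncomputable def chartObj : Bool → Scheme.{0}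
  | true => pullback (Spec.map (CommRingCat.ofHom (algebraMap ℤℓ (chartAlgFin N ℓ)))) (baseK ℓ K)
  | false => pullback (Spec.map (CommRingCat.ofHom (algebraMap ℤℓ (chartAlgInf N ℓ)))) (baseK ℓ K)

noncomputable def chartMap : (b : Bool) → chartObj N ℓ K b ⟶ igusaK N ℓ K
  | true => chartFinK N ℓ K
  | false => chartInfK N ℓ K

theorem chart_covers (x : igusaK N ℓ K) : ∃ b y, chartMap N ℓ K b y = x := by
  rcases mem_range_ιFin_or_mem_range_ιInf N ℓ (pullback.fst (igusaTo N ℓ) (baseK ℓ K) x) with h | h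
  · have : x ∈ Set.range (chartFinK N ℓ K) := by rw [range_chartFinK]; exact h
    obtain ⟨y, hy⟩ := this
    exact ⟨true, y, hy⟩
  · have : x ∈ Set.range (chartInfK N ℓ K) := by rw [range_chartInfK]; exact h
    obtain ⟨y, hy⟩ := this
    exact ⟨false, y, hy⟩

omit [Fact ℓ.Prime] in
theorem isIntegral_chart_of_isDomain (B : Type) [CommRing B] [Algebra ℤℓ B]
    (h : IsDomain (B ⊗[ℤℓ] K)) :
    IsIntegral (pullback (Spec.map (CommRingCat.ofHom (algebraMap ℤℓ B))) (baseK ℓ K)) := by
  have e := pullbackSpecIso ℤℓ B K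
  have h1 : IsIntegral (Spec (CommRingCat.of (B ⊗[ℤℓ] K))) := (affine_isIntegral_iff _).mpr h
  have h2 : Nonempty ↥(pullback (Spec.map (CommRingCat.ofHom (algebraMap ℤℓ B))) (baseK ℓ K)) :=
    ⟨e.inv (Nonempty.some inferInstance)⟩
  exact isIntegral_of_isOpenImmersion e.hom

/-- **scheme-level glue for S28**: the base change of the Igusa scheme to `K` is integral as soon
as the two chart algebras tensored with `K` are domains and the overlap algebra tensored with `K`
is non-trivial. -/
theorem isIntegral_igusaK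
    (hFin : IsDomain (↥(chartAlgFin N ℓ) ⊗[ℤℓ] K))
    (hInf : IsDomain (↥(chartAlgInf N ℓ) ⊗[ℤℓ] K))
    (hMid : Nontrivial (↥(chartAlgMid N ℓ) ⊗[ℤℓ] K)) :
    IsIntegral (igusaK N ℓ K) := by
  have iFin : IsIntegral (chartObj N ℓ K true) := isIntegral_chart_of_isDomain ℓ K _ hFin
  have iInf : IsIntegral (chartObj N ℓ K false) := isIntegral_chart_of_isDomain ℓ K _ hInf
  have hred : ∀ b, IsReduced (chartObj N ℓ K b) := by
    intro b
    cases b
    · infer_instance
    · infer_instance
  -- reducedness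
  let 𝒰 : (igusaK N ℓ K).OpenCover :=
    Scheme.Cover.mkOfCovers Bool (chartObj N ℓ K) (chartMap N ℓ K) (chart_covers N ℓ K)
      (by
        intro b
        cases b
        · exact inferInstanceAs (IsOpenImmersion (chartInfK N ℓ K))
        · exact inferInstanceAs (IsOpenImmersion (chartFinK N ℓ K)))
  have hR : IsReduced (igusaK N ℓ K) := by
    have : ∀ i, IsReduced (𝒰.X i) := hred
    exact IsReduced.of_openCover _ 𝒰
  -- irreducibility
  have hI : IrreducibleSpace (igusaK N ℓ K) := by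
    have iFin' : IrreducibleSpace ↥(pullback (Spec.map (CommRingCat.ofHom
        (algebraMap ℤℓ (chartAlgFin N ℓ)))) (baseK ℓ K)) := @irreducibleSpace_of_isIntegral _ iFin
    have iInf' : IrreducibleSpace ↥(pullback (Spec.map (CommRingCat.ofHom
        (algebraMap ℤℓ (chartAlgInf N ℓ)))) (baseK ℓ K)) := @irreducibleSpace_of_isIntegral _ iInf
    refine irreducibleSpace_of_two_opens (U := Set.range (chartFinK N ℓ K))
      (V := Set.range (chartInfK N ℓ K)) (chartFinK N ℓ K).isOpenEmbedding.isOpen_range ?_ ?_ ?_ ?_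
    · rw [← Set.image_univ]
      exact ((IrreducibleSpace.isIrreducible_univ _).image _
        (chartFinK N ℓ K).continuous.continuousOn).isPreirreducible
    · rw [← Set.image_univ]
      exact ((IrreducibleSpace.isIrreducible_univ _).image _
        (chartInfK N ℓ K).continuous.continuousOn).isPreirreducible
    · -- a point of the overlap
      have e := pullbackSpecIso ℤℓ (chartAlgMid N ℓ) K
      have hne : Nonempty (Spec (CommRingCat.of (↥(chartAlgMid N ℓ) ⊗[ℤℓ] K))) :=
        inferInstanceAs (Nonempty (PrimeSpectrum (↥(chartAlgMid N ℓ) ⊗[ℤℓ] K)))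
      obtain ⟨z₀⟩ := hne
      set z := e.inv z₀ with hz
      refine ⟨chartMidK N ℓ K z, ?_, ?_⟩
      · rw [range_chartFinK, Set.mem_preimage, ← Scheme.Hom.comp_apply, chartMidK_fst,
          ← Category.assoc, Scheme.Hom.comp_apply]
        exact ⟨_, rfl⟩
      · rw [range_chartInfK, Set.mem_preimage, ← Scheme.Hom.comp_apply, chartMidK_fst,
          glue_condition, ← Category.assoc, Scheme.Hom.comp_apply]
        exact ⟨_, rfl⟩
    · ext x
      simp only [Set.mem_union, Set.mem_univ, iff_true]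
      obtain ⟨b, y, hy⟩ := chart_covers N ℓ K x
      cases b
      · exact Or.inr ⟨y, hy⟩
      · exact Or.inl ⟨y, hy⟩
  exact isIntegral_of_irreducibleSpace_of_isReduced _

/-- the statement of S28, reduced to three ring-level facts -/
theorem isIntegral_pullback_igusaTo_of_domains
    (hFin : IsDomain (↥(chartAlgFin N ℓ) ⊗[ℤℓ] K))
    (hInf : IsDomain (↥(chartAlgInf N ℓ) ⊗[ℤℓ] K))
    (hMid : Nontrivial (↥(chartAlgMid N ℓ) ⊗[ℤℓ] K)) :
    IsIntegral ↑(pullback (igusaTo N ℓ)
      (Spec.map (CommRingCat.ofHom (algebraMap ↥(GaloisRep.ratLocalizedAt ℓ) K)))) :=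
  isIntegral_igusaK N ℓ K hFin hInf hMid

end Glue

end Fermat.Agent.IG
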