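import Mathlib
import Fermat.Agent.Lib.MC_Hnf
import Fermat.Agent.Lib.MC_Inv
import Fermat.Agent.Lib.IG_FamDefs

set_option autoImplicit false

/-!
# S28 (Igusa), input [A2]: the `SL(2,ℤ)`-orbit of `p¹² Δ(pτ)/Δ(τ)` (helper2)

* `dq_hnf` : Hermite normal form `d · γτ = δ((aτ+b)/d')` together with the identity of
  denominators `denom γ τ = d' · denom δ ((aτ+b)/d')`.
* `dq_conj p γ` : the function `τ ↦ p¹² Δ(p γ⁻¹τ)/Δ(γ⁻¹τ)`; `dq_conj_hnf` : it equals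
  `a¹² Δ((aτ+b)/d')/Δ(τ)` for some `a d' = p`, `b < d'` (the automorphy factors cancel exactly).
* `dq_conj_eq` : for `p` prime it is one of the `p + 1` functions `dFam p i`.
* `dqOrbit p` : the (finite) orbit as an index type, `dqPerm`/`dq_perm` : `SL(2,ℤ)` permutes it
  by precomposition.
-/

noncomputable section

namespace Fermat.Agent.IG

open UpperHalfPlane ModularForm Fermat.Agent.MC
open scoped MatrixGroups

/-- Hermite normal form of `diag(d,1) · γ`, together with the identity of denominators. -/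
theorem dq_hnf (d : ℕ) (hd : 0 < d) (γ : SL(2, ℤ)) :
    ∃ (δ : SL(2, ℤ)) (a b d' : ℕ), a * d' = d ∧ b < d' ∧
      ∀ τ : ℍ, (d : ℂ) * ((γ • τ : ℍ) : ℂ) = ((δ • affH a b d' τ : ℍ) : ℂ) ∧
        denom γ τ = d' * denom δ (affH a b d' τ) := by
  obtain ⟨a, b, d', r', t, had, hb, hr, ht⟩ := hnf_arith d hd (γ 1 0) (γ 1 1)
  have hdet : γ 0 0 * γ 1 1 - γ 0 1 * γ 1 0 = 1 := by
    have := γ.det_coe
    rw [Matrix.det_fin_two] at this
    exact this
  let δ : SL(2, ℤ) := ⟨!![d' * γ 0 0, a * γ 0 1 - γ 0 0 * b; r', t], by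
    rw [Matrix.det_fin_two_of]
    linear_combination hdet + γ 0 0 * ht + γ 0 1 * hr⟩
  have hδ00 : δ 0 0 = d' * γ 0 0 := rfl
  have hδ01 : δ 0 1 = a * γ 0 1 - γ 0 0 * b := rfl
  have hδ10 : δ 1 0 = r' := rfl
  have hδ11 : δ 1 1 = t := rfl
  refine ⟨δ, a, b, d', had, hb, fun τ => ?_⟩
  have ha : 0 < a := by
    rcases Nat.eq_zero_or_pos a with h | h
    · rw [h, zero_mul] at had; omega
    · exact h
  have hd' : 0 < d' := by
    rcases Nat.eq_zero_or_pos d' with h | h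
    · rw [h, mul_zero] at had; omega
    · exact h
  have hd'C : (d' : ℂ) ≠ 0 := by exact_mod_cast hd'.ne'
  have him : 0 < (((a : ℂ) * τ + b) / d').im := hnf_im_pos b ha hd' τ.im_pos
  have hden1 := UpperHalfPlane.denom_ne_zero (γ : GL (Fin 2) ℝ) τ
  have hden2 := UpperHalfPlane.denom_ne_zero (δ : GL (Fin 2) ℝ)
    (ofComplex (((a : ℂ) * τ + b) / d'))
  have hrC : ((γ 1 0 : ℤ) : ℂ) = (r' : ℂ) * a := by exact_mod_cast hr
  have htC : (d' : ℂ) * (t : ℂ) = ((γ 1 1 : ℤ) : ℂ) - (r' : ℂ) * b := by exact_mod_cast ht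
  have hadC : (a : ℂ) * d' = d := by exact_mod_cast had
  have hdn : (r' : ℂ) * (((a : ℂ) * τ + b) / d') + (t : ℂ)
      = ((γ 1 0 : ℂ) * τ + γ 1 1) / d' := by
    field_simp
    linear_combination (-(τ : ℂ)) * hrC + htC
  constructor
  · unfold affH
    rw [coe_specialLinearGroup_apply, coe_specialLinearGroup_apply]
    rw [ofComplex_apply_of_im_pos him] at hden2 ⊢
    simp only [eq_intCast, Complex.ofReal_intCast] at hden2 ⊢
    rw [hδ00, hδ01, hδ10, hδ11]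
    have hnum : ((d' * γ 0 0 : ℤ) : ℂ) * (((a : ℂ) * τ + b) / d') +
        ((a * γ 0 1 - γ 0 0 * b : ℤ) : ℂ) = a * ((γ 0 0 : ℂ) * τ + γ 0 1) := by
      push_cast
      field_simp
      ring
    rw [hnum, hdn, ← hadC]
    field_simp
  · unfold affH
    rw [denom, denom, ofComplex_apply_of_im_pos him]
    simp only [Matrix.SpecialLinearGroup.coe_GL_coe_matrix, Matrix.SpecialLinearGroup.map_apply_coe,
      RingHom.mapMatrix_apply, Int.coe_castRingHom, Matrix.map_apply, Complex.ofReal_intCast]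
    rw [hδ10, hδ11, UpperHalfPlane.coe_mk, hdn]
    field_simp

/-- the conjugate of `p¹² Δ(pτ)/Δ(τ)` under `γ ∈ SL(2,ℤ)` -/
def dq_conj (p : ℕ) (γ : SL(2, ℤ)) : ℍ → ℂ := fun τ => dFam p none (γ⁻¹ • τ)

theorem dq_conj_apply (p : ℕ) (γ : SL(2, ℤ)) (τ : ℍ) :
    dq_conj p γ τ = dFam p none (γ⁻¹ • τ) := rfl

theorem dq_conj_one (p : ℕ) : dq_conj p 1 = dFam p none := by
  funext τ
  rw [dq_conj_apply, inv_one, one_smul]

theorem dq_conj_smul (p : ℕ) (γ ε : SL(2, ℤ)) (τ : ℍ) :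
    dq_conj p γ (ε • τ) = dq_conj p (ε⁻¹ * γ) τ := by
  rw [dq_conj_apply, dq_conj_apply, mul_inv_rev, inv_inv, mul_smul]

/-- every conjugate of `p¹² Δ(pτ)/Δ(τ)` is of the form `a¹² Δ((aτ+b)/d')/Δ(τ)` with `a d' = p`,
`b < d'` (the automorphy factors cancel exactly). -/
theorem dq_conj_hnf (p : ℕ) (hp : 0 < p) (γ : SL(2, ℤ)) :
    ∃ a b d' : ℕ, a * d' = p ∧ b < d' ∧ ∀ τ : ℍ,
      dq_conj p γ τ = (a : ℂ) ^ 12 * discriminant (affH a b d' τ) / discriminant τ := by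
  obtain ⟨δ, a, b, d', had, hb, h⟩ := dq_hnf p hp γ⁻¹
  refine ⟨a, b, d', had, hb, fun τ => ?_⟩
  obtain ⟨h1, h2⟩ := h τ
  have hd' : 0 < d' := by
    rcases Nat.eq_zero_or_pos d' with h | h
    · rw [h, mul_zero] at had; omega
    · exact h
  have hd'C : (d' : ℂ) ≠ 0 := by exact_mod_cast hd'.ne'
  have hadC : (a : ℂ) * d' = p := by exact_mod_cast had
  have e1 : affH p 0 1 (γ⁻¹ • τ) = δ • affH a b d' τ := by
    have : (((p : ℂ) * ((γ⁻¹ • τ : ℍ) : ℂ) + ((0 : ℕ) : ℂ)) / ((1 : ℕ) : ℂ))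
        = ((δ • affH a b d' τ : ℍ) : ℂ) := by
      rw [← h1]; simp
    rw [affH, this, ofComplex_apply]
  rw [dq_conj_apply, dFam_none, e1, discriminant_smul δ, discriminant_smul γ⁻¹, h2]
  have hden := UpperHalfPlane.denom_ne_zero (δ : GL (Fin 2) ℝ) (affH a b d' τ)
  have hΔ := discriminant_ne_zero τ
  rw [← hadC]
  have e12 : ∀ x : ℂ, x ^ (12 : ℤ) = x ^ 12 := fun x => by
    rw [← zpow_natCast]; rfl
  rw [e12, e12]
  field_simp

/-- for `p` prime every conjugate is one of the `p + 1` functions `dFam p i`. -/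
theorem dq_conj_eq (p : ℕ) (hp : p.Prime) (γ : SL(2, ℤ)) :
    ∃ i : Option (Fin p), dq_conj p γ = dFam p i := by
  obtain ⟨a, b, d', had, hb, h⟩ := dq_conj_hnf p hp.pos γ
  have hdvd : a ∣ p := ⟨d', had.symm⟩
  rcases (Nat.dvd_prime hp).mp hdvd with ha | ha
  · subst ha
    rw [one_mul] at had
    subst had
    refine ⟨some ⟨b, hb⟩, ?_⟩
    funext τ
    rw [h τ, dFam_some]
    simp
  · subst ha
    have hd1 : d' = 1 := by
      have h1 : a * d' = a * 1 := by rw [had, mul_one]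
      exact Nat.eq_of_mul_eq_mul_left hp.pos h1
    subst hd1
    have hb0 : b = 0 := by omega
    subst hb0
    refine ⟨none, ?_⟩
    funext τ
    rw [h τ, dFam_none]

/-- the orbit of `p¹² Δ(pτ)/Δ(τ)` under `SL(2,ℤ)`, as a type -/
abbrev dqOrbit (p : ℕ) : Type := ↥(Set.range (dq_conj p))

theorem dq_orbit_finite (p : ℕ) (hp : p.Prime) : (Set.range (dq_conj p)).Finite := by
  refine Set.Finite.subset (Set.finite_range (dFam p)) ?_
  rintro _ ⟨γ, rfl⟩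
  obtain ⟨i, hi⟩ := dq_conj_eq p hp γ
  exact ⟨i, hi.symm⟩

instance dq_orbit_fintype (p : ℕ) [hp : Fact p.Prime] : Fintype (dqOrbit p) :=
  (dq_orbit_finite p hp.out).fintype

/-- the base point `p¹² Δ(pτ)/Δ(τ)` of the orbit -/
def dqBase (p : ℕ) : dqOrbit p := ⟨dFam p none, ⟨1, dq_conj_one p⟩⟩

theorem dqBase_val (p : ℕ) : (dqBase p).1 = dFam p none := rfl

theorem dq_orbit_eq (p : ℕ) (hp : p.Prime) (i : dqOrbit p) :
    ∃ j : Option (Fin p), i.1 = dFam p j := by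
  obtain ⟨γ, hγ⟩ := i.2
  obtain ⟨j, hj⟩ := dq_conj_eq p hp γ
  exact ⟨j, hγ ▸ hj⟩

/-- `SL(2,ℤ)` permutes the orbit by precomposition. -/
def dqPerm (p : ℕ) (ε : SL(2, ℤ)) : Equiv.Perm (dqOrbit p) where
  toFun i := ⟨fun τ => i.1 (ε • τ), by
    obtain ⟨γ, hγ⟩ := i.2
    refine ⟨ε⁻¹ * γ, ?_⟩
    funext τ
    rw [← hγ, dq_conj_smul]⟩
  invFun i := ⟨fun τ => i.1 (ε⁻¹ • τ), by
    obtain ⟨γ, hγ⟩ := i.2
    refine ⟨ε * γ, ?_⟩
    funext τ
    rw [← hγ, dq_conj_smul, inv_inv]⟩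
  left_inv i := by
    apply Subtype.ext
    funext τ
    simp only [smul_inv_smul]
  right_inv i := by
    apply Subtype.ext
    funext τ
    simp only [inv_smul_smul]

theorem dq_perm (p : ℕ) (ε : SL(2, ℤ)) :
    ∃ σ : Equiv.Perm (dqOrbit p), ∀ (i : dqOrbit p) (τ : ℍ), i.1 (ε • τ) = (σ i).1 τ :=
  ⟨dqPerm p ε, fun _ _ => rfl⟩

end Fermat.Agent.IG
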