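import Mathlib
import Fermat.Agent.Lib.IG_Expand
import Fermat.Agent.Lib.IG_PhiFam

set_option autoImplicit false

/-!
# S28 (Igusa), input [A1]: `SL(2,ℤ)` permutes the family `j(pτ)`, `j((τ+b)/p)` (helper2)

* `jFam_orbit` : every conjugate `τ ↦ j(p γ⁻¹τ)` is one of the `jFam p i` (Hermite normal form).
* `jFam_some_eq` : `j((τ+b)/p) = j(p · S T^b τ)`.
* `jFamL_injective`, `jFam_injective` : the `p + 1` functions are pairwise distinct.
* `jFam_perm` : for every `γ ∈ SL(2,ℤ)` there is a permutation `π` of `Option (Fin p)` with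
  `jFam p i (γ • τ) = jFam p (π i) τ`.
-/

noncomputable section

namespace Fermat.Agent.IG

open UpperHalfPlane ModularCurve Fermat.Agent.MC
open scoped MatrixGroups

/-- every conjugate of `j(pτ)` is one of the `p + 1` functions `jFam p i` (`p` prime) -/
theorem jFam_orbit (p : ℕ) (hp : p.Prime) (γ : SL(2, ℤ)) :
    ∃ i : Option (Fin p), (fun τ => jFam p none (γ⁻¹ • τ)) = jFam p i := by
  obtain ⟨δ, a, b, d', had, hb, h⟩ := dq_hnf p hp.pos γ⁻¹
  have key : ∀ τ : ℍ, jFam p none (γ⁻¹ • τ) = jfun (affH a b d' τ) := by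
    intro τ
    obtain ⟨h1, -⟩ := h τ
    have e1 : affH p 0 1 (γ⁻¹ • τ) = δ • affH a b d' τ := by
      have : (((p : ℂ) * ((γ⁻¹ • τ : ℍ) : ℂ) + ((0 : ℕ) : ℂ)) / ((1 : ℕ) : ℂ))
          = ((δ • affH a b d' τ : ℍ) : ℂ) := by
        rw [← h1]; simp
      rw [affH, this, ofComplex_apply]
    rw [jFam_none, e1, jfun_smul]
  have hdvd : a ∣ p := ⟨d', had.symm⟩
  rcases (Nat.dvd_prime hp).mp hdvd with ha | ha
  · subst ha
    rw [one_mul] at had
    subst had
    refine ⟨some ⟨b, hb⟩, ?_⟩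
    funext τ
    rw [key τ, jFam_some]
  · subst ha
    have hd1 : d' = 1 := by
      have h1 : a * d' = a * 1 := by rw [had, mul_one]
      exact Nat.eq_of_mul_eq_mul_left hp.pos h1
    subst hd1
    have hb0 : b = 0 := by omega
    subst hb0
    refine ⟨none, ?_⟩
    funext τ
    rw [key τ, jFam_none]

/-- `j((τ+b)/p) = j(p · S T^b τ)` -/
theorem jFam_some_eq (p : ℕ) (hp : 0 < p) (b : Fin p) (τ : ℍ) :
    jFam p (some b) τ =
      jFam p none ((ModularGroup.S * ModularGroup.T ^ ((b : ℕ) : ℤ)) • τ) := by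
  rw [jFam_some, jFam_none, mul_smul, modular_T_zpow_smul]
  have hpC : (p : ℂ) ≠ 0 := by exact_mod_cast hp.ne'
  have e : affH p 0 1 (ModularGroup.S • ((((b : ℕ) : ℤ) : ℝ) +ᵥ τ)) =
      ModularGroup.S • affH 1 b p τ := by
    have hS : ∀ z : ℍ, ((ModularGroup.S • z : ℍ) : ℂ) = (-(z : ℂ))⁻¹ := fun z => by
      rw [modular_S_smul]
    apply UpperHalfPlane.ext
    rw [affH_coe 0 hp one_pos, hS, hS, affH_coe b one_pos hp, coe_vadd]
    have hne : (τ : ℂ) + (b : ℕ) ≠ 0 := by
      intro h0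
      have := congrArg Complex.im h0
      simp at this
      exact τ.im_ne_zero this
    push_cast
    have hne' : ((b : ℕ) : ℂ) + (τ : ℂ) ≠ 0 := by rwa [add_comm] at hne
    field_simp
    ring
  rw [e, jfun_smul]

/-- the formal expansions of the `j`-family are pairwise distinct -/
theorem jFamL_injective (p : ℕ) [NeZero p] (hp : 2 ≤ p) : Function.Injective (jFamL p) := by
  have hζ : IsPrimitiveRoot (zetaC p) p := Complex.isPrimitiveRoot_exp p (NeZero.ne p)
  have hne : ∀ b : Fin p, jFamL p none ≠ jFamL p (some b) := by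
    intro b h
    have h1 := congrArg (fun s : LaurentSeries ℂ => s.coeff ((p * p : ℕ) * (-1 : ℤ))) h
    simp only [jFamL] at h1
    rw [qExpand_coeff_mul, coeff_jqModC_neg_one, igTw_coeff,
      coeff_jqModC_of_lt ℂ (by
        have : (4 : ℤ) ≤ ((p * p : ℕ) : ℤ) := by
          have : 4 ≤ p * p := by nlinarith
          exact_mod_cast this
        linarith), mul_zero] at h1
    exact one_ne_zero h1
  rintro (_ | b) (_ | b') h
  · rfl
  · exact absurd h (hne b')
  · exact absurd h.symm (hne b)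
  · have h1 := congrArg (fun s : LaurentSeries ℂ => s.coeff (-1)) h
    simp only [jFamL] at h1
    rw [igTw_coeff, igTw_coeff, coeff_jqModC_neg_one, mul_one, mul_one, zpow_neg_one,
      zpow_neg_one, inv_inj] at h1
    have := hζ.pow_inj b.2 b'.2 h1
    exact congrArg some (Fin.ext this)

/-- the `p + 1` functions `j(pτ)`, `j((τ+b)/p)` are pairwise distinct -/
theorem jFam_injective (p : ℕ) [NeZero p] (hp : 2 ≤ p) : Function.Injective (jFam p) := by
  intro i i' h
  apply jFamL_injective p hp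
  rw [← (jFam_exp p i).2, ← (jFam_exp p i').2, h]

/-- one step: `jFam p i ∘ γ` is again a member of the family -/
theorem jFam_step (p : ℕ) (hp : p.Prime) (γ : SL(2, ℤ)) (i : Option (Fin p)) :
    ∃ i' : Option (Fin p), ∀ τ : ℍ, jFam p i (γ • τ) = jFam p i' τ := by
  have horb : ∃ g : SL(2, ℤ), ∀ τ : ℍ, jFam p i τ = jFam p none (g • τ) := by
    rcases i with _ | b
    · exact ⟨1, fun τ => by rw [one_smul]⟩
    · exact ⟨_, fun τ => jFam_some_eq p hp.pos b τ⟩
  obtain ⟨g, hg⟩ := horb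
  obtain ⟨i', hi'⟩ := jFam_orbit p hp (g * γ)⁻¹
  refine ⟨i', fun τ => ?_⟩
  rw [hg, ← congrFun hi' τ, inv_inv, mul_smul]

/-- **the permutation of the `j`-family.** -/
theorem jFam_perm (p : ℕ) [NeZero p] (hp : p.Prime) (γ : SL(2, ℤ)) :
    ∃ π : Equiv.Perm (Option (Fin p)), ∀ (i : Option (Fin p)) (τ : ℍ),
      jFam p i (γ • τ) = jFam p (π i) τ := by
  choose f hf using fun (g : SL(2, ℤ)) (i : Option (Fin p)) => jFam_step p hp g i
  have hinj := jFam_injective p hp.two_le
  have hinv : ∀ (g : SL(2, ℤ)) (i : Option (Fin p)), f g⁻¹ (f g i) = i := by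
    intro g i
    apply hinj
    funext τ
    rw [← hf g⁻¹ (f g i) τ, ← hf g i (g⁻¹ • τ), smul_inv_smul]
  refine ⟨⟨f γ, f γ⁻¹, hinv γ, fun i => ?_⟩, fun i τ => hf γ i τ⟩
  have := hinv γ⁻¹ i
  rwa [inv_inv] at this

end Fermat.Agent.IG
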