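import Mathlib
import Fermat.Agent.Lib.IG_Gen
import Fermat.Agent.Lib.IG_FamDefs

set_option autoImplicit false

/-!
# S28 (Igusa), input [A1]: the Puiseux factorization of the modular equation of prime level
(helper1)

`phi_puiseux` : for a prime `p` and a subring `A ⊆ ℂ` containing `ζ = exp(2πi/p)` there is a
monic `Φ ∈ A[Y][X]` of `X`-degree `p + 1` with
`Φ(X, J(u^p)) = (X - J(u^(p²))) * ∏_{b<p} (X - J(ζ^b u))` in `ℂ((u))[X]`.
-/

noncomputable section

namespace Fermat.Agent.IG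

open UpperHalfPlane ModularCurve Fermat.Agent.MC Polynomial CongruenceSubgroup
open scoped MatrixGroups Real Manifold

local notation "𝕢" => Function.Periodic.qParam

section

variable (p : ℕ) [NeZero p]

omit [NeZero p] in
theorem phi_jFam_none_eq : jFam p none = jlev p 1 := by
  funext τ
  show jfun (affH p 0 1 τ) = jfun (ofComplex ((p : ℂ) * (((1 : SL(2, ℤ))⁻¹ • τ : ℍ) : ℂ)))
  rw [inv_one, one_smul]
  unfold affH
  congr 2
  simp

omit [NeZero p] in
/-- every conjugate of `j(pτ)` is in the family -/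
theorem phi_jlev_eq (hp : p.Prime) (g : SL(2, ℤ)) : ∃ i : Option (Fin p), jlev p g = jFam p i := by
  obtain ⟨δ, a, b, d', had, hb, -, h⟩ := jlev_hnf p hp.pos g
  rcases (Nat.dvd_prime hp).mp ⟨d', had.symm⟩ with ha | ha
  · have hd : d' = p := by rw [ha, one_mul] at had; exact had
    rw [hd] at hb
    refine ⟨some ⟨b, hb⟩, funext fun τ => ?_⟩
    rw [h τ, ha, hd]
    rfl
  · have hd : d' = 1 := by
      rw [ha] at had
      exact Nat.eq_of_mul_eq_mul_left hp.pos (by rw [had, mul_one])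
    have hb0 : b = 0 := by omega
    refine ⟨none, funext fun τ => ?_⟩
    rw [h τ, ha, hd, hb0]
    rfl

/-- the expansion of `j(pτ)` in `w = exp(2πiτ/p)` -/
theorem phi_hasSum_none (τ : ℍ) :
    HasSum (fun k : ℕ => bridgeCoeff (p ^ 2) k * Complex.exp (2 * π * Complex.I * τ / p) ^ k)
      (Complex.exp (2 * π * Complex.I * τ / p) ^ (p ^ 2) * jFam p none τ) := by
  have h := jlev_one_hasSum p p (Nat.pos_of_ne_zero (NeZero.ne p)) τ
  rw [← sq, ← phi_jFam_none_eq] at h
  exact h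

/-- the expansion of `j((τ+b)/p)` in `w = exp(2πiτ/p)` -/
theorem phi_hasSum_some (b : ℕ) (τ : ℍ) :
    HasSum (fun n : ℕ => (((PowerSeries.coeff n jNum : ℤ) : ℂ) * (zetaC p ^ b) ^ n
        * (zetaC p ^ b)⁻¹) * Complex.exp (2 * π * Complex.I * τ / p) ^ n)
      (Complex.exp (2 * π * Complex.I * τ / p) ^ 1 * jfun (affH 1 b p τ)) := by
  have hp : 0 < p := Nat.pos_of_ne_zero (NeZero.ne p)
  have hpC : (p : ℂ) ≠ 0 := Nat.cast_ne_zero.mpr (NeZero.ne p)
  have hz0 : zetaC p ^ b ≠ 0 := pow_ne_zero _ (zetaC_ne_zero p)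
  set w : ℂ := Complex.exp (2 * π * Complex.I * τ / p) with hw
  have hq : 𝕢 1 ((affH 1 b p τ : ℍ) : ℂ) = zetaC p ^ b * w := by
    rw [affH_coe b one_pos hp τ, hw]
    unfold Function.Periodic.qParam zetaC
    rw [← Complex.exp_nat_mul, ← Complex.exp_add]
    congr 1
    push_cast
    field_simp
    ring
  have h0 := jfun_hasSum (affH 1 b p τ)
  rw [hq] at h0
  have h1 := h0.mul_left (zetaC p ^ b)⁻¹
  have e1 : (fun n : ℕ => (((PowerSeries.coeff n jNum : ℤ) : ℂ) * (zetaC p ^ b) ^ n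
        * (zetaC p ^ b)⁻¹) * w ^ n)
      = fun n : ℕ => (zetaC p ^ b)⁻¹ *
          (((PowerSeries.coeff n jNum : ℤ) : ℂ) * (zetaC p ^ b * w) ^ n) := by
    funext n
    rw [mul_pow]
    ring
  have e2 : w ^ 1 * jfun (affH 1 b p τ)
      = (zetaC p ^ b)⁻¹ * (zetaC p ^ b * w * jfun (affH 1 b p τ)) := by
    rw [pow_one, ← mul_assoc, ← mul_assoc, inv_mul_cancel₀ hz0, one_mul]
  rw [e1, e2]
  exact h1

/-- pole orders of the family in `w` -/
def phiM : Option (Fin p) → ℕ
  | none => p ^ 2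
  | some _ => 1

/-- coefficients of the family in `w` -/
def phiA : Option (Fin p) → ℕ → ℂ
  | none => bridgeCoeff (p ^ 2)
  | some b => fun n => ((PowerSeries.coeff n jNum : ℤ) : ℂ) * (zetaC p ^ (b : ℕ)) ^ n
      * (zetaC p ^ (b : ℕ))⁻¹

theorem phi_hasSum (i : Option (Fin p)) (τ : ℍ) :
    HasSum (fun n : ℕ => phiA p i n * Complex.exp (2 * π * Complex.I * τ / p) ^ n)
      (Complex.exp (2 * π * Complex.I * τ / p) ^ phiM p i * jFam p i τ) := by
  cases i with
  | none => exact phi_hasSum_none p τ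
  | some b => exact phi_hasSum_some p b τ

theorem phi_zeta_pow : zetaC p ^ p = 1 :=
  (Complex.isPrimitiveRoot_exp p (NeZero.ne p)).pow_eq_one

theorem phi_zeta_inv (b : ℕ) : (zetaC p ^ b)⁻¹ = (zetaC p ^ b) ^ (p - 1) := by
  apply inv_eq_of_mul_eq_one_right
  rw [← pow_succ', Nat.sub_add_cancel (Nat.pos_of_ne_zero (NeZero.ne p)), ← pow_mul, mul_comm,
    pow_mul, phi_zeta_pow, one_pow]

theorem phiA_mem (A : Subring ℂ) (hζ : zetaC p ∈ A) (i : Option (Fin p)) (n : ℕ) :
    phiA p i n ∈ A := by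
  cases i with
  | none =>
    show bridgeCoeff (p ^ 2) n ∈ A
    unfold bridgeCoeff
    split_ifs
    · exact intCast_mem A _
    · exact A.zero_mem
  | some b =>
    show ((PowerSeries.coeff n jNum : ℤ) : ℂ) * (zetaC p ^ (b : ℕ)) ^ n
      * (zetaC p ^ (b : ℕ))⁻¹ ∈ A
    rw [phi_zeta_inv]
    exact A.mul_mem (A.mul_mem (intCast_mem A _) (A.pow_mem (A.pow_mem hζ _) _))
      (A.pow_mem (A.pow_mem hζ _) _)

theorem phi_genSeries_none :
    genSeries (phiM p none) (phiA p none) = qExpand ℂ (p ^ 2) (jqModC ℂ) := by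
  ext k
  rw [genSeries_coeff, qExpand_jqModC_coeff]
  rfl

omit [NeZero p] in
theorem phi_genSeries_some (b : Fin p) :
    genSeries (phiM p (some b)) (phiA p (some b)) = twistL (zetaC p ^ (b : ℕ)) (jqModC ℂ) := by
  have hz0 : zetaC p ^ (b : ℕ) ≠ 0 := pow_ne_zero _ (zetaC_ne_zero p)
  ext k
  rw [genSeries_coeff, twistL_coeff, jqModC_coeff]
  show (if 0 ≤ k + ((1 : ℕ) : ℤ) then ((PowerSeries.coeff (k + ((1 : ℕ) : ℤ)).toNat jNum : ℤ) : ℂ)
      * (zetaC p ^ (b : ℕ)) ^ (k + ((1 : ℕ) : ℤ)).toNat * (zetaC p ^ (b : ℕ))⁻¹ else 0) = _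
  rw [Nat.cast_one]
  split_ifs with hk
  · obtain ⟨n, hn⟩ := Int.eq_ofNat_of_zero_le hk
    have hk' : k = (n : ℤ) - 1 := by omega
    rw [hn, Int.toNat_natCast, hk', zpow_sub₀ hz0, zpow_natCast, zpow_one]
    ring
  · rw [mul_zero]

/-! ### the cosets -/

/-- the conjugate of `j(pτ)` attached to a coset of `Γ₀(p)` -/
def phiFun (c : PN p) : ℍ → ℂ :=
  Quotient.liftOn' c (fun γ => jlev p γ) (fun γ γ' h => by
    have h' : γ⁻¹ * γ' ∈ Gamma0 p := QuotientGroup.leftRel_apply.mp h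
    have h2 := jlev_mul_Gamma0 p p (Nat.pos_of_ne_zero (NeZero.ne p)) dvd_rfl γ (γ⁻¹ * γ') h'
    rw [mul_inv_cancel_left] at h2
    exact h2.symm)

theorem phiFun_mk (γ : SL(2, ℤ)) : phiFun p (QuotientGroup.mk γ) = jlev p γ := rfl

theorem phiFun_smul (ε : SL(2, ℤ)) (c : PN p) (τ : ℍ) :
    phiFun p c (ε • τ) = phiFun p (ε⁻¹ • c) τ := by
  induction c using QuotientGroup.induction_on with
  | H γ =>
    show jlev p γ (ε • τ) = jlev p (ε⁻¹ * γ) τ
    exact (jlev_smul p γ ε τ).symm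

theorem phiFun_injective : Function.Injective (phiFun p) := by
  intro c c' h
  induction c using QuotientGroup.induction_on with
  | H γ =>
    induction c' using QuotientGroup.induction_on with
    | H γ' =>
      rw [phiFun_mk, phiFun_mk] at h
      apply QuotientGroup.eq.mpr
      apply jlev_dist p
      funext τ
      rw [jlev_smul, ← h, ← jlev_smul, inv_mul_cancel]

theorem phiFun_exists (hp : p.Prime) (c : PN p) : ∃ i : Option (Fin p), phiFun p c = jFam p i := by
  induction c using QuotientGroup.induction_on with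
  | H γ => exact phi_jlev_eq p hp γ

/-- the index of a coset -/
def phiIdx (hp : p.Prime) (c : PN p) : Option (Fin p) := (phiFun_exists p hp c).choose

theorem phiIdx_spec (hp : p.Prime) (c : PN p) : phiFun p c = jFam p (phiIdx p hp c) :=
  (phiFun_exists p hp c).choose_spec

theorem phi_card (hp : p.Prime) : Fintype.card (PN p) = p + 1 := by
  rw [card_PN]
  have h := comb_psi_mul_of_not_dvd p 1 hp one_ne_zero (Nat.Prime.not_dvd_one hp)
  rw [mul_one, dedekindPsi_one, mul_one] at h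
  exact h

theorem phiIdx_bijective (hp : p.Prime) : Function.Bijective (phiIdx p hp) := by
  rw [Fintype.bijective_iff_injective_and_card]
  refine ⟨fun c c' h => phiFun_injective p ?_, ?_⟩
  · rw [phiIdx_spec p hp c, phiIdx_spec p hp c', h]
  · rw [phi_card p hp, Fintype.card_option, Fintype.card_fin]

/-- **[A1]: the Puiseux factorization of the modular equation of prime level `p`.**
`Φ(X, J(u^p)) = (X - J(u^(p²))) * ∏_{b<p} (X - J(ζ^b u))` in `ℂ((u))[X]`, with `Φ` monic of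
degree `p + 1` in `X` and all coefficients in any subring `A ∋ ζ = exp(2πi/p)`. -/
theorem phi_puiseux (hp : p.Prime) (A : Subring ℂ)
    (hζ : Complex.exp (2 * π * Complex.I / p) ∈ A) :
    ∃ Φ : Polynomial (Polynomial ℂ), Φ.Monic ∧ Φ.natDegree = p + 1 ∧
      (∀ k n, (Φ.coeff k).coeff n ∈ A) ∧
      Φ.map ((aeval (qExpand ℂ p (jqModC ℂ)) : Polynomial ℂ →ₐ[ℂ] LaurentSeries ℂ) :
        Polynomial ℂ →+* LaurentSeries ℂ)
        = (X - C (qExpand ℂ (p ^ 2) (jqModC ℂ))) *
          ∏ b ∈ Finset.range p,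
            (X - C (twistL (Complex.exp (2 * π * Complex.I / p) ^ b) (jqModC ℂ))) := by
  have hperm : ∀ γ : SL(2, ℤ), ∃ σ : Equiv.Perm (PN p), ∀ c τ,
      phiFun p c (γ • τ) = phiFun p (σ c) τ :=
    fun γ => ⟨MulAction.toPerm γ⁻¹, fun c τ => phiFun_smul p γ c τ⟩
  have hexp : ∀ (c : PN p) (τ : ℍ),
      HasSum (fun n : ℕ => phiA p (phiIdx p hp c) n * Complex.exp (2 * π * Complex.I * τ / p) ^ n)
        (Complex.exp (2 * π * Complex.I * τ / p) ^ phiM p (phiIdx p hp c) * phiFun p c τ) := by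
    intro c τ
    rw [phiIdx_spec p hp c]
    exact phi_hasSum p _ τ
  obtain ⟨Φ, hm, hd, hint, hΦ⟩ := gen_symm_hasSum p (phiFun p) hperm
    (fun c => phiM p (phiIdx p hp c)) (fun c => phiA p (phiIdx p hp c)) hexp A
    (fun c n => phiA_mem p A hζ _ n)
  refine ⟨Φ, hm, hd.trans (phi_card p hp), hint, ?_⟩
  rw [hΦ]
  have e1 := (phiIdx_bijective p hp).prod_comp
    (fun i : Option (Fin p) => (X - C (genSeries (phiM p i) (phiA p i)) :
      Polynomial (LaurentSeries ℂ)))
  rw [e1, Fintype.prod_option, phi_genSeries_none]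
  congr 1
  rw [← Fin.prod_univ_eq_prod_range
    (fun b => (X - C (twistL (Complex.exp (2 * π * Complex.I / p) ^ b) (jqModC ℂ)) :
      Polynomial (LaurentSeries ℂ))) p]
  exact Finset.prod_congr rfl (fun b _ => by rw [phi_genSeries_some]; rfl)

end

end Fermat.Agent.IG
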