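import Mathlib
import Fermat.Prelude.Def_ModularCurve_X0ModL
import Fermat.Agent.Lib.IG_Defs

set_option autoImplicit false

/-!
# S28 (Igusa): the transfer lemma

If `G` is a Laurent series with coefficients in (the image of) a ring `A`, with a pole of exact
order `m ≥ 1` and leading coefficient `1`, and `Q` is a polynomial over the bigger ring `B` such
that `Q(G)` has all its coefficients in `A`, then `Q` has all its coefficients in `A`.
Applied to `G = J(q^h)`, the `j`-series.
-/

noncomputable section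

namespace Fermat.Agent.IG

open ModularCurve

section General

variable {A B : Type*} [CommRing A] [CommRing B]

theorem tr_coeff_C_mul (c : B) (x : LaurentSeries B) (n : ℤ) :
    (HahnSeries.C c * x).coeff n = c * x.coeff n := by
  rw [HahnSeries.C_mul_eq_smul, HahnSeries.coeff_smul, smul_eq_mul]

/-- the coefficient of `Q(G)` at `-(m * deg Q)` is the leading coefficient of `Q`. -/
theorem tr_coeff_eval₂_lead (G : LaurentSeries B) (m : ℕ) (hm : 0 < m)
    (hG1 : ∀ i : ℕ, (G ^ i).coeff (-((m : ℤ) * i)) = 1)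
    (hG2 : ∀ (i : ℕ) (n : ℤ), n < -((m : ℤ) * i) → (G ^ i).coeff n = 0)
    (Q : Polynomial B) :
    (Q.eval₂ HahnSeries.C G).coeff (-((m : ℤ) * Q.natDegree)) = Q.leadingCoeff := by
  rw [Polynomial.eval₂_eq_sum_range, HahnSeries.coeff_sum,
    Finset.sum_eq_single Q.natDegree]
  · rw [tr_coeff_C_mul, hG1, mul_one, Polynomial.coeff_natDegree]
  · intro i hi hne
    rw [tr_coeff_C_mul, hG2, mul_zero]
    have hlt : i < Q.natDegree :=
      lt_of_le_of_ne (Nat.lt_succ_iff.mp (Finset.mem_range.mp hi)) hne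
    have h1 : ((m : ℤ) * i) < (m : ℤ) * Q.natDegree :=
      mul_lt_mul_of_pos_left (by exact_mod_cast hlt) (by exact_mod_cast hm)
    linarith
  · intro h
    exact absurd (Finset.mem_range.mpr (Nat.lt_succ_self _)) h

/-- `aeval` at `G` is injective on polynomials. -/
theorem tr_eval₂_eq_zero (G : LaurentSeries B) (m : ℕ) (hm : 0 < m)
    (hG1 : ∀ i : ℕ, (G ^ i).coeff (-((m : ℤ) * i)) = 1)
    (hG2 : ∀ (i : ℕ) (n : ℤ), n < -((m : ℤ) * i) → (G ^ i).coeff n = 0)
    (Q : Polynomial B) (h : Q.eval₂ HahnSeries.C G = 0) : Q = 0 := by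
  have h1 := tr_coeff_eval₂_lead G m hm hG1 hG2 Q
  rw [h, HahnSeries.coeff_zero] at h1
  exact Polynomial.leadingCoeff_eq_zero.mp h1.symm

/-- **Transfer lemma**, ring hom form. -/
theorem tr_lift (f : A →+* B) (G₀ : LaurentSeries A) (m : ℕ) (hm : 0 < m)
    (hG1 : ∀ i : ℕ, (G₀ ^ i).coeff (-((m : ℤ) * i)) = 1)
    (hG2 : ∀ (i : ℕ) (n : ℤ), n < -((m : ℤ) * i) → (G₀ ^ i).coeff n = 0)
    (Q : Polynomial B)
    (hQ : ∀ n, (Q.eval₂ HahnSeries.C (coeffMap f G₀)).coeff n ∈ f.range) :
    ∀ n, Q.coeff n ∈ f.range := by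
  have hG1' : ∀ i : ℕ, ((coeffMap f G₀) ^ i).coeff (-((m : ℤ) * i)) = 1 := by
    intro i
    rw [← map_pow, coeffMap_coeff, hG1, map_one]
  have hG2' : ∀ (i : ℕ) (n : ℤ), n < -((m : ℤ) * i) → ((coeffMap f G₀) ^ i).coeff n = 0 := by
    intro i n hn
    rw [← map_pow, coeffMap_coeff, hG2 i n hn, map_zero]
  induction' hN : Q.support.card using Nat.strong_induction_on with N ih generalizing Q
  by_cases hQ0 : Q = 0
  · subst hQ0
    intro n
    rw [Polynomial.coeff_zero]
    exact zero_mem _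
  · have hlead : Q.leadingCoeff ∈ f.range := by
      rw [← tr_coeff_eval₂_lead (coeffMap f G₀) m hm hG1' hG2' Q]
      exact hQ _
    have hcard : Q.eraseLead.support.card < N := by
      rw [← hN]
      exact Polynomial.eraseLead_support_card_lt hQ0
    have key := ih _ hcard Q.eraseLead (fun n => by
      have hQe : Q.eraseLead = Q - Polynomial.C Q.leadingCoeff * Polynomial.X ^ Q.natDegree := by
        rw [eq_sub_iff_add_eq, Polynomial.eraseLead_add_C_mul_X_pow]
      rw [hQe, Polynomial.eval₂_sub, Polynomial.eval₂_mul, Polynomial.eval₂_C,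
        Polynomial.eval₂_pow, Polynomial.eval₂_X, HahnSeries.coeff_sub, tr_coeff_C_mul,
        ← map_pow, coeffMap_coeff]
      exact sub_mem (hQ n) (mul_mem hlead ⟨_, rfl⟩)) rfl
    intro n
    by_cases hn : n = Q.natDegree
    · subst hn
      exact hlead
    · rw [← Polynomial.eraseLead_coeff_of_ne _ hn]
      exact key n

/-- **Transfer lemma**, subring form: `G` has coefficients in the subring `A` of `B`, a pole of
exact order `m ≥ 1` with leading coefficient `1`; if `Q(G)` has coefficients in `A` then so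
does `Q`. -/
theorem tr_coeff_mem (A : Subring B) (G₀ : LaurentSeries A) (m : ℕ) (hm : 0 < m)
    (hG1 : ∀ i : ℕ, (G₀ ^ i).coeff (-((m : ℤ) * i)) = 1)
    (hG2 : ∀ (i : ℕ) (n : ℤ), n < -((m : ℤ) * i) → (G₀ ^ i).coeff n = 0)
    (Q : Polynomial B)
    (hQ : ∀ n, (Q.eval₂ HahnSeries.C (coeffMap A.subtype G₀)).coeff n ∈ A) :
    ∀ n, Q.coeff n ∈ A := by
  have h := tr_lift A.subtype G₀ m hm hG1 hG2 Q (fun n => by
    rw [Subring.range_subtype]
    exact hQ n)
  intro n
  have := h n
  rwa [Subring.range_subtype] at this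

end General

section JSeries

variable (R : Type*) [CommRing R]

/-- the series `J(q^h)` has a pole of exact order `h` with leading coefficient `1` (powers). -/
theorem tr_jq_pow_coeff_self (h : ℕ) [NeZero h] (i : ℕ) :
    ((qExpand R h (jqModC R)) ^ i).coeff (-((h : ℤ) * i)) = 1 := by
  rw [← map_pow, show (-((h : ℤ) * i)) = (h : ℤ) * (-(i : ℤ)) by ring, qExpand_coeff_mul,
    coeff_jqModC_pow_self]

theorem tr_jq_pow_coeff_of_lt (h : ℕ) [NeZero h] (i : ℕ) (n : ℤ) (hn : n < -((h : ℤ) * i)) :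
    ((qExpand R h (jqModC R)) ^ i).coeff n = 0 := by
  rw [← map_pow]
  by_cases hd : (h : ℤ) ∣ n
  · obtain ⟨n', rfl⟩ := hd
    rw [qExpand_coeff_mul]
    apply coeff_jqModC_pow_of_lt
    have hh : (0 : ℤ) < h := by exact_mod_cast Nat.pos_of_ne_zero (NeZero.ne h)
    have : (h : ℤ) * n' < (h : ℤ) * (-(i : ℤ)) := by linarith
    exact lt_of_mul_lt_mul_left this hh.le
  · exact qExpand_coeff_of_not_dvd h _ hd

/-- evaluation at `J(q^h)` is injective on polynomials. -/
theorem tr_eval₂_jq_eq_zero (h : ℕ) [NeZero h] (Q : Polynomial R)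
    (hQ : Q.eval₂ HahnSeries.C (qExpand R h (jqModC R)) = 0) : Q = 0 :=
  tr_eval₂_eq_zero _ h (Nat.pos_of_ne_zero (NeZero.ne h)) (tr_jq_pow_coeff_self R h)
    (tr_jq_pow_coeff_of_lt R h) Q hQ

variable {R}

/-- **Transfer lemma for the `j`-series**: if `Q(J(q^h))` has all coefficients in the subring
`A` then `Q ∈ A[X]`. -/
theorem tr_coeff_mem_jq' (A : Subring R) (h : ℕ) [NeZero h] (Q : Polynomial R)
    (hQ : ∀ n, (Q.eval₂ HahnSeries.C (qExpand R h (jqModC R))).coeff n ∈ A) :
    ∀ n, Q.coeff n ∈ A := by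
  have hG : coeffMap A.subtype (qExpand A h (jqModC A)) = qExpand R h (jqModC R) := by
    rw [coeffMap_qExpand, coeffMap_jqModC]
  refine tr_coeff_mem A (qExpand A h (jqModC A)) h (Nat.pos_of_ne_zero (NeZero.ne h))
    (tr_jq_pow_coeff_self A h) (tr_jq_pow_coeff_of_lt A h) Q ?_
  rw [hG]
  exact hQ

end JSeries

/-- **Transfer lemma for the `j`-series over `ℂ`** (`aeval` form). -/
theorem tr_coeff_mem_jq (A : Subring ℂ) (h : ℕ) [NeZero h] (Q : Polynomial ℂ)
    (hQ : ∀ n, (Polynomial.aeval (qExpand ℂ h (jqModC ℂ)) Q).coeff n ∈ A) :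
    ∀ n, Q.coeff n ∈ A := by
  refine tr_coeff_mem_jq' A h Q ?_
  intro n
  have h2 : Q.eval₂ HahnSeries.C (qExpand ℂ h (jqModC ℂ)) =
      Polynomial.aeval (qExpand ℂ h (jqModC ℂ)) Q := by
    rw [Polynomial.aeval_def]
    congr 1
    ext c : 1
    rw [algebraMap_laurentSeries_eq_single]
    rfl
  rw [h2]
  exact hQ n

section Range

variable {B : Type*} [CommRing B]

/-- a Laurent series over `B` comes from a Laurent series over the subring `A` iff all its
coefficients lie in `A`. -/
theorem tr_mem_range_coeffMap (A : Subring B) (s : LaurentSeries B) :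
    s ∈ (coeffMap A.subtype).range ↔ ∀ n, s.coeff n ∈ A := by
  constructor
  · rintro ⟨t, rfl⟩ n
    rw [coeffMap_coeff]
    exact (t.coeff n).2
  · intro h
    refine ⟨⟨fun n => ⟨s.coeff n, h n⟩, s.isPWO_support.mono (fun n hn => ?_)⟩, ?_⟩
    · simp only [Function.mem_support, ne_eq] at hn ⊢
      intro h0
      apply hn
      exact Subtype.ext h0
    · ext n
      rfl

/-- a polynomial over `LaurentSeries B` all of whose coefficients have coefficients in `A`
comes from a polynomial over `LaurentSeries A`. -/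
theorem tr_poly_mem_lifts (A : Subring B) (S : Polynomial (LaurentSeries B)) :
    S ∈ Polynomial.lifts (coeffMap A.subtype) ↔ ∀ k n, (S.coeff k).coeff n ∈ A := by
  rw [Polynomial.lifts_iff_coeff_lifts]
  constructor
  · intro h k
    exact (tr_mem_range_coeffMap A _).mp (h k)
  · intro h k
    exact (tr_mem_range_coeffMap A _).mpr (h k)

/-- the coefficients of `∏ (X - F i)` have coefficients in `A` if the `F i` do. -/
theorem tr_prod_coeff_mem (A : Subring B) {ι : Type*} (s : Finset ι) (F : ι → LaurentSeries B)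
    (hF : ∀ i ∈ s, ∀ n, (F i).coeff n ∈ A) :
    ∀ k n, ((∏ i ∈ s, (Polynomial.X - Polynomial.C (F i))).coeff k).coeff n ∈ A := by
  rw [← tr_poly_mem_lifts]
  refine Subsemiring.prod_mem _ (fun i hi => ?_)
  rw [tr_poly_mem_lifts]
  intro k n
  rw [Polynomial.coeff_sub, Polynomial.coeff_X, Polynomial.coeff_C, HahnSeries.coeff_sub]
  refine sub_mem ?_ ?_
  · split_ifs
    · rw [HahnSeries.coeff_one]
      split_ifs
      · exact one_mem _
      · exact zero_mem _
    · rw [HahnSeries.coeff_zero]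
      exact zero_mem _
  · split_ifs
    · exact hF i hi n
    · rw [HahnSeries.coeff_zero]
      exact zero_mem _

end Range

/-- **Transfer for a product formula** (the last step of the generic symmetric-function
theorem): if `Φ(X, J(u^h)) = ∏ (X - F i)` in `ℂ((u))[X]` and all `F i` have coefficients in the
subring `A`, then `Φ ∈ A[Y][X]`. -/
theorem tr_prod_transfer (A : Subring ℂ) (h : ℕ) [NeZero h] {ι : Type*} (s : Finset ι)
    (F : ι → LaurentSeries ℂ) (hF : ∀ i ∈ s, ∀ n, (F i).coeff n ∈ A)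
    (Φ : Polynomial (Polynomial ℂ))
    (hΦ : Φ.map ((Polynomial.aeval (qExpand ℂ h (jqModC ℂ)) :
        Polynomial ℂ →ₐ[ℂ] LaurentSeries ℂ) : Polynomial ℂ →+* LaurentSeries ℂ) =
      ∏ i ∈ s, (Polynomial.X - Polynomial.C (F i))) :
    ∀ k n, (Φ.coeff k).coeff n ∈ A := by
  intro k
  refine tr_coeff_mem_jq A h (Φ.coeff k) (fun n => ?_)
  have h1 := tr_prod_coeff_mem A s F hF k n
  rw [← hΦ, Polynomial.coeff_map] at h1
  exact h1

end Fermat.Agent.IG
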