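import Mathlib
import Fermat.Prelude.Def_ModularCurve_X0ModL
import Fermat.Agent.Lib.IG_Defs
import Fermat.Agent.Lib.IG_ThetaDefs
import Fermat.Agent.Lib.IG_Transfer
import Fermat.Agent.Lib.MC_Twist

set_option autoImplicit false

/-!
# S28 (Igusa): reduction of the characteristic zero identities to characteristic `ℓ`

`A` is a subring of `ℂ` (in the application: all algebraic integers), `g : A →+* k` a ring hom
to a field `k`.  Identities between Laurent series over `ℂ` whose ingredients have coefficients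
in `A` are pulled back to `LaurentSeries A` and pushed forward to `LaurentSeries k`.
-/

noncomputable section

namespace Fermat.Agent.IG

open ModularCurve

/-! ### The twist by a unit over a commutative ring -/

section TwistU

variable {R S : Type*} [CommRing R] [CommRing S]

/-- The substitution `q ↦ z q` for a unit `z` of a commutative ring. -/
def trTw (z : Rˣ) (s : LaurentSeries R) : LaurentSeries R :=
  ⟨fun n => ((z ^ n : Rˣ) : R) * s.coeff n, s.isPWO_support.mono (fun n hn => by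
    simp only [Function.mem_support, ne_eq] at hn ⊢
    exact fun h => hn (by rw [h, mul_zero]))⟩

@[simp]
theorem trTw_coeff (z : Rˣ) (s : LaurentSeries R) (n : ℤ) :
    (trTw z s).coeff n = ((z ^ n : Rˣ) : R) * s.coeff n := rfl

theorem tr_coeffMap_trTw (f : R →+* S) (z : Rˣ) (s : LaurentSeries R) :
    coeffMap f (trTw z s) = trTw (Units.map (f : R →* S) z) (coeffMap f s) := by
  ext n
  rw [coeffMap_coeff, trTw_coeff, trTw_coeff, coeffMap_coeff, map_mul, ← map_zpow]
  rfl

theorem trTw_eq_igTwL {K : Type*} [Field K] (z : Kˣ) (s : LaurentSeries K) :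
    trTw z s = igTwL (z : K) s := by
  ext n
  rw [trTw_coeff, igTwL_coeff, Units.val_zpow_eq_zpow_val]

theorem trTw_eq_twistL (z : ℂˣ) (s : LaurentSeries ℂ) :
    trTw z s = MC.twistL (z : ℂ) s := by
  ext n
  rw [trTw_coeff, MC.twistL_coeff, Units.val_zpow_eq_zpow_val]

end TwistU

/-! ### Evaluation of polynomials at a Laurent series -/

section Eval

variable {R S : Type*} [CommRing R] [CommRing S]

/-- evaluation `R[Y] →+* LaurentSeries R`, `Y ↦ G` -/
def trEv (G : LaurentSeries R) : Polynomial R →+* LaurentSeries R :=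
  Polynomial.eval₂RingHom HahnSeries.C G

theorem trEv_apply (G : LaurentSeries R) (Q : Polynomial R) :
    trEv G Q = Q.eval₂ HahnSeries.C G := rfl

theorem tr_coeffMap_C (f : R →+* S) (r : R) :
    coeffMap f (HahnSeries.C r : LaurentSeries R) = HahnSeries.C (f r) := by
  rw [HahnSeries.C_apply, coeffMap_single, HahnSeries.C_apply]

/-- evaluation commutes with coefficient maps -/
theorem tr_coeffMap_comp_trEv (f : R →+* S) (G : LaurentSeries R) :
    (coeffMap f).comp (trEv G) = (trEv (coeffMap f G)).comp (Polynomial.mapRingHom f) := by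
  refine Polynomial.ringHom_ext (fun a => ?_) ?_
  · simp only [RingHom.comp_apply, trEv_apply, Polynomial.eval₂_C, Polynomial.coe_mapRingHom,
      Polynomial.map_C, tr_coeffMap_C]
  · simp only [RingHom.comp_apply, trEv_apply, Polynomial.eval₂_X, Polynomial.coe_mapRingHom,
      Polynomial.map_X]

theorem trEv_qExpand (h : ℕ) [NeZero h] (G : LaurentSeries R) :
    (qExpand R h).comp (trEv G) = trEv (qExpand R h G) := by
  refine Polynomial.ringHom_ext (fun a => ?_) ?_
  · simp only [RingHom.comp_apply, trEv_apply, Polynomial.eval₂_C, qExpand_C]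
  · simp only [RingHom.comp_apply, trEv_apply, Polynomial.eval₂_X]

/-- over a field, `aeval G` is `trEv G` -/
theorem tr_aeval_eq_trEv {K : Type*} [Field K] (G : LaurentSeries K) :
    ((Polynomial.aeval G : Polynomial K →ₐ[K] LaurentSeries K) :
      Polynomial K →+* LaurentSeries K) = trEv G := by
  refine Polynomial.ringHom_ext (fun a => ?_) ?_
  · simp only [AlgHom.coe_toRingHom, Polynomial.aeval_C, trEv_apply, Polynomial.eval₂_C]
    rw [algebraMap_laurentSeries_eq_single]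
    rfl
  · simp only [AlgHom.coe_toRingHom, Polynomial.aeval_X, trEv_apply, Polynomial.eval₂_X]

theorem trEv_jq_injective (R : Type*) [CommRing R] (h : ℕ) [NeZero h] :
    Function.Injective (trEv (qExpand R h (jqModC R))) := by
  rw [injective_iff_map_eq_zero]
  intro Q hQ
  exact tr_eval₂_jq_eq_zero R h Q hQ

theorem tr_coeffMap_injective (f : R →+* S) (hf : Function.Injective f) :
    Function.Injective (coeffMap f) := by
  intro x y hxy
  ext n
  apply hf
  rw [← coeffMap_coeff, ← coeffMap_coeff, hxy]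

end Eval

/-! ### Lifting polynomials with coefficients in a subring -/

section Lift

variable {B : Type*} [CommRing B]

theorem tr_lift_poly2 (A : Subring B) (Φ : Polynomial (Polynomial B))
    (hΦ : ∀ i n, (Φ.coeff i).coeff n ∈ A) :
    ∃ Φ₀ : Polynomial (Polynomial A), Φ₀.map (Polynomial.mapRingHom A.subtype) = Φ := by
  rw [← Polynomial.mem_lifts, Polynomial.lifts_iff_coeff_lifts]
  intro i
  have h1 : Φ.coeff i ∈ Polynomial.lifts A.subtype := by
    rw [Polynomial.lifts_iff_coeff_lifts]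
    intro n
    exact ⟨⟨_, hΦ i n⟩, rfl⟩
  obtain ⟨q, hq⟩ := (Polynomial.mem_lifts _).mp h1
  exact ⟨q, hq⟩

end Lift

/-! ### Roots of unity under a ring hom to a field -/

theorem tr_isPrimitiveRoot_map {A k : Type*} [CommRing A] [IsDomain A] [Field k] (g : A →+* k)
    (n : ℕ) (hn : (n : k) ≠ 0) (ζ : A) (hζ : IsPrimitiveRoot ζ n) :
    IsPrimitiveRoot (g ζ) n := by
  have hn0 : n ≠ 0 := by
    rintro rfl
    exact hn Nat.cast_zero
  obtain ⟨m, rfl⟩ := Nat.exists_eq_succ_of_ne_zero hn0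
  have hprod := congrArg g hζ.prod_one_sub_pow_eq_order
  rw [map_prod] at hprod
  have hne : ∏ i ∈ Finset.range m, g (1 - ζ ^ (i + 1)) ≠ 0 := by
    rw [hprod]
    have : g ((m : A) + 1) = ((m + 1 : ℕ) : k) := by
      push_cast
      simp
    rw [this]
    exact hn
  refine IsPrimitiveRoot.mk_of_lt _ (Nat.succ_pos m) ?_ ?_
  · rw [← map_pow, hζ.pow_eq_one, map_one]
  · intro l hl0 hlt h1
    apply hne
    refine Finset.prod_eq_zero (i := l - 1) (Finset.mem_range.mpr (by omega)) ?_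
    rw [Nat.sub_add_cancel hl0, map_sub, map_one, map_pow, h1, sub_self]

/-! ### Reduction of the Puiseux factorisation of the modular equation -/

section Phi

open Polynomial

theorem tr_phi_rhs_map {R S : Type*} [CommRing R] [CommRing S] (f : R →+* S) (p : ℕ) [NeZero p]
    (z : Rˣ) :
    ((X - C (qExpand R (p ^ 2) (jqModC R))) *
        ∏ b ∈ Finset.range p, (X - C (trTw (z ^ b) (jqModC R)))).map (coeffMap f) =
      (X - C (qExpand S (p ^ 2) (jqModC S))) *
        ∏ b ∈ Finset.range p, (X - C (trTw (Units.map (f : R →* S) z ^ b) (jqModC S))) := by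
  rw [Polynomial.map_mul, Polynomial.map_sub, Polynomial.map_X, Polynomial.map_C,
    Polynomial.map_prod, coeffMap_qExpand, coeffMap_jqModC]
  congr 1
  refine Finset.prod_congr rfl (fun b _ => ?_)
  rw [Polynomial.map_sub, Polynomial.map_X, Polynomial.map_C, tr_coeffMap_trTw,
    coeffMap_jqModC, map_pow]

theorem tr_map_trEv_jq {R S : Type*} [CommRing R] [CommRing S] (f : R →+* S) (h : ℕ) [NeZero h]
    (Φ₀ : Polynomial (Polynomial R)) :
    (Φ₀.map (trEv (qExpand R h (jqModC R)))).map (coeffMap f) =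
      (Φ₀.map (Polynomial.mapRingHom f)).map (trEv (qExpand S h (jqModC S))) := by
  rw [Polynomial.map_map, Polynomial.map_map, tr_coeffMap_comp_trEv, coeffMap_qExpand,
    coeffMap_jqModC]

/-- **Reduction of `(Φ)`**: from the characteristic zero Puiseux factorisation
`Φ(X, J(u^p)) = (X - J(u^(p²))) ∏_{b<p} (X - J(ζ^b u))` with `Φ ∈ A[Y][X]` (`A` a subring of `ℂ`
containing `ζ = exp(2πi/p)`) and a ring hom `g : A →+* k` to a field in which `p ≠ 0`, the same
factorisation over `k` with a primitive `p`-th root of unity of `k`. -/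
theorem tr_phi {k : Type*} [Field k] (A : Subring ℂ) (g : ↥A →+* k) (p : ℕ) [NeZero p]
    (hpk : (p : k) ≠ 0) (hζ : Complex.exp (2 * Real.pi * Complex.I / p) ∈ A)
    (h0 : ∃ Φ : Polynomial (Polynomial ℂ), (∀ i n, (Φ.coeff i).coeff n ∈ A) ∧
      Φ.map ((aeval (qExpand ℂ p (jqModC ℂ)) : Polynomial ℂ →ₐ[ℂ] LaurentSeries ℂ) :
          Polynomial ℂ →+* LaurentSeries ℂ) =
        (X - C (qExpand ℂ (p ^ 2) (jqModC ℂ))) *
          ∏ b ∈ Finset.range p,
            (X - C (MC.twistL (Complex.exp (2 * Real.pi * Complex.I / p) ^ b) (jqModC ℂ)))) :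
    ∃ (Φ : Polynomial (Polynomial k)) (ζ : k), IsPrimitiveRoot ζ p ∧ Φ.Monic ∧
      Φ.map ((aeval (qExpand k p (jqModC k)) : Polynomial k →ₐ[k] LaurentSeries k) :
          Polynomial k →+* LaurentSeries k) =
        (X - C (qExpand k (p ^ 2) (jqModC k))) *
          ∏ b ∈ Finset.range p, (X - C (igTwL (ζ ^ b) (jqModC k))) := by
  obtain ⟨Φ, hΦA, hΦ⟩ := h0
  have hp0 : p ≠ 0 := NeZero.ne p
  have hprim : IsPrimitiveRoot (Complex.exp (2 * Real.pi * Complex.I / p)) p :=
    Complex.isPrimitiveRoot_exp p hp0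
  generalize Complex.exp (2 * Real.pi * Complex.I / p) = ζ at hζ hΦ hprim
  -- the unit of `A`
  let ζA : (↥A)ˣ := Units.ofPowEqOne (⟨ζ, hζ⟩ : ↥A) p (Subtype.ext hprim.pow_eq_one) hp0
  have hprimA : IsPrimitiveRoot (ζA : ↥A) p :=
    IsPrimitiveRoot.of_map_of_injective (f := A.subtype) hprim Subtype.val_injective
  have hprimk : IsPrimitiveRoot (g ζA) p := tr_isPrimitiveRoot_map g p hpk _ hprimA
  -- lift `Φ`
  obtain ⟨Φ₀, hΦ₀⟩ := tr_lift_poly2 A Φ hΦA
  have hA : Φ₀.map (trEv (qExpand ↥A p (jqModC ↥A))) =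
      (X - C (qExpand ↥A (p ^ 2) (jqModC ↥A))) *
        ∏ b ∈ Finset.range p, (X - C (trTw (ζA ^ b) (jqModC ↥A))) := by
    apply Polynomial.map_injective (coeffMap A.subtype)
      (tr_coeffMap_injective _ Subtype.val_injective)
    rw [tr_map_trEv_jq, tr_phi_rhs_map, hΦ₀, ← tr_aeval_eq_trEv, hΦ]
    congr 1
    refine Finset.prod_congr rfl (fun b _ => ?_)
    rw [trTw_eq_twistL]
    rfl
  have hk : (Φ₀.map (Polynomial.mapRingHom g)).map (trEv (qExpand k p (jqModC k))) =
      (X - C (qExpand k (p ^ 2) (jqModC k))) *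
        ∏ b ∈ Finset.range p, (X - C (trTw (Units.map (g : ↥A →* k) ζA ^ b) (jqModC k))) := by
    rw [← tr_map_trEv_jq, hA, tr_phi_rhs_map]
  refine ⟨Φ₀.map (Polynomial.mapRingHom g), g ζA, hprimk, ?_, ?_⟩
  · -- monic
    apply Polynomial.monic_of_injective (trEv_jq_injective k p)
    rw [hk]
    exact (monic_X_sub_C _).mul (monic_prod_of_monic _ _ (fun b _ => monic_X_sub_C _))
  · rw [tr_aeval_eq_trEv, hk]
    congr 1
    refine Finset.prod_congr rfl (fun b _ => ?_)
    rw [trTw_eq_igTwL]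
    rfl

end Phi

/-! ### Reduction of the integrality of `Δ(q^p)/Δ(q)` -/

section Delta

open Polynomial

theorem tr_coeffMap_eval₂_trEv {R S : Type*} [CommRing R] [CommRing S] (f : R →+* S)
    (G x : LaurentSeries R) (P : Polynomial (Polynomial R)) :
    coeffMap f (P.eval₂ (trEv G) x) =
      (P.map (Polynomial.mapRingHom f)).eval₂ (trEv (coeffMap f G)) (coeffMap f x) := by
  rw [Polynomial.hom_eval₂, tr_coeffMap_comp_trEv, Polynomial.eval₂_map]

/-- the series `p^12 Δ(q^p)/Δ(q)` over any commutative ring -/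
def trPhiSer (R : Type*) [CommRing R] (p : ℕ) [NeZero p] : LaurentSeries R :=
  (p : LaurentSeries R) ^ 12 * (qExpand R p (deltaL R) * igDinv R)

theorem tr_coeffMap_trPhiSer {R S : Type*} [CommRing R] [CommRing S] (f : R →+* S) (p : ℕ)
    [NeZero p] : coeffMap f (trPhiSer R p) = trPhiSer S p := by
  rw [trPhiSer, trPhiSer, map_mul, map_pow, map_natCast, map_mul, coeffMap_qExpand,
    theta_coeffMap_deltaL, coeffMap_igDinv]

theorem tr_div_deltaL {K : Type*} [Field K] (x : LaurentSeries K) :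
    x / deltaL K = x * igDinv K := by
  have h : deltaL K * igDinv K = 1 := igD_mul_igDinv K
  rw [div_eq_mul_inv, eq_inv_of_mul_eq_one_right h]

theorem tr_trPhiSer_field {K : Type*} [Field K] (p : ℕ) [NeZero p] :
    trPhiSer K p = (p : LaurentSeries K) ^ 12 * (qExpand K p (deltaL K) / deltaL K) := by
  rw [trPhiSer, tr_div_deltaL]

/-- a root of a monic polynomial over `K[J]` is integral over `Algebra.adjoin K {J}` -/
theorem tr_isIntegral_of_eval₂ {K : Type*} [Field K] (P : Polynomial (Polynomial K))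
    (hP : P.Monic) (x : LaurentSeries K) (h : P.eval₂ (trEv (jqModC K)) x = 0) :
    IsIntegral (Algebra.adjoin K {jqModC K}) x := by
  let Jm : ↥(Algebra.adjoin K {jqModC K}) :=
    ⟨jqModC K, Algebra.subset_adjoin (Set.mem_singleton _)⟩
  let φ' : Polynomial K →+* ↥(Algebra.adjoin K {jqModC K}) :=
    (Polynomial.aeval Jm : Polynomial K →ₐ[K] ↥(Algebra.adjoin K {jqModC K}))
  have hcomp : (algebraMap ↥(Algebra.adjoin K {jqModC K}) (LaurentSeries K)).comp φ' =
      trEv (jqModC K) := by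
    refine Polynomial.ringHom_ext (fun a => ?_) ?_
    · simp only [φ', RingHom.comp_apply, AlgHom.coe_toRingHom, Polynomial.aeval_C, trEv_apply,
        Polynomial.eval₂_C]
      rw [← IsScalarTower.algebraMap_apply, algebraMap_laurentSeries_eq_single]
      rfl
    · simp only [φ', RingHom.comp_apply, AlgHom.coe_toRingHom, Polynomial.aeval_X, trEv_apply,
        Polynomial.eval₂_X]
      rfl
  refine ⟨P.map φ', hP.map _, ?_⟩
  rw [Polynomial.eval₂_map, hcomp, h]

/-- **Reduction of `(Δ_p)`**: from a monic `Ψ ∈ A[Y][T]` with `Ψ(J, p^12 Δ(q^p)/Δ(q)) = 0` in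
`ℂ((q))` (`A` a subring of `ℂ`) and a ring hom `g : A →+* k` to a field in which `p ≠ 0`:
`Δ(q^p)/Δ(q)` is integral over `k[J]` in `k((q))`. -/
theorem tr_delta {k : Type*} [Field k] (A : Subring ℂ) (g : ↥A →+* k) (p : ℕ) [NeZero p]
    (hpk : (p : k) ≠ 0)
    (h0 : ∃ Psi : Polynomial (Polynomial ℂ), Psi.Monic ∧ (∀ i n, (Psi.coeff i).coeff n ∈ A) ∧
      Polynomial.eval ((p : LaurentSeries ℂ) ^ 12 * (qExpand ℂ p (deltaL ℂ) / deltaL ℂ))
        (Psi.map ((aeval (jqModC ℂ) : Polynomial ℂ →ₐ[ℂ] LaurentSeries ℂ) :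
          Polynomial ℂ →+* LaurentSeries ℂ)) = 0) :
    IsIntegral (Algebra.adjoin k {jqModC k}) (qExpand k p (deltaL k) / deltaL k) := by
  obtain ⟨Psi, hmon, hPsiA, hPsi⟩ := h0
  obtain ⟨Psi₀, hPsi₀⟩ := tr_lift_poly2 A Psi hPsiA
  have hmon₀ : Psi₀.Monic := by
    apply Polynomial.monic_of_injective (f := Polynomial.mapRingHom A.subtype)
      (Polynomial.map_injective _ Subtype.val_injective)
    rw [hPsi₀]
    exact hmon
  -- the identity over `A`
  have hA : Psi₀.eval₂ (trEv (jqModC ↥A)) (trPhiSer ↥A p) = 0 := by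
    apply tr_coeffMap_injective A.subtype Subtype.val_injective
    rw [tr_coeffMap_eval₂_trEv, hPsi₀, coeffMap_jqModC, tr_coeffMap_trPhiSer, map_zero,
      tr_trPhiSer_field, ← tr_aeval_eq_trEv, ← Polynomial.eval_map]
    exact hPsi
  -- the identity over `k`
  have hk : (Psi₀.map (Polynomial.mapRingHom g)).eval₂ (trEv (jqModC k)) (trPhiSer k p) = 0 := by
    have h := congrArg (coeffMap g) hA
    rwa [tr_coeffMap_eval₂_trEv, coeffMap_jqModC, tr_coeffMap_trPhiSer, map_zero] at h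
  have hint : IsIntegral (Algebra.adjoin k {jqModC k}) (trPhiSer k p) :=
    tr_isIntegral_of_eval₂ _ (hmon₀.map _) _ hk
  -- divide by `p^12`
  have hc : IsIntegral (Algebra.adjoin k {jqModC k})
      (algebraMap k (LaurentSeries k) (((p : k) ^ 12)⁻¹)) := by
    rw [IsScalarTower.algebraMap_apply k ↥(Algebra.adjoin k {jqModC k}) (LaurentSeries k)]
    exact isIntegral_algebraMap
  have hmul := hc.mul hint
  have heq : algebraMap k (LaurentSeries k) (((p : k) ^ 12)⁻¹) * trPhiSer k p =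
      qExpand k p (deltaL k) / deltaL k := by
    rw [tr_trPhiSer_field, ← mul_assoc]
    have h1 : algebraMap k (LaurentSeries k) (((p : k) ^ 12)⁻¹) * (p : LaurentSeries k) ^ 12 =
        1 := by
      rw [← map_natCast (algebraMap k (LaurentSeries k)) p, ← map_pow, ← map_mul,
        inv_mul_cancel₀ (pow_ne_zero 12 hpk), map_one]
    rw [h1, one_mul]
  rwa [heq] at hmul

end Delta

/-! ### The ring of all algebraic integers and its residue fields -/

section Abar

/-- the ring of all algebraic integers, as a subring of `ℂ` -/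
def trAbar : Subring ℂ := (integralClosure ℤ ℂ).toSubring

theorem tr_mem_trAbar {x : ℂ} : x ∈ trAbar ↔ IsIntegral ℤ x := Iff.rfl

theorem tr_zeta_mem (n : ℕ) [NeZero n] :
    Complex.exp (2 * Real.pi * Complex.I / n) ∈ trAbar :=
  (Complex.isPrimitiveRoot_exp n (NeZero.ne n)).isIntegral (Nat.pos_of_ne_zero (NeZero.ne n))

theorem tr_prime_not_isUnit (ℓ : ℕ) (hℓ : ℓ.Prime) : ¬ IsUnit ((ℓ : ℕ) : ↥trAbar) := by
  rintro ⟨u, hu⟩
  have h1 : ((ℓ : ℕ) : ℂ) * (((u⁻¹ : (↥trAbar)ˣ) : ↥trAbar) : ℂ) = 1 := by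
    have h := congrArg (Subtype.val) u.mul_inv
    rw [hu] at h
    simpa using h
  have hℓ0 : ((ℓ : ℕ) : ℂ) ≠ 0 := by exact_mod_cast hℓ.ne_zero
  have h2 : (((u⁻¹ : (↥trAbar)ˣ) : ↥trAbar) : ℂ) = algebraMap ℚ ℂ (1 / (ℓ : ℚ)) := by
    rw [map_div₀, map_one, map_natCast, eq_div_iff hℓ0, mul_comm]
    exact h1
  have h3 : IsIntegral ℤ (1 / (ℓ : ℚ)) := by
    have h := ((u⁻¹ : (↥trAbar)ˣ) : ↥trAbar).2
    rw [tr_mem_trAbar, h2] at h
    exact (isIntegral_algebraMap_iff (algebraMap ℚ ℂ).injective).mp h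
  obtain ⟨n, hn⟩ := IsIntegrallyClosed.isIntegral_iff.mp h3
  have hℓq : ((ℓ : ℕ) : ℚ) ≠ 0 := by exact_mod_cast hℓ.ne_zero
  have h4 : ((ℓ : ℕ) : ℚ) * (n : ℚ) = 1 := by
    have : (algebraMap ℤ ℚ n : ℚ) = (n : ℚ) := rfl
    rw [this] at hn
    rw [hn]
    field_simp
  have h5 : (ℓ : ℤ) * n = 1 := by exact_mod_cast h4
  have h6 : IsUnit (ℓ : ℤ) := IsUnit.of_mul_eq_one _ h5
  have h7 : (ℓ : ℤ).natAbs = 1 := Int.isUnit_iff_natAbs_eq.mp h6
  rw [Int.natAbs_natCast] at h7
  exact hℓ.one_lt.ne' h7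

/-- for every algebraically closed field `K` of characteristic `ℓ` there is a ring hom from the
ring of all algebraic integers to `K`. -/
theorem tr_exists_hom (K : Type*) [Field K] [IsAlgClosed K] (ℓ : ℕ) [Fact ℓ.Prime] [CharP K ℓ] :
    Nonempty (↥trAbar →+* K) := by
  have hℓ : ℓ.Prime := Fact.out
  obtain ⟨m, hm, hle⟩ := Ideal.exists_le_maximal (Ideal.span {((ℓ : ℕ) : ↥trAbar)})
    (by rw [Ne, Ideal.span_singleton_eq_top]; exact tr_prime_not_isUnit ℓ hℓ)
  have hℓm : ((ℓ : ℕ) : ↥trAbar) ∈ m := hle (Ideal.subset_span rfl)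
  let _ : Field (↥trAbar ⧸ m) := Ideal.Quotient.field m
  have hℓ0 : ((ℓ : ℕ) : ↥trAbar ⧸ m) = 0 := by
    rw [← map_natCast (Ideal.Quotient.mk m)]
    exact Ideal.Quotient.eq_zero_iff_mem.mpr hℓm
  have hchar : CharP (↥trAbar ⧸ m) ℓ := by
    have hdvd : ringChar (↥trAbar ⧸ m) ∣ ℓ := (ringChar.spec _ ℓ).mp hℓ0
    rcases (Nat.dvd_prime hℓ).mp hdvd with h1 | h1
    · exact absurd h1 (CharP.ringChar_ne_one)
    · rw [← h1]
      exact ringChar.charP _
  let _ : Algebra (ZMod ℓ) (↥trAbar ⧸ m) := ZMod.algebra _ ℓ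
  let _ : Algebra (ZMod ℓ) K := ZMod.algebra K ℓ
  have : Algebra.IsAlgebraic (ZMod ℓ) (↥trAbar ⧸ m) := by
    refine ⟨fun x => ?_⟩
    obtain ⟨a, rfl⟩ := Ideal.Quotient.mk_surjective x
    obtain ⟨P, hP, hPa⟩ := a.2
    have hPa' : P.eval₂ (Int.castRingHom ↥trAbar) a = 0 := by
      apply Subtype.val_injective
      have h := Polynomial.hom_eval₂ P (Int.castRingHom ↥trAbar) trAbar.subtype a
      rw [RingHom.ext_int (trAbar.subtype.comp (Int.castRingHom ↥trAbar)) (algebraMap ℤ ℂ)] at h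
      exact h.trans hPa
    have hPx : P.eval₂ (Int.castRingHom (↥trAbar ⧸ m)) (Ideal.Quotient.mk m a) = 0 := by
      have h := Polynomial.hom_eval₂ P (Int.castRingHom ↥trAbar) (Ideal.Quotient.mk m) a
      rw [hPa', map_zero, RingHom.ext_int ((Ideal.Quotient.mk m).comp (Int.castRingHom ↥trAbar))
        (Int.castRingHom (↥trAbar ⧸ m))] at h
      exact h.symm
    have hint : IsIntegral (ZMod ℓ) (Ideal.Quotient.mk m a) := by
      refine ⟨P.map (Int.castRingHom (ZMod ℓ)), hP.map _, ?_⟩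
      rw [Polynomial.eval₂_map, RingHom.ext_int ((algebraMap (ZMod ℓ) (↥trAbar ⧸ m)).comp
        (Int.castRingHom (ZMod ℓ))) (Int.castRingHom (↥trAbar ⧸ m))]
      exact hPx
    exact hint.isAlgebraic
  exact ⟨((IsAlgClosed.lift (R := ZMod ℓ) (S := ↥trAbar ⧸ m) (M := K) :
    (↥trAbar ⧸ m) →ₐ[ZMod ℓ] K) : (↥trAbar ⧸ m) →+* K).comp (Ideal.Quotient.mk m)⟩

/-- the image of `exp(2πi/N)` in a field `K` with `N ≠ 0` is a primitive `N`-th root of unity -/
theorem tr_primitiveRoot {K : Type*} [Field K] (g : ↥trAbar →+* K) (N : ℕ) [NeZero N]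
    (hN : (N : K) ≠ 0) :
    IsPrimitiveRoot
      (g ⟨Complex.exp (2 * Real.pi * Complex.I / N), tr_zeta_mem N⟩) N := by
  refine tr_isPrimitiveRoot_map g N hN _ ?_
  exact IsPrimitiveRoot.of_map_of_injective (f := trAbar.subtype)
    (Complex.isPrimitiveRoot_exp N (NeZero.ne N)) Subtype.val_injective

end Abar

/-! ### Packaged forms for the ring of all algebraic integers -/

section Packaged

open Polynomial

/-- `tr_phi` for `A = trAbar`, taking the characteristic zero statement in the shape of the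
Puiseux factorisation theorem (with the monic / degree conjuncts). -/
theorem tr_phi_abar {k : Type*} [Field k] (g : ↥trAbar →+* k) (p : ℕ) [NeZero p]
    (hpk : (p : k) ≠ 0)
    (h0 : ∃ Φ : Polynomial (Polynomial ℂ), Φ.Monic ∧ Φ.natDegree = p + 1 ∧
      (∀ i n, (Φ.coeff i).coeff n ∈ trAbar) ∧
      Φ.map ((aeval (qExpand ℂ p (jqModC ℂ)) : Polynomial ℂ →ₐ[ℂ] LaurentSeries ℂ) :
          Polynomial ℂ →+* LaurentSeries ℂ) =
        (X - C (qExpand ℂ (p ^ 2) (jqModC ℂ))) *
          ∏ b ∈ Finset.range p,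
            (X - C (MC.twistL (Complex.exp (2 * Real.pi * Complex.I / p) ^ b) (jqModC ℂ)))) :
    ∃ (Φ : Polynomial (Polynomial k)) (ζ : k), IsPrimitiveRoot ζ p ∧ Φ.Monic ∧
      Φ.map ((aeval (qExpand k p (jqModC k)) : Polynomial k →ₐ[k] LaurentSeries k) :
          Polynomial k →+* LaurentSeries k) =
        (X - C (qExpand k (p ^ 2) (jqModC k))) *
          ∏ b ∈ Finset.range p, (X - C (igTwL (ζ ^ b) (jqModC k))) := by
  obtain ⟨Φ, -, -, hA, hid⟩ := h0
  exact tr_phi trAbar g p hpk (tr_zeta_mem p) ⟨Φ, hA, hid⟩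

/-- `tr_delta` for `A = trAbar`. -/
theorem tr_delta_abar {k : Type*} [Field k] (g : ↥trAbar →+* k) (p : ℕ) [NeZero p]
    (hpk : (p : k) ≠ 0)
    (h0 : ∃ Psi : Polynomial (Polynomial ℂ), Psi.Monic ∧
      (∀ i n, (Psi.coeff i).coeff n ∈ trAbar) ∧
      Polynomial.eval ((p : LaurentSeries ℂ) ^ 12 * (qExpand ℂ p (deltaL ℂ) / deltaL ℂ))
        (Psi.map ((aeval (jqModC ℂ) : Polynomial ℂ →ₐ[ℂ] LaurentSeries ℂ) :
          Polynomial ℂ →+* LaurentSeries ℂ)) = 0) :
    IsIntegral (Algebra.adjoin k {jqModC k}) (qExpand k p (deltaL k) / deltaL k) :=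
  tr_delta trAbar g p hpk h0

end Packaged

end Fermat.Agent.IG
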