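import Fermat.Agent.Lib.MF_JPrime
import Fermat.Agent.Lib.IG_ThetaDefs

set_option autoImplicit false

/-!
# S28 (Igusa): the formal identity `(θ j)^6 = Δ j^4 (j - 1728)^3` (helper8)

`thetaL R` is `θ = q d/dq` on `LaurentSeries R`, `deltaL R` the formal discriminant
`q ∏ (1 - q^n)^24`; `theta_identity R` holds over every commutative ring `R` (transferred from the
analytic identity `MF.jprime_pow_six` through Taylor series at `q = 0`).
-/

noncomputable section

namespace Fermat.Agent.IG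

open UpperHalfPlane ModularForm EisensteinSeries ModularCurve Complex Filter
open Fermat.Agent.MC Fermat.Agent.MF
open scoped Real Topology

local notation "𝕢" => Function.Periodic.qParam

/-! ### Taylor series supplements -/

theorem theta_taylorPS_add {φ ψ : ℂ → ℂ} (hφ : AnalyticAt ℂ φ 0) (hψ : AnalyticAt ℂ ψ 0) :
    taylorPS (φ + ψ) = taylorPS φ + taylorPS ψ := by
  ext m
  rw [map_add, taylorPS_coeff, taylorPS_coeff, taylorPS_coeff,
    iteratedDeriv_add hφ.contDiffAt hψ.contDiffAt, mul_add]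

theorem theta_taylorPS_sub {φ ψ : ℂ → ℂ} (hφ : AnalyticAt ℂ φ 0) (hψ : AnalyticAt ℂ ψ 0) :
    taylorPS (φ - ψ) = taylorPS φ - taylorPS ψ := by
  ext m
  rw [map_sub, taylorPS_coeff, taylorPS_coeff, taylorPS_coeff,
    iteratedDeriv_sub hφ.contDiffAt hψ.contDiffAt, mul_sub]

theorem theta_taylorPS_deriv (φ : ℂ → ℂ) :
    taylorPS (deriv φ) = PowerSeries.derivative ℂ (taylorPS φ) := by
  ext m
  rw [PowerSeries.coeff_derivative, taylorPS_coeff, taylorPS_coeff, iteratedDeriv_succ',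
    Nat.factorial_succ]
  have h1 : ((m : ℂ) + 1) ≠ 0 := by exact_mod_cast Nat.succ_ne_zero m
  have h2 : (m.factorial : ℂ) ≠ 0 := by exact_mod_cast Nat.factorial_ne_zero m
  push_cast
  field_simp

theorem theta_taylorPS_id : taylorPS (fun q : ℂ => q) = PowerSeries.X := by
  have h : (fun q : ℂ => q) = fun x : ℂ => Polynomial.aeval x (Polynomial.X : Polynomial ℤ) := by
    funext x; simp
  ext m
  rw [h, taylorPS_aeval, Polynomial.coeff_X, PowerSeries.coeff_X]
  split_ifs <;> simp_all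

theorem theta_taylorPS_const_mul_id (n : ℤ) :
    taylorPS (fun q : ℂ => (n : ℂ) * q) = PowerSeries.C (n : ℂ) * PowerSeries.X := by
  have h : (fun q : ℂ => (n : ℂ) * q) =
      fun x : ℂ => Polynomial.aeval x (Polynomial.C n * Polynomial.X : Polynomial ℤ) := by
    funext x; simp
  ext m
  rw [h, taylorPS_aeval, Polynomial.coeff_C_mul, Polynomial.coeff_X, PowerSeries.coeff_C_mul,
    PowerSeries.coeff_X]
  split_ifs <;> simp_all

/-! ### The analytic identity on the unit disc -/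

/-- `q ↦ q g'(q) - g(q)` for `g = q j` -/
def thetaFun (q : ℂ) : ℂ := q * deriv jqFun q - jqFun q

theorem theta_ball_mem : Metric.ball (0 : ℂ) 1 ∈ 𝓝 (0 : ℂ) := Metric.ball_mem_nhds _ one_pos

theorem theta_jqFun_analyticAt : AnalyticAt ℂ jqFun 0 :=
  jqFun_differentiableOn.analyticAt theta_ball_mem

theorem theta_jprime (z : ℍ) :
    jprime z = 2 * π * Complex.I * thetaFun (𝕢 1 z) / 𝕢 1 z := by
  have hq0 : 𝕢 1 (z : ℂ) ≠ 0 := Function.Periodic.qParam_ne_zero _
  have hqb : 𝕢 1 (z : ℂ) ∈ Metric.ball (0 : ℂ) 1 := by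
    simpa using norm_qParam_lt_one 1 z
  have hg : HasDerivAt jqFun (deriv jqFun (𝕢 1 z)) (𝕢 1 (z : ℂ)) :=
    (jqFun_differentiableOn.differentiableAt (Metric.isOpen_ball.mem_nhds hqb)).hasDerivAt
  have hq := mcj_hasDerivAt_qParam (z : ℂ)
  have hcomp : HasDerivAt (fun w : ℂ => jqFun (𝕢 1 w))
      (deriv jqFun (𝕢 1 z) * (2 * π * Complex.I * 𝕢 1 z)) (z : ℂ) :=
    hg.comp (z : ℂ) hq
  have hdiv : HasDerivAt (fun w : ℂ => jqFun (𝕢 1 w) / 𝕢 1 w)
      ((deriv jqFun (𝕢 1 z) * (2 * π * Complex.I * 𝕢 1 z) * 𝕢 1 z -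
        jqFun (𝕢 1 z) * (2 * π * Complex.I * 𝕢 1 z)) / 𝕢 1 z ^ 2) (z : ℂ) :=
    hcomp.div hq hq0
  have hev : (jfun ∘ ofComplex) =ᶠ[𝓝 (z : ℂ)] fun w : ℂ => jqFun (𝕢 1 w) / 𝕢 1 w := by
    filter_upwards [isOpen_upperHalfPlaneSet.mem_nhds z.im_pos] with w hw
    have h1 := jqFun_qParam ⟨w, hw⟩
    have h2 : 𝕢 1 w ≠ 0 := Function.Periodic.qParam_ne_zero _
    simp only [Function.comp_apply, ofComplex_apply_of_im_pos hw]
    rw [eq_div_iff h2, mul_comm]
    exact h1.symm
  unfold jprime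
  rw [hev.deriv_eq, hdiv.deriv, thetaFun]
  field_simp

theorem theta_fun_identity_of_ne {q : ℂ} (hq : ‖q‖ < 1) (hq0 : q ≠ 0) :
    thetaFun q ^ 6 = jqFun q ^ 4 * (jqFun q - 1728 * q) ^ 3 * etaFun q ^ 24 := by
  have him : 0 < (Function.Periodic.invQParam 1 q).im := by
    rw [Function.Periodic.im_invQParam]
    have h1 : Real.log ‖q‖ < 0 := Real.log_neg (norm_pos_iff.mpr hq0) hq
    have h2 : (-1 : ℝ) / (2 * π) < 0 := by
      have := Real.pi_pos
      apply div_neg_of_neg_of_pos <;> linarith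
    exact mul_pos_of_neg_of_neg h2 h1
  set z : ℍ := ⟨Function.Periodic.invQParam 1 q, him⟩ with hz
  have hzq : 𝕢 1 (z : ℂ) = q := Function.Periodic.qParam_right_inv one_ne_zero hq0
  have h1 := jprime_pow_six z
  have h2 := theta_jprime z
  have h3 := jqFun_qParam z
  have h4 := mcj_disc_eq z
  rw [hzq] at h2 h3 h4
  have hj : jfun z = jqFun q / q := by rw [h3]; field_simp
  rw [h2, hj, h4] at h1
  have hpi : (2 * (π : ℂ) * Complex.I) ≠ 0 := by
    simp [Real.pi_ne_zero, Complex.I_ne_zero]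
  have h5 : (2 * (π : ℂ) * Complex.I) ^ 6 * thetaFun q ^ 6 =
      (2 * (π : ℂ) * Complex.I) ^ 6 *
        (jqFun q ^ 4 * (jqFun q - 1728 * q) ^ 3 * etaFun q ^ 24) := by
    have e1 : (2 * (π : ℂ) * Complex.I * thetaFun q / q) ^ 6 * q ^ 6 =
        (2 * (π : ℂ) * Complex.I) ^ 6 * thetaFun q ^ 6 := by
      field_simp
    have e2 : (-(2 * (π : ℂ) * Complex.I)) ^ 6 * (jqFun q / q) ^ 4 * (jqFun q / q - 1728) ^ 3 *
        (q * etaFun q ^ 24) * q ^ 6 = (2 * (π : ℂ) * Complex.I) ^ 6 *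
        (jqFun q ^ 4 * (jqFun q - 1728 * q) ^ 3 * etaFun q ^ 24) := by
      field_simp
    rw [← e1, ← e2, h1]
  exact mul_left_cancel₀ (pow_ne_zero 6 hpi) h5

/-! ### The identity at `q = 0` and the power series identity -/

theorem theta_thetaFun_analyticAt : AnalyticAt ℂ thetaFun 0 :=
  (analyticAt_id.mul theta_jqFun_analyticAt.deriv).sub theta_jqFun_analyticAt

theorem theta_etaFun_analyticAt : AnalyticAt ℂ etaFun 0 :=
  etaFun_differentiableOn.analyticAt theta_ball_mem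

theorem theta_lin_analyticAt : AnalyticAt ℂ (fun q : ℂ => ((1728 : ℤ) : ℂ) * q) 0 :=
  analyticAt_const.mul analyticAt_id

theorem theta_fun_eventuallyEq :
    thetaFun ^ 6 =ᶠ[𝓝 0]
      jqFun ^ 4 * (jqFun - fun q : ℂ => ((1728 : ℤ) : ℂ) * q) ^ 3 * etaFun ^ 24 := by
  have hL : AnalyticAt ℂ (thetaFun ^ 6) 0 := theta_thetaFun_analyticAt.pow 6
  have hR : AnalyticAt ℂ
      (jqFun ^ 4 * (jqFun - fun q : ℂ => ((1728 : ℤ) : ℂ) * q) ^ 3 * etaFun ^ 24) 0 :=
    ((theta_jqFun_analyticAt.pow 4).mul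
      ((theta_jqFun_analyticAt.sub theta_lin_analyticAt).pow 3)).mul
      (theta_etaFun_analyticAt.pow 24)
  rcases (hL.sub hR).eventually_eq_zero_or_eventually_ne_zero with h | h
  · filter_upwards [h] with q hq
    exact sub_eq_zero.mp hq
  · exfalso
    have h2 : ∀ᶠ q in 𝓝[≠] (0 : ℂ), q ∈ Metric.ball (0 : ℂ) 1 :=
      mem_nhdsWithin_of_mem_nhds theta_ball_mem
    have h3 : ∀ᶠ q in 𝓝[≠] (0 : ℂ), q ≠ 0 := eventually_mem_nhdsWithin
    have h4 : ∀ᶠ _q in 𝓝[≠] (0 : ℂ), False := by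
      filter_upwards [h, h2, h3] with q hq hqb hq0
      apply hq
      have := theta_fun_identity_of_ne (by simpa using hqb) hq0
      simp only [Pi.sub_apply, Pi.pow_apply, Pi.mul_apply]
      rw [this]
      push_cast
      ring
    exact (eventually_false_iff_eq_bot.mp h4 ▸ (inferInstance : (𝓝[≠] (0 : ℂ)).NeBot)).ne rfl

/-- the formal power series `X jNum' - jNum` (so that `θ j = q⁻¹ (X jNum' - jNum)`) -/
def thetaPS : PowerSeries ℤ := PowerSeries.X * PowerSeries.derivative ℤ jNum - jNum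

theorem theta_map_derivative {R S : Type*} [CommRing R] [CommRing S] (f : R →+* S)
    (u : PowerSeries R) :
    PowerSeries.map f (PowerSeries.derivative R u) =
      PowerSeries.derivative S (PowerSeries.map f u) := by
  ext n
  simp [PowerSeries.coeff_derivative]

theorem theta_taylorPS_thetaFun :
    taylorPS thetaFun = PowerSeries.map (Int.castRingHom ℂ) thetaPS := by
  have h : thetaFun = (fun q : ℂ => q) * deriv jqFun - jqFun := by
    funext q; rfl
  have hid : AnalyticAt ℂ (fun q : ℂ => q) 0 := analyticAt_id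
  rw [h, theta_taylorPS_sub (hid.mul theta_jqFun_analyticAt.deriv)
    theta_jqFun_analyticAt, taylorPS_mul hid theta_jqFun_analyticAt.deriv,
    theta_taylorPS_id, theta_taylorPS_deriv, taylorPS_jqFun, thetaPS, map_sub, map_mul,
    PowerSeries.map_X, theta_map_derivative]

/-- **the formal identity** `(X jNum' - jNum)^6 = jNum^4 (jNum - 1728 X)^3 η^24` over `ℤ` -/
theorem theta_ps_identity :
    thetaPS ^ 6 = jNum ^ 4 * (jNum - PowerSeries.C (1728 : ℤ) * PowerSeries.X) ^ 3 *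
      etaProd ^ 24 := by
  apply PowerSeries.map_injective (Int.castRingHom ℂ) Int.cast_injective
  have hJ := theta_jqFun_analyticAt
  have hlin := theta_lin_analyticAt
  have h1 : taylorPS (thetaFun ^ 6) = taylorPS thetaFun ^ 6 :=
    taylorPS_pow theta_thetaFun_analyticAt 6
  have h2 : taylorPS (jqFun ^ 4 * (jqFun - fun q : ℂ => ((1728 : ℤ) : ℂ) * q) ^ 3 * etaFun ^ 24) =
      taylorPS jqFun ^ 4 *
        (taylorPS jqFun - PowerSeries.C (((1728 : ℤ) : ℂ)) * PowerSeries.X) ^ 3 *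
        taylorPS etaFun ^ 24 := by
    rw [taylorPS_mul ((hJ.pow 4).mul ((hJ.sub hlin).pow 3)) (theta_etaFun_analyticAt.pow 24),
      taylorPS_mul (hJ.pow 4) ((hJ.sub hlin).pow 3), taylorPS_pow hJ,
      taylorPS_pow (hJ.sub hlin), taylorPS_pow theta_etaFun_analyticAt,
      theta_taylorPS_sub hJ hlin, theta_taylorPS_const_mul_id]
  have h3 := taylorPS_congr theta_fun_eventuallyEq
  rw [h1, h2, theta_taylorPS_thetaFun, taylorPS_jqFun, taylorPS_etaFun] at h3
  simp only [map_pow, map_mul, map_sub, PowerSeries.map_X, PowerSeries.map_C]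
  exact h3

/-! ### The identity for Laurent series -/

section formal

open HahnSeries

variable (R : Type*) [CommRing R]

/-- `θ j = q⁻¹ (X jNum' - jNum)` over `ℤ` -/
theorem theta_jq_int :
    thetaL ℤ (jqModC ℤ) =
      HahnSeries.single (-1 : ℤ) (1 : ℤ) * HahnSeries.ofPowerSeries ℤ ℤ thetaPS := by
  rw [jqModC, theta_map_int, theta_mul, theta_single, theta_ofPowerSeries, thetaPS, map_sub]
  have : HahnSeries.single (-1 : ℤ) ((((-1 : ℤ) : ℤ) : ℤ) * 1) =
      -HahnSeries.single (-1 : ℤ) (1 : ℤ) := by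
    rw [← HahnSeries.single_neg]
    simp
  simp only [Int.cast_id] at this ⊢
  rw [this]
  ring

/-- **the formal identity** `(θ j)^6 = Δ j^4 (j - 1728)^3` over `ℤ` -/
theorem theta_identity_int :
    thetaL ℤ (jqModC ℤ) ^ 6 = deltaL ℤ * jqModC ℤ ^ 4 * (jqModC ℤ - 1728) ^ 3 := by
  have hts : HahnSeries.single (1 : ℤ) (1 : ℤ) * HahnSeries.single (-1 : ℤ) (1 : ℤ) =
      (1 : LaurentSeries ℤ) := by
    rw [HahnSeries.single_mul_single]
    simp
  have hJ : jqModC ℤ = HahnSeries.single (-1 : ℤ) (1 : ℤ) * HahnSeries.ofPowerSeries ℤ ℤ jNum := by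
    rw [jqModC, theta_map_int]
  have h1728 : (1728 : LaurentSeries ℤ) = HahnSeries.single (-1 : ℤ) (1 : ℤ) *
      HahnSeries.ofPowerSeries ℤ ℤ (PowerSeries.C (1728 : ℤ) * PowerSeries.X) := by
    rw [map_mul, HahnSeries.ofPowerSeries_X, HahnSeries.ofPowerSeries_C, mul_left_comm,
      mul_comm (HahnSeries.single (-1 : ℤ) (1 : ℤ)), hts, mul_one]
    rfl
  have hJ' : jqModC ℤ - 1728 = HahnSeries.single (-1 : ℤ) (1 : ℤ) *
      HahnSeries.ofPowerSeries ℤ ℤ (jNum - PowerSeries.C (1728 : ℤ) * PowerSeries.X) := by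
    rw [map_sub, mul_sub, ← h1728, ← hJ]
  have hD : deltaL ℤ = HahnSeries.single (1 : ℤ) (1 : ℤ) *
      HahnSeries.ofPowerSeries ℤ ℤ (etaProd ^ 24) := by
    rw [deltaL, theta_map_int]
  have key := congrArg (HahnSeries.ofPowerSeries ℤ ℤ) theta_ps_identity
  simp only [map_mul, map_pow] at key
  rw [theta_jq_int, hJ', hD, hJ, map_pow]
  generalize HahnSeries.single (-1 : ℤ) (1 : ℤ) = s at *
  generalize HahnSeries.single (1 : ℤ) (1 : ℤ) = t at *
  generalize HahnSeries.ofPowerSeries ℤ ℤ thetaPS = a at *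
  generalize HahnSeries.ofPowerSeries ℤ ℤ jNum = b at *
  generalize HahnSeries.ofPowerSeries ℤ ℤ (jNum - PowerSeries.C (1728 : ℤ) * PowerSeries.X) = c
    at *
  generalize HahnSeries.ofPowerSeries ℤ ℤ etaProd = e at *
  linear_combination (s ^ 6) * key - (s ^ 6 * b ^ 4 * c ^ 3 * e ^ 24) * hts

/-- **the formal identity** `(θ j)^6 = Δ j^4 (j - 1728)^3` over any commutative ring -/
theorem theta_identity : thetaL R (jqModC R) ^ 6 = deltaL R * jqModC R ^ 4 * (jqModC R - 1728) ^ 3 := by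
  have h := congrArg (coeffMap (Int.castRingHom R)) theta_identity_int
  rw [map_pow, theta_coeffMap, coeffMap_jqModC, map_mul, map_mul, map_pow, map_pow, map_sub,
    theta_coeffMap_deltaL, coeffMap_jqModC, map_ofNat] at h
  exact h

end formal

end Fermat.Agent.IG
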