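import Mathlib
import Fermat.Prelude.Def_ModularCurve_X0ModL
import Fermat.Agent.Lib.IG_Defs

set_option autoImplicit false

/-!
# S28 (Igusa) tower: the hypothesis `TowPhi`

`TowPhi k p` is the Puiseux form of the modular equation of level `p` over the field `k`:
`Φ(X, J(u^p)) = (X - J(u^(p^2))) * ∏_{b<p} (X - J(ζ^b u))` in `k((u))[X]`, with `Φ` monic in `X`
and `ζ` a primitive `p`-th root of unity of `k`.
-/

noncomputable section

namespace Fermat.Agent.IG

open ModularCurve Polynomial

/-- (Phi) over the field `k` for `p`: the Puiseux form of the modular equation,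
`Φ(X, J(u^p)) = (X - J(u^(p^2))) * ∏_{b<p} (X - J(ζ^b u))` in `k((u))[X]`. -/
def TowPhi (k : Type*) [Field k] (p : ℕ) [NeZero p] : Prop :=
  ∃ (Φ : Polynomial (Polynomial k)) (ζ : k), IsPrimitiveRoot ζ p ∧ Φ.Monic ∧
    Φ.map ((aeval (qExpand k p (jqModC k)) : Polynomial k →ₐ[k] LaurentSeries k) :
        Polynomial k →+* LaurentSeries k)
      = (X - C (qExpand k (p ^ 2) (jqModC k))) *
          ∏ b ∈ Finset.range p, (X - C (igTwL (ζ ^ b) (jqModC k)))

end Fermat.Agent.IG
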