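import Mathlib
import Fermat.Agent.Lib.IG_Gen
import Fermat.Agent.Lib.IG_Expand
import Fermat.Agent.Lib.IG_CoeffsIn
import Fermat.Agent.Lib.IG_PhiFam

set_option autoImplicit false

/-!
# S28 (Igusa), input [A2]: `p¹² Δ(q^p)/Δ(q)` is integral over `A[j]` (helper2)

For a prime `p` and every subring `A ⊆ ℂ` containing `exp(2πi/p)` there is a polynomial
`P ∈ ℂ[Y][T]`, monic in `T`, with all coefficients in `A`, such that
`P(J(q), p¹² D(q^p)/D(q)) = 0` in `ℂ((q))` (`D = igD ℂ` the discriminant series,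
`J = jqModC ℂ`).

Proof: the `SL(2,ℤ)`-orbit of `τ ↦ p¹² Δ(pτ)/Δ(τ)` is finite (`IG_PhiFam`), its members have
expansions in `u = q^(1/p)` with coefficients in `A` (`IG_Expand`, `IG_CoeffsIn`), so by
`gen_symm` the product `∏ (T - F_i)` is `Φ(T, J(u^p))` with `Φ` over `A`; evaluate at the base
point and undo the substitution `q ↦ u^p`.
-/

noncomputable section

namespace Fermat.Agent.IG

open UpperHalfPlane ModularCurve Fermat.Agent.MC Polynomial
open scoped MatrixGroups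

/-- the formal expansion of the base point is the image of `p¹² D(q^p)/D(q)` under `q ↦ u^p` -/
theorem dq_dFamL_none (p : ℕ) [NeZero p] :
    dFamL p none =
      qExpand ℂ p (HahnSeries.C ((p : ℂ) ^ 12) * qExpand ℂ p (igD ℂ) * igDinv ℂ) := by
  show HahnSeries.C ((p : ℂ) ^ 12) * qExpand ℂ (p * p) (igD ℂ) * qExpand ℂ p (igDinv ℂ) = _
  rw [map_mul, map_mul, qExpand_C, qExpand_qExpand]

/-- evaluation at `J(u^p)` is evaluation at `J(q)` followed by `q ↦ u^p` -/
theorem dq_aeval_qExpand (p : ℕ) [NeZero p] :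
    ((aeval (qExpand ℂ p (jqModC ℂ)) : Polynomial ℂ →ₐ[ℂ] LaurentSeries ℂ) :
      Polynomial ℂ →+* LaurentSeries ℂ) =
    (qExpand ℂ p).comp ((aeval (jqModC ℂ) : Polynomial ℂ →ₐ[ℂ] LaurentSeries ℂ) :
      Polynomial ℂ →+* LaurentSeries ℂ) := by
  apply Polynomial.ringHom_ext
  · intro c
    simp only [RingHom.coe_coe, aeval_C, RingHom.coe_comp, Function.comp_apply]
    rw [algebraMap_laurent_C, qExpand_C]
  · simp

/-- **[A2]**: `p¹² D(q^p)/D(q)` is a root of a polynomial, monic in `T`, with coefficients in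
`A[J]`, for every subring `A` of `ℂ` containing `exp(2πi/p)`. -/
theorem delta_quot_integral (p : ℕ) [NeZero p] (hp : p.Prime) (A : Subring ℂ)
    (hz : zetaC p ∈ A) :
    ∃ P : Polynomial (Polynomial ℂ), P.Monic ∧ (∀ i n, (P.coeff i).coeff n ∈ A) ∧
      (P.map ((aeval (jqModC ℂ) : Polynomial ℂ →ₐ[ℂ] LaurentSeries ℂ) :
          Polynomial ℂ →+* LaurentSeries ℂ)).eval
        (HahnSeries.C ((p : ℂ) ^ 12) * qExpand ℂ p (igD ℂ) * igDinv ℂ) = 0 := by
  have : Fact p.Prime := ⟨hp⟩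
  obtain ⟨Φ, hmonic, -, hA, hΦ⟩ := gen_symm p (fun i : dqOrbit p => i.1)
    (fun i => by
      obtain ⟨j, hj⟩ := dq_orbit_eq p hp i
      rw [hj]
      exact (dFam_exp p j).1)
    (dq_perm p) A
    (fun i n => by
      obtain ⟨j, hj⟩ := dq_orbit_eq p hp i
      rw [hj, (dFam_exp p j).2]
      exact dFamL_coeff_mem A p hz j n)
  refine ⟨Φ, hmonic, hA, ?_⟩
  have hroot : (Φ.map ((aeval (qExpand ℂ p (jqModC ℂ)) : Polynomial ℂ →ₐ[ℂ] LaurentSeries ℂ) :
      Polynomial ℂ →+* LaurentSeries ℂ)).eval ((cuspSys p).exp (dFam p none)) = 0 := by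
    rw [hΦ, eval_prod]
    refine Finset.prod_eq_zero (Finset.mem_univ (dqBase p)) ?_
    rw [eval_sub, eval_X, eval_C, dqBase_val, sub_self]
  rw [(dFam_exp p none).2, dq_dFamL_none, dq_aeval_qExpand, ← Polynomial.map_map,
    Polynomial.eval_map, Polynomial.eval₂_at_apply] at hroot
  exact qExpand_injective p (by rw [hroot, map_zero])

/-- `exp(2πi/p)` is an algebraic integer -/
theorem dq_zetaC_isIntegral (p : ℕ) [NeZero p] : IsIntegral ℤ (zetaC p) := by
  refine IsIntegral.of_pow (Nat.pos_of_ne_zero (NeZero.ne p)) ?_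
  rw [cin_zetaC_pow_p]
  exact isIntegral_one

/-- **[A2]** over the ring of all algebraic integers (the shape consumed by the reduction to
characteristic `ℓ`). -/
theorem delta_quot_integral_abar (p : ℕ) [NeZero p] (hp : p.Prime) :
    ∃ P : Polynomial (Polynomial ℂ), P.Monic ∧
      (∀ i n, (P.coeff i).coeff n ∈ (integralClosure ℤ ℂ).toSubring) ∧
      (P.map ((aeval (jqModC ℂ) : Polynomial ℂ →ₐ[ℂ] LaurentSeries ℂ) :
          Polynomial ℂ →+* LaurentSeries ℂ)).eval
        (HahnSeries.C ((p : ℂ) ^ 12) * qExpand ℂ p (igD ℂ) * igDinv ℂ) = 0 :=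
  delta_quot_integral p hp (integralClosure ℤ ℂ).toSubring (dq_zetaC_isIntegral p)

end Fermat.Agent.IG
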