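import Mathlib
import Fermat.Agent.Lib.IG_Reduce
import Fermat.Agent.Lib.IG_Phi
import Fermat.Agent.Lib.IG_Unit
import Fermat.Agent.Lib.IG_NM
import Fermat.Agent.Lib.IG_Theta
import Fermat.Agent.Lib.IG_TowDefs

set_option autoImplicit false

/-!
# S28 (Igusa): the inputs of the tower over a field of characteristic `ℓ`

Plugging the characteristic zero theorems (`phi_puiseux`, `delta_quot_integral`) into the
reduction lemmas (`tr_phi`, `tr_delta`), `theta_identity` and `prm_not_mem`: for every field `k`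
with a ring hom from the ring of all algebraic integers and every prime `p` invertible in `k`
we get `TowPhi k p` and `J(q^p) ∉ k(J(q))`.
-/

noncomputable section

namespace Fermat.Agent.IG

open ModularCurve Polynomial

/-- the Puiseux form of the modular equation over `k` -/
theorem plug_towPhi {k : Type*} [Field k] (g : ↥trAbar →+* k) (p : ℕ) [NeZero p]
    (hp : p.Prime) (hpk : (p : k) ≠ 0) : TowPhi k p :=
  tr_phi_abar g p hpk (phi_puiseux p hp trAbar (tr_zeta_mem p))

/-- `Δ(q^p)/Δ(q)` is integral over `k[J]` -/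
theorem plug_h1 {k : Type*} [Field k] (g : ↥trAbar →+* k) (p : ℕ) [NeZero p]
    (hp : p.Prime) (hpk : (p : k) ≠ 0) :
    IsIntegral (Algebra.adjoin k {jqModC k}) (qExpand k p (deltaL k) / deltaL k) := by
  obtain ⟨P, hmon, hA, hP⟩ := delta_quot_integral p hp trAbar (tr_zeta_mem p)
  refine tr_delta trAbar g p hpk ⟨P, hmon, hA, ?_⟩
  have helt : (p : LaurentSeries ℂ) ^ 12 * (qExpand ℂ p (deltaL ℂ) / deltaL ℂ) =
      HahnSeries.C ((p : ℂ) ^ 12) * qExpand ℂ p (igD ℂ) * igDinv ℂ := by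
    rw [tr_div_deltaL, map_pow, map_natCast, mul_assoc]
    rfl
  rw [helt]
  exact hP

/-- `J(q^p)` does not lie in `k(J(q))` -/
theorem plug_not_mem {k : Type*} [Field k] (g : ↥trAbar →+* k) (p : ℕ) [NeZero p]
    (hp : p.Prime) (hpk : (p : k) ≠ 0) :
    qExpand k p (jqModC k) ∉ IntermediateField.adjoin k {jqModC k} :=
  prm_not_mem k p hp.two_le hpk (theta_identity k) (plug_h1 g p hp hpk)

/-- all the hypotheses of the tower theorem over an algebraically closed field of
characteristic `ℓ ∤ N` -/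
theorem plug_tow_inputs (ℓ N : ℕ) [Fact ℓ.Prime] [NeZero N] (hℓN : ¬ ℓ ∣ N) (K : Type*)
    [Field K] [IsAlgClosed K] [CharP K ℓ] :
    ∃ ω : K, IsPrimitiveRoot ω N ∧
      (∀ (p : ℕ) [NeZero p], p.Prime → p ∣ N → TowPhi K p) ∧
      (∀ (p : ℕ) [NeZero p], p.Prime → p ∣ N →
        qExpand K p (jqModC K) ∉ IntermediateField.adjoin K {jqModC K}) := by
  obtain ⟨g⟩ := tr_exists_hom K ℓ
  have hN : (N : K) ≠ 0 := fun h => hℓN ((CharP.cast_eq_zero_iff K ℓ N).mp h)
  have hp : ∀ p : ℕ, p ∣ N → (p : K) ≠ 0 := fun p hpN h =>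
    hℓN (((CharP.cast_eq_zero_iff K ℓ p).mp h).trans hpN)
  exact ⟨_, tr_primitiveRoot g N hN, fun p _ hpp hpN => plug_towPhi g p hpp (hp p hpN),
    fun p _ hpp hpN => plug_not_mem g p hpp (hp p hpN)⟩

end Fermat.Agent.IG
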