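import Fermat.Agent.Lib.IG_Tower
import Fermat.Agent.Lib.IG_Plug

set_option autoImplicit false

/-!
# S28 (Igusa): assembly of the characteristic-`ℓ` degree bound

`tow_exists_indep` : for a prime `ℓ ∤ N` there are a field `k` of characteristic `ℓ` and `ψ(N)`
elements of `ℤ[J_d : d ∣ N]` whose reductions are linearly independent over `k(J)`.

It is the tower theorem `tow_main` over `k = AlgebraicClosure (ZMod ℓ)`, fed by
`plug_tow_inputs` (a primitive `N`-th root of unity, the Puiseux factorisation of the modular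
equation of every prime level `p ∣ N`, and `J(q^p) ∉ k(J)`).
-/

noncomputable section

namespace Fermat.Agent.IG

open ModularCurve

/-- `AlgebraicClosure (ZMod ℓ)` has characteristic `ℓ` -/
theorem main_charP (ℓ : ℕ) [Fact ℓ.Prime] : CharP (AlgebraicClosure (ZMod ℓ)) ℓ :=
  charP_of_injective_algebraMap
    (algebraMap (ZMod ℓ) (AlgebraicClosure (ZMod ℓ))).injective ℓ

/-- **The characteristic-`ℓ` input of S28.** -/
theorem tow_exists_indep (ℓ N : ℕ) [Fact ℓ.Prime] [NeZero N] (hℓN : ¬ ℓ ∣ N) :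
    ∃ (k : Type) (_ : Field k) (_ : CharP k ℓ) (b : Fin (dedekindPsi N) → LaurentSeries ℤ),
      (∀ i, b i ∈ igA N) ∧
        LinearIndependent (IntermediateField.adjoin k {jqModC k})
          (fun i => coeffMap (Int.castRingHom k) (b i)) := by
  have hchar : CharP (AlgebraicClosure (ZMod ℓ)) ℓ := main_charP ℓ
  obtain ⟨ω, hω, hΦ, hnm⟩ := plug_tow_inputs ℓ N hℓN (AlgebraicClosure (ZMod ℓ))
  exact ⟨AlgebraicClosure (ZMod ℓ), inferInstance, hchar,
    tow_main (AlgebraicClosure (ZMod ℓ)) N ω hω hΦ hnm⟩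

end Fermat.Agent.IG
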