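import Mathlib

set_option autoImplicit false
set_option linter.unusedSectionVars false
set_option linter.unusedVariables false

/-!
# An abstract q-expansion principle

`R` is a UFD, `l : R` a prime element, `F` a field containing `R`, `S ⊆ F` a subalgebra with a
ring homomorphism `red : S → Λ` into a field with kernel `l S` ("reduction of the expansion mod
`l`"), `t ∈ S` a parameter whose reduction is transcendental and `b : ι → S` finitely many
elements spanning `F` over `Frac R[t]` whose reductions are linearly independent over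
`R[t] / l`.  Then `red` extends to the integral closure `B` of `R[t]` in `F`, and the kernel
of the extension is `l B`.  No valuation theory is used.
-/

namespace Fermat.Agent.IG

open Polynomial

section Rho

variable {R F Λ : Type*} [CommRing R] [Field F] [Algebra R F] [Field Λ]

/-- The elements `x` of `F` with `u x ∈ S` for some `u ∈ S` with `red u ≠ 0`. -/
def qepV (S : Subalgebra R F) (red : S →+* Λ) : Subalgebra R F where
  carrier := {x | ∃ u : S, red u ≠ 0 ∧ (u : F) * x ∈ S}
  mul_mem' := by
    rintro x y ⟨u, hu, hx⟩ ⟨v, hv, hy⟩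
    refine ⟨u * v, by rw [map_mul]; exact mul_ne_zero hu hv, ?_⟩
    have : ((u * v : S) : F) * (x * y) = ((u : F) * x) * ((v : F) * y) := by
      push_cast; ring
    rw [this]
    exact S.mul_mem hx hy
  add_mem' := by
    rintro x y ⟨u, hu, hx⟩ ⟨v, hv, hy⟩
    refine ⟨u * v, by rw [map_mul]; exact mul_ne_zero hu hv, ?_⟩
    have : ((u * v : S) : F) * (x + y) = (v : F) * ((u : F) * x) + (u : F) * ((v : F) * y) := by
      push_cast; ring
    rw [this]
    exact S.add_mem (S.mul_mem v.2 hx) (S.mul_mem u.2 hy)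
  algebraMap_mem' r := by
    refine ⟨1, by rw [map_one]; exact one_ne_zero, ?_⟩
    simp only [OneMemClass.coe_one, one_mul]
    exact S.algebraMap_mem r

theorem mem_qepV {S : Subalgebra R F} {red : S →+* Λ} {x : F} :
    x ∈ qepV S red ↔ ∃ u : S, red u ≠ 0 ∧ (u : F) * x ∈ S := Iff.rfl

theorem le_qepV (S : Subalgebra R F) (red : S →+* Λ) : S ≤ qepV S red := by
  intro x hx
  refine ⟨1, by rw [map_one]; exact one_ne_zero, ?_⟩
  simpa using hx

open Classical in
/-- The extension of `red` to `qepV S red` (junk value `0` outside). -/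
noncomputable def qepRho (S : Subalgebra R F) (red : S →+* Λ) (x : F) : Λ :=
  if h : ∃ u : S, red u ≠ 0 ∧ (u : F) * x ∈ S then
    red ⟨(h.choose : F) * x, h.choose_spec.2⟩ / red h.choose
  else 0

theorem qepRho_eq {S : Subalgebra R F} {red : S →+* Λ} {x : F} (u : S) (hu : red u ≠ 0)
    (hx : (u : F) * x ∈ S) : qepRho S red x = red ⟨(u : F) * x, hx⟩ / red u := by
  have h : ∃ u : S, red u ≠ 0 ∧ (u : F) * x ∈ S := ⟨u, hu, hx⟩
  unfold qepRho
  rw [dif_pos h]
  rw [div_eq_div_iff h.choose_spec.1 hu, ← map_mul, ← map_mul]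
  congr 1
  apply Subtype.ext
  push_cast
  ring

theorem qepRho_of_mem {S : Subalgebra R F} {red : S →+* Λ} (x : S) :
    qepRho S red (x : F) = red x := by
  have h1 : ((1 : S) : F) * (x : F) ∈ S := by simpa using x.2
  rw [qepRho_eq 1 (by rw [map_one]; exact one_ne_zero) h1, map_one, div_one]
  congr 1
  apply Subtype.ext
  simp

theorem qepRho_add {S : Subalgebra R F} {red : S →+* Λ} {x y : F} (hx : x ∈ qepV S red)
    (hy : y ∈ qepV S red) : qepRho S red (x + y) = qepRho S red x + qepRho S red y := by
  obtain ⟨u, hu, hux⟩ := hx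
  obtain ⟨v, hv, hvy⟩ := hy
  have huv : red (u * v) ≠ 0 := by rw [map_mul]; exact mul_ne_zero hu hv
  have e : ((u * v : S) : F) * (x + y) = (v : F) * ((u : F) * x) + (u : F) * ((v : F) * y) := by
    push_cast; ring
  have hxy : ((u * v : S) : F) * (x + y) ∈ S := by
    rw [e]; exact S.add_mem (S.mul_mem v.2 hux) (S.mul_mem u.2 hvy)
  rw [qepRho_eq (u * v) huv hxy, qepRho_eq u hu hux, qepRho_eq v hv hvy]
  have e' : (⟨((u * v : S) : F) * (x + y), hxy⟩ : S)
      = v * ⟨(u : F) * x, hux⟩ + u * ⟨(v : F) * y, hvy⟩ := Subtype.ext e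
  rw [e', map_add, map_mul, map_mul, map_mul]
  field_simp

theorem qepRho_mul {S : Subalgebra R F} {red : S →+* Λ} {x y : F} (hx : x ∈ qepV S red)
    (hy : y ∈ qepV S red) : qepRho S red (x * y) = qepRho S red x * qepRho S red y := by
  obtain ⟨u, hu, hux⟩ := hx
  obtain ⟨v, hv, hvy⟩ := hy
  have huv : red (u * v) ≠ 0 := by rw [map_mul]; exact mul_ne_zero hu hv
  have e : ((u * v : S) : F) * (x * y) = ((u : F) * x) * ((v : F) * y) := by
    push_cast; ring
  have hxy : ((u * v : S) : F) * (x * y) ∈ S := by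
    rw [e]; exact S.mul_mem hux hvy
  rw [qepRho_eq (u * v) huv hxy, qepRho_eq u hu hux, qepRho_eq v hv hvy]
  have e' : (⟨((u * v : S) : F) * (x * y), hxy⟩ : S)
      = ⟨(u : F) * x, hux⟩ * ⟨(v : F) * y, hvy⟩ := Subtype.ext e
  rw [e', map_mul, map_mul]
  field_simp

/-- `qepRho` as a ring homomorphism on `qepV`. -/
noncomputable def qepRhoHom (S : Subalgebra R F) (red : S →+* Λ) : qepV S red →+* Λ where
  toFun x := qepRho S red (x : F)
  map_one' := by
    have := qepRho_of_mem (S := S) (red := red) 1
    simpa using this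
  map_mul' x y := qepRho_mul x.2 y.2
  map_zero' := by
    have := qepRho_of_mem (S := S) (red := red) 0
    simpa using this
  map_add' x y := qepRho_add x.2 y.2

theorem qepRhoHom_apply (S : Subalgebra R F) (red : S →+* Λ) (x : qepV S red) :
    qepRhoHom S red x = qepRho S red (x : F) := rfl

end Rho

section Main

variable {R F Λ ι : Type*} [CommRing R] [IsDomain R] [UniqueFactorizationMonoid R]
  [Field F] [Algebra R F] [Field Λ] [Fintype ι]

/-- Hypotheses of the abstract q-expansion principle. -/
structure QepHyp (l : R) (S : Subalgebra R F) (red : S →+* Λ) (t : S) (b : ι → S) : Prop where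
  inj : Function.Injective (algebraMap R F)
  prime : Prime l
  red_l : red (algebraMap R S l) = 0
  transc : ∀ a : R[X], red (aeval t a) = 0 → C l ∣ a
  span : ∀ x : F, ∃ s : R[X], s ≠ 0 ∧ ∃ c : ι → R[X],
    aeval (t : F) s * x = ∑ i, aeval (t : F) (c i) * (b i : F)
  indep : ∀ c : ι → R[X], red (∑ i, aeval t (c i) * b i) = 0 → ∀ i, C l ∣ c i

/-- `x` is "`l`-good": a multiple `u x ∈ S` with `red u = 0` has `red (u x) = 0`. -/
def QepGood (S : Subalgebra R F) (red : S →+* Λ) (x : F) : Prop :=
  ∀ u : S, red u = 0 → ∀ hy : (u : F) * x ∈ S, red ⟨(u : F) * x, hy⟩ = 0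

omit [IsDomain R] [UniqueFactorizationMonoid R] [Fintype ι] in
/-- Elements of `qepV` are good. -/
theorem qepGood_of_mem {S : Subalgebra R F} {red : S →+* Λ} {x : F} (hx : x ∈ qepV S red) :
    QepGood S red x := by
  obtain ⟨v, hv, hvx⟩ := hx
  intro u hu hy
  have e : v * (⟨(u : F) * x, hy⟩ : S) = u * ⟨(v : F) * x, hvx⟩ := by
    apply Subtype.ext; push_cast; ring
  have h := congrArg red e
  rw [map_mul, map_mul, hu, zero_mul] at h
  exact (mul_eq_zero.mp h).resolve_left hv

omit [IsDomain R] [UniqueFactorizationMonoid R] [Fintype ι] in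
/-- Elements integral over `R[t]` are good. -/
theorem qepGood_of_isIntegral {S : Subalgebra R F} {red : S →+* Λ} {t : S} {x : F}
    (hx : IsIntegral (Algebra.adjoin R {(t : F)}) x) : QepGood S red x := by
  intro u hu hy
  obtain ⟨p, hp, hpx⟩ := hx
  have hle : Algebra.adjoin R {(t : F)} ≤ S := Algebra.adjoin_le (by simpa using t.2)
  set φ : Algebra.adjoin R {(t : F)} →+* S := (Subalgebra.inclusion hle).toRingHom with hφ
  set pS : S[X] := p.map φ with hpS
  have hpSm : pS.Monic := hp.map φ
  have hroot : eval₂ (algebraMap S F) x pS = 0 := by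
    rw [hpS, eval₂_map]
    have : ((algebraMap S F)).comp φ = algebraMap (Algebra.adjoin R {(t : F)}) F := by
      ext a; rfl
    rw [this]; exact hpx
  set y : S := ⟨(u : F) * x, hy⟩ with hy'
  have h1 : eval₂ (algebraMap S F) (y : F) (pS.scaleRoots u) = 0 := by
    have := scaleRoots_eval₂_eq_zero (p := pS) (algebraMap S F) (r := x) (s := u) hroot
    exact this
  have h2 : eval y (pS.scaleRoots u) = 0 := by
    have h3 : eval₂ (algebraMap S F) ((algebraMap S F) y) (pS.scaleRoots u)
        = (algebraMap S F) (eval y (pS.scaleRoots u)) := Polynomial.eval₂_at_apply _ _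
    have h4 : (algebraMap S F) (eval y (pS.scaleRoots u)) = 0 := by rw [← h3]; exact h1
    exact Subtype.ext h4
  have h5 : eval (red y) ((pS.scaleRoots u).map red) = 0 := by
    rw [eval_map, Polynomial.eval₂_at_apply, h2, map_zero]
  have hlc : red pS.leadingCoeff ≠ 0 := by
    rw [hpSm.leadingCoeff, map_one]; exact one_ne_zero
  rw [map_scaleRoots _ _ _ hlc, hu, scaleRoots_zero, (hpSm.map red).leadingCoeff, one_smul,
    eval_pow, eval_X] at h5
  exact eq_zero_of_pow_eq_zero h5

/-- The descent: a representation with denominator `l^k s`, `l ∤ s`, of a good element can be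
improved to a representation with denominator `s`. -/
theorem QepHyp.descent {l : R} {S : Subalgebra R F} {red : S →+* Λ} {t : S} {b : ι → S}
    (H : QepHyp l S red t b) {x : F} (hx : QepGood S red x) (s : R[X]) :
    ∀ (k : ℕ) (c : ι → R[X]),
      aeval (t : F) (C l ^ k * s) * x = ∑ i, aeval (t : F) (c i) * (b i : F) →
      ∃ c' : ι → R[X], aeval (t : F) s * x = ∑ i, aeval (t : F) (c' i) * (b i : F) := by
  intro k
  induction k with
  | zero =>
    intro c hc
    exact ⟨c, by simpa using hc⟩
  | succ k ih =>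
    intro c hc
    -- `u = (l^(k+1) s)(t)` has `red u = 0`
    set u : S := aeval t (C l ^ (k + 1) * s) with hu
    have epow : (C l ^ (k + 1) * s : R[X]) = C l * (C l ^ k * s) := by ring
    have hu0 : red u = 0 := by
      have : u = algebraMap R S l * aeval t (C l ^ k * s) := by
        rw [hu, epow, map_mul, aeval_C]
      rw [this, map_mul, H.red_l, zero_mul]
    have hucoe : (u : F) = aeval (t : F) (C l ^ (k + 1) * s) := by
      rw [hu, aeval_subalgebra_coe]
    have hsum : (∑ i, aeval (t : F) (c i) * (b i : F)) = ((∑ i, aeval t (c i) * b i : S) : F) := by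
      push_cast
      rfl
    have hy : (u : F) * x ∈ S := by
      rw [hucoe, hc, hsum]; exact Subtype.coe_prop _
    have hred := hx u hu0 hy
    have hy2 : (⟨(u : F) * x, hy⟩ : S) = ∑ i, aeval t (c i) * b i := by
      apply Subtype.ext
      rw [← hsum, ← hc, ← hucoe]
    rw [hy2] at hred
    have hdiv := H.indep c hred
    choose c' hc' using hdiv
    apply ih c'
    -- cancel `l`
    have hl0 : (algebraMap R F l) ≠ 0 := by
      intro h
      exact H.prime.ne_zero (H.inj (by rw [h, map_zero]))
    apply mul_left_cancel₀ hl0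
    have e1 : algebraMap R F l * (aeval (t : F) (C l ^ k * s) * x)
        = aeval (t : F) (C l ^ (k + 1) * s) * x := by
      rw [epow, map_mul (aeval (t : F)) (C l) _, aeval_C, mul_assoc]
    rw [e1, hc, Finset.mul_sum]
    refine Finset.sum_congr rfl fun i _ => ?_
    rw [hc' i, map_mul, aeval_C]
    ring

/-- Every good element has a representation with denominator prime to `l`. -/
theorem QepHyp.repr {l : R} {S : Subalgebra R F} {red : S →+* Λ} {t : S} {b : ι → S}
    (H : QepHyp l S red t b) {x : F} (hx : QepGood S red x) :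
    ∃ s : R[X], ¬ C l ∣ s ∧ ∃ c : ι → R[X],
      aeval (t : F) s * x = ∑ i, aeval (t : F) (c i) * (b i : F) := by
  obtain ⟨s₀, hs₀, c, hc⟩ := H.span x
  have hirr : Irreducible (C l : R[X]) := (Polynomial.prime_C_iff.mpr H.prime).irreducible
  obtain ⟨k, s, hs, rfl⟩ := WfDvdMonoid.max_power_factor hs₀ hirr
  obtain ⟨c', hc'⟩ := H.descent hx s k c hc
  exact ⟨s, hs, c', hc'⟩

/-- Good elements lie in `qepV`. -/
theorem QepHyp.mem_qepV_of_good {l : R} {S : Subalgebra R F} {red : S →+* Λ} {t : S}
    {b : ι → S} (H : QepHyp l S red t b) {x : F} (hx : QepGood S red x) : x ∈ qepV S red := by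
  obtain ⟨s, hs, c, hc⟩ := H.repr hx
  refine ⟨aeval t s, fun h => hs (H.transc s h), ?_⟩
  rw [aeval_subalgebra_coe, hc]
  have hsum : (∑ i, aeval (t : F) (c i) * (b i : F)) = ((∑ i, aeval t (c i) * b i : S) : F) := by
    push_cast
    rfl
  rw [hsum]; exact Subtype.coe_prop _

/-- The integral closure of `R[t]` is contained in `qepV`. -/
theorem QepHyp.mem_qepV_of_isIntegral {l : R} {S : Subalgebra R F} {red : S →+* Λ} {t : S}
    {b : ι → S} (H : QepHyp l S red t b) {x : F}
    (hx : IsIntegral (Algebra.adjoin R {(t : F)}) x) : x ∈ qepV S red :=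
  H.mem_qepV_of_good (qepGood_of_isIntegral hx)

/-- `aeval t` does not kill nonzero polynomials. -/
theorem QepHyp.aeval_ne_zero {l : R} {S : Subalgebra R F} {red : S →+* Λ} {t : S} {b : ι → S}
    (H : QepHyp l S red t b) {s : R[X]} (hs : s ≠ 0) : aeval (t : F) s ≠ 0 := by
  have hirr : Irreducible (C l : R[X]) := (Polynomial.prime_C_iff.mpr H.prime).irreducible
  obtain ⟨k, s', hs', rfl⟩ := WfDvdMonoid.max_power_factor hs hirr
  have hl0 : (algebraMap R F l) ≠ 0 := fun h => H.prime.ne_zero (H.inj (by rw [h, map_zero]))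
  rw [map_mul, map_pow, aeval_C]
  refine mul_ne_zero (pow_ne_zero _ hl0) ?_
  intro h
  apply hs'
  apply H.transc
  have : aeval t s' = 0 := by
    apply Subtype.ext
    rw [aeval_subalgebra_coe]
    exact h
  rw [this, map_zero]

theorem QepHyp.aeval_injective {l : R} {S : Subalgebra R F} {red : S →+* Λ} {t : S} {b : ι → S}
    (H : QepHyp l S red t b) : Function.Injective (aeval (R := R) (t : F)) := by
  rw [injective_iff_map_eq_zero]
  intro a ha
  by_contra hne
  exact H.aeval_ne_zero hne ha

/-- Every element of `qepV` has a multiple by some `σ(t)`, `l ∤ σ`, integral over `R[t]`. -/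
theorem QepHyp.exists_smul_isIntegral {l : R} {S : Subalgebra R F} {red : S →+* Λ} {t : S}
    {b : ι → S} (H : QepHyp l S red t b) {y : F} (hy : y ∈ qepV S red) :
    ∃ σ : R[X], ¬ C l ∣ σ ∧
      IsIntegral (Algebra.adjoin R {(t : F)}) (aeval (t : F) σ * y) := by
  classical
  have hCl : Prime (C l : R[X]) := Polynomial.prime_C_iff.mpr H.prime
  have hrep : ∀ i : ι, ∃ s : R[X], ¬ C l ∣ s ∧ ∃ c : ι → R[X],
      aeval (t : F) s * (y * (b i : F)) = ∑ j, aeval (t : F) (c j) * (b j : F) := by
    intro i
    have hmem : y * (b i : F) ∈ qepV S red :=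
      (qepV S red).mul_mem hy (le_qepV S red (b i).2)
    exact H.repr (qepGood_of_mem hmem)
  choose s hs c hc using hrep
  set σ : R[X] := ∏ i, s i with hσ
  refine ⟨σ, Prime.not_dvd_finsetProd hCl (fun i _ => hs i), ?_⟩
  have haev : ∀ p : R[X], aeval (t : F) p ∈ Algebra.adjoin R {(t : F)} := by
    intro p
    rw [Algebra.adjoin_singleton_eq_range_aeval]
    exact ⟨p, rfl⟩
  set N : Submodule (Algebra.adjoin R {(t : F)}) F :=
    Submodule.span (Algebra.adjoin R {(t : F)}) (Set.range fun i => (b i : F)) with hN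
  have hN0 : N ≠ ⊥ := by
    obtain ⟨s₀, hs₀, c₀, hc₀⟩ := H.span 1
    have h1 : aeval (t : F) s₀ * 1 ≠ 0 := by rw [mul_one]; exact H.aeval_ne_zero hs₀
    rw [hc₀] at h1
    obtain ⟨i, -, hi⟩ := Finset.exists_ne_zero_of_sum_ne_zero h1
    have hbi : (b i : F) ≠ 0 := right_ne_zero_of_mul hi
    intro hbot
    have : (b i : F) ∈ N := Submodule.subset_span ⟨i, rfl⟩
    rw [hbot, Submodule.mem_bot] at this
    exact hbi this
  have hfg : N.FG := Submodule.fg_span (Set.finite_range _)
  refine isIntegral_of_smul_mem_submodule N hN0 hfg _ ?_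
  intro n hn
  induction hn using Submodule.span_induction with
  | mem x hx =>
    obtain ⟨i, rfl⟩ := hx
    have e1 : σ = s i * ∏ j ∈ Finset.univ.erase i, s j := by
      rw [hσ, Finset.mul_prod_erase _ _ (Finset.mem_univ i)]
    have e2 : (aeval (t : F) σ * y) • (b i : F)
        = ∑ j, (⟨aeval (t : F) ((∏ j ∈ Finset.univ.erase i, s j) * c i j), haev _⟩ :
            Algebra.adjoin R {(t : F)}) • (b j : F) := by
      have e3 : (aeval (t : F) σ * y) • (b i : F)
          = aeval (t : F) (∏ j ∈ Finset.univ.erase i, s j)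
            * (aeval (t : F) (s i) * (y * (b i : F))) := by
        rw [smul_eq_mul, e1, map_mul]; ring
      rw [e3, hc i, Finset.mul_sum]
      refine Finset.sum_congr rfl fun j _ => ?_
      show _ = aeval (t : F) ((∏ j ∈ Finset.univ.erase i, s j) * c i j) * (b j : F)
      rw [map_mul]
      ring
    rw [e2]
    exact Submodule.sum_mem _ fun j _ => Submodule.smul_mem _ _ (Submodule.subset_span ⟨j, rfl⟩)
  | zero => rw [smul_zero]; exact N.zero_mem
  | add x y _ _ hx hy => rw [smul_add]; exact N.add_mem hx hy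
  | smul a x _ hx => rw [smul_comm]; exact N.smul_mem a hx

end Main

section Saturate

/-- Over an integrally closed domain `A` with a prime `p` and `d` prime to `p`: if `p y` and
`d y` are integral over `A` then so is `y`. -/
theorem qep_saturate_gen {A F : Type*} [CommRing A] [IsDomain A] [IsIntegrallyClosed A]
    [Field F] [Algebra A F] [FaithfulSMul A F] {p d : A} (hp : Prime p) (hd : ¬ p ∣ d) {y : F}
    (h1 : IsIntegral A (algebraMap A F p * y)) (h2 : IsIntegral A (algebraMap A F d * y)) :
    IsIntegral A y := by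
  classical
  letI : Algebra (FractionRing A) F := FractionRing.liftAlgebra A F
  haveI : IsScalarTower A (FractionRing A) F := FractionRing.isScalarTower_liftAlgebra A F
  have hinjAK : Function.Injective (algebraMap A (FractionRing A)) :=
    IsFractionRing.injective A (FractionRing A)
  have hp0 : p ≠ 0 := hp.ne_zero
  have hd0 : d ≠ 0 := by rintro rfl; exact hd (dvd_zero p)
  have hne : ∀ δ : A, δ ≠ 0 → algebraMap A (FractionRing A) δ ≠ 0 := fun δ hδ h =>
    hδ (hinjAK (by rw [h, map_zero]))
  have hpK := hne p hp0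
  have hyK : IsIntegral (FractionRing A) y := by
    have h : IsIntegral (FractionRing A) (algebraMap A F p * y) := h1.tower_top
    have e : y = algebraMap (FractionRing A) F (algebraMap A (FractionRing A) p)⁻¹
        * (algebraMap A F p * y) := by
      rw [IsScalarTower.algebraMap_apply A (FractionRing A) F, ← mul_assoc, ← map_mul,
        inv_mul_cancel₀ hpK, map_one, one_mul]
    rw [e]; exact isIntegral_algebraMap.mul h
  have key : ∀ δ : A, δ ≠ 0 → IsIntegral A (algebraMap A F δ * y) → ∀ i, ∃ a : A,
      algebraMap A (FractionRing A) a = (minpoly (FractionRing A) y).coeff i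
        * (algebraMap A (FractionRing A) δ) ^ ((minpoly (FractionRing A) y).natDegree - i) := by
    intro δ hδ hint i
    have e1 : minpoly (FractionRing A) (algebraMap A (FractionRing A) δ • y)
        = (minpoly (FractionRing A) y).scaleRoots (algebraMap A (FractionRing A) δ) :=
      IsIntegrallyClosed.minpoly_smul (hne δ hδ) hyK
    have e2 : algebraMap A (FractionRing A) δ • y = algebraMap A F δ * y := by
      rw [Algebra.smul_def, ← IsScalarTower.algebraMap_apply]
    rw [e2] at e1
    have e3 := minpoly.isIntegrallyClosed_eq_field_fractions' (FractionRing A) hint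
    refine ⟨(minpoly A (algebraMap A F δ * y)).coeff i, ?_⟩
    rw [← coeff_scaleRoots, ← e1, e3, coeff_map]
  have hlift : minpoly (FractionRing A) y ∈ lifts (algebraMap A (FractionRing A)) := by
    rw [lifts_iff_coeff_lifts]
    intro i
    obtain ⟨a, ha⟩ := key p hp0 h1 i
    obtain ⟨a', ha'⟩ := key d hd0 h2 i
    set n := (minpoly (FractionRing A) y).natDegree - i with hn
    have h3 : a * d ^ n = a' * p ^ n := by
      apply hinjAK
      rw [map_mul, map_mul, map_pow, map_pow, ha, ha']; ring
    have h4 : p ^ n ∣ a := by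
      apply hp.pow_dvd_of_dvd_mul_right n (fun h => hd (hp.dvd_of_dvd_pow h))
      exact ⟨a', by rw [h3]; ring⟩
    obtain ⟨a'', rfl⟩ := h4
    refine ⟨a'', ?_⟩
    rw [map_mul, map_pow] at ha
    exact mul_left_cancel₀ (pow_ne_zero n hpK) (ha.trans (mul_comm _ _))
  obtain ⟨ν, hν, -, hνm⟩ := lifts_and_degree_eq_and_monic hlift (minpoly.monic hyK)
  refine ⟨ν, hνm, ?_⟩
  have : eval₂ (algebraMap A F) y ν
      = eval₂ (algebraMap (FractionRing A) F) y (ν.map (algebraMap A (FractionRing A))) := by
    rw [eval₂_map, ← IsScalarTower.algebraMap_eq]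
  rw [this, hν]
  exact minpoly.aeval (FractionRing A) y

/-- Saturation for `R[t]`, `t` transcendental over a UFD `R`. -/
theorem qep_saturate {R F : Type*} [CommRing R] [IsDomain R] [UniqueFactorizationMonoid R]
    [Field F] [Algebra R F] {t : F} (ht : Function.Injective (aeval (R := R) t)) {l : R}
    (hl : Prime l) {σ : R[X]} (hσ : ¬ C l ∣ σ) {y : F}
    (h1 : IsIntegral (Algebra.adjoin R {t}) (algebraMap R F l * y))
    (h2 : IsIntegral (Algebra.adjoin R {t}) (aeval t σ * y)) :
    IsIntegral (Algebra.adjoin R {t}) y := by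
  let e : R[X] ≃ₐ[R] Algebra.adjoin R {t} :=
    (AlgEquiv.ofInjective (aeval t) ht).trans
      (Subalgebra.equivOfEq _ _ (Algebra.adjoin_singleton_eq_range_aeval R t).symm)
  have he : ∀ a : R[X], ((e a : Algebra.adjoin R {t}) : F) = aeval t a := fun a => rfl
  haveI : IsIntegrallyClosed (Algebra.adjoin R {t}) := IsIntegrallyClosed.of_equiv e.toRingEquiv
  haveI : FaithfulSMul (Algebra.adjoin R {t}) F :=
    (faithfulSMul_iff_algebraMap_injective _ _).mpr Subtype.val_injective
  have hp : Prime (e (C l)) := (MulEquiv.prime_iff e).mpr (Polynomial.prime_C_iff.mpr hl)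
  have hd : ¬ e (C l) ∣ e σ := fun h => hσ ((map_dvd_iff e).mp h)
  refine qep_saturate_gen hp hd ?_ ?_
  · have : algebraMap (Algebra.adjoin R {t}) F (e (C l)) = algebraMap R F l := by
      show ((e (C l) : Algebra.adjoin R {t}) : F) = _
      rw [he, aeval_C]
    rw [this]; exact h1
  · have : algebraMap (Algebra.adjoin R {t}) F (e σ) = aeval t σ := he σ
    rw [this]; exact h2

end Saturate

section Kernel

variable {R F Λ ι : Type*} [CommRing R] [IsDomain R] [UniqueFactorizationMonoid R]
  [Field F] [Algebra R F] [Field Λ] [Fintype ι]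

/-- **Kernel of the extended reduction.** An element integral over `R[t]` whose reduction
vanishes is `l` times an element integral over `R[t]`. -/
theorem QepHyp.ker {l : R} {S : Subalgebra R F} {red : S →+* Λ} {t : S} {b : ι → S}
    (H : QepHyp l S red t b) {x : F} (hx : IsIntegral (Algebra.adjoin R {(t : F)}) x)
    (h0 : qepRho S red x = 0) :
    ∃ y : F, IsIntegral (Algebra.adjoin R {(t : F)}) y ∧ x = algebraMap R F l * y := by
  obtain ⟨s, hs, c, hc⟩ := H.repr (qepGood_of_isIntegral hx)
  set u : S := aeval t s with hu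
  have hured : red u ≠ 0 := fun h => hs (H.transc s h)
  have hsum : ∀ c : ι → R[X], (∑ i, aeval (t : F) (c i) * (b i : F))
      = ((∑ i, aeval t (c i) * b i : S) : F) := by
    intro c
    push_cast
    rfl
  have hucoe : (u : F) = aeval (t : F) s := by rw [hu, aeval_subalgebra_coe]
  have hux : (u : F) * x ∈ S := by
    rw [hucoe, hc, hsum]; exact Subtype.coe_prop _
  rw [qepRho_eq u hured hux, div_eq_zero_iff] at h0
  have h1 := h0.resolve_right hured
  have h2 : (⟨(u : F) * x, hux⟩ : S) = ∑ i, aeval t (c i) * b i := by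
    apply Subtype.ext
    show (u : F) * x = _
    rw [← hsum, ← hc, hucoe]
  rw [h2] at h1
  have hdiv := H.indep c h1
  choose c' hc' using hdiv
  have hl0 : (algebraMap R F l) ≠ 0 := fun h => H.prime.ne_zero (H.inj (by rw [h, map_zero]))
  obtain ⟨y, hxy⟩ : ∃ y : F, x = algebraMap R F l * y :=
    ⟨(algebraMap R F l)⁻¹ * x, by rw [mul_inv_cancel_left₀ hl0]⟩
  have hyrep : aeval (t : F) s * y = ∑ i, aeval (t : F) (c' i) * (b i : F) := by
    apply mul_left_cancel₀ hl0
    have e1 : algebraMap R F l * (aeval (t : F) s * y) = aeval (t : F) s * x := by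
      rw [hxy]; ring
    rw [e1, hc, Finset.mul_sum]
    refine Finset.sum_congr rfl fun i _ => ?_
    rw [hc' i, map_mul, aeval_C]
    ring
  have hyV : y ∈ qepV S red := by
    refine ⟨u, hured, ?_⟩
    rw [hucoe, hyrep, hsum]; exact Subtype.coe_prop _
  obtain ⟨σ, hσ, hint⟩ := H.exists_smul_isIntegral hyV
  refine ⟨y, qep_saturate H.aeval_injective H.prime hσ ?_ hint, hxy⟩
  rw [← hxy]; exact hx

end Kernel

section Dep

variable {R F Λ ι : Type*} [CommRing R] [IsDomain R] [UniqueFactorizationMonoid R]
  [Field F] [Algebra R F] [Field Λ] [Fintype ι]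

/-- The independence of the reductions implies honest linear independence over `R[t]`. -/
theorem qep_indep_eq_zero {l : R} {S : Subalgebra R F} {red : S →+* Λ} {t : S} {b : ι → S}
    (inj : Function.Injective (algebraMap R F)) (prime : Prime l)
    (indep : ∀ c : ι → R[X], red (∑ i, aeval t (c i) * b i) = 0 → ∀ i, C l ∣ c i)
    (c : ι → R[X]) (hc : ∑ i, aeval (t : F) (c i) * (b i : F) = 0) : ∀ i, c i = 0 := by
  intro i₀
  by_contra hne
  have hirr : Irreducible (C l : R[X]) := (Polynomial.prime_C_iff.mpr prime).irreducible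
  obtain ⟨k, s', hs', hk⟩ := WfDvdMonoid.max_power_factor hne hirr
  have hl0 : (algebraMap R F l) ≠ 0 := fun h => prime.ne_zero (inj (by rw [h, map_zero]))
  have hCl0 : (C l : R[X]) ≠ 0 := fun h => prime.ne_zero (C_eq_zero.mp h)
  have hS : ∀ c : ι → R[X], ∑ i, aeval (t : F) (c i) * (b i : F) = 0 →
      (∑ i, aeval t (c i) * b i : S) = 0 := by
    intro c hc
    apply Subtype.ext
    rw [ZeroMemClass.coe_zero, ← hc]
    push_cast
    rfl
  suffices h : ∀ (k : ℕ) (c : ι → R[X]), ∑ i, aeval (t : F) (c i) * (b i : F) = 0 →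
      c i₀ = C l ^ k * s' → False from h k c hc hk
  intro k
  induction k with
  | zero =>
    intro c hc hk
    have := indep c (by rw [hS c hc, map_zero]) i₀
    rw [hk, pow_zero, one_mul] at this
    exact hs' this
  | succ k ih =>
    intro c hc hk
    have hdiv := indep c (by rw [hS c hc, map_zero])
    choose c' hc' using hdiv
    apply ih c'
    · apply mul_left_cancel₀ hl0
      rw [mul_zero, Finset.mul_sum, ← hc]
      refine Finset.sum_congr rfl fun i _ => ?_
      rw [hc' i, map_mul, aeval_C]; ring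
    · apply mul_left_cancel₀ hCl0
      rw [← hc' i₀, hk, pow_succ]; ring

/-- `QepHyp` from a dependence statement instead of `span`. -/
theorem QepHyp.of_dep {l : R} {S : Subalgebra R F} {red : S →+* Λ} {t : S} {b : ι → S}
    (inj : Function.Injective (algebraMap R F)) (prime : Prime l)
    (red_l : red (algebraMap R S l) = 0)
    (transc : ∀ a : R[X], red (aeval t a) = 0 → C l ∣ a)
    (indep : ∀ c : ι → R[X], red (∑ i, aeval t (c i) * b i) = 0 → ∀ i, C l ∣ c i)
    (dep : ∀ x : F, ∃ (s : R[X]) (c : ι → R[X]), (s ≠ 0 ∨ c ≠ 0) ∧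
      aeval (t : F) s * x = ∑ i, aeval (t : F) (c i) * (b i : F)) :
    QepHyp l S red t b where
  inj := inj
  prime := prime
  red_l := red_l
  transc := transc
  indep := indep
  span := by
    intro x
    obtain ⟨s, c, hsc, h⟩ := dep x
    by_cases hs : s = 0
    · exfalso
      rw [hs, map_zero, zero_mul] at h
      have := qep_indep_eq_zero inj prime indep c h.symm
      rcases hsc with h1 | h1
      · exact h1 hs
      · exact h1 (funext this)
    · exact ⟨s, hs, c, h⟩

omit [IsDomain R] [UniqueFactorizationMonoid R] [Field F] [Algebra R F] [Field Λ] [Fintype ι] in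
/-- Evaluating at the inverse: `a(t') = (reflect N a)(t) t'^N` if `t' t = 1`. -/
theorem qep_aeval_inv {A : Type*} [CommRing A] [Algebra R A] {t t' : A} (h : t' * t = 1)
    (N : ℕ) (a : R[X]) (ha : a.natDegree ≤ N) :
    aeval t (reflect N a) * t' ^ N = aeval t' a := by
  letI : Invertible t' := ⟨t, by rw [mul_comm]; exact h, h⟩
  exact eval₂_reflect_mul_pow (algebraMap R A) t' N a ha

omit [IsDomain R] [UniqueFactorizationMonoid R] [Field F] [Algebra R F] [Field Λ] [Fintype ι] in
theorem qep_C_dvd_of_reflect {l : R} {N : ℕ} {a : R[X]} (h : C l ∣ reflect N a) : C l ∣ a := by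
  obtain ⟨g, hg⟩ := h
  refine ⟨reflect N g, ?_⟩
  rw [← reflect_C_mul, ← hg, reflect_reflect]

/-- The hypotheses are stable under `t ↦ t⁻¹` (when `t⁻¹ ∈ S`). -/
theorem QepHyp.inv {l : R} {S : Subalgebra R F} {red : S →+* Λ} {t : S} {b : ι → S}
    (H : QepHyp l S red t b) (t' : S) (h : t' * t = 1) : QepHyp l S red t' b where
  inj := H.inj
  prime := H.prime
  red_l := H.red_l
  transc := by
    intro a ha
    have hred : red t' ≠ 0 := by
      intro h0
      have := congrArg red h
      rw [map_mul, h0, zero_mul, map_one] at this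
      exact zero_ne_one this
    rw [← qep_aeval_inv h a.natDegree a le_rfl, map_mul, map_pow] at ha
    have h1 := (mul_eq_zero.mp ha).resolve_right (pow_ne_zero _ hred)
    exact qep_C_dvd_of_reflect (H.transc _ h1)
  span := by
    intro x
    obtain ⟨s, hs, c, hc⟩ := H.span x
    set M : ℕ := s.natDegree + ∑ i, (c i).natDegree with hM
    have hsM : s.natDegree ≤ M := Nat.le_add_right _ _
    have hcM : ∀ i, (c i).natDegree ≤ M := fun i =>
      le_trans (Finset.single_le_sum (f := fun i => (c i).natDegree) (fun _ _ => Nat.zero_le _)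
        (Finset.mem_univ i)) (Nat.le_add_left _ _)
    have hF : (t : F) * (t' : F) = 1 := by
      have := congrArg (fun z : S => (z : F)) h
      simp only [MulMemClass.coe_mul, OneMemClass.coe_one] at this
      rw [mul_comm]; exact this
    refine ⟨reflect M s, fun h0 => hs (reflect_eq_zero_iff.mp h0), fun i => reflect M (c i), ?_⟩
    have key : ∀ a : R[X], a.natDegree ≤ M →
        aeval (t' : F) (reflect M a) = aeval (t : F) a * (t' : F) ^ M := by
      intro a ha
      have h1 := qep_aeval_inv hF M a ha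
      rw [← h1, mul_assoc, ← mul_pow, hF, one_pow, mul_one]
    rw [key s hsM]
    have e1 : aeval (t : F) s * (t' : F) ^ M * x = (t' : F) ^ M * (aeval (t : F) s * x) := by ring
    rw [e1, hc, Finset.mul_sum]
    refine Finset.sum_congr rfl fun i _ => ?_
    rw [key (c i) (hcM i)]; ring
  indep := by
    intro c hc
    have hred : red t' ≠ 0 := by
      intro h0
      have := congrArg red h
      rw [map_mul, h0, zero_mul, map_one] at this
      exact zero_ne_one this
    set M : ℕ := ∑ i, (c i).natDegree with hM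
    have hcM : ∀ i, (c i).natDegree ≤ M := fun i =>
      Finset.single_le_sum (f := fun i => (c i).natDegree) (fun _ _ => Nat.zero_le _)
        (Finset.mem_univ i)
    have e1 : (∑ i, aeval t' (c i) * b i : S)
        = t' ^ M * ∑ i, aeval t (reflect M (c i)) * b i := by
      rw [Finset.mul_sum]
      refine Finset.sum_congr rfl fun i _ => ?_
      rw [← qep_aeval_inv h M (c i) (hcM i)]; ring
    rw [e1, map_mul, map_pow] at hc
    have h1 := (mul_eq_zero.mp hc).resolve_left (pow_ne_zero _ hred)
    intro i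
    exact qep_C_dvd_of_reflect (H.indep _ h1 i)

end Dep

section Tensor

open TensorProduct

/-- **Tensor step.** Let `ρ : B → k₀((q))` be a ring homomorphism whose kernel is killed by
`R → k₀`, and `K / k₀` a field extension.  Then a ring homomorphism `B ⊗[R] K → K((q))` given
on pure tensors by `b ⊗ κ ↦ κ ρ(b)` is injective. -/
theorem qep_tensor_injective {R B k₀ K : Type*} [CommRing R] [CommRing B] [Algebra R B]
    [Field k₀] [Field K] [Algebra R K] [Algebra k₀ K]
    (φ : R →+* k₀) (hφ : Function.Surjective φ)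
    (hφK : ∀ r, algebraMap R K r = algebraMap k₀ K (φ r))
    (ρ : B →+* LaurentSeries k₀)
    (hker : ∀ b, ρ b = 0 → ∃ r : R, φ r = 0 ∧ ∃ y : B, b = r • y)
    (Φ : B ⊗[R] K →+* LaurentSeries K)
    (hΦ : ∀ (b : B) (κ : K) (n : ℤ),
      (Φ (b ⊗ₜ[R] κ)).coeff n = κ * algebraMap k₀ K ((ρ b).coeff n)) :
    Function.Injective Φ := by
  classical
  rw [injective_iff_map_eq_zero]
  intro z hz
  set e := Module.Basis.ofVectorSpace k₀ K with he
  set T : (Module.Basis.ofVectorSpaceIndex k₀ K →₀ B) →ₗ[R] B ⊗[R] K :=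
    Finsupp.lsum R (fun i => (TensorProduct.mk R B K).flip (e i)) with hT
  have hTsingle : ∀ i (x : B), T (Finsupp.single i x) = x ⊗ₜ[R] e i := by
    intro i x
    rw [hT, Finsupp.lsum_single]; rfl
  have hTapp : ∀ f, T f = ∑ i ∈ f.support, f i ⊗ₜ[R] e i := by
    intro f
    rw [hT, Finsupp.lsum_apply, Finsupp.sum]; rfl
  have hsmul : ∀ (r : R) (κ : K), r • κ = algebraMap k₀ K (φ r) * κ := by
    intro r κ
    rw [Algebra.smul_def, hφK]
  have hsurj : ∀ z, z ∈ LinearMap.range T := by
    intro z
    have htop : Submodule.span R {t : B ⊗[R] K | ∃ m n, m ⊗ₜ n = t} ≤ LinearMap.range T := by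
      rw [Submodule.span_le]
      rintro _ ⟨b, κ, rfl⟩
      refine ⟨∑ i ∈ (e.repr κ).support,
        Finsupp.single i (Function.surjInv hφ (e.repr κ i) • b), ?_⟩
      rw [map_sum]
      have hκ : κ = ∑ i ∈ (e.repr κ).support, (e.repr κ i) • e i := by
        conv_lhs => rw [← e.linearCombination_repr κ]
        rw [Finsupp.linearCombination_apply, Finsupp.sum]
      conv_rhs => rw [hκ, TensorProduct.tmul_sum]
      refine Finset.sum_congr rfl fun i _ => ?_
      rw [hTsingle, TensorProduct.smul_tmul, hsmul, Function.surjInv_eq hφ, Algebra.smul_def]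
    exact htop (by rw [TensorProduct.span_tmul_eq_top]; exact Submodule.mem_top)
  obtain ⟨f, rfl⟩ := hsurj z
  have h0 : ∀ i ∈ f.support, ρ (f i) = 0 := by
    intro i hi
    ext n
    have hcoef : (Φ (T f)).coeff n = 0 := by rw [hz]; rfl
    rw [hTapp, map_sum, HahnSeries.coeff_sum] at hcoef
    have hsum : ∑ j ∈ f.support, ((ρ (f j)).coeff n) • e j = 0 := by
      rw [← hcoef]
      refine Finset.sum_congr rfl fun j _ => ?_
      rw [hΦ, Algebra.smul_def, mul_comm]
    exact linearIndependent_iff'.mp e.linearIndependent f.support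
      (fun j => (ρ (f j)).coeff n) hsum i hi
  rw [hTapp]
  refine Finset.sum_eq_zero fun i hi => ?_
  obtain ⟨r, hr, y, hy⟩ := hker (f i) (h0 i hi)
  rw [hy, TensorProduct.smul_tmul, hsmul, hr, map_zero, zero_mul, TensorProduct.tmul_zero]

end Tensor

end Fermat.Agent.IG
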