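import Mathlib
import Fermat.Prelude.Def_GaloisRep_Flat

set_option autoImplicit false

/-!
# S28 (Igusa): the ring `ℤ_(ℓ) = GaloisRep.ratLocalizedAt ℓ`

It is the localization of `ℤ` at the prime `(ℓ)`, hence a discrete valuation ring; `ℓ` is a
prime element; a ring hom to a field of characteristic `ℓ` has kernel `(ℓ)`.
-/

noncomputable section

namespace Fermat.Agent.IG

open GaloisRep Polynomial

variable (ℓ : ℕ) [hℓ : Fact ℓ.Prime]

theorem zl_not_dvd_of_coprime {d : ℕ} (h : d.Coprime ℓ) : ¬ ℓ ∣ d := by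
  intro hd
  have h1 : ℓ ∣ Nat.gcd d ℓ := Nat.dvd_gcd hd dvd_rfl
  rw [Nat.Coprime] at h
  rw [h] at h1
  exact hℓ.out.one_lt.ne' (Nat.dvd_one.mp h1)

omit hℓ in
theorem zl_intCast_mem (a : ℤ) : (a : ℚ) ∈ ratLocalizedAt ℓ := by
  show ((a : ℚ)).den.Coprime ℓ
  rw [Rat.den_intCast]
  exact Nat.coprime_one_left ℓ

omit hℓ in
theorem zl_coe_intCast (a : ℤ) : (((a : ↥(ratLocalizedAt ℓ)) : ℚ)) = (a : ℚ) := by
  simp

omit hℓ in
theorem zl_coe_natCast (a : ℕ) : (((a : ↥(ratLocalizedAt ℓ)) : ℚ)) = (a : ℚ) := by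
  simp

theorem zl_span_ne_bot : Ideal.span {(ℓ : ℤ)} ≠ ⊥ := by
  rw [Ne, Ideal.span_singleton_eq_bot]
  exact_mod_cast hℓ.out.ne_zero

instance zl_span_isPrime : (Ideal.span {(ℓ : ℤ)}).IsPrime :=
  (Ideal.span_singleton_prime (by exact_mod_cast hℓ.out.ne_zero)).mpr
    (Nat.prime_iff_prime_int.mp hℓ.out)

theorem zl_mem_primeCompl_iff (y : ℤ) :
    y ∈ (Ideal.span {(ℓ : ℤ)}).primeCompl ↔ ¬ (ℓ : ℤ) ∣ y := by
  rw [Ideal.primeCompl, Submonoid.mem_mk, Subsemigroup.mem_mk, Set.mem_compl_iff,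
    SetLike.mem_coe, Ideal.mem_span_singleton]

instance zl_isLocalization :
    IsLocalization.AtPrime ↥(ratLocalizedAt ℓ) (Ideal.span {(ℓ : ℤ)}) := by
  refine (isLocalization_iff _ _).mpr ⟨?_, ?_, ?_⟩
  · rintro ⟨y, hy⟩
    rw [zl_mem_primeCompl_iff] at hy
    have hy0 : y ≠ 0 := fun h => hy (h ▸ dvd_zero _)
    have hmem : ((y : ℚ))⁻¹ ∈ ratLocalizedAt ℓ := by
      show (((y : ℚ))⁻¹).den.Coprime ℓ
      rw [Rat.inv_intCast_den, if_neg hy0]
      refine (Nat.Coprime.symm ?_)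
      rw [Nat.Prime.coprime_iff_not_dvd hℓ.out]
      intro h
      exact hy (Int.natCast_dvd.mpr h)
    refine IsUnit.of_mul_eq_one (⟨((y : ℚ))⁻¹, hmem⟩ : ↥(ratLocalizedAt ℓ)) (Subtype.ext ?_)
    rw [Subring.coe_mul, Subring.coe_one, eq_intCast, zl_coe_intCast]
    exact mul_inv_cancel₀ (by exact_mod_cast hy0)
  · intro z
    have hden : (z.1.den : ℤ) ∈ (Ideal.span {(ℓ : ℤ)}).primeCompl := by
      rw [zl_mem_primeCompl_iff]
      intro h
      have h1 : ℓ ∣ z.1.den := by exact_mod_cast h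
      exact zl_not_dvd_of_coprime ℓ z.2 h1
    refine ⟨(z.1.num, ⟨(z.1.den : ℤ), hden⟩), Subtype.ext ?_⟩
    rw [Subring.coe_mul, eq_intCast, eq_intCast, zl_coe_intCast, zl_coe_intCast]
    push_cast
    exact Rat.mul_den_eq_num z.1
  · intro x y hxy
    refine ⟨1, ?_⟩
    have h := congrArg (Subtype.val) hxy
    rw [eq_intCast, eq_intCast, zl_coe_intCast, zl_coe_intCast] at h
    rw [Int.cast_injective h]

instance zl_isDVR : IsDiscreteValuationRing ↥(ratLocalizedAt ℓ) :=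
  IsLocalization.AtPrime.isDiscreteValuationRing_of_dedekind_domain ℤ (zl_span_ne_bot ℓ) _

theorem zl_natCast_ne_zero : ((ℓ : ℕ) : ↥(ratLocalizedAt ℓ)) ≠ 0 := by
  intro h
  have h1 := congrArg Subtype.val h
  rw [zl_coe_natCast] at h1
  exact hℓ.out.ne_zero (by exact_mod_cast h1)

theorem zl_span_eq_maximalIdeal :
    Ideal.span {((ℓ : ℕ) : ↥(ratLocalizedAt ℓ))} = IsLocalRing.maximalIdeal ↥(ratLocalizedAt ℓ) := by
  rw [← IsLocalization.AtPrime.map_eq_maximalIdeal (Ideal.span {(ℓ : ℤ)}) ↥(ratLocalizedAt ℓ),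
    Ideal.map_span, Set.image_singleton]
  simp

theorem zl_prime : Prime ((ℓ : ℕ) : ↥(ratLocalizedAt ℓ)) := by
  rw [← Ideal.span_singleton_prime (zl_natCast_ne_zero ℓ), zl_span_eq_maximalIdeal]
  infer_instance

/-- an element not divisible by `ℓ` is a unit -/
theorem zl_isUnit_of_not_dvd {c : ↥(ratLocalizedAt ℓ)}
    (hc : ¬ ((ℓ : ℕ) : ↥(ratLocalizedAt ℓ)) ∣ c) : IsUnit c := by
  by_contra h
  apply hc
  have h1 : c ∈ IsLocalRing.maximalIdeal ↥(ratLocalizedAt ℓ) := by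
    rwa [IsLocalRing.mem_maximalIdeal, mem_nonunits_iff]
  rw [← zl_span_eq_maximalIdeal, Ideal.mem_span_singleton] at h1
  exact h1

/-- the kernel of a ring hom from `ℤ_(ℓ)` to a field of characteristic `ℓ` is `(ℓ)` -/
theorem zl_map_eq_zero_iff {K : Type*} [Field K] [CharP K ℓ] (f : ↥(ratLocalizedAt ℓ) →+* K)
    (c : ↥(ratLocalizedAt ℓ)) : f c = 0 ↔ ((ℓ : ℕ) : ↥(ratLocalizedAt ℓ)) ∣ c := by
  constructor
  · intro h
    by_contra hc
    exact (zl_isUnit_of_not_dvd ℓ hc).map f |>.ne_zero h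
  · rintro ⟨d, rfl⟩
    rw [map_mul, map_natCast, CharP.cast_eq_zero, zero_mul]

/-- clearing denominators -/
theorem zl_exists_int (c : ↥(ratLocalizedAt ℓ)) :
    ∃ (D : ℕ) (a : ℤ), ¬ ℓ ∣ D ∧ (D : ↥(ratLocalizedAt ℓ)) * c = (a : ↥(ratLocalizedAt ℓ)) := by
  refine ⟨c.1.den, c.1.num, ?_, Subtype.ext ?_⟩
  · exact zl_not_dvd_of_coprime ℓ c.2
  · rw [Subring.coe_mul, zl_coe_natCast, zl_coe_intCast, mul_comm]
    exact Rat.mul_den_eq_num c.1

/-- a natural number prime to `ℓ` is a unit of `ℤ_(ℓ)` -/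
theorem zl_isUnit_natCast {D : ℕ} (hD : ¬ ℓ ∣ D) : IsUnit ((D : ℕ) : ↥(ratLocalizedAt ℓ)) := by
  apply zl_isUnit_of_not_dvd
  rintro ⟨d, hd⟩
  have h1 := congrArg Subtype.val hd
  rw [Subring.coe_mul, zl_coe_natCast, zl_coe_natCast] at h1
  have hden : d.1.den.Coprime ℓ := d.2
  -- D = ℓ * d, so d = D / ℓ has denominator ℓ unless ℓ ∣ D
  have h2 : (d.1.num : ℚ) * ℓ = (D : ℚ) * d.1.den := by
    have := Rat.mul_den_eq_num d.1
    rw [h1, ← this]; ring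
  have h3 : d.1.num * (ℓ : ℤ) = (D : ℤ) * d.1.den := by exact_mod_cast h2
  have h4 : (ℓ : ℤ) ∣ (D : ℤ) * d.1.den := ⟨d.1.num, by rw [← h3]; ring⟩
  have hp : Prime (ℓ : ℤ) := Nat.prime_iff_prime_int.mp hℓ.out
  rcases hp.dvd_or_dvd h4 with h5 | h5
  · exact hD (by exact_mod_cast h5)
  · have h6 : ℓ ∣ d.1.den := by exact_mod_cast h5
    exact zl_not_dvd_of_coprime ℓ hden h6

end Fermat.Agent.IG
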