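import Mathlib
import Fermat.Prelude.Def_ModularCurve_IgusaScheme
import Fermat.Prelude.Def_ModularCurve_X0ModL
import Fermat.Agent.Lib.IG_QEP
import Fermat.Agent.Lib.IG_Zl
import Fermat.Agent.Lib.IG_NM

set_option autoImplicit false
set_option linter.unusedSectionVars false
set_option linter.unusedVariables false

/-!
# S28 (Igusa): the q-expansion principle for the chart algebras (helper5)

Instantiation of the abstract principle `IG_QEP` for `R = ℤ_(ℓ)`, `F = ℚ(j(q^d) : d ∣ N)`,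
`S` = the elements of `F` whose `q`-expansion has coefficients in `ℤ_(ℓ)`, `red` = the
coefficientwise reduction to `𝔽_ℓ((q))`.  Output: `igusa_domains`.
-/

noncomputable section

open ModularCurve ModularCurve.IgusaScheme GaloisRep Polynomial
open scoped TensorProduct

namespace Fermat.Agent.IG

section Residue

variable (ℓ : ℕ) [hℓ : Fact ℓ.Prime]

/-- the residue map `ℤ_(ℓ) → 𝔽_ℓ` -/
def qzlRes : ↥(ratLocalizedAt ℓ) →+* ZMod ℓ :=
  IsLocalization.lift (M := (Ideal.span {(ℓ : ℤ)}).primeCompl) (g := Int.castRingHom (ZMod ℓ)) (by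
    rintro ⟨y, hy⟩
    rw [zl_mem_primeCompl_iff] at hy
    exact isUnit_iff_ne_zero.mpr (fun h => hy ((ZMod.intCast_zmod_eq_zero_iff_dvd y ℓ).mp h)))

theorem qzlRes_surjective : Function.Surjective (qzlRes ℓ) := by
  intro a
  haveI : NeZero ℓ := ⟨hℓ.out.ne_zero⟩
  refine ⟨(a.val : ↥(ratLocalizedAt ℓ)), ?_⟩
  rw [map_natCast, ZMod.natCast_zmod_val]

theorem qzlRes_eq_zero_iff (c : ↥(ratLocalizedAt ℓ)) :
    qzlRes ℓ c = 0 ↔ ((ℓ : ℕ) : ↥(ratLocalizedAt ℓ)) ∣ c :=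
  zl_map_eq_zero_iff ℓ (qzlRes ℓ) c

theorem qzlRes_natCast_self : qzlRes ℓ ((ℓ : ℕ) : ↥(ratLocalizedAt ℓ)) = 0 := by
  rw [map_natCast, ZMod.natCast_self]

/-- every ring hom from `ℤ_(ℓ)` to a ring factors through the unique one -/
theorem qzl_ringHom_ext {A : Type*} [Semiring A] (f g : ↥(ratLocalizedAt ℓ) →+* A) : f = g :=
  IsLocalization.ringHom_ext (Ideal.span {(ℓ : ℤ)}).primeCompl (RingHom.ext_int _ _)

theorem qzl_algebraMap_eq (K : Type*) [Field K] [CharP K ℓ] [Algebra ↥(ratLocalizedAt ℓ) K] :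
    algebraMap ↥(ratLocalizedAt ℓ) K = (ZMod.castHom (dvd_refl ℓ) K).comp (qzlRes ℓ) :=
  qzl_ringHom_ext ℓ _ _

theorem qzl_C_dvd_of_map_eq_zero {a : (↥(ratLocalizedAt ℓ))[X]} (h : a.map (qzlRes ℓ) = 0) :
    C ((ℓ : ℕ) : ↥(ratLocalizedAt ℓ)) ∣ a := by
  rw [Polynomial.C_dvd_iff_dvd_coeff]
  intro n
  rw [← qzlRes_eq_zero_iff, ← coeff_map, h, coeff_zero]

end Residue

section Series

variable (ℓ : ℕ) [hℓ : Fact ℓ.Prime]

theorem qzl_coeffMap_injective :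
    Function.Injective (coeffMap (ratLocalizedAt ℓ).subtype) := by
  intro x y h
  ext n
  have h1 := congrArg (fun z : LaurentSeries ℚ => z.coeff n) h
  simp only [coeffMap_coeff] at h1
  exact h1

/-- the Laurent series over `ℚ` with coefficients in `ℤ_(ℓ)` -/
def qzlSeries : Subring (LaurentSeries ℚ) := (coeffMap (ratLocalizedAt ℓ).subtype).range

/-- the ring isomorphism `ℤ_(ℓ)((q)) ≃ qzlSeries` -/
def qzlEquiv : LaurentSeries ↥(ratLocalizedAt ℓ) ≃+* qzlSeries ℓ :=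
  RingEquiv.ofBijective (coeffMap (ratLocalizedAt ℓ).subtype).rangeRestrict
    ⟨fun x y h => qzl_coeffMap_injective ℓ (congrArg Subtype.val h),
      (coeffMap (ratLocalizedAt ℓ).subtype).rangeRestrict_surjective⟩

/-- coefficientwise reduction `qzlSeries → 𝔽_ℓ((q))` -/
def qzlRed : qzlSeries ℓ →+* LaurentSeries (ZMod ℓ) :=
  (coeffMap (qzlRes ℓ)).comp (qzlEquiv ℓ).symm.toRingHom

theorem qzlRed_eq (x : qzlSeries ℓ) (y : LaurentSeries ↥(ratLocalizedAt ℓ))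
    (h : coeffMap (ratLocalizedAt ℓ).subtype y = (x : LaurentSeries ℚ)) :
    qzlRed ℓ x = coeffMap (qzlRes ℓ) y := by
  have hx : x = qzlEquiv ℓ y := Subtype.ext h.symm
  rw [hx]
  show coeffMap (qzlRes ℓ) ((qzlEquiv ℓ).symm (qzlEquiv ℓ y)) = _
  rw [RingEquiv.symm_apply_apply]

theorem qzlRed_int (x : qzlSeries ℓ) (β : LaurentSeries ℤ)
    (h : coeffMap (Int.castRingHom ℚ) β = (x : LaurentSeries ℚ)) :
    qzlRed ℓ x = coeffMap (Int.castRingHom (ZMod ℓ)) β := by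
  rw [qzlRed_eq ℓ x (coeffMap (Int.castRingHom ↥(ratLocalizedAt ℓ)) β), coeffMap_coeffMap]
  · exact coeffMap_congr (RingHom.ext_int _ _) β
  · rw [coeffMap_coeffMap, ← h]
    exact coeffMap_congr (RingHom.ext_int _ _) β

theorem qzl_int_mem (β : LaurentSeries ℤ) : coeffMap (Int.castRingHom ℚ) β ∈ qzlSeries ℓ := by
  refine ⟨coeffMap (Int.castRingHom ↥(ratLocalizedAt ℓ)) β, ?_⟩
  rw [coeffMap_coeffMap]
  exact coeffMap_congr (RingHom.ext_int _ _) β

end Series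

section Units

/-- `1/j` has integral coefficients. -/
theorem qepa_jq_inv : ∃ y : LaurentSeries ℤ, y * jqModC ℤ = 1 := by
  have hu : IsUnit (jNum.map (Int.castRingHom ℤ)) := by
    rw [PowerSeries.isUnit_iff_constantCoeff, ← PowerSeries.coeff_zero_eq_constantCoeff,
      PowerSeries.coeff_map, PowerSeries.coeff_zero_eq_constantCoeff, constantCoeff_jNum]
    simp
  obtain ⟨u', hu'⟩ := hu.exists_left_inv
  refine ⟨HahnSeries.single (1 : ℤ) 1 * HahnSeries.ofPowerSeries ℤ ℤ u', ?_⟩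
  rw [jqModC]
  have e : HahnSeries.single (1 : ℤ) (1 : ℤ) * HahnSeries.ofPowerSeries ℤ ℤ u'
        * (HahnSeries.single (-1 : ℤ) 1 * HahnSeries.ofPowerSeries ℤ ℤ
          (jNum.map (Int.castRingHom ℤ)))
      = (HahnSeries.single (1 : ℤ) (1 : ℤ) * HahnSeries.single (-1 : ℤ) 1)
        * (HahnSeries.ofPowerSeries ℤ ℤ u' * HahnSeries.ofPowerSeries ℤ ℤ
          (jNum.map (Int.castRingHom ℤ))) := by ring
  rw [e, HahnSeries.single_mul_single, ← map_mul, hu', map_one]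
  simp

theorem qepa_jq_inv_rat : ∃ y : LaurentSeries ℤ, coeffMap (Int.castRingHom ℚ) y = jq⁻¹ := by
  obtain ⟨y, hy⟩ := qepa_jq_inv
  refine ⟨y, ?_⟩
  have h := congrArg (coeffMap (Int.castRingHom ℚ)) hy
  rw [map_mul, coeffMap_jqModC, map_one, jqModC_rat] at h
  exact eq_inv_of_mul_eq_one_left h

theorem qepa_eval₂_C_eq_aeval {k : Type*} [Field k] (z : LaurentSeries k) (p : k[X]) :
    eval₂ HahnSeries.C z p = aeval z p := by
  rw [aeval_def]
  congr 1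
  ext r : 1
  exact (nm_algebraMap_eq_C r).symm

theorem qepa_coeffMap_eval₂ {A B : Type*} [CommRing A] [CommRing B] (ψ : A →+* B)
    (z : LaurentSeries A) (p : A[X]) :
    coeffMap ψ (eval₂ HahnSeries.C z p) = eval₂ HahnSeries.C (coeffMap ψ z) (p.map ψ) := by
  rw [hom_eval₂, eval₂_map]
  congr 1
  ext r : 1
  simp only [RingHom.comp_apply, HahnSeries.C_apply, coeffMap_single]

end Units

section Igusa

variable (N : ℕ) [NeZero N] (ℓ : ℕ) [hℓ : Fact ℓ.Prime]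

theorem qzl_coe_algebraMap (r : ↥(ratLocalizedAt ℓ)) :
    ((algebraMap ↥(ratLocalizedAt ℓ) ↥(modularFunctionFieldFull N) r :
      ↥(modularFunctionFieldFull N)) : LaurentSeries ℚ) = HahnSeries.C (r : ℚ) := by
  have h1 : algebraMap ↥(ratLocalizedAt ℓ) ↥(modularFunctionFieldFull N) r
      = algebraMap ℚ ↥(modularFunctionFieldFull N) (r : ℚ) := rfl
  rw [h1, eq_ratCast, ← nm_algebraMap_eq_C, eq_ratCast]
  push_cast
  rfl

/-- the elements of `F` whose `q`-expansion has coefficients in `ℤ_(ℓ)` -/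
def qzlS : Subalgebra ↥(ratLocalizedAt ℓ) ↥(modularFunctionFieldFull N) where
  carrier := {x | (x : LaurentSeries ℚ) ∈ qzlSeries ℓ}
  mul_mem' := fun {a b} ha hb => (qzlSeries ℓ).mul_mem ha hb
  add_mem' := fun {a b} ha hb => (qzlSeries ℓ).add_mem ha hb
  algebraMap_mem' := fun r => by
    show ((algebraMap ↥(ratLocalizedAt ℓ) ↥(modularFunctionFieldFull N) r :
      ↥(modularFunctionFieldFull N)) : LaurentSeries ℚ) ∈ qzlSeries ℓ
    rw [qzl_coe_algebraMap]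
    exact ⟨HahnSeries.C r, by rw [HahnSeries.C_apply, coeffMap_single]; rfl⟩

/-- `qzlS → qzlSeries` -/
def qzlSHom : qzlS N ℓ →+* qzlSeries ℓ where
  toFun x := ⟨((x : ↥(modularFunctionFieldFull N)) : LaurentSeries ℚ), x.2⟩
  map_one' := rfl
  map_mul' _ _ := rfl
  map_zero' := rfl
  map_add' _ _ := rfl

/-- the reduction `qzlS → 𝔽_ℓ((q))` -/
def qzlRedS : qzlS N ℓ →+* LaurentSeries (ZMod ℓ) := (qzlRed ℓ).comp (qzlSHom N ℓ)

theorem qzlRedS_eq (x : qzlS N ℓ) (y : LaurentSeries ↥(ratLocalizedAt ℓ))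
    (h : coeffMap (ratLocalizedAt ℓ).subtype y
      = ((x : ↥(modularFunctionFieldFull N)) : LaurentSeries ℚ)) :
    qzlRedS N ℓ x = coeffMap (qzlRes ℓ) y := qzlRed_eq ℓ _ y h

theorem qzlRedS_int (x : qzlS N ℓ) (β : LaurentSeries ℤ)
    (h : coeffMap (Int.castRingHom ℚ) β
      = ((x : ↥(modularFunctionFieldFull N)) : LaurentSeries ℚ)) :
    qzlRedS N ℓ x = coeffMap (Int.castRingHom (ZMod ℓ)) β := qzlRed_int ℓ _ β h

theorem qzlRedS_algebraMap (r : ↥(ratLocalizedAt ℓ)) :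
    qzlRedS N ℓ (algebraMap ↥(ratLocalizedAt ℓ) (qzlS N ℓ) r) = HahnSeries.C (qzlRes ℓ r) := by
  rw [qzlRedS_eq N ℓ _ (HahnSeries.C r)]
  · rw [HahnSeries.C_apply, coeffMap_single]; rfl
  · rw [HahnSeries.C_apply, coeffMap_single]
    show _ = ((algebraMap ↥(ratLocalizedAt ℓ) ↥(modularFunctionFieldFull N) r :
      ↥(modularFunctionFieldFull N)) : LaurentSeries ℚ)
    rw [qzl_coe_algebraMap]; rfl

theorem qzlS_mem_of_int {x : ↥(modularFunctionFieldFull N)} (β : LaurentSeries ℤ)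
    (h : coeffMap (Int.castRingHom ℚ) β = (x : LaurentSeries ℚ)) : x ∈ qzlS N ℓ := by
  show (x : LaurentSeries ℚ) ∈ qzlSeries ℓ
  rw [← h]; exact qzl_int_mem ℓ β

theorem qzlRedS_aeval (t : qzlS N ℓ) (a : (↥(ratLocalizedAt ℓ))[X]) :
    qzlRedS N ℓ (aeval t a) = eval₂ HahnSeries.C (qzlRedS N ℓ t) (a.map (qzlRes ℓ)) := by
  rw [aeval_def, hom_eval₂, eval₂_map]
  congr 1
  ext r : 1
  exact qzlRedS_algebraMap N ℓ r

/-- `j` as an element of `qzlS` -/
def qzlJ : qzlS N ℓ :=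
  ⟨jFull N, qzlS_mem_of_int N ℓ (jqModC ℤ) (by rw [coeffMap_jqModC]; rfl)⟩

theorem qzlRedS_J : qzlRedS N ℓ (qzlJ N ℓ) = jqModC (ZMod ℓ) := by
  rw [qzlRedS_int N ℓ _ (jqModC ℤ) (by rw [coeffMap_jqModC]; rfl), coeffMap_jqModC]

/-- `1/j` as an element of `qzlS` -/
def qzlJinv : qzlS N ℓ :=
  ⟨(jFull N)⁻¹, by
    obtain ⟨y, hy⟩ := qepa_jq_inv_rat
    exact qzlS_mem_of_int N ℓ y (by rw [hy]; rfl)⟩

theorem qzlJinv_mul : qzlJinv N ℓ * qzlJ N ℓ = 1 :=
  Subtype.ext (inv_mul_cancel₀ (jFull_ne_zero N))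

/-- the basis elements as elements of `qzlS` -/
def qzlB {ι : Type} (β : ι → LaurentSeries ℤ)
    (hβ : ∀ i, coeffMap (Int.castRingHom ℚ) (β i) ∈ modularFunctionFieldFull N) (i : ι) :
    qzlS N ℓ :=
  ⟨⟨coeffMap (Int.castRingHom ℚ) (β i), hβ i⟩, qzlS_mem_of_int N ℓ (β i) rfl⟩

theorem qzlRedS_B {ι : Type} (β : ι → LaurentSeries ℤ)
    (hβ : ∀ i, coeffMap (Int.castRingHom ℚ) (β i) ∈ modularFunctionFieldFull N) (i : ι) :
    qzlRedS N ℓ (qzlB N ℓ β hβ i) = coeffMap (Int.castRingHom (ZMod ℓ)) (β i) :=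
  qzlRedS_int N ℓ _ (β i) rfl

theorem qzl_coe_aeval_jFull (p : ℤ[X]) :
    ((aeval (jFull N) (p.map (Int.castRingHom ↥(ratLocalizedAt ℓ))) :
      ↥(modularFunctionFieldFull N)) : LaurentSeries ℚ) = evalAtJ p := by
  have key : ((algebraMap ↥(modularFunctionFieldFull N) (LaurentSeries ℚ)).comp
      ((aeval (R := ↥(ratLocalizedAt ℓ)) (jFull N)).toRingHom.comp
        (mapRingHom (Int.castRingHom ↥(ratLocalizedAt ℓ))))) = evalAtJ := by
    apply Polynomial.ringHom_ext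
    · intro a
      simp only [RingHom.comp_apply, coe_mapRingHom, map_C, eq_intCast, AlgHom.toRingHom_eq_coe,
        RingHom.coe_coe, aeval_C, evalAtJ, map_intCast]
    · simp only [RingHom.comp_apply, coe_mapRingHom, map_X, AlgHom.toRingHom_eq_coe,
        RingHom.coe_coe, aeval_X, evalAtJ_X]
      rfl
  exact RingHom.congr_fun key p

theorem qzl_intCast_injective : Function.Injective (Int.castRingHom ↥(ratLocalizedAt ℓ)) := by
  intro a b h
  have h1 := congrArg (Subtype.val) h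
  simp only [eq_intCast, zl_coe_intCast] at h1
  exact_mod_cast h1

/-- **The hypotheses of the abstract principle hold** for `t = j`. -/
theorem qzl_qepHyp {ι : Type} [Fintype ι] (β : ι → LaurentSeries ℤ)
    (hβ : ∀ i, coeffMap (Int.castRingHom ℚ) (β i) ∈ modularFunctionFieldFull N)
    (hdep : ∀ x ∈ modularFunctionFieldFull N, ∃ (s : Polynomial ℤ) (c : ι → Polynomial ℤ),
      (s ≠ 0 ∨ c ≠ 0) ∧
        evalAtJ s * x = ∑ i, evalAtJ (c i) * coeffMap (Int.castRingHom ℚ) (β i))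
    (hind : ∃ (k : Type) (_ : Field k) (_ : CharP k ℓ), ∀ c : ι → Polynomial k,
      ∑ i, Polynomial.aeval (jqModC k) (c i) * coeffMap (Int.castRingHom k) (β i) = 0 →
        ∀ i, c i = 0) :
    QepHyp ((ℓ : ℕ) : ↥(ratLocalizedAt ℓ)) (qzlS N ℓ) (qzlRedS N ℓ) (qzlJ N ℓ)
      (qzlB N ℓ β hβ) := by
  refine QepHyp.of_dep ?_ (zl_prime ℓ) ?_ ?_ ?_ ?_
  · -- injectivity
    intro a b h
    have h1 := congrArg (fun z : ↥(modularFunctionFieldFull N) => (z : LaurentSeries ℚ)) h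
    simp only [qzl_coe_algebraMap] at h1
    exact Subtype.ext (HahnSeries.C_injective h1)
  · -- red l = 0
    rw [qzlRedS_algebraMap, qzlRes_natCast_self, map_zero]
  · -- transcendence
    intro a ha
    rw [qzlRedS_aeval, qzlRedS_J, qepa_eval₂_C_eq_aeval] at ha
    apply qzl_C_dvd_of_map_eq_zero
    apply nm_aeval_injective (ZMod ℓ)
    rw [ha, map_zero]
  · -- independence
    intro c hc
    obtain ⟨k, _, _, hk⟩ := hind
    rw [map_sum] at hc
    have h1 := congrArg (coeffMap (ZMod.castHom (dvd_refl ℓ) k)) hc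
    rw [map_sum, map_zero] at h1
    have h2 : ∑ i, aeval (jqModC k) (((c i).map (qzlRes ℓ)).map (ZMod.castHom (dvd_refl ℓ) k))
        * coeffMap (Int.castRingHom k) (β i) = 0 := by
      rw [← h1]
      refine Finset.sum_congr rfl fun i _ => ?_
      rw [map_mul, qzlRedS_aeval, qzlRedS_J, qzlRedS_B, map_mul, qepa_coeffMap_eval₂,
        coeffMap_jqModC, qepa_eval₂_C_eq_aeval, coeffMap_coeffMap]
      congr 1
      exact coeffMap_congr (RingHom.ext_int _ _) (β i)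
    intro i
    apply qzl_C_dvd_of_map_eq_zero
    exact Polynomial.map_injective _ (ZMod.castHom (dvd_refl ℓ) k).injective
      (by rw [hk _ h2 i, Polynomial.map_zero])
  · -- dependence
    intro x
    obtain ⟨s, c, hsc, h⟩ := hdep (x : LaurentSeries ℚ) x.2
    refine ⟨s.map (Int.castRingHom ↥(ratLocalizedAt ℓ)),
      fun i => (c i).map (Int.castRingHom ↥(ratLocalizedAt ℓ)), ?_, ?_⟩
    · have hinj := Polynomial.map_injective _ (qzl_intCast_injective ℓ)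
      rcases hsc with h1 | h1
      · left
        intro h0
        exact h1 (hinj (by rw [h0, Polynomial.map_zero]))
      · right
        intro h0
        apply h1
        funext i
        exact hinj (by rw [congrFun h0 i]; simp)
    · apply Subtype.ext
      have e1 : ∀ p : ℤ[X], ((aeval ((qzlJ N ℓ : qzlS N ℓ) : ↥(modularFunctionFieldFull N))
          (p.map (Int.castRingHom ↥(ratLocalizedAt ℓ))) : ↥(modularFunctionFieldFull N)) :
            LaurentSeries ℚ) = evalAtJ p := qzl_coe_aeval_jFull N ℓ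
      push_cast
      rw [e1, h]
      refine Finset.sum_congr rfl fun i _ => ?_
      rw [e1]
      rfl

end Igusa

section Tensor

variable (ℓ : ℕ) [hℓ : Fact ℓ.Prime]

/-- A ring hom `ρ : B → 𝔽_ℓ((q))` compatible with constants gives `B ⊗ K → K((q))`. -/
theorem qzl_exists_tensorHom (K : Type*) [Field K] [CharP K ℓ] [Algebra ↥(ratLocalizedAt ℓ) K]
    {B : Type*} [CommRing B] [Algebra ↥(ratLocalizedAt ℓ) B]
    (ρ : B →+* LaurentSeries (ZMod ℓ))
    (hρ : ∀ r : ↥(ratLocalizedAt ℓ),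
      ρ (algebraMap ↥(ratLocalizedAt ℓ) B r) = HahnSeries.C (qzlRes ℓ r)) :
    ∃ Φ : B ⊗[↥(ratLocalizedAt ℓ)] K →+* LaurentSeries K, ∀ (b : B) (κ : K) (n : ℤ),
      (Φ (b ⊗ₜ κ)).coeff n = κ * (ZMod.castHom (dvd_refl ℓ) K) ((ρ b).coeff n) := by
  letI : Algebra ↥(ratLocalizedAt ℓ) (LaurentSeries K) :=
    ((HahnSeries.C : K →+* LaurentSeries K).comp (algebraMap ↥(ratLocalizedAt ℓ) K)).toAlgebra
  let g : K →ₐ[↥(ratLocalizedAt ℓ)] LaurentSeries K :=
    { (HahnSeries.C : K →+* LaurentSeries K) with commutes' := fun r => rfl }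
  let f : B →ₐ[↥(ratLocalizedAt ℓ)] LaurentSeries K :=
    { (coeffMap (ZMod.castHom (dvd_refl ℓ) K)).comp ρ with
      commutes' := fun r => by
        show coeffMap (ZMod.castHom (dvd_refl ℓ) K) (ρ (algebraMap _ B r))
          = HahnSeries.C (algebraMap _ K r)
        rw [hρ, HahnSeries.C_apply, coeffMap_single, qzl_algebraMap_eq ℓ K]; rfl }
  refine ⟨(Algebra.TensorProduct.productMap f g).toRingHom, ?_⟩
  intro b κ n
  show ((Algebra.TensorProduct.productMap f g) (b ⊗ₜ κ)).coeff n = _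
  rw [Algebra.TensorProduct.productMap_apply_tmul]
  show (coeffMap (ZMod.castHom (dvd_refl ℓ) K) (ρ b) * HahnSeries.C κ).coeff n = _
  rw [mul_comm, HahnSeries.C_mul_eq_smul, HahnSeries.coeff_smul, smul_eq_mul, coeffMap_coeff]

theorem qzl_tensor_isDomain (K : Type*) [Field K] [CharP K ℓ] [Algebra ↥(ratLocalizedAt ℓ) K]
    {B : Type*} [CommRing B] [Algebra ↥(ratLocalizedAt ℓ) B]
    (ρ : B →+* LaurentSeries (ZMod ℓ))
    (hρ : ∀ r : ↥(ratLocalizedAt ℓ),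
      ρ (algebraMap ↥(ratLocalizedAt ℓ) B r) = HahnSeries.C (qzlRes ℓ r))
    (hker : ∀ b, ρ b = 0 → ∃ y : B, b = ((ℓ : ℕ) : ↥(ratLocalizedAt ℓ)) • y) :
    IsDomain (B ⊗[↥(ratLocalizedAt ℓ)] K) := by
  obtain ⟨Φ, hΦ⟩ := qzl_exists_tensorHom ℓ K ρ hρ
  letI : Algebra (ZMod ℓ) K := ZMod.algebra K ℓ
  have hinj : Function.Injective Φ :=
    qep_tensor_injective (qzlRes ℓ) (qzlRes_surjective ℓ)
      (fun r => by rw [qzl_algebraMap_eq ℓ K]; rfl) ρ
      (fun b hb => by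
        obtain ⟨y, hy⟩ := hker b hb
        exact ⟨_, qzlRes_natCast_self ℓ, y, hy⟩) Φ hΦ
  exact hinj.isDomain Φ

theorem qzl_tensor_nontrivial (K : Type*) [Field K] [CharP K ℓ] [Algebra ↥(ratLocalizedAt ℓ) K]
    {B : Type*} [CommRing B] [Algebra ↥(ratLocalizedAt ℓ) B]
    (ρ : B →+* LaurentSeries (ZMod ℓ))
    (hρ : ∀ r : ↥(ratLocalizedAt ℓ),
      ρ (algebraMap ↥(ratLocalizedAt ℓ) B r) = HahnSeries.C (qzlRes ℓ r)) :
    Nontrivial (B ⊗[↥(ratLocalizedAt ℓ)] K) := by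
  obtain ⟨Φ, hΦ⟩ := qzl_exists_tensorHom ℓ K ρ hρ
  exact Φ.domain_nontrivial

end Tensor

section Charts

variable (N : ℕ) [NeZero N] (ℓ : ℕ) [hℓ : Fact ℓ.Prime]

/-- the reduction on a subalgebra of `qepV` -/
def qzlRho (Bc : Subalgebra ↥(ratLocalizedAt ℓ) ↥(modularFunctionFieldFull N))
    (h : Bc ≤ qepV (qzlS N ℓ) (qzlRedS N ℓ)) : Bc →+* LaurentSeries (ZMod ℓ) :=
  (qepRhoHom (qzlS N ℓ) (qzlRedS N ℓ)).comp (Subalgebra.inclusion h).toRingHom

theorem qzlRho_apply (Bc : Subalgebra ↥(ratLocalizedAt ℓ) ↥(modularFunctionFieldFull N))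
    (h : Bc ≤ qepV (qzlS N ℓ) (qzlRedS N ℓ)) (x : Bc) :
    qzlRho N ℓ Bc h x = qepRho (qzlS N ℓ) (qzlRedS N ℓ) (x : ↥(modularFunctionFieldFull N)) := rfl

theorem qzlRho_algebraMap (Bc : Subalgebra ↥(ratLocalizedAt ℓ) ↥(modularFunctionFieldFull N))
    (h : Bc ≤ qepV (qzlS N ℓ) (qzlRedS N ℓ)) (r : ↥(ratLocalizedAt ℓ)) :
    qzlRho N ℓ Bc h (algebraMap ↥(ratLocalizedAt ℓ) Bc r) = HahnSeries.C (qzlRes ℓ r) := by
  rw [qzlRho_apply]
  have e : ((algebraMap ↥(ratLocalizedAt ℓ) Bc r : Bc) : ↥(modularFunctionFieldFull N))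
      = ((algebraMap ↥(ratLocalizedAt ℓ) (qzlS N ℓ) r : qzlS N ℓ) :
        ↥(modularFunctionFieldFull N)) := rfl
  rw [e, qepRho_of_mem, qzlRedS_algebraMap]

/-- **The three ring-level facts for S28**, from a family `β` of integral `q`-series in `F`
that (`hdep`) spans `F` over `ℚ(j)` up to dependence and (`hind`) has reductions linearly
independent over `k[j]` for one field `k` of characteristic `ℓ`. -/
theorem igusa_domains_fintype (K : Type) [Field K] [CharP K ℓ] [Algebra ↥(ratLocalizedAt ℓ) K]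
    {ι : Type} [Fintype ι] (β : ι → LaurentSeries ℤ)
    (hβ : ∀ i, coeffMap (Int.castRingHom ℚ) (β i) ∈ modularFunctionFieldFull N)
    (hdep : ∀ x ∈ modularFunctionFieldFull N, ∃ (s : Polynomial ℤ) (c : ι → Polynomial ℤ),
      (s ≠ 0 ∨ c ≠ 0) ∧
        evalAtJ s * x = ∑ i, evalAtJ (c i) * coeffMap (Int.castRingHom ℚ) (β i))
    (hind : ∃ (k : Type) (_ : Field k) (_ : CharP k ℓ), ∀ c : ι → Polynomial k,
      ∑ i, Polynomial.aeval (jqModC k) (c i) * coeffMap (Int.castRingHom k) (β i) = 0 →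
        ∀ i, c i = 0) :
    IsDomain (↥(chartAlgFin N ℓ) ⊗[↥(ratLocalizedAt ℓ)] K) ∧
      IsDomain (↥(chartAlgInf N ℓ) ⊗[↥(ratLocalizedAt ℓ)] K) ∧
      Nontrivial (↥(chartAlgMid N ℓ) ⊗[↥(ratLocalizedAt ℓ)] K) := by
  have H := qzl_qepHyp N ℓ β hβ hdep hind
  have H' := H.inv (qzlJinv N ℓ) (qzlJinv_mul N ℓ)
  have hFin : chartAlgFin N ℓ ≤ qepV (qzlS N ℓ) (qzlRedS N ℓ) :=
    fun x hx => H.mem_qepV_of_isIntegral hx
  have hInf : chartAlgInf N ℓ ≤ qepV (qzlS N ℓ) (qzlRedS N ℓ) :=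
    fun x hx => H'.mem_qepV_of_isIntegral hx
  have hMid : chartAlgMid N ℓ ≤ qepV (qzlS N ℓ) (qzlRedS N ℓ) := by
    intro x hx
    have hz : x ∈ chartAlg N ℓ (insert (jFull N)⁻¹ {jFull N}) := by
      have e : (insert (jFull N)⁻¹ {jFull N} : Set ↥(modularFunctionFieldFull N))
          = {jFull N, (jFull N)⁻¹} := Set.pair_comm _ _
      rw [e]; exact hx
    obtain ⟨n, hn⟩ := exists_pow_mul_mem_chartAlg (Set.mem_singleton _) (jFull_ne_zero N) hz
    have h1 : (jFull N) ^ n * x ∈ qepV (qzlS N ℓ) (qzlRedS N ℓ) := hFin hn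
    have h2 : (jFull N)⁻¹ ∈ qepV (qzlS N ℓ) (qzlRedS N ℓ) := le_qepV _ _ (qzlJinv N ℓ).2
    have h3 : x = ((jFull N)⁻¹) ^ n * ((jFull N) ^ n * x) := by
      rw [← mul_assoc, ← mul_pow, inv_mul_cancel₀ (jFull_ne_zero N), one_pow, one_mul]
    rw [h3]
    exact Subalgebra.mul_mem _ (Subalgebra.pow_mem _ h2 n) h1
  refine ⟨?_, ?_, ?_⟩
  · refine qzl_tensor_isDomain ℓ K (qzlRho N ℓ _ hFin) (qzlRho_algebraMap N ℓ _ hFin) ?_
    intro b hb
    obtain ⟨y, hy, hxy⟩ := H.ker b.2 hb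
    refine ⟨⟨y, hy⟩, Subtype.ext ?_⟩
    rw [hxy]
    rfl
  · refine qzl_tensor_isDomain ℓ K (qzlRho N ℓ _ hInf) (qzlRho_algebraMap N ℓ _ hInf) ?_
    intro b hb
    obtain ⟨y, hy, hxy⟩ := H'.ker b.2 hb
    refine ⟨⟨y, hy⟩, Subtype.ext ?_⟩
    rw [hxy]
    rfl
  · exact qzl_tensor_nontrivial ℓ K (qzlRho N ℓ _ hMid) (qzlRho_algebraMap N ℓ _ hMid)

/-- `igusa_domains_fintype` for a family indexed by `Fin m` (the interface consumed by the
integration file). -/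
theorem igusa_domains (K : Type) [Field K] [CharP K ℓ] [Algebra ↥(ratLocalizedAt ℓ) K]
    (m : ℕ) (β : Fin m → LaurentSeries ℤ)
    (hβ : ∀ i, coeffMap (Int.castRingHom ℚ) (β i) ∈ modularFunctionFieldFull N)
    (hdep : ∀ x ∈ modularFunctionFieldFull N, ∃ (s : Polynomial ℤ) (c : Fin m → Polynomial ℤ),
      (s ≠ 0 ∨ c ≠ 0) ∧
        evalAtJ s * x = ∑ i, evalAtJ (c i) * coeffMap (Int.castRingHom ℚ) (β i))
    (hind : ∃ (k : Type) (_ : Field k) (_ : CharP k ℓ), ∀ c : Fin m → Polynomial k,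
      ∑ i, Polynomial.aeval (jqModC k) (c i) * coeffMap (Int.castRingHom k) (β i) = 0 →
        ∀ i, c i = 0) :
    IsDomain (↥(chartAlgFin N ℓ) ⊗[↥(ratLocalizedAt ℓ)] K) ∧
      IsDomain (↥(chartAlgInf N ℓ) ⊗[↥(ratLocalizedAt ℓ)] K) ∧
      Nontrivial (↥(chartAlgMid N ℓ) ⊗[↥(ratLocalizedAt ℓ)] K) :=
  igusa_domains_fintype N ℓ K β hβ hdep hind

end Charts

end Fermat.Agent.IG
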