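import Fermat.Agent.Lib.IG_Theta
import Fermat.Agent.Lib.IG_Defs

set_option autoImplicit false

/-!
# S28 (Igusa): bridge between the two sets of formal definitions (helper8)

`thetaL R` / `deltaL R` (`IG_ThetaDefs`) are the same as `igTheta` / `igD R` (`IG_Defs`);
`ig_theta_identity` restates `theta_identity` in the `IG_Defs` vocabulary.
-/

noncomputable section

namespace Fermat.Agent.IG

open ModularCurve

variable (R : Type*) [CommRing R]

theorem theta_eq_igTheta (s : LaurentSeries R) : thetaL R s = igTheta s := rfl

theorem deltaL_eq_igD : deltaL R = igD R := rfl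

/-- `(θ j)^6 = Δ j^4 (j - 1728)^3` in the vocabulary of `IG_Defs` -/
theorem ig_theta_identity :
    igTheta (jqModC R) ^ 6 = igD R * jqModC R ^ 4 * (jqModC R - 1728) ^ 3 := by
  rw [← theta_eq_igTheta, ← deltaL_eq_igD]
  exact theta_identity R

end Fermat.Agent.IG
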