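import Mathlib
import Fermat.Prelude.Def_ModularCurve_X0ModL
import Fermat.Agent.Lib.IG_Defs
import Fermat.Agent.Lib.IG_TowDefs

set_option autoImplicit false

/-!
# S28 (Igusa) tower, part 1: formal series `J(η t^n)` and the field-theoretic lemmas

* `towQ k n`   : total version of `qExpand k n` (`q ↦ q^n`; the identity for `n = 0`)
* `towS k η n` : the series `J(η t^n)`
* `TowId Φ ζ p`: the Puiseux form of the modular equation, in terms of `towS`
* `tow_roots`, `tow_rel` : its twisted / substituted forms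
* `tow_irred`, `tow_irred_or` : irreducibility from enough conjugate roots
-/

noncomputable section

namespace Fermat.Agent.IG

open ModularCurve Polynomial

universe u

section Basics

variable (k : Type u) [Field k]

/-- total version of `qExpand` (the identity for `n = 0`) -/
def towQ (n : ℕ) : LaurentSeries k →+* LaurentSeries k :=
  if h : n = 0 then RingHom.id _ else @qExpand k _ n ⟨h⟩

variable {k}

theorem towQ_eq (n : ℕ) [NeZero n] : towQ k n = qExpand k n := by
  unfold towQ
  rw [dif_neg (NeZero.ne n)]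

theorem towQ_towQ {m n : ℕ} (hm : m ≠ 0) (hn : n ≠ 0) (f : LaurentSeries k) :
    towQ k m (towQ k n f) = towQ k (m * n) f := by
  have : NeZero m := ⟨hm⟩
  have : NeZero n := ⟨hn⟩
  have : NeZero (m * n) := ⟨mul_ne_zero hm hn⟩
  rw [towQ_eq, towQ_eq, towQ_eq, qExpand_qExpand]

theorem towQ_injective {n : ℕ} (hn : n ≠ 0) : Function.Injective (towQ k n) := by
  have : NeZero n := ⟨hn⟩
  rw [towQ_eq]
  exact qExpand_injective n

theorem towQ_coeff_mul {n : ℕ} (hn : n ≠ 0) (f : LaurentSeries k) (i : ℤ) :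
    (towQ k n f).coeff ((n : ℤ) * i) = f.coeff i := by
  have : NeZero n := ⟨hn⟩
  rw [towQ_eq]
  exact qExpand_coeff_mul n f i

theorem towQ_coeff_of_not_dvd {n : ℕ} (hn : n ≠ 0) (f : LaurentSeries k) {i : ℤ}
    (hi : ¬ (n : ℤ) ∣ i) : (towQ k n f).coeff i = 0 := by
  have : NeZero n := ⟨hn⟩
  rw [towQ_eq]
  exact qExpand_coeff_of_not_dvd n f hi

theorem towQ_one (f : LaurentSeries k) : towQ k 1 f = f := by
  rw [towQ_eq]
  exact qExpand_one_apply f

theorem towQ_C (n : ℕ) (c : k) : towQ k n (HahnSeries.C c) = HahnSeries.C c := by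
  unfold towQ
  split_ifs with h
  · rfl
  · exact @qExpand_C k _ n ⟨h⟩ c

theorem towQ_algebraMap (n : ℕ) (c : k) :
    towQ k n (algebraMap k (LaurentSeries k) c) = algebraMap k (LaurentSeries k) c := by
  rw [algebraMap_laurentSeries_eq_single, ← HahnSeries.C_apply]
  exact towQ_C n c

theorem igTwL_algebraMap (ξ : k) (c : k) :
    igTwL ξ (algebraMap k (LaurentSeries k) c) = algebraMap k (LaurentSeries k) c := by
  rw [algebraMap_laurentSeries_eq_single]
  ext i
  rw [igTwL_coeff, HahnSeries.coeff_single]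
  split_ifs with h
  · subst h
    simp
  · simp

theorem igTwL_towQ (ξ : k) {n : ℕ} (hn : n ≠ 0) (s : LaurentSeries k) :
    igTwL ξ (towQ k n s) = towQ k n (igTwL (ξ ^ n) s) := by
  ext i
  rw [igTwL_coeff]
  by_cases hi : (n : ℤ) ∣ i
  · obtain ⟨j, rfl⟩ := hi
    rw [towQ_coeff_mul hn, towQ_coeff_mul hn, igTwL_coeff, zpow_mul, zpow_natCast]
  · rw [towQ_coeff_of_not_dvd hn _ hi, towQ_coeff_of_not_dvd hn _ hi, mul_zero]

theorem igTwL_igTwL (ξ η : k) (s : LaurentSeries k) :
    igTwL ξ (igTwL η s) = igTwL (ξ * η) s := by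
  ext i
  rw [igTwL_coeff, igTwL_coeff, igTwL_coeff, mul_zpow, mul_assoc]

theorem igTwL_one_apply (s : LaurentSeries k) : igTwL (1 : k) s = s := by
  ext i
  simp

variable (k)

/-- the series `J(η t^n)` -/
def towS (η : k) (n : ℕ) : LaurentSeries k := towQ k n (igTwL η (jqModC k))

variable {k}

theorem towS_one_one : towS k 1 1 = jqModC k := by
  rw [towS, towQ_one, igTwL_one_apply]

theorem towS_one_eq (n : ℕ) [NeZero n] : towS k 1 n = qExpand k n (jqModC k) := by
  rw [towS, towQ_eq, igTwL_one_apply]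

theorem towS_eta_one (η : k) : towS k η 1 = igTwL η (jqModC k) := by
  rw [towS, towQ_one]

theorem towQ_towS {m n : ℕ} (hm : m ≠ 0) (hn : n ≠ 0) (η : k) :
    towQ k m (towS k η n) = towS k η (m * n) := by
  rw [towS, towS, towQ_towQ hm hn]

theorem igTwL_towS (ξ η : k) {n : ℕ} (hn : n ≠ 0) :
    igTwL ξ (towS k η n) = towS k (ξ ^ n * η) n := by
  rw [towS, towS, igTwL_towQ ξ hn, igTwL_igTwL]

theorem towS_coeff_neg {n : ℕ} (hn : n ≠ 0) (η : k) :
    (towS k η n).coeff (-(n : ℤ)) = η⁻¹ := by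
  have h : (-(n : ℤ)) = (n : ℤ) * (-1) := by ring
  rw [towS, h, towQ_coeff_mul hn, igTwL_coeff, coeff_jqModC_neg_one, mul_one, zpow_neg, zpow_one]

theorem towS_coeff_of_lt {n : ℕ} (hn : n ≠ 0) (η : k) {i : ℤ} (hi : i < -(n : ℤ)) :
    (towS k η n).coeff i = 0 := by
  by_cases hd : (n : ℤ) ∣ i
  · obtain ⟨j, rfl⟩ := hd
    rw [towS, towQ_coeff_mul hn, igTwL_coeff]
    have hn' : (0 : ℤ) < n := by exact_mod_cast Nat.pos_of_ne_zero hn
    have hj : j < -1 := by
      by_contra hcon
      push Not at hcon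
      nlinarith
    rw [coeff_jqModC_of_lt k hj, mul_zero]
  · exact towQ_coeff_of_not_dvd hn _ hd

theorem towS_coeff_of_not_dvd {n : ℕ} (hn : n ≠ 0) (η : k) {i : ℤ} (hi : ¬ (n : ℤ) ∣ i) :
    (towS k η n).coeff i = 0 :=
  towQ_coeff_of_not_dvd hn _ hi

/-- different pole orders give different series -/
theorem towS_ne_of_lt {n n' : ℕ} (hn : n ≠ 0) (h : n < n') (η η' : k) (hη' : η' ≠ 0) :
    towS k η n ≠ towS k η' n' := by
  intro heq
  have hn' : n' ≠ 0 := by omega
  have h1 := towS_coeff_neg hn' η'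
  rw [← heq, towS_coeff_of_lt hn η (by omega)] at h1
  exact inv_ne_zero hη' h1.symm

theorem towS_inj {n : ℕ} (hn : n ≠ 0) {η η' : k} (h : towS k η n = towS k η' n) : η = η' := by
  have h1 := towS_coeff_neg hn η
  rw [h, towS_coeff_neg hn η'] at h1
  exact inv_injective h1.symm

/-- `J(η t^c)` is not a series in `t^r` unless `r ∣ c` -/
theorem towS_not_mem_range {r c : ℕ} (hr : r ≠ 0) (hc : c ≠ 0) (hrc : ¬ r ∣ c) (η : k)
    (hη : η ≠ 0) (z : LaurentSeries k) : towQ k r z ≠ towS k η c := by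
  intro heq
  have h1 := towS_coeff_neg hc η
  rw [← heq, towQ_coeff_of_not_dvd hr] at h1
  · exact inv_ne_zero hη h1.symm
  · intro hd
    apply hrc
    have h2 : (r : ℤ) ∣ (c : ℤ) := (dvd_neg).mp hd
    exact_mod_cast h2

end Basics

section Eval

variable {k : Type u} [Field k]

/-- evaluation `k[Y] →+* LaurentSeries k`, `Y ↦ x` -/
def towEv (x : LaurentSeries k) : Polynomial k →+* LaurentSeries k :=
  Polynomial.eval₂RingHom (algebraMap k (LaurentSeries k)) x

theorem towEv_eq_aeval (x : LaurentSeries k) :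
    ((aeval x : Polynomial k →ₐ[k] LaurentSeries k) : Polynomial k →+* LaurentSeries k)
      = towEv x := by
  ext P
  · simp [towEv]
  · simp [towEv]

/-- a ring hom that fixes constants commutes with evaluation -/
theorem towEv_comp {A : Type*} [CommRing A] (c : k →+* A) (x : A)
    (θ : A →+* LaurentSeries k) (hθ : ∀ r, θ (c r) = algebraMap k (LaurentSeries k) r) :
    θ.comp (Polynomial.eval₂RingHom c x) = towEv (θ x) := by
  apply Polynomial.ringHom_ext
  · intro r
    simp [towEv, hθ]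
  · simp [towEv]

theorem towEv_comp' (x : LaurentSeries k) (θ : LaurentSeries k →+* LaurentSeries k)
    (hθ : ∀ r, θ (algebraMap k (LaurentSeries k) r) = algebraMap k (LaurentSeries k) r) :
    θ.comp (towEv x) = towEv (θ x) :=
  towEv_comp (algebraMap k (LaurentSeries k)) x θ hθ

theorem towEv_map {A : Type*} [CommRing A] (c : k →+* A) (x : A)
    (θ : A →+* LaurentSeries k) (hθ : ∀ r, θ (c r) = algebraMap k (LaurentSeries k) r)
    (Φ : Polynomial (Polynomial k)) :
    (Φ.map (Polynomial.eval₂RingHom c x)).map θ = Φ.map (towEv (θ x)) := by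
  rw [Polynomial.map_map, towEv_comp c x θ hθ]

end Eval

section PhiId

variable {k : Type u} [Field k]

/-- the Puiseux form of the modular equation of level `p`, in terms of `towS`:
`Φ(X, J(u^p)) = (X - J(u^(p^2))) ∏_{b<p} (X - J(ζ^b u))` -/
def TowId (Φ : Polynomial (Polynomial k)) (ζ : k) (p : ℕ) : Prop :=
  Φ.Monic ∧ IsPrimitiveRoot ζ p ∧
    Φ.map (towEv (towS k 1 p)) = (X - C (towS k 1 (p ^ 2))) *
      ∏ b ∈ Finset.range p, (X - C (towS k (ζ ^ b) 1))

/-- the substitution `u ↦ η t^m` in the modular equation -/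
theorem tow_roots {Φ : Polynomial (Polynomial k)} {ζ : k} {p : ℕ} (hp : p ≠ 0)
    (hT : TowId Φ ζ p) (η : k) (hη : η ≠ 0) {m : ℕ} (hm : m ≠ 0) :
    Φ.map (towEv (towS k (η ^ p) (m * p))) = (X - C (towS k (η ^ (p ^ 2)) (m * p ^ 2))) *
      ∏ b ∈ Finset.range p, (X - C (towS k (η * ζ ^ b) m)) := by
  obtain ⟨-, -, hid⟩ := hT
  have hp2 : p ^ 2 ≠ 0 := pow_ne_zero 2 hp
  set θ : LaurentSeries k →+* LaurentSeries k := (towQ k m).comp (igTw η hη) with hθ
  have hθc : ∀ r, θ (algebraMap k (LaurentSeries k) r) = algebraMap k (LaurentSeries k) r := by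
    intro r
    rw [hθ, RingHom.comp_apply]
    have h1 : igTw η hη (algebraMap k (LaurentSeries k) r) = algebraMap k (LaurentSeries k) r :=
      igTwL_algebraMap η r
    rw [h1, towQ_algebraMap]
  have hθS : ∀ (ξ : k) (n : ℕ), n ≠ 0 → θ (towS k ξ n) = towS k (η ^ n * ξ) (m * n) := by
    intro ξ n hn
    rw [hθ, RingHom.comp_apply]
    have h1 : igTw η hη (towS k ξ n) = igTwL η (towS k ξ n) := rfl
    rw [h1, igTwL_towS η ξ hn, towQ_towS hm hn]
  have h := congrArg (Polynomial.map θ) hid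
  have hL : (Φ.map (towEv (towS k 1 p))).map θ = Φ.map (towEv (θ (towS k 1 p))) := by
    rw [Polynomial.map_map]
    congr 1
    apply Polynomial.ringHom_ext
    · intro r
      simp only [RingHom.comp_apply, towEv, Polynomial.coe_eval₂RingHom, Polynomial.eval₂_C]
      exact hθc r
    · simp [towEv]
  rw [hL, hθS 1 p hp, mul_one] at h
  rw [h, Polynomial.map_mul, Polynomial.map_sub, Polynomial.map_X, Polynomial.map_C,
    Polynomial.map_prod, hθS 1 (p ^ 2) hp2, mul_one]
  congr 1
  refine Finset.prod_congr rfl (fun b _ => ?_)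
  rw [Polynomial.map_sub, Polynomial.map_X, Polynomial.map_C, hθS (ζ ^ b) 1 one_ne_zero,
    pow_one, mul_one]

/-- the relation `Φ(J(t^(m p)), J(t^m)) = 0` -/
theorem tow_rel {Φ : Polynomial (Polynomial k)} {ζ : k} {p : ℕ} (hp : p ≠ 0)
    (hT : TowId Φ ζ p) {m : ℕ} (hm : m ≠ 0) :
    Φ.eval₂ (towEv (towS k 1 m)) (towS k 1 (m * p)) = 0 := by
  have hmp : m * p ≠ 0 := mul_ne_zero hm hp
  apply towQ_injective hp
  rw [map_zero, Polynomial.hom_eval₂,
    towEv_comp' (towS k 1 m) (towQ k p) (fun r => towQ_algebraMap p r),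
    towQ_towS hp hm, towQ_towS hp hmp]
  have h := tow_roots hp hT 1 one_ne_zero hm
  rw [one_pow, one_pow] at h
  have h2 : (Φ.map (towEv (towS k 1 (m * p)))).eval (towS k 1 (m * p ^ 2)) = 0 := by
    rw [h, Polynomial.eval_mul, Polynomial.eval_sub, Polynomial.eval_X, Polynomial.eval_C,
      sub_self, zero_mul]
  rw [Polynomial.eval_map] at h2
  have e1 : p * m = m * p := mul_comm p m
  have e2 : p * (m * p) = m * p ^ 2 := by ring
  rw [e1, e2]
  exact h2

theorem towId_natDegree {Φ : Polynomial (Polynomial k)} {ζ : k} {p : ℕ} (hT : TowId Φ ζ p) :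
    Φ.natDegree = p + 1 := by
  obtain ⟨hmon, -, hid⟩ := hT
  have h1 : (Φ.map (towEv (towS k 1 p))).natDegree = Φ.natDegree := hmon.natDegree_map _
  rw [← h1, hid, Polynomial.natDegree_mul (Polynomial.X_sub_C_ne_zero _)
    (Finset.prod_ne_zero_iff.mpr (fun b _ => Polynomial.X_sub_C_ne_zero _)),
    Polynomial.natDegree_X_sub_C,
    Polynomial.natDegree_prod_of_monic _ _ (fun b _ => Polynomial.monic_X_sub_C _)]
  simp [add_comm]

end PhiId

section FieldTheory

variable {L Ω : Type*} [Field L] [Field Ω]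

/-- the minimal polynomial has all the conjugates as roots -/
theorem tow_conj_card (β : L →+* Ω) (Q : Polynomial L) (hQ : Q ≠ 0) (y : Ω)
    (hy : Q.eval₂ β y = 0) (s : Finset Ω)
    (hconj : ∀ z ∈ s, ∃ τ : Ω →+* Ω, (∀ l, τ (β l) = β l) ∧ τ y = z) :
    (∀ z ∈ s, Q.eval₂ β z = 0) ∧ s.card ≤ Q.natDegree := by
  have hroot : ∀ z ∈ s, Q.eval₂ β z = 0 := by
    intro z hz
    obtain ⟨τ, hτ, rfl⟩ := hconj z hz
    have h1 := Polynomial.hom_eval₂ Q β τ y
    rw [hy, map_zero] at h1
    have h2 : τ.comp β = β := RingHom.ext hτ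
    rw [h2] at h1
    exact h1.symm
  refine ⟨hroot, ?_⟩
  have hQ' : Q.map β ≠ 0 := (Polynomial.map_ne_zero_iff β.injective).mpr hQ
  have hsub : s.val ⊆ (Q.map β).roots := by
    intro z hz
    rw [Polynomial.mem_roots hQ', Polynomial.IsRoot.def, Polynomial.eval_map]
    exact hroot z (Finset.mem_def.mpr hz)
  have h := Polynomial.card_le_degree_of_subset_roots hsub
  rwa [Polynomial.natDegree_map] at h

/-- a monic polynomial with a root `y` whose conjugates under automorphisms fixing the base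
are at least `deg - 1` many is irreducible or splits off a linear factor. -/
theorem tow_irred_or (β : L →+* Ω) (P : Polynomial L) (hP : P.Monic) (y : Ω)
    (hy : P.eval₂ β y = 0) (s : Finset Ω) (hs : P.natDegree ≤ s.card + 1)
    (hconj : ∀ z ∈ s, ∃ τ : Ω →+* Ω, (∀ l, τ (β l) = β l) ∧ τ y = z) :
    Irreducible P ∨ ∃ (c : L) (Q : Polynomial L), P = Q * (X - C c) ∧ Q.Monic ∧
      Q.natDegree = s.card ∧ ∀ z ∈ s, Q.eval₂ β z = 0 := by
  let _ : Algebra L Ω := β.toAlgebra
  have hint : IsIntegral L y := ⟨P, hP, hy⟩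
  have hmirr : Irreducible (minpoly L y) := minpoly.irreducible hint
  have hmmon : (minpoly L y).Monic := minpoly.monic hint
  have hmy : (minpoly L y).eval₂ β y = 0 := minpoly.aeval L y
  obtain ⟨hroot, hcard⟩ := tow_conj_card β (minpoly L y) (minpoly.ne_zero hint) y hmy s hconj
  have hdvd : minpoly L y ∣ P := minpoly.dvd L y hy
  obtain ⟨R, hR⟩ := hdvd
  have hRmon : R.Monic := hmmon.of_mul_monic_left (hR ▸ hP)
  have hdeg : P.natDegree = (minpoly L y).natDegree + R.natDegree := by
    rw [hR, Polynomial.natDegree_mul hmmon.ne_zero hRmon.ne_zero]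
  have hRdeg : R.natDegree ≤ 1 := by omega
  rcases Nat.lt_or_ge R.natDegree 1 with h0 | h1
  · left
    have hR1 : R = 1 := by
      have h00 : R.natDegree = 0 := by omega
      rw [Polynomial.eq_C_of_natDegree_eq_zero h00] at hRmon ⊢
      have hlc : (C (R.coeff 0)).leadingCoeff = 1 := hRmon
      rw [Polynomial.leadingCoeff_C] at hlc
      rw [hlc, Polynomial.C_1]
    rw [hR, hR1, mul_one]
    exact hmirr
  · right
    have hR1 : R.natDegree = 1 := le_antisymm hRdeg h1
    have hRform := Polynomial.eq_X_add_C_of_natDegree_le_one hRdeg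
    have hlead : R.coeff 1 = 1 := by
      have := hRmon.coeff_natDegree
      rwa [hR1] at this
    refine ⟨-(R.coeff 0), minpoly L y, ?_, hmmon, by omega, hroot⟩
    rw [hR]
    congr 1
    rw [hRform, hlead]
    simp [sub_eq_add_neg]

/-- a monic polynomial with a root `y` having `deg` many conjugates is irreducible. -/
theorem tow_irred (β : L →+* Ω) (P : Polynomial L) (hP : P.Monic) (y : Ω)
    (hy : P.eval₂ β y = 0) (s : Finset Ω) (hs : P.natDegree ≤ s.card)
    (hconj : ∀ z ∈ s, ∃ τ : Ω →+* Ω, (∀ l, τ (β l) = β l) ∧ τ y = z) :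
    Irreducible P := by
  rcases tow_irred_or β P hP y hy s (by omega) hconj with h | ⟨c, Q, hPQ, hQm, hQd, -⟩
  · exact h
  · exfalso
    have hdeg : P.natDegree = Q.natDegree + 1 := by
      rw [hPQ, Polynomial.natDegree_mul hQm.ne_zero (Polynomial.X_sub_C_ne_zero c),
        Polynomial.natDegree_X_sub_C]
    omega

/-- a monic polynomial of degree `card s` vanishing on `s` has no other root -/
theorem tow_root_mem (Q : Polynomial Ω) (hQ : Q.Monic) (s : Finset Ω)
    (hdeg : Q.natDegree = s.card) (hs : ∀ z ∈ s, Q.eval z = 0) {x : Ω} (hx : Q.eval x = 0) :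
    x ∈ s := by
  classical
  by_contra hxs
  have hsub : (insert x s).val ⊆ Q.roots := by
    intro z hz
    rw [Polynomial.mem_roots hQ.ne_zero, Polynomial.IsRoot.def]
    have hz' : z ∈ insert x s := Finset.mem_def.mpr hz
    rcases Finset.mem_insert.mp hz' with rfl | hzs
    · exact hx
    · exact hs z hzs
  have h := Polynomial.card_le_degree_of_subset_roots hsub
  rw [Finset.card_insert_of_notMem hxs] at h
  omega

end FieldTheory

section Lattice

variable (k : Type u) [Field k]

/-- `E₀ = k(J)` inside `k((q))` -/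
abbrev towE : IntermediateField k (LaurentSeries k) :=
  IntermediateField.adjoin k {jqModC k}

/-- `J` as an element of `E₀` -/
def towJ : towE k := ⟨jqModC k, IntermediateField.mem_adjoin_simple_self k _⟩

/-- the reduction of the integral lattice `ℤ[J_d : d ∣ M]` -/
def towA (M : ℕ) : Set (LaurentSeries k) :=
  (fun b => coeffMap (Int.castRingHom k) b) '' (igA M : Set (LaurentSeries ℤ))

/-- the `E₀`-span of the reduced lattice -/
def towW (M : ℕ) : Submodule (towE k) (LaurentSeries k) :=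
  Submodule.span (towE k) (towA k M)

/-- the generators `J(q^d)`, `d ∣ M` -/
def towG (M : ℕ) : Set (LaurentSeries k) := {x | ∃ d : ℕ, d ∣ M ∧ x = towS k 1 d}

variable {k}

/-- `TowPhi` in terms of `towS` -/
theorem towPhi_towId {p : ℕ} [NeZero p] (h : TowPhi k p) :
    ∃ (Φ : Polynomial (Polynomial k)) (ζ : k), TowId Φ ζ p := by
  obtain ⟨Φ, ζ, hζ, hmon, hid⟩ := h
  refine ⟨Φ, ζ, hmon, hζ, ?_⟩
  have hp2 : NeZero (p ^ 2) := ⟨pow_ne_zero 2 (NeZero.ne p)⟩
  rw [towS_one_eq, towS_one_eq, ← towEv_eq_aeval, hid]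
  congr 1
  refine Finset.prod_congr rfl (fun b _ => ?_)
  rw [towS_eta_one]

end Lattice

end Fermat.Agent.IG
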