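import Mathlib
import Fermat.Agent.Lib.IG_TowBase

set_option autoImplicit false

/-!
# S28 (Igusa) tower, leaf (P3): the abstract adjunction step (helper1)

`tow_adjoin` : given a finite extension `L` of `E₀ = k(J)` with its true embedding `α` and a
twisted embedding `β` into `k((q))`, and a monic irreducible `g ∈ L[X]` with a root `x` along `α`
and a root `y` along `β`, the field `L' = L[X]/(g)` carries extensions `α'`, `β'` sending the
new generator to `x`, `y`, and `[L' : E₀] = [L : E₀] * deg g`.
-/

noncomputable section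

namespace Fermat.Agent.IG

open ModularCurve Polynomial

universe u

variable {k : Type u} [Field k]

theorem tow_adjoin {L : Type u} [Field L] [Algebra (towE k) L] [Module.Finite (towE k) L]
    (α : L →ₐ[towE k] LaurentSeries k) (β : L →+* LaurentSeries k)
    (g : Polynomial L) (hg : Irreducible g) (hm : g.Monic) (x y : LaurentSeries k)
    (hx : g.eval₂ (α : L →+* LaurentSeries k) x = 0) (hy : g.eval₂ β y = 0) :
    ∃ (L' : Type u) (_ : Field L') (_ : Algebra (towE k) L') (_ : Module.Finite (towE k) L')
      (α' : L' →ₐ[towE k] LaurentSeries k) (β' : L' →+* LaurentSeries k) (ι : L →+* L') (r : L'),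
      Module.finrank (towE k) L' = Module.finrank (towE k) L * g.natDegree ∧ α' r = x ∧
        β' r = y ∧ (∀ l, α' (ι l) = α l) ∧ (∀ l, β' (ι l) = β l) ∧
        (∀ e : towE k, algebraMap (towE k) L' e = ι (algebraMap (towE k) L e)) ∧
        (∀ z : L', ∃ P : Polynomial L,
          α' z = P.eval₂ (α : L →+* LaurentSeries k) x ∧ β' z = P.eval₂ β y) := by
  have : Fact (Irreducible g) := ⟨hg⟩
  have hfin : Module.Finite L (AdjoinRoot g) := (AdjoinRoot.powerBasis hg.ne_zero).finite
  have hfin' : Module.Finite (towE k) (AdjoinRoot g) := Module.Finite.trans L (AdjoinRoot g)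
  refine ⟨AdjoinRoot g, inferInstance, inferInstance, hfin',
    AdjoinRoot.liftAlgHom g α x hx, AdjoinRoot.lift β y hy, AdjoinRoot.of g, AdjoinRoot.root g,
    ?_, ?_, ?_, ?_, ?_, ?_, ?_⟩
  · have hf1 : Module.Free (towE k) L := Module.Free.of_divisionRing (towE k) L
    have hf2 : Module.Free L (AdjoinRoot g) := Module.Free.of_divisionRing L (AdjoinRoot g)
    rw [← Module.finrank_mul_finrank (towE k) L (AdjoinRoot g),
      (AdjoinRoot.powerBasis hg.ne_zero).finrank, AdjoinRoot.powerBasis_dim]
  · exact AdjoinRoot.liftAlgHom_root g α x hx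
  · exact AdjoinRoot.lift_root hy
  · intro l
    exact AdjoinRoot.liftAlgHom_of g α x hx l
  · intro l
    exact AdjoinRoot.lift_of hy
  · intro e
    rfl
  · intro z
    induction z using AdjoinRoot.induction_on with
    | ih P => exact ⟨P, rfl, AdjoinRoot.lift_mk hy P⟩

end Fermat.Agent.IG
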