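import Mathlib
import Fermat.Prelude.Def_ModularCurve_X0ModL
import Fermat.Agent.Lib.IG_Defs
import Fermat.Agent.Lib.IG_TowDefs
import Fermat.Agent.Lib.IG_TowBase

set_option autoImplicit false

/-!
# S28 (Igusa) tower: tracking the conjugates of `J(q^d)` (helper4)

* `towTr_irred`   : prime level: `Φ(X, J)` is irreducible over `k(J)` as soon as
  `J(q^p) ∉ k(J)`
* `towTr_track`   : every ring hom `ε` on a ring containing the `J(q^d)`, `d ∣ M`, into a
  field containing `k((t))`, with `ε(J(q)) = J(t^n₀)`, sends `J(q^d)` to a series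
  `J(η t^(a e))` with `a d' = d`, `d' e = n₀`, `η^d' = 1`
* `towTr_not_mem` : `J(q^p) ∉ k(J(q^d) : d ∣ M)` for a prime `p ∤ M`
-/

noncomputable section

namespace Fermat.Agent.IG

open ModularCurve Polynomial

universe u

variable {k : Type u} [Field k]

/-- `r`-th roots of roots of unity exist in `k` as long as the order stays a divisor of `N` -/
theorem towTr_root_exists {ω : k} {N : ℕ} (hN : N ≠ 0) (hω : IsPrimitiveRoot ω N) {d r : ℕ}
    (hdr : d * r ∣ N) {η : k} (hη : η ^ d = 1) :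
    ∃ η' : k, η' ^ r = η ∧ η' ^ (d * r) = 1 := by
  obtain ⟨c, hc⟩ := hdr
  have hd : d ≠ 0 := by
    rintro rfl
    simp at hc
    exact hN hc
  have hr : r ≠ 0 := by
    rintro rfl
    simp at hc
    exact hN hc
  have h1 : IsPrimitiveRoot (ω ^ c) (d * r) :=
    hω.pow (Nat.pos_of_ne_zero hN) (by rw [hc]; ring)
  have h2 : IsPrimitiveRoot ((ω ^ c) ^ r) d :=
    h1.pow (Nat.pos_of_ne_zero (mul_ne_zero hd hr)) (by ring)
  have : NeZero d := ⟨hd⟩
  obtain ⟨i, -, hi⟩ := h2.eq_pow_of_pow_eq_one hη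
  refine ⟨(ω ^ c) ^ i, ?_, ?_⟩
  · rw [← hi]
    exact pow_right_comm _ _ _
  · rw [pow_right_comm, h1.pow_eq_one, one_pow]

/-- a root of a product of linear factors is one of the listed roots -/
theorem towTr_root_of_prod {Ωb : Type*} [Field Ωb] (ι : LaurentSeries k →+* Ωb)
    (s₀ : LaurentSeries k) (p : ℕ) (s : ℕ → LaurentSeries k) (y : Ωb)
    (hy : (((X - C s₀) * ∏ b ∈ Finset.range p, (X - C (s b))).map ι).eval y = 0) :
    y = ι s₀ ∨ ∃ b < p, y = ι (s b) := by
  rw [Polynomial.map_mul, Polynomial.eval_mul, Polynomial.map_sub, Polynomial.map_X,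
    Polynomial.map_C, Polynomial.eval_sub, Polynomial.eval_X, Polynomial.eval_C,
    Polynomial.map_prod, Polynomial.eval_prod] at hy
  rcases mul_eq_zero.mp hy with h | h
  · left
    exact sub_eq_zero.mp h
  · right
    obtain ⟨b, hb, hb0⟩ := Finset.prod_eq_zero_iff.mp h
    rw [Polynomial.map_sub, Polynomial.map_X, Polynomial.map_C, Polynomial.eval_sub,
      Polynomial.eval_X, Polynomial.eval_C] at hb0
    exact ⟨b, Finset.mem_range.mp hb, sub_eq_zero.mp hb0⟩

/-- the relation `Φ(J(q^(m r)), J(q^m)) = 0` transported to a ring `A` mapping injectively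
to `k((q))` -/
theorem towTr_rel {A : Type*} [CommRing A] (α : A →+* LaurentSeries k)
    (hα : Function.Injective α) (c : k →+* A)
    (hαc : ∀ r, α (c r) = algebraMap k (LaurentSeries k) r)
    {Φ : Polynomial (Polynomial k)} {ζ : k} {r : ℕ} (hr : r ≠ 0) (hT : TowId Φ ζ r)
    {m : ℕ} (hm : m ≠ 0) (xm xd : A) (hxm : α xm = towS k 1 m)
    (hxd : α xd = towS k 1 (m * r)) :
    Φ.eval₂ (Polynomial.eval₂RingHom c xm) xd = 0 := by
  apply hα
  rw [map_zero, Polynomial.hom_eval₂, towEv_comp c xm α hαc, hxm, hxd]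
  exact tow_rel hr hT hm

/-- **Tracking.** A ring hom `ε` on a ring containing the `J(q^d)`, `d ∣ M`, with values in a
field containing `k((t))`, which sends `J(q)` to `J(t^n₀)` (`M ∣ n₀`), sends `J(q^d)` to a
series `J(η t^(a e))` with `a d' = d`, `d' e = n₀` and `η^d' = 1`. -/
theorem towTr_track {A : Type*} [CommRing A] {Ωb : Type*} [Field Ωb]
    (α : A →+* LaurentSeries k) (hα : Function.Injective α)
    (ι : LaurentSeries k →+* Ωb) (ε : A →+* Ωb) (c : k →+* A)
    (hαc : ∀ r, α (c r) = algebraMap k (LaurentSeries k) r)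
    (hεc : ∀ r, ε (c r) = ι (algebraMap k (LaurentSeries k) r))
    (M n₀ : ℕ) (hMn : M ∣ n₀) (hn₀ : n₀ ≠ 0)
    (N : ℕ) (hN : N ≠ 0) (hMN : M ∣ N) (ω : k) (hω : IsPrimitiveRoot ω N)
    (hΦ : ∀ r : ℕ, r.Prime → r ∣ M →
      ∃ (Φ : Polynomial (Polynomial k)) (ζ : k), TowId Φ ζ r)
    (x : ℕ → A) (hx : ∀ d, d ∣ M → α (x d) = towS k 1 d)
    (h1 : ε (x 1) = ι (towS k 1 n₀)) :
    ∀ d, d ∣ M → ∃ (a d' e : ℕ) (η : k), a * d' = d ∧ d' * e = n₀ ∧ η ^ d' = 1 ∧
      ε (x d) = ι (towS k η (a * e)) := by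
  have hM : M ≠ 0 := by
    rintro rfl
    exact hn₀ (zero_dvd_iff.mp hMn)
  intro d
  induction d using Nat.strong_induction_on with
  | _ d ih =>
  intro hd
  have hd0 : d ≠ 0 := by
    rintro rfl
    exact hM (zero_dvd_iff.mp hd)
  by_cases hd1 : d = 1
  · subst hd1
    exact ⟨1, 1, n₀, 1, by simp, by simp, by simp, by simpa using h1⟩
  -- `d = m * r` with `r` prime
  have hrp : (d.minFac).Prime := Nat.minFac_prime hd1
  obtain ⟨m, hm⟩ := Nat.minFac_dvd d
  set r := d.minFac with hrdef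
  have hr0 : r ≠ 0 := hrp.ne_zero
  have hm0 : m ≠ 0 := by
    rintro rfl
    rw [mul_zero] at hm
    exact hd0 hm
  have hdm : d = m * r := by rw [hm, mul_comm]
  have hmd : m < d := by
    rw [hdm]
    exact lt_mul_of_one_lt_right (Nat.pos_of_ne_zero hm0) hrp.one_lt
  have hmM : m ∣ M := dvd_trans ⟨r, hdm⟩ hd
  have hrM : r ∣ M := dvd_trans ⟨m, hm⟩ hd
  obtain ⟨a, d', e, η, had, hde, hη, hε⟩ := ih m hmd hmM
  have hd'0 : d' ≠ 0 := by
    rintro rfl
    rw [mul_zero] at had
    exact hm0 had.symm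
  have ha0 : a ≠ 0 := by
    rintro rfl
    rw [zero_mul] at had
    exact hm0 had.symm
  -- `d' * r ∣ M`
  have hd'rM : d' * r ∣ M := by
    refine dvd_trans ?_ hd
    rw [hdm, ← had]
    exact ⟨a, by ring⟩
  have hd'rn : d' * r ∣ n₀ := dvd_trans hd'rM hMn
  have hd'rN : d' * r ∣ N := dvd_trans hd'rM hMN
  obtain ⟨f, hf⟩ := hd'rn
  have hef : e = r * f := by
    have h2 : d' * e = d' * (r * f) := by rw [hde, hf]; ring
    exact Nat.eq_of_mul_eq_mul_left (Nat.pos_of_ne_zero hd'0) h2
  have hf0 : f ≠ 0 := by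
    rintro rfl
    rw [mul_zero] at hf
    exact hn₀ hf
  obtain ⟨η', hη'r, hη'1⟩ := towTr_root_exists hN hω hd'rN hη
  have hη'0 : η' ≠ 0 := by
    rintro rfl
    rw [zero_pow (mul_ne_zero hd'0 hr0)] at hη'1
    exact zero_ne_one hη'1
  obtain ⟨Φ, ζ, hT⟩ := hΦ r hrp hrM
  have hζr : ζ ^ r = 1 := hT.2.1.pow_eq_one
  -- the relation in `A`, pushed to `Ωb`
  have hrelA := towTr_rel α hα c hαc hr0 hT hm0 (x m) (x d) (hx m hmM)
    (by rw [hx d hd, hdm])
  have hrelΩ := congrArg ε hrelA
  rw [map_zero, Polynomial.hom_eval₂] at hrelΩ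
  have hcomp : ε.comp (Polynomial.eval₂RingHom c (x m)) =
      ι.comp (towEv (towS k η (a * e))) := by
    apply Polynomial.ringHom_ext
    · intro s
      simp [towEv, hεc]
    · simp [towEv, hε]
  rw [hcomp, ← Polynomial.eval₂_map, ← Polynomial.eval_map] at hrelΩ
  -- the explicit roots
  have hroots := tow_roots hr0 hT η' hη'0 (m := a * f) (mul_ne_zero ha0 hf0)
  have hS : towS k η (a * e) = towS k (η' ^ r) (a * f * r) := by
    rw [hη'r, hef]
    congr 1
    ring
  rw [hS, hroots] at hrelΩ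
  rcases towTr_root_of_prod ι _ r _ _ hrelΩ with h | ⟨b, -, h⟩
  · refine ⟨a * r, d', e, η ^ r, ?_, hde, ?_, ?_⟩
    · rw [hdm, ← had]
      ring
    · rw [← pow_mul, mul_comm, pow_mul, hη, one_pow]
    · rw [h]
      congr 2
      · rw [← hη'r, ← pow_mul, pow_two]
      · rw [hef]
        ring
  · refine ⟨a, d' * r, f, η' * ζ ^ b, ?_, hf.symm, ?_, ?_⟩
    · rw [hdm, ← had]
      ring
    · rw [mul_pow, hη'1, one_mul, ← pow_mul, mul_comm b, mul_comm d' r, pow_mul, pow_mul, hζr,
        one_pow, one_pow]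
    · exact h

section Prime

variable (k)

/-- evaluation `k[Y] →+* k(J)`, `Y ↦ J` -/
def towTrEv : Polynomial k →+* towE k :=
  Polynomial.eval₂RingHom (algebraMap k (towE k)) (towJ k)

variable {k}

theorem towTr_val_comp (θ : LaurentSeries k →+* LaurentSeries k)
    (hθ : ∀ r, θ (algebraMap k (LaurentSeries k) r) = algebraMap k (LaurentSeries k) r) :
    (θ.comp (algebraMap (towE k) (LaurentSeries k))).comp (towTrEv k) =
      towEv (θ (jqModC k)) := by
  apply Polynomial.ringHom_ext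
  · intro r
    simp only [towTrEv, towEv, RingHom.comp_apply, Polynomial.coe_eval₂RingHom,
      Polynomial.eval₂_C]
    exact hθ r
  · simp only [towTrEv, towEv, RingHom.comp_apply, Polynomial.coe_eval₂RingHom,
      Polynomial.eval₂_X]
    rfl

/-- the only root of `Φ(X, J(q))` in `k((q))` is `J(q^p)` -/
theorem towTr_root_base {Φ : Polynomial (Polynomial k)} {ζ : k} {p : ℕ} (hp : p.Prime)
    (hT : TowId Φ ζ p) (z : LaurentSeries k)
    (hz : Φ.eval₂ (towEv (towS k 1 1)) z = 0) : z = towS k 1 p := by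
  have hp0 : p ≠ 0 := hp.ne_zero
  have h := congrArg (towQ k p) hz
  rw [map_zero, Polynomial.hom_eval₂,
    towEv_comp' (towS k 1 1) (towQ k p) (fun r => towQ_algebraMap p r),
    towQ_towS hp0 one_ne_zero, mul_one, ← Polynomial.eval_map] at h
  have hroots := tow_roots hp0 hT 1 one_ne_zero (m := 1) one_ne_zero
  rw [one_pow, one_pow, one_mul, one_mul] at hroots
  rw [hroots] at h
  have h' : (((X - C (towS k 1 (p ^ 2))) *
      ∏ b ∈ Finset.range p, (X - C (towS k (1 * ζ ^ b) 1))).map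
        (RingHom.id (LaurentSeries k))).eval (towQ k p z) = 0 := by
    rw [Polynomial.map_id]
    exact h
  rcases towTr_root_of_prod (RingHom.id _) _ p _ _ h' with h1 | ⟨b, -, h1⟩
  · apply towQ_injective hp0
    rw [h1, RingHom.id_apply, towQ_towS hp0 hp0, pow_two]
  · exfalso
    rw [RingHom.id_apply] at h1
    have hζ0 : ζ ≠ 0 := hT.2.1.ne_zero hp0
    exact towS_not_mem_range hp0 one_ne_zero (by
      intro h2
      exact hp.one_lt.ne' (Nat.dvd_one.mp h2)) (1 * ζ ^ b)
      (mul_ne_zero one_ne_zero (pow_ne_zero b hζ0)) z h1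

/-- **Prime level.** `Φ(X, J)` is irreducible over `k(J)` as soon as `J(q^p) ∉ k(J)`. -/
theorem towTr_irred {Φ : Polynomial (Polynomial k)} {ζ : k} {p : ℕ} (hp : p.Prime)
    (hT : TowId Φ ζ p) (hnm : towS k 1 p ∉ towE k) :
    Irreducible (Φ.map (towTrEv k)) := by
  classical
  have hp0 : p ≠ 0 := hp.ne_zero
  have hζ : IsPrimitiveRoot ζ p := hT.2.1
  have hζ0 : ζ ≠ 0 := hζ.ne_zero hp0
  have hmon : (Φ.map (towTrEv k)).Monic := hT.1.map _
  set β : towE k →+* LaurentSeries k :=
    (towQ k p).comp (algebraMap (towE k) (LaurentSeries k)) with hβ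
  have hβev : β.comp (towTrEv k) = towEv (towS k 1 p) := by
    rw [hβ, towTr_val_comp (towQ k p) (fun r => towQ_algebraMap p r)]
    congr 1
    rw [towS, igTwL_one_apply]
  have hid := hT.2.2
  -- `J(t)` is a root
  have hy : (Φ.map (towTrEv k)).eval₂ β (towS k 1 1) = 0 := by
    rw [Polynomial.eval₂_map, hβev, ← Polynomial.eval_map, hid, Polynomial.eval_mul,
      Polynomial.eval_prod,
      Finset.prod_eq_zero (Finset.mem_range.mpr hp.pos) (by simp), mul_zero]
  set s : Finset (LaurentSeries k) :=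
    (Finset.range p).image (fun b => towS k (ζ ^ b) 1) with hs
  have hinj : Set.InjOn (fun b => towS k (ζ ^ b) 1) (Finset.range p : Set ℕ) := by
    intro b hb b' hb' h
    exact hζ.pow_inj (Finset.mem_range.mp hb) (Finset.mem_range.mp hb')
      (towS_inj one_ne_zero h)
  have hcard : s.card = p := by
    rw [hs, Finset.card_image_of_injOn hinj, Finset.card_range]
  have hdeg : (Φ.map (towTrEv k)).natDegree = p + 1 := by
    rw [hT.1.natDegree_map, towId_natDegree hT]
  have hconj : ∀ z ∈ s, ∃ τ : LaurentSeries k →+* LaurentSeries k,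
      (∀ l, τ (β l) = β l) ∧ τ (towS k 1 1) = z := by
    intro z hz
    obtain ⟨b, -, rfl⟩ := Finset.mem_image.mp hz
    refine ⟨igTw (ζ ^ b) (pow_ne_zero b hζ0), ?_, ?_⟩
    · intro l
      have h1 : igTw (ζ ^ b) (pow_ne_zero b hζ0) (β l) = igTwL (ζ ^ b) (β l) := rfl
      rw [h1, hβ, RingHom.comp_apply, igTwL_towQ _ hp0, ← pow_mul, mul_comm, pow_mul,
        hζ.pow_eq_one, one_pow, igTwL_one_apply]
    · have h1 : igTw (ζ ^ b) (pow_ne_zero b hζ0) (towS k 1 1) = igTwL (ζ ^ b) (towS k 1 1) := rfl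
      rw [h1, igTwL_towS _ _ one_ne_zero, pow_one, mul_one]
  rcases tow_irred_or β (Φ.map (towTrEv k)) hmon (towS k 1 1) hy s (by rw [hdeg, hcard]) hconj
    with h | ⟨c, Q, hPQ, hQm, hQd, hQs⟩
  · exact h
  · exfalso
    apply hnm
    -- evaluate at `J(t^(p^2))`
    have hz0 : (Φ.map (towTrEv k)).eval₂ β (towS k 1 (p ^ 2)) = 0 := by
      rw [Polynomial.eval₂_map, hβev, ← Polynomial.eval_map, hid, Polynomial.eval_mul,
        Polynomial.eval_sub, Polynomial.eval_X, Polynomial.eval_C, sub_self, zero_mul]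
    rw [hPQ, Polynomial.eval₂_mul, Polynomial.eval₂_sub, Polynomial.eval₂_X,
      Polynomial.eval₂_C] at hz0
    rcases mul_eq_zero.mp hz0 with h0 | h0
    · exfalso
      have hQm' : (Q.map β).Monic := hQm.map β
      have hmem := tow_root_mem (Q.map β) hQm' s (by rw [hQm.natDegree_map, hQd])
        (fun z hz => by rw [Polynomial.eval_map]; exact hQs z hz)
        (x := towS k 1 (p ^ 2)) (by rw [Polynomial.eval_map]; exact h0)
      obtain ⟨b, -, hb⟩ := Finset.mem_image.mp hmem
      have h1lt : 1 < p ^ 2 := Nat.one_lt_pow (by norm_num) hp.one_lt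
      exact towS_ne_of_lt one_ne_zero h1lt (ζ ^ b) 1 one_ne_zero hb
    · have h1 : towQ k p (towS k 1 p) = towQ k p (c : LaurentSeries k) := by
        rw [towQ_towS hp0 hp0, ← pow_two]
        exact sub_eq_zero.mp h0
      rw [towQ_injective hp0 h1]
      exact c.2

end Prime

section Main

/-- `J(q^d)` is integral over `k(J)` -/
theorem towTr_integral (M : ℕ) (hM : M ≠ 0)
    (hΦ : ∀ r : ℕ, r.Prime → r ∣ M →
      ∃ (Φ : Polynomial (Polynomial k)) (ζ : k), TowId Φ ζ r) :
    ∀ d, d ∣ M → IsIntegral (towE k) (towS k 1 d) := by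
  intro d
  induction d using Nat.strong_induction_on with
  | _ d ih =>
  intro hd
  have hd0 : d ≠ 0 := by
    rintro rfl
    exact hM (zero_dvd_iff.mp hd)
  by_cases hd1 : d = 1
  · subst hd1
    rw [towS_one_one]
    exact isIntegral_algebraMap (x := towJ k)
  have hrp : (d.minFac).Prime := Nat.minFac_prime hd1
  obtain ⟨m, hm⟩ := Nat.minFac_dvd d
  set r := d.minFac with hrdef
  have hr0 : r ≠ 0 := hrp.ne_zero
  have hm0 : m ≠ 0 := by
    rintro rfl
    rw [mul_zero] at hm
    exact hd0 hm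
  have hdm : d = m * r := by rw [hm, mul_comm]
  have hmd : m < d := by
    rw [hdm]
    exact lt_mul_of_one_lt_right (Nat.pos_of_ne_zero hm0) hrp.one_lt
  have hmM : m ∣ M := dvd_trans ⟨r, hdm⟩ hd
  have hrM : r ∣ M := dvd_trans ⟨m, hm⟩ hd
  have ihm := ih m hmd hmM
  obtain ⟨Φ, ζ, hT⟩ := hΦ r hrp hrM
  set IC := integralClosure (towE k) (LaurentSeries k) with hIC
  set xm : IC := ⟨towS k 1 m, ihm⟩ with hxm
  set c : k →+* IC := (algebraMap (towE k) IC).comp (algebraMap k (towE k)) with hc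
  have hint : IsIntegral IC (towS k 1 d) := by
    refine ⟨Φ.map (Polynomial.eval₂RingHom c xm), hT.1.map _, ?_⟩
    rw [Polynomial.eval₂_map,
      towEv_comp c xm (algebraMap IC (LaurentSeries k)) (fun s => rfl), hdm]
    exact tow_rel hr0 hT hm0
  exact isIntegral_trans (R := towE k) (A := IC) _ hint

/-- **(nm_M).** `J(q^p)` is not in `k(J(q^d) : d ∣ M)` for a prime `p ∤ M`. -/
theorem towTr_not_mem (M : ℕ) (hM : M ≠ 0) (p : ℕ) (hp : p.Prime) (hpM : ¬ p ∣ M)
    (N : ℕ) (hN : N ≠ 0) (hMN : M ∣ N) (ω : k) (hω : IsPrimitiveRoot ω N)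
    (hΦ : ∀ r : ℕ, r.Prime → r ∣ M →
      ∃ (Φ : Polynomial (Polynomial k)) (ζ : k), TowId Φ ζ r)
    (hΦp : ∃ (Φ : Polynomial (Polynomial k)) (ζ : k), TowId Φ ζ p)
    (hnm : towS k 1 p ∉ towE k) :
    towS k 1 p ∉ IntermediateField.adjoin k (towG k M) := by
  intro hmem
  obtain ⟨Φ, ζ, hT⟩ := hΦp
  have hp0 : p ≠ 0 := hp.ne_zero
  -- pass to the adjunction over `E₀ = k(J)`
  have hmem' : towS k 1 p ∈ IntermediateField.adjoin (towE k) (towG k M) := by
    refine IntermediateField.adjoin_induction (F := k) (s := towG k M)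
      (p := fun x _ => x ∈ IntermediateField.adjoin (towE k) (towG k M))
      (fun x hx => IntermediateField.subset_adjoin _ _ hx)
      (fun x => ?_) (fun x y _ _ hx hy => add_mem hx hy) (fun x _ hx => inv_mem hx)
      (fun x y _ _ hx hy => mul_mem hx hy) hmem
    exact (IntermediateField.adjoin (towE k) (towG k M)).algebraMap_mem
      (algebraMap k (towE k) x)
  -- the algebraic closure of `k((t))`, an `E₀`-algebra via `J ↦ J(t^(M p))`
  set Ωb := AlgebraicClosure (LaurentSeries k) with hΩb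
  set ι : LaurentSeries k →+* Ωb := algebraMap (LaurentSeries k) Ωb with hι
  set φ₀ : towE k →+* Ωb :=
    ι.comp ((towQ k (M * p)).comp (algebraMap (towE k) (LaurentSeries k))) with hφ₀
  let _ : Algebra (towE k) Ωb := φ₀.toAlgebra
  have hφ₀ev : φ₀.comp (towTrEv k) = ι.comp (towEv (towS k 1 (M * p))) := by
    rw [hφ₀, RingHom.comp_assoc,
      towTr_val_comp (towQ k (M * p)) (fun r => towQ_algebraMap (M * p) r)]
    congr 2
    rw [towS, igTwL_one_apply]
  -- the minimal polynomial of `J(q^p)` over `E₀`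
  have hirr := towTr_irred hp hT hnm
  have hev1 : (algebraMap (towE k) (LaurentSeries k)).comp (towTrEv k) =
      towEv (towS k 1 1) := by
    have h := towTr_val_comp (RingHom.id (LaurentSeries k)) (fun r => rfl)
    rw [RingHom.id_comp, RingHom.id_apply] at h
    rw [h, towS_one_one]
  have haeval : Polynomial.aeval (towS k 1 p) (Φ.map (towTrEv k)) = 0 := by
    rw [Polynomial.aeval_def, Polynomial.eval₂_map, hev1]
    have h := tow_rel hp0 hT (m := 1) one_ne_zero
    rwa [one_mul] at h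
  have hmin : Φ.map (towTrEv k) = minpoly (towE k) (towS k 1 p) :=
    minpoly.eq_of_irreducible_of_monic hirr haeval (hT.1.map _)
  -- `J(t^M)` is a root of it in `Ωb`
  have hy : Polynomial.aeval (ι (towS k 1 M)) (minpoly (towE k) (towS k 1 p)) = 0 := by
    rw [← hmin, Polynomial.aeval_def, Polynomial.eval₂_map]
    have h1 : (algebraMap (towE k) Ωb) = φ₀ := rfl
    rw [h1, hφ₀ev, ← Polynomial.hom_eval₂, ← Polynomial.eval_map]
    have hroots := tow_roots hp0 hT 1 one_ne_zero (m := M) hM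
    rw [one_pow] at hroots
    rw [hroots, Polynomial.eval_mul, Polynomial.eval_prod,
      Finset.prod_eq_zero (Finset.mem_range.mpr hp.pos) (by simp), mul_zero, map_zero]
  have hK : ∀ s ∈ towG k M, IsIntegral (towE k) s ∧
      ((minpoly (towE k) s).map (algebraMap (towE k) Ωb)).Splits := by
    rintro s ⟨d, hd, rfl⟩
    exact ⟨towTr_integral M hM hΦ d hd, IsAlgClosed.splits _⟩
  obtain ⟨ε, hε⟩ := IntermediateField.exists_algHom_adjoin_of_splits_of_aeval hK hmem' hy
  -- tracking
  set A := ↥(IntermediateField.adjoin (towE k) (towG k M)) with hA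
  set α : A →+* LaurentSeries k := algebraMap A (LaurentSeries k) with hα
  have hαinj : Function.Injective α := Subtype.val_injective
  set c : k →+* A := (algebraMap (towE k) A).comp (algebraMap k (towE k)) with hc
  have hεE : ∀ e : towE k, ε (algebraMap (towE k) A e) = φ₀ e := fun e => ε.commutes e
  have hεc : ∀ r, (ε : A →+* Ωb) (c r) = ι (algebraMap k (LaurentSeries k) r) := by
    intro r
    have h1 := hεE (algebraMap k (towE k) r)
    rw [hφ₀, RingHom.comp_apply, RingHom.comp_apply] at h1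
    have h2 : (algebraMap (towE k) (LaurentSeries k)) (algebraMap k (towE k) r) =
        algebraMap k (LaurentSeries k) r := rfl
    rw [h2, towQ_algebraMap] at h1
    exact h1
  classical
  set x : ℕ → A := fun d =>
    if h : d ∣ M then ⟨towS k 1 d, IntermediateField.subset_adjoin _ _ ⟨d, h, rfl⟩⟩ else 0
    with hx
  have hxα : ∀ d, d ∣ M → α (x d) = towS k 1 d := by
    intro d hd
    rw [hx]
    simp only [dif_pos hd]
    rfl
  have h1 : (ε : A →+* Ωb) (x 1) = ι (towS k 1 (M * p)) := by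
    have h2 : x 1 = algebraMap (towE k) A (towJ k) := by
      apply hαinj
      rw [hxα 1 (one_dvd M), towS_one_one]
      rfl
    rw [h2]
    have h3 := hεE (towJ k)
    rw [hφ₀, RingHom.comp_apply, RingHom.comp_apply] at h3
    have h4 : (algebraMap (towE k) (LaurentSeries k)) (towJ k) = jqModC k := rfl
    rw [h4] at h3
    rw [towS, igTwL_one_apply]
    exact h3
  have htrack := towTr_track α hαinj ι (ε : A →+* Ωb) c (fun r => rfl) hεc M (M * p)
    (dvd_mul_right M p) (mul_ne_zero hM hp0) N hN hMN ω hω hΦ x hxα h1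
  -- everything lands in the series in `t^p`
  have hrange : ∀ (z : LaurentSeries k)
      (hz : z ∈ IntermediateField.adjoin (towE k) (towG k M)),
      ε ⟨z, hz⟩ ∈ (ι.comp (towQ k p)).fieldRange := by
    intro z hz
    refine IntermediateField.adjoin_induction (F := towE k) (s := towG k M)
      (p := fun z hz => ε ⟨z, hz⟩ ∈ (ι.comp (towQ k p)).fieldRange)
      ?_ ?_ ?_ ?_ ?_ hz
    · rintro z ⟨d, hd, rfl⟩
      obtain ⟨a, d', e, η, had, hde, hη, hεd⟩ := htrack d hd
      have hxd : x d = ⟨towS k 1 d, IntermediateField.subset_adjoin _ _ ⟨d, hd, rfl⟩⟩ := by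
        rw [hx]
        simp only [dif_pos hd]
      rw [hxd] at hεd
      have hεd' : ε ⟨towS k 1 d, IntermediateField.subset_adjoin _ _ ⟨d, hd, rfl⟩⟩ =
          ι (towS k η (a * e)) := hεd
      rw [hεd']
      -- `p ∣ e`
      have hd'M : d' ∣ M := dvd_trans ⟨a, by rw [← had]; ring⟩ hd
      obtain ⟨g, hg⟩ := hd'M
      have hd'0 : d' ≠ 0 := by
        rintro rfl
        rw [zero_mul] at hg
        exact hM hg
      have heg : e = g * p := by
        have h2 : d' * e = d' * (g * p) := by rw [hde, hg]; ring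
        exact Nat.eq_of_mul_eq_mul_left (Nat.pos_of_ne_zero hd'0) h2
      have hg0 : g ≠ 0 := by
        rintro rfl
        rw [mul_zero] at hg
        exact hM hg
      have ha0 : a ≠ 0 := by
        rintro rfl
        rw [zero_mul] at had
        rw [← had] at hd
        exact hM (zero_dvd_iff.mp hd)
      refine ⟨towS k η (a * g), ?_⟩
      rw [RingHom.comp_apply, towQ_towS hp0 (mul_ne_zero ha0 hg0), heg]
      congr 2
      ring
    · intro e
      have h2 := hεE e
      have h3 : ε ⟨algebraMap (towE k) (LaurentSeries k) e,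
          (IntermediateField.adjoin (towE k) (towG k M)).algebraMap_mem e⟩ = φ₀ e := h2
      rw [h3, hφ₀]
      refine ⟨towQ k M (algebraMap (towE k) (LaurentSeries k) e), ?_⟩
      rw [RingHom.comp_apply, RingHom.comp_apply, RingHom.comp_apply,
        towQ_towQ hp0 hM, mul_comm p M]
    · intro z w hz hw hz' hw'
      have h2 : (⟨z + w, add_mem hz hw⟩ : A) = ⟨z, hz⟩ + ⟨w, hw⟩ := rfl
      rw [h2, map_add]
      exact add_mem hz' hw'
    · intro z hz hz'
      have h2 : (⟨z⁻¹, inv_mem hz⟩ : A) = (⟨z, hz⟩ : A)⁻¹ := rfl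
      rw [h2, map_inv₀]
      exact inv_mem hz'
    · intro z w hz hw hz' hw'
      have h2 : (⟨z * w, mul_mem hz hw⟩ : A) = ⟨z, hz⟩ * ⟨w, hw⟩ := rfl
      rw [h2, map_mul]
      exact mul_mem hz' hw'
  -- but `J(t^M)` is not a series in `t^p`
  have hfin := hrange (towS k 1 p) hmem'
  rw [hε] at hfin
  obtain ⟨z, hz⟩ := hfin
  rw [RingHom.comp_apply] at hz
  exact towS_not_mem_range hp0 hM hpM 1 one_ne_zero z (ι.injective hz)

end Main

end Fermat.Agent.IG
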