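import Mathlib
import Fermat.Prelude.Def_ModularCurve_X0ModL
import Fermat.Agent.Lib.IG_Defs
import Fermat.Agent.Lib.IG_TowDefs
import Fermat.Agent.Lib.IG_TowBase
import Fermat.Agent.Lib.IG_TowTrack

set_option autoImplicit false

/-!
# S28 (Igusa) tower, leaf (P2): `tow_indep` (helper4)

`J(q^p) ∉ E₀(J(q^d) : d ∣ M)` for a prime `p ∤ M`, in the shape consumed by `IG_Tower`
(a corollary of `towTr_not_mem`).
-/

noncomputable section

namespace Fermat.Agent.IG

open ModularCurve Polynomial

universe u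

variable {k : Type u} [Field k]

/-- irreducibility of `Φ(X, J)` over `k(J)` forces `J(q^p) ∉ k(J)` -/
theorem towTr_not_mem_of_irred {Φ : Polynomial (Polynomial k)} {ζ : k} {p : ℕ} (hp : p.Prime)
    (hΦ : TowId Φ ζ p)
    (hirr : Irreducible (Φ.map (Polynomial.eval₂RingHom (algebraMap k (towE k)) (towJ k)))) :
    towS k 1 p ∉ towE k := by
  intro hmem
  have hp0 : p ≠ 0 := hp.ne_zero
  set P := Φ.map (Polynomial.eval₂RingHom (algebraMap k (towE k)) (towJ k)) with hP
  have hev1 : (algebraMap (towE k) (LaurentSeries k)).comp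
      (Polynomial.eval₂RingHom (algebraMap k (towE k)) (towJ k)) = towEv (towS k 1 1) := by
    have h := towTr_val_comp (k := k) (RingHom.id (LaurentSeries k)) (fun r => rfl)
    rw [RingHom.id_comp, RingHom.id_apply] at h
    rw [towS_one_one]
    exact h
  have hroot : P.eval (⟨towS k 1 p, hmem⟩ : towE k) = 0 := by
    apply (algebraMap (towE k) (LaurentSeries k)).injective
    rw [map_zero, ← Polynomial.eval₂_at_apply, hP, Polynomial.eval₂_map, hev1]
    have h := tow_rel hp0 hΦ (m := 1) one_ne_zero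
    rwa [one_mul] at h
  have hdeg := Polynomial.degree_eq_one_of_irreducible_of_root hirr hroot
  have hnat : P.natDegree = p + 1 := by
    rw [hP, hΦ.1.natDegree_map, towId_natDegree hΦ]
  have h1 : P.natDegree = 1 := Polynomial.natDegree_eq_of_degree_eq_some hdeg
  have := hp.pos
  omega

/-- the adjunction over `E₀ = k(J)` is contained in the adjunction over `k` -/
theorem towTr_adjoin_le {M : ℕ} {z : LaurentSeries k}
    (hz : z ∈ IntermediateField.adjoin (towE k) (towG k M)) :
    z ∈ IntermediateField.adjoin k (towG k M) := by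
  have hJ : jqModC k ∈ towG k M := ⟨1, one_dvd M, towS_one_one.symm⟩
  have hE : towE k ≤ IntermediateField.adjoin k (towG k M) :=
    IntermediateField.adjoin.mono k _ _ (Set.singleton_subset_iff.mpr hJ)
  refine IntermediateField.adjoin_induction (F := towE k) (s := towG k M)
    (p := fun x _ => x ∈ IntermediateField.adjoin k (towG k M))
    (fun x hx => IntermediateField.subset_adjoin _ _ hx)
    (fun x => hE x.2) (fun x y _ _ hx hy => add_mem hx hy) (fun x _ hx => inv_mem hx)
    (fun x y _ _ hx hy => mul_mem hx hy) hz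

/-- **(P2).** `J(q^p) ∉ E₀(J(q^d) : d ∣ M)` for a prime `p ∤ M` with `p * M ∣ N`. -/
theorem tow_indep {N : ℕ} (hN : N ≠ 0) {ω : k} (hω : IsPrimitiveRoot ω N)
    (hT : ∀ p' : ℕ, p'.Prime → p' ∣ N →
      ∃ (Φ' : Polynomial (Polynomial k)) (ζ' : k), TowId Φ' ζ' p')
    {p M : ℕ} (hp : p.Prime) (hpM : ¬ p ∣ M) (hpMN : p * M ∣ N)
    {Φ : Polynomial (Polynomial k)} {ζ : k} (hΦ : TowId Φ ζ p)
    (hirr : Irreducible (Φ.map (Polynomial.eval₂RingHom (algebraMap k (towE k)) (towJ k)))) :
    towS k 1 p ∉ IntermediateField.adjoin (towE k) (towG k M) := by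
  intro hmem
  have hMN : M ∣ N := dvd_trans (dvd_mul_left M p) hpMN
  have hM : M ≠ 0 := by
    rintro rfl
    exact hN (zero_dvd_iff.mp hMN)
  exact towTr_not_mem M hM p hp hpM N hN hMN ω hω
    (fun r hr hrM => hT r hr (dvd_trans hrM hMN)) ⟨Φ, ζ, hΦ⟩
    (towTr_not_mem_of_irred hp hΦ hirr) (towTr_adjoin_le hmem)

end Fermat.Agent.IG
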