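import Mathlib
import Fermat.Prelude.Def_ModularCurve_X0ModL
import Fermat.Agent.Lib.IG_Defs
import Fermat.Agent.Lib.IG_TowBase

set_option autoImplicit false

/-!
# S28 (Igusa) tower, package (P1): the lattice `towA`, its span `towW`, and the extraction of
an independent family from an embedded finite extension
-/

noncomputable section

namespace Fermat.Agent.IG

open ModularCurve Polynomial

universe u

variable {k : Type u} [Field k]

theorem towA_one (M : ℕ) : (1 : LaurentSeries k) ∈ towA k M :=
  ⟨1, one_mem _, map_one _⟩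

theorem towA_mul {M : ℕ} {a b : LaurentSeries k} (ha : a ∈ towA k M) (hb : b ∈ towA k M) :
    a * b ∈ towA k M := by
  obtain ⟨a', ha', rfl⟩ := ha
  obtain ⟨b', hb', rfl⟩ := hb
  exact ⟨a' * b', mul_mem ha' hb', map_mul _ _ _⟩

theorem towA_towS {M d : ℕ} (hd0 : d ≠ 0) (hd : d ∣ M) : towS k 1 d ∈ towA k M := by
  have : NeZero d := ⟨hd0⟩
  refine ⟨qExpand ℤ d (jqModC ℤ), igA_mem hd, ?_⟩
  show coeffMap (Int.castRingHom k) (qExpand ℤ d (jqModC ℤ)) = towS k 1 d
  rw [coeffMap_qExpand, coeffMap_jqModC, towS_one_eq]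

theorem towA_mono {M M' : ℕ} (h : M ∣ M') : towA k M ⊆ towA k M' := by
  rintro _ ⟨a, ha, rfl⟩
  refine ⟨a, ?_, rfl⟩
  have hle : igA M ≤ igA M' := by
    apply Algebra.adjoin_mono
    rintro x ⟨d, hd0, hd, rfl⟩
    exact ⟨d, hd0, hd.trans h, rfl⟩
  exact hle ha

theorem towW_mono {M M' : ℕ} (h : M ∣ M') : towW k M ≤ towW k M' :=
  Submodule.span_mono (towA_mono h)

theorem towW_coe (M : ℕ) (e : towE k) : (e : LaurentSeries k) ∈ towW k M := by
  have h1 : (e : LaurentSeries k) = e • (1 : LaurentSeries k) := by
    rw [Algebra.smul_def, mul_one]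
    rfl
  rw [h1]
  exact Submodule.smul_mem _ _ (Submodule.subset_span (towA_one M))

theorem towW_mul_mem {M : ℕ} {w a : LaurentSeries k} (hw : w ∈ towW k M) (ha : a ∈ towA k M) :
    w * a ∈ towW k M := by
  unfold towW at hw ⊢
  induction hw using Submodule.span_induction with
  | mem x hx => exact Submodule.subset_span (towA_mul hx ha)
  | zero => rw [zero_mul]; exact Submodule.zero_mem _
  | add x y _ _ hx hy => rw [add_mul]; exact Submodule.add_mem _ hx hy
  | smul e x _ hx => rw [smul_mul_assoc]; exact Submodule.smul_mem _ _ hx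

theorem towA_le_adjoin {M : ℕ} {a : LaurentSeries k} (ha : a ∈ towA k M) :
    a ∈ IntermediateField.adjoin (towE k) (towG k M) := by
  obtain ⟨b, hb, rfl⟩ := ha
  show coeffMap (Int.castRingHom k) b ∈ IntermediateField.adjoin (towE k) (towG k M)
  unfold igA at hb
  induction hb using Algebra.adjoin_induction with
  | mem x hx =>
    obtain ⟨d, hd0, hd, rfl⟩ := hx
    apply IntermediateField.subset_adjoin
    refine ⟨d, hd, ?_⟩
    rw [coeffMap_qExpand, coeffMap_jqModC, towS_one_eq]
  | algebraMap r =>
    have h1 : coeffMap (Int.castRingHom k) (algebraMap ℤ (LaurentSeries ℤ) r)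
        = ((r : ℤ) : LaurentSeries k) := by
      rw [eq_intCast, map_intCast]
    rw [h1]
    exact intCast_mem _ r
  | add x y _ _ hx hy => rw [map_add]; exact add_mem hx hy
  | mul x y _ _ hx hy => rw [map_mul]; exact mul_mem hx hy

theorem towW_le_adjoin {M : ℕ} (hM : M ≠ 0) {w : LaurentSeries k} (hw : w ∈ towW k M) :
    w ∈ IntermediateField.adjoin (towE k) (towG k M) := by
  have _ := hM
  unfold towW at hw
  induction hw using Submodule.span_induction with
  | mem x hx => exact towA_le_adjoin hx
  | zero => exact zero_mem _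
  | add x y _ _ hx hy => exact add_mem hx hy
  | smul e x _ hx =>
    rw [Algebra.smul_def]
    exact mul_mem (IntermediateField.algebraMap_mem _ e) hx

theorem tow_extract (N : ℕ) {L : Type u} [Field L] [Algebra (towE k) L]
    [Module.Finite (towE k) L] (α : L →ₐ[towE k] LaurentSeries k)
    (hα : ∀ l, α l ∈ towW k N) :
    ∃ b : Fin (Module.finrank (towE k) L) → LaurentSeries ℤ, (∀ i, b i ∈ igA N) ∧
      LinearIndependent (towE k) (fun i => coeffMap (Int.castRingHom k) (b i)) := by
  classical
  obtain ⟨B, hBsub, hBspan, hBind⟩ := exists_linearIndependent (towE k) (towA k N)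
  -- the injective linear map `L → towW k N`
  let f : L →ₗ[towE k] towW k N := LinearMap.codRestrict (towW k N) α.toLinearMap hα
  have hf : Function.Injective f := by
    intro x y hxy
    have h1 : α x = α y := congrArg Subtype.val hxy
    exact α.toRingHom.injective h1
  have hrank1 : Module.rank (towE k) L ≤ Module.rank (towE k) (towW k N) :=
    LinearMap.rank_le_of_injective f hf
  have hrank2 : Module.rank (towE k) (towW k N) = Cardinal.mk B := by
    unfold towW
    rw [← hBspan]
    exact rank_span_set hBind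
  have hfin : (Module.finrank (towE k) L : Cardinal.{u}) = Module.rank (towE k) L :=
    Module.finrank_eq_rank (towE k) L
  have hcard : (Module.finrank (towE k) L : Cardinal.{u}) ≤ Cardinal.mk B := by
    rw [hfin, ← hrank2]
    exact hrank1
  have hemb : Nonempty (Fin (Module.finrank (towE k) L) ↪ B) := by
    rw [← Cardinal.lift_mk_le']
    simpa using hcard
  obtain ⟨g⟩ := hemb
  have hg : ∀ i, ∃ b : LaurentSeries ℤ, b ∈ igA N ∧
      coeffMap (Int.castRingHom k) b = (g i : LaurentSeries k) := by
    intro i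
    obtain ⟨b, hb, hbe⟩ := hBsub (g i).2
    exact ⟨b, hb, hbe⟩
  choose b hb hbe using hg
  refine ⟨b, hb, ?_⟩
  have h2 : (fun i => coeffMap (Int.castRingHom k) (b i)) = (fun x : B => (x : LaurentSeries k)) ∘ g := by
    funext i
    exact hbe i
  rw [h2]
  exact hBind.comp g g.injective

end Fermat.Agent.IG
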