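import Mathlib
import Fermat.Agent.Lib.IG_TowBase
import Fermat.Agent.Lib.IG_TowW
import Fermat.Agent.Lib.MC_Comb
import Fermat.Agent.Lib.IG_TowIndep
import Fermat.Agent.Lib.IG_TowAdj

set_option autoImplicit false

/-!
# S28 (Igusa) tower: an independent assembly of the tower theorem (helper2)

`tow_main_alt` has the same statement as `tow_main`; it is assembled from the packages
(P1) `IG_TowW` (`tow_extract`, lattice lemmas), (P2) `IG_TowIndep` (`tow_indep`) and
(P3) `IG_TowAdj` (`tow_adjoin`).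

State at level `p^i * a` (`p ∤ a`): a finite extension `L / k(J)` of degree `ψ(p^i a)` with the
true embedding `α : L → k((q))` (image in the span of the reduced lattice) and a twisted
ring hom `γ : L → k((t))` with `γ X_{p^i} = J(t)`, `γ X_{p^(i-1)} = J(t^p)`.

* prime step (`alt_step_prime`): `Φ(X, J)` is irreducible over `L` unless `J(q^p) ∈ α(L)`
  (`alt_prime_or`: the twists `t ↦ ζ^b t` fix `α(L)` read in `t^p` and move `J(t)` through `p`
  distinct roots), and `J(q^p) ∉ α(L)` by `tow_indep`.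
* higher step (`alt_step_higher`): `Φ(X, X_{p^i}) = (X - X_{p^(i-1)}) g`, and `g` is irreducible
  because its image under `q ↦ t^p ∘ γ` is `∏_b (X - J(ζ^b t))` (`alt_higher`).
-/

noncomputable section

namespace Fermat.Agent.IG

open ModularCurve Polynomial
open scoped Classical

universe u

variable {k : Type u} [Field k]

/-! ### the twist orbit -/

theorem alt_towQ_J (p : ℕ) : towQ k p (jqModC k) = towS k 1 p := by
  rw [towS, igTwL_one_apply]

/-- the `p` conjugates `J(ζ^b t)` -/
def altOrbit (ζ : k) (p : ℕ) : Finset (LaurentSeries k) :=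
  (Finset.range p).image (fun b => towS k (ζ ^ b) 1)

theorem alt_orbit_card {ζ : k} {p : ℕ} (hζ : IsPrimitiveRoot ζ p) : (altOrbit ζ p).card = p := by
  unfold altOrbit
  rw [Finset.card_image_of_injOn, Finset.card_range]
  intro b hb b' hb' h
  have h1 : ζ ^ b = ζ ^ b' := towS_inj one_ne_zero h
  exact hζ.pow_inj (Finset.mem_range.mp hb) (Finset.mem_range.mp hb') h1

/-- the twists by powers of `ζ` fix the series in `t^p` and move `J(t)` through the orbit -/
theorem alt_orbit_conj {L : Type*} [Field L] (γ : L →+* LaurentSeries k) {ζ : k} {p : ℕ}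
    (hp : p ≠ 0) (hζ : IsPrimitiveRoot ζ p) :
    ∀ z ∈ altOrbit ζ p, ∃ τ : LaurentSeries k →+* LaurentSeries k,
      (∀ l, τ (((towQ k p).comp γ) l) = ((towQ k p).comp γ) l) ∧ τ (towS k 1 1) = z := by
  intro z hz
  obtain ⟨b, -, rfl⟩ := Finset.mem_image.mp hz
  have hζ0 : ζ ≠ 0 := hζ.ne_zero hp
  refine ⟨igTw (ζ ^ b) (pow_ne_zero b hζ0), fun l => ?_, ?_⟩
  · show igTwL (ζ ^ b) (towQ k p (γ l)) = towQ k p (γ l)
    rw [igTwL_towQ _ hp, ← pow_mul, mul_comm, pow_mul, hζ.pow_eq_one, one_pow, igTwL_one_apply]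
  · show igTwL (ζ ^ b) (towS k 1 1) = towS k (ζ ^ b) 1
    rw [igTwL_towS _ _ one_ne_zero, pow_one, mul_one]

theorem alt_prod_eval_orbit {ζ : k} {p : ℕ} (hp : p ≠ 0) :
    (∏ b ∈ Finset.range p, (X - C (towS k (ζ ^ b) 1))).eval (towS k 1 1) = 0 := by
  rw [Polynomial.eval_prod]
  refine Finset.prod_eq_zero (Finset.mem_range.mpr (Nat.pos_of_ne_zero hp)) ?_
  rw [pow_zero, eval_sub, eval_X, eval_C, sub_self]

/-- the image of `Φ(X, x)` under a ring hom `θ` fixing the constants, `θ x = J(t^p)` -/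
theorem alt_map_eq {L : Type*} [Field L] (θ : L →+* LaurentSeries k) (c : k →+* L)
    (hc : ∀ r, θ (c r) = algebraMap k (LaurentSeries k) r) (x : L)
    {Φ : Polynomial (Polynomial k)} {ζ : k} {p : ℕ} (hT : TowId Φ ζ p)
    (hx : θ x = towS k 1 p) :
    (Φ.map (Polynomial.eval₂RingHom c x)).map θ = (X - C (towS k 1 (p ^ 2))) *
      ∏ b ∈ Finset.range p, (X - C (towS k (ζ ^ b) 1)) := by
  rw [towEv_map c x θ hc Φ, hx]
  exact hT.2.2

theorem alt_natDegree {L : Type*} [Field L] (c : k →+* L) (x : L)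
    {Φ : Polynomial (Polynomial k)} {ζ : k} {p : ℕ} (hT : TowId Φ ζ p) :
    (Φ.map (Polynomial.eval₂RingHom c x)).natDegree = p + 1 := by
  rw [hT.1.natDegree_map, towId_natDegree hT]

/-- **prime step, dichotomy**: `Φ(X, J)` is irreducible over `L` unless `J(q^p) ∈ α(L)`. -/
theorem alt_prime_or {L : Type*} [Field L] (α : L →+* LaurentSeries k) (c : k →+* L)
    (hc : ∀ r, α (c r) = algebraMap k (LaurentSeries k) r) (J : L) (hJ : α J = jqModC k)
    {Φ : Polynomial (Polynomial k)} {ζ : k} {p : ℕ} (hp : p.Prime) (hT : TowId Φ ζ p) :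
    Irreducible (Φ.map (Polynomial.eval₂RingHom c J)) ∨ ∃ z : L, α z = towS k 1 p := by
  have hp0 : p ≠ 0 := hp.ne_zero
  have hζ : IsPrimitiveRoot ζ p := hT.2.1
  set β : L →+* LaurentSeries k := (towQ k p).comp α with hβ
  have hβc : ∀ r, β (c r) = algebraMap k (LaurentSeries k) r := fun r => by
    rw [hβ, RingHom.comp_apply, hc, towQ_algebraMap]
  have hβJ : β J = towS k 1 p := by rw [hβ, RingHom.comp_apply, hJ, alt_towQ_J]
  set P := Φ.map (Polynomial.eval₂RingHom c J) with hP
  have hPmap := alt_map_eq β c hβc J hT hβJ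
  have hPmon : P.Monic := hT.1.map _
  have hy : P.eval₂ β (towS k 1 1) = 0 := by
    rw [← Polynomial.eval_map, hPmap, eval_mul, alt_prod_eval_orbit hp0, mul_zero]
  rcases tow_irred_or β P hPmon (towS k 1 1) hy (altOrbit ζ p)
      (by rw [alt_orbit_card hζ, hP, alt_natDegree c J hT]) (alt_orbit_conj α hp0 hζ) with
    h | ⟨c₀, Q, hPQ, hQm, hQd, hQs⟩
  · exact Or.inl h
  · right
    refine ⟨c₀, ?_⟩
    have h1 : (X - C (towS k 1 (p ^ 2))) * ∏ b ∈ Finset.range p, (X - C (towS k (ζ ^ b) 1))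
        = Q.map β * (X - C (β c₀)) := by
      rw [← hPmap, ← hP, hPQ, Polynomial.map_mul, Polynomial.map_sub, Polynomial.map_X,
        Polynomial.map_C]
    have h2 := congrArg (Polynomial.eval (towS k 1 (p ^ 2))) h1
    rw [eval_mul, eval_sub, eval_X, eval_C, sub_self, zero_mul, eval_mul, eval_sub, eval_X,
      eval_C] at h2
    have hne : (Q.map β).eval (towS k 1 (p ^ 2)) ≠ 0 := by
      intro h0
      have hmem := tow_root_mem (Q.map β) (hQm.map β) (altOrbit ζ p)
        (by rw [hQm.natDegree_map, hQd]) (fun z hz => by rw [Polynomial.eval_map]; exact hQs z hz)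
        h0
      obtain ⟨b, -, hb⟩ := Finset.mem_image.mp hmem
      have hlt : 1 < p ^ 2 := by
        have := hp.two_le
        nlinarith
      exact towS_ne_of_lt one_ne_zero hlt (ζ ^ b) 1 one_ne_zero hb
    have h3 : towS k 1 (p ^ 2) = β c₀ := by
      rcases mul_eq_zero.mp h2.symm with h | h
      · exact absurd h hne
      · exact sub_eq_zero.mp h
    have h4 : towQ k p (α c₀) = towQ k p (towS k 1 p) := by
      rw [towQ_towS hp0 hp0, ← sq, h3]
      rfl
    exact towQ_injective hp0 h4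

/-- **higher step**: if `Φ(X, x) = (X - x') g` and `γ x = J(t)`, `γ x' = J(t^p)` for a ring hom
`γ` fixing the constants, then `g` is irreducible of degree `p`, with root `J(t)` under
`q ↦ t^p` after `γ`. -/
theorem alt_higher {L : Type*} [Field L] (γ : L →+* LaurentSeries k) (c : k →+* L)
    (hc : ∀ r, γ (c r) = algebraMap k (LaurentSeries k) r) (x x' : L) {p : ℕ}
    (hx : γ x = towS k 1 1) (hx' : γ x' = towS k 1 p)
    {Φ : Polynomial (Polynomial k)} {ζ : k} (hp : p.Prime) (hT : TowId Φ ζ p)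
    (g : Polynomial L) (hg : Φ.map (Polynomial.eval₂RingHom c x) = (X - C x') * g) :
    Irreducible g ∧ g.Monic ∧ g.natDegree = p ∧
      g.eval₂ ((towQ k p).comp γ) (towS k 1 1) = 0 := by
  have hp0 : p ≠ 0 := hp.ne_zero
  have hζ : IsPrimitiveRoot ζ p := hT.2.1
  set β : L →+* LaurentSeries k := (towQ k p).comp γ with hβ
  have hβc : ∀ r, β (c r) = algebraMap k (LaurentSeries k) r := fun r => by
    rw [hβ, RingHom.comp_apply, hc, towQ_algebraMap]
  have hβx : β x = towS k 1 p := by
    rw [hβ, RingHom.comp_apply, hx, towQ_towS hp0 one_ne_zero, mul_one]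
  have hβx' : β x' = towS k 1 (p ^ 2) := by
    rw [hβ, RingHom.comp_apply, hx', towQ_towS hp0 hp0, sq]
  have hPmap := alt_map_eq β c hβc x hT hβx
  rw [hg, Polynomial.map_mul, Polynomial.map_sub, Polynomial.map_X, Polynomial.map_C,
    hβx'] at hPmap
  have hgmap : g.map β = ∏ b ∈ Finset.range p, (X - C (towS k (ζ ^ b) 1)) :=
    mul_left_cancel₀ (Polynomial.X_sub_C_ne_zero _) hPmap
  have hPmon : (Φ.map (Polynomial.eval₂RingHom c x)).Monic := hT.1.map _
  have hgmon : g.Monic := by
    rw [hg] at hPmon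
    exact (Polynomial.monic_X_sub_C x').of_mul_monic_left hPmon
  have hgdeg : g.natDegree = p := by
    have h1 := alt_natDegree c x hT
    rw [hg, (Polynomial.monic_X_sub_C x').natDegree_mul hgmon, Polynomial.natDegree_X_sub_C]
      at h1
    omega
  have hy : g.eval₂ β (towS k 1 1) = 0 := by
    rw [← Polynomial.eval_map, hgmap, alt_prod_eval_orbit hp0]
  refine ⟨?_, hgmon, hgdeg, hy⟩
  exact tow_irred β g hgmon (towS k 1 1) hy (altOrbit ζ p)
    (by rw [alt_orbit_card hζ, hgdeg]) (alt_orbit_conj γ hp0 hζ)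

/-! ### states -/

/-- tower state at level `M`: a finite extension `L` of `E₀ = k(J)` of degree `ψ(M)` with an
embedding into `k((q))` whose image lies in the span of the reduced lattice of level `M` -/
def AltState (k : Type u) [Field k] (M : ℕ) : Prop :=
  ∃ (L : Type u) (_ : Field L) (_ : Algebra (towE k) L) (_ : Module.Finite (towE k) L)
    (α : L →ₐ[towE k] LaurentSeries k),
    Module.finrank (towE k) L = dedekindPsi M ∧ ∀ l, α l ∈ towW k M

/-- chain state at level `p^i * a`: additionally a twisted embedding `γ` and two marked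
elements `x = X_{p^i}`, `x' = X_{p^(i-1)}` with `γ x = J(t)`, `γ x' = J(t^p)` -/
def AltChain (k : Type u) [Field k] (p a i : ℕ) : Prop :=
  ∃ (L : Type u) (_ : Field L) (_ : Algebra (towE k) L) (_ : Module.Finite (towE k) L)
    (α : L →ₐ[towE k] LaurentSeries k) (γ : L →+* LaurentSeries k) (x x' : L),
    Module.finrank (towE k) L = dedekindPsi (p ^ i * a) ∧ (∀ l, α l ∈ towW k (p ^ i * a)) ∧
    (∀ c : k, γ (algebraMap (towE k) L (algebraMap k (towE k) c))
      = algebraMap k (LaurentSeries k) c) ∧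
    α x = towS k 1 (p ^ i) ∧ α x' = towS k 1 (p ^ (i - 1)) ∧ γ x = towS k 1 1 ∧
    γ x' = towS k 1 p

theorem alt_alpha_const {L : Type*} [Field L] [Algebra (towE k) L]
    (α : L →ₐ[towE k] LaurentSeries k) (c : k) :
    α (algebraMap (towE k) L (algebraMap k (towE k) c)) = algebraMap k (LaurentSeries k) c := by
  rw [α.commutes]
  rfl

theorem alt_alpha_J {L : Type*} [Field L] [Algebra (towE k) L]
    (α : L →ₐ[towE k] LaurentSeries k) :
    α (algebraMap (towE k) L (towJ k)) = jqModC k := by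
  rw [α.commutes]
  rfl

theorem alt_towA_pow {M : ℕ} {x : LaurentSeries k} (hx : x ∈ towA k M) (n : ℕ) :
    x ^ n ∈ towA k M := by
  induction n with
  | zero => rw [pow_zero]; exact towA_one M
  | succ n ih => rw [pow_succ]; exact towA_mul ih hx

/-- polynomial expressions in a lattice element with coefficients in the span stay in the span -/
theorem alt_eval₂_mem {L : Type*} [Field L] (α : L →+* LaurentSeries k) {M : ℕ}
    (hα : ∀ l, α l ∈ towW k M) {x : LaurentSeries k} (hx : x ∈ towA k M) (P : Polynomial L) :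
    P.eval₂ α x ∈ towW k M := by
  rw [Polynomial.eval₂_eq_sum_range]
  exact Submodule.sum_mem _ (fun i _ => towW_mul_mem (hα _) (alt_towA_pow hx i))

/-- the reverse relation `Φ(J(t^m), J(t^(m p))) = 0` -/
theorem alt_rel_rev {Φ : Polynomial (Polynomial k)} {ζ : k} {p : ℕ} (hp : p ≠ 0)
    (hT : TowId Φ ζ p) {m : ℕ} (hm : m ≠ 0) :
    Φ.eval₂ (towEv (towS k 1 (m * p))) (towS k 1 m) = 0 := by
  have h := tow_roots hp hT 1 one_ne_zero hm
  rw [one_pow] at h
  rw [← Polynomial.eval_map, h, eval_mul, eval_prod]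
  have h0 : ∏ b ∈ Finset.range p, (X - C (towS k (1 * ζ ^ b) m)).eval (towS k 1 m) = 0 := by
    refine Finset.prod_eq_zero (Finset.mem_range.mpr (Nat.pos_of_ne_zero hp)) ?_
    rw [pow_zero, mul_one, eval_sub, eval_X, eval_C, sub_self]
  rw [h0, mul_zero]

/-! ### the two steps -/

/-- **prime step**: from level `a` to level `p * a` (`p ∤ a`), degree `p + 1` -/
theorem alt_step_prime {p a : ℕ} (hp : p.Prime) (ha : a ≠ 0) (hpa : ¬ p ∣ a)
    {Φ : Polynomial (Polynomial k)} {ζ : k} (hT : TowId Φ ζ p)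
    (hnot : towS k 1 p ∉ IntermediateField.adjoin (towE k) (towG k a))
    (hS : AltState k a) : AltChain k p a 1 := by
  obtain ⟨L, iF, iA, iM, α, hfin, hα⟩ := hS
  have hp0 : p ≠ 0 := hp.ne_zero
  set c : k →+* L := (algebraMap (towE k) L).comp (algebraMap k (towE k)) with hc
  set JL : L := algebraMap (towE k) L (towJ k) with hJL
  have hαc : ∀ r, (α : L →+* LaurentSeries k) (c r) = algebraMap k (LaurentSeries k) r :=
    fun r => alt_alpha_const α r
  have hαJ : (α : L →+* LaurentSeries k) JL = jqModC k := alt_alpha_J α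
  set g := Φ.map (Polynomial.eval₂RingHom c JL) with hg
  have hirr : Irreducible g := by
    rcases alt_prime_or (α : L →+* LaurentSeries k) c hαc JL hαJ hp hT with h | ⟨z, hz⟩
    · exact h
    · exfalso
      apply hnot
      have h1 : α z ∈ towW k a := hα z
      have h2 : (α : L →+* LaurentSeries k) z = α z := rfl
      rw [← hz, h2]
      exact towW_le_adjoin ha h1
  have hgmon : g.Monic := hT.1.map _
  set β : L →+* LaurentSeries k := (towQ k p).comp (α : L →+* LaurentSeries k) with hβ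
  have hβc : ∀ r, β (c r) = algebraMap k (LaurentSeries k) r := fun r => by
    rw [hβ, RingHom.comp_apply, hαc, towQ_algebraMap]
  have hβJ : β JL = towS k 1 p := by rw [hβ, RingHom.comp_apply, hαJ, alt_towQ_J]
  have hx : g.eval₂ (α : L →+* LaurentSeries k) (towS k 1 p) = 0 := by
    rw [← Polynomial.eval_map, hg, towEv_map c JL (α : L →+* LaurentSeries k) hαc Φ, hαJ,
      Polynomial.eval_map]
    have h := tow_rel hp0 hT (m := 1) one_ne_zero
    rwa [towS_one_one, one_mul] at h
  have hy : g.eval₂ β (towS k 1 1) = 0 := by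
    rw [← Polynomial.eval_map, hg, alt_map_eq β c hβc JL hT hβJ, eval_mul,
      alt_prod_eval_orbit hp0, mul_zero]
  obtain ⟨L', iF', iA', iM', α', β', ι, r, hfin', hαr, hβr, hαι, hβι, halg, hgen⟩ :=
    tow_adjoin α β g hirr hgmon (towS k 1 p) (towS k 1 1) hx hy
  refine ⟨L', iF', iA', iM', α', β', r, ι JL, ?_, ?_, ?_, ?_, ?_, hβr, ?_⟩
  · rw [hfin', hfin, hg, alt_natDegree c JL hT, pow_one,
      Fermat.Agent.MC.comb_psi_mul_of_not_dvd p a hp ha hpa, mul_comm]
  · intro l
    obtain ⟨P, hP, -⟩ := hgen l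
    rw [hP, pow_one]
    exact alt_eval₂_mem (α : L →+* LaurentSeries k)
      (fun l => towW_mono (Dvd.intro_left p rfl) (hα l))
      (towA_towS hp0 (Dvd.intro a rfl)) P
  · intro r'
    rw [halg, hβι]
    exact hβc r'
  · rw [hαr, pow_one]
  · rw [hαι, Nat.sub_self, pow_zero, towS_one_one]
    exact hαJ
  · rw [hβι]
    exact hβJ

/-- **higher step**: from level `p^i * a` to level `p^(i+1) * a` (`i ≥ 1`), degree `p` -/
theorem alt_step_higher {p a i : ℕ} (hp : p.Prime) (ha : a ≠ 0) (hi : 1 ≤ i)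
    {Φ : Polynomial (Polynomial k)} {ζ : k} (hT : TowId Φ ζ p)
    (hS : AltChain k p a i) : AltChain k p a (i + 1) := by
  obtain ⟨L, iF, iA, iM, α, γ, x, x', hfin, hα, hγc, hαx, hαx', hγx, hγx'⟩ := hS
  have hp0 : p ≠ 0 := hp.ne_zero
  have hpi : p ^ i ≠ 0 := pow_ne_zero i hp0
  have hpi1 : p ^ (i - 1) ≠ 0 := pow_ne_zero _ hp0
  have hpow : p ^ (i - 1) * p = p ^ i := by
    rw [← pow_succ, Nat.sub_add_cancel hi]
  set c : k →+* L := (algebraMap (towE k) L).comp (algebraMap k (towE k)) with hc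
  have hαc : ∀ r, (α : L →+* LaurentSeries k) (c r) = algebraMap k (LaurentSeries k) r :=
    fun r => alt_alpha_const α r
  have hγc' : ∀ r, γ (c r) = algebraMap k (LaurentSeries k) r := hγc
  set P := Φ.map (Polynomial.eval₂RingHom c x) with hP
  have hPα : P.map (α : L →+* LaurentSeries k) = Φ.map (towEv (towS k 1 (p ^ i))) := by
    rw [hP, towEv_map c x (α : L →+* LaurentSeries k) hαc Φ]
    congr 2
  -- `x'` is a root of `P`
  have hroot : P.IsRoot x' := by
    rw [Polynomial.IsRoot.def]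
    apply (α : L →+* LaurentSeries k).injective
    rw [map_zero, ← Polynomial.eval₂_at_apply, ← Polynomial.eval_map, hPα,
      Polynomial.eval_map]
    have h := alt_rel_rev hp0 hT hpi1
    rw [hpow] at h
    have e : (α : L →+* LaurentSeries k) x' = towS k 1 (p ^ (i - 1)) := hαx'
    rw [e]
    exact h
  obtain ⟨g, hg⟩ := Polynomial.dvd_iff_isRoot.mpr hroot
  obtain ⟨hirr, hgmon, hgdeg, hy⟩ := alt_higher γ c hγc' x x' hγx hγx' hp hT g hg
  set β : L →+* LaurentSeries k := (towQ k p).comp γ with hβ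
  have hx : g.eval₂ (α : L →+* LaurentSeries k) (towS k 1 (p ^ (i + 1))) = 0 := by
    have h1 : (P.map (α : L →+* LaurentSeries k)).eval (towS k 1 (p ^ (i + 1))) = 0 := by
      rw [hPα, Polynomial.eval_map]
      have h := tow_rel hp0 hT hpi
      rwa [← pow_succ] at h
    rw [hg, Polynomial.map_mul, eval_mul, Polynomial.map_sub, Polynomial.map_X,
      Polynomial.map_C, eval_sub, eval_X, eval_C] at h1
    have e : (α : L →+* LaurentSeries k) x' = towS k 1 (p ^ (i - 1)) := hαx'
    rw [e] at h1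
    rcases mul_eq_zero.mp h1 with h | h
    · exfalso
      have hlt : p ^ (i - 1) < p ^ (i + 1) := Nat.pow_lt_pow_right hp.one_lt (by omega)
      exact towS_ne_of_lt hpi1 hlt 1 1 one_ne_zero (sub_eq_zero.mp h).symm
    · rw [← Polynomial.eval_map]
      exact h
  obtain ⟨L', iF', iA', iM', α', β', ι, r, hfin', hαr, hβr, hαι, hβι, halg, hgen⟩ :=
    tow_adjoin α β g hirr hgmon (towS k 1 (p ^ (i + 1))) (towS k 1 1) hx hy
  have hlev : p ^ (i + 1) * a = p * (p ^ i * a) := by rw [pow_succ']; ring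
  refine ⟨L', iF', iA', iM', α', β', r, ι x, ?_, ?_, ?_, hαr, ?_, hβr, ?_⟩
  · rw [hfin', hfin, hgdeg, hlev,
      Fermat.Agent.MC.comb_psi_mul_of_dvd p (p ^ i * a) hp (mul_ne_zero hpi ha)
        (Dvd.dvd.mul_right (dvd_pow_self p (by omega)) a), mul_comm]
  · intro l
    obtain ⟨Q, hQ, -⟩ := hgen l
    rw [hQ]
    exact alt_eval₂_mem (α : L →+* LaurentSeries k)
      (fun l => towW_mono (by rw [hlev]; exact Dvd.intro_left p rfl) (hα l))
      (towA_towS (pow_ne_zero _ hp0) (Dvd.intro a rfl)) Q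
  · intro r'
    rw [halg, hβι, hβ, RingHom.comp_apply]
    have := hγc r'
    rw [this, towQ_algebraMap]
  · rw [hαι, Nat.add_sub_cancel]
    exact hαx
  · rw [hβι, hβ, RingHom.comp_apply, hγx, towQ_towS hp0 one_ne_zero, mul_one]

/-- the chain up to any exponent `n ≥ 1` -/
theorem alt_chain {p a : ℕ} (hp : p.Prime) (ha : a ≠ 0) (hpa : ¬ p ∣ a)
    {Φ : Polynomial (Polynomial k)} {ζ : k} (hT : TowId Φ ζ p)
    (hnot : towS k 1 p ∉ IntermediateField.adjoin (towE k) (towG k a))
    (hS : AltState k a) : ∀ n : ℕ, 1 ≤ n → AltChain k p a n := by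
  intro n hn
  induction n, hn using Nat.le_induction with
  | base => exact alt_step_prime hp ha hpa hT hnot hS
  | succ i hi ih => exact alt_step_higher hp ha hi hT ih

theorem alt_state_of_chain {p a n : ℕ} (h : AltChain k p a n) : AltState k (p ^ n * a) := by
  obtain ⟨L, iF, iA, iM, α, -, -, -, hfin, hα, -⟩ := h
  exact ⟨L, iF, iA, iM, α, hfin, hα⟩

/-! ### the induction over the level -/

theorem alt_state_one : AltState k 1 := by
  refine ⟨towE k, inferInstance, inferInstance, inferInstance,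
    Algebra.ofId (towE k) (LaurentSeries k), ?_, fun e => towW_coe 1 e⟩
  rw [Module.finrank_self, dedekindPsi_one]

/-- `Φ(X, J)` is irreducible over `E₀ = k(J)` when `J(q^p) ∉ k(J)` -/
theorem alt_irred_base {p : ℕ} (hp : p.Prime) {Φ : Polynomial (Polynomial k)} {ζ : k}
    (hT : TowId Φ ζ p) (hnm : towS k 1 p ∉ towE k) :
    Irreducible (Φ.map (Polynomial.eval₂RingHom (algebraMap k (towE k)) (towJ k))) := by
  rcases alt_prime_or (algebraMap (towE k) (LaurentSeries k)) (algebraMap k (towE k))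
      (fun r => rfl) (towJ k) rfl hp hT with h | ⟨z, hz⟩
  · exact h
  · exfalso
    apply hnm
    rw [← hz]
    exact z.2

theorem alt_level {N : ℕ} (hN : N ≠ 0) {ω : k} (hω : IsPrimitiveRoot ω N)
    (hT : ∀ p : ℕ, p.Prime → p ∣ N →
      ∃ (Φ : Polynomial (Polynomial k)) (ζ : k), TowId Φ ζ p)
    (hnm : ∀ p : ℕ, p.Prime → p ∣ N → towS k 1 p ∉ towE k) :
    ∀ M : ℕ, M ∣ N → AltState k M := by
  intro M
  induction M using Nat.recOnPrimePow with
  | zero =>
    intro h
    exact absurd (zero_dvd_iff.mp h) hN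
  | one => exact fun _ => alt_state_one
  | prime_pow_mul a p n hp hpa hn ih =>
    intro hdvd
    have hadvd : a ∣ N := (Dvd.intro_left (p ^ n) rfl).trans hdvd
    have ha : a ≠ 0 := by
      rintro rfl
      rw [mul_zero] at hdvd
      exact hN (zero_dvd_iff.mp hdvd)
    have hpadvd : p * a ∣ N :=
      (mul_dvd_mul_right (dvd_pow_self p hn.ne') a).trans hdvd
    have hpN : p ∣ N := (Dvd.intro a rfl).trans hpadvd
    obtain ⟨Φ, ζ, hTp⟩ := hT p hp hpN
    have hirr := alt_irred_base hp hTp (hnm p hp hpN)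
    have hnot := tow_indep hN hω hT hp hpa hpadvd hTp hirr
    exact alt_state_of_chain (alt_chain hp ha hpa hTp hnot (ih hadvd) n hn)

/-- **the tower theorem** (independent assembly on the packages (P1), (P2), (P3)). -/
theorem tow_main_alt (k : Type u) [Field k] (N : ℕ) [NeZero N] (ω : k)
    (hω : IsPrimitiveRoot ω N)
    (hΦ : ∀ (p : ℕ) [NeZero p], p.Prime → p ∣ N → TowPhi k p)
    (hnm : ∀ (p : ℕ) [NeZero p], p.Prime → p ∣ N →
      qExpand k p (jqModC k) ∉ IntermediateField.adjoin k {jqModC k}) :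
    ∃ b : Fin (dedekindPsi N) → LaurentSeries ℤ, (∀ i, b i ∈ igA N) ∧
      LinearIndependent (IntermediateField.adjoin k {jqModC k})
        (fun i => coeffMap (Int.castRingHom k) (b i)) := by
  have hN : N ≠ 0 := NeZero.ne N
  have hT : ∀ p : ℕ, p.Prime → p ∣ N →
      ∃ (Φ : Polynomial (Polynomial k)) (ζ : k), TowId Φ ζ p := by
    intro p hp hpN
    have : NeZero p := ⟨hp.ne_zero⟩
    exact towPhi_towId (hΦ p hp hpN)
  have hnm' : ∀ p : ℕ, p.Prime → p ∣ N → towS k 1 p ∉ towE k := by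
    intro p hp hpN
    have : NeZero p := ⟨hp.ne_zero⟩
    rw [towS_one_eq]
    exact hnm p hp hpN
  obtain ⟨L, iF, iA, iM, α, hfin, hα⟩ := alt_level hN hω hT hnm' N dvd_rfl
  obtain ⟨b, hb, hli⟩ := tow_extract N α hα
  refine ⟨fun i => b (Fin.cast hfin.symm i), fun i => hb _, ?_⟩
  exact hli.comp (fun i => Fin.cast hfin.symm i) (Fin.cast_injective _)

end Fermat.Agent.IG
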