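import Fermat.Agent.Lib.IG_Defs

set_option autoImplicit false

/-!
# S28 (Igusa), tower: monomial points (helper8)

`towPt k ρ m = J(ρ t^m)` (the `j`-series evaluated at the monomial `ρ t^m`) in `LaurentSeries k`.
Leading term, distinctness, behaviour under twists `t ↦ ξ t` and substitutions `t ↦ t^d`,
membership in `k((t^d))`, and the root identity obtained from the universal Puiseux factorization
of the modular polynomial `Φ_p`:
`Φ(X, J(ρ^p t^(m p))) = (X - J(ρ^(p²) t^(m p²))) ∏_{b<p} (X - J(ρ ζ^b t^m))`.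
-/

noncomputable section

namespace Fermat.Agent.IG

open ModularCurve Polynomial

variable (k : Type*) [Field k]

/-- the monomial point `J(ρ t^m)` -/
def towPt (ρ : k) (m : ℕ) [NeZero m] : LaurentSeries k := qExpand k m (igTwL ρ (jqModC k))

variable {k}

theorem towPt_one (m : ℕ) [NeZero m] : towPt k 1 m = qExpand k m (jqModC k) := by
  unfold towPt
  congr 1
  exact igTw_one_apply _

theorem towPt_coeff_mul (ρ : k) (m : ℕ) [NeZero m] (n : ℤ) :
    (towPt k ρ m).coeff ((m : ℤ) * n) = ρ ^ n * (jqModC k).coeff n := by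
  rw [towPt, qExpand_coeff_mul, igTwL_coeff]

theorem towPt_coeff_of_not_dvd (ρ : k) (m : ℕ) [NeZero m] {n : ℤ} (hn : ¬ (m : ℤ) ∣ n) :
    (towPt k ρ m).coeff n = 0 :=
  qExpand_coeff_of_not_dvd m _ hn

theorem towPt_coeff_neg (ρ : k) (m : ℕ) [NeZero m] : (towPt k ρ m).coeff (-(m : ℤ)) = ρ⁻¹ := by
  have h := towPt_coeff_mul ρ m (-1)
  rw [mul_neg_one] at h
  rw [h, coeff_jqModC_neg_one, mul_one, zpow_neg_one]

theorem towPt_coeff_lt (ρ : k) (m : ℕ) [NeZero m] {n : ℤ} (hn : n < -(m : ℤ)) :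
    (towPt k ρ m).coeff n = 0 := by
  by_cases hd : (m : ℤ) ∣ n
  · obtain ⟨c, rfl⟩ := hd
    rw [towPt_coeff_mul]
    have hm : (0 : ℤ) < m := by exact_mod_cast Nat.pos_of_ne_zero (NeZero.ne m)
    have hc : c < -1 := by
      by_contra hcon
      push Not at hcon
      nlinarith
    rw [coeff_jqModC_of_lt k hc, mul_zero]
  · exact towPt_coeff_of_not_dvd ρ m hd

theorem towPt_ne_zero {ρ : k} (hρ : ρ ≠ 0) (m : ℕ) [NeZero m] : towPt k ρ m ≠ 0 := by
  intro h
  have := towPt_coeff_neg ρ m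
  rw [h, HahnSeries.coeff_zero] at this
  exact inv_ne_zero hρ this.symm

/-- distinct monomial points are distinct series -/
theorem towPt_inj {ρ ρ' : k} (hρ : ρ ≠ 0) (hρ' : ρ' ≠ 0) {m m' : ℕ} [NeZero m] [NeZero m']
    (h : towPt k ρ m = towPt k ρ' m') : m = m' ∧ ρ = ρ' := by
  have h1 : m' ≤ m := by
    by_contra hcon
    push Not at hcon
    have := towPt_coeff_neg ρ' m'
    rw [← h, towPt_coeff_lt ρ m (by exact_mod_cast neg_lt_neg (Nat.cast_lt (α := ℤ).mpr hcon))]
      at this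
    exact inv_ne_zero hρ' this.symm
  have h2 : m ≤ m' := by
    by_contra hcon
    push Not at hcon
    have := towPt_coeff_neg ρ m
    rw [h, towPt_coeff_lt ρ' m' (by exact_mod_cast neg_lt_neg (Nat.cast_lt (α := ℤ).mpr hcon))]
      at this
    exact inv_ne_zero hρ this.symm
  have hm : m = m' := le_antisymm h2 h1
  subst hm
  refine ⟨rfl, ?_⟩
  have := towPt_coeff_neg ρ m
  rw [h, towPt_coeff_neg] at this
  exact (inv_inj.mp this).symm

/-- the twist `t ↦ ξ t` of a monomial point -/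
theorem towPt_twist (ξ : k) (hξ : ξ ≠ 0) (ρ : k) (m : ℕ) [NeZero m] :
    igTw ξ hξ (towPt k ρ m) = towPt k (ξ ^ m * ρ) m := by
  ext n
  rw [igTw_coeff]
  by_cases hd : (m : ℤ) ∣ n
  · obtain ⟨c, rfl⟩ := hd
    rw [towPt_coeff_mul, towPt_coeff_mul, mul_zpow, zpow_mul, zpow_natCast]
    ring
  · rw [towPt_coeff_of_not_dvd _ m hd, towPt_coeff_of_not_dvd _ m hd, mul_zero]

/-- the substitution `t ↦ t^d` of a monomial point -/
theorem towPt_qExpand (d : ℕ) [NeZero d] (ρ : k) (m : ℕ) [NeZero m] :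
    qExpand k d (towPt k ρ m) = towPt k ρ (d * m) := by
  unfold towPt
  exact qExpand_qExpand m d _

/-- `J(ρ t^m)` lies in `k((t^d))` iff `d ∣ m` -/
theorem towPt_mem_range {ρ : k} (hρ : ρ ≠ 0) (d m : ℕ) [NeZero d] [NeZero m] :
    towPt k ρ m ∈ (qExpand k d).range ↔ d ∣ m := by
  constructor
  · rintro ⟨f, hf⟩
    by_contra hd
    have h1 : ¬ (d : ℤ) ∣ -(m : ℤ) := by
      rw [Int.dvd_neg]
      exact_mod_cast hd
    have := towPt_coeff_neg ρ m
    rw [← hf, qExpand_coeff_of_not_dvd d f h1] at this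
    exact inv_ne_zero hρ this.symm
  · rintro ⟨c, rfl⟩
    have : NeZero c := ⟨fun h => NeZero.ne (d * c) (by rw [h, mul_zero])⟩
    exact ⟨towPt k ρ c, towPt_qExpand d ρ c⟩

/-- a `k`-algebra-like ring endomorphism of `k((t))` commutes with polynomial evaluation -/
theorem towPt_comp_aeval (ψ : LaurentSeries k →+* LaurentSeries k)
    (hψ : ∀ c : k, ψ (HahnSeries.C c) = HahnSeries.C c) (x : LaurentSeries k) :
    ψ.comp ((aeval x : Polynomial k →ₐ[k] LaurentSeries k) : Polynomial k →+* LaurentSeries k) =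
      ((aeval (ψ x) : Polynomial k →ₐ[k] LaurentSeries k) : Polynomial k →+* LaurentSeries k) := by
  refine Polynomial.ringHom_ext (fun c => ?_) ?_
  · simp only [RingHom.coe_comp, RingHom.coe_coe, Function.comp_apply, aeval_C]
    rw [algebraMap_laurentSeries_eq_single]
    have := hψ c
    rwa [HahnSeries.C_apply] at this
  · simp

/-- **the root identity at a monomial point**: pushing the universal Puiseux factorization of
`Φ` along `u ↦ ρ t^m` -/
theorem towPt_root_identity {p : ℕ} [NeZero p] (Φ : Polynomial (Polynomial k)) (ζ : k)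
    (hΦ : Φ.map ((aeval (qExpand k p (jqModC k)) : Polynomial k →ₐ[k] LaurentSeries k) :
        Polynomial k →+* LaurentSeries k) =
      (X - C (qExpand k (p ^ 2) (jqModC k))) *
        ∏ b ∈ Finset.range p, (X - C (igTwL (ζ ^ b) (jqModC k))))
    {ρ : k} (hρ : ρ ≠ 0) (hζ : ζ ≠ 0) (m : ℕ) [NeZero m] :
    Φ.map ((aeval (towPt k (ρ ^ p) (m * p)) : Polynomial k →ₐ[k] LaurentSeries k) :
        Polynomial k →+* LaurentSeries k) =
      (X - C (towPt k (ρ ^ (p ^ 2)) (m * p ^ 2))) *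
        ∏ b ∈ Finset.range p, (X - C (towPt k (ρ * ζ ^ b) m)) := by
  set ψ : LaurentSeries k →+* LaurentSeries k := (qExpand k m).comp (igTw ρ hρ) with hψdef
  have hψC : ∀ c : k, ψ (HahnSeries.C c) = HahnSeries.C c := by
    intro c
    rw [hψdef, RingHom.comp_apply, igTw_C, qExpand_C]
  have h1 : ψ (qExpand k p (jqModC k)) = towPt k (ρ ^ p) (m * p) := by
    rw [hψdef, RingHom.comp_apply, igTw_qExpand, qExpand_qExpand]
    rfl
  have h2 : ψ (qExpand k (p ^ 2) (jqModC k)) = towPt k (ρ ^ (p ^ 2)) (m * p ^ 2) := by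
    rw [hψdef, RingHom.comp_apply, igTw_qExpand, qExpand_qExpand]
    rfl
  have h3 : ∀ b : ℕ, ψ (igTwL (ζ ^ b) (jqModC k)) = towPt k (ρ * ζ ^ b) m := by
    intro b
    have hb : ζ ^ b ≠ 0 := pow_ne_zero b hζ
    have : igTwL (ζ ^ b) (jqModC k) = igTw (ζ ^ b) hb (jqModC k) := rfl
    rw [hψdef, RingHom.comp_apply, this, igTw_igTw]
    rfl
  have h := congrArg (Polynomial.map ψ) hΦ
  rw [Polynomial.map_map, towPt_comp_aeval ψ hψC, h1, Polynomial.map_mul, Polynomial.map_sub,
    Polynomial.map_X, Polynomial.map_C, h2, Polynomial.map_prod] at h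
  rw [h]
  congr 1
  refine Finset.prod_congr rfl fun b _ => ?_
  rw [Polynomial.map_sub, Polynomial.map_X, Polynomial.map_C, h3]

end Fermat.Agent.IG
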