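import Mathlib
import Fermat.Agent.Lib.IG_TowBase
import Fermat.Agent.Lib.IG_TowW
import Fermat.Agent.Lib.IG_TowAdj
import Fermat.Agent.Lib.IG_TowIndep
import Fermat.Agent.Lib.MC_Comb

set_option autoImplicit false

/-!
# S28 (Igusa) tower: the degree bound in characteristic `ℓ`

`tow_main`: for a field `k` containing a primitive `N`-th root of unity, given the Puiseux form of
the modular equation (`TowPhi k p`) and `J(q^p) ∉ k(J)` for every prime `p ∣ N`, there are
`ψ(N)` elements of the integral lattice `ℤ[J_d : d ∣ N]` whose reductions are linearly independent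
over `k(J)`.
-/

noncomputable section

namespace Fermat.Agent.IG

open ModularCurve Polynomial

universe u

variable {k : Type u} [Field k]

section Psi

variable (L : Type u) [Field L] [Algebra (towE k) L]

/-- the constants of an `E₀`-algebra -/
def towC : k →+* L := (algebraMap (towE k) L).comp (algebraMap k (towE k))

variable {L}

/-- `Φ(X, x)` as a polynomial over `L` -/
def towPsi (Φ : Polynomial (Polynomial k)) (x : L) : Polynomial L :=
  Φ.map (Polynomial.eval₂RingHom (towC L) x)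

theorem towPsi_monic {Φ : Polynomial (Polynomial k)} (hmon : Φ.Monic) (x : L) :
    (towPsi Φ x).Monic := hmon.map _

theorem towPsi_natDegree {Φ : Polynomial (Polynomial k)} {ζ : k} {p : ℕ} (hT : TowId Φ ζ p)
    (x : L) : (towPsi Φ x).natDegree = p + 1 := by
  rw [towPsi, hT.1.natDegree_map, towId_natDegree hT]

theorem towPsi_map_α (Φ : Polynomial (Polynomial k)) (α : L →ₐ[towE k] LaurentSeries k) (x : L) :
    (towPsi Φ x).map (α : L →+* LaurentSeries k) = Φ.map (towEv (α x)) := by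
  have h := towEv_map (towC L) x (α : L →+* LaurentSeries k) (fun r => ?_) Φ
  · exact h
  · show α (algebraMap (towE k) L (algebraMap k (towE k) r)) = _
    rw [AlgHom.commutes]
    rfl

theorem towPsi_map_β (Φ : Polynomial (Polynomial k)) {N : ℕ} (β : L →+* LaurentSeries k)
    (hβE : ∀ e : towE k, β (algebraMap (towE k) L e) = towQ k N (e : LaurentSeries k)) (x : L) :
    (towPsi Φ x).map β = Φ.map (towEv (β x)) := by
  have h := towEv_map (towC L) x β (fun r => ?_) Φ
  · exact h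
  · show β (algebraMap (towE k) L (algebraMap k (towE k) r)) = _
    rw [hβE]
    exact towQ_algebraMap N r

end Psi

section Helpers

variable {L : Type u} [Field L] [Algebra (towE k) L]

theorem towA_pow {M : ℕ} {a : LaurentSeries k} (ha : a ∈ towA k M) (i : ℕ) :
    a ^ i ∈ towA k M := by
  induction i with
  | zero => rw [pow_zero]; exact towA_one M
  | succ i ih => rw [pow_succ]; exact towA_mul ih ha

/-- a polynomial expression in a lattice element with coefficients in the span is in the span -/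
theorem tow_eval_mem {M : ℕ} (α : L →ₐ[towE k] LaurentSeries k) (hα : ∀ l, α l ∈ towW k M)
    {x : LaurentSeries k} (hx : x ∈ towA k M) (P : Polynomial L) :
    P.eval₂ (α : L →+* LaurentSeries k) x ∈ towW k M := by
  rw [Polynomial.eval₂_eq_sum_range]
  refine Submodule.sum_mem _ (fun i _ => ?_)
  exact towW_mul_mem (hα _) (towA_pow hx i)

omit [Algebra (towE k) L] in
/-- a twist fixing the coefficients and the point fixes the value -/
theorem tow_fix_eval (ξ : k) (hξ : ξ ≠ 0) (β : L →+* LaurentSeries k) (y : LaurentSeries k)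
    (hβ : ∀ l, igTwL ξ (β l) = β l) (hy : igTwL ξ y = y) (P : Polynomial L) :
    igTwL ξ (P.eval₂ β y) = P.eval₂ β y := by
  have h := Polynomial.hom_eval₂ P β (igTw ξ hξ) y
  have h2 : (igTw ξ hξ).comp β = β := RingHom.ext hβ
  have h3 : igTw ξ hξ y = y := hy
  rw [h2, h3] at h
  exact h

theorem tow_ne_zero_of_pow {ξ : k} {n : ℕ} (hn : n ≠ 0) (h : ξ ^ n = 1) : ξ ≠ 0 := by
  rintro rfl
  rw [zero_pow hn] at h
  exact zero_ne_one h

end Helpers

section States

variable (k)

/-- the state after completing the towers of the primes dividing `M` -/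
def TowOuter (M : ℕ) : Prop :=
  ∃ (L : Type u) (_ : Field L) (_ : Algebra (towE k) L) (_ : Module.Finite (towE k) L)
    (α : L →ₐ[towE k] LaurentSeries k),
    Module.finrank (towE k) L = dedekindPsi M ∧ ∀ l, α l ∈ towW k M

/-- the state inside the tower of the prime `p` (after `a` steps), over the level `M` -/
def TowInner (N M p a : ℕ) : Prop :=
  ∃ (L : Type u) (_ : Field L) (_ : Algebra (towE k) L) (_ : Module.Finite (towE k) L)
    (α : L →ₐ[towE k] LaurentSeries k) (β : L →+* LaurentSeries k) (xa xb : L),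
    Module.finrank (towE k) L = dedekindPsi (p ^ a * M) ∧
    (∀ l, α l ∈ towW k (p ^ a * M)) ∧
    (∀ e : towE k, β (algebraMap (towE k) L e) = towQ k N (e : LaurentSeries k)) ∧
    α xa = towS k 1 (p ^ a) ∧ α xb = towS k 1 (p ^ (a - 1)) ∧
    β xa = towS k 1 (N / p ^ a) ∧ β xb = towS k 1 (N / p ^ (a - 1)) ∧
    (∀ ξ : k, ξ ^ (N / p ^ a) = 1 → ∀ l, igTwL ξ (β l) = β l)

variable {k}

theorem tow_outer_one : TowOuter k 1 := by
  refine ⟨towE k, inferInstance, inferInstance, inferInstance, Algebra.ofId (towE k) _, ?_, ?_⟩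
  · rw [Module.finrank_self, dedekindPsi_one]
  · intro l
    exact towW_coe 1 l

theorem tow_inner_outer {N M p a : ℕ} (h : TowInner k N M p a) : TowOuter k (p ^ a * M) := by
  obtain ⟨L, i1, i2, i3, α, β, xa, xb, hfr, hαW, -⟩ := h
  exact ⟨L, i1, i2, i3, α, hfr, hαW⟩

end States

section Step1

variable {L : Type u} [Field L] [Algebra (towE k) L]

/-- the factorisation of `Φ(X, J)` over `k((t))`, `t = q^(1/N)` -/
theorem tow_psi1_map {N : ℕ} (hN : N ≠ 0) {p : ℕ} (hp : p.Prime) (hpN : p ∣ N)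
    {Φ : Polynomial (Polynomial k)} {ζ : k} (hΦ : TowId Φ ζ p)
    (α : L →ₐ[towE k] LaurentSeries k) :
    (towPsi Φ (algebraMap (towE k) L (towJ k))).map ((towQ k N).comp (α : L →+* LaurentSeries k))
      = (X - C (towS k 1 (N * p))) * ∏ b ∈ Finset.range p, (X - C (towS k (ζ ^ b) (N / p))) := by
  have hβE : ∀ e : towE k, ((towQ k N).comp (α : L →+* LaurentSeries k))
      (algebraMap (towE k) L e) = towQ k N (e : LaurentSeries k) := by
    intro e
    rw [RingHom.comp_apply, RingHom.coe_coe, AlgHom.commutes]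
    rfl
  rw [towPsi_map_β Φ _ hβE]
  have hJ : ((towQ k N).comp (α : L →+* LaurentSeries k)) (algebraMap (towE k) L (towJ k))
      = towS k 1 N := by
    rw [hβE]
    show towQ k N (jqModC k) = towS k 1 N
    rw [towS, igTwL_one_apply]
  rw [hJ]
  obtain ⟨m, rfl⟩ := hpN
  have hm : m ≠ 0 := fun h => hN (by rw [h, mul_zero])
  have h := tow_roots hp.ne_zero hΦ 1 one_ne_zero hm
  rw [one_pow, one_pow] at h
  have e1 : p * m = m * p := mul_comm p m
  have e2 : p * m * p = m * p ^ 2 := by ring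
  have e3 : p * m / p = m := Nat.mul_div_cancel_left m hp.pos
  rw [e2, e3, e1, h]
  congr 1
  refine Finset.prod_congr rfl (fun b _ => ?_)
  rw [one_mul]

/-- the prime-level step: `Φ(X, J)` is irreducible over `L` unless `J(q^p)` lies in `L` -/
theorem tow_step1_irred {N : ℕ} (hN : N ≠ 0) {ω : k} (hω : IsPrimitiveRoot ω N) {p : ℕ}
    (hp : p.Prime) (hpN : p ∣ N) {Φ : Polynomial (Polynomial k)} {ζ : k} (hΦ : TowId Φ ζ p)
    (α : L →ₐ[towE k] LaurentSeries k) (hX : ∀ c : L, α c ≠ towS k 1 p) :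
    Irreducible (towPsi Φ (algebraMap (towE k) L (towJ k))) := by
  classical
  set β₀ : L →+* LaurentSeries k := (towQ k N).comp (α : L →+* LaurentSeries k) with hβ₀
  set P := towPsi Φ (algebraMap (towE k) L (towJ k)) with hP
  have hPmon : P.Monic := towPsi_monic hΦ.1 _
  have hfac := tow_psi1_map hN hp hpN hΦ α
  rw [← hβ₀, ← hP] at hfac
  obtain ⟨m, hNm⟩ := hpN
  have hm : m ≠ 0 := fun h => hN (by rw [hNm, h, mul_zero])
  have hNp : N / p = m := by rw [hNm]; exact Nat.mul_div_cancel_left m hp.pos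
  rw [hNp] at hfac
  have hω0 : ω ≠ 0 := hω.ne_zero hN
  have hζ₁ : IsPrimitiveRoot (ω ^ m) p :=
    hω.pow (Nat.pos_of_ne_zero hN) (by rw [hNm, mul_comm])
  -- the root `y`
  have hy : P.eval₂ β₀ (towS k 1 m) = 0 := by
    rw [← Polynomial.eval_map, hfac, Polynomial.eval_mul, Polynomial.eval_prod]
    have h0 : (0 : ℕ) ∈ Finset.range p := Finset.mem_range.mpr hp.pos
    rw [Finset.prod_eq_zero h0, mul_zero]
    rw [pow_zero, Polynomial.eval_sub, Polynomial.eval_X, Polynomial.eval_C, sub_self]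
  -- the conjugates
  set s : Finset (LaurentSeries k) :=
    (Finset.range p).image (fun b => towS k ((ω ^ m) ^ b) m) with hs
  have hscard : s.card = p := by
    rw [hs, Finset.card_image_of_injOn, Finset.card_range]
    intro b hb b' hb' hbb
    have h1 : (ω ^ m) ^ b = (ω ^ m) ^ b' := towS_inj hm hbb
    exact hζ₁.pow_inj (Finset.mem_range.mp hb) (Finset.mem_range.mp hb') h1
  have hconj : ∀ z ∈ s, ∃ τ : LaurentSeries k →+* LaurentSeries k,
      (∀ l, τ (β₀ l) = β₀ l) ∧ τ (towS k 1 m) = z := by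
    intro z hz
    rw [hs, Finset.mem_image] at hz
    obtain ⟨b, -, rfl⟩ := hz
    refine ⟨igTw (ω ^ b) (pow_ne_zero b hω0), ?_, ?_⟩
    · intro l
      show igTwL (ω ^ b) (towQ k N (α l)) = towQ k N (α l)
      rw [igTwL_towQ _ hN, ← pow_mul, mul_comm b N, pow_mul, hω.pow_eq_one, one_pow,
        igTwL_one_apply]
    · show igTwL (ω ^ b) (towS k 1 m) = _
      rw [igTwL_towS _ _ hm, mul_one, ← pow_mul, mul_comm b m, pow_mul]
  have hdeg : P.natDegree ≤ s.card + 1 := by
    rw [hscard, hP, towPsi_natDegree hΦ]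
  rcases tow_irred_or β₀ P hPmon (towS k 1 m) hy s hdeg hconj with h | ⟨c, Q, hPQ, hQm, hQd, hQs⟩
  · exact h
  · exfalso
    -- the root `J(t^(N p))` of `P` is the rational root
    have hfac2 : P.map β₀ = Q.map β₀ * (X - C (β₀ c)) := by
      rw [hPQ, Polynomial.map_mul, Polynomial.map_sub, Polynomial.map_X, Polynomial.map_C]
    have hroot : (P.map β₀).eval (towS k 1 (N * p)) = 0 := by
      rw [hfac, Polynomial.eval_mul, Polynomial.eval_sub, Polynomial.eval_X, Polynomial.eval_C,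
        sub_self, zero_mul]
    rw [hfac2, Polynomial.eval_mul, Polynomial.eval_sub, Polynomial.eval_X, Polynomial.eval_C,
      mul_eq_zero] at hroot
    rcases hroot with h1 | h1
    · have hmem := tow_root_mem (Q.map β₀) (hQm.map β₀) s
        (by rw [hQm.natDegree_map, hQd])
        (fun z hz => by rw [Polynomial.eval_map]; exact hQs z hz) h1
      rw [hs, Finset.mem_image] at hmem
      obtain ⟨b, -, hb⟩ := hmem
      have hlt : m < N * p := by
        rw [hNm]
        have h2 : 2 ≤ p := hp.two_le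
        have hm1 : 1 ≤ m := Nat.pos_of_ne_zero hm
        nlinarith
      exact towS_ne_of_lt hm hlt _ 1 one_ne_zero hb
    · have h2 : towS k 1 (N * p) = towQ k N (towS k 1 p) := by
        rw [towQ_towS hN hp.ne_zero]
      have h3 : towQ k N (towS k 1 p) = towQ k N (α c) := by
        rw [← h2]
        exact sub_eq_zero.mp h1
      exact hX c (towQ_injective hN h3).symm

end Step1

section Transitions

/-- the first step of the tower of a new prime `p ∤ M` -/
theorem tow_inner_one {N : ℕ} (hN : N ≠ 0) {ω : k} (hω : IsPrimitiveRoot ω N)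
    (hT : ∀ p' : ℕ, p'.Prime → p' ∣ N →
      ∃ (Φ' : Polynomial (Polynomial k)) (ζ' : k), TowId Φ' ζ' p')
    {p M : ℕ} (hp : p.Prime) (hpM : ¬ p ∣ M) (hpMN : p * M ∣ N)
    {Φ : Polynomial (Polynomial k)} {ζ : k} (hΦ : TowId Φ ζ p)
    (hnm : ∀ c : towE k, (c : LaurentSeries k) ≠ towS k 1 p)
    (h : TowOuter k M) : TowInner k N M p 1 := by
  obtain ⟨L, _, _, _, α, hfr, hαW⟩ := h
  have hpN : p ∣ N := (Dvd.intro M rfl).trans hpMN
  have hM0 : M ≠ 0 := fun h0 => hN (by
    rw [h0, mul_zero] at hpMN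
    exact Nat.eq_zero_of_zero_dvd hpMN)
  have hMN : M ∣ N := (Dvd.intro_left p rfl).trans hpMN
  obtain ⟨m, hNm⟩ := hpN
  have hm : m ≠ 0 := fun h0 => hN (by rw [hNm, h0, mul_zero])
  have hNp : N / p = m := by rw [hNm]; exact Nat.mul_div_cancel_left m hp.pos
  -- irreducibility over `E₀`
  have hirr₀ : Irreducible (towPsi Φ (algebraMap (towE k) (towE k) (towJ k))) :=
    tow_step1_irred hN hω hp ⟨m, hNm⟩ hΦ (Algebra.ofId (towE k) (LaurentSeries k))
      (fun c => hnm c)
  have hirr₀' : Irreducible (Φ.map (Polynomial.eval₂RingHom (algebraMap k (towE k)) (towJ k))) :=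
    hirr₀
  have hXp := tow_indep hN hω hT hp hpM hpMN hΦ hirr₀'
  have hX : ∀ c : L, α c ≠ towS k 1 p := by
    intro c hc
    exact hXp (hc ▸ towW_le_adjoin hM0 (hαW c))
  set xJ : L := algebraMap (towE k) L (towJ k) with hxJ
  have hαJ : α xJ = jqModC k := by
    rw [hxJ, AlgHom.commutes]
    rfl
  have hirr : Irreducible (towPsi Φ xJ) := tow_step1_irred hN hω hp ⟨m, hNm⟩ hΦ α hX
  have hmon : (towPsi Φ xJ).Monic := towPsi_monic hΦ.1 _
  set β₀ : L →+* LaurentSeries k := (towQ k N).comp (α : L →+* LaurentSeries k) with hβ₀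
  have hβ₀E : ∀ e : towE k, β₀ (algebraMap (towE k) L e) = towQ k N (e : LaurentSeries k) := by
    intro e
    rw [hβ₀, RingHom.comp_apply, RingHom.coe_coe, AlgHom.commutes]
    rfl
  have hfac := tow_psi1_map hN hp ⟨m, hNm⟩ hΦ α
  rw [← hβ₀, ← hxJ, hNp] at hfac
  -- roots
  have hx : (towPsi Φ xJ).eval₂ (α : L →+* LaurentSeries k) (towS k 1 p) = 0 := by
    rw [← Polynomial.eval_map, towPsi_map_α, Polynomial.eval_map, hαJ]
    have h1 := tow_rel hp.ne_zero hΦ (m := 1) one_ne_zero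
    rwa [towS_one_one, one_mul] at h1
  have hy : (towPsi Φ xJ).eval₂ β₀ (towS k 1 m) = 0 := by
    rw [← Polynomial.eval_map, hfac, Polynomial.eval_mul, Polynomial.eval_prod]
    have h0 : (0 : ℕ) ∈ Finset.range p := Finset.mem_range.mpr hp.pos
    rw [Finset.prod_eq_zero h0, mul_zero]
    rw [pow_zero, Polynomial.eval_sub, Polynomial.eval_X, Polynomial.eval_C, sub_self]
  obtain ⟨L', i1, i2, i3, α', β', ι, r, hfr', hα'r, hβ'r, hα'ι, hβ'ι, hι, hpoly⟩ :=
    tow_adjoin α β₀ (towPsi Φ xJ) hirr hmon (towS k 1 p) (towS k 1 m) hx hy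
  refine ⟨L', i1, i2, i3, α', β', r, ι xJ, ?_, ?_, ?_, ?_, ?_, ?_, ?_, ?_⟩
  · rw [hfr', hfr, towPsi_natDegree hΦ, pow_one,
      Fermat.Agent.MC.comb_psi_mul_of_not_dvd p M hp hM0 hpM, mul_comm]
  · intro z
    obtain ⟨P, hPα, -⟩ := hpoly z
    rw [hPα, pow_one]
    refine tow_eval_mem α (fun l => towW_mono (Dvd.intro_left p rfl) (hαW l)) ?_ P
    exact towA_towS hp.ne_zero (Dvd.intro M rfl)
  · intro e
    rw [hι, hβ'ι, hβ₀E]
  · rw [hα'r, pow_one]
  · rw [hα'ι, hαJ, Nat.sub_self, pow_zero, towS_one_one]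
  · rw [hβ'r, pow_one, hNp]
  · rw [hβ'ι, hxJ, hβ₀E, Nat.sub_self, pow_zero, Nat.div_one]
    show towQ k N (jqModC k) = towS k 1 N
    rw [towS, igTwL_one_apply]
  · intro ξ hξ z
    rw [pow_one, hNp] at hξ
    have hξ0 : ξ ≠ 0 := tow_ne_zero_of_pow hm hξ
    obtain ⟨P, -, hPβ⟩ := hpoly z
    rw [hPβ]
    refine tow_fix_eval ξ hξ0 β₀ _ (fun l => ?_) ?_ P
    · show igTwL ξ (towQ k N (α l)) = towQ k N (α l)
      rw [igTwL_towQ _ hN, hNm, mul_comm p m, pow_mul, hξ, one_pow, igTwL_one_apply]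
    · rw [igTwL_towS _ _ hm, hξ, mul_one]

/-- the higher steps of the tower of the prime `p` -/
theorem tow_inner_succ {N : ℕ} (hN : N ≠ 0) {ω : k} (hω : IsPrimitiveRoot ω N)
    {p M a : ℕ} (hp : p.Prime) (ha : 1 ≤ a) (hdiv : p ^ (a + 1) * M ∣ N)
    {Φ : Polynomial (Polynomial k)} {ζ : k} (hΦ : TowId Φ ζ p)
    (h : TowInner k N M p a) : TowInner k N M p (a + 1) := by
  classical
  obtain ⟨L, _, _, _, α, β, xa, xb, hfr, hαW, hβE, hαa, hαb, hβa, hβb, hfix⟩ := h
  have hp0 : p ≠ 0 := hp.ne_zero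
  have hω0 : ω ≠ 0 := hω.ne_zero hN
  -- arithmetic: `N = p^(a+1) * n`
  obtain ⟨n, hNn⟩ : p ^ (a + 1) ∣ N := (Dvd.intro M rfl).trans hdiv
  have hn : n ≠ 0 := fun h0 => hN (by rw [hNn, h0, mul_zero])
  have hM0 : M ≠ 0 := fun h0 => hN (by
    rw [h0, mul_zero] at hdiv
    exact Nat.eq_zero_of_zero_dvd hdiv)
  have hpa : 0 < p ^ a := pow_pos hp.pos a
  have hpa1 : 0 < p ^ (a - 1) := pow_pos hp.pos (a - 1)
  have hpa2 : 0 < p ^ (a + 1) := pow_pos hp.pos (a + 1)
  have hdiv1 : N / p ^ (a + 1) = n := by rw [hNn]; exact Nat.mul_div_cancel_left n hpa2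
  have hdiv2 : N / p ^ a = n * p := by
    rw [hNn, pow_succ, mul_assoc, Nat.mul_div_cancel_left _ hpa, mul_comm]
  have hpow : p ^ (a + 1) = p ^ (a - 1) * p ^ 2 := by
    rw [← pow_add]
    congr 1
    omega
  have hpow' : p ^ a = p ^ (a - 1) * p := by
    rw [← pow_succ]
    congr 1
    omega
  have hdiv3 : N / p ^ (a - 1) = n * p ^ 2 := by
    rw [hNn, hpow, mul_assoc, Nat.mul_div_cancel_left _ hpa1, mul_comm]
  have hNp : N / p = p ^ a * n := by
    rw [hNn, pow_succ', mul_assoc, Nat.mul_div_cancel_left _ hp.pos]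
  have hNeq : N = n * p ^ a * p := by rw [hNn, pow_succ]; ring
  -- the polynomial `Φ(X, x_a)` and its two factorisations
  set P := towPsi Φ xa with hP
  have hPmon : P.Monic := towPsi_monic hΦ.1 _
  have hPα : P.map (α : L →+* LaurentSeries k) = (X - C (towS k 1 (p ^ (a + 1)))) *
      ∏ b ∈ Finset.range p, (X - C (towS k (ζ ^ b) (p ^ (a - 1)))) := by
    rw [hP, towPsi_map_α, hαa, hpow', hpow]
    have h1 := tow_roots hp0 hΦ 1 one_ne_zero (m := p ^ (a - 1)) hpa1.ne'
    rw [one_pow, one_pow] at h1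
    rw [h1]
    congr 1
    refine Finset.prod_congr rfl (fun b _ => ?_)
    rw [one_mul]
  have hPβ : P.map β = (X - C (towS k 1 (n * p ^ 2))) *
      ∏ b ∈ Finset.range p, (X - C (towS k (ζ ^ b) n)) := by
    rw [hP, towPsi_map_β Φ β hβE, hβa, hdiv2]
    have h1 := tow_roots hp0 hΦ 1 one_ne_zero (m := n) hn
    rw [one_pow, one_pow] at h1
    rw [h1]
    congr 1
    refine Finset.prod_congr rfl (fun b _ => ?_)
    rw [one_mul]
  have h0mem : (0 : ℕ) ∈ Finset.range p := Finset.mem_range.mpr hp.pos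
  -- `x_{a-1}` is a root of `P`
  have hroot : P.IsRoot xb := by
    have h1 : (P.map (α : L →+* LaurentSeries k)).eval (α xb) = 0 := by
      rw [hPα, hαb, Polynomial.eval_mul, Polynomial.eval_prod, Finset.prod_eq_zero h0mem, mul_zero]
      rw [pow_zero, Polynomial.eval_sub, Polynomial.eval_X, Polynomial.eval_C, sub_self]
    rw [Polynomial.eval_map] at h1
    have h2 : (α : L →+* LaurentSeries k) (P.eval xb) = 0 := by
      rw [← Polynomial.eval₂_at_apply]
      exact h1
    exact (map_eq_zero (α : L →+* LaurentSeries k)).mp h2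
  set g := P /ₘ (X - C xb) with hg
  have hPg : (X - C xb) * g = P := Polynomial.mul_divByMonic_eq_iff_isRoot.mpr hroot
  have hgmon : g.Monic := (Polynomial.monic_X_sub_C xb).of_mul_monic_left (hPg.symm ▸ hPmon)
  have hgdeg : g.natDegree = p := by
    have h1 : P.natDegree = (X - C xb).natDegree + g.natDegree := by
      rw [← hPg, Polynomial.natDegree_mul (Polynomial.X_sub_C_ne_zero xb) hgmon.ne_zero]
    rw [hP, towPsi_natDegree hΦ, Polynomial.natDegree_X_sub_C] at h1
    omega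
  -- the image of `g` under `β`
  have hgβ : g.map β = ∏ b ∈ Finset.range p, (X - C (towS k (ζ ^ b) n)) := by
    have h1 : (X - C (towS k 1 (n * p ^ 2))) * g.map β = (X - C (towS k 1 (n * p ^ 2))) *
        ∏ b ∈ Finset.range p, (X - C (towS k (ζ ^ b) n)) := by
      rw [← hPβ, ← hPg, Polynomial.map_mul, Polynomial.map_sub, Polynomial.map_X,
        Polynomial.map_C, hβb, hdiv3]
    exact mul_left_cancel₀ (Polynomial.X_sub_C_ne_zero _) h1
  have hy : g.eval₂ β (towS k 1 n) = 0 := by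
    rw [← Polynomial.eval_map, hgβ, Polynomial.eval_prod, Finset.prod_eq_zero h0mem]
    rw [pow_zero, Polynomial.eval_sub, Polynomial.eval_X, Polynomial.eval_C, sub_self]
  -- the conjugates
  have hζ₁ : IsPrimitiveRoot (ω ^ (p ^ a * n)) p :=
    hω.pow (Nat.pos_of_ne_zero hN) (by rw [hNn, pow_succ]; ring)
  set s : Finset (LaurentSeries k) :=
    (Finset.range p).image (fun b => towS k ((ω ^ (p ^ a * n)) ^ b) n) with hs
  have hscard : s.card = p := by
    rw [hs, Finset.card_image_of_injOn, Finset.card_range]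
    intro b hb b' hb' hbb
    have h1 : (ω ^ (p ^ a * n)) ^ b = (ω ^ (p ^ a * n)) ^ b' := towS_inj hn hbb
    exact hζ₁.pow_inj (Finset.mem_range.mp hb) (Finset.mem_range.mp hb') h1
  have hconj : ∀ z ∈ s, ∃ τ : LaurentSeries k →+* LaurentSeries k,
      (∀ l, τ (β l) = β l) ∧ τ (towS k 1 n) = z := by
    intro z hz
    rw [hs, Finset.mem_image] at hz
    obtain ⟨b, -, rfl⟩ := hz
    have hξ0 : (ω ^ p ^ a) ^ b ≠ 0 := pow_ne_zero b (pow_ne_zero _ hω0)
    refine ⟨igTw ((ω ^ p ^ a) ^ b) hξ0, ?_, ?_⟩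
    · intro l
      refine hfix _ ?_ l
      rw [hdiv2, ← pow_mul, ← pow_mul]
      have e : p ^ a * (b * (n * p)) = N * b := by rw [hNeq]; ring
      rw [e, pow_mul, hω.pow_eq_one, one_pow]
    · show igTwL ((ω ^ p ^ a) ^ b) (towS k 1 n) = _
      rw [igTwL_towS _ _ hn, mul_one]
      congr 1
      rw [← pow_mul, ← pow_mul, ← pow_mul]
      congr 1
      ring
  have hgirr : Irreducible g := tow_irred β g hgmon (towS k 1 n) hy s (by rw [hgdeg, hscard]) hconj
  -- the new generator is a root of `g`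
  have hx : g.eval₂ (α : L →+* LaurentSeries k) (towS k 1 (p ^ (a + 1))) = 0 := by
    have h1 : (P.map (α : L →+* LaurentSeries k)).eval (towS k 1 (p ^ (a + 1))) = 0 := by
      rw [hPα, Polynomial.eval_mul, Polynomial.eval_sub, Polynomial.eval_X, Polynomial.eval_C,
        sub_self, zero_mul]
    rw [← hPg, Polynomial.map_mul, Polynomial.eval_mul, Polynomial.map_sub, Polynomial.map_X,
      Polynomial.map_C, Polynomial.eval_sub, Polynomial.eval_X, Polynomial.eval_C,
      mul_eq_zero] at h1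
    rcases h1 with h1 | h1
    · exfalso
      have h2 : towS k 1 (p ^ (a + 1)) = towS k 1 (p ^ (a - 1)) := by
        have h3 := sub_eq_zero.mp h1
        rw [h3]
        exact hαb
      have hlt : p ^ (a - 1) < p ^ (a + 1) := Nat.pow_lt_pow_right hp.one_lt (by omega)
      exact towS_ne_of_lt hpa1.ne' hlt 1 1 one_ne_zero h2.symm
    · rwa [Polynomial.eval_map] at h1
  obtain ⟨L', i1, i2, i3, α', β', ι, r, hfr', hα'r, hβ'r, hα'ι, hβ'ι, hι, hpoly⟩ :=
    tow_adjoin α β g hgirr hgmon (towS k 1 (p ^ (a + 1))) (towS k 1 n) hx hy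
  have hlev : p ^ (a + 1) * M = p * (p ^ a * M) := by rw [pow_succ']; ring
  refine ⟨L', i1, i2, i3, α', β', r, ι xa, ?_, ?_, ?_, ?_, ?_, ?_, ?_, ?_⟩
  · rw [hfr', hfr, hgdeg, hlev,
      Fermat.Agent.MC.comb_psi_mul_of_dvd p (p ^ a * M) hp (mul_ne_zero hpa.ne' hM0)
        (Dvd.dvd.mul_right (dvd_pow_self p (by omega)) M), mul_comm]
  · intro z
    obtain ⟨Q, hQα, -⟩ := hpoly z
    rw [hQα]
    refine tow_eval_mem α (fun l => towW_mono ?_ (hαW l)) ?_ Q
    · rw [hlev]
      exact Dvd.intro_left p rfl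
    · exact towA_towS hpa2.ne' (Dvd.intro M rfl)
  · intro e
    rw [hι, hβ'ι, hβE]
  · exact hα'r
  · rw [hα'ι, hαa, Nat.add_sub_cancel]
  · rw [hβ'r, hdiv1]
  · rw [hβ'ι, hβa, Nat.add_sub_cancel]
  · intro ξ hξ z
    rw [hdiv1] at hξ
    have hξ0 : ξ ≠ 0 := tow_ne_zero_of_pow hn hξ
    obtain ⟨Q, -, hQβ⟩ := hpoly z
    rw [hQβ]
    refine tow_fix_eval ξ hξ0 β _ (fun l => ?_) ?_ Q
    · refine hfix ξ ?_ l
      rw [hdiv2, pow_mul, hξ, one_pow]
    · rw [igTwL_towS _ _ hn, hξ, mul_one]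

end Transitions

section Main

/-- the tower over every divisor of `N` -/
theorem tow_outer {N : ℕ} (hN : N ≠ 0) {ω : k} (hω : IsPrimitiveRoot ω N)
    (hT : ∀ p' : ℕ, p'.Prime → p' ∣ N →
      ∃ (Φ' : Polynomial (Polynomial k)) (ζ' : k), TowId Φ' ζ' p')
    (hnm : ∀ p : ℕ, p.Prime → p ∣ N → ∀ c : towE k, (c : LaurentSeries k) ≠ towS k 1 p) :
    ∀ M : ℕ, M ∣ N → TowOuter k M := by
  intro M
  induction M using Nat.recOnPrimePow with
  | zero =>
    intro h
    exact absurd (Nat.eq_zero_of_zero_dvd h) hN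
  | one =>
    intro _
    exact tow_outer_one
  | prime_pow_mul a p n hp hpa hn ih =>
    intro hdiv
    have ha : a ∣ N := (Dvd.intro_left (p ^ n) rfl).trans hdiv
    have hpN : p ∣ N := ((dvd_pow_self p hn.ne').mul_right a).trans hdiv
    obtain ⟨Φ, ζ, hΦ⟩ := hT p hp hpN
    have hpa' : p * a ∣ N := (Nat.mul_dvd_mul_right (dvd_pow_self p hn.ne') a).trans hdiv
    have h1 : TowInner k N a p 1 :=
      tow_inner_one hN hω hT hp hpa hpa' hΦ (hnm p hp hpN) (ih ha)
    have hall : ∀ j, 1 ≤ j → j ≤ n → TowInner k N a p j := by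
      intro j hj
      induction j, hj using Nat.le_induction with
      | base =>
        intro _
        exact h1
      | succ j hj ihj =>
        intro hjn
        have hd : p ^ (j + 1) * a ∣ N :=
          (Nat.mul_dvd_mul_right (pow_dvd_pow p hjn) a).trans hdiv
        exact tow_inner_succ hN hω hp hj hd hΦ (ihj (by omega))
    exact tow_inner_outer (hall n hn le_rfl)

/-- **The Igusa degree bound**: `ψ(N)` lattice elements independent over `k(J)`. -/
theorem tow_main (k : Type u) [Field k] (N : ℕ) [NeZero N] (ω : k) (hω : IsPrimitiveRoot ω N)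
    (hΦ : ∀ (p : ℕ) [NeZero p], p.Prime → p ∣ N → TowPhi k p)
    (hnm : ∀ (p : ℕ) [NeZero p], p.Prime → p ∣ N →
      qExpand k p (jqModC k) ∉ IntermediateField.adjoin k {jqModC k}) :
    ∃ b : Fin (dedekindPsi N) → LaurentSeries ℤ, (∀ i, b i ∈ igA N) ∧
      LinearIndependent (IntermediateField.adjoin k {jqModC k})
        (fun i => coeffMap (Int.castRingHom k) (b i)) := by
  have hN : N ≠ 0 := NeZero.ne N
  have hT : ∀ p' : ℕ, p'.Prime → p' ∣ N →
      ∃ (Φ' : Polynomial (Polynomial k)) (ζ' : k), TowId Φ' ζ' p' := by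
    intro p hp hpN
    have : NeZero p := ⟨hp.ne_zero⟩
    exact towPhi_towId (hΦ p hp hpN)
  have hnm' : ∀ p : ℕ, p.Prime → p ∣ N → ∀ c : towE k, (c : LaurentSeries k) ≠ towS k 1 p := by
    intro p hp hpN c hc
    have : NeZero p := ⟨hp.ne_zero⟩
    apply hnm p hp hpN
    rw [← towS_one_eq, ← hc]
    exact c.2
  obtain ⟨L, _, _, _, α, hfr, hαW⟩ := tow_outer hN hω hT hnm' N dvd_rfl
  obtain ⟨b, hb, hlin⟩ := tow_extract N α hαW
  refine ⟨fun i => b (Fin.cast hfr.symm i), fun i => hb _, ?_⟩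
  exact hlin.comp (Fin.cast hfr.symm) (Fin.cast_injective _)

end Main

end Fermat.Agent.IG
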