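import Mathlib

/-!
# K5_Alg : x-coordinate ("Kummer") formulas for Mathlib's affine group law

For a Weierstrass curve `W` over a field and points `P Q : W.Point` we use the coordinates
`px P = x(P)` and `pe P = 2 y(P) + a₁ x(P) + a₃` (both `0` at infinity).  Then
`pe P ^ 2 = 4 x³ + b₂ x² + 2 b₄ x + b₆` and the group law reads
`4 x(P ± Q) (x₁ - x₂)² = (η₁ ∓ η₂)² - (b₂ + 4 (x₁ + x₂)) (x₁ - x₂)²`.
-/

set_option autoImplicit false

namespace Fermat.Agent.K5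

open WeierstrassCurve WeierstrassCurve.Affine

section Basic

variable {F : Type*} [Field F] {W : WeierstrassCurve.Affine F}

/-- The `x`-coordinate of a point (`0` at infinity). -/
def px : W.Point → F
  | .zero => 0
  | .some x _ _ => x

/-- The coordinate `η = 2 y + a₁ x + a₃` of a point (`0` at infinity). -/
def pe : W.Point → F
  | .zero => 0
  | .some x y _ => 2 * y + W.a₁ * x + W.a₃

variable (W) in
/-- The cubic `G(x) = 4 x³ + b₂ x² + 2 b₄ x + b₆`, so that `η² = G(x)`. -/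
def cubicG (x : F) : F := 4 * x ^ 3 + W.b₂ * x ^ 2 + 2 * W.b₄ * x + W.b₆

@[simp] lemma px_some {x y : F} (h : W.Nonsingular x y) : px (Point.some x y h) = x := rfl

@[simp] lemma pe_some {x y : F} (h : W.Nonsingular x y) :
    pe (Point.some x y h) = 2 * y + W.a₁ * x + W.a₃ := rfl

@[simp] lemma px_zero : px (0 : W.Point) = 0 := rfl

@[simp] lemma pe_zero : pe (0 : W.Point) = 0 := rfl

lemma exists_some_of_ne_zero {P : W.Point} (hP : P ≠ 0) :
    ∃ (x y : F) (h : W.Nonsingular x y), P = Point.some x y h := by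
  rcases P with _ | ⟨x, y, h⟩
  · exact absurd rfl hP
  · exact ⟨x, y, h, rfl⟩

lemma pe_sq {P : W.Point} (hP : P ≠ 0) : pe P ^ 2 = cubicG W (px P) := by
  obtain ⟨x, y, h, rfl⟩ := exists_some_of_ne_zero hP
  have he := (W.equation_iff x y).mp h.1
  simp only [pe_some, px_some, cubicG, WeierstrassCurve.b₂, WeierstrassCurve.b₄,
    WeierstrassCurve.b₆]
  linear_combination 4 * he

@[simp] lemma px_neg (P : W.Point) : px (-P) = px P := by
  rcases P with _ | ⟨x, y, h⟩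
  · rfl
  · rfl

@[simp] lemma pe_neg (P : W.Point) : pe (-P) = -pe P := by
  rcases P with _ | ⟨x, y, h⟩
  · show (0 : F) = -0
    simp
  · show 2 * W.negY x y + W.a₁ * x + W.a₃ = -(2 * y + W.a₁ * x + W.a₃)
    simp only [Affine.negY]
    ring

lemma neg_ne_zero_of_ne_zero {P : W.Point} (hP : P ≠ 0) : -P ≠ 0 := by
  intro h
  apply hP
  rw [← neg_neg P, h]
  rfl

/-- Two affine points with the same `x` and `η` coincide (characteristic `≠ 2`). -/
lemma eq_of_px_pe (h2 : (2 : F) ≠ 0) {P Q : W.Point} (hP : P ≠ 0) (hQ : Q ≠ 0)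
    (hx : px P = px Q) (he : pe P = pe Q) : P = Q := by
  obtain ⟨x₁, y₁, h₁, rfl⟩ := exists_some_of_ne_zero hP
  obtain ⟨x₂, y₂, h₂, rfl⟩ := exists_some_of_ne_zero hQ
  simp only [px_some, pe_some] at hx he
  subst hx
  have : y₁ = y₂ := by
    have h : 2 * (y₁ - y₂) = 0 := by linear_combination he
    rcases mul_eq_zero.mp h with h | h
    · exact absurd h h2
    · exact sub_eq_zero.mp h
  subst this
  rfl

lemma eq_neg_of_px_pe (h2 : (2 : F) ≠ 0) {P Q : W.Point} (hP : P ≠ 0) (hQ : Q ≠ 0)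
    (hx : px P = px Q) (he : pe P = -pe Q) : P = -Q :=
  eq_of_px_pe h2 hP (neg_ne_zero_of_ne_zero hQ) (by simpa using hx) (by simpa using he)

/-- Affine points with the same `x` have `η`'s equal up to sign. -/
lemma pe_eq_or_of_px_eq {P Q : W.Point} (hP : P ≠ 0) (hQ : Q ≠ 0) (hx : px P = px Q) :
    pe P = pe Q ∨ pe P = -pe Q := by
  have h1 := pe_sq hP
  have h2 := pe_sq hQ
  rw [hx, ← h2] at h1
  have : (pe P - pe Q) * (pe P + pe Q) = 0 := by linear_combination h1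
  rcases mul_eq_zero.mp this with h | h
  · left; exact sub_eq_zero.mp h
  · right; exact eq_neg_of_add_eq_zero_left h

lemma eq_or_eq_neg_of_px_eq (h2 : (2 : F) ≠ 0) {P Q : W.Point} (hP : P ≠ 0) (hQ : Q ≠ 0)
    (hx : px P = px Q) : P = Q ∨ P = -Q := by
  rcases pe_eq_or_of_px_eq hP hQ hx with h | h
  · exact Or.inl (eq_of_px_pe h2 hP hQ hx h)
  · exact Or.inr (eq_neg_of_px_pe h2 hP hQ hx h)

variable [DecidableEq F]

/-- Chord addition: the sum of two affine points with different `x` is affine. -/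
lemma add_ne_zero_of_px_ne {P Q : W.Point} (hP : P ≠ 0) (hQ : Q ≠ 0) (hx : px P ≠ px Q) :
    P + Q ≠ 0 := by
  obtain ⟨x₁, y₁, h₁, rfl⟩ := exists_some_of_ne_zero hP
  obtain ⟨x₂, y₂, h₂, rfl⟩ := exists_some_of_ne_zero hQ
  simp only [px_some] at hx
  rw [Point.add_of_X_ne hx]
  exact Point.some_ne_zero _

/-- Chord addition formula for the `x`-coordinate. -/
lemma px_add_of_px_ne {P Q : W.Point} (hP : P ≠ 0) (hQ : Q ≠ 0) (hx : px P ≠ px Q) :
    4 * px (P + Q) * (px P - px Q) ^ 2 =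
      (pe P - pe Q) ^ 2 - (W.b₂ + 4 * (px P + px Q)) * (px P - px Q) ^ 2 := by
  obtain ⟨x₁, y₁, h₁, rfl⟩ := exists_some_of_ne_zero hP
  obtain ⟨x₂, y₂, h₂, rfl⟩ := exists_some_of_ne_zero hQ
  simp only [px_some] at hx
  rw [Point.add_of_X_ne hx]
  simp only [px_some, pe_some, Affine.addX, Affine.slope_of_X_ne hx, WeierstrassCurve.b₂]
  have hD : x₁ - x₂ ≠ 0 := sub_ne_zero.mpr hx
  field_simp
  ring

lemma sub_ne_zero_of_px_ne {P Q : W.Point} (hP : P ≠ 0) (hQ : Q ≠ 0) (hx : px P ≠ px Q) :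
    P - Q ≠ 0 := by
  rw [sub_eq_add_neg]
  exact add_ne_zero_of_px_ne hP (neg_ne_zero_of_ne_zero hQ) (by simpa using hx)

/-- Chord subtraction formula for the `x`-coordinate. -/
lemma px_sub_of_px_ne {P Q : W.Point} (hP : P ≠ 0) (hQ : Q ≠ 0) (hx : px P ≠ px Q) :
    4 * px (P - Q) * (px P - px Q) ^ 2 =
      (pe P + pe Q) ^ 2 - (W.b₂ + 4 * (px P + px Q)) * (px P - px Q) ^ 2 := by
  have h := px_add_of_px_ne hP (neg_ne_zero_of_ne_zero hQ) (by simpa using hx)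
  rw [sub_eq_add_neg]
  simpa using h

/-- A point with `η = 0` is `2`-torsion. -/
lemma add_self_eq_zero_of_pe_eq_zero {P : W.Point} (he : pe P = 0) : P + P = 0 := by
  rcases P with _ | ⟨x, y, h⟩
  · rfl
  · simp only [pe_some] at he
    refine Point.add_self_of_Y_eq ?_
    simp only [Affine.negY]
    linear_combination he

lemma add_self_ne_zero_of_pe_ne_zero {P : W.Point} (he : pe P ≠ 0) : P + P ≠ 0 := by
  rcases P with _ | ⟨x, y, h⟩
  · exact absurd rfl he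
  · simp only [pe_some] at he
    have hy : y ≠ W.negY x y := by
      intro hy
      apply he
      simp only [Affine.negY] at hy
      linear_combination hy
    rw [Point.add_self_of_Y_ne hy]
    exact Point.some_ne_zero _

/-- Duplication formula for the `x`-coordinate. -/
lemma px_add_self {P : W.Point} (he : pe P ≠ 0) :
    4 * px (P + P) * pe P ^ 2 =
      (6 * px P ^ 2 + W.b₂ * px P + W.b₄) ^ 2 - (W.b₂ + 8 * px P) * pe P ^ 2 := by
  rcases P with _ | ⟨x, y, h⟩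
  · exact absurd rfl he
  · simp only [pe_some] at he
    have hy : y ≠ W.negY x y := by
      intro hy
      apply he
      simp only [Affine.negY] at hy
      linear_combination hy
    have hD : y - W.negY x y ≠ 0 := sub_ne_zero.mpr hy
    rw [Point.add_self_of_Y_ne hy]
    have hℓ : W.slope x x y y * (y - W.negY x y) =
        3 * x ^ 2 + 2 * W.a₂ * x + W.a₄ - W.a₁ * y := by
      rw [Affine.slope_of_Y_ne rfl hy]
      field_simp
    simp only [px_some, pe_some, Affine.addX, WeierstrassCurve.b₂, WeierstrassCurve.b₄]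
    generalize W.slope x x y y = ℓ at hℓ
    simp only [Affine.negY] at hℓ
    linear_combination (4 * ℓ * (2 * y + W.a₁ * x + W.a₃) +
      4 * (3 * x ^ 2 + 2 * W.a₂ * x + W.a₄ - W.a₁ * y) +
      4 * W.a₁ * (2 * y + W.a₁ * x + W.a₃)) * hℓ

/-! ### Sum and product of `x(P+Q)`, `x(P-Q)` -/

/-- Pure algebra behind the formula for `x(P+Q) + x(P-Q)`. -/
lemma sigma_aux {F : Type*} [Field F] (h2 : (2 : F) ≠ 0) {b₂ b₄ b₆ x₁ x₂ η₁ η₂ xp xm : F}
    (h₁ : η₁ ^ 2 = 4 * x₁ ^ 3 + b₂ * x₁ ^ 2 + 2 * b₄ * x₁ + b₆)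
    (h₂ : η₂ ^ 2 = 4 * x₂ ^ 3 + b₂ * x₂ ^ 2 + 2 * b₄ * x₂ + b₆)
    (hp : 4 * xp * (x₁ - x₂) ^ 2 = (η₁ - η₂) ^ 2 - (b₂ + 4 * (x₁ + x₂)) * (x₁ - x₂) ^ 2)
    (hm : 4 * xm * (x₁ - x₂) ^ 2 = (η₁ + η₂) ^ 2 - (b₂ + 4 * (x₁ + x₂)) * (x₁ - x₂) ^ 2) :
    (xp + xm) * (x₁ - x₂) ^ 2 =
      2 * (x₁ * x₂) * (x₁ + x₂) + b₂ * (x₁ * x₂) + b₄ * (x₁ + x₂) + b₆ := by
  have h4 : (4 : F) ≠ 0 := by
    have : (4 : F) = 2 * 2 := by norm_num
    rw [this]
    exact mul_ne_zero h2 h2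
  have key : 4 * ((xp + xm) * (x₁ - x₂) ^ 2 -
      (2 * (x₁ * x₂) * (x₁ + x₂) + b₂ * (x₁ * x₂) + b₄ * (x₁ + x₂) + b₆)) = 0 := by
    linear_combination hp + hm + 2 * h₁ + 2 * h₂
  rcases mul_eq_zero.mp key with h | h
  · exact absurd h h4
  · exact sub_eq_zero.mp h

/-- Pure algebra behind the formula for `x(P+Q) * x(P-Q)`. -/
lemma pi_aux {F : Type*} [Field F] (h2 : (2 : F) ≠ 0) {b₂ b₄ b₆ b₈ x₁ x₂ η₁ η₂ xp xm : F}
    (hb : 4 * b₈ = b₂ * b₆ - b₄ ^ 2) (hx : x₁ ≠ x₂)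
    (h₁ : η₁ ^ 2 = 4 * x₁ ^ 3 + b₂ * x₁ ^ 2 + 2 * b₄ * x₁ + b₆)
    (h₂ : η₂ ^ 2 = 4 * x₂ ^ 3 + b₂ * x₂ ^ 2 + 2 * b₄ * x₂ + b₆)
    (hp : 4 * xp * (x₁ - x₂) ^ 2 = (η₁ - η₂) ^ 2 - (b₂ + 4 * (x₁ + x₂)) * (x₁ - x₂) ^ 2)
    (hm : 4 * xm * (x₁ - x₂) ^ 2 = (η₁ + η₂) ^ 2 - (b₂ + 4 * (x₁ + x₂)) * (x₁ - x₂) ^ 2) :
    xp * xm * (x₁ - x₂) ^ 2 =
      (x₁ * x₂) ^ 2 - b₄ * (x₁ * x₂) - b₆ * (x₁ + x₂) - b₈ := by
  have h16 : (16 : F) ≠ 0 := by
    have : (16 : F) = 2 * 2 * 2 * 2 := by norm_num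
    rw [this]
    exact mul_ne_zero (mul_ne_zero (mul_ne_zero h2 h2) h2) h2
  have hD : (x₁ - x₂) ^ 2 ≠ 0 := pow_ne_zero 2 (sub_ne_zero.mpr hx)
  have key : 16 * (x₁ - x₂) ^ 2 * (xp * xm * (x₁ - x₂) ^ 2 -
      ((x₁ * x₂) ^ 2 - b₄ * (x₁ * x₂) - b₆ * (x₁ + x₂) - b₈)) = 0 := by
    linear_combination (4 * xm * (x₁ - x₂) ^ 2) * hp +
      ((η₁ - η₂) ^ 2 - (b₂ + 4 * (x₁ + x₂)) * (x₁ - x₂) ^ 2) * hm +
      ((η₁ ^ 2 - η₂ ^ 2 + (4 * x₁ ^ 3 + b₂ * x₁ ^ 2 + 2 * b₄ * x₁ + b₆) -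
          (4 * x₂ ^ 3 + b₂ * x₂ ^ 2 + 2 * b₄ * x₂ + b₆)) -
        2 * (b₂ + 4 * (x₁ + x₂)) * (x₁ - x₂) ^ 2) * h₁ +
      (-(η₁ ^ 2 - η₂ ^ 2 + (4 * x₁ ^ 3 + b₂ * x₁ ^ 2 + 2 * b₄ * x₁ + b₆) -
          (4 * x₂ ^ 3 + b₂ * x₂ ^ 2 + 2 * b₄ * x₂ + b₆)) -
        2 * (b₂ + 4 * (x₁ + x₂)) * (x₁ - x₂) ^ 2) * h₂ +
      (4 * (x₁ - x₂) ^ 2) * hb
  rcases mul_eq_zero.mp key with h | h
  · rcases mul_eq_zero.mp h with h | h
    · exact absurd h h16
    · exact absurd h hD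
  · exact sub_eq_zero.mp h

/-- `x(P+Q) + x(P-Q)` for affine points with distinct `x`. -/
lemma px_add_add_px_sub (h2 : (2 : F) ≠ 0) {P Q : W.Point} (hP : P ≠ 0) (hQ : Q ≠ 0)
    (hx : px P ≠ px Q) :
    (px (P + Q) + px (P - Q)) * (px P - px Q) ^ 2 =
      2 * (px P * px Q) * (px P + px Q) + W.b₂ * (px P * px Q) + W.b₄ * (px P + px Q) + W.b₆ :=
  sigma_aux h2 (pe_sq hP) (pe_sq hQ) (px_add_of_px_ne hP hQ hx) (px_sub_of_px_ne hP hQ hx)

/-- `x(P+Q) * x(P-Q)` for affine points with distinct `x`. -/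
lemma px_add_mul_px_sub (h2 : (2 : F) ≠ 0) {P Q : W.Point} (hP : P ≠ 0) (hQ : Q ≠ 0)
    (hx : px P ≠ px Q) :
    px (P + Q) * px (P - Q) * (px P - px Q) ^ 2 =
      (px P * px Q) ^ 2 - W.b₄ * (px P * px Q) - W.b₆ * (px P + px Q) - W.b₈ :=
  pi_aux h2 W.b_relation hx (pe_sq hP) (pe_sq hQ) (px_add_of_px_ne hP hQ hx)
    (px_sub_of_px_ne hP hQ hx)

/-- Duplication formula: `x(2P) G(x) = x⁴ - b₄ x² - 2 b₆ x - b₈`. -/
lemma px_add_self' (h2 : (2 : F) ≠ 0) {P : W.Point} (he : pe P ≠ 0) :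
    px (P + P) * cubicG W (px P) =
      px P ^ 4 - W.b₄ * px P ^ 2 - 2 * W.b₆ * px P - W.b₈ := by
  have h4 : (4 : F) ≠ 0 := by
    have : (4 : F) = 2 * 2 := by norm_num
    rw [this]
    exact mul_ne_zero h2 h2
  have hP : P ≠ 0 := by
    rintro rfl
    exact he rfl
  have h1 := px_add_self he
  have h3 := pe_sq hP
  have hb := W.b_relation
  simp only [cubicG] at h3 ⊢
  have key : 4 * (px (P + P) * (4 * px P ^ 3 + W.b₂ * px P ^ 2 + 2 * W.b₄ * px P + W.b₆) -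
      (px P ^ 4 - W.b₄ * px P ^ 2 - 2 * W.b₆ * px P - W.b₈)) = 0 := by
    linear_combination h1 + (-4 * px (P + P) - (W.b₂ + 8 * px P)) * h3 + hb
  rcases mul_eq_zero.mp key with h | h
  · exact absurd h h4
  · exact sub_eq_zero.mp h

omit [DecidableEq F] in
/-- The cubic `G` does not vanish at the `x`-coordinate iff `η ≠ 0`. -/
lemma cubicG_ne_zero_iff {P : W.Point} (hP : P ≠ 0) : cubicG W (px P) ≠ 0 ↔ pe P ≠ 0 := by
  rw [← pe_sq hP]
  exact pow_ne_zero_iff (by norm_num)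

omit [DecidableEq F] in
/-- Existence of a point with prescribed `(x, η)`. -/
lemma exists_point_of_eta (h2 : (2 : F) ≠ 0) {x η : F} (h : η ^ 2 = cubicG W x)
    (hns : η ≠ 0 ∨ 6 * x ^ 2 + W.b₂ * x + W.b₄ ≠ 0) :
    ∃ P : W.Point, P ≠ 0 ∧ px P = x ∧ pe P = η := by
  have h4 : (4 : F) ≠ 0 := by
    have : (4 : F) = 2 * 2 := by norm_num
    rw [this]
    exact mul_ne_zero h2 h2
  set y : F := (η - W.a₁ * x - W.a₃) / 2 with hy
  have hy2 : 2 * y + W.a₁ * x + W.a₃ = η := by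
    rw [hy]; field_simp; ring
  have heq : W.Equation x y := by
    rw [W.equation_iff]
    simp only [cubicG, WeierstrassCurve.b₂, WeierstrassCurve.b₄, WeierstrassCurve.b₆] at h
    have key : 4 * (y ^ 2 + W.a₁ * x * y + W.a₃ * y -
        (x ^ 3 + W.a₂ * x ^ 2 + W.a₄ * x + W.a₆)) = 0 := by
      linear_combination h + (2 * y + W.a₁ * x + W.a₃ + η) * hy2
    rcases mul_eq_zero.mp key with h | h
    · exact absurd h h4
    · exact sub_eq_zero.mp h
  have hns' : W.Nonsingular x y := by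
    rw [W.nonsingular_iff']
    refine ⟨heq, ?_⟩
    by_cases hη : η = 0
    · left
      have h6 := hns.resolve_left (not_not.mpr hη)
      intro h0
      apply h6
      simp only [WeierstrassCurve.b₂, WeierstrassCurve.b₄]
      have hy3 : 2 * y + W.a₁ * x + W.a₃ = 0 := by rw [hy2, hη]
      linear_combination (-2 : F) * h0 + W.a₁ * hy3
    · right
      rw [hy2]
      exact hη
  exact ⟨Point.some x y hns', Point.some_ne_zero _, rfl, hy2⟩

end Basic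

/-! ### Compatibility with maps -/

section Map

variable {R S F K : Type*} [CommRing R] [CommRing S] [Field F] [Field K] [DecidableEq F]
  [DecidableEq K] {W' : WeierstrassCurve R} [Algebra R S] [Algebra R F] [Algebra S F]
  [IsScalarTower R S F] [Algebra R K] [Algebra S K] [IsScalarTower R S K] (f : F →ₐ[S] K)

lemma px_map (P : (W'⁄F).Point) : px (Point.map f P) = f (px P) := by
  rcases P with _ | ⟨x, y, h⟩
  · exact (map_zero f).symm
  · rfl

lemma pe_map (P : (W'⁄F).Point) : pe (Point.map f P) = f (pe P) := by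
  rcases P with _ | ⟨x, y, h⟩
  · exact (map_zero f).symm
  · rw [Point.map_some]
    simp only [pe_some, map_add, map_mul, map_ofNat]
    have h1 : (W'⁄K).a₁ = f ((W'⁄F).a₁) := by
      rw [← WeierstrassCurve.Affine.map_baseChange (W := W') f]; rfl
    have h3 : (W'⁄K).a₃ = f ((W'⁄F).a₃) := by
      rw [← WeierstrassCurve.Affine.map_baseChange (W := W') f]; rfl
    rw [h1, h3]

lemma map_eq_zero_iff (P : (W'⁄F).Point) : Point.map f P = 0 ↔ P = 0 := by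
  constructor
  · intro h
    exact Point.map_injective f (by rw [h]; rfl)
  · rintro rfl
    rfl

end Map

end Fermat.Agent.K5
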