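import Mathlib

set_option autoImplicit false
set_option linter.unusedSectionVars false
set_option linter.unusedVariables false

/-!
# Tropical Kummer law (pure field arithmetic)

`w : K → ℝ` is a real valuation on the nonzero elements of a field `K`
(`hm`: multiplicative, `ha`: ultrametric).  For the roots `zp, zm` of the quadratic whose
sum and product are given by the `x`-coordinate addition formulas of
`Y² = X (X² + (β/4) X + κ)` (`w β = 0`, `0 < w κ`), the clamped valuations satisfy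
`{n zp, n zm} = {fold (n x₁ + n x₂), |n x₁ - n x₂|}` (`n = trop_nb`, `fold = trop_fold`).
-/

namespace Fermat.Agent.K5

section basics

variable {K : Type*} [Field K] {w : K → ℝ}

/-- `w x ≥ L`, with the convention `w 0 = ∞`. -/
def trop_GE (w : K → ℝ) (L : ℝ) (x : K) : Prop := x = 0 ∨ L ≤ w x

/-- `w x > L`, with the convention `w 0 = ∞`. -/
def trop_GT (w : K → ℝ) (L : ℝ) (x : K) : Prop := x = 0 ∨ L < w x

/-- clamp of `w x` to `[0, m]`. -/
noncomputable def trop_nb (w : K → ℝ) (m : ℝ) (x : K) : ℝ := max 0 (min (w x) m)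

/-- reflection of `[0, 2m]` onto `[0, m]`. -/
noncomputable def trop_fold (m s : ℝ) : ℝ := min s (2 * m - s)

theorem trop_w_one (hm : ∀ x y : K, x ≠ 0 → y ≠ 0 → w (x * y) = w x + w y) : w 1 = 0 := by
  have h := hm 1 1 one_ne_zero one_ne_zero
  rw [mul_one] at h
  linarith

theorem trop_w_neg_one (hm : ∀ x y : K, x ≠ 0 → y ≠ 0 → w (x * y) = w x + w y) :
    w (-1) = 0 := by
  have h := hm (-1) (-1) (neg_ne_zero.mpr one_ne_zero) (neg_ne_zero.mpr one_ne_zero)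
  rw [neg_mul_neg, mul_one, trop_w_one hm] at h
  linarith

theorem trop_w_neg (hm : ∀ x y : K, x ≠ 0 → y ≠ 0 → w (x * y) = w x + w y) {x : K}
    (hx : x ≠ 0) : w (-x) = w x := by
  have h := hm (-1) x (neg_ne_zero.mpr one_ne_zero) hx
  rw [neg_one_mul, trop_w_neg_one hm] at h
  linarith

theorem trop_w_sq (hm : ∀ x y : K, x ≠ 0 → y ≠ 0 → w (x * y) = w x + w y) {x : K}
    (hx : x ≠ 0) : w (x ^ 2) = 2 * w x := by
  rw [pow_two, hm x x hx hx]; ring

theorem trop_ge_of_ne {L : ℝ} {x : K} (h : trop_GE w L x) (hx : x ≠ 0) : L ≤ w x :=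
  h.resolve_left hx

theorem trop_gt_of_ne {L : ℝ} {x : K} (h : trop_GT w L x) (hx : x ≠ 0) : L < w x :=
  h.resolve_left hx

theorem trop_ge_mk {L : ℝ} {x : K} (h : L ≤ w x) : trop_GE w L x := Or.inr h

theorem trop_gt_mk {L : ℝ} {x : K} (h : L < w x) : trop_GT w L x := Or.inr h

theorem trop_ge_zero {L : ℝ} : trop_GE w L (0 : K) := Or.inl rfl

theorem trop_gt_zero {L : ℝ} : trop_GT w L (0 : K) := Or.inl rfl

theorem trop_ge_of_gt {L : ℝ} {x : K} (h : trop_GT w L x) : trop_GE w L x :=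
  h.imp id le_of_lt

theorem trop_ge_mono {L L' : ℝ} {x : K} (h : trop_GE w L x) (hL : L' ≤ L) : trop_GE w L' x :=
  h.imp id (le_trans hL)

theorem trop_gt_mono {L L' : ℝ} {x : K} (h : trop_GT w L x) (hL : L' ≤ L) : trop_GT w L' x :=
  h.imp id (lt_of_le_of_lt hL)

theorem trop_gt_of_ge {L L' : ℝ} {x : K} (h : trop_GE w L x) (hL : L' < L) : trop_GT w L' x :=
  h.imp id (lt_of_lt_of_le hL)

theorem trop_ge_add (ha : ∀ x y : K, x ≠ 0 → y ≠ 0 → x + y ≠ 0 → min (w x) (w y) ≤ w (x + y))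
    {L : ℝ} {x y : K} (hx : trop_GE w L x) (hy : trop_GE w L y) : trop_GE w L (x + y) := by
  by_cases hx0 : x = 0
  · rw [hx0, zero_add]; exact hy
  by_cases hy0 : y = 0
  · rw [hy0, add_zero]; exact hx
  by_cases hxy : x + y = 0
  · exact Or.inl hxy
  · exact Or.inr (le_trans (le_min (trop_ge_of_ne hx hx0) (trop_ge_of_ne hy hy0)) (ha x y hx0 hy0 hxy))

theorem trop_gt_add (ha : ∀ x y : K, x ≠ 0 → y ≠ 0 → x + y ≠ 0 → min (w x) (w y) ≤ w (x + y))
    {L : ℝ} {x y : K} (hx : trop_GT w L x) (hy : trop_GT w L y) : trop_GT w L (x + y) := by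
  by_cases hx0 : x = 0
  · rw [hx0, zero_add]; exact hy
  by_cases hy0 : y = 0
  · rw [hy0, add_zero]; exact hx
  by_cases hxy : x + y = 0
  · exact Or.inl hxy
  · exact Or.inr (lt_of_lt_of_le (lt_min (trop_gt_of_ne hx hx0) (trop_gt_of_ne hy hy0))
      (ha x y hx0 hy0 hxy))

theorem trop_ge_mul (hm : ∀ x y : K, x ≠ 0 → y ≠ 0 → w (x * y) = w x + w y)
    {L₁ L₂ : ℝ} {x y : K} (hx : trop_GE w L₁ x) (hy : trop_GE w L₂ y) :
    trop_GE w (L₁ + L₂) (x * y) := by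
  by_cases hx0 : x = 0
  · rw [hx0, zero_mul]; exact Or.inl rfl
  by_cases hy0 : y = 0
  · rw [hy0, mul_zero]; exact Or.inl rfl
  · refine Or.inr ?_
    rw [hm x y hx0 hy0]
    exact add_le_add (trop_ge_of_ne hx hx0) (trop_ge_of_ne hy hy0)

theorem trop_ge_neg (hm : ∀ x y : K, x ≠ 0 → y ≠ 0 → w (x * y) = w x + w y)
    {L : ℝ} {x : K} (hx : trop_GE w L x) : trop_GE w L (-x) := by
  rcases hx with hx | hx
  · exact Or.inl (by rw [hx, neg_zero])
  · by_cases hx0 : x = 0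
    · exact Or.inl (by rw [hx0, neg_zero])
    · exact Or.inr (by rw [trop_w_neg hm hx0]; exact hx)

theorem trop_gt_neg (hm : ∀ x y : K, x ≠ 0 → y ≠ 0 → w (x * y) = w x + w y)
    {L : ℝ} {x : K} (hx : trop_GT w L x) : trop_GT w L (-x) := by
  rcases hx with hx | hx
  · exact Or.inl (by rw [hx, neg_zero])
  · by_cases hx0 : x = 0
    · exact Or.inl (by rw [hx0, neg_zero])
    · exact Or.inr (by rw [trop_w_neg hm hx0]; exact hx)

/-- strict ultrametric inequality: the smaller valuation wins. -/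
theorem trop_w_add_eq (hm : ∀ x y : K, x ≠ 0 → y ≠ 0 → w (x * y) = w x + w y)
    (ha : ∀ x y : K, x ≠ 0 → y ≠ 0 → x + y ≠ 0 → min (w x) (w y) ≤ w (x + y))
    {x y : K} (hx : x ≠ 0) (hy : trop_GT w (w x) y) : x + y ≠ 0 ∧ w (x + y) = w x := by
  by_cases hy0 : y = 0
  · rw [hy0, add_zero]; exact ⟨hx, rfl⟩
  have hlt := trop_gt_of_ne hy hy0
  have hne : x + y ≠ 0 := by
    intro h
    have : x = -y := eq_neg_of_add_eq_zero_left h
    rw [this, trop_w_neg hm hy0] at hlt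
    exact lt_irrefl _ hlt
  refine ⟨hne, le_antisymm ?_ ?_⟩
  · -- x = (x + y) + (-y)
    have h1 := ha (x + y) (-y) hne (neg_ne_zero.mpr hy0) (by simpa using hx)
    rw [add_neg_cancel_right, trop_w_neg hm hy0] at h1
    rcases min_le_iff.mp h1 with h | h
    · exact h
    · exact absurd hlt (not_lt.mpr h)
  · have h1 := ha x y hx hy0 hne
    rwa [min_eq_left hlt.le] at h1

theorem trop_nb_of_le {m : ℝ} {x : K} (h : w x ≤ 0) (hm0 : 0 ≤ m) : trop_nb w m x = 0 := by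
  unfold trop_nb
  rw [min_eq_left (le_trans h hm0)]
  exact max_eq_left h

theorem trop_nb_of_ge {m : ℝ} {x : K} (h : m ≤ w x) (hm0 : 0 ≤ m) : trop_nb w m x = m := by
  unfold trop_nb
  rw [min_eq_right h]
  exact max_eq_right hm0

theorem trop_nb_of_mem {m : ℝ} {x : K} (h0 : 0 ≤ w x) (h1 : w x ≤ m) : trop_nb w m x = w x := by
  unfold trop_nb
  rw [min_eq_left h1]
  exact max_eq_right h0

theorem trop_nb_nonneg {m : ℝ} {x : K} : 0 ≤ trop_nb w m x := le_max_left _ _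

theorem trop_nb_le {m : ℝ} {x : K} (hm0 : 0 ≤ m) : trop_nb w m x ≤ m :=
  max_le hm0 (min_le_right _ _)

end basics

section newton

variable {K : Type*} [Field K] {w : K → ℝ}

/-- the three ultrametric facts about two nonzero elements and their sum. -/
theorem trop_roots (hm : ∀ x y : K, x ≠ 0 → y ≠ 0 → w (x * y) = w x + w y)
    (ha : ∀ x y : K, x ≠ 0 → y ≠ 0 → x + y ≠ 0 → min (w x) (w y) ≤ w (x + y))
    {zp zm : K} (hzp : zp ≠ 0) (hzm : zm ≠ 0) :
    (w zp < w zm → zp + zm ≠ 0 ∧ w (zp + zm) = w zp) ∧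
    (w zm < w zp → zp + zm ≠ 0 ∧ w (zp + zm) = w zm) ∧
    (w zp = w zm → trop_GE w (w zp) (zp + zm)) := by
  refine ⟨fun h => trop_w_add_eq hm ha hzp (trop_gt_mk h), fun h => ?_, fun h => ?_⟩
  · have := trop_w_add_eq hm ha hzm (trop_gt_mk h)
    rwa [add_comm] at this
  · exact trop_ge_add ha (trop_ge_mk le_rfl) (trop_ge_mk h.le)

/-- Common setup: valuations of `zp`, `zm` in terms of those of `Δ`, `T`, `NS`. -/
theorem trop_np_setup (hm : ∀ x y : K, x ≠ 0 → y ≠ 0 → w (x * y) = w x + w y)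
    (ha : ∀ x y : K, x ≠ 0 → y ≠ 0 → x + y ≠ 0 → min (w x) (w y) ≤ w (x + y))
    {zp zm Δ NS T : K} (hzp : zp ≠ 0) (hzm : zm ≠ 0) (hΔ : Δ ≠ 0) (hT : T ≠ 0)
    (hS : (zp + zm) * Δ ^ 2 = NS) (hP : zp * zm * Δ ^ 2 = T ^ 2) :
    w zp + w zm = 2 * w T - 2 * w Δ ∧
    (w zp < w zm → NS ≠ 0 ∧ w NS = w zp + 2 * w Δ) ∧
    (w zm < w zp → NS ≠ 0 ∧ w NS = w zm + 2 * w Δ) ∧
    (w zp = w zm → trop_GE w (w zp + 2 * w Δ) NS) := by
  have hΔ2 : Δ ^ 2 ≠ 0 := pow_ne_zero 2 hΔ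
  have h1 : w (zp * zm * Δ ^ 2) = w zp + w zm + 2 * w Δ := by
    rw [hm _ _ (mul_ne_zero hzp hzm) hΔ2, hm _ _ hzp hzm, trop_w_sq hm hΔ]
  have h2 : w (T ^ 2) = 2 * w T := trop_w_sq hm hT
  rw [hP, h2] at h1
  obtain ⟨r1, r2, r3⟩ := trop_roots hm ha hzp hzm
  refine ⟨by linarith, fun h => ?_, fun h => ?_, fun h => ?_⟩
  · obtain ⟨hne, hw⟩ := r1 h
    refine ⟨hS ▸ mul_ne_zero hne hΔ2, ?_⟩
    rw [← hS, hm _ _ hne hΔ2, trop_w_sq hm hΔ, hw]
  · obtain ⟨hne, hw⟩ := r2 h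
    refine ⟨hS ▸ mul_ne_zero hne hΔ2, ?_⟩
    rw [← hS, hm _ _ hne hΔ2, trop_w_sq hm hΔ, hw]
  · have h3 := r3 h
    rw [← hS]
    have : trop_GE w (2 * w Δ) (Δ ^ 2) := trop_ge_mk (by rw [trop_w_sq hm hΔ])
    exact trop_ge_mul hm h3 this

/-- both roots have the same valuation. -/
theorem trop_np_eq (hm : ∀ x y : K, x ≠ 0 → y ≠ 0 → w (x * y) = w x + w y)
    (ha : ∀ x y : K, x ≠ 0 → y ≠ 0 → x + y ≠ 0 → min (w x) (w y) ≤ w (x + y))
    {zp zm Δ NS T : K} (hzp : zp ≠ 0) (hzm : zm ≠ 0) (hΔ : Δ ≠ 0) (hT : T ≠ 0)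
    (hS : (zp + zm) * Δ ^ 2 = NS) (hP : zp * zm * Δ ^ 2 = T ^ 2) {L : ℝ}
    (hNS : trop_GE w L NS) (h : 2 * w T - 2 * w Δ ≤ 2 * (L - 2 * w Δ)) :
    w zp = w T - w Δ ∧ w zm = w T - w Δ := by
  obtain ⟨s0, s1, s2, s3⟩ := trop_np_setup hm ha hzp hzm hΔ hT hS hP
  rcases lt_trichotomy (w zp) (w zm) with hab | hab | hab
  · obtain ⟨hne, hw⟩ := s1 hab
    have := trop_ge_of_ne hNS hne
    exfalso; linarith
  · constructor <;> linarith
  · obtain ⟨hne, hw⟩ := s2 hab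
    have := trop_ge_of_ne hNS hne
    exfalso; linarith

/-- the two roots have distinct, explicitly known valuations. -/
theorem trop_np_split (hm : ∀ x y : K, x ≠ 0 → y ≠ 0 → w (x * y) = w x + w y)
    (ha : ∀ x y : K, x ≠ 0 → y ≠ 0 → x + y ≠ 0 → min (w x) (w y) ≤ w (x + y))
    {zp zm Δ NS T : K} (hzp : zp ≠ 0) (hzm : zm ≠ 0) (hΔ : Δ ≠ 0) (hT : T ≠ 0)
    (hS : (zp + zm) * Δ ^ 2 = NS) (hP : zp * zm * Δ ^ 2 = T ^ 2) {L : ℝ}
    (hNS0 : NS ≠ 0) (hNS : w NS = L) (h : 2 * (L - 2 * w Δ) < 2 * w T - 2 * w Δ) :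
    (w zp = L - 2 * w Δ ∧ w zm = 2 * w T - L) ∨ (w zm = L - 2 * w Δ ∧ w zp = 2 * w T - L) := by
  obtain ⟨s0, s1, s2, s3⟩ := trop_np_setup hm ha hzp hzm hΔ hT hS hP
  rcases lt_trichotomy (w zp) (w zm) with hab | hab | hab
  · obtain ⟨hne, hw⟩ := s1 hab
    left; constructor <;> linarith
  · have := trop_ge_of_ne (s3 hab) hNS0
    exfalso; linarith
  · obtain ⟨hne, hw⟩ := s2 hab
    right; constructor <;> linarith

/-- both roots have valuation `≤ 0`. -/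
theorem trop_np_le (hm : ∀ x y : K, x ≠ 0 → y ≠ 0 → w (x * y) = w x + w y)
    (ha : ∀ x y : K, x ≠ 0 → y ≠ 0 → x + y ≠ 0 → min (w x) (w y) ≤ w (x + y))
    {zp zm Δ NS T : K} (hzp : zp ≠ 0) (hzm : zm ≠ 0) (hΔ : Δ ≠ 0) (hT : T ≠ 0)
    (hS : (zp + zm) * Δ ^ 2 = NS) (hP : zp * zm * Δ ^ 2 = T ^ 2) {L : ℝ}
    (hNS : trop_GE w L NS) (h1 : 2 * w T - 2 * w Δ ≤ 0) (h2 : 2 * w T - L ≤ 0) :
    w zp ≤ 0 ∧ w zm ≤ 0 := by
  obtain ⟨s0, s1, s2, s3⟩ := trop_np_setup hm ha hzp hzm hΔ hT hS hP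
  rcases lt_trichotomy (w zp) (w zm) with hab | hab | hab
  · obtain ⟨hne, hw⟩ := s1 hab
    have := trop_ge_of_ne hNS hne
    constructor <;> linarith
  · constructor <;> linarith
  · obtain ⟨hne, hw⟩ := s2 hab
    have := trop_ge_of_ne hNS hne
    constructor <;> linarith

/-- both roots have valuation `≥ L'`. -/
theorem trop_np_ge (hm : ∀ x y : K, x ≠ 0 → y ≠ 0 → w (x * y) = w x + w y)
    (ha : ∀ x y : K, x ≠ 0 → y ≠ 0 → x + y ≠ 0 → min (w x) (w y) ≤ w (x + y))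
    {zp zm Δ NS T : K} (hzp : zp ≠ 0) (hzm : zm ≠ 0) (hΔ : Δ ≠ 0) (hT : T ≠ 0)
    (hS : (zp + zm) * Δ ^ 2 = NS) (hP : zp * zm * Δ ^ 2 = T ^ 2) {L L' : ℝ}
    (hNS : trop_GE w L NS) (h1 : 2 * L' ≤ 2 * w T - 2 * w Δ) (h2 : L' ≤ L - 2 * w Δ) :
    L' ≤ w zp ∧ L' ≤ w zm := by
  obtain ⟨s0, s1, s2, s3⟩ := trop_np_setup hm ha hzp hzm hΔ hT hS hP
  rcases lt_trichotomy (w zp) (w zm) with hab | hab | hab
  · obtain ⟨hne, hw⟩ := s1 hab
    have := trop_ge_of_ne hNS hne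
    constructor <;> linarith
  · constructor <;> linarith
  · obtain ⟨hne, hw⟩ := s2 hab
    have := trop_ge_of_ne hNS hne
    constructor <;> linarith

end newton

section kummer

variable {K : Type*} [Field K] {w : K → ℝ}

/-- valuation of `Δ = x₁ - x₂`. -/
theorem trop_delta (hm : ∀ x y : K, x ≠ 0 → y ≠ 0 → w (x * y) = w x + w y)
    (ha : ∀ x y : K, x ≠ 0 → y ≠ 0 → x + y ≠ 0 → min (w x) (w y) ≤ w (x + y))
    {x₁ x₂ : K} (h1 : x₁ ≠ 0) (h2 : x₂ ≠ 0) (hne : x₁ ≠ x₂) (hle : w x₁ ≤ w x₂) :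
    w x₁ ≤ w (x₁ - x₂) ∧ (w x₁ < w x₂ → w (x₁ - x₂) = w x₁) := by
  have hΔ : x₁ - x₂ ≠ 0 := sub_ne_zero.mpr hne
  constructor
  · have h := ha x₁ (-x₂) h1 (neg_ne_zero.mpr h2) (by rwa [← sub_eq_add_neg])
    rw [trop_w_neg hm h2, min_eq_left hle, ← sub_eq_add_neg] at h
    exact h
  · intro hlt
    have h := trop_w_add_eq hm ha h1 (y := -x₂) (trop_gt_mk (by rwa [trop_w_neg hm h2]))
    rw [← sub_eq_add_neg] at h
    exact h.2

/-- valuation of `T = x₁ x₂ - κ`. -/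
theorem trop_T (hm : ∀ x y : K, x ≠ 0 → y ≠ 0 → w (x * y) = w x + w y)
    (ha : ∀ x y : K, x ≠ 0 → y ≠ 0 → x + y ≠ 0 → min (w x) (w y) ≤ w (x + y))
    {κ x₁ x₂ : K} (hκ0 : κ ≠ 0) (h1 : x₁ ≠ 0) (h2 : x₂ ≠ 0) (hT : x₁ * x₂ - κ ≠ 0) :
    (w x₁ + w x₂ < w κ → w (x₁ * x₂ - κ) = w x₁ + w x₂) ∧
    (w κ < w x₁ + w x₂ → w (x₁ * x₂ - κ) = w κ) ∧
    (w κ ≤ w x₁ + w x₂ → w κ ≤ w (x₁ * x₂ - κ)) := by
  have h12 : x₁ * x₂ ≠ 0 := mul_ne_zero h1 h2
  have hw12 : w (x₁ * x₂) = w x₁ + w x₂ := hm _ _ h1 h2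
  refine ⟨fun h => ?_, fun h => ?_, fun h => ?_⟩
  · have := trop_w_add_eq hm ha h12 (y := -κ) (trop_gt_mk (by rw [trop_w_neg hm hκ0, hw12]; exact h))
    rw [← sub_eq_add_neg, hw12] at this
    exact this.2
  · have := trop_w_add_eq hm ha (neg_ne_zero.mpr hκ0) (y := x₁ * x₂)
      (trop_gt_mk (by rw [trop_w_neg hm hκ0, hw12]; exact h))
    rw [neg_add_eq_sub, trop_w_neg hm hκ0] at this
    exact this.2
  · have h3 := ha (x₁ * x₂) (-κ) h12 (neg_ne_zero.mpr hκ0) (by rwa [← sub_eq_add_neg])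
    rw [trop_w_neg hm hκ0, hw12, ← sub_eq_add_neg] at h3
    exact le_trans (le_min h le_rfl) h3

/-- lower bound for the numerator of the sum. -/
theorem trop_NS_ge (hm : ∀ x y : K, x ≠ 0 → y ≠ 0 → w (x * y) = w x + w y)
    (ha : ∀ x y : K, x ≠ 0 → y ≠ 0 → x + y ≠ 0 → min (w x) (w y) ≤ w (x + y))
    {β κ x₁ x₂ : K} (h2 : (2 : K) ≠ 0) (hw2 : w 2 = 0) (hβ0 : β ≠ 0) (hβ : w β = 0)
    (hκ0 : κ ≠ 0) (h1 : x₁ ≠ 0) (h2' : x₂ ≠ 0) {L : ℝ}
    (hL1 : L ≤ 2 * w x₁ + w x₂) (hL2 : L ≤ w x₁ + 2 * w x₂) (hL3 : L ≤ w x₁ + w x₂)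
    (hL4 : L ≤ w κ + w x₁) (hL5 : L ≤ w κ + w x₂) :
    trop_GE w L (2 * x₁ * x₂ * (x₁ + x₂) + β * x₁ * x₂ + 2 * κ * (x₁ + x₂)) := by
  have e : 2 * x₁ * x₂ * (x₁ + x₂) + β * x₁ * x₂ + 2 * κ * (x₁ + x₂)
      = 2 * x₁ * x₂ * x₁ + 2 * x₁ * x₂ * x₂ + β * x₁ * x₂ + 2 * κ * x₁ + 2 * κ * x₂ := by ring
  rw [e]
  have t1 : w (2 * x₁ * x₂ * x₁) = 2 * w x₁ + w x₂ := by
    rw [hm _ _ (mul_ne_zero (mul_ne_zero h2 h1) h2') h1, hm _ _ (mul_ne_zero h2 h1) h2',
      hm _ _ h2 h1, hw2]; ring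
  have t2 : w (2 * x₁ * x₂ * x₂) = w x₁ + 2 * w x₂ := by
    rw [hm _ _ (mul_ne_zero (mul_ne_zero h2 h1) h2') h2', hm _ _ (mul_ne_zero h2 h1) h2',
      hm _ _ h2 h1, hw2]; ring
  have t3 : w (β * x₁ * x₂) = w x₁ + w x₂ := by
    rw [hm _ _ (mul_ne_zero hβ0 h1) h2', hm _ _ hβ0 h1, hβ]; ring
  have t4 : w (2 * κ * x₁) = w κ + w x₁ := by
    rw [hm _ _ (mul_ne_zero h2 hκ0) h1, hm _ _ h2 hκ0, hw2]; ring
  have t5 : w (2 * κ * x₂) = w κ + w x₂ := by
    rw [hm _ _ (mul_ne_zero h2 hκ0) h2', hm _ _ h2 hκ0, hw2]; ring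
  exact trop_ge_add ha (trop_ge_add ha (trop_ge_add ha (trop_ge_add ha
    (trop_ge_mk (by rw [t1]; exact hL1)) (trop_ge_mk (by rw [t2]; exact hL2)))
    (trop_ge_mk (by rw [t3]; exact hL3))) (trop_ge_mk (by rw [t4]; exact hL4)))
    (trop_ge_mk (by rw [t5]; exact hL5))

/-- exact valuation of the numerator of the sum when `β x₁ x₂` dominates. -/
theorem trop_NS_eq (hm : ∀ x y : K, x ≠ 0 → y ≠ 0 → w (x * y) = w x + w y)
    (ha : ∀ x y : K, x ≠ 0 → y ≠ 0 → x + y ≠ 0 → min (w x) (w y) ≤ w (x + y))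
    {β κ x₁ x₂ : K} (h2 : (2 : K) ≠ 0) (hw2 : w 2 = 0) (hβ0 : β ≠ 0) (hβ : w β = 0)
    (hκ0 : κ ≠ 0) (h1 : x₁ ≠ 0) (h2' : x₂ ≠ 0)
    (hp1 : 0 < w x₁) (hp2 : 0 < w x₂) (hl1 : w x₁ < w κ) (hl2 : w x₂ < w κ) :
    2 * x₁ * x₂ * (x₁ + x₂) + β * x₁ * x₂ + 2 * κ * (x₁ + x₂) ≠ 0 ∧
    w (2 * x₁ * x₂ * (x₁ + x₂) + β * x₁ * x₂ + 2 * κ * (x₁ + x₂)) = w x₁ + w x₂ := by
  have e : 2 * x₁ * x₂ * (x₁ + x₂) + β * x₁ * x₂ + 2 * κ * (x₁ + x₂)
      = β * x₁ * x₂ + (2 * x₁ * x₂ * x₁ + 2 * x₁ * x₂ * x₂ + 2 * κ * x₁ + 2 * κ * x₂) := by ring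
  rw [e]
  have t1 : w (2 * x₁ * x₂ * x₁) = 2 * w x₁ + w x₂ := by
    rw [hm _ _ (mul_ne_zero (mul_ne_zero h2 h1) h2') h1, hm _ _ (mul_ne_zero h2 h1) h2',
      hm _ _ h2 h1, hw2]; ring
  have t2 : w (2 * x₁ * x₂ * x₂) = w x₁ + 2 * w x₂ := by
    rw [hm _ _ (mul_ne_zero (mul_ne_zero h2 h1) h2') h2', hm _ _ (mul_ne_zero h2 h1) h2',
      hm _ _ h2 h1, hw2]; ring
  have t3 : w (β * x₁ * x₂) = w x₁ + w x₂ := by
    rw [hm _ _ (mul_ne_zero hβ0 h1) h2', hm _ _ hβ0 h1, hβ]; ring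
  have t4 : w (2 * κ * x₁) = w κ + w x₁ := by
    rw [hm _ _ (mul_ne_zero h2 hκ0) h1, hm _ _ h2 hκ0, hw2]; ring
  have t5 : w (2 * κ * x₂) = w κ + w x₂ := by
    rw [hm _ _ (mul_ne_zero h2 hκ0) h2', hm _ _ h2 hκ0, hw2]; ring
  have hrest : trop_GT w (w (β * x₁ * x₂))
      (2 * x₁ * x₂ * x₁ + 2 * x₁ * x₂ * x₂ + 2 * κ * x₁ + 2 * κ * x₂) := by
    rw [t3]
    exact trop_gt_add ha (trop_gt_add ha (trop_gt_add ha
      (trop_gt_mk (by rw [t1]; linarith)) (trop_gt_mk (by rw [t2]; linarith)))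
      (trop_gt_mk (by rw [t4]; linarith))) (trop_gt_mk (by rw [t5]; linarith))
  have := trop_w_add_eq hm ha (mul_ne_zero (mul_ne_zero hβ0 h1) h2') hrest
  rw [t3] at this
  exact this

/-- **Tropical Kummer law**, ordered case `w x₁ ≤ w x₂`. -/
theorem trop_kummer_aux (hm : ∀ x y : K, x ≠ 0 → y ≠ 0 → w (x * y) = w x + w y)
    (ha : ∀ x y : K, x ≠ 0 → y ≠ 0 → x + y ≠ 0 → min (w x) (w y) ≤ w (x + y))
    {β κ x₁ x₂ zp zm : K} (h2 : (2 : K) ≠ 0) (hw2 : w 2 = 0) (hβ0 : β ≠ 0) (hβ : w β = 0)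
    (hκ0 : κ ≠ 0) (hκ : 0 < w κ) (h1 : x₁ ≠ 0) (h2' : x₂ ≠ 0) (hne : x₁ ≠ x₂)
    (hzp : zp ≠ 0) (hzm : zm ≠ 0)
    (hS : (zp + zm) * (x₁ - x₂) ^ 2 = 2 * x₁ * x₂ * (x₁ + x₂) + β * x₁ * x₂ + 2 * κ * (x₁ + x₂))
    (hP : zp * zm * (x₁ - x₂) ^ 2 = (x₁ * x₂ - κ) ^ 2) (hle : w x₁ ≤ w x₂) :
    (trop_nb w (w κ) zp = trop_fold (w κ) (trop_nb w (w κ) x₁ + trop_nb w (w κ) x₂) ∧
      trop_nb w (w κ) zm = |trop_nb w (w κ) x₁ - trop_nb w (w κ) x₂|) ∨
    (trop_nb w (w κ) zm = trop_fold (w κ) (trop_nb w (w κ) x₁ + trop_nb w (w κ) x₂) ∧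
      trop_nb w (w κ) zp = |trop_nb w (w κ) x₁ - trop_nb w (w κ) x₂|) := by
  have hΔ : x₁ - x₂ ≠ 0 := sub_ne_zero.mpr hne
  have hT : x₁ * x₂ - κ ≠ 0 := by
    intro h
    rw [h] at hP
    have : zp * zm * (x₁ - x₂) ^ 2 ≠ 0 := mul_ne_zero (mul_ne_zero hzp hzm) (pow_ne_zero 2 hΔ)
    exact this (by rw [hP]; ring)
  obtain ⟨hδ, hδeq⟩ := trop_delta hm ha h1 h2' hne hle
  obtain ⟨hT1, hT2, hT3⟩ := trop_T hm ha hκ0 h1 h2' hT
  have hm0 : (0 : ℝ) ≤ w κ := hκ.le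
  rcases le_or_gt (w x₂) 0 with hA | hpos2
  · -- Case A : both of type E
    have hx1 : w x₁ ≤ 0 := le_trans hle hA
    have hτ := hT1 (by linarith)
    have hNS := trop_NS_ge hm ha h2 hw2 hβ0 hβ hκ0 h1 h2' (L := 2 * w x₁ + w x₂)
      le_rfl (by linarith) (by linarith) (by linarith) (by linarith)
    obtain ⟨hzp', hzm'⟩ := trop_np_le hm ha hzp hzm hΔ hT hS hP hNS (by linarith) (by linarith)
    left
    rw [trop_nb_of_le hzp' hm0, trop_nb_of_le hzm' hm0, trop_nb_of_le hx1 hm0,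
      trop_nb_of_le hA hm0]
    simp [trop_fold, hm0]
  rcases le_or_gt (w x₁) 0 with hB | hpos1
  · -- Case B : x₁ of type E, x₂ not
    have hδ' := hδeq (by linarith)
    rcases lt_or_ge (w x₂) (w κ) with hlt | hge
    · have hτ := hT1 (by linarith)
      have hNS := trop_NS_ge hm ha h2 hw2 hβ0 hβ hκ0 h1 h2' (L := 2 * w x₁ + w x₂)
        le_rfl (by linarith) (by linarith) (by linarith) (by linarith)
      obtain ⟨hzp', hzm'⟩ := trop_np_eq hm ha hzp hzm hΔ hT hS hP hNS (by linarith)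
      left
      rw [trop_nb_of_mem (x := zp) (by linarith) (by linarith),
        trop_nb_of_mem (x := zm) (by linarith) (by linarith), trop_nb_of_le hB hm0,
        trop_nb_of_mem (x := x₂) hpos2.le hlt.le]
      constructor
      · unfold trop_fold
        rw [zero_add, min_eq_left (by linarith)]
        linarith
      · rw [zero_sub, abs_neg, abs_of_pos hpos2]
        linarith
    · rcases le_total (w x₁ + w x₂) (w κ) with hs | hs
      · have hτ := hT1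
        have hτ' : w x₁ + w x₂ ≤ w (x₁ * x₂ - κ) := by
          rcases hs.lt_or_eq with h | h
          · exact (hT1 h).ge
          · rw [h]; exact hT3 h.ge
        have hNS := trop_NS_ge hm ha h2 hw2 hβ0 hβ hκ0 h1 h2' (L := 2 * w x₁ + w x₂)
          le_rfl (by linarith) (by linarith) (by linarith) (by linarith)
        obtain ⟨hzp', hzm'⟩ := trop_np_ge hm ha hzp hzm hΔ hT hS hP (L' := w κ) hNS
          (by linarith) (by linarith)
        left
        rw [trop_nb_of_ge hzp' hm0, trop_nb_of_ge hzm' hm0, trop_nb_of_le hB hm0,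
          trop_nb_of_ge hge hm0]
        constructor
        · unfold trop_fold
          rw [zero_add, min_eq_left (by linarith)]
        · rw [zero_sub, abs_neg, abs_of_pos hκ]
      · have hτ' := hT3 hs
        have hNS := trop_NS_ge hm ha h2 hw2 hβ0 hβ hκ0 h1 h2' (L := w κ + w x₁)
          (by linarith) (by linarith) (by linarith) le_rfl (by linarith)
        obtain ⟨hzp', hzm'⟩ := trop_np_ge hm ha hzp hzm hΔ hT hS hP (L' := w κ) hNS
          (by linarith) (by linarith)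
        left
        rw [trop_nb_of_ge hzp' hm0, trop_nb_of_ge hzm' hm0, trop_nb_of_le hB hm0,
          trop_nb_of_ge hge hm0]
        constructor
        · unfold trop_fold
          rw [zero_add, min_eq_left (by linarith)]
        · rw [zero_sub, abs_neg, abs_of_pos hκ]
  -- Case C : both near the node
  rcases le_or_gt (w κ) (w x₁) with hCa | hlt1
  · -- C-a : both of type M
    have hge2 : w κ ≤ w x₂ := le_trans hCa hle
    have hτ := hT2 (by linarith)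
    have hNS := trop_NS_ge hm ha h2 hw2 hβ0 hβ hκ0 h1 h2' (L := 2 * w κ)
      (by linarith) (by linarith) (by linarith) (by linarith) (by linarith)
    obtain ⟨hzp', hzm'⟩ := trop_np_le hm ha hzp hzm hΔ hT hS hP hNS (by linarith) (by linarith)
    left
    rw [trop_nb_of_le hzp' hm0, trop_nb_of_le hzm' hm0, trop_nb_of_ge hCa hm0,
      trop_nb_of_ge hge2 hm0]
    constructor
    · unfold trop_fold
      rw [min_eq_right (by linarith)]
      ring
    · simp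
  rcases le_or_gt (w κ) (w x₂) with hCb | hlt2
  · -- C-b : x₁ of type N, x₂ of type M
    have hδ' := hδeq (by linarith)
    have hτ := hT2 (by linarith)
    have hNS := trop_NS_ge hm ha h2 hw2 hβ0 hβ hκ0 h1 h2' (L := w κ + w x₁)
      (by linarith) (by linarith) (by linarith) le_rfl (by linarith)
    obtain ⟨hzp', hzm'⟩ := trop_np_eq hm ha hzp hzm hΔ hT hS hP hNS (by linarith)
    left
    rw [trop_nb_of_mem (x := zp) (by linarith) (by linarith),
      trop_nb_of_mem (x := zm) (by linarith) (by linarith),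
      trop_nb_of_mem (x := x₁) hpos1.le hlt1.le, trop_nb_of_ge hCb hm0]
    constructor
    · unfold trop_fold
      rw [min_eq_right (by linarith)]
      linarith
    · rw [abs_of_neg (by linarith)]
      linarith
  -- both of type N
  obtain ⟨hNS0, hNSw⟩ := trop_NS_eq hm ha h2 hw2 hβ0 hβ hκ0 h1 h2' hpos1 hpos2 hlt1 hlt2
  have hn1 : trop_nb w (w κ) x₁ = w x₁ := trop_nb_of_mem hpos1.le hlt1.le
  have hn2 : trop_nb w (w κ) x₂ = w x₂ := trop_nb_of_mem hpos2.le hlt2.le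
  -- lower bound for τ
  have hτlow : w x₂ < w (x₁ * x₂ - κ) := by
    rcases lt_trichotomy (w x₁ + w x₂) (w κ) with h | h | h
    · rw [hT1 h]; linarith
    · have := hT3 h.ge; linarith
    · rw [hT2 h]; exact hlt2
  have hsplit := trop_np_split hm ha hzp hzm hΔ hT hS hP hNS0 hNSw (by linarith)
  -- the values of the two roots, in terms of `w Δ` and `w T`
  have key : ∀ {u v : K}, w u = w x₁ + w x₂ - 2 * w (x₁ - x₂) →
      w v = 2 * w (x₁ * x₂ - κ) - (w x₁ + w x₂) →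
      trop_nb w (w κ) v = trop_fold (w κ) (trop_nb w (w κ) x₁ + trop_nb w (w κ) x₂) ∧
      trop_nb w (w κ) u = |trop_nb w (w κ) x₁ - trop_nb w (w κ) x₂| := by
    intro u v hu hv
    rw [hn1, hn2]
    constructor
    · unfold trop_fold
      rcases lt_trichotomy (w x₁ + w x₂) (w κ) with h | h | h
      · have hτ := hT1 h
        rw [trop_nb_of_mem (x := v) (by linarith) (by linarith), min_eq_left (by linarith)]
        linarith
      · have hτ := hT3 h.ge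
        rw [trop_nb_of_ge (x := v) (by linarith) hm0, min_eq_left (by linarith)]
        linarith
      · have hτ := hT2 h
        rw [trop_nb_of_mem (x := v) (by linarith) (by linarith), min_eq_right (by linarith)]
        linarith
    · rcases hle.lt_or_eq with hlt | heq
      · have hδ' := hδeq hlt
        rw [trop_nb_of_mem (x := u) (by linarith) (by linarith), abs_of_neg (by linarith)]
        linarith
      · rw [trop_nb_of_le (x := u) (by linarith) hm0, heq]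
        simp
  rcases hsplit with ⟨hzp', hzm'⟩ | ⟨hzm', hzp'⟩
  · right
    exact key hzp' hzm'
  · left
    exact key hzm' hzp'

/-- **Tropical Kummer law**: for the roots `zp`, `zm` (`x`-coordinates of `P ± Q`) of the
quadratic given by the addition formulas, the clamped valuations are
`fold (n₁ + n₂)` and `|n₁ - n₂|` in some order. -/
theorem trop_kummer (hm : ∀ x y : K, x ≠ 0 → y ≠ 0 → w (x * y) = w x + w y)
    (ha : ∀ x y : K, x ≠ 0 → y ≠ 0 → x + y ≠ 0 → min (w x) (w y) ≤ w (x + y))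
    {β κ x₁ x₂ zp zm : K} (h2 : (2 : K) ≠ 0) (hw2 : w 2 = 0) (hβ0 : β ≠ 0) (hβ : w β = 0)
    (hκ0 : κ ≠ 0) (hκ : 0 < w κ) (h1 : x₁ ≠ 0) (h2' : x₂ ≠ 0) (hne : x₁ ≠ x₂)
    (hzp : zp ≠ 0) (hzm : zm ≠ 0)
    (hS : (zp + zm) * (x₁ - x₂) ^ 2 = 2 * x₁ * x₂ * (x₁ + x₂) + β * x₁ * x₂ + 2 * κ * (x₁ + x₂))
    (hP : zp * zm * (x₁ - x₂) ^ 2 = (x₁ * x₂ - κ) ^ 2) :
    (trop_nb w (w κ) zp = trop_fold (w κ) (trop_nb w (w κ) x₁ + trop_nb w (w κ) x₂) ∧
      trop_nb w (w κ) zm = |trop_nb w (w κ) x₁ - trop_nb w (w κ) x₂|) ∨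
    (trop_nb w (w κ) zm = trop_fold (w κ) (trop_nb w (w κ) x₁ + trop_nb w (w κ) x₂) ∧
      trop_nb w (w κ) zp = |trop_nb w (w κ) x₁ - trop_nb w (w κ) x₂|) := by
  rcases le_total (w x₁) (w x₂) with hle | hle
  · exact trop_kummer_aux hm ha h2 hw2 hβ0 hβ hκ0 hκ h1 h2' hne hzp hzm hS hP hle
  · have hS' : (zp + zm) * (x₂ - x₁) ^ 2
        = 2 * x₂ * x₁ * (x₂ + x₁) + β * x₂ * x₁ + 2 * κ * (x₂ + x₁) := by
      rw [show (x₂ - x₁) ^ 2 = (x₁ - x₂) ^ 2 by ring, hS]; ring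
    have hP' : zp * zm * (x₂ - x₁) ^ 2 = (x₂ * x₁ - κ) ^ 2 := by
      rw [show (x₂ - x₁) ^ 2 = (x₁ - x₂) ^ 2 by ring, hP]; ring
    have := trop_kummer_aux hm ha h2 hw2 hβ0 hβ hκ0 hκ h2' h1 (Ne.symm hne) hzp hzm hS' hP' hle
    rw [add_comm (trop_nb w (w κ) x₂), abs_sub_comm (trop_nb w (w κ) x₂)] at this
    exact this

/-- **Tropical duplication law**: `z` is the `x`-coordinate of `2P`
(`4 Y² = x (4 x² + β x + 4 κ)`). -/
theorem trop_dbl (hm : ∀ x y : K, x ≠ 0 → y ≠ 0 → w (x * y) = w x + w y)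
    (ha : ∀ x y : K, x ≠ 0 → y ≠ 0 → x + y ≠ 0 → min (w x) (w y) ≤ w (x + y))
    {β κ x z : K} (h2 : (2 : K) ≠ 0) (hw2 : w 2 = 0) (hβ0 : β ≠ 0) (hβ : w β = 0)
    (hκ0 : κ ≠ 0) (hκ : 0 < w κ) (hx : x ≠ 0) (hz0 : z ≠ 0)
    (hQ : 4 * x ^ 2 + β * x + 4 * κ ≠ 0)
    (hz : z * (x * (4 * x ^ 2 + β * x + 4 * κ)) = (x ^ 2 - κ) ^ 2) :
    trop_nb w (w κ) z = trop_fold (w κ) (2 * trop_nb w (w κ) x) := by
  have hm0 : (0 : ℝ) ≤ w κ := hκ.le
  have h4 : (4 : K) ≠ 0 := by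
    have : (4 : K) = 2 * 2 := by norm_num
    rw [this]; exact mul_ne_zero h2 h2
  have hw4 : w (4 : K) = 0 := by
    have : (4 : K) = 2 * 2 := by norm_num
    rw [this, hm _ _ h2 h2, hw2]; ring
  have hT : x ^ 2 - κ ≠ 0 := by
    intro h
    rw [h] at hz
    exact mul_ne_zero hz0 (mul_ne_zero hx hQ) (by rw [hz]; ring)
  have hx2 : x ^ 2 ≠ 0 := pow_ne_zero 2 hx
  have hwx2 : w (x ^ 2) = 2 * w x := trop_w_sq hm hx
  -- the relation between valuations
  have hrel : w z + w x + w (4 * x ^ 2 + β * x + 4 * κ) = 2 * w (x ^ 2 - κ) := by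
    have h1 : w (z * (x * (4 * x ^ 2 + β * x + 4 * κ)))
        = w z + w x + w (4 * x ^ 2 + β * x + 4 * κ) := by
      rw [hm _ _ hz0 (mul_ne_zero hx hQ), hm _ _ hx hQ]; ring
    rw [hz, trop_w_sq hm hT] at h1
    linarith
  -- valuations of the three terms of `Q`
  have t1 : w (4 * x ^ 2) = 2 * w x := by rw [hm _ _ h4 hx2, hw4, hwx2]; ring
  have t2 : w (β * x) = w x := by rw [hm _ _ hβ0 hx, hβ]; ring
  have t3 : w (4 * κ) = w κ := by rw [hm _ _ h4 hκ0, hw4]; ring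
  have hQge : ∀ L : ℝ, L ≤ 2 * w x → L ≤ w x → L ≤ w κ → L ≤ w (4 * x ^ 2 + β * x + 4 * κ) := by
    intro L h1 h2 h3
    have : trop_GE w L (4 * x ^ 2 + β * x + 4 * κ) :=
      trop_ge_add ha (trop_ge_add ha (trop_ge_mk (by rw [t1]; exact h1))
        (trop_ge_mk (by rw [t2]; exact h2))) (trop_ge_mk (by rw [t3]; exact h3))
    exact trop_ge_of_ne this hQ
  -- valuation of `T = x² - κ`
  have hT1 : 2 * w x < w κ → w (x ^ 2 - κ) = 2 * w x := by
    intro h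
    have := trop_w_add_eq hm ha hx2 (y := -κ) (trop_gt_mk (by rw [trop_w_neg hm hκ0, hwx2]; exact h))
    rw [← sub_eq_add_neg, hwx2] at this
    exact this.2
  have hT2 : w κ < 2 * w x → w (x ^ 2 - κ) = w κ := by
    intro h
    have := trop_w_add_eq hm ha (neg_ne_zero.mpr hκ0) (y := x ^ 2)
      (trop_gt_mk (by rw [trop_w_neg hm hκ0, hwx2]; exact h))
    rw [neg_add_eq_sub, trop_w_neg hm hκ0] at this
    exact this.2
  have hT3 : w κ ≤ 2 * w x → w κ ≤ w (x ^ 2 - κ) := by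
    intro h
    have h3 := ha (x ^ 2) (-κ) hx2 (neg_ne_zero.mpr hκ0) (by rwa [← sub_eq_add_neg])
    rw [trop_w_neg hm hκ0, hwx2, ← sub_eq_add_neg] at h3
    exact le_trans (le_min h le_rfl) h3
  unfold trop_fold
  rcases le_or_gt (w x) 0 with hE | hpos
  · -- type E
    have hτ := hT1 (by linarith)
    have hq := hQge (2 * w x) le_rfl (by linarith) (by linarith)
    rw [trop_nb_of_le (x := z) (by linarith) hm0, trop_nb_of_le hE hm0]
    simp [hm0]
  rcases le_or_gt (w κ) (w x) with hM | hlt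
  · -- type M
    have hτ := hT2 (by linarith)
    have hq := hQge (w κ) (by linarith) (by linarith) le_rfl
    rw [trop_nb_of_le (x := z) (by linarith) hm0, trop_nb_of_ge hM hm0,
      min_eq_right (by linarith)]
    ring
  · -- type N
    have hq : 4 * x ^ 2 + β * x + 4 * κ ≠ 0 ∧ w (4 * x ^ 2 + β * x + 4 * κ) = w x := by
      have e : 4 * x ^ 2 + β * x + 4 * κ = β * x + (4 * x ^ 2 + 4 * κ) := by ring
      rw [e]
      have := trop_w_add_eq hm ha (mul_ne_zero hβ0 hx) (y := 4 * x ^ 2 + 4 * κ)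
        (trop_gt_add ha (trop_gt_mk (by rw [t1, t2]; linarith)) (trop_gt_mk (by rw [t3, t2]; linarith)))
      rw [t2] at this
      exact this
    rw [trop_nb_of_mem (x := x) hpos.le hlt.le]
    rcases lt_trichotomy (2 * w x) (w κ) with h | h | h
    · have hτ := hT1 h
      rw [trop_nb_of_mem (x := z) (by linarith) (by linarith), min_eq_left (by linarith)]
      linarith
    · have hτ := hT3 h.ge
      rw [trop_nb_of_ge (x := z) (by linarith) hm0, min_eq_left (by linarith)]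
      linarith
    · have hτ := hT2 h
      rw [trop_nb_of_mem (x := z) (by linarith) (by linarith), min_eq_right (by linarith)]
      linarith

end kummer

section seq

/-- `x ≡ ± y` modulo `2 m ℤ`. -/
def trop_R (m x y : ℝ) : Prop := ∃ j : ℤ, x = y + 2 * m * j ∨ x = -y + 2 * m * j

theorem trop_R_refl (m x : ℝ) : trop_R m x x := ⟨0, Or.inl (by simp)⟩

theorem trop_R_symm {m x y : ℝ} (h : trop_R m x y) : trop_R m y x := by
  obtain ⟨j, h | h⟩ := h
  · exact ⟨-j, Or.inl (by push_cast; linarith)⟩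
  · exact ⟨j, Or.inr (by linarith)⟩

theorem trop_R_trans {m x y z : ℝ} (h₁ : trop_R m x y) (h₂ : trop_R m y z) : trop_R m x z := by
  obtain ⟨j, h | h⟩ := h₁ <;> obtain ⟨k, h' | h'⟩ := h₂
  · exact ⟨j + k, Or.inl (by push_cast; linarith)⟩
  · exact ⟨j + k, Or.inr (by push_cast; linarith)⟩
  · exact ⟨j - k, Or.inr (by push_cast; linarith)⟩
  · exact ⟨j - k, Or.inl (by push_cast; linarith)⟩

theorem trop_R_neg {m x y : ℝ} (h : trop_R m x y) : trop_R m x (-y) := by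
  obtain ⟨j, h | h⟩ := h
  · exact ⟨j, Or.inr (by linarith)⟩
  · exact ⟨j, Or.inl (by linarith)⟩

theorem trop_R_fold (m s : ℝ) : trop_R m (trop_fold m s) s := by
  unfold trop_fold
  rcases le_total s (2 * m - s) with h | h
  · rw [min_eq_left h]; exact trop_R_refl m s
  · rw [min_eq_right h]; exact ⟨1, Or.inr (by push_cast; ring)⟩

theorem trop_R_abs (m s : ℝ) : trop_R m |s| s := by
  rcases abs_cases s with ⟨h, _⟩ | ⟨h, _⟩
  · rw [h]; exact trop_R_refl m s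
  · rw [h]; exact ⟨0, Or.inr (by simp)⟩

/-- `[0, m]` is a fundamental domain. -/
theorem trop_R_fund {m x y : ℝ} (hm : 0 < m) (hx0 : 0 ≤ x) (hxm : x ≤ m) (hy0 : 0 ≤ y)
    (hym : y ≤ m) (h : trop_R m x y) : x = y := by
  obtain ⟨j, h | h⟩ := h
  · -- x - y = 2 m j, |x - y| ≤ m
    have hj : j = 0 := by
      by_contra hj
      rcases lt_or_gt_of_ne hj with hj | hj
      · have : (j : ℝ) ≤ -1 := by exact_mod_cast Int.le_sub_one_of_lt hj
        nlinarith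
      · have : (1 : ℝ) ≤ j := by exact_mod_cast Int.add_one_le_of_lt hj
        nlinarith
    rw [hj] at h
    simpa using h
  · -- x + y = 2 m j
    have hj0 : 0 ≤ j := by
      by_contra hj
      have : (j : ℝ) ≤ -1 := by exact_mod_cast Int.le_sub_one_of_lt (not_le.mp hj)
      nlinarith
    have hj1 : j ≤ 1 := by
      by_contra hj
      have : (2 : ℝ) ≤ j := by exact_mod_cast Int.add_one_le_of_lt (not_le.mp hj)
      nlinarith
    have : j = 0 ∨ j = 1 := by omega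
    rcases this with rfl | rfl
    · have : x + y = 0 := by simpa using (by linarith : x + y = 2 * m * ((0 : ℤ) : ℝ))
      linarith
    · have : x + y = 2 * m := by
        have := h; push_cast at this; linarith
      linarith

theorem trop_R_step {m x r : ℝ} {k : ℝ} (h : trop_R m x (k * r)) :
    (trop_R m (x + r) ((k + 1) * r) ∧ trop_R m (x - r) ((k - 1) * r)) ∨
    (trop_R m (x + r) ((k - 1) * r) ∧ trop_R m (x - r) ((k + 1) * r)) := by
  obtain ⟨j, h | h⟩ := h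
  · left
    exact ⟨⟨j, Or.inl (by linarith)⟩, ⟨j, Or.inl (by linarith)⟩⟩
  · right
    exact ⟨⟨j, Or.inr (by linarith)⟩, ⟨j, Or.inr (by linarith)⟩⟩

/-- The induction behind `nbar (k P) = dist (k * nbar P, 2 m ℤ)`: a sequence obeying the
tropical Kummer law has `c k ≡ ± k * c 1` modulo `2 m`. -/
theorem trop_seq_R {m : ℝ} (hm : 0 < m) {p : ℕ} (c : ℕ → ℝ)
    (hc : ∀ k, 1 ≤ k → k ≤ p - 1 → 0 ≤ c k ∧ c k ≤ m)
    (h2 : c 2 = trop_fold m (2 * c 1))
    (hstep : ∀ k, 2 ≤ k → k ≤ p - 2 →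
      (c (k + 1) = trop_fold m (c k + c 1) ∧ c (k - 1) = |c k - c 1|) ∨
      (c (k - 1) = trop_fold m (c k + c 1) ∧ c (k + 1) = |c k - c 1|)) :
    ∀ n k, k ≤ n → 1 ≤ k → k ≤ p - 1 → trop_R m (c k) (k * c 1) := by
  intro n
  induction n with
  | zero => intro k hk h1; omega
  | succ n ih =>
    intro k hk h1 hkp
    rcases Nat.lt_or_ge k (n + 1) with hlt | hge
    · exact ih k (by omega) h1 hkp
    have hkn : k = n + 1 := by omega
    subst hkn
    rcases Nat.lt_or_ge n 1 with hn0 | hn1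
    · -- k = 1
      have : n = 0 := by omega
      subst this
      simpa using trop_R_refl m (c 1)
    rcases Nat.lt_or_ge n 2 with hn1' | hn2
    · -- k = 2
      have : n = 1 := by omega
      subst this
      rw [show (1 + 1 : ℕ) = 2 from rfl, h2]
      have := trop_R_fold m (2 * c 1)
      simpa using this
    -- k = n + 1 ≥ 3 : use the step at `n`
    have hRn := ih n le_rfl (by omega) (by omega)
    have hRn1 := ih (n - 1) (by omega) (by omega) (by omega)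
    have hcast : ((n - 1 : ℕ) : ℝ) = (n : ℝ) - 1 := by
      rw [Nat.cast_sub (by omega)]; simp
    rw [hcast] at hRn1
    have hb1 := hc (n + 1) (by omega) hkp
    have hb2 := hc (n - 1) (by omega) (by omega)
    have key := trop_R_step hRn
    have hfold := trop_R_fold m (c n + c 1)
    have habs := trop_R_abs m (c n - c 1)
    push_cast
    rcases hstep n hn2 (by omega) with ⟨e1, e2⟩ | ⟨e1, e2⟩
    · rcases key with ⟨k1, k2⟩ | ⟨k1, k2⟩
      · rw [e1]; exact trop_R_trans hfold k1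
      · -- c (n+1) ≡ (n-1) r, c (n-1) ≡ (n+1) r, and c (n-1) ≡ (n-1) r
        have a1 : trop_R m (c (n + 1)) ((n - 1) * c 1) := by rw [e1]; exact trop_R_trans hfold k1
        have a2 : trop_R m (c (n - 1)) ((n + 1) * c 1) := by rw [e2]; exact trop_R_trans habs k2
        have a3 : trop_R m (c (n + 1)) (c (n - 1)) := trop_R_trans a1 (trop_R_symm hRn1)
        have a4 := trop_R_fund hm hb1.1 hb1.2 hb2.1 hb2.2 a3
        rw [a4]; exact a2
    · rcases key with ⟨k1, k2⟩ | ⟨k1, k2⟩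
      · have a1 : trop_R m (c (n + 1)) ((n - 1) * c 1) := by rw [e2]; exact trop_R_trans habs k2
        have a2 : trop_R m (c (n - 1)) ((n + 1) * c 1) := by rw [e1]; exact trop_R_trans hfold k1
        have a3 : trop_R m (c (n + 1)) (c (n - 1)) := trop_R_trans a1 (trop_R_symm hRn1)
        have a4 := trop_R_fund hm hb1.1 hb1.2 hb2.1 hb2.2 a3
        rw [a4]; exact a2
      · rw [e2]; exact trop_R_trans habs k2

/-- Conclusion for a point of odd order `p`: `p * c 1 ∈ 2 m ℕ` and `c 1 < m`. -/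
theorem trop_seq {m : ℝ} (hm : 0 < m) {p : ℕ} (hp : Odd p) (hp3 : 3 ≤ p) (c : ℕ → ℝ)
    (hc : ∀ k, 1 ≤ k → k ≤ p - 1 → 0 ≤ c k ∧ c k ≤ m)
    (h2 : c 2 = trop_fold m (2 * c 1))
    (hstep : ∀ k, 2 ≤ k → k ≤ p - 2 →
      (c (k + 1) = trop_fold m (c k + c 1) ∧ c (k - 1) = |c k - c 1|) ∨
      (c (k - 1) = trop_fold m (c k + c 1) ∧ c (k + 1) = |c k - c 1|))
    (hp1 : c (p - 1) = c 1) (hp2 : c (p - 2) = c 2) :
    c 1 < m ∧ ∃ j : ℕ, (p : ℝ) * c 1 = 2 * m * j := by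
  have hR := trop_seq_R hm c hc h2 hstep
  have hb := hc 1 le_rfl (by omega)
  -- (A) from k = p - 1
  have hA := hR (p - 1) (p - 1) le_rfl (by omega) le_rfl
  rw [hp1, Nat.cast_sub (by omega)] at hA
  -- (B) from k = p - 2
  have hB := hR (p - 2) (p - 2) le_rfl (by omega) (by omega)
  rw [hp2, h2, Nat.cast_sub (by omega)] at hB
  have hB' : trop_R m (2 * c 1) (((p : ℝ) - ((2 : ℕ) : ℝ)) * c 1) :=
    trop_R_trans (trop_R_symm (trop_R_fold m (2 * c 1))) hB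
  push_cast at hA hB'
  -- the integrality statement
  have hint : ∃ j : ℤ, (p : ℝ) * c 1 = 2 * m * j := by
    obtain ⟨j, hA | hA⟩ := hA
    · obtain ⟨k, hB | hB⟩ := hB'
      · -- (p-2) r = -2 m j, (p-4) r = -2 m k
        have hr : c 1 = m * (k - j) := by nlinarith
        have hk : (0 : ℝ) ≤ (k - j : ℤ) := by
          push_cast
          by_contra hneg
          have hneg' := not_le.mp hneg
          nlinarith
        have hk1 : ((k - j : ℤ) : ℝ) ≤ 1 := by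
          push_cast
          by_contra hneg
          have hneg' := not_le.mp hneg
          nlinarith
        have hk0 : 0 ≤ k - j := by exact_mod_cast hk
        have hk1' : k - j ≤ 1 := by exact_mod_cast hk1
        have : k - j = 0 ∨ k - j = 1 := by omega
        rcases this with h0 | h1
        · refine ⟨0, ?_⟩
          have : (k : ℝ) - j = 0 := by exact_mod_cast h0
          rw [hr, this]; simp
        · exfalso
          have h1' : (k : ℝ) - j = 1 := by exact_mod_cast h1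
          have hrm : c 1 = m := by rw [hr, h1']; ring
          rw [hrm] at hA
          -- m = (p - 1) m + 2 m j  ⟹  p - 2 = -2 j
          have : (p : ℝ) - 2 = -2 * j := by
            have h3 : m * ((p : ℝ) - 2 + 2 * j) = 0 := by linarith
            rcases mul_eq_zero.mp h3 with h | h
            · exact absurd h hm.ne'
            · linarith
          have hz : (p : ℤ) - 2 = -2 * j := by exact_mod_cast this
          obtain ⟨t, ht⟩ := hp
          omega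
      · exact ⟨k, by linarith⟩
    · exact ⟨j, by linarith⟩
  obtain ⟨j, hj⟩ := hint
  have hj0 : 0 ≤ j := by
    by_contra hneg
    have : (j : ℝ) ≤ -1 := by exact_mod_cast Int.le_sub_one_of_lt (not_le.mp hneg)
    have hp0 : (0 : ℝ) ≤ (p : ℝ) * c 1 := mul_nonneg (Nat.cast_nonneg p) hb.1
    nlinarith
  refine ⟨?_, j.toNat, ?_⟩
  · rcases hb.2.lt_or_eq with h | h
    · exact h
    · exfalso
      rw [h] at hj
      have : (p : ℝ) = 2 * j := by
        have h3 : m * ((p : ℝ) - 2 * j) = 0 := by linarith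
        rcases mul_eq_zero.mp h3 with h | h
        · exact absurd h hm.ne'
        · linarith
      have hz : (p : ℤ) = 2 * j := by exact_mod_cast this
      obtain ⟨t, ht⟩ := hp
      omega
  · rw [hj]
    congr 1
    have : ((j.toNat : ℤ) : ℝ) = (j : ℝ) := by rw [Int.toNat_of_nonneg hj0]
    exact_mod_cast this.symm

end seq

end Fermat.Agent.K5
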