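import Fermat.Agent.Lib.K5_Alg
import Fermat.Agent.Lib.K5_Trop
import Fermat.Agent.Lib.F5_E1
import Fermat.Agent.Lib.F5_Frey

/-!
# K5_Node : the multiplicative case of S05 via the tropical Kummer law (insurance track)

For a Frey-type curve `W` (`IsFreyW W a b`) with a recentring `(e₁, e₂, e₃)` of its roots we use the
coordinates `nx P = 4 x - e₁` and `ny P = 8 (2 y + x)` of a point; then
`ny² = 4 nx (nx - D) (nx + U)` with `D = e₂ - e₁`, `U = e₁ - e₃`, and the `x`-only addition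
formulas of `K5_Alg` take exactly the shape needed by `trop_kummer` / `trop_dbl` of `K5_Trop`.
-/

set_option autoImplicit false

namespace Fermat.Agent.K5

open WeierstrassCurve WeierstrassCurve.Affine Fermat.Agent.F5

section Coord

variable {K : Type*} [Field K] {W : WeierstrassCurve.Affine K} {a b e₁ e₂ e₃ : K}

/-- the recentred coordinate `4 x - e₁` of a point -/
def nx (e₁ : K) (P : W.Point) : K := 4 * px P - e₁

/-- the coordinate `8 (2 y + a₁ x + a₃)` of a point -/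
def ny (P : W.Point) : K := 8 * pe P

lemma node_b₂ (hW : IsFreyW W a b) [CharZero K] : W.b₂ = b - a := by
  rw [WeierstrassCurve.b₂, hW.a1, hW.a2]
  ring

lemma node_b₄ (hW : IsFreyW W a b) [CharZero K] : W.b₄ = -(a * b) / 8 := by
  rw [WeierstrassCurve.b₄, hW.a1, hW.a3, hW.a4]
  ring

lemma node_b₆ (hW : IsFreyW W a b) : W.b₆ = 0 := by
  rw [WeierstrassCurve.b₆, hW.a3, hW.a6]
  ring

@[simp] lemma nx_neg (e₁ : K) (P : W.Point) : nx e₁ (-P) = nx e₁ P := by
  rw [nx, nx, px_neg]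

@[simp] lemma ny_neg (P : W.Point) : ny (-P) = -ny P := by
  rw [ny, ny, pe_neg]
  ring

/-- the curve equation in the recentred coordinates -/
lemma ny_sq [CharZero K] (hW : IsFreyW W a b) (hr : IsRecentring a b e₁ e₂ e₃) {P : W.Point}
    (hP : P ≠ 0) :
    ny P ^ 2 = 4 * nx e₁ P ^ 3 + (4 * ((e₁ - e₃) - (e₂ - e₁))) * nx e₁ P ^ 2 +
      2 * (2 * (-((e₂ - e₁) * (e₁ - e₃)))) * nx e₁ P + 0 := by
  have h := pe_sq hP
  rw [cubicG, node_b₂ hW, node_b₄ hW, node_b₆ hW] at h
  rw [ny, nx]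
  linear_combination 64 * h + 64 * px P ^ 2 * hr.sum - 16 * px P * hr.pair + 4 * hr.prod

/-- pure algebra behind the duplication formula -/
lemma dup_aux {F : Type*} [Field F] (h2 : (2 : F) ≠ 0) {b₂ b₄ b₆ b₈ x η z : F}
    (hb : 4 * b₈ = b₂ * b₆ - b₄ ^ 2)
    (h₁ : η ^ 2 = 4 * x ^ 3 + b₂ * x ^ 2 + 2 * b₄ * x + b₆)
    (hz : 4 * z * η ^ 2 = (6 * x ^ 2 + b₂ * x + b₄) ^ 2 - (b₂ + 8 * x) * η ^ 2) :
    z * (4 * x ^ 3 + b₂ * x ^ 2 + 2 * b₄ * x + b₆) = x ^ 4 - b₄ * x ^ 2 - 2 * b₆ * x - b₈ := by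
  have h4 : (4 : F) ≠ 0 := by
    have : (4 : F) = 2 * 2 := by norm_num
    rw [this]
    exact mul_ne_zero h2 h2
  have key : 4 * (z * (4 * x ^ 3 + b₂ * x ^ 2 + 2 * b₄ * x + b₆) -
      (x ^ 4 - b₄ * x ^ 2 - 2 * b₆ * x - b₈)) = 0 := by
    linear_combination hz + (-4 * z - (b₂ + 8 * x)) * h₁ + hb
  rcases mul_eq_zero.mp key with h | h
  · exact absurd h h4
  · exact sub_eq_zero.mp h

variable [DecidableEq K] [CharZero K]

/-- chord addition in the recentred coordinates -/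
lemma nx_add_of_px_ne (hW : IsFreyW W a b) (hr : IsRecentring a b e₁ e₂ e₃) {P Q : W.Point}
    (hP : P ≠ 0) (hQ : Q ≠ 0) (hx : px P ≠ px Q) :
    4 * nx e₁ (P + Q) * (nx e₁ P - nx e₁ Q) ^ 2 =
      (ny P - ny Q) ^ 2 - (4 * ((e₁ - e₃) - (e₂ - e₁)) + 4 * (nx e₁ P + nx e₁ Q)) *
        (nx e₁ P - nx e₁ Q) ^ 2 := by
  have h := px_add_of_px_ne hP hQ hx
  rw [node_b₂ hW] at h
  rw [nx, nx, nx, ny, ny]
  linear_combination 64 * h - 64 * (px P - px Q) ^ 2 * hr.sum

/-- chord subtraction in the recentred coordinates -/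
lemma nx_sub_of_px_ne (hW : IsFreyW W a b) (hr : IsRecentring a b e₁ e₂ e₃) {P Q : W.Point}
    (hP : P ≠ 0) (hQ : Q ≠ 0) (hx : px P ≠ px Q) :
    4 * nx e₁ (P - Q) * (nx e₁ P - nx e₁ Q) ^ 2 =
      (ny P + ny Q) ^ 2 - (4 * ((e₁ - e₃) - (e₂ - e₁)) + 4 * (nx e₁ P + nx e₁ Q)) *
        (nx e₁ P - nx e₁ Q) ^ 2 := by
  have h := nx_add_of_px_ne hW hr hP (neg_ne_zero_of_ne_zero hQ) (by simpa using hx)
  rw [sub_eq_add_neg]
  simpa using h

/-- the sum `X(P+Q) + X(P-Q)` in the recentred coordinates -/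
lemma nx_sigma (hW : IsFreyW W a b) (hr : IsRecentring a b e₁ e₂ e₃) {P Q : W.Point}
    (hP : P ≠ 0) (hQ : Q ≠ 0) (hx : px P ≠ px Q) :
    (nx e₁ (P + Q) + nx e₁ (P - Q)) * (nx e₁ P - nx e₁ Q) ^ 2 =
      2 * nx e₁ P * nx e₁ Q * (nx e₁ P + nx e₁ Q) +
        (4 * ((e₁ - e₃) - (e₂ - e₁))) * nx e₁ P * nx e₁ Q +
        2 * (-((e₂ - e₁) * (e₁ - e₃))) * (nx e₁ P + nx e₁ Q) := by
  have h := sigma_aux (two_ne_zero) (ny_sq hW hr hP) (ny_sq hW hr hQ)
    (nx_add_of_px_ne hW hr hP hQ hx) (nx_sub_of_px_ne hW hr hP hQ hx)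
  linear_combination h

/-- the product `X(P+Q) X(P-Q)` in the recentred coordinates -/
lemma nx_pi (hW : IsFreyW W a b) (hr : IsRecentring a b e₁ e₂ e₃) {P Q : W.Point}
    (hP : P ≠ 0) (hQ : Q ≠ 0) (hx : px P ≠ px Q) :
    nx e₁ (P + Q) * nx e₁ (P - Q) * (nx e₁ P - nx e₁ Q) ^ 2 =
      (nx e₁ P * nx e₁ Q - (-((e₂ - e₁) * (e₁ - e₃)))) ^ 2 := by
  have hne : nx e₁ P ≠ nx e₁ Q := by
    intro h
    apply hx
    have : 4 * (px P - px Q) = 0 := by
      rw [nx, nx] at h
      linear_combination h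
    rcases mul_eq_zero.mp this with h4 | h4
    · exact absurd h4 (by norm_num)
    · exact sub_eq_zero.mp h4
  have h := pi_aux (b₈ := -(-((e₂ - e₁) * (e₁ - e₃))) ^ 2) (two_ne_zero) (by ring) hne
    (ny_sq hW hr hP) (ny_sq hW hr hQ)
    (nx_add_of_px_ne hW hr hP hQ hx) (nx_sub_of_px_ne hW hr hP hQ hx)
  linear_combination h

/-- duplication in the recentred coordinates -/
lemma nx_add_self (hW : IsFreyW W a b) (hr : IsRecentring a b e₁ e₂ e₃) {P : W.Point}
    (he : pe P ≠ 0) :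
    4 * nx e₁ (P + P) * ny P ^ 2 =
      (6 * nx e₁ P ^ 2 + (4 * ((e₁ - e₃) - (e₂ - e₁))) * nx e₁ P +
        2 * (-((e₂ - e₁) * (e₁ - e₃)))) ^ 2 -
      ((4 * ((e₁ - e₃) - (e₂ - e₁))) + 8 * nx e₁ P) * ny P ^ 2 := by
  have h := px_add_self he
  rw [node_b₂ hW, node_b₄ hW] at h
  rw [nx, nx, ny]
  linear_combination 256 * h +
    (16 * px P * ((96 * px P ^ 2 + 16 * (b - a) * px P - 2 * (a * b)) +
      (6 * (4 * px P - e₁) ^ 2 + (4 * ((e₁ - e₃) - (e₂ - e₁))) * (4 * px P - e₁) +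
        2 * (-((e₂ - e₁) * (e₁ - e₃))))) - 256 * pe P ^ 2) * hr.sum -
    2 * ((96 * px P ^ 2 + 16 * (b - a) * px P - 2 * (a * b)) +
      (6 * (4 * px P - e₁) ^ 2 + (4 * ((e₁ - e₃) - (e₂ - e₁))) * (4 * px P - e₁) +
        2 * (-((e₂ - e₁) * (e₁ - e₃))))) * hr.pair

/-- duplication in the shape needed by `trop_dbl` -/
lemma nx_dup (hW : IsFreyW W a b) (hr : IsRecentring a b e₁ e₂ e₃) {P : W.Point}
    (he : pe P ≠ 0) :
    nx e₁ (P + P) * (nx e₁ P * (4 * nx e₁ P ^ 2 + (4 * ((e₁ - e₃) - (e₂ - e₁))) * nx e₁ P +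
      4 * (-((e₂ - e₁) * (e₁ - e₃))))) = (nx e₁ P ^ 2 - (-((e₂ - e₁) * (e₁ - e₃)))) ^ 2 := by
  have hP : P ≠ 0 := by
    rintro rfl
    exact he rfl
  have h := dup_aux (b₈ := -(-((e₂ - e₁) * (e₁ - e₃))) ^ 2) (two_ne_zero) (by ring)
    (ny_sq hW hr hP) (nx_add_self hW hr he)
  linear_combination h

end Coord

/-! ### Points of odd prime order -/

section Tors

variable {K : Type*} [Field K] [DecidableEq K] [CharZero K] {A : ValuationSubring K}
  {W : WeierstrassCurve.Affine K} {a b e₁ e₂ e₃ : K}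

omit [CharZero K] in
lemma tors_nsmul_ne_zero {P : W.Point} {p : ℕ} (hp : p.Prime) (hP : P ≠ 0) (hpP : p • P = 0)
    {k : ℕ} (hk0 : 0 < k) (hkp : k < p) : k • P ≠ 0 := by
  intro h
  have : Fact p.Prime := ⟨hp⟩
  have ho : addOrderOf P = p := addOrderOf_eq_prime hpP hP
  have hd := addOrderOf_dvd_of_nsmul_eq_zero h
  rw [ho] at hd
  exact absurd (Nat.le_of_dvd hk0 hd) (not_le.mpr hkp)

omit [CharZero K] in
lemma tors_pe_ne_zero {P : W.Point} {p : ℕ} (hp : p.Prime) (hp2 : p ≠ 2) (hP : P ≠ 0)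
    (hpP : p • P = 0) {k : ℕ} (hk0 : 0 < k) (hkp : k < p) : pe (k • P) ≠ 0 := by
  intro h
  have : Fact p.Prime := ⟨hp⟩
  have h2 : (2 * k) • P = 0 := by
    rw [two_mul, add_nsmul]
    exact add_self_eq_zero_of_pe_eq_zero h
  have ho : addOrderOf P = p := addOrderOf_eq_prime hpP hP
  have hd := addOrderOf_dvd_of_nsmul_eq_zero h2
  rw [ho] at hd
  rcases (Nat.Prime.dvd_mul hp).mp hd with h' | h'
  · exact hp2 ((Nat.prime_dvd_prime_iff_eq hp Nat.prime_two).mp h')
  · exact absurd (Nat.le_of_dvd hk0 h') (not_le.mpr hkp)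

lemma tors_nx_ne_zero (hW : IsFreyW W a b) (hr : IsRecentring a b e₁ e₂ e₃) {P : W.Point}
    {p : ℕ} (hp : p.Prime) (hp2 : p ≠ 2) (hP : P ≠ 0)
    (hpP : p • P = 0) {k : ℕ} (hk0 : 0 < k) (hkp : k < p) : nx e₁ (k • P) ≠ 0 := by
  intro h
  have h1 := ny_sq hW hr (tors_nsmul_ne_zero hp hP hpP hk0 hkp)
  rw [h] at h1
  have h2 : ny (k • P) = 0 := by
    have : ny (k • P) ^ 2 = 0 := by rw [h1]; ring
    exact pow_eq_zero_iff (by norm_num) |>.mp this
  have h3 : pe (k • P) = 0 := by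
    rw [ny] at h2
    rcases mul_eq_zero.mp h2 with h8 | h8
    · exact absurd h8 (by norm_num)
    · exact h8
  exact tors_pe_ne_zero hp hp2 hP hpP hk0 hkp h3

lemma tors_px_ne {P : W.Point} {p : ℕ} (hp : p.Prime) (hP : P ≠ 0)
    (hpP : p • P = 0) {k : ℕ} (hk2 : 2 ≤ k) (hkp : k + 2 ≤ p) : px (k • P) ≠ px P := by
  intro h
  have hk : k • P ≠ 0 := tors_nsmul_ne_zero hp hP hpP (by omega) (by omega)
  rcases eq_or_eq_neg_of_px_eq (two_ne_zero) hk hP h with h' | h'
  · -- `(k - 1) • P = 0`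
    have : (k - 1) • P = 0 := by
      have e : k • P = (k - 1) • P + P := by
        rw [← succ_nsmul]
        congr 1
        omega
      rw [e] at h'
      exact add_eq_right.mp h'
    exact tors_nsmul_ne_zero hp hP hpP (by omega) (by omega) this
  · -- `(k + 1) • P = 0`
    have : (k + 1) • P = 0 := by
      rw [succ_nsmul, h']
      exact neg_add_cancel P
    exact tors_nsmul_ne_zero hp hP hpP (by omega) (by omega) this

/-- **The class of a point of odd prime order `p`**: with `m = w (e₂ - e₁) > 0` and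
`n = trop_nb (w (4 x - e₁))` the clamped valuation of the recentred coordinate, `n < m` and
`p * n ∈ 2 m ℕ`. -/
theorem node_class (hW : IsFreyW W a b) (hr : IsRecentring a b e₁ e₂ e₃) (v : RVal A)
    (h2 : v.w (2 : K) = 0) (hD0 : e₂ - e₁ ≠ 0) (hD : 0 < v.w (e₂ - e₁)) (hU0 : e₁ - e₃ ≠ 0)
    (hU : v.w (e₁ - e₃) = 0) {p : ℕ} (hp : p.Prime) (hp2 : p ≠ 2) {P : W.Point} (hP : P ≠ 0)
    (hpP : p • P = 0) :
    nx e₁ P ≠ 0 ∧ trop_nb v.w (v.w (e₂ - e₁)) (nx e₁ P) < v.w (e₂ - e₁) ∧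
      ∃ j : ℕ, (p : ℝ) * trop_nb v.w (v.w (e₂ - e₁)) (nx e₁ P) = 2 * v.w (e₂ - e₁) * j := by
  have hp3 : 3 ≤ p := by
    have := hp.two_le
    omega
  have hpodd : Odd p := hp.odd_of_ne_two hp2
  have h20 : (2 : K) ≠ 0 := two_ne_zero
  have h40 : (4 : K) ≠ 0 := by norm_num
  have hw4 : v.w (4 : K) = 0 := by
    have : (4 : K) = 2 * 2 := by norm_num
    rw [this, v.w_mul _ _ h20 h20, h2]
    ring
  -- the constants
  have hUD := RVal.w_sub_of_wgt (v := v) hU0 (show v.Wgt (e₂ - e₁) (v.w (e₁ - e₃)) from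
    Or.inr (by rw [hU]; exact hD))
  have hβ0 : 4 * ((e₁ - e₃) - (e₂ - e₁)) ≠ 0 := mul_ne_zero h40 hUD.1
  have hβ : v.w (4 * ((e₁ - e₃) - (e₂ - e₁))) = 0 := by
    rw [v.w_mul _ _ h40 hUD.1, hw4, hUD.2, hU]
    ring
  have hκ0 : -((e₂ - e₁) * (e₁ - e₃)) ≠ 0 := neg_ne_zero.mpr (mul_ne_zero hD0 hU0)
  have hκw : v.w (-((e₂ - e₁) * (e₁ - e₃))) = v.w (e₂ - e₁) := by
    rw [v.w_neg, v.w_mul _ _ hD0 hU0, hU]
    ring
  have hκ : 0 < v.w (-((e₂ - e₁) * (e₁ - e₃))) := by rw [hκw]; exact hD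
  have hnx : ∀ k : ℕ, 0 < k → k < p → nx e₁ (k • P) ≠ 0 := fun k hk0 hkp =>
    tors_nx_ne_zero hW hr hp hp2 hP hpP hk0 hkp
  have hnx1 : nx e₁ P ≠ 0 := by
    have := hnx 1 (by omega) (by omega)
    rwa [one_nsmul] at this
  have hpe1 : pe P ≠ 0 := by
    have := tors_pe_ne_zero hp hp2 hP hpP (k := 1) (by omega) (by omega)
    rwa [one_nsmul] at this
  refine ⟨hnx1, ?_⟩
  -- the sequence of classes
  have key := trop_seq (m := v.w (e₂ - e₁)) hD hpodd hp3
    (fun k => trop_nb v.w (v.w (e₂ - e₁)) (nx e₁ (k • P)))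
    (fun k _ _ => ⟨trop_nb_nonneg, trop_nb_le hD.le⟩) ?_ ?_ ?_ ?_
  · simp only [one_nsmul] at key
    exact key
  · -- duplication
    show trop_nb v.w (v.w (e₂ - e₁)) (nx e₁ (2 • P)) =
      trop_fold (v.w (e₂ - e₁)) (2 * trop_nb v.w (v.w (e₂ - e₁)) (nx e₁ (1 • P)))
    rw [one_nsmul, two_nsmul]
    have hz0 : nx e₁ (P + P) ≠ 0 := by
      have := hnx 2 (by omega) (by omega)
      rwa [two_nsmul] at this
    have hQ : 4 * nx e₁ P ^ 2 + (4 * ((e₁ - e₃) - (e₂ - e₁))) * nx e₁ P +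
        4 * (-((e₂ - e₁) * (e₁ - e₃))) ≠ 0 := by
      intro h0
      have h1 := ny_sq hW hr hP
      have h3 : ny P ^ 2 = 0 := by
        rw [h1]
        linear_combination nx e₁ P * h0
      have h4 : ny P = 0 := pow_eq_zero_iff (by norm_num) |>.mp h3
      rw [ny] at h4
      rcases mul_eq_zero.mp h4 with h8 | h8
      · exact absurd h8 (by norm_num)
      · exact hpe1 h8
    have := trop_dbl v.w_mul v.w_add h20 h2 hβ0 hβ hκ0 hκ hnx1 hz0 hQ (nx_dup hW hr hpe1)
    rw [hκw] at this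
    exact this
  · -- the Kummer step
    intro k hk2 hkp
    show (trop_nb v.w (v.w (e₂ - e₁)) (nx e₁ ((k + 1) • P)) =
        trop_fold (v.w (e₂ - e₁)) (trop_nb v.w (v.w (e₂ - e₁)) (nx e₁ (k • P)) +
          trop_nb v.w (v.w (e₂ - e₁)) (nx e₁ (1 • P))) ∧
        trop_nb v.w (v.w (e₂ - e₁)) (nx e₁ ((k - 1) • P)) =
          |trop_nb v.w (v.w (e₂ - e₁)) (nx e₁ (k • P)) -
            trop_nb v.w (v.w (e₂ - e₁)) (nx e₁ (1 • P))|) ∨
      (trop_nb v.w (v.w (e₂ - e₁)) (nx e₁ ((k - 1) • P)) =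
        trop_fold (v.w (e₂ - e₁)) (trop_nb v.w (v.w (e₂ - e₁)) (nx e₁ (k • P)) +
          trop_nb v.w (v.w (e₂ - e₁)) (nx e₁ (1 • P))) ∧
        trop_nb v.w (v.w (e₂ - e₁)) (nx e₁ ((k + 1) • P)) =
          |trop_nb v.w (v.w (e₂ - e₁)) (nx e₁ (k • P)) -
            trop_nb v.w (v.w (e₂ - e₁)) (nx e₁ (1 • P))|)
    have hkP : k • P ≠ 0 := tors_nsmul_ne_zero hp hP hpP (by omega) (by omega)
    have hpx : px (k • P) ≠ px P := tors_px_ne hp hP hpP hk2 (by omega)
    have e1 : (k + 1) • P = k • P + P := succ_nsmul P k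
    have e2 : (k - 1) • P = k • P - P := by
      have e : k • P = (k - 1) • P + P := by
        rw [← succ_nsmul]
        congr 1
        omega
      rw [e, add_sub_cancel_right]
    have hne : nx e₁ (k • P) ≠ nx e₁ P := by
      intro h
      apply hpx
      have : 4 * (px (k • P) - px P) = 0 := by
        rw [nx, nx] at h
        linear_combination h
      rcases mul_eq_zero.mp this with h4 | h4
      · exact absurd h4 h40
      · exact sub_eq_zero.mp h4
    have hzp : nx e₁ (k • P + P) ≠ 0 := by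
      rw [← e1]
      exact hnx (k + 1) (by omega) (by omega)
    have hzm : nx e₁ (k • P - P) ≠ 0 := by
      rw [← e2]
      exact hnx (k - 1) (by omega) (by omega)
    have := trop_kummer v.w_mul v.w_add h20 h2 hβ0 hβ hκ0 hκ (hnx k (by omega) (by omega)) hnx1
      hne hzp hzm (nx_sigma hW hr hkP hP hpx) (nx_pi hW hr hkP hP hpx)
    rw [hκw] at this
    rw [one_nsmul, e1, e2]
    exact this
  · -- `(p - 1) • P = -P`
    show trop_nb v.w (v.w (e₂ - e₁)) (nx e₁ ((p - 1) • P)) =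
      trop_nb v.w (v.w (e₂ - e₁)) (nx e₁ (1 • P))
    have e : (p - 1) • P = -P := by
      have e' : (p - 1) • P + P = 0 := by
        rw [← succ_nsmul]
        have : p - 1 + 1 = p := by omega
        rw [this, hpP]
      exact eq_neg_of_add_eq_zero_left e'
    rw [e, one_nsmul, nx_neg]
  · -- `(p - 2) • P = -(2 • P)`
    show trop_nb v.w (v.w (e₂ - e₁)) (nx e₁ ((p - 2) • P)) =
      trop_nb v.w (v.w (e₂ - e₁)) (nx e₁ (2 • P))
    have e : (p - 2) • P = -(2 • P) := by
      have e' : (p - 2) • P + 2 • P = 0 := by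
        rw [← add_nsmul]
        have : p - 2 + 2 = p := by omega
        rw [this, hpP]
      exact eq_neg_of_add_eq_zero_left e'
    rw [e, nx_neg]

end Tors

/-! ### Inertia fixes the points of order `p` -/

section Final

open RVal

variable {K : Type*} [Field K] [DecidableEq K] [CharZero K] {A : ValuationSubring K}
  {W : WeierstrassCurve.Affine K} {a b e₁ e₂ e₃ : K}

omit [DecidableEq K] [CharZero K] in
lemma e1_X_eq_px (P : W.Point) : e1_X P = 4 * px P := by
  rcases P with _ | ⟨x, y, h⟩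
  · show (0 : K) = 4 * 0
    ring
  · rfl

omit [DecidableEq K] [CharZero K] in
/-- the roots are integral, hence so are `a` and `b` -/
lemma node_wge_ab (v : RVal A) (hr : IsRecentring a b e₁ e₂ e₃) (he1 : v.Wge e₁ 0)
    (he2 : v.Wge e₂ 0) (he3 : v.Wge e₃ 0) : v.Wge a 0 ∧ v.Wge b 0 := by
  constructor
  · have h : (a - e₁) * (a - e₂) * (a - e₃) = 0 := by
      linear_combination (-a ^ 2) * hr.sum + a * hr.pair - hr.prod
    rcases mul_eq_zero.mp h with h | h
    · rcases mul_eq_zero.mp h with h | h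
      · rw [sub_eq_zero.mp h]; exact he1
      · rw [sub_eq_zero.mp h]; exact he2
    · rw [sub_eq_zero.mp h]; exact he3
  · have h : (-b - e₁) * (-b - e₂) * (-b - e₃) = 0 := by
      linear_combination (-b ^ 2) * hr.sum - b * hr.pair - hr.prod
    have key : ∀ e : K, v.Wge e 0 → -b - e = 0 → v.Wge b 0 := by
      intro e he h0
      have : b = -e := by linear_combination -h0
      rw [this]
      exact he.neg
    rcases mul_eq_zero.mp h with h | h
    · rcases mul_eq_zero.mp h with h | h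
      · exact key _ he1 h
      · exact key _ he2 h
    · exact key _ he3 h

/-- a non-zero point killed by a unit integer is not in the kernel of reduction -/
lemma tors_not_isK (hW : IsFreyW W a b) (v : RVal A) (hA : v.Wge a 0) (hB : v.Wge b 0) {p : ℕ}
    (hp0 : p ≠ 0) (hpw : v.w (p : K) = 0) {Q : W.Point} (hQ : Q ≠ 0) (hpQ : p • Q = 0) :
    ¬ IsK v (4 * px Q) := by
  intro hK
  apply hQ
  exact e1_no_torsion hW hA hB (Or.inr (by rw [e1_X_eq_px]; exact hK)) hp0 hpw hpQ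

/-- **same non-singular reduction**: if the reduction of the `p`-torsion point `(x, y)` is
non-singular, then an automorphism acting trivially on the residue field fixes the point -/
theorem k5_same_red (hW : IsFreyW W a b) (v : RVal A) (hA : v.Wge a 0) (hB : v.Wge b 0)
    (h2 : v.w (2 : K) = 0) {p : ℕ} (hp0 : p ≠ 0) (hpw : v.w (p : K) = 0)
    (σ : K →+* K) (hσ : ∀ z, v.Wge z 0 → v.Wgt (σ z - z) 0)
    {x y : K} (hxy : W.Nonsingular x y) (hxy' : W.Nonsingular (σ x) (σ y))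
    (hP : p • Point.some x y hxy = 0) (hP' : p • Point.some (σ x) (σ y) hxy' = 0)
    (hns : v.Wgt (8 * y + 4 * x) 0 → 3 * (4 * x) ^ 2 + 2 * (b - a) * (4 * x) - a * b ≠ 0 ∧
      v.w (3 * (4 * x) ^ 2 + 2 * (b - a) * (4 * x) - a * b) = 0) :
    σ x = x ∧ σ y = y := by
  by_contra hcon
  have hne : Point.some (σ x) (σ y) hxy' ≠ Point.some x y hxy := by
    intro h
    rw [Point.some.injEq] at h
    exact hcon h
  set P := Point.some x y hxy with hPdef
  set P' := Point.some (σ x) (σ y) hxy' with hP'def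
  have hP0 : P ≠ 0 := Point.some_ne_zero _
  have hP'0 : P' ≠ 0 := Point.some_ne_zero _
  have hP3 : P - P' ≠ 0 := by
    intro h
    exact hne (sub_eq_zero.mp h).symm
  have hsum : P' + -P + (P - P') = 0 := by abel
  obtain ⟨t, tX1, tX2, tX3, tY1, tY2, -⟩ :=
    e1_exists_triple hW hP'0 (neg_ne_zero.mpr hP0) hP3 hsum
  rw [e1_X_neg] at tX2
  rw [e1_Y_neg hW] at tY2
  have hX1 : e1_X P' = 4 * σ x := rfl
  have hX2 : e1_X P = 4 * x := rfl
  have hY1 : e1_Y P' = 8 * σ y + 4 * σ x := rfl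
  have hY2 : e1_Y P = 8 * y + 4 * x := rfl
  rw [hX1] at tX1
  rw [hX2] at tX2
  rw [hY1] at tY1
  rw [hY2] at tY2
  have hx4 : v.Wge (4 * x) 0 := by
    have := tors_not_isK hW v hA hB hp0 hpw hP0 hP
    exact e1_not_isK this
  have hYint : v.Wge (8 * y + 4 * x) 0 := by
    have heq := e1_equation hW P
    rw [hX2, hY2] at heq
    exact e1_wge_Y hA hB hx4 heq
  have hK : IsK v t.X₃ := by
    apply e1_of_same_red hA hB two_ne_zero h2 t
    · rw [tX2]; exact hx4
    · rw [tX1, tX2]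
      have := hσ _ hx4
      rw [map_mul, map_ofNat] at this
      exact this
    · rw [tY1, tY2]
      have := hσ _ hYint
      rw [map_add, map_mul, map_mul, map_ofNat, map_ofNat] at this
      have e : 8 * σ y + 4 * σ x + -(8 * y + 4 * x) = 8 * σ y + 4 * σ x - (8 * y + 4 * x) := by
        ring
      rw [e]
      exact this
    · intro hY
      rw [tY2] at hY
      have hY' : v.Wgt (8 * y + 4 * x) 0 := by
        have := hY.neg
        rwa [neg_neg] at this
      rw [tX2]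
      exact hns hY'
  rw [tX3, e1_X_eq_px] at hK
  have hp3 : p • (P - P') = 0 := by
    rw [nsmul_sub, hP, hP', sub_zero]
  exact tors_not_isK hW v hA hB hp0 hpw hP3 hp3 hK

omit [DecidableEq K] [CharZero K] in
/-- the chord through two points close to each other near the node is steep -/
lemma near_node_slope (v : RVal A) (h20 : (2 : K) ≠ 0) (hw2 : v.w (2 : K) = 0)
    {X X₂ R R₂ C Z : K} {N : ℝ}
    (hX : X ≠ 0) (hXN : v.w X = N) (hR : R ≠ 0) (hRN : v.w R = N)
    (hX₂ : v.Wgt (X₂ - X) N) (hρ : v.Wgt (R₂ * X - R * X₂) (2 * N))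
    (hne : X ≠ X₂) (hC : v.Wge C 0)
    (hZ : 4 * Z * (X - X₂) ^ 2 = (R + R₂) ^ 2 - C * (X - X₂) ^ 2) :
    Z ≠ 0 ∧ v.w Z < 0 := by
  have h40 : (4 : K) ≠ 0 := by
    have : (4 : K) = 2 * 2 := by norm_num
    rw [this]
    exact mul_ne_zero h20 h20
  have hw4 : v.w (4 : K) = 0 := by
    have : (4 : K) = 2 * 2 := by norm_num
    rw [this, v.w_mul _ _ h20 h20, hw2]
    ring
  -- `X (R + R₂)` has valuation `2 N`
  have e : X * (R + R₂) = 2 * R * X + ((R₂ * X - R * X₂) + R * (X₂ - X)) := by ring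
  have hmain0 : 2 * R * X ≠ 0 := mul_ne_zero (mul_ne_zero h20 hR) hX
  have hmainw : v.w (2 * R * X) = 2 * N := by
    rw [v.w_mul _ _ (mul_ne_zero h20 hR) hX, v.w_mul _ _ h20 hR, hw2, hRN, hXN]
    ring
  have hrest : v.Wgt ((R₂ * X - R * X₂) + R * (X₂ - X)) (v.w (2 * R * X)) := by
    rw [hmainw]
    refine hρ.add ?_
    have h1 : v.Wge R N := Or.inr hRN.ge
    have := h1.mul_wgt hX₂
    exact this.mono (by linarith)
  have hsum := w_add_of_wgt hmain0 hrest
  rw [← e, hmainw] at hsum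
  have hRR0 : R + R₂ ≠ 0 := by
    intro h
    apply hsum.1
    rw [h, mul_zero]
  have hRRw : v.w (R + R₂) = N := by
    have := v.w_mul _ _ hX hRR0
    rw [hsum.2, hXN] at this
    linarith
  -- the difference of the abscissae
  have hΔ0 : X - X₂ ≠ 0 := sub_ne_zero.mpr hne
  have hΔ : v.Wgt (X - X₂) N := by
    have := hX₂.neg
    rwa [neg_sub] at this
  have hΔw : N < v.w (X - X₂) := hΔ.lt hΔ0
  have hsq0 : (R + R₂) ^ 2 ≠ 0 := pow_ne_zero 2 hRR0
  have hsqw : v.w ((R + R₂) ^ 2) = 2 * N := by rw [v.w_sq hRR0, hRRw]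
  have hCΔ : v.Wgt (C * (X - X₂) ^ 2) (v.w ((R + R₂) ^ 2)) := by
    rw [hsqw]
    have h1 : v.Wgt ((X - X₂) ^ 2) (N + N) := by
      rw [pow_two]
      exact hΔ.mul_wge hΔ.wge
    have := hC.mul_wgt h1
    exact this.mono (by linarith)
  have hrhs := w_sub_of_wgt hsq0 hCΔ
  rw [← hZ, hsqw] at hrhs
  have hZ0 : Z ≠ 0 := by
    intro h
    apply hrhs.1
    rw [h]
    ring
  refine ⟨hZ0, ?_⟩
  have hw : v.w (4 * Z * (X - X₂) ^ 2) = v.w Z + 2 * v.w (X - X₂) := by
    rw [v.w_mul _ _ (mul_ne_zero h40 hZ0) (pow_ne_zero 2 hΔ0), v.w_mul _ _ h40 hZ0, hw4,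
      v.w_sq hΔ0]
    ring
  rw [hrhs.2] at hw
  linarith

/-- **good reduction**: inertia fixes the points of order `p` -/
theorem k5_final_good (hW : IsFreyW W a b) (v : RVal A) (ha : a ≠ 0) (ha0 : v.w a = 0)
    (hb : b ≠ 0) (hb0 : v.w b = 0) (hab : a + b ≠ 0) (hab0 : v.w (a + b) = 0)
    (h2 : v.w (2 : K) = 0) {p : ℕ} (hp : p.Prime) (hpw : v.w (p : K) = 0)
    (σ : K →+* K) (hσ : ∀ z, v.Wge z 0 → v.Wgt (σ z - z) 0)
    {x y : K} (hxy : W.Nonsingular x y) (hxy' : W.Nonsingular (σ x) (σ y))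
    (hP : p • Point.some x y hxy = 0) (hP' : p • Point.some (σ x) (σ y) hxy' = 0) :
    σ x = x ∧ σ y = y := by
  have hA : v.Wge a 0 := Or.inr ha0.ge
  have hB : v.Wge b 0 := Or.inr hb0.ge
  have hP0 : Point.some x y hxy ≠ 0 := Point.some_ne_zero _
  have hx4 : v.Wge (4 * x) 0 :=
    e1_not_isK (tors_not_isK hW v hA hB hp.ne_zero hpw hP0 hP)
  have h2ge : v.Wge (2 : K) 0 := Or.inr h2.ge
  apply k5_same_red hW v hA hB h2 hp.ne_zero hpw σ hσ hxy hxy' hP hP'
  intro hY
  have heq := e1_equation hW (Point.some x y hxy)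
  have hX2 : e1_X (Point.some x y hxy) = 4 * x := rfl
  have hY2 : e1_Y (Point.some x y hxy) = 8 * y + 4 * x := rfl
  rw [hX2, hY2] at heq
  set T : K := 4 * x with hT
  set Y : K := 8 * y + 4 * x with hYdef
  -- the product of the three factors has positive valuation
  have hprod : v.Wgt (T * (T - a) * (T + b)) 0 := by
    rw [← heq, pow_two]
    have := hY.mul_wge hY.wge
    simpa using this
  -- one of the three factors has positive valuation
  have htri : v.Wgt T 0 ∨ v.Wgt (T - a) 0 ∨ v.Wgt (T + b) 0 := by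
    by_contra hnone
    push Not at hnone
    obtain ⟨n1, n2, n3⟩ := hnone
    have z1 : T ≠ 0 := fun h => n1 (Or.inl h)
    have z2 : T - a ≠ 0 := fun h => n2 (Or.inl h)
    have z3 : T + b ≠ 0 := fun h => n3 (Or.inl h)
    have w1 : v.w T ≤ 0 := not_lt.mp fun h => n1 (Or.inr h)
    have w2 : v.w (T - a) ≤ 0 := not_lt.mp fun h => n2 (Or.inr h)
    have w3 : v.w (T + b) ≤ 0 := not_lt.mp fun h => n3 (Or.inr h)
    have hne : T * (T - a) * (T + b) ≠ 0 := mul_ne_zero (mul_ne_zero z1 z2) z3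
    have := hprod.lt hne
    rw [v.w_mul _ _ (mul_ne_zero z1 z2) z3, v.w_mul _ _ z1 z2] at this
    linarith
  have hna0 : -a ≠ 0 := neg_ne_zero.mpr ha
  have hnaw : v.w (-a) = 0 := by rw [v.w_neg, ha0]
  rcases htri with h1 | h1 | h1
  · -- `T` small
    have f1 := w_add_of_wgt hna0 (show v.Wgt T (v.w (-a)) by rw [hnaw]; exact h1)
    have f2 := w_add_of_wgt hb (show v.Wgt T (v.w b) by rw [hb0]; exact h1)
    have e1 : -a + T = T - a := by ring
    have e2 : b + T = T + b := by ring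
    rw [e1, hnaw] at f1
    rw [e2, hb0] at f2
    have hm0 : (T - a) * (T + b) ≠ 0 := mul_ne_zero f1.1 f2.1
    have hmw : v.w ((T - a) * (T + b)) = 0 := by
      rw [v.w_mul _ _ f1.1 f2.1, f1.2, f2.2]; ring
    have hrest : v.Wgt (T * (2 * T + b - a)) (v.w ((T - a) * (T + b))) := by
      rw [hmw]
      have : v.Wge (2 * T + b - a) 0 := by
        have h2T : v.Wge (2 * T) 0 := by
          have := h2ge.mul hx4
          simpa using this
        exact (h2T.add hB).sub hA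
      have := h1.mul_wge this
      simpa using this
    have := w_add_of_wgt hm0 hrest
    have e : (T - a) * (T + b) + T * (2 * T + b - a) = 3 * T ^ 2 + 2 * (b - a) * T - a * b := by
      ring
    rw [e, hmw] at this
    exact this
  · -- `T - a` small
    have f1 := w_add_of_wgt ha (show v.Wgt (T - a) (v.w a) by rw [ha0]; exact h1)
    have f2 := w_add_of_wgt hab (show v.Wgt (T - a) (v.w (a + b)) by rw [hab0]; exact h1)
    have e1 : a + (T - a) = T := by ring
    have e2 : a + b + (T - a) = T + b := by ring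
    rw [e1, ha0] at f1
    rw [e2, hab0] at f2
    have hm0 : T * (T + b) ≠ 0 := mul_ne_zero f1.1 f2.1
    have hmw : v.w (T * (T + b)) = 0 := by
      rw [v.w_mul _ _ f1.1 f2.1, f1.2, f2.2]; ring
    have hrest : v.Wgt ((T - a) * (2 * T + b)) (v.w (T * (T + b))) := by
      rw [hmw]
      have : v.Wge (2 * T + b) 0 := by
        have h2T : v.Wge (2 * T) 0 := by
          have := h2ge.mul hx4
          simpa using this
        exact h2T.add hB
      have := h1.mul_wge this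
      simpa using this
    have := w_add_of_wgt hm0 hrest
    have e : T * (T + b) + (T - a) * (2 * T + b) = 3 * T ^ 2 + 2 * (b - a) * T - a * b := by
      ring
    rw [e, hmw] at this
    exact this
  · -- `T + b` small
    have hnb0 : -b ≠ 0 := neg_ne_zero.mpr hb
    have hnbw : v.w (-b) = 0 := by rw [v.w_neg, hb0]
    have hnab0 : -(a + b) ≠ 0 := neg_ne_zero.mpr hab
    have hnabw : v.w (-(a + b)) = 0 := by rw [v.w_neg, hab0]
    have f1 := w_add_of_wgt hnb0 (show v.Wgt (T + b) (v.w (-b)) by rw [hnbw]; exact h1)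
    have f2 := w_add_of_wgt hnab0 (show v.Wgt (T + b) (v.w (-(a + b))) by rw [hnabw]; exact h1)
    have e1 : -b + (T + b) = T := by ring
    have e2 : -(a + b) + (T + b) = T - a := by ring
    rw [e1, hnbw] at f1
    rw [e2, hnabw] at f2
    have hm0 : T * (T - a) ≠ 0 := mul_ne_zero f1.1 f2.1
    have hmw : v.w (T * (T - a)) = 0 := by
      rw [v.w_mul _ _ f1.1 f2.1, f1.2, f2.2]; ring
    have hrest : v.Wgt ((T + b) * (2 * T - a)) (v.w (T * (T - a))) := by
      rw [hmw]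
      have : v.Wge (2 * T - a) 0 := by
        have h2T : v.Wge (2 * T) 0 := by
          have := h2ge.mul hx4
          simpa using this
        exact h2T.sub hA
      have := h1.mul_wge this
      simpa using this
    have := w_add_of_wgt hm0 hrest
    have e : T * (T - a) + (T + b) * (2 * T - a) = 3 * T ^ 2 + 2 * (b - a) * T - a * b := by
      ring
    rw [e, hmw] at this
    exact this

/-- **multiplicative reduction**: inertia fixes the points of order `p`
(same statement as `F5.final_node`; `ω` is not used here) -/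
theorem k5_final_node (hW : IsFreyW W a b) (v : RVal A) {ω d : K} (hr1 : e₁ + e₂ + e₃ = a - b)
    (hr2 : e₁ * e₂ + e₁ * e₃ + e₂ * e₃ = -(a * b)) (hr3 : e₁ * e₂ * e₃ = 0)
    (h : NodeData v (e₂ - e₁) (e₁ - e₃) ω)
    {p : ℕ} (he1 : v.Wge e₁ 0) (he2 : v.Wge e₂ 0) (he3 : v.Wge e₃ 0) (hd : d ≠ 0)
    (hDd : v.w (e₂ - e₁) = p * v.w d) (hp : p.Prime) (hp2 : p ≠ 2) (hpw : v.w (p : K) = 0)
    (σ : K →+* K) (hσ : ∀ z, v.Wge z 0 → v.Wgt (σ z - z) 0) (hσe : σ e₁ = e₁) (hσd : σ d = d)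
    (_hσω : σ ω = ω) {x y : K} (hxy : W.Nonsingular x y) (hxy' : W.Nonsingular (σ x) (σ y))
    (hP : p • Point.some x y hxy = 0) (hP' : p • Point.some (σ x) (σ y) hxy' = 0) :
    σ x = x ∧ σ y = y := by
  have hr : IsRecentring a b e₁ e₂ e₃ := ⟨hr1, hr2, hr3⟩
  obtain ⟨hA, hB⟩ := node_wge_ab v hr he1 he2 he3
  have h20 : (2 : K) ≠ 0 := two_ne_zero
  have h40 : (4 : K) ≠ 0 := by norm_num
  have h2 := h.two_unit
  have hw4 : v.w (4 : K) = 0 := by
    have : (4 : K) = 2 * 2 := by norm_num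
    rw [this, v.w_mul _ _ h20 h20, h2]
    ring
  have h2ge : v.Wge (2 : K) 0 := Or.inr h2.ge
  have h4ge : v.Wge (4 : K) 0 := Or.inr hw4.ge
  have hDge : v.Wge (e₂ - e₁) 0 := he2.sub he1
  have hUge : v.Wge (e₁ - e₃) 0 := he1.sub he3
  have hp0 : p ≠ 0 := hp.ne_zero
  set P := Point.some x y hxy with hPdef
  set P' := Point.some (σ x) (σ y) hxy' with hP'def
  have hP0 : P ≠ 0 := Point.some_ne_zero _
  have hP'0 : P' ≠ 0 := Point.some_ne_zero _
  have hx4 : v.Wge (4 * x) 0 := e1_not_isK (tors_not_isK hW v hA hB hp0 hpw hP0 hP)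
  -- the recentred coordinate
  obtain ⟨hX0, hn, j, hj⟩ :=
    node_class hW hr v h2 h.D_ne h.D_pos h.U_ne h.U_unit hp hp2 hP0 hP
  have hnxP : nx e₁ P = 4 * x - e₁ := rfl
  rw [hnxP] at hX0 hn hj
  set X : K := 4 * x - e₁ with hXdef
  have hXint : v.Wge X 0 := hx4.sub he1
  have hwX0 : 0 ≤ v.w X := hXint.le hX0
  have hwXm : v.w X < v.w (e₂ - e₁) := by
    by_contra hcon
    rw [trop_nb_of_ge (not_lt.mp hcon) h.D_pos.le] at hn
    exact lt_irrefl _ hn
  rw [trop_nb_of_mem hwX0 hwXm.le] at hj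
  -- the equation `Y² = X (X - D) (X + U)`
  have heq := e1_equation hW P
  have hX2 : e1_X P = 4 * x := rfl
  have hY2 : e1_Y P = 8 * y + 4 * x := rfl
  rw [hX2, hY2] at heq
  have heq' : (8 * y + 4 * x) ^ 2 = X * (X - (e₂ - e₁)) * (X + (e₁ - e₃)) := by
    rw [heq, hXdef]
    linear_combination (4 * x) ^ 2 * hr1 - (4 * x) * hr2 + hr3
  rcases hwX0.eq_or_lt with hw0 | hpos
  · -- `X` is a unit: the reduction is non-singular
    apply k5_same_red hW v hA hB h2 hp0 hpw σ hσ hxy hxy' hP hP'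
    intro hY
    have f1 := w_sub_of_wgt hX0 (show v.Wgt (e₂ - e₁) (v.w X) from
      Or.inr (by rw [← hw0]; exact h.D_pos))
    rw [← hw0] at f1
    have hm0 : X * (X - (e₂ - e₁)) ≠ 0 := mul_ne_zero hX0 f1.1
    have hmw : v.w (X * (X - (e₂ - e₁))) = 0 := by
      rw [v.w_mul _ _ hX0 f1.1, f1.2, ← hw0]; ring
    have hXU : v.Wgt (X + (e₁ - e₃)) 0 := by
      by_cases hz : X + (e₁ - e₃) = 0
      · exact Or.inl hz
      · right
        have hne : X * (X - (e₂ - e₁)) * (X + (e₁ - e₃)) ≠ 0 := mul_ne_zero hm0 hz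
        have hY0 : 8 * y + 4 * x ≠ 0 := by
          intro h0
          rw [h0] at heq'
          apply hne
          rw [← heq']
          ring
        have hwY := hY.lt hY0
        have := v.w_sq hY0
        rw [heq', v.w_mul _ _ hm0 hz, hmw] at this
        linarith
    have hrest : v.Wgt ((X + (e₁ - e₃)) * (2 * X - (e₂ - e₁))) (v.w (X * (X - (e₂ - e₁)))) := by
      rw [hmw]
      have : v.Wge (2 * X - (e₂ - e₁)) 0 := by
        have h2X : v.Wge (2 * X) 0 := by
          have := h2ge.mul hXint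
          simpa using this
        exact h2X.sub hDge
      have := hXU.mul_wge this
      simpa using this
    have := w_add_of_wgt hm0 hrest
    have e : X * (X - (e₂ - e₁)) + (X + (e₁ - e₃)) * (2 * X - (e₂ - e₁)) =
        3 * (4 * x) ^ 2 + 2 * (b - a) * (4 * x) - a * b := by
      rw [hXdef]
      linear_combination (-2 * (4 * x)) * hr1 + hr2
    rw [e, hmw] at this
    exact this
  · -- near the node
    set N : ℝ := v.w X with hN
    have hpR : (p : ℝ) ≠ 0 := Nat.cast_ne_zero.mpr hp0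
    have hNd : N = ((2 * j : ℕ) : ℝ) * v.w d := by
      rw [hDd] at hj
      have : (p : ℝ) * N = (p : ℝ) * (((2 * j : ℕ) : ℝ) * v.w d) := by
        rw [hj]; push_cast; ring
      exact mul_left_cancel₀ hpR this
    have hσ' : ∀ z ∈ A, σ z - z ∈ A.nonunits := fun z hz =>
      mem_nonunits_iff_wgt.mpr (hσ z (mem_iff_wge.mp hz))
    have hclose : v.Wgt (σ X - X) N :=
      frey_sigma_close v hσ' (d := d ^ (2 * j)) (by rw [map_pow, hσd]) (pow_ne_zero _ hd) hX0
        (by rw [v.w_pow hd, ← hNd])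
    have hσX : σ X = 4 * σ x - e₁ := by
      rw [hXdef, map_sub, map_mul, map_ofNat, hσe]
    have hσX0 := w_add_of_wgt hX0 (show v.Wgt (σ X - X) (v.w X) from hclose)
    rw [add_sub_cancel] at hσX0
    -- the second coordinate
    have hR : ny P = 8 * (2 * y + x) := by
      show 8 * (2 * y + W.a₁ * x + W.a₃) = 8 * (2 * y + x)
      rw [hW.a1, hW.a3]; ring
    have hR' : ny P' = 8 * (2 * σ y + σ x) := by
      show 8 * (2 * σ y + W.a₁ * σ x + W.a₃) = 8 * (2 * σ y + σ x)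
      rw [hW.a1, hW.a3]; ring
    set R : K := 8 * (2 * y + x) with hRdef
    have hσR : σ R = 8 * (2 * σ y + σ x) := by
      rw [hRdef, map_mul, map_add, map_mul, map_ofNat, map_ofNat]
    have hR'' : ny P' = σ R := by rw [hR', hσR]
    have hRsq : R ^ 2 = 4 * (X * (X - (e₂ - e₁)) * (X + (e₁ - e₃))) := by
      rw [← heq', hRdef]; ring
    have f1 := w_sub_of_wgt hX0 (show v.Wgt (e₂ - e₁) (v.w X) from Or.inr hwXm)
    have f2 := w_add_of_wgt h.U_ne (show v.Wgt X (v.w (e₁ - e₃)) from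
      Or.inr (by rw [h.U_unit]; exact hpos))
    have e2 : e₁ - e₃ + X = X + (e₁ - e₃) := by ring
    rw [e2, h.U_unit] at f2
    have hprod0 : X * (X - (e₂ - e₁)) * (X + (e₁ - e₃)) ≠ 0 :=
      mul_ne_zero (mul_ne_zero hX0 f1.1) f2.1
    have hR0 : R ≠ 0 := by
      intro h0
      rw [h0] at hRsq
      have : (4 : K) * (X * (X - (e₂ - e₁)) * (X + (e₁ - e₃))) = 0 := by rw [← hRsq]; ring
      exact mul_ne_zero h40 hprod0 this
    have hRw : v.w R = N := by
      have := v.w_sq hR0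
      rw [hRsq, v.w_mul _ _ h40 hprod0, hw4, v.w_mul _ _ (mul_ne_zero hX0 f1.1) f2.1,
        v.w_mul _ _ hX0 f1.1, f1.2, f2.2] at this
      linarith
    -- the ratio `ρ = R / X` is a unit, hence `σ ρ ≡ ρ`
    have hρ0 : R / X ≠ 0 := div_ne_zero hR0 hX0
    have hρw : v.w (R / X) = 0 := by rw [v.w_div hR0 hX0, hRw]; ring
    have hρσ : v.Wgt (σ (R / X) - R / X) 0 := hσ _ (Or.inr hρw.ge)
    have hcross : v.Wgt (σ R * X - R * σ X) (2 * N) := by
      have hσX0' : σ X ≠ 0 := hσX0.1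
      have e : σ R * X - R * σ X = (σ (R / X) - R / X) * (σ X * X) := by
        rw [map_div₀]
        field_simp
      rw [e]
      have h1 : v.Wge (σ X * X) (2 * N) := by
        refine Or.inr ?_
        rw [v.w_mul _ _ hσX0.1 hX0, hσX0.2]
        linarith
      have := hρσ.mul_wge h1
      simpa using this
    by_cases hXX : X = σ X
    · -- same abscissa
      have hxx : σ x = x := by
        rw [hσX, hXdef] at hXX
        have : 4 * (σ x - x) = 0 := by linear_combination -hXX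
        rcases mul_eq_zero.mp this with h4 | h4
        · exact absurd h4 h40
        · exact sub_eq_zero.mp h4
      refine ⟨hxx, ?_⟩
      have hpx : px P = px P' := by
        show x = σ x
        exact hxx.symm
      have key : R = σ R := by
        rcases pe_eq_or_of_px_eq hP0 hP'0 hpx with hpe | hpe
        · calc R = ny P := hR.symm
            _ = ny P' := by rw [ny, ny, hpe]
            _ = σ R := hR''
        · exfalso
          have hneg : σ R = -R := by
            rw [← hR'', ← hR, ny, ny, hpe]; ring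
          rw [hneg, ← hXX] at hcross
          have e : -R * X - R * X = -(2 * R * X) := by ring
          rw [e] at hcross
          have hne : -(2 * R * X) ≠ 0 :=
            neg_ne_zero.mpr (mul_ne_zero (mul_ne_zero h20 hR0) hX0)
          have := hcross.lt hne
          rw [v.w_neg, v.w_mul _ _ (mul_ne_zero h20 hR0) hX0, v.w_mul _ _ h20 hR0, h2, hRw] at this
          linarith
      rw [hσR, hRdef, hxx] at key
      have : 16 * (σ y - y) = 0 := by linear_combination -key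
      rcases mul_eq_zero.mp this with h16 | h16
      · exact absurd h16 (by norm_num)
      · exact sub_eq_zero.mp h16
    · -- different abscissae: the difference lies in the kernel of reduction
      exfalso
      have hpx : px P ≠ px P' := by
        show x ≠ σ x
        intro hxx
        apply hXX
        rw [hσX, hXdef, ← hxx]
      have hnxP' : nx e₁ P' = σ X := by
        rw [hσX]; rfl
      have hchord := nx_sub_of_px_ne hW hr hP0 hP'0 hpx
      rw [hnxP, hnxP', hR, hR''] at hchord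
      have hσXint : v.Wge (σ X) 0 := by
        have := hXint.add (hclose.wge.mono hpos.le)
        rwa [add_sub_cancel] at this
      have hC : v.Wge (4 * ((e₁ - e₃) - (e₂ - e₁)) + 4 * (X + σ X)) 0 := by
        have c1 : v.Wge (4 * ((e₁ - e₃) - (e₂ - e₁))) 0 := by
          have := h4ge.mul (hUge.sub hDge)
          simpa using this
        have c2 : v.Wge (4 * (X + σ X)) 0 := by
          have := h4ge.mul (hXint.add hσXint)
          simpa using this
        exact c1.add c2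
      have hZ := near_node_slope v h20 h2 hX0 rfl hR0 hRw hclose hcross hXX hC hchord
      have hP3 : P - P' ≠ 0 := sub_ne_zero_of_px_ne hP0 hP'0 hpx
      have hp3 : p • (P - P') = 0 := by
        rw [nsmul_sub, hP, hP', sub_zero]
      apply tors_not_isK hW v hA hB hp0 hpw hP3 hp3
      have e : 4 * px (P - P') = nx e₁ (P - P') + e₁ := by
        rw [nx]; ring
      rw [e]
      have := w_add_of_wgt hZ.1 (he1.wgt_of_lt hZ.2)
      exact ⟨this.1, by rw [this.2]; exact hZ.2⟩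

end Final

end Fermat.Agent.K5
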