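import Fermat.Agent.Lib.F5_Defs
import Fermat.Agent.Lib.K5_Trop

set_option autoImplicit false

/-!
# Tropical Kummer law, `RVal` packaging

Thin wrappers of `K5_Trop` (stated there for a bare `w : K → ℝ`) for a real valuation
`v : F5.RVal A`.
-/

namespace Fermat.Agent.K5

open Fermat.Agent

variable {K : Type*} [Field K] {A : ValuationSubring K}

/-- clamp of `v.w x` to `[0, m]`. -/
noncomputable def nb (v : F5.RVal A) (m : ℝ) (x : K) : ℝ := max 0 (min (v.w x) m)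

/-- reflection of `[0, 2m]` onto `[0, m]`. -/
noncomputable def fold (m s : ℝ) : ℝ := min s (2 * m - s)

theorem nb_eq_trop_nb (v : F5.RVal A) (m : ℝ) (x : K) : nb v m x = trop_nb v.w m x := rfl

theorem fold_eq_trop_fold (m s : ℝ) : fold m s = trop_fold m s := rfl

theorem nb_nonneg (v : F5.RVal A) (m : ℝ) (x : K) : 0 ≤ nb v m x := le_max_left _ _

theorem nb_le (v : F5.RVal A) {m : ℝ} (hm : 0 ≤ m) (x : K) : nb v m x ≤ m :=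
  max_le hm (min_le_right _ _)

theorem nb_of_le (v : F5.RVal A) {m : ℝ} {x : K} (h : v.w x ≤ 0) (hm : 0 ≤ m) : nb v m x = 0 :=
  trop_nb_of_le h hm

theorem nb_of_ge (v : F5.RVal A) {m : ℝ} {x : K} (h : m ≤ v.w x) (hm : 0 ≤ m) : nb v m x = m :=
  trop_nb_of_ge h hm

theorem nb_of_mem (v : F5.RVal A) {m : ℝ} {x : K} (h0 : 0 ≤ v.w x) (h1 : v.w x ≤ m) :
    nb v m x = v.w x :=
  trop_nb_of_mem h0 h1

/-- **Tropical Kummer law** for an `RVal`. -/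
theorem trop_kummer_v (v : F5.RVal A) {β κ x₁ x₂ zp zm : K} (h2 : (2 : K) ≠ 0)
    (hw2 : v.w 2 = 0) (hβ0 : β ≠ 0) (hβ : v.w β = 0) (hκ0 : κ ≠ 0) (hκ : 0 < v.w κ)
    (h1 : x₁ ≠ 0) (h2' : x₂ ≠ 0) (hne : x₁ ≠ x₂) (hzp : zp ≠ 0) (hzm : zm ≠ 0)
    (hS : (zp + zm) * (x₁ - x₂) ^ 2 = 2 * x₁ * x₂ * (x₁ + x₂) + β * x₁ * x₂ + 2 * κ * (x₁ + x₂))
    (hP : zp * zm * (x₁ - x₂) ^ 2 = (x₁ * x₂ - κ) ^ 2) :
    (nb v (v.w κ) zp = fold (v.w κ) (nb v (v.w κ) x₁ + nb v (v.w κ) x₂) ∧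
      nb v (v.w κ) zm = |nb v (v.w κ) x₁ - nb v (v.w κ) x₂|) ∨
    (nb v (v.w κ) zm = fold (v.w κ) (nb v (v.w κ) x₁ + nb v (v.w κ) x₂) ∧
      nb v (v.w κ) zp = |nb v (v.w κ) x₁ - nb v (v.w κ) x₂|) :=
  trop_kummer v.w_mul v.w_add h2 hw2 hβ0 hβ hκ0 hκ h1 h2' hne hzp hzm hS hP

/-- **Tropical duplication law** for an `RVal`. -/
theorem trop_dbl_v (v : F5.RVal A) {β κ x z : K} (h2 : (2 : K) ≠ 0) (hw2 : v.w 2 = 0)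
    (hβ0 : β ≠ 0) (hβ : v.w β = 0) (hκ0 : κ ≠ 0) (hκ : 0 < v.w κ) (hx : x ≠ 0)
    (hG : 4 * x ^ 2 + β * x + 4 * κ ≠ 0) (hz0 : z ≠ 0)
    (hz : z * (x * (4 * x ^ 2 + β * x + 4 * κ)) = (x ^ 2 - κ) ^ 2) :
    nb v (v.w κ) z = fold (v.w κ) (2 * nb v (v.w κ) x) :=
  trop_dbl v.w_mul v.w_add h2 hw2 hβ0 hβ hκ0 hκ hx hz0 hG hz

/-- The induction for a point of odd order `p`. -/
theorem trop_induction {m : ℝ} (hm : 0 < m) {p : ℕ} (hp : Odd p) (hp5 : 5 ≤ p) (c : ℕ → ℝ)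
    (hc : ∀ k, 1 ≤ k → k ≤ p - 1 → 0 ≤ c k ∧ c k ≤ m) (h2 : c 2 = fold m (2 * c 1))
    (hstep : ∀ k, 2 ≤ k → k ≤ p - 2 →
      (c (k + 1) = fold m (c k + c 1) ∧ c (k - 1) = |c k - c 1|) ∨
      (c (k - 1) = fold m (c k + c 1) ∧ c (k + 1) = |c k - c 1|))
    (hs1 : c (p - 1) = c 1) (hs2 : c (p - 2) = c 2) :
    ∃ j : ℕ, (p : ℝ) * c 1 = 2 * m * j ∧ c 1 < m := by
  obtain ⟨h1, j, hj⟩ := trop_seq hm hp (by omega) c hc h2 hstep hs1 hs2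
  exact ⟨j, hj, h1⟩

end Fermat.Agent.K5
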