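import Mathlib

/-!
# Fermat's Last Theorem, first case, by Sophie Germain's criterion (helper2)

`Fermat.Agent.Lib.Kummer.sophieGermain`: if `q` is an auxiliary prime such that
(i) `x^p + y^p + z^p = 0` in `ZMod q` forces `x*y*z = 0` and (ii) `p` is not a `p`-th power
modulo `q`, then `x^p + y^p + z^p = 0` has no integer solutions with `p ∤ x*y*z`.
Instances for `p = 5, 7, 11, 13`, and the reduction of the full statement to the two cases.
-/

set_option autoImplicit false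

namespace Fermat.Agent.Lib.Kummer

section phi

variable {R : Type*} [CommRing R]

/-- The cofactor `(x^p + z^p)/(x + z)`. -/
def sgPhi (p : ℕ) (x z : R) : R := ∑ i ∈ Finset.range p, x ^ i * (-z) ^ (p - 1 - i)

theorem sgPhi_mul {p : ℕ} (hp : Odd p) (x z : R) : sgPhi p x z * (x + z) = x ^ p + z ^ p := by
  have h := geom_sum₂_mul x (-z) p
  rw [sub_neg_eq_add, hp.neg_pow, sub_neg_eq_add] at h
  exact h

theorem sgPhi_of_add_eq_zero {p : ℕ} (x z : R) (h : x + z = 0) :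
    sgPhi p x z = (p : R) * x ^ (p - 1) := by
  have hz : -z = x := by rw [neg_eq_iff_add_eq_zero, add_comm]; exact h
  unfold sgPhi
  rw [hz]
  have : ∀ i ∈ Finset.range p, x ^ i * x ^ (p - 1 - i) = x ^ (p - 1) := by
    intro i hi
    rw [Finset.mem_range] at hi
    rw [← pow_add]
    congr 1
    omega
  rw [Finset.sum_congr rfl this, Finset.sum_const, Finset.card_range, nsmul_eq_mul]

theorem sgPhi_zero_right {p : ℕ} (hp : 0 < p) (x : R) : sgPhi p x 0 = x ^ (p - 1) := by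
  unfold sgPhi
  rw [Finset.sum_eq_single (p - 1)]
  · simp
  · intro i hi hne
    rw [Finset.mem_range] at hi
    have : p - 1 - i ≠ 0 := by omega
    simp [this]
  · intro h
    exact absurd (Finset.mem_range.mpr (by omega)) h

theorem map_sgPhi {S : Type*} [CommRing S] (f : R →+* S) (p : ℕ) (x z : R) :
    f (sgPhi p x z) = sgPhi p (f x) (f z) := by
  simp [sgPhi, map_sum]

theorem add_dvd_sgPhi_sub (p : ℕ) (x z : R) :
    (x + z) ∣ sgPhi p x z - (p : R) * x ^ (p - 1) := by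
  have h1 : (p : R) * x ^ (p - 1) = ∑ i ∈ Finset.range p, x ^ i * x ^ (p - 1 - i) := by
    have : ∀ i ∈ Finset.range p, x ^ i * x ^ (p - 1 - i) = x ^ (p - 1) := by
      intro i hi
      rw [Finset.mem_range] at hi
      rw [← pow_add]
      congr 1
      omega
    rw [Finset.sum_congr rfl this, Finset.sum_const, Finset.card_range, nsmul_eq_mul]
  unfold sgPhi
  rw [h1, ← Finset.sum_sub_distrib]
  refine Finset.dvd_sum fun i _ => ?_
  rw [← mul_sub]
  refine Dvd.dvd.mul_left ?_ _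
  have h2 : (-z - x) ∣ (-z) ^ (p - 1 - i) - x ^ (p - 1 - i) := sub_dvd_pow_sub_pow _ _ _
  have h3 : (x + z) ∣ (-z - x) := ⟨-1, by ring⟩
  exact h3.trans h2

end phi

/-- `y + z` and the cofactor are coprime when the product is a `p`-th power prime to `p`. -/
theorem isCoprime_add_sgPhi {p : ℕ} (hp : p.Prime) {y z w : ℤ} (hyz : IsCoprime y z)
    (h : sgPhi p y z * (y + z) = w ^ p) (hpw : ¬ (p : ℤ) ∣ w) :
    IsCoprime (y + z) (sgPhi p y z) := by
  have hp' : Prime (p : ℤ) := Nat.prime_iff_prime_int.mp hp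
  refine isCoprime_of_prime_dvd ?_ ?_
  · rintro ⟨h1, -⟩
    rw [h1, mul_zero] at h
    have hw : w = 0 := (pow_eq_zero_iff hp.ne_zero).mp h.symm
    exact hpw (hw ▸ dvd_zero _)
  · intro r hr hr1 hr2
    have h3 : r ∣ (p : ℤ) * y ^ (p - 1) := by
      have := (hr1.trans (add_dvd_sgPhi_sub p y z))
      have h4 := dvd_sub hr2 this
      rwa [sub_sub_cancel] at h4
    rcases hr.dvd_or_dvd h3 with h5 | h5
    · have h6 : (p : ℤ) ∣ r := ((hr.dvd_prime_iff_associated hp').mp h5).symm.dvd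
      have h7 : (p : ℤ) ∣ w ^ p := by
        rw [← h]
        exact Dvd.dvd.mul_left (h6.trans hr1) _
      exact hpw (hp'.dvd_of_dvd_pow h7)
    · have h6 : r ∣ y := hr.dvd_of_dvd_pow h5
      have h7 : r ∣ z := by
        have := dvd_sub hr1 h6
        rwa [add_sub_cancel_left] at this
      exact hr.not_isUnit (hyz.isUnit_of_dvd' h6 h7)

/-- Core of Sophie Germain's argument: the auxiliary prime cannot divide `x`. -/
theorem sophieGermain_aux {p q : ℕ} (hp : p.Prime) (hodd : p ≠ 2) [Fact q.Prime]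
    (h1 : ∀ x y z : ZMod q, x ^ p + y ^ p + z ^ p = 0 → x * y * z = 0)
    (h2 : ∀ t : ZMod q, t ^ p ≠ (p : ZMod q))
    {x y z : ℤ} (hxy : IsCoprime x y) (hyz : IsCoprime y z) (hzx : IsCoprime z x)
    (hpy : ¬ (p : ℤ) ∣ y) (hpz : ¬ (p : ℤ) ∣ z) (hpx : ¬ (p : ℤ) ∣ x)
    (h : x ^ p + y ^ p + z ^ p = 0) (hq : ((x : ℤ) : ZMod q) = 0) : False := by
  have hq' : q.Prime := Fact.out
  have hqZ : Prime (q : ℤ) := Nat.prime_iff_prime_int.mp hq'
  have hpodd : Odd p := hp.odd_of_ne_two hodd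
  -- y + z = A^p, cofactor = α^p
  have e1 : sgPhi p y z * (y + z) = (-x) ^ p := by
    rw [sgPhi_mul hpodd, hpodd.neg_pow]; linarith
  have c1 := isCoprime_add_sgPhi hp hyz e1 (by rwa [dvd_neg])
  obtain ⟨A, hA⟩ := Int.eq_pow_of_mul_eq_pow_odd_right c1.symm hpodd e1
  obtain ⟨α, hα⟩ := Int.eq_pow_of_mul_eq_pow_odd_left c1.symm hpodd e1
  -- z + x = B^p
  have e2 : sgPhi p z x * (z + x) = (-y) ^ p := by
    rw [sgPhi_mul hpodd, hpodd.neg_pow]; linarith
  have c2 := isCoprime_add_sgPhi hp hzx e2 (by rwa [dvd_neg])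
  obtain ⟨B, hB⟩ := Int.eq_pow_of_mul_eq_pow_odd_right c2.symm hpodd e2
  -- y + x = C^p, cofactor = γ^p
  have e3 : sgPhi p y x * (y + x) = (-z) ^ p := by
    rw [sgPhi_mul hpodd, hpodd.neg_pow]; linarith
  have c3 := isCoprime_add_sgPhi hp hxy.symm e3 (by rwa [dvd_neg])
  obtain ⟨C, hC⟩ := Int.eq_pow_of_mul_eq_pow_odd_right c3.symm hpodd e3
  obtain ⟨γ, hγ⟩ := Int.eq_pow_of_mul_eq_pow_odd_left c3.symm hpodd e3
  -- reduce modulo q
  have hy0 : ((y : ℤ) : ZMod q) ≠ 0 := by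
    intro hy
    have d1 : (q : ℤ) ∣ x := (ZMod.intCast_zmod_eq_zero_iff_dvd x q).mp hq
    have d2 : (q : ℤ) ∣ y := (ZMod.intCast_zmod_eq_zero_iff_dvd y q).mp hy
    exact hqZ.not_isUnit (hxy.isUnit_of_dvd' d1 d2)
  have hz0 : ((z : ℤ) : ZMod q) ≠ 0 := by
    intro hz
    have d1 : (q : ℤ) ∣ x := (ZMod.intCast_zmod_eq_zero_iff_dvd x q).mp hq
    have d2 : (q : ℤ) ∣ z := (ZMod.intCast_zmod_eq_zero_iff_dvd z q).mp hz
    exact hqZ.not_isUnit (hzx.isUnit_of_dvd' d2 d1)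
  have hBq : ((B : ℤ) : ZMod q) ^ p = (z : ZMod q) := by
    have := congrArg (Int.cast : ℤ → ZMod q) hB
    push_cast at this
    rw [hq, add_zero] at this
    exact this.symm
  have hCq : ((C : ℤ) : ZMod q) ^ p = (y : ZMod q) := by
    have := congrArg (Int.cast : ℤ → ZMod q) hC
    push_cast at this
    rw [hq, add_zero] at this
    exact this.symm
  have hAq : ((A : ℤ) : ZMod q) ^ p = (y : ZMod q) + (z : ZMod q) := by
    have := congrArg (Int.cast : ℤ → ZMod q) hA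
    push_cast at this
    exact this.symm
  have hsum : ((B : ℤ) : ZMod q) ^ p + ((C : ℤ) : ZMod q) ^ p + (-((A : ℤ) : ZMod q)) ^ p = 0 := by
    rw [hpodd.neg_pow, hBq, hCq, hAq]; ring
  have hprod := h1 _ _ _ hsum
  have hB0 : ((B : ℤ) : ZMod q) ≠ 0 := by
    intro hB0
    rw [hB0, zero_pow hp.ne_zero] at hBq
    exact hz0 hBq.symm
  have hC0 : ((C : ℤ) : ZMod q) ≠ 0 := by
    intro hC0
    rw [hC0, zero_pow hp.ne_zero] at hCq
    exact hy0 hCq.symm
  have hA0 : ((A : ℤ) : ZMod q) = 0 := by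
    rcases mul_eq_zero.mp hprod with h3 | h3
    · rcases mul_eq_zero.mp h3 with h4 | h4
      · exact absurd h4 hB0
      · exact absurd h4 hC0
    · exact neg_eq_zero.mp h3
  have hyz0 : (y : ZMod q) + (z : ZMod q) = 0 := by
    rw [← hAq, hA0, zero_pow hp.ne_zero]
  -- the two cofactors modulo q
  have hαq : ((α : ℤ) : ZMod q) ^ p = (p : ZMod q) * (y : ZMod q) ^ (p - 1) := by
    have := congrArg (Int.castRingHom (ZMod q)) hα
    rw [map_sgPhi, map_pow] at this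
    simp only [Int.coe_castRingHom] at this
    rw [← this, sgPhi_of_add_eq_zero _ _ hyz0]
  have hγq : ((γ : ℤ) : ZMod q) ^ p = (y : ZMod q) ^ (p - 1) := by
    have := congrArg (Int.castRingHom (ZMod q)) hγ
    rw [map_sgPhi, map_pow] at this
    simp only [Int.coe_castRingHom] at this
    rw [← this, hq, sgPhi_zero_right hp.pos]
  have hγ0 : ((γ : ℤ) : ZMod q) ^ p ≠ 0 := by
    rw [hγq]; exact pow_ne_zero _ hy0
  refine h2 (((α : ℤ) : ZMod q) / ((γ : ℤ) : ZMod q)) ?_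
  rw [div_pow, hαq, hγq, mul_div_assoc, div_self (pow_ne_zero _ hy0), mul_one]

/-- **Sophie Germain's theorem** (symmetric form). -/
theorem sophieGermain {p q : ℕ} (hp : p.Prime) (hodd : p ≠ 2) [Fact q.Prime]
    (h1 : ∀ x y z : ZMod q, x ^ p + y ^ p + z ^ p = 0 → x * y * z = 0)
    (h2 : ∀ t : ZMod q, t ^ p ≠ (p : ZMod q))
    {x y z : ℤ} (hxy : IsCoprime x y) (hyz : IsCoprime y z) (hzx : IsCoprime z x)
    (hpx : ¬ (p : ℤ) ∣ x) (hpy : ¬ (p : ℤ) ∣ y) (hpz : ¬ (p : ℤ) ∣ z) :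
    x ^ p + y ^ p + z ^ p ≠ 0 := by
  intro h
  have hq := congrArg (Int.cast : ℤ → ZMod q) h
  push_cast at hq
  have hprod := h1 _ _ _ hq
  rcases mul_eq_zero.mp hprod with h3 | h3
  · rcases mul_eq_zero.mp h3 with h4 | h4
    · exact sophieGermain_aux hp hodd h1 h2 hxy hyz hzx hpy hpz hpx h h4
    · exact sophieGermain_aux hp hodd h1 h2 hyz hzx hxy hpz hpx hpy (by linarith) h4
  · exact sophieGermain_aux hp hodd h1 h2 hzx hxy hyz hpx hpy hpz (by linarith) h3

/-- Pairwise coprimality from coprimality of two of the three terms. -/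
theorem isCoprime_of_sum_pow_eq_zero {p : ℕ} {x y z : ℤ} (hxy : IsCoprime x y)
    (h : x ^ p + y ^ p + z ^ p = 0) : IsCoprime y z := by
  rcases Nat.eq_zero_or_pos p with rfl | hp
  · simp at h
  refine isCoprime_of_prime_dvd ?_ ?_
  · rintro ⟨rfl, rfl⟩
    rw [zero_pow hp.ne', add_zero, add_zero] at h
    have hx : x = 0 := (pow_eq_zero_iff hp.ne').mp h
    rw [hx] at hxy
    exact not_isUnit_zero (isCoprime_zero_left.mp hxy) |>.elim
  · intro r hr hry hrz
    have hrx : r ∣ x :=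
      dvd_c_of_prime_of_dvd_a_of_dvd_b_of_FLT hr hry hrz (n := p) (by linarith)
    exact hr.not_isUnit (hxy.isUnit_of_dvd' hrx hry)

/-- First case of FLT from Sophie Germain's criterion, `a^p + b^p = c^p` form. -/
theorem caseI_of_sophieGermain {p q : ℕ} (hp : p.Prime) (hodd : p ≠ 2) [Fact q.Prime]
    (h1 : ∀ x y z : ZMod q, x ^ p + y ^ p + z ^ p = 0 → x * y * z = 0)
    (h2 : ∀ t : ZMod q, t ^ p ≠ (p : ZMod q))
    (a b c : ℤ) (hab : IsCoprime a b) (hpabc : ¬ (p : ℤ) ∣ a * b * c) :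
    a ^ p + b ^ p ≠ c ^ p := by
  intro h
  have hpodd : Odd p := hp.odd_of_ne_two hodd
  have h0 : a ^ p + b ^ p + (-c) ^ p = 0 := by rw [hpodd.neg_pow]; linarith
  have hbc : IsCoprime b (-c) := isCoprime_of_sum_pow_eq_zero hab h0
  have hca : IsCoprime (-c) a := isCoprime_of_sum_pow_eq_zero hbc (by linarith)
  refine sophieGermain hp hodd h1 h2 hab hbc hca ?_ ?_ ?_ h0
  · exact fun hd => hpabc (Dvd.dvd.mul_right (Dvd.dvd.mul_right hd _) _)
  · exact fun hd => hpabc (Dvd.dvd.mul_right (Dvd.dvd.mul_left hd _) _)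
  · exact fun hd => hpabc (Dvd.dvd.mul_left ((dvd_neg).mp hd) _)

/-! ### The auxiliary primes -/

section aux

variable {p q : ℕ} [Fact q.Prime]

theorem sg_h1_of_roots (S : Finset (ZMod q))
    (hS : ∀ t : ZMod q, t ≠ 0 → t ^ p ∈ S)
    (hsum : ∀ u ∈ S, ∀ v ∈ S, ∀ w ∈ S, u + v + w ≠ 0) :
    ∀ x y z : ZMod q, x ^ p + y ^ p + z ^ p = 0 → x * y * z = 0 := by
  intro x y z h
  by_contra hne
  have hx : x ≠ 0 := fun h0 => hne (by rw [h0, zero_mul, zero_mul])
  have hy : y ≠ 0 := fun h0 => hne (by rw [h0, mul_zero, zero_mul])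
  have hz : z ≠ 0 := fun h0 => hne (by rw [h0, mul_zero])
  exact hsum _ (hS x hx) _ (hS y hy) _ (hS z hz) h

theorem sg_h2_of_roots (hp : p ≠ 0) (S : Finset (ZMod q))
    (hS : ∀ t : ZMod q, t ≠ 0 → t ^ p ∈ S)
    (hp0 : (p : ZMod q) ≠ 0) (hpS : (p : ZMod q) ∉ S) :
    ∀ t : ZMod q, t ^ p ≠ (p : ZMod q) := by
  intro t ht
  rcases eq_or_ne t 0 with rfl | h0
  · rw [zero_pow hp] at ht
    exact hp0 ht.symm
  · exact hpS (ht ▸ hS t h0)

theorem sg_roots_two (hq : q - 1 = p * 2) (t : ZMod q) (ht : t ≠ 0) :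
    t ^ p ∈ ({1, -1} : Finset (ZMod q)) := by
  have h := ZMod.pow_card_sub_one_eq_one ht
  rw [hq, pow_mul] at h
  have h' : (t ^ p - 1) * (t ^ p + 1) = 0 := by linear_combination h
  rw [Finset.mem_insert, Finset.mem_singleton]
  rcases mul_eq_zero.mp h' with h1 | h1
  · exact Or.inl (sub_eq_zero.mp h1)
  · exact Or.inr (eq_neg_of_add_eq_zero_left h1)

theorem sg_roots_four (hq : q - 1 = p * 4) (i : ZMod q) (hi : i ^ 2 = -1) (t : ZMod q)
    (ht : t ≠ 0) : t ^ p ∈ ({1, -1, i, -i} : Finset (ZMod q)) := by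
  have h := ZMod.pow_card_sub_one_eq_one ht
  rw [hq, pow_mul] at h
  have h' : (t ^ p - 1) * (t ^ p + 1) * (t ^ p - i) * (t ^ p + i) = 0 := by
    linear_combination h - ((t ^ p) ^ 2 - 1) * hi
  simp only [Finset.mem_insert, Finset.mem_singleton]
  rcases mul_eq_zero.mp h' with h1 | h1
  · rcases mul_eq_zero.mp h1 with h2 | h2
    · rcases mul_eq_zero.mp h2 with h3 | h3
      · exact Or.inl (sub_eq_zero.mp h3)
      · exact Or.inr (Or.inl (eq_neg_of_add_eq_zero_left h3))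
    · exact Or.inr (Or.inr (Or.inl (sub_eq_zero.mp h2)))
  · exact Or.inr (Or.inr (Or.inr (eq_neg_of_add_eq_zero_left h1)))

end aux

instance sgFact11 : Fact (Nat.Prime 11) := ⟨by norm_num⟩
instance sgFact29 : Fact (Nat.Prime 29) := ⟨by norm_num⟩
instance sgFact23 : Fact (Nat.Prime 23) := ⟨by norm_num⟩
instance sgFact53 : Fact (Nat.Prime 53) := ⟨by norm_num⟩

/-- First case of FLT for `p = 5` (auxiliary prime `11`). -/
theorem caseI_five (a b c : ℤ) (hab : IsCoprime a b) (h : ¬ (5 : ℤ) ∣ a * b * c) :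
    a ^ 5 + b ^ 5 ≠ c ^ 5 := by
  have hS : ∀ t : ZMod 11, t ≠ 0 → t ^ 5 ∈ ({1, -1} : Finset (ZMod 11)) :=
    sg_roots_two (p := 5) (q := 11) (by norm_num)
  exact caseI_of_sophieGermain (p := 5) (q := 11) (by norm_num) (by norm_num)
    (sg_h1_of_roots _ hS (by decide))
    (sg_h2_of_roots (by norm_num) _ hS (by decide) (by decide)) a b c hab (by simpa using h)

/-- First case of FLT for `p = 7` (auxiliary prime `29`). -/
theorem caseI_seven (a b c : ℤ) (hab : IsCoprime a b) (h : ¬ (7 : ℤ) ∣ a * b * c) :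
    a ^ 7 + b ^ 7 ≠ c ^ 7 := by
  have hS : ∀ t : ZMod 29, t ≠ 0 → t ^ 7 ∈ ({1, -1, 12, -12} : Finset (ZMod 29)) :=
    sg_roots_four (p := 7) (q := 29) (by norm_num) 12 (by decide)
  exact caseI_of_sophieGermain (p := 7) (q := 29) (by norm_num) (by norm_num)
    (sg_h1_of_roots _ hS (by decide))
    (sg_h2_of_roots (by norm_num) _ hS (by decide) (by decide)) a b c hab (by simpa using h)

/-- First case of FLT for `p = 11` (auxiliary prime `23`). -/
theorem caseI_eleven (a b c : ℤ) (hab : IsCoprime a b) (h : ¬ (11 : ℤ) ∣ a * b * c) :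
    a ^ 11 + b ^ 11 ≠ c ^ 11 := by
  have hS : ∀ t : ZMod 23, t ≠ 0 → t ^ 11 ∈ ({1, -1} : Finset (ZMod 23)) :=
    sg_roots_two (p := 11) (q := 23) (by norm_num)
  exact caseI_of_sophieGermain (p := 11) (q := 23) (by norm_num) (by norm_num)
    (sg_h1_of_roots _ hS (by decide))
    (sg_h2_of_roots (by norm_num) _ hS (by decide) (by decide)) a b c hab (by simpa using h)

set_option maxRecDepth 8000 in
/-- First case of FLT for `p = 13` (auxiliary prime `53`). -/
theorem caseI_thirteen (a b c : ℤ) (hab : IsCoprime a b) (h : ¬ (13 : ℤ) ∣ a * b * c) :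
    a ^ 13 + b ^ 13 ≠ c ^ 13 := by
  have hS : ∀ t : ZMod 53, t ≠ 0 → t ^ 13 ∈ ({1, -1, 23, -23} : Finset (ZMod 53)) :=
    sg_roots_four (p := 13) (q := 53) (by norm_num) 23 (by decide)
  exact caseI_of_sophieGermain (p := 13) (q := 53) (by norm_num) (by norm_num)
    (sg_h1_of_roots _ hS (by decide))
    (sg_h2_of_roots (by norm_num) _ hS (by decide) (by decide)) a b c hab (by simpa using h)

/-! ### Glue: the full statement from the two cases -/

/-- FLT for exponent `p` for coprime `a, b`, from the first and the second case. -/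
theorem flt_coprime_of_cases {p : ℕ} (hp : p.Prime) (hodd : p ≠ 2)
    (hI : ∀ a b c : ℤ, IsCoprime a b → ¬ (p : ℤ) ∣ a * b * c → a ^ p + b ^ p ≠ c ^ p)
    (hII : ∀ a b c : ℤ, IsCoprime a b → c ≠ 0 → (p : ℤ) ∣ c → a ^ p + b ^ p ≠ c ^ p)
    (a b c : ℤ) (hab : IsCoprime a b) (ha : a ≠ 0) (hb : b ≠ 0) (hc : c ≠ 0) :
    a ^ p + b ^ p ≠ c ^ p := by
  intro h
  have hp' : Prime (p : ℤ) := Nat.prime_iff_prime_int.mp hp
  have hpodd : Odd p := hp.odd_of_ne_two hodd
  have h0 : a ^ p + b ^ p + (-c) ^ p = 0 := by rw [hpodd.neg_pow]; linarith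
  have hbc : IsCoprime b (-c) := isCoprime_of_sum_pow_eq_zero hab h0
  have hca : IsCoprime (-c) a := isCoprime_of_sum_pow_eq_zero hbc (by linarith)
  by_cases hd : (p : ℤ) ∣ a * b * c
  · rcases hp'.dvd_or_dvd hd with hd1 | hpc
    · rcases hp'.dvd_or_dvd hd1 with hpa | hpb
      · refine hII c (-b) a ?_ ha hpa ?_
        · exact (IsCoprime.neg_right_iff _ _).mpr ((IsCoprime.neg_right_iff _ _).mp hbc).symm
        · rw [hpodd.neg_pow]; linarith
      · refine hII c (-a) b ?_ hb hpb ?_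
        · exact (IsCoprime.neg_right_iff _ _).mpr ((IsCoprime.neg_left_iff _ _).mp hca)
        · rw [hpodd.neg_pow]; linarith
    · exact hII a b c hab hc hpc h
  · exact hI a b c hab hd h

/-- FLT for exponent `p` over `ℤ`, from the first and the second case (coprime forms). -/
theorem flt_of_cases {p : ℕ} (hp : p.Prime) (hodd : p ≠ 2)
    (hI : ∀ a b c : ℤ, IsCoprime a b → ¬ (p : ℤ) ∣ a * b * c → a ^ p + b ^ p ≠ c ^ p)
    (hII : ∀ a b c : ℤ, IsCoprime a b → c ≠ 0 → (p : ℤ) ∣ c → a ^ p + b ^ p ≠ c ^ p)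
    (a b c : ℤ) (ha : a ≠ 0) (hb : b ≠ 0) (hc : c ≠ 0) :
    a ^ p + b ^ p ≠ c ^ p := by
  intro h
  have hg : 0 < Int.gcd a b := Int.gcd_pos_of_ne_zero_left b ha
  obtain ⟨a', b', hg1, ha', hb'⟩ := Int.exists_gcd_one hg
  set d : ℤ := (Int.gcd a b : ℤ) with hd
  have hd0 : d ≠ 0 := by
    rw [hd]; exact_mod_cast hg.ne'
  have hdc : d ∣ c := by
    have : d ^ p ∣ c ^ p := by
      rw [← h, ha', hb', mul_pow, mul_pow, ← add_mul]
      exact Dvd.intro_left _ rfl
    exact (Int.pow_dvd_pow_iff hp.ne_zero).mp this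
  obtain ⟨c', hc'⟩ := hdc
  have ha0 : a' ≠ 0 := by
    rintro rfl; rw [zero_mul] at ha'; exact ha ha'
  have hb0 : b' ≠ 0 := by
    rintro rfl; rw [zero_mul] at hb'; exact hb hb'
  have hc0 : c' ≠ 0 := by
    rintro rfl; rw [mul_zero] at hc'; exact hc hc'
  have hcop : IsCoprime a' b' := Int.isCoprime_iff_gcd_eq_one.mpr hg1
  refine flt_coprime_of_cases hp hodd hI hII a' b' c' hcop ha0 hb0 hc0 ?_
  have h2 : d ^ p * (a' ^ p + b' ^ p) = d ^ p * c' ^ p := by
    rw [ha', hb', hc'] at h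
    linear_combination h
  exact mul_left_cancel₀ (pow_ne_zero p hd0) h2

/-! ### Specialisations: FLT for `p = 5, 7, 11, 13` from the second case alone -/

theorem flt_five_of_caseII
    (hII : ∀ a b c : ℤ, IsCoprime a b → c ≠ 0 → (5 : ℤ) ∣ c → a ^ 5 + b ^ 5 ≠ c ^ 5)
    (a b c : ℤ) (ha : a ≠ 0) (hb : b ≠ 0) (hc : c ≠ 0) : a ^ 5 + b ^ 5 ≠ c ^ 5 :=
  flt_of_cases (p := 5) (by norm_num) (by norm_num)
    (fun a b c hab h => caseI_five a b c hab (by simpa using h))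
    (fun a b c hab hc h => hII a b c hab hc (by simpa using h)) a b c ha hb hc

theorem flt_seven_of_caseII
    (hII : ∀ a b c : ℤ, IsCoprime a b → c ≠ 0 → (7 : ℤ) ∣ c → a ^ 7 + b ^ 7 ≠ c ^ 7)
    (a b c : ℤ) (ha : a ≠ 0) (hb : b ≠ 0) (hc : c ≠ 0) : a ^ 7 + b ^ 7 ≠ c ^ 7 :=
  flt_of_cases (p := 7) (by norm_num) (by norm_num)
    (fun a b c hab h => caseI_seven a b c hab (by simpa using h))
    (fun a b c hab hc h => hII a b c hab hc (by simpa using h)) a b c ha hb hc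

theorem flt_eleven_of_caseII
    (hII : ∀ a b c : ℤ, IsCoprime a b → c ≠ 0 → (11 : ℤ) ∣ c → a ^ 11 + b ^ 11 ≠ c ^ 11)
    (a b c : ℤ) (ha : a ≠ 0) (hb : b ≠ 0) (hc : c ≠ 0) : a ^ 11 + b ^ 11 ≠ c ^ 11 :=
  flt_of_cases (p := 11) (by norm_num) (by norm_num)
    (fun a b c hab h => caseI_eleven a b c hab (by simpa using h))
    (fun a b c hab hc h => hII a b c hab hc (by simpa using h)) a b c ha hb hc

theorem flt_thirteen_of_caseII
    (hII : ∀ a b c : ℤ, IsCoprime a b → c ≠ 0 → (13 : ℤ) ∣ c → a ^ 13 + b ^ 13 ≠ c ^ 13)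
    (a b c : ℤ) (ha : a ≠ 0) (hb : b ≠ 0) (hc : c ≠ 0) : a ^ 13 + b ^ 13 ≠ c ^ 13 :=
  flt_of_cases (p := 13) (by norm_num) (by norm_num)
    (fun a b c hab h => caseI_thirteen a b c hab (by simpa using h))
    (fun a b c hab hc h => hII a b c hab hc (by simpa using h)) a b c ha hb hc

end Fermat.Agent.Lib.Kummer
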