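import Mathlib

set_option autoImplicit false
set_option linter.unusedSectionVars false
set_option linter.unusedVariables false

open Finset Polynomial

namespace Fermat.Agent.Lib.Kummer

section Abstract

variable {R : Type*} [CommRing R] [IsDomain R] {p : ℕ} {ζ : R}

lemma kc_lam_dvd_pow_sub_one (ζ : R) (i : ℕ) : ζ - 1 ∣ ζ ^ i - 1 := by
  simpa using sub_dvd_pow_sub_pow ζ 1 i

lemma kc_lam_dvd_p (hp : p.Prime) (hass : Associated ((ζ - 1) ^ (p - 1)) (p : R)) :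
    ζ - 1 ∣ (p : R) :=
  (dvd_pow_self _ (Nat.sub_ne_zero_of_lt hp.one_lt)).trans hass.dvd

lemma kc_p_dvd_lam_pow (hp : p.Prime) (hass : Associated ((ζ - 1) ^ (p - 1)) (p : R)) :
    (p : R) ∣ (ζ - 1) ^ p :=
  hass.symm.dvd.trans (pow_dvd_pow _ (Nat.sub_le p 1))

lemma kc_lam_dvd_int (hp : p.Prime) (hlam : Prime (ζ - 1))
    (hass : Associated ((ζ - 1) ^ (p - 1)) (p : R)) {n : ℤ} (h : ζ - 1 ∣ (n : R)) :
    (p : ℤ) ∣ n := by
  by_contra hn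
  have hcop : IsCoprime (p : ℤ) n :=
    (Prime.coprime_iff_not_dvd (Nat.prime_iff_prime_int.mp hp)).2 hn
  obtain ⟨u, v, huv⟩ := hcop
  have h1 : ζ - 1 ∣ ((u * (p : ℤ) + v * n : ℤ) : R) := by
    push_cast
    exact dvd_add (Dvd.dvd.mul_left (kc_lam_dvd_p hp hass) _) (Dvd.dvd.mul_left h _)
  rw [huv] at h1
  exact hlam.not_isUnit (isUnit_of_dvd_one (by simpa using h1))

lemma kc_exists_int_pow (hp : p.Prime) (hres : ∀ x : R, ∃ a : ℤ, ζ - 1 ∣ x - a)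
    (hass : Associated ((ζ - 1) ^ (p - 1)) (p : R)) (t : R) :
    ∃ a : ℤ, (p : R) ∣ t ^ p - a := by
  obtain ⟨a, s, hs⟩ := hres t
  obtain ⟨r, hr⟩ := exists_add_pow_prime_eq hp (a : R) ((ζ - 1) * s)
  refine ⟨a ^ p, ?_⟩
  have ht : t = a + (ζ - 1) * s := by rw [← hs]; ring
  obtain ⟨c, hc⟩ := kc_p_dvd_lam_pow hp hass
  refine ⟨c * s ^ p + a * ((ζ - 1) * s) * r, ?_⟩
  rw [ht, hr, mul_pow, hc]
  push_cast
  ring

lemma kc_isUnit_one_add (hp : p.Prime) (hp2 : p ≠ 2) (hζ : IsPrimitiveRoot ζ p) :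
    IsUnit (1 + ζ) := by
  have h := hζ.geom_sum_isUnit hp.two_le (j := 2)
    ((Nat.coprime_primes Nat.prime_two hp).2 (Ne.symm hp2))
  simpa [Finset.sum_range_succ] using h

lemma kc_lam_dvd_geom_sub (ζ : R) (i : ℕ) : ζ - 1 ∣ (∑ j ∈ range i, ζ ^ j) - (i : R) := by
  have : (∑ j ∈ range i, ζ ^ j) - (i : R) = ∑ j ∈ range i, (ζ ^ j - 1) := by
    rw [Finset.sum_sub_distrib]; simp
  rw [this]
  exact Finset.dvd_sum fun j _ => kc_lam_dvd_pow_sub_one ζ j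

lemma kc_exists_sq_dvd (hp : p.Prime) (hlam : Prime (ζ - 1))
    (hres : ∀ x : R, ∃ a : ℤ, ζ - 1 ∣ x - a)
    (hass : Associated ((ζ - 1) ^ (p - 1)) (p : R)) {x y : R} (hy : ¬ ζ - 1 ∣ y)
    (hxy : ζ - 1 ∣ x + y) : ∃ i : ℕ, (ζ - 1) ^ 2 ∣ x + ζ ^ i * y := by
  obtain ⟨q, hq⟩ := hxy
  obtain ⟨a, ha⟩ := hres q
  obtain ⟨b, hb⟩ := hres y
  have hpb : ¬ (p : ℤ) ∣ b := by
    intro hpb
    apply hy
    have h1 : ζ - 1 ∣ (b : R) := (kc_lam_dvd_p hp hass).trans (by exact_mod_cast Int.cast_dvd_cast (α := R) _ _ hpb)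
    have := dvd_add hb h1
    simpa using this
  have hcop : IsCoprime (p : ℤ) b :=
    (Prime.coprime_iff_not_dvd (Nat.prime_iff_prime_int.mp hp)).2 hpb
  obtain ⟨u, v, huv⟩ := hcop
  have hp0 : (0 : ℤ) < p := by exact_mod_cast hp.pos
  set i0 : ℤ := (-a * v) % p with hi0
  have hi0nn : 0 ≤ i0 := Int.emod_nonneg _ hp0.ne'
  obtain ⟨i, hi⟩ := Int.eq_ofNat_of_zero_le hi0nn
  have hdiv : (p : ℤ) ∣ a + i * b := by
    rw [← hi, hi0]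
    have h1 : (p : ℤ) ∣ (-a * v) % p - (-a * v) := by
      rw [Int.emod_def]; exact ⟨-((-a * v) / p), by ring⟩
    have h2 : a + (-a * v) % p * b = ((-a * v) % p - (-a * v)) * b + a * (u * p) := by
      have : v * b = 1 - u * p := by linarith
      linear_combination (-a) * this
    rw [h2]
    exact dvd_add (Dvd.dvd.mul_right h1 _) ⟨a * u, by ring⟩
  refine ⟨i, ?_⟩
  have hdiv' : ζ - 1 ∣ ((a + i * b : ℤ) : R) :=
    (kc_lam_dvd_p hp hass).trans (by exact_mod_cast Int.cast_dvd_cast (α := R) _ _ hdiv)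
  obtain ⟨g, hg⟩ := kc_lam_dvd_geom_sub ζ i
  have hgeom : ζ ^ i - 1 = (ζ - 1) * ∑ j ∈ range i, ζ ^ j := (mul_geom_sum ζ i).symm
  have key : ζ - 1 ∣ q + (∑ j ∈ range i, ζ ^ j) * y := by
    obtain ⟨c1, hc1⟩ := ha
    obtain ⟨c2, hc2⟩ := hb
    obtain ⟨c3, hc3⟩ := hdiv'
    refine ⟨c1 + g * y + i * c2 + c3, ?_⟩
    push_cast at hc3
    linear_combination hc1 + y * hg + (i : R) * hc2 + hc3
  obtain ⟨c, hc⟩ := key
  refine ⟨c, ?_⟩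
  have : x + ζ ^ i * y = (x + y) + (ζ ^ i - 1) * y := by ring
  rw [this, hq, hgeom]
  linear_combination (ζ - 1) * hc

/-- Descent step with `λ^2 ∣ x + y`. -/
lemma kc_descent_aux [IsPrincipalIdealRing R] (hp : p.Prime) (hp2 : p ≠ 2)
    (hζ : IsPrimitiveRoot ζ p)
    (hlam : Prime (ζ - 1)) (hres : ∀ x : R, ∃ a : ℤ, ζ - 1 ∣ x - a)
    (hass : Associated ((ζ - 1) ^ (p - 1)) (p : R))
    (hKL : ∀ u : Rˣ, (∃ a : ℤ, (p : R) ∣ (u : R) - a) → ∃ v : Rˣ, u = v ^ p)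
    {m : ℕ} (hm : 1 ≤ m) {x y z : R} {ε : Rˣ} (hy : ¬ ζ - 1 ∣ y) (hz : ¬ ζ - 1 ∣ z)
    (hxy : IsCoprime x y) (h2 : (ζ - 1) ^ 2 ∣ x + y)
    (h : x ^ p + y ^ p = ε * (ζ - 1) ^ (p * m) * z ^ p) :
    2 ≤ m ∧ ∃ (x' y' z' : R) (ε' : Rˣ), ¬ ζ - 1 ∣ y' ∧ ¬ ζ - 1 ∣ z' ∧ IsCoprime x' y' ∧
      x' ^ p + y' ^ p = ε' * (ζ - 1) ^ (p * (m - 1)) * z' ^ p := by
  classical
  have hodd : Odd p := hp.odd_of_ne_two hp2
  have hlam0 : ζ - 1 ≠ 0 := hlam.ne_zero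
  set μ := nthRootsFinset p (1 : R) with hμ
  have hcard : μ.card = p := hζ.card_nthRootsFinset
  have h1μ : (1 : R) ∈ μ := by rw [hμ, mem_nthRootsFinset hp.pos]; simp
  have hζμ : ζ ∈ μ := by rw [hμ, mem_nthRootsFinset hp.pos]; exact hζ.pow_eq_one
  have hprod : x ^ p + y ^ p = ∏ η ∈ μ, (x + η * y) := hζ.pow_add_pow_eq_prod_add_mul x y hodd
  have F1 : ∀ η ∈ μ, ζ - 1 ∣ x + η * y := by
    intro η hη
    have h1 : ζ - 1 ∣ η - 1 := hζ.sub_one_dvd_sub hp hη h1μ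
    have h3 : ζ - 1 ∣ x + y := (dvd_pow_self _ two_ne_zero).trans h2
    have : x + η * y = (x + y) + (η - 1) * y := by ring
    rw [this]
    exact dvd_add h3 (Dvd.dvd.mul_right h1 _)
  have F2 : ∀ η ∈ μ, η ≠ 1 → ¬ (ζ - 1) ^ 2 ∣ x + η * y := by
    intro η hη hη1 hdiv
    have hassoc : Associated (ζ - 1) (η - 1) :=
      hζ.nthRootsFinset_pairwise_associated_sub_one_sub_of_prime hp hη h1μ hη1
    obtain ⟨u, hu⟩ := hassoc
    have h3 : (ζ - 1) ^ 2 ∣ (η - 1) * y := by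
      have : (η - 1) * y = (x + η * y) - (x + y) := by ring
      rw [this]; exact dvd_sub hdiv h2
    rw [← hu, pow_two, mul_assoc] at h3
    have h4 : ζ - 1 ∣ u * y := (mul_dvd_mul_iff_left hlam0).1 h3
    exact hy ((IsUnit.dvd_mul_left u.isUnit).1 h4)
  choose! q hq using F1
  have F3 : ∀ η ∈ μ, η ≠ 1 → ¬ ζ - 1 ∣ q η := by
    intro η hη hη1 hdiv
    apply F2 η hη hη1
    rw [hq η hη, pow_two]
    exact mul_dvd_mul_left _ hdiv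
  have F5 : ζ - 1 ∣ q 1 := by
    have := hq 1 h1μ
    rw [one_mul] at this
    rw [this, pow_two] at h2
    exact (mul_dvd_mul_iff_left hlam0).1 h2
  have F4 : ∏ η ∈ μ, q η = ε * (ζ - 1) ^ (p * (m - 1)) * z ^ p := by
    have e1 : ∏ η ∈ μ, (x + η * y) = (ζ - 1) ^ p * ∏ η ∈ μ, q η := by
      rw [Finset.prod_congr rfl hq, Finset.prod_mul_distrib, Finset.prod_const, hcard]
    have e2 : (ζ - 1) ^ (p * m) = (ζ - 1) ^ p * (ζ - 1) ^ (p * (m - 1)) := by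
      rw [← pow_add]; congr 1
      obtain ⟨k, rfl⟩ : ∃ k, m = k + 1 := ⟨m - 1, by omega⟩
      simp; ring
    have e3 : (ζ - 1) ^ p * ∏ η ∈ μ, q η
        = (ζ - 1) ^ p * (ε * (ζ - 1) ^ (p * (m - 1)) * z ^ p) := by
      rw [← e1, ← hprod, h, e2]; ring
    exact mul_left_cancel₀ (pow_ne_zero _ hlam0) e3
  have F6 : 2 ≤ m := by
    by_contra hm2
    have hm1 : m = 1 := by omega
    subst hm1
    simp only [le_refl, tsub_eq_zero_of_le, mul_zero, pow_zero, mul_one] at F4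
    have hd : ζ - 1 ∣ ∏ η ∈ μ, q η := F5.trans (Finset.dvd_prod_of_mem q h1μ)
    rw [F4] at hd
    have hd' := (IsUnit.dvd_mul_left ε.isUnit).1 hd
    exact hz (hlam.dvd_of_dvd_pow hd')
  have F7 : ∀ η₁ ∈ μ, ∀ η₂ ∈ μ, η₁ ≠ η₂ → IsCoprime (q η₁) (q η₂) := by
    intro η₁ h₁ η₂ h₂ hne
    have hnz : ¬ (ζ - 1 ∣ q η₁ ∧ ζ - 1 ∣ q η₂) := by
      rintro ⟨d1, d2⟩
      by_cases e : η₁ = 1
      · exact F3 η₂ h₂ (fun e2 => hne (e.trans e2.symm)) d2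
      · exact F3 η₁ h₁ e d1
    apply isCoprime_of_prime_dvd
    · rintro ⟨z1, z2⟩
      exact hnz ⟨z1 ▸ dvd_zero _, z2 ▸ dvd_zero _⟩
    · intro π hπ d1 d2
      obtain ⟨u, hu⟩ := hζ.nthRootsFinset_pairwise_associated_sub_one_sub_of_prime hp h₁ h₂ hne
      have e1 : (ζ - 1) * u * y = (ζ - 1) * q η₁ - (ζ - 1) * q η₂ := by
        rw [hu, ← hq η₁ h₁, ← hq η₂ h₂]; ring
      have e2 : (ζ - 1) * u * x = η₁ * ((ζ - 1) * q η₂) - η₂ * ((ζ - 1) * q η₁) := by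
        rw [hu, ← hq η₁ h₁, ← hq η₂ h₂]; ring
      have dy : π ∣ (ζ - 1) * u * y := by
        rw [e1]; exact dvd_sub (d1.mul_left _) (d2.mul_left _)
      have dx : π ∣ (ζ - 1) * u * x := by
        rw [e2]; exact dvd_sub ((d2.mul_left _).mul_left _) ((d1.mul_left _).mul_left _)
      by_cases hπl : π ∣ ζ - 1
      · have hassoc : Associated π (ζ - 1) := hπ.associated_of_dvd hlam hπl
        exact hnz ⟨hassoc.symm.dvd.trans d1, hassoc.symm.dvd.trans d2⟩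
      · have hπu : ¬ π ∣ (ζ - 1) * u := fun hh => hπl ((IsUnit.dvd_mul_right u.isUnit).1 hh)
        have dy' : π ∣ y := (hπ.dvd_or_dvd dy).resolve_left hπu
        have dx' : π ∣ x := (hπ.dvd_or_dvd dx).resolve_left hπu
        obtain ⟨a, b, hab⟩ := hxy
        have : π ∣ 1 := by rw [← hab]; exact dvd_add (dx'.mul_left _) (dy'.mul_left _)
        exact hπ.not_isUnit (isUnit_of_dvd_one this)
  have Fmul : ∀ η ∈ μ, q η * ∏ η' ∈ μ.erase η, q η'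
      = ε * (ζ - 1) ^ (p * (m - 1)) * z ^ p := by
    intro η hη; rw [Finset.mul_prod_erase μ q hη, F4]
  have Fcop : ∀ η ∈ μ, IsCoprime (q η) (∏ η' ∈ μ.erase η, q η') := by
    intro η hη
    apply IsCoprime.prod_right
    intro η' hη'
    rw [Finset.mem_erase] at hη'
    exact F7 η hη η' hη'.2 (Ne.symm hη'.1)
  have Fpow : ∀ η ∈ μ, ∃ ρ : R, Associated (ρ ^ p) (q η) := by
    intro η hη
    apply exists_associated_pow_of_associated_pow_mul (Fcop η hη) (c := (ζ - 1) ^ (m - 1) * z)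
    rw [Fmul η hη]
    refine ⟨ε, ?_⟩
    rw [mul_pow, ← pow_mul, mul_comm (m - 1) p]; ring
  set Q := ∏ η' ∈ μ.erase 1, q η' with hQ
  have hQl : ¬ ζ - 1 ∣ Q := by
    rw [hQ, Prime.dvd_finsetProd_iff hlam]
    rintro ⟨η, hη, hd⟩
    rw [Finset.mem_erase] at hη
    exact F3 η hη.2 hη.1 hd
  have h1Q : q 1 * Q = ε * (ζ - 1) ^ (p * (m - 1)) * z ^ p := Fmul 1 h1μ
  have hdiv1 : (ζ - 1) ^ (p * (m - 1)) ∣ q 1 := by
    apply hlam.pow_dvd_of_dvd_mul_right _ hQl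
    rw [h1Q]; exact ⟨ε * z ^ p, by ring⟩
  obtain ⟨q1', hq1'⟩ := hdiv1
  have h1Q' : q1' * Q = ε * z ^ p := by
    apply mul_left_cancel₀ (pow_ne_zero (p * (m - 1)) hlam0)
    rw [← mul_assoc, ← hq1', h1Q]; ring
  have hq1l : ¬ ζ - 1 ∣ q1' := by
    intro hd
    have : ζ - 1 ∣ ε * z ^ p := by rw [← h1Q']; exact hd.mul_right _
    exact hz (hlam.dvd_of_dvd_pow ((IsUnit.dvd_mul_left ε.isUnit).1 this))
  have hcop1 : IsCoprime q1' Q :=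
    (Fcop 1 h1μ).of_isCoprime_of_dvd_left (Dvd.intro_left _ hq1'.symm)
  obtain ⟨ρ₀, hρ₀⟩ : ∃ ρ₀ : R, Associated (ρ₀ ^ p) q1' := by
    apply exists_associated_pow_of_associated_pow_mul hcop1 (c := z)
    rw [h1Q']; exact ⟨ε, by ring⟩
  have hρ₀l : ¬ ζ - 1 ∣ ρ₀ :=
    fun hd => hq1l ((hd.trans (dvd_pow_self _ hp.ne_zero)).trans hρ₀.dvd)
  set ζ' := ζ ^ (p - 1) with hζ'
  have hζζ' : ζ * ζ' = 1 := by
    rw [hζ', ← pow_succ', Nat.sub_add_cancel hp.one_le, hζ.pow_eq_one]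
  have hζ1 : ζ ≠ 1 := hζ.ne_one hp.one_lt
  have hζ'1 : ζ' ≠ 1 := by intro e; rw [e, mul_one] at hζζ'; exact hζ1 hζζ'
  have hζ'μ : ζ' ∈ μ := by
    rw [hμ, mem_nthRootsFinset hp.pos, hζ', ← pow_mul, mul_comm, pow_mul, hζ.pow_eq_one, one_pow]
  have hζζ'ne : ζ ≠ ζ' := by
    intro e
    have h2' : ζ ^ 2 = 1 := by rw [pow_two]; nth_rewrite 2 [e]; exact hζζ'
    have h3 := (hζ.pow_eq_one_iff_dvd 2).1 h2'
    have h4 := Nat.le_of_dvd (by norm_num) h3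
    have h5 := hp.two_le
    omega
  obtain ⟨ρ₁, u₁, hρ₁⟩ := Fpow ζ hζμ
  obtain ⟨ρ₂, u₂, hρ₂⟩ := Fpow ζ' hζ'μ
  obtain ⟨u₀, hu₀⟩ := hρ₀
  have hρ₁q : ρ₁ ∣ q ζ := (dvd_pow_self ρ₁ hp.ne_zero).trans ⟨u₁, hρ₁.symm⟩
  have hρ₂q : ρ₂ ∣ q ζ' := (dvd_pow_self ρ₂ hp.ne_zero).trans ⟨u₂, hρ₂.symm⟩
  have hρ₂l : ¬ ζ - 1 ∣ ρ₂ := fun hd => F3 ζ' hζ'μ hζ'1 (hd.trans hρ₂q)
  have hρ₁₂ : IsCoprime ρ₁ ρ₂ :=
    ((F7 ζ hζμ ζ' hζ'μ hζζ'ne).of_isCoprime_of_dvd_left hρ₁q).of_isCoprime_of_dvd_right hρ₂q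
  have id1 : (x + ζ * y) + ζ * (x + ζ' * y) = (1 + ζ) * (x + 1 * y) := by
    linear_combination y * hζζ'
  rw [hq ζ hζμ, hq ζ' hζ'μ, hq 1 h1μ, hq1', ← hρ₁, ← hρ₂, ← hu₀] at id1
  have id2 : ρ₁ ^ p * u₁ + ζ * (ρ₂ ^ p * u₂)
      = (1 + ζ) * ((ζ - 1) ^ (p * (m - 1)) * (ρ₀ ^ p * u₀)) := by
    apply mul_left_cancel₀ hlam0
    linear_combination id1
  obtain ⟨uζ, huζ⟩ := hζ.isUnit hp.ne_zero
  obtain ⟨u1ζ, hu1ζ⟩ := kc_isUnit_one_add hp hp2 hζ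
  set w : Rˣ := uζ * u₂ * u₁⁻¹ with hw
  set ε' : Rˣ := u1ζ * u₀ * u₁⁻¹ with hε'
  have id3 : ρ₁ ^ p + w * ρ₂ ^ p = ε' * (ζ - 1) ^ (p * (m - 1)) * ρ₀ ^ p := by
    have hinv : (u₁ : R) * ((u₁⁻¹ : Rˣ) : R) = 1 := by simp
    have : (u₁ : R) * (ρ₁ ^ p + w * ρ₂ ^ p)
        = u₁ * (ε' * (ζ - 1) ^ (p * (m - 1)) * ρ₀ ^ p) := by
      simp only [hw, hε', Units.val_mul, huζ, hu1ζ]
      linear_combination id2
        + (ζ * u₂ * ρ₂ ^ p - (1 + ζ) * u₀ * (ζ - 1) ^ (p * (m - 1)) * ρ₀ ^ p) * hinv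
    exact mul_left_cancel₀ u₁.ne_zero this
  have hm1 : 1 ≤ m - 1 := by omega
  have hpdiv : (p : R) ∣ ρ₁ ^ p + w * ρ₂ ^ p := by
    rw [id3]
    have : (p : R) ∣ (ζ - 1) ^ (p * (m - 1)) :=
      (kc_p_dvd_lam_pow hp hass).trans (pow_dvd_pow _ (Nat.le_mul_of_pos_right p hm1))
    exact (this.mul_left _).mul_right _
  obtain ⟨A, hA⟩ := kc_exists_int_pow hp hres hass ρ₁
  obtain ⟨B, hB⟩ := kc_exists_int_pow hp hres hass ρ₂
  have hpB : ¬ (p : ℤ) ∣ B := by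
    intro hd
    apply hρ₂l
    have h1 : ζ - 1 ∣ (B : R) :=
      (kc_lam_dvd_p hp hass).trans (by exact_mod_cast Int.cast_dvd_cast (α := R) _ _ hd)
    have h2 : ζ - 1 ∣ ρ₂ ^ p - B := (kc_lam_dvd_p hp hass).trans hB
    have : ζ - 1 ∣ ρ₂ ^ p := by simpa using dvd_add h2 h1
    exact hlam.dvd_of_dvd_pow this
  obtain ⟨s, t, hst⟩ : IsCoprime (p : ℤ) B :=
    (Prime.coprime_iff_not_dvd (Nat.prime_iff_prime_int.mp hp)).2 hpB
  have hw_int : ∃ a : ℤ, (p : R) ∣ (w : R) - a := by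
    refine ⟨-(t * A), ?_⟩
    obtain ⟨c1, hc1⟩ := hpdiv
    obtain ⟨c2, hc2⟩ := hA
    obtain ⟨c3, hc3⟩ := hB
    have hst' : (s : R) * p + t * B = 1 := by exact_mod_cast congrArg (Int.cast : ℤ → R) hst
    refine ⟨w * s + t * (c1 - w * c3 - c2), ?_⟩
    push_cast
    linear_combination (-(w : R)) * hst' + (t : R) * hc1 - (t : R) * hc2 - (t : R) * (w : R) * hc3
  obtain ⟨v, hv⟩ := hKL w hw_int
  refine ⟨F6, ρ₁, v * ρ₂, ρ₀, ε', ?_, hρ₀l, ?_, ?_⟩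
  · rwa [IsUnit.dvd_mul_left v.isUnit]
  · exact (isCoprime_mul_unit_left_right v.isUnit _ _).2 hρ₁₂
  · rw [mul_pow, ← Units.val_pow_eq_pow_val, ← hv]; exact id3

/-- Descent step. -/
lemma kc_descent [IsPrincipalIdealRing R] (hp : p.Prime) (hp2 : p ≠ 2)
    (hζ : IsPrimitiveRoot ζ p)
    (hlam : Prime (ζ - 1)) (hres : ∀ x : R, ∃ a : ℤ, ζ - 1 ∣ x - a)
    (hass : Associated ((ζ - 1) ^ (p - 1)) (p : R))
    (hKL : ∀ u : Rˣ, (∃ a : ℤ, (p : R) ∣ (u : R) - a) → ∃ v : Rˣ, u = v ^ p)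
    {m : ℕ} (hm : 1 ≤ m) {x y z : R} {ε : Rˣ} (hy : ¬ ζ - 1 ∣ y) (hz : ¬ ζ - 1 ∣ z)
    (hxy : IsCoprime x y)
    (h : x ^ p + y ^ p = ε * (ζ - 1) ^ (p * m) * z ^ p) :
    2 ≤ m ∧ ∃ (x' y' z' : R) (ε' : Rˣ), ¬ ζ - 1 ∣ y' ∧ ¬ ζ - 1 ∣ z' ∧ IsCoprime x' y' ∧
      x' ^ p + y' ^ p = ε' * (ζ - 1) ^ (p * (m - 1)) * z' ^ p := by
  classical
  have hodd : Odd p := hp.odd_of_ne_two hp2
  have h1μ : (1 : R) ∈ nthRootsFinset p (1 : R) := by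
    rw [mem_nthRootsFinset hp.pos]; simp
  have hxy1 : ζ - 1 ∣ x + y := by
    have hprod := hζ.pow_add_pow_eq_prod_add_mul x y hodd
    have hd : ζ - 1 ∣ ∏ η ∈ nthRootsFinset p (1 : R), (x + η * y) := by
      rw [← hprod, h]
      exact Dvd.dvd.mul_right (Dvd.dvd.mul_left
        (dvd_pow_self _ (Nat.mul_ne_zero hp.ne_zero (by omega))) _) _
    obtain ⟨η, hη, hd⟩ := (Prime.dvd_finsetProd_iff hlam _).1 hd
    have h1 : ζ - 1 ∣ η - 1 := hζ.sub_one_dvd_sub hp hη h1μ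
    have : x + y = (x + η * y) - (η - 1) * y := by ring
    rw [this]; exact dvd_sub hd (h1.mul_right _)
  obtain ⟨i, hi⟩ := kc_exists_sq_dvd hp hlam hres hass hy hxy1
  have hu : IsUnit (ζ ^ i) := (hζ.isUnit hp.ne_zero).pow i
  refine kc_descent_aux hp hp2 hζ hlam hres hass hKL hm (y := ζ ^ i * y) (z := z) (ε := ε)
    ?_ hz ?_ hi ?_
  · rwa [IsUnit.dvd_mul_left hu]
  · exact (isCoprime_mul_unit_left_right hu _ _).2 hxy
  · rw [mul_pow, ← pow_mul, mul_comm i p, pow_mul, hζ.pow_eq_one, one_pow, one_mul]; exact h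

/-- No solutions of the generalized second-case equation. -/
theorem kc_no_solution [IsPrincipalIdealRing R] (hp : p.Prime) (hp2 : p ≠ 2)
    (hζ : IsPrimitiveRoot ζ p)
    (hlam : Prime (ζ - 1)) (hres : ∀ x : R, ∃ a : ℤ, ζ - 1 ∣ x - a)
    (hass : Associated ((ζ - 1) ^ (p - 1)) (p : R))
    (hKL : ∀ u : Rˣ, (∃ a : ℤ, (p : R) ∣ (u : R) - a) → ∃ v : Rˣ, u = v ^ p) :
    ∀ m : ℕ, 1 ≤ m → ∀ (x y z : R) (ε : Rˣ), ¬ ζ - 1 ∣ y → ¬ ζ - 1 ∣ z → IsCoprime x y →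
      x ^ p + y ^ p ≠ ε * (ζ - 1) ^ (p * m) * z ^ p := by
  intro m
  induction m with
  | zero => intro h; omega
  | succ k ih =>
    intro _ x y z ε hy hz hxy h
    obtain ⟨h2, x', y', z', ε', hy', hz', hxy', h'⟩ :=
      kc_descent hp hp2 hζ hlam hres hass hKL (m := k + 1) (by omega) hy hz hxy h
    exact ih (by omega) x' y' z' ε' hy' hz' hxy' (by simpa using h')

/-- Abstract second case of Fermat's Last Theorem. -/
theorem kc_caseII_abstract [IsPrincipalIdealRing R] (hp : p.Prime) (hp2 : p ≠ 2)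
    (hζ : IsPrimitiveRoot ζ p)
    (hlam : Prime (ζ - 1)) (hres : ∀ x : R, ∃ a : ℤ, ζ - 1 ∣ x - a)
    (hass : Associated ((ζ - 1) ^ (p - 1)) (p : R))
    (hKL : ∀ u : Rˣ, (∃ a : ℤ, (p : R) ∣ (u : R) - a) → ∃ v : Rˣ, u = v ^ p) :
    ∀ a b c : ℤ, IsCoprime a b → c ≠ 0 → (p : ℤ) ∣ c → a ^ p + b ^ p ≠ c ^ p := by
  intro a b c hab hc hpc habc
  have hpZ : Prime (p : ℤ) := Nat.prime_iff_prime_int.mp hp
  have hpb : ¬ (p : ℤ) ∣ b := by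
    intro hb
    have h1 : (p : ℤ) ∣ a ^ p := by
      have : a ^ p = c ^ p - b ^ p := by linarith
      rw [this]; exact dvd_sub (dvd_pow hpc hp.ne_zero) (dvd_pow hb hp.ne_zero)
    have ha := hpZ.dvd_of_dvd_pow h1
    obtain ⟨u, v, huv⟩ := hab
    exact hpZ.not_dvd_one (huv ▸ dvd_add (ha.mul_left _) (hb.mul_left _))
  obtain ⟨k, c', hc', rfl⟩ : ∃ (k : ℕ) (c' : ℤ), ¬ (p : ℤ) ∣ c' ∧ c = (p : ℤ) ^ k * c' := by
    have hfin : FiniteMultiplicity (p : ℤ) c :=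
      Int.finiteMultiplicity_iff.2 ⟨by simpa using hp.ne_one, hc⟩
    obtain ⟨c', hc1, hc2⟩ := hfin.exists_eq_pow_mul_and_not_dvd
    exact ⟨_, c', hc2, hc1⟩
  have hk : 1 ≤ k := by
    by_contra hk0
    have hk0' : k = 0 := by omega
    subst hk0'
    simp only [pow_zero, one_mul] at hpc
    exact hc' hpc
  obtain ⟨u, hu⟩ := id hass
  have eq : ((a : ℤ) : R) ^ p + ((b : ℤ) : R) ^ p
      = ((u ^ (k * p) : Rˣ) : R) * (ζ - 1) ^ (p * ((p - 1) * k)) * ((c' : ℤ) : R) ^ p := by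
    have := congrArg (Int.cast : ℤ → R) habc
    push_cast at this
    rw [this, ← hu]
    push_cast
    ring
  exact kc_no_solution hp hp2 hζ hlam hres hass hKL ((p - 1) * k)
    (Nat.mul_pos (Nat.sub_pos_of_lt hp.one_lt) hk) a b c' (u ^ (k * p))
    (fun h => hpb (kc_lam_dvd_int hp hlam hass h))
    (fun h => hc' (kc_lam_dvd_int hp hlam hass h)) hab.intCast eq

end Abstract

section Cyclotomic

open NumberField

variable {p : ℕ} [hpf : Fact p.Prime] {K : Type*} [Field K] [NumberField K]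
  [IsCyclotomicExtension {p} ℚ K]

/-- Every residue class modulo `ζ - 1` contains a rational integer. -/
theorem exists_int_zeta_sub_one_dvd_sub (hp2 : p ≠ 2) {ζ : K} (hζ : IsPrimitiveRoot ζ p)
    (x : 𝓞 K) : ∃ a : ℤ, hζ.toInteger - 1 ∣ x - (a : 𝓞 K) := by
  classical
  have hcard : Nat.card (𝓞 K ⧸ Ideal.span {hζ.toInteger - 1}) = p := by
    rw [hζ.card_quotient_toInteger_sub_one, hζ.norm_toInteger_sub_one_of_prime_ne_two' hp2]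
    simp
  have hprime : Prime (hζ.toInteger - 1) := hζ.zeta_sub_one_prime'
  have h1 : (1 : 𝓞 K ⧸ Ideal.span {hζ.toInteger - 1}) ≠ 0 := by
    intro h
    rw [← map_one (Ideal.Quotient.mk _), Ideal.Quotient.eq_zero_iff_mem,
      Ideal.mem_span_singleton] at h
    exact hprime.not_isUnit (isUnit_of_dvd_one h)
  have hmem : Ideal.Quotient.mk (Ideal.span {hζ.toInteger - 1}) x
      ∈ AddSubgroup.zmultiples (1 : 𝓞 K ⧸ Ideal.span {hζ.toInteger - 1}) :=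
    mem_zmultiples_of_prime_card hcard h1
  obtain ⟨a, ha⟩ := AddSubgroup.mem_zmultiples_iff.1 hmem
  refine ⟨a, ?_⟩
  rw [← Ideal.mem_span_singleton, ← Ideal.Quotient.eq_zero_iff_mem, map_sub, ← ha]
  simp

/-- Every `p`-th power in `𝓞 K` is congruent to a rational integer modulo `p`. -/
theorem exists_int_prime_dvd_pow_sub (hp2 : p ≠ 2) (x : 𝓞 K) :
    ∃ a : ℤ, ((p : ℕ) : 𝓞 K) ∣ x ^ p - (a : 𝓞 K) := by
  have hζ := IsCyclotomicExtension.zeta_spec p ℚ K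
  exact kc_exists_int_pow hpf.out (exists_int_zeta_sub_one_dvd_sub hp2 hζ)
    (IsCyclotomicExtension.Rat.associated_zeta_sub_one_pow_prime p hζ) x

/-- **Second case of Fermat's Last Theorem** for an odd prime `p` such that the ring of integers
of the `p`-th cyclotomic field is a PID and satisfies Kummer's lemma. -/
theorem caseII (hp2 : p ≠ 2) [IsPrincipalIdealRing (𝓞 K)]
    (hKL : ∀ u : (𝓞 K)ˣ, (∃ a : ℤ, ((p : ℕ) : 𝓞 K) ∣ (u : 𝓞 K) - (a : 𝓞 K)) →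
      ∃ v : (𝓞 K)ˣ, u = v ^ p) :
    ∀ a b c : ℤ, IsCoprime a b → c ≠ 0 → (p : ℤ) ∣ c → a ^ p + b ^ p ≠ c ^ p := by
  have hζ := IsCyclotomicExtension.zeta_spec p ℚ K
  exact kc_caseII_abstract hpf.out hp2 hζ.toInteger_isPrimitiveRoot hζ.zeta_sub_one_prime'
    (exists_int_zeta_sub_one_dvd_sub hp2 hζ)
    (IsCyclotomicExtension.Rat.associated_zeta_sub_one_pow_prime p hζ) hKL

end Cyclotomic

end Fermat.Agent.Lib.Kummer
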