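import Fermat.Agent.Lib.K_KLCore

/-!
# Kummer's lemma for `p = 11`

Every unit of the ring of integers of the `11`-th cyclotomic field that is congruent to a
rational integer modulo `11` is a `11`-th power.  The proof exhibits `5` explicit cyclotomic
units of strictly increasing levels; the congruences are checked by certificates.
-/

namespace Fermat.Agent.Lib.Kummer

open NumberField

theorem kl11_lv2 {S : Type*} [CommRing S] (L z : S) (hL : L ^ 3 = 0) (hp : (11 : S) = 0)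
    (hz : z = 1 + L) :
    z ^ 7 * (∑ i ∈ Finset.range 2, z ^ i) ^ 8 =
      ((3 : ℤ) : S) * (1 + ((1 : ℤ) : S) * L ^ 2) := by
  obtain ⟨t2, ht2⟩ : ∃ t : S, t = ∑ i ∈ Finset.range 2, z ^ i := ⟨_, rfl⟩
  rw [← ht2]
  push_cast
  have et2 : t2 = 2 + L := by
    rw [ht2, hz]; simp only [Finset.sum_range_succ, Finset.sum_range_zero]
    linear_combination ((0) : S) * hL + ((0) : S) * hp
  have ez_2 : z ^ 2 = 1 + 2 * L + L ^ 2 := by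
    linear_combination ((1 + L) : S) * hz + (z) * hz + ((0) : S) * hL + ((0) : S) * hp
  have ez_4 : z ^ 4 = 1 + 4 * L + 6 * L ^ 2 := by
    linear_combination ((1 + 2 * L + L ^ 2) : S) * ez_2 + (z ^ 2) * ez_2 + ((4 + L) : S) * hL + ((0) : S) * hp
  have ez_3 : z ^ 3 = 1 + 3 * L + 3 * L ^ 2 := by
    linear_combination ((1 + 2 * L + L ^ 2) : S) * hz + (z) * ez_2 + ((1) : S) * hL + ((0) : S) * hp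
  have ez_7 : z ^ 7 = 1 + 7 * L + 10 * L ^ 2 := by
    linear_combination ((1 + 4 * L + 6 * L ^ 2) : S) * ez_3 + (z ^ 3) * ez_4 + ((30 + 18 * L) : S) * hL + ((L ^ 2) : S) * hp
  have et2_2 : t2 ^ 2 = 4 + 4 * L + L ^ 2 := by
    linear_combination ((2 + L) : S) * et2 + (t2) * et2 + ((0) : S) * hL + ((0) : S) * hp
  have et2_4 : t2 ^ 4 = 5 + 10 * L + 2 * L ^ 2 := by
    linear_combination ((4 + 4 * L + L ^ 2) : S) * et2_2 + (t2 ^ 2) * et2_2 + ((8 + L) : S) * hL + ((1 + 2 * L + 2 * L ^ 2) : S) * hp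
  have et2_8 : t2 ^ 8 = 3 + L + 10 * L ^ 2 := by
    linear_combination ((5 + 10 * L + 2 * L ^ 2) : S) * et2_4 + (t2 ^ 4) * et2_4 + ((40 + 4 * L) : S) * hL + ((2 + 9 * L + 10 * L ^ 2) : S) * hp
  linear_combination ((3 + L + 10 * L ^ 2) : S) * ez_7 + (z ^ 7) * et2_8 + ((80 + 100 * L) : S) * hL + ((2 * L + 4 * L ^ 2) : S) * hp

theorem kl11_lv4 {S : Type*} [CommRing S] (L z : S) (hL : L ^ 5 = 0) (hp : (11 : S) = 0)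
    (hz : z = 1 + L) :
    z ^ 9 * (∑ i ∈ Finset.range 2, z ^ i) ^ 5 * (∑ i ∈ Finset.range 3, z ^ i) ^ 5 =
      ((10 : ℤ) : S) * (1 + ((1 : ℤ) : S) * L ^ 4) := by
  obtain ⟨t2, ht2⟩ : ∃ t : S, t = ∑ i ∈ Finset.range 2, z ^ i := ⟨_, rfl⟩
  obtain ⟨t3, ht3⟩ : ∃ t : S, t = ∑ i ∈ Finset.range 3, z ^ i := ⟨_, rfl⟩
  rw [← ht2, ← ht3]
  push_cast
  have et2 : t2 = 2 + L := by
    rw [ht2, hz]; simp only [Finset.sum_range_succ, Finset.sum_range_zero]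
    linear_combination ((0) : S) * hL + ((0) : S) * hp
  have et3 : t3 = 3 + 3 * L + L ^ 2 := by
    rw [ht3, hz]; simp only [Finset.sum_range_succ, Finset.sum_range_zero]
    linear_combination ((0) : S) * hL + ((0) : S) * hp
  have ez_2 : z ^ 2 = 1 + 2 * L + L ^ 2 := by
    linear_combination ((1 + L) : S) * hz + (z) * hz + ((0) : S) * hL + ((0) : S) * hp
  have ez_4 : z ^ 4 = 1 + 4 * L + 6 * L ^ 2 + 4 * L ^ 3 + L ^ 4 := by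
    linear_combination ((1 + 2 * L + L ^ 2) : S) * ez_2 + (z ^ 2) * ez_2 + ((0) : S) * hL + ((0) : S) * hp
  have ez_8 : z ^ 8 = 1 + 8 * L + 6 * L ^ 2 + L ^ 3 + 4 * L ^ 4 := by
    linear_combination ((1 + 4 * L + 6 * L ^ 2 + 4 * L ^ 3 + L ^ 4) : S) * ez_4 + (z ^ 4) * ez_4 + ((56 + 28 * L + 8 * L ^ 2 + L ^ 3) : S) * hL + ((2 * L ^ 2 + 5 * L ^ 3 + 6 * L ^ 4) : S) * hp
  have ez_9 : z ^ 9 = 1 + 9 * L + 3 * L ^ 2 + 7 * L ^ 3 + 5 * L ^ 4 := by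
    linear_combination ((1 + 8 * L + 6 * L ^ 2 + L ^ 3 + 4 * L ^ 4) : S) * hz + (z) * ez_8 + ((4) : S) * hL + ((L ^ 2) : S) * hp
  have et2_2 : t2 ^ 2 = 4 + 4 * L + L ^ 2 := by
    linear_combination ((2 + L) : S) * et2 + (t2) * et2 + ((0) : S) * hL + ((0) : S) * hp
  have et2_4 : t2 ^ 4 = 5 + 10 * L + 2 * L ^ 2 + 8 * L ^ 3 + L ^ 4 := by
    linear_combination ((4 + 4 * L + L ^ 2) : S) * et2_2 + (t2 ^ 2) * et2_2 + ((0) : S) * hL + ((1 + 2 * L + 2 * L ^ 2) : S) * hp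
  have et2_5 : t2 ^ 5 = 10 + 3 * L + 3 * L ^ 2 + 7 * L ^ 3 + 10 * L ^ 4 := by
    linear_combination ((5 + 10 * L + 2 * L ^ 2 + 8 * L ^ 3 + L ^ 4) : S) * et2 + (t2) * et2_4 + ((1) : S) * hL + ((2 * L + L ^ 2 + L ^ 3) : S) * hp
  have et3_2 : t3 ^ 2 = 9 + 7 * L + 4 * L ^ 2 + 6 * L ^ 3 + L ^ 4 := by
    linear_combination ((3 + 3 * L + L ^ 2) : S) * et3 + (t3) * et3 + ((0) : S) * hL + ((L + L ^ 2) : S) * hp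
  have et3_4 : t3 ^ 4 = 4 + 5 * L + 10 * L ^ 3 + 8 * L ^ 4 := by
    linear_combination ((9 + 7 * L + 4 * L ^ 2 + 6 * L ^ 3 + L ^ 4) : S) * et3_2 + (t3 ^ 2) * et3_2 + ((62 + 44 * L + 12 * L ^ 2 + L ^ 3) : S) * hL + ((7 + 11 * L + 11 * L ^ 2 + 14 * L ^ 3 + 10 * L ^ 4) : S) * hp
  have et3_5 : t3 ^ 5 = 1 + 5 * L + 8 * L ^ 2 + 2 * L ^ 3 + 10 * L ^ 4 := by
    linear_combination ((4 + 5 * L + 10 * L ^ 3 + 8 * L ^ 4) : S) * et3 + (t3) * et3_4 + ((34 + 8 * L) : S) * hL + ((1 + 2 * L + L ^ 2 + 3 * L ^ 3 + 4 * L ^ 4) : S) * hp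
  have c1 : z ^ 9 * t2 ^ 5 = 10 + 5 * L + 5 * L ^ 2 + 3 * L ^ 3 + 10 * L ^ 4 := by
    linear_combination ((10 + 3 * L + 3 * L ^ 2 + 7 * L ^ 3 + 10 * L ^ 4) : S) * ez_9 + (z ^ 9) * et2_5 + ((147 + 94 * L + 105 * L ^ 2 + 50 * L ^ 3) : S) * hL + ((8 * L + 5 * L ^ 2 + 10 * L ^ 3 + 13 * L ^ 4) : S) * hp
  linear_combination ((1 + 5 * L + 8 * L ^ 2 + 2 * L ^ 3 + 10 * L ^ 4) : S) * c1 + (z ^ 9 * t2 ^ 5) * et3_5 + ((134 + 136 * L + 50 * L ^ 2 + 100 * L ^ 3) : S) * hL + ((5 * L + 10 * L ^ 2 + 8 * L ^ 3 + 15 * L ^ 4) : S) * hp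

theorem kl11_lv6 {S : Type*} [CommRing S] (L z : S) (hL : L ^ 7 = 0) (hp : (11 : S) = 0)
    (hz : z = 1 + L) :
    z ^ 5 * (∑ i ∈ Finset.range 2, z ^ i) ^ 7 * (∑ i ∈ Finset.range 3, z ^ i) ^ 1 * (∑ i ∈ Finset.range 4, z ^ i) ^ 1 =
      ((7 : ℤ) : S) * (1 + ((1 : ℤ) : S) * L ^ 6) := by
  obtain ⟨t2, ht2⟩ : ∃ t : S, t = ∑ i ∈ Finset.range 2, z ^ i := ⟨_, rfl⟩
  obtain ⟨t3, ht3⟩ : ∃ t : S, t = ∑ i ∈ Finset.range 3, z ^ i := ⟨_, rfl⟩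
  obtain ⟨t4, ht4⟩ : ∃ t : S, t = ∑ i ∈ Finset.range 4, z ^ i := ⟨_, rfl⟩
  rw [← ht2, ← ht3, ← ht4]
  push_cast
  have et2 : t2 = 2 + L := by
    rw [ht2, hz]; simp only [Finset.sum_range_succ, Finset.sum_range_zero]
    linear_combination ((0) : S) * hL + ((0) : S) * hp
  have et3 : t3 = 3 + 3 * L + L ^ 2 := by
    rw [ht3, hz]; simp only [Finset.sum_range_succ, Finset.sum_range_zero]
    linear_combination ((0) : S) * hL + ((0) : S) * hp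
  have et4 : t4 = 4 + 6 * L + 4 * L ^ 2 + L ^ 3 := by
    rw [ht4, hz]; simp only [Finset.sum_range_succ, Finset.sum_range_zero]
    linear_combination ((0) : S) * hL + ((0) : S) * hp
  have ez_2 : z ^ 2 = 1 + 2 * L + L ^ 2 := by
    linear_combination ((1 + L) : S) * hz + (z) * hz + ((0) : S) * hL + ((0) : S) * hp
  have ez_4 : z ^ 4 = 1 + 4 * L + 6 * L ^ 2 + 4 * L ^ 3 + L ^ 4 := by
    linear_combination ((1 + 2 * L + L ^ 2) : S) * ez_2 + (z ^ 2) * ez_2 + ((0) : S) * hL + ((0) : S) * hp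
  have ez_5 : z ^ 5 = 1 + 5 * L + 10 * L ^ 2 + 10 * L ^ 3 + 5 * L ^ 4 + L ^ 5 := by
    linear_combination ((1 + 4 * L + 6 * L ^ 2 + 4 * L ^ 3 + L ^ 4) : S) * hz + (z) * ez_4 + ((0) : S) * hL + ((0) : S) * hp
  have et2_2 : t2 ^ 2 = 4 + 4 * L + L ^ 2 := by
    linear_combination ((2 + L) : S) * et2 + (t2) * et2 + ((0) : S) * hL + ((0) : S) * hp
  have et2_4 : t2 ^ 4 = 5 + 10 * L + 2 * L ^ 2 + 8 * L ^ 3 + L ^ 4 := by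
    linear_combination ((4 + 4 * L + L ^ 2) : S) * et2_2 + (t2 ^ 2) * et2_2 + ((0) : S) * hL + ((1 + 2 * L + 2 * L ^ 2) : S) * hp
  have et2_3 : t2 ^ 3 = 8 + L + 6 * L ^ 2 + L ^ 3 := by
    linear_combination ((4 + 4 * L + L ^ 2) : S) * et2 + (t2) * et2_2 + ((0) : S) * hL + ((L) : S) * hp
  have et2_7 : t2 ^ 7 = 7 + 8 * L + L ^ 2 + 10 * L ^ 3 + 5 * L ^ 4 + 7 * L ^ 5 + 3 * L ^ 6 := by
    linear_combination ((5 + 10 * L + 2 * L ^ 2 + 8 * L ^ 3 + L ^ 4) : S) * et2_3 + (t2 ^ 3) * et2_4 + ((1) : S) * hL + ((3 + 7 * L + 5 * L ^ 2 + 11 * L ^ 3 + 3 * L ^ 4 + 4 * L ^ 5 + L ^ 6) : S) * hp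
  have c1 : z ^ 5 * t2 ^ 7 = 7 + 10 * L + L ^ 2 + 4 * L ^ 4 + 2 * L ^ 5 + 3 * L ^ 6 := by
    linear_combination ((7 + 8 * L + L ^ 2 + 10 * L ^ 3 + 5 * L ^ 4 + 7 * L ^ 5 + 3 * L ^ 6) : S) * ez_5 + (z ^ 5) * et2_7 + ((186 + 135 * L + 70 * L ^ 2 + 22 * L ^ 3 + 3 * L ^ 4) : S) * hL + ((3 * L + 10 * L ^ 2 + 15 * L ^ 3 + 16 * L ^ 4 + 17 * L ^ 5 + 18 * L ^ 6) : S) * hp
  have c2 : z ^ 5 * t2 ^ 7 * t3 = 10 + 7 * L + 7 * L ^ 2 + 2 * L ^ 3 + 2 * L ^ 4 + 7 * L ^ 5 + 8 * L ^ 6 := by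
    linear_combination ((3 + 3 * L + L ^ 2) : S) * c1 + (z ^ 5 * t2 ^ 7) * et3 + ((11 + 3 * L) : S) * hL + ((1 + 4 * L + 3 * L ^ 2 + L ^ 3 + L ^ 4 + L ^ 5 + L ^ 6) : S) * hp
  linear_combination ((4 + 6 * L + 4 * L ^ 2 + L ^ 3) : S) * c2 + (z ^ 5 * t2 ^ 7 * t3) * et4 + ((78 + 39 * L + 8 * L ^ 2) : S) * hL + ((3 + 8 * L + 10 * L ^ 2 + 8 * L ^ 3 + 5 * L ^ 4 + 5 * L ^ 5 + 7 * L ^ 6) : S) * hp

theorem kl11_lv8 {S : Type*} [CommRing S] (L z : S) (hL : L ^ 9 = 0) (hp : (11 : S) = 0)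
    (hz : z = 1 + L) :
    z ^ 6 * (∑ i ∈ Finset.range 2, z ^ i) ^ 8 * (∑ i ∈ Finset.range 3, z ^ i) ^ 7 * (∑ i ∈ Finset.range 4, z ^ i) ^ 10 * (∑ i ∈ Finset.range 5, z ^ i) ^ 6 =
      ((3 : ℤ) : S) * (1 + ((1 : ℤ) : S) * L ^ 8) := by
  obtain ⟨t2, ht2⟩ : ∃ t : S, t = ∑ i ∈ Finset.range 2, z ^ i := ⟨_, rfl⟩
  obtain ⟨t3, ht3⟩ : ∃ t : S, t = ∑ i ∈ Finset.range 3, z ^ i := ⟨_, rfl⟩
  obtain ⟨t4, ht4⟩ : ∃ t : S, t = ∑ i ∈ Finset.range 4, z ^ i := ⟨_, rfl⟩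
  obtain ⟨t5, ht5⟩ : ∃ t : S, t = ∑ i ∈ Finset.range 5, z ^ i := ⟨_, rfl⟩
  rw [← ht2, ← ht3, ← ht4, ← ht5]
  push_cast
  have et2 : t2 = 2 + L := by
    rw [ht2, hz]; simp only [Finset.sum_range_succ, Finset.sum_range_zero]
    linear_combination ((0) : S) * hL + ((0) : S) * hp
  have et3 : t3 = 3 + 3 * L + L ^ 2 := by
    rw [ht3, hz]; simp only [Finset.sum_range_succ, Finset.sum_range_zero]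
    linear_combination ((0) : S) * hL + ((0) : S) * hp
  have et4 : t4 = 4 + 6 * L + 4 * L ^ 2 + L ^ 3 := by
    rw [ht4, hz]; simp only [Finset.sum_range_succ, Finset.sum_range_zero]
    linear_combination ((0) : S) * hL + ((0) : S) * hp
  have et5 : t5 = 5 + 10 * L + 10 * L ^ 2 + 5 * L ^ 3 + L ^ 4 := by
    rw [ht5, hz]; simp only [Finset.sum_range_succ, Finset.sum_range_zero]
    linear_combination ((0) : S) * hL + ((0) : S) * hp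
  have ez_2 : z ^ 2 = 1 + 2 * L + L ^ 2 := by
    linear_combination ((1 + L) : S) * hz + (z) * hz + ((0) : S) * hL + ((0) : S) * hp
  have ez_4 : z ^ 4 = 1 + 4 * L + 6 * L ^ 2 + 4 * L ^ 3 + L ^ 4 := by
    linear_combination ((1 + 2 * L + L ^ 2) : S) * ez_2 + (z ^ 2) * ez_2 + ((0) : S) * hL + ((0) : S) * hp
  have ez_6 : z ^ 6 = 1 + 6 * L + 4 * L ^ 2 + 9 * L ^ 3 + 4 * L ^ 4 + 6 * L ^ 5 + L ^ 6 := by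
    linear_combination ((1 + 4 * L + 6 * L ^ 2 + 4 * L ^ 3 + L ^ 4) : S) * ez_2 + (z ^ 2) * ez_4 + ((0) : S) * hL + ((L ^ 2 + L ^ 3 + L ^ 4) : S) * hp
  have et2_2 : t2 ^ 2 = 4 + 4 * L + L ^ 2 := by
    linear_combination ((2 + L) : S) * et2 + (t2) * et2 + ((0) : S) * hL + ((0) : S) * hp
  have et2_4 : t2 ^ 4 = 5 + 10 * L + 2 * L ^ 2 + 8 * L ^ 3 + L ^ 4 := by
    linear_combination ((4 + 4 * L + L ^ 2) : S) * et2_2 + (t2 ^ 2) * et2_2 + ((0) : S) * hL + ((1 + 2 * L + 2 * L ^ 2) : S) * hp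
  have et2_8 : t2 ^ 8 = 3 + L + 10 * L ^ 2 + 10 * L ^ 3 + 9 * L ^ 4 + 8 * L ^ 5 + 2 * L ^ 6 + 5 * L ^ 7 + L ^ 8 := by
    linear_combination ((5 + 10 * L + 2 * L ^ 2 + 8 * L ^ 3 + L ^ 4) : S) * et2_4 + (t2 ^ 4) * et2_4 + ((0) : S) * hL + ((2 + 9 * L + 10 * L ^ 2 + 10 * L ^ 3 + 15 * L ^ 4 + 4 * L ^ 5 + 6 * L ^ 6 + L ^ 7) : S) * hp
  have et3_2 : t3 ^ 2 = 9 + 7 * L + 4 * L ^ 2 + 6 * L ^ 3 + L ^ 4 := by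
    linear_combination ((3 + 3 * L + L ^ 2) : S) * et3 + (t3) * et3 + ((0) : S) * hL + ((L + L ^ 2) : S) * hp
  have et3_4 : t3 ^ 4 = 4 + 5 * L + 10 * L ^ 3 + 8 * L ^ 4 + 7 * L ^ 5 + L ^ 7 + L ^ 8 := by
    linear_combination ((9 + 7 * L + 4 * L ^ 2 + 6 * L ^ 3 + L ^ 4) : S) * et3_2 + (t3 ^ 2) * et3_2 + ((0) : S) * hL + ((7 + 11 * L + 11 * L ^ 2 + 14 * L ^ 3 + 10 * L ^ 4 + 5 * L ^ 5 + 4 * L ^ 6 + L ^ 7) : S) * hp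
  have et3_3 : t3 ^ 3 = 5 + 4 * L + 9 * L ^ 2 + 4 * L ^ 3 + 3 * L ^ 4 + 9 * L ^ 5 + L ^ 6 := by
    linear_combination ((9 + 7 * L + 4 * L ^ 2 + 6 * L ^ 3 + L ^ 4) : S) * et3 + (t3) * et3_2 + ((0) : S) * hL + ((2 + 4 * L + 3 * L ^ 2 + 3 * L ^ 3 + 2 * L ^ 4) : S) * hp
  have et3_7 : t3 ^ 7 = 9 + 8 * L + L ^ 2 + L ^ 3 + 2 * L ^ 4 + 10 * L ^ 5 + 2 * L ^ 6 + 3 * L ^ 7 + 8 * L ^ 8 := by
    linear_combination ((4 + 5 * L + 10 * L ^ 3 + 8 * L ^ 4 + 7 * L ^ 5 + L ^ 7 + L ^ 8) : S) * et3_3 + (t3 ^ 3) * et3_4 + ((116 + 84 * L + 14 * L ^ 2 + 12 * L ^ 3 + 10 * L ^ 4 + L ^ 5) : S) * hL + ((1 + 3 * L + 5 * L ^ 2 + 10 * L ^ 3 + 10 * L ^ 4 + 18 * L ^ 5 + 17 * L ^ 6 + 12 * L ^ 7 + 13 * L ^ 8) : S) * hp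
  have et4_2 : t4 ^ 2 = 5 + 4 * L + 2 * L ^ 2 + L ^ 3 + 6 * L ^ 4 + 8 * L ^ 5 + L ^ 6 := by
    linear_combination ((4 + 6 * L + 4 * L ^ 2 + L ^ 3) : S) * et4 + (t4) * et4 + ((0) : S) * hL + ((1 + 4 * L + 6 * L ^ 2 + 5 * L ^ 3 + 2 * L ^ 4) : S) * hp
  have et4_4 : t4 ^ 4 = 3 + 7 * L + 3 * L ^ 2 + 4 * L ^ 3 + 6 * L ^ 4 + 8 * L ^ 7 + L ^ 8 := by
    linear_combination ((5 + 4 * L + 2 * L ^ 2 + L ^ 3 + 6 * L ^ 4 + 8 * L ^ 5 + L ^ 6) : S) * et4_2 + (t4 ^ 2) * et4_2 + ((98 + 76 * L + 16 * L ^ 2 + L ^ 3) : S) * hL + ((2 + 3 * L + 3 * L ^ 2 + 2 * L ^ 3 + 6 * L ^ 4 + 12 * L ^ 5 + 9 * L ^ 6 + 4 * L ^ 7 + 5 * L ^ 8) : S) * hp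
  have et4_8 : t4 ^ 8 = 9 + 9 * L + L ^ 2 + 2 * L ^ 4 + 9 * L ^ 5 + 8 * L ^ 6 + 8 * L ^ 7 := by
    linear_combination ((3 + 7 * L + 3 * L ^ 2 + 4 * L ^ 3 + 6 * L ^ 4 + 8 * L ^ 7 + L ^ 8) : S) * et4_4 + (t4 ^ 4) * et4_4 + ((62 + 70 * L + 104 * L ^ 2 + 12 * L ^ 3 + 64 * L ^ 5 + 16 * L ^ 6 + L ^ 7) : S) * hL + ((3 * L + 6 * L ^ 2 + 6 * L ^ 3 + 9 * L ^ 4 + 9 * L ^ 5 + 4 * L ^ 6 + 8 * L ^ 7 + 14 * L ^ 8) : S) * hp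
  have et4_10 : t4 ^ 10 = 1 + 4 * L + 4 * L ^ 2 + 9 * L ^ 3 + 9 * L ^ 4 + 4 * L ^ 5 + 2 * L ^ 6 + 10 * L ^ 7 + 4 * L ^ 8 := by
    linear_combination ((9 + 9 * L + L ^ 2 + 2 * L ^ 4 + 9 * L ^ 5 + 8 * L ^ 6 + 8 * L ^ 7) : S) * et4_2 + (t4 ^ 2) * et4_8 + ((94 + 130 * L + 121 * L ^ 2 + 72 * L ^ 3 + 8 * L ^ 4) : S) * hL + ((4 + 7 * L + 5 * L ^ 2 + 2 * L ^ 3 + 6 * L ^ 4 + 16 * L ^ 5 + 15 * L ^ 6 + 9 * L ^ 7 + 6 * L ^ 8) : S) * hp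
  have et5_2 : t5 ^ 2 = 3 + L + 2 * L ^ 2 + 8 * L ^ 3 + L ^ 4 + 10 * L ^ 5 + L ^ 6 + 10 * L ^ 7 + L ^ 8 := by
    linear_combination ((5 + 10 * L + 10 * L ^ 2 + 5 * L ^ 3 + L ^ 4) : S) * et5 + (t5) * et5 + ((0) : S) * hL + ((2 + 9 * L + 18 * L ^ 2 + 22 * L ^ 3 + 19 * L ^ 4 + 10 * L ^ 5 + 4 * L ^ 6) : S) * hp
  have et5_4 : t5 ^ 4 = 9 + 6 * L + 2 * L ^ 2 + 8 * L ^ 3 + 4 * L ^ 4 + 6 * L ^ 5 + 6 * L ^ 6 + 8 * L ^ 7 + 4 * L ^ 8 := by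
    linear_combination ((3 + L + 2 * L ^ 2 + 8 * L ^ 3 + L ^ 4 + 10 * L ^ 5 + L ^ 6 + 10 * L ^ 7 + L ^ 8) : S) * et5_2 + (t5 ^ 2) * et5_2 + ((78 + 266 * L + 56 * L ^ 2 + 203 * L ^ 3 + 40 * L ^ 4 + 102 * L ^ 5 + 20 * L ^ 6 + L ^ 7) : S) * hL + ((L ^ 2 + 4 * L ^ 3 + 2 * L ^ 4 + 8 * L ^ 5 + 8 * L ^ 6 + 10 * L ^ 7 + 17 * L ^ 8) : S) * hp
  have et5_6 : t5 ^ 6 = 5 + 5 * L + 8 * L ^ 2 + 4 * L ^ 4 + 7 * L ^ 5 + 2 * L ^ 6 + 4 * L ^ 8 := by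
    linear_combination ((9 + 6 * L + 2 * L ^ 2 + 8 * L ^ 3 + 4 * L ^ 4 + 6 * L ^ 5 + 6 * L ^ 6 + 8 * L ^ 7 + 4 * L ^ 8) : S) * et5_2 + (t5 ^ 2) * et5_4 + ((148 + 224 * L + 154 * L ^ 2 + 154 * L ^ 3 + 114 * L ^ 4 + 90 * L ^ 5 + 48 * L ^ 6 + 4 * L ^ 7) : S) * hL + ((2 + 2 * L + 2 * L ^ 2 + 10 * L ^ 3 + 7 * L ^ 4 + 13 * L ^ 5 + 15 * L ^ 6 + 18 * L ^ 7 + 21 * L ^ 8) : S) * hp
  have c1 : z ^ 6 * t2 ^ 8 = 3 + 8 * L + 6 * L ^ 2 + 2 * L ^ 3 + 9 * L ^ 4 + 5 * L ^ 5 + 5 * L ^ 6 + 8 * L ^ 8 := by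
    linear_combination ((3 + L + 10 * L ^ 2 + 10 * L ^ 3 + 9 * L ^ 4 + 8 * L ^ 5 + 2 * L ^ 6 + 5 * L ^ 7 + L ^ 8) : S) * ez_6 + (z ^ 6) * et2_8 + ((140 + 114 * L + 49 * L ^ 2 + 36 * L ^ 3 + 11 * L ^ 4 + L ^ 5) : S) * hL + ((L + 2 * L ^ 2 + 9 * L ^ 3 + 11 * L ^ 4 + 19 * L ^ 5 + 20 * L ^ 6 + 21 * L ^ 7 + 19 * L ^ 8) : S) * hp
  have c2 : z ^ 6 * t2 ^ 8 * t3 ^ 7 = 5 + 8 * L + 7 * L ^ 4 + 6 * L ^ 5 + 7 * L ^ 6 + 4 * L ^ 8 := by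
    linear_combination ((9 + 8 * L + L ^ 2 + L ^ 3 + 2 * L ^ 4 + 10 * L ^ 5 + 2 * L ^ 6 + 3 * L ^ 7 + 8 * L ^ 8) : S) * c1 + (z ^ 6 * t2 ^ 8) * et3_7 + ((255 + 140 * L + 111 * L ^ 2 + 113 * L ^ 3 + 135 * L ^ 4 + 56 * L ^ 5 + 24 * L ^ 6 + 64 * L ^ 7) : S) * hL + ((2 + 8 * L + 11 * L ^ 2 + 7 * L ^ 3 + 10 * L ^ 4 + 15 * L ^ 5 + 17 * L ^ 6 + 13 * L ^ 7 + 16 * L ^ 8) : S) * hp
  have c3 : z ^ 6 * t2 ^ 8 * t3 ^ 7 * t4 ^ 10 = 5 + 6 * L + 8 * L ^ 2 + 3 * L ^ 4 + 5 * L ^ 5 + 2 * L ^ 6 + 5 * L ^ 7 + 7 * L ^ 8 := by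
    linear_combination ((1 + 4 * L + 4 * L ^ 2 + 9 * L ^ 3 + 9 * L ^ 4 + 4 * L ^ 5 + 2 * L ^ 6 + 10 * L ^ 7 + 4 * L ^ 8) : S) * c2 + (z ^ 6 * t2 ^ 8 * t3 ^ 7) * et4_10 + ((193 + 117 * L + 146 * L ^ 2 + 138 * L ^ 3 + 110 * L ^ 4 + 36 * L ^ 5 + 40 * L ^ 6 + 16 * L ^ 7) : S) * hL + ((2 * L + 4 * L ^ 2 + 7 * L ^ 3 + 11 * L ^ 4 + 11 * L ^ 5 + 9 * L ^ 6 + 16 * L ^ 7 + 22 * L ^ 8) : S) * hp
  linear_combination ((5 + 5 * L + 8 * L ^ 2 + 4 * L ^ 4 + 7 * L ^ 5 + 2 * L ^ 6 + 4 * L ^ 8) : S) * c3 + (z ^ 6 * t2 ^ 8 * t3 ^ 7 * t4 ^ 10) * et5_6 + ((140 + 137 * L + 44 * L ^ 2 + 79 * L ^ 3 + 79 * L ^ 4 + 22 * L ^ 5 + 20 * L ^ 6 + 28 * L ^ 7) : S) * hL + ((2 + 5 * L + 10 * L ^ 2 + 8 * L ^ 3 + 9 * L ^ 4 + 9 * L ^ 5 + 13 * L ^ 6 + 13 * L ^ 7 + 11 * L ^ 8) : S) * hp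

/-- **Kummer's lemma** for `p = 11`. -/
theorem kummer_lemma_eleven {K : Type*} [Field K] [NumberField K]
    [IsCyclotomicExtension {11} ℚ K] (u : (𝓞 K)ˣ)
    (h : ∃ a : ℤ, ((11 : ℕ) : 𝓞 K) ∣ (u : 𝓞 K) - (a : 𝓞 K)) : ∃ v : (𝓞 K)ˣ, u = v ^ 11 := by
  have : Fact (Nat.Prime 11) := ⟨by norm_num⟩
  have hζ := IsCyclotomicExtension.zeta_spec 11 ℚ K
  have hprim := hζ.toInteger_isPrimitiveRoot
  have hass := IsCyclotomicExtension.Rat.associated_zeta_sub_one_pow_prime 11 hζ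
  have hlp : ∀ m : ℕ, m ≤ 10 → (hζ.toInteger - 1) ^ m ∣ ((11 : ℕ) : 𝓞 K) := fun m hm =>
    (pow_dvd_pow _ hm).trans hass.dvd
  let z : (𝓞 K)ˣ := (hprim.isUnit (by norm_num)).unit
  let t2 : (𝓞 K)ˣ :=
    (hprim.geom_sum_isUnit (by norm_num) (by norm_num : Nat.Coprime 2 11)).unit
  let t3 : (𝓞 K)ˣ :=
    (hprim.geom_sum_isUnit (by norm_num) (by norm_num : Nat.Coprime 3 11)).unit
  let t4 : (𝓞 K)ˣ :=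
    (hprim.geom_sum_isUnit (by norm_num) (by norm_num : Nat.Coprime 4 11)).unit
  let t5 : (𝓞 K)ˣ :=
    (hprim.geom_sum_isUnit (by norm_num) (by norm_num : Nat.Coprime 5 11)).unit
  have hz : (z : 𝓞 K) = hζ.toInteger := rfl
  have ht2 : (t2 : 𝓞 K) = ∑ i ∈ Finset.range 2, hζ.toInteger ^ i := rfl
  have ht3 : (t3 : 𝓞 K) = ∑ i ∈ Finset.range 3, hζ.toInteger ^ i := rfl
  have ht4 : (t4 : 𝓞 K) = ∑ i ∈ Finset.range 4, hζ.toInteger ^ i := rfl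
  have ht5 : (t5 : 𝓞 K) = ∑ i ∈ Finset.range 5, hζ.toInteger ^ i := rfl
  refine kl_of_levels hζ (by norm_num) (n := 5) (by norm_num)
    ![z, z ^ 7 * t2 ^ 8, z ^ 9 * t2 ^ 5 * t3 ^ 5, z ^ 5 * t2 ^ 7 * t3 ^ 1 * t4 ^ 1, z ^ 6 * t2 ^ 8 * t3 ^ 7 * t4 ^ 10 * t5 ^ 6]
    ![1, 2, 4, 6, 8] ![1, 3, 10, 7, 3] ![1, 1, 1, 1, 1] ?_ ?_ ?_ ?_ ?_ u h
  · intro i j hij
    fin_cases i <;> fin_cases j <;> simp at hij ⊢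
  · intro j; fin_cases j <;> simp
  · intro j; fin_cases j <;> simp
  · intro j; fin_cases j <;> norm_num
  · intro j
    fin_cases j
    · show (hζ.toInteger - 1) ^ (1 + 1) ∣ ((z : (𝓞 K)ˣ) : 𝓞 K) -
        ((1 : ℤ) : 𝓞 K) * (1 + ((1 : ℤ) : 𝓞 K) * (hζ.toInteger - 1) ^ 1)
      rw [hz]
      exact ⟨0, by push_cast; ring⟩
    · show (hζ.toInteger - 1) ^ (2 + 1) ∣ ((z ^ 7 * t2 ^ 8 : (𝓞 K)ˣ) : 𝓞 K) -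
        ((3 : ℤ) : 𝓞 K) * (1 + ((1 : ℤ) : 𝓞 K) * (hζ.toInteger - 1) ^ 2)
      refine kl_level_transfer 11 _ 2 (hlp _ (by norm_num)) _ 3 1 (fun S _ f hL hp => ?_)
      simp only [Units.val_mul, Units.val_pow_eq_pow_val, hz, ht2, map_mul, map_pow, map_sum]
      exact kl11_lv2 _ _ hL (by exact_mod_cast hp) (by rw [map_sub, map_one]; ring)
    · show (hζ.toInteger - 1) ^ (4 + 1) ∣ ((z ^ 9 * t2 ^ 5 * t3 ^ 5 : (𝓞 K)ˣ) : 𝓞 K) -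
        ((10 : ℤ) : 𝓞 K) * (1 + ((1 : ℤ) : 𝓞 K) * (hζ.toInteger - 1) ^ 4)
      refine kl_level_transfer 11 _ 4 (hlp _ (by norm_num)) _ 10 1 (fun S _ f hL hp => ?_)
      simp only [Units.val_mul, Units.val_pow_eq_pow_val, hz, ht2, ht3, map_mul, map_pow, map_sum]
      exact kl11_lv4 _ _ hL (by exact_mod_cast hp) (by rw [map_sub, map_one]; ring)
    · show (hζ.toInteger - 1) ^ (6 + 1) ∣ ((z ^ 5 * t2 ^ 7 * t3 ^ 1 * t4 ^ 1 : (𝓞 K)ˣ) : 𝓞 K) -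
        ((7 : ℤ) : 𝓞 K) * (1 + ((1 : ℤ) : 𝓞 K) * (hζ.toInteger - 1) ^ 6)
      refine kl_level_transfer 11 _ 6 (hlp _ (by norm_num)) _ 7 1 (fun S _ f hL hp => ?_)
      simp only [Units.val_mul, Units.val_pow_eq_pow_val, hz, ht2, ht3, ht4, map_mul, map_pow, map_sum]
      exact kl11_lv6 _ _ hL (by exact_mod_cast hp) (by rw [map_sub, map_one]; ring)
    · show (hζ.toInteger - 1) ^ (8 + 1) ∣ ((z ^ 6 * t2 ^ 8 * t3 ^ 7 * t4 ^ 10 * t5 ^ 6 : (𝓞 K)ˣ) : 𝓞 K) -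
        ((3 : ℤ) : 𝓞 K) * (1 + ((1 : ℤ) : 𝓞 K) * (hζ.toInteger - 1) ^ 8)
      refine kl_level_transfer 11 _ 8 (hlp _ (by norm_num)) _ 3 1 (fun S _ f hL hp => ?_)
      simp only [Units.val_mul, Units.val_pow_eq_pow_val, hz, ht2, ht3, ht4, ht5, map_mul, map_pow, map_sum]
      exact kl11_lv8 _ _ hL (by exact_mod_cast hp) (by rw [map_sub, map_one]; ring)

end Fermat.Agent.Lib.Kummer
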