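import Fermat.Agent.Lib.K_KLCore

/-!
# Kummer's lemma for `p = 7`

Every unit of the ring of integers of the `7`-th cyclotomic field that is congruent to a
rational integer modulo `7` is a `7`-th power.  The proof exhibits `3` explicit cyclotomic
units of strictly increasing levels; the congruences are checked by certificates.
-/

namespace Fermat.Agent.Lib.Kummer

open NumberField

theorem kl7_lv2 {S : Type*} [CommRing S] (L z : S) (hL : L ^ 3 = 0) (hp : (7 : S) = 0)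
    (hz : z = 1 + L) :
    z ^ 3 * (∑ i ∈ Finset.range 2, z ^ i) ^ 1 =
      ((2 : ℤ) : S) * (1 + ((1 : ℤ) : S) * L ^ 2) := by
  obtain ⟨t2, ht2⟩ : ∃ t : S, t = ∑ i ∈ Finset.range 2, z ^ i := ⟨_, rfl⟩
  rw [← ht2]
  push_cast
  have et2 : t2 = 2 + L := by
    rw [ht2, hz]; simp only [Finset.sum_range_succ, Finset.sum_range_zero]
    linear_combination ((0) : S) * hL + ((0) : S) * hp
  have ez_2 : z ^ 2 = 1 + 2 * L + L ^ 2 := by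
    linear_combination ((1 + L) : S) * hz + (z) * hz + ((0) : S) * hL + ((0) : S) * hp
  have ez_3 : z ^ 3 = 1 + 3 * L + 3 * L ^ 2 := by
    linear_combination ((1 + 2 * L + L ^ 2) : S) * hz + (z) * ez_2 + ((1) : S) * hL + ((0) : S) * hp
  linear_combination ((2 + L) : S) * ez_3 + (z ^ 3) * et2 + ((3) : S) * hL + ((L + L ^ 2) : S) * hp

theorem kl7_lv4 {S : Type*} [CommRing S] (L z : S) (hL : L ^ 5 = 0) (hp : (7 : S) = 0)
    (hz : z = 1 + L) :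
    z ^ 4 * (∑ i ∈ Finset.range 2, z ^ i) ^ 3 * (∑ i ∈ Finset.range 3, z ^ i) ^ 5 =
      ((5 : ℤ) : S) * (1 + ((1 : ℤ) : S) * L ^ 4) := by
  obtain ⟨t2, ht2⟩ : ∃ t : S, t = ∑ i ∈ Finset.range 2, z ^ i := ⟨_, rfl⟩
  obtain ⟨t3, ht3⟩ : ∃ t : S, t = ∑ i ∈ Finset.range 3, z ^ i := ⟨_, rfl⟩
  rw [← ht2, ← ht3]
  push_cast
  have et2 : t2 = 2 + L := by
    rw [ht2, hz]; simp only [Finset.sum_range_succ, Finset.sum_range_zero]
    linear_combination ((0) : S) * hL + ((0) : S) * hp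
  have et3 : t3 = 3 + 3 * L + L ^ 2 := by
    rw [ht3, hz]; simp only [Finset.sum_range_succ, Finset.sum_range_zero]
    linear_combination ((0) : S) * hL + ((0) : S) * hp
  have ez_2 : z ^ 2 = 1 + 2 * L + L ^ 2 := by
    linear_combination ((1 + L) : S) * hz + (z) * hz + ((0) : S) * hL + ((0) : S) * hp
  have ez_4 : z ^ 4 = 1 + 4 * L + 6 * L ^ 2 + 4 * L ^ 3 + L ^ 4 := by
    linear_combination ((1 + 2 * L + L ^ 2) : S) * ez_2 + (z ^ 2) * ez_2 + ((0) : S) * hL + ((0) : S) * hp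
  have et2_2 : t2 ^ 2 = 4 + 4 * L + L ^ 2 := by
    linear_combination ((2 + L) : S) * et2 + (t2) * et2 + ((0) : S) * hL + ((0) : S) * hp
  have et2_3 : t2 ^ 3 = 1 + 5 * L + 6 * L ^ 2 + L ^ 3 := by
    linear_combination ((4 + 4 * L + L ^ 2) : S) * et2 + (t2) * et2_2 + ((0) : S) * hL + ((1 + L) : S) * hp
  have et3_2 : t3 ^ 2 = 2 + 4 * L + L ^ 2 + 6 * L ^ 3 + L ^ 4 := by
    linear_combination ((3 + 3 * L + L ^ 2) : S) * et3 + (t3) * et3 + ((0) : S) * hL + ((1 + 2 * L + 2 * L ^ 2) : S) * hp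
  have et3_4 : t3 ^ 4 = 4 + 2 * L + 6 * L ^ 2 + 4 * L ^ 3 + 4 * L ^ 4 := by
    linear_combination ((2 + 4 * L + L ^ 2 + 6 * L ^ 3 + L ^ 4) : S) * et3_2 + (t3 ^ 2) * et3_2 + ((20 + 38 * L + 12 * L ^ 2 + L ^ 3) : S) * hL + ((2 * L + 2 * L ^ 2 + 4 * L ^ 3 + 7 * L ^ 4) : S) * hp
  have et3_5 : t3 ^ 5 = 5 + 4 * L + 4 * L ^ 3 + 2 * L ^ 4 := by
    linear_combination ((4 + 2 * L + 6 * L ^ 2 + 4 * L ^ 3 + 4 * L ^ 4) : S) * et3 + (t3) * et3_4 + ((16 + 4 * L) : S) * hL + ((1 + 2 * L + 4 * L ^ 2 + 4 * L ^ 3 + 4 * L ^ 4) : S) * hp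
  have c1 : z ^ 4 * t2 ^ 3 = 1 + 2 * L + 4 * L ^ 2 + 3 * L ^ 3 + 5 * L ^ 4 := by
    linear_combination ((1 + 5 * L + 6 * L ^ 2 + L ^ 3) : S) * ez_4 + (z ^ 4) * et2_3 + ((35 + 10 * L + L ^ 2) : S) * hL + ((L + 4 * L ^ 2 + 8 * L ^ 3 + 8 * L ^ 4) : S) * hp
  linear_combination ((5 + 4 * L + 4 * L ^ 3 + 2 * L ^ 4) : S) * c1 + (z ^ 4 * t2 ^ 3) * et3_5 + ((40 + 20 * L + 26 * L ^ 2 + 10 * L ^ 3) : S) * hL + ((2 * L + 4 * L ^ 2 + 5 * L ^ 3 + 6 * L ^ 4) : S) * hp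

/-- **Kummer's lemma** for `p = 7`. -/
theorem kummer_lemma_seven {K : Type*} [Field K] [NumberField K]
    [IsCyclotomicExtension {7} ℚ K] (u : (𝓞 K)ˣ)
    (h : ∃ a : ℤ, ((7 : ℕ) : 𝓞 K) ∣ (u : 𝓞 K) - (a : 𝓞 K)) : ∃ v : (𝓞 K)ˣ, u = v ^ 7 := by
  have : Fact (Nat.Prime 7) := ⟨by norm_num⟩
  have hζ := IsCyclotomicExtension.zeta_spec 7 ℚ K
  have hprim := hζ.toInteger_isPrimitiveRoot
  have hass := IsCyclotomicExtension.Rat.associated_zeta_sub_one_pow_prime 7 hζ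
  have hlp : ∀ m : ℕ, m ≤ 6 → (hζ.toInteger - 1) ^ m ∣ ((7 : ℕ) : 𝓞 K) := fun m hm =>
    (pow_dvd_pow _ hm).trans hass.dvd
  let z : (𝓞 K)ˣ := (hprim.isUnit (by norm_num)).unit
  let t2 : (𝓞 K)ˣ :=
    (hprim.geom_sum_isUnit (by norm_num) (by norm_num : Nat.Coprime 2 7)).unit
  let t3 : (𝓞 K)ˣ :=
    (hprim.geom_sum_isUnit (by norm_num) (by norm_num : Nat.Coprime 3 7)).unit
  have hz : (z : 𝓞 K) = hζ.toInteger := rfl
  have ht2 : (t2 : 𝓞 K) = ∑ i ∈ Finset.range 2, hζ.toInteger ^ i := rfl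
  have ht3 : (t3 : 𝓞 K) = ∑ i ∈ Finset.range 3, hζ.toInteger ^ i := rfl
  refine kl_of_levels hζ (by norm_num) (n := 3) (by norm_num)
    ![z, z ^ 3 * t2 ^ 1, z ^ 4 * t2 ^ 3 * t3 ^ 5]
    ![1, 2, 4] ![1, 2, 5] ![1, 1, 1] ?_ ?_ ?_ ?_ ?_ u h
  · intro i j hij
    fin_cases i <;> fin_cases j <;> simp at hij ⊢
  · intro j; fin_cases j <;> simp
  · intro j; fin_cases j <;> simp
  · intro j; fin_cases j <;> norm_num
  · intro j
    fin_cases j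
    · show (hζ.toInteger - 1) ^ (1 + 1) ∣ ((z : (𝓞 K)ˣ) : 𝓞 K) -
        ((1 : ℤ) : 𝓞 K) * (1 + ((1 : ℤ) : 𝓞 K) * (hζ.toInteger - 1) ^ 1)
      rw [hz]
      exact ⟨0, by push_cast; ring⟩
    · show (hζ.toInteger - 1) ^ (2 + 1) ∣ ((z ^ 3 * t2 ^ 1 : (𝓞 K)ˣ) : 𝓞 K) -
        ((2 : ℤ) : 𝓞 K) * (1 + ((1 : ℤ) : 𝓞 K) * (hζ.toInteger - 1) ^ 2)
      refine kl_level_transfer 7 _ 2 (hlp _ (by norm_num)) _ 2 1 (fun S _ f hL hp => ?_)
      simp only [Units.val_mul, Units.val_pow_eq_pow_val, hz, ht2, map_mul, map_pow, map_sum]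
      exact kl7_lv2 _ _ hL (by exact_mod_cast hp) (by rw [map_sub, map_one]; ring)
    · show (hζ.toInteger - 1) ^ (4 + 1) ∣ ((z ^ 4 * t2 ^ 3 * t3 ^ 5 : (𝓞 K)ˣ) : 𝓞 K) -
        ((5 : ℤ) : 𝓞 K) * (1 + ((1 : ℤ) : 𝓞 K) * (hζ.toInteger - 1) ^ 4)
      refine kl_level_transfer 7 _ 4 (hlp _ (by norm_num)) _ 5 1 (fun S _ f hL hp => ?_)
      simp only [Units.val_mul, Units.val_pow_eq_pow_val, hz, ht2, ht3, map_mul, map_pow, map_sum]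
      exact kl7_lv4 _ _ hL (by exact_mod_cast hp) (by rw [map_sub, map_one]; ring)

end Fermat.Agent.Lib.Kummer
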