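import Mathlib

universe u

/-!
# Kummer's lemma for small regular primes: the general machinery
-/

namespace Fermat.Agent.Lib.Kummer


theorem kl_prod_zpow_sum {E ι : Type*} [CommGroup E] (s : Finset ι) (g : E) (f : ι → ℤ) :
    ∏ i ∈ s, g ^ f i = g ^ ∑ i ∈ s, f i := by
  classical
  induction s using Finset.induction_on with
  | empty => simp
  | insert a s ha ih => rw [Finset.prod_insert ha, Finset.sum_insert ha, ih, zpow_add]

/-- Abstract `𝔽_p`-linear algebra: if a commutative group `E` is generated by `n` elements and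
`n` elements `d j` are independent modulo a multiplicative predicate `P` that holds for all
`p`-th powers, then every element satisfying `P` is a `p`-th power. -/
theorem kl_abstract {E : Type*} [CommGroup E] (p : ℕ) [hp : Fact p.Prime] (P : E → Prop)
    (hmul : ∀ x y : E, P x → P y → P (x * y))
    (hH : ∀ x : E, P (x ^ p)) {n : ℕ} (g d : Fin n → E)
    (hg : ∀ x : E, ∃ c : Fin n → ℤ, x = ∏ i, g i ^ c i)
    (hd : ∀ e : Fin n → ℕ, P (∏ j, d j ^ e j) → ∀ j, p ∣ e j) :
    ∀ u : E, P u → ∃ v : E, u = v ^ p := by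
  classical
  choose A hA using fun j => hg (d j)
  have key : ∀ x : Fin n → ℕ, ∏ j, d j ^ x j = ∏ i, g i ^ (∑ j, (x j : ℤ) * A j i) := by
    intro x
    calc ∏ j, d j ^ x j = ∏ j, ∏ i, g i ^ ((x j : ℤ) * A j i) := by
          refine Finset.prod_congr rfl fun j _ => ?_
          conv_lhs => rw [hA j]
          rw [← Finset.prod_pow]
          refine Finset.prod_congr rfl fun i _ => ?_
          rw [← zpow_natCast, ← zpow_mul, mul_comm]
      _ = ∏ i, ∏ j, g i ^ ((x j : ℤ) * A j i) := Finset.prod_comm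
      _ = _ := by
          refine Finset.prod_congr rfl fun i _ => ?_
          rw [kl_prod_zpow_sum]
  let M : Matrix (Fin n) (Fin n) (ZMod p) := fun j i => (A j i : ZMod p)
  have hcast : ∀ (v : Fin n → ZMod p) (i : Fin n),
      ((∑ j, ((v j).val : ℤ) * A j i : ℤ) : ZMod p) = (Matrix.vecMul v M) i := by
    intro v i
    simp [Matrix.vecMul, dotProduct, M]
  -- a product of `p`-divisible powers of the generators is a `p`-th power
  have hpow : ∀ q : Fin n → ℤ, ∏ i, g i ^ ((p : ℤ) * q i) = (∏ i, g i ^ q i) ^ p := by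
    intro q
    rw [← Finset.prod_pow]
    refine Finset.prod_congr rfl fun i _ => ?_
    rw [← zpow_natCast, ← zpow_mul, mul_comm]
  have hzero : ∀ v : Fin n → ZMod p, P (∏ j, d j ^ (v j).val) → v = 0 := by
    intro v hv
    funext j
    have := hd (fun j => (v j).val) hv j
    have h2 : ((v j).val : ZMod p) = 0 := (ZMod.natCast_eq_zero_iff _ _).2 this
    simpa using h2
  have hinj : Function.Injective M.vecMul := by
    have hlin : Function.Injective (Matrix.vecMulLinear M) := by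
      rw [← LinearMap.ker_eq_bot, LinearMap.ker_eq_bot']
      intro v hv
      apply hzero
      have hdiv : ∀ i, ∃ q : ℤ, ∑ j, ((v j).val : ℤ) * A j i = (p : ℤ) * q := by
        intro i
        have h0 : ((∑ j, ((v j).val : ℤ) * A j i : ℤ) : ZMod p) = 0 := by
          rw [hcast]
          have := congrFun hv i
          simpa using this
        exact (ZMod.intCast_zmod_eq_zero_iff_dvd _ p).1 h0
      choose q hq using hdiv
      rw [key]
      simp_rw [hq]
      rw [hpow]
      exact hH _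
    exact hlin
  have hsurj : Function.Surjective M.vecMul :=
    Matrix.vecMul_surjective_iff_isUnit.2 (Matrix.vecMul_injective_iff_isUnit.1 hinj)
  intro u hu
  obtain ⟨c, hc⟩ := hg u
  obtain ⟨v, hv⟩ := hsurj (fun i => (c i : ZMod p))
  replace hv : Matrix.vecMul v M = fun i => (c i : ZMod p) := hv
  have hdiv : ∀ i, ∃ q : ℤ, ∑ j, ((v j).val : ℤ) * A j i = c i + (p : ℤ) * q := by
    intro i
    have h0 : ((∑ j, ((v j).val : ℤ) * A j i - c i : ℤ) : ZMod p) = 0 := by
      rw [Int.cast_sub, hcast, hv, sub_self]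
    obtain ⟨q, hq⟩ := (ZMod.intCast_zmod_eq_zero_iff_dvd _ p).1 h0
    exact ⟨q, by linarith⟩
  choose q hq using hdiv
  have hv0 : v = 0 := by
    apply hzero
    rw [key]
    simp_rw [hq, zpow_add]
    rw [Finset.prod_mul_distrib, ← hc, hpow]
    exact hmul _ _ hu (hH _)
  have hc0 : ∀ i, (p : ℤ) ∣ c i := by
    intro i
    have := congrFun hv i
    rw [hv0, Matrix.zero_vecMul] at this
    exact (ZMod.intCast_zmod_eq_zero_iff_dvd _ p).1 this.symm
  choose c' hc' using hc0
  refine ⟨∏ i, g i ^ c' i, ?_⟩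
  rw [hc, ← hpow]
  exact Finset.prod_congr rfl fun i _ => by rw [hc']



/-- Every `p`-th power is congruent to a rational integer modulo `p`. -/
theorem kl_pow_int {R : Type*} [CommRing R] (p : ℕ) [hp : Fact p.Prime] (l : R)
    (hint : ∀ x : R, ∃ m : ℤ, l ∣ x - m) (hlp : (p : R) ∣ l ^ (p - 1)) (x : R) :
    ∃ m : ℤ, (p : R) ∣ x ^ p - m := by
  obtain ⟨m, y, hy⟩ := hint x
  obtain ⟨r, hr⟩ := exists_add_pow_prime_eq hp.out (m : R) (l * y)
  obtain ⟨w, hw⟩ := hlp
  have hlp' : l ^ p = p * w * l := by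
    have h1 : l ^ p = l ^ (p - 1) * l := by
      rw [← pow_succ, Nat.sub_add_cancel hp.out.pos]
    rw [h1, hw]
  have hx : x = m + l * y := by linear_combination hy
  refine ⟨m ^ p, w * l * y ^ p + m * (l * y) * r, ?_⟩
  rw [hx, hr, mul_pow, hlp']
  push_cast
  ring

theorem kl_one_add_pow {S : Type*} [CommRing S] (t : S) (ht : t * t = 0) (e : ℕ) :
    (1 + t) ^ e = 1 + e * t := by
  induction e with
  | zero => simp
  | succ e ih =>
    rw [pow_succ, ih]
    push_cast
    linear_combination (e : S) * ht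

/-- The level criterion for multiplicative independence modulo integers and `p`. -/
theorem kl_levels {R : Type*} [CommRing R] [IsDomain R] (p : ℕ) [hp : Fact p.Prime] (l : R)
    (hl : Prime l) (hint : ∀ x : R, ∃ m : ℤ, l ∣ x - m)
    (hdvd : ∀ n : ℤ, l ∣ (n : R) → (p : ℤ) ∣ n)
    (hass : Associated (l ^ (p - 1)) (p : R))
    {n : ℕ} (d : Fin n → Rˣ) (k : Fin n → ℕ) (a b : Fin n → ℤ)
    (hk : StrictMono k) (hk1 : ∀ j, 1 ≤ k j) (hk2 : ∀ j, k j + 1 ≤ p - 1)
    (hb : ∀ j, ¬ (p : ℤ) ∣ b j)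
    (hd : ∀ j, l ^ (k j + 1) ∣ (d j : R) - a j * (1 + b j * l ^ k j))
    (e : Fin n → ℕ) (c : ℤ) (hc : (p : R) ∣ ((∏ j, d j ^ e j : Rˣ) : R) - c) :
    ∀ j, p ∣ e j := by
  classical
  have hlp : l ∣ (p : R) := (dvd_pow_self l (by have := hp.out.two_le; omega)).trans hass.dvd
  have hpow := kl_pow_int p l hint hass.symm.dvd
  -- strong induction on `j`
  suffices H : ∀ m : ℕ, ∀ j : Fin n, (j : ℕ) = m → p ∣ e j from fun j => H j j rfl
  intro m
  induction m using Nat.strong_induction_on with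
  | _ m ih =>
  intro j hjm
  have hlt : ∀ i : Fin n, i < j → p ∣ e i := fun i hi => ih i (hjm ▸ hi) i rfl
  by_contra hej
  set I : Ideal R := Ideal.span {l ^ (k j + 1)} with hI
  set π := Ideal.Quotient.mk I with hπ
  have hπl : π l ^ (k j + 1) = 0 := by
    rw [← map_pow]
    exact Ideal.Quotient.eq_zero_iff_mem.2 (Ideal.mem_span_singleton_self _)
  have hπdvd : ∀ x : R, l ^ (k j + 1) ∣ x → π x = 0 := fun x hx =>
    Ideal.Quotient.eq_zero_iff_mem.2 (Ideal.mem_span_singleton.2 hx)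
  have hlkp : l ^ (k j + 1) ∣ (p : R) := (pow_dvd_pow l (hk2 j)).trans hass.dvd
  have hπp : ∀ x : R, (p : R) ∣ x → π x = 0 := fun x hx => hπdvd x (hlkp.trans hx)
  -- the factors different from `j` are integers in the quotient
  have hother : ∀ i : Fin n, i ≠ j → ∃ m : ℤ, π ((d i : R) ^ e i) = π (m : R) := by
    intro i hij
    rcases lt_or_gt_of_ne hij with hlt' | hgt
    · obtain ⟨t, ht⟩ := hlt i hlt'
      obtain ⟨m, hm⟩ := hpow ((d i : R) ^ t)
      refine ⟨m, ?_⟩
      have := hπp _ hm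
      rw [map_sub, sub_eq_zero] at this
      rw [ht, mul_comm, pow_mul, this]
    · refine ⟨a i ^ e i, ?_⟩
      have hki : k j + 1 ≤ k i := hk hgt
      have h1 : l ^ (k j + 1) ∣ (d i : R) - a i := by
        have h2 : l ^ (k j + 1) ∣ (d i : R) - a i * (1 + b i * l ^ k i) :=
          (pow_dvd_pow l (by omega)).trans (hd i)
        have h3 : l ^ (k j + 1) ∣ (a i : R) * b i * l ^ k i :=
          Dvd.dvd.mul_left (pow_dvd_pow l hki) _
        have := dvd_add h2 h3
        convert this using 1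
        ring
      have := hπdvd _ h1
      rw [map_sub, sub_eq_zero] at this
      rw [map_pow, this]
      push_cast
      rw [map_pow]
  have hprod : ∃ m : ℤ, π (∏ i ∈ Finset.univ.erase j, (d i : R) ^ e i) = π (m : R) := by
    rw [map_prod]
    refine Finset.prod_induction _ (fun y => ∃ m : ℤ, y = π (m : R)) ?_ ⟨1, by simp⟩ ?_
    · rintro x y ⟨m, rfl⟩ ⟨m', rfl⟩
      exact ⟨m * m', by push_cast; rw [map_mul]⟩
    · intro i hi
      exact hother i (Finset.ne_of_mem_erase hi)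
  obtain ⟨A₀, hA₀⟩ := hprod
  -- the `j`-th factor
  have hj1 : π (d j : R) = π (a j : R) * (1 + π (b j : R) * π l ^ k j) := by
    have := hπdvd _ (hd j)
    rw [map_sub, sub_eq_zero] at this
    rw [this]
    simp only [map_mul, map_add, map_one, map_pow]
  have hsq : (π (b j : R) * π l ^ k j) * (π (b j : R) * π l ^ k j) = 0 := by
    have : π l ^ k j * π l ^ k j = 0 := by
      rw [← pow_add]
      have h2 : k j + k j = (k j + 1) + (k j - 1) := by have := hk1 j; omega
      rw [h2, pow_add, hπl, zero_mul]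
    linear_combination (π (b j : R) * π (b j : R)) * this
  have hj2 : π ((d j : R) ^ e j) =
      π ((a j : R) ^ e j) * (1 + (e j : R ⧸ I) * (π (b j : R) * π l ^ k j)) := by
    rw [map_pow, hj1, mul_pow, kl_one_add_pow _ hsq, map_pow]
  -- the whole product
  have htot : π (((∏ i, d i ^ e i : Rˣ) : R)) =
      π ((A₀ * a j ^ e j : ℤ) : R) * (1 + π ((e j * b j : ℤ) : R) * π l ^ k j) := by
    have h1 : ((∏ i, d i ^ e i : Rˣ) : R) = ∏ i, (d i : R) ^ e i := by
      simp [Units.coe_prod]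
    rw [h1, ← Finset.mul_prod_erase Finset.univ _ (Finset.mem_univ j), map_mul, hA₀, hj2]
    push_cast
    simp only [map_mul, map_pow, map_natCast]
    ring
  have hcπ : π (c : R) = π (((∏ i, d i ^ e i : Rˣ) : R)) := by
    have := hπp _ hc
    rw [map_sub, sub_eq_zero] at this
    exact this.symm
  set A : ℤ := A₀ * a j ^ e j with hA
  -- back to divisibility in `R`
  have hdiv : l ^ (k j + 1) ∣ (c : R) - A * (1 + ((e j * b j : ℤ) : R) * l ^ k j) := by
    apply Ideal.mem_span_singleton.1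
    apply Ideal.Quotient.eq.1
    show π (c : R) = π ((A : R) * (1 + ((e j * b j : ℤ) : R) * l ^ k j))
    rw [hcπ, htot]
    simp only [map_mul, map_add, map_one, map_pow]
  have hl1 : l ∣ l ^ (k j + 1) := dvd_pow_self l (by omega)
  have hlk : l ∣ l ^ k j := dvd_pow_self l (by have := hk1 j; omega)
  have hcA : (p : ℤ) ∣ c - A := by
    apply hdvd
    have h1 := hl1.trans hdiv
    have h2 : l ∣ (A : R) * ((e j * b j : ℤ) : R) * l ^ k j := Dvd.dvd.mul_left hlk _
    have := dvd_add h1 h2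
    push_cast
    convert this using 1
    ring
  have hcA' : l ^ (k j + 1) ∣ ((c - A : ℤ) : R) := by
    obtain ⟨t, ht⟩ := hcA
    rw [ht]
    push_cast
    exact Dvd.dvd.mul_right hlkp _
  have h3 : l ^ (k j + 1) ∣ l ^ k j * ((A * (e j * b j) : ℤ) : R) := by
    have := dvd_sub hcA' hdiv
    push_cast at this ⊢
    convert this using 1
    ring
  rw [pow_succ] at h3
  have h4 : l ∣ ((A * (e j * b j) : ℤ) : R) :=
    (mul_dvd_mul_iff_left (pow_ne_zero _ hl.ne_zero)).1 h3
  have h5 := hdvd _ h4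
  have hpZ : Prime (p : ℤ) := Nat.prime_iff_prime_int.1 hp.out
  rcases hpZ.dvd_or_dvd h5 with h6 | h6
  · -- `p ∣ A` is impossible since the product is a unit
    have h7 : l ∣ (A : R) := by
      obtain ⟨t, ht⟩ := h6
      rw [ht]; push_cast
      exact Dvd.dvd.mul_right hlp _
    have h8 : l ∣ (c : R) := by
      have : l ∣ ((c - A : ℤ) : R) := hl1.trans hcA'
      have := dvd_add this h7
      push_cast at this
      simpa using this
    have h9 : l ∣ ((∏ i, d i ^ e i : Rˣ) : R) := by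
      have := dvd_add (hlp.trans hc) h8
      simpa using this
    exact hl.not_isUnit (isUnit_of_dvd_unit h9 (Units.isUnit _))
  · rcases hpZ.dvd_or_dvd h6 with h7 | h7
    · exact hej (Int.natCast_dvd_natCast.1 h7)
    · exact hb j h7


/-- Transfer of a computation in an arbitrary quotient to a divisibility statement. -/
theorem kl_level_transfer {R : Type u} [CommRing R] (p : ℕ) (l : R) (k : ℕ)
    (hlp : l ^ (k + 1) ∣ (p : R)) (x : R) (a b : ℤ)
    (h : ∀ (S : Type u) [CommRing S] (f : R →+* S), f l ^ (k + 1) = 0 → (p : S) = 0 →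
      f x = (a : S) * (1 + (b : S) * f l ^ k)) :
    l ^ (k + 1) ∣ x - (a : R) * (1 + (b : R) * l ^ k) := by
  apply Ideal.mem_span_singleton.1
  apply Ideal.Quotient.eq.1
  have h1 := h (R ⧸ Ideal.span {l ^ (k + 1)}) (Ideal.Quotient.mk _)
    (by rw [← map_pow]; exact Ideal.Quotient.eq_zero_iff_mem.2 (Ideal.mem_span_singleton_self _))
    (by
      rw [← map_natCast (Ideal.Quotient.mk (Ideal.span {l ^ (k + 1)}))]
      exact Ideal.Quotient.eq_zero_iff_mem.2 (Ideal.mem_span_singleton.2 hlp))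
  rw [h1]
  simp only [map_mul, map_add, map_one, map_pow, map_intCast]

section cyclo

open NumberField

variable {p : ℕ} [hp : Fact p.Prime] {K : Type*} [Field K] [NumberField K]
  [IsCyclotomicExtension {p} ℚ K] {ζ : K} (hζ : IsPrimitiveRoot ζ p)

/-- Every element of `𝓞 K` is congruent to a rational integer modulo `ζ - 1`. -/
theorem kl_exists_int (x : 𝓞 K) : ∃ m : ℤ, hζ.toInteger - 1 ∣ x - m := by
  classical
  obtain ⟨c, hc⟩ : ∃ c : Fin hζ.integralPowerBasis.dim → ℤ,
      x = ∑ i, c i • hζ.toInteger ^ (i : ℕ) := by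
    refine ⟨fun i => hζ.integralPowerBasis.basis.repr x i, ?_⟩
    conv_lhs => rw [← hζ.integralPowerBasis.basis.sum_repr x]
    refine Finset.sum_congr rfl fun i _ => ?_
    rw [PowerBasis.coe_basis, hζ.integralPowerBasis_gen]
  refine ⟨∑ i, c i, ?_⟩
  have key : x - ((∑ i, c i : ℤ) : 𝓞 K) = ∑ i, c i • (hζ.toInteger ^ (i : ℕ) - 1) := by
    rw [hc, Int.cast_sum, ← Finset.sum_sub_distrib]
    refine Finset.sum_congr rfl fun i _ => ?_
    rw [smul_sub, zsmul_eq_mul, zsmul_eq_mul, mul_one]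
  rw [key]
  refine Finset.dvd_sum fun i _ => ?_
  rw [zsmul_eq_mul]
  exact Dvd.dvd.mul_left (by simpa using sub_dvd_pow_sub_pow hζ.toInteger 1 (i : ℕ)) _

theorem kl_rank (hp2 : 2 < p) : Units.rank K + 1 = (p - 1) / 2 := by
  have h1 := IsCyclotomicExtension.Rat.nrRealPlaces_eq_zero (n := p) K hp2
  have h2 := IsCyclotomicExtension.Rat.nrComplexPlaces_eq_totient_div_two p K
  rw [Nat.totient_prime hp.out] at h2
  have h3 := InfinitePlace.card_eq_nrRealPlaces_add_nrComplexPlaces K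
  unfold Units.rank
  rw [h3, h1, h2]
  omega

/-- The unit group is generated by `rank + 1` elements. -/
theorem kl_gens (K : Type*) [Field K] [NumberField K] :
    ∃ g : Fin (Units.rank K + 1) → (𝓞 K)ˣ,
      ∀ x : (𝓞 K)ˣ, ∃ c : Fin (Units.rank K + 1) → ℤ, x = ∏ i, g i ^ c i := by
  obtain ⟨g₀, hg₀⟩ := IsCyclic.exists_generator (α := Units.torsion K)
  refine ⟨Fin.cons (g₀ : (𝓞 K)ˣ) (Units.fundSystem K), fun x => ?_⟩
  obtain ⟨⟨t, e⟩, hte, -⟩ := Units.exist_unique_eq_mul_prod K x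
  obtain ⟨m, hm⟩ := Subgroup.mem_zpowers_iff.1 (hg₀ t)
  refine ⟨Fin.cons m e, ?_⟩
  rw [Fin.prod_univ_succ]
  simp only [Fin.cons_zero, Fin.cons_succ]
  rw [hte, ← hm]
  simp

/-- **Kummer's lemma** for a prime `p`, given `(p - 1) / 2` units of strictly increasing
levels. -/
theorem kl_of_levels (hp2 : 2 < p) {n : ℕ} (hn : n = (p - 1) / 2)
    (d : Fin n → (𝓞 K)ˣ) (k : Fin n → ℕ) (a b : Fin n → ℤ)
    (hk : StrictMono k) (hk1 : ∀ j, 1 ≤ k j) (hk2 : ∀ j, k j + 1 ≤ p - 1)
    (hb : ∀ j, ¬ (p : ℤ) ∣ b j)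
    (hd : ∀ j, (hζ.toInteger - 1) ^ (k j + 1) ∣
      (d j : 𝓞 K) - a j * (1 + b j * (hζ.toInteger - 1) ^ k j))
    (u : (𝓞 K)ˣ) (hu : ∃ a : ℤ, (p : 𝓞 K) ∣ (u : 𝓞 K) - a) : ∃ v : (𝓞 K)ˣ, u = v ^ p := by
  have hl : Prime (hζ.toInteger - 1) := hζ.zeta_sub_one_prime'
  have hint := kl_exists_int hζ
  have hdvd : ∀ m : ℤ, hζ.toInteger - 1 ∣ (m : 𝓞 K) → (p : ℤ) ∣ m := fun m hm =>
    (IsCyclotomicExtension.Rat.zeta_sub_one_dvd_intCast_iff' p hζ).1 hm
  have hass := IsCyclotomicExtension.Rat.associated_zeta_sub_one_pow_prime p hζ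
  obtain ⟨g, hg⟩ := kl_gens K
  have hr : Units.rank K + 1 = n := by rw [hn]; exact kl_rank (K := K) hp2
  subst hr
  refine kl_abstract p (fun u : (𝓞 K)ˣ => ∃ a : ℤ, (p : 𝓞 K) ∣ (u : 𝓞 K) - a) ?_ ?_ g d hg ?_ u hu
  · rintro x y ⟨a, s, hs⟩ ⟨a', s', hs'⟩
    refine ⟨a * a', s * y + a * s', ?_⟩
    push_cast
    linear_combination (y : 𝓞 K) * hs + (a : 𝓞 K) * hs'
  · intro x
    obtain ⟨m, hm⟩ := kl_pow_int p (hζ.toInteger - 1) hint hass.symm.dvd (x : 𝓞 K)
    exact ⟨m, by simpa using hm⟩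
  · rintro e ⟨c, hc⟩
    exact kl_levels p (hζ.toInteger - 1) hl hint hdvd hass d k a b hk hk1 hk2 hb hd e c hc

end cyclo

end Fermat.Agent.Lib.Kummer
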