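import Mathlib

set_option linter.style.haveILetI false

namespace Fermat.Agent.Lib.Kummer

open NumberField Polynomial InfinitePlace Nat Real Ideal IsCyclotomicExtension
  IsCyclotomicExtension.Rat Module

/-- Criterion for `B < q ^ orderOf (q : ZMod p)` by a finite check. -/
theorem pid_lt_pow_orderOf_of_forall (p q B k : ℕ) [hp : Fact p.Prime] (hq : 2 ≤ q) (hqp : ¬ p ∣ q)
    (hB : B < 2 ^ (k + 1))
    (h : ∀ j < k + 1, 0 < j → q ^ j ≤ B → q ^ j % p ≠ 1) :
    B < q ^ orderOf (q : ZMod p) := by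
  by_contra hle
  rw [not_lt] at hle
  set f := orderOf (q : ZMod p) with hf
  have hq0 : (q : ZMod p) ≠ 0 := by
    rwa [Ne, ZMod.natCast_eq_zero_iff]
  have hfpos : 0 < f := by
    rw [hf, orderOf_pos_iff, isOfFinOrder_iff_isUnit]
    exact hq0.isUnit
  have hfk : f < k + 1 := by
    have h1 : 2 ^ f ≤ q ^ f := Nat.pow_le_pow_left hq f
    have h2 : 2 ^ f < 2 ^ (k + 1) := lt_of_le_of_lt (h1.trans hle) hB
    exact (Nat.pow_lt_pow_iff_right (by norm_num)).mp h2
  refine h f hfk hfpos hle ?_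
  have h1 : ((q ^ f : ℕ) : ZMod p) = ((1 : ℕ) : ZMod p) := by
    push_cast
    exact pow_orderOf_eq_one _
  rw [ZMod.natCast_eq_natCast_iff] at h1
  have := h1
  unfold Nat.ModEq at this
  rw [this, Nat.mod_eq_of_lt hp.out.one_lt]

section generic

variable (p : ℕ) [hp : Fact p.Prime] (K : Type*) [Field K] [NumberField K]
  [hK : IsCyclotomicExtension {p} ℚ K]

/-- The Minkowski bound of the `p`-th cyclotomic field, `p` prime. -/
theorem pid_minkowski_cyclotomic_prime :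
    (4 / π) ^ nrComplexPlaces K *
      ((finrank ℚ K)! / (finrank ℚ K) ^ (finrank ℚ K) * √|(discr K : ℝ)|) =
    (4 / π) ^ ((p - 1) / 2) *
      (((p - 1)! : ℕ) / ((p - 1 : ℕ) : ℝ) ^ (p - 1) * √((p : ℝ) ^ (p - 2))) := by
  haveI : NeZero p := ⟨hp.out.ne_zero⟩
  rw [discr_prime p K, IsCyclotomicExtension.finrank (n := p) K (cyclotomic.irreducible_rat (NeZero.pos p)),
    nrComplexPlaces_eq_totient_div_two p, totient_prime hp.out]
  congr 3
  push_cast
  rw [abs_mul, abs_pow, abs_neg, abs_one, one_pow, one_mul, abs_of_nonneg (by positivity)]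

/-- Generic reduction of principality of `𝓞 K` for a prime cyclotomic field. -/
theorem pid_of_minkowski_lt (B : ℕ)
    (hB : (4 / π) ^ ((p - 1) / 2) *
      (((p - 1)! : ℕ) / ((p - 1 : ℕ) : ℝ) ^ (p - 1) * √((p : ℝ) ^ (p - 2))) < B + 1)
    (h : ∀ q ∈ Finset.Icc 1 B, q.Prime → q ≠ p →
      B < q ^ orderOf (q : ZMod p) ∨
        ∃ P ∈ primesOver (span {(q : ℤ)}) (𝓞 K), Submodule.IsPrincipal P) :
    IsPrincipalIdealRing (𝓞 K) := by
  haveI : IsGalois ℚ K := IsCyclotomicExtension.isGalois {p} ℚ K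
  haveI : NeZero p := ⟨hp.out.ne_zero⟩
  apply RingOfIntegers.isPrincipalIdealRing_of_isPrincipal_of_lt_or_isPrincipal_of_mem_primesOver_of_mem_Icc
  rw [pid_minkowski_cyclotomic_prime p K]
  set M := (4 / π) ^ ((p - 1) / 2) *
      (((p - 1)! : ℕ) / ((p - 1 : ℕ) : ℝ) ^ (p - 1) * √((p : ℝ) ^ (p - 2))) with hM
  have hfl : ⌊M⌋₊ ≤ B := by
    have : ⌊M⌋₊ < B + 1 := by
      rw [Nat.floor_lt (by positivity)]
      exact_mod_cast hB
    omega
  intro q hq hqp
  by_cases hqp' : q = p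
  · subst hqp'
    let hζ := zeta_spec q ℚ K
    refine ⟨span {hζ.toInteger - 1}, ⟨isPrime_span_zeta_sub_one' q hζ, ?_⟩, Or.inr ⟨_, rfl⟩⟩
    have hK' : IsCyclotomicExtension {q ^ (0 + 1)} ℚ K := by rwa [zero_add, pow_one]
    have hζ' : IsPrimitiveRoot (zeta q ℚ K) (q ^ (0 + 1)) := by rw [zero_add, pow_one]; exact hζ
    exact liesOver_span_zeta_sub_one q 0 hζ'
  · have hq' : q ∈ Finset.Icc 1 B := by
      rw [Finset.mem_Icc] at hq ⊢
      exact ⟨hq.1, hq.2.trans hfl⟩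
    rcases h q hq' hqp hqp' with h1 | ⟨P, hP, hPp⟩
    · haveI : Fact q.Prime := ⟨hqp⟩
      obtain ⟨⟨P, hP1, hP2⟩⟩ := (span {(q : ℤ)}).nonempty_primesOver (S := 𝓞 K)
      refine ⟨P, ⟨hP1, hP2⟩, Or.inl ?_⟩
      rw [inertiaDeg_eq_of_not_dvd q K P (m := p)
        (fun hd => hqp' ((Nat.prime_dvd_prime_iff_eq hqp hp.out).mp hd))]
      exact lt_of_le_of_lt hfl h1
    · exact ⟨P, hP, Or.inr hPp⟩

end generic

/-- Upper bound for the Minkowski constant, generic numeric helper. -/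
theorem pid_minkowski_lt_aux (k : ℕ) (c s x : ℝ) (P Bd : ℝ) (hP : P < π) (hP0 : 0 < P) (hc : 0 ≤ c)
    (hs : 0 ≤ s) (hxs : x ≤ s ^ 2) (hfin : (4 / P) ^ k * (c * s) < Bd) :
    (4 / π) ^ k * (c * √x) < Bd := by
  have h1 : √x ≤ s := by
    rw [Real.sqrt_le_left hs]
    exact hxs
  have h2 : (4 / π) ^ k ≤ (4 / P) ^ k := by
    gcongr
  calc (4 / π) ^ k * (c * √x) ≤ (4 / P) ^ k * (c * s) := by
        gcongr
    _ < Bd := hfin

theorem pid_seven (K : Type*) [Field K] [NumberField K] [IsCyclotomicExtension {7} ℚ K] :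
    IsPrincipalIdealRing (𝓞 K) := by
  haveI : Fact (Nat.Prime 7) := ⟨by norm_num⟩
  refine pid_of_minkowski_lt 7 K 4 ?_ ?_
  · have h1 : ((7 - 1) / 2 : ℕ) = 3 := by norm_num
    have h2 : (((7 - 1)! : ℕ) : ℝ) = 720 := by
      have : (7 - 1)! = 720 := by decide
      rw [this]; norm_num
    rw [h1, h2]
    refine pid_minkowski_lt_aux 3 _ 130 _ 3 _ Real.pi_gt_three (by norm_num) (by positivity)
      (by norm_num) (by norm_num) (by norm_num)
  · intro q hq hqp hq7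
    rw [Finset.mem_Icc] at hq
    obtain ⟨hq1, hq4⟩ := hq
    left
    interval_cases q
    · exact absurd hqp (by norm_num)
    · exact pid_lt_pow_orderOf_of_forall 7 2 4 2 (by norm_num) (by norm_num) (by norm_num) (by decide)
    · exact pid_lt_pow_orderOf_of_forall 7 3 4 2 (by norm_num) (by norm_num) (by norm_num) (by decide)
    · exact absurd hqp (by norm_num)


section KD

variable (p q : ℕ) [hp : Fact p.Prime] [hq : Fact q.Prime] (K : Type*) [Field K] [NumberField K]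
  [hK : IsCyclotomicExtension {p} ℚ K]

/-- Kummer–Dedekind for the prime cyclotomic field, in the form we need. -/
theorem pid_mem_primesOver_span_pair (Q : ℤ[X]) (hQm : Q.Monic)
    (hQirr : Irreducible (Q.map (Int.castRingHom (ZMod q))))
    (hdvd : Q.map (Int.castRingHom (ZMod q)) ∣ cyclotomic p (ZMod q)) :
    span {(q : 𝓞 K), aeval (zeta_spec p ℚ K).toInteger Q} ∈
      primesOver (span {(q : ℤ)}) (𝓞 K) := by
  haveI : NeZero p := ⟨hp.out.ne_zero⟩
  let ζ := (zeta_spec p ℚ K).toInteger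
  have h₁ : ¬ q ∣ RingOfIntegers.exponent ζ := by
    rw [RingOfIntegers.exponent_eq_one_iff.mpr <| adjoin_singleton_eq_top (zeta_spec p ℚ K)]
    exact hq.out.not_dvd_one
  have hQ : Q.map (Int.castRingHom (ZMod q)) ∈ RingOfIntegers.monicFactorsMod ζ q := by
    rw [Multiset.mem_toFinset,
      Polynomial.mem_normalizedFactors_iff (map_monic_ne_zero (minpoly.monic ζ.isIntegral))]
    refine ⟨hQirr, hQm.map _, ?_⟩
    have : minpoly ℤ ζ = cyclotomic p ℤ := by
      rw [cyclotomic_eq_minpoly (zeta_spec p ℚ K) (NeZero.pos _), ← RingOfIntegers.minpoly_coe ζ]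
      rfl
    rw [this, map_cyclotomic_int]
    exact hdvd
  rw [← NumberField.Ideal.primesOverSpanEquivMonicFactorsMod_symm_apply_eq_span h₁ hQ]
  exact ((NumberField.Ideal.primesOverSpanEquivMonicFactorsMod h₁).symm ⟨_, hQ⟩).prop

/-- Linear case: `span {q, ζ - b}` is a prime over `q` when `b` is a root of `Φ_p` mod `q`. -/
theorem pid_mem_primesOver_span_pair_linear (b : ℤ)
    (hb : (q : ℤ) ∣ ∑ i ∈ Finset.range p, b ^ i) :
    span {(q : 𝓞 K), (zeta_spec p ℚ K).toInteger - (b : 𝓞 K)} ∈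
      primesOver (span {(q : ℤ)}) (𝓞 K) := by
  have := pid_mem_primesOver_span_pair p q K (X - C b) (monic_X_sub_C b)
    (by rw [Polynomial.map_sub, map_X, map_C]; exact irreducible_X_sub_C _)
    (by
      rw [Polynomial.map_sub, map_X, map_C, dvd_iff_isRoot, IsRoot.def, cyclotomic_prime,
        eval_finsetSum]
      have h := (ZMod.intCast_zmod_eq_zero_iff_dvd _ q).mpr hb
      simpa using h)
  simpa using this

end KD

/-- `1 + ζ + ... + ζ^(p-1) = 0` for the chosen primitive root in `𝓞 K`. -/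
theorem pid_sum_zeta_pow_eq_zero (p : ℕ) [hp : Fact p.Prime] (K : Type*) [Field K] [NumberField K]
    [hK : IsCyclotomicExtension {p} ℚ K] :
    ∑ i ∈ Finset.range p, (zeta_spec p ℚ K).toInteger ^ i = 0 := by
  haveI : NeZero p := ⟨hp.out.ne_zero⟩
  have h := (zeta_spec p ℚ K).toInteger_isPrimitiveRoot
  exact h.geom_sum_eq_zero hp.out.one_lt

theorem pid_gen_11_23 {R : Type*} [CommRing R] (z : R)
    (h : 1 + z + z ^ 2 + z ^ 3 + z ^ 4 + z ^ 5 + z ^ 6 + z ^ 7 + z ^ 8 + z ^ 9 + z ^ 10 = 0) :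
    Ideal.span {(23 : R), z - 4} = Ideal.span {1 + z + z ^ 3} := by
  apply le_antisymm
  · rw [Ideal.span_le]
    intro x hx
    rcases hx with rfl | rfl
    · refine Ideal.mem_span_singleton'.mpr ⟨
        -2 - 14 * z - 17 * z ^ 2 - 12 * z ^ 3 - 5 * z ^ 4 - 9 * z ^ 5 - 10 * z ^ 6 - 16 * z ^ 7 -
          6 * z ^ 8 - 15 * z ^ 9, ?_⟩
      linear_combination (-25 + 9 * z - 15 * z ^ 2) * h
    · refine Ideal.mem_span_singleton'.mpr ⟨
        1 + 3 * z + 3 * z ^ 2 + 2 * z ^ 3 + z ^ 4 + 2 * z ^ 5 + 2 * z ^ 6 + 3 * z ^ 7 + z ^ 8 + 3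
          * z ^ 9, ?_⟩
      linear_combination (5 - 2 * z + 3 * z ^ 2) * h
  · rw [Ideal.span_singleton_le_iff_mem, Ideal.mem_span_pair]
    refine ⟨3,
      17 + 4 * z + z ^ 2, ?_⟩
    ring

theorem pid_exists_principal_11_23 (K : Type*) [Field K] [NumberField K]
    [IsCyclotomicExtension {11} ℚ K] :
    ∃ P ∈ primesOver (span {((23 : ℕ) : ℤ)}) (𝓞 K), Submodule.IsPrincipal P := by
  haveI : Fact (Nat.Prime 11) := ⟨by norm_num⟩
  haveI : Fact (Nat.Prime 23) := ⟨by norm_num⟩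
  have h1 := pid_mem_primesOver_span_pair_linear 11 23 K 4 (by decide)
  have h2 := pid_sum_zeta_pow_eq_zero 11 K
  simp only [Finset.sum_range_succ, Finset.sum_range_zero, zero_add, pow_zero, pow_one] at h2
  have h3 := pid_gen_11_23 (zeta_spec 11 ℚ K).toInteger h2
  simp only [Nat.cast_ofNat, Int.cast_ofNat] at h1
  rw [h3] at h1
  exact ⟨_, h1, ⟨_, rfl⟩⟩

theorem pid_gen_13_53 {R : Type*} [CommRing R] (z : R)
    (h : 1 + z + z ^ 2 + z ^ 3 + z ^ 4 + z ^ 5 + z ^ 6 + z ^ 7 + z ^ 8 + z ^ 9 + z ^ 10 + z ^ 11 +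
      z ^ 12 = 0) :
    Ideal.span {(53 : R), z - 36} = Ideal.span {1 + z + z ^ 3} := by
  apply le_antisymm
  · rw [Ideal.span_le]
    intro x hx
    rcases hx with rfl | rfl
    · refine Ideal.mem_span_singleton'.mpr ⟨
        1 - 24 * z - 35 * z ^ 2 - 25 * z ^ 3 - 10 * z ^ 4 - 14 * z ^ 5 - 20 * z ^ 6 - 29 * z ^ 7 -
          16 * z ^ 8 - 23 * z ^ 9 - 7 * z ^ 10 - 36 * z ^ 11, ?_⟩
      linear_combination (-52 + 29 * z - 36 * z ^ 2) * h
    · refine Ideal.mem_span_singleton'.mpr ⟨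
        17 * z + 24 * z ^ 2 + 17 * z ^ 3 + 7 * z ^ 4 + 10 * z ^ 5 + 14 * z ^ 6 + 20 * z ^ 7 + 11 *
          z ^ 8 + 16 * z ^ 9 + 5 * z ^ 10 + 25 * z ^ 11, ?_⟩
      linear_combination (36 - 20 * z + 25 * z ^ 2) * h
  · rw [Ideal.span_singleton_le_iff_mem, Ideal.mem_span_pair]
    refine ⟨881,
      1297 + 36 * z + z ^ 2, ?_⟩
    ring

theorem pid_exists_principal_13_53 (K : Type*) [Field K] [NumberField K]
    [IsCyclotomicExtension {13} ℚ K] :
    ∃ P ∈ primesOver (span {((53 : ℕ) : ℤ)}) (𝓞 K), Submodule.IsPrincipal P := by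
  haveI : Fact (Nat.Prime 13) := ⟨by norm_num⟩
  haveI : Fact (Nat.Prime 53) := ⟨by norm_num⟩
  have h1 := pid_mem_primesOver_span_pair_linear 13 53 K 36 (by decide)
  have h2 := pid_sum_zeta_pow_eq_zero 13 K
  simp only [Finset.sum_range_succ, Finset.sum_range_zero, zero_add, pow_zero, pow_one] at h2
  have h3 := pid_gen_13_53 (zeta_spec 13 ℚ K).toInteger h2
  simp only [Nat.cast_ofNat, Int.cast_ofNat] at h1
  rw [h3] at h1
  exact ⟨_, h1, ⟨_, rfl⟩⟩

theorem pid_gen_13_79 {R : Type*} [CommRing R] (z : R)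
    (h : 1 + z + z ^ 2 + z ^ 3 + z ^ 4 + z ^ 5 + z ^ 6 + z ^ 7 + z ^ 8 + z ^ 9 + z ^ 10 + z ^ 11 +
      z ^ 12 = 0) :
    Ideal.span {(79 : R), z - 64} = Ideal.span {1 + z - z ^ 4} := by
  apply le_antisymm
  · rw [Ideal.span_le]
    intro x hx
    rcases hx with rfl | rfl
    · refine Ideal.mem_span_singleton'.mpr ⟨
        24 - 25 * z - 27 * z ^ 2 + 10 * z ^ 3 - 3 * z ^ 4 - 39 * z ^ 5 - 5 * z ^ 6 - 2 * z ^ 7 -
          18 * z ^ 8 - 38 * z ^ 9 + 16 * z ^ 10 - 35 * z ^ 11, ?_⟩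
      linear_combination (-55 + 54 * z - 51 * z ^ 2 + 35 * z ^ 3) * h
    · refine Ideal.mem_span_singleton'.mpr ⟨
        -19 + 21 * z + 22 * z ^ 2 - 8 * z ^ 3 + 3 * z ^ 4 + 32 * z ^ 5 + 4 * z ^ 6 + 2 * z ^ 7 +
          15 * z ^ 8 + 31 * z ^ 9 - 13 * z ^ 10 + 29 * z ^ 11, ?_⟩
      linear_combination (45 - 44 * z + 42 * z ^ 2 - 29 * z ^ 3) * h
  · rw [Ideal.span_singleton_le_iff_mem, Ideal.mem_span_pair]
    refine ⟨-212369,
      -262143 - 4096 * z - 64 * z ^ 2 - z ^ 3, ?_⟩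
    ring

theorem pid_exists_principal_13_79 (K : Type*) [Field K] [NumberField K]
    [IsCyclotomicExtension {13} ℚ K] :
    ∃ P ∈ primesOver (span {((79 : ℕ) : ℤ)}) (𝓞 K), Submodule.IsPrincipal P := by
  haveI : Fact (Nat.Prime 13) := ⟨by norm_num⟩
  haveI : Fact (Nat.Prime 79) := ⟨by norm_num⟩
  have h1 := pid_mem_primesOver_span_pair_linear 13 79 K 64 (by decide)
  have h2 := pid_sum_zeta_pow_eq_zero 13 K
  simp only [Finset.sum_range_succ, Finset.sum_range_zero, zero_add, pow_zero, pow_one] at h2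
  have h3 := pid_gen_13_79 (zeta_spec 13 ℚ K).toInteger h2
  simp only [Nat.cast_ofNat, Int.cast_ofNat] at h1
  rw [h3] at h1
  exact ⟨_, h1, ⟨_, rfl⟩⟩

theorem pid_gen_13_131 {R : Type*} [CommRing R] (z : R)
    (h : 1 + z + z ^ 2 + z ^ 3 + z ^ 4 + z ^ 5 + z ^ 6 + z ^ 7 + z ^ 8 + z ^ 9 + z ^ 10 + z ^ 11 +
      z ^ 12 = 0) :
    Ideal.span {(131 : R), z - 80} = Ideal.span {1 - z - z ^ 3} := by
  apply le_antisymm
  · rw [Ideal.span_le]
    intro x hx
    rcases hx with rfl | rfl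
    · refine Ideal.mem_span_singleton'.mpr ⟨
        111 + 78 * z + 17 * z ^ 2 + 67 * z ^ 3 + 84 * z ^ 4 + 40 * z ^ 5 + 46 * z ^ 6 + 69 * z ^ 7
          + 48 * z ^ 8 + 33 * z ^ 9 + 41 * z ^ 10 + 28 * z ^ 11, ?_⟩
      linear_combination (-20 - 13 * z - 28 * z ^ 2) * h
    · refine Ideal.mem_span_singleton'.mpr ⟨
        -68 - 47 * z - 10 * z ^ 2 - 41 * z ^ 3 - 51 * z ^ 4 - 24 * z ^ 5 - 28 * z ^ 6 - 42 * z ^ 7
          - 29 * z ^ 8 - 20 * z ^ 9 - 25 * z ^ 10 - 17 * z ^ 11, ?_⟩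
      linear_combination (12 + 8 * z + 17 * z ^ 2) * h
  · rw [Ideal.span_singleton_le_iff_mem, Ideal.mem_span_pair]
    refine ⟨-3909,
      -6401 - 80 * z - z ^ 2, ?_⟩
    ring

theorem pid_exists_principal_13_131 (K : Type*) [Field K] [NumberField K]
    [IsCyclotomicExtension {13} ℚ K] :
    ∃ P ∈ primesOver (span {((131 : ℕ) : ℤ)}) (𝓞 K), Submodule.IsPrincipal P := by
  haveI : Fact (Nat.Prime 13) := ⟨by norm_num⟩
  haveI : Fact (Nat.Prime 131) := ⟨by norm_num⟩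
  have h1 := pid_mem_primesOver_span_pair_linear 13 131 K 80 (by decide)
  have h2 := pid_sum_zeta_pow_eq_zero 13 K
  simp only [Finset.sum_range_succ, Finset.sum_range_zero, zero_add, pow_zero, pow_one] at h2
  have h3 := pid_gen_13_131 (zeta_spec 13 ℚ K).toInteger h2
  simp only [Nat.cast_ofNat, Int.cast_ofNat] at h1
  rw [h3] at h1
  exact ⟨_, h1, ⟨_, rfl⟩⟩

theorem pid_gen_13_157 {R : Type*} [CommRing R] (z : R)
    (h : 1 + z + z ^ 2 + z ^ 3 + z ^ 4 + z ^ 5 + z ^ 6 + z ^ 7 + z ^ 8 + z ^ 9 + z ^ 10 + z ^ 11 +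
      z ^ 12 = 0) :
    Ideal.span {(157 : R), z - 75} = Ideal.span {1 - z + z ^ 2 + z ^ 4} := by
  apply le_antisymm
  · rw [Ideal.span_le]
    intro x hx
    rcases hx with rfl | rfl
    · refine Ideal.mem_span_singleton'.mpr ⟨
        89 + 86 * z + 42 * z ^ 2 + 77 * z ^ 3 + 67 * z ^ 4 + 25 * z ^ 5 + 37 * z ^ 6 + 56 * z ^ 7
          + 73 * z ^ 8 + 113 * z ^ 9 + 124 * z ^ 10 + 76 * z ^ 11, ?_⟩
      linear_combination (-68 + 65 * z + 48 * z ^ 2 + 76 * z ^ 3) * h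
    · refine Ideal.mem_span_singleton'.mpr ⟨
        -43 - 41 * z - 20 * z ^ 2 - 37 * z ^ 3 - 32 * z ^ 4 - 12 * z ^ 5 - 18 * z ^ 6 - 27 * z ^ 7
          - 35 * z ^ 8 - 54 * z ^ 9 - 59 * z ^ 10 - 36 * z ^ 11, ?_⟩
      linear_combination (32 - 31 * z - 23 * z ^ 2 - 36 * z ^ 3) * h
  · rw [Ideal.span_singleton_le_iff_mem, Ideal.mem_span_pair]
    refine ⟨201568,
      421949 + 5626 * z + 75 * z ^ 2 + z ^ 3, ?_⟩
    ring

theorem pid_exists_principal_13_157 (K : Type*) [Field K] [NumberField K]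
    [IsCyclotomicExtension {13} ℚ K] :
    ∃ P ∈ primesOver (span {((157 : ℕ) : ℤ)}) (𝓞 K), Submodule.IsPrincipal P := by
  haveI : Fact (Nat.Prime 13) := ⟨by norm_num⟩
  haveI : Fact (Nat.Prime 157) := ⟨by norm_num⟩
  have h1 := pid_mem_primesOver_span_pair_linear 13 157 K 75 (by decide)
  have h2 := pid_sum_zeta_pow_eq_zero 13 K
  simp only [Finset.sum_range_succ, Finset.sum_range_zero, zero_add, pow_zero, pow_one] at h2
  have h3 := pid_gen_13_157 (zeta_spec 13 ℚ K).toInteger h2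
  simp only [Nat.cast_ofNat, Int.cast_ofNat] at h1
  rw [h3] at h1
  exact ⟨_, h1, ⟨_, rfl⟩⟩

theorem pid_gen_13_3 {R : Type*} [CommRing R] (z : R)
    (h : 1 + z + z ^ 2 + z ^ 3 + z ^ 4 + z ^ 5 + z ^ 6 + z ^ 7 + z ^ 8 + z ^ 9 + z ^ 10 + z ^ 11 +
      z ^ 12 = 0) :
    Ideal.span {(3 : R), z ^ 3 - z - 1} = Ideal.span {1 + z - z ^ 3} := by
  apply le_antisymm
  · rw [Ideal.span_le]
    intro x hx
    rcases hx with rfl | rfl
    · refine Ideal.mem_span_singleton'.mpr ⟨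
        -1 - z ^ 2 - z ^ 3 - 2 * z ^ 5 - z ^ 7 - 2 * z ^ 8 + z ^ 9 - 3 * z ^ 10, ?_⟩
      linear_combination (-4 + 3 * z) * h
    · refine Ideal.mem_span_singleton'.mpr ⟨
        -1, ?_⟩
      linear_combination (0) * h
  · rw [Ideal.span_singleton_le_iff_mem, Ideal.mem_span_pair]
    refine ⟨0,
      -1, ?_⟩
    ring


theorem pid_cubic_no_root (x : ZMod 3) : x ^ 3 - x - 1 ≠ 0 := by
  revert x; decide

theorem pid_cubic_no_isRoot (x : ZMod 3) : ¬ IsRoot (X ^ 3 - X - 1 : (ZMod 3)[X]) x := by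
  rw [IsRoot.def]
  have : eval x (X ^ 3 - X - 1 : (ZMod 3)[X]) = x ^ 3 - x - 1 := by simp
  rw [this]
  exact pid_cubic_no_root x

theorem pid_exists_principal_13_3 (K : Type*) [Field K] [NumberField K]
    [IsCyclotomicExtension {13} ℚ K] :
    ∃ P ∈ primesOver (span {((3 : ℕ) : ℤ)}) (𝓞 K), Submodule.IsPrincipal P := by
  haveI : Fact (Nat.Prime 13) := ⟨by norm_num⟩
  haveI : Fact (Nat.Prime 3) := ⟨by norm_num⟩
  have hmap : (X ^ 3 - X - 1 : ℤ[X]).map (Int.castRingHom (ZMod 3)) = X ^ 3 - X - 1 := by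
    simp
  have h1 := pid_mem_primesOver_span_pair 13 3 K (X ^ 3 - X - 1) (by monicity!)
    (by
      rw [hmap]
      apply irreducible_of_degree_le_three_of_not_isRoot
      · have : (X ^ 3 - X - 1 : (ZMod 3)[X]).natDegree = 3 := by compute_degree!
        rw [this]; decide
      · intro x
        exact pid_cubic_no_isRoot x)
    (by
      rw [hmap, cyclotomic_prime]
      refine ⟨20 + 15 * X + 11 * X ^ 2 + 8 * X ^ 3 + 6 * X ^ 4 + 4 * X ^ 5 + 3 * X ^ 6 +
        2 * X ^ 7 + X ^ 8 + X ^ 9, ?_⟩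
      have h3 : (3 : (ZMod 3)[X]) = 0 := by
        have : ((3 : ℕ) : (ZMod 3)[X]) = 0 := by
          rw [← map_natCast (C : ZMod 3 →+* (ZMod 3)[X]), ZMod.natCast_self, map_zero]
        exact_mod_cast this
      simp only [Finset.sum_range_succ, Finset.sum_range_zero, zero_add, pow_zero, pow_one]
      linear_combination (7 + 12 * X + 9 * X ^ 2) * h3)
  have h2 := pid_sum_zeta_pow_eq_zero 13 K
  simp only [Finset.sum_range_succ, Finset.sum_range_zero, zero_add, pow_zero, pow_one] at h2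
  have h3 := pid_gen_13_3 (zeta_spec 13 ℚ K).toInteger h2
  simp only [Nat.cast_ofNat, map_sub, map_pow, aeval_X, map_one] at h1
  rw [h3] at h1
  exact ⟨_, h1, ⟨_, rfl⟩⟩

theorem pid_eleven (K : Type*) [Field K] [NumberField K] [IsCyclotomicExtension {11} ℚ K] :
    IsPrincipalIdealRing (𝓞 K) := by
  haveI : Fact (Nat.Prime 11) := ⟨by norm_num⟩
  refine pid_of_minkowski_lt 11 K 58 ?_ ?_
  · have h1 : ((11 - 1) / 2 : ℕ) = 5 := by norm_num
    have h2 : (((11 - 1)! : ℕ) : ℝ) = 3628800 := by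
      have : (11 - 1)! = 3628800 := by decide
      rw [this]; norm_num
    rw [h1, h2]
    refine pid_minkowski_lt_aux 5 _ 48559 _ 3.1415 _ Real.pi_gt_d4 (by norm_num) (by positivity)
      (by norm_num) (by norm_num) (by norm_num)
  · intro q hq hqp hq11
    rw [Finset.mem_Icc] at hq
    obtain ⟨hq1, hqB⟩ := hq
    by_cases h23 : q = 23
    · subst h23
      exact Or.inr (pid_exists_principal_11_23 K)
    left
    interval_cases q <;> first
      | (refine absurd hqp ?_; norm_num; done)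
      | exact absurd rfl hq11
      | exact absurd rfl h23
      | exact pid_lt_pow_orderOf_of_forall 11 _ 58 5 (by decide) (by decide) (by decide)
          (by decide)

theorem pid_thirteen (K : Type*) [Field K] [NumberField K] [IsCyclotomicExtension {13} ℚ K] :
    IsPrincipalIdealRing (𝓞 K) := by
  haveI : Fact (Nat.Prime 13) := ⟨by norm_num⟩
  refine pid_of_minkowski_lt 13 K 306 ?_ ?_
  · have h1 : ((13 - 1) / 2 : ℕ) = 6 := by norm_num
    have h2 : (((13 - 1)! : ℕ) : ℝ) = 479001600 := by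
      have : (13 - 1)! = 479001600 := by norm_num [Nat.factorial]
      rw [this]; norm_num
    rw [h1, h2]
    refine pid_minkowski_lt_aux 6 _ 1338717 _ 3.1415 _ Real.pi_gt_d4 (by norm_num) (by positivity)
      (by norm_num) (by norm_num) (by norm_num)
  · intro q hq hqp hq13
    rw [Finset.mem_Icc] at hq
    obtain ⟨hq1, hqB⟩ := hq
    by_cases h3 : q = 3
    · subst h3
      exact Or.inr (pid_exists_principal_13_3 K)
    by_cases h53 : q = 53
    · subst h53
      exact Or.inr (pid_exists_principal_13_53 K)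
    by_cases h79 : q = 79
    · subst h79
      exact Or.inr (pid_exists_principal_13_79 K)
    by_cases h131 : q = 131
    · subst h131
      exact Or.inr (pid_exists_principal_13_131 K)
    by_cases h157 : q = 157
    · subst h157
      exact Or.inr (pid_exists_principal_13_157 K)
    left
    interval_cases q <;> first
      | (refine absurd hqp ?_; norm_num; done)
      | exact absurd rfl hq13
      | exact absurd rfl h3
      | exact absurd rfl h53
      | exact absurd rfl h79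
      | exact absurd rfl h131
      | exact absurd rfl h157
      | exact pid_lt_pow_orderOf_of_forall 13 _ 306 8 (by decide) (by decide) (by decide)
          (by decide)

/-- Specialisations to `CyclotomicField p ℚ`. -/
theorem pid_cyclotomicField_five : IsPrincipalIdealRing (𝓞 (CyclotomicField 5 ℚ)) :=
  haveI : IsCyclotomicExtension {5} ℚ (CyclotomicField 5 ℚ) :=
    CyclotomicField.isCyclotomicExtension 5 ℚ
  five_pid _

theorem pid_cyclotomicField_seven : IsPrincipalIdealRing (𝓞 (CyclotomicField 7 ℚ)) :=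
  haveI : IsCyclotomicExtension {7} ℚ (CyclotomicField 7 ℚ) :=
    CyclotomicField.isCyclotomicExtension 7 ℚ
  pid_seven _

theorem pid_cyclotomicField_eleven : IsPrincipalIdealRing (𝓞 (CyclotomicField 11 ℚ)) :=
  haveI : IsCyclotomicExtension {11} ℚ (CyclotomicField 11 ℚ) :=
    CyclotomicField.isCyclotomicExtension 11 ℚ
  pid_eleven _

theorem pid_cyclotomicField_thirteen : IsPrincipalIdealRing (𝓞 (CyclotomicField 13 ℚ)) :=
  haveI : IsCyclotomicExtension {13} ℚ (CyclotomicField 13 ℚ) :=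
    CyclotomicField.isCyclotomicExtension 13 ℚ
  pid_thirteen _

end Fermat.Agent.Lib.Kummer
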