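import Fermat.Agent.Lib.F5_Final
import Fermat.Agent.Lib.F5_Top
import Fermat.Agent.Lib.F5_RVal

set_option autoImplicit false

/-!
# S13, WP-P (helper4): the local filtration of the Frey curve at the prime `p`

For a valuation subring `A` of `ℚ̄` over `p = P.p` (odd, so the `F5` machinery applies):

* `lpE1` : the kernel of reduction `{O} ∪ {x ∉ A}` as a subgroup;
* `lpE0` : (multiplicative reduction) the points of class `0` as a subgroup;
* `lp_red_good`, `lp_red_node` : an endomorphism which is the identity modulo the maximal ideal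
  moves an integral point with non-singular reduction by an element of the kernel of reduction;
* `lp_local` : the deliverable: subgroups `E1 ≤ E0` with `(σ - 1) E ⊆ E0` and
  `(σ - 1) E0 ⊆ E1` for every `σ` in the inertia subgroup of `A`.
-/

namespace Fermat.Agent.LP

open WeierstrassCurve WeierstrassCurve.Affine Fermat.Agent.F5

local notation "Qb" => AlgebraicClosure ℚ

section general

variable {K : Type*} [Field K] {A : ValuationSubring K}

/-- an element of `2 a ℤ` in `(-a, a]` is zero -/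
theorem lp_int_aux {a c : ℝ} (ha : 0 < a) {k : ℤ} (hc : c = 2 * a * k) (h1 : -a < c)
    (h2 : c ≤ a) : c = 0 := by
  have hk1 : (-1 : ℝ) < 2 * k := by
    by_contra hh
    push Not at hh
    nlinarith
  have hk2 : 2 * (k : ℝ) ≤ 1 := by
    by_contra hh
    push Not at hh
    nlinarith
  have hk1' : (-1 : ℤ) < 2 * k := by exact_mod_cast hk1
  have hk2' : 2 * k ≤ (1 : ℤ) := by exact_mod_cast hk2
  have hk0 : k = 0 := by omega
  rw [hc, hk0]
  simp

/-- the class is invariant under a valuation-preserving field endomorphism fixing `ω` -/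
theorem lp_cval_map (v : RVal A) (σ : K →+* K) (hw : ∀ x, v.w (σ x) = v.w x) {D ω : K}
    (hω : σ ω = ω) (X Y : K) : cval v D ω (σ X) (σ Y) = cval v D ω X Y := by
  have e0 : σ X = 0 ↔ X = 0 := map_eq_zero σ
  have e2 : SgnPos v ω (σ X) (σ Y) ↔ SgnPos v ω X Y := by
    unfold SgnPos RVal.Wgt
    have e : σ Y - ω * σ X = σ (Y - ω * X) := by rw [map_sub, map_mul, hω]
    rw [e, hw, hw, map_eq_zero]
  unfold cval
  classical
  exact if_congr e0 rfl (if_congr (by rw [hw]) rfl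
    (if_congr (by rw [hw]) (if_congr e2 (hw X) (by rw [hw])) rfl))

variable [DecidableEq K] [CharZero K] {W : WeierstrassCurve.Affine K} {a b : K}

omit [DecidableEq K] [CharZero K] in
/-- the class of a point lies in `(-w D, w D]` -/
theorem lp_cpt_range (v : RVal A) (e₁ : K) {D U ω : K} (h : NodeData v D U ω) (Q : W.Point) :
    -v.w D < cpt v e₁ D ω Q ∧ cpt v e₁ D ω Q ≤ v.w D := by
  rcases Q with _ | ⟨x, y, hxy⟩
  · show -v.w D < (0 : ℝ) ∧ (0 : ℝ) ≤ v.w D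
    exact ⟨by linarith [h.D_pos], h.D_pos.le⟩
  · exact node_cval_range v h _ _

/-- the points of class `0` form a subgroup -/
noncomputable def lpE0 (hW : IsFreyW W a b) (v : RVal A) {e₁ e₂ e₃ ω : K}
    (hr1 : e₁ + e₂ + e₃ = a - b) (hr2 : e₁ * e₂ + e₁ * e₃ + e₂ * e₃ = -(a * b))
    (hr3 : e₁ * e₂ * e₃ = 0) (h : NodeData v (e₂ - e₁) (e₁ - e₃) ω) : AddSubgroup W.Point where
  carrier := {Q | cpt v e₁ (e₂ - e₁) ω Q = 0}
  zero_mem' := cpt_zero v e₁ (e₂ - e₁) ω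
  add_mem' := by
    intro P Q hP hQ
    obtain ⟨k, hk⟩ := cpt_add hW v hr1 hr2 hr3 h P Q
    have hP' : cpt v e₁ (e₂ - e₁) ω P = 0 := hP
    have hQ' : cpt v e₁ (e₂ - e₁) ω Q = 0 := hQ
    rw [hP', hQ', zero_add, zero_add] at hk
    have hr := lp_cpt_range v e₁ h (P + Q)
    exact lp_int_aux h.D_pos hk hr.1 hr.2
  neg_mem' := by
    intro P hP
    obtain ⟨k, hk⟩ := cpt_neg hW v hr1 hr2 hr3 h P
    have hP' : cpt v e₁ (e₂ - e₁) ω P = 0 := hP
    rw [hP', neg_zero, zero_add] at hk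
    have hr := lp_cpt_range v e₁ h (-P)
    exact lp_int_aux h.D_pos hk hr.1 hr.2

theorem lp_mem_E0 (hW : IsFreyW W a b) (v : RVal A) {e₁ e₂ e₃ ω : K}
    (hr1 : e₁ + e₂ + e₃ = a - b) (hr2 : e₁ * e₂ + e₁ * e₃ + e₂ * e₃ = -(a * b))
    (hr3 : e₁ * e₂ * e₃ = 0) (h : NodeData v (e₂ - e₁) (e₁ - e₃) ω) (Q : W.Point) :
    Q ∈ lpE0 hW v hr1 hr2 hr3 h ↔ cpt v e₁ (e₂ - e₁) ω Q = 0 := Iff.rfl

/-- the kernel of reduction as a subgroup -/
noncomputable def lpE1 (hW : IsFreyW W a b) (v : RVal A) (ha : v.Wge a 0) (hb : v.Wge b 0) :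
    AddSubgroup W.Point where
  carrier := {Q | E1 v Q}
  zero_mem' := Or.inl rfl
  add_mem' := fun hP hQ => e1_add_mem hW ha hb hP hQ
  neg_mem' := fun hP => e1_neg_mem hP

theorem lp_mem_E1 (hW : IsFreyW W a b) (v : RVal A) (ha : v.Wge a 0) (hb : v.Wge b 0)
    (Q : W.Point) : Q ∈ lpE1 hW v ha hb ↔ E1 v Q := Iff.rfl

/-- an affine point lies in the kernel of reduction iff its `x`-coordinate is not integral -/
theorem lp_E1_some_iff (v : RVal A) (h2 : v.w (2 : K) = 0) {x y : K} (hxy : W.Nonsingular x y) :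
    E1 v (Point.some x y hxy) ↔ ¬ v.Wge x 0 := by
  have h4 : v.Wge (4 : K) 0 := RVal.wge_of_le (fin_w_four v h2).ge
  have h40 : (4 : K) ≠ 0 := by norm_num
  constructor
  · rintro (h0 | hK)
    · exact absurd h0 (Point.some_ne_zero hxy)
    · intro hx
      rw [e1_X_some] at hK
      exact absurd ((fin_mul0 h4 hx).le hK.1) (not_le.mpr hK.2)
  · intro hx
    right
    have hx0 : x ≠ 0 := fun h0 => hx (Or.inl h0)
    have hxw : v.w x < 0 := not_le.mp fun hle => hx (Or.inr hle)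
    rw [e1_X_some]
    refine ⟨mul_ne_zero h40 hx0, ?_⟩
    rw [v.w_mul _ _ h40 hx0, fin_w_four v h2]
    linarith

/-- **good reduction**: `σ ≡ id` modulo the maximal ideal moves an integral point by an element
of the kernel of reduction -/
theorem lp_red_good (hW : IsFreyW W a b) (v : RVal A) (ha : a ≠ 0) (ha0 : v.w a = 0) (hb : b ≠ 0)
    (hb0 : v.w b = 0) (hab : a + b ≠ 0) (hab0 : v.w (a + b) = 0) (h2 : v.w (2 : K) = 0)
    (σ : K →+* K) (hσ : ∀ z, v.Wge z 0 → v.Wgt (σ z - z) 0)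
    {x y : K} (hxy : W.Nonsingular x y) (hxy' : W.Nonsingular (σ x) (σ y)) (hx : v.Wge x 0) :
    E1 v (Point.some (σ x) (σ y) hxy' - Point.some x y hxy) := by
  have hr1 : (0 : K) + a + -b = a - b := by ring
  have hr2 : (0 : K) * a + 0 * -b + a * -b = -(a * b) := by ring
  have hr3 : (0 : K) * a * -b = 0 := by ring
  have he1 : v.Wge (0 : K) 0 := RVal.wge_zero 0
  have he2 : v.Wge a 0 := RVal.wge_of_le ha0.ge
  have he3 : v.Wge (-b) 0 := (RVal.wge_of_le hb0.ge).neg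
  have hy : v.Wge y 0 := fin_wge_y hW v hr1 hr2 hr3 he1 he2 he3 h2 hxy.1 hx
  by_cases hne : Point.some (σ x) (σ y) hxy' = Point.some x y hxy
  · rw [hne, sub_self]
    exact Or.inl rfl
  obtain ⟨x₃, y₃, h₃, t, hQ, hX1, hX2, hX3, hY1, hY2, hY3⟩ :=
    fin_exists_triple hW hr1 hr2 hr3 hxy hxy' hne
  have h4 : v.Wge (4 : K) 0 := RVal.wge_of_le (fin_w_four v h2).ge
  have h8 : v.Wge (8 : K) 0 := RVal.wge_of_le (fin_w_eight v h2).ge
  have hx' : v.Wge (σ x) 0 := by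
    have := (hσ x hx).wge.add hx
    rwa [sub_add_cancel] at this
  have hD : a - 0 ≠ 0 := by simpa using ha
  have hU : (0 : K) - -b ≠ 0 := by simpa using hb
  have hU0 : v.w ((0 : K) - -b) = 0 := by simpa using hb0
  have key := LegTriple.same_red_good v (D := a - 0) (U := 0 - -b) hD (by simpa using ha0) hU hU0
    (by simpa using hab) (by simpa using hab0) two_ne_zero h2 t
    (by rw [hX1]; exact (fin_mul0 h4 hx').sub he1)
    (by rw [hX2]; exact (fin_mul0 h4 hx).sub he1)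
    (by
      rw [hX1, hX2]
      have : 4 * σ x - 0 - (4 * x - 0) = 4 * (σ x - x) := by ring
      rw [this]
      exact fin_mul_wgt0 h4 (hσ x hx))
    (by
      rw [hY1, hY2]
      have : 8 * σ y + 4 * σ x + -(8 * y + 4 * x) = 8 * (σ y - y) + 4 * (σ x - x) := by ring
      rw [this]
      exact (fin_mul_wgt0 h8 (hσ y hy)).add (fin_mul_wgt0 h4 (hσ x hx)))
  rw [hX3] at key
  have hx3 : ¬ v.Wge x₃ 0 := fin_not_wge_of_E1 v he1 h2 key
  have hE : E1 v (Point.some x₃ y₃ h₃) := (lp_E1_some_iff v h2 h₃).mpr hx3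
  rw [hQ] at hE
  have := e1_neg_mem hE
  rwa [neg_sub] at this

/-- **multiplicative reduction**: `σ ≡ id` modulo the maximal ideal moves an integral point of
class `0` by an element of the kernel of reduction -/
theorem lp_red_node (hW : IsFreyW W a b) (v : RVal A) {e₁ e₂ e₃ ω : K}
    (hr1 : e₁ + e₂ + e₃ = a - b) (hr2 : e₁ * e₂ + e₁ * e₃ + e₂ * e₃ = -(a * b))
    (hr3 : e₁ * e₂ * e₃ = 0) (h : NodeData v (e₂ - e₁) (e₁ - e₃) ω)
    (he1 : v.Wge e₁ 0) (he2 : v.Wge e₂ 0) (he3 : v.Wge e₃ 0)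
    (σ : K →+* K) (hσ : ∀ z, v.Wge z 0 → v.Wgt (σ z - z) 0)
    {x y : K} (hxy : W.Nonsingular x y) (hxy' : W.Nonsingular (σ x) (σ y)) (hx : v.Wge x 0)
    (hE : IsE v (4 * x - e₁)) :
    E1 v (Point.some (σ x) (σ y) hxy' - Point.some x y hxy) := by
  have h2 := h.two_unit
  have hy : v.Wge y 0 := fin_wge_y hW v hr1 hr2 hr3 he1 he2 he3 h2 hxy.1 hx
  by_cases hne : Point.some (σ x) (σ y) hxy' = Point.some x y hxy
  · rw [hne, sub_self]
    exact Or.inl rfl
  obtain ⟨x₃, y₃, h₃, t, hQ, hX1, hX2, hX3, hY1, hY2, hY3⟩ :=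
    fin_exists_triple hW hr1 hr2 hr3 hxy hxy' hne
  have h4 : v.Wge (4 : K) 0 := RVal.wge_of_le (fin_w_four v h2).ge
  have h8 : v.Wge (8 : K) 0 := RVal.wge_of_le (fin_w_eight v h2).ge
  have hXA : v.Wge (4 * x - e₁) 0 := (fin_mul0 h4 hx).sub he1
  have hw0 : v.w (4 * x - e₁) = 0 := le_antisymm hE.2 (hXA.le hE.1)
  have hdiff : v.Wgt (4 * σ x - e₁ - (4 * x - e₁)) 0 := by
    have : 4 * σ x - e₁ - (4 * x - e₁) = 4 * (σ x - x) := by ring
    rw [this]
    exact fin_mul_wgt0 h4 (hσ x hx)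
  have hX' : 4 * σ x - e₁ ≠ 0 ∧ v.w (4 * σ x - e₁) = 0 := by
    have := RVal.w_add_of_wgt hE.1 (by rw [hw0]; exact hdiff)
    rw [add_sub_cancel] at this
    rwa [hw0] at this
  have hYsum : v.Wgt (8 * σ y + 4 * σ x + -(8 * y + 4 * x)) 0 := by
    have : 8 * σ y + 4 * σ x + -(8 * y + 4 * x) = 8 * (σ y - y) + 4 * (σ x - x) := by ring
    rw [this]
    exact (fin_mul_wgt0 h8 (hσ y hy)).add (fin_mul_wgt0 h4 (hσ x hx))
  have key := LegTriple.same_red_node v h t (by rw [hX1]; exact hX')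
    (by rw [hX2]; exact ⟨hE.1, hw0⟩) (by rw [hX1, hX2]; exact hdiff)
    (by rw [hY1, hY2]; exact hYsum)
  rw [hX3] at key
  have hx3 : ¬ v.Wge x₃ 0 := fin_not_wge_of_E1 v he1 h2 key
  have hE' : E1 v (Point.some x₃ y₃ h₃) := (lp_E1_some_iff v h2 h₃).mpr hx3
  rw [hQ] at hE'
  have := e1_neg_mem hE'
  rwa [neg_sub] at this

end general

/-! ### The Frey curve at `p` -/

/-- the Galois action on an affine point, in coordinates -/
theorem lp_smul_some (P : FreyPackage) (σ : Qb ≃ₐ[ℚ] Qb) {x y : Qb}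
    (h : (P.freyCurve⁄Qb).Nonsingular x y) :
    ∃ h' : (P.freyCurve⁄Qb).Nonsingular ((σ : Qb →+* Qb) x) ((σ : Qb →+* Qb) y),
      σ • Point.some x y h = Point.some ((σ : Qb →+* Qb) x) ((σ : Qb →+* Qb) y) h' :=
  ⟨(WeierstrassCurve.Affine.baseChange_nonsingular (W := P.freyCurve) (f := σ.toAlgHom)
      σ.injective x y).mpr h, Point.map_some (W' := P.freyCurve) (f := σ.toAlgHom) h⟩

/-- the Galois action fixes the zero point -/
theorem lp_smul_zero (P : FreyPackage) (σ : Qb ≃ₐ[ℚ] Qb) :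
    σ • (0 : (P.freyCurve⁄Qb).Point) = 0 := rfl

/-- **WP-P, deliverable 1**: the filtration `E1 ≤ E0` of the points of the Frey curve at a place
`A` over `p`, with `(σ - 1) E ⊆ E0` and `(σ - 1) E0 ⊆ E1` for `σ` in the inertia subgroup, where
`E1` is the kernel of reduction (`x ∉ A`). -/
theorem lp_local (P : FreyPackage) (A : ValuationSubring Qb) (hA : A.LiesOverPrime P.p) :
    ∃ E0 E1 : AddSubgroup (P.freyCurve⁄Qb).Point, E1 ≤ E0 ∧
      (∀ (x y : Qb) (h : (P.freyCurve⁄Qb).Nonsingular x y), Point.some x y h ∈ E1 ↔ x ∉ A) ∧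
      (∀ σ ∈ A.inertiaSubgroupIn ℚ, ∀ Q : (P.freyCurve⁄Qb).Point, σ • Q - Q ∈ E0) ∧
      (∀ σ ∈ A.inertiaSubgroupIn ℚ, ∀ Q ∈ E0, σ • Q - Q ∈ E1) := by
  have hp2 : P.p ≠ 2 := by have := P.hp5; omega
  obtain ⟨v, hv⟩ : ∃ v : RVal A, v = rvalOf A P.pp hA := ⟨_, rfl⟩
  have hvq : 0 < v.w (P.p : Qb) := by rw [hv, rvalOf_q]; exact one_pos
  have hvu : ∀ n : ℤ, ¬ (P.p : ℤ) ∣ n → v.w (n : Qb) = 0 := fun n hn => by
    rw [hv]; exact rvalOf_intCast A P.pp hA hn
  have hvσ : ∀ σ : Qb ≃ₐ[ℚ] Qb, σ ∈ A.inertiaSubgroupIn ℚ → ∀ x, v.w (σ x) = v.w x :=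
    fun σ hσ x => by rw [hv]; exact rvalOf_apply_inertia A P.pp hA hσ x
  have h2 : v.w (2 : Qb) = 0 := frey_w_two v P.pp hp2 hvu
  have hW := frey_isFreyW P
  have haI : v.Wge ((P.a : Qb) ^ P.p) 0 := by simpa using frey_wge_int v (P.a ^ P.p)
  have hbI : v.Wge ((P.b : Qb) ^ P.p) 0 := by simpa using frey_wge_int v (P.b ^ P.p)
  -- the kernel of reduction
  have hmemE1 : ∀ (x y : Qb) (h : (P.freyCurve⁄Qb).Nonsingular x y),
      Point.some x y h ∈ lpE1 hW v haI hbI ↔ x ∉ A := by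
    intro x y h
    rw [lp_mem_E1, lp_E1_some_iff v h2 h, RVal.mem_iff_wge (v := v)]
  -- inertia preserves the kernel of reduction
  have hE1σ : ∀ σ ∈ A.inertiaSubgroupIn ℚ, ∀ (x y : Qb) (h : (P.freyCurve⁄Qb).Nonsingular x y),
      x ∉ A → σ • Point.some x y h - Point.some x y h ∈ lpE1 hW v haI hbI := by
    intro σ hσ x y h hx
    obtain ⟨h', e⟩ := lp_smul_some P σ h
    rw [e]
    refine sub_mem ((hmemE1 _ _ h').mpr ?_) ((hmemE1 _ _ h).mpr hx)
    intro hσx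
    apply hx
    have := (inertia_mem A σ⁻¹ (inv_mem hσ) _ hσx).1
    have e' : σ⁻¹ ((σ : Qb →+* Qb) x) = x := σ.symm_apply_apply x
    rwa [e'] at this
  rcases frey_cases P P.pp hp2 v hvq hvu with ⟨ha0, hb0, hab0⟩ | ⟨e₁, e₂, e₃, d, ω, hloc, hd, hnode, hDd⟩
  · -- good reduction
    refine ⟨⊤, lpE1 hW v haI hbI, le_top, hmemE1, fun _ _ _ => AddSubgroup.mem_top _, ?_⟩
    intro σ hσ Q _
    rcases Q with _ | ⟨x, y, hxy⟩
    · have : σ • (0 : (P.freyCurve⁄Qb).Point) - 0 = 0 := by rw [lp_smul_zero, sub_zero]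
      exact this ▸ zero_mem _
    · by_cases hx : x ∈ A
      · obtain ⟨h', e⟩ := lp_smul_some P σ hxy
        rw [e, lp_mem_E1]
        exact lp_red_good hW v (frey_a_ne P) ha0 (frey_b_ne P) hb0 (frey_ab_ne P) hab0 h2
          (σ : Qb →+* Qb) (frey_sigma_wgt v hσ) hxy h' (RVal.mem_iff_wge.mp hx)
      · exact hE1σ σ hσ x y hxy hx
  · -- multiplicative reduction
    have he1 : v.Wge (e₁ : Qb) 0 := frey_wge_int v e₁
    have he2 : v.Wge (e₂ : Qb) 0 := frey_wge_int v e₂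
    have he3 : v.Wge (e₃ : Qb) 0 := frey_wge_int v e₃
    have hr1 := hloc.rcn.sum
    have hr2 := hloc.rcn.pair
    have hr3 := hloc.rcn.prod
    -- the class is invariant under inertia
    have hcσ : ∀ σ ∈ A.inertiaSubgroupIn ℚ, ∀ Q : (P.freyCurve⁄Qb).Point,
        cpt v (e₁ : Qb) ((e₂ : Qb) - e₁) ω (σ • Q) = cpt v (e₁ : Qb) ((e₂ : Qb) - e₁) ω Q := by
      intro σ hσ Q
      rcases Q with _ | ⟨x, y, hxy⟩
      · exact congrArg _ (lp_smul_zero P σ)
      · obtain ⟨h', e⟩ := lp_smul_some P σ hxy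
        rw [e, cpt_some, cpt_some]
        have e1 : 4 * (σ : Qb →+* Qb) x - (e₁ : Qb) = (σ : Qb →+* Qb) (4 * x - (e₁ : Qb)) := by
          rw [map_sub, map_mul, map_ofNat, map_intCast]
        have e2 : 8 * (σ : Qb →+* Qb) y + 4 * (σ : Qb →+* Qb) x
            = (σ : Qb →+* Qb) (8 * y + 4 * x) := by
          rw [map_add, map_mul, map_mul, map_ofNat, map_ofNat]
        rw [e1, e2]
        exact lp_cval_map v (σ : Qb →+* Qb) (hvσ σ hσ) (hloc.sigma_ω (frey_sigma_mem hσ)) _ _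
    refine ⟨lpE0 hW v hr1 hr2 hr3 hnode, lpE1 hW v haI hbI, ?_, hmemE1, ?_, ?_⟩
    · -- `E1 ≤ E0`
      intro Q hQ
      rw [lp_mem_E0]
      rcases Q with _ | ⟨x, y, hxy⟩
      · rfl
      · rw [lp_mem_E1] at hQ
        rcases hQ with h0 | hK
        · exact absurd h0 (Point.some_ne_zero hxy)
        · rw [e1_X_some] at hK
          rw [cpt_some]
          have := RVal.w_sub_of_wgt hK.1 (he1.wgt_of_lt hK.2)
          exact cval_of_isE ⟨this.1, by rw [this.2]; exact hK.2.le⟩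
    · -- `(σ - 1) E ⊆ E0`
      intro σ hσ Q
      rw [lp_mem_E0]
      obtain ⟨k₁, hk₁⟩ := cpt_add hW v hr1 hr2 hr3 hnode (σ • Q) (-Q)
      obtain ⟨k₂, hk₂⟩ := cpt_neg hW v hr1 hr2 hr3 hnode Q
      rw [hk₂, hcσ σ hσ Q] at hk₁
      have hr := lp_cpt_range v (e₁ : Qb) hnode (σ • Q - Q)
      have hsub : σ • Q - Q = σ • Q + -Q := sub_eq_add_neg _ _
      rw [hsub] at hr ⊢
      refine lp_int_aux hnode.D_pos (k := k₁ + k₂) ?_ hr.1 hr.2
      rw [hk₁]
      push_cast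
      ring
    · -- `(σ - 1) E0 ⊆ E1`
      intro σ hσ Q hQ
      rw [lp_mem_E0] at hQ
      rcases Q with _ | ⟨x, y, hxy⟩
      · have : σ • (0 : (P.freyCurve⁄Qb).Point) - 0 = 0 := by rw [lp_smul_zero, sub_zero]
        exact this ▸ zero_mem _
      · by_cases hx : x ∈ A
        · rw [cpt_some] at hQ
          have hE : IsE v (4 * x - (e₁ : Qb)) := (node_cval_eq_zero_iff v hnode).mp hQ
          obtain ⟨h', e⟩ := lp_smul_some P σ hxy
          rw [e, lp_mem_E1]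
          exact lp_red_node hW v hr1 hr2 hr3 hnode he1 he2 he3 (σ : Qb →+* Qb)
            (frey_sigma_wgt v hσ) hxy h' (RVal.mem_iff_wge.mp hx) hE
        · exact hE1σ σ hσ x y hxy hx

end Fermat.Agent.LP
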