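/-
S13 support (helper9): the Frey curve is an elliptic curve (`Δ = (a b c)^(2p) / 2^8 ≠ 0`),
over `ℚ` and after base change to `ℚ̄`.
-/
import Mathlib
import Fermat.Prelude.Def_FLTPrelim_FreyPackage

set_option autoImplicit false

namespace Fermat.Agent.N2

open WeierstrassCurve

/-- the discriminant of the Frey curve -/
theorem frey_disc (P : FreyPackage) :
    P.freyCurve.Δ = ((P.a : ℚ) ^ P.p) ^ 2 * ((P.b : ℚ) ^ P.p) ^ 2 * ((P.c : ℚ) ^ P.p) ^ 2 / 256 := by
  have hC : (P.c : ℚ) ^ P.p = (P.a : ℚ) ^ P.p + (P.b : ℚ) ^ P.p := by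
    exact_mod_cast (congrArg (Int.cast : ℤ → ℚ) P.hFLT).symm
  rw [hC]
  simp only [WeierstrassCurve.Δ, WeierstrassCurve.b₂, WeierstrassCurve.b₄, WeierstrassCurve.b₆,
    WeierstrassCurve.b₈, FreyPackage.freyCurve]
  ring

theorem frey_disc_ne (P : FreyPackage) : P.freyCurve.Δ ≠ 0 := by
  rw [frey_disc]
  have ha : (P.a : ℚ) ≠ 0 := Int.cast_ne_zero.mpr P.ha0
  have hb : (P.b : ℚ) ≠ 0 := Int.cast_ne_zero.mpr P.hb0
  have hc : (P.c : ℚ) ≠ 0 := Int.cast_ne_zero.mpr P.hc0
  positivity

/-- the Frey curve is an elliptic curve over `ℚ` -/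
theorem frey_isElliptic_rat (P : FreyPackage) : P.freyCurve.IsElliptic :=
  ⟨(frey_disc_ne P).isUnit⟩

/-- the base change of the Frey curve to any field extension of `ℚ` is an elliptic curve -/
theorem frey_isElliptic_of (P : FreyPackage) (K : Type*) [Field K] [Algebra ℚ K] :
    (P.freyCurve⁄K).IsElliptic := by
  have := frey_isElliptic_rat P
  exact inferInstanceAs ((P.freyCurve.map (algebraMap ℚ K)).IsElliptic)

/-- the base change of the Frey curve to `ℚ̄` is an elliptic curve -/
theorem frey_isElliptic (P : FreyPackage) : (P.freyCurve⁄(AlgebraicClosure ℚ)).IsElliptic :=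
  frey_isElliptic_of P (AlgebraicClosure ℚ)

/-- on the Frey curve over `ℚ̄`, every point of the affine equation is nonsingular -/
theorem frey_nonsingular_of_equation (P : FreyPackage) {x y : AlgebraicClosure ℚ}
    (h : (P.freyCurve⁄(AlgebraicClosure ℚ)).toAffine.Equation x y) :
    (P.freyCurve⁄(AlgebraicClosure ℚ)).toAffine.Nonsingular x y := by
  have := frey_isElliptic P
  exact (WeierstrassCurve.Affine.equation_iff_nonsingular).mp h

end Fermat.Agent.N2

namespace Fermat.Agent.N2

open WeierstrassCurve WeierstrassCurve.Affine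

/-- `frey_isElliptic` for the affine base change `P.freyCurve⁄ℚ̄` (the curve whose points form
the Galois module of the Prelude) -/
theorem frey_isElliptic_affine (P : FreyPackage) :
    (P.freyCurve⁄(AlgebraicClosure ℚ)).IsElliptic :=
  frey_isElliptic P

/-- on the Frey curve over `ℚ̄`, every point of the affine equation is nonsingular -/
theorem frey_nonsingular_iff (P : FreyPackage) {x y : AlgebraicClosure ℚ} :
    (P.freyCurve⁄(AlgebraicClosure ℚ)).Equation x y ↔
      (P.freyCurve⁄(AlgebraicClosure ℚ)).Nonsingular x y := by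
  have := frey_isElliptic_affine P
  exact WeierstrassCurve.Affine.equation_iff_nonsingular

example (P : FreyPackage) : (P.freyCurve⁄(AlgebraicClosure ℚ)).IsElliptic := by
  have := frey_isElliptic_affine P
  infer_instance

end Fermat.Agent.N2
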