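import Mathlib

set_option autoImplicit false

namespace Fermat.Agent.T51

/-- The fixed field of `Gal(ℚ̄/ℚ)` is `ℚ`. -/
theorem fixed_rat (x : AlgebraicClosure ℚ)
    (h : ∀ σ : AlgebraicClosure ℚ ≃ₐ[ℚ] AlgebraicClosure ℚ, σ x = x) :
    ∃ q : ℚ, algebraMap ℚ (AlgebraicClosure ℚ) q = x := by
  have h1 : IsAlgClosure ℚ (AlgebraicClosure ℚ) := ⟨inferInstance, AlgebraicClosure.isAlgebraic ℚ⟩
  have h2 : IsGalois ℚ (AlgebraicClosure ℚ) := IsAlgClosure.isGalois ℚ (AlgebraicClosure ℚ)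
  exact (InfiniteGalois.mem_range_algebraMap_iff_fixed (k := ℚ) (K := AlgebraicClosure ℚ) x).mpr h

/-- Symmetric functions of a Galois-stable pair are rational. -/
theorem fixed_rat_pair (x₁ x₂ : AlgebraicClosure ℚ)
    (h : ∀ σ : AlgebraicClosure ℚ ≃ₐ[ℚ] AlgebraicClosure ℚ,
      (σ x₁ = x₁ ∧ σ x₂ = x₂) ∨ (σ x₁ = x₂ ∧ σ x₂ = x₁)) :
    ∃ s t : ℚ, algebraMap ℚ (AlgebraicClosure ℚ) s = x₁ + x₂ ∧
      algebraMap ℚ (AlgebraicClosure ℚ) t = x₁ * x₂ := by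
  obtain ⟨s, hs⟩ := fixed_rat (x₁ + x₂) (fun σ => by
    rcases h σ with ⟨h1, h2⟩ | ⟨h1, h2⟩
    · rw [map_add, h1, h2]
    · rw [map_add, h1, h2, add_comm])
  obtain ⟨t, ht⟩ := fixed_rat (x₁ * x₂) (fun σ => by
    rcases h σ with ⟨h1, h2⟩ | ⟨h1, h2⟩
    · rw [map_mul, h1, h2]
    · rw [map_mul, h1, h2, mul_comm])
  exact ⟨s, t, hs, ht⟩

end Fermat.Agent.T51
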