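import Fermat.Agent.Lib.LP_Local
import Fermat.Agent.Lib.T51_Fixed
import Fermat.Agent.Lib.N2_Ell

set_option autoImplicit false

/-!
# S13, WP-P (helper4): a stable line excludes "all of `E[p]` in the kernel of reduction"

`lp_ss_core` : let `Φ ∈ ℚ̄[X]` have integer coefficients, degree `p² - 1`, leading coefficient
`c²` with `p ∥ c`, and let its roots be exactly the `x`-coordinates of the nonzero `p`-torsion
points of the Frey curve. If there are at most `p²` torsion points and `N` is a Galois-stable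
subgroup of `p`-torsion points with `N ≠ 0`, `N ≠ E[p]`, then some nonzero `p`-torsion point has
an `x`-coordinate in `A` (`A` a valuation subring over `p`).

Proof: otherwise every root `ρ` has `w ρ < 0`. The products of the distinct `x`-coordinates of
`N ∖ 0` and of `E[p] ∖ N` are rational with negative valuation, hence of valuation `≤ -1` each;
`Φ` has at most `(p² - 1)/2` distinct roots, so some root is multiple, and
`w (Φ 0) = 2 + ∑ mult · w ρ < 2 - 1 - 1 = 0`, contradicting `Φ 0 ∈ ℤ`.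
-/

namespace Fermat.Agent.LP

open WeierstrassCurve WeierstrassCurve.Affine Fermat.Agent.F5 Polynomial

local notation "Qb" => AlgebraicClosure ℚ

section val

variable {K : Type*} [Field K] {A : ValuationSubring K}

/-- valuation of a product of nonzero elements over a multiset -/
theorem lp_w_multiset_prod (v : RVal A) (M : Multiset K) (h : ∀ x ∈ M, x ≠ 0) :
    M.prod ≠ 0 ∧ v.w M.prod = (M.map v.w).sum := by
  induction M using Multiset.induction_on with
  | empty => simp [v.w_one]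
  | cons a M ih =>
    have ha : a ≠ 0 := h a (Multiset.mem_cons_self a M)
    obtain ⟨h1, h2⟩ := ih (fun x hx => h x (Multiset.mem_cons_of_mem hx))
    rw [Multiset.prod_cons, Multiset.map_cons, Multiset.sum_cons]
    exact ⟨mul_ne_zero ha h1, by rw [v.w_mul _ _ ha h1, h2]⟩

/-- valuation of a product of nonzero elements over a finset -/
theorem lp_w_finset_prod (v : RVal A) (T : Finset K) (h : ∀ x ∈ T, x ≠ 0) :
    ∏ x ∈ T, x ≠ 0 ∧ v.w (∏ x ∈ T, x) = ∑ x ∈ T, v.w x := by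
  have h1 := lp_w_multiset_prod v T.val (fun x hx => h x (Finset.mem_val.mp hx))
  have e1 : ∏ x ∈ T, x = T.val.prod := by
    rw [Finset.prod_eq_multiset_prod, Multiset.map_id']
  have e2 : ∑ x ∈ T, v.w x = (T.val.map v.w).sum := Finset.sum_eq_multiset_sum T v.w
  rw [e1, e2]
  exact h1

end val

/-- the valuation of a nonzero rational number is an integer -/
theorem lp_w_rat (A : ValuationSubring Qb) {q : ℕ} (hq : q.Prime) (hA : A.LiesOverPrime q)
    (r : ℚ) (hr : r ≠ 0) : ∃ m : ℤ, (rvalOf A hq hA).w (algebraMap ℚ Qb r) = m := by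
  obtain ⟨m, hm⟩ := val_ratCast_exists hq hA r hr
  refine ⟨m, ?_⟩
  have e : algebraMap ℚ Qb r = (r : Qb) := eq_ratCast _ r
  have h1 : A.valuation (r : Qb) ^ 1 = A.valuation (q : Qb) ^ m := by rw [pow_one]; exact hm
  rw [e, rvalOf_w, wr, wq_eq hq hA one_pos h1]
  simp

/-- the product of a Galois-stable finite set is Galois-invariant -/
theorem lp_prod_fixed (T : Finset Qb) (σ : Qb ≃ₐ[ℚ] Qb) (h : ∀ ρ ∈ T, σ ρ ∈ T) :
    σ (∏ ρ ∈ T, ρ) = ∏ ρ ∈ T, ρ := by
  classical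
  have himg : T.image σ = T :=
    Finset.eq_of_subset_of_card_le (Finset.image_subset_iff.mpr h)
      (by rw [Finset.card_image_of_injective _ σ.injective])
  rw [map_prod]
  have h1 := Finset.prod_image (s := T) (g := (σ : Qb → Qb)) (f := fun x => x)
    (fun _ _ _ _ hxy => σ.injective hxy)
  rw [himg] at h1
  exact h1.symm

/-- a nonempty Galois-stable finite set of elements of negative valuation has total valuation
`≤ -1` -/
theorem lp_sum_le_neg_one (A : ValuationSubring Qb) {q : ℕ} (hq : q.Prime)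
    (hA : A.LiesOverPrime q) (T : Finset Qb) (hT : T.Nonempty)
    (hneg : ∀ ρ ∈ T, ρ ≠ 0 ∧ (rvalOf A hq hA).w ρ < 0)
    (hG : ∀ σ : Qb ≃ₐ[ℚ] Qb, ∀ ρ ∈ T, σ ρ ∈ T) :
    ∑ ρ ∈ T, (rvalOf A hq hA).w ρ ≤ -1 := by
  obtain ⟨hne, hw⟩ := lp_w_finset_prod (rvalOf A hq hA) T (fun x hx => (hneg x hx).1)
  obtain ⟨r, hr⟩ := T51.fixed_rat (∏ ρ ∈ T, ρ) (fun σ => lp_prod_fixed T σ (hG σ))
  have hr0 : r ≠ 0 := by
    rintro rfl
    rw [map_zero] at hr
    exact hne hr.symm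
  obtain ⟨m, hm⟩ := lp_w_rat A hq hA r hr0
  rw [hr, hw] at hm
  have hlt : ∑ ρ ∈ T, (rvalOf A hq hA).w ρ < 0 :=
    Finset.sum_neg (fun ρ hρ => (hneg ρ hρ).2) hT
  rw [hm] at hlt ⊢
  have h1 : m < 0 := by exact_mod_cast hlt
  have h2 : m ≤ -1 := by omega
  exact_mod_cast h2

/-! ### Points of the Frey curve -/

/-- the `x`-coordinate of a point (`0` at the origin) -/
def lpX {K : Type*} [Field K] {W : WeierstrassCurve.Affine K} : W.Point → K
  | .zero => 0
  | .some x _ _ => x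

/-- over `ℚ̄` every `x` is the `x`-coordinate of a point of the Frey curve -/
theorem lp_exists_y (P : FreyPackage) (x : Qb) : ∃ y : Qb, (P.freyCurve⁄Qb).Equation x y := by
  have hW := frey_isFreyW P
  obtain ⟨Y, hY⟩ := IsAlgClosed.exists_pow_nat_eq
    ((4 * x) * (4 * x - (P.a : Qb) ^ P.p) * (4 * x + (P.b : Qb) ^ P.p)) (n := 2) (by norm_num)
  refine ⟨(Y - 4 * x) / 8, ?_⟩
  rw [WeierstrassCurve.Affine.equation_iff, hW.a1, hW.a2, hW.a3, hW.a4, hW.a6]
  field_simp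
  linear_combination 64 * hY

/-- the Galois action commutes with multiples -/
theorem lp_smul_nsmul (P : FreyPackage) (σ : Qb ≃ₐ[ℚ] Qb) (n : ℕ)
    (Q : (P.freyCurve⁄Qb).Point) : σ • (n • Q) = n • (σ • Q) :=
  map_nsmul (Point.map (W' := P.freyCurve) σ.toAlgHom) n Q

/-- **the core of `lp_ss`**, with the torsion polynomial `Φ` as a hypothesis -/
theorem lp_ss_core (P : FreyPackage) (A : ValuationSubring Qb) (hA : A.LiesOverPrime P.p)
    (Φ : Qb[X]) (g : ℤ[X]) (hΦ : Φ = g.map (Int.castRingHom Qb)) (c : ℤ)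
    (hdeg : Φ.natDegree = P.p ^ 2 - 1) (hlc : Φ.leadingCoeff = (c : Qb) ^ 2)
    (hc : ∃ m : ℤ, c = (P.p : ℤ) * m ∧ ¬ (P.p : ℤ) ∣ m)
    (hroot : ∀ (x y : Qb) (h : (P.freyCurve⁄Qb).Nonsingular x y),
      P.p • Point.some x y h = 0 → Φ.eval x = 0)
    (hconv : ∀ (x y : Qb) (h : (P.freyCurve⁄Qb).Nonsingular x y),
      Φ.eval x = 0 → P.p • Point.some x y h = 0)
    (hV : ∃ T : Finset (P.freyCurve⁄Qb).Point, (∀ Q, P.p • Q = 0 → Q ∈ T) ∧ T.card ≤ P.p ^ 2)
    (N : AddSubgroup (P.freyCurve⁄Qb).Point) (hNV : ∀ Q ∈ N, P.p • Q = 0)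
    (hNG : ∀ σ : Qb ≃ₐ[ℚ] Qb, ∀ Q ∈ N, σ • Q ∈ N) (hN0 : ∃ Q ∈ N, Q ≠ 0)
    (hN1 : ∃ Q : (P.freyCurve⁄Qb).Point, P.p • Q = 0 ∧ Q ∉ N) :
    ∃ (x y : Qb) (h : (P.freyCurve⁄Qb).Nonsingular x y),
      P.p • Point.some x y h = 0 ∧ x ∈ A := by
  classical
  by_contra hcon
  have H : ∀ (x y : Qb) (h : (P.freyCurve⁄Qb).Nonsingular x y),
      P.p • Point.some x y h = 0 → x ∉ A := fun x y h hP hx => hcon ⟨x, y, h, hP, hx⟩
  obtain ⟨v, hv⟩ : ∃ v : RVal A, v = rvalOf A P.pp hA := ⟨_, rfl⟩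
  have hp5 := P.hp5
  have hp25 : 25 ≤ P.p ^ 2 := by nlinarith
  have hΦ0 : Φ ≠ 0 := by
    intro h0
    rw [h0, natDegree_zero] at hdeg
    omega
  -- every root is the `x`-coordinate of a torsion point
  have hrt : ∀ ρ : Qb, Φ.eval ρ = 0 →
      ∃ (y : Qb) (h : (P.freyCurve⁄Qb).Nonsingular ρ y), P.p • Point.some ρ y h = 0 := by
    intro ρ hρ
    obtain ⟨y, hy⟩ := lp_exists_y P ρ
    have h := (N2.frey_nonsingular_iff P).mp hy
    exact ⟨y, h, hconv ρ y h hρ⟩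
  -- ... and has negative valuation
  have hneg : ∀ ρ : Qb, Φ.eval ρ = 0 → ρ ≠ 0 ∧ v.w ρ < 0 := by
    intro ρ hρ
    obtain ⟨y, h, hP⟩ := hrt ρ hρ
    have hx := H ρ y h hP
    rw [RVal.mem_iff_wge (v := v)] at hx
    exact ⟨fun h0 => hx (Or.inl h0), not_le.mp fun hle => hx (Or.inr hle)⟩
  -- the roots are Galois-stable
  have hσroot : ∀ (σ : Qb ≃ₐ[ℚ] Qb) (ρ : Qb), Φ.eval ρ = 0 → Φ.eval (σ ρ) = 0 := by
    intro σ ρ hρ
    obtain ⟨y, h, hP⟩ := hrt ρ hρ
    obtain ⟨h', e⟩ := lp_smul_some P σ h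
    have h0 : P.p • (σ • Point.some ρ y h) = 0 := by
      rw [← lp_smul_nsmul, hP, lp_smul_zero]
    rw [e] at h0
    exact hroot _ _ h' h0
  -- the finite set of roots, split along `N`
  obtain ⟨R, hR⟩ : ∃ R : Multiset Qb, R = Φ.roots := ⟨_, rfl⟩
  obtain ⟨S, hSdef⟩ : ∃ S : Finset Qb, S = R.toFinset := ⟨_, rfl⟩
  have hS : ∀ ρ : Qb, ρ ∈ S ↔ Φ.eval ρ = 0 := by
    intro ρ
    rw [hSdef, Multiset.mem_toFinset, hR, mem_roots hΦ0, IsRoot.def]
  let pN : Qb → Prop := fun ρ =>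
    ∃ (y : Qb) (h : (P.freyCurve⁄Qb).Nonsingular ρ y), Point.some ρ y h ∈ N
  have hSNne : (S.filter pN).Nonempty := by
    obtain ⟨Q, hQN, hQ0⟩ := hN0
    rcases Q with _ | ⟨x, y, h⟩
    · exact absurd rfl hQ0
    · exact ⟨x, Finset.mem_filter.mpr ⟨(hS x).mpr (hroot x y h (hNV _ hQN)), y, h, hQN⟩⟩
  have hSMne : (S.filter (fun ρ => ¬ pN ρ)).Nonempty := by
    obtain ⟨Q, hQp, hQN⟩ := hN1
    rcases Q with _ | ⟨x, y, h⟩
    · exact absurd N.zero_mem hQN
    · refine ⟨x, Finset.mem_filter.mpr ⟨(hS x).mpr (hroot x y h hQp), ?_⟩⟩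
      rintro ⟨y', h', hN'⟩
      rcases Y_eq_of_X_eq h'.1 h.1 rfl with rfl | rfl
      · exact hQN hN'
      · have e : Point.some x ((P.freyCurve⁄Qb).negY x y) h' = -Point.some x y h :=
          (Point.neg_some h).symm
        rw [e] at hN'
        exact hQN (neg_mem_iff.mp hN')
  have hSNG : ∀ σ : Qb ≃ₐ[ℚ] Qb, ∀ ρ ∈ S.filter pN, σ ρ ∈ S.filter pN := by
    intro σ ρ hρ
    obtain ⟨hρS, y, h, hN'⟩ := Finset.mem_filter.mp hρ
    obtain ⟨h', e⟩ := lp_smul_some P σ h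
    have hmem := hNG σ _ hN'
    rw [e] at hmem
    exact Finset.mem_filter.mpr ⟨(hS _).mpr (hroot _ _ h' (hNV _ hmem)), _, h', hmem⟩
  have hSMG : ∀ σ : Qb ≃ₐ[ℚ] Qb, ∀ ρ ∈ S.filter (fun ρ => ¬ pN ρ),
      σ ρ ∈ S.filter (fun ρ => ¬ pN ρ) := by
    intro σ ρ hρ
    obtain ⟨hρS, hnp⟩ := Finset.mem_filter.mp hρ
    refine Finset.mem_filter.mpr ⟨(hS _).mpr (hσroot σ ρ ((hS ρ).mp hρS)), ?_⟩
    rintro ⟨y', h', hN'⟩
    apply hnp
    obtain ⟨h'', e⟩ := lp_smul_some P σ⁻¹ h'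
    have hmem := hNG σ⁻¹ _ hN'
    rw [e] at hmem
    have e1 : ((σ⁻¹ : Qb ≃ₐ[ℚ] Qb) : Qb →+* Qb) (σ ρ) = ρ := σ.symm_apply_apply ρ
    have key : ∀ (x' : Qb) (_ : x' = ρ) (y'' : Qb) (h₀ : (P.freyCurve⁄Qb).Nonsingular x' y''),
        Point.some x' y'' h₀ ∈ N → pN ρ := by
      rintro x' rfl y'' h₀ hm
      exact ⟨_, h₀, hm⟩
    exact key _ e1 _ h'' hmem
  have hsum : ∑ ρ ∈ S, v.w ρ ≤ -2 := by
    have h1 : ∑ ρ ∈ S.filter pN, v.w ρ ≤ -1 := by
      rw [hv]
      refine lp_sum_le_neg_one A P.pp hA _ hSNne (fun ρ hρ => ?_) hSNG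
      rw [← hv]
      exact hneg ρ ((hS ρ).mp (Finset.mem_filter.mp hρ).1)
    have h2 : ∑ ρ ∈ S.filter (fun ρ => ¬ pN ρ), v.w ρ ≤ -1 := by
      rw [hv]
      refine lp_sum_le_neg_one A P.pp hA _ hSMne (fun ρ hρ => ?_) hSMG
      rw [← hv]
      exact hneg ρ ((hS ρ).mp (Finset.mem_filter.mp hρ).1)
    rw [← Finset.sum_filter_add_sum_filter_not S pN]
    linarith
  -- counting: at most `(p² - 1)/2` distinct roots
  obtain ⟨T, hT, hTc⟩ := hV
  have hcount : 2 * S.card ≤ P.p ^ 2 - 1 := by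
    obtain ⟨s, hs⟩ : ∃ s : Finset (P.freyCurve⁄Qb).Point,
        s = T.filter (fun Q => Q ≠ 0 ∧ P.p • Q = 0) := ⟨_, rfl⟩
    have hmaps : ∀ Q ∈ s, lpX Q ∈ S := by
      intro Q hQ
      rw [hs] at hQ
      obtain ⟨_, hQ0, hQp⟩ := Finset.mem_filter.mp hQ
      rcases Q with _ | ⟨x, y, h⟩
      · exact absurd rfl hQ0
      · exact (hS x).mpr (hroot x y h hQp)
    have hfib : ∀ ρ ∈ S, 2 ≤ (s.filter (fun Q => lpX Q = ρ)).card := by
      intro ρ hρ
      obtain ⟨y, h, hP⟩ := hrt ρ ((hS ρ).mp hρ)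
      have hne : Point.some ρ y h ≠ -Point.some ρ y h := by
        intro he
        have h2 : 2 • Point.some ρ y h = 0 := by
          have : Point.some ρ y h + Point.some ρ y h = 0 := by
            nth_rewrite 2 [he]
            exact add_neg_cancel _
          rw [two_nsmul]
          exact this
        obtain ⟨k, hk⟩ := P.hp_odd
        have h3 : P.p • Point.some ρ y h = Point.some ρ y h := by
          rw [hk, add_nsmul, one_nsmul, mul_nsmul, h2, nsmul_zero, zero_add]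
        rw [hP] at h3
        exact Point.some_ne_zero h h3.symm
      have hP' : P.p • (-Point.some ρ y h) = 0 := by rw [neg_nsmul, hP, neg_zero]
      have hsub : ({Point.some ρ y h, -Point.some ρ y h} : Finset (P.freyCurve⁄Qb).Point) ⊆
          s.filter (fun Q => lpX Q = ρ) := by
        intro Q hQ
        rw [Finset.mem_insert, Finset.mem_singleton] at hQ
        rcases hQ with rfl | rfl
        · rw [hs]
          exact Finset.mem_filter.mpr
            ⟨Finset.mem_filter.mpr ⟨hT _ hP, Point.some_ne_zero h, hP⟩, rfl⟩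
        · rw [hs]
          refine Finset.mem_filter.mpr ⟨Finset.mem_filter.mpr
            ⟨hT _ hP', neg_ne_zero.mpr (Point.some_ne_zero h), hP'⟩, ?_⟩
          rw [Point.neg_some]
          rfl
      calc 2 = ({Point.some ρ y h, -Point.some ρ y h} :
            Finset (P.freyCurve⁄Qb).Point).card := (Finset.card_pair hne).symm
        _ ≤ _ := Finset.card_le_card hsub
    have h1 := Finset.mul_card_image_le_card_of_maps_to hmaps 2 hfib
    have h0T : (0 : (P.freyCurve⁄Qb).Point) ∈ T := hT 0 (nsmul_zero _)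
    have hsT : s ⊆ T.erase 0 := by
      intro Q hQ
      rw [hs] at hQ
      obtain ⟨hQT, hQ0, _⟩ := Finset.mem_filter.mp hQ
      exact Finset.mem_erase.mpr ⟨hQ0, hQT⟩
    have h2 := Finset.card_le_card hsT
    rw [Finset.card_erase_of_mem h0T] at h2
    omega
  have hRcard : R.card = P.p ^ 2 - 1 := by
    rw [hR, ← hdeg]
    exact IsAlgClosed.card_roots_eq_natDegree
  -- a multiple root
  obtain ⟨ρ₀, hρ₀S, hρ₀⟩ : ∃ ρ₀ ∈ S, 2 ≤ R.count ρ₀ := by
    by_contra hno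
    push Not at hno
    have h1 : ∑ a ∈ S, R.count a ≤ ∑ _a ∈ S, 1 :=
      Finset.sum_le_sum (fun a ha => by have := hno a ha; omega)
    rw [hSdef, Multiset.toFinset_sum_count_eq, hRcard, Finset.sum_const, smul_eq_mul, mul_one,
      ← hSdef] at h1
    omega
  have hlt : (R.map v.w).sum < ∑ ρ ∈ S, v.w ρ := by
    rw [Finset.sum_multiset_map_count, ← hSdef]
    apply Finset.sum_lt_sum
    · intro ρ hρ
      have h1 : 1 ≤ R.count ρ := Multiset.count_pos.mpr (by rw [hSdef] at hρ; exact Multiset.mem_toFinset.mp hρ)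
      have h2 := (hneg ρ ((hS ρ).mp hρ)).2
      rw [nsmul_eq_mul]
      have h3 : (1 : ℝ) ≤ R.count ρ := by exact_mod_cast h1
      nlinarith
    · refine ⟨ρ₀, hρ₀S, ?_⟩
      have h2 := (hneg ρ₀ ((hS ρ₀).mp hρ₀S)).2
      rw [nsmul_eq_mul]
      have h3 : (2 : ℝ) ≤ R.count ρ₀ := by exact_mod_cast hρ₀
      nlinarith
  -- evaluation at `0`
  have heval := (IsAlgClosed.splits Φ).eval_eq_prod_roots 0
  rw [← hR] at heval
  have hM'ne : ∀ x ∈ R.map (fun a => (0 : Qb) - a), x ≠ 0 := by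
    intro x hx
    obtain ⟨a, ha, rfl⟩ := Multiset.mem_map.mp hx
    rw [hR, mem_roots hΦ0, IsRoot.def] at ha
    have := (hneg a ha).1
    simpa using this
  obtain ⟨hprod0, hprodw⟩ := lp_w_multiset_prod v _ hM'ne
  have hmapw : ((R.map (fun a => (0 : Qb) - a)).map v.w).sum = (R.map v.w).sum := by
    rw [Multiset.map_map]
    congr 1
    refine Multiset.map_congr rfl (fun a _ => ?_)
    rw [Function.comp_apply, zero_sub, v.w_neg]
  -- the leading coefficient has valuation `2`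
  obtain ⟨m, hcm, hm⟩ := hc
  have hpK : ((P.p : ℤ) : Qb) ≠ 0 := by
    exact_mod_cast P.pp.ne_zero
  have hmK : (m : Qb) ≠ 0 := by
    intro h0
    have : m = 0 := by exact_mod_cast h0
    exact hm (this ▸ dvd_zero _)
  have hwc : v.w (c : Qb) = 1 := by
    rw [hcm, Int.cast_mul, v.w_mul _ _ hpK hmK, hv, rvalOf_intCast A P.pp hA hm, add_zero]
    have := rvalOf_q A P.pp hA
    exact_mod_cast this
  have hcK : (c : Qb) ≠ 0 := by
    rw [hcm, Int.cast_mul]
    exact mul_ne_zero hpK hmK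
  have hlc0 : Φ.leadingCoeff ≠ 0 := leadingCoeff_ne_zero.mpr hΦ0
  have hwlc : v.w Φ.leadingCoeff = 2 := by
    rw [hlc, v.w_sq hcK, hwc]
    norm_num
  have hw0 : v.w (Φ.eval 0) = 2 + (R.map v.w).sum := by
    rw [heval, v.w_mul _ _ hlc0 hprod0, hwlc, hprodw, hmapw]
  have hne0 : Φ.eval 0 ≠ 0 := by
    rw [heval]
    exact mul_ne_zero hlc0 hprod0
  have hn0 : Φ.eval 0 = ((g.eval 0 : ℤ) : Qb) := by
    rw [hΦ, eval_zero_map]
    rfl
  have hge : 0 ≤ v.w (Φ.eval 0) := by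
    rw [hn0] at hne0 ⊢
    exact frey_w_int_nonneg v hne0
  linarith

end Fermat.Agent.LP
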