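import Mathlib

/-!
# The leading coefficient of the Wronskian of `L(p·O)` (WP-T, T3, pure integer part)

`twN j` is the pole order at infinity of the `j`-th basis element of `L(p·O)`:
`0, 2, 3, 4, …`.  `twVand p` is the determinant of ascending factorials
`n_j (n_j + 1) ⋯ (n_j + i - 1)`, `i, j < p`; it equals `∏_{i<j} (n_j - n_i)` and, for a prime
`p ≥ 3`, it is `p` times an integer prime to `p`.
-/

set_option autoImplicit false

namespace Fermat.Agent.TW

open Polynomial Finset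

/-- pole orders of the monomial basis `1, x, y, x², xy, …` of the coordinate ring:
`0, 2, 3, 4, …` -/
def twN : ℕ → ℕ
  | 0 => 0
  | (j + 1) => j + 2

@[simp] theorem twN_zero : twN 0 = 0 := rfl

@[simp] theorem twN_succ (j : ℕ) : twN (j + 1) = j + 2 := rfl

theorem twN_of_pos {j : ℕ} (hj : 0 < j) : twN j = j + 1 := by
  cases j with
  | zero => omega
  | succ j => rfl

theorem twN_strictMono : StrictMono twN := by
  apply strictMono_nat_of_lt_succ
  intro n
  cases n with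
  | zero => simp
  | succ n => simp

/-- the integer matrix of ascending factorials `n_j (n_j + 1) ⋯ (n_j + i - 1)` -/
noncomputable def twVandMat (p : ℕ) : Matrix (Fin p) (Fin p) ℤ :=
  Matrix.of fun i j => (ascPochhammer ℤ (i : ℕ)).eval ((twN (j : ℕ) : ℕ) : ℤ)

/-- the leading coefficient of the Wronskian -/
noncomputable def twVand (p : ℕ) : ℤ := (twVandMat p).det

theorem twVand_eq_prod (p : ℕ) :
    twVand p = ∏ i : Fin p, ∏ j ∈ Ioi i, (((twN (j : ℕ) : ℕ) : ℤ) - ((twN (i : ℕ) : ℕ) : ℤ)) := by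
  rw [← Matrix.det_vandermonde (fun i : Fin p => ((twN (i : ℕ) : ℕ) : ℤ)),
    Matrix.det_eval_matrixOfPolynomials_eq_det_vandermonde
      (fun i : Fin p => ((twN (i : ℕ) : ℕ) : ℤ)) (fun i : Fin p => ascPochhammer ℤ (i : ℕ))
      (fun i => ascPochhammer_natDegree (S := ℤ) _) (fun i => monic_ascPochhammer ℤ _),
    twVand, ← Matrix.det_transpose]
  rfl

/-- for a prime `p ≥ 3` the integer `twVand p` is exactly divisible by `p` -/
theorem twVand_spec {p : ℕ} (hp : p.Prime) (h3 : 3 ≤ p) :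
    ∃ m : ℤ, twVand p = (p : ℤ) * m ∧ ¬ (p : ℤ) ∣ m := by
  have hp0 : 0 < p := hp.pos
  have hpZ : Prime (p : ℤ) := Nat.prime_iff_prime_int.mp hp
  rw [twVand_eq_prod, Finset.prod_sigma']
  set i₀ : Fin p := ⟨0, hp0⟩ with hi₀
  set j₀ : Fin p := ⟨p - 1, by omega⟩ with hj₀
  set s : Finset ((_ : Fin p) × Fin p) := (Finset.univ : Finset (Fin p)).sigma fun i => Ioi i
    with hs
  have hmem : (⟨i₀, j₀⟩ : (_ : Fin p) × Fin p) ∈ s := by
    rw [hs, Finset.mem_sigma]
    refine ⟨Finset.mem_univ _, ?_⟩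
    rw [Finset.mem_Ioi, Fin.lt_def]
    show 0 < p - 1
    omega
  refine ⟨∏ x ∈ s.erase ⟨i₀, j₀⟩, (((twN (x.2 : ℕ) : ℕ) : ℤ) - ((twN (x.1 : ℕ) : ℕ) : ℤ)),
    ?_, ?_⟩
  · rw [← Finset.mul_prod_erase s _ hmem]
    congr 1
    show ((twN (p - 1) : ℕ) : ℤ) - ((twN 0 : ℕ) : ℤ) = (p : ℤ)
    rw [twN_of_pos (by omega : 0 < p - 1), twN_zero]
    have : p - 1 + 1 = p := by omega
    rw [this]; simp
  · intro hdvd
    obtain ⟨x, hx, hxd⟩ := (Prime.dvd_finsetProd_iff hpZ _).mp hdvd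
    obtain ⟨i, j⟩ := x
    rw [Finset.mem_erase, hs, Finset.mem_sigma, Finset.mem_Ioi, Fin.lt_def] at hx
    obtain ⟨hne, -, hij⟩ := hx
    have hi : (i : ℕ) < p := i.2
    have hj : (j : ℕ) < p := j.2
    simp only at hxd hij
    by_cases hi0 : (i : ℕ) = 0
    · -- `i = 0`, `j ≠ p - 1`
      have hjne : (j : ℕ) ≠ p - 1 := by
        intro h
        apply hne
        have h1 : i = i₀ := Fin.ext hi0
        have h2 : j = j₀ := Fin.ext h
        rw [h1, h2]
      rw [hi0, twN_zero, twN_of_pos (by omega : 0 < (j : ℕ))] at hxd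
      have h1 : (p : ℤ) ∣ (((j : ℕ) + 1 : ℕ) : ℤ) := by simpa using hxd
      have h2 : p ∣ (j : ℕ) + 1 := Int.natCast_dvd_natCast.mp h1
      have h3 := Nat.le_of_dvd (by omega) h2
      omega
    · rw [twN_of_pos (by omega : 0 < (i : ℕ)), twN_of_pos (by omega : 0 < (j : ℕ))] at hxd
      have h1 : (p : ℤ) ∣ (((j : ℕ) - (i : ℕ) : ℕ) : ℤ) := by
        have e : ((((j : ℕ) - (i : ℕ) : ℕ)) : ℤ)
            = ((((j : ℕ) + 1 : ℕ)) : ℤ) - ((((i : ℕ) + 1 : ℕ)) : ℤ) := by
          push_cast [Nat.cast_sub hij.le]; ring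
        rw [e]; exact hxd
      have h2 : p ∣ (j : ℕ) - (i : ℕ) := Int.natCast_dvd_natCast.mp h1
      have h3 := Nat.le_of_dvd (by omega) h2
      omega

end Fermat.Agent.TW
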