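import Fermat.Agent.Lib.LP_SSCore
import Fermat.Agent.Lib.TW_Vand

set_option autoImplicit false

/-!
# S13, WP-P (helper4): the plug of the torsion polynomial into `lp_ss_core`

`lp_ss_of_phi` : from an integer polynomial `Φ` of degree `p² - 1`, leading coefficient
`(twVand p)²`, whose roots over `ℚ̄` are exactly the `x`-coordinates of the nonzero `p`-torsion
points of the Frey curve (the statement `frey_phi` of WP-T), and from the finiteness and the
bound `p²` for the `p`-torsion (`hfin`, `hcard` of `a13_main`), the hypothesis `hSS` of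
`a13_main`.
-/

namespace Fermat.Agent.LP

open WeierstrassCurve WeierstrassCurve.Affine Polynomial

local notation "Qb" => AlgebraicClosure ℚ

/-- a finite set containing all `p`-torsion points, of cardinality `≤ p²`, from finiteness and
the cardinality bound for `torsionBy`. -/
theorem lp_torsion_finset (P : FreyPackage)
    (hfin : Finite (Submodule.torsionBy ℤ (P.freyCurve⁄Qb).Point (P.p : ℤ)))
    (hcard : Nat.card (Submodule.torsionBy ℤ (P.freyCurve⁄Qb).Point (P.p : ℤ)) ≤ P.p ^ 2) :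
    ∃ T : Finset (P.freyCurve⁄Qb).Point, (∀ Q, P.p • Q = 0 → Q ∈ T) ∧ T.card ≤ P.p ^ 2 := by
  classical
  have : Fintype (Submodule.torsionBy ℤ (P.freyCurve⁄Qb).Point (P.p : ℤ)) := Fintype.ofFinite _
  refine ⟨(Finset.univ : Finset (Submodule.torsionBy ℤ (P.freyCurve⁄Qb).Point (P.p : ℤ))).image
    Subtype.val, ?_, ?_⟩
  · intro Q hQ
    rw [Finset.mem_image]
    have hmem : Q ∈ Submodule.torsionBy ℤ (P.freyCurve⁄Qb).Point (P.p : ℤ) := by
      rw [Submodule.mem_torsionBy_iff, natCast_zsmul]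
      exact hQ
    exact ⟨⟨Q, hmem⟩, Finset.mem_univ _, rfl⟩
  · refine le_trans Finset.card_image_le ?_
    rw [Finset.card_univ, ← Nat.card_eq_fintype_card]
    exact hcard

/-- **the supersingular exclusion from the torsion polynomial** (`hSS` of `a13_main` from the
statement `frey_phi` of WP-T). -/
theorem lp_ss_of_phi (P : FreyPackage)
    (hphi : ∃ Φ : ℤ[X], Φ.natDegree = P.p ^ 2 - 1 ∧
      Φ.leadingCoeff = (Fermat.Agent.TW.twVand P.p) ^ 2 ∧
      ∀ (x y : Qb) (h : (P.freyCurve⁄Qb).Nonsingular x y),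
        P.p • Point.some x y h = 0 ↔ (Φ.map (Int.castRingHom Qb)).eval x = 0)
    (hfin : Finite (Submodule.torsionBy ℤ (P.freyCurve⁄Qb).Point (P.p : ℤ)))
    (hcard : Nat.card (Submodule.torsionBy ℤ (P.freyCurve⁄Qb).Point (P.p : ℤ)) ≤ P.p ^ 2)
    (A : ValuationSubring Qb) (hA : A.LiesOverPrime P.p)
    (N : AddSubgroup (P.freyCurve⁄Qb).Point) (hNV : ∀ Q ∈ N, P.p • Q = 0)
    (hNG : ∀ σ : Qb ≃ₐ[ℚ] Qb, ∀ Q ∈ N, σ • Q ∈ N) (hN0 : ∃ Q ∈ N, Q ≠ 0)
    (hN1 : ∃ Q : (P.freyCurve⁄Qb).Point, P.p • Q = 0 ∧ Q ∉ N) :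
    ∃ (x y : Qb) (h : (P.freyCurve⁄Qb).Nonsingular x y),
      P.p • Point.some x y h = 0 ∧ x ∈ A := by
  obtain ⟨g, hdeg, hlc, hiff⟩ := hphi
  have hp5 := P.hp5
  have hp25 : 25 ≤ P.p ^ 2 := by nlinarith
  have hinj : Function.Injective (Int.castRingHom Qb) := (Int.castRingHom Qb).injective_int
  have hΦdeg : (g.map (Int.castRingHom Qb)).natDegree = P.p ^ 2 - 1 := by
    rw [natDegree_map_eq_of_injective hinj, hdeg]
  have hΦlc : (g.map (Int.castRingHom Qb)).leadingCoeff
      = ((Fermat.Agent.TW.twVand P.p : ℤ) : Qb) ^ 2 := by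
    rw [leadingCoeff_map_of_injective hinj, hlc]
    simp
  have hroot : ∀ (x y : Qb) (h : (P.freyCurve⁄Qb).Nonsingular x y),
      P.p • Point.some x y h = 0 → (g.map (Int.castRingHom Qb)).eval x = 0 :=
    fun x y h hP => (hiff x y h).1 hP
  have hconv : ∀ (x y : Qb) (h : (P.freyCurve⁄Qb).Nonsingular x y),
      (g.map (Int.castRingHom Qb)).eval x = 0 → P.p • Point.some x y h = 0 :=
    fun x y h hx => (hiff x y h).2 hx
  exact lp_ss_core P A hA (g.map (Int.castRingHom Qb)) g rfl (Fermat.Agent.TW.twVand P.p)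
    hΦdeg hΦlc (Fermat.Agent.TW.twVand_spec P.pp (by omega)) hroot hconv
    (lp_torsion_finset P hfin hcard) N hNV hNG hN0 hN1

end Fermat.Agent.LP
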