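/-
S41 (level raising), stream S3: the abstract congruence-module theorem.

`LR.lr_core`: two lattices `A`, `B` with commuting actions of a ring `R`, maps `α : A → B`,
`β : B → A` adjoint for integral pairings (unimodular on `B`, nondegenerate on `A`), an
"Ihara" hypothesis for `α` at a maximal ideal `𝔪 ∋ p` and the failure of `β ∘ α` to be onto
at `𝔪` force `𝔪` into the support of `ker β` (annihilator form).
-/
import Mathlib

set_option autoImplicit false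
set_option linter.style.haveILetI false

namespace LR

section Sat

variable {B : Type*} [AddCommGroup B]

/-- the saturation of a `ℤ`-submodule -/
def lrSat (S : Submodule ℤ B) : Submodule ℤ B where
  carrier := {b | ∃ m : ℤ, m ≠ 0 ∧ m • b ∈ S}
  add_mem' := by
    rintro x y ⟨m, hm, hx⟩ ⟨n, hn, hy⟩
    refine ⟨m * n, mul_ne_zero hm hn, ?_⟩
    have h1 : (m * n) • (x + y) = n • (m • x) + m • (n • y) := by
      rw [smul_add, mul_smul, mul_smul, smul_comm m n x]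
    rw [h1]
    exact S.add_mem (S.smul_mem n hx) (S.smul_mem m hy)
  zero_mem' := ⟨1, one_ne_zero, by simp⟩
  smul_mem' := by
    rintro c x ⟨m, hm, hx⟩
    exact ⟨m, hm, by rw [smul_comm]; exact S.smul_mem c hx⟩

theorem lrSat_mem {S : Submodule ℤ B} {b : B} :
    b ∈ lrSat S ↔ ∃ m : ℤ, m ≠ 0 ∧ m • b ∈ S := Iff.rfl

theorem lrSat_le (S : Submodule ℤ B) : S ≤ lrSat S :=
  fun b hb => ⟨1, one_ne_zero, by simpa using hb⟩

theorem lrSat_quot_tf (S : Submodule ℤ B) : Module.IsTorsionFree ℤ (B ⧸ lrSat S) := by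
  apply Module.IsTorsionFree.of_smul_eq_zero
  intro r m hrm
  obtain ⟨b, rfl⟩ := Submodule.Quotient.mk_surjective _ m
  by_cases hr : r = 0
  · exact Or.inl hr
  right
  rw [← Submodule.Quotient.mk_smul, Submodule.Quotient.mk_eq_zero] at hrm
  obtain ⟨n, hn, hnb⟩ := hrm
  rw [Submodule.Quotient.mk_eq_zero]
  exact ⟨n * r, mul_ne_zero hn hr, by rw [mul_smul]; exact hnb⟩

variable [Module.Finite ℤ B]

/-- a functional vanishing on the saturation and not at a given point outside it -/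
theorem lrSat_sep (S : Submodule ℤ B) {b : B} (hb : b ∉ lrSat S) :
    ∃ φ : B →ₗ[ℤ] ℤ, (∀ x ∈ lrSat S, φ x = 0) ∧ φ b ≠ 0 := by
  haveI := lrSat_quot_tf S
  haveI : Module.Free ℤ (B ⧸ lrSat S) := Module.free_of_finite_type_torsion_free'
  have hne : (Submodule.Quotient.mk b : B ⧸ lrSat S) ≠ 0 := by
    rw [Ne, Submodule.Quotient.mk_eq_zero]; exact hb
  obtain ⟨ψ, hψ⟩ := Module.Projective.exists_dual_ne_zero ℤ hne
  refine ⟨ψ ∘ₗ (lrSat S).mkQ, fun x hx => ?_, hψ⟩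
  have : (lrSat S).mkQ x = 0 := by
    rw [Submodule.mkQ_apply, Submodule.Quotient.mk_eq_zero]; exact hx
  rw [LinearMap.comp_apply, this, map_zero]

/-- functionals on the saturation extend to the whole lattice -/
theorem lrSat_ext (S : Submodule ℤ B) (ψ : lrSat S →ₗ[ℤ] ℤ) :
    ∃ φ : B →ₗ[ℤ] ℤ, ∀ (x : B) (hx : x ∈ lrSat S), φ x = ψ ⟨x, hx⟩ := by
  haveI := lrSat_quot_tf S
  haveI : Module.Free ℤ (B ⧸ lrSat S) := Module.free_of_finite_type_torsion_free'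
  obtain ⟨σ, hσ⟩ := Module.projective_lifting_property (lrSat S).mkQ
    (LinearMap.id : (B ⧸ lrSat S) →ₗ[ℤ] (B ⧸ lrSat S)) (Submodule.mkQ_surjective _)
  have hπ : ∀ b : B, (LinearMap.id - σ ∘ₗ (lrSat S).mkQ : B →ₗ[ℤ] B) b ∈ lrSat S := by
    intro b
    rw [← Submodule.Quotient.mk_eq_zero, LinearMap.sub_apply, Submodule.Quotient.mk_sub,
      LinearMap.comp_apply, LinearMap.id_apply]
    have h1 : (lrSat S).mkQ (σ ((lrSat S).mkQ b)) = (lrSat S).mkQ b := by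
      have := congrArg (fun f : (B ⧸ lrSat S) →ₗ[ℤ] (B ⧸ lrSat S) => f ((lrSat S).mkQ b)) hσ
      simpa using this
    have h2 : (Submodule.Quotient.mk (σ ((lrSat S).mkQ b)) : B ⧸ lrSat S)
        = Submodule.Quotient.mk b := h1
    rw [h2, sub_self]
  refine ⟨ψ ∘ₗ (LinearMap.codRestrict (lrSat S)
    (LinearMap.id - σ ∘ₗ (lrSat S).mkQ : B →ₗ[ℤ] B) hπ), ?_⟩
  intro x hx
  rw [LinearMap.comp_apply]
  congr 1
  apply Subtype.ext
  rw [LinearMap.codRestrict_apply]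
  have h0 : (lrSat S).mkQ x = 0 := by
    rw [Submodule.mkQ_apply, Submodule.Quotient.mk_eq_zero]; exact hx
  rw [LinearMap.sub_apply, LinearMap.comp_apply, h0, map_zero, LinearMap.id_apply, sub_zero]

/-- the saturation has finite exponent over the submodule -/
theorem lrSat_exp (S : Submodule ℤ B) :
    ∃ M : ℕ, M ≠ 0 ∧ ∀ x ∈ lrSat S, (M : ℤ) • x ∈ S := by
  classical
  have hfg : (lrSat S).FG := IsNoetherian.noetherian (lrSat S)
  obtain ⟨t, ht⟩ := hfg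
  have hex : ∀ g : B, ∃ m : ℤ, m ≠ 0 ∧ (g ∈ lrSat S → m • g ∈ S) := by
    intro g
    by_cases hg : g ∈ lrSat S
    · obtain ⟨m, hm, hmg⟩ := hg
      exact ⟨m, hm, fun _ => hmg⟩
    · exact ⟨1, one_ne_zero, fun h => absurd h hg⟩
  choose f hf0 hf using hex
  refine ⟨∏ g ∈ t, (f g).natAbs, ?_, ?_⟩
  · rw [Finset.prod_ne_zero_iff]
    intro g _
    exact Int.natAbs_ne_zero.mpr (hf0 g)
  · intro x hx
    rw [← ht] at hx
    refine Submodule.span_induction (p := fun x _ => ((∏ g ∈ t, (f g).natAbs : ℕ) : ℤ) • x ∈ S)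
      ?_ ?_ ?_ ?_ hx
    · intro g hg
      have hgS : g ∈ lrSat S := by rw [← ht]; exact Submodule.subset_span hg
      have hdvd : (f g) ∣ ((∏ g ∈ t, (f g).natAbs : ℕ) : ℤ) := by
        have h1 : (f g).natAbs ∣ ∏ g ∈ t, (f g).natAbs := Finset.dvd_prod_of_mem _ hg
        exact Int.natAbs_dvd.mp (Int.natCast_dvd_natCast.mpr h1)
      obtain ⟨c, hc⟩ := hdvd
      rw [hc, mul_comm, mul_smul]
      exact S.smul_mem c (hf g hgS)
    · simp
    · intro x y _ _ hx hy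
      rw [smul_add]; exact S.add_mem hx hy
    · intro c x _ hx
      rw [smul_comm]; exact S.smul_mem c hx

end Sat

section Core

variable {R : Type*} [CommRing R] (𝔪 : Ideal R) [h𝔪 : 𝔪.IsMaximal]
variable {A B : Type*} [AddCommGroup A] [Module R A] [AddCommGroup B] [Module R B]
variable [Module.Finite ℤ A] [Module.Free ℤ B] [Module.Finite ℤ B]

omit h𝔪 [Module.Finite ℤ A] [Module.Finite ℤ B] in
/-- iterating the Ihara hypothesis -/
theorem lr_ihara_pow (p : ℕ) (hp : p.Prime) (α : A →ₗ[R] B) (s : R)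
    (hIh : ∀ (a : A) (w : B), α a = (p : ℤ) • w → ∃ a' : A, s • a = (p : ℤ) • a') :
    ∀ (k : ℕ) (b : B) (a : A), α a = ((p : ℤ) ^ k) • b → ∃ a' : A, α a' = s ^ k • b := by
  intro k
  induction k with
  | zero =>
    intro b a h
    exact ⟨a, by simpa using h⟩
  | succ k ih =>
    intro b a h
    have h1 : α a = (p : ℤ) • (((p : ℤ) ^ k) • b) := by
      rw [h, pow_succ, mul_comm, mul_smul]
    obtain ⟨a₁, ha₁⟩ := hIh a _ h1
    have hp0 : (p : ℤ) ≠ 0 := by exact_mod_cast hp.ne_zero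
    have h2 : (p : ℤ) • α a₁ = (p : ℤ) • (((p : ℤ) ^ k) • (s • b)) := by
      have h3 : α (s • a) = α ((p : ℤ) • a₁) := by rw [ha₁]
      rw [map_smul, map_zsmul, h1] at h3
      rw [← h3, smul_comm s (p : ℤ), smul_comm s ((p : ℤ) ^ k)]
    have h4 : α a₁ = ((p : ℤ) ^ k) • (s • b) := smul_right_injective B hp0 h2
    obtain ⟨a', ha'⟩ := ih (s • b) a₁ h4
    exact ⟨a', by rw [ha', pow_succ, mul_smul]⟩

/-- **The congruence-module theorem** (annihilator form). -/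
theorem lr_core (p : ℕ) (hp : p.Prime) (hp𝔪 : (p : R) ∈ 𝔪)
    (α : A →ₗ[R] B) (β : B →ₗ[R] A)
    (bA : A →ₗ[ℤ] A →ₗ[ℤ] ℤ) (bB : B →ₗ[ℤ] B →ₗ[ℤ] ℤ)
    (hbA : ∀ y : A, (∀ x, bA x y = 0) → y = 0)
    (hbB : ∀ φ : B →ₗ[ℤ] ℤ, ∃ w : B, ∀ b, bB b w = φ b)
    (sadjA : ∀ (r : R) (x y : A), bA (r • x) y = bA x (r • y))
    (sadjB : ∀ (r : R) (x y : B), bB (r • x) y = bB x (r • y))
    (adj : ∀ (a : A) (b : B), bB (α a) b = bA a (β b))
    (s : R) (hs : s ∉ 𝔪)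
    (hIh : ∀ (a : A) (w : B), α a = (p : ℤ) • w → ∃ a' : A, s • a = (p : ℤ) • a')
    (hD : ∀ u : R, (∀ a : A, ∃ a' : A, β (α a') = u • a) → u ∈ 𝔪) :
    ∀ r : R, (∀ w : B, β w = 0 → r • w = 0) → r ∈ 𝔪 := by
  classical
  intro r hr
  by_contra hr𝔪
  have hprime : 𝔪.IsPrime := h𝔪.isPrime
  have hp0 : (p : ℤ) ≠ 0 := by exact_mod_cast hp.ne_zero
  -- the image lattice and its saturation
  set S : Submodule ℤ B := LinearMap.range (α.restrictScalars ℤ) with hS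
  have hSmem : ∀ b : B, b ∈ S ↔ ∃ a, α a = b := fun b => by
    rw [hS, LinearMap.mem_range]; rfl
  -- Step A: `r • b` lies in the saturation
  have stepA : ∀ b : B, r • b ∈ lrSat S := by
    intro b
    by_contra hb
    obtain ⟨φ, hφ0, hφb⟩ := lrSat_sep S hb
    obtain ⟨w, hw⟩ := hbB φ
    have hβw : β w = 0 := by
      apply hbA
      intro a
      rw [← adj, hw]
      exact hφ0 _ (lrSat_le S ((hSmem _).2 ⟨a, rfl⟩))
    apply hφb
    rw [← hw, sadjB, hr w hβw, map_zero]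
  -- Step B: a uniform element outside `𝔪` pushing the saturation into the image
  obtain ⟨M, hM0, hM⟩ := lrSat_exp S
  obtain ⟨k, m', hm', hMeq⟩ := Nat.exists_eq_pow_mul_and_not_dvd hM0 p hp.ne_one
  set u₀ : R := s ^ k * (m' : R) with hu₀
  have hm'𝔪 : (m' : R) ∉ 𝔪 := by
    intro hmem
    have hcop : IsCoprime (p : ℤ) (m' : ℤ) :=
      Nat.isCoprime_iff_coprime.mpr ((Nat.Prime.coprime_iff_not_dvd hp).mpr hm')
    obtain ⟨x, y, hxy⟩ := hcop
    have h1 : ((x * p + y * m' : ℤ) : R) = 1 := by rw [hxy]; simp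
    have h2 : ((x * p + y * m' : ℤ) : R) ∈ 𝔪 := by
      push_cast
      exact 𝔪.add_mem (𝔪.mul_mem_left _ hp𝔪) (𝔪.mul_mem_left _ hmem)
    rw [h1] at h2
    exact (Ideal.ne_top_iff_one 𝔪).1 hprime.ne_top h2
  have hu₀𝔪 : u₀ ∉ 𝔪 := by
    intro h
    rcases hprime.mem_or_mem h with h | h
    · exact hs (hprime.mem_of_pow_mem k h)
    · exact hm'𝔪 h
  have stepB : ∀ x ∈ lrSat S, ∃ a : A, α a = u₀ • x := by
    intro x hx
    obtain ⟨a, ha⟩ := (hSmem _).1 (hM x hx)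
    have h1 : α a = ((p : ℤ) ^ k) • ((m' : ℤ) • x) := by
      rw [ha, hMeq, ← mul_smul]; push_cast; rfl
    obtain ⟨a', ha'⟩ := lr_ihara_pow p hp α s hIh k _ a h1
    refine ⟨a', ?_⟩
    rw [ha', hu₀, mul_smul, Nat.cast_smul_eq_nsmul R, Nat.cast_smul_eq_nsmul ℤ]
  -- Step C: the kernel of `α` is killed by an element outside `𝔪`
  have hKfg : (LinearMap.ker α).FG := by
    haveI : IsNoetherian ℤ A := isNoetherian_of_isNoetherianRing_of_finite ℤ A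
    haveI : IsNoetherian R A := isNoetherian_of_tower ℤ inferInstance
    exact IsNoetherian.noetherian _
  have hKle : LinearMap.ker α ≤ 𝔪 • LinearMap.ker α := by
    intro a ha
    rw [LinearMap.mem_ker] at ha
    obtain ⟨a', ha'⟩ := hIh a 0 (by rw [ha, smul_zero])
    have ha'K : a' ∈ LinearMap.ker α := by
      rw [LinearMap.mem_ker]
      have h1 : (p : ℤ) • α a' = 0 := by
        rw [← map_zsmul, ← ha', map_smul, ha, smul_zero]
      exact (smul_eq_zero_iff_right hp0).mp h1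
    obtain ⟨t, i, hi, hti⟩ := h𝔪.exists_inv hs
    have h2 : a = i • a + (t * (p : R)) • a' := by
      have h3 : (t * (p : R)) • a' = t • (s • a) := by
        rw [ha', mul_smul, Nat.cast_smul_eq_nsmul R, Nat.cast_smul_eq_nsmul ℤ]
      rw [h3, ← mul_smul, ← add_smul, add_comm, hti, one_smul]
    rw [h2]
    exact Submodule.add_mem _ (Submodule.smul_mem_smul hi (LinearMap.mem_ker.mpr ha))
      (Submodule.smul_mem_smul (𝔪.mul_mem_left _ hp𝔪) ha'K)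
  obtain ⟨v₁, hv₁, hv₁K⟩ :=
    Submodule.exists_sub_one_mem_and_smul_eq_zero_of_fg_of_le_smul 𝔪 _ hKfg hKle
  have hv₁𝔪 : v₁ ∉ 𝔪 := by
    intro h
    have : (1 : R) ∈ 𝔪 := by
      have := 𝔪.sub_mem h hv₁
      simpa using this
    exact (Ideal.ne_top_iff_one 𝔪).1 hprime.ne_top this
  -- `v₁ • a` only depends on `α a`
  have hv₁dep : ∀ a a' : A, α a = α a' → v₁ • a = v₁ • a' := by
    intro a a' h
    have h1 : a - a' ∈ LinearMap.ker α := by rw [LinearMap.mem_ker, map_sub, h, sub_self]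
    have h2 := hv₁K _ h1
    rw [smul_sub, sub_eq_zero] at h2
    exact h2
  -- dual Ihara: `(u₀ * v₁) • a₀` lies in the image of `β`
  have stepC : ∀ a₀ : A, ∃ b₁ : B, β b₁ = (u₀ * v₁) • a₀ := by
    intro a₀
    choose g hg using stepB
    -- the functional on the saturation
    let ψ0 : lrSat S →+ ℤ := AddMonoidHom.mk' (fun x => bA (g x.1 x.2) (v₁ • a₀)) (by
      intro x y
      have h1 : v₁ • g (x + y).1 (x + y).2 = v₁ • (g x.1 x.2 + g y.1 y.2) := by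
        apply hv₁dep
        rw [hg, map_add, hg, hg, Submodule.coe_add, smul_add]
      have h2 : bA (g (x + y).1 (x + y).2) (v₁ • a₀) = bA (v₁ • g (x + y).1 (x + y).2) a₀ :=
        (sadjA _ _ _).symm
      have h3 : bA (g x.1 x.2) (v₁ • a₀) = bA (v₁ • g x.1 x.2) a₀ := (sadjA _ _ _).symm
      have h4 : bA (g y.1 y.2) (v₁ • a₀) = bA (v₁ • g y.1 y.2) a₀ := (sadjA _ _ _).symm
      show bA (g (x + y).1 (x + y).2) (v₁ • a₀) = bA (g x.1 x.2) (v₁ • a₀) + bA (g y.1 y.2) (v₁ • a₀)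
      rw [h2, h3, h4, h1, smul_add, map_add, LinearMap.add_apply])
    obtain ⟨φ, hφ⟩ := lrSat_ext S ψ0.toIntLinearMap
    obtain ⟨b₁, hb₁⟩ := hbB φ
    refine ⟨b₁, ?_⟩
    rw [← sub_eq_zero]
    apply hbA
    intro a
    have hαa : α a ∈ lrSat S := lrSat_le S ((hSmem _).2 ⟨a, rfl⟩)
    have h1 : bA a (β b₁) = bA (g (α a) hαa) (v₁ • a₀) := by
      rw [← adj, hb₁, hφ _ hαa]; rfl
    have h2 : v₁ • g (α a) hαa = v₁ • (u₀ • a) := by
      apply hv₁dep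
      rw [hg, map_smul]
    rw [map_sub, h1, ← sadjA, h2, sadjA, sadjA, smul_smul, sub_self]
  -- Step D
  have hfinal : (u₀ * r) * (u₀ * v₁) ∈ 𝔪 := by
    apply hD
    intro a₀
    obtain ⟨b₁, hb₁⟩ := stepC a₀
    obtain ⟨a'', ha''⟩ := stepB _ (stepA b₁)
    refine ⟨a'', ?_⟩
    rw [ha'', map_smul, map_smul, hb₁, smul_smul, smul_smul, ← mul_assoc]
  rcases hprime.mem_or_mem hfinal with h | h
  · rcases hprime.mem_or_mem h with h | h
    · exact hu₀𝔪 h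
    · exact hr𝔪 h
  · rcases hprime.mem_or_mem h with h | h
    · exact hu₀𝔪 h
    · exact hv₁𝔪 h

end Core

section Two

variable {R : Type*} [CommRing R] (𝔪 : Ideal R) [h𝔪 : 𝔪.IsMaximal]
variable {H B : Type*} [AddCommGroup H] [Module R H] [AddCommGroup B] [Module R B]

/-- the sum pairing on `H × H` -/
def lrProdForm (bH : H →ₗ[ℤ] H →ₗ[ℤ] ℤ) : (H × H) →ₗ[ℤ] (H × H) →ₗ[ℤ] ℤ :=
  bH.compl₁₂ (LinearMap.fst ℤ H H) (LinearMap.fst ℤ H H)
    + bH.compl₁₂ (LinearMap.snd ℤ H H) (LinearMap.snd ℤ H H)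

omit [Module R H] in
theorem lrProdForm_apply (bH : H →ₗ[ℤ] H →ₗ[ℤ] ℤ) (a a' : H × H) :
    lrProdForm bH a a' = bH a.1 a'.1 + bH a.2 a'.2 := rfl

/-- the "not onto at `𝔪`" hypothesis of `lr_core` from a functional killing `β ∘ α` modulo a
proper submodule `N ⊇ 𝔪 H` -/
theorem lr_two_hD (α : (H × H) →ₗ[R] B) (β : B →ₗ[R] (H × H))
    (N : Submodule R H) (hN : N ≠ ⊤) (h𝔪N : 𝔪 • (⊤ : Submodule R H) ≤ N)
    (c₁ c₂ : R) (hc : c₁ ∉ 𝔪 ∨ c₂ ∉ 𝔪)
    (hcN : ∀ a : H × H, c₁ • (β (α a)).1 + c₂ • (β (α a)).2 ∈ N) :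
    ∀ u : R, (∀ a : H × H, ∃ a', β (α a') = u • a) → u ∈ 𝔪 := by
  intro u hu
  by_contra hu𝔪
  have hprime : 𝔪.IsPrime := h𝔪.isPrime
  apply hN
  rw [eq_top_iff]
  intro x₀ _
  have key : ∀ c : R, c ∉ 𝔪 → (c * u) • x₀ ∈ N → x₀ ∈ N := by
    intro c hc' hmem
    have hcu : c * u ∉ 𝔪 := fun h => (hprime.mem_or_mem h).elim hc' hu𝔪
    obtain ⟨t, i, hi, hti⟩ := h𝔪.exists_inv hcu
    have h1 : x₀ = t • ((c * u) • x₀) + i • x₀ := by
      rw [← mul_smul, ← add_smul, hti, one_smul]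
    rw [h1]
    exact N.add_mem (N.smul_mem t hmem) (h𝔪N (Submodule.smul_mem_smul hi Submodule.mem_top))
  rcases hc with hc | hc
  · obtain ⟨a', ha'⟩ := hu (x₀, 0)
    have h1 := hcN a'
    rw [ha'] at h1
    simp only [Prod.smul_mk, smul_zero, add_zero] at h1
    rw [smul_smul] at h1
    exact key c₁ hc h1
  · obtain ⟨a', ha'⟩ := hu (0, x₀)
    have h1 := hcN a'
    rw [ha'] at h1
    simp only [Prod.smul_mk, smul_zero, zero_add] at h1
    rw [smul_smul] at h1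
    exact key c₂ hc h1

variable [Module.Finite ℤ H] [Module.Free ℤ B] [Module.Finite ℤ B]

/-- **The congruence-module theorem, two-degeneracy-maps form.** `α₁, α₂ : H → B` the two
degeneracy maps, `β₁, β₂ : B → H` their adjoints. -/
theorem lr_two (p : ℕ) (hp : p.Prime) (hp𝔪 : (p : R) ∈ 𝔪)
    (α₁ α₂ : H →ₗ[R] B) (β₁ β₂ : B →ₗ[R] H)
    (bH : H →ₗ[ℤ] H →ₗ[ℤ] ℤ) (bB : B →ₗ[ℤ] B →ₗ[ℤ] ℤ)
    (hbH : ∀ y : H, (∀ x, bH x y = 0) → y = 0)
    (hbB : ∀ φ : B →ₗ[ℤ] ℤ, ∃ w : B, ∀ b, bB b w = φ b)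
    (sadjH : ∀ (r : R) (x y : H), bH (r • x) y = bH x (r • y))
    (sadjB : ∀ (r : R) (x y : B), bB (r • x) y = bB x (r • y))
    (adj₁ : ∀ (x : H) (w : B), bB (α₁ x) w = bH x (β₁ w))
    (adj₂ : ∀ (x : H) (w : B), bB (α₂ x) w = bH x (β₂ w))
    (s : R) (hs : s ∉ 𝔪)
    (hIh : ∀ (x y : H) (w : B), α₁ x + α₂ y = (p : ℤ) • w →
      ∃ x' y' : H, s • x = (p : ℤ) • x' ∧ s • y = (p : ℤ) • y')
    (N : Submodule R H) (hN : N ≠ ⊤) (h𝔪N : 𝔪 • (⊤ : Submodule R H) ≤ N)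
    (c₁ c₂ : R) (hc : c₁ ∉ 𝔪 ∨ c₂ ∉ 𝔪)
    (hcN : ∀ x y : H, c₁ • β₁ (α₁ x + α₂ y) + c₂ • β₂ (α₁ x + α₂ y) ∈ N) :
    ∀ r : R, (∀ w : B, β₁ w = 0 → β₂ w = 0 → r • w = 0) → r ∈ 𝔪 := by
  intro r hr
  refine lr_core 𝔪 p hp hp𝔪 (α₁.coprod α₂) (β₁.prod β₂) (lrProdForm bH) bB ?_ hbB ?_ sadjB ?_
    s hs ?_ ?_ r ?_
  · rintro ⟨y₁, y₂⟩ h
    have h1 : y₁ = 0 := hbH y₁ fun x => by simpa [lrProdForm_apply] using h (x, 0)
    have h2 : y₂ = 0 := hbH y₂ fun x => by simpa [lrProdForm_apply] using h (0, x)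
    rw [h1, h2]; rfl
  · rintro t ⟨x₁, x₂⟩ ⟨y₁, y₂⟩
    simp only [lrProdForm_apply, Prod.smul_mk]
    rw [sadjH, sadjH]
  · rintro ⟨x₁, x₂⟩ w
    simp only [lrProdForm_apply, LinearMap.coprod_apply, map_add, LinearMap.add_apply]
    rw [adj₁, adj₂]
    rfl
  · rintro ⟨x, y⟩ w h
    rw [LinearMap.coprod_apply] at h
    obtain ⟨x', y', hx', hy'⟩ := hIh x y w h
    exact ⟨(x', y'), by simp only [Prod.smul_mk, hx', hy']⟩
  · apply lr_two_hD 𝔪 (α₁.coprod α₂) (β₁.prod β₂) N hN h𝔪N c₁ c₂ hc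
    rintro ⟨x, y⟩
    have := hcN x y
    simpa [LinearMap.coprod_apply] using this
  · intro w hw
    have hw' : (β₁ w, β₂ w) = 0 := hw
    rw [Prod.mk_eq_zero] at hw'
    exact hr w hw'.1 hw'.2

end Two

end LR
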