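/-
S41 (level raising), stream S3: the congruence-module theorem `LR.lr_core` / `LR.lr_two` with
the unimodularity of the pairing on `B` relaxed to "unimodular up to an integer prime to `p`"
(the pairing delivered by the duality stream is twice the cup product).
-/
import Fermat.Agent.Lib.LR_Alg

set_option autoImplicit false
set_option linter.style.haveILetI false

namespace LR

section Core

variable {R : Type*} [CommRing R] (𝔪 : Ideal R) [h𝔪 : 𝔪.IsMaximal]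
variable {A B : Type*} [AddCommGroup A] [Module R A] [AddCommGroup B] [Module R B]
variable [Module.Finite ℤ A] [Module.Free ℤ B] [Module.Finite ℤ B]

/-- **The congruence-module theorem** (annihilator form). -/
theorem lr_core2 (p : ℕ) (hp : p.Prime) (hp𝔪 : (p : R) ∈ 𝔪)
    (α : A →ₗ[R] B) (β : B →ₗ[R] A)
    (bA : A →ₗ[ℤ] A →ₗ[ℤ] ℤ) (bB : B →ₗ[ℤ] B →ₗ[ℤ] ℤ)
    (hbA : ∀ y : A, (∀ x, bA x y = 0) → y = 0)
    (c : ℤ) (hc : ¬ (p : ℤ) ∣ c)
    (hbB : ∀ φ : B →ₗ[ℤ] ℤ, ∃ w : B, ∀ b, bB b w = c * φ b)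
    (sadjA : ∀ (r : R) (x y : A), bA (r • x) y = bA x (r • y))
    (sadjB : ∀ (r : R) (x y : B), bB (r • x) y = bB x (r • y))
    (adj : ∀ (a : A) (b : B), bB (α a) b = bA a (β b))
    (s : R) (hs : s ∉ 𝔪)
    (hIh : ∀ (a : A) (w : B), α a = (p : ℤ) • w → ∃ a' : A, s • a = (p : ℤ) • a')
    (hD : ∀ u : R, (∀ a : A, ∃ a' : A, β (α a') = u • a) → u ∈ 𝔪) :
    ∀ r : R, (∀ w : B, β w = 0 → r • w = 0) → r ∈ 𝔪 := by
  classical
  intro r hr
  by_contra hr𝔪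
  have hprime : 𝔪.IsPrime := h𝔪.isPrime
  have hp0 : (p : ℤ) ≠ 0 := by exact_mod_cast hp.ne_zero
  have hc0 : c ≠ 0 := by
    rintro rfl
    exact hc (dvd_zero _)
  have hc𝔪 : (c : R) ∉ 𝔪 := by
    intro hmem
    have hcop : IsCoprime (p : ℤ) c :=
      (Nat.prime_iff_prime_int.mp hp).irreducible.coprime_iff_not_dvd.mpr hc
    obtain ⟨x, y, hxy⟩ := hcop
    have h1 : ((x * p + y * c : ℤ) : R) = 1 := by rw [hxy]; simp
    have h2 : ((x * p + y * c : ℤ) : R) ∈ 𝔪 := by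
      push_cast
      exact 𝔪.add_mem (𝔪.mul_mem_left _ hp𝔪) (𝔪.mul_mem_left _ hmem)
    rw [h1] at h2
    exact (Ideal.ne_top_iff_one 𝔪).1 hprime.ne_top h2
  -- the image lattice and its saturation
  set S : Submodule ℤ B := LinearMap.range (α.restrictScalars ℤ) with hS
  have hSmem : ∀ b : B, b ∈ S ↔ ∃ a, α a = b := fun b => by
    rw [hS, LinearMap.mem_range]; rfl
  -- Step A: `r • b` lies in the saturation
  have stepA : ∀ b : B, r • b ∈ lrSat S := by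
    intro b
    by_contra hb
    obtain ⟨φ, hφ0, hφb⟩ := lrSat_sep S hb
    obtain ⟨w, hw⟩ := hbB φ
    have hβw : β w = 0 := by
      apply hbA
      intro a
      rw [← adj, hw, hφ0 _ (lrSat_le S ((hSmem _).2 ⟨a, rfl⟩)), mul_zero]
    apply hφb
    have h1 : c * φ (r • b) = 0 := by
      rw [← hw, sadjB, hr w hβw, map_zero]
    exact (mul_eq_zero.mp h1).resolve_left hc0
  -- Step B: a uniform element outside `𝔪` pushing the saturation into the image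
  obtain ⟨M, hM0, hM⟩ := lrSat_exp S
  obtain ⟨k, m', hm', hMeq⟩ := Nat.exists_eq_pow_mul_and_not_dvd hM0 p hp.ne_one
  set u₀ : R := s ^ k * (m' : R) with hu₀
  have hm'𝔪 : (m' : R) ∉ 𝔪 := by
    intro hmem
    have hcop : IsCoprime (p : ℤ) (m' : ℤ) :=
      Nat.isCoprime_iff_coprime.mpr ((Nat.Prime.coprime_iff_not_dvd hp).mpr hm')
    obtain ⟨x, y, hxy⟩ := hcop
    have h1 : ((x * p + y * m' : ℤ) : R) = 1 := by rw [hxy]; simp
    have h2 : ((x * p + y * m' : ℤ) : R) ∈ 𝔪 := by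
      push_cast
      exact 𝔪.add_mem (𝔪.mul_mem_left _ hp𝔪) (𝔪.mul_mem_left _ hmem)
    rw [h1] at h2
    exact (Ideal.ne_top_iff_one 𝔪).1 hprime.ne_top h2
  have hu₀𝔪 : u₀ ∉ 𝔪 := by
    intro h
    rcases hprime.mem_or_mem h with h | h
    · exact hs (hprime.mem_of_pow_mem k h)
    · exact hm'𝔪 h
  have stepB : ∀ x ∈ lrSat S, ∃ a : A, α a = u₀ • x := by
    intro x hx
    obtain ⟨a, ha⟩ := (hSmem _).1 (hM x hx)
    have h1 : α a = ((p : ℤ) ^ k) • ((m' : ℤ) • x) := by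
      rw [ha, hMeq, ← mul_smul]; push_cast; rfl
    obtain ⟨a', ha'⟩ := lr_ihara_pow p hp α s hIh k _ a h1
    refine ⟨a', ?_⟩
    rw [ha', hu₀, mul_smul, Nat.cast_smul_eq_nsmul R, Nat.cast_smul_eq_nsmul ℤ]
  -- Step C: the kernel of `α` is killed by an element outside `𝔪`
  have hKfg : (LinearMap.ker α).FG := by
    haveI : IsNoetherian ℤ A := isNoetherian_of_isNoetherianRing_of_finite ℤ A
    haveI : IsNoetherian R A := isNoetherian_of_tower ℤ inferInstance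
    exact IsNoetherian.noetherian _
  have hKle : LinearMap.ker α ≤ 𝔪 • LinearMap.ker α := by
    intro a ha
    rw [LinearMap.mem_ker] at ha
    obtain ⟨a', ha'⟩ := hIh a 0 (by rw [ha, smul_zero])
    have ha'K : a' ∈ LinearMap.ker α := by
      rw [LinearMap.mem_ker]
      have h1 : (p : ℤ) • α a' = 0 := by
        rw [← map_zsmul, ← ha', map_smul, ha, smul_zero]
      exact (smul_eq_zero_iff_right hp0).mp h1
    obtain ⟨t, i, hi, hti⟩ := h𝔪.exists_inv hs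
    have h2 : a = i • a + (t * (p : R)) • a' := by
      have h3 : (t * (p : R)) • a' = t • (s • a) := by
        rw [ha', mul_smul, Nat.cast_smul_eq_nsmul R, Nat.cast_smul_eq_nsmul ℤ]
      rw [h3, ← mul_smul, ← add_smul, add_comm, hti, one_smul]
    rw [h2]
    exact Submodule.add_mem _ (Submodule.smul_mem_smul hi (LinearMap.mem_ker.mpr ha))
      (Submodule.smul_mem_smul (𝔪.mul_mem_left _ hp𝔪) ha'K)
  obtain ⟨v₁, hv₁, hv₁K⟩ :=
    Submodule.exists_sub_one_mem_and_smul_eq_zero_of_fg_of_le_smul 𝔪 _ hKfg hKle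
  have hv₁𝔪 : v₁ ∉ 𝔪 := by
    intro h
    have : (1 : R) ∈ 𝔪 := by
      have := 𝔪.sub_mem h hv₁
      simpa using this
    exact (Ideal.ne_top_iff_one 𝔪).1 hprime.ne_top this
  -- `v₁ • a` only depends on `α a`
  have hv₁dep : ∀ a a' : A, α a = α a' → v₁ • a = v₁ • a' := by
    intro a a' h
    have h1 : a - a' ∈ LinearMap.ker α := by rw [LinearMap.mem_ker, map_sub, h, sub_self]
    have h2 := hv₁K _ h1
    rw [smul_sub, sub_eq_zero] at h2
    exact h2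
  -- dual Ihara: `(u₀ * v₁) • a₀` lies in the image of `β`
  have stepC : ∀ a₀ : A, ∃ b₁ : B, β b₁ = ((c : R) * (u₀ * v₁)) • a₀ := by
    intro a₀
    choose g hg using stepB
    -- the functional on the saturation
    let ψ0 : lrSat S →+ ℤ := AddMonoidHom.mk' (fun x => bA (g x.1 x.2) (v₁ • a₀)) (by
      intro x y
      have h1 : v₁ • g (x + y).1 (x + y).2 = v₁ • (g x.1 x.2 + g y.1 y.2) := by
        apply hv₁dep
        rw [hg, map_add, hg, hg, Submodule.coe_add, smul_add]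
      have h2 : bA (g (x + y).1 (x + y).2) (v₁ • a₀) = bA (v₁ • g (x + y).1 (x + y).2) a₀ :=
        (sadjA _ _ _).symm
      have h3 : bA (g x.1 x.2) (v₁ • a₀) = bA (v₁ • g x.1 x.2) a₀ := (sadjA _ _ _).symm
      have h4 : bA (g y.1 y.2) (v₁ • a₀) = bA (v₁ • g y.1 y.2) a₀ := (sadjA _ _ _).symm
      show bA (g (x + y).1 (x + y).2) (v₁ • a₀) = bA (g x.1 x.2) (v₁ • a₀) + bA (g y.1 y.2) (v₁ • a₀)
      rw [h2, h3, h4, h1, smul_add, map_add, LinearMap.add_apply])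
    obtain ⟨φ, hφ⟩ := lrSat_ext S ψ0.toIntLinearMap
    obtain ⟨b₁, hb₁⟩ := hbB φ
    refine ⟨b₁, ?_⟩
    rw [← sub_eq_zero]
    apply hbA
    intro a
    have hαa : α a ∈ lrSat S := lrSat_le S ((hSmem _).2 ⟨a, rfl⟩)
    have h1 : bA a (β b₁) = c * bA (g (α a) hαa) (v₁ • a₀) := by
      rw [← adj, hb₁, hφ _ hαa]; rfl
    have h2 : v₁ • g (α a) hαa = v₁ • (u₀ • a) := by
      apply hv₁dep
      rw [hg, map_smul]
    have h3 : bA a (((c : R) * (u₀ * v₁)) • a₀) = c * bA a ((u₀ * v₁) • a₀) := by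
      rw [mul_smul, Int.cast_smul_eq_zsmul R, map_zsmul, smul_eq_mul]
    rw [map_sub, h1, h3, ← sadjA, h2, sadjA, sadjA, smul_smul, sub_self]
  -- Step D
  have hfinal : (u₀ * r) * ((c : R) * (u₀ * v₁)) ∈ 𝔪 := by
    apply hD
    intro a₀
    obtain ⟨b₁, hb₁⟩ := stepC a₀
    obtain ⟨a'', ha''⟩ := stepB _ (stepA b₁)
    refine ⟨a'', ?_⟩
    rw [ha'', map_smul, map_smul, hb₁, smul_smul, smul_smul, ← mul_assoc]
  rcases hprime.mem_or_mem hfinal with h | h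
  · rcases hprime.mem_or_mem h with h | h
    · exact hu₀𝔪 h
    · exact hr𝔪 h
  · rcases hprime.mem_or_mem h with h | h
    · exact hc𝔪 h
    · rcases hprime.mem_or_mem h with h | h
      · exact hu₀𝔪 h
      · exact hv₁𝔪 h

end Core

section Two

variable {R : Type*} [CommRing R] (𝔪 : Ideal R) [h𝔪 : 𝔪.IsMaximal]
variable {H B : Type*} [AddCommGroup H] [Module R H] [AddCommGroup B] [Module R B]
variable [Module.Finite ℤ H] [Module.Free ℤ B] [Module.Finite ℤ B]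

/-- **The congruence-module theorem, two-degeneracy-maps form.** `α₁, α₂ : H → B` the two
degeneracy maps, `β₁, β₂ : B → H` their adjoints. -/
theorem lr_two2 (p : ℕ) (hp : p.Prime) (hp𝔪 : (p : R) ∈ 𝔪)
    (α₁ α₂ : H →ₗ[R] B) (β₁ β₂ : B →ₗ[R] H)
    (bH : H →ₗ[ℤ] H →ₗ[ℤ] ℤ) (bB : B →ₗ[ℤ] B →ₗ[ℤ] ℤ)
    (hbH : ∀ y : H, (∀ x, bH x y = 0) → y = 0)
    (cB : ℤ) (hcB : ¬ (p : ℤ) ∣ cB)
    (hbB : ∀ φ : B →ₗ[ℤ] ℤ, ∃ w : B, ∀ b, bB b w = cB * φ b)
    (sadjH : ∀ (r : R) (x y : H), bH (r • x) y = bH x (r • y))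
    (sadjB : ∀ (r : R) (x y : B), bB (r • x) y = bB x (r • y))
    (adj₁ : ∀ (x : H) (w : B), bB (α₁ x) w = bH x (β₁ w))
    (adj₂ : ∀ (x : H) (w : B), bB (α₂ x) w = bH x (β₂ w))
    (s : R) (hs : s ∉ 𝔪)
    (hIh : ∀ (x y : H) (w : B), α₁ x + α₂ y = (p : ℤ) • w →
      ∃ x' y' : H, s • x = (p : ℤ) • x' ∧ s • y = (p : ℤ) • y')
    (N : Submodule R H) (hN : N ≠ ⊤) (h𝔪N : 𝔪 • (⊤ : Submodule R H) ≤ N)
    (c₁ c₂ : R) (hc : c₁ ∉ 𝔪 ∨ c₂ ∉ 𝔪)
    (hcN : ∀ x y : H, c₁ • β₁ (α₁ x + α₂ y) + c₂ • β₂ (α₁ x + α₂ y) ∈ N) :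
    ∀ r : R, (∀ w : B, β₁ w = 0 → β₂ w = 0 → r • w = 0) → r ∈ 𝔪 := by
  intro r hr
  refine lr_core2 𝔪 p hp hp𝔪 (α₁.coprod α₂) (β₁.prod β₂) (lrProdForm bH) bB ?_ cB hcB hbB ?_ sadjB ?_
    s hs ?_ ?_ r ?_
  · rintro ⟨y₁, y₂⟩ h
    have h1 : y₁ = 0 := hbH y₁ fun x => by simpa [lrProdForm_apply] using h (x, 0)
    have h2 : y₂ = 0 := hbH y₂ fun x => by simpa [lrProdForm_apply] using h (0, x)
    rw [h1, h2]; rfl
  · rintro t ⟨x₁, x₂⟩ ⟨y₁, y₂⟩
    simp only [lrProdForm_apply, Prod.smul_mk]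
    rw [sadjH, sadjH]
  · rintro ⟨x₁, x₂⟩ w
    simp only [lrProdForm_apply, LinearMap.coprod_apply, map_add, LinearMap.add_apply]
    rw [adj₁, adj₂]
    rfl
  · rintro ⟨x, y⟩ w h
    rw [LinearMap.coprod_apply] at h
    obtain ⟨x', y', hx', hy'⟩ := hIh x y w h
    exact ⟨(x', y'), by simp only [Prod.smul_mk, hx', hy']⟩
  · apply lr_two_hD 𝔪 (α₁.coprod α₂) (β₁.prod β₂) N hN h𝔪N c₁ c₂ hc
    rintro ⟨x, y⟩
    have := hcN x y
    simpa [LinearMap.coprod_apply] using this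
  · intro w hw
    have hw' : (β₁ w, β₂ w) = 0 := hw
    rw [Prod.mk_eq_zero] at hw'
    exact hr w hw'.1 hw'.2

end Two

end LR
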