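import Fermat.Agent.Lib.LR_PingPong

/-!
# The amalgam `Γ₀(N)[1/q] = Γ₀(N) *_{Γ₀(Nq)} δ⁻¹Γ₀(N)δ` (Ihara's lemma, amalgam half)

Inside `SL(2, ℚ)` let `A = Γ₀(N)`, `B = δ⁻¹ Γ₀(N) δ` (`δ = diag(q, 1)`, `q` prime, `(N, q) = 1`).
Then `A ⊓ B = Γ₀(Nq)` and the subgroup `lrG N q = A ⊔ B` is the amalgamated product of `A` and `B`
over `A ⊓ B`: we prove the universal property (`lr_amalgam_ext`) by ping-pong on the two `q`-adic
discs `U₁ = {|y| < |x|}`, `U₀ = {|x| ≤ |y|, y ≠ 0}` of `ℚ²` (no Bruhat–Tits tree needed).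
-/

set_option autoImplicit false

open CongruenceSubgroup Matrix
open scoped MatrixGroups

namespace LR

/-- The inclusion `SL(2, ℤ) → SL(2, ℚ)`. -/
def lrι : SL(2, ℤ) →* SL(2, ℚ) := Matrix.SpecialLinearGroup.map (Int.castRingHom ℚ)

theorem lrι_apply (g : SL(2, ℤ)) (i j : Fin 2) : (lrι g) i j = ((g i j : ℤ) : ℚ) := by
  simp [lrι]

theorem lr_am_det (g : SL(2, ℚ)) : g 0 0 * g 1 1 - g 0 1 * g 1 0 = 1 := by
  have := g.det_coe
  rwa [Matrix.det_fin_two] at this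

theorem lr_am_det_int (g : SL(2, ℤ)) : g 0 0 * g 1 1 - g 0 1 * g 1 0 = 1 := by
  have := g.det_coe
  rwa [Matrix.det_fin_two] at this

/-- Conjugation by `diag(q,1)⁻¹`: `(a b; c d) ↦ (a, b/q; q c, d)`. -/
def lrConj (q : ℕ) [Fact q.Prime] : SL(2, ℚ) →* SL(2, ℚ) where
  toFun g := ⟨!![g 0 0, g 0 1 / q; q * g 1 0, g 1 1], by
    have hq : (q : ℚ) ≠ 0 := Nat.cast_ne_zero.mpr (Fact.out : q.Prime).ne_zero
    rw [Matrix.det_fin_two_of]
    have := lr_am_det g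
    field_simp
    linarith⟩
  map_one' := by
    ext i j
    fin_cases i <;> fin_cases j <;> simp
  map_mul' g h := by
    have hq : (q : ℚ) ≠ 0 := Nat.cast_ne_zero.mpr (Fact.out : q.Prime).ne_zero
    apply Subtype.ext
    show !![(g * h) 0 0, (g * h) 0 1 / q; q * (g * h) 1 0, (g * h) 1 1] =
      !![g 0 0, g 0 1 / q; q * g 1 0, g 1 1] * !![h 0 0, h 0 1 / q; q * h 1 0, h 1 1]
    rw [Matrix.mul_fin_two]
    simp only [Matrix.SpecialLinearGroup.coe_mul, Matrix.mul_apply, Fin.sum_univ_two]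
    ext i j
    fin_cases i <;> fin_cases j <;> simp <;> field_simp

theorem lrConj_00 (q : ℕ) [Fact q.Prime] (g : SL(2, ℚ)) : (lrConj q g) 0 0 = g 0 0 := rfl
theorem lrConj_01 (q : ℕ) [Fact q.Prime] (g : SL(2, ℚ)) : (lrConj q g) 0 1 = g 0 1 / q := rfl
theorem lrConj_10 (q : ℕ) [Fact q.Prime] (g : SL(2, ℚ)) : (lrConj q g) 1 0 = q * g 1 0 := rfl
theorem lrConj_11 (q : ℕ) [Fact q.Prime] (g : SL(2, ℚ)) : (lrConj q g) 1 1 = g 1 1 := rfl

/-- Column vectors of `ℚ²`. -/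
@[ext] structure LrAmVec where
  x : ℚ
  y : ℚ

instance : MulAction SL(2, ℚ) LrAmVec where
  smul g v := ⟨g 0 0 * v.x + g 0 1 * v.y, g 1 0 * v.x + g 1 1 * v.y⟩
  one_smul v := by
    ext
    · show (1 : SL(2, ℚ)) 0 0 * v.x + (1 : SL(2, ℚ)) 0 1 * v.y = v.x
      simp
    · show (1 : SL(2, ℚ)) 1 0 * v.x + (1 : SL(2, ℚ)) 1 1 * v.y = v.y
      simp
  mul_smul g h v := by
    ext
    · show (g * h) 0 0 * v.x + (g * h) 0 1 * v.y =
        g 0 0 * (h 0 0 * v.x + h 0 1 * v.y) + g 0 1 * (h 1 0 * v.x + h 1 1 * v.y)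
      simp [Matrix.mul_apply, Fin.sum_univ_two]
      ring
    · show (g * h) 1 0 * v.x + (g * h) 1 1 * v.y =
        g 1 0 * (h 0 0 * v.x + h 0 1 * v.y) + g 1 1 * (h 1 0 * v.x + h 1 1 * v.y)
      simp [Matrix.mul_apply, Fin.sum_univ_two]
      ring

theorem lr_am_smul_x (g : SL(2, ℚ)) (v : LrAmVec) : (g • v).x = g 0 0 * v.x + g 0 1 * v.y := rfl
theorem lr_am_smul_y (g : SL(2, ℚ)) (v : LrAmVec) : (g • v).y = g 1 0 * v.x + g 1 1 * v.y := rfl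

/-! ### q-adic norm lemmas -/

section Norm

variable (q : ℕ) [Fact q.Prime]

theorem lr_am_norm_add_lt {a b c : ℚ} (ha : padicNorm q a < c) (hb : padicNorm q b < c) :
    padicNorm q (a + b) < c :=
  lt_of_le_of_lt padicNorm.nonarchimedean (max_lt ha hb)

theorem lr_am_norm_add_le {a b c : ℚ} (ha : padicNorm q a ≤ c) (hb : padicNorm q b ≤ c) :
    padicNorm q (a + b) ≤ c :=
  le_trans padicNorm.nonarchimedean (max_le ha hb)

theorem lr_am_norm_add_eq {a b : ℚ} (h : padicNorm q b < padicNorm q a) :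
    padicNorm q (a + b) = padicNorm q a := by
  rw [padicNorm.add_eq_max_of_ne h.ne']
  exact max_eq_left h.le

theorem lr_am_norm_add_eq' {a b : ℚ} (h : padicNorm q a < padicNorm q b) :
    padicNorm q (a + b) = padicNorm q b := by
  rw [add_comm]
  exact lr_am_norm_add_eq q h

theorem lr_am_norm_int_mul_le (z : ℤ) (x : ℚ) : padicNorm q ((z : ℚ) * x) ≤ padicNorm q x := by
  rw [padicNorm.mul]
  exact mul_le_of_le_one_left (padicNorm.nonneg _) (padicNorm.of_int z)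

theorem lr_am_norm_unit_mul {z : ℤ} (hz : ¬ (q : ℤ) ∣ z) (x : ℚ) :
    padicNorm q ((z : ℚ) * x) = padicNorm q x := by
  rw [padicNorm.mul, (padicNorm.int_eq_one_iff z).mpr hz, one_mul]

theorem lr_am_norm_dvd_mul_lt {z : ℤ} (hz : (q : ℤ) ∣ z) {x : ℚ} (hx : x ≠ 0) :
    padicNorm q ((z : ℚ) * x) < padicNorm q x := by
  rw [padicNorm.mul]
  have hpos : 0 < padicNorm q x := lt_of_le_of_ne (padicNorm.nonneg _) (Ne.symm (padicNorm.nonzero hx))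
  exact mul_lt_of_lt_one_left hpos ((padicNorm.int_lt_one_iff z).mpr hz)

theorem lr_am_norm_pos {x : ℚ} (hx : x ≠ 0) : 0 < padicNorm q x :=
  lt_of_le_of_ne (padicNorm.nonneg _) (Ne.symm (padicNorm.nonzero hx))

omit [Fact q.Prime] in
theorem lr_am_ne_zero_of_norm_pos {x : ℚ} (hx : 0 < padicNorm q x) : x ≠ 0 := by
  rintro rfl
  simp at hx

theorem lr_am_norm_div_q (z : ℤ) (hz : ¬ (q : ℤ) ∣ z) (x : ℚ) :
    padicNorm q ((z : ℚ) / q * x) = q * padicNorm q x := by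
  rw [padicNorm.mul, padicNorm.div, (padicNorm.int_eq_one_iff z).mpr hz,
    padicNorm.padicNorm_p_of_prime]
  simp

end Norm

/-! ### The subgroups and the ping-pong sets -/

section Groups

variable (N q : ℕ) [Fact q.Prime]

/-- `Γ₀(N)` inside `SL(2, ℚ)`. -/
def lrA : Subgroup SL(2, ℚ) := (Gamma0 N).map lrι

/-- `δ⁻¹ Γ₀(N) δ` inside `SL(2, ℚ)`, `δ = diag(q, 1)`. -/
def lrB : Subgroup SL(2, ℚ) := (Gamma0 N).map ((lrConj q).comp lrι)

/-- `Γ₀(N)[1/q]`, as the subgroup generated by `Γ₀(N)` and `δ⁻¹ Γ₀(N) δ`. -/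
def lrG : Subgroup SL(2, ℚ) := lrA N ⊔ lrB N q

theorem lrι_injective : Function.Injective lrι := by
  intro a b h
  ext i j
  have := congrArg (fun g : SL(2, ℚ) => g i j) h
  simp only [lrι_apply] at this
  exact_mod_cast this

theorem lrConj_injective : Function.Injective (lrConj q) := by
  have hq : (q : ℚ) ≠ 0 := Nat.cast_ne_zero.mpr (Fact.out : q.Prime).ne_zero
  intro a b h
  have h00 := congrArg (fun g : SL(2, ℚ) => g 0 0) h
  have h01 := congrArg (fun g : SL(2, ℚ) => g 0 1) h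
  have h10 := congrArg (fun g : SL(2, ℚ) => g 1 0) h
  have h11 := congrArg (fun g : SL(2, ℚ) => g 1 1) h
  simp only [lrConj_00, lrConj_01, lrConj_10, lrConj_11] at h00 h01 h10 h11
  ext i j
  fin_cases i <;> fin_cases j
  · exact h00
  · exact (div_left_inj' hq).mp h01
  · exact mul_left_cancel₀ hq h10
  · exact h11

theorem lr_am_mem_A {g : SL(2, ℚ)} : g ∈ lrA N ↔ ∃ a : SL(2, ℤ), a ∈ Gamma0 N ∧ lrι a = g := by
  simp [lrA, Subgroup.mem_map]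

theorem lr_am_mem_B {g : SL(2, ℚ)} :
    g ∈ lrB N q ↔ ∃ a : SL(2, ℤ), a ∈ Gamma0 N ∧ lrConj q (lrι a) = g := by
  simp [lrB, Subgroup.mem_map]

/-- An element of `A` whose lower-left entry is divisible by `q` lies in `B`. -/
theorem lr_am_A_mem_B (hNq : N.Coprime q) {a : SL(2, ℤ)} (ha : a ∈ Gamma0 N)
    (hdiv : (q : ℤ) ∣ a 1 0) : lrι a ∈ lrB N q := by
  have hq0 : (q : ℤ) ≠ 0 := by exact_mod_cast (Fact.out : q.Prime).ne_zero
  obtain ⟨t, ht⟩ := hdiv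
  have hN : (N : ℤ) ∣ a 1 0 := by
    have := (Gamma0_mem).mp ha
    exact (ZMod.intCast_zmod_eq_zero_iff_dvd _ _).mp this
  have hNt : (N : ℤ) ∣ t := by
    have hcop : IsCoprime (N : ℤ) (q : ℤ) := by
      exact_mod_cast (Nat.isCoprime_iff_coprime.mpr hNq)
    rw [ht] at hN
    exact hcop.dvd_of_dvd_mul_left hN
  have hdet := lr_am_det_int a
  let a₂ : SL(2, ℤ) := ⟨!![a 0 0, q * a 0 1; t, a 1 1], by
    rw [Matrix.det_fin_two_of]
    rw [ht] at hdet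
    linarith⟩
  have ha₂ : a₂ ∈ Gamma0 N := by
    rw [Gamma0_mem]
    show ((t : ℤ) : ZMod N) = 0
    exact (ZMod.intCast_zmod_eq_zero_iff_dvd _ _).mpr hNt
  rw [lr_am_mem_B]
  refine ⟨a₂, ha₂, ?_⟩
  have hqQ : (q : ℚ) ≠ 0 := Nat.cast_ne_zero.mpr (Fact.out : q.Prime).ne_zero
  ext i j
  fin_cases i <;> fin_cases j
  · show (lrConj q (lrι a₂)) 0 0 = (lrι a) 0 0
    rw [lrConj_00, lrι_apply, lrι_apply]
    rfl
  · show (lrConj q (lrι a₂)) 0 1 = (lrι a) 0 1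
    rw [lrConj_01, lrι_apply, lrι_apply]
    show (((q : ℤ) * a 0 1 : ℤ) : ℚ) / q = _
    push_cast
    field_simp
  · show (lrConj q (lrι a₂)) 1 0 = (lrι a) 1 0
    rw [lrConj_10, lrι_apply, lrι_apply]
    show (q : ℚ) * ((t : ℤ) : ℚ) = _
    rw [ht]
    push_cast
    ring
  · show (lrConj q (lrι a₂)) 1 1 = (lrι a) 1 1
    rw [lrConj_11, lrι_apply, lrι_apply]
    rfl

/-- An element of `B` whose upper-right entry is integral lies in `A`. -/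
theorem lr_am_B_mem_A {a : SL(2, ℤ)} (ha : a ∈ Gamma0 N)
    (hdiv : (q : ℤ) ∣ a 0 1) : lrConj q (lrι a) ∈ lrA N := by
  obtain ⟨t, ht⟩ := hdiv
  have hN : (N : ℤ) ∣ a 1 0 := by
    have := (Gamma0_mem).mp ha
    exact (ZMod.intCast_zmod_eq_zero_iff_dvd _ _).mp this
  have hdet := lr_am_det_int a
  let a₂ : SL(2, ℤ) := ⟨!![a 0 0, t; q * a 1 0, a 1 1], by
    rw [Matrix.det_fin_two_of]
    rw [ht] at hdet
    linarith⟩
  have ha₂ : a₂ ∈ Gamma0 N := by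
    rw [Gamma0_mem]
    show (((q : ℤ) * a 1 0 : ℤ) : ZMod N) = 0
    exact (ZMod.intCast_zmod_eq_zero_iff_dvd _ _).mpr (Dvd.dvd.mul_left hN _)
  rw [lr_am_mem_A]
  refine ⟨a₂, ha₂, ?_⟩
  have hqQ : (q : ℚ) ≠ 0 := Nat.cast_ne_zero.mpr (Fact.out : q.Prime).ne_zero
  ext i j
  fin_cases i <;> fin_cases j
  · show (lrι a₂) 0 0 = (lrConj q (lrι a)) 0 0
    rw [lrConj_00, lrι_apply, lrι_apply]
    rfl
  · show (lrι a₂) 0 1 = (lrConj q (lrι a)) 0 1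
    rw [lrConj_01, lrι_apply, lrι_apply]
    show ((t : ℤ) : ℚ) = _
    rw [ht]
    push_cast
    field_simp
  · show (lrι a₂) 1 0 = (lrConj q (lrι a)) 1 0
    rw [lrConj_10, lrι_apply, lrι_apply]
    show (((q : ℤ) * a 1 0 : ℤ) : ℚ) = _
    push_cast
    ring
  · show (lrι a₂) 1 1 = (lrConj q (lrι a)) 1 1
    rw [lrConj_11, lrι_apply, lrι_apply]
    rfl

end Groups

/-! ### Ping-pong on `q`-adic discs -/

section PP

variable (N q : ℕ) [Fact q.Prime]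

/-- The disc at infinity: `|y| < |x|`. -/
def lrAmU1 : Set LrAmVec := {v | padicNorm q v.y < padicNorm q v.x}

/-- The integral disc: `|x| ≤ |y|`, `y ≠ 0`. -/
def lrAmU0 : Set LrAmVec := {v | padicNorm q v.x ≤ padicNorm q v.y ∧ v.y ≠ 0}

/-- `V false = U₁` (source for letters of `A`), `V true = U₀` (source for letters of `B`). -/
def lrAmV : Bool → Set LrAmVec := fun i => if i then lrAmU0 q else lrAmU1 q

omit [Fact q.Prime] in
theorem lrAmV_false : lrAmV q false = lrAmU1 q := rfl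

omit [Fact q.Prime] in
theorem lrAmV_true : lrAmV q true = lrAmU0 q := rfl

/-- Elements of `A \ B` send `U₁` into `U₀`. -/
theorem lr_am_pp_A {a : SL(2, ℤ)} (hq : ¬ (q : ℤ) ∣ a 1 0) {v : LrAmVec} (hv : v ∈ lrAmU1 q) :
    lrι a • v ∈ lrAmU0 q := by
  have hv' : padicNorm q v.y < padicNorm q v.x := hv
  have hxpos : 0 < padicNorm q v.x := lt_of_le_of_lt (padicNorm.nonneg _) hv'
  have hy : padicNorm q ((lrι a • v).y) = padicNorm q v.x := by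
    rw [lr_am_smul_y, lrι_apply, lrι_apply]
    rw [lr_am_norm_add_eq q, lr_am_norm_unit_mul q hq]
    rw [lr_am_norm_unit_mul q hq]
    exact lt_of_le_of_lt (lr_am_norm_int_mul_le q _ _) hv'
  refine ⟨?_, ?_⟩
  · rw [hy, lr_am_smul_x, lrι_apply, lrι_apply]
    exact lr_am_norm_add_le q (lr_am_norm_int_mul_le q _ _)
      (le_trans (lr_am_norm_int_mul_le q _ _) hv'.le)
  · apply lr_am_ne_zero_of_norm_pos q
    rw [hy]
    exact hxpos

/-- Elements of `B \ A` send `U₀` into `U₁`. -/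
theorem lr_am_pp_B {a : SL(2, ℤ)} (hq : ¬ (q : ℤ) ∣ a 0 1) {v : LrAmVec} (hv : v ∈ lrAmU0 q) :
    lrConj q (lrι a) • v ∈ lrAmU1 q := by
  obtain ⟨hv1, hv2⟩ := hv
  have hypos : 0 < padicNorm q v.y := lr_am_norm_pos q hv2
  have hq1 : (1 : ℚ) < q := by exact_mod_cast (Fact.out : q.Prime).one_lt
  have hlt : padicNorm q v.y < q * padicNorm q v.y := by nlinarith
  have hx : padicNorm q ((lrConj q (lrι a) • v).x) = q * padicNorm q v.y := by
    rw [lr_am_smul_x, lrConj_00, lrConj_01, lrι_apply, lrι_apply]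
    rw [lr_am_norm_add_eq' q, lr_am_norm_div_q q _ hq]
    rw [lr_am_norm_div_q q _ hq]
    exact lt_of_le_of_lt (le_trans (lr_am_norm_int_mul_le q _ _) hv1) hlt
  show padicNorm q ((lrConj q (lrι a) • v).y) < padicNorm q ((lrConj q (lrι a) • v).x)
  rw [hx, lr_am_smul_y, lrConj_10, lrConj_11, lrι_apply, lrι_apply]
  apply lr_am_norm_add_lt q
  · have : (q : ℚ) * ((a 1 0 : ℤ) : ℚ) * v.x = (((q : ℤ) * a 1 0 : ℤ) : ℚ) * v.x := by
      push_cast; ring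
    rw [this]
    exact lt_of_le_of_lt (le_trans (lr_am_norm_int_mul_le q _ _) hv1) hlt
  · exact lt_of_le_of_lt (lr_am_norm_int_mul_le q _ _) hlt

/-- Elements of `A ⊓ B` preserve `U₁`. -/
theorem lr_am_pp_C1 {a : SL(2, ℤ)} (hq : (q : ℤ) ∣ a 1 0) {v : LrAmVec} (hv : v ∈ lrAmU1 q) :
    lrι a • v ∈ lrAmU1 q := by
  have hv' : padicNorm q v.y < padicNorm q v.x := hv
  have hxpos : 0 < padicNorm q v.x := lt_of_le_of_lt (padicNorm.nonneg _) hv'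
  have hx0 : v.x ≠ 0 := lr_am_ne_zero_of_norm_pos q hxpos
  have hdet := lr_am_det_int a
  have h00 : ¬ (q : ℤ) ∣ a 0 0 := by
    intro h
    have h1 : (q : ℤ) ∣ a 0 0 * a 1 1 - a 0 1 * a 1 0 :=
      dvd_sub (Dvd.dvd.mul_right h _) (Dvd.dvd.mul_left hq _)
    rw [hdet] at h1
    have := Int.eq_one_of_dvd_one (by positivity) h1
    have hq1 : 1 < q := (Fact.out : q.Prime).one_lt
    omega
  have hx : padicNorm q ((lrι a • v).x) = padicNorm q v.x := by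
    rw [lr_am_smul_x, lrι_apply, lrι_apply]
    rw [lr_am_norm_add_eq q, lr_am_norm_unit_mul q h00]
    rw [lr_am_norm_unit_mul q h00]
    exact lt_of_le_of_lt (lr_am_norm_int_mul_le q _ _) hv'
  show padicNorm q ((lrι a • v).y) < padicNorm q ((lrι a • v).x)
  rw [hx, lr_am_smul_y, lrι_apply, lrι_apply]
  exact lr_am_norm_add_lt q (lr_am_norm_dvd_mul_lt q hq hx0)
    (lt_of_le_of_lt (lr_am_norm_int_mul_le q _ _) hv')

/-- Elements of `A ⊓ B` preserve `U₀`. -/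
theorem lr_am_pp_C0 {a : SL(2, ℤ)} (hq : (q : ℤ) ∣ a 1 0) {v : LrAmVec} (hv : v ∈ lrAmU0 q) :
    lrι a • v ∈ lrAmU0 q := by
  obtain ⟨hv1, hv2⟩ := hv
  have hypos : 0 < padicNorm q v.y := lr_am_norm_pos q hv2
  have hdet := lr_am_det_int a
  have h11 : ¬ (q : ℤ) ∣ a 1 1 := by
    intro h
    have h1 : (q : ℤ) ∣ a 0 0 * a 1 1 - a 0 1 * a 1 0 :=
      dvd_sub (Dvd.dvd.mul_left h _) (Dvd.dvd.mul_left hq _)
    rw [hdet] at h1
    have := Int.eq_one_of_dvd_one (by positivity) h1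
    have hq1 : 1 < q := (Fact.out : q.Prime).one_lt
    omega
  have hy : padicNorm q ((lrι a • v).y) = padicNorm q v.y := by
    rw [lr_am_smul_y, lrι_apply, lrι_apply]
    rw [lr_am_norm_add_eq' q, lr_am_norm_unit_mul q h11]
    rw [lr_am_norm_unit_mul q h11]
    by_cases hx0 : v.x = 0
    · rw [hx0, mul_zero, padicNorm.zero]
      exact hypos
    · exact lt_of_lt_of_le (lr_am_norm_dvd_mul_lt q hq hx0) hv1
  refine ⟨?_, ?_⟩
  · rw [hy, lr_am_smul_x, lrι_apply, lrι_apply]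
    exact lr_am_norm_add_le q (le_trans (lr_am_norm_int_mul_le q _ _) hv1) (lr_am_norm_int_mul_le q _ _)
  · apply lr_am_ne_zero_of_norm_pos q
    rw [hy]
    exact hypos

theorem lr_am_mem_inf {g : SL(2, ℚ)} (hg : g ∈ lrA N ⊓ lrB N q) :
    ∃ a : SL(2, ℤ), a ∈ Gamma0 N ∧ lrι a = g ∧ (q : ℤ) ∣ a 1 0 := by
  obtain ⟨hA, hB⟩ := hg
  obtain ⟨a, ha, rfl⟩ := (lr_am_mem_A N).mp hA
  obtain ⟨b, hb, hab⟩ := (lr_am_mem_B N q).mp hB
  refine ⟨a, ha, rfl, ?_⟩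
  have h10 := congrArg (fun g : SL(2, ℚ) => g 1 0) hab
  simp only [lrConj_10, lrι_apply] at h10
  refine ⟨b 1 0, ?_⟩
  exact_mod_cast h10.symm

end PP

section Main

variable (N q : ℕ) [Fact q.Prime]

/-- Properness witness for `A \ B`. -/
theorem lr_am_wit_A {a : SL(2, ℤ)} (hq : ¬ (q : ℤ) ∣ a 1 0) :
    ∃ y ∈ lrAmU0 q, ∀ v ∈ lrAmU1 q, lrι a • v ≠ y := by
  have h10 : (a 1 0 : ℤ) ≠ 0 := by
    intro h
    exact hq (h ▸ dvd_zero _)
  have h10Q : ((a 1 0 : ℤ) : ℚ) ≠ 0 := by exact_mod_cast h10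
  refine ⟨⟨((a 0 0 + a 1 0 : ℤ) : ℚ), ((a 1 0 : ℤ) : ℚ)⟩, ⟨?_, h10Q⟩, ?_⟩
  · show padicNorm q ((a 0 0 + a 1 0 : ℤ) : ℚ) ≤ padicNorm q ((a 1 0 : ℤ) : ℚ)
    rw [(padicNorm.int_eq_one_iff (a 1 0)).mpr hq]
    exact padicNorm.of_int _
  · intro v hv heq
    have hv' : padicNorm q v.y < padicNorm q v.x := hv
    have hx := congrArg LrAmVec.x heq
    have hy := congrArg LrAmVec.y heq
    rw [lr_am_smul_x, lrι_apply, lrι_apply] at hx
    rw [lr_am_smul_y, lrι_apply, lrι_apply] at hy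
    simp only at hx hy
    have hdet : ((a 0 0 : ℤ) : ℚ) * (a 1 1 : ℤ) - (a 0 1 : ℤ) * (a 1 0 : ℤ) = 1 := by
      exact_mod_cast lr_am_det_int a
    push_cast at hx
    have hvy : v.y = -((a 1 0 : ℤ) : ℚ) ^ 2 := by
      linear_combination ((a 0 0 : ℤ) : ℚ) * hy - ((a 1 0 : ℤ) : ℚ) * hx - v.y * hdet
    have hvx : v.x = ((1 + a 1 1 * a 1 0 : ℤ) : ℚ) := by
      apply mul_left_cancel₀ h10Q
      push_cast
      linear_combination hy - ((a 1 1 : ℤ) : ℚ) * hvy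
    have h1 : padicNorm q v.y = 1 := by
      rw [hvy, padicNorm.neg, pow_two, padicNorm.mul, (padicNorm.int_eq_one_iff (a 1 0)).mpr hq,
        mul_one]
    have h2 : padicNorm q v.x ≤ 1 := by
      rw [hvx]
      exact padicNorm.of_int _
    linarith

/-- Properness witness for `B \ A`. -/
theorem lr_am_wit_B {a : SL(2, ℤ)} (hq : ¬ (q : ℤ) ∣ a 0 1) :
    ∃ y ∈ lrAmU1 q, ∀ v ∈ lrAmU0 q, lrConj q (lrι a) • v ≠ y := by
  have hqQ : (q : ℚ) ≠ 0 := Nat.cast_ne_zero.mpr (Fact.out : q.Prime).ne_zero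
  have h01 : (a 0 1 : ℤ) ≠ 0 := by
    intro h
    exact hq (h ▸ dvd_zero _)
  have h01Q : ((a 0 1 : ℤ) : ℚ) ≠ 0 := by exact_mod_cast h01
  refine ⟨⟨((a 0 1 : ℤ) : ℚ), (((q : ℤ) * (a 1 1 + a 0 1) : ℤ) : ℚ)⟩, ?_, ?_⟩
  · show padicNorm q (((q : ℤ) * (a 1 1 + a 0 1) : ℤ) : ℚ) < padicNorm q ((a 0 1 : ℤ) : ℚ)
    rw [(padicNorm.int_eq_one_iff (a 0 1)).mpr hq]
    exact (padicNorm.int_lt_one_iff _).mpr (Dvd.intro _ rfl)
  · intro v hv heq
    obtain ⟨hv1, hv2⟩ := hv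
    have hx := congrArg LrAmVec.x heq
    have hy := congrArg LrAmVec.y heq
    rw [lr_am_smul_x, lrConj_00, lrConj_01, lrι_apply, lrι_apply] at hx
    rw [lr_am_smul_y, lrConj_10, lrConj_11, lrι_apply, lrι_apply] at hy
    simp only at hx hy
    have hdet : ((a 0 0 : ℤ) : ℚ) * (a 1 1 : ℤ) - (a 0 1 : ℤ) * (a 1 0 : ℤ) = 1 := by
      exact_mod_cast lr_am_det_int a
    push_cast at hy
    have hx' : (q : ℚ) * (a 0 0 : ℤ) * v.x + (a 0 1 : ℤ) * v.y = q * (a 0 1 : ℤ) := by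
      have h3 : (q : ℚ) * (((a 0 0 : ℤ) : ℚ) * v.x + ((a 0 1 : ℤ) : ℚ) / q * v.y) =
          (q : ℚ) * ((a 0 1 : ℤ) : ℚ) := by rw [hx]
      rw [← h3]
      field_simp
    have hvx : v.x = -((a 0 1 : ℤ) : ℚ) ^ 2 := by
      apply mul_left_cancel₀ hqQ
      linear_combination ((a 1 1 : ℤ) : ℚ) * hx' - ((a 0 1 : ℤ) : ℚ) * hy - (q : ℚ) * v.x * hdet
    have hvy : v.y = (((q : ℤ) * (1 + a 0 0 * a 0 1) : ℤ) : ℚ) := by
      apply mul_left_cancel₀ h01Q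
      push_cast
      linear_combination hx' - (q : ℚ) * ((a 0 0 : ℤ) : ℚ) * hvx
    have h1 : padicNorm q v.x = 1 := by
      rw [hvx, padicNorm.neg, pow_two, padicNorm.mul, (padicNorm.int_eq_one_iff (a 0 1)).mpr hq,
        mul_one]
    have h2 : padicNorm q v.y < 1 := by
      rw [hvy]
      exact (padicNorm.int_lt_one_iff _).mpr (Dvd.intro _ rfl)
    linarith

/-- The ping-pong hypotheses hold for `Γ₀(N)` and `δ⁻¹ Γ₀(N) δ` acting on `q`-adic discs. -/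
theorem lr_am_pp (hNq : N.Coprime q) : LrAmPP (lrA N) (lrB N q) (lrAmV q) where
  pp := by
    intro i g hg hgC v hv
    cases i
    · -- g ∈ A, g ∉ B
      have hgA : g ∈ lrA N := hg
      obtain ⟨a, ha, rfl⟩ := (lr_am_mem_A N).mp hgA
      have hq : ¬ (q : ℤ) ∣ a 1 0 := fun hdiv => hgC ⟨hgA, lr_am_A_mem_B N q hNq ha hdiv⟩
      exact lr_am_pp_A q hq hv
    · have hgB : g ∈ lrB N q := hg
      obtain ⟨a, ha, rfl⟩ := (lr_am_mem_B N q).mp hgB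
      have hq : ¬ (q : ℤ) ∣ a 0 1 := fun hdiv => hgC ⟨lr_am_B_mem_A N q ha hdiv, hgB⟩
      exact lr_am_pp_B q hq hv
  base := by
    intro i c hc v hv
    obtain ⟨a, _, rfl, hq⟩ := lr_am_mem_inf N q hc
    cases i
    · exact lr_am_pp_C1 q hq hv
    · exact lr_am_pp_C0 q hq hv
  disj := by
    intro v h1 h2
    have h1' : padicNorm q v.y < padicNorm q v.x := h1
    have h2' : padicNorm q v.x ≤ padicNorm q v.y := h2.1
    linarith
  wit := by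
    intro i g hg hgC
    cases i
    · have hgA : g ∈ lrA N := hg
      obtain ⟨a, ha, rfl⟩ := (lr_am_mem_A N).mp hgA
      have hq : ¬ (q : ℤ) ∣ a 1 0 := fun hdiv => hgC ⟨hgA, lr_am_A_mem_B N q hNq ha hdiv⟩
      exact lr_am_wit_A q hq
    · have hgB : g ∈ lrB N q := hg
      obtain ⟨a, ha, rfl⟩ := (lr_am_mem_B N q).mp hgB
      have hq : ¬ (q : ℤ) ∣ a 0 1 := fun hdiv => hgC ⟨lr_am_B_mem_A N q ha hdiv, hgB⟩
      exact lr_am_wit_B q hq
  ne := by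
    intro i
    cases i
    · refine ⟨⟨1, 0⟩, ?_⟩
      show padicNorm q 0 < padicNorm q 1
      simp
    · refine ⟨⟨0, 1⟩, ?_, one_ne_zero⟩
      show padicNorm q 0 ≤ padicNorm q 1
      simp

/-- **Amalgam / Mayer–Vietoris for `Γ₀(N)[1/q] = Γ₀(N) *_{Γ₀(Nq)} δ⁻¹Γ₀(N)δ`.**
Two homomorphisms `χ₁, χ₂` on `Γ₀(N)` such that `χ₁ γ₁ = χ₂ γ₂` whenever
`γ₁ = δ⁻¹ γ₂ δ` (i.e. `χ₁ = χ₂ ∘ (conjugation by δ)` on `Γ₀(Nq)`) glue to a homomorphism on
`lrG N q = ⟨Γ₀(N), δ⁻¹Γ₀(N)δ⟩`. -/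
theorem lr_amalgam_ext (hNq : N.Coprime q) {F : Type*} [Group F]
    (χ₁ χ₂ : ↥(Gamma0 N) →* F)
    (h : ∀ γ₁ γ₂ : ↥(Gamma0 N),
      lrι (γ₁ : SL(2, ℤ)) = lrConj q (lrι (γ₂ : SL(2, ℤ))) → χ₁ γ₁ = χ₂ γ₂) :
    ∃ χ : ↥(lrG N q) →* F,
      (∀ γ : ↥(Gamma0 N), ∀ hm : lrι (γ : SL(2, ℤ)) ∈ lrG N q, χ ⟨lrι γ, hm⟩ = χ₁ γ) ∧
      (∀ γ : ↥(Gamma0 N), ∀ hm : lrConj q (lrι (γ : SL(2, ℤ))) ∈ lrG N q,
        χ ⟨lrConj q (lrι γ), hm⟩ = χ₂ γ) := by
  have hinjB : Function.Injective ((lrConj q).comp lrι) :=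
    (lrConj_injective q).comp lrι_injective
  let eA : ↥(Gamma0 N) ≃* ↥(lrA N) := (Gamma0 N).equivMapOfInjective lrι lrι_injective
  let eB : ↥(Gamma0 N) ≃* ↥(lrB N q) :=
    (Gamma0 N).equivMapOfInjective ((lrConj q).comp lrι) hinjB
  have heA : ∀ γ : ↥(Gamma0 N), ((eA γ : ↥(lrA N)) : SL(2, ℚ)) = lrι γ := fun γ => rfl
  have heB : ∀ γ : ↥(Gamma0 N), ((eB γ : ↥(lrB N q)) : SL(2, ℚ)) = lrConj q (lrι γ) :=
    fun γ => rfl
  obtain ⟨χ, hχ1, hχ2⟩ := lr_pingpong_ext (lr_am_pp N q hNq)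
    (χ₁.comp eA.symm.toMonoidHom) (χ₂.comp eB.symm.toMonoidHom) (by
      intro a b hab
      obtain ⟨γ₁, rfl⟩ := eA.surjective a
      obtain ⟨γ₂, rfl⟩ := eB.surjective b
      simp only [MonoidHom.comp_apply, MulEquiv.coe_toMonoidHom, MulEquiv.symm_apply_apply]
      apply h
      rw [← heA, ← heB]
      exact hab)
  refine ⟨χ, ?_, ?_⟩
  · intro γ hm
    have := hχ1 (eA γ)
    simp only [MonoidHom.comp_apply, MulEquiv.coe_toMonoidHom, MulEquiv.symm_apply_apply] at this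
    exact this
  · intro γ hm
    have := hχ2 (eB γ)
    simp only [MonoidHom.comp_apply, MulEquiv.coe_toMonoidHom, MulEquiv.symm_apply_apply] at this
    exact this

theorem lr_am_A_le_G : lrA N ≤ lrG N q := le_sup_left

theorem lr_am_B_le_G : lrB N q ≤ lrG N q := le_sup_right

theorem lrι_mem_G {γ : SL(2, ℤ)} (hγ : γ ∈ Gamma0 N) : lrι γ ∈ lrG N q :=
  lr_am_A_le_G N q ((lr_am_mem_A N).mpr ⟨γ, hγ, rfl⟩)

theorem lrConj_mem_G {γ : SL(2, ℤ)} (hγ : γ ∈ Gamma0 N) : lrConj q (lrι γ) ∈ lrG N q :=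
  lr_am_B_le_G N q ((lr_am_mem_B N q).mpr ⟨γ, hγ, rfl⟩)

end Main

end LR
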