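import Fermat.Agent.Lib.LR_Amalgam

/-!
# Explicit description of `lrG N q = Γ₀(N)[1/q]`

`g ∈ lrG N q` iff the entries of `g` lie in `ℤ[1/q]` and the lower-left entry is divisible by `N`
(in `ℤ[1/q]`): `∃ k P, q^k • g = P` (integral) `∧ N ∣ P 1 0`.  The nontrivial inclusion is a
Euclid-type descent on the exponent of the `q`-denominator.
-/

set_option autoImplicit false
set_option linter.unusedSectionVars false

open CongruenceSubgroup Matrix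
open scoped MatrixGroups

namespace LR

section Gen

variable (N q : ℕ) [Fact q.Prime]

/-- The membership predicate of `Γ₀(N)[1/q]`. -/
def LrAmInt (g : SL(2, ℚ)) : Prop :=
  ∃ (k : ℕ) (P : Matrix (Fin 2) (Fin 2) ℤ),
    (∀ i j, (q : ℚ) ^ k * g i j = (P i j : ℚ)) ∧ (N : ℤ) ∣ P 1 0

theorem lr_am_int_one : LrAmInt N q 1 := by
  refine ⟨0, 1, ?_, ?_⟩
  · intro i j
    fin_cases i <;> fin_cases j <;> simp
  · simp

theorem lr_am_int_mul {g h : SL(2, ℚ)} (hg : LrAmInt N q g) (hh : LrAmInt N q h) :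
    LrAmInt N q (g * h) := by
  obtain ⟨k, P, hP, hPN⟩ := hg
  obtain ⟨l, R, hR, hRN⟩ := hh
  refine ⟨k + l, P * R, ?_, ?_⟩
  · intro i j
    rw [Matrix.SpecialLinearGroup.coe_mul, Matrix.mul_apply, Matrix.mul_apply, Fin.sum_univ_two,
      Fin.sum_univ_two]
    push_cast
    rw [← hP i 0, ← hP i 1, ← hR 0 j, ← hR 1 j, pow_add]
    ring
  · rw [Matrix.mul_apply, Fin.sum_univ_two]
    exact dvd_add (Dvd.dvd.mul_right hPN _) (Dvd.dvd.mul_left hRN _)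

theorem lr_am_inv_apply (g : SL(2, ℚ)) :
    (g⁻¹ : SL(2, ℚ)) 0 0 = g 1 1 ∧ (g⁻¹ : SL(2, ℚ)) 0 1 = - g 0 1 ∧
    (g⁻¹ : SL(2, ℚ)) 1 0 = - g 1 0 ∧ (g⁻¹ : SL(2, ℚ)) 1 1 = g 0 0 := by
  rw [Matrix.SpecialLinearGroup.coe_inv, Matrix.adjugate_fin_two]
  simp

theorem lr_am_int_inv {g : SL(2, ℚ)} (hg : LrAmInt N q g) : LrAmInt N q g⁻¹ := by
  obtain ⟨k, P, hP, hPN⟩ := hg
  obtain ⟨h00, h01, h10, h11⟩ := lr_am_inv_apply g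
  refine ⟨k, !![P 1 1, - P 0 1; - P 1 0, P 0 0], ?_, ?_⟩
  · intro i j
    fin_cases i <;> fin_cases j
    · show (q : ℚ) ^ k * (g⁻¹ : SL(2, ℚ)) 0 0 = ((P 1 1 : ℤ) : ℚ)
      rw [h00, hP]
    · show (q : ℚ) ^ k * (g⁻¹ : SL(2, ℚ)) 0 1 = ((- P 0 1 : ℤ) : ℚ)
      rw [h01, mul_neg, hP]
      push_cast
      ring
    · show (q : ℚ) ^ k * (g⁻¹ : SL(2, ℚ)) 1 0 = ((- P 1 0 : ℤ) : ℚ)
      rw [h10, mul_neg, hP]
      push_cast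
      ring
    · show (q : ℚ) ^ k * (g⁻¹ : SL(2, ℚ)) 1 1 = ((P 0 0 : ℤ) : ℚ)
      rw [h11, hP]
  · show (N : ℤ) ∣ - P 1 0
    exact (dvd_neg).mpr hPN

/-- `Γ₀(N)[1/q]` defined by integrality conditions. -/
def lrGE : Subgroup SL(2, ℚ) where
  carrier := {g | LrAmInt N q g}
  mul_mem' := fun hg hh => lr_am_int_mul N q hg hh
  one_mem' := lr_am_int_one N q
  inv_mem' := fun hg => lr_am_int_inv N q hg

theorem lr_mem_GE {g : SL(2, ℚ)} : g ∈ lrGE N q ↔ LrAmInt N q g := Iff.rfl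

theorem lr_am_A_le_GE : lrA N ≤ lrGE N q := by
  intro g hg
  obtain ⟨a, ha, rfl⟩ := (lr_am_mem_A N).mp hg
  refine ⟨0, (a : Matrix (Fin 2) (Fin 2) ℤ), ?_, ?_⟩
  · intro i j
    rw [lrι_apply, pow_zero, one_mul]
  · have := (Gamma0_mem).mp ha
    exact (ZMod.intCast_zmod_eq_zero_iff_dvd _ _).mp this

theorem lr_am_B_le_GE : lrB N q ≤ lrGE N q := by
  have hqQ : (q : ℚ) ≠ 0 := Nat.cast_ne_zero.mpr (Fact.out : q.Prime).ne_zero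
  intro g hg
  obtain ⟨a, ha, rfl⟩ := (lr_am_mem_B N q).mp hg
  have hN : (N : ℤ) ∣ a 1 0 := by
    have := (Gamma0_mem).mp ha
    exact (ZMod.intCast_zmod_eq_zero_iff_dvd _ _).mp this
  refine ⟨1, !![(q : ℤ) * a 0 0, a 0 1; (q : ℤ) ^ 2 * a 1 0, (q : ℤ) * a 1 1], ?_, ?_⟩
  · intro i j
    fin_cases i <;> fin_cases j
    · show (q : ℚ) ^ 1 * (lrConj q (lrι a)) 0 0 = (((q : ℤ) * a 0 0 : ℤ) : ℚ)
      rw [lrConj_00, lrι_apply]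
      push_cast
      ring
    · show (q : ℚ) ^ 1 * (lrConj q (lrι a)) 0 1 = ((a 0 1 : ℤ) : ℚ)
      rw [lrConj_01, lrι_apply]
      field_simp
    · show (q : ℚ) ^ 1 * (lrConj q (lrι a)) 1 0 = (((q : ℤ) ^ 2 * a 1 0 : ℤ) : ℚ)
      rw [lrConj_10, lrι_apply]
      push_cast
      ring
    · show (q : ℚ) ^ 1 * (lrConj q (lrι a)) 1 1 = (((q : ℤ) * a 1 1 : ℤ) : ℚ)
      rw [lrConj_11, lrι_apply]
      push_cast
      ring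
  · show (N : ℤ) ∣ (q : ℤ) ^ 2 * a 1 0
    exact Dvd.dvd.mul_left hN _

theorem lr_am_G_le_GE : lrG N q ≤ lrGE N q :=
  sup_le (lr_am_A_le_GE N q) (lr_am_B_le_GE N q)


/-! ### The descent -/

theorem lr_am_dvd_iff (n : ℤ) : (q : ℤ) ∣ n ↔ ((n : ℤ) : ZMod q) = 0 :=
  (ZMod.intCast_zmod_eq_zero_iff_dvd n q).symm

theorem lr_am_N_ne (hNq : N.Coprime q) : ((N : ℤ) : ZMod q) ≠ 0 := by
  rw [Ne, ← lr_am_dvd_iff]
  intro h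
  have h1 : q ∣ N := by exact_mod_cast h
  have h2 : q ∣ Nat.gcd N q := Nat.dvd_gcd h1 dvd_rfl
  rw [hNq] at h2
  exact (Fact.out : q.Prime).one_lt.ne' (Nat.dvd_one.mp h2)

/-- Column operation: a matrix of `Γ₀(N)` whose first column lies in the kernel mod `q`. -/
theorem lr_am_K1 (hNq : N.Coprime q) (a b c d : ℤ) (hdet : (q : ℤ) ∣ a * d - b * c) :
    ∃ x y z w : ℤ, x * w - y * z = 1 ∧ (N : ℤ) ∣ z ∧
      (q : ℤ) ∣ a * x + b * z ∧ (q : ℤ) ∣ c * x + d * z := by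
  by_cases hac : (q : ℤ) ∣ a ∧ (q : ℤ) ∣ c
  · exact ⟨1, 0, 0, 1, by ring, dvd_zero _, by simpa using hac.1, by simpa using hac.2⟩
  · -- a kernel vector (x₀, z₀) with q ∤ z₀
    obtain ⟨x₀, z₀, hz₀, h1, h2⟩ : ∃ x₀ z₀ : ℤ, ¬ (q : ℤ) ∣ z₀ ∧
        (q : ℤ) ∣ a * x₀ + b * z₀ ∧ (q : ℤ) ∣ c * x₀ + d * z₀ := by
      by_cases ha : (q : ℤ) ∣ a
      · have hc : ¬ (q : ℤ) ∣ c := fun hc => hac ⟨ha, hc⟩
        refine ⟨d, -c, by rwa [dvd_neg], ?_, ?_⟩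
        · have : a * d + b * -c = a * d - b * c := by ring
          rw [this]; exact hdet
        · have : c * d + d * -c = 0 := by ring
          rw [this]; exact dvd_zero _
      · refine ⟨-b, a, ha, ?_, ?_⟩
        · have : a * -b + b * a = 0 := by ring
          rw [this]; exact dvd_zero _
        · have : c * -b + d * a = a * d - b * c := by ring
          rw [this]; exact hdet
    have hN0 := lr_am_N_ne N q hNq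
    have hz0 : ((z₀ : ℤ) : ZMod q) ≠ 0 := by rwa [Ne, ← lr_am_dvd_iff]
    rw [lr_am_dvd_iff] at h1 h2
    push_cast at h1 h2
    obtain ⟨j, hj⟩ := ZMod.intCast_surjective
      ((((N : ℤ) : ZMod q) * (x₀ : ZMod q) * (z₀ : ZMod q)⁻¹ - 1) * ((N : ℤ) : ZMod q)⁻¹)
    have hNi : ((N : ℤ) : ZMod q) * ((N : ℤ) : ZMod q)⁻¹ = 1 := mul_inv_cancel₀ hN0
    have hzi : ((z₀ : ℤ) : ZMod q) * ((z₀ : ℤ) : ZMod q)⁻¹ = 1 := mul_inv_cancel₀ hz0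
    have hx : (((1 + N * j : ℤ) : ℤ) : ZMod q) =
        ((N : ℤ) : ZMod q) * (x₀ : ZMod q) * (z₀ : ZMod q)⁻¹ := by
      push_cast
      rw [hj]
      push_cast at hNi ⊢
      linear_combination ((N : ZMod q) * (x₀ : ZMod q) * (z₀ : ZMod q)⁻¹ - 1) * hNi
    refine ⟨1 + N * j, j, N, 1, by ring, dvd_rfl, ?_, ?_⟩
    · rw [lr_am_dvd_iff]
      push_cast at hx hzi ⊢
      rw [hx]
      linear_combination ((N : ZMod q) * (z₀ : ZMod q)⁻¹) * h1 - ((b : ZMod q) * N) * hzi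
    · rw [lr_am_dvd_iff]
      push_cast at hx hzi ⊢
      rw [hx]
      linear_combination ((N : ZMod q) * (z₀ : ZMod q)⁻¹) * h2 - ((d : ZMod q) * N) * hzi

/-- Column operation: a matrix of `Γ₀(N)` whose second column lies in the kernel mod `q`. -/
theorem lr_am_K2 (hNq : N.Coprime q) (u₁ v₁ u₂ v₂ : ℤ) (hdet : (q : ℤ) ∣ u₁ * v₂ - v₁ * u₂) :
    ∃ α β γ δ : ℤ, α * δ - β * γ = 1 ∧ (N : ℤ) ∣ γ ∧
      (q : ℤ) ∣ u₁ * β + v₁ * δ ∧ (q : ℤ) ∣ u₂ * β + v₂ * δ := by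
  by_cases hv : (q : ℤ) ∣ v₁ ∧ (q : ℤ) ∣ v₂
  · exact ⟨1, 0, 0, 1, by ring, dvd_zero _, by simpa using hv.1, by simpa using hv.2⟩
  · obtain ⟨β₀, δ₀, hβ₀, h1, h2⟩ : ∃ β₀ δ₀ : ℤ, ¬ (q : ℤ) ∣ β₀ ∧
        (q : ℤ) ∣ u₁ * β₀ + v₁ * δ₀ ∧ (q : ℤ) ∣ u₂ * β₀ + v₂ * δ₀ := by
      by_cases hv1 : (q : ℤ) ∣ v₁
      · have hv2 : ¬ (q : ℤ) ∣ v₂ := fun h => hv ⟨hv1, h⟩
        refine ⟨v₂, -u₂, hv2, ?_, ?_⟩
        · have : u₁ * v₂ + v₁ * -u₂ = u₁ * v₂ - v₁ * u₂ := by ring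
          rw [this]; exact hdet
        · have : u₂ * v₂ + v₂ * -u₂ = 0 := by ring
          rw [this]; exact dvd_zero _
      · refine ⟨-v₁, u₁, by rwa [dvd_neg], ?_, ?_⟩
        · have : u₁ * -v₁ + v₁ * u₁ = 0 := by ring
          rw [this]; exact dvd_zero _
        · have : u₂ * -v₁ + v₂ * u₁ = u₁ * v₂ - v₁ * u₂ := by ring
          rw [this]; exact hdet
    have hN0 := lr_am_N_ne N q hNq
    have hb0 : ((β₀ : ℤ) : ZMod q) ≠ 0 := by rwa [Ne, ← lr_am_dvd_iff]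
    rw [lr_am_dvd_iff] at h1 h2
    push_cast at h1 h2
    obtain ⟨j, hj⟩ := ZMod.intCast_surjective
      (((δ₀ : ZMod q) * (β₀ : ZMod q)⁻¹ - 1) * ((N : ℤ) : ZMod q)⁻¹)
    have hNi : ((N : ℤ) : ZMod q) * ((N : ℤ) : ZMod q)⁻¹ = 1 := mul_inv_cancel₀ hN0
    have hbi : ((β₀ : ℤ) : ZMod q) * ((β₀ : ℤ) : ZMod q)⁻¹ = 1 := mul_inv_cancel₀ hb0
    have hx : (((1 + N * j : ℤ) : ℤ) : ZMod q) = (δ₀ : ZMod q) * (β₀ : ZMod q)⁻¹ := by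
      push_cast
      rw [hj]
      push_cast at hNi ⊢
      linear_combination ((δ₀ : ZMod q) * (β₀ : ZMod q)⁻¹ - 1) * hNi
    refine ⟨1, 1, N * j, 1 + N * j, by ring, Dvd.intro _ rfl, ?_, ?_⟩
    · rw [lr_am_dvd_iff]
      push_cast at hx hbi ⊢
      rw [hx]
      linear_combination ((β₀ : ZMod q)⁻¹) * h1 - (u₁ : ZMod q) * hbi
    · rw [lr_am_dvd_iff]
      push_cast at hx hbi ⊢
      rw [hx]
      linear_combination ((β₀ : ZMod q)⁻¹) * h2 - (u₂ : ZMod q) * hbi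


theorem lr_am_mul3 (g X Y : SL(2, ℚ)) (i j : Fin 2) :
    (g * X * Y) i j = (g i 0 * X 0 0 + g i 1 * X 1 0) * Y 0 j +
      (g i 0 * X 0 1 + g i 1 * X 1 1) * Y 1 j := by
  simp only [Matrix.SpecialLinearGroup.coe_mul, Matrix.mul_apply, Fin.sum_univ_two]

theorem lr_am_e0 (q Q qm gi0 gi1 pi0 pi1 x y z w α γ u v : ℚ)
    (hqm : qm * q = Q) (h0 : Q * gi0 = pi0) (h1 : Q * gi1 = pi1)
    (hu : pi0 * x + pi1 * z = q * u) (hv : v = pi0 * y + pi1 * w) (hq : q ≠ 0) :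
    qm * ((gi0 * x + gi1 * z) * α + (gi0 * y + gi1 * w) * (q * γ)) = u * α + v * γ := by
  apply mul_left_cancel₀ hq
  linear_combination ((gi0 * x + gi1 * z) * α + (gi0 * y + gi1 * w) * (q * γ)) * hqm +
    (x * α + y * q * γ) * h0 + (z * α + w * q * γ) * h1 + α * hu - q * γ * hv

theorem lr_am_e1 (q Q qm gi0 gi1 pi0 pi1 x y z w β δ u v w2 : ℚ)
    (hqm : qm * q = Q) (h0 : Q * gi0 = pi0) (h1 : Q * gi1 = pi1)
    (hu : pi0 * x + pi1 * z = q * u) (hv : v = pi0 * y + pi1 * w)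
    (hw2 : u * β + v * δ = q * w2) (hq : q ≠ 0) :
    qm * ((gi0 * x + gi1 * z) * (β / q) + (gi0 * y + gi1 * w) * δ) = w2 := by
  apply mul_left_cancel₀ hq
  have hqi : q * q⁻¹ = 1 := mul_inv_cancel₀ hq
  rw [div_eq_mul_inv]
  linear_combination ((gi0 * x + gi1 * z) * (β * q⁻¹) + (gi0 * y + gi1 * w) * δ) * hqm +
    (x * β * q⁻¹ + y * δ) * h0 + (z * β * q⁻¹ + w * δ) * h1 + β * q⁻¹ * hu - δ * hv +
    u * β * hqi + hw2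

/-- The descent: an element with `q^m • g` integral and `N ∣ c` lies in `⟨Γ₀(N), δ⁻¹Γ₀(N)δ⟩`. -/
theorem lr_am_descent (hNq : N.Coprime q) : ∀ (m : ℕ) (g : SL(2, ℚ))
    (P : Matrix (Fin 2) (Fin 2) ℤ), (∀ i j, (q : ℚ) ^ m * g i j = (P i j : ℚ)) →
    (N : ℤ) ∣ P 1 0 → g ∈ lrG N q := by
  intro m
  induction m with
  | zero =>
    intro g P hP hPN
    have hP' : ∀ i j, g i j = (P i j : ℚ) := by
      intro i j
      have := hP i j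
      simpa using this
    have hdet : P.det = 1 := by
      rw [Matrix.det_fin_two]
      have := lr_am_det g
      rw [hP', hP', hP', hP'] at this
      exact_mod_cast this
    obtain ⟨a, ha⟩ : ∃ a : SL(2, ℤ), ∀ i j, a i j = P i j := ⟨⟨P, hdet⟩, fun _ _ => rfl⟩
    have hmem : a ∈ Gamma0 N := by
      rw [Gamma0_mem, ha]
      exact (ZMod.intCast_zmod_eq_zero_iff_dvd _ _).mpr hPN
    have : lrι a = g := by
      ext i j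
      rw [lrι_apply, ha]
      exact (hP' i j).symm
    rw [← this]
    exact lrι_mem_G N q hmem
  | succ m ih =>
    intro g P hP hPN
    have hqQ : (q : ℚ) ≠ 0 := Nat.cast_ne_zero.mpr (Fact.out : q.Prime).ne_zero
    have hqZ : (q : ℤ) ≠ 0 := by exact_mod_cast (Fact.out : q.Prime).ne_zero
    have hdetP : P 0 0 * P 1 1 - P 0 1 * P 1 0 = (q : ℤ) ^ (2 * m + 2) := by
      have h1 := lr_am_det g
      have e : ((P 0 0 * P 1 1 - P 0 1 * P 1 0 : ℤ) : ℚ) =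
          ((q : ℚ) ^ (m + 1)) ^ 2 * (g 0 0 * g 1 1 - g 0 1 * g 1 0) := by
        push_cast
        rw [← hP 0 0, ← hP 1 1, ← hP 0 1, ← hP 1 0]
        ring
      rw [h1, mul_one] at e
      have e2 : ((P 0 0 * P 1 1 - P 0 1 * P 1 0 : ℤ) : ℚ) = (((q : ℤ) ^ (2 * m + 2) : ℤ) : ℚ) := by
        rw [e]
        push_cast
        ring
      exact_mod_cast e2
    have hdvd1 : (q : ℤ) ∣ P 0 0 * P 1 1 - P 0 1 * P 1 0 := by
      rw [hdetP]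
      exact dvd_pow_self _ (by omega)
    obtain ⟨x, y, z, w, hA1, hzN, ⟨u₁, hu₁⟩, ⟨u₂, hu₂⟩⟩ :=
      lr_am_K1 N q hNq (P 0 0) (P 0 1) (P 1 0) (P 1 1) hdvd1
    obtain ⟨v₁, hv₁⟩ : ∃ v₁ : ℤ, v₁ = P 0 0 * y + P 0 1 * w := ⟨_, rfl⟩
    obtain ⟨v₂, hv₂⟩ : ∃ v₂ : ℤ, v₂ = P 1 0 * y + P 1 1 * w := ⟨_, rfl⟩
    have hdet' : (q : ℤ) * (u₁ * v₂ - v₁ * u₂) = (q : ℤ) ^ (2 * m + 2) := by
      rw [← hdetP]
      have e : (q : ℤ) * (u₁ * v₂ - v₁ * u₂) = (q * u₁) * v₂ - v₁ * (q * u₂) := by ring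
      rw [e, ← hu₁, ← hu₂, hv₁, hv₂]
      linear_combination (P 0 0 * P 1 1 - P 0 1 * P 1 0) * hA1
    have hdvd2 : (q : ℤ) ∣ u₁ * v₂ - v₁ * u₂ := by
      have e : u₁ * v₂ - v₁ * u₂ = (q : ℤ) ^ (2 * m + 1) := by
        apply mul_left_cancel₀ hqZ
        rw [hdet']
        ring
      rw [e]
      exact dvd_pow_self _ (by omega)
    obtain ⟨α, β, γ, δ, hA2, hγN, ⟨w1, hw1⟩, ⟨w2, hw2⟩⟩ :=
      lr_am_K2 N q hNq u₁ v₁ u₂ v₂ hdvd2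
    let A₁ : SL(2, ℤ) := ⟨!![x, y; z, w], by rw [Matrix.det_fin_two_of]; exact hA1⟩
    let A₂ : SL(2, ℤ) := ⟨!![α, β; γ, δ], by rw [Matrix.det_fin_two_of]; exact hA2⟩
    have hA₁ : A₁ ∈ Gamma0 N := by
      rw [Gamma0_mem]
      exact (ZMod.intCast_zmod_eq_zero_iff_dvd _ _).mpr hzN
    have hA₂ : A₂ ∈ Gamma0 N := by
      rw [Gamma0_mem]
      exact (ZMod.intCast_zmod_eq_zero_iff_dvd _ _).mpr hγN
    have hX : lrι A₁ ∈ lrG N q := lrι_mem_G N q hA₁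
    have hY : lrConj q (lrι A₂) ∈ lrG N q := lrConj_mem_G N q hA₂
    have hX00 : (lrι A₁) 0 0 = (x : ℚ) := lrι_apply A₁ 0 0
    have hX01 : (lrι A₁) 0 1 = (y : ℚ) := lrι_apply A₁ 0 1
    have hX10 : (lrι A₁) 1 0 = (z : ℚ) := lrι_apply A₁ 1 0
    have hX11 : (lrι A₁) 1 1 = (w : ℚ) := lrι_apply A₁ 1 1
    have hY00 : (lrConj q (lrι A₂)) 0 0 = (α : ℚ) := by
      rw [lrConj_00]; exact lrι_apply A₂ 0 0
    have hY01 : (lrConj q (lrι A₂)) 0 1 = (β : ℚ) / q := by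
      rw [lrConj_01]; exact congrArg (· / (q : ℚ)) (lrι_apply A₂ 0 1)
    have hY10 : (lrConj q (lrι A₂)) 1 0 = (q : ℚ) * (γ : ℚ) := by
      rw [lrConj_10]; exact congrArg ((q : ℚ) * ·) (lrι_apply A₂ 1 0)
    have hY11 : (lrConj q (lrι A₂)) 1 1 = (δ : ℚ) := by
      rw [lrConj_11]; exact lrι_apply A₂ 1 1
    have hqm : (q : ℚ) ^ m * (q : ℚ) = (q : ℚ) ^ (m + 1) := by ring
    have hu₁Q : ((P 0 0 : ℤ) : ℚ) * x + (P 0 1 : ℤ) * z = (q : ℚ) * u₁ := by exact_mod_cast hu₁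
    have hu₂Q : ((P 1 0 : ℤ) : ℚ) * x + (P 1 1 : ℤ) * z = (q : ℚ) * u₂ := by exact_mod_cast hu₂
    have hv₁Q : (v₁ : ℚ) = ((P 0 0 : ℤ) : ℚ) * y + (P 0 1 : ℤ) * w := by exact_mod_cast hv₁
    have hv₂Q : (v₂ : ℚ) = ((P 1 0 : ℤ) : ℚ) * y + (P 1 1 : ℤ) * w := by exact_mod_cast hv₂
    have hw1Q : (u₁ : ℚ) * β + v₁ * δ = (q : ℚ) * w1 := by exact_mod_cast hw1
    have hw2Q : (u₂ : ℚ) * β + v₂ * δ = (q : ℚ) * w2 := by exact_mod_cast hw2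
    have key : g * lrι A₁ * lrConj q (lrι A₂) ∈ lrG N q := by
      apply ih (g * lrι A₁ * lrConj q (lrι A₂)) !![u₁ * α + v₁ * γ, w1; u₂ * α + v₂ * γ, w2]
      · intro i j
        rw [lr_am_mul3, hX00, hX01, hX10, hX11]
        fin_cases i <;> fin_cases j
        · show (q : ℚ) ^ m * ((g 0 0 * x + g 0 1 * z) * (lrConj q (lrι A₂)) 0 0 +
            (g 0 0 * y + g 0 1 * w) * (lrConj q (lrι A₂)) 1 0) = ((u₁ * α + v₁ * γ : ℤ) : ℚ)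
          rw [hY00, hY10]
          push_cast
          exact lr_am_e0 _ _ _ _ _ _ _ _ _ _ _ _ _ _ _ hqm (hP 0 0) (hP 0 1) hu₁Q hv₁Q hqQ
        · show (q : ℚ) ^ m * ((g 0 0 * x + g 0 1 * z) * (lrConj q (lrι A₂)) 0 1 +
            (g 0 0 * y + g 0 1 * w) * (lrConj q (lrι A₂)) 1 1) = ((w1 : ℤ) : ℚ)
          rw [hY01, hY11]
          exact lr_am_e1 _ _ _ _ _ _ _ _ _ _ _ _ _ _ _ _ hqm (hP 0 0) (hP 0 1) hu₁Q hv₁Q hw1Q hqQ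
        · show (q : ℚ) ^ m * ((g 1 0 * x + g 1 1 * z) * (lrConj q (lrι A₂)) 0 0 +
            (g 1 0 * y + g 1 1 * w) * (lrConj q (lrι A₂)) 1 0) = ((u₂ * α + v₂ * γ : ℤ) : ℚ)
          rw [hY00, hY10]
          push_cast
          exact lr_am_e0 _ _ _ _ _ _ _ _ _ _ _ _ _ _ _ hqm (hP 1 0) (hP 1 1) hu₂Q hv₂Q hqQ
        · show (q : ℚ) ^ m * ((g 1 0 * x + g 1 1 * z) * (lrConj q (lrι A₂)) 0 1 +
            (g 1 0 * y + g 1 1 * w) * (lrConj q (lrι A₂)) 1 1) = ((w2 : ℤ) : ℚ)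
          rw [hY01, hY11]
          exact lr_am_e1 _ _ _ _ _ _ _ _ _ _ _ _ _ _ _ _ hqm (hP 1 0) (hP 1 1) hu₂Q hv₂Q hw2Q hqQ
      · show (N : ℤ) ∣ u₂ * α + v₂ * γ
        have hcop : IsCoprime (N : ℤ) (q : ℤ) := by
          exact_mod_cast (Nat.isCoprime_iff_coprime.mpr hNq)
        have h1 : (N : ℤ) ∣ (q : ℤ) * u₂ := by
          rw [← hu₂]
          exact dvd_add (Dvd.dvd.mul_right hPN _) (Dvd.dvd.mul_left hzN _)
        have h2 : (N : ℤ) ∣ u₂ := hcop.dvd_of_dvd_mul_left h1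
        exact dvd_add (Dvd.dvd.mul_right h2 _) (Dvd.dvd.mul_left hγN _)
    have e : g = (g * lrι A₁ * lrConj q (lrι A₂)) * (lrConj q (lrι A₂))⁻¹ * (lrι A₁)⁻¹ := by
      group
    rw [e]
    exact mul_mem (mul_mem key (inv_mem hY)) (inv_mem hX)

theorem lr_am_GE_le_G (hNq : N.Coprime q) : lrGE N q ≤ lrG N q := by
  intro g hg
  obtain ⟨k, P, hP, hPN⟩ := hg
  exact lr_am_descent N q hNq k g P hP hPN

/-- `⟨Γ₀(N), δ⁻¹Γ₀(N)δ⟩ = Γ₀(N)[1/q]`. -/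
theorem lrG_eq_lrGE (hNq : N.Coprime q) : lrG N q = lrGE N q :=
  le_antisymm (lr_am_G_le_GE N q) (lr_am_GE_le_G N q hNq)

/-- **Explicit description of `lrG N q`**: entries in `ℤ[1/q]`, lower-left entry divisible by
`N`. -/
theorem lr_mem_G_iff (hNq : N.Coprime q) {g : SL(2, ℚ)} :
    g ∈ lrG N q ↔ ∃ (k : ℕ) (P : Matrix (Fin 2) (Fin 2) ℤ),
      (∀ i j, (q : ℚ) ^ k * g i j = (P i j : ℚ)) ∧ (N : ℤ) ∣ P 1 0 := by
  rw [lrG_eq_lrGE N q hNq]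
  rfl


/-- Convenient membership criterion: exhibit `k` and the four integers `q^k • g`. -/
theorem lr_mem_G_of (hNq : N.Coprime q) (g : SL(2, ℚ)) (k : ℕ) (a b c d : ℤ)
    (h00 : (q : ℚ) ^ k * g 0 0 = a) (h01 : (q : ℚ) ^ k * g 0 1 = b)
    (h10 : (q : ℚ) ^ k * g 1 0 = c) (h11 : (q : ℚ) ^ k * g 1 1 = d)
    (hN : (N : ℤ) ∣ c) : g ∈ lrG N q := by
  rw [lr_mem_G_iff N q hNq]
  refine ⟨k, !![a, b; c, d], ?_, hN⟩
  intro i j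
  fin_cases i <;> fin_cases j
  · exact h00
  · exact h01
  · exact h10
  · exact h11

/-- Upper unipotent `u⁺(x) = (1 x; 0 1)`. -/
def lrUp (x : ℚ) : SL(2, ℚ) := ⟨!![1, x; 0, 1], by simp [Matrix.det_fin_two_of]⟩

/-- Lower unipotent `u⁻(x) = (1 0; x 1)`. -/
def lrLow (x : ℚ) : SL(2, ℚ) := ⟨!![1, 0; x, 1], by simp [Matrix.det_fin_two_of]⟩

/-- The torus element `diag(q, q⁻¹)`. -/
def lrTorus : SL(2, ℚ) := ⟨!![(q : ℚ), 0; 0, (q : ℚ)⁻¹], by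
  have hq : (q : ℚ) ≠ 0 := Nat.cast_ne_zero.mpr (Fact.out : q.Prime).ne_zero
  simp [Matrix.det_fin_two_of, hq]⟩

theorem lrUp_mem (hNq : N.Coprime q) (n : ℤ) (k : ℕ) : lrUp (n / (q : ℚ) ^ k) ∈ lrG N q := by
  have hq : (q : ℚ) ^ k ≠ 0 := pow_ne_zero _ (Nat.cast_ne_zero.mpr (Fact.out : q.Prime).ne_zero)
  refine lr_mem_G_of N q hNq _ k ((q : ℤ) ^ k) n 0 ((q : ℤ) ^ k) ?_ ?_ ?_ ?_ (dvd_zero _)
  · show (q : ℚ) ^ k * 1 = (((q : ℤ) ^ k : ℤ) : ℚ)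
    push_cast; ring
  · show (q : ℚ) ^ k * (n / (q : ℚ) ^ k) = (n : ℚ)
    field_simp
  · show (q : ℚ) ^ k * 0 = ((0 : ℤ) : ℚ)
    simp
  · show (q : ℚ) ^ k * 1 = (((q : ℤ) ^ k : ℤ) : ℚ)
    push_cast; ring

theorem lrLow_mem (hNq : N.Coprime q) (n : ℤ) (k : ℕ) :
    lrLow ((N : ℚ) * n / (q : ℚ) ^ k) ∈ lrG N q := by
  have hq : (q : ℚ) ^ k ≠ 0 := pow_ne_zero _ (Nat.cast_ne_zero.mpr (Fact.out : q.Prime).ne_zero)
  refine lr_mem_G_of N q hNq _ k ((q : ℤ) ^ k) 0 ((N : ℤ) * n) ((q : ℤ) ^ k) ?_ ?_ ?_ ?_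
    (Dvd.intro _ rfl)
  · show (q : ℚ) ^ k * 1 = (((q : ℤ) ^ k : ℤ) : ℚ)
    push_cast; ring
  · show (q : ℚ) ^ k * 0 = ((0 : ℤ) : ℚ)
    simp
  · show (q : ℚ) ^ k * ((N : ℚ) * n / (q : ℚ) ^ k) = (((N : ℤ) * n : ℤ) : ℚ)
    push_cast
    field_simp
  · show (q : ℚ) ^ k * 1 = (((q : ℤ) ^ k : ℤ) : ℚ)
    push_cast; ring

theorem lrTorus_mem (hNq : N.Coprime q) : lrTorus q ∈ lrG N q := by
  have hq : (q : ℚ) ≠ 0 := Nat.cast_ne_zero.mpr (Fact.out : q.Prime).ne_zero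
  refine lr_mem_G_of N q hNq _ 1 ((q : ℤ) ^ 2) 0 0 1 ?_ ?_ ?_ ?_ (dvd_zero _)
  · show (q : ℚ) ^ 1 * (q : ℚ) = (((q : ℤ) ^ 2 : ℤ) : ℚ)
    push_cast; ring
  · show (q : ℚ) ^ 1 * 0 = ((0 : ℤ) : ℚ)
    simp
  · show (q : ℚ) ^ 1 * 0 = ((0 : ℤ) : ℚ)
    simp
  · show (q : ℚ) ^ 1 * (q : ℚ)⁻¹ = ((1 : ℤ) : ℚ)
    simp [hq]

theorem lrUp_apply (x : ℚ) : (lrUp x) 0 0 = 1 ∧ (lrUp x) 0 1 = x ∧ (lrUp x) 1 0 = 0 ∧
    (lrUp x) 1 1 = 1 := ⟨rfl, rfl, rfl, rfl⟩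

theorem lrLow_apply (x : ℚ) : (lrLow x) 0 0 = 1 ∧ (lrLow x) 0 1 = 0 ∧ (lrLow x) 1 0 = x ∧
    (lrLow x) 1 1 = 1 := ⟨rfl, rfl, rfl, rfl⟩

theorem lrTorus_apply : (lrTorus q) 0 0 = q ∧ (lrTorus q) 0 1 = 0 ∧ (lrTorus q) 1 0 = 0 ∧
    (lrTorus q) 1 1 = (q : ℚ)⁻¹ := ⟨rfl, rfl, rfl, rfl⟩

theorem lrUp_add (x y : ℚ) : lrUp (x + y) = lrUp x * lrUp y := by
  apply Subtype.ext
  show (!![1, x + y; 0, 1] : Matrix (Fin 2) (Fin 2) ℚ) = !![1, x; 0, 1] * !![1, y; 0, 1]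
  rw [Matrix.mul_fin_two]
  simp [add_comm]

theorem lrLow_add (x y : ℚ) : lrLow (x + y) = lrLow x * lrLow y := by
  apply Subtype.ext
  show (!![1, 0; x + y, 1] : Matrix (Fin 2) (Fin 2) ℚ) = !![1, 0; x, 1] * !![1, 0; y, 1]
  rw [Matrix.mul_fin_two]
  simp

theorem lrUp_zero : lrUp 0 = 1 := by
  apply Subtype.ext
  show (!![1, 0; 0, 1] : Matrix (Fin 2) (Fin 2) ℚ) = 1
  exact Matrix.one_fin_two.symm

theorem lrLow_zero : lrLow 0 = 1 := by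
  apply Subtype.ext
  show (!![1, 0; 0, 1] : Matrix (Fin 2) (Fin 2) ℚ) = 1
  exact Matrix.one_fin_two.symm

/-- Torus commutation: `t u⁺(x) = u⁺(q² x) t`. -/
theorem lrTorus_mul_up (x : ℚ) :
    lrTorus q * lrUp x = lrUp ((q : ℚ) ^ 2 * x) * lrTorus q := by
  have hq : (q : ℚ) ≠ 0 := Nat.cast_ne_zero.mpr (Fact.out : q.Prime).ne_zero
  apply Subtype.ext
  show (!![(q : ℚ), 0; 0, (q : ℚ)⁻¹] * !![1, x; 0, 1] : Matrix (Fin 2) (Fin 2) ℚ) =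
    !![1, (q : ℚ) ^ 2 * x; 0, 1] * !![(q : ℚ), 0; 0, (q : ℚ)⁻¹]
  rw [Matrix.mul_fin_two, Matrix.mul_fin_two]
  congr 1
  ext i j
  fin_cases i <;> fin_cases j <;> simp
  field_simp

/-- Torus commutation: `u⁻(x) t = t u⁻(q² x)`. -/
theorem lrLow_mul_torus (x : ℚ) :
    lrLow x * lrTorus q = lrTorus q * lrLow ((q : ℚ) ^ 2 * x) := by
  have hq : (q : ℚ) ≠ 0 := Nat.cast_ne_zero.mpr (Fact.out : q.Prime).ne_zero
  apply Subtype.ext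
  show (!![1, 0; x, 1] * !![(q : ℚ), 0; 0, (q : ℚ)⁻¹] : Matrix (Fin 2) (Fin 2) ℚ) =
    !![(q : ℚ), 0; 0, (q : ℚ)⁻¹] * !![1, 0; (q : ℚ) ^ 2 * x, 1]
  rw [Matrix.mul_fin_two, Matrix.mul_fin_two]
  congr 1
  ext i j
  fin_cases i <;> fin_cases j <;> simp
  field_simp

/-- Torus conjugation: `t u⁺(x) t⁻¹ = u⁺(q² x)`. -/
theorem lrTorus_conj_up (x : ℚ) :
    lrTorus q * lrUp x * (lrTorus q)⁻¹ = lrUp ((q : ℚ) ^ 2 * x) := by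
  rw [lrTorus_mul_up, mul_inv_cancel_right]

/-- Torus conjugation: `t⁻¹ u⁻(x) t = u⁻(q² x)`. -/
theorem lrTorus_conj_low (x : ℚ) :
    (lrTorus q)⁻¹ * lrLow x * lrTorus q = lrLow ((q : ℚ) ^ 2 * x) := by
  rw [mul_assoc, lrLow_mul_torus, inv_mul_cancel_left]

end Gen

end LR
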