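import Mathlib

set_option autoImplicit false

open Polynomial
open scoped Polynomial.Bivariate

namespace Fermat.Agent.TW

open WeierstrassCurve WeierstrassCurve.Affine

variable {K : Type*} [Field K] (W : Affine K)

/-! ## Components with respect to the basis `{1, Y}` -/

/-- The `1`-component of an element of the coordinate ring. -/
noncomputable def twP (f : W.CoordinateRing) : K[X] := (CoordinateRing.basis W).repr f 0

/-- The `Y`-component of an element of the coordinate ring. -/
noncomputable def twQ (f : W.CoordinateRing) : K[X] := (CoordinateRing.basis W).repr f 1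

theorem tw_repr (f : W.CoordinateRing) :
    twP W f • (1 : W.CoordinateRing) + twQ W f • CoordinateRing.mk W Y = f := by
  have h := (CoordinateRing.basis W).sum_repr f
  rw [Fin.sum_univ_two, CoordinateRing.basis_zero, CoordinateRing.basis_one] at h
  exact h

theorem twP_smul_basis (p q : K[X]) :
    twP W (p • (1 : W.CoordinateRing) + q • CoordinateRing.mk W Y) = p := by
  have h := tw_repr W (p • (1 : W.CoordinateRing) + q • CoordinateRing.mk W Y)
  have h2 : (twP W (p • (1 : W.CoordinateRing) + q • CoordinateRing.mk W Y) - p) •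
      (1 : W.CoordinateRing) +
      (twQ W (p • (1 : W.CoordinateRing) + q • CoordinateRing.mk W Y) - q) •
        CoordinateRing.mk W Y = 0 := by
    rw [sub_smul, sub_smul]
    linear_combination h
  exact sub_eq_zero.mp (CoordinateRing.smul_basis_eq_zero h2).1

theorem twQ_smul_basis (p q : K[X]) :
    twQ W (p • (1 : W.CoordinateRing) + q • CoordinateRing.mk W Y) = q := by
  have h := tw_repr W (p • (1 : W.CoordinateRing) + q • CoordinateRing.mk W Y)
  have h2 : (twP W (p • (1 : W.CoordinateRing) + q • CoordinateRing.mk W Y) - p) •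
      (1 : W.CoordinateRing) +
      (twQ W (p • (1 : W.CoordinateRing) + q • CoordinateRing.mk W Y) - q) •
        CoordinateRing.mk W Y = 0 := by
    rw [sub_smul, sub_smul]
    linear_combination h
  exact sub_eq_zero.mp (CoordinateRing.smul_basis_eq_zero h2).2

theorem twP_add (f g : W.CoordinateRing) : twP W (f + g) = twP W f + twP W g := by
  simp [twP]

theorem twQ_add (f g : W.CoordinateRing) : twQ W (f + g) = twQ W f + twQ W g := by
  simp [twQ]

theorem twP_smul (c : K) (f : W.CoordinateRing) : twP W (c • f) = C c * twP W f := by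
  have h : c • f = (C c : K[X]) • f := by
    rw [← algebraMap_eq, algebraMap_smul]
  rw [h]
  simp [twP]

theorem twQ_smul (c : K) (f : W.CoordinateRing) : twQ W (c • f) = C c * twQ W f := by
  have h : c • f = (C c : K[X]) • f := by
    rw [← algebraMap_eq, algebraMap_smul]
  rw [h]
  simp [twQ]


/-! ## The symbol map -/

/-- The symbol map: `p • 1 + q • Y ↦ p(X²) + X³ q(X²)` (weights `2` for `x` and `3` for `y`). -/
noncomputable def twTau : W.CoordinateRing →ₗ[K] K[X] where
  toFun f := expand K 2 (twP W f) + X ^ 3 * expand K 2 (twQ W f)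
  map_add' f g := by
    rw [twP_add, twQ_add, map_add, map_add]; ring
  map_smul' c f := by
    rw [twP_smul, twQ_smul, map_mul, map_mul, expand_C, RingHom.id_apply, smul_eq_C_mul]; ring

theorem twTau_apply (f : W.CoordinateRing) :
    twTau W f = expand K 2 (twP W f) + X ^ 3 * expand K 2 (twQ W f) := rfl

theorem twTau_smul_basis (p q : K[X]) :
    twTau W (p • (1 : W.CoordinateRing) + q • CoordinateRing.mk W Y) =
      expand K 2 p + X ^ 3 * expand K 2 q := by
  rw [twTau_apply, twP_smul_basis, twQ_smul_basis]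

theorem tw_Y_sq : CoordinateRing.mk W Y * CoordinateRing.mk W Y =
    CoordinateRing.mk W (C (X ^ 3 + C W.a₂ * X ^ 2 + C W.a₄ * X + C W.a₆)) -
      CoordinateRing.mk W (C (C W.a₁ * X + C W.a₃)) * CoordinateRing.mk W Y := by
  have h := CoordinateRing.smul_basis_mul_Y (W' := W) 0 1
  simp only [CoordinateRing.smul, zero_smul, zero_add, one_smul, one_mul, zero_sub, map_neg,
    neg_mul] at h
  rw [h]; ring

theorem tw_mul_basis (p₁ q₁ p₂ q₂ : K[X]) :
    (p₁ • (1 : W.CoordinateRing) + q₁ • CoordinateRing.mk W Y) *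
        (p₂ • (1 : W.CoordinateRing) + q₂ • CoordinateRing.mk W Y) =
      (p₁ * p₂ + q₁ * q₂ * (X ^ 3 + C W.a₂ * X ^ 2 + C W.a₄ * X + C W.a₆)) •
          (1 : W.CoordinateRing) +
        (p₁ * q₂ + p₂ * q₁ - q₁ * q₂ * (C W.a₁ * X + C W.a₃)) • CoordinateRing.mk W Y := by
  have h := tw_Y_sq W
  simp only [CoordinateRing.smul, map_add, map_sub, map_mul, map_pow, mul_one] at h ⊢
  linear_combination (CoordinateRing.mk W (C q₁) * CoordinateRing.mk W (C q₂)) * h

/-- The error polynomial of the symbol map. -/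
noncomputable def twErr : K[X] :=
  -C W.a₁ * X ^ 5 + C W.a₂ * X ^ 4 - C W.a₃ * X ^ 3 + C W.a₄ * X ^ 2 + C W.a₆

theorem twTau_mul (f g : W.CoordinateRing) :
    twTau W (f * g) = twTau W f * twTau W g + expand K 2 (twQ W f * twQ W g) * twErr W := by
  conv_lhs => rw [← tw_repr W f, ← tw_repr W g, tw_mul_basis, twTau_smul_basis]
  rw [twTau_apply, twTau_apply, twErr]
  simp only [map_add, map_sub, map_mul, map_pow, expand_X, expand_C]
  ring


/-! ## Coefficient functionals and the pole-order filtration -/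

/-- The coefficient of the monomial of pole order `n` (`x^k` for `n = 2k`, `x^k y` for
`n = 2k+3`, and `0` for `n = 1`). -/
noncomputable def twLam (n : ℕ) : W.CoordinateRing →ₗ[K] K :=
  (Polynomial.lcoeff K n) ∘ₗ (twTau W)

/-- Functions with pole order at most `n` at infinity. -/
noncomputable def twFil (n : ℕ) : Submodule K W.CoordinateRing :=
  (Polynomial.degreeLE K (n : WithBot ℕ)).comap (twTau W)

theorem twLam_apply (n : ℕ) (f : W.CoordinateRing) : twLam W n f = (twTau W f).coeff n := rfl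

theorem mem_twFil_iff {n : ℕ} {f : W.CoordinateRing} :
    f ∈ twFil W n ↔ (twTau W f).natDegree ≤ n := by
  rw [twFil, Submodule.mem_comap, Polynomial.mem_degreeLE, Polynomial.natDegree_le_iff_degree_le]

theorem mem_twFil_iff_lam {n : ℕ} {f : W.CoordinateRing} :
    f ∈ twFil W n ↔ ∀ m : ℕ, n < m → twLam W m f = 0 := by
  rw [mem_twFil_iff, Polynomial.natDegree_le_iff_coeff_eq_zero]
  rfl

theorem twFil_mono {m n : ℕ} (h : m ≤ n) : twFil W m ≤ twFil W n := by
  intro f hf
  rw [mem_twFil_iff] at hf ⊢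
  exact hf.trans h

theorem tw_coeff_aux (p q : K[X]) (N : ℕ) :
    (expand K 2 p + X ^ 3 * expand K 2 q).coeff N =
      (if 2 ∣ N then p.coeff (N / 2) else 0) +
        (if 3 ≤ N then (if 2 ∣ N - 3 then q.coeff ((N - 3) / 2) else 0) else 0) := by
  rw [coeff_add, coeff_X_pow_mul', coeff_expand (by norm_num), coeff_expand (by norm_num)]

theorem twTau_coeff_even (f : W.CoordinateRing) (k : ℕ) :
    (twTau W f).coeff (2 * k) = (twP W f).coeff k := by
  rw [twTau_apply, tw_coeff_aux]
  have h1 : 2 ∣ 2 * k := dvd_mul_right 2 k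
  have h2 : ¬ (3 ≤ 2 * k ∧ 2 ∣ 2 * k - 3) := by
    rintro ⟨h3, h4⟩
    omega
  rw [if_pos h1, Nat.mul_div_cancel_left k (by norm_num)]
  by_cases h3 : 3 ≤ 2 * k
  · rw [if_pos h3, if_neg (fun h4 => h2 ⟨h3, h4⟩), add_zero]
  · rw [if_neg h3, add_zero]

theorem twTau_coeff_odd (f : W.CoordinateRing) (k : ℕ) :
    (twTau W f).coeff (2 * k + 3) = (twQ W f).coeff k := by
  rw [twTau_apply, tw_coeff_aux]
  have h1 : ¬ 2 ∣ 2 * k + 3 := by omega
  have h3 : 3 ≤ 2 * k + 3 := by omega
  have h4 : 2 ∣ 2 * k + 3 - 3 := by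
    rw [Nat.add_sub_cancel]; exact dvd_mul_right 2 k
  rw [if_neg h1, if_pos h3, if_pos h4, zero_add, Nat.add_sub_cancel,
    Nat.mul_div_cancel_left k (by norm_num)]

theorem twTau_coeff_one (f : W.CoordinateRing) : (twTau W f).coeff 1 = 0 := by
  rw [twTau_apply, tw_coeff_aux]
  simp

theorem twLam_one (f : W.CoordinateRing) : twLam W 1 f = 0 := twTau_coeff_one W f

theorem tw_natDegree_even_part {n : ℕ} {f : W.CoordinateRing} (h : (twTau W f).natDegree ≤ n) :
    (expand K 2 (twP W f)).natDegree ≤ n := by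
  rw [Polynomial.natDegree_le_iff_coeff_eq_zero] at h ⊢
  intro N hN
  rw [coeff_expand (by norm_num)]
  split_ifs with h2
  · obtain ⟨k, rfl⟩ := h2
    rw [Nat.mul_div_cancel_left k (by norm_num), ← twTau_coeff_even]
    exact h _ hN
  · rfl

theorem tw_natDegree_odd_part {n : ℕ} {f : W.CoordinateRing} (h : (twTau W f).natDegree ≤ n) :
    (X ^ 3 * expand K 2 (twQ W f)).natDegree ≤ n := by
  rw [Polynomial.natDegree_le_iff_coeff_eq_zero] at h ⊢
  intro N hN
  rw [coeff_X_pow_mul', coeff_expand (by norm_num)]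
  split_ifs with h3 h2
  · obtain ⟨k, hk⟩ := h2
    have hN' : N = 2 * k + 3 := by omega
    rw [hk, Nat.mul_div_cancel_left k (by norm_num), ← twTau_coeff_odd, ← hN']
    exact h _ hN
  · rfl
  · rfl

theorem twErr_natDegree : (twErr W).natDegree ≤ 5 := by
  rw [twErr]
  compute_degree

theorem tw_err_bound {a b : ℕ} {f g : W.CoordinateRing} (hf : (twTau W f).natDegree ≤ a)
    (hg : (twTau W g).natDegree ≤ b) :
    (expand K 2 (twQ W f * twQ W g) * twErr W).natDegree ≤ a + b ∧
      (expand K 2 (twQ W f * twQ W g) * twErr W).coeff (a + b) = 0 := by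
  set E := expand K 2 (twQ W f * twQ W g) * twErr W with hE
  by_cases hE0 : E = 0
  · rw [hE0]; simp
  have h1 : X ^ 6 * E = (X ^ 3 * expand K 2 (twQ W f)) * (X ^ 3 * expand K 2 (twQ W g)) *
      twErr W := by
    rw [hE, map_mul]; ring
  have h2 : (X ^ 6 * E).natDegree = 6 + E.natDegree := by
    rw [natDegree_X_pow_mul (n := 6) hE0, add_comm]
  have h3 : (X ^ 6 * E).natDegree ≤ a + b + 5 := by
    rw [h1]
    refine (natDegree_mul_le).trans ?_
    refine add_le_add ((natDegree_mul_le).trans ?_) (twErr_natDegree W)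
    exact add_le_add (tw_natDegree_odd_part W hf) (tw_natDegree_odd_part W hg)
  have h4 : E.natDegree + 1 ≤ a + b := by omega
  exact ⟨by omega, coeff_eq_zero_of_natDegree_lt (by omega)⟩

/-- Multiplicativity of the filtration and of the symbols. -/
theorem tw_fil_mul {a b : ℕ} {f g : W.CoordinateRing} (hf : f ∈ twFil W a) (hg : g ∈ twFil W b) :
    f * g ∈ twFil W (a + b) ∧ twLam W (a + b) (f * g) = twLam W a f * twLam W b g := by
  rw [mem_twFil_iff] at hf hg
  obtain ⟨h1, h2⟩ := tw_err_bound W hf hg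
  constructor
  · rw [mem_twFil_iff, twTau_mul]
    refine (natDegree_add_le _ _).trans (max_le ?_ h1)
    exact (natDegree_mul_le).trans (add_le_add hf hg)
  · rw [twLam_apply, twLam_apply, twLam_apply, twTau_mul, coeff_add, h2, add_zero,
      coeff_mul_add_eq_of_natDegree_le hf hg]

theorem tw_fil_mul_mem {a b : ℕ} {f g : W.CoordinateRing} (hf : f ∈ twFil W a)
    (hg : g ∈ twFil W b) : f * g ∈ twFil W (a + b) := (tw_fil_mul W hf hg).1

theorem tw_lam_mul {a b : ℕ} {f g : W.CoordinateRing} (hf : f ∈ twFil W a)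
    (hg : g ∈ twFil W b) : twLam W (a + b) (f * g) = twLam W a f * twLam W b g :=
  (tw_fil_mul W hf hg).2


/-! ## Monomials -/

/-- The monomial of pole order `n`: `x^k` for `n = 2k` and `x^k y` for `n = 2k+3`
(junk value `y` for `n = 1`). -/
noncomputable def twMon (n : ℕ) : W.CoordinateRing :=
  if 2 ∣ n then (X ^ (n / 2) : K[X]) • (1 : W.CoordinateRing)
  else (X ^ ((n - 3) / 2) : K[X]) • CoordinateRing.mk W Y

theorem twTau_twMon {n : ℕ} (hn : n ≠ 1) : twTau W (twMon W n) = X ^ n := by
  rw [twMon]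
  split_ifs with h
  · obtain ⟨k, rfl⟩ := h
    have h1 : (X ^ (2 * k / 2) : K[X]) • (1 : W.CoordinateRing) =
        (X ^ k : K[X]) • (1 : W.CoordinateRing) + (0 : K[X]) • CoordinateRing.mk W Y := by
      rw [Nat.mul_div_cancel_left k (by norm_num), zero_smul, add_zero]
    rw [h1, twTau_smul_basis, map_pow, expand_X, map_zero, mul_zero, add_zero, pow_mul]
  · have h3 : ∃ k, n = 2 * k + 3 := ⟨(n - 3) / 2, by omega⟩
    obtain ⟨k, rfl⟩ := h3
    have h1 : (X ^ ((2 * k + 3 - 3) / 2) : K[X]) • CoordinateRing.mk W Y =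
        (0 : K[X]) • (1 : W.CoordinateRing) + (X ^ k : K[X]) • CoordinateRing.mk W Y := by
      rw [Nat.add_sub_cancel, Nat.mul_div_cancel_left k (by norm_num), zero_smul, zero_add]
    rw [h1, twTau_smul_basis, map_pow, expand_X, map_zero, zero_add, ← pow_mul, ← pow_add]
    congr 1
    omega

theorem twMon_mem_twFil {n : ℕ} (hn : n ≠ 1) : twMon W n ∈ twFil W n := by
  rw [mem_twFil_iff, twTau_twMon W hn]
  exact natDegree_X_pow_le n

theorem twLam_twMon {n : ℕ} (hn : n ≠ 1) (m : ℕ) :
    twLam W m (twMon W n) = if m = n then 1 else 0 := by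
  rw [twLam_apply, twTau_twMon W hn, coeff_X_pow]

theorem twLam_twMon_self {n : ℕ} (hn : n ≠ 1) : twLam W n (twMon W n) = 1 := by
  rw [twLam_twMon W hn, if_pos rfl]

theorem twMon_zero : twMon W 0 = 1 := by
  rw [twMon, if_pos (dvd_zero 2)]
  simp

theorem twTau_one : twTau W (1 : W.CoordinateRing) = 1 := by
  rw [← twMon_zero W, twTau_twMon W (by norm_num), pow_zero]

theorem one_mem_twFil : (1 : W.CoordinateRing) ∈ twFil W 0 := by
  rw [← twMon_zero W]
  exact twMon_mem_twFil W (by norm_num)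

theorem twLam_zero_one : twLam W 0 (1 : W.CoordinateRing) = 1 := by
  rw [← twMon_zero W]
  exact twLam_twMon_self W (by norm_num)

/-- Finite products: filtration and symbols are multiplicative. -/
theorem tw_fil_prod {ι : Type*} (s : Finset ι) (f : ι → W.CoordinateRing) (a : ι → ℕ)
    (h : ∀ i ∈ s, f i ∈ twFil W (a i)) :
    (∏ i ∈ s, f i) ∈ twFil W (∑ i ∈ s, a i) ∧
      twLam W (∑ i ∈ s, a i) (∏ i ∈ s, f i) = ∏ i ∈ s, twLam W (a i) (f i) := by
  classical
  induction s using Finset.induction_on with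
  | empty =>
    simp only [Finset.prod_empty, Finset.sum_empty]
    exact ⟨one_mem_twFil W, twLam_zero_one W⟩
  | insert i s hi ih =>
    have h1 := h i (Finset.mem_insert_self i s)
    have h2 := ih (fun j hj => h j (Finset.mem_insert_of_mem hj))
    rw [Finset.prod_insert hi, Finset.sum_insert hi, Finset.prod_insert hi]
    exact ⟨tw_fil_mul_mem W h1 h2.1, by rw [tw_lam_mul W h1 h2.1, h2.2]⟩

theorem tw_fil_pow {a : ℕ} {f : W.CoordinateRing} (hf : f ∈ twFil W a) (k : ℕ) :
    f ^ k ∈ twFil W (k * a) ∧ twLam W (k * a) (f ^ k) = twLam W a f ^ k := by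
  induction k with
  | zero =>
    simp only [pow_zero, zero_mul]
    exact ⟨one_mem_twFil W, twLam_zero_one W⟩
  | succ k ih =>
    have e : (k + 1) * a = k * a + a := by ring
    rw [pow_succ, pow_succ, e]
    exact ⟨tw_fil_mul_mem W ih.1 hf, by rw [tw_lam_mul W ih.1 hf, ih.2]⟩

end Fermat.Agent.TW
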