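import Mathlib
import Fermat.Agent.Lib.TW_Symbol

set_option autoImplicit false

open Polynomial
open scoped Polynomial.Bivariate

namespace Fermat.Agent.TW

open WeierstrassCurve WeierstrassCurve.Affine

variable {K : Type*} [Field K] (W : Affine K)

/-! ## The invariant derivation on symbols -/

theorem twd_mk_C_eq_aeval (p : K[X]) :
    CoordinateRing.mk W (C p) = aeval (CoordinateRing.mk W (C X)) p := by
  induction p using Polynomial.induction_on' with
  | add p q hp hq => rw [C_add, map_add, map_add, hp, hq]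
  | monomial n a =>
    rw [aeval_monomial, ← C_mul_X_pow_eq_monomial, C_mul, C_pow, map_mul, map_pow]
    rfl

theorem twd_D_basis (D : Derivation K W.CoordinateRing W.CoordinateRing)
    (hx : D (CoordinateRing.mk W (C X)) =
      2 * CoordinateRing.mk W Y + CoordinateRing.mk W (C (C W.a₁ * X + C W.a₃)))
    (hy : D (CoordinateRing.mk W Y) =
      CoordinateRing.mk W (C (3 * X ^ 2 + 2 * C W.a₂ * X + C W.a₄)) -
        CoordinateRing.mk W (C (C W.a₁)) * CoordinateRing.mk W Y)
    (p q : K[X]) :
    D (p • (1 : W.CoordinateRing) + q • CoordinateRing.mk W Y) =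
      (derivative p * (C W.a₁ * X + C W.a₃) +
          2 * derivative q * (X ^ 3 + C W.a₂ * X ^ 2 + C W.a₄ * X + C W.a₆) +
          q * (3 * X ^ 2 + 2 * C W.a₂ * X + C W.a₄)) • (1 : W.CoordinateRing) +
        (2 * derivative p - derivative q * (C W.a₁ * X + C W.a₃) - C W.a₁ * q) •
          CoordinateRing.mk W Y := by
  have hC : ∀ r : K[X], D (CoordinateRing.mk W (C r)) =
      CoordinateRing.mk W (C (derivative r)) * D (CoordinateRing.mk W (C X)) := by
    intro r
    rw [twd_mk_C_eq_aeval, Derivation.map_aeval, ← twd_mk_C_eq_aeval, smul_eq_mul]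
  have h := tw_Y_sq W
  simp only [CoordinateRing.smul, mul_one]
  rw [map_add, Derivation.leibniz, hC p, hC q, hx, hy]
  simp only [smul_eq_mul, map_add, map_sub, map_mul, map_pow, map_ofNat] at h ⊢
  linear_combination (2 * CoordinateRing.mk W (C (derivative q))) * h

/-- The lower-order error of the derivation on symbols. -/
noncomputable def twDErr (p q : K[X]) : K[X] :=
  expand K 2 (derivative p) * (C W.a₁ * X ^ 2 + C W.a₃) +
    2 * expand K 2 (derivative q) * (C W.a₂ * X ^ 4 + C W.a₄ * X ^ 2 + C W.a₆) +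
    expand K 2 q * (2 * C W.a₂ * X ^ 2 + C W.a₄) -
    X ^ 3 * expand K 2 (derivative q) * (C W.a₁ * X ^ 2 + C W.a₃) -
    C W.a₁ * X ^ 3 * expand K 2 q

theorem twd_tau_D (D : Derivation K W.CoordinateRing W.CoordinateRing)
    (hx : D (CoordinateRing.mk W (C X)) =
      2 * CoordinateRing.mk W Y + CoordinateRing.mk W (C (C W.a₁ * X + C W.a₃)))
    (hy : D (CoordinateRing.mk W Y) =
      CoordinateRing.mk W (C (3 * X ^ 2 + 2 * C W.a₂ * X + C W.a₄)) -
        CoordinateRing.mk W (C (C W.a₁)) * CoordinateRing.mk W Y)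
    (f : W.CoordinateRing) :
    twTau W (D f) = X ^ 2 * derivative (twTau W f) + twDErr W (twP W f) (twQ W f) := by
  conv_lhs => rw [← tw_repr W f, twd_D_basis W D hx hy, twTau_smul_basis]
  rw [twTau_apply, twDErr]
  have h3 : (C (3 : K) : K[X]) = 3 := map_ofNat C 3
  simp only [derivative_mul, derivative_expand, derivative_X_pow, map_add,
    map_sub, map_mul, map_pow, expand_X, expand_C, map_ofNat]
  norm_num
  rw [h3]
  ring

theorem twd_aux1 (r : K[X]) :
    derivative r = 0 ∨ (expand K 2 (derivative r)).natDegree + 2 ≤ 2 * r.natDegree := by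
  by_cases h : r.natDegree = 0
  · exact Or.inl (derivative_of_natDegree_zero h)
  · right
    rw [natDegree_expand]
    have := natDegree_derivative_lt h
    omega

theorem twd_aux2 (r c : K[X]) (k m : ℕ) (hc : c.natDegree ≤ k + 2)
    (hr : 2 * r.natDegree + k ≤ m) : (expand K 2 (derivative r) * c).natDegree ≤ m := by
  rcases twd_aux1 r with h | h
  · rw [h]; simp
  · exact natDegree_mul_le.trans (by omega)

theorem twDErr_natDegree (p q : K[X]) (n : ℕ) (hp : 2 * p.natDegree ≤ n)
    (hq : q ≠ 0 → 2 * q.natDegree + 3 ≤ n) : (twDErr W p q).natDegree ≤ n := by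
  have h1 : (expand K 2 (derivative p) * (C W.a₁ * X ^ 2 + C W.a₃)).natDegree ≤ n :=
    twd_aux2 p _ 0 n (by compute_degree) (by omega)
  by_cases hq0 : q = 0
  · subst hq0
    simpa [twDErr] using h1
  have hd := hq hq0
  have h2 : (2 * expand K 2 (derivative q) *
      (C W.a₂ * X ^ 4 + C W.a₄ * X ^ 2 + C W.a₆)).natDegree ≤ n := by
    have h : 2 * expand K 2 (derivative q) * (C W.a₂ * X ^ 4 + C W.a₄ * X ^ 2 + C W.a₆) =
        expand K 2 (derivative q) * (2 * (C W.a₂ * X ^ 4 + C W.a₄ * X ^ 2 + C W.a₆)) := by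
      ring
    rw [h]
    exact twd_aux2 q _ 2 n (by compute_degree) (by omega)
  have h3 : (expand K 2 q * (2 * C W.a₂ * X ^ 2 + C W.a₄)).natDegree ≤ n := by
    refine natDegree_mul_le.trans ?_
    rw [natDegree_expand]
    have h : (2 * C W.a₂ * X ^ 2 + C W.a₄ : K[X]).natDegree ≤ 2 := by compute_degree
    omega
  have h4 : (X ^ 3 * expand K 2 (derivative q) * (C W.a₁ * X ^ 2 + C W.a₃)).natDegree ≤ n := by
    have h : X ^ 3 * expand K 2 (derivative q) * (C W.a₁ * X ^ 2 + C W.a₃) =
        expand K 2 (derivative q) * (X ^ 3 * (C W.a₁ * X ^ 2 + C W.a₃)) := by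
      ring
    rw [h]
    exact twd_aux2 q _ 3 n (by compute_degree) (by omega)
  have h5 : (C W.a₁ * X ^ 3 * expand K 2 q).natDegree ≤ n := by
    refine natDegree_mul_le.trans ?_
    rw [natDegree_expand]
    have h : (C W.a₁ * X ^ 3 : K[X]).natDegree ≤ 3 := by compute_degree
    omega
  rw [twDErr]
  exact (natDegree_sub_le_of_le (natDegree_sub_le_of_le (natDegree_add_le_of_degree_le
    (natDegree_add_le_of_degree_le h1 h2) h3) h4) h5).trans (by simp)

theorem twDErr_bound {n : ℕ} {f : W.CoordinateRing} (hf : (twTau W f).natDegree ≤ n) :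
    (twDErr W (twP W f) (twQ W f)).natDegree ≤ n := by
  apply twDErr_natDegree
  · have h := tw_natDegree_even_part W hf
    rw [natDegree_expand] at h
    omega
  · intro hq
    have h := tw_natDegree_odd_part W hf
    have h0 : expand K 2 (twQ W f) ≠ 0 := by
      rwa [Ne, expand_eq_zero (by norm_num)]
    rw [natDegree_X_pow_mul (n := 3) h0, natDegree_expand] at h
    omega

/-- The derivation raises the pole order by one and multiplies the symbol by the pole order
(explicit form of the hypotheses on `D x` and `D y`). -/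
theorem tw_fil_D_explicit (D : Derivation K W.CoordinateRing W.CoordinateRing)
    (hx : D (CoordinateRing.mk W (C X)) =
      2 * CoordinateRing.mk W Y + CoordinateRing.mk W (C (C W.a₁ * X + C W.a₃)))
    (hy : D (CoordinateRing.mk W Y) =
      CoordinateRing.mk W (C (3 * X ^ 2 + 2 * C W.a₂ * X + C W.a₄)) -
        CoordinateRing.mk W (C (C W.a₁)) * CoordinateRing.mk W Y)
    {n : ℕ} {f : W.CoordinateRing} (hf : f ∈ twFil W n) :
    D f ∈ twFil W (n + 1) ∧ twLam W (n + 1) (D f) = (n : K) * twLam W n f := by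
  rw [mem_twFil_iff] at hf
  have hE := twDErr_bound W hf
  have hder : (X ^ 2 * derivative (twTau W f)).natDegree ≤ n + 1 := by
    by_cases h0 : (twTau W f).natDegree = 0
    · rw [derivative_of_natDegree_zero h0]; simp
    · have h := natDegree_derivative_lt h0
      refine natDegree_mul_le.trans ?_
      rw [natDegree_X_pow]; omega
  constructor
  · rw [mem_twFil_iff, twd_tau_D W D hx hy]
    exact natDegree_add_le_of_degree_le hder (hE.trans (Nat.le_succ n))
  · rw [twLam_apply, twLam_apply, twd_tau_D W D hx hy, coeff_add,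
      coeff_eq_zero_of_natDegree_lt (lt_of_le_of_lt hE (Nat.lt_succ_self n)), add_zero]
    rcases n with _ | n
    · simp [coeff_X_pow_mul']
    · rw [show n + 1 + 1 = n + 2 from rfl, coeff_X_pow_mul, coeff_derivative]
      push_cast
      ring

theorem twd_hx_of (D : Derivation K W.CoordinateRing W.CoordinateRing)
    (hDx : D (CoordinateRing.mk W (C X)) = CoordinateRing.mk W W.polynomialY) :
    D (CoordinateRing.mk W (C X)) =
      2 * CoordinateRing.mk W Y + CoordinateRing.mk W (C (C W.a₁ * X + C W.a₃)) := by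
  have h2 : (C (C (2 : K)) : K[X][Y]) = 2 := by
    rw [map_ofNat C 2]
    exact map_ofNat C 2
  rw [hDx, polynomialY, h2, map_add, map_mul, map_ofNat]

theorem twd_hy_of (D : Derivation K W.CoordinateRing W.CoordinateRing)
    (hDy : D (CoordinateRing.mk W Y) = -CoordinateRing.mk W W.polynomialX) :
    D (CoordinateRing.mk W Y) =
      CoordinateRing.mk W (C (3 * X ^ 2 + 2 * C W.a₂ * X + C W.a₄)) -
        CoordinateRing.mk W (C (C W.a₁)) * CoordinateRing.mk W Y := by
  have h : (C 3 * X ^ 2 + C (2 * W.a₂) * X + C W.a₄ : K[X]) =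
      3 * X ^ 2 + 2 * C W.a₂ * X + C W.a₄ := by
    rw [C_mul, map_ofNat C 3, map_ofNat C 2]
  rw [hDy, polynomialX, h, map_sub, map_mul, neg_sub]

/-- The derivation raises the pole order by one and multiplies the symbol by the pole order. -/
theorem tw_fil_D (D : Derivation K W.CoordinateRing W.CoordinateRing)
    (hDx : D (CoordinateRing.mk W (C X)) = CoordinateRing.mk W W.polynomialY)
    (hDy : D (CoordinateRing.mk W Y) = -CoordinateRing.mk W W.polynomialX)
    {n : ℕ} {f : W.CoordinateRing} (hf : f ∈ twFil W n) :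
    D f ∈ twFil W (n + 1) ∧ twLam W (n + 1) (D f) = (n : K) * twLam W n f :=
  tw_fil_D_explicit W D (twd_hx_of W D hDx) (twd_hy_of W D hDy) hf

end Fermat.Agent.TW
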