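import Mathlib
import Fermat.Agent.Lib.TW_Symbol

/-!
# The invariant derivation of the coordinate ring (WP-T, backup for T1)

`twD W : Derivation K R R` with `D x = 2 y + a₁ x + a₃` and `D y = 3 x² + 2 a₂ x + a₄ - a₁ y`.
-/

set_option autoImplicit false

open Polynomial
open scoped Polynomial.Bivariate

namespace Fermat.Agent.TW

open WeierstrassCurve WeierstrassCurve.Affine

variable {K : Type*} [Field K] (W : Affine K)

/-- `D x = F_y = 2 y + a₁ x + a₃` -/
noncomputable def twDx : W.CoordinateRing :=
  2 * CoordinateRing.mk W Y + CoordinateRing.mk W (C (C W.a₁ * X + C W.a₃))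

/-- `D y = - F_x = 3 x² + 2 a₂ x + a₄ - a₁ y` -/
noncomputable def twDy : W.CoordinateRing :=
  CoordinateRing.mk W (C (C 3 * X ^ 2 + C (2 * W.a₂) * X + C W.a₄)) -
    CoordinateRing.mk W (C (C W.a₁)) * CoordinateRing.mk W Y

/-- the underlying linear map of the invariant derivation -/
noncomputable def twDFun (f : W.CoordinateRing) : W.CoordinateRing :=
  derivative (twP W f) • twDx W + derivative (twQ W f) • (twDx W * CoordinateRing.mk W Y) +
    twQ W f • twDy W

theorem twDFun_add (f g : W.CoordinateRing) : twDFun W (f + g) = twDFun W f + twDFun W g := by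
  simp only [twDFun, twP_add, twQ_add, derivative_add, add_smul]
  abel

theorem twDFun_smul (c : K) (f : W.CoordinateRing) : twDFun W (c • f) = c • twDFun W f := by
  simp only [twDFun, twP_smul, twQ_smul, derivative_C_mul, smul_add]
  simp only [← smul_eq_C_mul, smul_assoc]

theorem twDFun_smul_basis (p q : K[X]) :
    twDFun W (p • (1 : W.CoordinateRing) + q • CoordinateRing.mk W Y) =
      derivative p • twDx W + derivative q • (twDx W * CoordinateRing.mk W Y) + q • twDy W := by
  rw [twDFun, twP_smul_basis, twQ_smul_basis]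

theorem twDFun_mul (f g : W.CoordinateRing) :
    twDFun W (f * g) = f * twDFun W g + g * twDFun W f := by
  have hf := tw_repr W f
  have hg := tw_repr W g
  set p₁ := twP W f
  set q₁ := twQ W f
  set p₂ := twP W g
  set q₂ := twQ W g
  rw [← hf, ← hg, tw_mul_basis, twDFun_smul_basis, twDFun_smul_basis, twDFun_smul_basis]
  have h := tw_Y_sq W
  simp only [twDx, twDy, CoordinateRing.smul, derivative_mul,
    derivative_pow, derivative_X, derivative_C, map_add, map_sub, map_mul, map_pow, mul_one,
    zero_mul, add_zero, zero_add, Nat.cast_ofNat, pow_one, map_ofNat,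
    Nat.add_one_sub_one] at h ⊢
  linear_combination (-(CoordinateRing.mk W (C (derivative q₁)) * CoordinateRing.mk W (C q₂) +
    CoordinateRing.mk W (C q₁) * CoordinateRing.mk W (C (derivative q₂))) *
    (2 * CoordinateRing.mk W Y + (CoordinateRing.mk W (C (C W.a₁)) * CoordinateRing.mk W (C X) +
      CoordinateRing.mk W (C (C W.a₃))))) * h

/-- **the invariant derivation** `D = F_y ∂/∂x - F_x ∂/∂y` of the coordinate ring -/
noncomputable def twD : Derivation K W.CoordinateRing W.CoordinateRing :=
  Derivation.mk'
    { toFun := twDFun W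
      map_add' := twDFun_add W
      map_smul' := fun c f => by rw [twDFun_smul, RingHom.id_apply] }
    (fun f g => by
      show twDFun W (f * g) = f • twDFun W g + g • twDFun W f
      rw [twDFun_mul, smul_eq_mul, smul_eq_mul])

theorem twD_apply (f : W.CoordinateRing) : twD W f = twDFun W f := rfl

theorem twD_smul_basis (p q : K[X]) :
    twD W (p • (1 : W.CoordinateRing) + q • CoordinateRing.mk W Y) =
      derivative p • twDx W + derivative q • (twDx W * CoordinateRing.mk W Y) + q • twDy W :=
  twDFun_smul_basis W p q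

/-- `D x = 2 y + a₁ x + a₃` -/
theorem twD_x : twD W (CoordinateRing.mk W (C X)) = twDx W := by
  have h := twD_smul_basis W X 0
  simp only [zero_smul, add_zero, derivative_X, one_smul, derivative_zero] at h
  rw [← h, CoordinateRing.smul, mul_one]

/-- `D y = 3 x² + 2 a₂ x + a₄ - a₁ y` -/
theorem twD_y : twD W (CoordinateRing.mk W Y) = twDy W := by
  have h := twD_smul_basis W 0 1
  simp only [zero_smul, zero_add, derivative_one, one_smul, derivative_zero] at h
  exact h

/-- `D x = F_y` in Mathlib's notation -/
theorem twD_x_poly : twD W (CoordinateRing.mk W (C X)) = CoordinateRing.mk W W.polynomialY := by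
  rw [twD_x, twDx, polynomialY]
  simp only [map_add, map_mul, map_ofNat]

/-- `D y = - F_x` in Mathlib's notation -/
theorem twD_y_poly : twD W (CoordinateRing.mk W Y) = -CoordinateRing.mk W W.polynomialX := by
  rw [twD_y, twDy, polynomialX]
  simp only [map_sub, map_mul]
  ring

/-- `D x = 2 y + (a₁ x + a₃)` spelled out -/
theorem twD_x_expl : twD W (CoordinateRing.mk W (C X)) =
    2 * CoordinateRing.mk W Y + CoordinateRing.mk W (C (C W.a₁ * X + C W.a₃)) := twD_x W

/-- `D y = (3 x² + 2 a₂ x + a₄) - a₁ y` spelled out -/
theorem twD_y_expl : twD W (CoordinateRing.mk W Y) =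
    CoordinateRing.mk W (C (3 * X ^ 2 + 2 * C W.a₂ * X + C W.a₄)) -
      CoordinateRing.mk W (C (C W.a₁)) * CoordinateRing.mk W Y := by
  rw [twD_y, twDy]
  congr 3
  simp only [map_mul, map_ofNat]

end Fermat.Agent.TW
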