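import Mathlib
import Fermat.Agent.Lib.TW_Vand

/-!
# The symbol of a Wronskian (WP-T, T3, abstract part)

Abstract symbol calculus: a commutative algebra `R` with a filtration `Fil`, "leading coefficient"
functionals `lam`, multiplicative symbols and an operator `D` raising the filtration by one and
multiplying the symbol of order `n` by `n`.  The determinant `det [D^i f_j]` of elements `f_j` of
orders `twN j` with symbol `1` has order `p² - 1` and symbol `twVand p`.
-/

set_option autoImplicit false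

namespace Fermat.Agent.TW

open Polynomial Finset

/-- `∑_{i<p} (n_i + i) = p² - 1` -/
theorem tw_sum_twN (p : ℕ) : ∑ i : Fin p, (twN (i : ℕ) + (i : ℕ)) = p ^ 2 - 1 := by
  induction p with
  | zero => simp
  | succ p ih =>
    rw [Fin.sum_univ_castSucc]
    simp only [Fin.val_castSucc, Fin.val_last]
    rw [ih]
    cases p with
    | zero => simp
    | succ q =>
      rw [twN_succ]
      have h1 : 1 ≤ (q + 1) ^ 2 := Nat.one_le_pow _ _ (by omega)
      have h2 : 1 ≤ (q + 1 + 1) ^ 2 := Nat.one_le_pow _ _ (by omega)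
      zify [h1, h2]
      ring

section abstract

variable {K R : Type*} [CommRing K] [CommRing R] [Algebra K R]
  (D : R → R) (Fil : ℕ → Submodule K R) (lam : ℕ → R →ₗ[K] K)

/-- iterating `D`: the symbol is multiplied by the ascending factorial -/
theorem tw_iterate_symbol
    (hD : ∀ n f, f ∈ Fil n → D f ∈ Fil (n + 1) ∧ lam (n + 1) (D f) = (n : K) * lam n f)
    (i n : ℕ) (f : R) (hf : f ∈ Fil n) :
    D^[i] f ∈ Fil (n + i) ∧
      lam (n + i) (D^[i] f) = (((ascPochhammer ℤ i).eval (n : ℤ) : ℤ) : K) * lam n f := by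
  induction i with
  | zero => simp [hf]
  | succ i ih =>
    obtain ⟨h1, h2⟩ := ih
    obtain ⟨h3, h4⟩ := hD (n + i) _ h1
    rw [Function.iterate_succ_apply']
    refine ⟨by rw [← add_assoc]; exact h3, ?_⟩
    rw [← add_assoc, h4, h2, ascPochhammer_succ_right, eval_mul, eval_add, eval_X,
      eval_natCast]
    push_cast
    ring

/-- finite products: orders add up and symbols multiply -/
theorem tw_prod_symbol
    (h1 : (1 : R) ∈ Fil 0 ∧ lam 0 1 = 1)
    (hmul : ∀ a b f g, f ∈ Fil a → g ∈ Fil b →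
      f * g ∈ Fil (a + b) ∧ lam (a + b) (f * g) = lam a f * lam b g)
    {ι : Type*} (s : Finset ι) (g : ι → R) (d : ι → ℕ) (hg : ∀ i ∈ s, g i ∈ Fil (d i)) :
    ∏ i ∈ s, g i ∈ Fil (∑ i ∈ s, d i) ∧
      lam (∑ i ∈ s, d i) (∏ i ∈ s, g i) = ∏ i ∈ s, lam (d i) (g i) := by
  classical
  induction s using Finset.induction_on with
  | empty => simpa using h1
  | insert a s ha ih =>
    obtain ⟨h2, h3⟩ := ih fun i hi => hg i (Finset.mem_insert_of_mem hi)
    obtain ⟨h4, h5⟩ := hmul _ _ _ _ (hg a (Finset.mem_insert_self a s)) h2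
    rw [Finset.prod_insert ha, Finset.sum_insert ha, Finset.prod_insert ha]
    exact ⟨h4, by rw [h5, h3]⟩

/-- **the symbol of the Wronskian** -/
theorem tw_det_symbol
    (h1 : (1 : R) ∈ Fil 0 ∧ lam 0 1 = 1)
    (hmul : ∀ a b f g, f ∈ Fil a → g ∈ Fil b →
      f * g ∈ Fil (a + b) ∧ lam (a + b) (f * g) = lam a f * lam b g)
    (hD : ∀ n f, f ∈ Fil n → D f ∈ Fil (n + 1) ∧ lam (n + 1) (D f) = (n : K) * lam n f)
    (p : ℕ) (f : Fin p → R)
    (hf : ∀ j : Fin p, f j ∈ Fil (twN (j : ℕ)) ∧ lam (twN (j : ℕ)) (f j) = 1) :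
    (Matrix.of fun i j : Fin p => D^[(i : ℕ)] (f j)).det ∈ Fil (p ^ 2 - 1) ∧
      lam (p ^ 2 - 1) (Matrix.of fun i j : Fin p => D^[(i : ℕ)] (f j)).det
        = ((twVand p : ℤ) : K) := by
  classical
  have key : ∀ σ : Equiv.Perm (Fin p),
      ∏ i : Fin p, D^[((σ i : Fin p) : ℕ)] (f i) ∈ Fil (p ^ 2 - 1) ∧
        lam (p ^ 2 - 1) (∏ i : Fin p, D^[((σ i : Fin p) : ℕ)] (f i))
          = ∏ i : Fin p,
            (((ascPochhammer ℤ ((σ i : Fin p) : ℕ)).eval ((twN (i : ℕ) : ℕ) : ℤ) : ℤ) : K) := by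
    intro σ
    have hsum : ∑ i : Fin p, (twN (i : ℕ) + ((σ i : Fin p) : ℕ)) = p ^ 2 - 1 := by
      rw [Finset.sum_add_distrib, Equiv.sum_comp σ (fun i : Fin p => (i : ℕ)),
        ← Finset.sum_add_distrib, tw_sum_twN]
    have hi : ∀ i : Fin p, D^[((σ i : Fin p) : ℕ)] (f i) ∈ Fil (twN (i : ℕ) + ((σ i : Fin p) : ℕ)) ∧
        lam (twN (i : ℕ) + ((σ i : Fin p) : ℕ)) (D^[((σ i : Fin p) : ℕ)] (f i))
          = (((ascPochhammer ℤ ((σ i : Fin p) : ℕ)).eval ((twN (i : ℕ) : ℕ) : ℤ) : ℤ) : K) := by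
      intro i
      obtain ⟨h2, h3⟩ := tw_iterate_symbol D Fil lam hD ((σ i : Fin p) : ℕ) (twN (i : ℕ)) (f i)
        (hf i).1
      exact ⟨h2, by rw [h3, (hf i).2, mul_one]⟩
    have hp := tw_prod_symbol Fil lam h1 hmul (Finset.univ : Finset (Fin p))
      (fun i => D^[((σ i : Fin p) : ℕ)] (f i)) (fun i => twN (i : ℕ) + ((σ i : Fin p) : ℕ))
      (fun i _ => (hi i).1)
    rw [hsum] at hp
    refine ⟨hp.1, ?_⟩
    rw [hp.2]
    exact Finset.prod_congr rfl fun i _ => (hi i).2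
  rw [Matrix.det_apply]
  constructor
  · refine Submodule.sum_mem _ fun σ _ => ?_
    simp only [Matrix.of_apply]
    exact (Fil (p ^ 2 - 1)).smul_of_tower_mem _ (key σ).1
  · rw [map_sum, twVand, Matrix.det_apply, Int.cast_sum]
    refine Finset.sum_congr rfl fun σ _ => ?_
    simp only [Matrix.of_apply, twVandMat]
    rw [map_zsmul_unit, (key σ).2]
    rcases Int.units_eq_one_or (Equiv.Perm.sign σ) with h | h <;> simp [h]

end abstract

end Fermat.Agent.TW
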