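import Mathlib

/-!
# Integrality in the coordinate ring (WP-T, T3, integral part)

For a Weierstrass curve over `K` whose coefficients are integers, the elements
`a • 1 + b • Y` of the coordinate ring with `a, b` in the image of `ℤ[X]` form a subring
`twIntRing`, stable under every derivation mapping `x`, `y` into it; the norm to `K[X]` of such an
element is the image of an integer polynomial.
-/

set_option autoImplicit false

namespace Fermat.Agent.TW

open Polynomial WeierstrassCurve WeierstrassCurve.Affine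
open scoped Polynomial.Bivariate

variable {K : Type*} [CommRing K]

/-- the Weierstrass coefficients are integers -/
structure TwIntCoeff (W : WeierstrassCurve.Affine K) : Prop where
  a1 : ∃ n : ℤ, W.a₁ = (n : K)
  a2 : ∃ n : ℤ, W.a₂ = (n : K)
  a3 : ∃ n : ℤ, W.a₃ = (n : K)
  a4 : ∃ n : ℤ, W.a₄ = (n : K)
  a6 : ∃ n : ℤ, W.a₆ = (n : K)

/-- the image of `ℤ[X]` in `K[X]` -/
noncomputable def twIntPoly (K : Type*) [CommRing K] : Subring K[X] := (mapRingHom (Int.castRingHom K)).range

theorem twIntPoly_mem_iff {f : K[X]} :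
    f ∈ twIntPoly K ↔ ∃ g : ℤ[X], g.map (Int.castRingHom K) = f := by
  rw [twIntPoly, RingHom.mem_range]
  rfl

theorem twIntPoly_X : (X : K[X]) ∈ twIntPoly K := twIntPoly_mem_iff.mpr ⟨X, by simp⟩

theorem twIntPoly_C_int (n : ℤ) : (C (n : K) : K[X]) ∈ twIntPoly K :=
  twIntPoly_mem_iff.mpr ⟨C n, by simp⟩

theorem twIntPoly_derivative {f : K[X]} (hf : f ∈ twIntPoly K) : derivative f ∈ twIntPoly K := by
  obtain ⟨g, rfl⟩ := twIntPoly_mem_iff.mp hf
  exact twIntPoly_mem_iff.mpr ⟨derivative g, by rw [derivative_map]⟩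

variable (W : WeierstrassCurve.Affine K)

/-- the product of two elements in normal form -/
theorem tw_smul_basis_mul (p₁ q₁ p₂ q₂ : K[X]) :
    (p₁ • (1 : W.CoordinateRing) + q₁ • CoordinateRing.mk W Y) *
        (p₂ • (1 : W.CoordinateRing) + q₂ • CoordinateRing.mk W Y) =
      (p₁ * p₂ + q₁ * q₂ * (X ^ 3 + C W.a₂ * X ^ 2 + C W.a₄ * X + C W.a₆)) •
          (1 : W.CoordinateRing) +
        (p₁ * q₂ + q₁ * p₂ - q₁ * q₂ * (C W.a₁ * X + C W.a₃)) • CoordinateRing.mk W Y := by
  have h1 : (p₂ • (1 : W.CoordinateRing) + q₂ • CoordinateRing.mk W Y)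
      = CoordinateRing.mk W (C p₂) + CoordinateRing.mk W (C q₂) * CoordinateRing.mk W Y := by
    rw [CoordinateRing.smul, CoordinateRing.smul, mul_one]
  rw [h1, mul_add, ← mul_assoc, CoordinateRing.smul_basis_mul_C, CoordinateRing.smul_basis_mul_C,
    CoordinateRing.smul_basis_mul_Y]
  simp only [add_smul, sub_smul, mul_smul]
  ring_nf

/-- the elements `a • 1 + b • Y` with `a`, `b` integral -/
def twIntSet : Set W.CoordinateRing :=
  {f | ∃ a ∈ twIntPoly K, ∃ b ∈ twIntPoly K,
    f = a • (1 : W.CoordinateRing) + b • CoordinateRing.mk W Y}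

variable {W}

theorem twIntSet_smul_one {a : K[X]} (ha : a ∈ twIntPoly K) :
    a • (1 : W.CoordinateRing) ∈ twIntSet W :=
  ⟨a, ha, 0, Subring.zero_mem _, by simp⟩

theorem twIntSet_add {f g : W.CoordinateRing} (hf : f ∈ twIntSet W) (hg : g ∈ twIntSet W) :
    f + g ∈ twIntSet W := by
  obtain ⟨a, ha, b, hb, rfl⟩ := hf
  obtain ⟨c, hc, d, hd, rfl⟩ := hg
  exact ⟨a + c, Subring.add_mem _ ha hc, b + d, Subring.add_mem _ hb hd, by
    simp only [add_smul]; abel⟩

theorem twIntSet_neg {f : W.CoordinateRing} (hf : f ∈ twIntSet W) : -f ∈ twIntSet W := by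
  obtain ⟨a, ha, b, hb, rfl⟩ := hf
  exact ⟨-a, Subring.neg_mem _ ha, -b, Subring.neg_mem _ hb, by
    simp only [neg_smul]; abel⟩

theorem twIntSet_mul (hW : TwIntCoeff W) {f g : W.CoordinateRing} (hf : f ∈ twIntSet W)
    (hg : g ∈ twIntSet W) : f * g ∈ twIntSet W := by
  obtain ⟨a, ha, b, hb, rfl⟩ := hf
  obtain ⟨c, hc, d, hd, rfl⟩ := hg
  obtain ⟨n1, h1⟩ := hW.a1
  obtain ⟨n2, h2⟩ := hW.a2
  obtain ⟨n3, h3⟩ := hW.a3
  obtain ⟨n4, h4⟩ := hW.a4
  obtain ⟨n6, h6⟩ := hW.a6
  have hX := twIntPoly_X (K := K)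
  refine ⟨_, ?_, _, ?_, tw_smul_basis_mul W a b c d⟩
  · rw [h2, h4, h6]
    exact Subring.add_mem _ (Subring.mul_mem _ ha hc) (Subring.mul_mem _ (Subring.mul_mem _ hb hd)
      (Subring.add_mem _ (Subring.add_mem _ (Subring.add_mem _ (Subring.pow_mem _ hX 3)
        (Subring.mul_mem _ (twIntPoly_C_int n2) (Subring.pow_mem _ hX 2)))
        (Subring.mul_mem _ (twIntPoly_C_int n4) hX)) (twIntPoly_C_int n6)))
  · rw [h1, h3]
    exact Subring.sub_mem _ (Subring.add_mem _ (Subring.mul_mem _ ha hd) (Subring.mul_mem _ hb hc))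
      (Subring.mul_mem _ (Subring.mul_mem _ hb hd)
        (Subring.add_mem _ (Subring.mul_mem _ (twIntPoly_C_int n1) hX) (twIntPoly_C_int n3)))

/-- the integral subring of the coordinate ring -/
def twIntRing (hW : TwIntCoeff W) : Subring W.CoordinateRing where
  carrier := twIntSet W
  mul_mem' := twIntSet_mul hW
  one_mem' := ⟨1, Subring.one_mem _, 0, Subring.zero_mem _, by simp⟩
  add_mem' := twIntSet_add
  zero_mem' := ⟨0, Subring.zero_mem _, 0, Subring.zero_mem _, by simp⟩
  neg_mem' := twIntSet_neg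

theorem mem_twIntRing (hW : TwIntCoeff W) {f : W.CoordinateRing} :
    f ∈ twIntRing hW ↔ ∃ a ∈ twIntPoly K, ∃ b ∈ twIntPoly K,
      f = a • (1 : W.CoordinateRing) + b • CoordinateRing.mk W Y := Iff.rfl

theorem twIntRing_smul_one (hW : TwIntCoeff W) {a : K[X]} (ha : a ∈ twIntPoly K) :
    a • (1 : W.CoordinateRing) ∈ twIntRing hW := twIntSet_smul_one ha

/-- `x` is integral -/
theorem twIntRing_x (hW : TwIntCoeff W) : CoordinateRing.mk W (C X) ∈ twIntRing hW := by
  have h := twIntRing_smul_one hW (twIntPoly_X (K := K))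
  rwa [CoordinateRing.smul, mul_one] at h

/-- `y` is integral -/
theorem twIntRing_y (hW : TwIntCoeff W) : CoordinateRing.mk W Y ∈ twIntRing hW :=
  ⟨0, Subring.zero_mem _, 1, Subring.one_mem _, by simp⟩

/-- integers are integral -/
theorem twIntRing_int (hW : TwIntCoeff W) (n : ℤ) :
    algebraMap K W.CoordinateRing (n : K) ∈ twIntRing hW := by
  have h := twIntRing_smul_one hW (twIntPoly_C_int (K := K) n)
  rwa [CoordinateRing.smul, mul_one] at h

/-- the norm of an integral element is an integral polynomial -/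
theorem twIntRing_norm (hW : TwIntCoeff W) {f : W.CoordinateRing} (hf : f ∈ twIntRing hW) :
    ∃ g : ℤ[X], Algebra.norm K[X] f = g.map (Int.castRingHom K) := by
  obtain ⟨a, ha, b, hb, rfl⟩ := hf
  obtain ⟨n1, h1⟩ := hW.a1
  obtain ⟨n2, h2⟩ := hW.a2
  obtain ⟨n3, h3⟩ := hW.a3
  obtain ⟨n4, h4⟩ := hW.a4
  obtain ⟨n6, h6⟩ := hW.a6
  have hX := twIntPoly_X (K := K)
  rw [CoordinateRing.norm_smul_basis]
  have : a ^ 2 - a * b * (C W.a₁ * X + C W.a₃) -
      b ^ 2 * (X ^ 3 + C W.a₂ * X ^ 2 + C W.a₄ * X + C W.a₆) ∈ twIntPoly K := by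
    rw [h1, h2, h3, h4, h6]
    exact Subring.sub_mem _ (Subring.sub_mem _ (Subring.pow_mem _ ha 2)
      (Subring.mul_mem _ (Subring.mul_mem _ ha hb)
        (Subring.add_mem _ (Subring.mul_mem _ (twIntPoly_C_int n1) hX) (twIntPoly_C_int n3))))
      (Subring.mul_mem _ (Subring.pow_mem _ hb 2)
        (Subring.add_mem _ (Subring.add_mem _ (Subring.add_mem _ (Subring.pow_mem _ hX 3)
        (Subring.mul_mem _ (twIntPoly_C_int n2) (Subring.pow_mem _ hX 2)))
        (Subring.mul_mem _ (twIntPoly_C_int n4) hX)) (twIntPoly_C_int n6)))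
  obtain ⟨g, hg⟩ := twIntPoly_mem_iff.mp this
  exact ⟨g, hg.symm⟩

/-- `p • 1` is the evaluation of `p` at `x` -/
theorem tw_smul_one_eq_aeval (p : K[X]) :
    p • (1 : W.CoordinateRing) = aeval (CoordinateRing.mk W (C X)) p := by
  rw [CoordinateRing.smul, mul_one]
  induction p using Polynomial.induction_on' with
  | add p q hp hq => rw [C_add, map_add, map_add, hp, hq]
  | monomial n a =>
    rw [aeval_monomial, ← C_mul_X_pow_eq_monomial, C_mul, C_pow, map_mul, map_pow]
    rfl

/-- **stability under a derivation** mapping `x` and `y` to integral elements -/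
theorem twIntRing_derivation (hW : TwIntCoeff W) (D : Derivation K W.CoordinateRing W.CoordinateRing)
    (hx : D (CoordinateRing.mk W (C X)) ∈ twIntRing hW)
    (hy : D (CoordinateRing.mk W Y) ∈ twIntRing hW) {f : W.CoordinateRing}
    (hf : f ∈ twIntRing hW) : D f ∈ twIntRing hW := by
  have key : ∀ a ∈ twIntPoly K, D (a • (1 : W.CoordinateRing)) ∈ twIntRing hW := by
    intro a ha
    rw [tw_smul_one_eq_aeval, Derivation.map_aeval, ← tw_smul_one_eq_aeval, smul_eq_mul]
    exact Subring.mul_mem _ (twIntRing_smul_one hW (twIntPoly_derivative ha)) hx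
  obtain ⟨a, ha, b, hb, rfl⟩ := hf
  have e : b • CoordinateRing.mk W Y = b • (1 : W.CoordinateRing) * CoordinateRing.mk W Y := by
    rw [smul_mul_assoc, one_mul]
  rw [map_add, e, Derivation.leibniz]
  refine Subring.add_mem _ (key a ha) (Subring.add_mem _ ?_ ?_)
  · rw [smul_eq_mul]
    exact Subring.mul_mem _ (twIntRing_smul_one hW hb) hy
  · rw [smul_eq_mul]
    exact Subring.mul_mem _ (twIntRing_y hW) (key b hb)

/-- iterates -/
theorem twIntRing_derivation_iterate (hW : TwIntCoeff W)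
    (D : Derivation K W.CoordinateRing W.CoordinateRing)
    (hx : D (CoordinateRing.mk W (C X)) ∈ twIntRing hW)
    (hy : D (CoordinateRing.mk W Y) ∈ twIntRing hW) (i : ℕ) {f : W.CoordinateRing}
    (hf : f ∈ twIntRing hW) : D^[i] f ∈ twIntRing hW := by
  induction i with
  | zero => simpa using hf
  | succ i ih =>
    rw [Function.iterate_succ_apply']
    exact twIntRing_derivation hW D hx hy ih

/-- determinants of integral matrices are integral -/
theorem twIntRing_det (hW : TwIntCoeff W) {n : ℕ} (M : Matrix (Fin n) (Fin n) W.CoordinateRing)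
    (hM : ∀ i j, M i j ∈ twIntRing hW) : M.det ∈ twIntRing hW := by
  rw [Matrix.det_apply]
  refine Subring.sum_mem _ fun σ _ => ?_
  exact Subring.zsmul_mem _ (Subring.prod_mem _ fun i _ => hM _ _) _

end Fermat.Agent.TW
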