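import Mathlib
import Fermat.Agent.Lib.TW_Vand
import Fermat.Agent.Lib.TW_DetSym
import Fermat.Agent.Lib.TW_Int
import Fermat.Agent.Lib.TW_Symbol
import Fermat.Agent.Lib.TW_Der

/-!
# The Wronskian of `L(p·O)` (WP-T, definitions + T3)

For a derivation `D` of the coordinate ring:

* `twWr W D p`: the Wronskian `det [D^i m_{n_j}]` of the basis `m_0, m_2, m_3, …, m_p` of `L(p·O)`;
* `twPhi W D p = Norm (twWr W D p) ∈ K[X]`;
* `tw_exists_der`: a derivation with `D x = F_y`, `D y = -F_x` exists (`twD W`);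
* `twWr_symbol`: `twWr W D p` has pole order `≤ p² - 1` with leading coefficient `twVand p`
  (given the symbol rule for `D`);
* `twPhi_int`: for integral Weierstrass coefficients `twPhi W D p` is the image of an integer
  polynomial.
-/

set_option autoImplicit false

open Polynomial
open scoped Polynomial.Bivariate

namespace Fermat.Agent.TW

open WeierstrassCurve WeierstrassCurve.Affine

variable {K : Type*} [Field K] (W : Affine K)
  (D : Derivation K W.CoordinateRing W.CoordinateRing)

/-- the Wronskian of the basis `m_0, m_2, m_3, …, m_p` of `L(p·O)` with respect to `D` -/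
noncomputable def twWr (p : ℕ) : W.CoordinateRing :=
  (Matrix.of fun i j : Fin p => D^[(i : ℕ)] (twMon W (twN (j : ℕ)))).det

/-- the norm of the Wronskian: a polynomial in `x` vanishing exactly at the `x`-coordinates of
the nonzero `p`-torsion points -/
noncomputable def twPhi (p : ℕ) : K[X] := Algebra.norm K[X] (twWr W D p)

theorem twWr_def (p : ℕ) :
    twWr W D p = (Matrix.of fun i j : Fin p => D^[(i : ℕ)] (twMon W (twN (j : ℕ)))).det := rfl

theorem twPhi_def (p : ℕ) :
    twPhi W D p =
      Algebra.norm K[X] (Matrix.of fun i j : Fin p => D^[(i : ℕ)] (twMon W (twN (j : ℕ)))).det :=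
  rfl

/-- **the invariant derivation exists** -/
theorem tw_exists_der : ∃ D : Derivation K W.CoordinateRing W.CoordinateRing,
    D (CoordinateRing.mk W (C X)) = CoordinateRing.mk W W.polynomialY ∧
      D (CoordinateRing.mk W Y) = -CoordinateRing.mk W W.polynomialX :=
  ⟨twD W, twD_x_poly W, twD_y_poly W⟩

theorem twN_ne_one (j : ℕ) : twN j ≠ 1 := by
  rcases j with _ | k
  · simp
  · show k + 2 ≠ 1
    omega

/-- **the symbol of the Wronskian**, from the symbol rule of `D` -/
theorem twWr_symbol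
    (hD : ∀ (n : ℕ) (f : W.CoordinateRing), f ∈ twFil W n →
      D f ∈ twFil W (n + 1) ∧ twLam W (n + 1) (D f) = (n : K) * twLam W n f)
    (p : ℕ) :
    twWr W D p ∈ twFil W (p ^ 2 - 1) ∧ twLam W (p ^ 2 - 1) (twWr W D p) = ((twVand p : ℤ) : K) :=
  tw_det_symbol (K := K) (fun f => D f) (twFil W) (twLam W)
    ⟨one_mem_twFil W, twLam_zero_one W⟩ (fun _ _ _ _ hf hg => tw_fil_mul W hf hg) hD p
    (fun j : Fin p => twMon W (twN (j : ℕ)))
    (fun _ => ⟨twMon_mem_twFil W (twN_ne_one _), twLam_twMon_self W (twN_ne_one _)⟩)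

/-! ## Integrality -/

variable {W}

theorem twMon_mem_twIntRing (hW : TwIntCoeff W) (n : ℕ) : twMon W n ∈ twIntRing hW := by
  rw [twMon]
  split_ifs
  · exact twIntRing_smul_one hW (Subring.pow_mem _ twIntPoly_X _)
  · exact ⟨0, Subring.zero_mem _, X ^ ((n - 3) / 2), Subring.pow_mem _ twIntPoly_X _, by simp⟩

/-- `F_y` is integral -/
theorem tw_polynomialY_mem (hW : TwIntCoeff W) :
    CoordinateRing.mk W W.polynomialY ∈ twIntRing hW := by
  obtain ⟨n1, h1⟩ := hW.a1
  obtain ⟨n3, h3⟩ := hW.a3
  rw [polynomialY, map_add, map_mul]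
  refine Subring.add_mem _ (Subring.mul_mem _ ?_ (twIntRing_y hW)) ?_
  · have h := twIntRing_smul_one hW (a := C 2) (by
      have e2 : (C (2 : K) : K[X]) = C ((2 : ℤ) : K) := by norm_num
      rw [e2]; exact twIntPoly_C_int 2)
    rwa [CoordinateRing.smul, mul_one] at h
  · have h := twIntRing_smul_one hW (a := C W.a₁ * X + C W.a₃) (by
      rw [h1, h3]
      exact Subring.add_mem _ (Subring.mul_mem _ (twIntPoly_C_int n1) twIntPoly_X)
        (twIntPoly_C_int n3))
    rwa [CoordinateRing.smul, mul_one] at h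

/-- `F_x` is integral -/
theorem tw_polynomialX_mem (hW : TwIntCoeff W) :
    CoordinateRing.mk W W.polynomialX ∈ twIntRing hW := by
  obtain ⟨n1, h1⟩ := hW.a1
  obtain ⟨n2, h2⟩ := hW.a2
  obtain ⟨n4, h4⟩ := hW.a4
  rw [polynomialX, map_sub, map_mul]
  refine Subring.sub_mem _ (Subring.mul_mem _ ?_ (twIntRing_y hW)) ?_
  · have h := twIntRing_smul_one hW (a := C W.a₁) (by rw [h1]; exact twIntPoly_C_int n1)
    rwa [CoordinateRing.smul, mul_one] at h
  · have h := twIntRing_smul_one hW (a := C 3 * X ^ 2 + C (2 * W.a₂) * X + C W.a₄) (by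
      rw [h2, h4]
      have e3 : (C (3 : K) : K[X]) = C ((3 : ℤ) : K) := by norm_num
      have e2 : (C (2 * (n2 : K)) : K[X]) = C (((2 * n2 : ℤ)) : K) := by push_cast; rfl
      rw [e3, e2]
      exact Subring.add_mem _ (Subring.add_mem _
        (Subring.mul_mem _ (twIntPoly_C_int 3) (Subring.pow_mem _ twIntPoly_X 2))
        (Subring.mul_mem _ (twIntPoly_C_int _) twIntPoly_X)) (twIntPoly_C_int n4))
    rwa [CoordinateRing.smul, mul_one] at h

variable {D}

/-- the Wronskian is integral -/
theorem twWr_mem_twIntRing (hW : TwIntCoeff W)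
    (hDx : D (CoordinateRing.mk W (C X)) = CoordinateRing.mk W W.polynomialY)
    (hDy : D (CoordinateRing.mk W Y) = -CoordinateRing.mk W W.polynomialX) (p : ℕ) :
    twWr W D p ∈ twIntRing hW := by
  refine twIntRing_det hW _ fun i j => ?_
  rw [Matrix.of_apply]
  exact twIntRing_derivation_iterate hW D (by rw [hDx]; exact tw_polynomialY_mem hW)
    (by rw [hDy]; exact Subring.neg_mem _ (tw_polynomialX_mem hW)) _ (twMon_mem_twIntRing hW _)

/-- **integrality of `twPhi`** -/
theorem twPhi_int (hW : TwIntCoeff W)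
    (hDx : D (CoordinateRing.mk W (C X)) = CoordinateRing.mk W W.polynomialY)
    (hDy : D (CoordinateRing.mk W Y) = -CoordinateRing.mk W W.polynomialX) (p : ℕ) :
    ∃ g : ℤ[X], twPhi W D p = g.map (Int.castRingHom K) :=
  twIntRing_norm hW (twWr_mem_twIntRing hW hDx hDy p)

end Fermat.Agent.TW
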