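import Mathlib
import Fermat.Agent.Lib.TW_Wronski
import Fermat.Agent.Lib.TW_SymD

/-!
# Degree and leading coefficient of `twPhi` (WP-T, T3/T6)

For a derivation `D` with `D x = F_y`, `D y = -F_x`, in characteristic zero and for a prime
`p ≥ 3`: `twPhi W D p` has degree `p² - 1` and leading coefficient `(twVand p)²`.
-/

set_option autoImplicit false

open Polynomial
open scoped Polynomial.Bivariate

namespace Fermat.Agent.TW

open WeierstrassCurve WeierstrassCurve.Affine

variable {K : Type*} [Field K] (W : Affine K)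

/-- the norm of an element of even pole order `2k` with leading coefficient `c ≠ 0` has degree
`2k` and leading coefficient `c²` -/
theorem twdeg_norm {k : ℕ} {f : W.CoordinateRing} (hf : f ∈ twFil W (2 * k))
    (hc : twLam W (2 * k) f ≠ 0) :
    (Algebra.norm K[X] f).natDegree = 2 * k ∧
      (Algebra.norm K[X] f).leadingCoeff = (twLam W (2 * k) f) ^ 2 := by
  rw [mem_twFil_iff] at hf
  have hpe := tw_natDegree_even_part W hf
  have hqo := tw_natDegree_odd_part W hf
  rw [twLam_apply, twTau_coeff_even] at hc ⊢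
  set p := twP W f with hp
  set q := twQ W f with hq
  rw [natDegree_expand] at hpe
  have hpk : p.natDegree = k := by
    apply le_antisymm (by omega)
    exact le_natDegree_of_ne_zero hc
  have hp0 : p ≠ 0 := fun h => hc (by rw [h, coeff_zero])
  have hlc : p.leadingCoeff = p.coeff k := by rw [leadingCoeff, hpk]
  have h1 : (p ^ 2).natDegree = 2 * k := by rw [natDegree_pow, hpk]
  have hnorm : Algebra.norm K[X] f = p ^ 2 - p * q * (C W.a₁ * X + C W.a₃) -
      q ^ 2 * (X ^ 3 + C W.a₂ * X ^ 2 + C W.a₄ * X + C W.a₆) := by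
    conv_lhs => rw [← tw_repr W f]
    exact CoordinateRing.norm_smul_basis p q
  by_cases hq0 : q = 0
  · rw [hnorm, hq0]
    simp only [mul_zero, zero_mul, sub_zero, ne_eq, OfNat.ofNat_ne_zero, not_false_eq_true,
      zero_pow]
    exact ⟨h1, by rw [leadingCoeff_pow, hlc]⟩
  · have hqd : 2 * q.natDegree + 3 ≤ 2 * k := by
      have h3 : (X ^ 3 * expand K 2 q).natDegree = 3 + 2 * q.natDegree := by
        rw [natDegree_mul (pow_ne_zero 3 X_ne_zero) (by
          rw [Ne, expand_eq_zero (by norm_num)]; exact hq0), natDegree_X_pow, natDegree_expand]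
        ring
      omega
    have hA : (p * q * (C W.a₁ * X + C W.a₃)).natDegree < 2 * k := by
      have h4 : (C W.a₁ * X + C W.a₃ : K[X]).natDegree ≤ 1 := by compute_degree
      have h5 := natDegree_mul_le (p := p * q) (q := C W.a₁ * X + C W.a₃)
      have h6 := natDegree_mul_le (p := p) (q := q)
      omega
    have hB : (q ^ 2 * (X ^ 3 + C W.a₂ * X ^ 2 + C W.a₄ * X + C W.a₆)).natDegree < 2 * k := by
      have h4 : (X ^ 3 + C W.a₂ * X ^ 2 + C W.a₄ * X + C W.a₆ : K[X]).natDegree ≤ 3 := by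
        compute_degree
      have h5 := natDegree_mul_le (p := q ^ 2)
        (q := X ^ 3 + C W.a₂ * X ^ 2 + C W.a₄ * X + C W.a₆)
      have h6 : (q ^ 2).natDegree = 2 * q.natDegree := natDegree_pow q 2
      omega
    have hk : 0 < 2 * k := by omega
    have e1 : (p ^ 2 - p * q * (C W.a₁ * X + C W.a₃)).natDegree = 2 * k := by
      rw [natDegree_sub_eq_left_of_natDegree_lt (by rw [h1]; exact hA), h1]
    have e2 : (p ^ 2 - p * q * (C W.a₁ * X + C W.a₃)).leadingCoeff = (p.coeff k) ^ 2 := by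
      rw [leadingCoeff_sub_of_degree_lt (degree_lt_degree (by rw [h1]; exact hA)),
        leadingCoeff_pow, hlc]
    rw [hnorm]
    refine ⟨?_, ?_⟩
    · rw [natDegree_sub_eq_left_of_natDegree_lt (by rw [e1]; exact hB), e1]
    · rw [leadingCoeff_sub_of_degree_lt (degree_lt_degree (by rw [e1]; exact hB)), e2]

variable (D : Derivation K W.CoordinateRing W.CoordinateRing)

/-- the symbol of the Wronskian for a derivation with `D x = F_y`, `D y = -F_x` -/
theorem twWr_symbol' (hDx : D (CoordinateRing.mk W (C X)) = CoordinateRing.mk W W.polynomialY)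
    (hDy : D (CoordinateRing.mk W Y) = -CoordinateRing.mk W W.polynomialX) (p : ℕ) :
    twWr W D p ∈ twFil W (p ^ 2 - 1) ∧ twLam W (p ^ 2 - 1) (twWr W D p) = ((twVand p : ℤ) : K) :=
  twWr_symbol W D (fun _ _ hf => tw_fil_D W D hDx hDy hf) p

theorem twVand_ne_zero {p : ℕ} (hp : p.Prime) (h3 : 3 ≤ p) : twVand p ≠ 0 := by
  obtain ⟨m, hm, hpm⟩ := twVand_spec hp h3
  rw [hm]
  refine mul_ne_zero (by exact_mod_cast hp.ne_zero) ?_
  rintro rfl
  exact hpm (dvd_zero _)

/-- **degree and leading coefficient of `twPhi`** -/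
theorem twPhi_natDegree_leadingCoeff [CharZero K]
    (hDx : D (CoordinateRing.mk W (C X)) = CoordinateRing.mk W W.polynomialY)
    (hDy : D (CoordinateRing.mk W Y) = -CoordinateRing.mk W W.polynomialX)
    {p : ℕ} (hp : p.Prime) (h3 : 3 ≤ p) :
    (twPhi W D p).natDegree = p ^ 2 - 1 ∧
      (twPhi W D p).leadingCoeff = ((twVand p : ℤ) : K) ^ 2 := by
  obtain ⟨h1, h2⟩ := twWr_symbol' W D hDx hDy p
  have hodd : Odd p := hp.odd_of_ne_two (by omega)
  obtain ⟨j, hj⟩ := hodd
  have hk : p ^ 2 - 1 = 2 * (2 * j ^ 2 + 2 * j) := by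
    rw [hj]
    have : (2 * j + 1) ^ 2 = 2 * (2 * j ^ 2 + 2 * j) + 1 := by ring
    rw [this, Nat.add_sub_cancel]
  rw [hk] at h1 h2
  have hc : twLam W (2 * (2 * j ^ 2 + 2 * j)) (twWr W D p) ≠ 0 := by
    rw [h2]
    exact_mod_cast twVand_ne_zero hp h3
  obtain ⟨h4, h5⟩ := twdeg_norm W h1 hc
  rw [hk, ← h2]
  exact ⟨h4, h5⟩

theorem twPhi_natDegree [CharZero K]
    (hDx : D (CoordinateRing.mk W (C X)) = CoordinateRing.mk W W.polynomialY)
    (hDy : D (CoordinateRing.mk W Y) = -CoordinateRing.mk W W.polynomialX)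
    {p : ℕ} (hp : p.Prime) (h3 : 3 ≤ p) : (twPhi W D p).natDegree = p ^ 2 - 1 :=
  (twPhi_natDegree_leadingCoeff W D hDx hDy hp h3).1

theorem twPhi_leadingCoeff [CharZero K]
    (hDx : D (CoordinateRing.mk W (C X)) = CoordinateRing.mk W W.polynomialY)
    (hDy : D (CoordinateRing.mk W Y) = -CoordinateRing.mk W W.polynomialX)
    {p : ℕ} (hp : p.Prime) (h3 : 3 ≤ p) :
    (twPhi W D p).leadingCoeff = ((twVand p : ℤ) : K) ^ 2 :=
  (twPhi_natDegree_leadingCoeff W D hDx hDy hp h3).2

theorem twPhi_ne_zero [CharZero K]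
    (hDx : D (CoordinateRing.mk W (C X)) = CoordinateRing.mk W W.polynomialY)
    (hDy : D (CoordinateRing.mk W Y) = -CoordinateRing.mk W W.polynomialX)
    {p : ℕ} (hp : p.Prime) (h3 : 3 ≤ p) : twPhi W D p ≠ 0 := by
  intro h
  have h1 := twPhi_leadingCoeff W D hDx hDy hp h3
  rw [h, leadingCoeff_zero] at h1
  have h2 : ((twVand p : ℤ) : K) ≠ 0 := by exact_mod_cast twVand_ne_zero hp h3
  exact pow_ne_zero 2 h2 h1.symm

end Fermat.Agent.TW
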