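-- S13 WP-T [T5] (lead): torsion of a point <-> principal generator of I_P^n with small norm degree;
-- the involution twInv of the coordinate ring and f * twInv f = norm f.
import Mathlib

set_option autoImplicit false

open Polynomial
open scoped Polynomial.Bivariate nonZeroDivisors
open WeierstrassCurve WeierstrassCurve.Affine

namespace Fermat.Agent.TW

variable {K : Type*} [Field K] (W : WeierstrassCurve.Affine K)

open WeierstrassCurve.Affine.CoordinateRing

instance twFiniteCoordinateRing : Module.Finite K[X] W.CoordinateRing :=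
  Module.Finite.of_basis (CoordinateRing.basis W)

/-- the conjugate `-Y - (a₁ X + a₃)` of the class of `Y` -/
noncomputable def twInvY : W.CoordinateRing :=
  -CoordinateRing.mk W Y - CoordinateRing.mk W (C (C W.a₁ * X + C W.a₃))

theorem twInvY_root :
    W.polynomial.eval₂ (algebraMap K[X] W.CoordinateRing) (twInvY W) = 0 := by
  have h : W.polynomial.eval₂ (algebraMap K[X] W.CoordinateRing) (twInvY W) =
      CoordinateRing.mk W W.polynomial := by
    have hC : ∀ p : K[X], algebraMap K[X] W.CoordinateRing p = CoordinateRing.mk W (C p) :=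
      fun p => rfl
    simp only [WeierstrassCurve.Affine.polynomial, eval₂_add, eval₂_sub, eval₂_mul, eval₂_pow,
      eval₂_X, eval₂_C, twInvY, hC, map_add, map_sub, map_mul, map_pow]
    ring
  rw [h]
  exact AdjoinRoot.mk_self

/-- the involution `Y ↦ -Y - (a₁ X + a₃)` of the coordinate ring -/
noncomputable def twInv : W.CoordinateRing →ₐ[K[X]] W.CoordinateRing :=
  AdjoinRoot.liftAlgHom W.polynomial (Algebra.ofId K[X] W.CoordinateRing) (twInvY W)
    (twInvY_root W)

theorem twInv_mk_Y : twInv W (CoordinateRing.mk W Y) = twInvY W :=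
  AdjoinRoot.liftAlgHom_root _ _ _ _

theorem twInv_smul_basis (p q : K[X]) :
    twInv W (p • (1 : W.CoordinateRing) + q • CoordinateRing.mk W Y) =
      p • (1 : W.CoordinateRing) + q • twInvY W := by
  rw [map_add, map_smul, map_smul, map_one, twInv_mk_Y]

theorem twInv_twInv (f : W.CoordinateRing) : twInv W (twInv W f) = f := by
  obtain ⟨p, q, rfl⟩ := CoordinateRing.exists_smul_basis_eq f
  rw [twInv_smul_basis, map_add, map_smul, map_smul, map_one]
  congr 2
  rw [twInvY, map_sub, map_neg, twInv_mk_Y, twInvY]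
  have : twInv W (CoordinateRing.mk W (C (C W.a₁ * X + C W.a₃))) =
      CoordinateRing.mk W (C (C W.a₁ * X + C W.a₃)) := (twInv W).commutes _
  rw [this]
  ring

/-- `f * twInv f` is the norm of `f` -/
theorem mul_twInv (f : W.CoordinateRing) :
    f * twInv W f = algebraMap K[X] W.CoordinateRing (Algebra.norm K[X] f) := by
  obtain ⟨p, q, rfl⟩ := CoordinateRing.exists_smul_basis_eq f
  have h := CoordinateRing.coe_norm_smul_basis (W' := W) p q
  rw [twInv_smul_basis, AdjoinRoot.algebraMap_eq, h, twInvY]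
  simp only [CoordinateRing.smul, map_mul, map_add, map_sub, map_neg, mul_one]

theorem twInv_injective : Function.Injective (twInv W) := by
  intro a b hab
  have := congrArg (twInv W) hab
  rwa [twInv_twInv, twInv_twInv] at this

theorem twInv_XClass (x : K) : twInv W (CoordinateRing.XClass W x) = CoordinateRing.XClass W x :=
  (twInv W).commutes _

theorem twInv_YClass (x y : K) : twInv W (CoordinateRing.YClass W (C y)) =
    -CoordinateRing.YClass W (C (W.negY x y)) -
      CoordinateRing.mk W (C (C W.a₁)) * CoordinateRing.XClass W x := by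
  have h1 : CoordinateRing.YClass W (C y) =
      CoordinateRing.mk W Y - algebraMap K[X] W.CoordinateRing (C y) := by
    rw [CoordinateRing.YClass, map_sub]; rfl
  rw [h1, map_sub, twInv_mk_Y, AlgHom.commutes, twInvY, CoordinateRing.YClass,
    CoordinateRing.XClass, negY]
  have hC : ∀ p : K[X], algebraMap K[X] W.CoordinateRing p = CoordinateRing.mk W (C p) :=
    fun p => rfl
  simp only [hC, map_sub, map_add, map_mul, map_neg]
  ring

theorem twInv_map_XYIdeal_le (x y : K) :
    Ideal.map (twInv W) (CoordinateRing.XYIdeal W x (C y)) ≤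
      CoordinateRing.XYIdeal W x (C (W.negY x y)) := by
  rw [CoordinateRing.XYIdeal, Ideal.map_span, Ideal.span_le]
  rintro _ ⟨g, hg, rfl⟩
  rcases hg with rfl | rfl
  · rw [twInv_XClass]
    exact Ideal.subset_span (Set.mem_insert _ _)
  · rw [twInv_YClass W x y]
    refine Ideal.sub_mem _ (neg_mem (Ideal.subset_span (Set.mem_insert_of_mem _ rfl))) ?_
    exact Ideal.mul_mem_left _ _ (Ideal.subset_span (Set.mem_insert _ _))

theorem twInv_map_XYIdeal (x y : K) :
    Ideal.map (twInv W) (CoordinateRing.XYIdeal W x (C y)) =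
      CoordinateRing.XYIdeal W x (C (W.negY x y)) := by
  refine le_antisymm (twInv_map_XYIdeal_le W x y) ?_
  have h1 := twInv_map_XYIdeal_le W x (W.negY x y)
  rw [negY_negY] at h1
  intro g hg
  have h2 : twInv W g ∈ CoordinateRing.XYIdeal W x (C y) := h1 (Ideal.mem_map_of_mem _ hg)
  have h3 := Ideal.mem_map_of_mem (twInv W) h2
  rwa [twInv_twInv] at h3

theorem twInv_mem_pow {x y : K} {n : ℕ} {f : W.CoordinateRing}
    (hf : f ∈ CoordinateRing.XYIdeal W x (C y) ^ n) :
    twInv W f ∈ CoordinateRing.XYIdeal W x (C (W.negY x y)) ^ n := by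
  have := Ideal.mem_map_of_mem (twInv W) hf
  rwa [Ideal.map_pow, twInv_map_XYIdeal] at this

/-- divisibility in `K[X]` from divisibility in the coordinate ring -/
theorem twc_dvd_of_dvd {a b : K[X]}
    (h : algebraMap K[X] W.CoordinateRing a ∣ algebraMap K[X] W.CoordinateRing b) : a ∣ b := by
  obtain ⟨r, hr⟩ := h
  obtain ⟨p, q, rfl⟩ := CoordinateRing.exists_smul_basis_eq r
  have h0 : (b - a * p) • (1 : W.CoordinateRing) + (-(a * q)) • CoordinateRing.mk W Y = 0 := by
    rw [sub_smul, neg_smul, mul_smul, mul_smul]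
    have e1 : algebraMap K[X] W.CoordinateRing b = b • (1 : W.CoordinateRing) :=
      Algebra.algebraMap_eq_smul_one b
    have e2 : algebraMap K[X] W.CoordinateRing a *
        (p • (1 : W.CoordinateRing) + q • CoordinateRing.mk W Y) =
        a • (p • (1 : W.CoordinateRing)) + a • (q • CoordinateRing.mk W Y) := by
      rw [Algebra.algebraMap_eq_smul_one, smul_mul_assoc, one_mul, smul_add]
    rw [e1, e2] at hr
    rw [hr]
    abel
  obtain ⟨h1, -⟩ := CoordinateRing.smul_basis_eq_zero h0
  exact ⟨p, by linear_combination h1⟩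

theorem twc_XClass_pow (x : K) (n : ℕ) :
    CoordinateRing.XClass W x ^ n = algebraMap K[X] W.CoordinateRing ((X - C x) ^ n) := by
  rw [map_pow]
  rfl

theorem twc_prod {x y : K} (h : W.Nonsingular x y) (n : ℕ) :
    CoordinateRing.XYIdeal W x (C (W.negY x y)) ^ n * CoordinateRing.XYIdeal W x (C y) ^ n =
      Ideal.span {CoordinateRing.XClass W x ^ n} := by
  rw [← mul_pow, CoordinateRing.XYIdeal_neg_mul h, CoordinateRing.XIdeal, Ideal.span_singleton_pow]

/-- **principal generator from pole order**: a nonzero `f ∈ I_P ^ n` whose norm has degree `≤ n`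
generates `I_P ^ n` -/
theorem tw_span_eq_of_mem {x y : K} (h : W.Nonsingular x y) (n : ℕ) (f : W.CoordinateRing)
    (hf0 : f ≠ 0) (hf : f ∈ CoordinateRing.XYIdeal W x (C y) ^ n)
    (hdeg : (Algebra.norm K[X] f).natDegree ≤ n) :
    CoordinateRing.XYIdeal W x (C y) ^ n = Ideal.span {f} := by
  have hprod := twc_prod W h n
  have hN0 : Algebra.norm K[X] f ≠ 0 := fun h0 => hf0 (Algebra.norm_eq_zero_iff.mp h0)
  have h1 : algebraMap K[X] W.CoordinateRing (Algebra.norm K[X] f) ∈
      Ideal.span {CoordinateRing.XClass W x ^ n} := by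
    have h2 := Ideal.mul_mem_mul (twInv_mem_pow W hf) hf
    rw [hprod, mul_comm (twInv W f) f, mul_twInv] at h2
    exact h2
  rw [twc_XClass_pow] at h1
  obtain ⟨a, ha⟩ := twc_dvd_of_dvd W (Ideal.mem_span_singleton.mp h1)
  have ha0 : a ≠ 0 := by
    rintro rfl
    rw [mul_zero] at ha
    exact hN0 ha
  have hX0 : (X - C x : K[X]) ^ n ≠ 0 := pow_ne_zero _ (X_sub_C_ne_zero x)
  have hdega : a.natDegree = 0 := by
    have h2 := congrArg natDegree ha
    rw [natDegree_mul hX0 ha0, natDegree_pow, natDegree_X_sub_C, mul_one] at h2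
    omega
  obtain ⟨c, rfl⟩ : ∃ c : K, a = C c := ⟨a.coeff 0, eq_C_of_natDegree_eq_zero hdega⟩
  have hc0 : c ≠ 0 := fun hc => ha0 (by rw [hc, C_0])
  have hσf0 : twInv W f ≠ 0 := fun h0 => hf0 (twInv_injective W (by rw [h0, map_zero]))
  refine le_antisymm ?_ ((Ideal.span_singleton_le_iff_mem _).mpr hf)
  intro g hg
  have h3 : twInv W f * g ∈ Ideal.span {CoordinateRing.XClass W x ^ n} := by
    have h2 := Ideal.mul_mem_mul (twInv_mem_pow W hf) hg
    rw [hprod] at h2
    exact h2
  obtain ⟨r, hr⟩ := Ideal.mem_span_singleton.mp h3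
  rw [twc_XClass_pow] at hr
  have h4 : twInv W f * (algebraMap K[X] W.CoordinateRing (C c) * g) = twInv W f * (f * r) := by
    have h5 : twInv W f * f = algebraMap K[X] W.CoordinateRing ((X - C x) ^ n) *
        algebraMap K[X] W.CoordinateRing (C c) := by
      rw [mul_comm, mul_twInv, ha, map_mul]
    calc twInv W f * (algebraMap K[X] W.CoordinateRing (C c) * g)
        = algebraMap K[X] W.CoordinateRing (C c) * (twInv W f * g) := by ring
      _ = algebraMap K[X] W.CoordinateRing (C c) *
          (algebraMap K[X] W.CoordinateRing ((X - C x) ^ n) * r) := by rw [hr]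
      _ = (twInv W f * f) * r := by rw [h5]; ring
      _ = twInv W f * (f * r) := by ring
  have h6 := mul_left_cancel₀ hσf0 h4
  have h7 : g = f * (r * algebraMap K[X] W.CoordinateRing (C c⁻¹)) := by
    have h8 : algebraMap K[X] W.CoordinateRing (C c⁻¹) * algebraMap K[X] W.CoordinateRing (C c) =
        1 := by
      rw [← map_mul, ← C_mul, inv_mul_cancel₀ hc0, C_1, map_one]
    calc g = (algebraMap K[X] W.CoordinateRing (C c⁻¹) *
          algebraMap K[X] W.CoordinateRing (C c)) * g := by rw [h8, one_mul]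
      _ = algebraMap K[X] W.CoordinateRing (C c⁻¹) *
          (algebraMap K[X] W.CoordinateRing (C c) * g) := by ring
      _ = f * (r * algebraMap K[X] W.CoordinateRing (C c⁻¹)) := by rw [h6]; ring
  rw [h7]
  exact Ideal.mul_mem_right _ _ (Ideal.subset_span rfl)

theorem twc_coe_pow {x y : K} (h : W.Nonsingular x y) (n : ℕ) :
    ((CoordinateRing.XYIdeal' h ^ n : (FractionalIdeal W.CoordinateRing⁰ W.FunctionField)ˣ) :
      FractionalIdeal W.CoordinateRing⁰ W.FunctionField) =
      ((CoordinateRing.XYIdeal W x (C y) ^ n : Ideal W.CoordinateRing) :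
        FractionalIdeal W.CoordinateRing⁰ W.FunctionField) := by
  rw [Units.val_pow_eq_pow_val, CoordinateRing.XYIdeal'_eq, FractionalIdeal.coeIdeal_pow]

/-- **torsion from a function**: a nonzero `f ∈ I_P ^ n` whose norm has degree `≤ n` shows
`n • P = 0` -/
theorem tw_torsion_of_mem [DecidableEq K] {x y : K} (h : W.Nonsingular x y) (n : ℕ)
    (f : W.CoordinateRing) (hf0 : f ≠ 0) (hf : f ∈ CoordinateRing.XYIdeal W x (C y) ^ n)
    (hdeg : (Algebra.norm K[X] f).natDegree ≤ n) : n • Point.some x y h = 0 := by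
  have hI := tw_span_eq_of_mem W h n f hf0 hf hdeg
  have h1 : ClassGroup.mk W.FunctionField (CoordinateRing.XYIdeal' h ^ n) = 1 :=
    (ClassGroup.mk_eq_one_of_coe_ideal (twc_coe_pow W h n)).mpr ⟨f, hf0, hI⟩
  rw [← Point.toClass_eq_zero, map_nsmul, Point.toClass_some]
  rw [map_pow] at h1
  exact h1

/-- **a function from torsion**: if `n • P = 0` then `I_P ^ n` is generated by an element whose
norm has degree exactly `n` -/
theorem tw_exists_of_torsion [DecidableEq K] {x y : K} (h : W.Nonsingular x y) (n : ℕ)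
    (hP : n • Point.some x y h = 0) :
    ∃ f : W.CoordinateRing, f ≠ 0 ∧ CoordinateRing.XYIdeal W x (C y) ^ n = Ideal.span {f} ∧
      (Algebra.norm K[X] f).natDegree = n := by
  have h1 : ClassGroup.mk W.FunctionField (CoordinateRing.XYIdeal' h ^ n) = 1 := by
    have h2 := congrArg Point.toClass hP
    rw [map_nsmul, Point.toClass_some, map_zero] at h2
    rw [map_pow]
    exact h2
  obtain ⟨f, hf0, hI⟩ := (ClassGroup.mk_eq_one_of_coe_ideal (twc_coe_pow W h n)).mp h1
  refine ⟨f, hf0, hI, ?_⟩
  have hN0 : Algebra.norm K[X] f ≠ 0 := fun h0 => hf0 (Algebra.norm_eq_zero_iff.mp h0)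
  have hI' : CoordinateRing.XYIdeal W x (C (W.negY x y)) ^ n = Ideal.span {twInv W f} := by
    rw [← twInv_map_XYIdeal, ← Ideal.map_pow, hI, Ideal.map_span, Set.image_singleton]
  have hprod := twc_prod W h n
  rw [hI', hI, Ideal.span_singleton_mul_span_singleton, mul_comm, mul_twInv, twc_XClass_pow]
    at hprod
  have d1 : (X - C x : K[X]) ^ n ∣ Algebra.norm K[X] f :=
    twc_dvd_of_dvd W (Ideal.span_singleton_le_span_singleton.mp hprod.le)
  have d2 : Algebra.norm K[X] f ∣ (X - C x : K[X]) ^ n :=
    twc_dvd_of_dvd W (Ideal.span_singleton_le_span_singleton.mp hprod.ge)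
  have hX0 : (X - C x : K[X]) ^ n ≠ 0 := pow_ne_zero _ (X_sub_C_ne_zero x)
  have e1 := natDegree_le_of_dvd d1 hN0
  have e2 := natDegree_le_of_dvd d2 hX0
  rw [natDegree_pow, natDegree_X_sub_C, mul_one] at e1 e2
  omega

end Fermat.Agent.TW
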