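-- S13 WP-T [T4] (helper2): the filtration lemma at a nonsingular point of a Weierstrass curve.
-- f lies in the k-th power of the ideal of the point  iff  the first k iterated derivatives
-- (for the invariant derivation) vanish at the point.
import Mathlib

set_option autoImplicit false

open Polynomial WeierstrassCurve WeierstrassCurve.Affine
open scoped Polynomial.Bivariate

namespace Fermat.Agent.TW

section Abstract

variable {K R : Type*} [Field K] [CommRing R] [Algebra K R]

/-- A derivation lowers the `I`-adic order by at most one. -/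
theorem twf_deriv_mem_pow (D : Derivation K R R) (I : Ideal R) (k : ℕ) {f : R}
    (hf : f ∈ I ^ (k + 1)) : D f ∈ I ^ k := by
  induction k generalizing f with
  | zero => simp
  | succ k ih =>
    rw [pow_succ] at hf
    refine Submodule.mul_induction_on hf (fun a ha b hb => ?_) (fun a b ha hb => ?_)
    · rw [Derivation.leibniz]
      refine Ideal.add_mem _ ?_ ?_
      · rw [smul_eq_mul]; exact Ideal.mul_mem_right _ _ ha
      · rw [smul_eq_mul, pow_succ, mul_comm b]
        exact Ideal.mul_mem_mul (ih ha) hb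
    · rw [map_add]; exact Ideal.add_mem _ ha hb

theorem twf_iter_mem_pow (D : Derivation K R R) (I : Ideal R) (i k : ℕ) {f : R}
    (hf : f ∈ I ^ (k + i)) : (D^[i]) f ∈ I ^ k := by
  induction i generalizing f k with
  | zero => simpa using hf
  | succ i ih =>
    rw [Function.iterate_succ_apply]
    apply ih
    apply twf_deriv_mem_pow
    rw [add_assoc]; exact hf

theorem twf_iter_mem (D : Derivation K R R) (I : Ideal R) {i k : ℕ} (hik : i < k) {f : R}
    (hf : f ∈ I ^ k) : (D^[i]) f ∈ I := by
  have h1 : f ∈ I ^ (1 + i) := Ideal.pow_le_pow_right (by omega) hf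
  simpa using twf_iter_mem_pow D I i 1 h1

theorem twf_iter_add (D : Derivation K R R) (i : ℕ) (f g : R) :
    (D^[i]) (f + g) = (D^[i]) f + (D^[i]) g := by
  induction i generalizing f g with
  | zero => rfl
  | succ i ih => rw [Function.iterate_succ_apply, Function.iterate_succ_apply,
      Function.iterate_succ_apply, map_add, ih]

theorem twf_iter_smul (D : Derivation K R R) (i : ℕ) (c : K) (f : R) :
    (D^[i]) (c • f) = c • (D^[i]) f := by
  induction i generalizing f with
  | zero => rfl
  | succ i ih => rw [Function.iterate_succ_apply, Function.iterate_succ_apply, D.map_smul, ih]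

theorem twf_iter_nsmul (D : Derivation K R R) (i : ℕ) (n : ℕ) (f : R) :
    (D^[i]) (n • f) = n • (D^[i]) f := by
  induction i generalizing f with
  | zero => rfl
  | succ i ih => rw [Function.iterate_succ_apply, Function.iterate_succ_apply, map_nsmul, ih]

/-- `D^j (t^j g) ≡ j! (D t)^j g` modulo `I`, for `t ∈ I`. -/
theorem twf_iter_pow_mul (D : Derivation K R R) (I : Ideal R) {t : R} (ht : t ∈ I) (j : ℕ)
    (g : R) : (D^[j]) (t ^ j * g) - (j.factorial : R) * (D t) ^ j * g ∈ I := by
  induction j generalizing g with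
  | zero => simp
  | succ j ih =>
    have h1 : D (t ^ (j + 1) * g) = t ^ (j + 1) * D g + (j + 1) • (t ^ j * (D t * g)) := by
      rw [Derivation.leibniz, Derivation.leibniz_pow]
      simp only [smul_eq_mul, Nat.add_sub_cancel, nsmul_eq_mul]
      push_cast
      ring
    rw [Function.iterate_succ_apply, h1, twf_iter_add, twf_iter_nsmul]
    have h2 : (D^[j]) (t ^ (j + 1) * D g) ∈ I := by
      apply twf_iter_mem D I (Nat.lt_succ_self j)
      exact Ideal.mul_mem_right _ _ (Ideal.pow_mem_pow ht _)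
    have h3 := ih (D t * g)
    have h4 : (D^[j]) (t ^ (j + 1) * D g) + (j + 1) • (D^[j]) (t ^ j * (D t * g)) -
        ((j + 1).factorial : R) * D t ^ (j + 1) * g =
        (D^[j]) (t ^ (j + 1) * D g) + ((j + 1 : ℕ) : R) *
          ((D^[j]) (t ^ j * (D t * g)) - (j.factorial : R) * D t ^ j * (D t * g)) := by
      rw [Nat.factorial_succ]
      push_cast
      simp only [nsmul_eq_mul]
      push_cast
      ring
    rw [h4]
    exact Ideal.add_mem _ h2 (Ideal.mul_mem_left _ _ h3)

/-- If `R = K + I` and `I = t R + I^2`, then `I^k = K t^k + I^(k+1)`. -/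
theorem twf_exists_coeff (I : Ideal R) {t : R} (ht : t ∈ I)
    (hK : ∀ r : R, ∃ c : K, r - algebraMap K R c ∈ I)
    (ht2 : I ≤ Ideal.span {t} ⊔ I ^ 2) (k : ℕ) {f : R} (hf : f ∈ I ^ k) :
    ∃ c : K, f - c • t ^ k ∈ I ^ (k + 1) := by
  induction k generalizing f with
  | zero =>
    obtain ⟨c, hc⟩ := hK f
    refine ⟨c, ?_⟩
    simpa [Algebra.smul_def] using hc
  | succ k ih =>
    rw [pow_succ] at hf
    refine Submodule.mul_induction_on hf (fun a ha b hb => ?_) (fun a b ha hb => ?_)
    · obtain ⟨c₁, hc₁⟩ := ih ha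
      obtain ⟨u, hu, b', hb', hub⟩ := Submodule.mem_sup.mp (ht2 hb)
      obtain ⟨r, rfl⟩ := Ideal.mem_span_singleton'.mp hu
      obtain ⟨c₂, hc₂⟩ := hK r
      refine ⟨c₁ * c₂, ?_⟩
      have hb2 : (r - algebraMap K R c₂) * t + b' ∈ I ^ 2 := by
        refine Ideal.add_mem _ ?_ hb'
        rw [pow_two]; exact Ideal.mul_mem_mul hc₂ ht
      have e : a * b - (c₁ * c₂) • t ^ (k + 1) =
          (a - c₁ • t ^ k) * b + c₁ • (t ^ k * ((r - algebraMap K R c₂) * t + b')) := by
        rw [← hub]
        simp only [Algebra.smul_def, map_mul]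
        ring
      rw [e]
      refine Ideal.add_mem _ ?_ ?_
      · rw [pow_succ (I) (k + 1)]; exact Ideal.mul_mem_mul hc₁ hb
      · rw [Algebra.smul_def]
        refine Ideal.mul_mem_left _ _ ?_
        have : I ^ (k + 1 + 1) = I ^ k * I ^ 2 := by rw [← pow_add]
        rw [this]
        exact Ideal.mul_mem_mul (Ideal.pow_mem_pow ht _) hb2
    · obtain ⟨c₁, hc₁⟩ := ha
      obtain ⟨c₂, hc₂⟩ := hb
      refine ⟨c₁ + c₂, ?_⟩
      have e : a + b - (c₁ + c₂) • t ^ (k + 1) =
          (a - c₁ • t ^ (k + 1)) + (b - c₂ • t ^ (k + 1)) := by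
        rw [add_smul]; ring
      rw [e]; exact Ideal.add_mem _ hc₁ hc₂

/-- The converse filtration lemma: vanishing of the first `k` iterated derivatives at the point
forces `f ∈ I^k` (characteristic zero). -/
theorem twf_mem_pow_of_iter [CharZero K] (D : Derivation K R R) (I : Ideal R)
    (ev : R →ₐ[K] K) (hker : ∀ r : R, r ∈ I ↔ ev r = 0) {t : R} (ht : t ∈ I)
    (hDt : ev (D t) ≠ 0) (ht2 : I ≤ Ideal.span {t} ⊔ I ^ 2) (k : ℕ) {f : R}
    (hf : ∀ i < k, ev ((D^[i]) f) = 0) : f ∈ I ^ k := by
  have hK : ∀ r : R, ∃ c : K, r - algebraMap K R c ∈ I := fun r =>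
    ⟨ev r, by rw [hker, map_sub, AlgHom.commutes]; simp⟩
  induction k with
  | zero => simp
  | succ k ih =>
    have hfk : f ∈ I ^ k := ih fun i hi => hf i (Nat.lt_succ_of_lt hi)
    obtain ⟨c, hc⟩ := twf_exists_coeff I ht hK ht2 k hfk
    have h0 := hf k (Nat.lt_succ_self k)
    have h1 : (D^[k]) (f - c • t ^ k) ∈ I := twf_iter_mem D I (Nat.lt_succ_self k) hc
    have h2 := twf_iter_pow_mul D I ht k 1
    rw [hker] at h1 h2
    have h3 : f = (f - c • t ^ k) + c • (t ^ k * 1) := by rw [mul_one]; ring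
    have h4 : ev ((D^[k]) f) = c * ((k.factorial : K) * ev (D t) ^ k) := by
      conv_lhs => rw [h3]
      rw [twf_iter_add, twf_iter_smul, map_add, h1, zero_add, map_smul, smul_eq_mul]
      congr 1
      have h5 : ev ((D^[k]) (t ^ k * 1)) = (k.factorial : K) * ev (D t) ^ k := by
        rw [map_sub] at h2
        have h6 := sub_eq_zero.mp h2
        rw [h6]
        simp
      exact h5
    rw [h0] at h4
    have hne : ((k.factorial : K) * ev (D t) ^ k) ≠ 0 :=
      mul_ne_zero (Nat.cast_ne_zero.mpr (Nat.factorial_ne_zero k)) (pow_ne_zero _ hDt)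
    have hc0 : c = 0 := by
      rcases mul_eq_zero.mp h4.symm with h | h
      · exact h
      · exact absurd h hne
    rw [hc0, zero_smul, sub_zero] at hc
    exact hc

end Abstract

section Concrete

variable {K : Type*} [Field K] (W : WeierstrassCurve.Affine K)

/-- the class of a bivariate polynomial is congruent to its value at the point, modulo the ideal
of the point -/
theorem twf_mk_sub_mem (x₀ y₀ : K) (q : K[X][Y]) :
    CoordinateRing.mk W q - algebraMap K W.CoordinateRing (q.evalEval x₀ y₀) ∈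
      CoordinateRing.XYIdeal W x₀ (C y₀) := by
  have h1 : q - C (C (q.evalEval x₀ y₀)) ∈ Ideal.span {C (X - C x₀), Y - C (C y₀)} := by
    rw [Polynomial.mem_span_C_X_sub_C_X_sub_C_iff_eval_eval_eq_zero]
    simp [Polynomial.evalEval]
  have h2 := Ideal.mem_map_of_mem (CoordinateRing.mk W) h1
  rw [Ideal.map_span, Set.image_pair] at h2
  have h3 : CoordinateRing.mk W (q - C (C (q.evalEval x₀ y₀))) =
      CoordinateRing.mk W q - algebraMap K W.CoordinateRing (q.evalEval x₀ y₀) := by
    rw [map_sub]; rfl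
  rw [h3] at h2
  exact h2

/-- evaluation at a point of the curve -/
noncomputable def twfEv {x₀ y₀ : K} (h : W.Equation x₀ y₀) : W.CoordinateRing →ₐ[K] K :=
  (CoordinateRing.quotientXYIdealEquiv (W' := W) (x := x₀) (y := C y₀) h).toAlgHom.comp
    (Ideal.Quotient.mkₐ K (CoordinateRing.XYIdeal W x₀ (C y₀)))

theorem twfEv_eq_zero_iff {x₀ y₀ : K} (h : W.Equation x₀ y₀) (r : W.CoordinateRing) :
    r ∈ CoordinateRing.XYIdeal W x₀ (C y₀) ↔ twfEv W h r = 0 := by
  unfold twfEv
  rw [AlgHom.comp_apply, ← Ideal.Quotient.eq_zero_iff_mem]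
  constructor
  · intro h1
    rw [Ideal.Quotient.mkₐ_eq_mk, h1, map_zero]
  · intro h1
    have := (CoordinateRing.quotientXYIdealEquiv (W' := W) (x := x₀) (y := C y₀) h).injective
    apply this
    rw [map_zero]
    exact h1

theorem twf_taylor (x₀ y₀ : K) : W.polynomial =
    C (C (y₀ ^ 2 + W.a₁ * x₀ * y₀ + W.a₃ * y₀ - (x₀ ^ 3 + W.a₂ * x₀ ^ 2 + W.a₄ * x₀ + W.a₆)))
    + C (C (W.a₁ * y₀ - (3 * x₀ ^ 2 + 2 * W.a₂ * x₀ + W.a₄))) * C (X - C x₀)
    + C (C (2 * y₀ + W.a₁ * x₀ + W.a₃)) * (Y - C (C y₀))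
    + ((Y - C (C y₀)) ^ 2 + C (C W.a₁) * C (X - C x₀) * (Y - C (C y₀)) - C (X - C x₀) ^ 3
      - C (C (3 * x₀ + W.a₂)) * C (X - C x₀) ^ 2) := by
  rw [WeierstrassCurve.Affine.polynomial]
  simp only [C_add, C_sub, C_mul, C_pow, map_ofNat]
  ring

theorem twfEv_mk {x₀ y₀ : K} (h : W.Equation x₀ y₀) (q : K[X][Y]) :
    twfEv W h (CoordinateRing.mk W q) = q.evalEval x₀ y₀ := by
  have h1 := (twfEv_eq_zero_iff W h _).mp (twf_mk_sub_mem W x₀ y₀ q)
  rw [map_sub, AlgHom.commutes, sub_eq_zero] at h1
  simpa using h1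

theorem twf_XClass_mem (x₀ y₀ : K) :
    CoordinateRing.XClass W x₀ ∈ CoordinateRing.XYIdeal W x₀ (C y₀) :=
  Ideal.subset_span (by simp)

theorem twf_YClass_mem (x₀ y₀ : K) :
    CoordinateRing.YClass W (C y₀) ∈ CoordinateRing.XYIdeal W x₀ (C y₀) :=
  Ideal.subset_span (by simp)

/-- the linear part of the Taylor expansion of the Weierstrass equation lies in `I^2` -/
theorem twf_rel {x₀ y₀ : K} (h : W.Equation x₀ y₀) :
    algebraMap K W.CoordinateRing (W.polynomialX.evalEval x₀ y₀) * CoordinateRing.XClass W x₀ +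
    algebraMap K W.CoordinateRing (W.polynomialY.evalEval x₀ y₀) * CoordinateRing.YClass W (C y₀)
      ∈ CoordinateRing.XYIdeal W x₀ (C y₀) ^ 2 := by
  have h0 := congrArg (CoordinateRing.mk W) (twf_taylor W x₀ y₀)
  rw [show CoordinateRing.mk W W.polynomial = 0 from AdjoinRoot.mk_self,
    (W.equation_iff' x₀ y₀).mp h] at h0
  simp only [map_add, map_sub, map_mul, map_pow, map_zero, zero_add, map_ofNat] at h0
  have hx := twf_XClass_mem W x₀ y₀
  have hy := twf_YClass_mem W x₀ y₀
  set I := CoordinateRing.XYIdeal W x₀ (C y₀) with hI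
  have e : algebraMap K W.CoordinateRing (W.polynomialX.evalEval x₀ y₀) *
        CoordinateRing.XClass W x₀ +
      algebraMap K W.CoordinateRing (W.polynomialY.evalEval x₀ y₀) *
        CoordinateRing.YClass W (C y₀) =
      -(CoordinateRing.YClass W (C y₀) * CoordinateRing.YClass W (C y₀)
        + CoordinateRing.mk W (C (C W.a₁)) * CoordinateRing.XClass W x₀ *
            CoordinateRing.YClass W (C y₀)
        - CoordinateRing.XClass W x₀ * CoordinateRing.XClass W x₀ * CoordinateRing.XClass W x₀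
        - CoordinateRing.mk W (C (C (3 * x₀ + W.a₂))) * (CoordinateRing.XClass W x₀ *
            CoordinateRing.XClass W x₀)) := by
    rw [evalEval_polynomialX, evalEval_polynomialY]
    have e1 : ∀ c : K, algebraMap K W.CoordinateRing c = CoordinateRing.mk W (C (C c)) :=
      fun c => rfl
    rw [e1, e1]
    unfold CoordinateRing.XClass CoordinateRing.YClass
    simp only [map_add, map_sub, map_mul, map_pow, map_ofNat]
    linear_combination -h0
  rw [e, pow_two]
  refine neg_mem (sub_mem (sub_mem (add_mem ?_ ?_) ?_) ?_)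
  · exact Ideal.mul_mem_mul hy hy
  · rw [mul_assoc]; exact Ideal.mul_mem_left _ _ (Ideal.mul_mem_mul hx hy)
  · rw [mul_assoc]; exact Ideal.mul_mem_left _ _ (Ideal.mul_mem_mul hx hx)
  · exact Ideal.mul_mem_left _ _ (Ideal.mul_mem_mul hx hx)

variable (D : Derivation K W.CoordinateRing W.CoordinateRing)

theorem twf_D_XClass (hDx : D (CoordinateRing.mk W (C X)) = CoordinateRing.mk W W.polynomialY)
    (x₀ : K) : D (CoordinateRing.XClass W x₀) = CoordinateRing.mk W W.polynomialY := by
  have e : CoordinateRing.XClass W x₀ =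
      CoordinateRing.mk W (C X) - algebraMap K W.CoordinateRing x₀ := by
    unfold CoordinateRing.XClass
    rw [C_sub, map_sub]; rfl
  rw [e, map_sub, D.map_algebraMap, sub_zero, hDx]

theorem twf_D_YClass (hDy : D (CoordinateRing.mk W Y) = -CoordinateRing.mk W W.polynomialX)
    (y₀ : K) : D (CoordinateRing.YClass W (C y₀)) = -CoordinateRing.mk W W.polynomialX := by
  have e : CoordinateRing.YClass W (C y₀) =
      CoordinateRing.mk W Y - algebraMap K W.CoordinateRing y₀ := by
    unfold CoordinateRing.YClass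
    rw [map_sub]; rfl
  rw [e, map_sub, D.map_algebraMap, sub_zero, hDy]

/-- a local parameter at a nonsingular point -/
theorem twf_exists_param
    (hDx : D (CoordinateRing.mk W (C X)) = CoordinateRing.mk W W.polynomialY)
    (hDy : D (CoordinateRing.mk W Y) = -CoordinateRing.mk W W.polynomialX)
    {x₀ y₀ : K} (h : W.Nonsingular x₀ y₀) :
    ∃ t ∈ CoordinateRing.XYIdeal W x₀ (C y₀), twfEv W h.1 (D t) ≠ 0 ∧
      CoordinateRing.XYIdeal W x₀ (C y₀) ≤
        Ideal.span {t} ⊔ CoordinateRing.XYIdeal W x₀ (C y₀) ^ 2 := by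
  have hrel := twf_rel W h.1
  have hx := twf_XClass_mem W x₀ y₀
  have hy := twf_YClass_mem W x₀ y₀
  set A := W.polynomialX.evalEval x₀ y₀ with hA
  set B := W.polynomialY.evalEval x₀ y₀ with hB
  by_cases hB0 : B = 0
  · have hA0 : A ≠ 0 := by
      rcases h.2 with h2 | h2
      · exact h2
      · exact absurd hB0 h2
    refine ⟨CoordinateRing.YClass W (C y₀), hy, ?_, ?_⟩
    · rw [twf_D_YClass W D hDy, map_neg, twfEv_mk, neg_ne_zero]
      exact hA0
    · have hX : CoordinateRing.XClass W x₀ ∈ Ideal.span {CoordinateRing.YClass W (C y₀)} ⊔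
          CoordinateRing.XYIdeal W x₀ (C y₀) ^ 2 := by
        have e : CoordinateRing.XClass W x₀ =
            (-(algebraMap K W.CoordinateRing (A⁻¹ * B))) * CoordinateRing.YClass W (C y₀) +
            algebraMap K W.CoordinateRing A⁻¹ *
              (algebraMap K W.CoordinateRing A * CoordinateRing.XClass W x₀ +
               algebraMap K W.CoordinateRing B * CoordinateRing.YClass W (C y₀)) := by
          have : algebraMap K W.CoordinateRing A⁻¹ * algebraMap K W.CoordinateRing A = 1 := by
            rw [← map_mul, inv_mul_cancel₀ hA0, map_one]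
          rw [map_mul]
          linear_combination (-CoordinateRing.XClass W x₀) * this
        rw [e]
        refine Submodule.add_mem_sup ?_ ?_
        · exact Ideal.mul_mem_left _ _ (Ideal.subset_span rfl)
        · exact Ideal.mul_mem_left _ _ hrel
      have hY : CoordinateRing.YClass W (C y₀) ∈ Ideal.span {CoordinateRing.YClass W (C y₀)} ⊔
          CoordinateRing.XYIdeal W x₀ (C y₀) ^ 2 :=
        Submodule.mem_sup_left (Ideal.subset_span rfl)
      intro z hz
      exact (Ideal.span_le.mpr (by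
        intro z hz
        rcases hz with rfl | rfl
        exacts [hX, hY])) hz
  · refine ⟨CoordinateRing.XClass W x₀, hx, ?_, ?_⟩
    · rw [twf_D_XClass W D hDx, twfEv_mk]
      exact hB0
    · have hY : CoordinateRing.YClass W (C y₀) ∈ Ideal.span {CoordinateRing.XClass W x₀} ⊔
          CoordinateRing.XYIdeal W x₀ (C y₀) ^ 2 := by
        have e : CoordinateRing.YClass W (C y₀) =
            (-(algebraMap K W.CoordinateRing (B⁻¹ * A))) * CoordinateRing.XClass W x₀ +
            algebraMap K W.CoordinateRing B⁻¹ *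
              (algebraMap K W.CoordinateRing A * CoordinateRing.XClass W x₀ +
               algebraMap K W.CoordinateRing B * CoordinateRing.YClass W (C y₀)) := by
          have : algebraMap K W.CoordinateRing B⁻¹ * algebraMap K W.CoordinateRing B = 1 := by
            rw [← map_mul, inv_mul_cancel₀ hB0, map_one]
          rw [map_mul]
          linear_combination (-CoordinateRing.YClass W (C y₀)) * this
        rw [e]
        refine Submodule.add_mem_sup ?_ ?_
        · exact Ideal.mul_mem_left _ _ (Ideal.subset_span rfl)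
        · exact Ideal.mul_mem_left _ _ hrel
      have hX : CoordinateRing.XClass W x₀ ∈ Ideal.span {CoordinateRing.XClass W x₀} ⊔
          CoordinateRing.XYIdeal W x₀ (C y₀) ^ 2 :=
        Submodule.mem_sup_left (Ideal.subset_span rfl)
      intro z hz
      exact (Ideal.span_le.mpr (by
        intro z hz
        rcases hz with rfl | rfl
        exacts [hX, hY])) hz


/-- any evaluation homomorphism at `(x₀, y₀)` has kernel the ideal of the point -/
theorem twf_ev_mem_iff {x₀ y₀ : K} (ev : W.CoordinateRing →ₐ[K] K)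
    (hx : ev (CoordinateRing.mk W (C X)) = x₀) (hy : ev (CoordinateRing.mk W Y) = y₀)
    (r : W.CoordinateRing) : r ∈ CoordinateRing.XYIdeal W x₀ (C y₀) ↔ ev r = 0 := by
  have hX : ev (CoordinateRing.XClass W x₀) = 0 := by
    have e : CoordinateRing.XClass W x₀ =
        CoordinateRing.mk W (C X) - algebraMap K W.CoordinateRing x₀ := by
      unfold CoordinateRing.XClass
      rw [C_sub, map_sub]; rfl
    rw [e, map_sub, hx, AlgHom.commutes]
    simp
  have hY : ev (CoordinateRing.YClass W (C y₀)) = 0 := by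
    have e : CoordinateRing.YClass W (C y₀) =
        CoordinateRing.mk W Y - algebraMap K W.CoordinateRing y₀ := by
      unfold CoordinateRing.YClass
      rw [map_sub]; rfl
    rw [e, map_sub, hy, AlgHom.commutes]
    simp
  have hle : CoordinateRing.XYIdeal W x₀ (C y₀) ≤ RingHom.ker (ev : W.CoordinateRing →+* K) := by
    refine Ideal.span_le.mpr ?_
    intro z hz
    rcases hz with rfl | rfl
    · exact hX
    · exact hY
  constructor
  · intro hr
    exact hle hr
  · intro hr
    obtain ⟨q, rfl⟩ := AdjoinRoot.mk_surjective r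
    have h1 := twf_mk_sub_mem W x₀ y₀ q
    have h2 := hle h1
    rw [RingHom.mem_ker, RingHom.coe_coe, map_sub, AlgHom.commutes] at h2
    have h3 : ev (CoordinateRing.mk W q) = 0 := hr
    rw [h3, zero_sub, neg_eq_zero] at h2
    have h4 : (algebraMap K K) (evalEval x₀ y₀ q) = evalEval x₀ y₀ q := rfl
    rw [h4] at h2
    rw [h2, map_zero, sub_zero] at h1
    exact h1

variable (D : Derivation K W.CoordinateRing W.CoordinateRing)

/-- **T4 (⇒)**: the iterated derivatives of order `< k` of an element of `I^k` lie in `I`. -/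
theorem tw_filt_mem_of_pow {x₀ y₀ : K} {i k : ℕ} (hik : i < k) {f : W.CoordinateRing}
    (hf : f ∈ CoordinateRing.XYIdeal W x₀ (C y₀) ^ k) :
    (D^[i]) f ∈ CoordinateRing.XYIdeal W x₀ (C y₀) :=
  twf_iter_mem D _ hik hf

/-- **T4 (⇐)**, characteristic zero, nonsingular point, `D` the invariant derivation. -/
theorem tw_filt_pow_of_mem [CharZero K]
    (hDx : D (CoordinateRing.mk W (C X)) = CoordinateRing.mk W W.polynomialY)
    (hDy : D (CoordinateRing.mk W Y) = -CoordinateRing.mk W W.polynomialX)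
    {x₀ y₀ : K} (h : W.Nonsingular x₀ y₀) (k : ℕ) {f : W.CoordinateRing}
    (hf : ∀ i < k, (D^[i]) f ∈ CoordinateRing.XYIdeal W x₀ (C y₀)) :
    f ∈ CoordinateRing.XYIdeal W x₀ (C y₀) ^ k := by
  obtain ⟨t, ht, hDt, ht2⟩ := twf_exists_param W D hDx hDy h
  exact twf_mem_pow_of_iter D _ (twfEv W h.1) (twfEv_eq_zero_iff W h.1) ht hDt ht2 k
    (fun i hi => (twfEv_eq_zero_iff W h.1 _).mp (hf i hi))

/-- **T4**: the filtration lemma. -/
theorem tw_filt_iff [CharZero K]
    (hDx : D (CoordinateRing.mk W (C X)) = CoordinateRing.mk W W.polynomialY)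
    (hDy : D (CoordinateRing.mk W Y) = -CoordinateRing.mk W W.polynomialX)
    {x₀ y₀ : K} (h : W.Nonsingular x₀ y₀) (k : ℕ) (f : W.CoordinateRing) :
    f ∈ CoordinateRing.XYIdeal W x₀ (C y₀) ^ k ↔
      ∀ i < k, (D^[i]) f ∈ CoordinateRing.XYIdeal W x₀ (C y₀) :=
  ⟨fun hf _ hi => tw_filt_mem_of_pow W D hi hf, tw_filt_pow_of_mem W D hDx hDy h k⟩

/-- **T4** in terms of an arbitrary evaluation homomorphism at the point. -/
theorem tw_filt_iff_ev [CharZero K]
    (hDx : D (CoordinateRing.mk W (C X)) = CoordinateRing.mk W W.polynomialY)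
    (hDy : D (CoordinateRing.mk W Y) = -CoordinateRing.mk W W.polynomialX)
    {x₀ y₀ : K} (h : W.Nonsingular x₀ y₀) (ev : W.CoordinateRing →ₐ[K] K)
    (hx : ev (CoordinateRing.mk W (C X)) = x₀) (hy : ev (CoordinateRing.mk W Y) = y₀)
    (k : ℕ) (f : W.CoordinateRing) :
    f ∈ CoordinateRing.XYIdeal W x₀ (C y₀) ^ k ↔ ∀ i < k, ev ((D^[i]) f) = 0 := by
  rw [tw_filt_iff W D hDx hDy h k f]
  exact forall₂_congr fun i _ => twf_ev_mem_iff W ev hx hy _

end Concrete

end Fermat.Agent.TW
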