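-- S13 WP-T [T6 root/conv] (helper2): the roots of the norm of the Wronskian are exactly the
-- x-coordinates of the p-torsion points.
import Mathlib
import Fermat.Agent.Lib.TW_Symbol
import Fermat.Agent.Lib.TW_Vand
import Fermat.Agent.Lib.TW_Filt
import Fermat.Agent.Lib.TW_Class
import Fermat.Agent.Lib.TW_Wronski

set_option autoImplicit false

open Polynomial WeierstrassCurve WeierstrassCurve.Affine
open scoped Polynomial.Bivariate

namespace Fermat.Agent.TW

variable {K : Type*} [Field K] (W : WeierstrassCurve.Affine K)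

theorem twr_degree_expand (p : K[X]) : (expand K 2 p).degree = 2 • p.degree := by
  by_cases hp : p = 0
  · subst hp; simp
  · have h2 : expand K 2 p ≠ 0 := by
      rw [Ne, Polynomial.expand_eq_zero (by norm_num)]; exact hp
    rw [degree_eq_natDegree h2, degree_eq_natDegree hp, natDegree_expand]
    rw [nsmul_eq_mul, mul_comm]
    norm_cast

theorem twr_degree_shift (q : K[X]) : (X ^ 3 * expand K 2 q).degree = 2 • q.degree + 3 := by
  rw [degree_mul, degree_X_pow, twr_degree_expand, add_comm]
  rfl

theorem twr_degree_tau (f : W.CoordinateRing) :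
    (twTau W f).degree = (Algebra.norm K[X] f).degree := by
  obtain ⟨p, q, rfl⟩ := CoordinateRing.exists_smul_basis_eq f
  rw [twTau_smul_basis, CoordinateRing.degree_norm_smul_basis, ← twr_degree_expand,
    ← twr_degree_shift]
  by_cases hp : p = 0
  · subst hp; simp
  by_cases hq : q = 0
  · subst hq; simp
  have h1 : (expand K 2 p).degree ≠ (X ^ 3 * expand K 2 q).degree := by
    rw [twr_degree_expand, twr_degree_shift, degree_eq_natDegree hp, degree_eq_natDegree hq]
    intro h
    have h' : ((2 * p.natDegree : ℕ) : WithBot ℕ) = ((2 * q.natDegree + 3 : ℕ) : WithBot ℕ) := by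
      rw [nsmul_eq_mul, nsmul_eq_mul] at h
      exact_mod_cast h
    have h'' : 2 * p.natDegree = 2 * q.natDegree + 3 := by exact_mod_cast h'
    omega
  rcases lt_or_gt_of_ne h1 with h | h
  · rw [degree_add_eq_right_of_degree_lt h, max_eq_right h.le]
  · rw [degree_add_eq_left_of_degree_lt h, max_eq_left h.le]

theorem twr_natDegree_tau (f : W.CoordinateRing) :
    (twTau W f).natDegree = (Algebra.norm K[X] f).natDegree :=
  natDegree_eq_of_degree_eq (twr_degree_tau W f)


/-- the symbol map is injective -/
theorem twr_tau_injective : Function.Injective (twTau W) := by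
  rw [← LinearMap.ker_eq_bot, LinearMap.ker_eq_bot']
  intro f hf
  have hP : twP W f = 0 := by
    ext k
    rw [← twTau_coeff_even, hf]; simp
  have hQ : twQ W f = 0 := by
    ext k
    rw [← twTau_coeff_odd, hf]; simp
  rw [← tw_repr W f, hP, hQ]; simp

theorem twr_twN_ne_one (j : ℕ) : twN j ≠ 1 := by
  cases j with
  | zero => simp
  | succ j => simp

theorem twr_twN_le {p j : ℕ} (hj : j < p) : twN j ≤ p := by
  cases j with
  | zero => simp
  | succ j => simp only [twN_succ]; omega

theorem twr_twN_exists {p n : ℕ} (hp : 0 < p) (hn : n ≤ p) (hn1 : n ≠ 1) :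
    ∃ j, j < p ∧ twN j = n := by
  cases n with
  | zero => exact ⟨0, hp, rfl⟩
  | succ n =>
    cases n with
    | zero => exact absurd rfl hn1
    | succ n => exact ⟨n + 1, by omega, rfl⟩

/-- elements of pole order `≤ p` are combinations of the first `p` monomials -/
theorem twr_expand {p : ℕ} (hp : 0 < p) {f : W.CoordinateRing} (hf : f ∈ twFil W p) :
    f = ∑ j : Fin p, twLam W (twN (j : ℕ)) f • twMon W (twN (j : ℕ)) := by
  apply twr_tau_injective W
  rw [map_sum]
  ext m
  rw [finsetSum_coeff]
  simp only [map_smul, coeff_smul, twTau_twMon W (twr_twN_ne_one _), coeff_X_pow, smul_eq_mul,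
    mul_ite, mul_one, mul_zero]
  by_cases hm : ∃ j : Fin p, twN (j : ℕ) = m
  · obtain ⟨j₀, rfl⟩ := hm
    rw [Finset.sum_eq_single j₀]
    · rw [if_pos rfl]; rfl
    · intro j _ hj
      rw [if_neg]
      intro h
      exact hj (Fin.ext (twN_strictMono.injective h.symm))
    · intro h; exact absurd (Finset.mem_univ _) h
  · rw [Finset.sum_eq_zero]
    · by_cases hm1 : m = 1
      · subst hm1; exact twTau_coeff_one W f
      · by_cases hmp : m ≤ p
        · exfalso
          obtain ⟨j, hj, hjm⟩ := twr_twN_exists hp hmp hm1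
          exact hm ⟨⟨j, hj⟩, hjm⟩
        · rw [mem_twFil_iff] at hf
          exact coeff_eq_zero_of_natDegree_lt (by omega)
    · intro j _
      rw [if_neg]
      intro h
      exact hm ⟨j, h.symm⟩

theorem twr_lam_comb {p : ℕ} (c : Fin p → K) (j₀ : Fin p) :
    twLam W (twN (j₀ : ℕ)) (∑ j : Fin p, c j • twMon W (twN (j : ℕ))) = c j₀ := by
  rw [map_sum]
  simp only [map_smul, twLam_twMon W (twr_twN_ne_one _), smul_eq_mul, mul_ite, mul_one, mul_zero]
  rw [Finset.sum_eq_single j₀]
  · rw [if_pos rfl]
  · intro j _ hj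
    rw [if_neg]
    intro h
    exact hj (Fin.ext (twN_strictMono.injective h)).symm
  · intro h; exact absurd (Finset.mem_univ _) h

theorem twr_comb_mem {p : ℕ} (c : Fin p → K) :
    (∑ j : Fin p, c j • twMon W (twN (j : ℕ))) ∈ twFil W p := by
  refine Submodule.sum_mem _ fun j _ => Submodule.smul_mem _ _ ?_
  exact twFil_mono W (twr_twN_le j.2) (twMon_mem_twFil W (twr_twN_ne_one _))

theorem twr_iter_sum (D : Derivation K W.CoordinateRing W.CoordinateRing) {ι : Type*}
    (s : Finset ι) (c : ι → K) (g : ι → W.CoordinateRing) (i : ℕ) :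
    (D^[i]) (∑ j ∈ s, c j • g j) = ∑ j ∈ s, c j • (D^[i]) (g j) := by
  have key : ∀ f, (D^[i]) f = ((D : W.CoordinateRing →ₗ[K] W.CoordinateRing) ^ i) f := by
    intro f
    rw [Module.End.pow_apply]
    rfl
  rw [key, map_sum]
  simp only [map_smul, key]

/-- evaluation of the norm at `x` is the product of the values at the two points above `x` -/
theorem twr_norm_eval {x y : K} (heq : W.Equation x y) (g : W.CoordinateRing) :
    (Algebra.norm K[X] g).eval x = twfEv W heq g * twfEv W heq (twInv W g) := by
  rw [← map_mul, mul_twInv]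
  have h1 : algebraMap K[X] W.CoordinateRing (Algebra.norm K[X] g) =
      CoordinateRing.mk W (C (Algebra.norm K[X] g)) := rfl
  rw [h1, twfEv_mk, evalEval_C]

/-- evaluation of the Wronskian matrix -/
theorem twr_ev_det (ev : W.CoordinateRing →ₐ[K] K) {p : ℕ}
    (M : Matrix (Fin p) (Fin p) W.CoordinateRing) : ev M.det = (M.map ev).det := by
  have := RingHom.map_det (ev : W.CoordinateRing →+* K) M
  exact this

variable (D : Derivation K W.CoordinateRing W.CoordinateRing)

/-- **root direction, core**: a nonzero function of pole order `≤ p` vanishing to order `p` at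
the point forces the Wronskian to vanish at the point. -/
theorem twr_det_mem {x y : K} (heq : W.Equation x y) {p : ℕ} (hp : 0 < p)
    {f : W.CoordinateRing} (hf0 : f ≠ 0) (hfil : f ∈ twFil W p)
    (hf : f ∈ CoordinateRing.XYIdeal W x (C y) ^ p) :
    (Matrix.of fun i j : Fin p => (D^[(i : ℕ)]) (twMon W (twN (j : ℕ)))).det ∈
      CoordinateRing.XYIdeal W x (C y) := by
  rw [twfEv_eq_zero_iff W heq, twr_ev_det]
  rw [← Matrix.exists_mulVec_eq_zero_iff]
  have hexp := twr_expand W hp hfil
  refine ⟨fun j => twLam W (twN (j : ℕ)) f, ?_, ?_⟩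
  · intro h0
    apply hf0
    rw [hexp]
    refine Finset.sum_eq_zero fun j _ => ?_
    have : twLam W (twN (j : ℕ)) f = 0 := congrFun h0 j
    rw [this, zero_smul]
  · funext i
    have h1 : (D^[(i : ℕ)]) f ∈ CoordinateRing.XYIdeal W x (C y) :=
      tw_filt_mem_of_pow W D i.2 hf
    rw [twfEv_eq_zero_iff W heq] at h1
    rw [hexp, twr_iter_sum, map_sum] at h1
    simp only [Matrix.mulVec, dotProduct, Matrix.map_apply, Matrix.of_apply, Pi.zero_apply]
    refine (Finset.sum_congr rfl fun j _ => ?_).trans h1
    rw [map_smul, smul_eq_mul, mul_comm]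

/-- **converse direction, core**: if the Wronskian vanishes at a nonsingular point then the
point is `p`-torsion. -/
theorem twr_torsion_of_det_mem [CharZero K] [DecidableEq K]
    (hDx : D (CoordinateRing.mk W (C X)) = CoordinateRing.mk W W.polynomialY)
    (hDy : D (CoordinateRing.mk W Y) = -CoordinateRing.mk W W.polynomialX)
    {x y : K} (h : W.Nonsingular x y) {p : ℕ}
    (hdet : (Matrix.of fun i j : Fin p => (D^[(i : ℕ)]) (twMon W (twN (j : ℕ)))).det ∈
      CoordinateRing.XYIdeal W x (C y)) :
    p • Point.some x y h = 0 := by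
  rw [twfEv_eq_zero_iff W h.1, twr_ev_det] at hdet
  obtain ⟨c, hc0, hc⟩ := Matrix.exists_mulVec_eq_zero_iff.mpr hdet
  set f : W.CoordinateRing := ∑ j : Fin p, c j • twMon W (twN (j : ℕ)) with hfdef
  have hf0 : f ≠ 0 := by
    intro h0
    apply hc0
    funext j
    have := twr_lam_comb W c j
    rw [← hfdef, h0, map_zero] at this
    exact this.symm
  have hfil : f ∈ twFil W p := twr_comb_mem W c
  have hdeg : (Algebra.norm K[X] f).natDegree ≤ p := by
    rw [← twr_natDegree_tau]
    exact (mem_twFil_iff W).mp hfil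
  have hmem : f ∈ CoordinateRing.XYIdeal W x (C y) ^ p := by
    apply tw_filt_pow_of_mem W D hDx hDy h p
    intro i hi
    rw [twfEv_eq_zero_iff W h.1, hfdef, twr_iter_sum, map_sum]
    have h1 := congrFun hc ⟨i, hi⟩
    simp only [Matrix.mulVec, dotProduct, Matrix.map_apply, Matrix.of_apply, Pi.zero_apply] at h1
    refine (Finset.sum_congr rfl fun j _ => ?_).trans h1
    rw [map_smul, smul_eq_mul, mul_comm]
  exact tw_torsion_of_mem W h p f hf0 hmem hdeg

/-- **twPhi_root** on the literal Wronskian expression: the `x`-coordinate of a `p`-torsion point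
is a root of the norm of the Wronskian. -/
theorem twPhi_root_expr [DecidableEq K] {p : ℕ} (hp : 0 < p) {x y : K} (h : W.Nonsingular x y)
    (hP : p • Point.some x y h = 0) :
    (Algebra.norm K[X]
      (Matrix.of fun i j : Fin p => (D^[(i : ℕ)]) (twMon W (twN (j : ℕ)))).det).eval x = 0 := by
  obtain ⟨f, hf0, hI, hdeg⟩ := tw_exists_of_torsion W h p hP
  have hf : f ∈ CoordinateRing.XYIdeal W x (C y) ^ p := by
    rw [hI]; exact Ideal.subset_span rfl
  have hfil : f ∈ twFil W p := by
    rw [mem_twFil_iff, twr_natDegree_tau, hdeg]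
  have hdet := twr_det_mem W D h.1 hp hf0 hfil hf
  rw [twfEv_eq_zero_iff W h.1] at hdet
  rw [twr_norm_eval W h.1, hdet, zero_mul]

/-- evaluation at the opposite point -/
theorem twr_neg_mem_iff {x y : K} (heq : W.Equation x y) (r : W.CoordinateRing) :
    r ∈ CoordinateRing.XYIdeal W x (C (W.negY x y)) ↔ twfEv W heq (twInv W r) = 0 := by
  have hx : ((twfEv W heq).comp ((twInv W).restrictScalars K)) (CoordinateRing.mk W (C X)) = x := by
    have h1 : twInv W (CoordinateRing.mk W (C X)) = CoordinateRing.mk W (C X) :=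
      (twInv W).commutes X
    rw [AlgHom.comp_apply, AlgHom.restrictScalars_apply, h1, twfEv_mk, evalEval_C, eval_X]
  have hy : ((twfEv W heq).comp ((twInv W).restrictScalars K)) (CoordinateRing.mk W Y) =
      W.negY x y := by
    rw [AlgHom.comp_apply, AlgHom.restrictScalars_apply, twInv_mk_Y, twInvY, ← map_neg,
      ← map_sub, twfEv_mk]
    simp only [evalEval_sub, evalEval_neg, evalEval_X, evalEval_C, eval_add, eval_mul, eval_C,
      eval_X, negY]
    ring
  exact twf_ev_mem_iff W _ hx hy r

/-- **twPhi_conv** on the literal Wronskian expression: a nonsingular point whose `x`-coordinate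
is a root of the norm of the Wronskian is `p`-torsion. -/
theorem twPhi_conv_expr [CharZero K] [DecidableEq K]
    (hDx : D (CoordinateRing.mk W (C X)) = CoordinateRing.mk W W.polynomialY)
    (hDy : D (CoordinateRing.mk W Y) = -CoordinateRing.mk W W.polynomialX)
    {p : ℕ} {x y : K} (h : W.Nonsingular x y)
    (hx : (Algebra.norm K[X]
      (Matrix.of fun i j : Fin p => (D^[(i : ℕ)]) (twMon W (twN (j : ℕ)))).det).eval x = 0) :
    p • Point.some x y h = 0 := by
  rw [twr_norm_eval W h.1] at hx
  rcases mul_eq_zero.mp hx with h1 | h1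
  · rw [← twfEv_eq_zero_iff W h.1] at h1
    exact twr_torsion_of_det_mem W D hDx hDy h h1
  · rw [← twr_neg_mem_iff W h.1] at h1
    have h' : W.Nonsingular x (W.negY x y) := (nonsingular_neg ..).mpr h
    have h2 := twr_torsion_of_det_mem W D hDx hDy h' h1
    have h3 : Point.some x (W.negY x y) h' = -Point.some x y h := (Point.neg_some h).symm
    rw [h3, smul_neg, neg_eq_zero] at h2
    exact h2

/-- **twPhi_root** (general form): the `x`-coordinate of a `p`-torsion point is a root of
`twPhi W D p` (any derivation, any field, `0 < p`). -/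
theorem twPhi_root' [DecidableEq K] {p : ℕ} (hp : 0 < p) {x y : K} (h : W.Nonsingular x y)
    (hP : p • Point.some x y h = 0) : (twPhi W D p).eval x = 0 :=
  twPhi_root_expr W D hp h hP

/-- **twPhi_conv** (general form): in characteristic zero, for the invariant derivation, a
nonsingular point whose `x`-coordinate is a root of `twPhi W D p` is `p`-torsion. -/
theorem twPhi_conv' [CharZero K] [DecidableEq K]
    (hDx : D (CoordinateRing.mk W (C X)) = CoordinateRing.mk W W.polynomialY)
    (hDy : D (CoordinateRing.mk W Y) = -CoordinateRing.mk W W.polynomialX)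
    {p : ℕ} {x y : K} (h : W.Nonsingular x y) (hx : (twPhi W D p).eval x = 0) :
    p • Point.some x y h = 0 :=
  twPhi_conv_expr W D hDx hDy h hx

/-- **twPhi_root**, in the signature of the work-package plan. -/
theorem twPhi_root [DecidableEq K]
    (_hDx : D (CoordinateRing.mk W (C X)) = CoordinateRing.mk W W.polynomialY)
    (_hDy : D (CoordinateRing.mk W Y) = -CoordinateRing.mk W W.polynomialX)
    {p : ℕ} (hp : 2 ≤ p) {x y : K} (h : W.Nonsingular x y)
    (hP : p • Point.some x y h = 0) : (twPhi W D p).eval x = 0 :=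
  twPhi_root_expr W D (by omega) h hP

/-- **twPhi_conv**, in the signature of the work-package plan. -/
theorem twPhi_conv [CharZero K] [DecidableEq K]
    (hDx : D (CoordinateRing.mk W (C X)) = CoordinateRing.mk W W.polynomialY)
    (hDy : D (CoordinateRing.mk W Y) = -CoordinateRing.mk W W.polynomialX)
    {p : ℕ} (_hp : p.Prime) {x y : K} (h : W.Nonsingular x y)
    (hx : (twPhi W D p).eval x = 0) : p • Point.some x y h = 0 :=
  twPhi_conv_expr W D hDx hDy h hx

/-- the roots of `twPhi W D p` are exactly the `x`-coordinates of the affine `p`-torsion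
points (characteristic zero, invariant derivation, `0 < p`). -/
theorem twPhi_root_iff [CharZero K] [DecidableEq K]
    (hDx : D (CoordinateRing.mk W (C X)) = CoordinateRing.mk W W.polynomialY)
    (hDy : D (CoordinateRing.mk W Y) = -CoordinateRing.mk W W.polynomialX)
    {p : ℕ} (hp : 0 < p) {x y : K} (h : W.Nonsingular x y) :
    p • Point.some x y h = 0 ↔ (twPhi W D p).eval x = 0 :=
  ⟨twPhi_root_expr W D hp h, twPhi_conv_expr W D hDx hDy h⟩

end Fermat.Agent.TW
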