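import Mathlib
import Fermat.Agent.Lib.TW_Root
import Fermat.Agent.Lib.TW_Deg
import Fermat.Agent.Lib.C14_Frob
import Fermat.Prelude.Def_FLTPrelim_Modularity

/-!
# S41 / LR stream S4, leaf (g): Frobenius fixes a torsion point when `p ∣ #W(𝔽_ℓ)`

`LR.lr_arith`: `W` an integral Weierstrass model with `Δ ≠ 0`, `Φ ∈ ℤ[X]` the universal `p`-torsion
polynomial, `Ω` a number field over which `Φ` splits and which contains the ordinates of the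
`p`-torsion points.  For all primes `ℓ` outside a finite set: if `τ ∈ Gal(Ω/ℚ)` acts as
`x ↦ x ^ ℓ` modulo a prime `𝔏 ∣ ℓ` and `p ∣ #W(𝔽_ℓ)`, then `τ` fixes both coordinates of a
nonzero `p`-torsion point of `W` over `Ω`.
-/

set_option autoImplicit false
set_option linter.unusedSectionVars false

open Polynomial WeierstrassCurve WeierstrassCurve.Affine
open scoped NumberField
open Fermat.Agent.TW

namespace LR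

section avoid
variable {Ω : Type*} [Field Ω] [NumberField Ω]

/-- an integral representative (junk value `1`) -/
noncomputable def lrInt (a : Ω) : 𝓞 Ω :=
  open Classical in if h : ∃ z : 𝓞 Ω, algebraMap (𝓞 Ω) Ω z = a then h.choose else 1

theorem lrInt_coe {a : Ω} (h : _root_.IsIntegral ℤ a) : algebraMap (𝓞 Ω) Ω (lrInt a) = a := by
  have h' : ∃ z : 𝓞 Ω, algebraMap (𝓞 Ω) Ω z = a := ⟨⟨a, h⟩, rfl⟩
  rw [lrInt, dif_pos h']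
  exact h'.choose_spec

theorem lrInt_of_not {a : Ω} (h : ¬ _root_.IsIntegral ℤ a) : lrInt a = 1 := by
  have h' : ¬ ∃ z : 𝓞 Ω, algebraMap (𝓞 Ω) Ω z = a := by
    rintro ⟨z, rfl⟩
    exact h (NumberField.RingOfIntegers.isIntegral_coe z)
  rw [lrInt, dif_neg h']

/-- a nonzero natural number divisible by every rational prime below a prime containing `a` -/
noncomputable def lrNrm (a : Ω) : ℕ := by
  classical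
  exact if a = 0 then 1 else Ideal.absNorm (Ideal.span {lrInt a})

theorem lrNrm_ne_zero (a : Ω) : lrNrm a ≠ 0 := by
  classical
  rw [lrNrm]
  split_ifs with h
  · exact one_ne_zero
  · rw [Ne, Ideal.absNorm_eq_zero_iff, Ideal.span_singleton_eq_bot]
    intro h0
    by_cases hi : _root_.IsIntegral ℤ a
    · apply h
      rw [← lrInt_coe hi, h0, map_zero]
    · rw [lrInt_of_not hi] at h0
      exact one_ne_zero h0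

omit [NumberField Ω] in
theorem lr_one_not_mem_aux (𝔏 : Ideal (𝓞 Ω)) (h𝔏 : 𝔏.IsPrime) (a b : ℤ)
    (ha : (a : 𝓞 Ω) ∈ 𝔏) (hb : (b : 𝓞 Ω) ∈ 𝔏) (hab : IsCoprime a b) : False := by
  obtain ⟨u, v, huv⟩ := hab
  have h1 : (1 : 𝓞 Ω) ∈ 𝔏 := by
    have h2 : (1 : 𝓞 Ω) = (u : 𝓞 Ω) * (a : 𝓞 Ω) + (v : 𝓞 Ω) * (b : 𝓞 Ω) := by
      have := congrArg (Int.cast : ℤ → 𝓞 Ω) huv
      push_cast at this
      exact this.symm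
    rw [h2]
    exact 𝔏.add_mem (𝔏.mul_mem_left _ ha) (𝔏.mul_mem_left _ hb)
  exact h𝔏.ne_top ((Ideal.eq_top_iff_one _).mpr h1)

omit [NumberField Ω] in
/-- an integer lying in a prime above `ℓ` is divisible by `ℓ` -/
theorem lr_dvd_of_int_mem (𝔏 : Ideal (𝓞 Ω)) (h𝔏 : 𝔏.IsPrime) {ℓ : ℕ} (hℓ : ℓ.Prime)
    (hℓ𝔏 : ((ℓ : ℕ) : 𝓞 Ω) ∈ 𝔏) (m : ℤ) (hm : (m : 𝓞 Ω) ∈ 𝔏) : (ℓ : ℤ) ∣ m := by
  by_contra hnd
  have hcop : IsCoprime (ℓ : ℤ) m :=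
    (Prime.coprime_iff_not_dvd (Nat.prime_iff_prime_int.mp hℓ)).mpr hnd
  exact lr_one_not_mem_aux 𝔏 h𝔏 (ℓ : ℤ) m (by exact_mod_cast hℓ𝔏) hm hcop

omit [NumberField Ω] in
theorem lr_int_mem_of_dvd (𝔏 : Ideal (𝓞 Ω)) {ℓ : ℕ} (hℓ𝔏 : ((ℓ : ℕ) : 𝓞 Ω) ∈ 𝔏) (m : ℤ)
    (hm : (ℓ : ℤ) ∣ m) : (m : 𝓞 Ω) ∈ 𝔏 := by
  obtain ⟨k, rfl⟩ := hm
  push_cast
  exact 𝔏.mul_mem_right _ hℓ𝔏

theorem lr_dvd_lrNrm {a : Ω} (ha : a ≠ 0) (𝔏 : Ideal (𝓞 Ω)) (h𝔏 : 𝔏.IsPrime)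
    {ℓ : ℕ} (hℓ : ℓ.Prime) (hℓ𝔏 : ((ℓ : ℕ) : 𝓞 Ω) ∈ 𝔏) (ha𝔏 : lrInt a ∈ 𝔏) : ℓ ∣ lrNrm a := by
  classical
  rw [lrNrm, if_neg ha]
  have hN : ((Ideal.absNorm (Ideal.span {lrInt a}) : ℕ) : 𝓞 Ω) ∈ 𝔏 :=
    ((Ideal.span_singleton_le_iff_mem (I := 𝔏)).mpr ha𝔏) (Ideal.absNorm_mem (Ideal.span {lrInt a}))
  have h1 := lr_dvd_of_int_mem 𝔏 h𝔏 hℓ hℓ𝔏 ((Ideal.absNorm (Ideal.span {lrInt a}) : ℕ) : ℤ)
    (by exact_mod_cast hN)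
  exact_mod_cast h1

omit [NumberField Ω] in
/-- Fermat's little theorem modulo a prime above `ℓ`, for elements congruent to an integer -/
theorem lr_pow_sub_mem (𝔏 : Ideal (𝓞 Ω)) {ℓ : ℕ} (hℓ : ℓ.Prime) (hℓ𝔏 : ((ℓ : ℕ) : 𝓞 Ω) ∈ 𝔏)
    (z : 𝓞 Ω) (m : ℤ) (hz : z - (m : 𝓞 Ω) ∈ 𝔏) : z ^ ℓ - z ∈ 𝔏 := by
  have := Fact.mk hℓ
  have h1 : z ^ ℓ - (m : 𝓞 Ω) ^ ℓ ∈ 𝔏 := 𝔏.mem_of_dvd (sub_dvd_pow_sub_pow _ _ ℓ) hz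
  have h2 : (m : 𝓞 Ω) ^ ℓ - (m : 𝓞 Ω) ∈ 𝔏 := by
    have hd : (ℓ : ℤ) ∣ m ^ ℓ - m := by
      rw [← ZMod.intCast_zmod_eq_zero_iff_dvd]
      push_cast
      rw [ZMod.pow_card, sub_self]
    have := lr_int_mem_of_dvd 𝔏 hℓ𝔏 _ hd
    push_cast at this
    exact this
  have h3 : z ^ ℓ - z = (z ^ ℓ - (m : 𝓞 Ω) ^ ℓ) + ((m : 𝓞 Ω) ^ ℓ - m) - (z - m) := by ring
  rw [h3]
  exact 𝔏.sub_mem (𝔏.add_mem h1 h2) hz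

/-- a Frobenius at `𝔏` fixes, modulo `𝔏`, every integer congruent to a rational integer -/
theorem lr_frob_fix (𝔏 : Ideal (𝓞 Ω)) {ℓ : ℕ} (hℓ : ℓ.Prime) (hℓ𝔏 : ((ℓ : ℕ) : 𝓞 Ω) ∈ 𝔏)
    (τ : Ω ≃ₐ[ℚ] Ω) (hF : C14.FrobPow τ 𝔏 ℓ)
    (z : 𝓞 Ω) (m : ℤ) (hz : z - (m : 𝓞 Ω) ∈ 𝔏) : τ • z - z ∈ 𝔏 := by
  have h1 := hF z
  have h2 := lr_pow_sub_mem 𝔏 hℓ hℓ𝔏 z m hz
  have h3 : τ • z - z = (τ • z - z ^ ℓ) + (z ^ ℓ - z) := by ring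
  rw [h3]
  exact 𝔏.add_mem h1 h2

theorem lr_coe_smul (τ : Ω ≃ₐ[ℚ] Ω) (z : 𝓞 Ω) :
    algebraMap (𝓞 Ω) Ω (τ • z) = τ (algebraMap (𝓞 Ω) Ω z) := rfl

end avoid

section main

variable {Ω : Type} [Field Ω] [NumberField Ω]

/-- **root lifting**: an integer root modulo `ℓ` of `Φ` is congruent modulo `𝔏` to a root in
`Ω` (everything scaled by the leading coefficient `c`, to stay inside the ring of integers). -/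
theorem lr_ar_root (Φ : ℤ[X]) (hΦ0 : Φ ≠ 0) (hsplit : (Φ.map (Int.castRingHom Ω)).Splits)
    (𝔏 : Ideal (𝓞 Ω)) (h𝔏 : 𝔏.IsPrime) {ℓ : ℕ} (hℓ : ℓ.Prime) (hℓ𝔏 : ((ℓ : ℕ) : 𝓞 Ω) ∈ 𝔏)
    (hc : ¬ (ℓ : ℤ) ∣ Φ.leadingCoeff) (x' : ℤ) (hx' : (ℓ : ℤ) ∣ Φ.eval x') :
    ∃ r : Ω, (Φ.map (Int.castRingHom Ω)).eval r = 0 ∧
      _root_.IsIntegral ℤ ((Φ.leadingCoeff : Ω) * r) ∧
      lrInt ((Φ.leadingCoeff : Ω) * r) - ((Φ.leadingCoeff * x' : ℤ) : 𝓞 Ω) ∈ 𝔏 := by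
  classical
  set c : ℤ := Φ.leadingCoeff with hcdef
  set ΦΩ := Φ.map (Int.castRingHom Ω) with hΦΩ
  have hinj : Function.Injective (Int.castRingHom Ω) := RingHom.injective_int _
  have hΦΩ0 : ΦΩ ≠ 0 := (Polynomial.map_ne_zero_iff hinj).mpr hΦ0
  have hlc : ΦΩ.leadingCoeff = (c : Ω) := by
    rw [hΦΩ, leadingCoeff_map_of_injective hinj]
    rfl
  have hint : ∀ r ∈ ΦΩ.roots, _root_.IsIntegral ℤ ((c : Ω) * r) := by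
    intro r hr
    have h0 : aeval r Φ = 0 := by
      have h1 := (mem_roots hΦΩ0).mp hr
      rw [IsRoot.def, hΦΩ, eval_map] at h1
      rw [aeval_def, algebraMap_int_eq]
      exact h1
    have h2 := isIntegral_leadingCoeff_smul Φ r h0
    rwa [zsmul_eq_mul] at h2
  set n := Multiset.card ΦΩ.roots with hn
  have hprod : (c : Ω) ^ n * ((Φ.eval x' : ℤ) : Ω) =
      (c : Ω) * (ΦΩ.roots.map (fun r => (c : Ω) * (x' : Ω) - (c : Ω) * r)).prod := by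
    have h1 := hsplit.eval_eq_prod_roots (x' : Ω)
    rw [hlc] at h1
    have h2 : ΦΩ.eval (x' : Ω) = ((Φ.eval x' : ℤ) : Ω) := by
      rw [hΦΩ, eval_intCast_map]
      rfl
    have h3 : (ΦΩ.roots.map (fun r => (c : Ω) * (x' : Ω) - (c : Ω) * r)).prod =
        (c : Ω) ^ n * (ΦΩ.roots.map (fun r => (x' : Ω) - r)).prod := by
      simp_rw [← mul_sub]
      rw [Multiset.prod_map_mul, Multiset.map_const', Multiset.prod_replicate]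
    rw [h3, ← h2, h1]
    ring
  have hprod𝓞 : ((c : 𝓞 Ω)) ^ n * ((Φ.eval x' : ℤ) : 𝓞 Ω) =
      (c : 𝓞 Ω) * (ΦΩ.roots.map (fun r => (c : 𝓞 Ω) * (x' : 𝓞 Ω) - lrInt ((c : Ω) * r))).prod := by
    apply NumberField.RingOfIntegers.coe_injective
    rw [map_mul, map_pow, map_intCast, map_intCast, map_mul, map_intCast, map_multiset_prod,
      Multiset.map_map, hprod]
    congr 2
    refine Multiset.map_congr rfl fun r hr => ?_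
    simp only [Function.comp_apply, map_sub, map_mul, map_intCast, lrInt_coe (hint r hr)]
  have hmem : ((c : 𝓞 Ω)) ^ n * ((Φ.eval x' : ℤ) : 𝓞 Ω) ∈ 𝔏 :=
    𝔏.mul_mem_left _ (lr_int_mem_of_dvd 𝔏 hℓ𝔏 _ hx')
  rw [hprod𝓞] at hmem
  have hc𝔏 : (c : 𝓞 Ω) ∉ 𝔏 := fun h => hc (lr_dvd_of_int_mem 𝔏 h𝔏 hℓ hℓ𝔏 c h)
  have hmem2 := (h𝔏.mem_or_mem hmem).resolve_left hc𝔏
  obtain ⟨z, hz, hz𝔏⟩ := (h𝔏.multiset_prod_mem_iff_exists_mem _).mp hmem2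
  obtain ⟨r, hr, rfl⟩ := Multiset.mem_map.mp hz
  refine ⟨r, (mem_roots hΦΩ0).mp hr, hint r hr, ?_⟩
  have h4 : lrInt ((c : Ω) * r) - ((c * x' : ℤ) : 𝓞 Ω) =
      -((c : 𝓞 Ω) * (x' : 𝓞 Ω) - lrInt ((c : Ω) * r)) := by
    push_cast
    ring
  rw [h4]
  exact 𝔏.neg_mem hz𝔏

/-- the ordinate is congruent to a rational integer -/
theorem lr_ar_y (𝔏 : Ideal (𝓞 Ω)) (h𝔏 : 𝔏.IsPrime) {ℓ : ℕ} (hℓ𝔏 : ((ℓ : ℕ) : 𝓞 Ω) ∈ 𝔏)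
    (a₁ a₂ a₃ a₄ a₆ c x' y' : ℤ)
    (hxy : (ℓ : ℤ) ∣ y' ^ 2 + a₁ * x' * y' + a₃ * y' - (x' ^ 3 + a₂ * x' ^ 2 + a₄ * x' + a₆))
    (X Y : 𝓞 Ω) (hX : X - ((c * x' : ℤ) : 𝓞 Ω) ∈ 𝔏)
    (hXY : Y ^ 2 + ((a₁ : 𝓞 Ω) * (c : 𝓞 Ω) ^ 2 * X + (a₃ : 𝓞 Ω) * (c : 𝓞 Ω) ^ 3) * Y =
      (c : 𝓞 Ω) ^ 3 * X ^ 3 + (a₂ : 𝓞 Ω) * (c : 𝓞 Ω) ^ 4 * X ^ 2 +
        (a₄ : 𝓞 Ω) * (c : 𝓞 Ω) ^ 5 * X + (a₆ : 𝓞 Ω) * (c : 𝓞 Ω) ^ 6) :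
    ∃ m : ℤ, Y - (m : 𝓞 Ω) ∈ 𝔏 := by
  have hE : ((y' ^ 2 + a₁ * x' * y' + a₃ * y' - (x' ^ 3 + a₂ * x' ^ 2 + a₄ * x' + a₆) : ℤ) : 𝓞 Ω)
      ∈ 𝔏 := lr_int_mem_of_dvd 𝔏 hℓ𝔏 _ hxy
  have key : (Y - ((c ^ 3 * y' : ℤ) : 𝓞 Ω)) *
      (Y + ((c ^ 3 * y' : ℤ) : 𝓞 Ω) + ((a₁ * c ^ 2 * (c * x') + a₃ * c ^ 3 : ℤ) : 𝓞 Ω)) =
      - (X - ((c * x' : ℤ) : 𝓞 Ω)) * ((a₁ : 𝓞 Ω) * (c : 𝓞 Ω) ^ 2 * Y
        - (c : 𝓞 Ω) ^ 3 * (X ^ 2 + X * ((c * x' : ℤ) : 𝓞 Ω) + ((c * x' : ℤ) : 𝓞 Ω) ^ 2)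
        - (a₂ : 𝓞 Ω) * (c : 𝓞 Ω) ^ 4 * (X + ((c * x' : ℤ) : 𝓞 Ω)) - (a₄ : 𝓞 Ω) * (c : 𝓞 Ω) ^ 5)
      - (c : 𝓞 Ω) ^ 6 *
        ((y' ^ 2 + a₁ * x' * y' + a₃ * y' - (x' ^ 3 + a₂ * x' ^ 2 + a₄ * x' + a₆) : ℤ) : 𝓞 Ω) := by
    push_cast
    linear_combination hXY
  have hmem : (Y - ((c ^ 3 * y' : ℤ) : 𝓞 Ω)) *
      (Y + ((c ^ 3 * y' : ℤ) : 𝓞 Ω) + ((a₁ * c ^ 2 * (c * x') + a₃ * c ^ 3 : ℤ) : 𝓞 Ω)) ∈ 𝔏 := by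
    rw [key]
    exact 𝔏.sub_mem (𝔏.mul_mem_right _ (𝔏.neg_mem hX)) (𝔏.mul_mem_left _ hE)
  rcases h𝔏.mem_or_mem hmem with h | h
  · exact ⟨_, h⟩
  · refine ⟨-(c ^ 3 * y') - (a₁ * c ^ 2 * (c * x') + a₃ * c ^ 3), ?_⟩
    have h5 : Y - ((-(c ^ 3 * y') - (a₁ * c ^ 2 * (c * x') + a₃ * c ^ 3) : ℤ) : 𝓞 Ω) =
        Y + ((c ^ 3 * y' : ℤ) : 𝓞 Ω) + ((a₁ * c ^ 2 * (c * x') + a₃ * c ^ 3 : ℤ) : 𝓞 Ω) := by
      push_cast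
      ring
    rw [h5]
    exact h

/-- **Frobenius fixes a torsion point.** -/
theorem lr_arith (W : WeierstrassCurve ℤ) (hΔ : W.Δ ≠ 0) {p : ℕ} (hp : p.Prime) (hp2 : p ≠ 2)
    (Φ : ℤ[X])
    (hΦ : ∀ (K : Type) [Field K], Φ.map (Int.castRingHom K) =
      twPhi (W.map (Int.castRingHom K)).toAffine (twD (W.map (Int.castRingHom K)).toAffine) p)
    [DecidableEq Ω]
    (hsplit : (Φ.map (Int.castRingHom Ω)).Splits)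
    (hy : ∀ x : Ω, (Φ.map (Int.castRingHom Ω)).eval x = 0 →
      ∃ y : Ω, (W.map (Int.castRingHom Ω)).toAffine.Equation x y) :
    ∃ B : ℕ, B ≠ 0 ∧ ∀ (ℓ : ℕ) (𝔏 : Ideal (𝓞 Ω)) (τ : Ω ≃ₐ[ℚ] Ω), ℓ.Prime → ¬ ℓ ∣ B →
      𝔏.IsPrime → ((ℓ : ℕ) : 𝓞 Ω) ∈ 𝔏 → C14.FrobPow τ 𝔏 ℓ →
      p ∣ Nat.card (W.map (Int.castRingHom (ZMod ℓ))).toAffine.Point →
      ∃ (x y : Ω) (h : (W.map (Int.castRingHom Ω)).toAffine.Nonsingular x y),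
        p • Point.some x y h = 0 ∧ τ x = x ∧ τ y = y := by
  classical
  have h3 : 3 ≤ p := by
    have := hp.two_le
    omega
  set WΩ : WeierstrassCurve Ω := W.map (Int.castRingHom Ω) with hWΩ
  set ΦΩ := Φ.map (Int.castRingHom Ω) with hΦΩ
  have hinj : Function.Injective (Int.castRingHom Ω) := RingHom.injective_int _
  have hΦΩ' : ΦΩ = twPhi WΩ.toAffine (twD WΩ.toAffine) p := hΦ Ω
  have hΦΩ0 : ΦΩ ≠ 0 := by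
    rw [hΦΩ']
    exact twPhi_ne_zero _ _ (twD_x_poly _) (twD_y_poly _) hp h3
  have hΦ0 : Φ ≠ 0 := by
    rintro rfl
    exact hΦΩ0 (by rw [hΦΩ, Polynomial.map_zero])
  set c : ℤ := Φ.leadingCoeff with hcdef
  have hc0 : c ≠ 0 := leadingCoeff_ne_zero.mpr hΦ0
  have hcΩ : (c : Ω) ≠ 0 := by exact_mod_cast hc0
  have ha₁ : WΩ.a₁ = (W.a₁ : Ω) := by rw [hWΩ, WeierstrassCurve.map_a₁]; rfl
  have ha₂ : WΩ.a₂ = (W.a₂ : Ω) := by rw [hWΩ, WeierstrassCurve.map_a₂]; rfl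
  have ha₃ : WΩ.a₃ = (W.a₃ : Ω) := by rw [hWΩ, WeierstrassCurve.map_a₃]; rfl
  have ha₄ : WΩ.a₄ = (W.a₄ : Ω) := by rw [hWΩ, WeierstrassCurve.map_a₄]; rfl
  have ha₆ : WΩ.a₆ = (W.a₆ : Ω) := by rw [hWΩ, WeierstrassCurve.map_a₆]; rfl
  have hΔΩ : WΩ.Δ ≠ 0 := by
    rw [hWΩ, WeierstrassCurve.map_Δ]
    exact (map_ne_zero_iff _ hinj).mpr hΔ
  -- a choice of ordinates
  let yf : Ω → Ω := fun r => if h : ∃ y : Ω, WΩ.toAffine.Equation r y then h.choose else 0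
  have hyf : ∀ r, ΦΩ.eval r = 0 → WΩ.toAffine.Equation r (yf r) := by
    intro r hr
    have h := hy r hr
    simp only [yf, dif_pos h]
    exact h.choose_spec
  let R : Finset Ω := ΦΩ.roots.toFinset
  have hR : ∀ r, ΦΩ.eval r = 0 → r ∈ R := fun r hr =>
    Multiset.mem_toFinset.mpr ((mem_roots hΦΩ0).mpr hr)
  let B : ℕ := c.natAbs * (∏ r₁ ∈ R, ∏ r₂ ∈ R, lrNrm ((c : Ω) * (r₁ - r₂))) *
      ∏ r ∈ R, lrNrm ((c : Ω) ^ 3 * (2 * yf r + WΩ.a₁ * r + WΩ.a₃))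
  refine ⟨B, ?_, ?_⟩
  · refine mul_ne_zero (mul_ne_zero (Int.natAbs_ne_zero.mpr hc0) ?_) ?_
    · exact Finset.prod_ne_zero_iff.mpr fun r₁ _ =>
        Finset.prod_ne_zero_iff.mpr fun r₂ _ => lrNrm_ne_zero _
    · exact Finset.prod_ne_zero_iff.mpr fun r _ => lrNrm_ne_zero _
  intro ℓ 𝔏 τ hℓ hℓB h𝔏 hℓ𝔏 hF hdvd
  have : Fact ℓ.Prime := ⟨hℓ⟩
  have : Fact p.Prime := ⟨hp⟩
  have hB1 : ¬ (ℓ : ℤ) ∣ c := by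
    intro h
    apply hℓB
    have h1 : ℓ ∣ c.natAbs := Int.natCast_dvd.mp h
    exact Dvd.dvd.mul_right (Dvd.dvd.mul_right h1 _) _
  have hB2 : ∀ r₁ ∈ R, ∀ r₂ ∈ R, ¬ ℓ ∣ lrNrm ((c : Ω) * (r₁ - r₂)) := by
    intro r₁ h₁ r₂ h₂ h
    apply hℓB
    have h1 : lrNrm ((c : Ω) * (r₁ - r₂)) ∣ ∏ r₁ ∈ R, ∏ r₂ ∈ R, lrNrm ((c : Ω) * (r₁ - r₂)) :=
      (Finset.dvd_prod_of_mem (fun r₂ => lrNrm ((c : Ω) * (r₁ - r₂))) h₂).trans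
        (Finset.dvd_prod_of_mem (fun r₁ => ∏ r₂ ∈ R, lrNrm ((c : Ω) * (r₁ - r₂))) h₁)
    exact Dvd.dvd.mul_right (Dvd.dvd.mul_left (h.trans h1) _) _
  have hB3 : ∀ r ∈ R, ¬ ℓ ∣ lrNrm ((c : Ω) ^ 3 * (2 * yf r + WΩ.a₁ * r + WΩ.a₃)) := by
    intro r hr h
    apply hℓB
    exact Dvd.dvd.mul_left (h.trans (Finset.dvd_prod_of_mem
      (fun r => lrNrm ((c : Ω) ^ 3 * (2 * yf r + WΩ.a₁ * r + WΩ.a₃))) hr)) _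
  -- a point of order `p` over `𝔽_ℓ`
  obtain ⟨Pt, hPt⟩ := exists_prime_addOrderOf_dvd_card'
    (G := (W.map (Int.castRingHom (ZMod ℓ))).toAffine.Point) p hdvd
  have hPt0 : Pt ≠ 0 := by
    rintro rfl
    rw [addOrderOf_zero] at hPt
    exact hp.ne_one hPt.symm
  have hPtp : p • Pt = 0 := by
    rw [← hPt]
    exact addOrderOf_nsmul_eq_zero Pt
  rcases Pt with _ | ⟨xt, yt, ht⟩
  · exact absurd rfl hPt0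
  have hroot : (Φ.map (Int.castRingHom (ZMod ℓ))).eval xt = 0 := by
    rw [hΦ (ZMod ℓ)]
    exact twPhi_root' _ _ hp.pos ht hPtp
  obtain ⟨x', rfl⟩ := ZMod.intCast_surjective xt
  obtain ⟨y', rfl⟩ := ZMod.intCast_surjective yt
  have hx'dvd : (ℓ : ℤ) ∣ Φ.eval x' := by
    rw [eval_intCast_map] at hroot
    exact (ZMod.intCast_zmod_eq_zero_iff_dvd _ _).mp hroot
  have heq' : (ℓ : ℤ) ∣ y' ^ 2 + W.a₁ * x' * y' + W.a₃ * y' -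
      (x' ^ 3 + W.a₂ * x' ^ 2 + W.a₄ * x' + W.a₆) := by
    have h1 := ht.1
    rw [equation_iff'] at h1
    simp only [WeierstrassCurve.map_a₁, WeierstrassCurve.map_a₂, WeierstrassCurve.map_a₃,
      WeierstrassCurve.map_a₄, WeierstrassCurve.map_a₆, eq_intCast] at h1
    rw [← ZMod.intCast_zmod_eq_zero_iff_dvd]
    push_cast
    exact h1
  -- the root of `Φ` in `Ω` congruent to `x'`
  obtain ⟨r, hr0, hrint, hr𝔏⟩ := lr_ar_root Φ hΦ0 hsplit 𝔏 h𝔏 hℓ hℓ𝔏 hB1 x' hx'dvd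
  have hrR : r ∈ R := hR r hr0
  set X : 𝓞 Ω := lrInt ((c : Ω) * r) with hXdef
  have hXcoe : algebraMap (𝓞 Ω) Ω X = (c : Ω) * r := lrInt_coe hrint
  -- `τ` fixes `r`
  have hτX : τ • X - X ∈ 𝔏 := lr_frob_fix 𝔏 hℓ hℓ𝔏 τ hF X (c * x') hr𝔏
  have hτroot : ΦΩ.eval (τ r) = 0 := by
    have h1 : ΦΩ.eval (τ r) = τ (ΦΩ.eval r) := by
      rw [hΦΩ, eval_map, eval_map]
      have h2 := Polynomial.hom_eval₂ Φ (Int.castRingHom Ω) (τ : Ω →+* Ω) r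
      rw [RingHom.ext_int ((τ : Ω →+* Ω).comp (Int.castRingHom Ω)) (Int.castRingHom Ω)] at h2
      exact h2.symm
    rw [h1, hr0, map_zero]
  have hτr : τ r = r := by
    by_contra hne
    have hne' : (c : Ω) * (τ r - r) ≠ 0 := mul_ne_zero hcΩ (sub_ne_zero.mpr hne)
    have hint' : _root_.IsIntegral ℤ ((c : Ω) * (τ r - r)) := by
      have h1 : (c : Ω) * (τ r - r) = algebraMap (𝓞 Ω) Ω (τ • X - X) := by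
        rw [map_sub, lr_coe_smul, hXcoe, map_mul, map_intCast]
        ring
      rw [h1]
      exact NumberField.RingOfIntegers.isIntegral_coe _
    have h2 : lrInt ((c : Ω) * (τ r - r)) = τ • X - X := by
      apply NumberField.RingOfIntegers.coe_injective
      rw [lrInt_coe hint', map_sub, lr_coe_smul, hXcoe, map_mul, map_intCast]
      ring
    have h3 := lr_dvd_lrNrm hne' 𝔏 h𝔏 hℓ hℓ𝔏 (by rw [h2]; exact hτX)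
    exact hB2 (τ r) (hR _ hτroot) r hrR h3
  -- the ordinate
  have heqy := hyf r hr0
  set y := yf r with hydef
  have heqy' := (equation_iff _ _).mp heqy
  rw [ha₁, ha₂, ha₃, ha₄, ha₆] at heqy'
  -- `c³ y` is integral
  have hYint : _root_.IsIntegral ℤ ((c : Ω) ^ 3 * y) := by
    have h1 : _root_.IsIntegral (𝓞 Ω) ((c : Ω) ^ 3 * y) := by
      refine ⟨Polynomial.X ^ 2 + Polynomial.C ((W.a₁ : 𝓞 Ω) * (c : 𝓞 Ω) ^ 2 * X +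
        (W.a₃ : 𝓞 Ω) * (c : 𝓞 Ω) ^ 3) * Polynomial.X - Polynomial.C ((c : 𝓞 Ω) ^ 3 * X ^ 3 +
        (W.a₂ : 𝓞 Ω) * (c : 𝓞 Ω) ^ 4 * X ^ 2 + (W.a₄ : 𝓞 Ω) * (c : 𝓞 Ω) ^ 5 * X +
        (W.a₆ : 𝓞 Ω) * (c : 𝓞 Ω) ^ 6), by monicity!, ?_⟩
      rw [eval₂_sub, eval₂_add, eval₂_mul, eval₂_pow, eval₂_X, eval₂_C, eval₂_C]
      simp only [map_add, map_mul, map_pow, map_intCast, hXcoe]
      linear_combination ((c : Ω) ^ 6) * heqy'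
    exact isIntegral_trans _ h1
  set Y : 𝓞 Ω := lrInt ((c : Ω) ^ 3 * y) with hYdef
  have hYcoe : algebraMap (𝓞 Ω) Ω Y = (c : Ω) ^ 3 * y := lrInt_coe hYint
  have hXY : Y ^ 2 + ((W.a₁ : 𝓞 Ω) * (c : 𝓞 Ω) ^ 2 * X + (W.a₃ : 𝓞 Ω) * (c : 𝓞 Ω) ^ 3) * Y =
      (c : 𝓞 Ω) ^ 3 * X ^ 3 + (W.a₂ : 𝓞 Ω) * (c : 𝓞 Ω) ^ 4 * X ^ 2 +
        (W.a₄ : 𝓞 Ω) * (c : 𝓞 Ω) ^ 5 * X + (W.a₆ : 𝓞 Ω) * (c : 𝓞 Ω) ^ 6 := by
    apply NumberField.RingOfIntegers.coe_injective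
    simp only [map_add, map_mul, map_pow, map_intCast, hXcoe, hYcoe]
    linear_combination ((c : Ω) ^ 6) * heqy'
  obtain ⟨m, hm⟩ := lr_ar_y 𝔏 h𝔏 hℓ𝔏 W.a₁ W.a₂ W.a₃ W.a₄ W.a₆ c x' y' heq' X Y hr𝔏 hXY
  have hτY : τ • Y - Y ∈ 𝔏 := lr_frob_fix 𝔏 hℓ hℓ𝔏 τ hF Y m hm
  -- `τ y` is `y` or the other ordinate
  have heqτ : WΩ.toAffine.Equation r (τ y) := by
    rw [equation_iff, ha₁, ha₂, ha₃, ha₄, ha₆]
    have h1 := congrArg τ heqy'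
    simp only [map_add, map_mul, map_pow, map_intCast, hτr] at h1
    exact h1
  have hτy : τ y = y := by
    rcases Y_eq_of_X_eq heqτ heqy rfl with h | h
    · exact h
    · rw [negY, ha₁, ha₃] at h
      by_cases h0 : 2 * y + (W.a₁ : Ω) * r + (W.a₃ : Ω) = 0
      · rw [h]
        linear_combination -h0
      · exfalso
        have hne' : (c : Ω) ^ 3 * (2 * y + WΩ.a₁ * r + WΩ.a₃) ≠ 0 := by
          rw [ha₁, ha₃]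
          exact mul_ne_zero (pow_ne_zero 3 hcΩ) h0
        have hcoe : (c : Ω) ^ 3 * (2 * y + WΩ.a₁ * r + WΩ.a₃) =
            algebraMap (𝓞 Ω) Ω (-(τ • Y - Y)) := by
          rw [map_neg, map_sub, lr_coe_smul, hYcoe, map_mul, map_pow, map_intCast, h, ha₁, ha₃]
          ring
        have hint' : _root_.IsIntegral ℤ ((c : Ω) ^ 3 * (2 * y + WΩ.a₁ * r + WΩ.a₃)) := by
          rw [hcoe]
          exact NumberField.RingOfIntegers.isIntegral_coe _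
        have h2 : lrInt ((c : Ω) ^ 3 * (2 * y + WΩ.a₁ * r + WΩ.a₃)) = -(τ • Y - Y) := by
          apply NumberField.RingOfIntegers.coe_injective
          rw [lrInt_coe hint', hcoe]
        have h3 := lr_dvd_lrNrm hne' 𝔏 h𝔏 hℓ hℓ𝔏 (by rw [h2]; exact 𝔏.neg_mem hτY)
        exact hB3 r hrR h3
  have hns : WΩ.toAffine.Nonsingular r y := (equation_iff_nonsingular_of_Δ_ne_zero hΔΩ).mp heqy
  refine ⟨r, y, hns, ?_, hτr, hτy⟩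
  exact twPhi_conv' WΩ.toAffine (twD WΩ.toAffine) (twD_x_poly _) (twD_y_poly _) hns
    (by rw [← hΦΩ']; exact hr0)

end main

end LR
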