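/-
S41 (level raising), stream S3: integral structure of the character groups.

For a finitely generated group `G`: `Hom(G, ℤ)` is a finitely generated free `ℤ`-module and
every complex character is a complex combination of integral ones (with at least the same
kernel).  Applied to `Γ₀(N)` and its parabolic characters.
-/
import Mathlib
import Fermat.Prelude.Def_ModularCurve_PeriodMap

set_option autoImplicit false
set_option linter.style.haveILetI false

namespace LR

open scoped MatrixGroups

section General

variable {G : Type*} [Group G]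

/-- coefficient change `ℤ → ℂ` on characters -/
def lrCoe (G : Type*) [Group G] : (Additive G →+ ℤ) →ₗ[ℤ] (Additive G →+ ℂ) where
  toFun χ := (Int.castAddHom ℂ).comp χ
  map_add' χ ψ := by
    refine AddMonoidHom.ext fun g => ?_
    simp
  map_smul' n χ := by
    refine AddMonoidHom.ext fun g => ?_
    simp

@[simp] theorem lrCoe_apply (χ : Additive G →+ ℤ) (g : Additive G) :
    lrCoe G χ g = ((χ g : ℤ) : ℂ) := rfl

theorem lrCoe_injective : Function.Injective (lrCoe G) := by
  intro χ ψ h
  refine AddMonoidHom.ext fun g => ?_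
  have := DFunLike.congr_fun h g
  simpa using this

theorem lr_hom_eq_of_closure {A : Type*} [AddCommGroup A] {S : Set G}
    (hS : Subgroup.closure S = ⊤) (χ ψ : Additive G →+ A)
    (h : ∀ s ∈ S, χ (Additive.ofMul s) = ψ (Additive.ofMul s)) : χ = ψ := by
  have key : ∀ g : G, χ (Additive.ofMul g) = ψ (Additive.ofMul g) := by
    intro g
    have hg : g ∈ Subgroup.closure S := by rw [hS]; trivial
    induction hg using Subgroup.closure_induction with
    | mem x hx => exact h x hx
    | one => exact (map_zero χ).trans (map_zero ψ).symm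
    | mul x y _ _ hx hy =>
      have h1 : χ (Additive.ofMul (x * y)) = χ (Additive.ofMul x) + χ (Additive.ofMul y) :=
        map_add χ (Additive.ofMul x) (Additive.ofMul y)
      have h2 : ψ (Additive.ofMul (x * y)) = ψ (Additive.ofMul x) + ψ (Additive.ofMul y) :=
        map_add ψ (Additive.ofMul x) (Additive.ofMul y)
      rw [h1, h2, hx, hy]
    | inv x _ hx =>
      have h1 : χ (Additive.ofMul x⁻¹) = - χ (Additive.ofMul x) := map_neg χ (Additive.ofMul x)
      have h2 : ψ (Additive.ofMul x⁻¹) = - ψ (Additive.ofMul x) := map_neg ψ (Additive.ofMul x)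
      rw [h1, h2, hx]
  exact AddMonoidHom.ext fun g => key (Additive.toMul g)

instance lr_hom_finite [Group.FG G] : Module.Finite ℤ (Additive G →+ ℤ) := by
  classical
  obtain ⟨S, hS⟩ := Group.fg_iff.mp (inferInstance : Group.FG G)
  obtain ⟨hS, hfin⟩ := hS
  haveI : Finite S := hfin
  let ev : (Additive G →+ ℤ) →ₗ[ℤ] (S → ℤ) :=
    { toFun := fun χ s => χ (Additive.ofMul (s : G))
      map_add' := fun χ ψ => rfl
      map_smul' := fun n χ => rfl }
  have hev : Function.Injective ev := by
    intro χ ψ h
    apply lr_hom_eq_of_closure hS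
    intro s hs
    exact congrFun h ⟨s, hs⟩
  exact Module.Finite.of_injective ev hev

instance lr_hom_torsionFree : Module.IsTorsionFree ℤ (Additive G →+ ℤ) := by
  refine Module.IsTorsionFree.of_smul_eq_zero ?_
  intro n χ h
  by_cases hn : n = 0
  · exact Or.inl hn
  · right
    refine AddMonoidHom.ext fun g => ?_
    have := DFunLike.congr_fun h g
    simpa [hn] using this

/-- every complex character of a finitely generated group is a complex combination of
integral characters vanishing wherever it vanishes -/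
theorem lr_rational [Group.FG G] (c : Additive G →+ ℂ) :
    c ∈ Submodule.span ℂ {ψ : Additive G →+ ℂ | ∃ χ : Additive G →+ ℤ,
      (∀ g, c g = 0 → χ g = 0) ∧ ψ = lrCoe G χ} := by
  classical
  obtain ⟨S, hS⟩ := Group.fg_iff.mp (inferInstance : Group.FG G)
  obtain ⟨hS, hfin⟩ := hS
  let Λ : Submodule ℤ ℂ := Submodule.span ℤ ((fun s : G => c (Additive.ofMul s)) '' S)
  have hmem : ∀ g : G, c (Additive.ofMul g) ∈ Λ := by
    intro g
    have hg : g ∈ Subgroup.closure S := by rw [hS]; trivial
    induction hg using Subgroup.closure_induction with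
    | mem x hx => exact Submodule.subset_span ⟨x, hx, rfl⟩
    | one =>
      have : c (Additive.ofMul (1 : G)) = 0 := map_zero c
      rw [this]; exact Λ.zero_mem
    | mul x y _ _ hx hy =>
      have : c (Additive.ofMul (x * y)) = c (Additive.ofMul x) + c (Additive.ofMul y) :=
        map_add c (Additive.ofMul x) (Additive.ofMul y)
      rw [this]; exact Λ.add_mem hx hy
    | inv x _ hx =>
      have : c (Additive.ofMul x⁻¹) = - c (Additive.ofMul x) :=
        map_neg c (Additive.ofMul x)
      rw [this]; exact Λ.neg_mem hx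
  haveI : Module.Finite ℤ Λ := Module.Finite.of_fg (Submodule.fg_span (hfin.image _))
  haveI : Module.Free ℤ Λ := inferInstance
  let b := Module.Free.chooseBasis ℤ Λ
  haveI : Fintype (Module.Free.ChooseBasisIndex ℤ Λ) := inferInstance
  let cΛ : Additive G →+ Λ :=
    { toFun := fun g => ⟨c g, hmem (Additive.toMul g)⟩
      map_zero' := by apply Subtype.ext; simp
      map_add' := fun x y => by apply Subtype.ext; simp }
  let χ : Module.Free.ChooseBasisIndex ℤ Λ → (Additive G →+ ℤ) := fun j =>
    { toFun := fun g => b.repr (cΛ g) j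
      map_zero' := by simp
      map_add' := fun x y => by simp }
  have hc : c = ∑ j, ((b j : Λ) : ℂ) • lrCoe G (χ j) := by
    refine AddMonoidHom.ext fun g => ?_
    have h1 : (cΛ g : Λ) = ∑ j, b.repr (cΛ g) j • b j := (b.sum_repr (cΛ g)).symm
    have h2 : c g = ((cΛ g : Λ) : ℂ) := rfl
    rw [h2, h1]
    simp only [AddMonoidHom.coe_finsetSum, Finset.sum_apply, AddMonoidHom.coe_smul, Pi.smul_apply,
      lrCoe_apply, smul_eq_mul]
    rw [Submodule.coe_sum]
    apply Finset.sum_congr rfl
    intro j _
    have : χ j g = b.repr (cΛ g) j := rfl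
    rw [this, Submodule.coe_smul, zsmul_eq_mul, mul_comm]
  have hχ0 : ∀ j, ∀ g, c g = 0 → χ j g = 0 := by
    intro j g hg
    have h0 : cΛ g = 0 := Subtype.ext hg
    show b.repr (cΛ g) j = 0
    rw [h0]; simp
  have hsum : (∑ j, ((b j : Λ) : ℂ) • lrCoe G (χ j)) ∈ Submodule.span ℂ
      {ψ : Additive G →+ ℂ | ∃ χ : Additive G →+ ℤ, (∀ g, c g = 0 → χ g = 0) ∧ ψ = lrCoe G χ} :=
    Submodule.sum_mem _ fun j _ => Submodule.smul_mem _ _
      (Submodule.subset_span ⟨χ j, hχ0 j, rfl⟩)
  rw [← hc] at hsum
  exact hsum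

end General

section Gamma0

open ModularCurve.Period CongruenceSubgroup

instance lr_gamma0_fg (N : ℕ) [NeZero N] : Group.FG (Gamma0 N) := by
  haveI : Group.FG SL(2, ℤ) := by
    rw [Group.fg_iff]
    exact ⟨{ModularGroup.S, ModularGroup.T}, SpecialLinearGroup.SL2Z_generators, by simp⟩
  exact Subgroup.fg_of_index_ne_zero _

instance lr_par_finite (N : ℕ) [NeZero N] :
    Module.Finite ℤ (parabolicHoms ℤ (Gamma0 N) ℤ) := by
  haveI : IsNoetherian ℤ (Additive (Gamma0 N) →+ ℤ) := inferInstance
  infer_instance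

instance lr_par_free (N : ℕ) [NeZero N] :
    Module.Free ℤ (parabolicHoms ℤ (Gamma0 N) ℤ) := by
  infer_instance

/-- the complex parabolic characters are spanned by the integral parabolic characters -/
theorem lr_par_rational (N : ℕ) [NeZero N] (c : Additive (Gamma0 N) →+ ℂ)
    (hc : c ∈ parabolicHoms ℂ (Gamma0 N) ℂ) :
    c ∈ Submodule.span ℂ ((lrCoe (Gamma0 N)) '' (parabolicHoms ℤ (Gamma0 N) ℤ : Set _)) := by
  refine Submodule.span_mono ?_ (lr_rational c)
  rintro ψ ⟨χ, hχ, rfl⟩
  refine ⟨χ, ?_, rfl⟩
  intro γ hγ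
  exact hχ _ (hc γ hγ)

theorem lrCoe_mem_par (N : ℕ) (χ : Additive (Gamma0 N) →+ ℤ)
    (hχ : χ ∈ parabolicHoms ℤ (Gamma0 N) ℤ) :
    lrCoe (Gamma0 N) χ ∈ parabolicHoms ℂ (Gamma0 N) ℂ := by
  intro γ hγ
  rw [lrCoe_apply, hχ γ hγ]
  simp

end Gamma0

end LR
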