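/-
S41 (level raising), stream S3: auxiliary facts about the operators of `LR_Defs` / `LR_Level`
used by the final assembly.

* `LR.lr_hecke_jconj` / `LR.lr_hecke_charInv`: the Hecke operators commute with the involution
  induced by conjugation with `diag(1, -1)`.
* `LR.lr_res1_par`, `LR.lr_res2_par`, `LR.lr_res1_injective`.
* `LR.lr_par_div`: division of a `p`-divisible parabolic character.
* `LR.lrHeckeC`: the complex-linear Hecke operators, and their compatibility with `lrCoe`.
-/
import Fermat.Agent.Lib.LR_Level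
import Fermat.Agent.Lib.LR_Rat
import Fermat.Prelude.Def_ModularCurve_PeriodHomPair

set_option autoImplicit false
set_option linter.style.haveILetI false

namespace LR

open CongruenceSubgroup ModularCurve.Period
open scoped MatrixGroups

variable {A : Type*} [AddCommGroup A]

theorem lr_mat_jConj {M : ℕ} (γ : Gamma0 M) : mat (jConjGamma0 M γ) = jConjMat (mat γ) := rfl

/-- a coset system whose set of cosets is stable under conjugation by `diag(1,-1)` induces an
operator commuting with the corresponding involution of characters -/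
theorem CosetSys.lr_op_jconj {M : ℕ} {ι : Type} [Fintype ι] (S : CosetSys M ι) (σ : ι ≃ ι)
    (t : ι → Gamma0 M) (hB : ∀ k, jConjMat (S.A k) = mat (t k) * S.A (σ k)) (χ : X M A) :
    S.op (χ.comp (MonoidHom.toAdditive (jConjGamma0 M)))
      = (S.op χ).comp (MonoidHom.toAdditive (jConjGamma0 M)) := by
  refine AddMonoidHom.ext fun γ' => ?_
  obtain ⟨γ, rfl⟩ : ∃ γ : Gamma0 M, Additive.ofMul γ = γ' := ⟨Additive.toMul γ', rfl⟩
  have h1 := S.op_apply_of_data (χ.comp (MonoidHom.toAdditive (jConjGamma0 M))) γ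
    (fun k => jConjMat (S.A k)) σ t hB (S.perm (jConjGamma0 M γ))
    (fun k => jConjGamma0 M (S.coc (jConjGamma0 M γ) k)) (by
      intro k
      have h2 := S.mul (jConjGamma0 M γ) k
      have h3 := congrArg jConjMat h2
      rw [jConjMat_mul, jConjMat_mul, lr_mat_jConj, jConjMat_jConjMat] at h3
      exact h3)
  rw [h1]
  show _ = S.op χ (Additive.ofMul (jConjGamma0 M γ))
  rw [S.op_apply]
  apply Finset.sum_congr rfl
  intro k _
  show χ (Additive.ofMul (jConjGamma0 M (jConjGamma0 M (S.coc (jConjGamma0 M γ) k)))) = _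
  rw [jConjGamma0_jConjGamma0]

/-- the translation matching `jConjMat (repU l x)` with `repU l (-x)` -/
def lrNegShift (M l : ℕ) (x : ZMod l) : Gamma0 M :=
  mk !![1, (-(x.val : ℤ) - ((-x).val : ℤ)) / (l : ℤ); 0, 1] (by simp) (by simp)

theorem lrNegShift_spec (M l : ℕ) [NeZero l] (x : ZMod l) :
    jConjMat (repU l x) = mat (lrNegShift M l x) * repU l (-x) := by
  have hdvd : (l : ℤ) ∣ (-(x.val : ℤ) - ((-x).val : ℤ)) := by
    rw [← ZMod.intCast_zmod_eq_zero_iff_dvd]
    push_cast
    rw [ZMod.natCast_zmod_val, ZMod.natCast_zmod_val]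
    ring
  have h1 : (-(x.val : ℤ) - ((-x).val : ℤ)) / (l : ℤ) * (l : ℤ) = -(x.val : ℤ) - ((-x).val : ℤ) :=
    Int.ediv_mul_cancel hdvd
  rw [lrNegShift, mat_mk, repU, repU]
  ext i j
  fin_cases i <;> fin_cases j <;> simp [jConjMat, Matrix.mul_apply, Fin.sum_univ_two]
  simp only [ZMod.natCast_val] at h1
  rw [h1]; ring

theorem lr_hecke_jconj (M l : ℕ) (χ : X M A) :
    hecke M l (χ.comp (MonoidHom.toAdditive (jConjGamma0 M)))
      = (hecke M l χ).comp (MonoidHom.toAdditive (jConjGamma0 M)) := by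
  by_cases hl : l.Prime
  · haveI : Fact l.Prime := ⟨hl⟩
    haveI : NeZero l := ⟨hl.ne_zero⟩
    by_cases hlM : l ∣ M
    · rw [hecke_of_dvd (A := A) M hlM]
      exact CosetSys.lr_op_jconj (sysU M hlM) (Equiv.neg (ZMod l)) (lrNegShift M l)
        (fun x => lrNegShift_spec M l x) χ
    · rw [hecke_of_not_dvd (A := A) M hlM]
      refine CosetSys.lr_op_jconj (sysT M hlM) (Equiv.optionCongr (Equiv.neg (ZMod l)))
        (fun x => x.elim 1 (lrNegShift M l)) (fun x => ?_) χ
      induction x using OnePoint.rec with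
      | infty =>
        show jConjMat (!![(l : ℤ), 0; 0, 1] : Matrix (Fin 2) (Fin 2) ℤ)
          = mat (1 : Gamma0 M) * (!![(l : ℤ), 0; 0, 1] : Matrix (Fin 2) (Fin 2) ℤ)
        rw [mat_one, Matrix.one_mul]
        ext i j
        fin_cases i <;> fin_cases j <;> simp [jConjMat]
      | coe y => exact lrNegShift_spec M l y
  · rw [hecke_of_not_prime (A := A) M hl]
    rfl

/-- the Hecke operators commute with the involution `charInvolution` -/
theorem lr_hecke_charInv (M l : ℕ) (v : X M ℂ) :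
    charInvolution M ℂ ℂ (hecke M l v) = hecke M l (charInvolution M ℂ ℂ v) :=
  (lr_hecke_jconj M l v).symm

/-! ### the degeneracy maps and parabolic characters -/

theorem lr_res1_par (N q : ℕ) (χ : X N A) (hχ : IsParabolicHom (Gamma0 N) χ) :
    IsParabolicHom (Gamma0 (N * q)) (res1 N q χ) := by
  intro γ hγ
  rw [res1_apply]
  apply hχ
  show (mat (incl N q γ)).trace ^ 2 = 4
  rw [mat_incl]
  exact hγ

theorem lr_res2_par (N q : ℕ) [NeZero q] (χ : X N A) (hχ : IsParabolicHom (Gamma0 N) χ) :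
    IsParabolicHom (Gamma0 (N * q)) (res2 N q χ) := by
  intro γ hγ
  rw [res2_apply]
  apply hχ
  show (mat (dconj N q γ)).trace ^ 2 = 4
  have h : (mat γ).trace ^ 2 = 4 := hγ
  rw [Matrix.trace_fin_two] at h ⊢
  rw [mat_dconj_00, mat_dconj_11]
  exact h

/-- restriction to `Γ₀(N q)` is injective on integral characters -/
theorem lr_res1_injective (N q : ℕ) [NeZero N] [NeZero q] (χ χ' : X N ℤ)
    (h : res1 N q χ = res1 N q χ') : χ = χ' := by
  have key : ∀ ψ : X N ℤ, res1 N q ψ = 0 → ψ = 0 := by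
    intro ψ hψ
    refine AddMonoidHom.ext fun γ' => ?_
    obtain ⟨γ, rfl⟩ : ∃ γ : Gamma0 N, Additive.ofMul γ = γ' := ⟨Additive.toMul γ', rfl⟩
    haveI : NeZero (N * q) := ⟨Nat.mul_ne_zero (NeZero.ne N) (NeZero.ne q)⟩
    obtain ⟨n, hn0, -, hn⟩ := Subgroup.exists_pow_mem_of_index_ne_zero
      (Subgroup.FiniteIndex.index_ne_zero (H := Gamma0 (N * q))) (γ : SL(2, ℤ))
    let γ₁ : Gamma0 (N * q) := ⟨(γ : SL(2, ℤ)) ^ n, hn⟩
    have h1 : incl N q γ₁ = γ ^ n := by
      apply mat_injective
      rw [mat_incl]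
      rfl
    have h2 := DFunLike.congr_fun hψ (Additive.ofMul γ₁)
    rw [res1_apply, h1] at h2
    have h3 : ψ (Additive.ofMul (γ ^ n)) = n • ψ (Additive.ofMul γ) := by
      rw [ofMul_pow, map_nsmul]
    rw [h3] at h2
    have h4 : (n : ℤ) * ψ (Additive.ofMul γ) = 0 := by simpa using h2
    rcases mul_eq_zero.mp h4 with h5 | h5
    · exact absurd (by exact_mod_cast h5) hn0.ne'
    · exact h5
  have := key (χ - χ') (by rw [map_sub, h, sub_self])
  exact sub_eq_zero.mp this

/-- division of a divisible integral parabolic character -/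
theorem lr_par_div (N : ℕ) (p : ℤ) (z : X N ℤ)
    (hz : z ∈ parabolicHoms ℤ (Gamma0 N) ℤ) (h : ∀ γ, p ∣ z γ) :
    ∃ z' : X N ℤ, z' ∈ parabolicHoms ℤ (Gamma0 N) ℤ ∧ z = p • z' := by
  refine ⟨{ toFun := fun γ => z γ / p
            map_zero' := by simp
            map_add' := fun a b => by rw [map_add]; exact Int.add_ediv_of_dvd_left (h a) },
    ?_, ?_⟩
  · intro γ hγ
    show z (Additive.ofMul γ) / p = 0
    rw [hz γ hγ, Int.zero_ediv]
  · refine AddMonoidHom.ext fun γ => ?_
    show z γ = p • (z γ / p)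
    rw [smul_eq_mul, Int.mul_ediv_cancel' (h γ)]

/-! ### complex-linear Hecke operators -/

/-- the Hecke operator on complex characters, as a `ℂ`-linear map -/
noncomputable def lrHeckeC (M l : ℕ) : Module.End ℂ (X M ℂ) where
  toFun := hecke M l
  map_add' := map_add _
  map_smul' z χ := by
    have e : ∀ ψ : X M ℂ, z • ψ = (AddMonoidHom.mulLeft z).comp ψ :=
      fun ψ => AddMonoidHom.ext fun g => rfl
    rw [e, RingHom.id_apply, e]
    exact hecke_comp M l (AddMonoidHom.mulLeft z) χ

@[simp] theorem lrHeckeC_apply (M l : ℕ) (χ : X M ℂ) : lrHeckeC M l χ = hecke M l χ := rfl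

theorem lr_hecke_lrCoe (M l : ℕ) (χ : X M ℤ) :
    hecke M l (lrCoe (Gamma0 M) χ) = lrCoe (Gamma0 M) (hecke M l χ) :=
  hecke_comp M l (Int.castAddHom ℂ) χ

end LR
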