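import Fermat.Agent.Lib.C14_Z_NotSplit

set_option autoImplicit false

open scoped NumberField
open IsDedekindDomain Filter Topology Module

namespace LR

open C14

section twofield
variable (F : Type*) [Field F] [NumberField F]
variable (M₁ : Type*) [Field M₁] [NumberField M₁] [Algebra F M₁]
variable (M₂ : Type*) [Field M₂] [NumberField M₂] [Algebra F M₂]

/-- a prime of absolute degree one, outside a finite set, unramified and non-split in each of
two extensions whose degrees `n₁`, `n₂` satisfy `n₁ + n₂ < n₁ n₂`. -/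
theorem lr_exists_not_split_two
    (h : finrank F M₁ + finrank F M₂ < finrank F M₁ * finrank F M₂)
    (S : Set (HeightOneSpectrum (𝓞 F))) (hS : S.Finite) :
    ∃ v : HeightOneSpectrum (𝓞 F), v ∉ S ∧ (Ideal.absNorm v.asIdeal).Prime ∧
      UnramIn F M₁ v ∧ UnramIn F M₂ v ∧ ¬ SplitsIn F M₁ v ∧ ¬ SplitsIn F M₂ v := by
  classical
  by_contra hcon
  have hall : ∀ v : HeightOneSpectrum (𝓞 F), v ∉ S → (Ideal.absNorm v.asIdeal).Prime →
      UnramIn F M₁ v → UnramIn F M₂ v → SplitsIn F M₁ v ∨ SplitsIn F M₂ v := by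
    intro v h1 h2 h3 h3'
    by_contra h4
    rw [not_or] at h4
    exact hcon ⟨v, h1, h2, h3, h3', h4.1, h4.2⟩
  set E : Finset (HeightOneSpectrum (𝓞 F)) :=
    hS.toFinset ∪ ((z_finite_not_unram F M₁).toFinset ∪ (z_finite_not_unram F M₂).toFinset)
    with hE
  have hE1 : ∀ v, v ∉ E → v ∉ S ∧ UnramIn F M₁ v ∧ UnramIn F M₂ v := by
    intro v hv
    rw [hE, Finset.mem_union, not_or, Finset.mem_union, not_or, Set.Finite.mem_toFinset,
      Set.Finite.mem_toFinset, Set.Finite.mem_toFinset] at hv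
    exact ⟨hv.1, not_not.mp hv.2.1, not_not.mp hv.2.2⟩
  obtain ⟨CF, hCF⟩ := Z_prime_sum F
  obtain ⟨CM₁, hCM₁⟩ := Z_prime_sum M₁
  obtain ⟨CM₂, hCM₂⟩ := Z_prime_sum M₂
  have hn1 : 0 < finrank F M₁ := by
    rcases Nat.eq_zero_or_pos (finrank F M₁) with h0 | h0
    · rw [h0] at h; omega
    · exact h0
  have hn2 : 0 < finrank F M₂ := by
    rcases Nat.eq_zero_or_pos (finrank F M₂) with h0 | h0
    · rw [h0] at h; omega
    · exact h0
  have hn1' : (0 : ℝ) < (finrank F M₁ : ℝ) := by exact_mod_cast hn1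
  have hn2' : (0 : ℝ) < (finrank F M₂ : ℝ) := by exact_mod_cast hn2
  have hlt : (finrank F M₁ : ℝ) + (finrank F M₂ : ℝ) + 1
      ≤ (finrank F M₁ : ℝ) * (finrank F M₂ : ℝ) := by exact_mod_cast h
  set C1 : ℝ := (E.card : ℝ) + (finrank ℚ F : ℝ) * ∑' m : ℕ, (m : ℝ) ^ (-(2 : ℝ)) with hC1
  have key : ∀ s : ℝ, 1 < s →
      ∑' v : HeightOneSpectrum (𝓞 F), nrm F v ^ (-s)
        ≤ z_splitSum F M₁ s + z_splitSum F M₂ s + C1 := by
    intro s hs
    refine Real.tsum_le_of_sum_le (fun v => Real.rpow_nonneg (z_nrm_pos F v).le _) fun T => ?_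
    have hpt : ∀ v : HeightOneSpectrum (𝓞 F), nrm F v ^ (-s)
        ≤ z_splitTerm F M₁ s v + z_splitTerm F M₂ s v + (if v ∈ E then (1 : ℝ) else 0)
          + ((z_char F v : ℕ) : ℝ) ^ (-(2 : ℝ)) := by
      intro v
      have hnn1 := z_splitTerm_nonneg F M₁ s v
      have hnn1' := z_splitTerm_nonneg F M₂ s v
      have hnn2 : (0 : ℝ) ≤ (if v ∈ E then (1 : ℝ) else 0) := by split_ifs <;> norm_num
      have hnn3 : (0 : ℝ) ≤ ((z_char F v : ℕ) : ℝ) ^ (-(2 : ℝ)) :=
        Real.rpow_nonneg (Nat.cast_nonneg _) _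
      by_cases hvE : v ∈ E
      · rw [if_pos hvE]
        have := z_nrm_rpow_le_half F v s hs.le
        linarith
      · by_cases hf : v.asIdeal.inertiaDeg ℤ = 1
        · rcases hall v (hE1 v hvE).1 (z_prime_of_inertiaDeg_one F v hf) (hE1 v hvE).2.1
            (hE1 v hvE).2.2 with hspl | hspl
          · rw [z_splitTerm_of_splits F M₁ s hspl]
            linarith
          · rw [z_splitTerm_of_splits F M₂ s hspl]
            linarith
        · have := z_deg_ge_two_le F v hf s hs.le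
          linarith
    calc ∑ v ∈ T, nrm F v ^ (-s)
        ≤ ∑ v ∈ T, (z_splitTerm F M₁ s v + z_splitTerm F M₂ s v
          + (if v ∈ E then (1 : ℝ) else 0)
          + ((z_char F v : ℕ) : ℝ) ^ (-(2 : ℝ))) := Finset.sum_le_sum fun v _ => hpt v
      _ = ∑ v ∈ T, z_splitTerm F M₁ s v + ∑ v ∈ T, z_splitTerm F M₂ s v
          + ∑ v ∈ T, (if v ∈ E then (1 : ℝ) else 0)
          + ∑ v ∈ T, ((z_char F v : ℕ) : ℝ) ^ (-(2 : ℝ)) := by
          rw [Finset.sum_add_distrib, Finset.sum_add_distrib, Finset.sum_add_distrib]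
      _ ≤ z_splitSum F M₁ s + z_splitSum F M₂ s + (E.card : ℝ)
          + (finrank ℚ F : ℝ) * ∑' m : ℕ, (m : ℝ) ^ (-(2 : ℝ)) := by
          refine add_le_add (add_le_add (add_le_add ?_ ?_) ?_) (z_sum_char_le F T)
          · exact (z_summable_splitTerm F M₁ s hs).sum_le_tsum T
              (fun v _ => z_splitTerm_nonneg F M₁ s v)
          · exact (z_summable_splitTerm F M₂ s hs).sum_le_tsum T
              (fun v _ => z_splitTerm_nonneg F M₂ s v)
          · rw [← Finset.sum_filter, Finset.sum_const, nsmul_eq_mul, mul_one]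
            have : T.filter (fun v => v ∈ E) ⊆ E := fun v hv => (Finset.mem_filter.mp hv).2
            exact_mod_cast Finset.card_le_card this
      _ = _ := by rw [hC1]; ring
  obtain ⟨s, hs1, hs2, hs3⟩ := z_log_unbounded 1
    ((finrank F M₂ : ℝ) * CM₁ + (finrank F M₁ : ℝ) * CM₂
      + (finrank F M₁ : ℝ) * (finrank F M₂ : ℝ) * (CF + C1)) one_pos
  have h1 := (abs_le.mp (hCF s hs1 hs2)).1
  have h2 := (abs_le.mp (hCM₁ s hs1 hs2)).2
  have h2' := (abs_le.mp (hCM₂ s hs1 hs2)).2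
  have h3 := key s hs1
  have h4 := z_split_upper F M₁ s hs1
  have h4' := z_split_upper F M₂ s hs1
  have hL : 0 < Real.log (1 / (s - 1)) := by
    apply Real.log_pos
    rw [lt_div_iff₀ (by linarith)]
    linarith
  set L := Real.log (1 / (s - 1)) with hLdef
  set n₁ : ℝ := (finrank F M₁ : ℝ) with hn₁
  set n₂ : ℝ := (finrank F M₂ : ℝ) with hn₂
  set A := ∑' v : HeightOneSpectrum (𝓞 F), nrm F v ^ (-s) with hA
  set B₁ := z_splitSum F M₁ s with hB₁
  set B₂ := z_splitSum F M₂ s with hB₂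
  -- n₁ n₂ (L - CF) ≤ n₁ n₂ A ≤ n₁ n₂ (B₁ + B₂ + C1) ≤ n₂ (L + CM₁) + n₁ (L + CM₂) + n₁ n₂ C1
  have e1 : n₁ * n₂ * (L - CF) ≤ n₁ * n₂ * A :=
    mul_le_mul_of_nonneg_left (by linarith) (by positivity)
  have e2 : n₁ * n₂ * A ≤ n₁ * n₂ * (B₁ + B₂ + C1) :=
    mul_le_mul_of_nonneg_left h3 (by positivity)
  have e3 : n₂ * (n₁ * B₁) ≤ n₂ * (L + CM₁) :=
    mul_le_mul_of_nonneg_left (by linarith) hn2'.le
  have e4 : n₁ * (n₂ * B₂) ≤ n₁ * (L + CM₂) :=
    mul_le_mul_of_nonneg_left (by linarith) hn1'.le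
  have e5 : (n₁ * n₂ - n₁ - n₂) * L ≤ n₂ * CM₁ + n₁ * CM₂ + n₁ * n₂ * (CF + C1) := by
    nlinarith
  have e6 : 1 * L ≤ (n₁ * n₂ - n₁ - n₂) * L :=
    mul_le_mul_of_nonneg_right (by linarith) hL.le
  linarith

end twofield

end LR
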