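import Fermat.Agent.Lib.C14_FrobCheb
import Fermat.Agent.Lib.LR_Z2

/-!
# S41 / LR stream S4, leaf (e): "Chebotarev-lite" for cyclic subgroups of an arbitrary Galois group

`LR.lr_cheb`: `Ω/ℚ` Galois (not necessarily abelian), `σ ≠ 1` in `Gal(Ω/ℚ)` whose order has at
most two prime factors.  Outside any finite set of rational primes there is a prime `ℓ`, a prime
`𝔏` of `Ω` above `ℓ` and a generator `σ ^ t` of `⟨σ⟩` acting as `x ↦ x ^ ℓ` modulo `𝔏`.
-/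

set_option autoImplicit false

open scoped NumberField Pointwise
open IsDedekindDomain Module

namespace LR

open C14

theorem lr_cyc_comm (K Ω : Type) [Field K] [Field Ω] [Algebra K Ω] (g : Ω ≃ₐ[K] Ω) (hg : ∀ h : Ω ≃ₐ[K] Ω, h ∈ Subgroup.zpowers g) :
    ∀ a b : Ω ≃ₐ[K] Ω, a * b = b * a := by
  intro a b
  obtain ⟨i, rfl⟩ := Subgroup.mem_zpowers_iff.mp (hg a)
  obtain ⟨j, rfl⟩ := Subgroup.mem_zpowers_iff.mp (hg b)
  rw [← zpow_add, ← zpow_add, add_comm]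

section cyclic
variable (K Ω : Type) [Field K] [NumberField K] [Field Ω] [NumberField Ω] [Algebra K Ω]
  [IsGalois K Ω]

/-- in a cyclic extension every prime has a Frobenius of the form `g ^ t` -/
theorem lr_cyc_frob (g : Ω ≃ₐ[K] Ω) (hg : ∀ h : Ω ≃ₐ[K] Ω, h ∈ Subgroup.zpowers g)
    (P : HeightOneSpectrum (𝓞 K)) : ∃ t : ℕ, IsFrob K Ω P (g ^ t) := by
  obtain ⟨h₀, hh₀⟩ := frob_exists K Ω (lr_cyc_comm K Ω g hg) P
  have h1 := (mem_powers_iff_mem_zpowers (x := g) (y := h₀)).mpr (hg h₀)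
  obtain ⟨t, ht⟩ := (Submonoid.mem_powers_iff _ _).mp h1
  exact ⟨t, ht ▸ hh₀⟩

/-- the subextension of degree `q` of a cyclic extension, and its splitting behaviour -/
theorem lr_cyc_sub (g : Ω ≃ₐ[K] Ω) (hg : ∀ h : Ω ≃ₐ[K] Ω, h ∈ Subgroup.zpowers g)
    (q : ℕ) (hq : q.Prime) (hqg : q ∣ orderOf g) :
    ∃ M : IntermediateField K Ω, IsGalois K ↥M ∧ finrank K ↥M = q ∧
      ∀ (P : HeightOneSpectrum (𝓞 K)) (t : ℕ), UnramIn K ↥M P → IsFrob K Ω P (g ^ t) → q ∣ t →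
        SplitsIn K ↥M P := by
  classical
  have hab := lr_cyc_comm K Ω g hg
  let H' : Subgroup (Ω ≃ₐ[K] Ω) := Subgroup.zpowers (g ^ q)
  let M : IntermediateField K Ω := IntermediateField.fixedField H'
  have hnorm : H'.Normal :=
    ⟨fun a ha b => by rw [hab b a, mul_inv_cancel_right]; exact ha⟩
  have hgal : IsGalois K ↥M := IsGalois.of_fixedField_normal_subgroup H'
  refine ⟨M, hgal, ?_, ?_⟩
  · have hdM : finrank ↥M Ω = orderOf g / q := by
      have h1 : finrank ↥M Ω = Nat.card H' := IntermediateField.finrank_fixedField_eq_card H'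
      have h2 : orderOf (g ^ q) = orderOf g / q := by
        rw [orderOf_pow' g hq.ne_zero, Nat.gcd_eq_right hqg]
      rw [Nat.card_zpowers, h2] at h1
      exact h1
    have hdK : finrank K Ω = orderOf g := by
      have htop : Subgroup.zpowers g = ⊤ := (Subgroup.eq_top_iff' _).mpr hg
      rw [← IsGalois.card_aut_eq_finrank, ← Nat.card_zpowers g, htop, Subgroup.card_top]
    have h1 : finrank K ↥M * finrank ↥M Ω = finrank K Ω := Module.finrank_mul_finrank _ _ _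
    rw [hdK, hdM] at h1
    obtain ⟨m, hm⟩ := hqg
    have hn0 : 0 < orderOf g := orderOf_pos g
    rw [hm, Nat.mul_div_cancel_left m hq.pos] at h1
    have hm0 : 0 < m := by
      rcases Nat.eq_zero_or_pos m with h | h
      · rw [h, mul_zero] at hm; omega
      · exact h
    exact Nat.eq_of_mul_eq_mul_right hm0 h1
  · intro P t hunr hfrob hqt
    apply frob_splitsIn_of_isFrob_one K ↥M P hunr
    refine frob_isFrob_restrict K ↥M Ω P (g ^ t) hfrob 1 ?_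
    intro x
    rw [AlgEquiv.one_apply]
    obtain ⟨j, rfl⟩ := hqt
    have hx : (x : Ω) ∈ M := x.2
    have h2 := (IntermediateField.mem_fixedField_iff H' (x : Ω)).mp hx (g ^ (q * j))
      (by rw [pow_mul]; exact Subgroup.pow_mem _ (Subgroup.mem_zpowers _) j)
    exact h2.symm

/-- **Chebotarev-lite in a cyclic extension**, for generators whose order has at most two prime
factors: a prime of absolute degree one whose Frobenius generates the Galois group. -/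
theorem lr_cheb_cyclic (g : Ω ≃ₐ[K] Ω) (hg : ∀ h : Ω ≃ₐ[K] Ω, h ∈ Subgroup.zpowers g)
    (hg1 : g ≠ 1) (hcard : (orderOf g).primeFactors.card ≤ 2)
    (S : Set (HeightOneSpectrum (𝓞 K))) (hS : S.Finite) :
    ∃ (P : HeightOneSpectrum (𝓞 K)) (t : ℕ), P ∉ S ∧ (Ideal.absNorm P.asIdeal).Prime ∧
      t.Coprime (orderOf g) ∧ IsFrob K Ω P (g ^ t) := by
  classical
  have hn0 : 0 < orderOf g := orderOf_pos g
  have hn1 : orderOf g ≠ 1 := fun h => hg1 (orderOf_eq_one_iff.mp h)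
  have hq₁ : (orderOf g).minFac.Prime := Nat.minFac_prime hn1
  have hq₁n : (orderOf g).minFac ∣ orderOf g := Nat.minFac_dvd _
  set q₁ := (orderOf g).minFac with hq₁def
  obtain ⟨M₁, hgal₁, hdeg₁, hspl₁⟩ := lr_cyc_sub K Ω g hg q₁ hq₁ hq₁n
  by_cases h2 : ∃ q₂ : ℕ, q₂.Prime ∧ q₂ ∣ orderOf g ∧ q₂ ≠ q₁
  · obtain ⟨q₂, hq₂, hq₂n, hne⟩ := h2
    obtain ⟨M₂, hgal₂, hdeg₂, hspl₂⟩ := lr_cyc_sub K Ω g hg q₂ hq₂ hq₂n
    have hall : ∀ q : ℕ, q.Prime → q ∣ orderOf g → q = q₁ ∨ q = q₂ := by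
      intro q hq hqn
      have hsub : ({q₁, q₂} : Finset ℕ) ⊆ (orderOf g).primeFactors := by
        intro x hx
        rw [Finset.mem_insert, Finset.mem_singleton] at hx
        rcases hx with rfl | rfl
        · exact Nat.mem_primeFactors.mpr ⟨hq₁, hq₁n, hn0.ne'⟩
        · exact Nat.mem_primeFactors.mpr ⟨hq₂, hq₂n, hn0.ne'⟩
      have hc : ({q₁, q₂} : Finset ℕ).card = 2 := Finset.card_pair (Ne.symm hne)
      have heq := Finset.eq_of_subset_of_card_le hsub (by rw [hc]; exact hcard)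
      have hqm : q ∈ (orderOf g).primeFactors := Nat.mem_primeFactors.mpr ⟨hq, hqn, hn0.ne'⟩
      rw [← heq, Finset.mem_insert, Finset.mem_singleton] at hqm
      exact hqm
    have hlt : finrank K ↥M₁ + finrank K ↥M₂ < finrank K ↥M₁ * finrank K ↥M₂ := by
      rw [hdeg₁, hdeg₂]
      have h1 := hq₁.two_le
      have h2 := hq₂.two_le
      obtain ⟨a, ha⟩ := Nat.exists_eq_add_of_le h1
      obtain ⟨b, hb⟩ := Nat.exists_eq_add_of_le h2
      have hab : a ≠ b := fun h => hne (by omega)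
      rw [ha, hb]
      have : 0 < a + b := by omega
      nlinarith [Nat.zero_le (a * b)]
    obtain ⟨P, hPS, hPprime, hunr₁, hunr₂, hns₁, hns₂⟩ :=
      lr_exists_not_split_two K ↥M₁ ↥M₂ hlt S hS
    obtain ⟨t, ht⟩ := lr_cyc_frob K Ω g hg P
    refine ⟨P, t, hPS, hPprime, ?_, ht⟩
    refine Nat.coprime_of_dvd fun q hq hqt hqn => ?_
    rcases hall q hq hqn with rfl | rfl
    · exact hns₁ (hspl₁ P t hunr₁ ht hqt)
    · exact hns₂ (hspl₂ P t hunr₂ ht hqt)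
  · have hall : ∀ q : ℕ, q.Prime → q ∣ orderOf g → q = q₁ := by
      intro q hq hqn
      by_contra hne
      exact h2 ⟨q, hq, hqn, hne⟩
    have hdeg : 1 < finrank K ↥M₁ := by rw [hdeg₁]; exact hq₁.one_lt
    obtain ⟨P, hPS, hPprime, hunr₁, hns₁⟩ := Z_exists_not_split K ↥M₁ hdeg S hS
    obtain ⟨t, ht⟩ := lr_cyc_frob K Ω g hg P
    refine ⟨P, t, hPS, hPprime, ?_, ht⟩
    refine Nat.coprime_of_dvd fun q hq hqt hqn => ?_
    rw [hall q hq hqn] at hqt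
    exact hns₁ (hspl₁ P t hunr₁ ht hqt)

end cyclic

/-- finitely many primes have their absolute norm in a given finite set -/
theorem lr_finite_absNorm_mem (F : Type*) [Field F] [NumberField F] (S : Set ℕ) (hS : S.Finite) :
    {P : HeightOneSpectrum (𝓞 F) | Ideal.absNorm P.asIdeal ∈ S}.Finite := by
  have h : {P : HeightOneSpectrum (𝓞 F) | Ideal.absNorm P.asIdeal ∈ S} =
      ⋃ n ∈ S, {P : HeightOneSpectrum (𝓞 F) | Ideal.absNorm P.asIdeal = n} := by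
    ext P
    simp
  rw [h]
  refine hS.biUnion fun n _ => ?_
  refine Set.Finite.of_finite_image (f := fun P : HeightOneSpectrum (𝓞 F) => P.asIdeal)
    ((Ideal.finite_setOfPred_absNorm_eq (S := 𝓞 F) n).subset ?_) (fun a _ b _ h => HeightOneSpectrum.ext h)
  rintro _ ⟨P, hP, rfl⟩
  exact hP

/-- **Chebotarev-lite for cyclic subgroups of `Gal(Ω/ℚ)`**. -/
theorem lr_cheb (Ω : Type) [Field Ω] [NumberField Ω] [IsGalois ℚ Ω] (σ : Ω ≃ₐ[ℚ] Ω)
    (hσ1 : σ ≠ 1) (hσ : (orderOf σ).primeFactors.card ≤ 2) (S : Set ℕ) (hS : S.Finite) :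
    ∃ (ℓ : ℕ) (𝔏 : Ideal (𝓞 Ω)) (t : ℕ), ℓ.Prime ∧ ℓ ∉ S ∧ 𝔏.IsPrime ∧ ((ℓ : ℕ) : 𝓞 Ω) ∈ 𝔏 ∧
      t.Coprime (orderOf σ) ∧ FrobPow (σ ^ t) 𝔏 ℓ := by
  classical
  let H : Subgroup (Ω ≃ₐ[ℚ] Ω) := Subgroup.zpowers σ
  let F' : IntermediateField ℚ Ω := IntermediateField.fixedField H
  have hfix : F'.fixingSubgroup = H := IntermediateField.fixingSubgroup_fixedField H
  have hσmem : σ ∈ F'.fixingSubgroup := by rw [hfix]; exact Subgroup.mem_zpowers σ
  let e : F'.fixingSubgroup ≃* (Ω ≃ₐ[↥F'] Ω) := IntermediateField.fixingSubgroupEquiv F'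
  let g : Ω ≃ₐ[↥F'] Ω := e ⟨σ, hσmem⟩
  have he : ∀ (s : F'.fixingSubgroup) (x : Ω), e s x = (s : Ω ≃ₐ[ℚ] Ω) x := fun s x => rfl
  have hgpow : ∀ (t : ℕ) (x : Ω), (g ^ t) x = (σ ^ t) x := by
    intro t x
    have h1 : g ^ t = e (⟨σ, hσmem⟩ ^ t) := (map_pow e _ t).symm
    rw [h1, he]
    rfl
  have hord : orderOf g = orderOf σ := by
    rw [MulEquiv.orderOf_eq e, ← Subgroup.orderOf_coe]
  have hgen : ∀ h : Ω ≃ₐ[↥F'] Ω, h ∈ Subgroup.zpowers g := by
    intro h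
    obtain ⟨s, rfl⟩ := e.surjective h
    have hs : (s : Ω ≃ₐ[ℚ] Ω) ∈ H := by rw [← hfix]; exact s.2
    obtain ⟨i, hi⟩ := Subgroup.mem_zpowers_iff.mp hs
    refine Subgroup.mem_zpowers_iff.mpr ⟨i, ?_⟩
    rw [← map_zpow]
    congr 1
    apply Subtype.ext
    rw [Subgroup.coe_zpow]
    exact hi
  have hg1 : g ≠ 1 := by
    intro h
    apply hσ1
    rw [← orderOf_eq_one_iff, ← hord, h, orderOf_one]
  obtain ⟨P, t, hPS, hPprime, hcop, hfrob⟩ := lr_cheb_cyclic ↥F' Ω g hgen hg1 (by rw [hord]; exact hσ)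
    {P : HeightOneSpectrum (𝓞 ↥F') | Ideal.absNorm P.asIdeal ∈ S} (lr_finite_absNorm_mem ↥F' S hS)
  obtain ⟨𝔏, h𝔏, h𝔏P⟩ := frob_exists_prime_over ↥F' Ω P
  have h1 := (frob_isFrob_iff ↥F' Ω P (g ^ t)).mp hfrob 𝔏 h𝔏 h𝔏P
  refine ⟨Ideal.absNorm P.asIdeal, 𝔏, t, hPprime, hPS, h𝔏, ?_, by rw [← hord]; exact hcop, ?_⟩
  · have h2 : ((Ideal.absNorm P.asIdeal : ℕ) : 𝓞 ↥F') ∈ 𝔏.comap (algebraMap (𝓞 ↥F') (𝓞 Ω)) := by
      rw [h𝔏P]
      exact Ideal.absNorm_mem P.asIdeal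
    rw [Ideal.mem_comap, map_natCast] at h2
    exact h2
  · intro x
    have h3 := h1 x
    convert h3 using 2
    apply NumberField.RingOfIntegers.ext
    exact (hgpow t (x : Ω)).symm

end LR
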