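import Mathlib
import Fermat.Prelude.Def_ModularCurve_PeriodMap

/-!
# S41 (level raising), foundations: coset systems and the operators they induce on characters

`LR.X M A` is the group of additive characters `Γ₀(M) → A`.  A *coset system* of level `M` is a
family of integer matrices `A i` of nonzero determinant, pairwise inequivalent under left
multiplication by `Γ₀(M)`, such that `A i * γ = coc γ i * A (perm γ i)` for all `γ ∈ Γ₀(M)`.
It induces the operator `(op χ)(γ) = ∑ i, χ (coc γ i)` on characters (a Hecke operator).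
The value of `op` can be computed from ANY coset data for the same cosets (`op_apply_of_data`).
-/

set_option autoImplicit false

namespace LR

open CongruenceSubgroup
open scoped MatrixGroups

/-- additive characters of `Γ₀(M)` with values in `A` -/
abbrev X (M : ℕ) (A : Type*) [AddCommGroup A] : Type _ := Additive (Gamma0 M) →+ A

/-- the integer matrix of an element of `Γ₀(M)` -/
def mat {M : ℕ} (γ : Gamma0 M) : Matrix (Fin 2) (Fin 2) ℤ :=
  ((γ : SL(2, ℤ)) : Matrix (Fin 2) (Fin 2) ℤ)

theorem mat_mul {M : ℕ} (γ γ' : Gamma0 M) : mat (γ * γ') = mat γ * mat γ' := rfl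

theorem mat_one {M : ℕ} : mat (1 : Gamma0 M) = 1 := rfl

theorem mat_injective {M : ℕ} : Function.Injective (mat : Gamma0 M → Matrix (Fin 2) (Fin 2) ℤ) := by
  intro γ γ' h
  exact Subtype.ext (Subtype.ext h)

theorem mat_det {M : ℕ} (γ : Gamma0 M) : (mat γ).det = 1 := (γ : SL(2, ℤ)).2

theorem mat_dvd {M : ℕ} (γ : Gamma0 M) : (M : ℤ) ∣ mat γ 1 0 :=
  (ZMod.intCast_zmod_eq_zero_iff_dvd _ _).mp (Gamma0_mem.mp γ.2)

/-- an element of `Γ₀(M)` from an integer matrix -/
def mk {M : ℕ} (B : Matrix (Fin 2) (Fin 2) ℤ) (hdet : B.det = 1) (hdvd : (M : ℤ) ∣ B 1 0) :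
    Gamma0 M :=
  ⟨⟨B, hdet⟩, Gamma0_mem.mpr ((ZMod.intCast_zmod_eq_zero_iff_dvd _ _).mpr hdvd)⟩

@[simp] theorem mat_mk {M : ℕ} (B : Matrix (Fin 2) (Fin 2) ℤ) (hdet : B.det = 1)
    (hdvd : (M : ℤ) ∣ B 1 0) : mat (mk (M := M) B hdet hdvd) = B := rfl

/-- right cancellation of an integer matrix of nonzero determinant -/
theorem mul_right_cancel_of_det_ne {Y Z D : Matrix (Fin 2) (Fin 2) ℤ} (hD : D.det ≠ 0)
    (h : Y * D = Z * D) : Y = Z := by
  have h1 : D.det • Y = D.det • Z := by
    have := congrArg (fun W => W * D.adjugate) h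
    simp only [Matrix.mul_assoc, Matrix.mul_adjugate, Matrix.mul_smul, Matrix.mul_one] at this
    exact this
  ext i j
  have h2 := congrFun (congrFun h1 i) j
  simp only [Matrix.smul_apply, smul_eq_mul] at h2
  exact mul_left_cancel₀ hD h2

/-- left cancellation of an integer matrix of nonzero determinant -/
theorem mul_left_cancel_of_det_ne {Y Z D : Matrix (Fin 2) (Fin 2) ℤ} (hD : D.det ≠ 0)
    (h : D * Y = D * Z) : Y = Z := by
  have h1 : D.det • Y = D.det • Z := by
    have := congrArg (fun W => D.adjugate * W) h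
    simp only [← Matrix.mul_assoc, Matrix.adjugate_mul, Matrix.smul_mul, Matrix.one_mul] at this
    exact this
  ext i j
  have h2 := congrFun (congrFun h1 i) j
  simp only [Matrix.smul_apply, smul_eq_mul] at h2
  exact mul_left_cancel₀ hD h2

/-- A coset system of level `M`. -/
structure CosetSys (M : ℕ) (ι : Type) where
  /-- the representatives -/
  A : ι → Matrix (Fin 2) (Fin 2) ℤ
  det_ne : ∀ i, (A i).det ≠ 0
  /-- the permutation of the cosets induced by right multiplication -/
  perm : Gamma0 M → ι → ι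
  /-- the cocycle -/
  coc : Gamma0 M → ι → Gamma0 M
  mul : ∀ γ i, A i * mat γ = mat (coc γ i) * A (perm γ i)
  uniq : ∀ i j (t : Gamma0 M), mat t * A i = A j → i = j

namespace CosetSys

variable {M : ℕ} {ι : Type} (S : CosetSys M ι)

theorem cancel {i j : ι} {t t' : Gamma0 M} (h : mat t * S.A i = mat t' * S.A j) :
    i = j ∧ t = t' := by
  have h1 : mat (t'⁻¹ * t) * S.A i = S.A j := by
    rw [mat_mul, Matrix.mul_assoc, h, ← Matrix.mul_assoc, ← mat_mul, inv_mul_cancel, mat_one,
      Matrix.one_mul]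
  have hij := S.uniq i j _ h1
  subst hij
  exact ⟨rfl, mat_injective (mul_right_cancel_of_det_ne (S.det_ne i) h)⟩

theorem perm_coc_mul (γ γ' : Gamma0 M) (i : ι) :
    S.perm (γ * γ') i = S.perm γ' (S.perm γ i) ∧
      S.coc (γ * γ') i = S.coc γ i * S.coc γ' (S.perm γ i) := by
  have h1 := S.mul (γ * γ') i
  have h2 : S.A i * mat (γ * γ') =
      mat (S.coc γ i * S.coc γ' (S.perm γ i)) * S.A (S.perm γ' (S.perm γ i)) := by
    rw [mat_mul, ← Matrix.mul_assoc, S.mul γ i, Matrix.mul_assoc, S.mul γ' _, ← Matrix.mul_assoc,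
      ← mat_mul]
  exact S.cancel (h1.symm.trans h2)

theorem perm_mul (γ γ' : Gamma0 M) (i : ι) : S.perm (γ * γ') i = S.perm γ' (S.perm γ i) :=
  (S.perm_coc_mul γ γ' i).1

theorem coc_mul (γ γ' : Gamma0 M) (i : ι) :
    S.coc (γ * γ') i = S.coc γ i * S.coc γ' (S.perm γ i) :=
  (S.perm_coc_mul γ γ' i).2

theorem perm_coc_one (i : ι) : S.perm 1 i = i ∧ S.coc 1 i = 1 := by
  have h1 := S.mul 1 i
  rw [mat_one, Matrix.mul_one] at h1
  have h2 : mat (1 : Gamma0 M) * S.A i = mat (S.coc 1 i) * S.A (S.perm 1 i) := by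
    rw [mat_one, Matrix.one_mul]; exact h1
  have := S.cancel h2
  exact ⟨this.1.symm, this.2.symm⟩

theorem perm_one (i : ι) : S.perm 1 i = i := (S.perm_coc_one i).1

theorem coc_one (i : ι) : S.coc 1 i = 1 := (S.perm_coc_one i).2

/-- the permutation of the index set induced by `γ` -/
def permEquiv (γ : Gamma0 M) : Equiv.Perm ι where
  toFun := S.perm γ
  invFun := S.perm γ⁻¹
  left_inv i := by rw [← S.perm_mul, mul_inv_cancel, S.perm_one]
  right_inv i := by rw [← S.perm_mul, inv_mul_cancel, S.perm_one]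

@[simp] theorem permEquiv_apply (γ : Gamma0 M) (i : ι) : S.permEquiv γ i = S.perm γ i := rfl

theorem perm_pow (γ : Gamma0 M) (n : ℕ) (i : ι) : S.perm (γ ^ n) i = (S.perm γ)^[n] i := by
  induction n generalizing i with
  | zero => simp [S.perm_one]
  | succ n ih => rw [pow_succ', S.perm_mul, ih, Function.iterate_succ_apply]

variable [Fintype ι] {A : Type*} [AddCommGroup A]

/-- the operator on characters induced by a coset system: `(op χ)(γ) = ∑ i, χ (coc γ i)` -/
def op : X M A →+ X M A where
  toFun χ :=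
    { toFun := fun γ => ∑ i, χ (Additive.ofMul (S.coc (Additive.toMul γ) i))
      map_zero' := by
        show ∑ i, χ (Additive.ofMul (S.coc 1 i)) = 0
        simp [S.coc_one]
      map_add' := by
        intro γ γ'
        show ∑ i, χ (Additive.ofMul (S.coc (Additive.toMul γ * Additive.toMul γ') i)) = _
        have h : ∀ i, χ (Additive.ofMul (S.coc (Additive.toMul γ * Additive.toMul γ') i)) =
            χ (Additive.ofMul (S.coc (Additive.toMul γ) i)) +
              χ (Additive.ofMul (S.coc (Additive.toMul γ') (S.permEquiv (Additive.toMul γ) i))) := by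
          intro i
          rw [S.coc_mul, ofMul_mul, map_add]; rfl
        rw [Finset.sum_congr rfl fun i _ => h i, Finset.sum_add_distrib,
          Equiv.sum_comp (S.permEquiv (Additive.toMul γ))
            (fun j => χ (Additive.ofMul (S.coc (Additive.toMul γ') j)))] }
  map_zero' := by
    ext γ
    simp
  map_add' χ χ' := by
    ext γ
    simp [Finset.sum_add_distrib]

theorem op_apply (χ : X M A) (γ : Gamma0 M) :
    S.op χ (Additive.ofMul γ) = ∑ i, χ (Additive.ofMul (S.coc γ i)) := rfl

/-- **coset-data formula**: the operator can be computed from any coset data for the same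
cosets. -/
theorem op_apply_of_data (χ : X M A) (γ : Gamma0 M) {κ : Type} [Fintype κ]
    (B : κ → Matrix (Fin 2) (Fin 2) ℤ) (σ : κ ≃ ι) (t : κ → Gamma0 M)
    (hB : ∀ k, B k = mat (t k) * S.A (σ k)) (π : κ → κ) (g' : κ → Gamma0 M)
    (hmul : ∀ k, B k * mat γ = mat (g' k) * B (π k)) :
    S.op χ (Additive.ofMul γ) = ∑ k, χ (Additive.ofMul (g' k)) := by
  have key : ∀ k, σ (π k) = S.perm γ (σ k) ∧ g' k * t (π k) = t k * S.coc γ (σ k) := by
    intro k
    have h1 : B k * mat γ = mat (t k * S.coc γ (σ k)) * S.A (S.perm γ (σ k)) := by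
      rw [hB k, Matrix.mul_assoc, S.mul, ← Matrix.mul_assoc, ← mat_mul]
    have h2 : B k * mat γ = mat (g' k * t (π k)) * S.A (σ (π k)) := by
      rw [hmul k, hB (π k), ← Matrix.mul_assoc, ← mat_mul]
    have := S.cancel (h2.symm.trans h1)
    exact ⟨this.1, this.2⟩
  have hπ : π = fun k => σ.symm (S.permEquiv γ (σ k)) := by
    funext k
    rw [permEquiv_apply, ← (key k).1, Equiv.symm_apply_apply]
  let πe : Equiv.Perm κ := (σ.trans (S.permEquiv γ)).trans σ.symm
  have hπe : ∀ k, πe k = π k := by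
    intro k
    rw [hπ]; rfl
  have hval : ∀ k, χ (Additive.ofMul (g' k)) =
      χ (Additive.ofMul (t k)) + χ (Additive.ofMul (S.coc γ (σ k))) -
        χ (Additive.ofMul (t (πe k))) := by
    intro k
    have h := congrArg (fun g => χ (Additive.ofMul g)) (key k).2
    simp only [ofMul_mul, map_add] at h
    rw [hπe k, ← h]
    abel
  rw [Finset.sum_congr rfl fun k _ => hval k, Finset.sum_sub_distrib, Finset.sum_add_distrib,
    Equiv.sum_comp πe (fun k => χ (Additive.ofMul (t k))), add_sub_cancel_left, op_apply,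
    Equiv.sum_comp σ (fun i => χ (Additive.ofMul (S.coc γ i)))]

/-- two coset systems for the same cosets induce the same operator -/
theorem op_eq_of_equiv {κ : Type} [Fintype κ] (S' : CosetSys M κ) (σ : κ ≃ ι)
    (t : κ → Gamma0 M) (hB : ∀ k, S'.A k = mat (t k) * S.A (σ k)) :
    (S.op : X M A →+ X M A) = S'.op := by
  ext χ γ
  exact S.op_apply_of_data χ (Additive.toMul γ) S'.A σ t hB _ _ (fun k => S'.mul _ k)

/-- naturality in the coefficient group -/
theorem op_comp {A' : Type*} [AddCommGroup A'] (φ : A →+ A') (χ : X M A) :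
    S.op (φ.comp χ) = φ.comp (S.op χ) := by
  ext γ
  show ∑ i, φ (χ _) = φ (∑ i, χ _)
  rw [map_sum]

end CosetSys

end LR
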