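import Mathlib

set_option autoImplicit false
set_option linter.style.haveILetI false

/-!
# The presentation `PSL(2,ℤ) = C₂ * C₃` (universal property form) and primitives of closed
1-cochains on the Cayley complex of `SL(2,ℤ)`.
-/

open scoped MatrixGroups Pointwise
open ModularGroup UpperHalfPlane

namespace LR

/-- hom out of a cyclic group -/
noncomputable def lrCyc {H : Type*} [Group H] (n : ℕ) (a : H) (ha : a ^ n = 1) :
    Multiplicative (ZMod n) →* H :=
  AddMonoidHom.toMultiplicativeLeft (ZMod.lift n ⟨zmultiplesHom (Additive H) (Additive.ofMul a), by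
    show (n : ℤ) • Additive.ofMul a = 0
    rw [natCast_zsmul, ← ofMul_pow, ha]; rfl⟩)

theorem lrCyc_apply {H : Type*} [Group H] (n : ℕ) (a : H) (ha : a ^ n = 1) (k : ℤ) :
    lrCyc n a ha (Multiplicative.ofAdd (k : ZMod n)) = a ^ k := by
  show Additive.toMul (ZMod.lift n _ (k : ZMod n)) = a ^ k
  rw [ZMod.lift_coe]
  show Additive.toMul (k • Additive.ofMul a) = a ^ k
  rw [← ofMul_zpow]; rfl

theorem lrCyc_exists_val (n : ℕ) [NeZero n] (h : Multiplicative (ZMod n)) :
    ∃ v : ℕ, v < n ∧ h = Multiplicative.ofAdd (((v : ℤ)) : ZMod n) := by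
  refine ⟨(Multiplicative.toAdd h).val, ZMod.val_lt _, ?_⟩
  rw [Int.cast_natCast, ZMod.natCast_zmod_val]
  rfl

theorem lr_SS : (S * S : SL(2,ℤ)) = -1 := by
  apply Subtype.ext
  rw [Matrix.SpecialLinearGroup.coe_mul, ModularGroup.S_mul_S_eq]
  simp

theorem lr_U3 : ((S * T) * ((S * T) * (S * T)) : SL(2,ℤ)) = -1 := by
  apply Subtype.ext
  simp only [Matrix.SpecialLinearGroup.coe_mul, ModularGroup.coe_S, ModularGroup.coe_T,
    Matrix.SpecialLinearGroup.coe_neg, Matrix.SpecialLinearGroup.coe_one]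
  ext i j
  fin_cases i <;> fin_cases j <;> simp [Matrix.mul_apply, Fin.sum_univ_two]

/-- the action of `S` on the upper half plane -/
noncomputable def lrσ : Equiv.Perm ℍ := MulAction.toPerm (S : SL(2,ℤ))
/-- the action of `S * T` on the upper half plane -/
noncomputable def lrυ : Equiv.Perm ℍ := MulAction.toPerm (S * T : SL(2,ℤ))

theorem lrσ_apply (z : ℍ) : lrσ z = S • z := rfl
theorem lrυ_apply (z : ℍ) : lrυ z = (S * T) • z := rfl

theorem lrσ_sq : lrσ ^ 2 = 1 := by
  ext1 z
  rw [pow_two]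
  show S • S • z = z
  rw [← mul_smul, lr_SS, SL_neg_smul, one_smul]

theorem lrυ_cube : lrυ ^ 3 = 1 := by
  ext1 z
  rw [pow_succ, pow_two]
  show (S * T) • (S * T) • (S * T) • z = z
  rw [← mul_smul, ← mul_smul, mul_assoc (S * T) (S * T) (S * T), lr_U3, SL_neg_smul, one_smul]

theorem lr_re_S (z : ℍ) : (S • z).re = - z.re / Complex.normSq (z : ℂ) := by
  rw [modular_S_smul]
  show ((-(z : ℂ))⁻¹).re = _
  rw [Complex.inv_re]
  simp

theorem lr_normSq_pos (z : ℍ) : 0 < Complex.normSq (z : ℂ) :=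
  Complex.normSq_pos.mpr z.ne_zero

theorem lr_re_S_pos {z : ℍ} (hz : z.re < 0) : 0 < (S • z).re := by
  rw [lr_re_S]
  exact div_pos (by linarith) (lr_normSq_pos z)

theorem lr_re_S_neg {z : ℍ} (hz : 0 < z.re) : (S • z).re < 0 := by
  rw [lr_re_S]
  exact div_neg_of_neg_of_pos (by linarith) (lr_normSq_pos z)

theorem lr_re_U_neg {z : ℍ} (hz : 0 < z.re) : ((S * T) • z).re < 0 := by
  rw [mul_smul]
  apply lr_re_S_neg
  rw [ModularGroup.re_T_smul]
  linarith

theorem lr_re_Uinv_neg {z : ℍ} (hz : 0 < z.re) : ((S * T)⁻¹ • z).re < 0 := by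
  rw [mul_inv_rev, mul_smul, ModularGroup.re_T_inv_smul, ModularGroup.S_inv, SL_neg_smul]
  have := lr_re_S_neg hz
  linarith

/-- the two cyclic factors -/
abbrev lrFam : Bool → Type := fun b => Multiplicative (ZMod (bif b then 3 else 2))

/-- the two cyclic subgroups of `Perm ℍ` -/
noncomputable def lrf : ∀ b : Bool, lrFam b →* Equiv.Perm ℍ := fun b =>
  match b with
  | false => lrCyc 2 lrσ lrσ_sq
  | true => lrCyc 3 lrυ lrυ_cube

/-- the ping-pong sets -/
def lrV : Bool → Set ℍ := fun b => if b then {z | z.re < 0} else {z | 0 < z.re}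

theorem lrυ_sq_apply (z : ℍ) : (lrυ ^ 2) z = (S * T)⁻¹ • z := by
  have h : lrυ ^ 2 = lrυ⁻¹ := by
    rw [eq_inv_iff_mul_eq_one, ← pow_succ]
    exact lrυ_cube
  rw [h]
  rfl

theorem lr_pp : Pairwise fun i j => ∀ h : lrFam i, h ≠ 1 → lrf i h • lrV j ⊆ lrV i := by
  intro i j hij h hh w hw
  obtain ⟨z, hz, rfl⟩ := hw
  match i, j, hij, h, hh, hz with
  | false, false, hij, _, _, _ => exact absurd rfl hij
  | true, true, hij, _, _, _ => exact absurd rfl hij
  | false, true, _, h, hh, hz =>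
    obtain ⟨v, hv, rfl⟩ := lrCyc_exists_val 2 h
    have hz' : z.re < 0 := hz
    show 0 < ((lrCyc 2 lrσ lrσ_sq (Multiplicative.ofAdd ((v : ℤ) : ZMod 2))) z).re
    rw [lrCyc_apply]
    interval_cases v
    · exact absurd rfl hh
    · simp only [Nat.cast_one, zpow_one]
      exact lr_re_S_pos hz'
  | true, false, _, h, hh, hz =>
    obtain ⟨v, hv, rfl⟩ := lrCyc_exists_val 3 h
    have hz' : 0 < z.re := hz
    show ((lrCyc 3 lrυ lrυ_cube (Multiplicative.ofAdd ((v : ℤ) : ZMod 3))) z).re < 0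
    rw [lrCyc_apply]
    interval_cases v
    · exact absurd rfl hh
    · simp only [Nat.cast_one, zpow_one]
      exact lr_re_U_neg hz'
    · have : (lrυ ^ ((2 : ℕ) : ℤ)) z = (lrυ ^ 2) z := by rw [zpow_natCast]
      rw [this, lrυ_sq_apply]
      exact lr_re_Uinv_neg hz'

theorem lr_coprod_inj : Function.Injective (Monoid.CoprodI.lift lrf) := by
  refine Monoid.CoprodI.lift_injective_of_ping_pong lrf (Or.inr ⟨true, ?_⟩) lrV ?_ ?_ lr_pp
  · show (3 : Cardinal) ≤ Cardinal.mk (Multiplicative (ZMod 3))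
    rw [Cardinal.mk_fintype, Fintype.card_multiplicative, ZMod.card]
    norm_num
  · intro i
    cases i
    · refine ⟨T • UpperHalfPlane.I, ?_⟩
      show 0 < (T • UpperHalfPlane.I).re
      rw [ModularGroup.re_T_smul]
      simp
    · refine ⟨T⁻¹ • UpperHalfPlane.I, ?_⟩
      show (T⁻¹ • UpperHalfPlane.I).re < 0
      rw [ModularGroup.re_T_inv_smul]
      simp
  · intro i j hij
    rw [Function.onFun, Set.disjoint_left]
    intro z hi hj
    match i, j, hij, hi, hj with
    | false, false, hij, _, _ => exact hij rfl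
    | true, true, hij, _, _ => exact hij rfl
    | false, true, _, hi, hj =>
      have h1 : 0 < z.re := hi
      have h2 : z.re < 0 := hj
      linarith
    | true, false, _, hi, hj =>
      have h1 : z.re < 0 := hi
      have h2 : 0 < z.re := hj
      linarith

/-- the action of `SL(2,ℤ)` on `ℍ` as a homomorphism to permutations -/
noncomputable def lrρ : SL(2,ℤ) →* Equiv.Perm ℍ := MulAction.toPermHom SL(2,ℤ) ℍ

theorem lr_closure_SU : Subgroup.closure ({S, S * T} : Set SL(2,ℤ)) = ⊤ := by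
  rw [eq_top_iff, ← SpecialLinearGroup.SL2Z_generators, Subgroup.closure_le]
  intro g hg
  rcases hg with rfl | rfl
  · exact Subgroup.subset_closure (by simp)
  · have h1 : (S : SL(2,ℤ)) ∈ Subgroup.closure ({S, S * T} : Set SL(2,ℤ)) :=
      Subgroup.subset_closure (by simp)
    have h2 : (S * T : SL(2,ℤ)) ∈ Subgroup.closure ({S, S * T} : Set SL(2,ℤ)) :=
      Subgroup.subset_closure (by simp)
    have hT := Subgroup.mul_mem _ (Subgroup.inv_mem _ h1) h2
    rwa [inv_mul_cancel_left] at hT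

theorem lrρ_mem_range (g : SL(2,ℤ)) : lrρ g ∈ (Monoid.CoprodI.lift lrf).range := by
  have hg : g ∈ Subgroup.closure ({S, S * T} : Set SL(2,ℤ)) := by
    rw [lr_closure_SU]; trivial
  have hle : Subgroup.closure ({S, S * T} : Set SL(2,ℤ)) ≤
      (Monoid.CoprodI.lift lrf).range.comap lrρ := by
    rw [Subgroup.closure_le]
    intro g hg
    rcases hg with rfl | rfl
    · refine ⟨Monoid.CoprodI.of (i := false) (Multiplicative.ofAdd (((1 : ℤ)) : ZMod 2)), ?_⟩
      rw [Monoid.CoprodI.lift_of]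
      show lrCyc 2 lrσ lrσ_sq _ = _
      rw [lrCyc_apply, zpow_one]
      rfl
    · refine ⟨Monoid.CoprodI.of (i := true) (Multiplicative.ofAdd (((1 : ℤ)) : ZMod 3)), ?_⟩
      rw [Monoid.CoprodI.lift_of]
      show lrCyc 3 lrυ lrυ_cube _ = _
      rw [lrCyc_apply, zpow_one]
      rfl
  exact hle hg

/-- the inverse of the ping-pong isomorphism, composed with the action map -/
noncomputable def lrΦ : SL(2,ℤ) →* Monoid.CoprodI lrFam :=
  (MonoidHom.ofInjective lr_coprod_inj).symm.toMonoidHom.comp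
    (lrρ.codRestrict (Monoid.CoprodI.lift lrf).range lrρ_mem_range)

theorem lrΦ_S : lrΦ S =
    Monoid.CoprodI.of (i := false) (Multiplicative.ofAdd (((1 : ℤ)) : ZMod 2)) := by
  show (MonoidHom.ofInjective lr_coprod_inj).symm _ = _
  rw [MulEquiv.symm_apply_eq]
  apply Subtype.ext
  rw [MonoidHom.ofInjective_apply, Monoid.CoprodI.lift_of]
  show _ = lrCyc 2 lrσ lrσ_sq _
  rw [lrCyc_apply, zpow_one]
  rfl

theorem lrΦ_U : lrΦ (S * T) =
    Monoid.CoprodI.of (i := true) (Multiplicative.ofAdd (((1 : ℤ)) : ZMod 3)) := by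
  show (MonoidHom.ofInjective lr_coprod_inj).symm _ = _
  rw [MulEquiv.symm_apply_eq]
  apply Subtype.ext
  rw [MonoidHom.ofInjective_apply, Monoid.CoprodI.lift_of]
  show _ = lrCyc 3 lrυ lrυ_cube _
  rw [lrCyc_apply, zpow_one]
  rfl

/-- **Presentation of `PSL(2,ℤ)`** in universal-property form: any two elements `σ`, `υ` of a
group with `σ² = 1` and `υ³ = 1` are the images of `S` and `S * T` under a homomorphism from
`SL(2,ℤ)`. -/
theorem lr_sl2_pres {H : Type*} [Group H] (σ υ : H) (hσ : σ ^ 2 = 1) (hυ : υ ^ 3 = 1) :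
    ∃ Ψ : SL(2,ℤ) →* H, Ψ S = σ ∧ Ψ (S * T) = υ := by
  let k : ∀ b : Bool, lrFam b →* H := fun b =>
    match b with
    | false => lrCyc 2 σ hσ
    | true => lrCyc 3 υ hυ
  refine ⟨(Monoid.CoprodI.lift k).comp lrΦ, ?_, ?_⟩
  · rw [MonoidHom.comp_apply, lrΦ_S, Monoid.CoprodI.lift_of]
    show lrCyc 2 σ hσ _ = _
    rw [lrCyc_apply, zpow_one]
  · rw [MonoidHom.comp_apply, lrΦ_U, Monoid.CoprodI.lift_of]
    show lrCyc 3 υ hυ _ = _
    rw [lrCyc_apply, zpow_one]

/-! ### Primitives of closed 1-cochains -/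

theorem lr_center {z : SL(2,ℤ)} (hz : z ∈ Subgroup.center SL(2,ℤ)) : z = 1 ∨ z = -1 := by
  rw [Matrix.SpecialLinearGroup.mem_center_iff] at hz
  obtain ⟨r, hr, hrz⟩ := hz
  have hu : IsUnit r := IsUnit.of_pow_eq_one hr (by simp)
  rcases Int.isUnit_iff.mp hu with h | h
  · left
    apply Subtype.ext
    rw [← hrz, h]
    simp
  · right
    apply Subtype.ext
    rw [← hrz, h]
    simp

theorem lr_neg_one_mem_center : (-1 : SL(2,ℤ)) ∈ Subgroup.center SL(2,ℤ) := by
  rw [Subgroup.mem_center_iff]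
  intro g
  simp

/-- `PSL(2,ℤ)` as a quotient -/
abbrev lrPG : Type := SL(2,ℤ) ⧸ Subgroup.center SL(2,ℤ)

theorem lr_mk_neg (g : SL(2,ℤ)) : (QuotientGroup.mk (-g) : lrPG) = QuotientGroup.mk g := by
  rw [eq_comm, QuotientGroup.eq]
  have : g⁻¹ * -g = -1 := by simp
  rw [this]
  exact lr_neg_one_mem_center

theorem lr_even_out {A : Type*} (I : SL(2,ℤ) → A) (hI : ∀ g, I (-g) = I g) (g : SL(2,ℤ)) :
    I (QuotientGroup.mk g : lrPG).out = I g := by
  obtain ⟨h, hh⟩ := QuotientGroup.mk_out_eq_mul (Subgroup.center SL(2,ℤ)) g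
  rw [hh]
  rcases lr_center h.2 with h1 | h1
  · rw [h1, mul_one]
  · rw [h1, mul_neg_one, hI]

section Primitive

variable {A : Type*} [AddCommGroup A]

/-- **Primitive of a closed 1-cochain on the Cayley complex of `PSL(2,ℤ)`**: prescribed
increments `IS` along `S` and `IU` along `S * T` (even functions on `SL(2,ℤ)`), closed on the
`S`-digons and the `ST`-triangles, are the increments of a function `C`. -/
theorem lr_primitive (IS IU : SL(2,ℤ) → A) (hSn : ∀ g, IS (-g) = IS g)
    (hUn : ∀ g, IU (-g) = IU g) (hS : ∀ g, IS (S * g) + IS g = 0)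
    (hU : ∀ g, IU (S * T * (S * T * g)) + IU (S * T * g) + IU g = 0) :
    ∃ C : SL(2,ℤ) → A, (∀ g, C (S * g) = C g + IS g) ∧ (∀ g, C (S * T * g) = C g + IU g) ∧
      ∀ g, C (-g) = C g := by
  classical
  -- the two twisted translations of `PSL(2,ℤ) × A`
  let sT : lrPG × A → lrPG × A := fun p => ((QuotientGroup.mk S : lrPG) * p.1, p.2 + IS p.1.out)
  let uT : lrPG × A → lrPG × A :=
    fun p => ((QuotientGroup.mk (S * T) : lrPG) * p.1, p.2 + IU p.1.out)
  have hsT : Function.Involutive sT := by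
    rintro ⟨x, r⟩
    induction x using QuotientGroup.induction_on with
    | H g =>
      show ((QuotientGroup.mk S : lrPG) * ((QuotientGroup.mk S : lrPG) * QuotientGroup.mk g),
        r + IS (QuotientGroup.mk g : lrPG).out +
          IS ((QuotientGroup.mk S : lrPG) * QuotientGroup.mk g).out) = (QuotientGroup.mk g, r)
      rw [← QuotientGroup.mk_mul, ← QuotientGroup.mk_mul, lr_even_out IS hSn, lr_even_out IS hSn,
        ← mul_assoc, lr_SS, neg_one_mul, lr_mk_neg, add_assoc, add_comm (IS g), hS, add_zero]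
  have huT : ∀ p, uT (uT (uT p)) = p := by
    rintro ⟨x, r⟩
    induction x using QuotientGroup.induction_on with
    | H g =>
      show ((QuotientGroup.mk (S * T) : lrPG) * ((QuotientGroup.mk (S * T) : lrPG) *
          ((QuotientGroup.mk (S * T) : lrPG) * QuotientGroup.mk g)),
        r + IU (QuotientGroup.mk g : lrPG).out +
          IU ((QuotientGroup.mk (S * T) : lrPG) * QuotientGroup.mk g).out +
          IU ((QuotientGroup.mk (S * T) : lrPG) *
            ((QuotientGroup.mk (S * T) : lrPG) * QuotientGroup.mk g)).out)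
          = (QuotientGroup.mk g, r)
      rw [← QuotientGroup.mk_mul, ← QuotientGroup.mk_mul, ← QuotientGroup.mk_mul,
        lr_even_out IU hUn, lr_even_out IU hUn, lr_even_out IU hUn]
      have h3 : S * T * (S * T * (S * T * g)) = -g := by
        rw [← mul_assoc, ← mul_assoc, mul_assoc (S * T) (S * T) (S * T), lr_U3, neg_one_mul]
      rw [h3, lr_mk_neg]
      have := hU g
      congr 1
      have e : r + IU g + IU (S * T * g) + IU (S * T * (S * T * g))
          = r + (IU (S * T * (S * T * g)) + IU (S * T * g) + IU g) := by abel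
      rw [e, this, add_zero]
  let σ' : Equiv.Perm (lrPG × A) := hsT.toPerm sT
  let υ' : Equiv.Perm (lrPG × A) := ⟨uT, uT ∘ uT, fun p => huT p, fun p => huT p⟩
  have hσ' : σ' ^ 2 = 1 := by
    ext1 p
    rw [pow_two]
    exact hsT p
  have hυ' : υ' ^ 3 = 1 := by
    ext1 p
    rw [pow_succ, pow_two]
    exact huT p
  obtain ⟨Ψ, hΨS, hΨU⟩ := lr_sl2_pres σ' υ' hσ' hυ'
  have key : ∀ g : SL(2,ℤ), ∀ p : lrPG × A, (Ψ g p).1 = (QuotientGroup.mk g : lrPG) * p.1 := by
    intro g
    have hg : g ∈ Subgroup.closure ({S, S * T} : Set SL(2,ℤ)) := by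
      rw [lr_closure_SU]; trivial
    induction hg using Subgroup.closure_induction with
    | mem x hx =>
      rcases hx with rfl | rfl
      · intro p; rw [hΨS]; rfl
      · intro p; rw [hΨU]; rfl
    | one => intro p; simp
    | mul x y _ _ hx hy =>
      intro p
      rw [map_mul, Equiv.Perm.mul_apply, hx, hy, QuotientGroup.mk_mul, mul_assoc]
    | inv x _ hx =>
      intro p
      have := hx ((Ψ x).symm p)
      rw [Equiv.apply_symm_apply] at this
      rw [map_inv, QuotientGroup.mk_inv, eq_inv_mul_iff_mul_eq]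
      exact this.symm
  refine ⟨fun g => (Ψ g (1, 0)).2, fun g => ?_, fun g => ?_, fun g => ?_⟩
  · show (Ψ (S * g) (1, 0)).2 = (Ψ g (1, 0)).2 + IS g
    rw [map_mul, Equiv.Perm.mul_apply, hΨS]
    show (Ψ g (1, 0)).2 + IS (Ψ g (1, 0)).1.out = _
    rw [key g (1, 0), mul_one, lr_even_out IS hSn]
  · show (Ψ (S * T * g) (1, 0)).2 = (Ψ g (1, 0)).2 + IU g
    rw [map_mul, Equiv.Perm.mul_apply, hΨU]
    show (Ψ g (1, 0)).2 + IU (Ψ g (1, 0)).1.out = _
    rw [key g (1, 0), mul_one, lr_even_out IU hUn]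
  · show (Ψ (-g) (1, 0)).2 = (Ψ g (1, 0)).2
    have h : -g = S * S * g := by rw [lr_SS, neg_one_mul]
    rw [h, map_mul, map_mul, hΨS, ← pow_two, hσ', one_mul]

end Primitive

end LR
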