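import Mathlib
import Fermat.Agent.Lib.LR_SL2Pres

set_option autoImplicit false
set_option linter.style.haveILetI false
set_option linter.unusedSectionVars false

/-!
# Heisenberg cochains and the cusp-sum formula for the cup product pairing (S41, stream S2, (E))
-/

open scoped MatrixGroups
open ModularGroup

namespace LR

/-- a function on `SL(2,ℤ)` that is constant along left multiplication by `S` and `S * T` is
constant -/
theorem lr_const_of_SU {α : Type*} (f : SL(2,ℤ) → α) (hS : ∀ g, f (S * g) = f g)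
    (hU : ∀ g, f (S * T * g) = f g) (g : SL(2,ℤ)) : f g = f 1 := by
  have key : ∀ h : SL(2,ℤ), ∀ g, f (h * g) = f g := by
    intro h
    have hh : h ∈ Subgroup.closure ({S, S * T} : Set SL(2,ℤ)) := by
      rw [lr_closure_SU]; trivial
    induction hh using Subgroup.closure_induction with
    | mem x hx =>
      rcases hx with rfl | rfl
      · exact hS
      · exact hU
    | one => intro g; rw [one_mul]
    | mul x y _ _ hx hy => intro g; rw [mul_assoc, hx, hy]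
    | inv x _ hx => intro g; rw [← hx (x⁻¹ * g), mul_inv_cancel_left]
  have := key g 1
  rwa [mul_one] at this

section Sum

variable (Γ : Subgroup SL(2,ℤ)) [Fintype (SL(2,ℤ) ⧸ Γ)]

/-- reindexing a sum over cosets by a left translation -/
theorem lr_sum_mul_left {f : SL(2,ℤ) → ℤ} (hf : ∀ (g : SL(2,ℤ)) (γ : Γ), f (g * γ) = f g)
    (h : SL(2,ℤ)) :
    ∑ x : SL(2,ℤ) ⧸ Γ, f (h * x.out) = ∑ x : SL(2,ℤ) ⧸ Γ, f x.out := by
  rw [← Equiv.sum_comp (MulAction.toPerm h : Equiv.Perm (SL(2,ℤ) ⧸ Γ)) (fun x => f x.out)]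
  refine Finset.sum_congr rfl fun x _ => ?_
  show f (h * x.out) = f ((h • x).out)
  have hx : h • x = QuotientGroup.mk (h * x.out) := by
    conv_lhs => rw [← QuotientGroup.out_eq' x]
    rfl
  obtain ⟨γ, hγ⟩ := QuotientGroup.mk_out_eq_mul Γ (h * x.out)
  rw [hx, hγ, hf]

end Sum

section Lift

variable {Γ : Subgroup SL(2,ℤ)} (hneg : (-1 : SL(2,ℤ)) ∈ Γ)
variable {χ : Additive Γ →+ ℤ} {F : SL(2,ℤ) → ℤ}
variable (hF : ∀ (g : SL(2,ℤ)) (γ : Γ), F (g * γ) = F g + χ (Additive.ofMul γ))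

include hneg in
theorem lr_char_neg_one (χ : Additive Γ →+ ℤ) : χ (Additive.ofMul ⟨-1, hneg⟩) = 0 := by
  have h2 : χ (Additive.ofMul (⟨-1, hneg⟩ : Γ)) + χ (Additive.ofMul (⟨-1, hneg⟩ : Γ)) = 0 := by
    rw [← map_add, ← ofMul_mul]
    have : (⟨-1, hneg⟩ : Γ) * ⟨-1, hneg⟩ = 1 := Subtype.ext (by simp)
    rw [this]
    simp
  omega

include hneg hF in
theorem lr_lift_neg (g : SL(2,ℤ)) : F (-g) = F g := by
  have h := hF g ⟨-1, hneg⟩
  rw [lr_char_neg_one hneg, add_zero] at h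
  rw [← h]
  simp

include hneg hF in
theorem lr_lift_SS (g : SL(2,ℤ)) : F (S * (S * g)) = F g := by
  rw [← mul_assoc, lr_SS, neg_one_mul, lr_lift_neg hneg hF]

include hneg hF in
theorem lr_lift_U3 (g : SL(2,ℤ)) : F (S * T * (S * T * (S * T * g))) = F g := by
  rw [← mul_assoc, ← mul_assoc, mul_assoc (S * T) (S * T) (S * T), lr_U3, neg_one_mul,
    lr_lift_neg hneg hF]

variable (hT : ∀ g, F (T * g) = F g)

include hT in
theorem lr_lift_Tpow (n : ℕ) (g : SL(2,ℤ)) : F (T ^ n * g) = F g := by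
  induction n with
  | zero => simp
  | succ n ih => rw [pow_succ', mul_assoc, hT, ih]

theorem lr_TUU : (T * (S * T * (S * T)) : SL(2,ℤ)) = S := by
  have h1 : (S * T * (S * T * (S * T)) : SL(2,ℤ)) = -1 := lr_U3
  have h2 : (T * (S * T * (S * T)) : SL(2,ℤ)) = S⁻¹ * (S * T * (S * T * (S * T))) := by group
  rw [h2, h1, ModularGroup.S_inv]
  simp

include hT in
theorem lr_lift_S (g : SL(2,ℤ)) : F (S * g) = F (S * T * (S * T * g)) := by
  have h : S * g = T * (S * T * (S * T * g)) := by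
    rw [← mul_assoc, ← mul_assoc, mul_assoc T (S * T) (S * T), lr_TUU]
  rw [h, hT]

end Lift

/-! ### The Heisenberg potential -/

/-- the `S`-increment of a function -/
def lrHc (F : SL(2,ℤ) → ℤ) (g : SL(2,ℤ)) : ℤ := F (S * g) - F g

/-- the `ST`-increment of a function -/
def lrHb (F : SL(2,ℤ) → ℤ) (g : SL(2,ℤ)) : ℤ := F (S * T * g) - F g

/-- the triangle term -/
def lrHk (Fχ Fψ : SL(2,ℤ) → ℤ) (g : SL(2,ℤ)) : ℤ :=
  lrHb Fχ (S * T * g) * lrHb Fψ g +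
    lrHb Fχ (S * T * (S * T * g)) * (lrHb Fψ g + lrHb Fψ (S * T * g))

/-- the `S`-increment of the Heisenberg potential -/
def lrHIS (Fχ Fψ : SL(2,ℤ) → ℤ) (g : SL(2,ℤ)) : ℤ :=
  3 * lrHc Fχ g * lrHc Fψ g + 6 * lrHc Fχ g * Fψ g

/-- the `ST`-increment of the Heisenberg potential -/
def lrHIU (Fχ Fψ : SL(2,ℤ) → ℤ) (g : SL(2,ℤ)) : ℤ :=
  -2 * lrHk Fχ Fψ g + 6 * lrHb Fχ g * Fψ g

/-- the `T`-increment of the Heisenberg potential -/
def lrHJ (Fχ Fψ : SL(2,ℤ) → ℤ) (g : SL(2,ℤ)) : ℤ :=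
  -2 * lrHk Fχ Fψ g - 3 * lrHb Fχ g * lrHb Fψ g

/-- the local expression of the pairing -/
def lrHL (Fχ Fψ : SL(2,ℤ) → ℤ) (g : SL(2,ℤ)) : ℤ :=
  lrHc Fχ g * lrHc Fψ (S * T * g) - lrHc Fχ (S * T * g) * lrHc Fψ g

section Heis

variable {Γ : Subgroup SL(2,ℤ)} (hneg : (-1 : SL(2,ℤ)) ∈ Γ)
variable {χ ψ : Additive Γ →+ ℤ} {Fχ Fψ : SL(2,ℤ) → ℤ}
variable (hχ : ∀ (g : SL(2,ℤ)) (γ : Γ), Fχ (g * γ) = Fχ g + χ (Additive.ofMul γ))
variable (hψ : ∀ (g : SL(2,ℤ)) (γ : Γ), Fψ (g * γ) = Fψ g + ψ (Additive.ofMul γ))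

include hneg hχ hψ in
theorem lr_heis_Q : ∃ Q : SL(2,ℤ) → ℤ, (∀ g, Q (S * g) = Q g + lrHIS Fχ Fψ g) ∧
    (∀ g, Q (S * T * g) = Q g + lrHIU Fχ Fψ g) ∧ ∀ g, Q (-g) = Q g := by
  apply lr_primitive
  · intro g
    simp only [lrHIS, lrHc, mul_neg, lr_lift_neg hneg hχ, lr_lift_neg hneg hψ]
  · intro g
    simp only [lrHIU, lrHk, lrHb, mul_neg, lr_lift_neg hneg hχ, lr_lift_neg hneg hψ]
  · intro g
    simp only [lrHIS, lrHc, lr_lift_SS hneg hχ, lr_lift_SS hneg hψ]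
    ring
  · intro g
    simp only [lrHIU, lrHk, lrHb, lr_lift_U3 hneg hχ, lr_lift_U3 hneg hψ]
    ring

variable (hχT : ∀ g, Fχ (T * g) = Fχ g) (hψT : ∀ g, Fψ (T * g) = Fψ g)

include hneg hχ hψ hχT hψT in
/-- **Heisenberg cochain**: a 1-cochain `κ` with `δκ = 6·χ ∪ ψ`, whose values on the parabolic
elements `g⁻¹ T^n g` are sums of the local term `lrHJ` along the `T`-orbit. -/
theorem lr_heis_exists : ∃ κ : Γ → ℤ,
    (∀ γ η : Γ, κ (γ * η) = κ γ + κ η + 6 * χ (Additive.ofMul γ) * ψ (Additive.ofMul η)) ∧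
    ∀ (g : SL(2,ℤ)) (n : ℕ) (hg : g⁻¹ * T ^ n * g ∈ Γ),
      κ ⟨g⁻¹ * T ^ n * g, hg⟩ = ∑ i ∈ Finset.range n, lrHJ Fχ Fψ (T ^ i * g) := by
  obtain ⟨Q, hQS, hQU, -⟩ := lr_heis_Q hneg hχ hψ
  have key : ∀ (γ : Γ) (g : SL(2,ℤ)), Q (g * γ) - Q g - 6 * Fχ g * ψ (Additive.ofMul γ)
      = Q γ - Q 1 - 6 * Fχ 1 * ψ (Additive.ofMul γ) := by
    intro γ g
    have := lr_const_of_SU
      (fun g => Q (g * γ) - Q g - 6 * Fχ g * ψ (Additive.ofMul γ)) ?_ ?_ g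
    · simpa using this
    · intro g
      show Q (S * g * γ) - Q (S * g) - 6 * Fχ (S * g) * ψ (Additive.ofMul γ)
        = Q (g * γ) - Q g - 6 * Fχ g * ψ (Additive.ofMul γ)
      rw [mul_assoc, hQS, hQS]
      simp only [lrHIS, lrHc, ← mul_assoc, hχ, hψ]
      ring
    · intro g
      show Q (S * T * g * γ) - Q (S * T * g) - 6 * Fχ (S * T * g) * ψ (Additive.ofMul γ)
        = Q (g * γ) - Q g - 6 * Fχ g * ψ (Additive.ofMul γ)
      rw [mul_assoc, hQU, hQU]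
      simp only [lrHIU, lrHk, lrHb, ← mul_assoc, hχ, hψ]
      ring
  have hT1 : ∀ h, Q (T * h) = Q h + lrHJ Fχ Fψ h := by
    intro h
    have h1 := hQS (T * h)
    have h2 := hQU h
    rw [← mul_assoc, h2] at h1
    have h3 : lrHIU Fχ Fψ h - lrHIS Fχ Fψ (T * h) = lrHJ Fχ Fψ h := by
      simp only [lrHIS, lrHIU, lrHJ, lrHc, lrHb, ← mul_assoc, hχT, hψT]
      ring
    linarith
  have hTn : ∀ (n : ℕ) (g : SL(2,ℤ)),
      Q (T ^ n * g) = Q g + ∑ i ∈ Finset.range n, lrHJ Fχ Fψ (T ^ i * g) := by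
    intro n g
    induction n with
    | zero => simp
    | succ n ih =>
      rw [pow_succ', mul_assoc, hT1, ih, Finset.sum_range_succ]
      ring
  refine ⟨fun γ => Q γ - Q 1 - 6 * Fχ 1 * ψ (Additive.ofMul γ), fun γ η => ?_, fun g n hg => ?_⟩
  · have h1 := key η γ
    have h2 := hχ 1 γ
    rw [one_mul] at h2
    have h3 : ψ (Additive.ofMul (γ * η)) = ψ (Additive.ofMul γ) + ψ (Additive.ofMul η) := by
      rw [ofMul_mul, map_add]
    show Q ((γ * η : Γ) : SL(2,ℤ)) - Q 1 - 6 * Fχ 1 * ψ (Additive.ofMul (γ * η)) = _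
    rw [h3]
    push_cast
    linear_combination h1 + 6 * ψ (Additive.ofMul η) * h2
  · have h1 := key ⟨g⁻¹ * T ^ n * g, hg⟩ g
    have h2 := hψ g ⟨g⁻¹ * T ^ n * g, hg⟩
    have e : g * (g⁻¹ * T ^ n * g) = T ^ n * g := by group
    simp only [e] at h1 h2
    rw [lr_lift_Tpow hψT] at h2
    have h4 : ψ (Additive.ofMul (⟨g⁻¹ * T ^ n * g, hg⟩ : Γ)) = 0 := by linarith
    rw [h4, hTn] at h1
    show Q (g⁻¹ * T ^ n * g) - Q 1 - 6 * Fχ 1 * ψ (Additive.ofMul (⟨g⁻¹ * T ^ n * g, hg⟩ : Γ)) = _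
    rw [h4]
    linarith

end Heis

/-! ### Cusp sums -/

section CuspSum

variable {Γ : Subgroup SL(2,ℤ)} (hneg : (-1 : SL(2,ℤ)) ∈ Γ) [Fintype (SL(2,ℤ) ⧸ Γ)]

theorem lrH_out_mem (Γ : Subgroup SL(2,ℤ)) (g : SL(2,ℤ)) :
    (QuotientGroup.mk g : SL(2,ℤ) ⧸ Γ).out⁻¹ * g ∈ Γ := by
  rw [← QuotientGroup.eq, QuotientGroup.out_eq']

/-- every additive character has a lift -/
theorem lr_exists_lift (η : Additive Γ →+ ℤ) :
    ∃ F : SL(2,ℤ) → ℤ, ∀ (g : SL(2,ℤ)) (γ : Γ), F (g * γ) = F g + η (Additive.ofMul γ) := by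
  refine ⟨fun g => η (Additive.ofMul ⟨_, lrH_out_mem Γ g⟩), fun g γ => ?_⟩
  show η (Additive.ofMul ⟨_, lrH_out_mem Γ (g * γ)⟩) = η (Additive.ofMul ⟨_, lrH_out_mem Γ g⟩) + _
  rw [← map_add, ← ofMul_mul]
  congr 2
  apply Subtype.ext
  have h : (QuotientGroup.mk (g * γ) : SL(2,ℤ) ⧸ Γ) = QuotientGroup.mk g := by
    rw [QuotientGroup.eq]
    simp
  show (QuotientGroup.mk (g * γ) : SL(2,ℤ) ⧸ Γ).out⁻¹ * (g * γ)
    = (QuotientGroup.mk g : SL(2,ℤ) ⧸ Γ).out⁻¹ * g * γ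
  rw [h, mul_assoc]

include hneg in
/-- the sum of an additive character over the "cusp elements" vanishes -/
theorem lr_cusp_sum_hom (η : Additive Γ →+ ℤ) (m : ℕ) (hm : ∀ g : SL(2,ℤ), g⁻¹ * T ^ m * g ∈ Γ) :
    ∑ x : SL(2,ℤ) ⧸ Γ, η (Additive.ofMul ⟨x.out⁻¹ * T ^ m * x.out, hm _⟩) = 0 := by
  obtain ⟨F, hF⟩ := lr_exists_lift η
  -- telescoping along `T`
  have hTn : ∀ (n : ℕ) (g : SL(2,ℤ)),
      F (T ^ n * g) = F g + ∑ i ∈ Finset.range n, (F (T * (T ^ i * g)) - F (T ^ i * g)) := by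
    intro n g
    induction n with
    | zero => simp
    | succ n ih =>
      rw [Finset.sum_range_succ, ← add_assoc, ← ih, pow_succ', mul_assoc]
      ring
  have h1 : ∀ x : SL(2,ℤ) ⧸ Γ, η (Additive.ofMul ⟨x.out⁻¹ * T ^ m * x.out, hm _⟩)
      = ∑ i ∈ Finset.range m, (F (T * (T ^ i * x.out)) - F (T ^ i * x.out)) := by
    intro x
    have h := hF x.out ⟨x.out⁻¹ * T ^ m * x.out, hm _⟩
    have e : x.out * (x.out⁻¹ * T ^ m * x.out) = T ^ m * x.out := by group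
    simp only [e] at h
    rw [hTn] at h
    linarith
  have hinv : ∀ (g : SL(2,ℤ)) (γ : Γ), F (T * (g * γ)) - F (g * γ) = F (T * g) - F g := by
    intro g γ
    rw [← mul_assoc, hF, hF]
    ring
  have h2 : ∑ x : SL(2,ℤ) ⧸ Γ, (F (T * x.out) - F x.out) = 0 := by
    have hb : ∑ x : SL(2,ℤ) ⧸ Γ, lrHb F x.out = 0 := by
      have hbinv : ∀ (g : SL(2,ℤ)) (γ : Γ), lrHb F (g * γ) = lrHb F g := by
        intro g γ
        simp only [lrHb, ← mul_assoc, hF]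
        ring
      have e1 := lr_sum_mul_left Γ hbinv (S * T)
      have e2 := lr_sum_mul_left Γ hbinv (S * T * (S * T))
      have e3 : ∑ x : SL(2,ℤ) ⧸ Γ, (lrHb F x.out + lrHb F (S * T * x.out)
          + lrHb F (S * T * (S * T) * x.out)) = 0 := by
        apply Finset.sum_eq_zero
        intro x _
        simp only [lrHb, mul_assoc]
        have := lr_lift_U3 hneg hF x.out
        simp only [mul_assoc] at this
        rw [this]
        ring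
      rw [Finset.sum_add_distrib, Finset.sum_add_distrib, e1, e2] at e3
      omega
    have hc : ∑ x : SL(2,ℤ) ⧸ Γ, lrHc F x.out = 0 := by
      have hcinv : ∀ (g : SL(2,ℤ)) (γ : Γ), lrHc F (g * γ) = lrHc F g := by
        intro g γ
        simp only [lrHc, ← mul_assoc, hF]
        ring
      have e1 := lr_sum_mul_left Γ hcinv S
      have e3 : ∑ x : SL(2,ℤ) ⧸ Γ, (lrHc F x.out + lrHc F (S * x.out)) = 0 := by
        apply Finset.sum_eq_zero
        intro x _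
        simp only [lrHc]
        rw [lr_lift_SS hneg hF]
        ring
      rw [Finset.sum_add_distrib, e1] at e3
      omega
    have hcT : ∑ x : SL(2,ℤ) ⧸ Γ, lrHc F (T * x.out) = 0 := by
      have hcinv : ∀ (g : SL(2,ℤ)) (γ : Γ), lrHc F (g * γ) = lrHc F g := by
        intro g γ
        simp only [lrHc, ← mul_assoc, hF]
        ring
      rw [lr_sum_mul_left Γ hcinv T, hc]
    have e : ∀ x : SL(2,ℤ) ⧸ Γ, F (T * x.out) - F x.out = lrHb F x.out - lrHc F (T * x.out) := by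
      intro x
      simp only [lrHb, lrHc, mul_assoc]
      ring
    rw [Finset.sum_congr rfl fun x _ => e x, Finset.sum_sub_distrib, hb, hcT]
    rfl
  rw [Finset.sum_congr rfl fun x _ => h1 x, Finset.sum_comm]
  apply Finset.sum_eq_zero
  intro i _
  have := lr_sum_mul_left Γ (f := fun g => F (T * g) - F g) hinv (T ^ i)
  exact this.trans h2

end CuspSum

/-! ### The cusp-sum formula for the local pairing -/

section Formula

variable {Γ : Subgroup SL(2,ℤ)} (hneg : (-1 : SL(2,ℤ)) ∈ Γ) [Fintype (SL(2,ℤ) ⧸ Γ)]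
variable {χ ψ : Additive Γ →+ ℤ} {Fχ Fψ : SL(2,ℤ) → ℤ}
variable (hχ : ∀ (g : SL(2,ℤ)) (γ : Γ), Fχ (g * γ) = Fχ g + χ (Additive.ofMul γ))
variable (hψ : ∀ (g : SL(2,ℤ)) (γ : Γ), Fψ (g * γ) = Fψ g + ψ (Additive.ofMul γ))
variable (hχT : ∀ g, Fχ (T * g) = Fχ g) (hψT : ∀ g, Fψ (T * g) = Fψ g)

include hneg hχ hψ hχT hψT in
theorem lr_sum_J_eq_L :
    ∑ x : SL(2,ℤ) ⧸ Γ, lrHJ Fχ Fψ x.out = ∑ x : SL(2,ℤ) ⧸ Γ, lrHL Fχ Fψ x.out := by
  let E : SL(2,ℤ) → ℤ := fun g => lrHb Fχ g * lrHb Fψ g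
  have hE : ∀ (g : SL(2,ℤ)) (γ : Γ), E (g * γ) = E g := by
    intro g γ
    simp only [E, lrHb, ← mul_assoc, hχ, hψ]
    ring
  have e1 := lr_sum_mul_left Γ hE (S * T)
  have e2 := lr_sum_mul_left Γ hE (S * T * (S * T))
  simp only [mul_assoc (S * T) (S * T)] at e2
  have pt : ∀ x : SL(2,ℤ) ⧸ Γ, lrHJ Fχ Fψ x.out = lrHL Fχ Fψ x.out + 2 * E (S * T * x.out)
      - 2 * E x.out + E (S * T * (S * T * x.out)) - E (S * T * x.out) := by
    intro x
    simp only [E, lrHJ, lrHL, lrHk, lrHb, lrHc, lr_lift_S hχT, lr_lift_S hψT,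
      lr_lift_U3 hneg hχ, lr_lift_U3 hneg hψ]
    ring
  rw [Finset.sum_congr rfl fun x _ => pt x]
  simp only [Finset.sum_add_distrib, Finset.sum_sub_distrib, ← Finset.mul_sum, e1, e2]
  ring

include hneg hχ hψ hχT hψT in
/-- **Cusp-sum formula**: for ANY 1-cochain `κ` with `δκ = 6·χ ∪ ψ`, the sum of `κ` over the
parabolic elements `x⁻¹ T^m x` (`x` running over `SL(2,ℤ)/Γ`) is `m` times the local pairing
expression computed from `T`-invariant lifts of `χ` and `ψ`. -/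
theorem lr_cusp_formula (κ : Γ → ℤ)
    (hκ : ∀ γ η : Γ, κ (γ * η) = κ γ + κ η + 6 * χ (Additive.ofMul γ) * ψ (Additive.ofMul η))
    (m : ℕ) (hm : ∀ g : SL(2,ℤ), g⁻¹ * T ^ m * g ∈ Γ) :
    ∑ x : SL(2,ℤ) ⧸ Γ, κ ⟨x.out⁻¹ * T ^ m * x.out, hm _⟩
      = m * ∑ x : SL(2,ℤ) ⧸ Γ, lrHL Fχ Fψ x.out := by
  obtain ⟨κ₀, hκ₀, hcusp⟩ := lr_heis_exists hneg hχ hψ hχT hψT
  have h1 : ∀ (k : Γ → ℤ), (∀ γ η : Γ, k (γ * η)
      = k γ + k η + 6 * χ (Additive.ofMul γ) * ψ (Additive.ofMul η)) → k 1 = 0 := by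
    intro k hk
    have := hk 1 1
    rw [mul_one, ofMul_one, map_zero, map_zero] at this
    linarith
  let η : Additive Γ →+ ℤ :=
    { toFun := fun a => κ (Additive.toMul a) - κ₀ (Additive.toMul a)
      map_zero' := by
        show κ 1 - κ₀ 1 = 0
        rw [h1 κ hκ, h1 κ₀ hκ₀]
        rfl
      map_add' := by
        intro a b
        show κ (Additive.toMul a * Additive.toMul b) - κ₀ (Additive.toMul a * Additive.toMul b) = _
        rw [hκ, hκ₀]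
        ring }
  have h2 := lr_cusp_sum_hom hneg η m hm
  have h3 : ∀ x : SL(2,ℤ) ⧸ Γ, κ ⟨x.out⁻¹ * T ^ m * x.out, hm _⟩
      = η (Additive.ofMul ⟨x.out⁻¹ * T ^ m * x.out, hm _⟩)
        + ∑ i ∈ Finset.range m, lrHJ Fχ Fψ (T ^ i * x.out) := by
    intro x
    have e := hcusp x.out m (hm x.out)
    have e2 : η (Additive.ofMul ⟨x.out⁻¹ * T ^ m * x.out, hm _⟩)
        = κ ⟨x.out⁻¹ * T ^ m * x.out, hm _⟩ - κ₀ ⟨x.out⁻¹ * T ^ m * x.out, hm _⟩ := rfl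
    rw [e2, ← e]
    ring
  rw [Finset.sum_congr rfl fun x _ => h3 x, Finset.sum_add_distrib, h2, zero_add, Finset.sum_comm]
  have hJ : ∀ (g : SL(2,ℤ)) (γ : Γ), lrHJ Fχ Fψ (g * γ) = lrHJ Fχ Fψ g := by
    intro g γ
    simp only [lrHJ, lrHk, lrHb, ← mul_assoc, hχ, hψ]
    ring
  rw [Finset.sum_congr rfl fun i _ => lr_sum_mul_left Γ hJ (T ^ i)]
  rw [Finset.sum_const, Finset.card_range, lr_sum_J_eq_L hneg hχ hψ hχT hψT]
  simp

end Formula

end LR
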