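import Mathlib
import Fermat.Agent.Lib.LR_Heis

set_option autoImplicit false
set_option linter.style.haveILetI false
set_option linter.unusedSectionVars false

/-!
# Conjugation invariance of cusp sums (S41, stream S2, (F))
-/

open scoped MatrixGroups
open ModularGroup

namespace LR

/-- entries of a conjugate of a power of `T` -/
theorem lr_conjT_mat (g : SL(2,ℤ)) (n : ℤ) :
    ((g⁻¹ * T ^ n * g : SL(2,ℤ)) : Matrix (Fin 2) (Fin 2) ℤ) =
      !![1 + n * (g 1 0 * g 1 1), n * g 1 1 ^ 2; -(n * g 1 0 ^ 2), 1 - n * (g 1 0 * g 1 1)] := by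
  have hdet : g 0 0 * g 1 1 - g 0 1 * g 1 0 = 1 := by
    have := g.det_coe
    rw [Matrix.det_fin_two] at this
    exact this
  rw [Matrix.SpecialLinearGroup.coe_mul, Matrix.SpecialLinearGroup.coe_mul,
    ModularGroup.coe_T_zpow, Matrix.SpecialLinearGroup.coe_inv, Matrix.adjugate_fin_two]
  ext i j
  fin_cases i <;> fin_cases j <;> simp [Matrix.mul_apply, Fin.sum_univ_two] <;>
    first | linear_combination hdet | linear_combination (0 : ℤ) * hdet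

/-- two conjugates of positive powers of `T` coincide only in the obvious way -/
theorem lr_conjT_eq {g g' : SL(2,ℤ)} {n n' : ℕ} (hn' : 0 < n')
    (h : g⁻¹ * T ^ n * g = g'⁻¹ * T ^ n' * g') :
    n = n' ∧ ∃ j : ℤ, g' = T ^ j * g ∨ g' = -(T ^ j * g) := by
  set k : SL(2,ℤ) := g' * g⁻¹ with hk
  have hkT : k * T ^ (n : ℤ) = T ^ (n' : ℤ) * k := by
    rw [zpow_natCast, zpow_natCast, hk]
    have : T ^ n = g * (g'⁻¹ * T ^ n' * g') * g⁻¹ := by rw [← h]; group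
    rw [this]; group
  have hmat := congrArg (fun M : SL(2,ℤ) => (M : Matrix (Fin 2) (Fin 2) ℤ)) hkT
  simp only [Matrix.SpecialLinearGroup.coe_mul, ModularGroup.coe_T_zpow] at hmat
  have h00 := congrFun (congrFun hmat 0) 0
  have h01 := congrFun (congrFun hmat 0) 1
  simp [Matrix.mul_apply, Fin.sum_univ_two] at h00 h01
  have hdet : k 0 0 * k 1 1 - k 0 1 * k 1 0 = 1 := by
    have := k.det_coe
    rw [Matrix.det_fin_two] at this
    exact this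
  have hc : k 1 0 = 0 := by
    rcases h00 with h | h
    · exact absurd h hn'.ne'
    · exact h
  rw [hc, mul_zero, sub_zero] at hdet
  have hg' : g' = k * g := by rw [hk]; group
  rcases Int.eq_one_or_neg_one_of_mul_eq_one' hdet with ⟨ha, hd⟩ | ⟨ha, hd⟩
  · rw [ha, hd] at h01
    refine ⟨by omega, k 0 1, Or.inl ?_⟩
    rw [hg']
    congr 1
    apply Subtype.ext
    rw [ModularGroup.coe_T_zpow]
    ext i j
    fin_cases i <;> fin_cases j <;> simp [ha, hd, hc]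
  · rw [ha, hd] at h01
    refine ⟨by omega, -(k 0 1), Or.inr ?_⟩
    rw [hg', ← neg_mul]
    congr 1
    apply Subtype.ext
    rw [Matrix.SpecialLinearGroup.coe_neg, ModularGroup.coe_T_zpow]
    ext i j
    fin_cases i <;> fin_cases j <;> simp [ha, hd, hc]

/-- positivity of parabolic elements is preserved by conjugation with an integral matrix of
positive determinant -/
theorem lr_pos_conj {γ γ₁ : SL(2,ℤ)} (D : Matrix (Fin 2) (Fin 2) ℤ) (hD : 0 < D.det)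
    (hconj : D * (γ : Matrix (Fin 2) (Fin 2) ℤ) = (γ₁ : Matrix (Fin 2) (Fin 2) ℤ) * D)
    (hγ : ∃ (g : SL(2,ℤ)) (n : ℕ), 0 < n ∧ γ = g⁻¹ * T ^ n * g) :
    ∃ (g₁ : SL(2,ℤ)) (n₁ : ℕ), 0 < n₁ ∧ γ₁ = g₁⁻¹ * T ^ n₁ * g₁ := by
  obtain ⟨g, n, hn, rfl⟩ := hγ
  have hgdet : g 0 0 * g 1 1 - g 0 1 * g 1 0 = 1 := by
    have := g.det_coe
    rw [Matrix.det_fin_two] at this
    exact this
  rw [← zpow_natCast, lr_conjT_mat] at hconj
  have hΔ : 0 < D 0 0 * D 1 1 - D 0 1 * D 1 0 := by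
    rw [Matrix.det_fin_two] at hD; exact hD
  have e00 : D 0 0 * (1 + (n : ℤ) * (g 1 0 * g 1 1)) + D 0 1 * (-((n : ℤ) * g 1 0 ^ 2))
      = γ₁ 0 0 * D 0 0 + γ₁ 0 1 * D 1 0 := by
    have := congrFun (congrFun hconj 0) 0
    simpa [Matrix.mul_apply, Fin.sum_univ_two] using this
  have e01 : D 0 0 * ((n : ℤ) * g 1 1 ^ 2) + D 0 1 * (1 - (n : ℤ) * (g 1 0 * g 1 1))
      = γ₁ 0 0 * D 0 1 + γ₁ 0 1 * D 1 1 := by
    have := congrFun (congrFun hconj 0) 1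
    simpa [Matrix.mul_apply, Fin.sum_univ_two] using this
  have e10 : D 1 0 * (1 + (n : ℤ) * (g 1 0 * g 1 1)) + D 1 1 * (-((n : ℤ) * g 1 0 ^ 2))
      = γ₁ 1 0 * D 0 0 + γ₁ 1 1 * D 1 0 := by
    have := congrFun (congrFun hconj 1) 0
    simpa [Matrix.mul_apply, Fin.sum_univ_two] using this
  have e11 : D 1 0 * ((n : ℤ) * g 1 1 ^ 2) + D 1 1 * (1 - (n : ℤ) * (g 1 0 * g 1 1))
      = γ₁ 1 0 * D 0 1 + γ₁ 1 1 * D 1 1 := by
    have := congrFun (congrFun hconj 1) 1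
    simpa [Matrix.mul_apply, Fin.sum_univ_two] using this
  generalize D 0 0 = p, D 0 1 = q, D 1 0 = r, D 1 1 = s at hΔ e00 e01 e10 e11
  generalize hc0 : g 1 0 = c at e00 e01 e10 e11 hgdet
  generalize hd0 : g 1 1 = d at e00 e01 e10 e11 hgdet
  -- the transformed fixed vector
  obtain ⟨x, hxdef⟩ : ∃ x : ℤ, x = c * s - d * r := ⟨_, rfl⟩
  obtain ⟨y, hydef⟩ : ∃ y : ℤ, y = d * p - c * q := ⟨_, rfl⟩
  have hb : γ₁ 0 1 * (p * s - q * r) = n * y ^ 2 := by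
    rw [hydef]; linear_combination (-p) * e01 + q * e00
  have ha : γ₁ 0 0 * (p * s - q * r) = (p * s - q * r) + n * x * y := by
    rw [hxdef, hydef]; linear_combination (-s) * e00 + r * e01
  have hc : γ₁ 1 0 * (p * s - q * r) = -(n * x ^ 2) := by
    rw [hxdef]; linear_combination (-s) * e10 + r * e11
  have hd : γ₁ 1 1 * (p * s - q * r) = (p * s - q * r) - n * x * y := by
    rw [hxdef, hydef]; linear_combination (-p) * e11 + q * e10
  have hcd : IsCoprime c d := ⟨-(g 0 1), g 0 0, by linear_combination hgdet⟩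
  have hxy : x ≠ 0 ∨ y ≠ 0 := by
    by_contra hcon
    push Not at hcon
    obtain ⟨hx0, hy0⟩ := hcon
    have h1 : c * (p * s - q * r) = 0 := by
      have : c * (p * s - q * r) = x * p + y * r := by rw [hxdef, hydef]; ring
      rw [this, hx0, hy0]; ring
    have h2 : d * (p * s - q * r) = 0 := by
      have : d * (p * s - q * r) = x * q + y * s := by rw [hxdef, hydef]; ring
      rw [this, hx0, hy0]; ring
    have hc0' : c = 0 := by
      rcases mul_eq_zero.mp h1 with h | h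
      · exact h
      · omega
    have hd0' : d = 0 := by
      rcases mul_eq_zero.mp h2 with h | h
      · exact h
      · omega
    rw [hc0', hd0'] at hcd
    exact not_isCoprime_zero_zero hcd
  have ht : 0 < Int.gcd x y := Int.gcd_pos_iff.mpr hxy
  obtain ⟨c₁, d₁, hcop, hx, hy⟩ := Int.exists_gcd_one ht
  have hcop' : IsCoprime c₁ d₁ := Int.isCoprime_iff_gcd_eq_one.mpr hcop
  obtain ⟨u, v, huv⟩ : IsCoprime (c₁ ^ 2) (d₁ ^ 2) := hcop'.pow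
  generalize hΔdef : p * s - q * r = Δ at hΔ ha hb hc hd
  have htpos : (0 : ℤ) < (Int.gcd x y : ℤ) := by exact_mod_cast ht
  generalize (Int.gcd x y : ℤ) = t at hx hy htpos
  subst hx hy
  obtain ⟨k, hkdef⟩ : ∃ k : ℤ, k = v * γ₁ 0 1 - u * γ₁ 1 0 := ⟨_, rfl⟩
  have hk : (n : ℤ) * t ^ 2 = Δ * k := by
    rw [hkdef]; linear_combination (-((n : ℤ) * t ^ 2)) * huv - v * hb + u * hc
  have hkpos : 0 < k := by
    have h1 : (0 : ℤ) < (n : ℤ) * t ^ 2 := by positivity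
    rw [hk] at h1
    by_contra hcon
    push Not at hcon
    have : Δ * k ≤ 0 := mul_nonpos_of_nonneg_of_nonpos hΔ.le hcon
    omega
  have hΔ0 : Δ ≠ 0 := hΔ.ne'
  have hb' : γ₁ 0 1 = k * d₁ ^ 2 := by
    apply mul_left_cancel₀ hΔ0
    linear_combination hb + d₁ ^ 2 * hk
  have hc' : γ₁ 1 0 = -(k * c₁ ^ 2) := by
    apply mul_left_cancel₀ hΔ0
    linear_combination hc - c₁ ^ 2 * hk
  have ha' : γ₁ 0 0 = 1 + k * (c₁ * d₁) := by
    apply mul_left_cancel₀ hΔ0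
    linear_combination ha + c₁ * d₁ * hk
  have hd' : γ₁ 1 1 = 1 - k * (c₁ * d₁) := by
    apply mul_left_cancel₀ hΔ0
    linear_combination hd - c₁ * d₁ * hk
  obtain ⟨g₁, hg₁⟩ := IsCoprime.exists_SL2_row hcop' 1
  obtain ⟨hg10, hg11⟩ := hg₁
  refine ⟨g₁, k.toNat, by omega, ?_⟩
  apply Subtype.ext
  rw [← zpow_natCast, lr_conjT_mat, Int.toNat_of_nonneg hkpos.le, hg10, hg11]
  ext i j
  fin_cases i <;> fin_cases j <;> simp [ha', hb', hc', hd']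

/-! ### Orbit decomposition of cusp sums -/

theorem lr_conj_pow (g x : SL(2,ℤ)) (k : ℕ) : (g⁻¹ * x * g) ^ k = g⁻¹ * x ^ k * g := by
  induction k with
  | zero => simp
  | succ k ih => rw [pow_succ, ih, pow_succ]; group

theorem lr_inv_Tzpow {α : Type*} (F : SL(2,ℤ) → α) (hFT : ∀ g, F (T * g) = F g) (j : ℤ)
    (g : SL(2,ℤ)) : F (T ^ j * g) = F g := by
  have hpow : ∀ (n : ℕ) (g : SL(2,ℤ)), F (T ^ n * g) = F g := by
    intro n g
    induction n with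
    | zero => simp
    | succ n ih => rw [pow_succ', mul_assoc, hFT, ih]
  rcases Int.eq_nat_or_neg j with ⟨n, rfl | rfl⟩
  · rw [zpow_natCast, hpow]
  · rw [← hpow n (T ^ (-(n : ℤ)) * g), ← mul_assoc, zpow_neg, zpow_natCast, mul_inv_cancel,
      one_mul]

section OrbitSum

open MulAction

variable {Γ : Subgroup SL(2,ℤ)} [Fintype (SL(2,ℤ) ⧸ Γ)]
  [Fintype (orbitRel.Quotient (Subgroup.zpowers T) (SL(2,ℤ) ⧸ Γ))]

/-- the generator of the unipotent stabiliser attached to a coset -/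
noncomputable def lrCuspGen (Γ : Subgroup SL(2,ℤ)) (x : SL(2,ℤ) ⧸ Γ) : Γ :=
  ⟨x.out⁻¹ * T ^ Function.minimalPeriod (T • ·) x * x.out,
    QuotientGroup.out_conj_pow_minimalPeriod_mem Γ T x⟩

theorem lr_smul_eq_mk (Γ : Subgroup SL(2,ℤ)) (h : SL(2,ℤ)) (x : SL(2,ℤ) ⧸ Γ) :
    h • x = QuotientGroup.mk (h * x.out) := by
  conv_lhs => rw [← QuotientGroup.out_eq' x]
  rfl

theorem lr_orbit_sum (F : SL(2,ℤ) → ℤ) (hF : ∀ (g : SL(2,ℤ)) (γ : Γ), F (g * γ) = F g)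
    (hFT : ∀ g, F (T * g) = F g) :
    ∑ x : SL(2,ℤ) ⧸ Γ, F x.out
      = ∑ q : orbitRel.Quotient (Subgroup.zpowers T) (SL(2,ℤ) ⧸ Γ),
          (Function.minimalPeriod (T • ·) q.out : ℤ) * F q.out.out := by
  classical
  rw [← (Subgroup.quotientEquivSigmaZMod Γ T).symm.sum_comp (fun x => F x.out),
    Fintype.sum_sigma]
  refine Finset.sum_congr rfl fun q _ => ?_
  have key : ∀ k : ZMod (Function.minimalPeriod (T • ·) q.out),
      F ((Subgroup.quotientEquivSigmaZMod Γ T).symm ⟨q, k⟩).out = F q.out.out := by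
    intro k
    rw [Subgroup.quotientEquivSigmaZMod_symm_apply, lr_smul_eq_mk]
    obtain ⟨γ, hγ⟩ := QuotientGroup.mk_out_eq_mul Γ (T ^ (ZMod.cast k : ℤ) * q.out.out)
    rw [hγ, hF, lr_inv_Tzpow F hFT]
  rw [Finset.sum_congr rfl fun k _ => key k, Finset.sum_const, Finset.card_univ, ZMod.card,
    nsmul_eq_mul]

end OrbitSum

/-- parabolic-or-trivial elements: conjugates of powers of `T` -/
def lrIsPar (P : SL(2,ℤ)) : Prop := ∃ (g : SL(2,ℤ)) (n : ℕ), P = g⁻¹ * T ^ n * g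

/-- positive parabolic elements -/
def lrIsPos (P : SL(2,ℤ)) : Prop := ∃ (g : SL(2,ℤ)) (n : ℕ), 0 < n ∧ P = g⁻¹ * T ^ n * g

theorem lrIsPos.isPar {P : SL(2,ℤ)} (h : lrIsPos P) : lrIsPar P :=
  let ⟨g, n, _, e⟩ := h
  ⟨g, n, e⟩

theorem lr_mem_iff_smul (Γ : Subgroup SL(2,ℤ)) (g : SL(2,ℤ)) (n : ℕ) :
    g⁻¹ * T ^ n * g ∈ Γ ↔ T ^ n • (QuotientGroup.mk g : SL(2,ℤ) ⧸ Γ) = QuotientGroup.mk g := by
  rw [eq_comm, MulAction.Quotient.smul_mk, QuotientGroup.eq, smul_eq_mul, mul_assoc]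

section OrbitSum2

open MulAction

variable {Γ : Subgroup SL(2,ℤ)} [Fintype (SL(2,ℤ) ⧸ Γ)]
  [Fintype (orbitRel.Quotient (Subgroup.zpowers T) (SL(2,ℤ) ⧸ Γ))]

/-- a cusp sum is `m` times the sum over the `T`-orbits of the values at the generators -/
theorem lr_cusp_sum_orbits (f : Γ → ℤ)
    (hconj : ∀ γ P : Γ, lrIsPar (P : SL(2,ℤ)) → f (γ * P * γ⁻¹) = f P)
    (hpow : ∀ P : Γ, lrIsPar (P : SL(2,ℤ)) → ∀ k : ℕ, f (P ^ k) = k * f P)
    (m : ℕ) (hm : ∀ g : SL(2,ℤ), g⁻¹ * T ^ m * g ∈ Γ) :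
    ∑ x : SL(2,ℤ) ⧸ Γ, f ⟨x.out⁻¹ * T ^ m * x.out, hm _⟩
      = m * ∑ q : orbitRel.Quotient (Subgroup.zpowers T) (SL(2,ℤ) ⧸ Γ),
          f (lrCuspGen Γ q.out) := by
  have h1 := lr_orbit_sum (Γ := Γ) (fun g => f ⟨g⁻¹ * T ^ m * g, hm g⟩) ?_ ?_
  · rw [h1, Finset.mul_sum]
    refine Finset.sum_congr rfl fun q _ => ?_
    have hdvd : Function.minimalPeriod (T • ·) q.out ∣ m := by
      rw [← MulAction.pow_smul_eq_iff_minimalPeriod_dvd]
      have := (lr_mem_iff_smul Γ q.out.out m).mp (hm _)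
      rwa [QuotientGroup.out_eq'] at this
    obtain ⟨l, hl⟩ := hdvd
    have h2 : (⟨q.out.out⁻¹ * T ^ m * q.out.out, hm _⟩ : Γ) = (lrCuspGen Γ q.out) ^ l := by
      apply Subtype.ext
      rw [Subgroup.coe_pow]
      show _ = (q.out.out⁻¹ * T ^ Function.minimalPeriod (T • ·) q.out * q.out.out) ^ l
      rw [lr_conj_pow, ← pow_mul, ← hl]
    show (Function.minimalPeriod (T • ·) q.out : ℤ) *
      f ⟨q.out.out⁻¹ * T ^ m * q.out.out, hm _⟩ = _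
    rw [h2, hpow _ ⟨q.out.out, _, rfl⟩]
    conv_rhs => rw [hl]
    push_cast
    ring
  · intro g γ
    show f ⟨(g * γ)⁻¹ * T ^ m * (g * γ), hm _⟩ = f ⟨g⁻¹ * T ^ m * g, hm g⟩
    have := hconj γ⁻¹ ⟨g⁻¹ * T ^ m * g, hm g⟩ ⟨g, m, rfl⟩
    have e : (⟨(g * γ)⁻¹ * T ^ m * (g * γ), hm _⟩ : Γ)
        = γ⁻¹ * ⟨g⁻¹ * T ^ m * g, hm g⟩ * γ⁻¹⁻¹ := by
      apply Subtype.ext
      simp only [Subgroup.coe_mul, Subgroup.coe_inv]
      group
    rw [e]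
    exact this
  · intro g
    show f ⟨(T * g)⁻¹ * T ^ m * (T * g), hm _⟩ = f ⟨g⁻¹ * T ^ m * g, hm g⟩
    have e : (⟨(T * g)⁻¹ * T ^ m * (T * g), hm _⟩ : Γ) = ⟨g⁻¹ * T ^ m * g, hm g⟩ := by
      apply Subtype.ext
      show (T * g)⁻¹ * T ^ m * (T * g) = g⁻¹ * T ^ m * g
      group
    rw [e]

end OrbitSum2

/-! ### Primitive positive parabolic elements -/

/-- primitive positive parabolic elements of `Γ` -/
def lrIsPrim (Γ : Subgroup SL(2,ℤ)) (P : Γ) : Prop :=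
  lrIsPos (P : SL(2,ℤ)) ∧ ∀ (Q : Γ) (k : ℕ), lrIsPos (Q : SL(2,ℤ)) → P = Q ^ k → k = 1

/-- the `T`-orbits on the cosets (the cusps) -/
abbrev lrOrb (Γ : Subgroup SL(2,ℤ)) : Type :=
  MulAction.orbitRel.Quotient (Subgroup.zpowers T) (SL(2,ℤ) ⧸ Γ)

theorem lr_conj_neg (h X : SL(2,ℤ)) : (-h)⁻¹ * X * (-h) = h⁻¹ * X * h := by
  have e : -h = h * (-1) := by simp
  have e2 : ((-1 : SL(2,ℤ)))⁻¹ = -1 := by
    rw [inv_eq_iff_mul_eq_one]; simp
  rw [e, mul_inv_rev, e2]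
  simp [mul_assoc]

section Prim

open MulAction

variable {Γ : Subgroup SL(2,ℤ)} [Fintype (SL(2,ℤ) ⧸ Γ)]

theorem lr_minPeriod_pos (x : SL(2,ℤ) ⧸ Γ) : 0 < Function.minimalPeriod (T • ·) x :=
  Nat.pos_of_ne_zero (NeZero.ne _)

theorem lr_cuspGen_coe (x : SL(2,ℤ) ⧸ Γ) : ((lrCuspGen Γ x : Γ) : SL(2,ℤ))
    = x.out⁻¹ * T ^ Function.minimalPeriod (T • ·) x * x.out := rfl

/-- the generators attached to cosets are primitive -/
theorem lr_cuspGen_prim (x : SL(2,ℤ) ⧸ Γ) : lrIsPrim Γ (lrCuspGen Γ x) := by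
  have hw := lr_minPeriod_pos x
  refine ⟨⟨x.out, _, hw, rfl⟩, ?_⟩
  intro Q k hQ hPQ
  obtain ⟨g', n', hn', hQe⟩ := hQ
  have h1 : x.out⁻¹ * T ^ Function.minimalPeriod (T • ·) x * x.out
      = g'⁻¹ * T ^ (n' * k) * g' := by
    have := congrArg (fun z : Γ => (z : SL(2,ℤ))) hPQ
    simp only [Subgroup.coe_pow] at this
    rw [hQe, lr_conj_pow, ← pow_mul, lr_cuspGen_coe] at this
    exact this
  have hk0 : 0 < k := by
    rcases Nat.eq_zero_or_pos k with h | h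
    · subst h
      rw [mul_zero] at h1
      have := (lr_conjT_eq hw h1.symm).1
      omega
    · exact h
  obtain ⟨hwn, j, hj⟩ := lr_conjT_eq (Nat.mul_pos hn' hk0) h1
  have hQ' : (Q : SL(2,ℤ)) = x.out⁻¹ * T ^ n' * x.out := by
    rw [hQe]
    rcases hj with hj | hj
    · rw [hj]; group
    · rw [hj, lr_conj_neg]; group
  have hfix : T ^ n' • x = x := by
    have hmem : x.out⁻¹ * T ^ n' * x.out ∈ Γ := hQ' ▸ Q.2
    have := (lr_mem_iff_smul Γ x.out n').mp hmem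
    rwa [QuotientGroup.out_eq'] at this
  have hdvd : Function.minimalPeriod (T • ·) x ∣ n' :=
    MulAction.pow_smul_eq_iff_minimalPeriod_dvd.mp hfix
  obtain ⟨l, hl⟩ := hdvd
  rw [hl] at hwn
  have h2 : l * k = 1 := by
    have h3 : Function.minimalPeriod (T • ·) x * 1 = Function.minimalPeriod (T • ·) x * (l * k) := by
      rw [mul_one, ← mul_assoc]; exact hwn
    exact (Nat.eq_of_mul_eq_mul_left hw h3).symm
  exact Nat.eq_one_of_mul_eq_one_left h2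

theorem lr_minPeriod_smul (x : SL(2,ℤ) ⧸ Γ) (j : ℤ) :
    Function.minimalPeriod (T • ·) (T ^ j • x) = Function.minimalPeriod (T • ·) x := by
  have key : ∀ n : ℕ, T ^ n • (T ^ j • x) = T ^ j • x ↔ T ^ n • x = x := by
    intro n
    rw [← mul_smul]
    have hc : T ^ n * T ^ j = T ^ j * T ^ n := by
      rw [← zpow_natCast, ← zpow_add, ← zpow_add, add_comm]
    rw [hc, mul_smul]
    exact smul_left_cancel_iff _
  apply Nat.dvd_antisymm
  · rw [← MulAction.pow_smul_eq_iff_minimalPeriod_dvd, key,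
      MulAction.pow_smul_eq_iff_minimalPeriod_dvd]
  · rw [← MulAction.pow_smul_eq_iff_minimalPeriod_dvd, ← key,
      MulAction.pow_smul_eq_iff_minimalPeriod_dvd]

/-- translating the coset along `T` conjugates the generator inside `Γ` -/
theorem lr_cuspGen_smul (x : SL(2,ℤ) ⧸ Γ) (j : ℤ) :
    ∃ η : Γ, lrCuspGen Γ (T ^ j • x) = η⁻¹ * lrCuspGen Γ x * η := by
  obtain ⟨η, hη⟩ := QuotientGroup.mk_out_eq_mul Γ (T ^ j * x.out)
  rw [← lr_smul_eq_mk] at hη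
  refine ⟨η, ?_⟩
  apply Subtype.ext
  simp only [Subgroup.coe_mul, Subgroup.coe_inv, lr_cuspGen_coe]
  rw [lr_minPeriod_smul, hη]
  group

end Prim


section Prim2

open MulAction

variable {Γ : Subgroup SL(2,ℤ)} [Fintype (SL(2,ℤ) ⧸ Γ)]

/-- every primitive positive parabolic element is `Γ`-conjugate to a cusp generator -/
theorem lr_prim_exists (P : Γ) (hP : lrIsPrim Γ P) :
    ∃ x : SL(2,ℤ) ⧸ Γ, IsConj P (lrCuspGen Γ x) := by
  obtain ⟨⟨g, n, hn, hPe⟩, hprim⟩ := hP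
  obtain ⟨x, hx⟩ : ∃ x : SL(2,ℤ) ⧸ Γ, x = QuotientGroup.mk g := ⟨_, rfl⟩
  have hfix : T ^ n • x = x := by
    rw [hx]
    exact (lr_mem_iff_smul Γ g n).mp (hPe ▸ P.2)
  obtain ⟨l, hl⟩ := MulAction.pow_smul_eq_iff_minimalPeriod_dvd.mp hfix
  have hw := lr_minPeriod_pos x
  have hQmem : g⁻¹ * T ^ Function.minimalPeriod (T • ·) x * g ∈ Γ := by
    rw [lr_mem_iff_smul, ← hx]
    exact MulAction.pow_smul_eq_iff_minimalPeriod_dvd.mpr dvd_rfl
  have hl1 : l = 1 := by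
    apply hprim ⟨_, hQmem⟩ l ⟨g, _, hw, rfl⟩
    apply Subtype.ext
    rw [Subgroup.coe_pow]
    show (P : SL(2,ℤ)) = (g⁻¹ * T ^ Function.minimalPeriod (T • ·) x * g) ^ l
    rw [lr_conj_pow, ← pow_mul, ← hl, hPe]
  rw [hl1, mul_one] at hl
  obtain ⟨η, hη⟩ := QuotientGroup.mk_out_eq_mul Γ g
  rw [← hx] at hη
  refine ⟨x, ?_⟩
  rw [isConj_iff]
  refine ⟨η⁻¹, ?_⟩
  apply Subtype.ext
  simp only [Subgroup.coe_mul, Subgroup.coe_inv, lr_cuspGen_coe]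
  rw [hη, hPe, hl]
  group

/-- conjugate cusp generators belong to the same `T`-orbit -/
theorem lr_prim_unique (hneg : (-1 : SL(2,ℤ)) ∈ Γ) (x₁ x₂ : SL(2,ℤ) ⧸ Γ)
    (h : IsConj (lrCuspGen Γ x₁) (lrCuspGen Γ x₂)) : ∃ j : ℤ, x₂ = T ^ j • x₁ := by
  rw [isConj_iff] at h
  obtain ⟨c, hc⟩ := h
  have h1 : x₁.out⁻¹ * T ^ Function.minimalPeriod (T • ·) x₁ * x₁.out
      = (x₂.out * c)⁻¹ * T ^ Function.minimalPeriod (T • ·) x₂ * (x₂.out * c) := by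
    have := congrArg (fun z : Γ => (z : SL(2,ℤ))) hc
    simp only [Subgroup.coe_mul, Subgroup.coe_inv, lr_cuspGen_coe] at this
    have e : x₁.out⁻¹ * T ^ Function.minimalPeriod (T • ·) x₁ * x₁.out
        = (c : SL(2,ℤ))⁻¹ * (x₂.out⁻¹ * T ^ Function.minimalPeriod (T • ·) x₂ * x₂.out) * c := by
      rw [← this]; group
    rw [e]; group
  obtain ⟨-, j, hj⟩ := lr_conjT_eq (lr_minPeriod_pos x₂) h1
  refine ⟨j, ?_⟩
  have h2 : x₂ = QuotientGroup.mk (x₂.out * c) := by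
    conv_lhs => rw [← QuotientGroup.out_eq' x₂]
    rw [QuotientGroup.eq]
    simp
  rw [h2, lr_smul_eq_mk]
  rcases hj with hj | hj
  · rw [hj]
  · rw [hj, eq_comm, QuotientGroup.eq]
    have : (T ^ j * x₁.out)⁻¹ * -(T ^ j * x₁.out) = -1 := by simp
    rw [this]
    exact hneg

theorem lr_orb_mk_eq (x y : SL(2,ℤ) ⧸ Γ) :
    (Quotient.mk'' x : lrOrb Γ) = Quotient.mk'' y ↔ ∃ j : ℤ, x = T ^ j • y := by
  rw [Quotient.eq'', MulAction.orbitRel_apply, MulAction.mem_orbit_iff]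
  constructor
  · rintro ⟨⟨t, ht⟩, rfl⟩
    obtain ⟨j, rfl⟩ := Subgroup.mem_zpowers_iff.mp ht
    exact ⟨j, rfl⟩
  · rintro ⟨j, rfl⟩
    exact ⟨⟨T ^ j, Subgroup.zpow_mem_zpowers T j⟩, rfl⟩

theorem lr_prim_exists' (P : Γ) (hP : lrIsPrim Γ P) :
    ∃ q : lrOrb Γ, IsConj P (lrCuspGen Γ q.out) := by
  obtain ⟨x, hx⟩ := lr_prim_exists P hP
  refine ⟨Quotient.mk'' x, hx.trans ?_⟩
  obtain ⟨j, hj⟩ := (lr_orb_mk_eq _ x).mp (Quotient.out_eq' (Quotient.mk'' x : lrOrb Γ))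
  obtain ⟨η, hη⟩ := lr_cuspGen_smul x j
  rw [hj, hη, isConj_iff]
  exact ⟨η⁻¹, by group⟩

theorem lr_prim_unique' (hneg : (-1 : SL(2,ℤ)) ∈ Γ) (q₁ q₂ : lrOrb Γ)
    (h : IsConj (lrCuspGen Γ q₁.out) (lrCuspGen Γ q₂.out)) : q₁ = q₂ := by
  obtain ⟨j, hj⟩ := lr_prim_unique hneg _ _ h
  rw [← Quotient.out_eq' q₁, ← Quotient.out_eq' q₂]
  exact ((lr_orb_mk_eq _ _).mpr ⟨j, hj⟩).symm

end Prim2

/-- transporting a sum over a classifying family of conjugacy classes along an isomorphism -/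
theorem lr_classify_sum {G' G'' : Type*} [Group G'] [Group G''] (e : G' ≃* G'')
    {A' A'' : Type*} [Fintype A'] [Fintype A''] (c' : A' → G') (c'' : A'' → G'')
    (Pr' : G' → Prop) (Pr'' : G'' → Prop)
    (hc' : ∀ a, Pr' (c' a)) (hc'' : ∀ a, Pr'' (c'' a))
    (hex' : ∀ P, Pr' P → ∃ a, IsConj P (c' a)) (hex'' : ∀ P, Pr'' P → ∃ a, IsConj P (c'' a))
    (hun' : ∀ a b, IsConj (c' a) (c' b) → a = b) (hun'' : ∀ a b, IsConj (c'' a) (c'' b) → a = b)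
    (he : ∀ P, Pr' P → Pr'' (e P)) (he' : ∀ Q, Pr'' Q → Pr' (e.symm Q))
    (f : G'' → ℤ) (hf : ∀ P Q, Pr'' P → IsConj P Q → f P = f Q) :
    ∑ a, f (e (c' a)) = ∑ a, f (c'' a) := by
  choose φ hφ using fun a => hex'' (e (c' a)) (he _ (hc' a))
  have hmap : ∀ {P Q : G'}, IsConj P Q → IsConj (e P) (e Q) := by
    intro P Q h
    rw [isConj_iff] at h ⊢
    obtain ⟨c, rfl⟩ := h
    exact ⟨e c, by simp⟩
  have hmap' : ∀ {P Q : G''}, IsConj P Q → IsConj (e.symm P) (e.symm Q) := by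
    intro P Q h
    rw [isConj_iff] at h ⊢
    obtain ⟨c, rfl⟩ := h
    exact ⟨e.symm c, by simp⟩
  have hbij : Function.Bijective φ := by
    constructor
    · intro a b hab
      apply hun'
      have h1 : IsConj (e (c' a)) (e (c' b)) := (hφ a).trans (hab ▸ (hφ b).symm)
      have h2 := hmap' h1
      rwa [MulEquiv.symm_apply_apply, MulEquiv.symm_apply_apply] at h2
    · intro b
      obtain ⟨a, ha⟩ := hex' (e.symm (c'' b)) (he' _ (hc'' b))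
      refine ⟨a, hun'' _ _ ?_⟩
      have h1 := hmap ha
      rw [MulEquiv.apply_symm_apply] at h1
      exact (hφ a).symm.trans h1.symm
  exact Fintype.sum_bijective φ hbij _ _ fun a => hf _ _ (he _ (hc' a)) (hφ a)

/-! ### Transport along a conjugation by an integral matrix of positive determinant -/

section Transport

variable {Γ' Γ'' : Subgroup SL(2,ℤ)} (e : Γ' ≃* Γ'') (D : Matrix (Fin 2) (Fin 2) ℤ)

theorem lr_conj_symm (hD : 0 < D.det)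
    (he : ∀ γ : Γ', D * ((γ : SL(2,ℤ)) : Matrix (Fin 2) (Fin 2) ℤ)
      = ((e γ : SL(2,ℤ)) : Matrix (Fin 2) (Fin 2) ℤ) * D) :
    0 < D.adjugate.det ∧ ∀ γ : Γ'', D.adjugate * ((γ : SL(2,ℤ)) : Matrix (Fin 2) (Fin 2) ℤ)
      = ((e.symm γ : SL(2,ℤ)) : Matrix (Fin 2) (Fin 2) ℤ) * D.adjugate := by
  constructor
  · rw [Matrix.det_adjugate]
    simpa using hD
  · intro γ
    have h := he (e.symm γ)
    rw [MulEquiv.apply_symm_apply] at h
    have h2 : D.det • (D.adjugate * ((γ : SL(2,ℤ)) : Matrix (Fin 2) (Fin 2) ℤ))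
        = D.det • (((e.symm γ : SL(2,ℤ)) : Matrix (Fin 2) (Fin 2) ℤ) * D.adjugate) := by
      calc D.det • (D.adjugate * ((γ : SL(2,ℤ)) : Matrix (Fin 2) (Fin 2) ℤ))
          = D.adjugate * ((γ : SL(2,ℤ)) : Matrix (Fin 2) (Fin 2) ℤ) * (D * D.adjugate) := by
            rw [Matrix.mul_adjugate, Matrix.mul_smul, mul_one]
        _ = D.adjugate * (((γ : SL(2,ℤ)) : Matrix (Fin 2) (Fin 2) ℤ) * D) * D.adjugate := by
            simp only [Matrix.mul_assoc]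
        _ = D.adjugate * (D * ((e.symm γ : SL(2,ℤ)) : Matrix (Fin 2) (Fin 2) ℤ)) * D.adjugate := by
            rw [h]
        _ = (D.adjugate * D) * ((e.symm γ : SL(2,ℤ)) : Matrix (Fin 2) (Fin 2) ℤ) * D.adjugate := by
            simp only [Matrix.mul_assoc]
        _ = D.det • (((e.symm γ : SL(2,ℤ)) : Matrix (Fin 2) (Fin 2) ℤ) * D.adjugate) := by
            rw [Matrix.adjugate_mul, Matrix.smul_mul, Matrix.smul_mul, one_mul]
    exact smul_right_injective _ hD.ne' h2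

theorem lr_pos_map (hD : 0 < D.det)
    (he : ∀ γ : Γ', D * ((γ : SL(2,ℤ)) : Matrix (Fin 2) (Fin 2) ℤ)
      = ((e γ : SL(2,ℤ)) : Matrix (Fin 2) (Fin 2) ℤ) * D)
    (P : Γ') (hP : lrIsPos (P : SL(2,ℤ))) : lrIsPos (e P : SL(2,ℤ)) :=
  lr_pos_conj D hD (he P) hP

theorem lr_prim_map (hD : 0 < D.det)
    (he : ∀ γ : Γ', D * ((γ : SL(2,ℤ)) : Matrix (Fin 2) (Fin 2) ℤ)
      = ((e γ : SL(2,ℤ)) : Matrix (Fin 2) (Fin 2) ℤ) * D)
    (P : Γ') (hP : lrIsPrim Γ' P) : lrIsPrim Γ'' (e P) := by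
  obtain ⟨hpos, hprim⟩ := hP
  refine ⟨lr_pos_map e D hD he P hpos, fun Q k hQ hk => ?_⟩
  obtain ⟨hD', he'⟩ := lr_conj_symm e D hD he
  apply hprim (e.symm Q) k (lr_pos_map e.symm _ hD' he' Q hQ)
  rw [← map_pow, ← hk, MulEquiv.symm_apply_apply]

end Transport

/-! ### Heisenberg cochains on parabolic elements -/

section HeisPar

variable {Γ : Subgroup SL(2,ℤ)} {χ ψ : Additive Γ →+ ℤ}

theorem lr_char_par {F : SL(2,ℤ) → ℤ}
    (hF : ∀ (g : SL(2,ℤ)) (γ : Γ), F (g * γ) = F g + χ (Additive.ofMul γ))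
    (hFT : ∀ g, F (T * g) = F g) (P : Γ) (hP : lrIsPar (P : SL(2,ℤ))) :
    χ (Additive.ofMul P) = 0 := by
  obtain ⟨g, n, hPe⟩ := hP
  have h := hF g P
  have e : g * (P : SL(2,ℤ)) = T ^ (n : ℤ) * g := by
    rw [hPe, zpow_natCast]; group
  rw [e, lr_inv_Tzpow F hFT] at h
  linarith

theorem lr_heis_one (κ : Γ → ℤ)
    (hκ : ∀ γ η : Γ, κ (γ * η) = κ γ + κ η + 6 * χ (Additive.ofMul γ) * ψ (Additive.ofMul η)) :
    κ 1 = 0 := by
  have := hκ 1 1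
  rw [mul_one, ofMul_one, map_zero, map_zero] at this
  linarith

theorem lr_heis_conj (κ : Γ → ℤ)
    (hκ : ∀ γ η : Γ, κ (γ * η) = κ γ + κ η + 6 * χ (Additive.ofMul γ) * ψ (Additive.ofMul η))
    (γ P : Γ) (hχP : χ (Additive.ofMul P) = 0) (hψP : ψ (Additive.ofMul P) = 0) :
    κ (γ * P * γ⁻¹) = κ P := by
  have h1 := lr_heis_one κ hκ
  have h2 := hκ γ γ⁻¹
  rw [mul_inv_cancel, h1, ofMul_inv, map_neg] at h2
  have h3 := hκ (γ * P) γ⁻¹
  have h4 := hκ γ P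
  rw [ofMul_mul, map_add, ofMul_inv, map_neg, hχP] at h3
  rw [hψP] at h4
  linear_combination h3 + h4 - h2

theorem lr_heis_pow (κ : Γ → ℤ)
    (hκ : ∀ γ η : Γ, κ (γ * η) = κ γ + κ η + 6 * χ (Additive.ofMul γ) * ψ (Additive.ofMul η))
    (P : Γ) (hψP : ψ (Additive.ofMul P) = 0) (k : ℕ) : κ (P ^ k) = k * κ P := by
  induction k with
  | zero => simp [lr_heis_one κ hκ]
  | succ k ih =>
    rw [pow_succ, hκ, ih, hψP]
    push_cast
    ring

end HeisPar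

/-- **Conjugation invariance of the local pairing expression.**  If `e : Γ' ≃* Γ''` is induced by
conjugation with an integral matrix `D` of positive determinant, then the local expression
`∑ lrHL` computed for `(χ'' ∘ e, ψ'' ∘ e)` on `Γ'` equals the one for `(χ'', ψ'')` on `Γ''`. -/
theorem lr_loc_conj {Γ' Γ'' : Subgroup SL(2,ℤ)} [Fintype (SL(2,ℤ) ⧸ Γ')]
    [Fintype (SL(2,ℤ) ⧸ Γ'')]
    (hneg' : (-1 : SL(2,ℤ)) ∈ Γ') (hneg'' : (-1 : SL(2,ℤ)) ∈ Γ'')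
    (e : Γ' ≃* Γ'') (D : Matrix (Fin 2) (Fin 2) ℤ) (hD : 0 < D.det)
    (he : ∀ γ : Γ', D * ((γ : SL(2,ℤ)) : Matrix (Fin 2) (Fin 2) ℤ)
      = ((e γ : SL(2,ℤ)) : Matrix (Fin 2) (Fin 2) ℤ) * D)
    {χ' ψ' : Additive Γ' →+ ℤ} {χ'' ψ'' : Additive Γ'' →+ ℤ}
    (hχe : ∀ γ : Γ', χ' (Additive.ofMul γ) = χ'' (Additive.ofMul (e γ)))
    (hψe : ∀ γ : Γ', ψ' (Additive.ofMul γ) = ψ'' (Additive.ofMul (e γ)))
    {Fχ' Fψ' Fχ'' Fψ'' : SL(2,ℤ) → ℤ}
    (hχ' : ∀ (g : SL(2,ℤ)) (γ : Γ'), Fχ' (g * γ) = Fχ' g + χ' (Additive.ofMul γ))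
    (hχT' : ∀ g, Fχ' (T * g) = Fχ' g)
    (hψ' : ∀ (g : SL(2,ℤ)) (γ : Γ'), Fψ' (g * γ) = Fψ' g + ψ' (Additive.ofMul γ))
    (hψT' : ∀ g, Fψ' (T * g) = Fψ' g)
    (hχ'' : ∀ (g : SL(2,ℤ)) (γ : Γ''), Fχ'' (g * γ) = Fχ'' g + χ'' (Additive.ofMul γ))
    (hχT'' : ∀ g, Fχ'' (T * g) = Fχ'' g)
    (hψ'' : ∀ (g : SL(2,ℤ)) (γ : Γ''), Fψ'' (g * γ) = Fψ'' g + ψ'' (Additive.ofMul γ))
    (hψT'' : ∀ g, Fψ'' (T * g) = Fψ'' g) :
    ∑ x : SL(2,ℤ) ⧸ Γ', lrHL Fχ' Fψ' x.out = ∑ x : SL(2,ℤ) ⧸ Γ'', lrHL Fχ'' Fψ'' x.out := by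
  classical
  haveI : Fintype (lrOrb Γ') := Fintype.ofFinite _
  haveI : Fintype (lrOrb Γ'') := Fintype.ofFinite _
  obtain ⟨κ, hκ, -⟩ := lr_heis_exists hneg'' hχ'' hψ'' hχT'' hψT''
  have hκ' : ∀ γ η : Γ', κ (e (γ * η))
      = κ (e γ) + κ (e η) + 6 * χ' (Additive.ofMul γ) * ψ' (Additive.ofMul η) := by
    intro γ η
    rw [map_mul, hκ, hχe, hψe]
  obtain ⟨m, hm0, hm', hm''⟩ : ∃ m : ℕ, 0 < m ∧ (∀ g : SL(2,ℤ), g⁻¹ * T ^ m * g ∈ Γ') ∧
      (∀ g : SL(2,ℤ), g⁻¹ * T ^ m * g ∈ Γ'') := by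
    refine ⟨(∏ x : SL(2,ℤ) ⧸ Γ', Function.minimalPeriod (T • ·) x) *
      (∏ x : SL(2,ℤ) ⧸ Γ'', Function.minimalPeriod (T • ·) x), ?_, ?_, ?_⟩
    · exact Nat.mul_pos (Finset.prod_pos fun x _ => lr_minPeriod_pos x)
        (Finset.prod_pos fun x _ => lr_minPeriod_pos x)
    · intro g
      rw [lr_mem_iff_smul, MulAction.pow_smul_eq_iff_minimalPeriod_dvd]
      exact Dvd.dvd.mul_right (Finset.dvd_prod_of_mem _ (Finset.mem_univ _)) _
    · intro g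
      rw [lr_mem_iff_smul, MulAction.pow_smul_eq_iff_minimalPeriod_dvd]
      exact Dvd.dvd.mul_left (Finset.dvd_prod_of_mem _ (Finset.mem_univ _)) _
  have hA := lr_cusp_formula hneg' hχ' hψ' hχT' hψT' (fun γ => κ (e γ)) hκ' m hm'
  have hB := lr_cusp_formula hneg'' hχ'' hψ'' hχT'' hψT'' κ hκ m hm''
  have hC := lr_cusp_sum_orbits (Γ := Γ') (fun γ => κ (e γ))
    (fun γ P hP => lr_heis_conj (fun γ => κ (e γ)) hκ' γ P (lr_char_par hχ' hχT' P hP)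
      (lr_char_par hψ' hψT' P hP))
    (fun P hP k => lr_heis_pow (fun γ => κ (e γ)) hκ' P (lr_char_par hψ' hψT' P hP) k) m hm'
  have hE := lr_cusp_sum_orbits (Γ := Γ'') κ
    (fun γ P hP => lr_heis_conj κ hκ γ P (lr_char_par hχ'' hχT'' P hP)
      (lr_char_par hψ'' hψT'' P hP))
    (fun P hP k => lr_heis_pow κ hκ P (lr_char_par hψ'' hψT'' P hP) k) m hm''
  obtain ⟨hD', he'⟩ := lr_conj_symm e D hD he
  have hbij : ∑ q : lrOrb Γ', κ (e (lrCuspGen Γ' q.out))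
      = ∑ q : lrOrb Γ'', κ (lrCuspGen Γ'' q.out) := by
    refine lr_classify_sum e (fun q : lrOrb Γ' => lrCuspGen Γ' q.out)
      (fun q : lrOrb Γ'' => lrCuspGen Γ'' q.out) (lrIsPrim Γ') (lrIsPrim Γ'')
      (fun q => lr_cuspGen_prim _) (fun q => lr_cuspGen_prim _)
      (fun P hP => lr_prim_exists' P hP) (fun P hP => lr_prim_exists' P hP)
      (fun a b h => lr_prim_unique' hneg' a b h) (fun a b h => lr_prim_unique' hneg'' a b h)
      (fun P hP => lr_prim_map e D hD he P hP) (fun Q hQ => lr_prim_map e.symm _ hD' he' Q hQ)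
      κ ?_
    intro P Q hP hPQ
    rw [isConj_iff] at hPQ
    obtain ⟨c, rfl⟩ := hPQ
    exact (lr_heis_conj κ hκ c P (lr_char_par hχ'' hχT'' P hP.1.isPar)
      (lr_char_par hψ'' hψT'' P hP.1.isPar)).symm
  have hfin : (m : ℤ) * ∑ x : SL(2,ℤ) ⧸ Γ', lrHL Fχ' Fψ' x.out
      = (m : ℤ) * ∑ x : SL(2,ℤ) ⧸ Γ'', lrHL Fχ'' Fψ'' x.out := by
    rw [← hA, ← hB, hC, hE, hbij]
  exact mul_left_cancel₀ (by exact_mod_cast hm0.ne') hfin

end LR
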