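import Mathlib

/-!
# Matrix side of the conjugation invariance of cusp sums (S41 / LR, stream S2 (F))

`G = SL(2,ℤ)`, `D` an integer matrix of nonzero determinant.  For `x ∈ G` there is `y ∈ G` with
`y D x⁻¹` upper triangular (`lr_cm_hermite`); `y` is unique up to `⟨T⟩` (`lr_cm_unique`); conjugation
by `D` maps the parabolic element `x⁻¹ T^n x` to `y⁻¹ T^k y` with `k d = n a` (`lr_cm_key`).
-/

set_option autoImplicit false

open scoped MatrixGroups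
open ModularGroup Matrix

namespace LR

theorem lr_cm_inv_mul (x : SL(2,ℤ)) :
    ((x⁻¹ : SL(2,ℤ)) : Matrix (Fin 2) (Fin 2) ℤ) * (x : Matrix (Fin 2) (Fin 2) ℤ) = 1 :=
  congrArg Subtype.val (inv_mul_cancel x)

theorem lr_cm_mul_inv (x : SL(2,ℤ)) :
    (x : Matrix (Fin 2) (Fin 2) ℤ) * ((x⁻¹ : SL(2,ℤ)) : Matrix (Fin 2) (Fin 2) ℤ) = 1 :=
  congrArg Subtype.val (mul_inv_cancel x)

/-- right cancellation of an element of `SL(2,ℤ)` -/
theorem lr_cm_cancel_right {A B : Matrix (Fin 2) (Fin 2) ℤ} (x : SL(2,ℤ))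
    (h : A * (x : Matrix (Fin 2) (Fin 2) ℤ) = B * (x : Matrix (Fin 2) (Fin 2) ℤ)) : A = B := by
  have h2 := congrArg (· * ((x⁻¹ : SL(2,ℤ)) : Matrix (Fin 2) (Fin 2) ℤ)) h
  simpa only [Matrix.mul_assoc, lr_cm_mul_inv, Matrix.mul_one] using h2

/-- Hermite normal form by row operations: a `2 × 2` integer matrix of nonzero determinant -/
theorem lr_cm_hermite_aux (M : Matrix (Fin 2) (Fin 2) ℤ) (hM : M.det ≠ 0) :
    ∃ (y : SL(2,ℤ)) (a b d : ℤ), 0 < a ∧ a * d = M.det ∧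
      (y : Matrix (Fin 2) (Fin 2) ℤ) * M = !![a, b; 0, d] := by
  have hg : 0 < Int.gcd (M 0 0) (M 1 0) := by
    rw [Int.gcd_pos_iff]
    by_contra h
    push Not at h
    apply hM
    rw [Matrix.det_fin_two, h.1, h.2]
    ring
  obtain ⟨p, r, hpr, hp, hr⟩ := Int.exists_gcd_one hg
  obtain ⟨u, v, huv⟩ := Int.isCoprime_iff_gcd_eq_one.mpr hpr
  set g : ℤ := (Int.gcd (M 0 0) (M 1 0) : ℤ) with hgdef
  have hg' : 0 < g := Int.natCast_pos.mpr hg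
  refine ⟨⟨!![u, v; -r, p], by rw [Matrix.det_fin_two_of]; linarith⟩, g,
    u * M 0 1 + v * M 1 1, -r * M 0 1 + p * M 1 1, hg', ?_, ?_⟩
  · rw [Matrix.det_fin_two, hp, hr]
    ring
  · ext i j
    fin_cases i <;> fin_cases j
    · simp only [Matrix.mul_apply, Fin.sum_univ_two, Fin.zero_eta, Matrix.of_apply,
        Matrix.cons_val', Matrix.cons_val_zero, Matrix.cons_val_one, Matrix.cons_val_fin_one]
      rw [hp, hr]
      linear_combination g * huv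
    · simp [Matrix.mul_apply, Fin.sum_univ_two]
    · simp only [Matrix.mul_apply, Fin.sum_univ_two, Fin.zero_eta, Fin.mk_one, Matrix.of_apply,
        Matrix.cons_val', Matrix.cons_val_zero, Matrix.cons_val_one, Matrix.cons_val_fin_one]
      rw [hp, hr]
      ring
    · simp [Matrix.mul_apply, Fin.sum_univ_two]

/-- **(M1)** for every `x` there is `y` with `y D x⁻¹` upper triangular with positive first
diagonal entry -/
theorem lr_cm_hermite (D : Matrix (Fin 2) (Fin 2) ℤ) (hD : D.det ≠ 0) (x : SL(2,ℤ)) :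
    ∃ (y : SL(2,ℤ)) (a b d : ℤ), 0 < a ∧ a * d = D.det ∧
      (y : Matrix (Fin 2) (Fin 2) ℤ) * D = !![a, b; 0, d] * (x : Matrix (Fin 2) (Fin 2) ℤ) := by
  have hdet : (D * ((x⁻¹ : SL(2,ℤ)) : Matrix (Fin 2) (Fin 2) ℤ)).det = D.det := by
    rw [Matrix.det_mul, show ((x⁻¹ : SL(2,ℤ)) : Matrix (Fin 2) (Fin 2) ℤ).det = 1 from (x⁻¹).2,
      mul_one]
  obtain ⟨y, a, b, d, ha, had, h⟩ :=
    lr_cm_hermite_aux (D * ((x⁻¹ : SL(2,ℤ)) : Matrix (Fin 2) (Fin 2) ℤ)) (by rw [hdet]; exact hD)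
  refine ⟨y, a, b, d, ha, by rw [had, hdet], ?_⟩
  rw [← h, Matrix.mul_assoc, Matrix.mul_assoc, lr_cm_inv_mul, Matrix.mul_one]

/-- **(M2)** conjugation by `D` maps the parabolic element `x⁻¹ T^n x` to `y⁻¹ T^k y`,
`k d = n a` -/
theorem lr_cm_key {D : Matrix (Fin 2) (Fin 2) ℤ} {x y : SL(2,ℤ)} {a b d : ℤ} (ha : a ≠ 0)
    (hd : d ≠ 0)
    (hxy : (y : Matrix (Fin 2) (Fin 2) ℤ) * D = !![a, b; 0, d] * (x : Matrix (Fin 2) (Fin 2) ℤ))
    (n : ℤ) (π : SL(2,ℤ))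
    (hπ : D * ((x⁻¹ * T ^ n * x : SL(2,ℤ)) : Matrix (Fin 2) (Fin 2) ℤ) =
      (π : Matrix (Fin 2) (Fin 2) ℤ) * D) :
    ∃ k : ℤ, k * d = n * a ∧ π = y⁻¹ * T ^ k * y := by
  set M : SL(2,ℤ) := y * π * y⁻¹ with hM
  have hMy : (M : Matrix (Fin 2) (Fin 2) ℤ) * (y : Matrix (Fin 2) (Fin 2) ℤ) =
      (y : Matrix (Fin 2) (Fin 2) ℤ) * (π : Matrix (Fin 2) (Fin 2) ℤ) :=
    congrArg Subtype.val (show M * y = y * π by rw [hM]; group)
  have h1 : (M : Matrix (Fin 2) (Fin 2) ℤ) * !![a, b; 0, d] =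
      !![a, b; 0, d] * ((T ^ n : SL(2,ℤ)) : Matrix (Fin 2) (Fin 2) ℤ) := by
    apply lr_cm_cancel_right x
    calc (M : Matrix (Fin 2) (Fin 2) ℤ) * !![a, b; 0, d] * (x : Matrix (Fin 2) (Fin 2) ℤ)
        = (M : Matrix (Fin 2) (Fin 2) ℤ) * ((y : Matrix (Fin 2) (Fin 2) ℤ) * D) := by
          rw [hxy, Matrix.mul_assoc]
      _ = (y : Matrix (Fin 2) (Fin 2) ℤ) * ((π : Matrix (Fin 2) (Fin 2) ℤ) * D) := by
          rw [← Matrix.mul_assoc, hMy, Matrix.mul_assoc]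
      _ = (y : Matrix (Fin 2) (Fin 2) ℤ) * D *
            ((x⁻¹ * T ^ n * x : SL(2,ℤ)) : Matrix (Fin 2) (Fin 2) ℤ) := by
          rw [← hπ, Matrix.mul_assoc]
      _ = !![a, b; 0, d] * ((T ^ n : SL(2,ℤ)) : Matrix (Fin 2) (Fin 2) ℤ) *
            (x : Matrix (Fin 2) (Fin 2) ℤ) := by
          rw [hxy]
          show !![a, b; 0, d] * (x : Matrix (Fin 2) (Fin 2) ℤ) *
            (((x⁻¹ : SL(2,ℤ)) : Matrix (Fin 2) (Fin 2) ℤ) *
              ((T ^ n : SL(2,ℤ)) : Matrix (Fin 2) (Fin 2) ℤ) * (x : Matrix (Fin 2) (Fin 2) ℤ)) = _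
          simp only [Matrix.mul_assoc]
          rw [← Matrix.mul_assoc (x : Matrix (Fin 2) (Fin 2) ℤ), lr_cm_mul_inv, Matrix.one_mul]
  rw [ModularGroup.coe_T_zpow] at h1
  have h00 := congrFun (congrFun h1 0) 0
  have h01 := congrFun (congrFun h1 0) 1
  have h10 := congrFun (congrFun h1 1) 0
  have h11 := congrFun (congrFun h1 1) 1
  simp only [Matrix.mul_apply, Fin.sum_univ_two, Matrix.of_apply, Matrix.cons_val',
    Matrix.cons_val_zero, Matrix.cons_val_one, Matrix.cons_val_fin_one, mul_zero, add_zero,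
    mul_one] at h00 h01 h10 h11
  have e10 : (M : Matrix (Fin 2) (Fin 2) ℤ) 1 0 = 0 := by
    rcases mul_eq_zero.mp h10 with h | h
    · exact h
    · exact absurd h ha
  have e00 : (M : Matrix (Fin 2) (Fin 2) ℤ) 0 0 = 1 := by
    have h2 : ((M : Matrix (Fin 2) (Fin 2) ℤ) 0 0 - 1) * a = 0 := by linear_combination h00
    rcases mul_eq_zero.mp h2 with h | h
    · linarith
    · exact absurd h ha
  have e11 : (M : Matrix (Fin 2) (Fin 2) ℤ) 1 1 = 1 := by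
    rw [e10] at h11
    have h2 : ((M : Matrix (Fin 2) (Fin 2) ℤ) 1 1 - 1) * d = 0 := by linear_combination h11
    rcases mul_eq_zero.mp h2 with h | h
    · linarith
    · exact absurd h hd
  have e01 : (M : Matrix (Fin 2) (Fin 2) ℤ) 0 1 * d = n * a := by
    rw [e00] at h01
    linear_combination h01
  refine ⟨(M : Matrix (Fin 2) (Fin 2) ℤ) 0 1, e01, ?_⟩
  have hMT : M = T ^ ((M : Matrix (Fin 2) (Fin 2) ℤ) 0 1) := by
    apply Subtype.ext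
    rw [ModularGroup.coe_T_zpow]
    ext i j
    fin_cases i <;> fin_cases j
    · exact e00
    · rfl
    · exact e10
    · exact e11
  rw [← hMT, hM]
  group

/-- **(M3)** uniqueness of `y` up to `⟨T⟩` (for the normalisation `a > 0`) -/
theorem lr_cm_unique {D : Matrix (Fin 2) (Fin 2) ℤ} {x y y₂ : SL(2,ℤ)} {a b d a₂ b₂ d₂ : ℤ}
    (h1 : (y : Matrix (Fin 2) (Fin 2) ℤ) * D = !![a, b; 0, d] * (x : Matrix (Fin 2) (Fin 2) ℤ))
    (h2 : (y₂ : Matrix (Fin 2) (Fin 2) ℤ) * D =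
      !![a₂, b₂; 0, d₂] * (x : Matrix (Fin 2) (Fin 2) ℤ))
    (ha : 0 < a) (ha₂ : 0 < a₂) :
    ∃ j : ℤ, y₂ = T ^ j * y ∧ a₂ = a ∧ d₂ = d := by
  set M : SL(2,ℤ) := y₂ * y⁻¹ with hM
  have hMy : (M : Matrix (Fin 2) (Fin 2) ℤ) * (y : Matrix (Fin 2) (Fin 2) ℤ) =
      (y₂ : Matrix (Fin 2) (Fin 2) ℤ) :=
    congrArg Subtype.val (show M * y = y₂ by rw [hM]; group)
  have h3 : (M : Matrix (Fin 2) (Fin 2) ℤ) * !![a, b; 0, d] = !![a₂, b₂; 0, d₂] := by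
    apply lr_cm_cancel_right x
    rw [Matrix.mul_assoc, ← h1, ← Matrix.mul_assoc, hMy, h2]
  have h00 := congrFun (congrFun h3 0) 0
  have h10 := congrFun (congrFun h3 1) 0
  have h11 := congrFun (congrFun h3 1) 1
  simp only [Matrix.mul_apply, Fin.sum_univ_two, Matrix.of_apply, Matrix.cons_val',
    Matrix.cons_val_zero, Matrix.cons_val_one, Matrix.cons_val_fin_one, mul_zero, add_zero]
    at h00 h10 h11
  have e10 : (M : Matrix (Fin 2) (Fin 2) ℤ) 1 0 = 0 := by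
    rcases mul_eq_zero.mp h10 with h | h
    · exact h
    · exact absurd h ha.ne'
  have hdet : (M : Matrix (Fin 2) (Fin 2) ℤ) 0 0 * (M : Matrix (Fin 2) (Fin 2) ℤ) 1 1 = 1 := by
    have h4 : (M : Matrix (Fin 2) (Fin 2) ℤ).det = 1 := M.2
    rw [Matrix.det_fin_two, e10] at h4
    linarith
  have e00 : (M : Matrix (Fin 2) (Fin 2) ℤ) 0 0 = 1 ∧ (M : Matrix (Fin 2) (Fin 2) ℤ) 1 1 = 1 := by
    rcases Int.eq_one_or_neg_one_of_mul_eq_one' hdet with h | h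
    · exact h
    · exfalso
      rw [h.1] at h00
      linarith
  rw [e00.1] at h00
  rw [e10, e00.2] at h11
  refine ⟨(M : Matrix (Fin 2) (Fin 2) ℤ) 0 1, ?_, by linarith, by linarith⟩
  have hMT : M = T ^ ((M : Matrix (Fin 2) (Fin 2) ℤ) 0 1) := by
    apply Subtype.ext
    rw [ModularGroup.coe_T_zpow]
    ext i j
    fin_cases i <;> fin_cases j
    · exact e00.1
    · rfl
    · exact e10
    · exact e00.2
  rw [← hMT, hM]
  group

/-- **(M4)** invariance of the relation under `x ↦ T^k x γ'`, `y ↦ T^j y γ''` -/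
theorem lr_cm_invar {D : Matrix (Fin 2) (Fin 2) ℤ} {x y : SL(2,ℤ)} {a b d : ℤ}
    (hxy : (y : Matrix (Fin 2) (Fin 2) ℤ) * D = !![a, b; 0, d] * (x : Matrix (Fin 2) (Fin 2) ℤ))
    (γ' γ'' : SL(2,ℤ))
    (hγ : D * (γ' : Matrix (Fin 2) (Fin 2) ℤ) = (γ'' : Matrix (Fin 2) (Fin 2) ℤ) * D) (j k : ℤ) :
    ((T ^ j * y * γ'' : SL(2,ℤ)) : Matrix (Fin 2) (Fin 2) ℤ) * D =
      !![a, b + j * d - k * a; 0, d] *
        ((T ^ k * x * γ' : SL(2,ℤ)) : Matrix (Fin 2) (Fin 2) ℤ) := by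
  have hβ : ((T ^ j : SL(2,ℤ)) : Matrix (Fin 2) (Fin 2) ℤ) * !![a, b; 0, d] =
      !![a, b + j * d - k * a; 0, d] * ((T ^ k : SL(2,ℤ)) : Matrix (Fin 2) (Fin 2) ℤ) := by
    rw [ModularGroup.coe_T_zpow, ModularGroup.coe_T_zpow]
    ext i' j'
    fin_cases i' <;> fin_cases j' <;>
      simp [Matrix.mul_apply, Fin.sum_univ_two]
    ring
  show ((T ^ j : SL(2,ℤ)) : Matrix (Fin 2) (Fin 2) ℤ) * (y : Matrix (Fin 2) (Fin 2) ℤ) *
      (γ'' : Matrix (Fin 2) (Fin 2) ℤ) * D =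
    !![a, b + j * d - k * a; 0, d] * (((T ^ k : SL(2,ℤ)) : Matrix (Fin 2) (Fin 2) ℤ) *
      (x : Matrix (Fin 2) (Fin 2) ℤ) * (γ' : Matrix (Fin 2) (Fin 2) ℤ))
  calc ((T ^ j : SL(2,ℤ)) : Matrix (Fin 2) (Fin 2) ℤ) * (y : Matrix (Fin 2) (Fin 2) ℤ) *
        (γ'' : Matrix (Fin 2) (Fin 2) ℤ) * D
      = ((T ^ j : SL(2,ℤ)) : Matrix (Fin 2) (Fin 2) ℤ) * ((y : Matrix (Fin 2) (Fin 2) ℤ) * D) *
          (γ' : Matrix (Fin 2) (Fin 2) ℤ) := by
        simp only [Matrix.mul_assoc]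
        rw [hγ]
    _ = ((T ^ j : SL(2,ℤ)) : Matrix (Fin 2) (Fin 2) ℤ) * !![a, b; 0, d] *
          (x : Matrix (Fin 2) (Fin 2) ℤ) * (γ' : Matrix (Fin 2) (Fin 2) ℤ) := by
        rw [hxy]
        simp only [Matrix.mul_assoc]
    _ = _ := by
        rw [hβ]
        simp only [Matrix.mul_assoc]

/-- the determinant of `D` from the triangular relation -/
theorem lr_cm_det {D : Matrix (Fin 2) (Fin 2) ℤ} {x y : SL(2,ℤ)} {a b d : ℤ}
    (hxy : (y : Matrix (Fin 2) (Fin 2) ℤ) * D = !![a, b; 0, d] * (x : Matrix (Fin 2) (Fin 2) ℤ)) :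
    D.det = a * d := by
  have h := congrArg Matrix.det hxy
  rw [Matrix.det_mul, Matrix.det_mul, show (y : Matrix (Fin 2) (Fin 2) ℤ).det = 1 from y.2,
    show (x : Matrix (Fin 2) (Fin 2) ℤ).det = 1 from x.2, one_mul, mul_one,
    Matrix.det_fin_two_of] at h
  linarith

/-- **(M5)** symmetry: the same relation for the adjugate of `D`, with `x` and `y` swapped -/
theorem lr_cm_symm {D : Matrix (Fin 2) (Fin 2) ℤ} {x y : SL(2,ℤ)} {a b d : ℤ} (had : a * d ≠ 0)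
    (hxy : (y : Matrix (Fin 2) (Fin 2) ℤ) * D = !![a, b; 0, d] * (x : Matrix (Fin 2) (Fin 2) ℤ)) :
    (x : Matrix (Fin 2) (Fin 2) ℤ) * D.adjugate =
      !![d, -b; 0, a] * (y : Matrix (Fin 2) (Fin 2) ℤ) := by
  have hdet : D.det = a * d := lr_cm_det hxy
  have h1 : !![d, -b; 0, a] * !![a, b; 0, d] = (a * d) • (1 : Matrix (Fin 2) (Fin 2) ℤ) := by
    ext i j
    fin_cases i <;> fin_cases j <;>
      simp [Matrix.mul_apply, Fin.sum_univ_two] <;> ring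
  have h2 : (a * d) • (!![d, -b; 0, a] * (y : Matrix (Fin 2) (Fin 2) ℤ)) =
      (a * d) • ((x : Matrix (Fin 2) (Fin 2) ℤ) * D.adjugate) := by
    calc (a * d) • (!![d, -b; 0, a] * (y : Matrix (Fin 2) (Fin 2) ℤ))
        = !![d, -b; 0, a] * (y : Matrix (Fin 2) (Fin 2) ℤ) * (D * D.adjugate) := by
          rw [Matrix.mul_adjugate, hdet, Matrix.mul_smul, Matrix.mul_one]
      _ = !![d, -b; 0, a] * ((y : Matrix (Fin 2) (Fin 2) ℤ) * D) * D.adjugate := by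
          simp only [Matrix.mul_assoc]
      _ = (!![d, -b; 0, a] * !![a, b; 0, d]) * (x : Matrix (Fin 2) (Fin 2) ℤ) * D.adjugate := by
          rw [hxy]
          simp only [Matrix.mul_assoc]
      _ = (a * d) • ((x : Matrix (Fin 2) (Fin 2) ℤ) * D.adjugate) := by
          rw [h1, Matrix.smul_mul, Matrix.one_mul, Matrix.smul_mul]
  exact (smul_right_injective _ had h2).symm

/-- the conjugation relation for the adjugate -/
theorem lr_cm_conj_symm {D A B : Matrix (Fin 2) (Fin 2) ℤ} (hD : D.det ≠ 0)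
    (h : D * A = B * D) : D.adjugate * B = A * D.adjugate := by
  have h2 : D.det • (D.adjugate * B) = D.det • (A * D.adjugate) := by
    calc D.det • (D.adjugate * B) = D.adjugate * B * (D * D.adjugate) := by
          rw [Matrix.mul_adjugate, Matrix.mul_smul, Matrix.mul_one]
      _ = D.adjugate * (B * D) * D.adjugate := by simp only [Matrix.mul_assoc]
      _ = (D.adjugate * D) * A * D.adjugate := by
          rw [← h]
          simp only [Matrix.mul_assoc]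
      _ = D.det • (A * D.adjugate) := by
          rw [Matrix.adjugate_mul, Matrix.smul_mul, Matrix.one_mul, Matrix.smul_mul]
  exact smul_right_injective _ hD h2

/-- **(M6)** the width relation, and the image of the primitive parabolic element -/
theorem lr_cm_width {D : Matrix (Fin 2) (Fin 2) ℤ} {Γ' Γ'' : Subgroup SL(2,ℤ)} (e : Γ' ≃* Γ'')
    (he : ∀ γ : Γ', D * ((γ : SL(2,ℤ)) : Matrix (Fin 2) (Fin 2) ℤ) =
      ((e γ : SL(2,ℤ)) : Matrix (Fin 2) (Fin 2) ℤ) * D)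
    {x y : SL(2,ℤ)} {a b d : ℤ} (ha : 0 < a) (hd : 0 < d)
    (hxy : (y : Matrix (Fin 2) (Fin 2) ℤ) * D = !![a, b; 0, d] * (x : Matrix (Fin 2) (Fin 2) ℤ))
    {h' h'' : ℕ} (hh' : 0 < h') (hh'' : 0 < h'')
    (H' : ∀ n : ℤ, x⁻¹ * T ^ n * x ∈ Γ' ↔ (h' : ℤ) ∣ n)
    (H'' : ∀ k : ℤ, y⁻¹ * T ^ k * y ∈ Γ'' ↔ (h'' : ℤ) ∣ k) :
    (h'' : ℤ) * d = h' * a ∧
      ∀ hm : x⁻¹ * T ^ (h' : ℤ) * x ∈ Γ',
        ((e ⟨_, hm⟩ : Γ'') : SL(2,ℤ)) = y⁻¹ * T ^ (h'' : ℤ) * y := by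
  have hDdet : D.det ≠ 0 := by
    rw [lr_cm_det hxy]
    exact (mul_pos ha hd).ne'
  have hm₁ : x⁻¹ * T ^ (h' : ℤ) * x ∈ Γ' := (H' _).mpr dvd_rfl
  obtain ⟨k₁, hk₁, hek₁⟩ := lr_cm_key ha.ne' hd.ne' hxy (h' : ℤ) (e ⟨_, hm₁⟩ : Γ'') (he ⟨_, hm₁⟩)
  have hk₁mem : y⁻¹ * T ^ k₁ * y ∈ Γ'' := by
    rw [← hek₁]
    exact (e ⟨_, hm₁⟩).2
  obtain ⟨u, hu⟩ := (H'' k₁).mp hk₁mem
  have hm₂ : y⁻¹ * T ^ (h'' : ℤ) * y ∈ Γ'' := (H'' _).mpr dvd_rfl
  have hsymm := lr_cm_symm (mul_pos ha hd).ne' hxy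
  have he₂ : D.adjugate * ((y⁻¹ * T ^ (h'' : ℤ) * y : SL(2,ℤ)) : Matrix (Fin 2) (Fin 2) ℤ) =
      ((e.symm ⟨_, hm₂⟩ : Γ') : Matrix (Fin 2) (Fin 2) ℤ) * D.adjugate := by
    apply lr_cm_conj_symm hDdet
    have h5 := he (e.symm ⟨_, hm₂⟩)
    rw [MulEquiv.apply_symm_apply] at h5
    exact h5
  obtain ⟨n₁, hn₁, hen₁⟩ := lr_cm_key hd.ne' ha.ne' hsymm (h'' : ℤ) (e.symm ⟨_, hm₂⟩ : Γ') he₂
  have hn₁mem : x⁻¹ * T ^ n₁ * x ∈ Γ' := by
    rw [← hen₁]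
    exact (e.symm ⟨_, hm₂⟩).2
  obtain ⟨v, hv⟩ := (H' n₁).mp hn₁mem
  -- `k₁ d = h' a`, `k₁ = h'' u`, `n₁ a = h'' d`, `n₁ = h' v`
  have hh'Z : (0 : ℤ) < h' := by exact_mod_cast hh'
  have hh''Z : (0 : ℤ) < h'' := by exact_mod_cast hh''
  have huv : u * v = 1 := by
    have h6 : (h' : ℤ) * h'' * a * d * (u * v) = (h' : ℤ) * h'' * a * d := by
      have e1 : (h'' : ℤ) * u * d = h' * a := by rw [← hu]; exact hk₁
      have e2 : (h' : ℤ) * v * a = h'' * d := by rw [← hv]; exact hn₁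
      linear_combination (h' : ℤ) * v * a * e1 + (h' : ℤ) * a * e2
    have h7 : (h' : ℤ) * h'' * a * d ≠ 0 :=
      (mul_pos (mul_pos (mul_pos hh'Z hh''Z) ha) hd).ne'
    exact mul_left_cancel₀ h7 (by rw [h6, mul_one])
  have hu1 : u = 1 := by
    rcases Int.eq_one_or_neg_one_of_mul_eq_one' huv with h | h
    · exact h.1
    · exfalso
      have e1 : (h'' : ℤ) * u * d = h' * a := by rw [← hu]; exact hk₁
      rw [h.1] at e1
      have p1 : 0 < (h' : ℤ) * a := mul_pos hh'Z ha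
      have p2 : 0 < (h'' : ℤ) * d := mul_pos hh''Z hd
      linarith
  have hk₁eq : k₁ = h'' := by rw [hu, hu1, mul_one]
  refine ⟨by rw [← hk₁eq]; exact hk₁, fun hm => ?_⟩
  rw [← hk₁eq]
  exact hek₁

/-- **(M7)** the period predicate: `x⁻¹ T^n x ∈ Γ` iff the minimal period of `T` at `xΓ`
divides `n` -/
theorem lr_cm_per (Γ : Subgroup SL(2,ℤ)) (x : SL(2,ℤ)) (n : ℤ) :
    x⁻¹ * T ^ n * x ∈ Γ ↔
      (Function.minimalPeriod (fun q : SL(2,ℤ) ⧸ Γ => T • q) (x : SL(2,ℤ) ⧸ Γ) : ℤ) ∣ n := by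
  rw [← MulAction.zpow_smul_eq_iff_minimalPeriod_dvd]
  have h1 : T ^ n • (x : SL(2,ℤ) ⧸ Γ) = ((T ^ n * x : SL(2,ℤ)) : SL(2,ℤ) ⧸ Γ) := rfl
  rw [h1, eq_comm, QuotientGroup.eq, mul_assoc]

end LR
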