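/-
S41 (level raising), Ihara's lemma, leaf L1: the cyclic lemma.

`LR.lr_cyc_lemma`: a function `F` on the units of `ZMod r` (`r` prime) with `F 1 = 0`, additive
against one element `w ≠ 1`, and satisfying the four-term relations
`F (x y) - F y = F (x y e) - F (y e)` with `e = (1 - x) / (w - x)` for all `x ∉ {1, w}`,
is a homomorphism.
-/
import Mathlib

set_option autoImplicit false

namespace LR

theorem lr_cyc_lemma {r : ℕ} [Fact r.Prime] {A : Type*} [AddCommGroup A] (F : (ZMod r)ˣ → A)
    (w : (ZMod r)ˣ) (hw : w ≠ 1) (h1 : F 1 = 0) (hwm : ∀ y, F (w * y) = F w + F y)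
    (hc : ∀ x y e : (ZMod r)ˣ, x ≠ 1 → x ≠ w →
      (e : ZMod r) * ((w : ZMod r) - (x : ZMod r)) = 1 - (x : ZMod r) →
      F (x * y) - F y = F (x * y * e) - F (y * e)) :
    ∀ x y, F (x * y) = F x + F y := by
  classical
  set D : (ZMod r)ˣ → (ZMod r)ˣ → A := fun x y => F (x * y) - F x - F y with hD
  have hsymm : ∀ x y, D x y = D y x := by
    intro x y
    simp only [hD, mul_comm x y]
    abel
  have hcoc : ∀ x y z, D x (y * z) + D y z = D (x * y) z + D x y := by
    intro x y z
    simp only [hD, mul_assoc]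
    abel
  have hD1 : ∀ y, D 1 y = 0 := by
    intro y
    simp [hD, h1]
  have hD1' : ∀ x, D x 1 = 0 := fun x => by rw [hsymm, hD1]
  -- the radical of `D`
  let K : Subgroup (ZMod r)ˣ :=
    { carrier := {x | ∀ y, D x y = 0}
      mul_mem' := by
        intro x x' hx hx' y
        have h := hcoc x x' y
        rw [hx (x' * y), hx' y, hx x', add_zero, add_zero] at h
        exact h.symm
      one_mem' := hD1
      inv_mem' := by
        intro x hx y
        have h := hcoc x x⁻¹ y
        rw [hx (x⁻¹ * y), hx x⁻¹, mul_inv_cancel, hD1 y, zero_add, add_zero] at h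
        exact h }
  have hKmem : ∀ x, x ∈ K ↔ ∀ y, D x y = 0 := fun x => Iff.rfl
  have hwK : w ∈ K := by
    intro y
    simp [hD, hwm y]
  -- the stabiliser of `D x ·`
  let S : (ZMod r)ˣ → Subgroup (ZMod r)ˣ := fun x =>
    { carrier := {z | ∀ y, D x (y * z) = D x y}
      mul_mem' := by
        intro z z' hz hz' y
        rw [← mul_assoc, hz' (y * z), hz y]
      one_mem' := by
        intro y
        rw [mul_one]
      inv_mem' := by
        intro z hz y
        have h := hz (y * z⁻¹)
        rw [inv_mul_cancel_right] at h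
        exact h.symm }
  have hSmem : ∀ x z, z ∈ S x ↔ ∀ y, D x (y * z) = D x y := fun x z => Iff.rfl
  have hKS : ∀ x, K ≤ S x := by
    intro x k hk y
    have h := hcoc x y k
    have e1 : D y k = 0 := by rw [hsymm]; exact hk y
    have e2 : D (x * y) k = 0 := by rw [hsymm]; exact hk (x * y)
    rw [e1, e2, add_zero, zero_add] at h
    exact h
  have heS : ∀ x e : (ZMod r)ˣ, x ≠ 1 → x ≠ w →
      (e : ZMod r) * ((w : ZMod r) - (x : ZMod r)) = 1 - (x : ZMod r) → e ∈ S x := by
    intro x e hx1 hxw he y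
    have h := hc x y e hx1 hxw he
    show F (x * (y * e)) - F x - F (y * e) = F (x * y) - F x - F y
    rw [← mul_assoc]
    have h' : F (x * y * e) - F (y * e) = F (x * y) - F y := h.symm
    calc F (x * y * e) - F x - F (y * e) = (F (x * y * e) - F (y * e)) - F x := by abel
      _ = (F (x * y) - F y) - F x := by rw [h']
      _ = F (x * y) - F x - F y := by abel
  have hStop : ∀ x, S x = ⊤ → x ∈ K := by
    intro x hx y
    have hy : y ∈ S x := by rw [hx]; exact Subgroup.mem_top y
    have h := hy 1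
    rw [one_mul, hD1'] at h
    exact h
  -- the Moebius map
  have hne : ∀ x : (ZMod r)ˣ, x ≠ 1 → x ≠ w →
      (1 - (x : ZMod r)) / ((w : ZMod r) - (x : ZMod r)) ≠ 0 := by
    intro x hx1 hxw
    apply div_ne_zero
    · intro h
      apply hx1
      apply Units.ext
      rw [Units.val_one]
      exact (sub_eq_zero.mp h).symm
    · intro h
      apply hxw
      apply Units.ext
      exact (sub_eq_zero.mp h).symm
  let efun : (ZMod r)ˣ → (ZMod r)ˣ := fun x =>
    if h : x ≠ 1 ∧ x ≠ w then Units.mk0 _ (hne x h.1 h.2) else 1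
  have hefun : ∀ x : (ZMod r)ˣ, x ≠ 1 → x ≠ w →
      ((efun x : (ZMod r)ˣ) : ZMod r) * ((w : ZMod r) - (x : ZMod r)) = 1 - (x : ZMod r) := by
    intro x hx1 hxw
    have hwx : (w : ZMod r) - (x : ZMod r) ≠ 0 := by
      intro h
      apply hxw
      apply Units.ext
      exact (sub_eq_zero.mp h).symm
    simp only [efun, dif_pos (And.intro hx1 hxw), Units.val_mk0]
    exact div_mul_cancel₀ _ hwx
  have hw1 : (w : ZMod r) ≠ 1 := by
    intro h
    apply hw
    apply Units.ext
    rw [Units.val_one]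
    exact h
  have hefun1 : ∀ x : (ZMod r)ˣ, x ≠ 1 → x ≠ w → efun x ≠ 1 := by
    intro x hx1 hxw h
    have h2 := hefun x hx1 hxw
    rw [h, Units.val_one, one_mul] at h2
    apply hw1
    have := sub_left_injective h2
    exact this
  have hefun_inj : ∀ x x' : (ZMod r)ˣ, x ≠ 1 → x ≠ w → x' ≠ 1 → x' ≠ w →
      efun x = efun x' → x = x' := by
    intro x x' hx1 hxw hx1' hxw' h
    have h2 := hefun x hx1 hxw
    have h2' := hefun x' hx1' hxw'
    rw [h] at h2
    -- e (w - x) = 1 - x, e (w - x') = 1 - x'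
    have hwx' : (w : ZMod r) - (x' : ZMod r) ≠ 0 := by
      intro h0
      apply hxw'
      apply Units.ext
      exact (sub_eq_zero.mp h0).symm
    have key : ((x : ZMod r) - (x' : ZMod r)) * (1 - (w : ZMod r)) = 0 := by
      have e3 : (1 - (x : ZMod r)) * ((w : ZMod r) - (x' : ZMod r)) =
          (1 - (x' : ZMod r)) * ((w : ZMod r) - (x : ZMod r)) := by
        rw [← h2, ← h2']
        ring
      linear_combination e3
    rcases mul_eq_zero.mp key with h3 | h3
    · apply Units.ext
      exact sub_eq_zero.mp h3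
    · exact absurd (sub_eq_zero.mp h3).symm hw1
  -- counting
  have hKtop : K = ⊤ := by
    by_contra hK
    obtain ⟨g, hg⟩ := IsCyclic.exists_generator (α := (ZMod r)ˣ)
    have hgtop : ∀ H : Subgroup (ZMod r)ˣ, g ∈ H → H = ⊤ := by
      intro H hgH
      rw [eq_top_iff]
      intro z _
      obtain ⟨n, rfl⟩ := Subgroup.mem_zpowers_iff.mp (hg z)
      exact H.zpow_mem hgH n
    have hgK : g ∉ K := fun h => hK (hgtop K h)
    have hginvK : g⁻¹ ∉ K := fun h => hgK (by simpa using K.inv_mem h)
    let s : Finset (ZMod r)ˣ := Finset.univ.filter (fun x => x ∉ K)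
    have hs : ∀ x, x ∈ s ↔ x ∉ K := by
      intro x
      simp [s]
    have hxs : ∀ x, x ∉ K → x ≠ 1 ∧ x ≠ w := by
      intro x hx
      exact ⟨fun h => hx (h ▸ K.one_mem), fun h => hx (h ▸ hwK)⟩
    have hmaps : ∀ x ∈ s, g⁻¹ * efun x ∈ s.erase g⁻¹ := by
      intro x hx
      rw [hs] at hx
      obtain ⟨hx1, hxw⟩ := hxs x hx
      rw [Finset.mem_erase, hs]
      refine ⟨?_, ?_⟩
      · intro h
        exact hefun1 x hx1 hxw (by simpa using h)
      · intro h
        apply hx
        apply hStop
        apply hgtop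
        have he : efun x ∈ S x := heS x (efun x) hx1 hxw (hefun x hx1 hxw)
        have hk : (g⁻¹ * efun x)⁻¹ ∈ S x := (S x).inv_mem (hKS x h)
        have : g = efun x * (g⁻¹ * efun x)⁻¹ := by
          rw [mul_inv_rev, inv_inv, mul_inv_cancel_left]
        rw [this]
        exact (S x).mul_mem he hk
    have hinj : Set.InjOn (fun x => g⁻¹ * efun x) (s : Set (ZMod r)ˣ) := by
      intro x hx x' hx' h
      have hx0 : x ∉ K := (hs x).mp hx
      have hx0' : x' ∉ K := (hs x').mp hx'
      obtain ⟨hx1, hxw⟩ := hxs x hx0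
      obtain ⟨hx1', hxw'⟩ := hxs x' hx0'
      exact hefun_inj x x' hx1 hxw hx1' hxw' (mul_left_cancel h)
    have hcard := Finset.card_le_card_of_injOn (fun x => g⁻¹ * efun x) hmaps hinj
    have hmem : g⁻¹ ∈ s := (hs _).mpr hginvK
    rw [Finset.card_erase_of_mem hmem] at hcard
    have hpos : 0 < s.card := Finset.card_pos.mpr ⟨_, hmem⟩
    omega
  intro x y
  have hx : x ∈ K := by rw [hKtop]; exact Subgroup.mem_top x
  have h := hx y
  have h' : F (x * y) - F x - F y = 0 := h
  rw [sub_sub, sub_eq_zero] at h'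
  exact h'

end LR
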