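import Fermat.Agent.Lib.LR_Coset
import Fermat.Agent.Lib.E16_MHecke

/-!
# S41 (level raising): the Hecke operators `T_l`, `U_l` on characters of `Γ₀(M)`

`LR.hecke M l : X M A →+ X M A` is `T_l` if the prime `l` does not divide `M` and `U_l` if it
does (and `0` if `l` is not prime).  Both are the operators of the coset systems built from the
standard representatives `[l,0;0,1]`, `[1,j;0,l]`.  The period map intertwines them with the
Hecke operators on cusp forms.
-/

set_option autoImplicit false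

namespace LR

open CongruenceSubgroup ModularCurve ModularCurve.Period CuspForm
open scoped MatrixGroups ModularForm
open Matrix.SpecialLinearGroup
open Fermat.Agent.Lib.H3 Fermat.Agent.ES Fermat.Agent.E16
open P2MW.S_ModularForm_heckeT_slash_eq_self_of_mem_Gamma0.ModularForm.HeckeSlashInvariance

/-- the integer representatives for `T_l` -/
def repT (l : ℕ) (x : OnePoint (ZMod l)) : Matrix (Fin 2) (Fin 2) ℤ :=
  x.elim !![(l : ℤ), 0; 0, 1] (fun j => !![1, (j.val : ℤ); 0, (l : ℤ)])

/-- the integer representatives for `U_l` -/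
def repU (l : ℕ) (x : ZMod l) : Matrix (Fin 2) (Fin 2) ℤ := !![1, (x.val : ℤ); 0, (l : ℤ)]

theorem repU_cast {l : ℕ} (hl0 : l ≠ 0) (x : ZMod l) :
    ((ModularForm.heckeMatrix l x.val : GL (Fin 2) ℝ) : Matrix (Fin 2) (Fin 2) ℝ) =
      (repU l x).map (Int.castRingHom ℝ) := by
  rw [ModularForm.val_heckeMatrix hl0, repU]
  ext i j
  fin_cases i <;> fin_cases j <;> simp

theorem repT_cast {l : ℕ} (hl0 : l ≠ 0) (x : OnePoint (ZMod l)) :
    ((heckeRep l x : GL (Fin 2) ℝ) : Matrix (Fin 2) (Fin 2) ℝ) =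
      (repT l x).map (Int.castRingHom ℝ) := by
  induction x using OnePoint.rec with
  | infty =>
    show ((ModularForm.heckeDiagMatrix l : GL (Fin 2) ℝ) : Matrix (Fin 2) (Fin 2) ℝ) =
      (!![(l : ℤ), 0; 0, 1] : Matrix (Fin 2) (Fin 2) ℤ).map (Int.castRingHom ℝ)
    rw [ModularForm.val_heckeDiagMatrix hl0]
    ext i j
    fin_cases i <;> fin_cases j <;> simp
  | coe y =>
    show ((ModularForm.heckeMatrix l y.val : GL (Fin 2) ℝ) : Matrix (Fin 2) (Fin 2) ℝ) =
      (!![1, (y.val : ℤ); 0, (l : ℤ)] : Matrix (Fin 2) (Fin 2) ℤ).map (Int.castRingHom ℝ)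
    rw [ModularForm.val_heckeMatrix hl0]
    ext i j
    fin_cases i <;> fin_cases j <;> simp

theorem repT_det {l : ℕ} (x : OnePoint (ZMod l)) : (repT l x).det = l := by
  induction x using OnePoint.rec with
  | infty => show (!![(l : ℤ), 0; 0, 1] : Matrix (Fin 2) (Fin 2) ℤ).det = l; simp
  | coe y => show (!![1, (y.val : ℤ); 0, (l : ℤ)] : Matrix (Fin 2) (Fin 2) ℤ).det = l; simp

theorem repU_det {l : ℕ} (x : ZMod l) : (repU l x).det = l := by simp [repU]

/-- transfer of a matrix identity from `GL(2, ℝ)` to integer matrices -/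
theorem int_of_real_mul {β β' : GL (Fin 2) ℝ} {B B' : Matrix (Fin 2) (Fin 2) ℤ}
    (hβ : (β : Matrix (Fin 2) (Fin 2) ℝ) = B.map (Int.castRingHom ℝ))
    (hβ' : (β' : Matrix (Fin 2) (Fin 2) ℝ) = B'.map (Int.castRingHom ℝ))
    {g g' : SL(2, ℤ)} (h : β * mapGL ℝ g = mapGL ℝ g' * β') :
    B * (g : Matrix (Fin 2) (Fin 2) ℤ) = (g' : Matrix (Fin 2) (Fin 2) ℤ) * B' := by
  have h := congrArg Units.val h
  rw [Units.val_mul, Units.val_mul, hβ, hβ', e16m_mapGL_coe, e16m_mapGL_coe,
    ← Matrix.map_mul, ← Matrix.map_mul] at h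
  exact Matrix.map_injective (RingHom.injective_int (Int.castRingHom ℝ)) h

theorem repU_uniq {M : ℕ} {l : ℕ} [NeZero l] (x y : ZMod l) (t : Gamma0 M)
    (h : mat t * repU l x = repU l y) : x = y := by
  have h00 := congrFun (congrFun h 0) 0
  have h01 := congrFun (congrFun h 0) 1
  simp only [repU, Matrix.mul_apply, Fin.sum_univ_two, Matrix.of_apply, Matrix.cons_val_zero,
    Matrix.cons_val_one, Matrix.cons_val', Matrix.cons_val_fin_one] at h00 h01
  have h1 : mat t 0 0 = 1 := by linarith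
  rw [h1] at h01
  have h2 : ((x.val : ℤ) : ZMod l) = ((y.val : ℤ) : ZMod l) := by
    have := congrArg (Int.cast : ℤ → ZMod l) h01
    push_cast at this
    simpa using this
  simpa using h2

theorem repT_infty (l : ℕ) : repT l OnePoint.infty = !![(l : ℤ), 0; 0, 1] := rfl

theorem repT_coe (l : ℕ) (j : ZMod l) : repT l (j : OnePoint (ZMod l)) = repU l j := rfl

theorem repT_uniq {M : ℕ} {l : ℕ} (hl : 2 ≤ l) (x y : OnePoint (ZMod l)) (t : Gamma0 M)
    (h : mat t * repT l x = repT l y) : x = y := by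
  have : NeZero l := ⟨by omega⟩
  induction x using OnePoint.rec with
  | infty =>
    induction y using OnePoint.rec with
    | infty => rfl
    | coe y =>
      exfalso
      rw [repT_infty, repT_coe, repU] at h
      have h00 := congrFun (congrFun h 0) 0
      simp only [Matrix.mul_apply, Fin.sum_univ_two, Matrix.of_apply, Matrix.cons_val_zero,
        Matrix.cons_val_one, Matrix.cons_val', Matrix.cons_val_fin_one] at h00
      have h00' : mat t 0 0 * (l : ℤ) = 1 := by linarith
      have : (l : ℤ) ∣ 1 := Dvd.intro_left _ h00'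
      have := Int.le_of_dvd one_pos this
      omega
  | coe x =>
    induction y using OnePoint.rec with
    | infty =>
      exfalso
      rw [repT_infty, repT_coe, repU] at h
      have h10 := congrFun (congrFun h 1) 0
      have h11 := congrFun (congrFun h 1) 1
      simp only [Matrix.mul_apply, Fin.sum_univ_two, Matrix.of_apply, Matrix.cons_val_zero,
        Matrix.cons_val_one, Matrix.cons_val', Matrix.cons_val_fin_one] at h10 h11
      have h10' : mat t 1 0 = 0 := by linarith
      rw [h10', zero_mul, zero_add] at h11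
      have : (l : ℤ) ∣ 1 := Dvd.intro_left _ h11
      have := Int.le_of_dvd one_pos this
      omega
    | coe y =>
      have h' : mat t * repU l x = repU l y := h
      rw [repU_uniq x y t h']

/-- the coset system of `U_l` at level `M`, `l ∣ M` -/
noncomputable def sysU (M : ℕ) {l : ℕ} [NeZero l] (hlM : l ∣ M) : CosetSys M (ZMod l) where
  A := repU l
  det_ne x := by rw [repU_det]; exact_mod_cast NeZero.ne l
  perm γ x := affinePerm (γ : SL(2, ℤ))
    ((ZMod.intCast_zmod_eq_zero_iff_dvd _ _).mpr ((Int.natCast_dvd_natCast.mpr hlM).trans (mat_dvd γ))) x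
  coc γ x := ⟨(heckeMatrix_mul_of_dvd (γ : SL(2, ℤ))
      ((Int.natCast_dvd_natCast.mpr hlM).trans (mat_dvd γ)) x).choose, by
    rw [Gamma0_mem, (heckeMatrix_mul_of_dvd (γ : SL(2, ℤ))
      ((Int.natCast_dvd_natCast.mpr hlM).trans (mat_dvd γ)) x).choose_spec.1]
    push_cast
    rw [Gamma0_mem.mp γ.2, mul_zero]⟩
  mul γ x := int_of_real_mul (repU_cast (NeZero.ne l) _) (repU_cast (NeZero.ne l) _)
    (heckeMatrix_mul_of_dvd (γ : SL(2, ℤ))
      ((Int.natCast_dvd_natCast.mpr hlM).trans (mat_dvd γ)) x).choose_spec.2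
  uniq := repU_uniq

/-- the coset system of `T_l` at level `M`, `l ∤ M` prime -/
noncomputable def sysT (M : ℕ) {l : ℕ} [Fact l.Prime] (hlM : ¬ l ∣ M) :
    CosetSys M (OnePoint (ZMod l)) where
  A := repT l
  det_ne x := by rw [repT_det]; exact_mod_cast (Fact.out : l.Prime).ne_zero
  perm γ x := redMatrix l (γ : SL(2, ℤ)) • x
  coc γ x := ⟨(heckeRep_mul hlM (γ : SL(2, ℤ)) (mat_dvd γ) x).choose,
    Gamma0_mem.mpr ((ZMod.intCast_zmod_eq_zero_iff_dvd _ _).mpr
      (heckeRep_mul hlM (γ : SL(2, ℤ)) (mat_dvd γ) x).choose_spec.1)⟩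
  mul γ x := int_of_real_mul (repT_cast (Fact.out : l.Prime).ne_zero _)
    (repT_cast (Fact.out : l.Prime).ne_zero _)
    (heckeRep_mul hlM (γ : SL(2, ℤ)) (mat_dvd γ) x).choose_spec.2
  uniq := repT_uniq (Fact.out : l.Prime).two_le

variable {A : Type*} [AddCommGroup A]

open Classical in
/-- **the Hecke operator at `l` on characters of `Γ₀(M)`**: `T_l` if the prime `l` does not
divide `M`, `U_l` if it does, `0` if `l` is not prime. -/
noncomputable def hecke (M l : ℕ) : X M A →+ X M A :=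
  if hl : l.Prime then
    haveI : Fact l.Prime := ⟨hl⟩
    if hlM : l ∣ M then (sysU M hlM).op else (sysT M hlM).op
  else 0

theorem hecke_of_not_dvd (M : ℕ) {l : ℕ} [Fact l.Prime] (hlM : ¬ l ∣ M) :
    (hecke M l : X M A →+ X M A) = (sysT M hlM).op := by
  unfold hecke
  rw [dif_pos (Fact.out : l.Prime), dif_neg hlM]

theorem hecke_of_dvd (M : ℕ) {l : ℕ} [Fact l.Prime] (hlM : l ∣ M) :
    (hecke M l : X M A →+ X M A) = (sysU M hlM).op := by
  unfold hecke
  rw [dif_pos (Fact.out : l.Prime), dif_pos hlM]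

theorem hecke_of_not_prime (M : ℕ) {l : ℕ} (hl : ¬ l.Prime) :
    (hecke M l : X M A →+ X M A) = 0 := by
  unfold hecke
  rw [dif_neg hl]

/-- naturality of `hecke` in the coefficient group -/
theorem hecke_comp {A' : Type*} [AddCommGroup A'] (M l : ℕ) (φ : A →+ A') (χ : X M A) :
    hecke M l (φ.comp χ) = φ.comp (hecke M l χ) := by
  by_cases hl : l.Prime
  · have : Fact l.Prime := ⟨hl⟩
    by_cases hlM : l ∣ M
    · rw [hecke_of_dvd (A := A) M hlM, hecke_of_dvd (A := A') M hlM]
      exact CosetSys.op_comp (sysU M hlM) φ χ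
    · rw [hecke_of_not_dvd (A := A) M hlM, hecke_of_not_dvd (A := A') M hlM]
      exact CosetSys.op_comp (sysT M hlM) φ χ
  · rw [hecke_of_not_prime (A := A) M hl, hecke_of_not_prime (A := A') M hl]
    simp

/-- **period-equivariance of `T_l`** -/
theorem periodMap_heckeT (M : ℕ) [NeZero M] {l : ℕ} (hl : l.Prime) (hlM : ¬ l ∣ M)
    (f : CuspForm (Gamma0 M) 2) :
    periodMap M (heckeTLin 2 hl hlM f) = hecke M l (periodMap M f) := by
  have : Fact l.Prime := ⟨hl⟩
  rw [hecke_of_not_dvd M hlM]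
  ext γ
  exact e16m_period_coset f (heckeTLin 2 hl hlM f) (heckeRep l)
    (fun x => (isUT_heckeRep hl.ne_zero x).det_pos)
    (by rw [CuspForm.coe_heckeTLin_apply, heckeT_eq_sum_onePoint])
    (Additive.toMul γ) (MulAction.toPerm (redMatrix l ((Additive.toMul γ : Gamma0 M) : SL(2, ℤ))))
    (fun x => (sysT M hlM).coc (Additive.toMul γ) x)
    (fun x => (heckeRep_mul hlM ((Additive.toMul γ : Gamma0 M) : SL(2, ℤ))
      (mat_dvd (Additive.toMul γ)) x).choose_spec.2)

/-- **period-equivariance of `U_l`** -/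
theorem periodMap_heckeU (M : ℕ) [NeZero M] {l : ℕ} (hl : l.Prime) (hlM : l ∣ M)
    (f : CuspForm (Gamma0 M) 2) :
    periodMap M (heckeULin 2 hlM f) = hecke M l (periodMap M f) := by
  have : Fact l.Prime := ⟨hl⟩
  rw [hecke_of_dvd M hlM]
  ext γ
  exact e16m_period_coset f (heckeULin 2 hlM f) (fun x : ZMod l => ModularForm.heckeMatrix l x.val)
    (fun x => (isUT_heckeMatrix hl.ne_zero _).det_pos)
    (by rw [CuspForm.coe_heckeULin_apply, heckeU_eq_sum_zmod])
    (Additive.toMul γ)
    (affinePerm ((Additive.toMul γ : Gamma0 M) : SL(2, ℤ))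
      ((ZMod.intCast_zmod_eq_zero_iff_dvd _ _).mpr
        ((Int.natCast_dvd_natCast.mpr hlM).trans (mat_dvd (Additive.toMul γ)))))
    (fun x => (sysU M hlM).coc (Additive.toMul γ) x)
    (fun x => (heckeMatrix_mul_of_dvd ((Additive.toMul γ : Gamma0 M) : SL(2, ℤ))
      ((Int.natCast_dvd_natCast.mpr hlM).trans (mat_dvd (Additive.toMul γ))) x).choose_spec.2)

end LR
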