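import Mathlib

/-!
# S41 / S2: combinatorial Poincaré duality for a finite set with an involution `s` and an
order-three permutation `u` (dessin / Manin-symbol model)

`X` finite, `s u : Equiv.Perm X`, `s ∘ s = 1`, `u ∘ u ∘ u = 1`, `t = s ∘ u`.
* `dlW s u`  : cocycles (antisymmetric under `s`, zero sums over `u`-orbits, zero at fixed points);
* `dlB1 s u` : coboundaries `w ∘ s - w`, `w` invariant under `t = s ∘ u`;
* `dlPair u c d` : the pairing (sum over triangles of `c(x) d(u x) - c(u x) d(x)`), written with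
  `u`-primitives: `dlPair u c d = dlBeta u ρ_c ρ_d`;
* `dl_radical` : over a field with `2 ≠ 0`, a cocycle pairing to zero with all cocycles is a
  coboundary (Poincaré duality);
* `dl_pair_pullback` : adjointness of pull-back and push-forward along an equivariant map.
-/

set_option autoImplicit false
set_option linter.unusedSectionVars false

namespace LR

section Basic

variable {X : Type*} [Fintype X] [DecidableEq X] {R : Type*} [CommRing R]

/-- cocycles -/
def dlW (s u : Equiv.Perm X) : Submodule R (X → R) where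
  carrier := {c | (∀ x, c (s x) = - c x) ∧ (∀ x, s x = x → c x = 0) ∧
    (∀ x, c x + c (u x) + c (u (u x)) = 0) ∧ (∀ x, u x = x → c x = 0)}
  zero_mem' := ⟨fun _ => by simp, fun _ _ => rfl, fun _ => by simp, fun _ _ => rfl⟩
  add_mem' := by
    rintro c d ⟨hc1, hc2, hc3, hc4⟩ ⟨hd1, hd2, hd3, hd4⟩
    refine ⟨fun x => ?_, fun x hx => ?_, fun x => ?_, fun x hx => ?_⟩
    · simp only [Pi.add_apply, hc1, hd1]; ring
    · simp only [Pi.add_apply, hc2 x hx, hd2 x hx, add_zero]
    · simp only [Pi.add_apply]; linear_combination hc3 x + hd3 x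
    · simp only [Pi.add_apply, hc4 x hx, hd4 x hx, add_zero]
  smul_mem' := by
    rintro a c ⟨hc1, hc2, hc3, hc4⟩
    refine ⟨fun x => ?_, fun x hx => ?_, fun x => ?_, fun x hx => ?_⟩
    · simp only [Pi.smul_apply, smul_eq_mul, hc1]; ring
    · simp only [Pi.smul_apply, smul_eq_mul, hc2 x hx, mul_zero]
    · simp only [Pi.smul_apply, smul_eq_mul]; linear_combination a * hc3 x
    · simp only [Pi.smul_apply, smul_eq_mul, hc4 x hx, mul_zero]

theorem mem_dlW {s u : Equiv.Perm X} {c : X → R} : c ∈ dlW (R := R) s u ↔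
    (∀ x, c (s x) = - c x) ∧ (∀ x, s x = x → c x = 0) ∧
    (∀ x, c x + c (u x) + c (u (u x)) = 0) ∧ (∀ x, u x = x → c x = 0) := Iff.rfl

/-- coboundaries: `w ∘ s - w` with `w` invariant under `t = s ∘ u` -/
def dlB1 (s u : Equiv.Perm X) : Submodule R (X → R) where
  carrier := {d | ∃ w : X → R, (∀ x, w (s (u x)) = w x) ∧ ∀ x, d x = w (s x) - w x}
  zero_mem' := ⟨0, fun _ => rfl, fun _ => by simp⟩
  add_mem' := by
    rintro c d ⟨w, hw, hc⟩ ⟨w', hw', hd⟩
    refine ⟨w + w', fun x => ?_, fun x => ?_⟩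
    · simp only [Pi.add_apply, hw, hw']
    · simp only [Pi.add_apply, hc, hd]; ring
  smul_mem' := by
    rintro a c ⟨w, hw, hc⟩
    refine ⟨a • w, fun x => ?_, fun x => ?_⟩
    · simp only [Pi.smul_apply, hw]
    · simp only [Pi.smul_apply, smul_eq_mul, hc]; ring

theorem dlB1_le_dlW {s u : Equiv.Perm X} (hs : ∀ x, s (s x) = x) (hu : ∀ x, u (u (u x)) = x) :
    dlB1 (R := R) s u ≤ dlW s u := by
  rintro d ⟨w, hw, hd⟩
  refine ⟨fun x => ?_, fun x hx => ?_, fun x => ?_, fun x hx => ?_⟩
  · rw [hd, hd, hs]; ring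
  · rw [hd, hx]; ring
  · have h1 : w (s (u x)) = w x := hw x
    have h2 : w (s (u (u x))) = w (u x) := hw (u x)
    have h3 : w (s x) = w (u (u x)) := by
      have := hw (u (u x)); rwa [hu] at this
    rw [hd, hd, hd, h1, h2, h3]; ring
  · have h1 : w (s (u x)) = w x := hw x
    rw [hx] at h1
    rw [hd, h1]; ring

/-- the antisymmetric form on potentials -/
def dlBeta (u : Equiv.Perm X) (f g : X → R) : R := ∑ x, (f (u (u x)) - f (u x)) * g x

theorem dlBeta_antisymm {u : Equiv.Perm X} (hu : ∀ x, u (u (u x)) = x) (f g : X → R) :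
    dlBeta u f g = - dlBeta u g f := by
  unfold dlBeta
  have e1 : ∑ x, f (u (u x)) * g x = ∑ y, f y * g (u y) := by
    refine Fintype.sum_equiv (u.trans u) _ _ fun x => ?_
    simp [hu]
  have e2 : ∑ x, f (u x) * g x = ∑ y, f y * g (u (u y)) := by
    refine Fintype.sum_equiv u _ _ fun x => ?_
    simp [hu]
  simp only [sub_mul, Finset.sum_sub_distrib]
  rw [e1, e2]
  have e3 : ∑ x, g (u (u x)) * f x = ∑ x, f x * g (u (u x)) :=
    Finset.sum_congr rfl fun x _ => mul_comm _ _
  have e4 : ∑ x, g (u x) * f x = ∑ x, f x * g (u x) :=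
    Finset.sum_congr rfl fun x _ => mul_comm _ _
  rw [e3, e4]; ring

theorem dlBeta_add_left (u : Equiv.Perm X) (f f' g : X → R) :
    dlBeta u (f + f') g = dlBeta u f g + dlBeta u f' g := by
  unfold dlBeta
  rw [← Finset.sum_add_distrib]
  refine Finset.sum_congr rfl fun x _ => ?_
  simp only [Pi.add_apply]; ring

theorem dlBeta_smul_left (u : Equiv.Perm X) (a : R) (f g : X → R) :
    dlBeta u (a • f) g = a * dlBeta u f g := by
  unfold dlBeta
  rw [Finset.mul_sum]
  refine Finset.sum_congr rfl fun x _ => ?_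
  simp only [Pi.smul_apply, smul_eq_mul]; ring

theorem dlBeta_add_right (u : Equiv.Perm X) (f g g' : X → R) :
    dlBeta u f (g + g') = dlBeta u f g + dlBeta u f g' := by
  unfold dlBeta
  rw [← Finset.sum_add_distrib]
  refine Finset.sum_congr rfl fun x _ => ?_
  simp only [Pi.add_apply]; ring

theorem dlBeta_smul_right (u : Equiv.Perm X) (a : R) (f g : X → R) :
    dlBeta u f (a • g) = a * dlBeta u f g := by
  unfold dlBeta
  rw [Finset.mul_sum]
  refine Finset.sum_congr rfl fun x _ => ?_
  simp only [Pi.smul_apply, smul_eq_mul]; ring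

theorem dlBeta_inv_left {u : Equiv.Perm X} (hu : ∀ x, u (u (u x)) = x) (f g : X → R)
    (hf : ∀ x, f (u (u x)) = f x) : dlBeta u f g = 0 := by
  unfold dlBeta
  refine Finset.sum_eq_zero fun x _ => ?_
  have h1 : f (u (u x)) = f (u x) := by
    have := hf (u (u x)); rw [hu] at this
    exact this.symm
  rw [h1, sub_self, zero_mul]

theorem dlBeta_inv_right {u : Equiv.Perm X} (hu : ∀ x, u (u (u x)) = x) (f g : X → R)
    (hg : ∀ x, g (u (u x)) = g x) : dlBeta u f g = 0 := by
  rw [dlBeta_antisymm hu, dlBeta_inv_left hu g f hg, neg_zero]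

/-- `ρ` is a `u`-primitive of `d` -/
def dlPrim (u : Equiv.Perm X) (d ρ : X → R) : Prop := ∀ x, ρ (u (u x)) - ρ x = d x

/-- the form on potentials only depends on the cocycles -/
theorem dlBeta_congr {u : Equiv.Perm X} (hu : ∀ x, u (u (u x)) = x) {c d ρ ρ' σ σ' : X → R}
    (h1 : dlPrim u c ρ) (h1' : dlPrim u c ρ') (h2 : dlPrim u d σ) (h2' : dlPrim u d σ') :
    dlBeta u ρ σ = dlBeta u ρ' σ' := by
  have e1 : ρ = ρ' + (ρ - ρ') := by abel
  have e2 : σ = σ' + (σ - σ') := by abel
  have i1 : ∀ x, (ρ - ρ') (u (u x)) = (ρ - ρ') x := fun x => by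
    simp only [Pi.sub_apply]; linear_combination h1 x - h1' x
  have i2 : ∀ x, (σ - σ') (u (u x)) = (σ - σ') x := fun x => by
    simp only [Pi.sub_apply]; linear_combination h2 x - h2' x
  rw [e1, dlBeta_add_left, dlBeta_inv_left hu _ _ i1, add_zero, e2, dlBeta_add_right,
    dlBeta_inv_right hu _ _ i2, add_zero]

/-- a representative of the `u`-orbit of `x` -/
noncomputable def dlRep (u : Equiv.Perm X) (x : X) : X :=
  (Fintype.equivFin X).symm (min (Fintype.equivFin X x)
    (min (Fintype.equivFin X (u x)) (Fintype.equivFin X (u (u x)))))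

theorem dlRep_mem (u : Equiv.Perm X) (x : X) :
    dlRep u x = x ∨ dlRep u x = u x ∨ dlRep u x = u (u x) := by
  unfold dlRep
  rcases min_choice (Fintype.equivFin X x)
    (min (Fintype.equivFin X (u x)) (Fintype.equivFin X (u (u x)))) with h | h
  · left; rw [h]; simp
  · rcases min_choice (Fintype.equivFin X (u x)) (Fintype.equivFin X (u (u x))) with h' | h'
    · right; left; rw [h, h']; simp
    · right; right; rw [h, h']; simp

theorem dlRep_u {u : Equiv.Perm X} (hu : ∀ x, u (u (u x)) = x) (x : X) :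
    dlRep u (u x) = dlRep u x := by
  unfold dlRep
  rw [hu]
  congr 1
  rw [min_comm (Fintype.equivFin X x), min_assoc]

/-- an explicit `u`-primitive -/
noncomputable def dlRho (u : Equiv.Perm X) (d : X → R) (x : X) : R :=
  if x = dlRep u x then 0 else if u x = dlRep u x then d (u x) else - d x

theorem dlRho_prim {u : Equiv.Perm X} (hu : ∀ x, u (u (u x)) = x) (d : X → R)
    (h3 : ∀ x, d x + d (u x) + d (u (u x)) = 0) (h0 : ∀ x, u x = x → d x = 0) :
    dlPrim u d (dlRho u d) := by
  intro x
  have hr2 : dlRep u (u (u x)) = dlRep u x := by rw [dlRep_u hu, dlRep_u hu]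
  unfold dlRho
  rw [hr2, hu]
  by_cases hfix : u x = x
  · have hd := h0 x hfix
    rw [hfix, hfix]
    split_ifs <;> simp [hd]
  · have hne2 : u (u x) ≠ x := fun h => hfix (by
      have := congrArg u h; rw [hu] at this; exact this.symm)
    have hne3 : u (u x) ≠ u x := fun h => hfix (u.injective h)
    rcases dlRep_mem u x with h | h | h
    · rw [h]
      rw [if_neg hne2, if_pos rfl, if_pos rfl]; ring
    · rw [h]
      rw [if_neg hne3, if_neg (Ne.symm hfix), if_neg (Ne.symm hfix), if_pos rfl]
      linear_combination -h3 x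
    · rw [h]
      rw [if_pos rfl, if_neg (Ne.symm hne2), if_neg (Ne.symm hne3)]; ring

theorem dlRho_add (u : Equiv.Perm X) (d d' : X → R) :
    dlRho u (d + d') = dlRho u d + dlRho u d' := by
  funext x
  simp only [dlRho, Pi.add_apply]
  split_ifs <;> ring

theorem dlRho_smul (u : Equiv.Perm X) (a : R) (d : X → R) :
    dlRho u (a • d) = a • dlRho u d := by
  funext x
  simp only [dlRho, Pi.smul_apply, smul_eq_mul]
  split_ifs <;> ring

/-- the pairing on cocycles -/
noncomputable def dlPair (u : Equiv.Perm X) (c d : X → R) : R :=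
  dlBeta u (dlRho u c) (dlRho u d)

theorem dlPair_add_left (u : Equiv.Perm X) (c c' d : X → R) :
    dlPair u (c + c') d = dlPair u c d + dlPair u c' d := by
  unfold dlPair; rw [dlRho_add, dlBeta_add_left]

theorem dlPair_add_right (u : Equiv.Perm X) (c d d' : X → R) :
    dlPair u c (d + d') = dlPair u c d + dlPair u c d' := by
  unfold dlPair; rw [dlRho_add, dlBeta_add_right]

theorem dlPair_smul_left (u : Equiv.Perm X) (a : R) (c d : X → R) :
    dlPair u (a • c) d = a * dlPair u c d := by
  unfold dlPair; rw [dlRho_smul, dlBeta_smul_left]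

theorem dlPair_smul_right (u : Equiv.Perm X) (a : R) (c d : X → R) :
    dlPair u c (a • d) = a * dlPair u c d := by
  unfold dlPair; rw [dlRho_smul, dlBeta_smul_right]

theorem dlPair_antisymm {u : Equiv.Perm X} (hu : ∀ x, u (u (u x)) = x) (c d : X → R) :
    dlPair u c d = - dlPair u d c := dlBeta_antisymm hu _ _

/-- the pairing computed with arbitrary primitives -/
theorem dlPair_eq_beta {s u : Equiv.Perm X} (hu : ∀ x, u (u (u x)) = x) {c d ρ σ : X → R}
    (hc : c ∈ dlW (R := R) s u) (hd : d ∈ dlW (R := R) s u)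
    (h1 : dlPrim u c ρ) (h2 : dlPrim u d σ) : dlPair u c d = dlBeta u ρ σ :=
  dlBeta_congr hu (dlRho_prim hu c hc.2.2.1 hc.2.2.2) h1 (dlRho_prim hu d hd.2.2.1 hd.2.2.2) h2

end Basic

section Star

variable {X : Type*} [Fintype X] [DecidableEq X] {R : Type*} [CommRing R]

/-- the dual cocycle attached to a primitive -/
def dlStar (s u : Equiv.Perm X) (ρ : X → R) (x : X) : R := ρ x - ρ (u (u (s x)))

theorem dlPair_eq_sum {s u : Equiv.Perm X} (hs : ∀ x, s (s x) = x) (hu : ∀ x, u (u (u x)) = x)
    {c d ρ : X → R} (hc : c ∈ dlW (R := R) s u) (hd : d ∈ dlW (R := R) s u)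
    (hρ : dlPrim u d ρ) : dlPair u c d = ∑ x, c x * dlStar s u ρ x := by
  have hσ := dlRho_prim hu c hc.2.2.1 hc.2.2.2
  rw [dlPair_eq_beta hu hc hd hσ hρ]
  unfold dlBeta dlStar
  have e1 : ∀ x, dlRho u c (u (u x)) - dlRho u c (u x) = - c (u (u x)) := by
    intro x
    have := hσ (u (u x))
    rw [hu] at this
    linear_combination -this
  have e2 : ∑ x, c x * ρ (u (u (s x))) = ∑ y, c (s (u y)) * ρ y := by
    refine Fintype.sum_equiv ((s.trans u).trans u) _ _ fun x => ?_
    simp [hu, hs]
  have e3 : ∀ y, c (s (u y)) = - c (u y) := fun y => hc.1 (u y)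
  simp only [mul_sub, Finset.sum_sub_distrib]
  rw [e2, ← Finset.sum_sub_distrib]
  refine Finset.sum_congr rfl fun x _ => ?_
  rw [e1, e3]
  linear_combination - ρ x * hc.2.2.1 x

end Star

section Radical

variable {X : Type*} [Fintype X] [DecidableEq X] {F : Type*} [Field F]

/-- the dot product as a bilinear form -/
noncomputable def dlDot : LinearMap.BilinForm F (X → F) := Matrix.toBilin' (1 : Matrix X X F)

theorem dlDot_apply (f g : X → F) : dlDot f g = ∑ x, f x * g x := by
  unfold dlDot
  rw [Matrix.toBilin'_apply', Matrix.one_mulVec]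
  rfl

theorem dlDot_nondeg : (dlDot (X := X) (F := F)).Nondegenerate :=
  LinearMap.BilinForm.nondegenerate_toBilin'_of_det_ne_zero' _ (by simp)

theorem dlDot_refl : (dlDot (X := X) (F := F)).IsRefl := fun f g h => by
  rw [dlDot_apply] at h ⊢
  rw [← h]
  exact Finset.sum_congr rfl fun x _ => mul_comm _ _

/-- functions invariant under a permutation -/
def dlInv (g : Equiv.Perm X) : Submodule F (X → F) where
  carrier := {a | ∀ x, a (g x) = a x}
  zero_mem' := fun _ => rfl
  add_mem' := fun {a b} ha hb x => by simp only [Pi.add_apply, ha x, hb x]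
  smul_mem' := fun c a ha x => by simp only [Pi.smul_apply, ha x]

theorem dl_sum_indicator (T : Finset X) (n : X → F) :
    ∑ y, (if y ∈ T then (1 : F) else 0) * n y = ∑ y ∈ T, n y := by
  rw [← Finset.sum_filter_add_sum_filter_not Finset.univ (fun y => y ∈ T)]
  have h1 : ∑ y ∈ Finset.univ.filter (fun y => y ∈ T), (if y ∈ T then (1 : F) else 0) * n y =
      ∑ y ∈ T, n y := by
    have : Finset.univ.filter (fun y => y ∈ T) = T := by ext y; simp
    rw [this]
    refine Finset.sum_congr rfl fun y hy => ?_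
    rw [if_pos hy, one_mul]
  have h2 : ∑ y ∈ Finset.univ.filter (fun y => ¬ y ∈ T), (if y ∈ T then (1 : F) else 0) * n y = 0 := by
    refine Finset.sum_eq_zero fun y hy => ?_
    rw [if_neg (Finset.mem_filter.mp hy).2, zero_mul]
  rw [h1, h2, add_zero]

theorem dl_mem_dlW_of_orth {s u : Equiv.Perm X} (hs : ∀ x, s (s x) = x)
    (hu : ∀ x, u (u (u x)) = x) (n : X → F)
    (h1 : ∀ a : X → F, (∀ x, a (s x) = a x) → ∑ x, a x * n x = 0)
    (h2 : ∀ b : X → F, (∀ x, b (u x) = b x) → ∑ x, b x * n x = 0) :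
    n ∈ dlW (R := F) s u := by
  have hS : ∀ x, (s x = x → n x = 0) ∧ n (s x) = - n x := by
    intro x
    have hinv : ∀ y, (if s y ∈ ({x, s x} : Finset X) then (1 : F) else 0) =
        if y ∈ ({x, s x} : Finset X) then (1 : F) else 0 := by
      intro y
      have : s y ∈ ({x, s x} : Finset X) ↔ y ∈ ({x, s x} : Finset X) := by
        simp only [Finset.mem_insert, Finset.mem_singleton]
        constructor
        · rintro (h | h)
          · right; rw [← h, hs]
          · left; exact s.injective h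
        · rintro (h | h)
          · right; rw [h]
          · left; rw [h, hs]
      simp only [this]
    have key := h1 (fun y => if y ∈ ({x, s x} : Finset X) then (1 : F) else 0) hinv
    rw [dl_sum_indicator] at key
    by_cases hx : s x = x
    · rw [hx, Finset.pair_eq_singleton, Finset.sum_singleton] at key
      exact ⟨fun _ => key, by rw [hx, key, neg_zero]⟩
    · rw [Finset.sum_pair (Ne.symm hx)] at key
      exact ⟨fun h => absurd h hx, by linear_combination key⟩
  have hU : ∀ x, (u x = x → n x = 0) ∧ n x + n (u x) + n (u (u x)) = 0 := by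
    intro x
    have hinv : ∀ y, (if u y ∈ ({x, u x, u (u x)} : Finset X) then (1 : F) else 0) =
        if y ∈ ({x, u x, u (u x)} : Finset X) then (1 : F) else 0 := by
      intro y
      have : u y ∈ ({x, u x, u (u x)} : Finset X) ↔ y ∈ ({x, u x, u (u x)} : Finset X) := by
        simp only [Finset.mem_insert, Finset.mem_singleton]
        constructor
        · rintro (h | h | h)
          · right; right; rw [← h, hu]
          · left; exact u.injective h
          · right; left; exact u.injective h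
        · rintro (h | h | h)
          · right; left; rw [h]
          · right; right; rw [h]
          · left; rw [h, hu]
      simp only [this]
    have key := h2 (fun y => if y ∈ ({x, u x, u (u x)} : Finset X) then (1 : F) else 0) hinv
    rw [dl_sum_indicator] at key
    by_cases hx : u x = x
    · rw [hx, hx] at key
      have e : ({x, x, x} : Finset X) = {x} := by ext y; simp
      rw [e, Finset.sum_singleton] at key
      exact ⟨fun _ => key, by rw [hx, hx, key]; ring⟩
    · have hne2 : u (u x) ≠ x := fun h => hx (by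
        have := congrArg u h; rw [hu] at this; exact this.symm)
      have hne3 : u (u x) ≠ u x := fun h => hx (u.injective h)
      rw [Finset.sum_insert (by
        simp only [Finset.mem_insert, Finset.mem_singleton, not_or]
        exact ⟨Ne.symm hx, Ne.symm hne2⟩), Finset.sum_pair (Ne.symm hne3)] at key
      exact ⟨fun h => absurd h hx, by linear_combination key⟩
  exact ⟨fun x => (hS x).2, fun x => (hS x).1, fun x => (hU x).2, fun x => (hU x).1⟩

/-- double annihilator: a function orthogonal to all cocycles is a sum of an `s`-invariant and a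
`u`-invariant function -/
theorem dl_orth {s u : Equiv.Perm X} (hs : ∀ x, s (s x) = x) (hu : ∀ x, u (u (u x)) = x)
    (e : X → F) (he : ∀ c ∈ dlW (R := F) s u, ∑ x, c x * e x = 0) :
    ∃ a b : X → F, (∀ x, a (s x) = a x) ∧ (∀ x, b (u x) = b x) ∧ ∀ x, e x = a x + b x := by
  have hmem : e ∈ (dlDot (X := X) (F := F)).orthogonal
      ((dlDot (X := X) (F := F)).orthogonal (dlInv s ⊔ dlInv u)) := by
    rw [LinearMap.BilinForm.mem_orthogonal_iff]
    intro n hn
    rw [LinearMap.BilinForm.mem_orthogonal_iff] at hn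
    have hnW : n ∈ dlW (R := F) s u := by
      refine dl_mem_dlW_of_orth hs hu n (fun a ha => ?_) (fun b hb => ?_)
      · have : dlDot a n = 0 := hn a (Submodule.mem_sup_left ha)
        rwa [dlDot_apply] at this
      · have : dlDot b n = 0 := hn b (Submodule.mem_sup_right hb)
        rwa [dlDot_apply] at this
    show dlDot n e = 0
    rw [dlDot_apply]
    exact he n hnW
  rw [LinearMap.BilinForm.orthogonal_orthogonal dlDot_nondeg dlDot_refl, Submodule.mem_sup] at hmem
  obtain ⟨a, ha, b, hb, hab⟩ := hmem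
  exact ⟨a, b, ha, hb, fun x => by rw [← hab]; rfl⟩

/-- **Poincaré duality**: a cocycle pairing to zero with every cocycle is a coboundary. -/
theorem dl_radical {s u : Equiv.Perm X} (hs : ∀ x, s (s x) = x) (hu : ∀ x, u (u (u x)) = x)
    (h2 : (2 : F) ≠ 0) {d : X → F} (hd : d ∈ dlW (R := F) s u)
    (hrad : ∀ c ∈ dlW (R := F) s u, dlPair u c d = 0) : d ∈ dlB1 (R := F) s u := by
  set ρ := dlRho u d with hρdef
  have hρ : dlPrim u d ρ := dlRho_prim hu d hd.2.2.1 hd.2.2.2
  have he : ∀ c ∈ dlW (R := F) s u, ∑ x, c x * dlStar s u ρ x = 0 := fun c hc => by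
    rw [← dlPair_eq_sum hs hu hc hd hρ]; exact hrad c hc
  obtain ⟨a, b, ha, hb, hab⟩ := dl_orth hs hu _ he
  -- antisymmetry of the dual cocycle
  have hanti : ∀ x, dlStar s u ρ (s x) = - dlStar s u ρ x := by
    intro x
    unfold dlStar
    rw [hs]
    have h1 := hρ x
    have h2' := hρ (s x)
    have h3 := hd.1 x
    linear_combination -h1 - h2' - h3
  -- `w = b / 2`
  have hb2 : ∀ x, b (u (u x)) = b x := fun x => by rw [hb, hb]
  have hw : ∀ x, dlStar s u ρ x = b x / 2 - b (s x) / 2 := by
    intro x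
    have h1 := hab x
    have h2' := hab (s x)
    have h3 := hanti x
    have h4 := ha x
    have h5 : 2 * dlStar s u ρ x = b x - b (s x) := by
      linear_combination h1 - h2' + h3 - h4
    have h6 : dlStar s u ρ x = (b x - b (s x)) / 2 := by
      rw [← h5]; field_simp
    rw [h6]; ring
  -- the vertex potential
  have key : ∀ y, ρ y - b y / 2 = ρ (u (u (s y))) - b (u (u (s y))) / 2 := by
    intro y
    have h1 := hw y
    unfold dlStar at h1
    rw [hb2]
    linear_combination h1
  refine ⟨fun x => ρ x - b x / 2, fun x => ?_, fun x => ?_⟩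
  · have := key (s (u x))
    rw [hs, hu] at this
    exact this
  · have h1 := key (s x)
    rw [hs] at h1
    have h3 := hρ x
    show d x = (ρ (s x) - b (s x) / 2) - (ρ x - b x / 2)
    rw [h1, hb2]
    linear_combination -h3

end Radical


section More

variable {X : Type*} [Fintype X] [DecidableEq X] {R : Type*} [CommRing R]

/-- coboundaries pair to zero with cocycles -/
theorem dlPair_B1_right {s u : Equiv.Perm X} (hs : ∀ x, s (s x) = x) (hu : ∀ x, u (u (u x)) = x)
    {c d : X → R} (hc : c ∈ dlW (R := R) s u) (hd : d ∈ dlB1 (R := R) s u) :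
    dlPair u c d = 0 := by
  have hdW := dlB1_le_dlW hs hu hd
  obtain ⟨w, hw, hdw⟩ := hd
  have h1 : ∀ x, w (s x) = w (u (u x)) := fun x => by
    have := hw (u (u x)); rwa [hu] at this
  have hρ : dlPrim u d w := fun x => by rw [hdw, h1]
  rw [dlPair_eq_sum hs hu hc hdW hρ]
  refine Finset.sum_eq_zero fun x _ => ?_
  unfold dlStar
  rw [← h1 (s x), hs, sub_self, mul_zero]

theorem dlPair_B1_left {s u : Equiv.Perm X} (hs : ∀ x, s (s x) = x) (hu : ∀ x, u (u (u x)) = x)
    {c d : X → R} (hc : c ∈ dlB1 (R := R) s u) (hd : d ∈ dlW (R := R) s u) :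
    dlPair u c d = 0 := by
  rw [dlPair_antisymm hu, dlPair_B1_right hs hu hd hc, neg_zero]

/-- a cocycle is orthogonal to `u`-invariant functions (when `3` is regular) -/
theorem dl_sum_mul_inv {s u : Equiv.Perm X}
    (h3 : ∀ r : R, 3 * r = 0 → r = 0) {c : X → R} (hc : c ∈ dlW (R := R) s u) (τ : X → R)
    (hτ : ∀ x, τ (u x) = τ x) : ∑ x, c x * τ x = 0 := by
  apply h3
  have e1 : ∑ x, c (u x) * τ x = ∑ x, c x * τ x := by
    refine Fintype.sum_equiv u _ _ fun x => ?_
    rw [hτ]
  have e2 : ∑ x, c (u (u x)) * τ x = ∑ x, c x * τ x := by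
    refine Fintype.sum_equiv (u.trans u) _ _ fun x => ?_
    simp [hτ]
  have e3 : ∑ x, (c x + c (u x) + c (u (u x))) * τ x = 0 :=
    Finset.sum_eq_zero fun x _ => by rw [hc.2.2.1 x, zero_mul]
  simp only [add_mul, Finset.sum_add_distrib] at e3
  rw [e1, e2] at e3
  linear_combination e3

/-- the pairing as a sum of local terms over all points (three times the sum over triangles) -/
theorem dlPair_three {s u : Equiv.Perm X} (hu : ∀ x, u (u (u x)) = x)
    (h3 : ∀ r : R, 3 * r = 0 → r = 0) {c d : X → R}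
    (hc : c ∈ dlW (R := R) s u) (hd : d ∈ dlW (R := R) s u) :
    3 * dlPair u c d = ∑ x, (c x * d (u x) - c (u x) * d x) := by
  set ρ := dlRho u d with hρdef
  have hρ : dlPrim u d ρ := dlRho_prim hu d hd.2.2.1 hd.2.2.2
  have hσ := dlRho_prim hu c hc.2.2.1 hc.2.2.2
  have e1 : ∀ x, dlRho u c (u (u x)) - dlRho u c (u x) = - c (u (u x)) := by
    intro x
    have := hσ (u (u x))
    rw [hu] at this
    linear_combination -this
  -- `dlPair = - A`, `A = ∑ c x * ρ (u x)`
  have hA : dlPair u c d = - ∑ x, c x * ρ (u x) := by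
    unfold dlPair dlBeta
    rw [← Finset.sum_neg_distrib]
    have : ∑ x, (dlRho u c (u (u x)) - dlRho u c (u x)) * dlRho u d x
        = ∑ x, - (c (u (u x)) * ρ x) :=
      Finset.sum_congr rfl fun x _ => by rw [e1]; ring
    rw [this]
    refine Fintype.sum_equiv (u.trans u) _ _ fun x => ?_
    simp [hu]
  have hd1 : ∀ x, d (u x) = ρ x - ρ (u x) := fun x => by
    have := hρ (u x); rw [hu] at this; exact this.symm
  have hd2 : ∀ x, d x = ρ (u (u x)) - ρ x := fun x => (hρ x).symm
  have r1 : ∑ x, c (u x) * ρ (u (u x)) = ∑ x, c x * ρ (u x) :=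
    Fintype.sum_equiv u _ _ fun x => rfl
  have r2 : ∑ x, c (u x) * ρ x = ∑ x, c x * ρ (u (u x)) := by
    refine Fintype.sum_equiv u _ _ fun x => ?_
    simp [hu]
  have hτ := dl_sum_mul_inv h3 hc (fun x => ρ x + ρ (u x) + ρ (u (u x)))
    (fun x => by simp only [hu]; ring)
  simp only [mul_add, Finset.sum_add_distrib] at hτ
  have hrhs : ∑ x, (c x * d (u x) - c (u x) * d x)
      = ∑ x, c x * ρ x - ∑ x, c x * ρ (u x) - (∑ x, c (u x) * ρ (u (u x)) - ∑ x, c (u x) * ρ x) := by
    rw [← Finset.sum_sub_distrib, ← Finset.sum_sub_distrib, ← Finset.sum_sub_distrib]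
    refine Finset.sum_congr rfl fun x _ => ?_
    rw [hd1, hd2]; ring
  rw [hrhs, r1, r2, hA]
  linear_combination -hτ

/-- push-forward (sum over the fibres) -/
def dlPush {X' : Type*} [Fintype X'] (π : X' → X) (f : X' → R) (y : X) : R :=
  ∑ x ∈ Finset.univ.filter (fun x => π x = y), f x

theorem dlPush_prim {X' : Type*} [Fintype X'] [DecidableEq X'] (π : X' → X)
    {u : Equiv.Perm X} {u' : Equiv.Perm X'} (hπu : ∀ x, π (u' x) = u (π x))
    {d' ρ' : X' → R} (h : dlPrim u' d' ρ') : dlPrim u (dlPush π d') (dlPush π ρ') := by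
  intro y
  unfold dlPush
  have e : ∑ x ∈ Finset.univ.filter (fun x => π x = u (u y)), ρ' x
      = ∑ x ∈ Finset.univ.filter (fun x => π x = y), ρ' (u' (u' x)) := by
    symm
    refine Finset.sum_bij (fun x _ => u' (u' x)) ?_ ?_ ?_ ?_
    · intro x hx
      rw [Finset.mem_filter] at hx ⊢
      exact ⟨Finset.mem_univ _, by rw [hπu, hπu, hx.2]⟩
    · intro x _ x' _ hxx
      exact u'.injective (u'.injective hxx)
    · intro z hz
      rw [Finset.mem_filter] at hz
      refine ⟨u'.symm (u'.symm z), ?_, by simp⟩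
      rw [Finset.mem_filter]
      refine ⟨Finset.mem_univ _, ?_⟩
      apply u.injective; apply u.injective
      rw [← hπu, ← hπu]
      simpa using hz.2
    · intro x _; rfl
  rw [e, ← Finset.sum_sub_distrib]
  exact Finset.sum_congr rfl fun x _ => h x

theorem dlBeta_pull_push {X' : Type*} [Fintype X'] [DecidableEq X'] (π : X' → X)
    {u : Equiv.Perm X} {u' : Equiv.Perm X'} (hπu : ∀ x, π (u' x) = u (π x))
    (ρ : X → R) (ρ' : X' → R) :
    dlBeta u' (fun x => ρ (π x)) ρ' = dlBeta u ρ (dlPush π ρ') := by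
  unfold dlBeta dlPush
  simp only [hπu]
  rw [← Finset.sum_fiberwise Finset.univ π]
  refine Finset.sum_congr rfl fun y _ => ?_
  rw [Finset.mul_sum]
  refine Finset.sum_congr rfl fun x hx => ?_
  rw [(Finset.mem_filter.mp hx).2]

/-- pull-back of a cocycle along an equivariant map -/
theorem dlW_pull {X' : Type*} [Fintype X'] [DecidableEq X'] (π : X' → X)
    {s u : Equiv.Perm X} {s' u' : Equiv.Perm X'} (hπs : ∀ x, π (s' x) = s (π x))
    (hπu : ∀ x, π (u' x) = u (π x)) {c : X → R} (hc : c ∈ dlW (R := R) s u) :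
    (fun x => c (π x)) ∈ dlW (R := R) s' u' := by
  refine ⟨fun x => ?_, fun x hx => ?_, fun x => ?_, fun x hx => ?_⟩
  · show c (π (s' x)) = - c (π x)
    rw [hπs]; exact hc.1 _
  · show c (π x) = 0
    exact hc.2.1 _ (by rw [← hπs, hx])
  · show c (π x) + c (π (u' x)) + c (π (u' (u' x))) = 0
    simp only [hπu]; exact hc.2.2.1 _
  · show c (π x) = 0
    exact hc.2.2.2 _ (by rw [← hπu, hx])

/-- **adjointness of pull-back and push-forward** -/
theorem dlPair_pull_push {X' : Type*} [Fintype X'] [DecidableEq X'] (π : X' → X)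
    {s u : Equiv.Perm X} {s' u' : Equiv.Perm X'} (hu : ∀ x, u (u (u x)) = x)
    (hu' : ∀ x, u' (u' (u' x)) = x) (hπs : ∀ x, π (s' x) = s (π x))
    (hπu : ∀ x, π (u' x) = u (π x)) {c : X → R} {d' : X' → R}
    (hc : c ∈ dlW (R := R) s u) (hd' : d' ∈ dlW (R := R) s' u')
    (hpush : dlPush π d' ∈ dlW (R := R) s u) :
    dlPair u' (fun x => c (π x)) d' = dlPair u c (dlPush π d') := by
  have hρ := dlRho_prim hu c hc.2.2.1 hc.2.2.2
  have hρ' := dlRho_prim hu' d' hd'.2.2.1 hd'.2.2.2
  have hpull : dlPrim u' (fun x => c (π x)) (fun x => dlRho u c (π x)) := fun x => by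
    show dlRho u c (π (u' (u' x))) - dlRho u c (π x) = c (π x)
    rw [hπu, hπu]; exact hρ _
  rw [dlPair_eq_beta hu' (dlW_pull π hπs hπu hc) hd' hpull hρ', dlBeta_pull_push π hπu,
    dlPair_eq_beta hu hc hpush hρ (dlPush_prim π hπu hρ')]

/-- the cocycle attached to a closed chain `(m, n)` (`m` counts `s`-steps, `n` counts `u`-steps) -/
theorem dl_chain_mem {s u : Equiv.Perm X} (hs : ∀ x, s (s x) = x) (hu : ∀ x, u (u (u x)) = x)
    (m n : X → R) (hrel : ∀ x, n x - n (u (u x)) + (m x - m (s x)) = 0) :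
    (fun x => n x - n (u (u x))) ∈ dlW (R := R) s u := by
  refine ⟨fun x => ?_, fun x hx => ?_, fun x => ?_, fun x hx => ?_⟩
  · have h1 := hrel x
    have h2 := hrel (s x)
    rw [hs] at h2
    show n (s x) - n (u (u (s x))) = - (n x - n (u (u x)))
    linear_combination h1 + h2
  · have h1 := hrel x
    rw [hx] at h1
    show n x - n (u (u x)) = 0
    linear_combination h1
  · show n x - n (u (u x)) + (n (u x) - n (u (u (u x)))) + (n (u (u x)) - n (u (u (u (u x))))) = 0
    simp only [hu]; ring
  · show n x - n (u (u x)) = 0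
    rw [hx, hx]; ring

/-- **Poincaré dual of a closed chain**: pairing with the cocycle of the chain evaluates (twice)
the cocycle on the chain -/
theorem dl_chain_pair {s u : Equiv.Perm X} (hs : ∀ x, s (s x) = x) (hu : ∀ x, u (u (u x)) = x)
    (m n : X → R) (hrel : ∀ x, n x - n (u (u x)) + (m x - m (s x)) = 0)
    {c : X → R} (hc : c ∈ dlW (R := R) s u) :
    dlPair u c (fun x => n x - n (u (u x))) = 2 * ∑ x, (m x * c x - n x * c (u x)) := by
  have hv := dl_chain_mem hs hu m n hrel
  have hρ : dlPrim u (fun x => n x - n (u (u x))) (fun x => - n x) := fun x => by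
    show - n (u (u x)) - - n x = n x - n (u (u x)); ring
  rw [dlPair_eq_sum hs hu hc hv hρ]
  unfold dlStar
  -- `∑ c x * n (u (u (s x))) = - ∑ c x * n (u (u x))`
  have e1 : ∑ x, c x * n (u (u (s x))) = - ∑ x, c x * n (u (u x)) := by
    rw [← Finset.sum_neg_distrib]
    refine Fintype.sum_equiv s _ _ fun x => ?_
    rw [hc.1 x]; ring
  -- `2 ∑ m c = - ∑ (n x - n (u (u x))) c x`
  have e2 : ∑ x, m (s x) * c x = - ∑ x, m x * c x := by
    rw [← Finset.sum_neg_distrib]
    refine Fintype.sum_equiv s _ _ fun x => ?_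
    rw [hc.1 x]; ring
  have e3 : ∑ x, (n x - n (u (u x)) + (m x - m (s x))) * c x = 0 :=
    Finset.sum_eq_zero fun x _ => by rw [hrel x, zero_mul]
  have e4 : ∑ x, n x * c (u x) = ∑ x, c x * n (u (u x)) := by
    symm
    refine Fintype.sum_equiv (u.trans u) _ _ fun x => ?_
    simp [hu, mul_comm]
  have e5 : ∑ x, (n x - n (u (u x)) + (m x - m (s x))) * c x
      = ∑ x, c x * n x - ∑ x, c x * n (u (u x)) + (∑ x, m x * c x - ∑ x, m (s x) * c x) := by
    rw [← Finset.sum_sub_distrib, ← Finset.sum_sub_distrib, ← Finset.sum_add_distrib]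
    exact Finset.sum_congr rfl fun x _ => by ring
  rw [e5, e2] at e3
  have e6 : ∑ x, c x * (-n x - -n (u (u (s x))))
      = - ∑ x, c x * n x + ∑ x, c x * n (u (u (s x))) := by
    rw [← Finset.sum_neg_distrib, ← Finset.sum_add_distrib]
    exact Finset.sum_congr rfl fun x _ => by ring
  rw [e6, e1, Finset.sum_sub_distrib, e4]
  linear_combination -e3

end More

end LR
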