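import Mathlib
import Fermat.Prelude.Def_ModularCurve_PeriodMap
import Fermat.Agent.Lib.LR_Dual
import Fermat.Agent.Lib.LR_Alg
import Fermat.Agent.Lib.E16_LBPar

/-!
# S41 / S2: the cup-product pairing on parabolic characters of a finite-index subgroup of `SL(2,ℤ)`
-/

set_option autoImplicit false
set_option linter.unusedSectionVars false
set_option linter.style.haveILetI false
set_option linter.unnecessarySeqFocus false

open scoped MatrixGroups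
open ModularCurve.Period

namespace LR

noncomputable section

section Mat

theorem lrm_SS : (ModularGroup.S * ModularGroup.S : SL(2, ℤ)) = -1 := by
  apply Subtype.ext
  rw [Matrix.SpecialLinearGroup.coe_mul, ModularGroup.S_mul_S_eq]
  simp

theorem lrm_SST : (ModularGroup.S * (ModularGroup.S * ModularGroup.T) : SL(2, ℤ))
    = - ModularGroup.T := by
  rw [← mul_assoc, lrm_SS]; simp

theorem lrm_TUU : (ModularGroup.T * ((ModularGroup.S * ModularGroup.T) *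
    (ModularGroup.S * ModularGroup.T)) : SL(2, ℤ)) = ModularGroup.S := by
  apply Subtype.ext
  simp only [Matrix.SpecialLinearGroup.coe_mul, ModularGroup.coe_S, ModularGroup.coe_T]
  ext i j
  fin_cases i <;> fin_cases j <;> simp [Matrix.mul_apply, Fin.sum_univ_two]

theorem lrm_SUU : (ModularGroup.S * ((ModularGroup.S * ModularGroup.T) *
    (ModularGroup.S * ModularGroup.T)) : SL(2, ℤ))
    = - (ModularGroup.T * (ModularGroup.S * ModularGroup.T)) := by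
  apply Subtype.ext
  simp only [Matrix.SpecialLinearGroup.coe_mul, ModularGroup.coe_S, ModularGroup.coe_T,
    Matrix.SpecialLinearGroup.coe_neg]
  ext i j
  fin_cases i <;> fin_cases j <;> simp [Matrix.mul_apply, Fin.sum_univ_two]

theorem lrm_UUU : ((ModularGroup.S * ModularGroup.T) * ((ModularGroup.S * ModularGroup.T) *
    (ModularGroup.S * ModularGroup.T)) : SL(2, ℤ)) = -1 := by
  apply Subtype.ext
  simp only [Matrix.SpecialLinearGroup.coe_mul, ModularGroup.coe_S, ModularGroup.coe_T,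
    Matrix.SpecialLinearGroup.coe_neg, Matrix.SpecialLinearGroup.coe_one]
  ext i j
  fin_cases i <;> fin_cases j <;> simp [Matrix.mul_apply, Fin.sum_univ_two]

theorem lrm_neg_sq : ((-1 : SL(2, ℤ)) * (-1)) = 1 := by simp

theorem lrm_conj_pow (g a : SL(2, ℤ)) (n : ℕ) : (g⁻¹ * a * g) ^ n = g⁻¹ * a ^ n * g := by
  have := conj_pow (a := g⁻¹) (b := a) (i := n)
  simpa using this

theorem lrm_S4 : (ModularGroup.S : SL(2, ℤ)) ^ 4 = 1 := by
  have : (ModularGroup.S : SL(2, ℤ)) ^ 4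
      = (ModularGroup.S * ModularGroup.S) * (ModularGroup.S * ModularGroup.S) := by
    simp only [pow_succ, pow_zero, one_mul, mul_assoc]
  rw [this, lrm_SS, lrm_neg_sq]

theorem lrm_U6 : (ModularGroup.S * ModularGroup.T : SL(2, ℤ)) ^ 6 = 1 := by
  have : (ModularGroup.S * ModularGroup.T : SL(2, ℤ)) ^ 6
      = ((ModularGroup.S * ModularGroup.T) * ((ModularGroup.S * ModularGroup.T) *
          (ModularGroup.S * ModularGroup.T))) *
        ((ModularGroup.S * ModularGroup.T) * ((ModularGroup.S * ModularGroup.T) *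
          (ModularGroup.S * ModularGroup.T))) := by
    simp only [pow_succ, pow_zero, one_mul, mul_assoc]
  rw [this, lrm_UUU, lrm_neg_sq]

end Mat

section Quot

variable (Γ : Subgroup SL(2, ℤ))

/-- the involution `x ↦ S x` on cosets -/
def lrS : Equiv.Perm (SL(2, ℤ) ⧸ Γ) := MulAction.toPerm (ModularGroup.S : SL(2, ℤ))

/-- the order three permutation `x ↦ S T x` on cosets -/
def lrU : Equiv.Perm (SL(2, ℤ) ⧸ Γ) :=
  MulAction.toPerm (ModularGroup.S * ModularGroup.T : SL(2, ℤ))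

theorem lrS_mk (g : SL(2, ℤ)) :
    lrS Γ (g : SL(2, ℤ) ⧸ Γ) = ((ModularGroup.S * g : SL(2, ℤ)) : SL(2, ℤ) ⧸ Γ) := rfl

theorem lrU_mk (g : SL(2, ℤ)) :
    lrU Γ (g : SL(2, ℤ) ⧸ Γ)
      = ((ModularGroup.S * ModularGroup.T * g : SL(2, ℤ)) : SL(2, ℤ) ⧸ Γ) := rfl

variable {Γ}

theorem lr_neg_mk (hneg : (-1 : SL(2, ℤ)) ∈ Γ) (g : SL(2, ℤ)) :
    ((-g : SL(2, ℤ)) : SL(2, ℤ) ⧸ Γ) = (g : SL(2, ℤ) ⧸ Γ) := by
  rw [QuotientGroup.eq]
  have : (-g)⁻¹ * g = -1 := by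
    have h1 : (-g) = g * (-1) := by simp
    rw [h1, mul_inv_rev, inv_mul_cancel_right]
    rw [inv_eq_iff_mul_eq_one]; simp
  rw [this]; exact hneg

theorem lrS_lrS (hneg : (-1 : SL(2, ℤ)) ∈ Γ) (x : SL(2, ℤ) ⧸ Γ) : lrS Γ (lrS Γ x) = x := by
  induction x using QuotientGroup.induction_on with
  | H g =>
    rw [lrS_mk, lrS_mk, ← mul_assoc, lrm_SS, ← lr_neg_mk hneg g]
    congr 1; simp

theorem lrU_lrU_lrU (hneg : (-1 : SL(2, ℤ)) ∈ Γ) (x : SL(2, ℤ) ⧸ Γ) :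
    lrU Γ (lrU Γ (lrU Γ x)) = x := by
  induction x using QuotientGroup.induction_on with
  | H g =>
    rw [lrU_mk, lrU_mk, lrU_mk, ← mul_assoc, ← mul_assoc, mul_assoc (ModularGroup.S * ModularGroup.T),
      lrm_UUU, ← lr_neg_mk hneg g]
    congr 1; simp

end Quot

section Lift

variable (Γ : Subgroup SL(2, ℤ))

/-- `F` is a left-`T`-invariant lift of the character `χ` -/
def LrLift (χ : Additive Γ →+ ℤ) (F : SL(2, ℤ) → ℤ) : Prop :=
  (∀ (g : SL(2, ℤ)) (γ : Γ), F (g * γ) = F g + χ (Additive.ofMul γ)) ∧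
    ∀ g, F (ModularGroup.T * g) = F g

variable {Γ}

theorem lr_char_torsion (χ : Additive Γ →+ ℤ) (γ : Γ) (n : ℕ) (hn : 0 < n) (h : γ ^ n = 1) :
    χ (Additive.ofMul γ) = 0 := by
  have h1 : χ (Additive.ofMul (γ ^ n)) = n • χ (Additive.ofMul γ) := by
    rw [ofMul_pow, map_nsmul]
  rw [h] at h1
  have h2 : χ (Additive.ofMul (1 : Γ)) = 0 := by rw [ofMul_one, map_zero]
  rw [h2] at h1
  have h3 : (n : ℤ) * χ (Additive.ofMul γ) = 0 := by rw [← nsmul_eq_mul]; exact h1.symm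
  rcases mul_eq_zero.mp h3 with h4 | h4
  · exact absurd (by exact_mod_cast h4) hn.ne'
  · exact h4

theorem LrLift.neg {χ : Additive Γ →+ ℤ} {F : SL(2, ℤ) → ℤ} (hF : LrLift Γ χ F)
    (hneg : (-1 : SL(2, ℤ)) ∈ Γ) (g : SL(2, ℤ)) : F (-g) = F g := by
  have h1 : -g = g * ((⟨-1, hneg⟩ : Γ) : SL(2, ℤ)) := by simp
  have h2 : χ (Additive.ofMul (⟨-1, hneg⟩ : Γ)) = 0 :=
    lr_char_torsion χ _ 2 (by norm_num) (by
      apply Subtype.ext
      simp [pow_two])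
  rw [h1, hF.1, h2, add_zero]

theorem LrLift.add {χ χ' : Additive Γ →+ ℤ} {F F' : SL(2, ℤ) → ℤ} (hF : LrLift Γ χ F)
    (hF' : LrLift Γ χ' F') : LrLift Γ (χ + χ') (F + F') :=
  ⟨fun g γ => by
    simp only [Pi.add_apply, AddMonoidHom.add_apply, hF.1, hF'.1]; ring,
   fun g => by simp only [Pi.add_apply, hF.2, hF'.2]⟩

theorem LrLift.smul {χ : Additive Γ →+ ℤ} {F : SL(2, ℤ) → ℤ} (hF : LrLift Γ χ F) (a : ℤ) :
    LrLift Γ (a • χ) (a • F) :=
  ⟨fun g γ => by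
    simp only [Pi.smul_apply, AddMonoidHom.smul_apply, hF.1, smul_eq_mul]; ring,
   fun g => by simp only [Pi.smul_apply, hF.2]⟩

theorem LrLift.S_ST {χ : Additive Γ →+ ℤ} {F : SL(2, ℤ) → ℤ} (hF : LrLift Γ χ F)
    (hneg : (-1 : SL(2, ℤ)) ∈ Γ) (g : SL(2, ℤ)) :
    F (ModularGroup.S * (ModularGroup.S * ModularGroup.T * g)) = F g := by
  rw [← mul_assoc, lrm_SST]
  have : (-ModularGroup.T : SL(2, ℤ)) * g = -(ModularGroup.T * g) := by simp
  rw [this, hF.neg hneg, hF.2]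

variable (Γ)

/-- the cocycle of a lift -/
def lrCoc (F : SL(2, ℤ) → ℤ) (x : SL(2, ℤ) ⧸ Γ) : ℤ :=
  F (ModularGroup.S * x.out) - F x.out

variable {Γ}

theorem lrCoc_mk {χ : Additive Γ →+ ℤ} {F : SL(2, ℤ) → ℤ} (hF : LrLift Γ χ F) (g : SL(2, ℤ)) :
    lrCoc Γ F (g : SL(2, ℤ) ⧸ Γ) = F (ModularGroup.S * g) - F g := by
  obtain ⟨h, hh⟩ := QuotientGroup.mk_out_eq_mul Γ g
  unfold lrCoc
  rw [hh, ← mul_assoc, hF.1, hF.1]; ring

theorem lrCoc_add (F F' : SL(2, ℤ) → ℤ) : lrCoc Γ (F + F') = lrCoc Γ F + lrCoc Γ F' := by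
  funext x
  simp only [lrCoc, Pi.add_apply]; ring

theorem lrCoc_smul (a : ℤ) (F : SL(2, ℤ) → ℤ) : lrCoc Γ (a • F) = a • lrCoc Γ F := by
  funext x
  simp only [lrCoc, Pi.smul_apply, smul_eq_mul]; ring

variable [Fintype (SL(2, ℤ) ⧸ Γ)] [DecidableEq (SL(2, ℤ) ⧸ Γ)]

theorem lrCoc_mem {χ : Additive Γ →+ ℤ} {F : SL(2, ℤ) → ℤ} (hF : LrLift Γ χ F)
    (hneg : (-1 : SL(2, ℤ)) ∈ Γ) : lrCoc Γ F ∈ dlW (R := ℤ) (lrS Γ) (lrU Γ) := by
  have hS : ∀ g, F (ModularGroup.S * (ModularGroup.S * g)) = F g := fun g => by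
    rw [← mul_assoc, lrm_SS]
    have : (-1 : SL(2, ℤ)) * g = -g := by simp
    rw [this, hF.neg hneg]
  have hSU : ∀ g, F (ModularGroup.S * (ModularGroup.S * ModularGroup.T * g)) = F g := fun g => by
    rw [← mul_assoc, lrm_SST]
    have : (-ModularGroup.T : SL(2, ℤ)) * g = -(ModularGroup.T * g) := by simp
    rw [this, hF.neg hneg, hF.2]
  have hUU : ∀ g, F (ModularGroup.S * ModularGroup.T * (ModularGroup.S * ModularGroup.T * g))
      = F (ModularGroup.S * g) := fun g => by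
    rw [← hF.2, ← mul_assoc, ← mul_assoc, mul_assoc ModularGroup.T, lrm_TUU]
  have hSUU : ∀ g, F (ModularGroup.S * (ModularGroup.S * ModularGroup.T *
      (ModularGroup.S * ModularGroup.T * g))) = F (ModularGroup.S * ModularGroup.T * g) := fun g => by
    rw [← mul_assoc, ← mul_assoc, mul_assoc ModularGroup.S, lrm_SUU]
    have : (-(ModularGroup.T * (ModularGroup.S * ModularGroup.T)) : SL(2, ℤ)) * g
        = -(ModularGroup.T * (ModularGroup.S * ModularGroup.T * g)) := by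
      simp [mul_assoc]
    rw [this, hF.neg hneg, hF.2]
  refine ⟨fun x => ?_, fun x hx => ?_, fun x => ?_, fun x hx => ?_⟩
  · induction x using QuotientGroup.induction_on with
    | H g => rw [lrS_mk, lrCoc_mk hF, lrCoc_mk hF, hS]; ring
  · induction x using QuotientGroup.induction_on with
    | H g =>
      rw [lrS_mk, QuotientGroup.eq] at hx
      have h1 : ModularGroup.S * g = g * ((⟨_, Γ.inv_mem hx⟩ : Γ) : SL(2, ℤ)) := by
        simp
      have h2 : χ (Additive.ofMul (⟨_, Γ.inv_mem hx⟩ : Γ)) = 0 :=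
        lr_char_torsion χ _ 4 (by norm_num) (by
          apply Subtype.ext
          have e : ((ModularGroup.S * g)⁻¹ * g)⁻¹ = g⁻¹ * ModularGroup.S * g := by group
          simp only [Subgroup.coe_pow, Subgroup.coe_one]
          rw [e, lrm_conj_pow, lrm_S4]; group)
      rw [lrCoc_mk hF, h1, hF.1, h2]; ring
  · induction x using QuotientGroup.induction_on with
    | H g =>
      rw [lrU_mk, lrU_mk, lrCoc_mk hF, lrCoc_mk hF, lrCoc_mk hF, hSU, hSUU, hUU]; ring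
  · induction x using QuotientGroup.induction_on with
    | H g =>
      have hx' := hx
      rw [lrU_mk, QuotientGroup.eq] at hx
      have h1 : ModularGroup.S * ModularGroup.T * g = g * ((⟨_, Γ.inv_mem hx⟩ : Γ) : SL(2, ℤ)) := by
        simp
      have h2 : χ (Additive.ofMul (⟨_, Γ.inv_mem hx⟩ : Γ)) = 0 :=
        lr_char_torsion χ _ 6 (by norm_num) (by
          apply Subtype.ext
          have e : ((ModularGroup.S * ModularGroup.T * g)⁻¹ * g)⁻¹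
              = g⁻¹ * (ModularGroup.S * ModularGroup.T) * g := by group
          simp only [Subgroup.coe_pow, Subgroup.coe_one]
          rw [e, lrm_conj_pow, lrm_U6]; group)
      have h3 : F (ModularGroup.S * ModularGroup.T * g) = F g := by rw [h1, hF.1, h2, add_zero]
      have h4 : lrCoc Γ F (g : SL(2, ℤ) ⧸ Γ) = lrCoc Γ F (lrU Γ (g : SL(2, ℤ) ⧸ Γ)) := by rw [hx']
      rw [h4, lrU_mk, lrCoc_mk hF, hSU, h3]; ring


/-- two lifts of the same character differ by a coboundary -/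
theorem lrCoc_sub_mem {χ : Additive Γ →+ ℤ} {F F' : SL(2, ℤ) → ℤ} (hF : LrLift Γ χ F)
    (hF' : LrLift Γ χ F') (hneg : (-1 : SL(2, ℤ)) ∈ Γ) :
    lrCoc Γ F - lrCoc Γ F' ∈ dlB1 (R := ℤ) (lrS Γ) (lrU Γ) := by
  have hD : ∀ (g : SL(2, ℤ)) (γ : Γ), F (g * γ) - F' (g * γ) = F g - F' g := fun g γ => by
    rw [hF.1, hF'.1]; ring
  have hw : ∀ g : SL(2, ℤ), F (Quotient.out (g : SL(2, ℤ) ⧸ Γ)) - F' (Quotient.out (g : SL(2, ℤ) ⧸ Γ))
      = F g - F' g := fun g => by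
    obtain ⟨h, hh⟩ := QuotientGroup.mk_out_eq_mul Γ g
    rw [hh, hD]
  refine ⟨fun x => F x.out - F' x.out, fun x => ?_, fun x => ?_⟩
  · induction x using QuotientGroup.induction_on with
    | H g =>
      rw [lrU_mk, lrS_mk]
      beta_reduce
      rw [hw, hw, ← mul_assoc, lrm_SST]
      have : (-ModularGroup.T : SL(2, ℤ)) * g = -(ModularGroup.T * g) := by simp
      rw [this, hF.neg hneg, hF'.neg hneg, hF.2, hF'.2]
  · induction x using QuotientGroup.induction_on with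
    | H g =>
      rw [lrS_mk]
      beta_reduce
      rw [hw, hw]
      show lrCoc Γ F (g : SL(2, ℤ) ⧸ Γ) - lrCoc Γ F' (g : SL(2, ℤ) ⧸ Γ) = _
      rw [lrCoc_mk hF, lrCoc_mk hF']; ring

end Lift

section Exists

variable {Γ : Subgroup SL(2, ℤ)}

theorem lr_trace_conj (g m : SL(2, ℤ)) :
    ((g⁻¹ * m * g : SL(2, ℤ)) : Matrix (Fin 2) (Fin 2) ℤ).trace
      = (m : Matrix (Fin 2) (Fin 2) ℤ).trace := by
  have h : g * (g⁻¹ * m) = m := by group
  rw [Matrix.SpecialLinearGroup.coe_mul, Matrix.trace_mul_comm,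
    ← Matrix.SpecialLinearGroup.coe_mul, h]

theorem lr_trace_zpowers_T {m : SL(2, ℤ)} (hm : m ∈ Subgroup.zpowers ModularGroup.T) :
    (m : Matrix (Fin 2) (Fin 2) ℤ).trace = 2 := by
  obtain ⟨k, rfl⟩ := Subgroup.mem_zpowers_iff.mp hm
  have := ModularGroup.coe_T_zpow k
  change ((ModularGroup.T ^ k : SL(2, ℤ)) : Matrix (Fin 2) (Fin 2) ℤ) = _ at this
  rw [this, Matrix.trace_fin_two_of]
  norm_num

theorem lr_parabolic_conj {χ : Additive Γ →+ ℤ} (hχ : IsParabolicHom Γ χ)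
    (γ : Γ) (g m : SL(2, ℤ)) (hm : m ∈ Subgroup.zpowers ModularGroup.T)
    (h : (γ : SL(2, ℤ)) = g⁻¹ * m * g) : χ (Additive.ofMul γ) = 0 := by
  apply hχ
  rw [h, lr_trace_conj, lr_trace_zpowers_T hm]
  norm_num

/-- a parabolic character has a left-`T`-invariant lift -/
theorem lr_lift_exists {χ : Additive Γ →+ ℤ} (hχ : IsParabolicHom Γ χ) :
    ∃ F : SL(2, ℤ) → ℤ, LrLift Γ χ F := by
  classical
  let H : Subgroup SL(2, ℤ) := Subgroup.zpowers ModularGroup.T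
  have hex : ∀ g : SL(2, ℤ), ∃ p : SL(2, ℤ) × Γ, p.1 ∈ H ∧
      (DoubleCoset.mk H Γ g).out = p.1 * g * p.2 := by
    intro g
    obtain ⟨h, k, hh, hk, e⟩ := DoubleCoset.mk_out_eq_mul H Γ g
    exact ⟨(h, ⟨k, hk⟩), hh, e⟩
  choose P hP1 hP2 using hex
  have key : ∀ (g t : SL(2, ℤ)) (_ : t ∈ H) (γ : Γ),
      χ (Additive.ofMul (P (t * g * γ)).2) = χ (Additive.ofMul (P g).2) - χ (Additive.ofMul γ) := by
    intro g t ht γ
    have hmk : DoubleCoset.mk H Γ (t * g * γ) = DoubleCoset.mk H Γ g := by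
      rw [eq_comm, DoubleCoset.eq]
      exact ⟨t, ht, γ, γ.2, rfl⟩
    have E : (P g).1 * g * (P g).2 = (P (t * g * γ)).1 * (t * g * γ) * (P (t * g * γ)).2 := by
      rw [← hP2, ← hP2, hmk]
    set a := (P g).1 with ha
    set k := (P g).2 with hk
    set a' := (P (t * g * γ)).1 with ha'
    set k' := (P (t * g * γ)).2 with hk'
    have hm : (a' * t)⁻¹ * a ∈ H :=
      H.mul_mem (H.inv_mem (H.mul_mem (hP1 _) ht)) (hP1 _)
    have E' : ((γ * k' * k⁻¹ : Γ) : SL(2, ℤ)) = g⁻¹ * ((a' * t)⁻¹ * a) * g := by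
      have h1 : a * g = a' * (t * g * γ) * k' * (k : SL(2, ℤ))⁻¹ := by
        rw [eq_mul_inv_iff_mul_eq, E]
      have h2 : g⁻¹ * ((a' * t)⁻¹ * a) * g = g⁻¹ * (a' * t)⁻¹ * (a * g) := by group
      rw [h2, h1]
      push_cast
      group
    have h0 := lr_parabolic_conj hχ (γ * k' * k⁻¹) g _ hm E'
    rw [ofMul_mul, ofMul_mul, ofMul_inv, map_add, map_add, map_neg] at h0
    linear_combination h0
  refine ⟨fun g => - χ (Additive.ofMul (P g).2), fun g γ => ?_, fun g => ?_⟩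
  · have := key g 1 H.one_mem γ
    rw [one_mul] at this
    show - χ (Additive.ofMul (P (g * γ)).2) = - χ (Additive.ofMul (P g).2) + χ (Additive.ofMul γ)
    rw [this]; ring
  · have := key g ModularGroup.T (Subgroup.mem_zpowers _) 1
    have e : ModularGroup.T * g * ((1 : Γ) : SL(2, ℤ)) = ModularGroup.T * g := by simp
    rw [e] at this
    show - χ (Additive.ofMul (P (ModularGroup.T * g)).2) = - χ (Additive.ofMul (P g).2)
    rw [this]
    simp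

end Exists

section Raw

variable {Γ : Subgroup SL(2, ℤ)} [Fintype (SL(2, ℤ) ⧸ Γ)] [DecidableEq (SL(2, ℤ) ⧸ Γ)]

/-- the pairing of the cocycles does not depend on the lifts -/
theorem lr_pair_lifts (hneg : (-1 : SL(2, ℤ)) ∈ Γ) {χ ψ : Additive Γ →+ ℤ}
    {F F' G G' : SL(2, ℤ) → ℤ} (hF : LrLift Γ χ F) (hF' : LrLift Γ χ F') (hG : LrLift Γ ψ G)
    (hG' : LrLift Γ ψ G') :
    dlPair (lrU Γ) (lrCoc Γ F) (lrCoc Γ G) = dlPair (lrU Γ) (lrCoc Γ F') (lrCoc Γ G') := by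
  have hs := lrS_lrS (Γ := Γ) hneg
  have hu := lrU_lrU_lrU (Γ := Γ) hneg
  have e1 : lrCoc Γ F = lrCoc Γ F' + (lrCoc Γ F - lrCoc Γ F') := by abel
  have e2 : lrCoc Γ G = lrCoc Γ G' + (lrCoc Γ G - lrCoc Γ G') := by abel
  have h1 : dlPair (lrU Γ) (lrCoc Γ F) (lrCoc Γ G) = dlPair (lrU Γ) (lrCoc Γ F') (lrCoc Γ G) := by
    rw [e1, dlPair_add_left, dlPair_B1_left hs hu (lrCoc_sub_mem hF hF' hneg) (lrCoc_mem hG hneg),
      add_zero]
  have h2 : dlPair (lrU Γ) (lrCoc Γ F') (lrCoc Γ G) = dlPair (lrU Γ) (lrCoc Γ F') (lrCoc Γ G') := by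
    rw [e2, dlPair_add_right, dlPair_B1_right hs hu (lrCoc_mem hF' hneg)
      (lrCoc_sub_mem hG hG' hneg), add_zero]
  rw [h1, h2]

/-- the pairing as a sum of local terms over the cosets -/
theorem lr_pair_three (hneg : (-1 : SL(2, ℤ)) ∈ Γ) {χ ψ : Additive Γ →+ ℤ}
    {F G : SL(2, ℤ) → ℤ} (hF : LrLift Γ χ F) (hG : LrLift Γ ψ G) :
    3 * dlPair (lrU Γ) (lrCoc Γ F) (lrCoc Γ G) =
      ∑ x : SL(2, ℤ) ⧸ Γ,
        ((F (ModularGroup.S * x.out) - F x.out) *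
            (G (ModularGroup.S * (ModularGroup.S * ModularGroup.T * x.out))
              - G (ModularGroup.S * ModularGroup.T * x.out))
          - (F (ModularGroup.S * (ModularGroup.S * ModularGroup.T * x.out))
              - F (ModularGroup.S * ModularGroup.T * x.out)) *
            (G (ModularGroup.S * x.out) - G x.out)) := by
  rw [dlPair_three (lrU_lrU_lrU hneg) (fun r h => by omega) (lrCoc_mem hF hneg)
    (lrCoc_mem hG hneg)]
  refine Finset.sum_congr rfl fun x _ => ?_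
  have hx : lrU Γ x
      = ((ModularGroup.S * ModularGroup.T * x.out : SL(2, ℤ)) : SL(2, ℤ) ⧸ Γ) := by
    conv_lhs => rw [← QuotientGroup.out_eq' x]
    rfl
  rw [hx, lrCoc_mk hF, lrCoc_mk hG]
  rfl

end Raw

section Public

variable (Γ : Subgroup SL(2, ℤ)) [Γ.FiniteIndex]

/-- the pairing of two functions on the cosets (canonical instances) -/
def lrP (c d : SL(2, ℤ) ⧸ Γ → ℤ) : ℤ :=
  letI : Fintype (SL(2, ℤ) ⧸ Γ) := Fintype.ofFinite _
  letI : DecidableEq (SL(2, ℤ) ⧸ Γ) := Classical.decEq _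
  dlPair (lrU Γ) c d

/-- a chosen lift of a parabolic character -/
def lrF (χ : parabolicHoms ℤ Γ ℤ) : SL(2, ℤ) → ℤ := Classical.choose (lr_lift_exists χ.2)

theorem lrF_spec (χ : parabolicHoms ℤ Γ ℤ) : LrLift Γ χ.1 (lrF Γ χ) :=
  Classical.choose_spec (lr_lift_exists χ.2)

variable {Γ}

theorem lrP_lifts (hneg : (-1 : SL(2, ℤ)) ∈ Γ) {χ ψ : Additive Γ →+ ℤ}
    {F F' G G' : SL(2, ℤ) → ℤ} (hF : LrLift Γ χ F) (hF' : LrLift Γ χ F') (hG : LrLift Γ ψ G)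
    (hG' : LrLift Γ ψ G') :
    lrP Γ (lrCoc Γ F) (lrCoc Γ G) = lrP Γ (lrCoc Γ F') (lrCoc Γ G') := by
  letI : Fintype (SL(2, ℤ) ⧸ Γ) := Fintype.ofFinite _
  letI : DecidableEq (SL(2, ℤ) ⧸ Γ) := Classical.decEq _
  exact lr_pair_lifts hneg hF hF' hG hG'

variable (Γ)

/-- **the cup-product pairing** on parabolic characters (twice the intersection pairing) -/
def lrCup (hneg : (-1 : SL(2, ℤ)) ∈ Γ) :
    parabolicHoms ℤ Γ ℤ →ₗ[ℤ] parabolicHoms ℤ Γ ℤ →ₗ[ℤ] ℤ :=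
  LinearMap.mk₂ ℤ (fun χ ψ => lrP Γ (lrCoc Γ (lrF Γ χ)) (lrCoc Γ (lrF Γ ψ)))
    (fun χ χ' ψ => by
      rw [lrP_lifts hneg (lrF_spec Γ (χ + χ')) ((lrF_spec Γ χ).add (lrF_spec Γ χ'))
        (lrF_spec Γ ψ) (lrF_spec Γ ψ), lrCoc_add]
      letI : Fintype (SL(2, ℤ) ⧸ Γ) := Fintype.ofFinite _
      letI : DecidableEq (SL(2, ℤ) ⧸ Γ) := Classical.decEq _
      exact dlPair_add_left _ _ _ _)
    (fun a χ ψ => by
      rw [lrP_lifts hneg (lrF_spec Γ (a • χ)) ((lrF_spec Γ χ).smul a)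
        (lrF_spec Γ ψ) (lrF_spec Γ ψ), lrCoc_smul]
      letI : Fintype (SL(2, ℤ) ⧸ Γ) := Fintype.ofFinite _
      letI : DecidableEq (SL(2, ℤ) ⧸ Γ) := Classical.decEq _
      exact dlPair_smul_left _ _ _ _)
    (fun χ ψ ψ' => by
      rw [lrP_lifts hneg (lrF_spec Γ χ) (lrF_spec Γ χ) (lrF_spec Γ (ψ + ψ'))
        ((lrF_spec Γ ψ).add (lrF_spec Γ ψ')), lrCoc_add]
      letI : Fintype (SL(2, ℤ) ⧸ Γ) := Fintype.ofFinite _
      letI : DecidableEq (SL(2, ℤ) ⧸ Γ) := Classical.decEq _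
      exact dlPair_add_right _ _ _ _)
    (fun a χ ψ => by
      rw [lrP_lifts hneg (lrF_spec Γ χ) (lrF_spec Γ χ) (lrF_spec Γ (a • ψ))
        ((lrF_spec Γ ψ).smul a), lrCoc_smul]
      letI : Fintype (SL(2, ℤ) ⧸ Γ) := Fintype.ofFinite _
      letI : DecidableEq (SL(2, ℤ) ⧸ Γ) := Classical.decEq _
      exact dlPair_smul_right _ _ _ _)

variable {Γ}

/-- the pairing computed with arbitrary lifts -/
theorem lrCup_eq (hneg : (-1 : SL(2, ℤ)) ∈ Γ) (χ ψ : parabolicHoms ℤ Γ ℤ)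
    {F G : SL(2, ℤ) → ℤ} (hF : LrLift Γ χ.1 F) (hG : LrLift Γ ψ.1 G) :
    lrCup Γ hneg χ ψ = lrP Γ (lrCoc Γ F) (lrCoc Γ G) :=
  lrP_lifts hneg (lrF_spec Γ χ) hF (lrF_spec Γ ψ) hG

theorem lrCup_antisymm (hneg : (-1 : SL(2, ℤ)) ∈ Γ) (χ ψ : parabolicHoms ℤ Γ ℤ) :
    lrCup Γ hneg χ ψ = - lrCup Γ hneg ψ χ := by
  rw [lrCup_eq hneg χ ψ (lrF_spec Γ χ) (lrF_spec Γ ψ), lrCup_eq hneg ψ χ (lrF_spec Γ ψ) (lrF_spec Γ χ)]
  letI : Fintype (SL(2, ℤ) ⧸ Γ) := Fintype.ofFinite _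
  letI : DecidableEq (SL(2, ℤ) ⧸ Γ) := Classical.decEq _
  exact dlPair_antisymm (lrU_lrU_lrU hneg) _ _

/-- **bridge to the local cocycle sum** (for arbitrary lifts and an arbitrary `Fintype`
instance on the cosets) -/
theorem lrCup_three (hneg : (-1 : SL(2, ℤ)) ∈ Γ) [inst : Fintype (SL(2, ℤ) ⧸ Γ)]
    (χ ψ : parabolicHoms ℤ Γ ℤ) {F G : SL(2, ℤ) → ℤ} (hF : LrLift Γ χ.1 F)
    (hG : LrLift Γ ψ.1 G) :
    3 * lrCup Γ hneg χ ψ =
      ∑ x : SL(2, ℤ) ⧸ Γ,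
        ((F (ModularGroup.S * x.out) - F x.out) *
            (G (ModularGroup.S * (ModularGroup.S * ModularGroup.T * x.out))
              - G (ModularGroup.S * ModularGroup.T * x.out))
          - (F (ModularGroup.S * (ModularGroup.S * ModularGroup.T * x.out))
              - F (ModularGroup.S * ModularGroup.T * x.out)) *
            (G (ModularGroup.S * x.out) - G x.out)) := by
  have hinst : inst = Fintype.ofFinite _ := Subsingleton.elim _ _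
  subst hinst
  rw [lrCup_eq hneg χ ψ hF hG]
  letI : Fintype (SL(2, ℤ) ⧸ Γ) := Fintype.ofFinite _
  letI : DecidableEq (SL(2, ℤ) ⧸ Γ) := Classical.decEq _
  exact lr_pair_three hneg hF hG

end Public

section Chain

variable {Γ : Subgroup SL(2, ℤ)} [Fintype (SL(2, ℤ) ⧸ Γ)] [DecidableEq (SL(2, ℤ) ⧸ Γ)]

theorem lrS_eq_iff (hneg : (-1 : SL(2, ℤ)) ∈ Γ) (x : SL(2, ℤ) ⧸ Γ) (h : SL(2, ℤ)) :
    lrS Γ x = (h : SL(2, ℤ) ⧸ Γ) ↔ x = ((ModularGroup.S * h : SL(2, ℤ)) : SL(2, ℤ) ⧸ Γ) := by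
  constructor
  · intro hx
    rw [← lrS_mk, ← hx, lrS_lrS hneg]
  · intro hx
    rw [hx, ← lrS_mk, lrS_lrS hneg]

theorem lrU_lrU_eq_iff (hneg : (-1 : SL(2, ℤ)) ∈ Γ) (x : SL(2, ℤ) ⧸ Γ) (h : SL(2, ℤ)) :
    lrU Γ (lrU Γ x) = (h : SL(2, ℤ) ⧸ Γ)
      ↔ x = ((ModularGroup.S * ModularGroup.T * h : SL(2, ℤ)) : SL(2, ℤ) ⧸ Γ) := by
  constructor
  · intro hx
    rw [← lrU_mk, ← hx, lrU_lrU_lrU hneg]
  · intro hx
    rw [hx, ← lrU_mk, lrU_lrU_lrU hneg]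

/-- chains: for every `g` and `h` a chain of `S`- and `ST`-steps from `[h]` to `[g h]` -/
theorem lr_chain (hneg : (-1 : SL(2, ℤ)) ∈ Γ) (g : SL(2, ℤ)) : ∀ h : SL(2, ℤ),
    ∃ m n : SL(2, ℤ) ⧸ Γ → ℤ,
      (∀ x, n x - n (lrU Γ (lrU Γ x)) + (m x - m (lrS Γ x))
        = (if x = (h : SL(2, ℤ) ⧸ Γ) then 1 else 0)
          - (if x = ((g * h : SL(2, ℤ)) : SL(2, ℤ) ⧸ Γ) then 1 else 0)) ∧
      ∀ (a b : SL(2, ℤ) ⧸ Γ → ℤ) (F : SL(2, ℤ) → ℤ),
        (∀ k, F (ModularGroup.S * k) - F k = a (k : SL(2, ℤ) ⧸ Γ)) →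
        (∀ k, F (ModularGroup.S * ModularGroup.T * k) - F k = b (k : SL(2, ℤ) ⧸ Γ)) →
        F (g * h) - F h = ∑ x, (m x * a x + n x * b x) := by
  have hg : g ∈ Subgroup.closure ({ModularGroup.S, ModularGroup.T} : Set SL(2, ℤ)) := by
    rw [SpecialLinearGroup.SL2Z_generators]; exact Subgroup.mem_top _
  refine Subgroup.closure_induction (p := fun g _ => ∀ h : SL(2, ℤ),
    ∃ m n : SL(2, ℤ) ⧸ Γ → ℤ,
      (∀ x, n x - n (lrU Γ (lrU Γ x)) + (m x - m (lrS Γ x))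
        = (if x = (h : SL(2, ℤ) ⧸ Γ) then 1 else 0)
          - (if x = ((g * h : SL(2, ℤ)) : SL(2, ℤ) ⧸ Γ) then 1 else 0)) ∧
      ∀ (a b : SL(2, ℤ) ⧸ Γ → ℤ) (F : SL(2, ℤ) → ℤ),
        (∀ k, F (ModularGroup.S * k) - F k = a (k : SL(2, ℤ) ⧸ Γ)) →
        (∀ k, F (ModularGroup.S * ModularGroup.T * k) - F k = b (k : SL(2, ℤ) ⧸ Γ)) →
        F (g * h) - F h = ∑ x, (m x * a x + n x * b x)) ?_ ?_ ?_ ?_ hg
  · -- generators
    intro k hk h
    rcases hk with rfl | hk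
    · -- `S`
      refine ⟨fun x => if x = (h : SL(2, ℤ) ⧸ Γ) then 1 else 0, fun _ => 0, fun x => ?_,
        fun a b F ha hb => ?_⟩
      · simp only [lrS_eq_iff hneg]; ring
      · have e : ∀ x : SL(2, ℤ) ⧸ Γ, (if x = (h : SL(2, ℤ) ⧸ Γ) then (1 : ℤ) else 0) * a x + 0 * b x
            = if x = (h : SL(2, ℤ) ⧸ Γ) then a x else 0 := fun x => by split_ifs <;> simp
        rw [Finset.sum_congr rfl fun x _ => e x, Finset.sum_ite_eq', if_pos (Finset.mem_univ _)]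
        exact ha h
    · -- `T`
      rw [Set.mem_singleton_iff] at hk
      subst hk
      refine ⟨fun x => - (if x = ((ModularGroup.T * h : SL(2, ℤ)) : SL(2, ℤ) ⧸ Γ) then 1 else 0),
        fun x => if x = (h : SL(2, ℤ) ⧸ Γ) then 1 else 0, fun x => ?_, fun a b F ha hb => ?_⟩
      · simp only [lrS_eq_iff hneg, lrU_lrU_eq_iff hneg, mul_assoc]; ring
      · have e : ∀ x : SL(2, ℤ) ⧸ Γ,
            (- (if x = ((ModularGroup.T * h : SL(2, ℤ)) : SL(2, ℤ) ⧸ Γ) then (1 : ℤ) else 0)) * a x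
              + (if x = (h : SL(2, ℤ) ⧸ Γ) then (1 : ℤ) else 0) * b x
            = (if x = (h : SL(2, ℤ) ⧸ Γ) then b x else 0)
              - (if x = ((ModularGroup.T * h : SL(2, ℤ)) : SL(2, ℤ) ⧸ Γ) then a x else 0) :=
          fun x => by split_ifs <;> simp <;> ring
        rw [Finset.sum_congr rfl fun x _ => e x, Finset.sum_sub_distrib, Finset.sum_ite_eq',
          Finset.sum_ite_eq', if_pos (Finset.mem_univ _), if_pos (Finset.mem_univ _), ← hb h,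
          ← ha (ModularGroup.T * h), mul_assoc]
        ring
  · -- one
    intro h
    refine ⟨fun _ => 0, fun _ => 0, fun x => ?_, fun a b F _ _ => ?_⟩
    · simp
    · simp
  · -- mul
    intro k₁ k₂ _ _ h₁ h₂ h
    obtain ⟨m₂, n₂, r₂, v₂⟩ := h₂ h
    obtain ⟨m₁, n₁, r₁, v₁⟩ := h₁ (k₂ * h)
    refine ⟨fun x => m₁ x + m₂ x, fun x => n₁ x + n₂ x, fun x => ?_, fun a b F ha hb => ?_⟩
    · rw [mul_assoc]
      linear_combination r₁ x + r₂ x
    · have e : ∑ x, ((m₁ x + m₂ x) * a x + (n₁ x + n₂ x) * b x)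
          = ∑ x, (m₁ x * a x + n₁ x * b x) + ∑ x, (m₂ x * a x + n₂ x * b x) := by
        rw [← Finset.sum_add_distrib]
        exact Finset.sum_congr rfl fun x _ => by ring
      rw [e, ← v₁ a b F ha hb, ← v₂ a b F ha hb, mul_assoc]; ring
  · -- inv
    intro k _ h₁ h
    obtain ⟨m, n, r, v⟩ := h₁ (k⁻¹ * h)
    refine ⟨fun x => - m x, fun x => - n x, fun x => ?_, fun a b F ha hb => ?_⟩
    · have := r x
      rw [mul_inv_cancel_left] at this
      linear_combination -this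
    · have e : ∑ x, (- m x * a x + - n x * b x) = - ∑ x, (m x * a x + n x * b x) := by
        rw [← Finset.sum_neg_distrib]
        exact Finset.sum_congr rfl fun x _ => by ring
      have := v a b F ha hb
      rw [mul_inv_cancel_left] at this
      rw [e, ← this]; ring

/-- **Poincaré dual of a loop** (raw form): a cocycle `v` whose pairing with the cocycle of any
lift evaluates twice the character on `γ` -/
theorem lr_pdual_raw (hneg : (-1 : SL(2, ℤ)) ∈ Γ) (γ : Γ) :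
    ∃ v : SL(2, ℤ) ⧸ Γ → ℤ, v ∈ dlW (R := ℤ) (lrS Γ) (lrU Γ) ∧
      ∀ (χ : Additive Γ →+ ℤ) (F : SL(2, ℤ) → ℤ), LrLift Γ χ F →
        dlPair (lrU Γ) (lrCoc Γ F) v = 2 * χ (Additive.ofMul γ) := by
  have hs := lrS_lrS (Γ := Γ) hneg
  have hu := lrU_lrU_lrU (Γ := Γ) hneg
  obtain ⟨m, n, hrel, hval⟩ := lr_chain hneg (γ : SL(2, ℤ)) 1
  have h1 : (((γ : SL(2, ℤ)) * 1 : SL(2, ℤ)) : SL(2, ℤ) ⧸ Γ) = ((1 : SL(2, ℤ)) : SL(2, ℤ) ⧸ Γ) := by
    rw [QuotientGroup.eq]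
    simp
  have hrel' : ∀ x, n x - n (lrU Γ (lrU Γ x)) + (m x - m (lrS Γ x)) = 0 := fun x => by
    rw [hrel x, h1, sub_self]
  refine ⟨fun x => n x - n (lrU Γ (lrU Γ x)), dl_chain_mem hs hu m n hrel', fun χ F hF => ?_⟩
  rw [dl_chain_pair hs hu m n hrel' (lrCoc_mem hF hneg)]
  congr 1
  have hv := hval (lrCoc Γ F) (fun x => - lrCoc Γ F (lrU Γ x)) F
    (fun k => (lrCoc_mk hF k).symm)
    (fun k => by rw [lrU_mk, lrCoc_mk hF, hF.S_ST hneg]; ring)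
  have h2 : F ((γ : SL(2, ℤ)) * 1) = F 1 + χ (Additive.ofMul γ) := by
    rw [mul_one, ← hF.1, one_mul]
  rw [h2] at hv
  have h3 : ∑ x, (m x * lrCoc Γ F x - n x * lrCoc Γ F (lrU Γ x))
      = ∑ x, (m x * lrCoc Γ F x + n x * - lrCoc Γ F (lrU Γ x)) :=
    Finset.sum_congr rfl fun x _ => by ring
  rw [h3, ← hv]; ring

end Chain

section Surj

/-- the primitive property of the Cayley complex of `SL(2,ℤ)` (supplied by `LR.lr_primitive`) -/
def LrPrimProp : Prop :=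
  ∀ (IS IU : SL(2, ℤ) → ℤ), (∀ g, IS (-g) = IS g) → (∀ g, IU (-g) = IU g) →
    (∀ g, IS (ModularGroup.S * g) + IS g = 0) →
    (∀ g, IU (ModularGroup.S * ModularGroup.T * (ModularGroup.S * ModularGroup.T * g))
      + IU (ModularGroup.S * ModularGroup.T * g) + IU g = 0) →
    ∃ C : SL(2, ℤ) → ℤ, (∀ g, C (ModularGroup.S * g) = C g + IS g) ∧
      (∀ g, C (ModularGroup.S * ModularGroup.T * g) = C g + IU g) ∧ ∀ g, C (-g) = C g

theorem lr_const_of_inv (E : SL(2, ℤ) → ℤ) (hS : ∀ g, E (ModularGroup.S * g) = E g)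
    (hT : ∀ g, E (ModularGroup.T * g) = E g) (g : SL(2, ℤ)) : E g = E 1 := by
  have hg : g ∈ Subgroup.closure ({ModularGroup.S, ModularGroup.T} : Set SL(2, ℤ)) := by
    rw [SpecialLinearGroup.SL2Z_generators]; exact Subgroup.mem_top _
  have key : ∀ k : SL(2, ℤ), E (g * k) = E k := by
    refine Subgroup.closure_induction (p := fun g _ => ∀ k : SL(2, ℤ), E (g * k) = E k)
      ?_ ?_ ?_ ?_ hg
    · intro x hx k
      rcases hx with rfl | hx
      · exact hS k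
      · rw [Set.mem_singleton_iff] at hx; subst hx; exact hT k
    · intro k; rw [one_mul]
    · intro x y _ _ hx hy k; rw [mul_assoc, hx, hy]
    · intro x _ hx k
      have := hx (x⁻¹ * k)
      rw [mul_inv_cancel_left] at this
      exact this.symm
  have := key 1
  rwa [mul_one] at this

theorem lr_T_zpow_inv (C : SL(2, ℤ) → ℤ) (hT : ∀ g, C (ModularGroup.T * g) = C g) (m : ℤ)
    (g : SL(2, ℤ)) : C (ModularGroup.T ^ m * g) = C g := by
  induction m using Int.induction_on generalizing g with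
  | zero => simp
  | succ i ih => rw [zpow_add_one, mul_assoc, ih, hT]
  | pred i ih =>
    rw [zpow_sub_one, mul_assoc, ih, ← hT (ModularGroup.T⁻¹ * g), mul_inv_cancel_left]

variable {Γ : Subgroup SL(2, ℤ)} [Fintype (SL(2, ℤ) ⧸ Γ)] [DecidableEq (SL(2, ℤ) ⧸ Γ)]

/-- every integral cocycle is the cocycle of a lift of a parabolic character -/
theorem lr_coc_surj (hprim : LrPrimProp) (hneg : (-1 : SL(2, ℤ)) ∈ Γ)
    {v : SL(2, ℤ) ⧸ Γ → ℤ} (hv : v ∈ dlW (R := ℤ) (lrS Γ) (lrU Γ)) :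
    ∃ ψ : Additive Γ →+ ℤ, IsParabolicHom Γ ψ ∧
      ∃ G : SL(2, ℤ) → ℤ, LrLift Γ ψ G ∧ lrCoc Γ G = v := by
  obtain ⟨hv1, hv2, hv3, hv4⟩ := hv
  have hTg : ∀ g : SL(2, ℤ), v ((ModularGroup.T * g : SL(2, ℤ)) : SL(2, ℤ) ⧸ Γ)
      = - v ((ModularGroup.S * ModularGroup.T * g : SL(2, ℤ)) : SL(2, ℤ) ⧸ Γ) := by
    intro g
    have h1 := hv1 ((ModularGroup.S * ModularGroup.T * g : SL(2, ℤ)) : SL(2, ℤ) ⧸ Γ)
    rw [lrS_mk, ← mul_assoc, lrm_SST] at h1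
    have h2 : (-ModularGroup.T : SL(2, ℤ)) * g = -(ModularGroup.T * g) := by simp
    rw [h2, lr_neg_mk hneg] at h1
    exact h1
  obtain ⟨C, hCS, hCU, hCneg⟩ := hprim (fun g => v (g : SL(2, ℤ) ⧸ Γ))
    (fun g => - v ((ModularGroup.S * ModularGroup.T * g : SL(2, ℤ)) : SL(2, ℤ) ⧸ Γ))
    (fun g => by
      show v ((-g : SL(2, ℤ)) : SL(2, ℤ) ⧸ Γ) = v (g : SL(2, ℤ) ⧸ Γ)
      rw [lr_neg_mk hneg])
    (fun g => by
      show - v ((ModularGroup.S * ModularGroup.T * (-g) : SL(2, ℤ)) : SL(2, ℤ) ⧸ Γ)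
        = - v ((ModularGroup.S * ModularGroup.T * g : SL(2, ℤ)) : SL(2, ℤ) ⧸ Γ)
      have : ModularGroup.S * ModularGroup.T * (-g) = -(ModularGroup.S * ModularGroup.T * g) := by
        simp
      rw [this, lr_neg_mk hneg])
    (fun g => by
      show v ((ModularGroup.S * g : SL(2, ℤ)) : SL(2, ℤ) ⧸ Γ) + v (g : SL(2, ℤ) ⧸ Γ) = 0
      have := hv1 (g : SL(2, ℤ) ⧸ Γ)
      rw [lrS_mk] at this
      rw [this]; ring)
    (fun g => by
      show - v ((ModularGroup.S * ModularGroup.T * (ModularGroup.S * ModularGroup.T *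
          (ModularGroup.S * ModularGroup.T * g)) : SL(2, ℤ)) : SL(2, ℤ) ⧸ Γ)
        + - v ((ModularGroup.S * ModularGroup.T * (ModularGroup.S * ModularGroup.T * g) : SL(2, ℤ)) :
          SL(2, ℤ) ⧸ Γ)
        + - v ((ModularGroup.S * ModularGroup.T * g : SL(2, ℤ)) : SL(2, ℤ) ⧸ Γ) = 0
      have := hv3 (lrU Γ (g : SL(2, ℤ) ⧸ Γ))
      rw [lrU_mk, lrU_mk, lrU_mk] at this
      linear_combination -this)
  have hCS' : ∀ g, C (ModularGroup.S * g) = C g + v (g : SL(2, ℤ) ⧸ Γ) := hCS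
  have hCU' : ∀ g, C (ModularGroup.S * ModularGroup.T * g)
      = C g + - v ((ModularGroup.S * ModularGroup.T * g : SL(2, ℤ)) : SL(2, ℤ) ⧸ Γ) := hCU
  -- `T`-invariance
  have hCT : ∀ g, C (ModularGroup.T * g) = C g := by
    intro g
    have h1 := hCS' (ModularGroup.T * g)
    have h2 := hCU' g
    rw [mul_assoc] at h2
    rw [hTg] at h1
    rw [mul_assoc] at h1
    linarith
  -- the increments along `Γ`
  have hD : ∀ (γ : Γ) (g : SL(2, ℤ)), C (g * γ) - C g = C γ - C 1 := by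
    intro γ g
    have := lr_const_of_inv (fun g => C (g * γ) - C g)
      (fun g => by
        show C (ModularGroup.S * g * γ) - C (ModularGroup.S * g) = C (g * γ) - C g
        rw [mul_assoc, hCS', hCS', QuotientGroup.mk_mul_of_mem g γ.2]; ring)
      (fun g => by
        show C (ModularGroup.T * g * γ) - C (ModularGroup.T * g) = C (g * γ) - C g
        rw [mul_assoc, hCT, hCT]) g
    simpa using this
  let ψ : Additive Γ →+ ℤ := AddMonoidHom.mk'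
    (fun a => C ((Additive.toMul a : Γ) : SL(2, ℤ)) - C 1) (fun a b => by
      have := hD (Additive.toMul b) ((Additive.toMul a : Γ) : SL(2, ℤ))
      show C (((Additive.toMul a * Additive.toMul b : Γ)) : SL(2, ℤ)) - C 1 = _
      rw [Subgroup.coe_mul]
      linarith)
  have hψ : ∀ γ : Γ, ψ (Additive.ofMul γ) = C γ - C 1 := fun γ => rfl
  have hlift : LrLift Γ ψ C := ⟨fun g γ => by rw [hψ]; linarith [hD γ g], hCT⟩
  refine ⟨ψ, ?_, C, hlift, ?_⟩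
  · intro γ htr
    obtain ⟨δ, m, h | h⟩ := Fermat.Agent.E16.e16lb_conj (γ : SL(2, ℤ)) htr
    · have h1 : δ⁻¹ * γ = ModularGroup.T ^ m * δ⁻¹ := by
        rw [inv_mul_eq_iff_eq_mul, ← mul_assoc, ← h]; group
      have h2 := hD γ δ⁻¹
      rw [h1, lr_T_zpow_inv C hCT] at h2
      rw [hψ]; linarith
    · have h1 : δ⁻¹ * γ = -(ModularGroup.T ^ m * δ⁻¹) := by
        rw [inv_mul_eq_iff_eq_mul]
        have : δ * -(ModularGroup.T ^ m * δ⁻¹) = -(δ * ModularGroup.T ^ m) * δ⁻¹ := by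
          simp [mul_assoc]
        rw [this, ← h]; group
      have h2 := hD γ δ⁻¹
      rw [h1, hCneg, lr_T_zpow_inv C hCT] at h2
      rw [hψ]; linarith
  · funext x
    induction x using QuotientGroup.induction_on with
    | H g => rw [lrCoc_mk hlift, hCS']; ring

end Surj

section Unimod

variable {Γ : Subgroup SL(2, ℤ)} [Γ.FiniteIndex]

/-- **Poincaré dual of a loop**: a parabolic character `w` with `⟨χ, w⟩ = 2 χ(γ)` -/
theorem lr_pdual (hprim : LrPrimProp) (hneg : (-1 : SL(2, ℤ)) ∈ Γ) (γ : Γ) :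
    ∃ w : parabolicHoms ℤ Γ ℤ, ∀ χ : parabolicHoms ℤ Γ ℤ,
      lrCup Γ hneg χ w = 2 * χ.1 (Additive.ofMul γ) := by
  letI : Fintype (SL(2, ℤ) ⧸ Γ) := Fintype.ofFinite _
  letI : DecidableEq (SL(2, ℤ) ⧸ Γ) := Classical.decEq _
  obtain ⟨v, hv, hpair⟩ := lr_pdual_raw hneg γ
  obtain ⟨ψ, hψ, G, hG, hGv⟩ := lr_coc_surj hprim hneg hv
  refine ⟨⟨ψ, hψ⟩, fun χ => ?_⟩
  rw [lrCup_eq hneg χ ⟨ψ, hψ⟩ (lrF_spec Γ χ) hG, hGv]
  exact hpair χ.1 _ (lrF_spec Γ χ)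

/-- nondegeneracy -/
theorem lrCup_nondeg (hprim : LrPrimProp) (hneg : (-1 : SL(2, ℤ)) ∈ Γ) (z : parabolicHoms ℤ Γ ℤ)
    (h : ∀ x, lrCup Γ hneg x z = 0) : z = 0 := by
  apply Subtype.ext
  apply AddMonoidHom.ext
  intro a
  obtain ⟨w, hw⟩ := lr_pdual hprim hneg (Additive.toMul a)
  have h1 := hw z
  rw [lrCup_antisymm, h w] at h1
  have h2 : z.1 a = 0 := by
    have : (2 : ℤ) * z.1 (Additive.ofMul (Additive.toMul a)) = 0 := by rw [← h1]; ring
    simpa using this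
  rw [h2]; rfl

theorem lr_dvd_of_gens (χ : Additive Γ →+ ℤ) (m : ℤ) (S : Set Γ)
    (hS : Subgroup.closure S = ⊤) (h : ∀ s ∈ S, m ∣ χ (Additive.ofMul s)) (γ : Γ) :
    m ∣ χ (Additive.ofMul γ) := by
  have hγ : γ ∈ Subgroup.closure S := by rw [hS]; exact Subgroup.mem_top _
  refine Subgroup.closure_induction (p := fun γ _ => m ∣ χ (Additive.ofMul γ)) ?_ ?_ ?_ ?_ hγ
  · exact h
  · rw [ofMul_one, map_zero]; exact dvd_zero _
  · intro x y _ _ hx hy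
    rw [ofMul_mul, map_add]; exact dvd_add hx hy
  · intro x _ hx
    rw [ofMul_inv, map_neg]; exact (dvd_neg).mpr hx

/-- **unimodularity up to the factor 2**: every functional on the lattice of parabolic
characters is represented by the pairing, up to the factor `2` -/
theorem lrCup_unimod (hprim : LrPrimProp) (hneg : (-1 : SL(2, ℤ)) ∈ Γ)
    (φ : parabolicHoms ℤ Γ ℤ →ₗ[ℤ] ℤ) :
    ∃ w : parabolicHoms ℤ Γ ℤ, ∀ y, lrCup Γ hneg y w = 2 * φ y := by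
  classical
  haveI : Group.FG SL(2, ℤ) :=
    Group.fg_iff.mpr ⟨{ModularGroup.S, ModularGroup.T}, SpecialLinearGroup.SL2Z_generators,
      Set.toFinite _⟩
  obtain ⟨n, S, -, hS⟩ := Group.fg_iff'.mp (inferInstance : Group.FG Γ)
  -- the evaluation map on the generators
  let E : parabolicHoms ℤ Γ ℤ →ₗ[ℤ] (S → ℤ) :=
    { toFun := fun χ s => χ.1 (Additive.ofMul s.1)
      map_add' := fun χ χ' => by funext s; rfl
      map_smul' := fun a χ => by funext s; rfl }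
  have hE : ∀ (χ : parabolicHoms ℤ Γ ℤ) (s : S), E χ s = χ.1 (Additive.ofMul s.1) := fun _ _ => rfl
  have hinj : Function.Injective E := by
    rw [← LinearMap.ker_eq_bot, LinearMap.ker_eq_bot']
    intro χ hχ
    apply Subtype.ext
    apply AddMonoidHom.ext
    intro a
    have := lr_dvd_of_gens χ.1 0 (S : Set Γ) hS (fun s hs => by
      have h1 := congrFun hχ ⟨s, hs⟩
      rw [hE] at h1
      rw [h1]; rfl) (Additive.toMul a)
    exact zero_dvd_iff.mp this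
  have hsat : lrSat (LinearMap.range E) = LinearMap.range E := by
    apply le_antisymm _ (lrSat_le _)
    rintro f ⟨m, hm, χ, hχ⟩
    have hdiv : ∀ γ : Γ, m ∣ χ.1 (Additive.ofMul γ) :=
      lr_dvd_of_gens χ.1 m (S : Set Γ) hS (fun s hs => by
        have h1 := congrFun hχ ⟨s, hs⟩
        rw [hE] at h1
        rw [h1]; exact ⟨f ⟨s, hs⟩, rfl⟩)
    let χ₀ : Additive Γ →+ ℤ := AddMonoidHom.mk' (fun a => χ.1 a / m) (fun a b => by
      show χ.1 (a + b) / m = χ.1 a / m + χ.1 b / m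
      rw [map_add]
      exact Int.add_ediv_of_dvd_left (hdiv (Additive.toMul a)))
    have hχ₀ : IsParabolicHom Γ χ₀ := fun γ hγ => by
      show χ.1 (Additive.ofMul γ) / m = 0
      rw [χ.2 γ hγ, Int.zero_ediv]
    refine ⟨⟨χ₀, hχ₀⟩, ?_⟩
    funext s
    have h1 := congrFun hχ s
    rw [hE] at h1
    show χ.1 (Additive.ofMul s.1) / m = f s
    rw [h1]
    exact Int.mul_ediv_cancel_left _ hm
  -- transport `φ` to the image and extend
  let e : parabolicHoms ℤ Γ ℤ ≃ₗ[ℤ] LinearMap.range E := LinearEquiv.ofInjective E hinj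
  let ψ0 : lrSat (LinearMap.range E) →ₗ[ℤ] ℤ :=
    φ ∘ₗ e.symm.toLinearMap ∘ₗ (LinearEquiv.ofEq _ _ hsat).toLinearMap
  obtain ⟨Φ, hΦ⟩ := lrSat_ext (LinearMap.range E) ψ0
  have hΦE : ∀ y, Φ (E y) = φ y := by
    intro y
    have hy : E y ∈ lrSat (LinearMap.range E) := lrSat_le _ ⟨y, rfl⟩
    rw [hΦ _ hy]
    show φ (e.symm (LinearEquiv.ofEq _ _ hsat ⟨E y, hy⟩)) = φ y
    congr 1
    rw [LinearEquiv.symm_apply_eq]
    apply Subtype.ext
    rfl
  -- the Poincaré duals of the generators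
  choose w hw using fun s : S => lr_pdual hprim hneg s.1
  refine ⟨∑ s : S, Φ (fun j => if s = j then 1 else 0) • w s, fun y => ?_⟩
  rw [map_sum, ← hΦE y, LinearMap.pi_apply_eq_sum_univ Φ (E y), Finset.mul_sum]
  refine Finset.sum_congr rfl fun s _ => ?_
  rw [map_smul, hw s y, hE, smul_eq_mul, smul_eq_mul]; ring

end Unimod

section Adj

variable {Γ' Γ : Subgroup SL(2, ℤ)}

/-- the projection on cosets -/
def lrProj (Γ' Γ : Subgroup SL(2, ℤ)) (x : SL(2, ℤ) ⧸ Γ') : SL(2, ℤ) ⧸ Γ :=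
  ((x.out : SL(2, ℤ)) : SL(2, ℤ) ⧸ Γ)

theorem lrProj_mk (hle : Γ' ≤ Γ) (g : SL(2, ℤ)) :
    lrProj Γ' Γ (g : SL(2, ℤ) ⧸ Γ') = (g : SL(2, ℤ) ⧸ Γ) := by
  obtain ⟨h, hh⟩ := QuotientGroup.mk_out_eq_mul Γ' g
  unfold lrProj
  rw [hh]
  exact QuotientGroup.mk_mul_of_mem g (hle h.2)

theorem lrProj_S (hle : Γ' ≤ Γ) (x : SL(2, ℤ) ⧸ Γ') :
    lrProj Γ' Γ (lrS Γ' x) = lrS Γ (lrProj Γ' Γ x) := by
  induction x using QuotientGroup.induction_on with
  | H g => rw [lrS_mk, lrProj_mk hle, lrProj_mk hle, lrS_mk]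

theorem lrProj_U (hle : Γ' ≤ Γ) (x : SL(2, ℤ) ⧸ Γ') :
    lrProj Γ' Γ (lrU Γ' x) = lrU Γ (lrProj Γ' Γ x) := by
  induction x using QuotientGroup.induction_on with
  | H g => rw [lrU_mk, lrProj_mk hle, lrProj_mk hle, lrU_mk]

variable {ι : Type*} [Fintype ι]

/-- transfer of a lift along a transversal -/
def lrTr (t : ι → SL(2, ℤ)) (G' : SL(2, ℤ) → ℤ) (g : SL(2, ℤ)) : ℤ := ∑ i, G' (g * t i)

theorem lr_transv_inj (t : ι → SL(2, ℤ)) (htΓ : ∀ i, t i ∈ Γ)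
    (ht : ∀ γ ∈ Γ, ∃! i, (t i)⁻¹ * γ ∈ Γ') {i i' : ι} (h : (t i)⁻¹ * t i' ∈ Γ') : i = i' := by
  have h2 : (t i')⁻¹ * t i' ∈ Γ' := by rw [inv_mul_cancel]; exact Γ'.one_mem
  exact (ht _ (htΓ i')).unique h h2

/-- the transfer of a lift is a lift of the transferred character (given by coset data) -/
theorem lrTr_lift (t : ι → SL(2, ℤ)) (htΓ : ∀ i, t i ∈ Γ)
    (ht : ∀ γ ∈ Γ, ∃! i, (t i)⁻¹ * γ ∈ Γ')
    {ψ' : Additive Γ' →+ ℤ} {G' : SL(2, ℤ) → ℤ} (hG' : LrLift Γ' ψ' G') (ψ : Additive Γ →+ ℤ)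
    (hcores : ∀ (γ : Γ) (π : ι → ι) (g' : ι → Γ'),
      (∀ i, (γ : SL(2, ℤ)) * t i = t (π i) * g' i) →
      ψ (Additive.ofMul γ) = ∑ i, ψ' (Additive.ofMul (g' i))) :
    LrLift Γ ψ (lrTr t G') := by
  refine ⟨fun g γ => ?_, fun g => ?_⟩
  · have hex : ∀ i, ∃ j, (t j)⁻¹ * ((γ : SL(2, ℤ)) * t i) ∈ Γ' := fun i =>
      (ht _ (Γ.mul_mem γ.2 (htΓ i))).exists
    choose π hπ using hex
    let g' : ι → Γ' := fun i => ⟨(t (π i))⁻¹ * ((γ : SL(2, ℤ)) * t i), hπ i⟩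
    have hdata : ∀ i, (γ : SL(2, ℤ)) * t i = t (π i) * g' i := fun i => by
      show _ = t (π i) * ((t (π i))⁻¹ * ((γ : SL(2, ℤ)) * t i))
      rw [mul_inv_cancel_left]
    have hinj : Function.Injective π := by
      intro i i' hii
      apply lr_transv_inj t htΓ ht
      have a := hπ i
      have b := hπ i'
      rw [hii] at a
      have : (t i)⁻¹ * t i' = ((t (π i'))⁻¹ * ((γ : SL(2, ℤ)) * t i))⁻¹ *
          ((t (π i'))⁻¹ * ((γ : SL(2, ℤ)) * t i')) := by group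
      rw [this]; exact Γ'.mul_mem (Γ'.inv_mem a) b
    have hbij : Function.Bijective π := Finite.injective_iff_bijective.mp hinj
    unfold lrTr
    rw [hcores γ π g' hdata, ← (Equiv.ofBijective π hbij).sum_comp (fun j => G' (g * t j)),
      ← Finset.sum_add_distrib]
    refine Finset.sum_congr rfl fun i _ => ?_
    rw [mul_assoc, hdata i, ← mul_assoc, hG'.1]
    rfl
  · unfold lrTr
    refine Finset.sum_congr rfl fun i _ => ?_
    rw [mul_assoc, hG'.2]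

theorem lrCoc_pull (hle : Γ' ≤ Γ) {χ : Additive Γ →+ ℤ} {χ' : Additive Γ' →+ ℤ}
    {F : SL(2, ℤ) → ℤ} (hF : LrLift Γ χ F) (hF' : LrLift Γ' χ' F) :
    lrCoc Γ' F = fun x => lrCoc Γ F (lrProj Γ' Γ x) := by
  funext x
  induction x using QuotientGroup.induction_on with
  | H g => rw [lrProj_mk hle, lrCoc_mk hF, lrCoc_mk hF']

variable [Fintype (SL(2, ℤ) ⧸ Γ)] [DecidableEq (SL(2, ℤ) ⧸ Γ)]
  [Fintype (SL(2, ℤ) ⧸ Γ')] [DecidableEq (SL(2, ℤ) ⧸ Γ')]

theorem lrPush_coc (hle : Γ' ≤ Γ) (t : ι → SL(2, ℤ)) (htΓ : ∀ i, t i ∈ Γ)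
    (ht : ∀ γ ∈ Γ, ∃! i, (t i)⁻¹ * γ ∈ Γ')
    {ψ' : Additive Γ' →+ ℤ} {G' : SL(2, ℤ) → ℤ} (hG' : LrLift Γ' ψ' G') {ψ : Additive Γ →+ ℤ}
    (hG : LrLift Γ ψ (lrTr t G')) :
    dlPush (lrProj Γ' Γ) (lrCoc Γ' G') = lrCoc Γ (lrTr t G') := by
  classical
  funext y
  induction y using QuotientGroup.induction_on with
  | H g =>
    rw [lrCoc_mk hG]
    unfold dlPush lrTr
    have himg : Finset.univ.filter (fun x => lrProj Γ' Γ x = (g : SL(2, ℤ) ⧸ Γ))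
        = Finset.univ.image (fun i => ((g * t i : SL(2, ℤ)) : SL(2, ℤ) ⧸ Γ')) := by
      ext x
      simp only [Finset.mem_filter, Finset.mem_univ, true_and, Finset.mem_image]
      constructor
      · intro hx
        induction x using QuotientGroup.induction_on with
        | H k =>
          rw [lrProj_mk hle, QuotientGroup.eq] at hx
          obtain ⟨i, hi, -⟩ := ht (g⁻¹ * k) (by
            have := Γ.inv_mem hx
            simpa using this)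
          refine ⟨i, ?_⟩
          rw [QuotientGroup.eq]
          have : (g * t i)⁻¹ * k = (t i)⁻¹ * (g⁻¹ * k) := by group
          rw [this]; exact hi
      · rintro ⟨i, rfl⟩
        rw [lrProj_mk hle]; exact QuotientGroup.mk_mul_of_mem g (htΓ i)
    have hinj : Function.Injective
        (fun i => ((g * t i : SL(2, ℤ)) : SL(2, ℤ) ⧸ Γ')) := by
      intro i i' h
      rw [QuotientGroup.eq] at h
      apply lr_transv_inj t htΓ ht
      have : (t i)⁻¹ * t i' = (g * t i)⁻¹ * (g * t i') := by group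
      rw [this]; exact h
    rw [himg, Finset.sum_image (fun i _ i' _ h => hinj h), ← Finset.sum_sub_distrib]
    refine Finset.sum_congr rfl fun i _ => ?_
    rw [lrCoc_mk hG', mul_assoc]

theorem lr_adj_raw (hle : Γ' ≤ Γ) (hneg' : (-1 : SL(2, ℤ)) ∈ Γ') (t : ι → SL(2, ℤ))
    (htΓ : ∀ i, t i ∈ Γ) (ht : ∀ γ ∈ Γ, ∃! i, (t i)⁻¹ * γ ∈ Γ')
    {χ : Additive Γ →+ ℤ} {χ' : Additive Γ' →+ ℤ} {F : SL(2, ℤ) → ℤ} (hF : LrLift Γ χ F)
    (hF' : LrLift Γ' χ' F) {ψ' : Additive Γ' →+ ℤ} {G' : SL(2, ℤ) → ℤ} (hG' : LrLift Γ' ψ' G')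
    {ψ : Additive Γ →+ ℤ} (hG : LrLift Γ ψ (lrTr t G')) :
    dlPair (lrU Γ') (lrCoc Γ' F) (lrCoc Γ' G')
      = dlPair (lrU Γ) (lrCoc Γ F) (lrCoc Γ (lrTr t G')) := by
  have hneg : (-1 : SL(2, ℤ)) ∈ Γ := hle hneg'
  rw [lrCoc_pull hle hF hF', ← lrPush_coc hle t htΓ ht hG' hG]
  exact dlPair_pull_push (lrProj Γ' Γ) (lrU_lrU_lrU hneg) (lrU_lrU_lrU hneg') (lrProj_S hle)
    (lrProj_U hle) (lrCoc_mem hF hneg) (lrCoc_mem hG' hneg')
    (by rw [lrPush_coc hle t htΓ ht hG' hG]; exact lrCoc_mem hG hneg)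

end Adj

section AdjPublic

variable {Γ' Γ : Subgroup SL(2, ℤ)} [Γ'.FiniteIndex] [Γ.FiniteIndex]

/-- **adjointness of restriction and corestriction** (corestriction given by coset data for a
left transversal `t` of `Γ'` in `Γ`) -/
theorem lr_adj (hle : Γ' ≤ Γ) (hneg' : (-1 : SL(2, ℤ)) ∈ Γ') (hneg : (-1 : SL(2, ℤ)) ∈ Γ)
    {ι : Type*} [Fintype ι] (t : ι → SL(2, ℤ)) (htΓ : ∀ i, t i ∈ Γ)
    (ht : ∀ γ ∈ Γ, ∃! i, (t i)⁻¹ * γ ∈ Γ')
    (χ : parabolicHoms ℤ Γ ℤ) (χ' : parabolicHoms ℤ Γ' ℤ)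
    (hres : ∀ γ' : Γ', χ'.1 (Additive.ofMul γ') = χ.1 (Additive.ofMul ⟨γ', hle γ'.2⟩))
    (ψ' : parabolicHoms ℤ Γ' ℤ) (ψ : parabolicHoms ℤ Γ ℤ)
    (hcores : ∀ (γ : Γ) (π : ι → ι) (g' : ι → Γ'),
      (∀ i, (γ : SL(2, ℤ)) * t i = t (π i) * g' i) →
      ψ.1 (Additive.ofMul γ) = ∑ i, ψ'.1 (Additive.ofMul (g' i))) :
    lrCup Γ' hneg' χ' ψ' = lrCup Γ hneg χ ψ := by
  letI : Fintype (SL(2, ℤ) ⧸ Γ) := Fintype.ofFinite _
  letI : DecidableEq (SL(2, ℤ) ⧸ Γ) := Classical.decEq _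
  letI : Fintype (SL(2, ℤ) ⧸ Γ') := Fintype.ofFinite _
  letI : DecidableEq (SL(2, ℤ) ⧸ Γ') := Classical.decEq _
  have hF := lrF_spec Γ χ
  have hF' : LrLift Γ' χ'.1 (lrF Γ χ) :=
    ⟨fun g γ' => by rw [hres]; exact hF.1 g ⟨γ', hle γ'.2⟩, hF.2⟩
  have hG' := lrF_spec Γ' ψ'
  have hG := lrTr_lift t htΓ ht hG' ψ.1 hcores
  rw [lrCup_eq hneg' χ' ψ' hF' hG', lrCup_eq hneg χ ψ hF hG]
  exact lr_adj_raw hle hneg' t htΓ ht hF hF' hG' hG

end AdjPublic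

end

end LR
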