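import Fermat.Agent.Lib.LR_HeckeId2

/-!
# S41 (level raising), leaf L0: Hecke identities on characters, part 3

`T_l = cores ∘ W_l ∘ res1`, preservation of parabolic characters by `hecke`, `cores`, `res1`,
`res2`, `atkin`, and commutativity of the Hecke operators on characters.
-/

set_option autoImplicit false

open CongruenceSubgroup Matrix.SpecialLinearGroup
open scoped MatrixGroups

namespace LR

variable {A : Type*} [AddCommGroup A]

/-! ### `T_l = cores ∘ W_l ∘ res1` -/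

/-- **`T_l = cores ∘ W_l ∘ res1`** for a prime `l ∤ N` -/
theorem hecke_eq_cores (N l : ℕ) [NeZero N] [Fact l.Prime] (hNl : N.Coprime l) (χ : X N A) :
    hecke N l χ = cores N l (atkin N l hNl (res1 N l χ)) := by
  rw [atkin_res1, hecke_eq_aop, cores_def, res2_eq_aop]
  rw [LrSpan.aop_comp_one (lrSpanOne N (N * l)) (lrSpanOfHom (dconj N l))
    (fun x hx => ⟨1, Subgroup.one_mem _, Subgroup.one_mem _, Subgroup.mem_top _⟩)]
  have hcomp0 : ((lrSpanOne N (N * l)).comp (lrSpanOfHom (dconj N l))).IsOf (lrhE l * 1) :=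
    LrSpan.comp_isOf _ _ (lrSpanOne_isOf _ _) (lrh_dconj_isOf N l) (by
      rintro y hy ⟨g, hg, e⟩
      refine ⟨?_, Subgroup.mem_top _⟩
      rw [Matrix.mul_one, lrhE_mul_eq_iff] at e
      show y ∈ Gamma0 (N * l)
      rw [lrh_mem_Gamma0]
      exact lrh_mul_dvd_of_coprime hNl (lrh_mem_Gamma0.mp hy) ⟨g 1 0, by rw [e.2.2.1, mul_comm]⟩)
  rw [Matrix.mul_one] at hcomp0
  have hrep := lrh_repT_infty_eq N l hNl
  exact (LrSpan.aop_eq_of_isOf (lrSpanUp N N l (Dvd.intro _ rfl)) _ (lrSpanUp_isOf _ _ _ _) hcomp0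
    _ _ (Subtype.property _) (Subtype.property _) hrep χ).symm

/-! ### parabolic characters -/

theorem lrh_trace_eq_of_conj {D Y G : Matrix (Fin 2) (Fin 2) ℤ} (hD : D.det ≠ 0)
    (h : D * Y = G * D) : Y.trace = G.trace := by
  have h1 : D.det * Y.trace = D.det * G.trace := by
    have e1 : (D.adjugate * (D * Y)).trace = D.det * Y.trace := by
      rw [← Matrix.mul_assoc, Matrix.adjugate_mul, Matrix.smul_mul, Matrix.one_mul,
        Matrix.trace_smul, smul_eq_mul]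
    have e2 : (D.adjugate * (G * D)).trace = D.det * G.trace := by
      rw [Matrix.trace_mul_comm, Matrix.mul_assoc, Matrix.mul_adjugate, Matrix.mul_smul,
        Matrix.mul_one, Matrix.trace_smul, smul_eq_mul]
    rw [← e1, ← e2, h]
  exact mul_left_cancel₀ hD h1

/-- a span of some type `D` preserves parabolic characters -/
theorem LrSpan.IsOf.aop_par {Γ' Γ : Subgroup SL(2, ℤ)} {s : LrSpan Γ' Γ}
    {D : Matrix (Fin 2) (Fin 2) ℤ} (hs : s.IsOf D) (χ : Additive ↥Γ →+ A)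
    (hχ : ModularCurve.Period.IsParabolicHom Γ χ) :
    ModularCurve.Period.IsParabolicHom Γ' (s.aop χ) := by
  refine LrSpan.aop_par s ?_ χ hχ
  intro x hx hxL
  rw [← lrhTr_eq_trace, ← lrhTr_eq_trace]
  exact (lrh_trace_eq_of_conj hs.det_ne (hs.inter x hx hxL)).symm

/-- **Hecke operators preserve parabolic characters** -/
theorem hecke_par (M l : ℕ) (χ : X M A)
    (hχ : ModularCurve.Period.IsParabolicHom (Gamma0 M) χ) :
    ModularCurve.Period.IsParabolicHom (Gamma0 M) (hecke M l χ) := by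
  by_cases hl : l.Prime
  · have : Fact l.Prime := ⟨hl⟩
    rw [hecke_eq_aop]
    exact (lrSpanUp_isOf M M l _).aop_par χ hχ
  · rw [hecke_of_not_prime M hl]
    intro γ _
    rfl

/-- the corestriction preserves parabolic characters -/
theorem cores_par (N q : ℕ) [NeZero N] [NeZero q] (ψ : X (N * q) A)
    (hψ : ModularCurve.Period.IsParabolicHom (Gamma0 (N * q)) ψ) :
    ModularCurve.Period.IsParabolicHom (Gamma0 N) (cores N q ψ) := by
  rw [cores_def]
  exact (lrSpanOne_isOf N (N * q)).aop_par ψ hψ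

theorem res1_par (N q : ℕ) (χ : X N A)
    (hχ : ModularCurve.Period.IsParabolicHom (Gamma0 N) χ) :
    ModularCurve.Period.IsParabolicHom (Gamma0 (N * q)) (res1 N q χ) := by
  rw [res1_eq_aop]
  exact (lrh_incl_isOf N q).aop_par χ hχ

theorem res2_par (N q : ℕ) [NeZero q] (χ : X N A)
    (hχ : ModularCurve.Period.IsParabolicHom (Gamma0 N) χ) :
    ModularCurve.Period.IsParabolicHom (Gamma0 (N * q)) (res2 N q χ) := by
  rw [res2_eq_aop]
  exact (lrh_dconj_isOf N q).aop_par χ hχ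

theorem atkin_par (N q : ℕ) [NeZero q] (hNq : N.Coprime q) (ψ : X (N * q) A)
    (hψ : ModularCurve.Period.IsParabolicHom (Gamma0 (N * q)) ψ) :
    ModularCurve.Period.IsParabolicHom (Gamma0 (N * q)) (atkin N q hNq ψ) := by
  rw [atkin_eq_aop]
  exact (lrh_atkin_isOf N q hNq).aop_par ψ hψ

/-! ### commutativity of the Hecke operators -/

theorem lrh_D_mul_dn (l : ℕ) (z : SL(2, ℤ)) (hz : (l : ℤ) ∣ z 1 0) :
    lrhD l * (lrhDn l z : Matrix (Fin 2) (Fin 2) ℤ) = (z : Matrix (Fin 2) (Fin 2) ℤ) * lrhD l := by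
  rw [lrhD_mul_eq_iff, lrhDn_00 hz, lrhDn_01 hz, lrhDn_10 hz, lrhDn_11 hz]
  exact ⟨rfl, mul_comm _ _, Int.mul_ediv_cancel' hz, mul_comm _ _⟩

theorem lrh_D_mul_D (l l' : ℕ) : lrhD l * lrhD l' = lrhD l' * lrhD l := by
  ext i j
  fin_cases i <;> fin_cases j <;> simp [lrhD, Matrix.mul_apply, Fin.sum_univ_two, mul_comm]

theorem lrh_DD_01 (l l' : ℕ) (y g : SL(2, ℤ))
    (e : (lrhD l' * lrhD l) * (y : Matrix (Fin 2) (Fin 2) ℤ) =
      (g : Matrix (Fin 2) (Fin 2) ℤ) * (lrhD l' * lrhD l)) :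
    y 0 1 = g 0 1 * ((l' : ℤ) * l) := by
  have h01 := congrFun (congrFun e 0) 1
  simpa [lrhD, Matrix.mul_apply, Fin.sum_univ_two] using h01

/-- the composite of two Hecke operators at distinct primes is the operator of a span of type
`diag(1, l l')` -/
theorem lrh_hecke_hecke (M l l' : ℕ) [Fact l.Prime] [Fact l'.Prime] (hll : l ≠ l') (χ : X M A) :
    ∃ s : LrSpan (Gamma0 M) (Gamma0 M), s.IsOf (lrhD l' * lrhD l) ∧
      hecke M l (hecke M l' χ) = s.aop χ := by
  have hlp : l.Prime := Fact.out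
  have hlp' : l'.Prime := Fact.out
  refine ⟨(lrSpanUp M M l (Dvd.intro _ rfl)).comp (lrSpanUp M M l' (Dvd.intro _ rfl)), ?_, ?_⟩
  · refine LrSpan.comp_isOf _ _ (lrSpanUp_isOf _ _ _ _) (lrSpanUp_isOf _ _ _ _) ?_
    rintro y hy ⟨g, hg, e⟩
    have e1 := lrh_DD_01 l l' y g e
    have hyl : (l : ℤ) ∣ y 0 1 := ⟨g 0 1 * l', by rw [e1]; ring⟩
    refine ⟨hyl, ?_⟩
    show (l' : ℤ) ∣ (lrhUp l y) 0 1
    rw [lrhUp_01 hyl, e1]
    have hl0 : (l : ℤ) ≠ 0 := by exact_mod_cast hlp.ne_zero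
    have e2 : g 0 1 * ((l' : ℤ) * l) = (l : ℤ) * (g 0 1 * l') := by ring
    rw [e2, Int.mul_ediv_cancel_left _ hl0]
    exact Dvd.intro_left _ rfl
  · rw [hecke_eq_aop, hecke_eq_aop]
    refine LrSpan.aop_comp_one _ _ ?_ χ
    intro x hx
    have hK : ¬ (l' : ℤ) ∣ ((M * l : ℕ) : ℤ) ∨ ¬ (l' : ℤ) ∣ x 1 1 := by
      by_cases h : l' ∣ M
      · right
        exact lrh_not_dvd_11 hlp' x
          ((Int.natCast_dvd_natCast.mpr h).trans (lrh_mem_Gamma0.mp hx))
      · left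
        rw [Int.natCast_dvd_natCast]
        intro h'
        rcases (Nat.Prime.dvd_mul hlp').mp h' with h1 | h1
        · exact h h1
        · exact hll ((Nat.prime_dvd_prime_iff_eq hlp' hlp).mp h1).symm
    obtain ⟨y', h1, -, h3⟩ := lrh_coset_C1 hlp' x ((M * l : ℕ) : ℤ) 1
      (lrh_prime_int hlp').not_dvd_one hK
    have hzM : ((M * l : ℕ) : ℤ) ∣ (y'⁻¹) 1 0 := by
      rw [lrh_inv_10]; exact (dvd_neg).mpr h1
    have hzl : (l : ℤ) ∣ (y'⁻¹) 1 0 :=
      Dvd.dvd.trans (by push_cast; exact Dvd.intro_left _ rfl) hzM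
    have hy : lrhDn l y'⁻¹ ∈ Gamma0 M :=
      (lrSpanDn (M * l) M l (dvd_refl _)).F_mem _ (lrh_mem_Gamma0.mpr hzM) (Subgroup.mem_top _)
    have hyL : lrhDn l y'⁻¹ ∈ (lrSpanUp M M l (Dvd.intro _ rfl)).L := by
      show (l : ℤ) ∣ (lrhDn l y'⁻¹) 0 1
      rw [lrhDn_01 hzl]; exact Dvd.intro _ rfl
    refine ⟨lrhDn l y'⁻¹, hy, hyL, ?_⟩
    rw [(lrSpanUp_isOf M M l _).F_eq hy hyL (lrh_D_mul_dn l _ hzl), inv_inv]
    exact h3

/-- **the Hecke operators commute** (on all characters, all `l`, `l'`) -/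
theorem hecke_comm (M l l' : ℕ) (χ : X M A) :
    hecke M l (hecke M l' χ) = hecke M l' (hecke M l χ) := by
  by_cases hl : l.Prime
  · by_cases hl' : l'.Prime
    · by_cases hll : l = l'
      · subst hll; rfl
      · have : Fact l.Prime := ⟨hl⟩
        have : Fact l'.Prime := ⟨hl'⟩
        obtain ⟨s, hs, e⟩ := lrh_hecke_hecke M l l' hll χ
        obtain ⟨s', hs', e'⟩ := lrh_hecke_hecke M l' l (Ne.symm hll) χ
        rw [lrh_D_mul_D] at hs'
        rw [e, e']
        exact LrSpan.aop_eq_of_isOf_same _ _ hs' hs χ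
    · rw [hecke_of_not_prime M hl']
      simp
  · rw [hecke_of_not_prime M hl]
    simp

end LR
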