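import Fermat.Agent.Lib.LR_Defs

/-!
# S41 (level raising): degeneracy maps and the Atkin–Lehner operator on characters

* `LR.conjHom D hD h : Γ₀(M) →* Γ₀(M')`, the homomorphism `γ ↦ γ'` with `D * γ = γ' * D`;
* `LR.res1 N q`, `LR.res2 N q : X N A →+ X (N * q) A` (restriction, resp. restriction after
  conjugation by `[q,0;0,1]`);
* `LR.atkin N q hNq : X (N * q) A →+ X (N * q) A` (Atkin–Lehner at `q`);
* `LR.P1 = U ∘ W + 1`, `LR.P2 = U + W` with `U = hecke (N * q) q`.
-/

set_option autoImplicit false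

namespace LR

open CongruenceSubgroup
open scoped MatrixGroups

theorem det_eq_one_of_conj {D B : Matrix (Fin 2) (Fin 2) ℤ} (hD : D.det ≠ 0) {M : ℕ}
    (γ : Gamma0 M) (h : D * mat γ = B * D) : B.det = 1 := by
  have h1 := congrArg Matrix.det h
  rw [Matrix.det_mul, Matrix.det_mul, mat_det, mul_one] at h1
  have h2 : B.det * D.det = 1 * D.det := by rw [one_mul]; exact h1.symm
  exact mul_right_cancel₀ hD h2

theorem exists_conj {M M' : ℕ} {D : Matrix (Fin 2) (Fin 2) ℤ} (hD : D.det ≠ 0) (γ : Gamma0 M)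
    (B : Matrix (Fin 2) (Fin 2) ℤ) (hB : D * mat γ = B * D) (hdvd : (M' : ℤ) ∣ B 1 0) :
    ∃ γ' : Gamma0 M', D * mat γ = mat γ' * D :=
  ⟨mk B (det_eq_one_of_conj hD γ hB) hdvd, hB⟩

/-- the homomorphism `γ ↦ γ'` determined by `D * γ = γ' * D` -/
noncomputable def conjHom {M M' : ℕ} (D : Matrix (Fin 2) (Fin 2) ℤ) (hD : D.det ≠ 0)
    (h : ∀ γ : Gamma0 M, ∃ γ' : Gamma0 M', D * mat γ = mat γ' * D) : Gamma0 M →* Gamma0 M' where
  toFun γ := (h γ).choose
  map_one' := by
    have h1 : D * mat (1 : Gamma0 M) = mat (h 1).choose * D := (h 1).choose_spec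
    have h2 : mat (1 : Gamma0 M') * D = mat (h 1).choose * D := by
      calc mat (1 : Gamma0 M') * D = D := by rw [mat_one, Matrix.one_mul]
        _ = D * mat (1 : Gamma0 M) := by rw [mat_one, Matrix.mul_one]
        _ = _ := h1
    exact (mat_injective (mul_right_cancel_of_det_ne hD h2)).symm
  map_mul' γ γ' := by
    have h1 : D * mat (γ * γ') = mat (h (γ * γ')).choose * D := (h (γ * γ')).choose_spec
    have h2 : D * mat γ = mat (h γ).choose * D := (h γ).choose_spec
    have h3 : D * mat γ' = mat (h γ').choose * D := (h γ').choose_spec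
    have h4 : mat (h (γ * γ')).choose * D = mat ((h γ).choose * (h γ').choose) * D := by
      calc mat (h (γ * γ')).choose * D = D * mat (γ * γ') := h1.symm
        _ = D * mat γ * mat γ' := by rw [mat_mul, Matrix.mul_assoc]
        _ = mat (h γ).choose * D * mat γ' := congrArg (· * mat γ') h2
        _ = mat (h γ).choose * (D * mat γ') := Matrix.mul_assoc _ _ _
        _ = mat (h γ).choose * (mat (h γ').choose * D) := congrArg (mat (h γ).choose * ·) h3
        _ = _ := by rw [mat_mul, Matrix.mul_assoc]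
    exact mat_injective (mul_right_cancel_of_det_ne hD h4)

theorem conjHom_spec {M M' : ℕ} (D : Matrix (Fin 2) (Fin 2) ℤ) (hD : D.det ≠ 0)
    (h : ∀ γ : Gamma0 M, ∃ γ' : Gamma0 M', D * mat γ = mat γ' * D) (γ : Gamma0 M) :
    D * mat γ = mat (conjHom D hD h γ) * D := (h γ).choose_spec

theorem conjHom_eq {M M' : ℕ} (D : Matrix (Fin 2) (Fin 2) ℤ) (hD : D.det ≠ 0)
    (h : ∀ γ : Gamma0 M, ∃ γ' : Gamma0 M', D * mat γ = mat γ' * D) {γ : Gamma0 M}
    {γ' : Gamma0 M'} (e : D * mat γ = mat γ' * D) : conjHom D hD h γ = γ' :=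
  mat_injective (mul_right_cancel_of_det_ne hD ((conjHom_spec D hD h γ).symm.trans e))

variable {A : Type*} [AddCommGroup A]

/-- pull-back of characters along a group homomorphism -/
def pullback {M M' : ℕ} (φ : Gamma0 M →* Gamma0 M') : X M' A →+ X M A where
  toFun χ := χ.comp (MonoidHom.toAdditive φ)
  map_zero' := rfl
  map_add' _ _ := rfl

@[simp] theorem pullback_apply {M M' : ℕ} (φ : Gamma0 M →* Gamma0 M') (χ : X M' A)
    (γ : Gamma0 M) : pullback φ χ (Additive.ofMul γ) = χ (Additive.ofMul (φ γ)) := rfl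

theorem pullback_comp {A' : Type*} [AddCommGroup A'] {M M' : ℕ} (φ : Gamma0 M →* Gamma0 M')
    (f : A →+ A') (χ : X M' A) : pullback φ (f.comp χ) = f.comp (pullback φ χ) := rfl

/-- a character takes the same value on conjugate elements -/
theorem char_conj {M : ℕ} (χ : X M A) (s g : Gamma0 M) :
    χ (Additive.ofMul (s * g * s⁻¹)) = χ (Additive.ofMul g) := by
  rw [ofMul_mul, ofMul_mul, map_add, map_add, ofMul_inv, map_neg]
  abel

/-- if `s * g = g' * s` then a character takes the same value on `g` and `g'` -/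
theorem char_eq_of_mul_eq {M : ℕ} (χ : X M A) {s g g' : Gamma0 M} (h : s * g = g' * s) :
    χ (Additive.ofMul g') = χ (Additive.ofMul g) := by
  have : g' = s * g * s⁻¹ := by rw [h, mul_inv_cancel_right]
  rw [this, char_conj]

/-! ### the inclusion `Γ₀(N q) → Γ₀(N)` -/

theorem det_one_ne : (1 : Matrix (Fin 2) (Fin 2) ℤ).det ≠ 0 := by simp

theorem incl_exists (N q : ℕ) (γ : Gamma0 (N * q)) :
    ∃ γ' : Gamma0 N, (1 : Matrix (Fin 2) (Fin 2) ℤ) * mat γ = mat γ' * 1 :=
  exists_conj det_one_ne γ (mat γ) (by rw [Matrix.one_mul, Matrix.mul_one])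
    (Dvd.dvd.trans (by push_cast; exact Dvd.intro _ rfl) (mat_dvd γ))

/-- the inclusion `Γ₀(N q) → Γ₀(N)` -/
noncomputable def incl (N q : ℕ) : Gamma0 (N * q) →* Gamma0 N :=
  conjHom 1 det_one_ne (incl_exists N q)

theorem mat_incl (N q : ℕ) (γ : Gamma0 (N * q)) : mat (incl N q γ) = mat γ := by
  have := conjHom_spec 1 det_one_ne (incl_exists N q) γ
  rw [Matrix.one_mul, Matrix.mul_one] at this
  exact this.symm

/-- restriction of characters from `Γ₀(N)` to `Γ₀(N q)` -/
noncomputable def res1 (N q : ℕ) : X N A →+ X (N * q) A := pullback (incl N q)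

/-! ### conjugation by `δ = [q,0;0,1]` -/

/-- the matrix `δ = [q,0;0,1]` -/
def delta (q : ℕ) : Matrix (Fin 2) (Fin 2) ℤ := !![(q : ℤ), 0; 0, 1]

theorem delta_det (q : ℕ) : (delta q).det = q := by simp [delta]

theorem delta_det_ne (q : ℕ) [NeZero q] : (delta q).det ≠ 0 := by
  rw [delta_det]; exact_mod_cast NeZero.ne q

theorem dconj_exists (N q : ℕ) [NeZero q] (γ : Gamma0 (N * q)) :
    ∃ γ' : Gamma0 N, delta q * mat γ = mat γ' * delta q := by
  obtain ⟨c₀, hc⟩ := mat_dvd γ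
  refine exists_conj (delta_det_ne q) γ
    !![mat γ 0 0, (q : ℤ) * mat γ 0 1; (N : ℤ) * c₀, mat γ 1 1] ?_ (by simp)
  ext i j
  fin_cases i <;> fin_cases j <;> simp [delta, Matrix.mul_apply, Fin.sum_univ_two]
  · ring
  · rw [hc]; push_cast; ring

/-- the homomorphism `Γ₀(N q) → Γ₀(N)`, `[a,b;c,d] ↦ [a,q b;c/q,d]` (conjugation by `δ`) -/
noncomputable def dconj (N q : ℕ) [NeZero q] : Gamma0 (N * q) →* Gamma0 N :=
  conjHom (delta q) (delta_det_ne q) (dconj_exists N q)

theorem dconj_spec (N q : ℕ) [NeZero q] (γ : Gamma0 (N * q)) :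
    delta q * mat γ = mat (dconj N q γ) * delta q :=
  conjHom_spec _ _ _ γ

theorem delta_mul (q : ℕ) (B : Matrix (Fin 2) (Fin 2) ℤ) :
    delta q * B = !![(q : ℤ) * B 0 0, (q : ℤ) * B 0 1; B 1 0, B 1 1] := by
  ext i j
  fin_cases i <;> fin_cases j <;> simp [delta, Matrix.mul_apply, Fin.sum_univ_two]

theorem mul_delta (q : ℕ) (B : Matrix (Fin 2) (Fin 2) ℤ) :
    B * delta q = !![B 0 0 * (q : ℤ), B 0 1; B 1 0 * (q : ℤ), B 1 1] := by
  ext i j
  fin_cases i <;> fin_cases j <;> simp [delta, Matrix.mul_apply, Fin.sum_univ_two]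

theorem mat_dconj_00 (N q : ℕ) [NeZero q] (γ : Gamma0 (N * q)) :
    mat (dconj N q γ) 0 0 = mat γ 0 0 := by
  have h := dconj_spec N q γ
  rw [delta_mul, mul_delta] at h
  have h00 : (q : ℤ) * mat γ 0 0 = mat (dconj N q γ) 0 0 * (q : ℤ) := congrFun (congrFun h 0) 0
  have hq : (q : ℤ) ≠ 0 := by exact_mod_cast NeZero.ne q
  exact mul_right_cancel₀ hq (h00.symm.trans (mul_comm _ _))

theorem mat_dconj_01 (N q : ℕ) [NeZero q] (γ : Gamma0 (N * q)) :
    mat (dconj N q γ) 0 1 = (q : ℤ) * mat γ 0 1 := by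
  have h := dconj_spec N q γ
  rw [delta_mul, mul_delta] at h
  exact (congrFun (congrFun h 0) 1).symm

theorem mat_dconj_10 (N q : ℕ) [NeZero q] (γ : Gamma0 (N * q)) :
    mat (dconj N q γ) 1 0 * (q : ℤ) = mat γ 1 0 := by
  have h := dconj_spec N q γ
  rw [delta_mul, mul_delta] at h
  exact (congrFun (congrFun h 1) 0).symm

theorem mat_dconj_11 (N q : ℕ) [NeZero q] (γ : Gamma0 (N * q)) :
    mat (dconj N q γ) 1 1 = mat γ 1 1 := by
  have h := dconj_spec N q γ
  rw [delta_mul, mul_delta] at h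
  exact (congrFun (congrFun h 1) 1).symm

/-- restriction after conjugation by `δ`: `(res2 χ)(γ) = χ([a, q b; c/q, d])` -/
noncomputable def res2 (N q : ℕ) [NeZero q] : X N A →+ X (N * q) A := pullback (dconj N q)

/-! ### the Atkin–Lehner matrix `w = [q x, y; N q, q]`, `q x - N y = 1` -/

/-- Bezout coefficient `x` with `q x - N y = 1` -/
def awX (N q : ℕ) : ℤ := Int.gcdA q N

/-- Bezout coefficient `y` with `q x - N y = 1` -/
def awY (N q : ℕ) : ℤ := -Int.gcdB q N

theorem aw_bezout {N q : ℕ} (hNq : N.Coprime q) :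
    (q : ℤ) * awX N q - (N : ℤ) * awY N q = 1 := by
  have h := Int.gcd_eq_gcd_ab (q : ℤ) (N : ℤ)
  have h1 : Int.gcd (q : ℤ) (N : ℤ) = 1 := by
    rw [Int.gcd_natCast_natCast]; exact Nat.Coprime.symm hNq
  rw [h1] at h
  simp only [awX, awY]
  push_cast at h
  linarith

/-- the Atkin–Lehner matrix at `q` of level `N q` -/
def atkinW (N q : ℕ) : Matrix (Fin 2) (Fin 2) ℤ :=
  !![(q : ℤ) * awX N q, awY N q; (N : ℤ) * q, q]

/-- the adjugate of the Atkin–Lehner matrix -/
def atkinWadj (N q : ℕ) : Matrix (Fin 2) (Fin 2) ℤ :=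
  !![(q : ℤ), -awY N q; -((N : ℤ) * q), (q : ℤ) * awX N q]

theorem atkinWadj_mul {N q : ℕ} (hNq : N.Coprime q) :
    atkinWadj N q * atkinW N q = (q : ℤ) • (1 : Matrix (Fin 2) (Fin 2) ℤ) := by
  have hb := aw_bezout hNq
  ext i j
  fin_cases i <;> fin_cases j <;>
    simp [atkinW, atkinWadj, Matrix.mul_apply, Fin.sum_univ_two] <;>
    first | ring1 | linear_combination (q : ℤ) * hb

theorem atkinW_det {N q : ℕ} (hNq : N.Coprime q) : (atkinW N q).det = q := by
  have hb := aw_bezout hNq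
  simp only [atkinW, Matrix.det_fin_two_of]
  linear_combination (q : ℤ) * hb

theorem atkinW_det_ne {N q : ℕ} [NeZero q] (hNq : N.Coprime q) : (atkinW N q).det ≠ 0 := by
  rw [atkinW_det hNq]; exact_mod_cast NeZero.ne q

/-- cancellation of a nonzero integer scalar -/
theorem smul_cancel {q : ℤ} (hq : q ≠ 0) {Y Z : Matrix (Fin 2) (Fin 2) ℤ} (h : q • Y = q • Z) :
    Y = Z := by
  ext i j
  have h2 := congrFun (congrFun h i) j
  simp only [Matrix.smul_apply, smul_eq_mul] at h2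
  exact mul_left_cancel₀ hq h2

theorem atkinW_mul (N q : ℕ) (B : Matrix (Fin 2) (Fin 2) ℤ) :
    atkinW N q * B =
      !![(q : ℤ) * awX N q * B 0 0 + awY N q * B 1 0, (q : ℤ) * awX N q * B 0 1 + awY N q * B 1 1;
         (N : ℤ) * q * B 0 0 + q * B 1 0, (N : ℤ) * q * B 0 1 + q * B 1 1] := by
  ext i j
  fin_cases i <;> fin_cases j <;> simp [atkinW, Matrix.mul_apply, Fin.sum_univ_two]

theorem mul_atkinWadj (N q : ℕ) (C : Matrix (Fin 2) (Fin 2) ℤ) :
    C * atkinWadj N q =
      !![C 0 0 * q - C 0 1 * (N * q), -(C 0 0 * awY N q) + C 0 1 * (q * awX N q);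
         C 1 0 * q - C 1 1 * (N * q), -(C 1 0 * awY N q) + C 1 1 * (q * awX N q)] := by
  ext i j
  fin_cases i <;> fin_cases j <;>
    simp [atkinWadj, Matrix.mul_apply, Fin.sum_univ_two] <;> ring1

theorem atkin_exists (N q : ℕ) [NeZero q] (hNq : N.Coprime q) (γ : Gamma0 (N * q)) :
    ∃ γ' : Gamma0 (N * q), atkinW N q * mat γ = mat γ' * atkinW N q := by
  obtain ⟨c₀, hc⟩ := mat_dvd γ
  have hq : (q : ℤ) ≠ 0 := by exact_mod_cast NeZero.ne q
  have hZ : ∃ B : Matrix (Fin 2) (Fin 2) ℤ,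
      atkinW N q * mat γ * atkinWadj N q = (q : ℤ) • B ∧ ((N * q : ℕ) : ℤ) ∣ B 1 0 := by
    refine ⟨!![(q : ℤ) * awX N q * mat γ 0 0 + awY N q * mat γ 1 0 - N * q * awX N q * mat γ 0 1
            - N * awY N q * mat γ 1 1,
         -awX N q * awY N q * mat γ 0 0 - awY N q * awY N q * N * c₀
            + q * awX N q * awX N q * mat γ 0 1 + awX N q * awY N q * mat γ 1 1;
         (N : ℤ) * q * (mat γ 0 0 + q * c₀ - N * mat γ 0 1 - mat γ 1 1),
         -N * awY N q * mat γ 0 0 - awY N q * mat γ 1 0 + N * q * awX N q * mat γ 0 1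
            + q * awX N q * mat γ 1 1], ?_, ?_⟩
    · rw [atkinW_mul, mul_atkinWadj]
      ext i j
      fin_cases i <;> fin_cases j <;> simp <;> (try rw [hc]) <;> push_cast <;> ring
    · show ((N * q : ℕ) : ℤ) ∣ (N : ℤ) * q * (mat γ 0 0 + q * c₀ - N * mat γ 0 1 - mat γ 1 1)
      push_cast
      exact Dvd.intro _ rfl
  obtain ⟨B, hZ, hdvd⟩ := hZ
  refine exists_conj (atkinW_det_ne hNq) γ B ?_ hdvd
  apply smul_cancel hq
  calc (q : ℤ) • (atkinW N q * mat γ) = atkinW N q * mat γ * ((q : ℤ) • 1) := by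
        rw [Matrix.mul_smul, Matrix.mul_one]
    _ = atkinW N q * mat γ * (atkinWadj N q * atkinW N q) := by rw [atkinWadj_mul hNq]
    _ = (atkinW N q * mat γ * atkinWadj N q) * atkinW N q := (Matrix.mul_assoc _ _ _).symm
    _ = _ := by rw [hZ, Matrix.smul_mul]

/-- the Atkin–Lehner automorphism of `Γ₀(N q)`: conjugation by `atkinW` -/
noncomputable def atkinHom (N q : ℕ) [NeZero q] (hNq : N.Coprime q) :
    Gamma0 (N * q) →* Gamma0 (N * q) :=
  conjHom (atkinW N q) (atkinW_det_ne hNq) (atkin_exists N q hNq)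

theorem atkinHom_spec (N q : ℕ) [NeZero q] (hNq : N.Coprime q) (γ : Gamma0 (N * q)) :
    atkinW N q * mat γ = mat (atkinHom N q hNq γ) * atkinW N q :=
  conjHom_spec _ _ _ γ

/-- **the Atkin–Lehner operator `W` at `q`** on characters of `Γ₀(N q)` -/
noncomputable def atkin (N q : ℕ) [NeZero q] (hNq : N.Coprime q) : X (N * q) A →+ X (N * q) A :=
  pullback (atkinHom N q hNq)

/-- the element `s = [x, y; N, q] ∈ Γ₀(N)` with `w = s δ` -/
def atkinS (N q : ℕ) (hNq : N.Coprime q) : Gamma0 N :=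
  mk !![awX N q, awY N q; (N : ℤ), (q : ℤ)]
    (by
      have hb := aw_bezout hNq
      simp only [Matrix.det_fin_two_of]
      linear_combination hb)
    (by simp)

theorem atkinS_mul_delta (N q : ℕ) (hNq : N.Coprime q) :
    mat (atkinS N q hNq) * delta q = atkinW N q := by
  rw [mul_delta]
  ext i j
  fin_cases i <;> fin_cases j <;> simp [atkinS, atkinW] <;> ring

/-- `W ∘ res1 = res2` -/
theorem atkin_res1 (N q : ℕ) [NeZero q] (hNq : N.Coprime q) (χ : X N A) :
    atkin N q hNq (res1 N q χ) = res2 N q χ := by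
  ext γ
  show χ (Additive.ofMul (incl N q (atkinHom N q hNq (Additive.toMul γ)))) =
    χ (Additive.ofMul (dconj N q (Additive.toMul γ)))
  set g : Gamma0 (N * q) := Additive.toMul γ
  refine char_eq_of_mul_eq χ (s := atkinS N q hNq) ?_
  apply mat_injective
  rw [mat_mul, mat_mul, mat_incl]
  apply mul_right_cancel_of_det_ne (delta_det_ne q)
  calc mat (atkinS N q hNq) * mat (dconj N q g) * delta q
      = mat (atkinS N q hNq) * (delta q * mat g) := by
        rw [Matrix.mul_assoc, dconj_spec]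
    _ = atkinW N q * mat g := by rw [← Matrix.mul_assoc, atkinS_mul_delta]
    _ = mat (atkinHom N q hNq g) * atkinW N q := atkinHom_spec N q hNq g
    _ = mat (atkinHom N q hNq g) * mat (atkinS N q hNq) * delta q := by
        rw [Matrix.mul_assoc, atkinS_mul_delta]

/-- the matrix `u` with `w * w = q • u` -/
def atkinU (N q : ℕ) : Matrix (Fin 2) (Fin 2) ℤ :=
  !![(q : ℤ) * awX N q * awX N q + awY N q * N, awX N q * awY N q + awY N q;
     (N : ℤ) * q * (awX N q + 1), (N : ℤ) * awY N q + q]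

theorem atkinW_sq (N q : ℕ) : atkinW N q * atkinW N q = (q : ℤ) • atkinU N q := by
  ext i j
  fin_cases i <;> fin_cases j <;>
    simp [atkinW, atkinU, Matrix.mul_apply, Fin.sum_univ_two] <;> ring

theorem atkinU_det {N q : ℕ} [NeZero q] (hNq : N.Coprime q) : (atkinU N q).det = 1 := by
  have hq : (q : ℤ) ≠ 0 := by exact_mod_cast NeZero.ne q
  have h := congrArg Matrix.det (atkinW_sq N q)
  rw [Matrix.det_mul, atkinW_det hNq, Matrix.det_smul, Fintype.card_fin] at h
  have h2 : (q : ℤ) ^ 2 * (atkinU N q).det = (q : ℤ) ^ 2 * 1 := by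
    rw [← h]; ring
  exact mul_left_cancel₀ (pow_ne_zero 2 hq) h2

/-- `W ∘ W = id` -/
theorem atkin_atkin (N q : ℕ) [NeZero q] (hNq : N.Coprime q) (χ : X (N * q) A) :
    atkin N q hNq (atkin N q hNq χ) = χ := by
  ext γ
  show χ (Additive.ofMul (atkinHom N q hNq (atkinHom N q hNq (Additive.toMul γ)))) = χ γ
  set g : Gamma0 (N * q) := Additive.toMul γ
  have hq : (q : ℤ) ≠ 0 := by exact_mod_cast NeZero.ne q
  let u : Gamma0 (N * q) := mk (atkinU N q) (atkinU_det hNq)
    (by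
      show ((N * q : ℕ) : ℤ) ∣ (N : ℤ) * q * (awX N q + 1)
      push_cast
      exact Dvd.intro _ rfl)
  refine char_eq_of_mul_eq χ (s := u) ?_
  apply mat_injective
  rw [mat_mul, mat_mul]
  apply smul_cancel hq
  have hu : mat u = atkinU N q := rfl
  calc (q : ℤ) • (mat u * mat g) = (atkinW N q * atkinW N q) * mat g := by
        rw [atkinW_sq, hu, Matrix.smul_mul]
    _ = atkinW N q * (mat (atkinHom N q hNq g) * atkinW N q) := by
        rw [Matrix.mul_assoc, atkinHom_spec]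
    _ = mat (atkinHom N q hNq (atkinHom N q hNq g)) * (atkinW N q * atkinW N q) := by
        rw [← Matrix.mul_assoc, atkinHom_spec, Matrix.mul_assoc]
    _ = (q : ℤ) • (mat (atkinHom N q hNq (atkinHom N q hNq g)) * mat u) := by
        rw [atkinW_sq, hu, Matrix.mul_smul]

/-- `W ∘ res2 = res1` -/
theorem atkin_res2 (N q : ℕ) [NeZero q] (hNq : N.Coprime q) (χ : X N A) :
    atkin N q hNq (res2 N q χ) = res1 N q χ := by
  rw [← atkin_res1 N q hNq χ, atkin_atkin]

/-- naturality in the coefficient group -/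
theorem res1_comp {A' : Type*} [AddCommGroup A'] (N q : ℕ) (f : A →+ A') (χ : X N A) :
    res1 N q (f.comp χ) = f.comp (res1 N q χ) := rfl

theorem res2_comp {A' : Type*} [AddCommGroup A'] (N q : ℕ) [NeZero q] (f : A →+ A')
    (χ : X N A) : res2 N q (f.comp χ) = f.comp (res2 N q χ) := rfl

theorem atkin_comp {A' : Type*} [AddCommGroup A'] (N q : ℕ) [NeZero q] (hNq : N.Coprime q)
    (f : A →+ A') (χ : X (N * q) A) :
    atkin N q hNq (f.comp χ) = f.comp (atkin N q hNq χ) := rfl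

@[simp] theorem res1_apply (N q : ℕ) (χ : X N A) (γ : Gamma0 (N * q)) :
    res1 N q χ (Additive.ofMul γ) = χ (Additive.ofMul (incl N q γ)) := rfl

@[simp] theorem res2_apply (N q : ℕ) [NeZero q] (χ : X N A) (γ : Gamma0 (N * q)) :
    res2 N q χ (Additive.ofMul γ) = χ (Additive.ofMul (dconj N q γ)) := rfl

@[simp] theorem atkin_apply (N q : ℕ) [NeZero q] (hNq : N.Coprime q) (χ : X (N * q) A)
    (γ : Gamma0 (N * q)) :
    atkin N q hNq χ (Additive.ofMul γ) = χ (Additive.ofMul (atkinHom N q hNq γ)) := rfl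

/-- `P1 = U ∘ W + 1` (morally `res1 ∘ cores1`) -/
noncomputable def P1 (N q : ℕ) [NeZero q] (hNq : N.Coprime q) : X (N * q) A →+ X (N * q) A :=
  (hecke (N * q) q).comp (atkin N q hNq) + AddMonoidHom.id _

/-- `P2 = U + W` (morally `res1 ∘ cores2`) -/
noncomputable def P2 (N q : ℕ) [NeZero q] (hNq : N.Coprime q) : X (N * q) A →+ X (N * q) A :=
  hecke (N * q) q + atkin N q hNq

theorem P1_apply (N q : ℕ) [NeZero q] (hNq : N.Coprime q) (χ : X (N * q) A) :
    P1 N q hNq χ = hecke (N * q) q (atkin N q hNq χ) + χ := rfl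

theorem P2_apply (N q : ℕ) [NeZero q] (hNq : N.Coprime q) (χ : X (N * q) A) :
    P2 N q hNq χ = hecke (N * q) q χ + atkin N q hNq χ := rfl

end LR
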