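import Mathlib
import Fermat.Agent.Lib.LR_DualPar
import Fermat.Agent.Lib.LR_SL2Pres
import Fermat.Agent.Lib.LR_Heis
import Fermat.Agent.Lib.LR_Level
import Fermat.Agent.Lib.LR_HeckeId3
import Fermat.Agent.Lib.LR_CuspConj

/-!
# S41 / S2: assembly of the duality package at level `Γ₀`
-/

set_option autoImplicit false
set_option linter.unusedSectionVars false
set_option linter.style.haveILetI false

open scoped MatrixGroups
open ModularCurve.Period CongruenceSubgroup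

namespace LR

noncomputable section

/-- the primitive property of the Cayley complex -/
theorem lrd_prim : LrPrimProp := fun IS IU a b c d => lr_primitive IS IU a b c d

theorem lrd_neg_mem (M : ℕ) : (-1 : SL(2, ℤ)) ∈ Gamma0 M := by
  rw [Gamma0_mem]
  simp

/-- conjugate integer matrices have the same trace -/
theorem lrd_trace_conj {D A A' : Matrix (Fin 2) (Fin 2) ℤ} (hD : D.det ≠ 0)
    (h : D * A = A' * D) : A.trace = A'.trace := by
  have h1 : A' * D * D.adjugate = D * A * D.adjugate := by rw [h]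
  have h2 : (A' * D * D.adjugate).trace = D.det * A'.trace := by
    rw [Matrix.mul_assoc, Matrix.mul_adjugate, Matrix.mul_smul, Matrix.mul_one, Matrix.trace_smul,
      smul_eq_mul]
  have h3 : (D * A * D.adjugate).trace = D.det * A.trace := by
    rw [Matrix.trace_mul_comm, ← Matrix.mul_assoc, Matrix.adjugate_mul, Matrix.smul_mul,
      Matrix.one_mul, Matrix.trace_smul, smul_eq_mul]
  rw [h1, h3] at h2
  exact mul_left_cancel₀ hD h2

section Par

variable {A : Type*} [AddCommGroup A]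

theorem lrd_res1_par (M l : ℕ) {χ : X M A} (hχ : IsParabolicHom (Gamma0 M) χ) :
    IsParabolicHom (Gamma0 (M * l)) (res1 M l χ) := by
  intro γ hγ
  rw [res1_apply]
  apply hχ
  have : mat (incl M l γ) = mat γ := mat_incl M l γ
  show (mat (incl M l γ)).trace ^ 2 = 4
  rw [this]; exact hγ

theorem lrd_atkin_par (M l : ℕ) [NeZero l] (hMl : M.Coprime l) {χ : X (M * l) A}
    (hχ : IsParabolicHom (Gamma0 (M * l)) χ) :
    IsParabolicHom (Gamma0 (M * l)) (atkin M l hMl χ) := by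
  intro γ hγ
  rw [atkin_apply]
  apply hχ
  have := lrd_trace_conj (atkinW_det_ne hMl) (atkinHom_spec M l hMl γ)
  show (mat (atkinHom M l hMl γ)).trace ^ 2 = 4
  rw [← this]; exact hγ

end Par

section AtkinEquiv

variable (M l : ℕ) [NeZero l] (hMl : M.Coprime l)

/-- the element `u` with `w * w = l • u` as an element of `Γ₀(M l)` -/
def lrdU : Gamma0 (M * l) :=
  mk (atkinU M l) (atkinU_det hMl)
    (by
      show ((M * l : ℕ) : ℤ) ∣ (M : ℤ) * l * (awX M l + 1)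
      push_cast
      exact Dvd.intro _ rfl)

theorem lrd_atkin_sq (g : Gamma0 (M * l)) :
    lrdU M l hMl * g = atkinHom M l hMl (atkinHom M l hMl g) * lrdU M l hMl := by
  have hq : (l : ℤ) ≠ 0 := by exact_mod_cast NeZero.ne l
  apply mat_injective
  rw [mat_mul, mat_mul]
  apply smul_cancel hq
  have hu : mat (lrdU M l hMl) = atkinU M l := rfl
  calc (l : ℤ) • (mat (lrdU M l hMl) * mat g) = (atkinW M l * atkinW M l) * mat g := by
        rw [atkinW_sq, hu, Matrix.smul_mul]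
    _ = atkinW M l * (mat (atkinHom M l hMl g) * atkinW M l) := by
        rw [Matrix.mul_assoc, atkinHom_spec]
    _ = mat (atkinHom M l hMl (atkinHom M l hMl g)) * (atkinW M l * atkinW M l) := by
        rw [← Matrix.mul_assoc, atkinHom_spec, Matrix.mul_assoc]
    _ = (l : ℤ) • (mat (atkinHom M l hMl (atkinHom M l hMl g)) * mat (lrdU M l hMl)) := by
        rw [atkinW_sq, hu, Matrix.mul_smul]

theorem lrd_atkinHom_bij : Function.Bijective (atkinHom M l hMl) := by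
  constructor
  · intro g g' h
    apply mat_injective
    apply mul_left_cancel_of_det_ne (atkinW_det_ne hMl)
    rw [atkinHom_spec M l hMl g, atkinHom_spec M l hMl g', h]
  · intro h
    refine ⟨atkinHom M l hMl ((lrdU M l hMl)⁻¹ * h * lrdU M l hMl), ?_⟩
    have := lrd_atkin_sq M l hMl ((lrdU M l hMl)⁻¹ * h * lrdU M l hMl)
    have h2 : lrdU M l hMl * ((lrdU M l hMl)⁻¹ * h * lrdU M l hMl) = h * lrdU M l hMl := by group
    rw [h2] at this
    exact (mul_right_cancel this).symm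

/-- the Atkin–Lehner automorphism as a group isomorphism -/
def lrdAtkinEquiv : Gamma0 (M * l) ≃* Gamma0 (M * l) :=
  MulEquiv.ofBijective (atkinHom M l hMl) (lrd_atkinHom_bij M l hMl)

theorem lrdAtkinEquiv_apply (g : Gamma0 (M * l)) :
    lrdAtkinEquiv M l hMl g = atkinHom M l hMl g := rfl

end AtkinEquiv

/-- self-adjointness of `C ∘ W ∘ R` from adjointness of `R`, `C` and an isometric involution
`W` -/
theorem lrd_sa_of_iso {H B : Type*} [AddCommGroup H] [AddCommGroup B]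
    (bH : H →ₗ[ℤ] H →ₗ[ℤ] ℤ) (bB : B →ₗ[ℤ] B →ₗ[ℤ] ℤ)
    (antiH : ∀ x y, bH x y = - bH y x) (antiB : ∀ x y, bB x y = - bB y x)
    (R : H → B) (W : B → B) (C : B → H)
    (hadj : ∀ x w, bB (R x) w = bH x (C w)) (hiso : ∀ a b, bB (W a) (W b) = bB a b)
    (hinv : ∀ a, W (W a) = a) (x y : H) :
    bH (C (W (R x))) y = bH x (C (W (R y))) := by
  rw [antiH, ← hadj, ← hadj, antiB, neg_neg, ← hiso (W (R x)) (R y), hinv]

/-- the bridge in helper8's notation -/
theorem lrd_three {Γ : Subgroup SL(2, ℤ)} [Γ.FiniteIndex] (hneg : (-1 : SL(2, ℤ)) ∈ Γ)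
    [Fintype (SL(2, ℤ) ⧸ Γ)] (χ ψ : parabolicHoms ℤ Γ ℤ) {F G : SL(2, ℤ) → ℤ}
    (hF : LrLift Γ χ.1 F) (hG : LrLift Γ ψ.1 G) :
    3 * lrCup Γ hneg χ ψ = ∑ x : SL(2, ℤ) ⧸ Γ, lrHL F G x.out :=
  lrCup_three hneg χ ψ hF hG

/-- the lattice of integral parabolic characters of level `M` -/
abbrev lrdPar (M : ℕ) : Submodule ℤ (X M ℤ) := parabolicHoms ℤ (Gamma0 M) ℤ

/-- the pairing at level `M` -/
def lrdCup (M : ℕ) [NeZero M] : lrdPar M →ₗ[ℤ] lrdPar M →ₗ[ℤ] ℤ :=
  lrCup (Gamma0 M) (lrd_neg_mem M)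

theorem lrdCup_antisymm (M : ℕ) [NeZero M] (x y : lrdPar M) : lrdCup M x y = - lrdCup M y x :=
  lrCup_antisymm _ x y

theorem lrdCup_nondeg (M : ℕ) [NeZero M] (y : lrdPar M) (h : ∀ x, lrdCup M x y = 0) : y = 0 :=
  lrCup_nondeg lrd_prim _ y h

theorem lrdCup_unimod (M : ℕ) [NeZero M] (φ : lrdPar M →ₗ[ℤ] ℤ) :
    ∃ w : lrdPar M, ∀ b, lrdCup M b w = 2 * φ b :=
  lrCup_unimod lrd_prim _ φ

section Adj

variable (M l : ℕ) [NeZero M] [NeZero l]

theorem lrd_le : Gamma0 (M * l) ≤ Gamma0 M := by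
  intro g hg
  rw [Gamma0_mem, ZMod.intCast_zmod_eq_zero_iff_dvd] at hg ⊢
  exact Dvd.dvd.trans (by push_cast; exact Dvd.intro _ rfl) hg

theorem lrd_incl_eq (γ : Gamma0 (M * l)) : incl M l γ = ⟨γ, lrd_le M l γ.2⟩ :=
  mat_injective (mat_incl M l γ)

/-- the transversal of `Γ₀(M l)` in `Γ₀(M)` given by the chosen coset representatives -/
theorem lrd_transversal (γ : SL(2, ℤ)) (hγ : γ ∈ Gamma0 M) :
    ∃! i : {x : SL(2, ℤ) ⧸ Gamma0 (M * l) // (x.out : SL(2, ℤ)) ∈ Gamma0 M},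
      ((i.1.out : SL(2, ℤ)))⁻¹ * γ ∈ Gamma0 (M * l) := by
  obtain ⟨h, hh⟩ := QuotientGroup.mk_out_eq_mul (Gamma0 (M * l)) γ
  have hmem : ((γ : SL(2, ℤ) ⧸ Gamma0 (M * l)).out : SL(2, ℤ)) ∈ Gamma0 M := by
    rw [hh]
    exact mul_mem hγ (lrd_le M l h.2)
  refine ⟨⟨(γ : SL(2, ℤ) ⧸ Gamma0 (M * l)), hmem⟩, ?_, ?_⟩
  · show ((γ : SL(2, ℤ) ⧸ Gamma0 (M * l)).out)⁻¹ * γ ∈ Gamma0 (M * l)
    rw [hh]
    have : (γ * (h : SL(2, ℤ)))⁻¹ * γ = ((h : SL(2, ℤ)))⁻¹ := by group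
    rw [this]
    exact inv_mem h.2
  · intro j hj
    apply Subtype.ext
    have h1 : ((j.1.out : SL(2, ℤ)) : SL(2, ℤ) ⧸ Gamma0 (M * l)) = (γ : SL(2, ℤ) ⧸ Gamma0 (M * l)) :=
      QuotientGroup.eq.mpr hj
    rw [QuotientGroup.out_eq'] at h1
    exact h1

/-- **adjointness of `res1` and `cores`** -/
theorem lrd_adj (x : lrdPar M) (x' w : lrdPar (M * l)) (w' : lrdPar M)
    (hx : (x' : X (M * l) ℤ) = res1 M l (x : X M ℤ))
    (hw : (w' : X M ℤ) = cores M l (w : X (M * l) ℤ)) :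
    lrdCup (M * l) x' w = lrdCup M x w' := by
  classical
  haveI : Fintype {x : SL(2, ℤ) ⧸ Gamma0 (M * l) // (x.out : SL(2, ℤ)) ∈ Gamma0 M} :=
    Fintype.ofFinite _
  refine lr_adj (lrd_le M l) _ _
    (fun i : {x : SL(2, ℤ) ⧸ Gamma0 (M * l) // (x.out : SL(2, ℤ)) ∈ Gamma0 M} =>
      (i.1.out : SL(2, ℤ))) (fun i => i.2) (lrd_transversal M l) x x' ?_ w w' ?_
  · intro γ'
    rw [hx, res1_apply, lrd_incl_eq]
  · intro γ π g' h
    rw [hw]
    exact cores_apply_of_data M l w.1 _ (fun i => i.2) (lrd_transversal M l) γ π g' h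

/-- **the Atkin–Lehner operator is an isometry** -/
theorem lrd_iso (hMl : M.Coprime l) (a b a' b' : lrdPar (M * l))
    (ha : (a' : X (M * l) ℤ) = atkin M l hMl (a : X (M * l) ℤ))
    (hb : (b' : X (M * l) ℤ) = atkin M l hMl (b : X (M * l) ℤ)) :
    lrdCup (M * l) a' b' = lrdCup (M * l) a b := by
  classical
  haveI : Fintype (SL(2, ℤ) ⧸ Gamma0 (M * l)) := Fintype.ofFinite _
  have h1 := lrd_three (lrd_neg_mem (M * l)) a' b' (lrF_spec _ a') (lrF_spec _ b')
  have h2 := lrd_three (lrd_neg_mem (M * l)) a b (lrF_spec _ a) (lrF_spec _ b)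
  have hdet : 0 < (atkinW M l).det := by
    rw [atkinW_det hMl]
    exact_mod_cast Nat.pos_of_ne_zero (NeZero.ne l)
  have h3 := lr_loc_conj (lrd_neg_mem (M * l)) (lrd_neg_mem (M * l)) (lrdAtkinEquiv M l hMl)
    (atkinW M l) hdet (fun γ => atkinHom_spec M l hMl γ)
    (χ' := a'.1) (ψ' := b'.1) (χ'' := a.1) (ψ'' := b.1)
    (fun γ => by rw [ha, atkin_apply]; rfl) (fun γ => by rw [hb, atkin_apply]; rfl)
    (lrF_spec _ a').1 (lrF_spec _ a').2 (lrF_spec _ b').1 (lrF_spec _ b').2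
    (lrF_spec _ a).1 (lrF_spec _ a).2 (lrF_spec _ b).1 (lrF_spec _ b).2
  rw [← h1, ← h2] at h3
  show lrCup _ _ a' b' = lrCup _ _ a b
  omega

end Adj

/-- **self-adjointness of `T_l`** for a prime `l ∤ M` -/
theorem lrd_sadj (M l : ℕ) [NeZero M] (hl : l.Prime) (hlM : ¬ l ∣ M) (x y x' y' : lrdPar M)
    (hx' : (x' : X M ℤ) = hecke M l (x : X M ℤ)) (hy' : (y' : X M ℤ) = hecke M l (y : X M ℤ)) :
    lrdCup M x' y = lrdCup M x y' := by
  haveI : Fact l.Prime := ⟨hl⟩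
  haveI : NeZero l := ⟨hl.ne_zero⟩
  have hMl : M.Coprime l := ((Nat.Prime.coprime_iff_not_dvd hl).mpr hlM).symm
  let R : lrdPar M → lrdPar (M * l) := fun x => ⟨res1 M l x.1, res1_par M l x.1 x.2⟩
  let W : lrdPar (M * l) → lrdPar (M * l) := fun w =>
    ⟨atkin M l hMl w.1, atkin_par M l hMl w.1 w.2⟩
  let C : lrdPar (M * l) → lrdPar M := fun w => ⟨cores M l w.1, cores_par M l w.1 w.2⟩
  have key := lrd_sa_of_iso (lrdCup M) (lrdCup (M * l)) (lrdCup_antisymm M)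
    (lrdCup_antisymm (M * l)) R W C
    (fun x w => lrd_adj M l x (R x) w (C w) rfl rfl)
    (fun a b => lrd_iso M l hMl a b (W a) (W b) rfl rfl)
    (fun a => Subtype.ext (atkin_atkin M l hMl a.1)) x y
  have e1 : x' = C (W (R x)) := Subtype.ext (by rw [hx', hecke_eq_cores M l hMl])
  have e2 : y' = C (W (R y)) := Subtype.ext (by rw [hy', hecke_eq_cores M l hMl])
  rw [e1, e2]
  exact key

section Beta

variable (N q : ℕ) [NeZero N] [NeZero q]

/-- `β₁ = cores` on the parabolic lattices -/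
def lrdBeta1 : lrdPar (N * q) →+ lrdPar N where
  toFun w := ⟨cores N q w.1, cores_par N q w.1 w.2⟩
  map_zero' := Subtype.ext (map_zero _)
  map_add' _ _ := Subtype.ext (map_add _ _ _)

/-- `β₂ = cores ∘ W` on the parabolic lattices -/
def lrdBeta2 (hNq : N.Coprime q) : lrdPar (N * q) →+ lrdPar N where
  toFun w := ⟨cores N q (atkin N q hNq w.1), cores_par N q _ (atkin_par N q hNq w.1 w.2)⟩
  map_zero' := Subtype.ext (by
    show cores N q (atkin N q hNq (0 : X (N * q) ℤ)) = 0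
    rw [map_zero, map_zero])
  map_add' a b := Subtype.ext (by
    show cores N q (atkin N q hNq (a.1 + b.1)) = cores N q (atkin N q hNq a.1)
      + cores N q (atkin N q hNq b.1)
    rw [map_add, map_add])

theorem lrdBeta1_coe (w : lrdPar (N * q)) :
    ((lrdBeta1 N q w : lrdPar N) : X N ℤ) = cores N q (w : X (N * q) ℤ) := rfl

theorem lrdBeta2_coe (hNq : N.Coprime q) (w : lrdPar (N * q)) :
    ((lrdBeta2 N q hNq w : lrdPar N) : X N ℤ) = cores N q (atkin N q hNq (w : X (N * q) ℤ)) :=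
  rfl

theorem lrd_adj1 (x : lrdPar N) (x' w : lrdPar (N * q))
    (hx : (x' : X (N * q) ℤ) = res1 N q (x : X N ℤ)) :
    lrdCup (N * q) x' w = lrdCup N x (lrdBeta1 N q w) :=
  lrd_adj N q x x' w _ hx rfl

theorem lrd_adj2 (hNq : N.Coprime q) (x : lrdPar N) (x' w : lrdPar (N * q))
    (hx : (x' : X (N * q) ℤ) = res2 N q (x : X N ℤ)) :
    lrdCup (N * q) x' w = lrdCup N x (lrdBeta2 N q hNq w) := by
  have h1 : lrdCup (N * q) (⟨res1 N q x.1, res1_par N q x.1 x.2⟩ : lrdPar (N * q))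
      (⟨atkin N q hNq w.1, atkin_par N q hNq w.1 w.2⟩ : lrdPar (N * q))
      = lrdCup N x (lrdBeta2 N q hNq w) :=
    lrd_adj N q x _ _ _ rfl rfl
  rw [← h1]
  exact (lrd_iso N q hNq x' w _ _ (by
    show res1 N q x.1 = atkin N q hNq x'.1
    rw [hx, ← atkin_res1 N q hNq, atkin_atkin]) rfl).symm

theorem lrd_beta1 [Fact q.Prime] (hNq : N.Coprime q) (w : lrdPar (N * q)) :
    res1 N q ((lrdBeta1 N q w : lrdPar N) : X N ℤ) = P1 N q hNq (w : X (N * q) ℤ) :=
  res1_cores N q hNq w.1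

theorem lrd_beta2 [Fact q.Prime] (hNq : N.Coprime q) (w : lrdPar (N * q)) :
    res1 N q ((lrdBeta2 N q hNq w : lrdPar N) : X N ℤ) = P2 N q hNq (w : X (N * q) ℤ) :=
  res1_cores_atkin N q hNq w.1

end Beta

end

end LR
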