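import Fermat.Agent.Lib.LR_Defs

/-!
# S41 (level raising), [L1e]: Eisenstein characters

A character of `Γ₀(M)` which vanishes on `Γ₁(M)` (i.e. factors through `d mod M`) is an
eigenvector of `T_l` with eigenvalue `l + 1`, for every prime `l ∤ M`.
-/

set_option autoImplicit false

namespace LR

open CongruenceSubgroup
open scoped MatrixGroups

variable {A : Type*} [AddCommGroup A]

/-- the lower right entry of an element of `Γ₀(M)`, modulo `M` -/
def dmod {M : ℕ} (γ : Gamma0 M) : ZMod M := ((mat γ 1 1 : ℤ) : ZMod M)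

theorem mat_10_zmod {M : ℕ} (γ : Gamma0 M) : ((mat γ 1 0 : ℤ) : ZMod M) = 0 :=
  (ZMod.intCast_zmod_eq_zero_iff_dvd _ _).mpr (mat_dvd γ)

theorem dmod_mul {M : ℕ} (γ γ' : Gamma0 M) : dmod (γ * γ') = dmod γ * dmod γ' := by
  unfold dmod
  rw [mat_mul, Matrix.mul_apply, Fin.sum_univ_two]
  push_cast
  rw [mat_10_zmod, zero_mul, zero_add]

theorem dmod_one {M : ℕ} : dmod (1 : Gamma0 M) = 1 := by
  unfold dmod
  rw [mat_one]
  simp

/-- a character killing `Γ₁(M)` only depends on `d mod M` -/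
theorem char_eq_of_dmod_eq {M : ℕ} (χ : X M A)
    (hχ : ∀ γ : Gamma0 M, dmod γ = 1 → χ (Additive.ofMul γ) = 0) {g g' : Gamma0 M}
    (h : dmod g = dmod g') : χ (Additive.ofMul g) = χ (Additive.ofMul g') := by
  have h1 : dmod (g * g'⁻¹) = 1 := by
    rw [dmod_mul, h, ← dmod_mul, mul_inv_cancel, dmod_one]
  have h2 := hχ _ h1
  rw [ofMul_mul, map_add, ofMul_inv, map_neg] at h2
  exact sub_eq_zero.mp (by rw [sub_eq_add_neg]; exact h2)

/-- **Eisenstein characters, general coset systems**: if the representatives are upper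
triangular with lower right entries represented by `d`-values of elements of `Γ₀(M)`, then the
operator acts on characters killing `Γ₁(M)` as multiplication by the number of cosets. -/
theorem CosetSys.op_eis {M : ℕ} {ι : Type} [Fintype ι] (S : CosetSys M ι)
    (hUT : ∀ i, S.A i 1 0 = 0) (h : ι → Gamma0 M)
    (hh : ∀ i, dmod (h i) = ((S.A i 1 1 : ℤ) : ZMod M)) (χ : X M A)
    (hχ : ∀ γ : Gamma0 M, dmod γ = 1 → χ (Additive.ofMul γ) = 0) :
    S.op χ = Fintype.card ι • χ := by
  refine DFunLike.ext _ _ fun γ' => ?_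
  obtain ⟨γ, rfl⟩ : ∃ γ : Gamma0 M, Additive.ofMul γ = γ' := ⟨Additive.toMul γ', rfl⟩
  rw [CosetSys.op_apply]
  have key : ∀ i, χ (Additive.ofMul (S.coc γ i)) =
      χ (Additive.ofMul γ) + χ (Additive.ofMul (h i)) -
        χ (Additive.ofMul (h (S.permEquiv γ i))) := by
    intro i
    have h11 := congrFun (congrFun (S.mul γ i) 1) 1
    rw [Matrix.mul_apply, Matrix.mul_apply, Fin.sum_univ_two, Fin.sum_univ_two, hUT i,
      zero_mul, zero_add] at h11
    have h11' := congrArg (Int.cast : ℤ → ZMod M) h11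
    push_cast at h11'
    rw [mat_10_zmod, zero_mul, zero_add] at h11'
    have hd : dmod (γ * h i) = dmod (S.coc γ i * h (S.perm γ i)) := by
      rw [dmod_mul, dmod_mul, hh, hh]
      unfold dmod
      rw [mul_comm]
      exact h11'
    have h3 := char_eq_of_dmod_eq χ hχ hd
    rw [ofMul_mul, map_add, ofMul_mul, map_add] at h3
    rw [CosetSys.permEquiv_apply, h3]
    abel
  rw [Finset.sum_congr rfl fun i _ => key i, Finset.sum_sub_distrib, Finset.sum_add_distrib,
    Equiv.sum_comp (S.permEquiv γ) (fun i => χ (Additive.ofMul (h i))), add_sub_cancel_right,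
    Finset.sum_const, Finset.card_univ]
  rfl

/-- an element of `Γ₀(M)` with lower right entry `l`, for `l` coprime to `M` -/
def eisElt (M l : ℕ) (hlM : Nat.Coprime l M) : Gamma0 M :=
  mk !![Int.gcdA l M, -Int.gcdB l M; (M : ℤ), (l : ℤ)]
    (by
      have h := Int.gcd_eq_gcd_ab (l : ℤ) (M : ℤ)
      have h1 : Int.gcd (l : ℤ) (M : ℤ) = 1 := by
        rw [Int.gcd_natCast_natCast]; exact hlM
      rw [h1] at h
      push_cast at h
      simp only [Matrix.det_fin_two_of]
      linarith)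
    (by simp)

theorem dmod_eisElt (M l : ℕ) (hlM : Nat.Coprime l M) : dmod (eisElt M l hlM) = (l : ZMod M) := by
  simp [dmod, eisElt]

/-- **[L1e]**: a character of `Γ₀(M)` killing `Γ₁(M)` satisfies `T_l χ = (l + 1) χ` for every
prime `l ∤ M`. -/
theorem hecke_eis (M : ℕ) {l : ℕ} (hl : l.Prime) (hlM : ¬ l ∣ M) (χ : X M A)
    (hχ : ∀ γ : Gamma0 M, dmod γ = 1 → χ (Additive.ofMul γ) = 0) :
    hecke M l χ = (l + 1) • χ := by
  have : Fact l.Prime := ⟨hl⟩
  have hcop : Nat.Coprime l M := (Nat.Prime.coprime_iff_not_dvd hl).mpr hlM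
  rw [hecke_of_not_dvd M hlM]
  have hcard : Fintype.card (OnePoint (ZMod l)) = l + 1 := by
    have h1 : Fintype.card (OnePoint (ZMod l)) = Fintype.card (ZMod l) + 1 := Fintype.card_option
    rw [h1, ZMod.card]
  rw [← hcard]
  refine CosetSys.op_eis (sysT M hlM) (fun x => ?_)
    (fun x => x.elim 1 (fun _ => eisElt M l hcop)) (fun x => ?_) χ hχ
  · induction x using OnePoint.rec with
    | infty => show (!![(l : ℤ), 0; 0, 1] : Matrix (Fin 2) (Fin 2) ℤ) 1 0 = 0; simp
    | coe y => show (!![1, (y.val : ℤ); 0, (l : ℤ)] : Matrix (Fin 2) (Fin 2) ℤ) 1 0 = 0; simp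
  · induction x using OnePoint.rec with
    | infty =>
      show dmod (1 : Gamma0 M) = (((!![(l : ℤ), 0; 0, 1] : Matrix (Fin 2) (Fin 2) ℤ) 1 1 : ℤ) : ZMod M)
      rw [dmod_one]; simp
    | coe y =>
      show dmod (eisElt M l hcop) =
        (((!![1, (y.val : ℤ); 0, (l : ℤ)] : Matrix (Fin 2) (Fin 2) ℤ) 1 1 : ℤ) : ZMod M)
      rw [dmod_eisElt]; simp

end LR
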