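import Mathlib

/-!
# Arithmetic for the endgame of the symbol argument

Given a bottom row `(c, d)` with `N ∣ c`, `c ≠ 0`, `gcd(c,d) = 1`, find `x`, `t` and a large
prime `r` with `p ∤ r - 1` and `N r = c + t N (d + x c)` (Dirichlet).
-/

namespace LR

/-- Endgame arithmetic: `(P1)` moves `d` to `d' = d + x c` (prime to `p`), `(P2)` moves
`c` to `N r` with `r` a large prime, `r ≡ 2 mod p`. -/
theorem lr_end_arith {N p : ℕ} (hp : p.Prime) (hp2 : p ≠ 2) (c d : ℤ)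
    (hNc : (N : ℤ) ∣ c) (hcd : IsCoprime c d) (B : ℕ) :
    ∃ (x t : ℤ) (r : ℕ), r.Prime ∧ B < r ∧ Nat.Coprime p (r - 1) ∧
      (N : ℤ) * r = c + t * (N * (d + x * c)) ∧ d + x * c ≠ 0 := by
  have hpi : Prime (p : ℤ) := Nat.prime_iff_prime_int.1 hp
  -- step 1: `x` with `p ∤ d + x c`
  obtain ⟨x, hx⟩ : ∃ x : ℤ, ¬ (p : ℤ) ∣ d + x * c := by
    by_cases h : (p : ℤ) ∣ d
    · refine ⟨1, fun h2 => ?_⟩
      have hpc : (p : ℤ) ∣ c := by simpa using dvd_sub h2 h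
      exact hpi.not_isUnit (hcd.isUnit_of_dvd' hpc h)
    · exact ⟨0, by simpa using h⟩
  have hd'0 : d + x * c ≠ 0 := fun h0 => hx (h0 ▸ dvd_zero _)
  obtain ⟨c1, rfl⟩ := hNc
  generalize hd' : d + x * ((N : ℤ) * c1) = d' at hx hd'0 ⊢
  have hcop1 : IsCoprime c1 d' := by
    have h1 : IsCoprime (d + x * ((N : ℤ) * c1)) ((N : ℤ) * c1) := hcd.symm.add_mul_right_left x
    rw [hd'] at h1
    exact h1.symm.of_mul_left_right
  have hcopp : IsCoprime d' (p : ℤ) := (hpi.irreducible.coprime_iff_not_dvd.2 hx).symm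
  obtain ⟨u, v, huv⟩ := hcopp
  have hk1 : c1 * (v * p) + 2 * (u * d') = c1 + d' * (u * (2 - c1)) := by
    linear_combination c1 * huv
  have hk2 : c1 * (v * p) + 2 * (u * d') = 2 + (p : ℤ) * (v * (c1 - 2)) := by
    linear_combination 2 * huv
  generalize c1 * (v * p) + 2 * (u * d') = k at hk1 hk2
  have hkd : IsCoprime k d' := by
    rw [hk1]; exact hcop1.add_mul_left_left _
  have h2p : IsCoprime (2 : ℤ) (p : ℤ) := by
    have := Nat.isCoprime_iff_coprime.2 ((Nat.coprime_primes Nat.prime_two hp).2 (Ne.symm hp2))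
    exact_mod_cast this
  have hkp : IsCoprime k (p : ℤ) := by
    rw [hk2]; exact h2p.add_mul_left_left _
  have hkm : IsCoprime k ((d'.natAbs * p : ℕ) : ℤ) := by
    push_cast
    exact hkd.abs_right.mul_right hkp
  have hm0 : d'.natAbs * p ≠ 0 := Nat.mul_ne_zero (Int.natAbs_ne_zero.2 hd'0) hp.ne_zero
  obtain ⟨r, hrB, hr, hrk⟩ := Nat.forall_exists_prime_gt_and_zmodEq B hm0 hkm
  have hdvd : ((d'.natAbs * p : ℕ) : ℤ) ∣ k - r := Int.modEq_iff_dvd.1 hrk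
  have hdvd1 : d' ∣ k - r := by
    apply Int.natAbs_dvd.1
    refine Dvd.dvd.trans ?_ hdvd
    push_cast
    exact dvd_mul_right _ _
  have hdvd2 : (p : ℤ) ∣ k - r := by
    refine Dvd.dvd.trans ?_ hdvd
    push_cast
    exact dvd_mul_left _ _
  obtain ⟨t, ht⟩ := hdvd1
  refine ⟨x, u * (2 - c1) - t, r, hr, hrB, ?_, ?_, by rw [hd']; exact hd'0⟩
  · rw [Nat.Prime.coprime_iff_not_dvd hp]
    intro hd
    have h1 : (p : ℤ) ∣ (r : ℤ) - 1 := by
      have := Int.natCast_dvd_natCast.2 hd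
      rwa [Nat.cast_sub hr.one_lt.le, Nat.cast_one] at this
    have h2 : (p : ℤ) ∣ 1 := by
      have h3 : (p : ℤ) ∣ (k - r) + ((r : ℤ) - 1) - (p : ℤ) * (v * (c1 - 2)) :=
        dvd_sub (dvd_add hdvd2 h1) (dvd_mul_right _ _)
      have h4 : (k - r) + ((r : ℤ) - 1) - (p : ℤ) * (v * (c1 - 2)) = 1 := by
        rw [hk2]; ring
      rwa [h4] at h3
    exact hpi.not_isUnit (isUnit_of_dvd_one h2)
  · rw [hd']
    linear_combination (-(N : ℤ)) * ht + (N : ℤ) * hk1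

/-- Abstract endgame: if the symbol `s` satisfies `(P1)`, `(P2)` and vanishes at all levels
`N r` (`r` a large prime with `p ∤ r - 1`) on `D ≡ 1 mod N`, then it vanishes on every row
`(c, d)` with `N ∣ c`, `c ≠ 0`, `d ≡ 1 mod N`. -/
theorem lr_sym_end_of_zero {N p : ℕ} (hN : N ≠ 0) (hp : p.Prime) (hp2 : p ≠ 2)
    {A : Type*} (s : ℤ → ℤ → A) (z : A)
    (hP1 : ∀ c d x : ℤ, (N : ℤ) ∣ c → c ≠ 0 → IsCoprime c d → s c (d + x * c) = s c d)
    (hP2 : ∀ c d t : ℤ, (N : ℤ) ∣ c → c ≠ 0 → IsCoprime c d → c + t * (N * d) ≠ 0 →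
      s (c + t * (N * d)) d = s c d)
    (B : ℕ)
    (hzero : ∀ r : ℕ, r.Prime → B < r → Nat.Coprime p (r - 1) → ∀ D : ℤ, (N : ℤ) ∣ D - 1 →
      ¬ (r : ℤ) ∣ D → s (N * r) D = z) :
    ∀ c d : ℤ, (N : ℤ) ∣ c → c ≠ 0 → IsCoprime c d → (N : ℤ) ∣ d - 1 → s c d = z := by
  intro c d hNc hc hcd hNd
  obtain ⟨x, t, r, hr, hrB, hpr, hNr, hd'0⟩ := lr_end_arith hp hp2 c d hNc hcd B
  have hcd' : IsCoprime c (d + x * c) := hcd.symm.add_mul_right_left x |>.symm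
  have hNr0 : (N : ℤ) * r ≠ 0 :=
    mul_ne_zero (by exact_mod_cast hN) (by exact_mod_cast hr.ne_zero)
  have h1 : s c d = s c (d + x * c) := (hP1 c d x hNc hc hcd).symm
  have h2 : s (c + t * (N * (d + x * c))) (d + x * c) = s c (d + x * c) :=
    hP2 c (d + x * c) t hNc hc hcd' (by rw [← hNr]; exact hNr0)
  have hcop : IsCoprime ((N : ℤ) * r) (d + x * c) := by
    rw [hNr]
    have := hcd'.add_mul_left_left (t * N)
    have h3 : c + (d + x * c) * (t * N) = c + t * (N * (d + x * c)) := by ring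
    rwa [h3] at this
  have hrd : ¬ (r : ℤ) ∣ d + x * c := by
    intro hd
    have hu : IsUnit (r : ℤ) := hcop.of_mul_left_right.isUnit_of_dvd' (dvd_refl _) hd
    exact (Nat.prime_iff_prime_int.1 hr).not_isUnit hu
  have hNd' : (N : ℤ) ∣ (d + x * c) - 1 := by
    have := dvd_add hNd (Dvd.dvd.mul_left hNc x)
    have h3 : d - 1 + x * c = d + x * c - 1 := by ring
    rwa [h3] at this
  rw [h1, ← h2, ← hNr]
  exact hzero r hr hrB hpr _ hNd' hrd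

/-- a positive exponent `k2` with `N^2 ∣ q^(2 k2) - 1`. -/
theorem lr_exists_k2 {N q : ℕ} (hN : N ≠ 0) (hNq : N.Coprime q) :
    ∃ k2 : ℕ, 0 < k2 ∧ (N : ℤ) ^ 2 ∣ (q : ℤ) ^ (2 * k2) - 1 := by
  have hN2 : N ^ 2 ≠ 0 := pow_ne_zero 2 hN
  have hco : Nat.Coprime q (N ^ 2) := (Nat.Coprime.pow_left 2 hNq).symm
  have h1 : q ^ Nat.totient (N ^ 2) ≡ 1 [MOD N ^ 2] := Nat.ModEq.pow_totient hco
  refine ⟨Nat.totient (N ^ 2), Nat.totient_pos.2 (Nat.pos_of_ne_zero hN2), ?_⟩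
  have h2 : ((N ^ 2 : ℕ) : ℤ) ∣ ((1 : ℕ) : ℤ) - ((q ^ Nat.totient (N ^ 2) : ℕ) : ℤ) :=
    Nat.modEq_iff_dvd.1 h1
  push_cast at h2
  have h3 : (N : ℤ) ^ 2 ∣ (q : ℤ) ^ Nat.totient (N ^ 2) - 1 := by
    rw [← dvd_neg]; simpa using h2
  have h4 : (q : ℤ) ^ (2 * Nat.totient (N ^ 2)) - 1
      = ((q : ℤ) ^ Nat.totient (N ^ 2) - 1) * ((q : ℤ) ^ Nat.totient (N ^ 2) + 1) := by
    rw [pow_mul', pow_two]; ring
  rw [h4]
  exact Dvd.dvd.mul_right h3 _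

end LR
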