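/-
S41 (level raising), stream S3: plumbing — integer polynomial rings acting through commuting
families of operators.
-/
import Mathlib

set_option autoImplicit false
set_option linter.style.haveILetI false

namespace LR

section Eval

variable {ι E : Type*} [Ring E]

/-- evaluation of integer polynomials at a commuting family of elements of a ring -/
noncomputable def lrEval (T : ι → E) (hT : ∀ i j, Commute (T i) (T j)) :
    MvPolynomial ι ℤ →+* E :=
  letI : CommRing (Subring.closure (Set.range T)) :=
    Subring.closureCommRingOfComm (by rintro _ ⟨i, rfl⟩ _ ⟨j, rfl⟩; exact hT i j)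
  (Subring.closure (Set.range T)).subtype.comp
    (MvPolynomial.eval₂Hom (Int.castRingHom _)
      (fun i => ⟨T i, Subring.subset_closure ⟨i, rfl⟩⟩))

@[simp] theorem lrEval_X (T : ι → E) (hT : ∀ i j, Commute (T i) (T j)) (i : ι) :
    lrEval T hT (MvPolynomial.X i) = T i := by
  simp [lrEval]

@[simp] theorem lrEval_C (T : ι → E) (hT : ∀ i j, Commute (T i) (T j)) (n : ℤ) :
    lrEval T hT (MvPolynomial.C n) = (n : E) := by
  simp [lrEval]

theorem lrEval_rename {κ : Type*} (T : κ → E) (hT : ∀ i j, Commute (T i) (T j)) (f : ι → κ)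
    (r : MvPolynomial ι ℤ) :
    lrEval T hT (MvPolynomial.rename f r) = lrEval (fun i => T (f i)) (fun i j => hT _ _) r := by
  induction r using MvPolynomial.induction_on with
  | C n => simp
  | add a b ha hb => rw [map_add, map_add, map_add, ha, hb]
  | mul_X a i ha => rw [map_mul, map_mul, map_mul, ha, MvPolynomial.rename_X, lrEval_X, lrEval_X]

end Eval

section Intertwine

variable {ι : Type*}

theorem lrEval_intertwine {k k' M M' : Type*} [Semiring k] [Semiring k'] [AddCommGroup M]
    [AddCommGroup M'] [Module k M] [Module k' M']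
    (T : ι → Module.End k M) (hT : ∀ i j, Commute (T i) (T j))
    (T' : ι → Module.End k' M') (hT' : ∀ i j, Commute (T' i) (T' j))
    (φ : M →+ M') (h : ∀ i x, φ (T i x) = T' i (φ x)) (r : MvPolynomial ι ℤ) (x : M) :
    φ (lrEval T hT r x) = lrEval T' hT' r (φ x) := by
  induction r using MvPolynomial.induction_on generalizing x with
  | C n =>
    rw [lrEval_C, lrEval_C]
    simp
  | add a b ha hb =>
    rw [map_add, map_add, LinearMap.add_apply, LinearMap.add_apply, map_add, ha, hb]
  | mul_X a i ha =>
    rw [map_mul, map_mul, lrEval_X, lrEval_X, Module.End.mul_apply, Module.End.mul_apply, ha, h]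

theorem lrEval_sadj {M : Type*} [AddCommGroup M]
    (T : ι → Module.End ℤ M) (hT : ∀ i j, Commute (T i) (T j))
    (b : M →ₗ[ℤ] M →ₗ[ℤ] ℤ) (h : ∀ i x y, b (T i x) y = b x (T i y))
    (r : MvPolynomial ι ℤ) (x y : M) :
    b (lrEval T hT r x) y = b x (lrEval T hT r y) := by
  induction r using MvPolynomial.induction_on generalizing x y with
  | C n =>
    rw [lrEval_C]
    simp
  | add a c ha hc =>
    rw [map_add, LinearMap.add_apply, LinearMap.add_apply, map_add, LinearMap.add_apply, ha, hc,
      map_add]
  | mul_X a i ha =>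
    have h1 : lrEval T hT (a * MvPolynomial.X i) x = lrEval T hT a (T i x) := by
      rw [map_mul, lrEval_X, Module.End.mul_apply]
    have h2 : lrEval T hT (a * MvPolynomial.X i) y = T i (lrEval T hT a y) := by
      rw [mul_comm, map_mul, lrEval_X, Module.End.mul_apply]
    rw [h1, h2, ha, h]

end Intertwine

end LR
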