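/-
S41 (level raising), stream S3, ENTRY side.

* `LR.lr_eigen_heckeT`: a normalised eigenform is an eigenvector of every `T_ℓ`, `ℓ ∤ N`, with
  eigenvalue its `ℓ`-th coefficient.
* `LR.lr_entry`: every integer polynomial in the Hecke operators that kills the lattice of
  integral parabolic characters of level `N` is killed by the eigencharacter of a normalised
  eigenform of level `N`.
-/
import Fermat.Agent.S21
import Fermat.Agent.S49
import Fermat.Agent.Lib.LR_Poly
import Fermat.Agent.Lib.LR_Rat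

set_option autoImplicit false
set_option linter.style.haveILetI false

open CongruenceSubgroup CuspForm ModularFormClass ModularCurve ModularCurve.Period

namespace LR

open Fermat.Agent.S49 in
theorem lr_eigen_heckeT {N : ℕ} [NeZero N] (f : CuspForm (Gamma0 N) 2)
    (hf : f.IsNormalizedEigenform) {ℓ : ℕ} (hℓ : ℓ.Prime) (hℓN : ¬ ℓ ∣ N) :
    CuspForm.heckeTLin 2 hℓ hℓN f = qCoeff ⇑f ℓ • f := by
  rw [← sub_eq_zero]
  apply eq_zero_of_qc
  intro n
  have hsub : qCoeff ⇑(CuspForm.heckeTLin 2 hℓ hℓN f - qCoeff ⇑f ℓ • f) n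
      = qCoeff ⇑(CuspForm.heckeTLin 2 hℓ hℓN f) n - qCoeff ⇑f ℓ * qCoeff ⇑f n := by
    rw [sub_eq_add_neg, ← neg_smul, qc_add, qc_smul]
    ring
  rw [hsub, qc_heckeT, sub_eq_zero]
  rcases Nat.eq_zero_or_pos n with rfl | hn
  · simp [qc_cusp]
  obtain ⟨r, m, hm, rfl⟩ := Nat.exists_eq_pow_mul_and_not_dvd hn.ne' ℓ hℓ.ne_one
  have hcop : ∀ k, (ℓ ^ k).Coprime m := fun k =>
    Nat.Coprime.pow_left k ((Nat.Prime.coprime_iff_not_dvd hℓ).mpr hm)
  cases r with
  | zero =>
    simp only [pow_zero, one_mul]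
    have h1 := hcop 1
    rw [pow_one] at h1
    rw [if_neg hm, add_zero, mul_comm m ℓ, hf.qCoeff_mul_of_coprime ℓ m h1]
  | succ r =>
    have h1 : ℓ ^ (r + 1) * m * ℓ = ℓ ^ (r + 2) * m := by ring
    have h2 : ℓ ∣ ℓ ^ (r + 1) * m := Dvd.dvd.mul_right (dvd_pow_self ℓ (Nat.succ_ne_zero r)) m
    have h3 : ℓ ^ (r + 1) * m / ℓ = ℓ ^ r * m := by
      have : ℓ ^ (r + 1) * m = ℓ ^ r * m * ℓ := by ring
      rw [this]
      exact Nat.mul_div_cancel _ hℓ.pos
    rw [h1, if_pos h2, h3, hf.qCoeff_mul_of_coprime _ _ (hcop (r + 2)),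
      hf.qCoeff_mul_of_coprime _ _ (hcop r), hf.qCoeff_mul_of_coprime _ _ (hcop (r + 1)),
      hf.qCoeff_prime_pow_of_not_dvd ℓ r hℓ hℓN]
    ring

/-- **Entry**: the eigencharacter of a normalised eigenform of level `N` kills the annihilator
of the lattice of integral parabolic characters. -/
theorem lr_entry (N : ℕ) [NeZero N] {κ : Type*} (pr : κ → ℕ) (hpr : ∀ k, (pr k).Prime)
    (hprN : ∀ k, ¬ pr k ∣ N)
    (f : CuspForm (Gamma0 N) 2) (hf : f.IsNormalizedEigenform) (hf0 : f ≠ 0)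
    (TC : κ → Module.End ℂ (Additive (Gamma0 N) →+ ℂ))
    (hTC : ∀ k (g : CuspForm (Gamma0 N) 2),
      periodMap N (CuspForm.heckeTLin 2 (hpr k) (hprN k) g) = TC k (periodMap N g))
    (hιT : ∀ k v, charInvolution N ℂ ℂ (TC k v) = TC k (charInvolution N ℂ ℂ v))
    (TZ : κ → Module.End ℤ (parabolicHoms ℤ (Gamma0 N) ℤ)) (hTZ : ∀ i j, Commute (TZ i) (TZ j))
    (hnat : ∀ k (x : parabolicHoms ℤ (Gamma0 N) ℤ),
      TC k (lrCoe (Gamma0 N) (x : Additive (Gamma0 N) →+ ℤ))
        = lrCoe (Gamma0 N) ((TZ k x : parabolicHoms ℤ (Gamma0 N) ℤ) : Additive (Gamma0 N) →+ ℤ))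
    (lam : MvPolynomial κ ℤ →+* ℂ) (hlam : ∀ k, lam (MvPolynomial.X k) = qCoeff ⇑f (pr k))
    (r : MvPolynomial κ ℤ) (hr : ∀ x, lrEval TZ hTZ r x = 0) : lam r = 0 := by
  classical
  obtain ⟨hinj, hrange⟩ := Fermat.Agent.S21.result N
  obtain ⟨pml, hpml, hpair⟩ := periodHomPair_def N (Fermat.Agent.ES.existsPeriodMapLinear N)
  have hform : ∀ x y : CuspForm (Gamma0 N) 2, periodHomPair N (x, y)
      = (periodMap N x + charInvolution N ℂ ℂ (periodMap N x))
        + (periodMap N y - charInvolution N ℂ ℂ (periodMap N y)) := by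
    intro x y
    rw [hpair]
    simp [LinearMap.coprod_apply, hpml]
  -- the eigenclass
  set c : Additive (Gamma0 N) →+ ℂ := periodHomPair N (f, 0) with hc
  have hc0 : c ≠ 0 := by
    intro h0
    have : (f, (0 : CuspForm (Gamma0 N) 2)) = 0 := hinj (by rw [map_zero]; exact h0)
    exact hf0 (congrArg Prod.fst this)
  have hcpar : c ∈ parabolicHoms ℂ (Gamma0 N) ℂ := by
    rw [← hrange]; exact ⟨_, rfl⟩
  have hceig : ∀ k, TC k c = qCoeff ⇑f (pr k) • c := by
    intro k
    have h1 : periodHomPair N (CuspForm.heckeTLin 2 (hpr k) (hprN k) f, 0)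
        = TC k (periodHomPair N (f, 0)) := by
      have hp0 : periodMap N (0 : CuspForm (Gamma0 N) 2) = 0 := by rw [← hpml, map_zero]
      rw [hform, hform, hTC]
      simp only [hp0, map_zero, sub_zero, add_zero, map_add, hιT]
    rw [hc, ← h1, lr_eigen_heckeT f hf (hpr k) (hprN k)]
    have : ((qCoeff ⇑f (pr k) • f, (0 : CuspForm (Gamma0 N) 2)))
        = qCoeff ⇑f (pr k) • (f, (0 : CuspForm (Gamma0 N) 2)) := by
      simp
    rw [this, map_smul]
  -- rationality
  have hcspan := lr_par_rational N c hcpar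
  -- operators attached to polynomials
  have key : ∀ s : MvPolynomial κ ℤ, ∃ A : Module.End ℂ (Additive (Gamma0 N) →+ ℂ),
      (∀ x : parabolicHoms ℤ (Gamma0 N) ℤ, A (lrCoe (Gamma0 N) (x : Additive (Gamma0 N) →+ ℤ))
        = lrCoe (Gamma0 N)
          ((lrEval TZ hTZ s x : parabolicHoms ℤ (Gamma0 N) ℤ) : Additive (Gamma0 N) →+ ℤ))
      ∧ A c = lam s • c := by
    intro s
    induction s using MvPolynomial.induction_on with
    | C n =>
      refine ⟨(n : ℂ) • LinearMap.id, fun x => ?_, ?_⟩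
      · rw [lrEval_C]
        simp only [LinearMap.smul_apply, LinearMap.id_coe, id_eq, Module.End.intCast_apply,
          Submodule.coe_smul]
        rw [map_zsmul]
        refine AddMonoidHom.ext fun g => ?_
        simp
      · have : lam (MvPolynomial.C n) = (n : ℂ) := by
          rw [eq_intCast (MvPolynomial.C (σ := κ)) n, map_intCast]
        rw [this]
        rfl
    | add a b ha hb =>
      obtain ⟨A, hA1, hA2⟩ := ha
      obtain ⟨B, hB1, hB2⟩ := hb
      refine ⟨A + B, fun x => ?_, ?_⟩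
      · rw [LinearMap.add_apply, hA1, hB1, map_add, LinearMap.add_apply, Submodule.coe_add,
          map_add]
      · rw [LinearMap.add_apply, hA2, hB2, map_add, add_smul]
    | mul_X a k ha =>
      obtain ⟨A, hA1, hA2⟩ := ha
      refine ⟨A * TC k, fun x => ?_, ?_⟩
      · rw [Module.End.mul_apply, hnat, hA1, map_mul, lrEval_X, Module.End.mul_apply]
      · rw [Module.End.mul_apply, hceig, map_smul, hA2, map_mul, hlam, smul_smul, mul_comm]
  obtain ⟨A, hA1, hA2⟩ := key r
  have hAc : A c = 0 := by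
    have hle : Submodule.span ℂ ((lrCoe (Gamma0 N)) '' (parabolicHoms ℤ (Gamma0 N) ℤ : Set _))
        ≤ LinearMap.ker A := by
      rw [Submodule.span_le]
      rintro _ ⟨x, hx, rfl⟩
      rw [SetLike.mem_coe, LinearMap.mem_ker]
      have := hA1 ⟨x, hx⟩
      rw [hr] at this
      rw [this]
      simp
    exact LinearMap.mem_ker.mp (hle hcspan)
  rw [hAc] at hA2
  rcases smul_eq_zero.mp hA2.symm with h | h
  · exact h
  · exact absurd h hc0

end LR
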