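/-
S41 (level raising), stream S3, EXIT side.

* `LR.lr_normalize`: a common eigenvector of all `T_ℓ` (`ℓ ∤ N`) and `U_ℓ` (`ℓ ∣ N`) is, after
  normalisation, an `IsNormalizedEigenform` whose prime coefficients are the eigenvalues.
* `LR.lr_exit_form`: a nonzero parabolic class of level `M` which is an eigenvector of the Hecke
  operators `TC ℓ` (`ℓ ∈ L`) and is fixed by the square of `UC` (`= U_q`) comes from a normalised
  eigenform `g` of level `M` with `a_ℓ(g)` the eigenvalues and `a_q(g)² = 1`.  The operators on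
  classes are abstract: only their compatibility with the period map is used.
-/
import Fermat.Agent.S21
import Fermat.Agent.S49

set_option autoImplicit false
set_option linter.style.haveILetI false

open CongruenceSubgroup CuspForm ModularFormClass ModularCurve ModularCurve.Period

namespace LR

open Fermat.Agent.S49 in
theorem lr_normalize {N : ℕ} [NeZero N] (g : CuspForm (Gamma0 N) 2) (hg0 : g ≠ 0)
    (μ : ℕ → ℂ)
    (hT : ∀ (ℓ : ℕ) (hℓ : ℓ.Prime) (hℓN : ¬ ℓ ∣ N), CuspForm.heckeTLin 2 hℓ hℓN g = μ ℓ • g)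
    (hU : ∀ (ℓ : ℕ) (_ : ℓ.Prime) (hℓN : ℓ ∣ N), CuspForm.heckeULin 2 hℓN g = μ ℓ • g) :
    ∃ f : CuspForm (Gamma0 N) 2, f.IsNormalizedEigenform ∧
      ∀ ℓ : ℕ, ℓ.Prime → qCoeff ⇑f ℓ = μ ℓ := by
  classical
  let c : ℕ → ℂ := fun n => qCoeff ⇑g n
  let e : ℕ → ℂ := fun ℓ => if ℓ ∣ N then 0 else (ℓ : ℂ)
  have hrel : ∀ ℓ : ℕ, ℓ.Prime → ∀ n : ℕ,
      c (n * ℓ) + e ℓ * (if ℓ ∣ n then c (n / ℓ) else 0) = μ ℓ * c n := by
    intro ℓ hℓ n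
    by_cases hN : ℓ ∣ N
    · have h1 := hU ℓ hℓ hN
      have h2 := congrArg (fun F : CuspForm (Gamma0 N) 2 => qCoeff ⇑F n) h1
      beta_reduce at h2
      rw [qc_heckeU hℓ.ne_zero hN, qc_smul] at h2
      simp only [e, hN, if_true, zero_mul, add_zero]
      exact h2
    · have h1 := hT ℓ hℓ hN
      have h2 := congrArg (fun F : CuspForm (Gamma0 N) 2 => qCoeff ⇑F n) h1
      beta_reduce at h2
      rw [qc_heckeT hℓ hN, qc_smul] at h2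
      simp only [e, hN, if_false]
      rw [← h2]
      split_ifs <;> simp [c]
  have hc0 : c 0 = 0 := qc_cusp g
  have hc1 : c 1 ≠ 0 := by
    intro h1
    apply hg0
    apply eq_zero_of_qc
    intro n
    induction n using Nat.strong_induction_on with
    | _ n ih =>
      rcases Nat.lt_or_ge n 2 with hn | hn
      · interval_cases n
        · exact hc0
        · exact h1
      · obtain ⟨ℓ, hℓ, hℓn⟩ := Nat.exists_prime_and_dvd (show n ≠ 1 by omega)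
        obtain ⟨m, rfl⟩ := hℓn
        have hℓ2 := hℓ.two_le
        have hm : 0 < m := by
          rcases Nat.eq_zero_or_pos m with h0 | h0
          · subst h0; simp at hn
          · exact h0
        have hr := hrel ℓ hℓ m
        rw [mul_comm m ℓ] at hr
        have hm1 : c m = 0 := ih m (by nlinarith)
        have hm2 : (if ℓ ∣ m then c (m / ℓ) else 0) = 0 := by
          split_ifs with hd
          · exact ih (m / ℓ) (lt_of_le_of_lt (Nat.div_le_self m ℓ) (by nlinarith))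
          · rfl
        rw [hm1, hm2] at hr
        simpa using hr
  let f : CuspForm (Gamma0 N) 2 := (c 1)⁻¹ • g
  have hb : ∀ n, qCoeff ⇑f n = (c 1)⁻¹ * c n := fun n => qc_smul _ g n
  have hb1 : qCoeff ⇑f 1 = 1 := by rw [hb]; exact inv_mul_cancel₀ hc1
  have hbℓ : ∀ ℓ : ℕ, ℓ.Prime → qCoeff ⇑f ℓ = μ ℓ := by
    intro ℓ hℓ
    have hr := hrel ℓ hℓ 1
    have hnd : ¬ ℓ ∣ 1 := fun hd => hℓ.one_lt.ne' (Nat.dvd_one.mp hd)
    rw [if_neg hnd, mul_zero, add_zero, one_mul] at hr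
    rw [hb, hr]
    field_simp
  have heig : FormalHecke.IsEigensystem e (fun n => qCoeff ⇑f n) := by
    refine ⟨hb1, fun ℓ hℓ n => ?_⟩
    have hr := hrel ℓ hℓ n
    show qCoeff ⇑f (ℓ * n) + e ℓ * (if ℓ ∣ n then qCoeff ⇑f (n / ℓ) else 0) =
      qCoeff ⇑f ℓ * qCoeff ⇑f n
    rw [hbℓ ℓ hℓ, mul_comm ℓ n]
    simp only [hb]
    split_ifs with hd
    · rw [if_pos hd] at hr
      linear_combination (c 1)⁻¹ * hr
    · rw [if_neg hd] at hr
      linear_combination (c 1)⁻¹ * hr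
  refine ⟨f, ⟨hb1, eig_mul heig, ?_, ?_⟩, hbℓ⟩
  · intro p r hp hpN
    have h1 := heig.2 p hp (p ^ (r + 1))
    have hd : p ∣ p ^ (r + 1) := dvd_pow_self p (Nat.succ_ne_zero r)
    have hq : p ^ (r + 1) / p = p ^ r := by
      rw [pow_succ, Nat.mul_div_cancel _ hp.pos]
    have hpp : p * p ^ (r + 1) = p ^ (r + 2) := by ring
    simp only [if_pos hd, hq, hpp, e, if_neg hpN] at h1
    linear_combination h1
  · intro p r hp hpN
    have h1 := heig.2 p hp (p ^ (r + 1))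
    have hpp : p * p ^ (r + 1) = p ^ (r + 2) := by ring
    simp only [hpp, e, if_pos hpN, zero_mul, add_zero] at h1
    exact h1

/-- **Exit**: from a parabolic Hecke eigenclass fixed by `U_q²` to a normalised eigenform. -/
theorem lr_exit_form (M : ℕ) [NeZero M] (L : Set ℕ) (q : ℕ) (hq : q.Prime) (hqM : q ∣ M)
    (TC : ℕ → (Additive (Gamma0 M) →+ ℂ) →ₗ[ℂ] (Additive (Gamma0 M) →+ ℂ))
    (UC : (Additive (Gamma0 M) →+ ℂ) →ₗ[ℂ] (Additive (Gamma0 M) →+ ℂ))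
    (hT : ∀ (ℓ : ℕ) (hℓ : ℓ.Prime) (hℓM : ¬ ℓ ∣ M), ℓ ∈ L → ∀ f : CuspForm (Gamma0 M) 2,
      periodMap M (CuspForm.heckeTLin 2 hℓ hℓM f) = TC ℓ (periodMap M f))
    (hU : ∀ f : CuspForm (Gamma0 M) 2,
      periodMap M (CuspForm.heckeULin 2 hqM f) = UC (periodMap M f))
    (hιT : ∀ ℓ ∈ L, ∀ v, charInvolution M ℂ ℂ (TC ℓ v) = TC ℓ (charInvolution M ℂ ℂ v))
    (hιU : ∀ v, charInvolution M ℂ ℂ (UC v) = UC (charInvolution M ℂ ℂ v))
    (a : ℕ → ℂ)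
    (v : Additive (Gamma0 M) →+ ℂ) (hv0 : v ≠ 0)
    (hvpar : v ∈ parabolicHoms ℂ (Gamma0 M) ℂ)
    (hvT : ∀ ℓ ∈ L, ℓ.Prime → ¬ ℓ ∣ M → TC ℓ v = a ℓ • v) (hvU : UC (UC v) = v) :
    ∃ g : CuspForm (Gamma0 M) 2, g.IsNormalizedEigenform ∧
      (∀ ℓ ∈ L, ℓ.Prime → ¬ ℓ ∣ M → qCoeff ⇑g ℓ = a ℓ) ∧ qCoeff ⇑g q ^ 2 = 1 := by
  classical
  obtain ⟨hinj, hrange⟩ := Fermat.Agent.S21.result M
  have hv' : v ∈ LinearMap.range (periodHomPair M) := by rw [hrange]; exact hvpar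
  obtain ⟨⟨f₁, f₂⟩, hf⟩ := hv'
  obtain ⟨pml, hpml, hpair⟩ := periodHomPair_def M (Fermat.Agent.ES.existsPeriodMapLinear M)
  have hform : ∀ x y : CuspForm (Gamma0 M) 2, periodHomPair M (x, y)
      = (periodMap M x + charInvolution M ℂ ℂ (periodMap M x))
        + (periodMap M y - charInvolution M ℂ ℂ (periodMap M y)) := by
    intro x y
    rw [hpair]
    simp [LinearMap.coprod_apply, hpml]
  have hequiv : ∀ (Tf : CuspForm (Gamma0 M) 2 →ₗ[ℂ] CuspForm (Gamma0 M) 2)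
      (Tc : (Additive (Gamma0 M) →+ ℂ) →ₗ[ℂ] (Additive (Gamma0 M) →+ ℂ)),
      (∀ f, periodMap M (Tf f) = Tc (periodMap M f)) →
      (∀ w, charInvolution M ℂ ℂ (Tc w) = Tc (charInvolution M ℂ ℂ w)) →
      ∀ x y, periodHomPair M (Tf x, Tf y) = Tc (periodHomPair M (x, y)) := by
    intro Tf Tc h1 h2 x y
    rw [hform, hform, h1, h1, map_add, map_sub, map_add, h2, h2]
  -- the subspace of eigenforms
  let 𝕍 : Submodule ℂ (CuspForm (Gamma0 M) 2) :=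
    { carrier := {g | (∀ (ℓ : ℕ) (hℓ : ℓ.Prime) (hℓM : ¬ ℓ ∣ M), ℓ ∈ L →
          CuspForm.heckeTLin 2 hℓ hℓM g = a ℓ • g) ∧
          CuspForm.heckeULin 2 hqM (CuspForm.heckeULin 2 hqM g) = g}
      add_mem' := by
        rintro x y ⟨hx1, hx2⟩ ⟨hy1, hy2⟩
        refine ⟨fun ℓ hℓ hℓM hL => ?_, ?_⟩
        · rw [map_add, hx1 ℓ hℓ hℓM hL, hy1 ℓ hℓ hℓM hL, smul_add]
        · rw [map_add, map_add, hx2, hy2]
      zero_mem' := by
        refine ⟨fun ℓ hℓ hℓM hL => ?_, ?_⟩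
        · rw [map_zero, smul_zero]
        · rw [map_zero, map_zero]
      smul_mem' := by
        rintro z x ⟨hx1, hx2⟩
        refine ⟨fun ℓ hℓ hℓM hL => ?_, ?_⟩
        · rw [map_smul, hx1 ℓ hℓ hℓM hL, smul_comm]
        · rw [map_smul, map_smul, hx2] }
  have h𝕍mem : ∀ g, g ∈ 𝕍 ↔ (∀ (ℓ : ℕ) (hℓ : ℓ.Prime) (hℓM : ¬ ℓ ∣ M), ℓ ∈ L →
          CuspForm.heckeTLin 2 hℓ hℓM g = a ℓ • g) ∧
          CuspForm.heckeULin 2 hqM (CuspForm.heckeULin 2 hqM g) = g := fun g => Iff.rfl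
  -- both components lie in `𝕍`
  have hT12 : ∀ (ℓ : ℕ) (hℓ : ℓ.Prime) (hℓM : ¬ ℓ ∣ M), ℓ ∈ L →
      CuspForm.heckeTLin 2 hℓ hℓM f₁ = a ℓ • f₁ ∧ CuspForm.heckeTLin 2 hℓ hℓM f₂ = a ℓ • f₂ := by
    intro ℓ hℓ hℓM hL
    have h1 := hequiv (CuspForm.heckeTLin 2 hℓ hℓM) (TC ℓ) (hT ℓ hℓ hℓM hL) (hιT ℓ hL) f₁ f₂
    rw [hf, hvT ℓ hL hℓ hℓM, ← hf, ← map_smul] at h1
    have h2 := hinj h1
    rw [Prod.smul_mk, Prod.mk.injEq] at h2
    exact h2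
  have hU12 : CuspForm.heckeULin 2 hqM (CuspForm.heckeULin 2 hqM f₁) = f₁ ∧
      CuspForm.heckeULin 2 hqM (CuspForm.heckeULin 2 hqM f₂) = f₂ := by
    have h1 := hequiv (CuspForm.heckeULin 2 hqM) UC hU hιU f₁ f₂
    have h2 := hequiv (CuspForm.heckeULin 2 hqM) UC hU hιU
      (CuspForm.heckeULin 2 hqM f₁) (CuspForm.heckeULin 2 hqM f₂)
    rw [h1, hf, hvU, ← hf] at h2
    have h3 := hinj h2
    rw [Prod.mk.injEq] at h3
    exact h3
  have hf₁ : f₁ ∈ 𝕍 := (h𝕍mem f₁).2 ⟨fun ℓ hℓ hℓM hL => (hT12 ℓ hℓ hℓM hL).1, hU12.1⟩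
  have hf₂ : f₂ ∈ 𝕍 := (h𝕍mem f₂).2 ⟨fun ℓ hℓ hℓM hL => (hT12 ℓ hℓ hℓM hL).2, hU12.2⟩
  have h𝕍ne : 𝕍 ≠ ⊥ := by
    intro hbot
    apply hv0
    have h1 : f₁ = 0 := by have := hf₁; rw [hbot] at this; simpa using this
    have h2 : f₂ = 0 := by have := hf₂; rw [hbot] at this; simpa using this
    rw [← hf, h1, h2]
    exact map_zero _
  -- stability under the full Hecke algebra generators
  let S : Set (Module.End ℂ (CuspForm (Gamma0 M) 2)) := CuspForm.heckeGenerators M 2 (∅ : Set ℕ)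
  have hS : ∀ s ∈ S, ∀ t ∈ S, s * t = t * s := fun s hs t ht =>
    CuspForm.commute_of_mem_heckeGenerators hs ht
  have hUmem : CuspForm.heckeULin 2 hqM ∈ S :=
    CuspForm.heckeULin_mem_heckeGenerators hq hqM (Set.notMem_empty q)
  have hstab : ∀ t ∈ S, ∀ w ∈ 𝕍, t w ∈ 𝕍 := by
    intro t ht w hw
    rw [h𝕍mem] at hw ⊢
    refine ⟨fun ℓ hℓ hℓM hL => ?_, ?_⟩
    · have hTmem : CuspForm.heckeTLin 2 hℓ hℓM ∈ S :=
        CuspForm.heckeTLin_mem_heckeGenerators hℓ hℓM (Set.notMem_empty ℓ)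
      have hc := hS _ hTmem t ht
      have h3 : CuspForm.heckeTLin 2 hℓ hℓM (t w) = t (CuspForm.heckeTLin 2 hℓ hℓM w) :=
        congrArg (fun F : Module.End ℂ (CuspForm (Gamma0 M) 2) => F w) hc
      rw [h3, hw.1 ℓ hℓ hℓM hL, map_smul]
    · have hc := hS _ hUmem t ht
      have h3 : ∀ x, CuspForm.heckeULin 2 hqM (t x) = t (CuspForm.heckeULin 2 hqM x) :=
        fun x => congrArg (fun F : Module.End ℂ (CuspForm (Gamma0 M) 2) => F x) hc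
      rw [h3, h3, hw.2]
  haveI : FiniteDimensional ℂ (CuspForm (Gamma0 M) 2) :=
    Fermat.Agent.ES.finiteDimensional_cuspForm M
  obtain ⟨g₁, hg₁𝕍, hg₁0, hg₁e⟩ :=
    Fermat.Agent.S49.exists_common_eigenvector S hS _ 𝕍 rfl h𝕍ne hstab
  -- eigenvalues
  have hexT : ∀ (ℓ : ℕ), ∃ μ : ℂ, (∀ (hℓ : ℓ.Prime) (hℓM : ¬ ℓ ∣ M),
      CuspForm.heckeTLin 2 hℓ hℓM g₁ = μ • g₁) ∧
      (∀ (_ : ℓ.Prime) (hℓM : ℓ ∣ M), CuspForm.heckeULin 2 hℓM g₁ = μ • g₁) := by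
    intro ℓ
    by_cases hℓ : ℓ.Prime
    · by_cases hℓM : ℓ ∣ M
      · obtain ⟨μ, hμ⟩ := hg₁e _
          (CuspForm.heckeULin_mem_heckeGenerators hℓ hℓM (Set.notMem_empty ℓ))
        exact ⟨μ, fun _ h => absurd hℓM h, fun _ _ => hμ⟩
      · obtain ⟨μ, hμ⟩ := hg₁e _
          (CuspForm.heckeTLin_mem_heckeGenerators hℓ hℓM (Set.notMem_empty ℓ))
        exact ⟨μ, fun _ _ => hμ, fun _ h => absurd h hℓM⟩
    · exact ⟨0, fun h _ => absurd h hℓ, fun h _ => absurd h hℓ⟩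
  choose μ hμT hμU using hexT
  obtain ⟨g, hg, hgc⟩ := lr_normalize g₁ hg₁0 μ (fun ℓ hℓ hℓM => hμT ℓ hℓ hℓM)
    (fun ℓ hℓ hℓM => hμU ℓ hℓ hℓM)
  have hinj' : ∀ x y : ℂ, x • g₁ = y • g₁ → x = y := fun x y h => smul_left_injective ℂ hg₁0 h
  refine ⟨g, hg, fun ℓ hL hℓ hℓM => ?_, ?_⟩
  · rw [hgc ℓ hℓ]
    apply hinj'
    rw [← hμT ℓ hℓ hℓM, ((h𝕍mem g₁).1 hg₁𝕍).1 ℓ hℓ hℓM hL]
  · rw [hgc q hq]
    apply hinj'
    have h1 := ((h𝕍mem g₁).1 hg₁𝕍).2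
    rw [hμU q hq hqM, map_smul, hμU q hq hqM, smul_smul] at h1
    rw [one_smul, pow_two]
    exact h1

end LR
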