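/-
S41 (level raising), stream S3, EXIT side: Deligne–Serre lifting on a lattice.

`LR.lr_exit_eigen`: a commutative ring `R` acting on a complex vector space through `ρ`,
preserving a finitely generated lattice `X`; if every element of `R` killing `X` lies in the
maximal ideal `𝔪`, then the complex span of `X` contains an eigenvector whose eigencharacter
`χ : R → ℤ̄` sends `𝔪` into a maximal ideal of `ℤ̄`.
-/
import Fermat.Agent.Lib.H6_DSAlg

set_option autoImplicit false
set_option linter.style.haveILetI false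

namespace LR

open Fermat.Agent.Lib.H6

theorem lr_exit_eigen {R : Type*} [CommRing R] (𝔪 : Ideal R) [h𝔪 : 𝔪.IsMaximal]
    {𝒱 : Type*} [AddCommGroup 𝒱] [Module ℂ 𝒱]
    (ρ : R →+* Module.End ℂ 𝒱)
    (X : Submodule ℤ 𝒱) (hXfg : X.FG)
    (hXstab : ∀ r : R, ∀ x ∈ X, ρ r x ∈ X)
    (hann : ∀ r : R, (∀ x ∈ X, ρ r x = 0) → r ∈ 𝔪) :
    ∃ (v : 𝒱) (χ : R →+* integralClosure ℤ ℂ) (𝔪' : Ideal (integralClosure ℤ ℂ)),
      v ≠ 0 ∧ v ∈ Submodule.span ℂ (X : Set 𝒱) ∧
      (∀ r, ρ r v = ((χ r : integralClosure ℤ ℂ) : ℂ) • v) ∧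
      𝔪'.IsMaximal ∧ ∀ r ∈ 𝔪, χ r ∈ 𝔪' := by
  classical
  set V : Submodule ℂ 𝒱 := Submodule.span ℂ (X : Set 𝒱) with hV
  have hVstab : ∀ r : R, ∀ w ∈ V, ρ r w ∈ V := by
    intro r w hw
    refine Submodule.span_induction (p := fun w _ => ρ r w ∈ V) ?_ ?_ ?_ ?_ hw
    · intro x hx
      exact Submodule.subset_span (hXstab r x hx)
    · rw [map_zero]; exact V.zero_mem
    · intro x y _ _ hx hy
      rw [map_add]; exact V.add_mem hx hy
    · intro a x _ hx
      rw [map_smul]; exact V.smul_mem a hx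
  -- the restricted action
  let ρV : R →+* Module.End ℂ V :=
    { toFun := fun r => (ρ r).restrict (hVstab r)
      map_one' := by
        apply LinearMap.ext; intro w; apply Subtype.ext
        simp [LinearMap.restrict_apply]
      map_mul' := by
        intro r s
        apply LinearMap.ext; intro w; apply Subtype.ext
        simp [LinearMap.restrict_apply]
      map_zero' := by
        apply LinearMap.ext; intro w; apply Subtype.ext
        simp [LinearMap.restrict_apply]
      map_add' := by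
        intro r s
        apply LinearMap.ext; intro w; apply Subtype.ext
        simp [LinearMap.restrict_apply] }
  have hρV : ∀ (r : R) (w : V), ((ρV r w : V) : 𝒱) = ρ r (w : 𝒱) := fun r w => rfl
  -- the lattice inside `V`
  let XV : Submodule ℤ V := X.comap ((V.subtype).restrictScalars ℤ)
  have hXV : ∀ w : V, w ∈ XV ↔ (w : 𝒱) ∈ X := fun w => Iff.rfl
  have hXVfg : XV.FG := by
    obtain ⟨s, hs⟩ := hXfg
    have hsV : ∀ x ∈ s, x ∈ V := fun x hx =>
      Submodule.subset_span (hs ▸ Submodule.subset_span hx)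
    refine ⟨s.attach.image (fun x => (⟨x.1, hsV x.1 x.2⟩ : V)), ?_⟩
    apply le_antisymm
    · rw [Submodule.span_le]
      intro w hw
      simp only [Finset.coe_image, Set.mem_image] at hw
      obtain ⟨x, -, rfl⟩ := hw
      exact (hXV _).2 (hs ▸ Submodule.subset_span x.2)
    · intro w hw
      have hw' : (w : 𝒱) ∈ Submodule.span ℤ (s : Set 𝒱) := by rw [hs]; exact (hXV w).1 hw
      have key : ∀ y : 𝒱, y ∈ Submodule.span ℤ (s : Set 𝒱) → ∀ hy : y ∈ V,
          (⟨y, hy⟩ : V) ∈ Submodule.span ℤ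
            ((s.attach.image (fun x => (⟨x.1, hsV x.1 x.2⟩ : V)) : Finset V) : Set V) := by
        intro y hy
        refine Submodule.span_induction (p := fun y _ => ∀ hy : y ∈ V, (⟨y, hy⟩ : V) ∈
          Submodule.span ℤ
            ((s.attach.image (fun x => (⟨x.1, hsV x.1 x.2⟩ : V)) : Finset V) : Set V))
          ?_ ?_ ?_ ?_ hy
        · intro x hx hxV
          apply Submodule.subset_span
          simp only [Finset.coe_image, Set.mem_image]
          exact ⟨⟨x, hx⟩, by simp, rfl⟩
        · intro h0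
          have : (⟨0, h0⟩ : V) = 0 := rfl
          rw [this]; exact Submodule.zero_mem _
        · intro x y hx hy ihx ihy hxy
          have hxV : x ∈ V := Submodule.span_le_restrictScalars ℤ ℂ _
            (Submodule.span_mono (fun z hz => (hs ▸ Submodule.subset_span hz : z ∈ X)) hx)
          have hyV : y ∈ V := Submodule.span_le_restrictScalars ℤ ℂ _
            (Submodule.span_mono (fun z hz => (hs ▸ Submodule.subset_span hz : z ∈ X)) hy)
          have : (⟨x + y, hxy⟩ : V) = ⟨x, hxV⟩ + ⟨y, hyV⟩ := rfl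
          rw [this]; exact Submodule.add_mem _ (ihx hxV) (ihy hyV)
        · intro a x hx ihx hax
          have hxV : x ∈ V := Submodule.span_le_restrictScalars ℤ ℂ _
            (Submodule.span_mono (fun z hz => (hs ▸ Submodule.subset_span hz : z ∈ X)) hx)
          have : (⟨a • x, hax⟩ : V) = a • (⟨x, hxV⟩ : V) := rfl
          rw [this]; exact Submodule.smul_mem _ a (ihx hxV)
      exact key (w : 𝒱) hw' w.2
  have hXVspan : Submodule.span ℂ (XV : Set V) = ⊤ := by
    rw [eq_top_iff]
    rintro ⟨w, hw⟩ -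
    refine Submodule.span_induction (p := fun w hw => (⟨w, hw⟩ : V) ∈
      Submodule.span ℂ (XV : Set V)) ?_ ?_ ?_ ?_ hw
    · intro x hx
      exact Submodule.subset_span ((hXV _).2 hx)
    · exact Submodule.zero_mem _
    · intro x y hx hy ihx ihy
      have : (⟨x + y, V.add_mem hx hy⟩ : V) = ⟨x, hx⟩ + ⟨y, hy⟩ := rfl
      rw [this]; exact Submodule.add_mem _ ihx ihy
    · intro a x hx ihx
      have : (⟨a • x, V.smul_mem a hx⟩ : V) = a • (⟨x, hx⟩ : V) := rfl
      rw [this]; exact Submodule.smul_mem _ a ihx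
  haveI : FiniteDimensional ℂ V := finiteDimensional_of_lattice XV hXVfg hXVspan
  have hint : ∀ r : R, IsIntegral ℤ (ρV r) := fun r =>
    isIntegral_end_of_lattice XV hXVfg hXVspan (ρV r)
      (fun w hw => (hXV _).2 (by rw [hρV]; exact hXstab r _ ((hXV w).1 hw)))
  have hker : RingHom.ker ρV ≤ 𝔪 := by
    intro r hr
    rw [RingHom.mem_ker] at hr
    apply hann
    intro x hx
    have hxV : x ∈ V := Submodule.subset_span hx
    have h1 : ((ρV r (⟨x, hxV⟩ : V) : V) : 𝒱) = 0 := by rw [hr]; rfl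
    rw [hρV] at h1
    exact h1
  obtain ⟨g, χ, 𝔪', hg0, hgχ, h𝔪', hχ⟩ := exists_eigenvector_over_maximal ρV hint 𝔪 hker
  refine ⟨(g : 𝒱), χ, 𝔪', fun h => hg0 (Subtype.ext h), g.2, fun r => ?_, h𝔪', hχ⟩
  have := congrArg (fun w : V => (w : 𝒱)) (hgχ r)
  simpa [hρV] using this

end LR
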