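import Mathlib

/-!
# Irreducible subgroups of `GL₂(𝔽_p)` contain an element without eigenvalue `1`
(S41 / LR, stream S4 leaf (f))

`LR.lr_gl2`: a finite group acting irreducibly on a `2`-dimensional `𝔽_p`-vector space contains an
element with no nonzero fixed vector, whose order has at most two prime factors.
-/

set_option autoImplicit false

namespace LR

section GL2

variable {F V : Type*} [Field F] [AddCommGroup V] [Module F V]

/-- two independent vectors span a `2`-dimensional space -/
theorem lr_gl2_span (hV : Module.finrank F V = 2) {e1 e2 : V}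
    (hli : ∀ s t : F, s • e1 + t • e2 = 0 → s = 0 ∧ t = 0) (v : V) :
    ∃ x y : F, v = x • e1 + y • e2 := by
  have hind : LinearIndependent F ![e1, e2] := LinearIndependent.pair_iff.mpr hli
  have : Module.Finite F V := Module.finite_of_finrank_pos (by rw [hV]; norm_num)
  let b := basisOfLinearIndependentOfCardEqFinrank hind (by rw [hV, Fintype.card_fin])
  have hb : (b : Fin 2 → V) = ![e1, e2] := coe_basisOfLinearIndependentOfCardEqFinrank hind _
  have h := b.sum_repr v
  rw [Fin.sum_univ_two, hb] at h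
  exact ⟨b.repr v 0, b.repr v 1, h.symm⟩

/-- a linear map with a nonzero fixed vector: `det (T - 1) = 0`, in coordinates -/
theorem lr_gl2_det {e1 e2 : V} (hli : ∀ s t : F, s • e1 + t • e2 = 0 → s = 0 ∧ t = 0)
    (T : V →ₗ[F] V) {α β γ δ : F} (h1 : T e1 = α • e1 + γ • e2) (h2 : T e2 = β • e1 + δ • e2)
    {x y : F} (hxy : x • e1 + y • e2 ≠ 0) (hfix : T (x • e1 + y • e2) = x • e1 + y • e2) :
    (α - 1) * (δ - 1) - β * γ = 0 := by
  rw [map_add, map_smul, map_smul, h1, h2] at hfix
  have h0 : (x * α + y * β - x) • e1 + (x * γ + y * δ - y) • e2 = 0 := by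
    linear_combination (norm := module) hfix
  obtain ⟨E1, E2⟩ := hli _ _ h0
  by_cases hx : x = 0
  · have hy : y ≠ 0 := by
      rintro rfl
      apply hxy
      rw [hx]; simp
    have : y * ((α - 1) * (δ - 1) - β * γ) = 0 := by linear_combination (α - 1) * E2 - γ * E1
    exact (mul_eq_zero.mp this).resolve_left hy
  · have : x * ((α - 1) * (δ - 1) - β * γ) = 0 := by linear_combination (δ - 1) * E1 - β * E2
    exact (mul_eq_zero.mp this).resolve_left hx

/-- **an irreducible group in dimension `2` contains an element without nonzero fixed vectors** -/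
theorem lr_gl2_fix {G : Type*} [Group G] [DistribMulAction G V] (hV : Module.finrank F V = 2)
    (hlin : ∀ (g : G) (c : F) (v : V), g • (c • v) = c • (g • v))
    (hirr : ∀ N : Submodule F V, (∀ (g : G), ∀ v ∈ N, g • v ∈ N) → N = ⊥ ∨ N = ⊤) :
    ∃ g : G, ∀ v : V, g • v = v → v = 0 := by
  by_contra hcon
  push Not at hcon
  have hline : ∀ u : V, u ≠ 0 → (∀ g : G, ∃ c : F, g • u = c • u) → False := by
    intro u hu hst
    have h := hirr (Submodule.span F {u}) (by
      intro g v hv
      rw [Submodule.mem_span_singleton] at hv ⊢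
      obtain ⟨a, rfl⟩ := hv
      obtain ⟨c, hc⟩ := hst g
      exact ⟨a * c, by rw [hlin, hc, mul_smul]⟩)
    rcases h with h | h
    · exact hu (Submodule.span_singleton_eq_bot.mp h)
    · have h1 : Module.finrank F (Submodule.span F {u}) = 1 := finrank_span_singleton hu
      rw [h, finrank_top, hV] at h1
      omega
  have : Nontrivial V := Module.nontrivial_of_finrank_pos (R := F) (by rw [hV]; norm_num)
  have hnt : ∃ (g₀ : G) (v₀ : V), g₀ • v₀ ≠ v₀ := by
    by_contra hall
    push Not at hall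
    obtain ⟨u, hu⟩ := exists_ne (0 : V)
    exact hline u hu (fun g => ⟨1, by rw [hall, one_smul]⟩)
  obtain ⟨g₀, e2, hg₀⟩ := hnt
  obtain ⟨e1, he1, he1ne⟩ := hcon g₀
  have hli : ∀ s t : F, s • e1 + t • e2 = 0 → s = 0 ∧ t = 0 := by
    intro s t hst
    have ht : t = 0 := by
      by_contra ht
      apply hg₀
      have h2 : e2 = (-(s / t)) • e1 := by
        have h3 : t • e2 = (-s) • e1 := by linear_combination (norm := module) hst
        calc e2 = t⁻¹ • (t • e2) := by rw [smul_smul, inv_mul_cancel₀ ht, one_smul]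
          _ = (-(s / t)) • e1 := by rw [h3, smul_smul]; congr 1; field_simp
      rw [h2, hlin, he1]
    subst ht
    rw [zero_smul, add_zero] at hst
    exact ⟨(smul_eq_zero.mp hst).resolve_right he1ne, rfl⟩
  have hsp := lr_gl2_span hV hli
  obtain ⟨b, d, hbd⟩ := hsp (g₀ • e2)
  set w₀ : V := b • e1 + (d - 1) • e2 with hw₀
  have hw₀ne : w₀ ≠ 0 := by
    intro h0
    apply hg₀
    have h3 : g₀ • e2 - e2 = w₀ := by rw [hbd, hw₀]; module
    rw [h0] at h3
    exact sub_eq_zero.mp h3
  have hT : ∀ g : G, ∃ T : V →ₗ[F] V, ∀ v, T v = g • v := fun g =>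
    ⟨{ toFun := fun v => g • v
       map_add' := smul_add g
       map_smul' := fun c v => hlin g c v }, fun _ => rfl⟩
  have key : ∀ h : G, ∃ c : F, h • e1 = e1 + c • w₀ := by
    intro h
    obtain ⟨α, γ, h1⟩ := hsp (h • e1)
    obtain ⟨β, δ, h2⟩ := hsp (h • e2)
    obtain ⟨T, hT1⟩ := hT h
    obtain ⟨T', hT'⟩ := hT (g₀ * h)
    obtain ⟨u, hu, hune⟩ := hcon h
    obtain ⟨x, y, rfl⟩ := hsp u
    obtain ⟨u', hu', hu'ne⟩ := hcon (g₀ * h)
    obtain ⟨x', y', rfl⟩ := hsp u'
    have D1 := lr_gl2_det hli T (by rw [hT1]; exact h1) (by rw [hT1]; exact h2) hune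
      (by rw [hT1]; exact hu)
    have h1' : (g₀ * h) • e1 = (α + b * γ) • e1 + (d * γ) • e2 := by
      rw [mul_smul, h1, smul_add, hlin, hlin, he1, hbd]; module
    have h2' : (g₀ * h) • e2 = (β + b * δ) • e1 + (d * δ) • e2 := by
      rw [mul_smul, h2, smul_add, hlin, hlin, he1, hbd]; module
    have D2 := lr_gl2_det hli T' (by rw [hT']; exact h1') (by rw [hT']; exact h2') hu'ne
      (by rw [hT']; exact hu')
    have hstar : (α - 1) * (d - 1) = b * γ := by linear_combination D2 - d * D1
    by_cases hd : d = 1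
    · subst hd
      have hb : b ≠ 0 := by
        rintro rfl
        apply hw₀ne
        rw [hw₀]; simp
      have hγ : γ = 0 := by
        have h3 : b * γ = 0 := by rw [← hstar]; ring
        exact (mul_eq_zero.mp h3).resolve_left hb
      refine ⟨(α - 1) / b, ?_⟩
      have h4 : (α - 1) / b * b = α - 1 := by field_simp
      rw [h1, hw₀, hγ, smul_add, smul_smul, h4]; module
    · have hd' : d - 1 ≠ 0 := sub_ne_zero.mpr hd
      refine ⟨γ / (d - 1), ?_⟩
      have e1' : γ / (d - 1) * b = α - 1 := by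
        field_simp
        linear_combination -hstar
      have e2' : γ / (d - 1) * (d - 1) = γ := by field_simp
      rw [h1, hw₀, smul_add, smul_smul, smul_smul, e1', e2']; module
  by_cases hall : ∀ h : G, h • e1 = e1
  · exact hline e1 he1ne (fun g => ⟨1, by rw [hall, one_smul]⟩)
  · push Not at hall
    obtain ⟨h', hh'⟩ := hall
    obtain ⟨c', hc'⟩ := key h'
    have hc'ne : c' ≠ 0 := by
      rintro rfl
      apply hh'
      rw [hc', zero_smul, add_zero]
    refine hline w₀ hw₀ne (fun h => ?_)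
    obtain ⟨c, hc⟩ := key h
    obtain ⟨c'', hc''⟩ := key (h * h')
    refine ⟨(c'' - c) / c', ?_⟩
    have e : c' • (h • w₀) = (c'' - c) • w₀ := by
      have h3 := hc''
      rw [mul_smul, hc', smul_add, hlin, hc] at h3
      generalize h • w₀ = z at h3 ⊢
      linear_combination (norm := module) h3
    calc h • w₀ = c'⁻¹ • (c' • (h • w₀)) := by rw [smul_smul, inv_mul_cancel₀ hc'ne, one_smul]
      _ = ((c'' - c) / c') • w₀ := by rw [e, smul_smul]; congr 1; field_simp

/-- an element without nonzero fixed vectors of minimal order: its order has at most two prime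
factors -/
theorem lr_gl2_order {G : Type*} [Group G] [Finite G] [DistribMulAction G V]
    (hV : Module.finrank F V = 2)
    (hlin : ∀ (g : G) (c : F) (v : V), g • (c • v) = c • (g • v))
    (g : G) (hg : ∀ v : V, g • v = v → v = 0)
    (hmin : ∀ g' : G, (∀ v : V, g' • v = v → v = 0) → orderOf g ≤ orderOf g') :
    (orderOf g).primeFactors.card ≤ 2 := by
  by_contra hcard
  push Not at hcard
  obtain ⟨q1, h1, q2, h2, q3, h3, h12, h13, h23⟩ := Finset.two_lt_card.mp hcard
  have hn : 0 < orderOf g := orderOf_pos g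
  have hfix : ∀ q ∈ (orderOf g).primeFactors, ∃ u : V, u ≠ 0 ∧ g ^ q • u = u := by
    intro q hq
    have hqp := Nat.prime_of_mem_primeFactors hq
    have hqd := Nat.dvd_of_mem_primeFactors hq
    by_contra hno
    push Not at hno
    have h4 := hmin (g ^ q) (fun v hv => by_contra fun hv0 => hno v hv0 hv)
    rw [orderOf_pow_of_dvd hqp.ne_zero hqd] at h4
    exact absurd h4 (not_le.mpr (Nat.div_lt_self hn hqp.one_lt))
  have hcop : ∀ (a b : ℕ) (u : V), Nat.Coprime a b → g ^ a • u = u → g ^ b • u = u →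
      g • u = u := by
    intro a b u hab ha hb
    have ha' : g ^ a ∈ MulAction.stabilizer G u := ha
    have hb' : g ^ b ∈ MulAction.stabilizer G u := hb
    have h4 : g ^ ((a : ℤ) * Nat.gcdA a b + (b : ℤ) * Nat.gcdB a b) ∈
        MulAction.stabilizer G u := by
      rw [zpow_add, zpow_mul, zpow_mul, zpow_natCast, zpow_natCast]
      exact mul_mem (zpow_mem ha' _) (zpow_mem hb' _)
    rw [← Nat.gcd_eq_gcd_ab, hab.gcd_eq_one] at h4
    simpa using h4
  obtain ⟨u1, hu1, hf1⟩ := hfix q1 h1
  obtain ⟨u2, hu2, hf2⟩ := hfix q2 h2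
  obtain ⟨u3, hu3, hf3⟩ := hfix q3 h3
  have hp1 := Nat.prime_of_mem_primeFactors h1
  have hp2 := Nat.prime_of_mem_primeFactors h2
  have hp3 := Nat.prime_of_mem_primeFactors h3
  have c12 : Nat.Coprime q1 q2 := (Nat.coprime_primes hp1 hp2).mpr h12
  have c13 : Nat.Coprime q1 q3 := (Nat.coprime_primes hp1 hp3).mpr h13
  have c23 : Nat.Coprime q2 q3 := (Nat.coprime_primes hp2 hp3).mpr h23
  have hli : ∀ s t : F, s • u1 + t • u2 = 0 → s = 0 ∧ t = 0 := by
    intro s t hst
    have hs : s = 0 := by
      by_contra hs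
      have h5 : u1 = (-(t / s)) • u2 := by
        have h6 : s • u1 = (-t) • u2 := by linear_combination (norm := module) hst
        calc u1 = s⁻¹ • (s • u1) := by rw [smul_smul, inv_mul_cancel₀ hs, one_smul]
          _ = (-(t / s)) • u2 := by rw [h6, smul_smul]; congr 1; field_simp
      apply hu1
      apply hg
      apply hcop q1 q2 u1 c12 hf1
      rw [h5, hlin, hf2]
    subst hs
    rw [zero_smul, zero_add] at hst
    exact ⟨rfl, (smul_eq_zero.mp hst).resolve_right hu2⟩
  have hsp := lr_gl2_span hV hli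
  have htriv : ∀ v : V, g ^ (q1 * q2) • v = v := by
    intro v
    obtain ⟨x, y, rfl⟩ := hsp v
    have e1 : g ^ (q1 * q2) • u1 = u1 := by
      have h7 : g ^ q1 ∈ MulAction.stabilizer G u1 := hf1
      have h8 := pow_mem h7 q2
      rw [← pow_mul] at h8
      exact h8
    have e2 : g ^ (q1 * q2) • u2 = u2 := by
      have h7 : g ^ q2 ∈ MulAction.stabilizer G u2 := hf2
      have h8 := pow_mem h7 q1
      rw [← pow_mul, mul_comm] at h8
      exact h8
    rw [smul_add, hlin, hlin, e1, e2]
  apply hu3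
  apply hg
  exact hcop q3 (q1 * q2) u3 (Nat.Coprime.mul_right c13.symm c23.symm) hf3 (htriv u3)

end GL2

/-- **irreducible subgroups of `GL₂(𝔽_p)`**: there is an element with no nonzero fixed vector
whose order has at most two prime factors -/
theorem lr_gl2 {p : ℕ} [Fact p.Prime] {V : Type*} [AddCommGroup V] [Module (ZMod p) V]
    (hV : Module.finrank (ZMod p) V = 2)
    {G : Type*} [Group G] [Finite G] [DistribMulAction G V]
    (hirr : ∀ N : Submodule (ZMod p) V, (∀ (g : G), ∀ v ∈ N, g • v ∈ N) → N = ⊥ ∨ N = ⊤) :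
    ∃ g : G, (∀ v : V, g • v = v → v = 0) ∧ (orderOf g).primeFactors.card ≤ 2 := by
  have hlin : ∀ (g : G) (c : ZMod p) (v : V), g • (c • v) = c • (g • v) := by
    intro g c v
    exact map_smul ((DistribSMul.toAddMonoidHom V g).toZModLinearMap p) c v
  have hex := lr_gl2_fix hV hlin hirr
  classical
  have hex' : ∃ n, ∃ g : G, (∀ v : V, g • v = v → v = 0) ∧ orderOf g = n := by
    obtain ⟨g, hg⟩ := hex
    exact ⟨_, g, hg, rfl⟩
  obtain ⟨g, hg, hgn⟩ := Nat.find_spec hex'
  refine ⟨g, hg, lr_gl2_order hV hlin g hg ?_⟩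
  intro g' hg'
  rw [hgn]
  exact Nat.find_min' hex' ⟨g', hg', rfl⟩

end LR
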