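import Fermat.Agent.Lib.LR_AmalgamGen
import Fermat.Agent.Lib.LR_Level
import Fermat.Agent.Lib.LR_Eis

/-!
# S41 (level raising), Ihara's lemma: the glue between the amalgam and the characters

* `LR.lr_glue_unip_conj`: every unipotent element of `lrG N q = Γ₀(N)[1/q]` is `lrG`-conjugate to a
  unipotent element of `Γ₀(N)`;
* `LR.lr_glue`: two parabolic characters `χ₁, χ₂` of `Γ₀(N)` with `res1 χ₁ + res2 χ₂ = 0` glue to
  a homomorphism on `lrG N q` which kills every unipotent element and restricts to `χ₁`;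
* `LR.lr_hL1_of_B`: the mod `p` Ihara lemma in the shape used by `LR.lr_S41_of_ihara`, from the
  statement that such homomorphisms vanish on `{d ≡ 1 mod N}`.
-/

set_option autoImplicit false
set_option linter.unusedSimpArgs false

open CongruenceSubgroup Matrix
open scoped MatrixGroups

namespace LR

/-- a primitive integer kernel vector (completed to a unimodular matrix) of a nilpotent integer
matrix `[A, B; C, -A]` -/
theorem lr_glue_kernel (A B C : ℤ) (h : A ^ 2 + B * C = 0) :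
    ∃ x y z w : ℤ, x * w - y * z = 1 ∧ A * x + B * y = 0 ∧ C * x - A * y = 0 := by
  by_cases hB : B = 0
  · have hA : A = 0 := by
      have h2 : A ^ 2 = 0 := by rw [hB] at h; linarith
      exact pow_eq_zero_iff (two_ne_zero) |>.mp h2
    exact ⟨0, 1, -1, 0, by norm_num, by rw [hA, hB]; ring, by rw [hA]; ring⟩
  · have hg : 0 < Int.gcd A B := Int.gcd_pos_of_ne_zero_right _ hB
    obtain ⟨A', B', hcop, hA', hB'⟩ := Int.exists_gcd_one hg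
    have hbez := Int.gcd_eq_gcd_ab A' B'
    rw [hcop] at hbez
    have hg0 : (Int.gcd A B : ℤ) ≠ 0 := by exact_mod_cast hg.ne'
    generalize (Int.gcd A B : ℤ) = g at hA' hB' hg0
    refine ⟨B', -A', Int.gcdA A' B', Int.gcdB A' B', ?_, ?_, ?_⟩
    · push_cast at hbez
      linarith
    · rw [hA', hB']; ring
    · have h3 : g * (C * B' - A * -A') = 0 := by
        have h4 : g * (C * B' - A * -A') = A ^ 2 + B * C := by
          rw [hA', hB']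
          ring
        rw [h4, h]
      exact (mul_eq_zero.mp h3).resolve_left hg0

theorem lr_glue_ext {g h : SL(2, ℚ)} (h00 : g 0 0 = h 0 0) (h01 : g 0 1 = h 0 1)
    (h10 : g 1 0 = h 1 0) (h11 : g 1 1 = h 1 1) : g = h := by
  apply Subtype.ext
  ext i j
  fin_cases i <;> fin_cases j
  · exact h00
  · exact h01
  · exact h10
  · exact h11

/-- conjugation preserves the trace -/
theorem lr_glue_trace_conj (g u : SL(2, ℚ)) :
    (g * u * g⁻¹) 0 0 + (g * u * g⁻¹) 1 1 = u 0 0 + u 1 1 := by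
  obtain ⟨i00, i01, i10, i11⟩ := lr_am_inv_apply g
  rw [lr_am_mul3, lr_am_mul3, i00, i01, i10, i11]
  linear_combination (u 0 0 + u 1 1) * lr_am_det g

/-- the diagonal element `diag(q^J, q^{-J})` -/
def lrGlueDiag (q : ℕ) [Fact q.Prime] (J : ℕ) : SL(2, ℚ) :=
  ⟨!![(q : ℚ) ^ J, 0; 0, ((q : ℚ) ^ J)⁻¹], by
    have hq : (q : ℚ) ^ J ≠ 0 :=
      pow_ne_zero _ (Nat.cast_ne_zero.mpr (Fact.out : q.Prime).ne_zero)
    simp [Matrix.det_fin_two_of, hq]⟩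

theorem lrGlueDiag_apply (q : ℕ) [Fact q.Prime] (J : ℕ) :
    (lrGlueDiag q J) 0 0 = (q : ℚ) ^ J ∧ (lrGlueDiag q J) 0 1 = 0 ∧ (lrGlueDiag q J) 1 0 = 0 ∧
      (lrGlueDiag q J) 1 1 = ((q : ℚ) ^ J)⁻¹ := ⟨rfl, rfl, rfl, rfl⟩

theorem lrGlueDiag_conj_up (q : ℕ) [Fact q.Prime] (J : ℕ) (t : ℚ) :
    lrGlueDiag q J * lrUp t * (lrGlueDiag q J)⁻¹ = lrUp ((q : ℚ) ^ (2 * J) * t) := by
  have hq : (q : ℚ) ^ J ≠ 0 :=
    pow_ne_zero _ (Nat.cast_ne_zero.mpr (Fact.out : q.Prime).ne_zero)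
  obtain ⟨d00, d01, d10, d11⟩ := lrGlueDiag_apply q J
  obtain ⟨i00, i01, i10, i11⟩ := lr_am_inv_apply (lrGlueDiag q J)
  obtain ⟨u00, u01, u10, u11⟩ := lrUp_apply t
  obtain ⟨v00, v01, v10, v11⟩ := lrUp_apply ((q : ℚ) ^ (2 * J) * t)
  apply lr_glue_ext
  · rw [lr_am_mul3]
    simp only [i00, i01, i10, i11, d00, d01, d10, d11, u00, u01, u10, u11, v00]
    field_simp
    ring
  · rw [lr_am_mul3]
    simp only [i00, i01, i10, i11, d00, d01, d10, d11, u00, u01, u10, u11, v01]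
    ring
  · rw [lr_am_mul3]
    simp only [i00, i01, i10, i11, d00, d01, d10, d11, u00, u01, u10, u11, v10]
    ring
  · rw [lr_am_mul3]
    simp only [i00, i01, i10, i11, d00, d01, d10, d11, u00, u01, u10, u11, v11]
    field_simp
    ring

/-- a unipotent element fixing the first column of `σ` is upper unipotent in the basis `σ` -/
theorem lr_glue_unip_decomp (u : SL(2, ℚ)) (htr : u 0 0 + u 1 1 = 2) (s : SL(2, ℚ))
    (h1 : (u 0 0 - 1) * s 0 0 + u 0 1 * s 1 0 = 0)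
    (h2 : u 1 0 * s 0 0 - (u 0 0 - 1) * s 1 0 = 0) :
    s⁻¹ * u * s = lrUp ((s⁻¹ * u * s) 0 1) := by
  obtain ⟨i00, i01, i10, i11⟩ := lr_am_inv_apply s
  obtain ⟨v00, v01, v10, v11⟩ := lrUp_apply ((s⁻¹ * u * s) 0 1)
  have hdet := lr_am_det s
  apply lr_glue_ext
  · rw [v00, lr_am_mul3, i00, i01]
    linear_combination s 1 1 * h1 - s 0 1 * h2 + hdet - s 0 1 * s 1 0 * htr
  · rw [v01]
  · rw [v10, lr_am_mul3, i10, i11]
    linear_combination - s 1 0 * h1 + s 0 0 * h2 + s 0 0 * s 1 0 * htr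
  · rw [v11, lr_am_mul3, i10, i11]
    linear_combination hdet - s 1 1 * h1 + s 0 1 * h2 + s 0 0 * s 1 1 * htr

section Glue

variable (N q : ℕ) [Fact q.Prime]

/-- elements of `SL(2, ℤ)` inside `lrG N q` are in `Γ₀(N)` -/
theorem lr_glue_int_mem (hNq : N.Coprime q) {γ : SL(2, ℤ)} (h : lrι γ ∈ lrG N q) :
    γ ∈ Gamma0 N := by
  obtain ⟨k, P, hP, hPN⟩ := (lr_mem_G_iff N q hNq).mp h
  have h1 : (q : ℤ) ^ k * γ 1 0 = P 1 0 := by
    have := hP 1 0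
    rw [lrι_apply] at this
    exact_mod_cast this
  have hcop : IsCoprime (N : ℤ) ((q : ℤ) ^ k) := by
    apply IsCoprime.pow_right
    exact_mod_cast (Nat.isCoprime_iff_coprime.mpr hNq)
  have h2 : (N : ℤ) ∣ γ 1 0 := by
    apply hcop.dvd_of_dvd_mul_left
    rw [h1]; exact hPN
  exact Gamma0_mem.mpr ((ZMod.intCast_zmod_eq_zero_iff_dvd _ _).mpr h2)

/-- **Unipotent elements of `Γ₀(N)[1/q]` are conjugate into `Γ₀(N)`.** -/
theorem lr_glue_unip_conj [NeZero N] (hNq : N.Coprime q) {u : SL(2, ℚ)} (hu : u ∈ lrG N q)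
    (htr : u 0 0 + u 1 1 = 2) :
    ∃ g ∈ lrG N q, ∃ γ : SL(2, ℤ), γ ∈ Gamma0 N ∧ γ 0 0 + γ 1 1 = 2 ∧
      g * u * g⁻¹ = lrι γ := by
  have hq0 : (q : ℚ) ≠ 0 := Nat.cast_ne_zero.mpr (Fact.out : q.Prime).ne_zero
  obtain ⟨k, P, hP, hPN⟩ := (lr_mem_G_iff N q hNq).mp hu
  have hqk : (q : ℚ) ^ k ≠ 0 := pow_ne_zero _ hq0
  have hdet := lr_am_det u
  have hnil : (P 0 0 - (q : ℤ) ^ k) ^ 2 + P 0 1 * P 1 0 = 0 := by
    have : (((P 0 0 - (q : ℤ) ^ k) ^ 2 + P 0 1 * P 1 0 : ℤ) : ℚ) = 0 := by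
      push_cast
      rw [← hP 0 0, ← hP 0 1, ← hP 1 0]
      have h11 : u 1 1 = 2 - u 0 0 := by linarith
      rw [h11] at hdet
      linear_combination (-(q : ℚ) ^ k * (q : ℚ) ^ k) * hdet
    exact_mod_cast this
  obtain ⟨x, y, z, w, hxw, hk1, hk2⟩ := lr_glue_kernel _ _ _ hnil
  let σ : SL(2, ℤ) := ⟨!![x, z; y, w], by rw [Matrix.det_fin_two_of]; linarith⟩
  have hσ : (lrι σ) 0 0 = x ∧ (lrι σ) 0 1 = z ∧ (lrι σ) 1 0 = y ∧ (lrι σ) 1 1 = w := by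
    refine ⟨?_, ?_, ?_, ?_⟩ <;> rw [lrι_apply] <;> rfl
  obtain ⟨s00, s01, s10, s11⟩ := hσ
  have h1 : (u 0 0 - 1) * (lrι σ) 0 0 + u 0 1 * (lrι σ) 1 0 = 0 := by
    rw [s00, s10]
    have : (q : ℚ) ^ k * ((u 0 0 - 1) * x + u 0 1 * y) = 0 := by
      have hc : (((P 0 0 - (q : ℤ) ^ k) * x + P 0 1 * y : ℤ) : ℚ) = 0 := by exact_mod_cast hk1
      push_cast at hc
      rw [← hP 0 0, ← hP 0 1] at hc
      linear_combination hc
    exact (mul_eq_zero.mp this).resolve_left hqk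
  have h2 : u 1 0 * (lrι σ) 0 0 - (u 0 0 - 1) * (lrι σ) 1 0 = 0 := by
    rw [s00, s10]
    have : (q : ℚ) ^ k * (u 1 0 * x - (u 0 0 - 1) * y) = 0 := by
      have hc : ((P 1 0 * x - (P 0 0 - (q : ℤ) ^ k) * y : ℤ) : ℚ) = 0 := by exact_mod_cast hk2
      push_cast at hc
      rw [← hP 0 0, ← hP 1 0] at hc
      linear_combination hc
    exact (mul_eq_zero.mp this).resolve_left hqk
  have hv := lr_glue_unip_decomp u htr (lrι σ) h1 h2
  set t : ℚ := ((lrι σ)⁻¹ * u * lrι σ) 0 1 with ht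
  -- integrality of `t`
  have hσ1 : lrι σ ∈ lrGE 1 q := by
    refine ⟨0, (σ : Matrix (Fin 2) (Fin 2) ℤ), ?_, ?_⟩
    · intro i j
      rw [lrι_apply]; simp
    · simp
  have hu1 : u ∈ lrGE 1 q := ⟨k, P, hP, by simp⟩
  have hv1 : (lrι σ)⁻¹ * u * lrι σ ∈ lrGE 1 q :=
    (lrGE 1 q).mul_mem ((lrGE 1 q).mul_mem ((lrGE 1 q).inv_mem hσ1) hu1) hσ1
  obtain ⟨k', P', hP', -⟩ := hv1
  have htP : (q : ℚ) ^ k' * t = P' 0 1 := hP' 0 1
  -- the exponent `J`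
  obtain ⟨J, hJ⟩ : ∃ J : ℕ, J = k' * Nat.totient N := ⟨_, rfl⟩
  have hk'J : k' ≤ 2 * J := by
    have : 1 ≤ Nat.totient N := Nat.totient_pos.mpr (NeZero.pos N)
    nlinarith
  have hmod : q ^ (2 * J) ≡ 1 [MOD N] := by
    have e1 : q ^ Nat.totient N ≡ 1 [MOD N] := Nat.ModEq.pow_totient hNq.symm
    have e2 := e1.pow (2 * k')
    rw [one_pow, ← pow_mul] at e2
    have e3 : Nat.totient N * (2 * k') = 2 * J := by rw [hJ]; ring
    rwa [e3] at e2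
  have hdvd : (N : ℤ) ∣ (q : ℤ) ^ (2 * J) - 1 := by
    have := (Nat.modEq_iff_dvd.mp hmod.symm)
    push_cast at this
    exact this
  -- the conjugating element
  set g : SL(2, ℚ) := lrι σ * lrGlueDiag q J * (lrι σ)⁻¹ with hg
  have hqJ : (q : ℚ) ^ J ≠ 0 := pow_ne_zero _ hq0
  obtain ⟨i00, i01, i10, i11⟩ := lr_am_inv_apply (lrι σ)
  obtain ⟨d00, d01, d10, d11⟩ := lrGlueDiag_apply q J
  have hgG : g ∈ lrG N q := by
    refine lr_mem_G_of N q hNq g J (x * w * (q : ℤ) ^ (2 * J) - z * y)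
      (x * z * (1 - (q : ℤ) ^ (2 * J))) (y * w * ((q : ℤ) ^ (2 * J) - 1))
      (x * w - y * z * (q : ℤ) ^ (2 * J)) ?_ ?_ ?_ ?_ (Dvd.dvd.mul_left hdvd _)
    · rw [hg, lr_am_mul3]
      simp only [i00, i01, i10, i11, d00, d01, d10, d11, s00, s01, s10, s11]
      push_cast
      field_simp
      ring
    · rw [hg, lr_am_mul3]
      simp only [i00, i01, i10, i11, d00, d01, d10, d11, s00, s01, s10, s11]
      push_cast
      field_simp
      ring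
    · rw [hg, lr_am_mul3]
      simp only [i00, i01, i10, i11, d00, d01, d10, d11, s00, s01, s10, s11]
      push_cast
      field_simp
      ring
    · rw [hg, lr_am_mul3]
      simp only [i00, i01, i10, i11, d00, d01, d10, d11, s00, s01, s10, s11]
      push_cast
      field_simp
      ring
  have hconj : g * u * g⁻¹ = lrι σ * lrUp ((q : ℚ) ^ (2 * J) * t) * (lrι σ)⁻¹ := by
    have e : g * u * g⁻¹ =
        lrι σ * (lrGlueDiag q J * ((lrι σ)⁻¹ * u * lrι σ) * (lrGlueDiag q J)⁻¹) * (lrι σ)⁻¹ := by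
      rw [hg]; group
    rw [e, hv, lrGlueDiag_conj_up]
  obtain ⟨m, hm⟩ : ∃ m : ℤ, m = (q : ℤ) ^ (2 * J - k') * P' 0 1 := ⟨_, rfl⟩
  have hmt : (q : ℚ) ^ (2 * J) * t = (m : ℚ) := by
    calc (q : ℚ) ^ (2 * J) * t = (q : ℚ) ^ (2 * J - k' + k') * t := by
          rw [Nat.sub_add_cancel hk'J]
      _ = (q : ℚ) ^ (2 * J - k') * ((q : ℚ) ^ k' * t) := by rw [pow_add, mul_assoc]
      _ = (m : ℚ) := by rw [htP, hm]; push_cast; ring
  let E : SL(2, ℤ) := ⟨!![1, m; 0, 1], by simp [Matrix.det_fin_two_of]⟩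
  have hE : lrι E = lrUp ((q : ℚ) ^ (2 * J) * t) := by
    rw [hmt]
    obtain ⟨v00, v01, v10, v11⟩ := lrUp_apply (m : ℚ)
    apply lr_glue_ext
    · rw [lrι_apply, v00]; simp [E]
    · rw [lrι_apply, v01]; simp [E]
    · rw [lrι_apply, v10]; simp [E]
    · rw [lrι_apply, v11]; simp [E]
  have hfin : g * u * g⁻¹ = lrι (σ * E * σ⁻¹) := by
    rw [hconj, map_mul, map_mul, map_inv, hE]
  refine ⟨g, hgG, σ * E * σ⁻¹, ?_, ?_, hfin⟩
  · apply lr_glue_int_mem N q hNq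
    rw [← hfin]
    exact mul_mem (mul_mem hgG hu) (inv_mem hgG)
  · have h3 := lr_glue_trace_conj g u
    rw [hfin, lrι_apply, lrι_apply, htr] at h3
    exact_mod_cast h3

end Glue

section Hom

open ModularCurve.Period

variable {N q p : ℕ} [NeZero q] [Fact q.Prime]

/-- on `Γ₀(N) ∩ δ⁻¹Γ₀(N)δ` the relation `res1 χ₁ + res2 χ₂ = 0` reads `χ₁ γ₁ = - χ₂ γ₂` -/
theorem lr_glue_compat (χ₁ χ₂ : X N (ZMod p)) (h : res1 N q χ₁ + res2 N q χ₂ = 0)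
    (γ₁ γ₂ : Gamma0 N) (e : lrι (γ₁ : SL(2, ℤ)) = lrConj q (lrι (γ₂ : SL(2, ℤ)))) :
    χ₁ (Additive.ofMul γ₁) = - χ₂ (Additive.ofMul γ₂) := by
  have hq0 : (q : ℚ) ≠ 0 := Nat.cast_ne_zero.mpr (Fact.out : q.Prime).ne_zero
  have hqz : (q : ℤ) ≠ 0 := Nat.cast_ne_zero.mpr (Fact.out : q.Prime).ne_zero
  have e00 : mat γ₁ 0 0 = mat γ₂ 0 0 := by
    have h1 := congrArg (fun g : SL(2, ℚ) => g 0 0) e
    simp only [lrConj_00, lrι_apply] at h1
    unfold mat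
    exact_mod_cast h1
  have e01 : (q : ℤ) * mat γ₁ 0 1 = mat γ₂ 0 1 := by
    have h1 := congrArg (fun g : SL(2, ℚ) => g 0 1) e
    simp only [lrConj_01, lrι_apply] at h1
    have h2 : (q : ℚ) * (((γ₁ : SL(2, ℤ)) 0 1 : ℤ) : ℚ) = (((γ₂ : SL(2, ℤ)) 0 1 : ℤ) : ℚ) := by
      rw [h1]; field_simp
    unfold mat
    exact_mod_cast h2
  have e10 : mat γ₁ 1 0 = (q : ℤ) * mat γ₂ 1 0 := by
    have h1 := congrArg (fun g : SL(2, ℚ) => g 1 0) e
    simp only [lrConj_10, lrι_apply] at h1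
    unfold mat
    exact_mod_cast h1
  have e11 : mat γ₁ 1 1 = mat γ₂ 1 1 := by
    have h1 := congrArg (fun g : SL(2, ℚ) => g 1 1) e
    simp only [lrConj_11, lrι_apply] at h1
    unfold mat
    exact_mod_cast h1
  have hdvd : ((N * q : ℕ) : ℤ) ∣ mat γ₁ 1 0 := by
    rw [e10]
    obtain ⟨c, hc⟩ := mat_dvd γ₂
    rw [hc]
    push_cast
    exact ⟨c, by ring⟩
  obtain ⟨γ, hγ⟩ : ∃ γ : Gamma0 (N * q), mat γ = mat γ₁ := ⟨mk (mat γ₁) (mat_det γ₁) hdvd, rfl⟩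
  have hi : incl N q γ = γ₁ := mat_injective (by rw [mat_incl, hγ])
  have hd : dconj N q γ = γ₂ := by
    apply mat_injective
    ext i j
    fin_cases i <;> fin_cases j
    · exact (mat_dconj_00 N q γ).trans (by rw [hγ]; exact e00)
    · exact (mat_dconj_01 N q γ).trans (by rw [hγ]; exact e01)
    · have h3 := mat_dconj_10 N q γ
      rw [hγ, e10] at h3
      have h4 : mat (dconj N q γ) 1 0 * (q : ℤ) = mat γ₂ 1 0 * (q : ℤ) := by
        rw [h3]; ring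
      exact mul_right_cancel₀ hqz h4
    · exact (mat_dconj_11 N q γ).trans (by rw [hγ]; exact e11)
  have h0 := DFunLike.congr_fun h (Additive.ofMul γ)
  simp only [AddMonoidHom.add_apply, res1_apply, res2_apply, AddMonoidHom.zero_apply, hi, hd] at h0
  exact eq_neg_of_add_eq_zero_left h0

/-- **The glued homomorphism on `Γ₀(N)[1/q]`.** Two characters `χ₁, χ₂` of `Γ₀(N)` with
`res1 χ₁ + res2 χ₂ = 0`, `χ₁` parabolic, glue to a homomorphism on `lrG N q` which restricts to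
`χ₁` on `Γ₀(N)` and kills every unipotent element of `lrG N q`. -/
theorem lr_glue [NeZero N] (hNq : N.Coprime q) (χ₁ χ₂ : X N (ZMod p))
    (h₁ : IsParabolicHom (Gamma0 N) χ₁) (h : res1 N q χ₁ + res2 N q χ₂ = 0) :
    ∃ φ : ↥(lrG N q) →* Multiplicative (ZMod p),
      (∀ g : ↥(lrG N q), (g : SL(2, ℚ)) 0 0 + (g : SL(2, ℚ)) 1 1 = 2 → φ g = 1) ∧
      (∀ γ : Gamma0 N, ∀ hm : lrι (γ : SL(2, ℤ)) ∈ lrG N q,
        φ ⟨lrι γ, hm⟩ = Multiplicative.ofAdd (χ₁ (Additive.ofMul γ))) := by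
  obtain ⟨φ, hφ1, -⟩ := lr_amalgam_ext N q hNq (AddMonoidHom.toMultiplicativeRight χ₁)
    (AddMonoidHom.toMultiplicativeRight (-χ₂)) (by
      intro γ₁ γ₂ e
      show Multiplicative.ofAdd (χ₁ (Additive.ofMul γ₁)) =
        Multiplicative.ofAdd ((-χ₂) (Additive.ofMul γ₂))
      rw [lr_glue_compat χ₁ χ₂ h γ₁ γ₂ e]
      rfl)
  have hφ1' : ∀ γ : Gamma0 N, ∀ hm : lrι (γ : SL(2, ℤ)) ∈ lrG N q,
      φ ⟨lrι γ, hm⟩ = Multiplicative.ofAdd (χ₁ (Additive.ofMul γ)) := fun γ hm => hφ1 γ hm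
  refine ⟨φ, ?_, hφ1'⟩
  intro g htr
  obtain ⟨c, hc, γ, hγ, hγtr, e⟩ := lr_glue_unip_conj N q hNq g.2 htr
  have hm : lrι γ ∈ lrG N q := e ▸ mul_mem (mul_mem hc g.2) (inv_mem hc)
  have e1 : (⟨c, hc⟩ : ↥(lrG N q)) * g * (⟨c, hc⟩ : ↥(lrG N q))⁻¹ = ⟨lrι γ, hm⟩ := Subtype.ext e
  have e2 : φ g = φ ((⟨c, hc⟩ : ↥(lrG N q)) * g * (⟨c, hc⟩ : ↥(lrG N q))⁻¹) := by
    rw [map_mul, map_mul, map_inv, mul_comm, inv_mul_cancel_left]
  have e3 : χ₁ (Additive.ofMul (⟨γ, hγ⟩ : Gamma0 N)) = 0 := by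
    apply h₁
    rw [Matrix.trace_fin_two]
    show (γ 0 0 + γ 1 1) ^ 2 = 4
    rw [hγtr]
    norm_num
  rw [e2, e1, hφ1' ⟨γ, hγ⟩ hm, e3]
  rfl

/-- **The mod `p` Ihara lemma from its group-theoretic core.** If every homomorphism
`Γ₀(N)[1/q] → ℤ/p` killing the unipotent elements vanishes on `{γ ∈ Γ₀(N) : d ≡ 1 mod N}`, then
the kernel of `res1 + res2` on parabolic characters mod `p` is Eisenstein (the hypothesis `hL1`
of `LR.lr_S41_of_ihara`). -/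
theorem lr_hL1_of_B [NeZero N] (hNq : N.Coprime q)
    (hB : ∀ φ : ↥(lrG N q) →* Multiplicative (ZMod p),
      (∀ g : ↥(lrG N q), (g : SL(2, ℚ)) 0 0 + (g : SL(2, ℚ)) 1 1 = 2 → φ g = 1) →
      ∀ γ : Gamma0 N, dmod γ = 1 → ∀ hm : lrι (γ : SL(2, ℤ)) ∈ lrG N q, φ ⟨lrι γ, hm⟩ = 1) :
    ∀ χ₁ χ₂ : X N (ZMod p), IsParabolicHom (Gamma0 N) χ₁ → IsParabolicHom (Gamma0 N) χ₂ →
      res1 N q χ₁ + res2 N q χ₂ = 0 →
      (∀ γ : Gamma0 N, dmod γ = 1 → χ₁ (Additive.ofMul γ) = 0) ∧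
        (∀ γ : Gamma0 N, dmod γ = 1 → χ₂ (Additive.ofMul γ) = 0) := by
  have key : ∀ χ₁ χ₂ : X N (ZMod p), IsParabolicHom (Gamma0 N) χ₁ →
      res1 N q χ₁ + res2 N q χ₂ = 0 → ∀ γ : Gamma0 N, dmod γ = 1 → χ₁ (Additive.ofMul γ) = 0 := by
    intro χ₁ χ₂ h₁ h γ hγ
    obtain ⟨φ, hφu, hφ1⟩ := lr_glue hNq χ₁ χ₂ h₁ h
    have hm : lrι (γ : SL(2, ℤ)) ∈ lrG N q := lrι_mem_G N q γ.2
    have h2 := hB φ hφu γ hγ hm
    rw [hφ1 γ hm] at h2
    exact h2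
  intro χ₁ χ₂ h₁ h₂ h
  refine ⟨key χ₁ χ₂ h₁ h, key χ₂ χ₁ h₂ ?_⟩
  have h3 := congrArg (atkin N q hNq) h
  rw [map_add, atkin_res1, atkin_res2, map_zero] at h3
  rw [add_comm]
  exact h3

end Hom

end LR
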