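import Fermat.Agent.Lib.LR_Level
import Fermat.Agent.Lib.LR_Eis

/-!
# S41 (level raising), stream S1 (Ihara), the finishing step

Let `χ` be a parabolic character of `Γ₀(N)` with values in `ZMod p`, `p` odd.  Assume `(SQ)`:
for all large primes `l ≡ 3 mod 4` with `gcd((l-1)/2, N p) = 1`, `χ` takes the same value on
`[a, b; l² c, d]` and `[a, l² b; c, d]`.  Then `χ` vanishes on every `γ ∈ Γ₀(N)` with
`d ≡ 1 mod N` (`LR.lr_ih_finish`).

The proof uses the bottom row symbol `s(c,d)`, Dirichlet's theorem and quadratic reciprocity.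
-/

set_option autoImplicit false

namespace LR

open CongruenceSubgroup ModularCurve.Period
open scoped MatrixGroups

section IhFinish

variable {N : ℕ} {A : Type*} [AddCommGroup A]

/-- upper unipotent element of `Γ₀(N)` -/
def ihU (N : ℕ) (x : ℤ) : Gamma0 N :=
  mk !![1, x; 0, 1] (by simp [Matrix.det_fin_two_of]) (by simp)

/-- lower unipotent element of `Γ₀(N)` -/
def ihL (N : ℕ) (y : ℤ) : Gamma0 N :=
  mk !![1, 0; (N : ℤ) * y, 1] (by simp [Matrix.det_fin_two_of]) (by simp)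

/-- the character kills the upper and the lower triangular elements -/
def IhTri (χ : X N A) : Prop :=
  (∀ γ : Gamma0 N, mat γ 1 0 = 0 → χ (Additive.ofMul γ) = 0) ∧
    (∀ γ : Gamma0 N, mat γ 0 1 = 0 → χ (Additive.ofMul γ) = 0)

theorem ihTri_of_par (χ : X N A) (hpar : IsParabolicHom (Gamma0 N) χ) : IhTri χ := by
  constructor
  · intro γ h
    apply hpar
    change (mat γ).trace ^ 2 = 4
    have hd := mat_det γ
    rw [Matrix.det_fin_two, h, mul_zero, sub_zero] at hd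
    rw [Matrix.trace_fin_two]
    rcases Int.eq_one_or_neg_one_of_mul_eq_one' hd with ⟨h1, h2⟩ | ⟨h1, h2⟩ <;> rw [h1, h2] <;> norm_num
  · intro γ h
    apply hpar
    change (mat γ).trace ^ 2 = 4
    have hd := mat_det γ
    rw [Matrix.det_fin_two, h, zero_mul, sub_zero] at hd
    rw [Matrix.trace_fin_two]
    rcases Int.eq_one_or_neg_one_of_mul_eq_one' hd with ⟨h1, h2⟩ | ⟨h1, h2⟩ <;> rw [h1, h2] <;> norm_num

theorem ih_par_U (χ : X N A) (hpar : IhTri χ) (x : ℤ) :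
    χ (Additive.ofMul (ihU N x)) = 0 :=
  hpar.1 _ rfl

theorem ih_par_L (χ : X N A) (hpar : IhTri χ) (y : ℤ) :
    χ (Additive.ofMul (ihL N y)) = 0 :=
  hpar.2 _ rfl

theorem ih_det (γ : Gamma0 N) : mat γ 0 0 * mat γ 1 1 - mat γ 0 1 * mat γ 1 0 = 1 := by
  have h := mat_det γ
  rw [Matrix.det_fin_two] at h
  exact h

theorem ih_mat_inv (γ : Gamma0 N) :
    mat γ⁻¹ = !![mat γ 1 1, -mat γ 0 1; -mat γ 1 0, mat γ 0 0] := by
  change ((((γ : SL(2, ℤ))⁻¹ : SL(2, ℤ)) : Matrix (Fin 2) (Fin 2) ℤ)) = _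
  rw [Matrix.SpecialLinearGroup.coe_inv, Matrix.adjugate_fin_two]
  rfl

/-- two elements with the same bottom row have the same value -/
theorem ih_row (χ : X N A) (hpar : IhTri χ) (γ γ' : Gamma0 N)
    (h0 : mat γ 1 0 = mat γ' 1 0) (h1 : mat γ 1 1 = mat γ' 1 1) :
    χ (Additive.ofMul γ) = χ (Additive.ofMul γ') := by
  have hk : χ (Additive.ofMul (γ * γ'⁻¹)) = 0 := by
    apply hpar.1
    rw [mat_mul, ih_mat_inv]
    simp only [Matrix.mul_apply, Fin.sum_univ_two, Matrix.of_apply, Matrix.cons_val_zero,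
      Matrix.cons_val_one, Matrix.cons_val', Matrix.cons_val_fin_one]
    rw [h0, h1]; ring
  have : χ (Additive.ofMul γ) = χ (Additive.ofMul (γ * γ'⁻¹)) + χ (Additive.ofMul γ') := by
    rw [← map_add, ← ofMul_mul, inv_mul_cancel_right]
  rw [this, hk, zero_add]

theorem ih_exists (c d : ℤ) (hcd : IsCoprime c d) (hN : (N : ℤ) ∣ c) :
    ∃ γ : Gamma0 N, mat γ 1 0 = c ∧ mat γ 1 1 = d := by
  obtain ⟨u, v, huv⟩ := hcd
  refine ⟨mk !![v, -u; c, d] ?_ hN, rfl, rfl⟩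
  rw [Matrix.det_fin_two_of]
  linarith

theorem ih_coprime (γ : Gamma0 N) : IsCoprime (mat γ 1 0) (mat γ 1 1) :=
  ⟨-mat γ 0 1, mat γ 0 0, by have := ih_det γ; linarith⟩

/-- the bottom row symbol -/
noncomputable def ihS (χ : X N A) (c d : ℤ) : A :=
  if h : IsCoprime c d ∧ (N : ℤ) ∣ c then
    χ (Additive.ofMul (Classical.choose (ih_exists (N := N) c d h.1 h.2))) else 0

theorem ihS_eq (χ : X N A) (hpar : IhTri χ) (γ : Gamma0 N) :
    χ (Additive.ofMul γ) = ihS χ (mat γ 1 0) (mat γ 1 1) := by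
  have h : IsCoprime (mat γ 1 0) (mat γ 1 1) ∧ (N : ℤ) ∣ mat γ 1 0 := ⟨ih_coprime γ, mat_dvd γ⟩
  unfold ihS
  rw [dif_pos h]
  have hs := Classical.choose_spec (ih_exists (N := N) (mat γ 1 0) (mat γ 1 1) h.1 h.2)
  exact ih_row χ hpar _ _ hs.1.symm hs.2.symm

/-- `s(c, d + x c) = s(c, d)` -/
theorem ihS_R1 (χ : X N A) (hpar : IhTri χ) (c d x : ℤ)
    (hcd : IsCoprime c d) (hN : (N : ℤ) ∣ c) : ihS χ c (d + x * c) = ihS χ c d := by
  obtain ⟨γ, h0, h1⟩ := ih_exists (N := N) c d hcd hN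
  have e1 : χ (Additive.ofMul (γ * ihU N x)) = χ (Additive.ofMul γ) := by
    rw [ofMul_mul, map_add, ih_par_U χ hpar, add_zero]
  rw [ihS_eq χ hpar, ihS_eq χ hpar γ, h0, h1] at e1
  rw [← e1]
  congr 1
  · rw [mat_mul]; simp [ihU, Matrix.mul_apply, Fin.sum_univ_two, h0]
  · rw [mat_mul]; simp [ihU, Matrix.mul_apply, Fin.sum_univ_two, h0, h1]; ring

/-- `s(c + N y d, d) = s(c, d)` -/
theorem ihS_R2 (χ : X N A) (hpar : IhTri χ) (c d y : ℤ)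
    (hcd : IsCoprime c d) (hN : (N : ℤ) ∣ c) : ihS χ (c + (N : ℤ) * y * d) d = ihS χ c d := by
  obtain ⟨γ, h0, h1⟩ := ih_exists (N := N) c d hcd hN
  have e1 : χ (Additive.ofMul (γ * ihL N y)) = χ (Additive.ofMul γ) := by
    rw [ofMul_mul, map_add, ih_par_L χ hpar, add_zero]
  rw [ihS_eq χ hpar, ihS_eq χ hpar γ, h0, h1] at e1
  rw [← e1]
  congr 1
  · rw [mat_mul]; simp [ihL, Matrix.mul_apply, Fin.sum_univ_two, h0, h1]; ring
  · rw [mat_mul]; simp [ihL, Matrix.mul_apply, Fin.sum_univ_two, h1]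


/-- the hypothesis `(SQ)` in terms of the symbol -/
theorem ihS_SQ (χ : X N A) (hpar : IhTri χ) (l : ℕ)
    (hSQ : ∀ γ γ' : Gamma0 N, mat γ' 0 0 = mat γ 0 0 → mat γ' 1 1 = mat γ 1 1 →
        mat γ 1 0 = (l : ℤ) ^ 2 * mat γ' 1 0 → mat γ' 0 1 = (l : ℤ) ^ 2 * mat γ 0 1 →
        χ (Additive.ofMul γ') = χ (Additive.ofMul γ))
    (c d : ℤ) (hcd : IsCoprime ((l : ℤ) ^ 2 * c) d) (hN : (N : ℤ) ∣ c) :
    ihS χ ((l : ℤ) ^ 2 * c) d = ihS χ c d := by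
  obtain ⟨γ, h0, h1⟩ := ih_exists (N := N) ((l : ℤ) ^ 2 * c) d hcd (Dvd.dvd.mul_left hN _)
  have hdet := ih_det γ
  have hdet' : (!![mat γ 0 0, (l : ℤ) ^ 2 * mat γ 0 1; c, d] : Matrix (Fin 2) (Fin 2) ℤ).det
      = 1 := by
    rw [Matrix.det_fin_two_of]; rw [h0, h1] at hdet; linarith
  have e := hSQ γ (mk !![mat γ 0 0, (l : ℤ) ^ 2 * mat γ 0 1; c, d] hdet' hN) rfl h1.symm h0 rfl
  rw [ihS_eq χ hpar, ihS_eq χ hpar γ, h0, h1] at e
  exact e.symm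

/-- Dirichlet's theorem, integer form -/
theorem ih_dirichlet (M : ℤ) (hM : M ≠ 0) (a : ℤ) (ha : IsCoprime a M) (n : ℕ) :
    ∃ l : ℕ, l.Prime ∧ n < l ∧ M ∣ (l : ℤ) - a := by
  have hq : M.natAbs ≠ 0 := Int.natAbs_ne_zero.mpr hM
  have hc : IsCoprime a (M.natAbs : ℤ) := by
    rw [Int.natCast_natAbs]
    rcases abs_choice M with h | h
    · rw [h]; exact ha
    · rw [h]; exact ha.neg_right
  obtain ⟨l, hgt, hp, hmod⟩ := Nat.forall_exists_prime_gt_and_zmodEq n hq hc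
  refine ⟨l, hp, hgt, ?_⟩
  have h1 := Int.modEq_iff_dvd.mp hmod.symm
  exact Int.natAbs_dvd.mp h1

/-- Chinese remainder theorem, integer form -/
theorem ih_crt (m₁ m₂ a₁ a₂ : ℤ) (hm : IsCoprime m₁ m₂) (h1 : IsCoprime a₁ m₁)
    (h2 : IsCoprime a₂ m₂) :
    ∃ a : ℤ, m₁ ∣ a - a₁ ∧ m₂ ∣ a - a₂ ∧ IsCoprime a (m₁ * m₂) := by
  obtain ⟨u, v, huv⟩ := hm
  have e1 : a₁ * (v * m₂) + a₂ * (u * m₁) = a₁ + m₁ * (u * (a₂ - a₁)) := by
    linear_combination a₁ * huv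
  have e2 : a₁ * (v * m₂) + a₂ * (u * m₁) = a₂ + m₂ * (v * (a₁ - a₂)) := by
    linear_combination a₂ * huv
  refine ⟨a₁ * (v * m₂) + a₂ * (u * m₁), ⟨u * (a₂ - a₁), by rw [e1]; ring⟩,
    ⟨v * (a₁ - a₂), by rw [e2]; ring⟩, IsCoprime.mul_right ?_ ?_⟩
  · rw [e1]; exact h1.add_mul_left_left _
  · rw [e2]; exact h2.add_mul_left_left _


/-- the hypothesis `(SQ)` -/
def IhSQ (p : ℕ) (χ : X N A) (B : ℕ) : Prop :=
  ∀ l : ℕ, l.Prime → l % 4 = 3 → B < l → Nat.Coprime ((l - 1) / 2) (N * p) →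
    ∀ γ γ' : Gamma0 N, mat γ' 0 0 = mat γ 0 0 → mat γ' 1 1 = mat γ 1 1 →
      mat γ 1 0 = (l : ℤ) ^ 2 * mat γ' 1 0 → mat γ' 0 1 = (l : ℤ) ^ 2 * mat γ 0 1 →
      χ (Additive.ofMul γ') = χ (Additive.ofMul γ)

/-- a good prime in a prescribed residue class modulo a prime `π ≡ 1 mod 4`, `π > N p` -/
theorem ih_good_prime (N p : ℕ) (hN : N ≠ 0) (hp : p ≠ 0) (B : ℕ) (π : ℕ) (hπ : π.Prime)
    (hπ4 : π % 4 = 1) (hπN : N * p < π) (z : ℤ) (hz : IsCoprime z (π : ℤ)) :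
    ∃ l' : ℕ, l'.Prime ∧ l' % 4 = 3 ∧ B < l' ∧ Nat.Coprime ((l' - 1) / 2) (N * p) ∧
      (π : ℤ) ∣ (l' : ℤ) - z := by
  have hNp : 0 < N * p := Nat.mul_pos (Nat.pos_of_ne_zero hN) (Nat.pos_of_ne_zero hp)
  have hcopn : Nat.Coprime (4 * (N * p)) π := by
    apply Nat.Coprime.symm
    rw [Nat.Prime.coprime_iff_not_dvd hπ]
    intro hdvd
    rcases (Nat.Prime.dvd_mul hπ).mp hdvd with h | h
    · have h4 := Nat.le_of_dvd (by norm_num) h
      have h2 := hπ.two_le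
      interval_cases π <;> omega
    · have := Nat.le_of_dvd hNp h
      omega
  have hcop : IsCoprime ((4 * (N * p) : ℕ) : ℤ) (π : ℤ) := Nat.isCoprime_iff_coprime.mpr hcopn
  obtain ⟨a₀, ha1, ha2, ha3⟩ := ih_crt ((4 * (N * p) : ℕ) : ℤ) π (-1) z hcop
    (isCoprime_one_left.neg_left) hz
  have hM : ((4 * (N * p) : ℕ) : ℤ) * π ≠ 0 := by
    have h1 : ((4 * (N * p) : ℕ) : ℤ) ≠ 0 := by exact_mod_cast (by omega : 4 * (N * p) ≠ 0)
    have h2 : (π : ℤ) ≠ 0 := by exact_mod_cast hπ.ne_zero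
    exact mul_ne_zero h1 h2
  obtain ⟨l', hl', hgt, hdvd⟩ := ih_dirichlet _ hM a₀ ha3 B
  have h1 : ((4 * (N * p) : ℕ) : ℤ) ∣ (l' : ℤ) + 1 := by
    have e1 : ((4 * (N * p) : ℕ) : ℤ) ∣ (l' : ℤ) - a₀ := Dvd.dvd.trans (Dvd.intro _ rfl) hdvd
    have e2 := dvd_add e1 ha1
    have e3 : (l' : ℤ) - a₀ + (a₀ - -1) = (l' : ℤ) + 1 := by ring
    rwa [e3] at e2
  have h2 : (π : ℤ) ∣ (l' : ℤ) - z := by
    have e1 : (π : ℤ) ∣ (l' : ℤ) - a₀ := Dvd.dvd.trans (Dvd.intro_left _ rfl) hdvd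
    have e2 := dvd_add e1 ha2
    have e3 : (l' : ℤ) - a₀ + (a₀ - z) = (l' : ℤ) - z := by ring
    rwa [e3] at e2
  obtain ⟨k, hk⟩ := h1
  push_cast at hk
  have h4 : (4 : ℤ) ∣ (l' : ℤ) + 1 := ⟨(N : ℤ) * p * k, by rw [hk]; ring⟩
  have hl4 : l' % 4 = 3 := by omega
  refine ⟨l', hl', hl4, hgt, ?_, h2⟩
  obtain ⟨t, htdef⟩ : ∃ t : ℕ, t = (l' - 1) / 2 := ⟨_, rfl⟩
  rw [← htdef]
  have ht : 2 * t + 1 = l' := by omega
  have htz : (2 : ℤ) * (t : ℤ) + 1 = (l' : ℤ) := by exact_mod_cast ht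
  have h5 : ((t : ℤ) + 1) = ((N : ℤ) * p) * (2 * k) := by
    have : (2 : ℤ) * ((t : ℤ) + 1) = 2 * (((N : ℤ) * p) * (2 * k)) := by
      linear_combination hk + htz
    exact mul_left_cancel₀ (by norm_num) this
  have h6 : N * p ∣ t + 1 := by
    have : ((N * p : ℕ) : ℤ) ∣ ((t + 1 : ℕ) : ℤ) := ⟨2 * k, by push_cast; exact h5⟩
    exact Int.natCast_dvd_natCast.mp this
  exact Nat.Coprime.coprime_dvd_right h6 (by simp)

theorem ih_FA_core (p : ℕ) (hp : p.Prime) [NeZero N] (χ : X N A)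
    (hpar : IhTri χ) (B : ℕ) (hSQ : IhSQ p χ B)
    (l : ℕ) (hl : l.Prime) (hl2 : l ≠ 2) (c₁ d e x : ℤ) (hc₁ : c₁ ≠ 0) (hN : (N : ℤ) ∣ c₁)
    (hcd : IsCoprime ((l : ℤ) * c₁) d) (hsq : (l : ℤ) ∣ d - e ^ 2)
    (hx : (d + x * ((l : ℤ) * c₁)) % 4 = 1) : ihS χ ((l : ℤ) * c₁) d = ihS χ c₁ d := by
  obtain ⟨C, hC⟩ : ∃ C : ℤ, C = (l : ℤ) * c₁ := ⟨_, rfl⟩
  obtain ⟨ds, hds⟩ : ∃ ds : ℤ, ds = d + x * C := ⟨_, rfl⟩
  rw [← hC] at hcd hx ⊢
  rw [← hds] at hx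
  have hl0 : (l : ℤ) ≠ 0 := by exact_mod_cast hl.ne_zero
  have hC0 : C ≠ 0 := by rw [hC]; exact mul_ne_zero hl0 hc₁
  have hNC : (N : ℤ) ∣ C := by rw [hC]; exact Dvd.dvd.mul_left hN _
  have hcds : IsCoprime C ds := by rw [hds]; exact hcd.add_mul_right_right x
  have hds4 : IsCoprime ds 4 := by
    refine ⟨1, -(ds / 4), ?_⟩
    have := Int.emod_add_mul_ediv ds 4
    omega
  have hcop : IsCoprime ds (4 * C) := hds4.mul_right hcds.symm
  have h4C : 4 * C ≠ 0 := mul_ne_zero (by norm_num) hC0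
  obtain ⟨π, hπ, hπgt, hπdvd⟩ := ih_dirichlet (4 * C) h4C ds hcop (max (N * p) l)
  obtain ⟨k, hk⟩ := hπdvd
  have h4 : (4 : ℤ) ∣ (π : ℤ) - ds := ⟨C * k, by rw [hk]; ring⟩
  have hπ4 : π % 4 = 1 := by omega
  have hπN : N * p < π := lt_of_le_of_lt (le_max_left _ _) hπgt
  have hπl : l < π := lt_of_le_of_lt (le_max_right _ _) hπgt
  have : Fact π.Prime := Fact.mk hπ
  have : Fact l.Prime := Fact.mk hl
  have hle : (l : ℤ) ∣ (π : ℤ) - e ^ 2 := by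
    have : (π : ℤ) - e ^ 2 = (d - e ^ 2) + (l : ℤ) * (c₁ * x + 4 * c₁ * k) := by
      rw [hds, hC] at hk
      linear_combination hk
    rw [this]; exact dvd_add hsq (Dvd.intro _ rfl)
  have hsqπ : IsSquare ((π : ℕ) : ZMod l) := by
    refine ⟨(e : ZMod l), ?_⟩
    have := (ZMod.intCast_zmod_eq_zero_iff_dvd ((π : ℤ) - e ^ 2) l).mpr hle
    push_cast at this
    linear_combination this
  have hsql : IsSquare ((l : ℕ) : ZMod π) :=
    (ZMod.exists_sq_eq_prime_iff_of_mod_four_eq_one hπ4 hl2).mpr hsqπ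
  obtain ⟨z, hz⟩ := hsql
  have hz0 : z ≠ 0 := by
    rintro rfl
    rw [mul_zero] at hz
    have h1 := (ZMod.natCast_eq_zero_iff l π).mp hz
    have h2 := Nat.le_of_dvd hl.pos h1
    omega
  have hzu : IsCoprime ((z.val : ℤ)) (π : ℤ) := by
    have hu : IsUnit (((z.val : ℤ)) : ZMod π) := by
      rw [Int.cast_natCast, ZMod.natCast_zmod_val]; exact hz0.isUnit
    exact ((ZMod.coe_int_isUnit_iff_isCoprime _ _).mp hu).symm
  obtain ⟨l', hl', hl'4, hl'B, hl'c, hl'z⟩ :=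
    ih_good_prime N p (NeZero.ne N) hp.ne_zero B π hπ hπ4 hπN (z.val : ℤ) hzu
  have hzz : (π : ℤ) ∣ (z.val : ℤ) ^ 2 - l := by
    rw [← ZMod.intCast_zmod_eq_zero_iff_dvd]
    push_cast
    rw [ZMod.natCast_zmod_val, hz]; ring
  have hdiv : (π : ℤ) ∣ (l' : ℤ) ^ 2 - l := by
    have : (l' : ℤ) ^ 2 - l = ((l' : ℤ) - z.val) * ((l' : ℤ) + z.val) + ((z.val : ℤ) ^ 2 - l) := by
      ring
    rw [this]; exact dvd_add (Dvd.dvd.mul_right hl'z _) hzz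
  obtain ⟨w, hw⟩ := hdiv
  obtain ⟨n₁, hn₁⟩ := hN
  have hCπ : IsCoprime C (π : ℤ) := by
    have : (π : ℤ) = ds + (4 * k) * C := by linear_combination hk
    rw [this]; exact hcds.add_mul_right_right _
  have hc₁π : IsCoprime c₁ (π : ℤ) := by rw [hC] at hCπ; exact IsCoprime.of_mul_left_right hCπ
  have hl'π : IsCoprime (l' : ℤ) (π : ℤ) := by
    obtain ⟨m, hm⟩ := hl'z
    have : (l' : ℤ) = z.val + π * m := by linear_combination hm
    rw [this]; exact hzu.add_mul_left_left _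
  have s1 : ihS χ C ds = ihS χ C d := by rw [hds]; exact ihS_R1 χ hpar C d x hcd hNC
  have s2 : ihS χ C π = ihS χ C ds := by
    have := ihS_R1 χ hpar C ds (4 * k) hcds hNC
    rwa [show ds + 4 * k * C = π by linear_combination -hk] at this
  have s3 : ihS χ ((l' : ℤ) ^ 2 * c₁) π = ihS χ C π := by
    have := ihS_R2 χ hpar C π (w * n₁) hCπ hNC
    rwa [show C + (N : ℤ) * (w * n₁) * π = (l' : ℤ) ^ 2 * c₁ by
      rw [hC, hn₁]; linear_combination (-(N : ℤ) * n₁) * hw] at this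
  have s4 : ihS χ ((l' : ℤ) ^ 2 * c₁) π = ihS χ c₁ π :=
    ihS_SQ χ hpar l' (hSQ l' hl' hl'4 hl'B hl'c) c₁ π
      (IsCoprime.mul_left (hl'π.pow_left) hc₁π) ⟨n₁, hn₁⟩
  have hc₁d : IsCoprime c₁ d := by rw [hC] at hcd; exact IsCoprime.of_mul_left_right hcd
  have s5 : ihS χ c₁ π = ihS χ c₁ d := by
    have := ihS_R1 χ hpar c₁ d (x * l + 4 * k * l) hc₁d ⟨n₁, hn₁⟩
    rwa [show d + (x * l + 4 * k * l) * c₁ = π by
      rw [hds, hC] at hk; linear_combination (-1 : ℤ) * hk] at this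
  rw [← s1, ← s2, ← s3, s4, s5]


/-- `s(c, 1) = 0` -/
theorem ihS_one (χ : X N A) (hpar : IhTri χ) (c : ℤ) (hN : (N : ℤ) ∣ c) : ihS χ c 1 = 0 := by
  obtain ⟨n, rfl⟩ := hN
  have := ihS_eq χ hpar (ihL N n)
  rw [ih_par_L χ hpar] at this
  exact this.symm

/-- **Endgame**: if for all large primes `r` the symbol `D ↦ s(N r, D)` (`D ≡ 1 mod N`) is
additive for products, then the character vanishes on `d ≡ 1 mod N`. -/
theorem lr_ih_endgame (N p : ℕ) [NeZero N] (hp : p.Prime) (hp2 : p ≠ 2)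
    (χ : X N (ZMod p)) (hpar : IhTri χ) (B : ℕ)
    (hhom : ∀ r : ℕ, r.Prime → B < r → ∀ γ₁ γ₂ γ₃ : Gamma0 N,
      mat γ₁ 1 0 = (N : ℤ) * r → mat γ₂ 1 0 = (N : ℤ) * r → mat γ₃ 1 0 = (N : ℤ) * r →
      (N : ℤ) ∣ mat γ₁ 1 1 - 1 → (N : ℤ) ∣ mat γ₂ 1 1 - 1 →
      mat γ₃ 1 1 = mat γ₁ 1 1 * mat γ₂ 1 1 →
      χ (Additive.ofMul γ₃) = χ (Additive.ofMul γ₁) + χ (Additive.ofMul γ₂)) :
    ∀ γ : Gamma0 N, dmod γ = 1 → χ (Additive.ofMul γ) = 0 := by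
  intro γ hγ
  have : Fact p.Prime := ⟨hp⟩
  obtain ⟨c, hc⟩ : ∃ c : ℤ, c = mat γ 1 0 := ⟨_, rfl⟩
  obtain ⟨d, hd⟩ : ∃ d : ℤ, d = mat γ 1 1 := ⟨_, rfl⟩
  have hcd : IsCoprime c d := by rw [hc, hd]; exact ih_coprime γ
  have hNc : (N : ℤ) ∣ c := by rw [hc]; exact mat_dvd γ
  have hNd : (N : ℤ) ∣ d - 1 := by
    have h1 : ((d : ℤ) : ZMod N) = ((1 : ℤ) : ZMod N) := by
      rw [hd]; simpa [dmod] using hγ
    have h2 := (ZMod.intCast_eq_intCast_iff_dvd_sub d 1 N).mp h1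
    have h3 : d - 1 = -(1 - d) := by ring
    rw [h3]; exact (dvd_neg).mpr h2
  have e0 : χ (Additive.ofMul γ) = ihS χ c d := by rw [hc, hd]; exact ihS_eq χ hpar γ
  by_cases hc0 : c = 0
  · exact hpar.1 γ (by rw [← hc, hc0])
  -- choose `d' = d + x c`, not divisible by `p`
  have hp0 : (p : ℤ) ≠ 0 := by exact_mod_cast hp.ne_zero
  have hpZ : Prime (p : ℤ) := Nat.prime_iff_prime_int.mp hp
  obtain ⟨x, hx⟩ : ∃ x : ℤ, ¬ (p : ℤ) ∣ d + x * c := by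
    by_cases h : (p : ℤ) ∣ d
    · refine ⟨1, fun h' => ?_⟩
      have hpc : (p : ℤ) ∣ c := by
        have := dvd_sub h' h
        simpa using this
      exact hpZ.not_isUnit (hcd.isUnit_of_dvd' hpc h)
    · exact ⟨0, by simpa using h⟩
  obtain ⟨d', hd'⟩ : ∃ d' : ℤ, d' = d + x * c := ⟨_, rfl⟩
  rw [← hd'] at hx
  have hd'0 : d' ≠ 0 := by rintro rfl; exact hx (dvd_zero _)
  have hcd' : IsCoprime c d' := by rw [hd']; exact hcd.add_mul_right_right x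
  have hNd' : (N : ℤ) ∣ d' - 1 := by
    obtain ⟨n, hn⟩ := hNc
    have : d' - 1 = (d - 1) + (N : ℤ) * (x * n) := by rw [hd', hn]; ring
    rw [this]; exact dvd_add hNd (Dvd.intro _ rfl)
  have e1 : ihS χ c d' = ihS χ c d := by rw [hd']; exact ihS_R1 χ hpar c d x hcd hNc
  obtain ⟨c₁, hc₁⟩ := hNc
  have hc₁d' : IsCoprime c₁ d' := by rw [hc₁] at hcd'; exact IsCoprime.of_mul_left_right hcd'
  -- Dirichlet: `r ≡ c₁ mod d'`, `r ≡ 2 mod p`
  have hd'p : IsCoprime d' (p : ℤ) := by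
    rw [isCoprime_comm]
    exact (Prime.coprime_iff_not_dvd hpZ).mpr hx
  have h2p : IsCoprime (2 : ℤ) (p : ℤ) := by
    have : Nat.Coprime 2 p := by
      rw [Nat.coprime_comm, Nat.Prime.coprime_iff_not_dvd hp]
      intro h
      exact hp2 ((Nat.prime_dvd_prime_iff_eq hp Nat.prime_two).mp h)
    exact_mod_cast Nat.isCoprime_iff_coprime.mpr this
  obtain ⟨a₀, ha1, ha2, ha3⟩ := ih_crt d' p c₁ 2 hd'p hc₁d' h2p
  obtain ⟨r, hr, hrgt, hrdvd⟩ := ih_dirichlet (d' * p) (mul_ne_zero hd'0 hp0) a₀ ha3 (max B N)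
  have hrB : B < r := lt_of_le_of_lt (le_max_left _ _) hrgt
  have hrN : N < r := lt_of_le_of_lt (le_max_right _ _) hrgt
  have hr1 : d' ∣ (r : ℤ) - c₁ := by
    have h1 : d' ∣ (r : ℤ) - a₀ := Dvd.dvd.trans (Dvd.intro _ rfl) hrdvd
    have h2 := dvd_add h1 ha1
    have h3 : (r : ℤ) - a₀ + (a₀ - c₁) = (r : ℤ) - c₁ := by ring
    rwa [h3] at h2
  have hr2 : (p : ℤ) ∣ (r : ℤ) - 2 := by
    have h1 : (p : ℤ) ∣ (r : ℤ) - a₀ := Dvd.dvd.trans (Dvd.intro_left _ rfl) hrdvd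
    have h2 := dvd_add h1 ha2
    have h3 : (r : ℤ) - a₀ + (a₀ - 2) = (r : ℤ) - 2 := by ring
    rwa [h3] at h2
  obtain ⟨y, hy⟩ := hr1
  have hNr : c + (N : ℤ) * y * d' = (N : ℤ) * r := by rw [hc₁]; linear_combination (-(N : ℤ)) * hy
  have e2 : ihS χ ((N : ℤ) * r) d' = ihS χ c d' := by
    have := ihS_R2 χ hpar c d' y hcd' ⟨c₁, hc₁⟩
    rwa [hNr] at this
  have hcop : IsCoprime ((N : ℤ) * r) d' := by
    rw [← hNr]
    have := hcd'.add_mul_right_left ((N : ℤ) * y)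
    exact this
  have hNNr : ((N : ℕ) : ℤ) ∣ (N : ℤ) * r := Dvd.intro _ rfl
  -- powers
  have hpowc : ∀ k : ℕ, IsCoprime ((N : ℤ) * r) (d' ^ k) := fun k => hcop.pow_right
  have hpowN : ∀ k : ℕ, (N : ℤ) ∣ d' ^ k - 1 := by
    intro k
    have := sub_dvd_pow_sub_pow d' 1 k
    rw [one_pow] at this
    exact Dvd.dvd.trans hNd' this
  have hpow : ∀ k : ℕ, ihS χ ((N : ℤ) * r) (d' ^ (k + 1)) = (k + 1) • ihS χ ((N : ℤ) * r) d' := by
    intro k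
    induction k with
    | zero => simp
    | succ k ih =>
      obtain ⟨γ₁, h10, h11⟩ := ih_exists (N := N) ((N : ℤ) * r) (d' ^ (k + 1)) (hpowc _) hNNr
      obtain ⟨γ₂, h20, h21⟩ := ih_exists (N := N) ((N : ℤ) * r) d' hcop hNNr
      obtain ⟨γ₃, h30, h31⟩ := ih_exists (N := N) ((N : ℤ) * r) (d' ^ (k + 1 + 1)) (hpowc _) hNNr
      have := hhom r hr hrB γ₁ γ₂ γ₃ h10 h20 h30 (by rw [h11]; exact hpowN _)
        (by rw [h21]; exact hNd') (by rw [h31, h11, h21, pow_succ])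
      rw [ihS_eq χ hpar γ₃, ihS_eq χ hpar γ₁, ihS_eq χ hpar γ₂, h10, h20, h30, h11, h21, h31,
        ih] at this
      rw [this, ← succ_nsmul]
  -- Fermat
  have hr2le : 2 ≤ r := hr.two_le
  have hd'r : IsCoprime d' (r : ℤ) := (IsCoprime.of_mul_left_right hcop).symm
  have hfer : (r : ℤ) ∣ d' ^ (r - 1) - 1 := by
    have := Int.ModEq.pow_card_sub_one_eq_one hr hd'r
    exact (Int.modEq_iff_dvd.mp this.symm)
  have hNrcop : IsCoprime (N : ℤ) (r : ℤ) := by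
    have : Nat.Coprime N r := by
      rw [Nat.coprime_comm, Nat.Prime.coprime_iff_not_dvd hr]
      intro h
      have := Nat.le_of_dvd (Nat.pos_of_ne_zero (NeZero.ne N)) h
      omega
    exact Nat.isCoprime_iff_coprime.mpr this
  obtain ⟨m, hm⟩ := hNrcop.mul_dvd (hpowN (r - 1)) hfer
  have e3 : ihS χ ((N : ℤ) * r) (d' ^ (r - 1)) = 0 := by
    have := ihS_R1 χ hpar ((N : ℤ) * r) 1 m isCoprime_one_right hNNr
    rw [ihS_one χ hpar _ hNNr] at this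
    rw [← this]
    congr 1
    linear_combination hm
  have e4 := hpow (r - 2)
  rw [show r - 2 + 1 = r - 1 by omega, e3] at e4
  have e5 : ((r - 1 : ℕ) : ZMod p) = 1 := by
    have h1 : ((r : ℕ) : ZMod p) = 2 := by
      have := (ZMod.intCast_zmod_eq_zero_iff_dvd ((r : ℤ) - 2) p).mpr hr2
      push_cast at this
      linear_combination this
    rw [Nat.cast_sub (by omega : 1 ≤ r), h1]; norm_num
  have e6 : ihS χ ((N : ℤ) * r) d' = 0 := by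
    have h := e4
    rw [nsmul_eq_mul, e5, one_mul] at h
    exact h.symm
  rw [e0, ← e1, ← e2, e6]


/-- **Endgame, vanishing form**: if for all large primes `r` with `gcd(p, r-1) = 1` the character
vanishes on the rows `(N r, D)`, `D ≡ 1 mod N`, then it vanishes on `d ≡ 1 mod N`. -/
theorem lr_ih_endgame_zero (N p : ℕ) [NeZero N] (hp : p.Prime) (hp2 : p ≠ 2)
    (χ : X N (ZMod p)) (hpar : IhTri χ) (B : ℕ)
    (hzero : ∀ r : ℕ, r.Prime → B < r → Nat.Coprime p (r - 1) → ∀ γ : Gamma0 N,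
      mat γ 1 0 = (N : ℤ) * r → (N : ℤ) ∣ mat γ 1 1 - 1 → χ (Additive.ofMul γ) = 0) :
    ∀ γ : Gamma0 N, dmod γ = 1 → χ (Additive.ofMul γ) = 0 := by
  intro γ hγ
  have : Fact p.Prime := ⟨hp⟩
  obtain ⟨c, hc⟩ : ∃ c : ℤ, c = mat γ 1 0 := ⟨_, rfl⟩
  obtain ⟨d, hd⟩ : ∃ d : ℤ, d = mat γ 1 1 := ⟨_, rfl⟩
  have hcd : IsCoprime c d := by rw [hc, hd]; exact ih_coprime γ
  have hNc : (N : ℤ) ∣ c := by rw [hc]; exact mat_dvd γ
  have hNd : (N : ℤ) ∣ d - 1 := by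
    have h1 : ((d : ℤ) : ZMod N) = ((1 : ℤ) : ZMod N) := by
      rw [hd]; simpa [dmod] using hγ
    have h2 := (ZMod.intCast_eq_intCast_iff_dvd_sub d 1 N).mp h1
    have h3 : d - 1 = -(1 - d) := by ring
    rw [h3]; exact (dvd_neg).mpr h2
  have e0 : χ (Additive.ofMul γ) = ihS χ c d := by rw [hc, hd]; exact ihS_eq χ hpar γ
  by_cases hc0 : c = 0
  · exact hpar.1 γ (by rw [← hc, hc0])
  -- choose `d' = d + x c`, not divisible by `p`
  have hp0 : (p : ℤ) ≠ 0 := by exact_mod_cast hp.ne_zero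
  have hpZ : Prime (p : ℤ) := Nat.prime_iff_prime_int.mp hp
  obtain ⟨x, hx⟩ : ∃ x : ℤ, ¬ (p : ℤ) ∣ d + x * c := by
    by_cases h : (p : ℤ) ∣ d
    · refine ⟨1, fun h' => ?_⟩
      have hpc : (p : ℤ) ∣ c := by
        have := dvd_sub h' h
        simpa using this
      exact hpZ.not_isUnit (hcd.isUnit_of_dvd' hpc h)
    · exact ⟨0, by simpa using h⟩
  obtain ⟨d', hd'⟩ : ∃ d' : ℤ, d' = d + x * c := ⟨_, rfl⟩
  rw [← hd'] at hx
  have hd'0 : d' ≠ 0 := by rintro rfl; exact hx (dvd_zero _)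
  have hcd' : IsCoprime c d' := by rw [hd']; exact hcd.add_mul_right_right x
  have hNd' : (N : ℤ) ∣ d' - 1 := by
    obtain ⟨n, hn⟩ := hNc
    have : d' - 1 = (d - 1) + (N : ℤ) * (x * n) := by rw [hd', hn]; ring
    rw [this]; exact dvd_add hNd (Dvd.intro _ rfl)
  have e1 : ihS χ c d' = ihS χ c d := by rw [hd']; exact ihS_R1 χ hpar c d x hcd hNc
  obtain ⟨c₁, hc₁⟩ := hNc
  have hc₁d' : IsCoprime c₁ d' := by rw [hc₁] at hcd'; exact IsCoprime.of_mul_left_right hcd'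
  -- Dirichlet: `r ≡ c₁ mod d'`, `r ≡ 2 mod p`
  have hd'p : IsCoprime d' (p : ℤ) := by
    rw [isCoprime_comm]
    exact (Prime.coprime_iff_not_dvd hpZ).mpr hx
  have h2p : IsCoprime (2 : ℤ) (p : ℤ) := by
    have : Nat.Coprime 2 p := by
      rw [Nat.coprime_comm, Nat.Prime.coprime_iff_not_dvd hp]
      intro h
      exact hp2 ((Nat.prime_dvd_prime_iff_eq hp Nat.prime_two).mp h)
    exact_mod_cast Nat.isCoprime_iff_coprime.mpr this
  obtain ⟨a₀, ha1, ha2, ha3⟩ := ih_crt d' p c₁ 2 hd'p hc₁d' h2p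
  obtain ⟨r, hr, hrgt, hrdvd⟩ := ih_dirichlet (d' * p) (mul_ne_zero hd'0 hp0) a₀ ha3 (max B N)
  have hrB : B < r := lt_of_le_of_lt (le_max_left _ _) hrgt
  have hrN : N < r := lt_of_le_of_lt (le_max_right _ _) hrgt
  have hr1 : d' ∣ (r : ℤ) - c₁ := by
    have h1 : d' ∣ (r : ℤ) - a₀ := Dvd.dvd.trans (Dvd.intro _ rfl) hrdvd
    have h2 := dvd_add h1 ha1
    have h3 : (r : ℤ) - a₀ + (a₀ - c₁) = (r : ℤ) - c₁ := by ring
    rwa [h3] at h2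
  have hr2 : (p : ℤ) ∣ (r : ℤ) - 2 := by
    have h1 : (p : ℤ) ∣ (r : ℤ) - a₀ := Dvd.dvd.trans (Dvd.intro_left _ rfl) hrdvd
    have h2 := dvd_add h1 ha2
    have h3 : (r : ℤ) - a₀ + (a₀ - 2) = (r : ℤ) - 2 := by ring
    rwa [h3] at h2
  obtain ⟨y, hy⟩ := hr1
  have hNr : c + (N : ℤ) * y * d' = (N : ℤ) * r := by rw [hc₁]; linear_combination (-(N : ℤ)) * hy
  have e2 : ihS χ ((N : ℤ) * r) d' = ihS χ c d' := by
    have := ihS_R2 χ hpar c d' y hcd' ⟨c₁, hc₁⟩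
    rwa [hNr] at this
  have hcop : IsCoprime ((N : ℤ) * r) d' := by
    rw [← hNr]
    have := hcd'.add_mul_right_left ((N : ℤ) * y)
    exact this
  have hNNr : ((N : ℕ) : ℤ) ∣ (N : ℤ) * r := Dvd.intro _ rfl
  have hpr : Nat.Coprime p (r - 1) := by
    rw [Nat.Prime.coprime_iff_not_dvd hp]
    intro h
    have h1 : (p : ℤ) ∣ ((r - 1 : ℕ) : ℤ) := Int.natCast_dvd_natCast.mpr h
    have h2 : ((r - 1 : ℕ) : ℤ) = (r : ℤ) - 1 := by have := hr.two_le; omega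
    rw [h2] at h1
    have h3 := dvd_sub h1 hr2
    have h4 : (r : ℤ) - 1 - ((r : ℤ) - 2) = 1 := by ring
    rw [h4] at h3
    exact hpZ.not_isUnit (isUnit_of_dvd_one h3)
  obtain ⟨γ', h0, h1⟩ := ih_exists (N := N) ((N : ℤ) * r) d' hcop hNNr
  have e6 := hzero r hr hrB hpr γ' h0 (by rw [h1]; exact hNd')
  rw [ihS_eq χ hpar γ', h0, h1] at e6
  rw [e0, ← e1, ← e2, e6]

end IhFinish

end LR
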