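import Mathlib

/-!
# Number theory for the level-`N r` symbol identity (leaf L3)

Pure arithmetic input for the relation (c) of the symbol argument:
Dirichlet prime `k1 ≡ -1 mod 4 N (r-1)`, `N k1 ≡ y (1-x) mod r`, a CRT choice of `δ`,
and Fermat's little theorem twice.
-/

namespace LR

/-- an integer which is nonzero mod a prime `r` is coprime to `r`. -/
theorem lr_saz_cop_of_ne {r : ℕ} (hr : r.Prime) (a : ℤ) (h : ((a : ℤ) : ZMod r) ≠ 0) :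
    IsCoprime a (r : ℤ) := by
  have hnd : ¬ (r : ℤ) ∣ a := fun hd => h ((ZMod.intCast_zmod_eq_zero_iff_dvd a r).2 hd)
  exact ((Nat.prime_iff_prime_int.1 hr).irreducible.coprime_iff_not_dvd.2 hnd).symm

/-- an integer which is `1` mod `n` is coprime to `n`. -/
theorem lr_saz_cop_of_one {n a : ℤ} (h : n ∣ a - 1) : IsCoprime a n := by
  obtain ⟨s, hs⟩ := h
  exact ⟨1, -s, by linear_combination hs⟩

/-- Dirichlet: a prime `k1 ≡ -1 mod 4 N (r-1)` in a prescribed unit class mod `r`. -/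
theorem lr_saz_prime {N r : ℕ} (hN : N ≠ 0) (hr : r.Prime) (hr2 : r ≠ 2) (hrN : ¬ r ∣ N)
    (u : (ZMod r)ˣ) (B : ℕ) :
    ∃ k1 : ℕ, k1.Prime ∧ B < k1 ∧ 4 * N * (r - 1) ∣ k1 + 1 ∧ ((k1 : ℕ) : ZMod r) = (u : ZMod r) := by
  have : Fact r.Prime := ⟨hr⟩
  have hr3 : 3 ≤ r := by
    have := hr.two_le
    omega
  set Q1 : ℕ := 4 * N * (r - 1) with hQ1
  have hQ1pos : 0 < Q1 := by
    have h1 : 0 < N := Nat.pos_of_ne_zero hN
    have h2 : 0 < r - 1 := by omega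
    positivity
  have hco : Q1.Coprime r := by
    apply Nat.Coprime.symm
    rw [Nat.Prime.coprime_iff_not_dvd hr]
    intro hd
    rw [hQ1, hr.dvd_mul, hr.dvd_mul] at hd
    rcases hd with (hd | hd) | hd
    · have h4 : r ∣ 2 ^ 2 := by simpa using hd
      have := (Nat.prime_dvd_prime_iff_eq hr Nat.prime_two).1 (hr.dvd_of_dvd_pow h4)
      exact hr2 this
    · exact hrN hd
    · have := Nat.le_of_dvd (by omega) hd
      omega
  obtain ⟨k, hk1, hk2⟩ := Nat.chineseRemainder hco (Q1 - 1) (u : ZMod r).val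
  have hkQ1 : k.Coprime Q1 := by
    have h1 : Nat.gcd k Q1 = Nat.gcd (Q1 - 1) Q1 := hk1.gcd_eq
    have h2 : Nat.gcd (Q1 - 1) Q1 = 1 := by
      have h3 : Nat.gcd (Q1 - 1) (Q1 - 1 + 1) = 1 := by simp
      rwa [Nat.sub_add_cancel hQ1pos] at h3
    rw [Nat.Coprime, h1, h2]
  have hkr : k.Coprime r := by
    have h1 : Nat.gcd k r = Nat.gcd (u : ZMod r).val r := hk2.gcd_eq
    rw [Nat.Coprime, h1]
    exact ZMod.val_coe_unit_coprime u
  have hQr : Q1 * r ≠ 0 := Nat.mul_ne_zero hQ1pos.ne' hr.ne_zero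
  obtain ⟨k1, hk1B, hk1p, hk1m⟩ :=
    Nat.forall_exists_prime_gt_and_modEq B hQr (Nat.Coprime.mul_right hkQ1 hkr)
  refine ⟨k1, hk1p, hk1B, ?_, ?_⟩
  · have h1 : k1 ≡ Q1 - 1 [MOD Q1] := (Nat.ModEq.of_mul_right r hk1m).trans hk1
    have h2 : k1 + 1 ≡ Q1 - 1 + 1 [MOD Q1] := h1.add_right 1
    rw [Nat.sub_add_cancel hQ1pos] at h2
    exact (Nat.modEq_zero_iff_dvd).1 (h2.trans (by simp [Nat.ModEq]))
  · have h1 : k1 ≡ (u : ZMod r).val [MOD r] := (Nat.ModEq.of_mul_left Q1 hk1m).trans hk2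
    rw [(ZMod.natCast_eq_natCast_iff _ _ _).2 h1, ZMod.natCast_zmod_val]

/-- CRT: `δ ≡ 1 mod k1`, `δ ≡ x mod r`, `δ ≡ 1 + N mod N^2`. -/
theorem lr_saz_delta {N r k1 : ℕ} (hr : r.Prime) (hrN : ¬ r ∣ N) (hk1 : k1.Prime)
    (hk1r : k1 ≠ r) (hk1N : ¬ k1 ∣ N) (x : ZMod r) :
    ∃ δ : ℕ, δ ≡ 1 [MOD k1] ∧ ((δ : ℕ) : ZMod r) = x ∧ δ ≡ 1 + N [MOD N ^ 2] := by
  have : Fact r.Prime := ⟨hr⟩
  have hco1 : k1.Coprime r := (Nat.coprime_primes hk1 hr).2 hk1r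
  obtain ⟨d1, hd1a, hd1b⟩ := Nat.chineseRemainder hco1 1 x.val
  have hco2 : (k1 * r).Coprime (N ^ 2) :=
    Nat.Coprime.pow_right 2 (Nat.Coprime.mul_left ((Nat.Prime.coprime_iff_not_dvd hk1).2 hk1N)
      ((Nat.Prime.coprime_iff_not_dvd hr).2 hrN))
  obtain ⟨d, hda, hdb⟩ := Nat.chineseRemainder hco2 d1 (1 + N)
  refine ⟨d, (Nat.ModEq.of_mul_right r hda).trans hd1a, ?_, hdb⟩
  have h1 : d ≡ x.val [MOD r] := (Nat.ModEq.of_mul_left k1 hda).trans hd1b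
  rw [(ZMod.natCast_eq_natCast_iff _ _ _).2 h1, ZMod.natCast_zmod_val]

/-- **Leaf L3.** The arithmetic behind relation (c) at level `N r`. -/
theorem lr_sym_arithZ {N q r : ℕ} (hN : N ≠ 0) (hq : q.Prime) (hr : r.Prime) (hrN : ¬ r ∣ N)
    (hrq : r ≠ q) (k2 : ℕ) (hg2 : (N : ℤ) ^ 2 ∣ (q : ℤ) ^ (2 * k2) - 1) (x y : (ZMod r)ˣ)
    (hx : x ≠ 1) :
    ∃ (κ δ a a' : ℤ) (m : ℕ),
      κ * a + δ = 1 ∧ κ * a' + δ = (q : ℤ) ^ (2 * (k2 * m)) ∧
      IsCoprime ((N : ℤ) * r * κ) δ ∧ IsCoprime a ((N : ℤ) * r) ∧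
      (N : ℤ) ∣ a - 1 ∧ (N : ℤ) ∣ a' - 1 ∧ (N : ℤ) ∣ δ - 1 ∧
      ((δ : ℤ) : ZMod r) = (x : ZMod r) ∧ ((a : ℤ) : ZMod r) * (y : ZMod r) = 1 ∧
      (q : ZMod r) ^ (2 * (k2 * m)) * (q : ZMod r) ^ (2 * k2) = 1 ∧
      ((a' : ℤ) : ZMod r) * (y : ZMod r) * (1 - (x : ZMod r))
        = (q : ZMod r) ^ (2 * (k2 * m)) - (x : ZMod r) := by
  have : Fact r.Prime := ⟨hr⟩
  have hr2 : r ≠ 2 := by
    rintro rfl
    exact hx (by revert x; decide)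
  have hNr : (N : ZMod r) ≠ 0 := by
    rw [Ne, ZMod.natCast_eq_zero_iff]; exact hrN
  have h1x : (1 - (x : ZMod r)) ≠ 0 := by
    intro h
    apply hx
    ext
    exact (sub_eq_zero.1 h).symm
  have hu0 : (y : ZMod r) * (1 - (x : ZMod r)) * (N : ZMod r)⁻¹ ≠ 0 :=
    mul_ne_zero (mul_ne_zero y.ne_zero h1x) (inv_ne_zero hNr)
  obtain ⟨k1, hk1, hk1B, hk1Q, hk1u⟩ :=
    lr_saz_prime hN hr hr2 hrN (Units.mk0 _ hu0) (q + r + N)
  have : Fact k1.Prime := ⟨hk1⟩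
  have hNk : (N : ZMod r) * (k1 : ZMod r) = (y : ZMod r) * (1 - (x : ZMod r)) := by
    rw [hk1u, Units.val_mk0]
    field_simp
  -- the exponent
  obtain ⟨j, hj⟩ := hk1Q
  have hk1two := hk1.two_le
  have hm2 : 2 * ((k1 - 1) / 2) = k1 - 1 := by
    have : k1 + 1 = 4 * (N * (r - 1) * j) := by rw [hj]; ring
    omega
  have hm1 : (k1 - 1) / 2 + 1 = (r - 1) * (2 * N * j) := by
    have : k1 + 1 = 4 * (N * (r - 1) * j) := by rw [hj]; ring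
    have h2 : (r - 1) * (2 * N * j) = 2 * (N * (r - 1) * j) := by ring
    omega
  have hkT : ((k1 : ℤ) + 1) = (N : ℤ) * ((4 * (r - 1) * j : ℕ) : ℤ) := by
    have : k1 + 1 = N * (4 * (r - 1) * j) := by rw [hj]; ring
    exact_mod_cast this
  generalize (k1 - 1) / 2 = m at hm2 hm1
  generalize ((4 * (r - 1) * j : ℕ) : ℤ) = T at hkT
  -- the three facts on `w' = q ^ (2 * (k2 * m))`
  have hW1 : (k1 : ℤ) ∣ (q : ℤ) ^ (2 * (k2 * m)) - 1 := by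
    have hq0 : (q : ZMod k1) ≠ 0 := by
      rw [Ne, ZMod.natCast_eq_zero_iff]
      exact Nat.not_dvd_of_pos_of_lt hq.pos (by omega)
    have h1 : ((q : ZMod k1) ^ k2) ^ (k1 - 1) = 1 :=
      ZMod.pow_card_sub_one_eq_one (pow_ne_zero _ hq0)
    rw [← ZMod.intCast_zmod_eq_zero_iff_dvd]
    push_cast
    rw [show 2 * (k2 * m) = k2 * (2 * m) by ring, hm2, pow_mul, h1, sub_self]
  have hW2 : (q : ZMod r) ^ (2 * (k2 * m)) * (q : ZMod r) ^ (2 * k2) = 1 := by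
    have hq0 : (q : ZMod r) ≠ 0 := by
      rw [Ne, ZMod.natCast_eq_zero_iff]
      intro hd
      exact hrq ((Nat.prime_dvd_prime_iff_eq hr hq).1 hd)
    have h1 : (q : ZMod r) ^ (r - 1) = 1 := ZMod.pow_card_sub_one_eq_one hq0
    rw [← pow_add, show 2 * (k2 * m) + 2 * k2 = (2 * k2) * (m + 1) by ring, hm1,
      show 2 * k2 * ((r - 1) * (2 * N * j)) = (r - 1) * (2 * k2 * (2 * N * j)) by ring, pow_mul,
      h1, one_pow]
  have hW3 : (N : ℤ) ^ 2 ∣ (q : ℤ) ^ (2 * (k2 * m)) - 1 := by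
    rw [show 2 * (k2 * m) = (2 * k2) * m by ring, pow_mul]
    exact hg2.trans (sub_one_dvd_pow_sub_one _ m)
  generalize hw' : (q : ℤ) ^ (2 * (k2 * m)) = w' at hW1 hW3
  -- δ
  obtain ⟨δ, hδk, hδr, hδN⟩ := lr_saz_delta hr hrN hk1 (by omega)
    (Nat.not_dvd_of_pos_of_lt (Nat.pos_of_ne_zero hN) (by omega)) (x : ZMod r)
  have hδk' : (k1 : ℤ) ∣ (δ : ℤ) - 1 := by
    simpa using Nat.modEq_iff_dvd.1 hδk.symm
  have hδN' : (N : ℤ) ^ 2 ∣ (δ : ℤ) - (1 + N) := by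
    simpa using Nat.modEq_iff_dvd.1 hδN.symm
  have hN0 : (N : ℤ) ≠ 0 := by exact_mod_cast hN
  have hNδ : (N : ℤ) ∣ (δ : ℤ) - 1 := by
    have h1 : (N : ℤ) ∣ ((δ : ℤ) - (1 + N)) + N :=
      dvd_add ((dvd_pow_self _ two_ne_zero).trans hδN') (dvd_refl _)
    have h2 : ((δ : ℤ) - (1 + N)) + N = (δ : ℤ) - 1 := by ring
    rwa [h2] at h1
  have hNw : (N : ℤ) ∣ w' - 1 := (dvd_pow_self _ two_ne_zero).trans hW3
  have hcop : IsCoprime (N : ℤ) (k1 : ℤ) :=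
    Nat.isCoprime_iff_coprime.2 (Nat.Coprime.symm ((Nat.Prime.coprime_iff_not_dvd hk1).2
      (Nat.not_dvd_of_pos_of_lt (Nat.pos_of_ne_zero hN) (by omega))))
  obtain ⟨a, ha⟩ : (N : ℤ) * k1 ∣ 1 - δ := by
    apply hcop.mul_dvd
    · rw [← dvd_neg]; simpa using hNδ
    · rw [← dvd_neg]; simpa using hδk'
  obtain ⟨a', ha'⟩ : (N : ℤ) * k1 ∣ w' - δ := by
    apply hcop.mul_dvd
    · have := dvd_sub hNw hNδ
      simpa using this
    · have := dvd_sub hW1 hδk'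
      simpa using this
  obtain ⟨s, hs⟩ := hδN'
  obtain ⟨v, hv⟩ := hW3
  have hka : (k1 : ℤ) * a = -1 - N * s :=
    mul_left_cancel₀ hN0 (by linear_combination (-1 : ℤ) * ha - hs)
  have hka' : (k1 : ℤ) * a' = N * v - 1 - N * s :=
    mul_left_cancel₀ hN0 (by linear_combination (-1 : ℤ) * ha' - hs + hv)
  have hNa : (N : ℤ) ∣ a - 1 := ⟨T * a + s, by linear_combination (-1 : ℤ) * hka + a * hkT⟩
  have hNa' : (N : ℤ) ∣ a' - 1 :=
    ⟨T * a' - v + s, by linear_combination (-1 : ℤ) * hka' + a' * hkT⟩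
  have hδr' : (((δ : ℕ) : ℤ) : ZMod r) = (x : ZMod r) := by
    rw [Int.cast_natCast]; exact hδr
  have hay : ((a : ℤ) : ZMod r) * (y : ZMod r) = 1 := by
    have h1 := congrArg (Int.cast : ℤ → ZMod r) ha
    push_cast at h1
    rw [hδr] at h1
    apply mul_left_cancel₀ h1x
    linear_combination (-1 : ZMod r) * h1 - (a : ZMod r) * hNk
  have ha'y : ((a' : ℤ) : ZMod r) * (y : ZMod r) * (1 - (x : ZMod r))
      = (w' : ZMod r) - (x : ZMod r) := by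
    have h1 := congrArg (Int.cast : ℤ → ZMod r) ha'
    push_cast at h1
    rw [hδr] at h1
    linear_combination (-1 : ZMod r) * h1 - (a' : ZMod r) * hNk
  have hc1 : IsCoprime ((N : ℤ) * r * ((N : ℤ) * k1)) (δ : ℤ) := by
    have hN1 : IsCoprime (N : ℤ) (δ : ℤ) := (lr_saz_cop_of_one hNδ).symm
    have hk1' : IsCoprime (k1 : ℤ) (δ : ℤ) := (lr_saz_cop_of_one hδk').symm
    have hr1 : IsCoprime (r : ℤ) (δ : ℤ) := by
      apply (lr_saz_cop_of_ne hr _ _).symm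
      rw [hδr']
      exact x.ne_zero
    exact (hN1.mul_left hr1).mul_left (hN1.mul_left hk1')
  have hc2 : IsCoprime a ((N : ℤ) * r) := by
    refine (lr_saz_cop_of_one hNa).mul_right (lr_saz_cop_of_ne hr _ ?_)
    intro h0
    rw [h0, zero_mul] at hay
    exact zero_ne_one hay
  refine ⟨(N : ℤ) * k1, δ, a, a', m, by linear_combination (-1 : ℤ) * ha,
    by rw [hw']; linear_combination (-1 : ℤ) * ha', hc1, hc2, hNa, hNa', hNδ, hδr', hay, hW2, ?_⟩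
  rw [ha'y, ← hw']
  push_cast
  rfl

/-- Companion to `lr_sym_arithZ`: `a'` is coprime to `N r` as soon as `x ≠ wb = g⁻¹`. -/
theorem lr_sym_arithZ_cop {N r : ℕ} (hr : r.Prime) {a' : ℤ} (y x w' g : ZMod r)
    (hN : (N : ℤ) ∣ a' - 1) (h : ((a' : ℤ) : ZMod r) * y * (1 - x) = w' - x) (hw : w' * g = 1)
    (hx : x * g ≠ 1) : IsCoprime a' ((N : ℤ) * r) := by
  refine (lr_saz_cop_of_one hN).mul_right (lr_saz_cop_of_ne hr _ ?_)
  intro h0
  rw [h0, zero_mul, zero_mul] at h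
  have h1 : w' = x := sub_eq_zero.1 h.symm
  exact hx (h1 ▸ hw)

end LR
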