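/-
S41 (level raising), Ihara's lemma, leaf L4': the symbol at level `N r` is multiplicative.

Abstract in the symbol `s : ℤ → ℤ → A` (`s c d` = value of the character on a matrix of
`Γ₀(N)` with bottom row `(c, d)`): from the moves (P1), `s c 1 = 0`, (T2), Lemma F and the
arithmetic input `lr_sym_arith`, the function `D ↦ s (N r) D` is multiplicative on the integers
`D ≡ 1 mod N` prime to `r` (`LR.lr_sym_hom`), hence vanishes when the values are `p`-torsion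
with `p` prime to `r - 1` (`LR.lr_sym_zero`).
-/
import Fermat.Agent.Lib.LR_CycLemma

set_option autoImplicit false
set_option linter.style.haveILetI false

namespace LR

theorem lr_sym_hom {N q r : ℕ} (hN : N ≠ 0) (hq : q.Prime) (hr : r.Prime) (hNq : N.Coprime q)
    (hrN : ¬ r ∣ N) (hrq : r ≠ q) (k2 : ℕ)
    (hg2 : (N : ℤ) ^ 2 ∣ (q : ℤ) ^ (2 * k2) - 1) (hrg : ¬ (r : ℤ) ∣ (q : ℤ) ^ (2 * k2) - 1)
    {A : Type*} [AddCommGroup A] (s : ℤ → ℤ → A)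
    (hP1 : ∀ c d x : ℤ, (N : ℤ) ∣ c → c ≠ 0 → IsCoprime c d → s c (d + x * c) = s c d)
    (hs1 : ∀ c : ℤ, (N : ℤ) ∣ c → c ≠ 0 → s c 1 = 0)
    (hT2 : ∀ (c d : ℤ) (k : ℕ), (N : ℤ) ∣ c → c ≠ 0 → IsCoprime c d → IsCoprime c (q : ℤ) →
      s c ((q : ℤ) ^ (2 * k) * d) = s c ((q : ℤ) ^ (2 * k)) + s c d)
    (hF : ∀ (c κ δ a d : ℤ) (j : ℕ), (N : ℤ) ∣ c → c ≠ 0 → κ * a + δ = (q : ℤ) ^ (2 * j) →
      IsCoprime (c * κ) δ → IsCoprime a c → c ∣ a * d - 1 →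
      s (c * κ) δ + s c d = s c (δ * d))
    (harith : ∀ x y : (ZMod r)ˣ, x ≠ 1 →
      ∃ (κ δ a a' : ℤ) (m : ℕ),
        κ * a + δ = 1 ∧ κ * a' + δ = (q : ℤ) ^ (2 * (k2 * m)) ∧
        IsCoprime ((N : ℤ) * r * κ) δ ∧ IsCoprime a ((N : ℤ) * r) ∧
        (N : ℤ) ∣ a - 1 ∧ (N : ℤ) ∣ a' - 1 ∧ (N : ℤ) ∣ δ - 1 ∧
        ((δ : ℤ) : ZMod r) = (x : ZMod r) ∧ ((a : ℤ) : ZMod r) * (y : ZMod r) = 1 ∧
        (q : ZMod r) ^ (2 * (k2 * m)) * (q : ZMod r) ^ (2 * k2) = 1 ∧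
        ((a' : ℤ) : ZMod r) * (y : ZMod r) * (1 - (x : ZMod r)) =
          (q : ZMod r) ^ (2 * (k2 * m)) - (x : ZMod r)) :
    ∀ D D' : ℤ, (N : ℤ) ∣ D - 1 → (N : ℤ) ∣ D' - 1 → ¬ (r : ℤ) ∣ D → ¬ (r : ℤ) ∣ D' →
      s ((N : ℤ) * r) (D * D') = s ((N : ℤ) * r) D + s ((N : ℤ) * r) D' := by
  classical
  haveI : Fact r.Prime := ⟨hr⟩
  have hr0 : (r : ℤ) ≠ 0 := by exact_mod_cast hr.ne_zero
  have hN0 : (N : ℤ) ≠ 0 := by exact_mod_cast hN
  have hc0 : (N : ℤ) * r ≠ 0 := mul_ne_zero hN0 hr0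
  have hNc : (N : ℤ) ∣ (N : ℤ) * r := Dvd.intro _ rfl
  have hrc : (r : ℤ) ∣ (N : ℤ) * r := Dvd.intro_left _ rfl
  have hrprime : Prime (r : ℤ) := Nat.prime_iff_prime_int.mp hr
  have hcopNr : IsCoprime (N : ℤ) (r : ℤ) := by
    have h : Nat.Coprime N r := ((Nat.Prime.coprime_iff_not_dvd hr).mpr hrN).symm
    exact Nat.isCoprime_iff_coprime.mpr h
  have hdvd_r : ∀ z : ℤ, ((z : ℤ) : ZMod r) = 0 ↔ (r : ℤ) ∣ z := fun z =>
    ZMod.intCast_zmod_eq_zero_iff_dvd z r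
  -- coprimality to `N r`
  have hcopD : ∀ D : ℤ, (N : ℤ) ∣ D - 1 → ((D : ℤ) : ZMod r) ≠ 0 → IsCoprime ((N : ℤ) * r) D := by
    intro D hD hDr
    have h1 : IsCoprime (N : ℤ) D := by
      obtain ⟨t, ht⟩ := hD
      exact ⟨-t, 1, by linear_combination ht⟩
    have h2 : IsCoprime (r : ℤ) D :=
      (Irreducible.coprime_iff_not_dvd hrprime.irreducible).mpr (fun h => hDr ((hdvd_r D).mpr h))
    exact IsCoprime.mul_left h1 h2
  -- representatives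
  have hrep : ∀ u : (ZMod r)ˣ, ∃ D : ℤ, (N : ℤ) ∣ D - 1 ∧ ((D : ℤ) : ZMod r) = (u : ZMod r) := by
    intro u
    obtain ⟨a, b, hab⟩ := hcopNr
    refine ⟨1 + N * a * (((u : ZMod r).val : ℤ) - 1), ⟨a * (((u : ZMod r).val : ℤ) - 1), by ring⟩, ?_⟩
    have h1 : ((a : ℤ) : ZMod r) * ((N : ℤ) : ZMod r) = 1 := by
      have := congrArg (fun z : ℤ => (z : ZMod r)) hab
      simpa using this
    have h2 : (((u : ZMod r).val : ℤ) : ZMod r) = (u : ZMod r) := by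
      simp
    push_cast
    rw [Int.cast_natCast] at h1
    have h3 : ((N : ZMod r)) * (a : ZMod r) = 1 := by rw [mul_comm]; exact h1
    rw [h3]
    simp
  choose rep hrepN hrepr using hrep
  let F : (ZMod r)ˣ → A := fun u => s ((N : ℤ) * r) (rep u)
  have hunit : ∀ u : (ZMod r)ˣ, ((u : (ZMod r)ˣ) : ZMod r) ≠ 0 := fun u => u.ne_zero
  have hwd : ∀ (u : (ZMod r)ˣ) (D : ℤ), (N : ℤ) ∣ D - 1 → ((D : ℤ) : ZMod r) = (u : ZMod r) →
      s ((N : ℤ) * r) D = F u := by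
    intro u D hD hDr
    have h1 : (N : ℤ) ∣ D - rep u := by
      have := dvd_sub hD (hrepN u)
      simpa using this
    have h2 : (r : ℤ) ∣ D - rep u := by
      rw [← hdvd_r]
      push_cast
      rw [hDr, hrepr u, sub_self]
    obtain ⟨t, ht⟩ := hcopNr.mul_dvd h1 h2
    have h3 : D = rep u + t * ((N : ℤ) * r) := by linear_combination ht
    rw [h3]
    exact hP1 _ (rep u) t hNc hc0 (hcopD _ (hrepN u) (by rw [hrepr u]; exact hunit u))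
  -- the unit `w`
  have hq0 : (q : ZMod r) ≠ 0 := by
    intro h
    rw [ZMod.natCast_eq_zero_iff] at h
    exact hrq ((Nat.prime_dvd_prime_iff_eq hr hq).mp h)
  let gU : (ZMod r)ˣ := (Units.mk0 (q : ZMod r) hq0) ^ (2 * k2)
  have hgU : ((gU : (ZMod r)ˣ) : ZMod r) = (q : ZMod r) ^ (2 * k2) := by
    simp [gU]
  let w : (ZMod r)ˣ := gU⁻¹
  have hwg : ((w : (ZMod r)ˣ) : ZMod r) * (q : ZMod r) ^ (2 * k2) = 1 := by
    rw [← hgU]
    exact Units.inv_mul gU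
  have hg0 : (q : ZMod r) ^ (2 * k2) ≠ 0 := pow_ne_zero _ hq0
  have hwuniq : ∀ z : ZMod r, z * (q : ZMod r) ^ (2 * k2) = 1 → z = (w : ZMod r) := by
    intro z hz
    exact mul_right_cancel₀ hg0 (hz.trans hwg.symm)
  have hw : w ≠ 1 := by
    intro h
    apply hrg
    rw [← hdvd_r]
    have h1 : (q : ZMod r) ^ (2 * k2) = 1 := by
      have := hwg
      rw [h, Units.val_one, one_mul] at this
      exact this
    push_cast
    rw [h1, sub_self]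
  -- the integer power representing `w`
  have hr2 : 2 ≤ r := hr.two_le
  have hWr : ((((q : ℤ) ^ (2 * (k2 * (r - 2))) : ℤ)) : ZMod r) = (w : ZMod r) := by
    apply hwuniq
    push_cast
    rw [← pow_add]
    have e : 2 * (k2 * (r - 2)) + 2 * k2 = (r - 1) * (2 * k2) := by
      obtain ⟨t, rfl⟩ : ∃ t, r = t + 2 := ⟨r - 2, by omega⟩
      simp only [Nat.add_sub_cancel]
      have : t + 2 - 1 = t + 1 := by omega
      rw [this]
      ring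
    rw [e, pow_mul, ZMod.pow_card_sub_one_eq_one hq0, one_pow]
  have hNg : (N : ℤ) ∣ (q : ℤ) ^ (2 * k2) - 1 := dvd_trans (dvd_pow_self _ two_ne_zero) hg2
  have hWN : ∀ n : ℕ, (N : ℤ) ∣ (q : ℤ) ^ (2 * (k2 * n)) - 1 := by
    intro n
    have h1 : (q : ℤ) ^ (2 * (k2 * n)) = ((q : ℤ) ^ (2 * k2)) ^ n := by
      rw [← pow_mul]
      congr 1
      ring
    rw [h1]
    have h2 : (q : ℤ) ^ (2 * k2) - 1 ∣ ((q : ℤ) ^ (2 * k2)) ^ n - 1 := by
      simpa using sub_dvd_pow_sub_pow ((q : ℤ) ^ (2 * k2)) 1 n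
    exact dvd_trans hNg h2
  have hcq : IsCoprime ((N : ℤ) * r) (q : ℤ) := by
    have h1 : IsCoprime (N : ℤ) (q : ℤ) := Nat.isCoprime_iff_coprime.mpr hNq
    have h2 : IsCoprime (r : ℤ) (q : ℤ) :=
      Nat.isCoprime_iff_coprime.mpr ((Nat.coprime_primes hr hq).mpr hrq)
    exact IsCoprime.mul_left h1 h2
  have hprodN : ∀ X Y : ℤ, (N : ℤ) ∣ X - 1 → (N : ℤ) ∣ Y - 1 → (N : ℤ) ∣ X * Y - 1 := by
    intro X Y hX hY
    have : X * Y - 1 = X * (Y - 1) + (X - 1) := by ring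
    rw [this]
    exact dvd_add (Dvd.dvd.mul_left hY X) hX
  -- hypotheses of the cyclic lemma
  have h1 : F 1 = 0 := by
    rw [← hwd 1 1 (by simp) (by simp)]
    exact hs1 _ hNc hc0
  have hwm : ∀ y, F (w * y) = F w + F y := by
    intro y
    have e1 := hT2 ((N : ℤ) * r) (rep y) (k2 * (r - 2)) hNc hc0
      (hcopD _ (hrepN y) (by rw [hrepr y]; exact hunit y)) hcq
    have e2 := hwd (w * y) ((q : ℤ) ^ (2 * (k2 * (r - 2))) * rep y)
      (hprodN _ _ (hWN _) (hrepN y)) (by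
        rw [Int.cast_mul, hWr, hrepr y, Units.val_mul])
    have e3 := hwd w ((q : ℤ) ^ (2 * (k2 * (r - 2)))) (hWN _) hWr
    rw [← e2, e1, e3]
  have hc : ∀ x y e : (ZMod r)ˣ, x ≠ 1 → x ≠ w →
      (e : ZMod r) * ((w : ZMod r) - (x : ZMod r)) = 1 - (x : ZMod r) →
      F (x * y) - F y = F (x * y * e) - F (y * e) := by
    intro x y e hx1 hxw he
    obtain ⟨κ, δ, a, a', m, hk1, hk2, hcopδ, hcopa, hNa, hNa', hNδ, hδr, hay, hqm, ha'⟩ :=
      harith x y hx1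
    have hwm' : (q : ZMod r) ^ (2 * (k2 * m)) = (w : ZMod r) := hwuniq _ hqm
    rw [hwm'] at ha'
    have hwx : (w : ZMod r) - (x : ZMod r) ≠ 0 := by
      intro h
      apply hxw
      apply Units.ext
      exact (sub_eq_zero.mp h).symm
    have ha'0 : ((a' : ℤ) : ZMod r) ≠ 0 := by
      intro h
      rw [h, zero_mul, zero_mul] at ha'
      exact hwx ha'.symm
    have ha0 : ((a : ℤ) : ZMod r) ≠ 0 := by
      intro h
      rw [h, zero_mul] at hay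
      exact zero_ne_one hay
    have hcopa' : IsCoprime a' ((N : ℤ) * r) := (hcopD a' hNa' ha'0).symm
    -- inverses
    obtain ⟨d, v, hd⟩ := hcopa
    obtain ⟨d', v', hd'⟩ := hcopa'
    have hdc : (N : ℤ) * r ∣ a * d - 1 := ⟨-v, by linear_combination hd⟩
    have hdc' : (N : ℤ) * r ∣ a' * d' - 1 := ⟨-v', by linear_combination hd'⟩
    have hNd : (N : ℤ) ∣ d - 1 := by
      have h1 : (N : ℤ) ∣ a * d - 1 := dvd_trans hNc hdc
      have h2 : d - 1 = (a * d - 1) - (a - 1) * d := by ring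
      rw [h2]
      exact dvd_sub h1 (Dvd.dvd.mul_right hNa d)
    have hNd' : (N : ℤ) ∣ d' - 1 := by
      have h1 : (N : ℤ) ∣ a' * d' - 1 := dvd_trans hNc hdc'
      have h2 : d' - 1 = (a' * d' - 1) - (a' - 1) * d' := by ring
      rw [h2]
      exact dvd_sub h1 (Dvd.dvd.mul_right hNa' d')
    have hdr : ((d : ℤ) : ZMod r) = (y : ZMod r) := by
      have h1 : (((a * d - 1 : ℤ)) : ZMod r) = 0 := (hdvd_r _).mpr (dvd_trans hrc hdc)
      push_cast at h1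
      have h2 : ((a : ℤ) : ZMod r) * (d : ZMod r) = (a : ZMod r) * (y : ZMod r) := by
        rw [hay]
        exact sub_eq_zero.mp h1
      exact mul_left_cancel₀ ha0 h2
    have hdr' : ((d' : ℤ) : ZMod r) = (y : ZMod r) * (e : ZMod r) := by
      have h1 : (((a' * d' - 1 : ℤ)) : ZMod r) = 0 := (hdvd_r _).mpr (dvd_trans hrc hdc')
      push_cast at h1
      have h3 : ((a' : ℤ) : ZMod r) * ((y : ZMod r) * (e : ZMod r)) = 1 := by
        have h4 : (((a' : ℤ) : ZMod r) * ((y : ZMod r) * (e : ZMod r)) - 1) *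
            ((w : ZMod r) - (x : ZMod r)) = 0 := by
          linear_combination ((a' : ℤ) : ZMod r) * (y : ZMod r) * he + ha'
        rcases mul_eq_zero.mp h4 with h5 | h5
        · exact sub_eq_zero.mp h5
        · exact absurd h5 hwx
      have h2 : ((a' : ℤ) : ZMod r) * (d' : ZMod r) =
          (a' : ZMod r) * ((y : ZMod r) * (e : ZMod r)) := by
        rw [h3]
        exact sub_eq_zero.mp h1
      exact mul_left_cancel₀ ha'0 h2
    -- Lemma F twice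
    have f1 := hF ((N : ℤ) * r) κ δ a d 0 hNc hc0 (by simpa using hk1) hcopδ
      ⟨d, v, hd⟩ hdc
    have f2 := hF ((N : ℤ) * r) κ δ a' d' (k2 * m) hNc hc0 hk2 hcopδ ⟨d', v', hd'⟩ hdc'
    have g1 := hwd (x * y) (δ * d) (hprodN _ _ hNδ hNd) (by
      rw [Int.cast_mul, hδr, hdr, Units.val_mul])
    have g2 := hwd y d hNd hdr
    have g3 := hwd (x * y * e) (δ * d') (hprodN _ _ hNδ hNd') (by
      rw [Int.cast_mul, hδr, hdr', Units.val_mul, Units.val_mul, mul_assoc])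
    have g4 := hwd (y * e) d' hNd' (by rw [hdr', Units.val_mul])
    rw [← g1, ← g2, ← g3, ← g4, ← f1, ← f2]
    abel
  have hhom := lr_cyc_lemma F w hw h1 hwm hc
  intro D D' hD hD' hDr hDr'
  have hD0 : ((D : ℤ) : ZMod r) ≠ 0 := fun h => hDr ((hdvd_r D).mp h)
  have hD0' : ((D' : ℤ) : ZMod r) ≠ 0 := fun h => hDr' ((hdvd_r D').mp h)
  have e1 := hwd (Units.mk0 _ hD0) D hD (by simp)
  have e2 := hwd (Units.mk0 _ hD0') D' hD' (by simp)
  have e3 := hwd (Units.mk0 _ hD0 * Units.mk0 _ hD0') (D * D') (hprodN _ _ hD hD') (by simp)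
  rw [e1, e2, e3]
  exact hhom _ _

theorem lr_sym_zero {N q r : ℕ} (hN : N ≠ 0) (hq : q.Prime) (hr : r.Prime) (hNq : N.Coprime q)
    (hrN : ¬ r ∣ N) (hrq : r ≠ q) (k2 : ℕ)
    (hg2 : (N : ℤ) ^ 2 ∣ (q : ℤ) ^ (2 * k2) - 1) (hrg : ¬ (r : ℤ) ∣ (q : ℤ) ^ (2 * k2) - 1)
    {A : Type*} [AddCommGroup A] (s : ℤ → ℤ → A)
    (hP1 : ∀ c d x : ℤ, (N : ℤ) ∣ c → c ≠ 0 → IsCoprime c d → s c (d + x * c) = s c d)
    (hs1 : ∀ c : ℤ, (N : ℤ) ∣ c → c ≠ 0 → s c 1 = 0)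
    (hT2 : ∀ (c d : ℤ) (k : ℕ), (N : ℤ) ∣ c → c ≠ 0 → IsCoprime c d → IsCoprime c (q : ℤ) →
      s c ((q : ℤ) ^ (2 * k) * d) = s c ((q : ℤ) ^ (2 * k)) + s c d)
    (hF : ∀ (c κ δ a d : ℤ) (j : ℕ), (N : ℤ) ∣ c → c ≠ 0 → κ * a + δ = (q : ℤ) ^ (2 * j) →
      IsCoprime (c * κ) δ → IsCoprime a c → c ∣ a * d - 1 →
      s (c * κ) δ + s c d = s c (δ * d))
    (harith : ∀ x y : (ZMod r)ˣ, x ≠ 1 →
      ∃ (κ δ a a' : ℤ) (m : ℕ),
        κ * a + δ = 1 ∧ κ * a' + δ = (q : ℤ) ^ (2 * (k2 * m)) ∧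
        IsCoprime ((N : ℤ) * r * κ) δ ∧ IsCoprime a ((N : ℤ) * r) ∧
        (N : ℤ) ∣ a - 1 ∧ (N : ℤ) ∣ a' - 1 ∧ (N : ℤ) ∣ δ - 1 ∧
        ((δ : ℤ) : ZMod r) = (x : ZMod r) ∧ ((a : ℤ) : ZMod r) * (y : ZMod r) = 1 ∧
        (q : ZMod r) ^ (2 * (k2 * m)) * (q : ZMod r) ^ (2 * k2) = 1 ∧
        ((a' : ℤ) : ZMod r) * (y : ZMod r) * (1 - (x : ZMod r)) =
          (q : ZMod r) ^ (2 * (k2 * m)) - (x : ZMod r))
    (p : ℕ) (hA : ∀ a : A, p • a = 0) (hpr : Nat.Coprime p (r - 1)) :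
    ∀ D : ℤ, (N : ℤ) ∣ D - 1 → ¬ (r : ℤ) ∣ D → s ((N : ℤ) * r) D = 0 := by
  haveI : Fact r.Prime := ⟨hr⟩
  have hmul := lr_sym_hom hN hq hr hNq hrN hrq k2 hg2 hrg s hP1 hs1 hT2 hF harith
  have hr0 : (r : ℤ) ≠ 0 := by exact_mod_cast hr.ne_zero
  have hN0 : (N : ℤ) ≠ 0 := by exact_mod_cast hN
  have hc0 : (N : ℤ) * r ≠ 0 := mul_ne_zero hN0 hr0
  have hNc : (N : ℤ) ∣ (N : ℤ) * r := Dvd.intro _ rfl
  have hrprime : Prime (r : ℤ) := Nat.prime_iff_prime_int.mp hr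
  have hcopNr : IsCoprime (N : ℤ) (r : ℤ) := by
    have h : Nat.Coprime N r := ((Nat.Prime.coprime_iff_not_dvd hr).mpr hrN).symm
    exact Nat.isCoprime_iff_coprime.mpr h
  intro D hD hDr
  have hpowN : ∀ n : ℕ, (N : ℤ) ∣ D ^ n - 1 := by
    intro n
    have h2 : D - 1 ∣ D ^ n - 1 := by
      simpa using sub_dvd_pow_sub_pow D 1 n
    exact dvd_trans hD h2
  have hpowr : ∀ n : ℕ, ¬ (r : ℤ) ∣ D ^ n := fun n h => hDr (hrprime.dvd_of_dvd_pow h)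
  have hpow : ∀ n : ℕ, s ((N : ℤ) * r) (D ^ n) = n • s ((N : ℤ) * r) D := by
    intro n
    induction n with
    | zero =>
      rw [pow_zero, zero_smul]
      exact hs1 _ hNc hc0
    | succ n ih =>
      rw [pow_succ, hmul _ _ (hpowN n) hD (hpowr n) hDr, ih, succ_nsmul]
  -- Fermat
  have hDz : ((D : ℤ) : ZMod r) ≠ 0 := fun h => hDr ((ZMod.intCast_zmod_eq_zero_iff_dvd D r).mp h)
  have hfer : (r : ℤ) ∣ D ^ (r - 1) - 1 := by
    rw [← ZMod.intCast_zmod_eq_zero_iff_dvd]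
    push_cast
    rw [ZMod.pow_card_sub_one_eq_one hDz, sub_self]
  obtain ⟨t, ht⟩ := hcopNr.mul_dvd (hpowN (r - 1)) hfer
  have h1 : s ((N : ℤ) * r) (D ^ (r - 1)) = 0 := by
    have e : D ^ (r - 1) = 1 + t * ((N : ℤ) * r) := by linear_combination ht
    rw [e, hP1 _ 1 t hNc hc0 isCoprime_one_right]
    exact hs1 _ hNc hc0
  rw [hpow] at h1
  have h2 : addOrderOf (s ((N : ℤ) * r) D) ∣ r - 1 := addOrderOf_dvd_of_nsmul_eq_zero h1
  have h3 : addOrderOf (s ((N : ℤ) * r) D) ∣ p := addOrderOf_dvd_of_nsmul_eq_zero (hA _)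
  have h4 : addOrderOf (s ((N : ℤ) * r) D) = 1 :=
    Nat.eq_one_of_dvd_coprimes hpr h3 h2
  exact AddMonoid.addOrderOf_eq_one_iff.mp h4

end LR
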