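import Fermat.Agent.Lib.LR_Coset

/-!
# The symbol `s(c,d)` of a character of `Γ₀(N)` extending to `Γ₀(N)[1/q]` (Ihara, elementary)

`LrSymHyp N q ψ` collects the properties of `ψ = φ ∘ ι : Γ₀(N) → A` for a homomorphism `φ` on
`Γ₀(N)[1/q]` killing the unipotents: additivity, vanishing on integral unipotents, and the two
torus relations.  From these we get the symbol `lrSym ψ c d` (value of `ψ` on any element with
bottom row `(c, d)`) and its calculus: `(P1)`, `(P2)`, `(T1)`, `(T2)` and the product rule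
`lrSym_F`.
-/

set_option autoImplicit false

open CongruenceSubgroup Matrix
open scoped MatrixGroups

namespace LR

/-- The abstract properties of `ψ = φ ∘ ι` used by the symbol calculus. -/
structure LrSymHyp (N q : ℕ) {A : Type*} [AddCommGroup A] (ψ : ↥(Gamma0 N) → A) : Prop where
  mul : ∀ γ γ' : Gamma0 N, ψ (γ * γ') = ψ γ + ψ γ'
  up : ∀ γ : Gamma0 N, mat γ 1 0 = 0 → mat γ 1 1 = 1 → ψ γ = 0
  low : ∀ γ : Gamma0 N, mat γ 0 1 = 0 → mat γ 1 1 = 1 → ψ γ = 0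
  t1 : ∀ (j : ℕ) (γ γ' : Gamma0 N), mat γ' 0 0 = mat γ 0 0 → mat γ' 1 1 = mat γ 1 1 →
    mat γ 1 0 = (q : ℤ) ^ (2 * j) * mat γ' 1 0 → mat γ' 0 1 = (q : ℤ) ^ (2 * j) * mat γ 0 1 →
    ψ γ' = ψ γ
  t2 : ∀ k : ℕ, ∃ τ : A, ∀ γ γ' : Gamma0 N, mat γ' 1 0 = mat γ 1 0 →
    mat γ' 1 1 = (q : ℤ) ^ (2 * k) * mat γ 1 1 → ψ γ' = ψ γ + τ

section

variable {N q : ℕ} {A : Type*} [AddCommGroup A] {ψ : ↥(Gamma0 N) → A}

theorem lrSym_det (γ : Gamma0 N) : mat γ 0 0 * mat γ 1 1 - mat γ 0 1 * mat γ 1 0 = 1 := by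
  have := mat_det γ
  rwa [Matrix.det_fin_two] at this

theorem lrSym_mul_apply (γ γ' : Gamma0 N) (i j : Fin 2) :
    mat (γ * γ') i j = mat γ i 0 * mat γ' 0 j + mat γ i 1 * mat γ' 1 j := by
  rw [mat_mul, Matrix.mul_apply, Fin.sum_univ_two]

theorem lrSym_row_coprime (γ : Gamma0 N) : IsCoprime (mat γ 1 0) (mat γ 1 1) :=
  ⟨-mat γ 0 1, mat γ 0 0, by linarith [lrSym_det γ]⟩

/-- An element of `Γ₀(N)` with prescribed entries. -/
theorem lrSym_mk_exists (a b c d : ℤ) (hdet : a * d - b * c = 1) (hc : (N : ℤ) ∣ c) :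
    ∃ γ : Gamma0 N, mat γ 0 0 = a ∧ mat γ 0 1 = b ∧ mat γ 1 0 = c ∧ mat γ 1 1 = d := by
  refine ⟨mk !![a, b; c, d] (by rw [Matrix.det_fin_two_of]; exact hdet) (by simpa using hc), ?_⟩
  simp [mat_mk]

theorem lrSym_row_exists {c d : ℤ} (hc : (N : ℤ) ∣ c) (hcd : IsCoprime c d) :
    ∃ γ : Gamma0 N, mat γ 1 0 = c ∧ mat γ 1 1 = d := by
  obtain ⟨u, v, huv⟩ := hcd
  obtain ⟨γ, -, -, h10, h11⟩ := lrSym_mk_exists (N := N) v (-u) c d (by linarith) hc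
  exact ⟨γ, h10, h11⟩

/-- `ψ` only depends on the bottom row. -/
theorem lrSym_row_aux (hmul : ∀ γ γ' : Gamma0 N, ψ (γ * γ') = ψ γ + ψ γ')
    (hup : ∀ γ : Gamma0 N, mat γ 1 0 = 0 → mat γ 1 1 = 1 → ψ γ = 0)
    (γ γ' : Gamma0 N) (h10 : mat γ 1 0 = mat γ' 1 0)
    (h11 : mat γ 1 1 = mat γ' 1 1) : ψ γ = ψ γ' := by
  have hd := lrSym_det γ
  have hd' := lrSym_det γ'
  obtain ⟨u, hu00, hu01, hu10, hu11⟩ := lrSym_mk_exists (N := N) 1
    (mat γ' 0 1 * mat γ 0 0 - mat γ' 0 0 * mat γ 0 1) 0 1 (by ring) (dvd_zero _)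
  rw [← h10, ← h11] at hd'
  have hmul' : γ' = u * γ := by
    apply mat_injective
    ext i j
    rw [lrSym_mul_apply]
    fin_cases i <;> fin_cases j
    · show mat γ' 0 0 = mat u 0 0 * mat γ 0 0 + mat u 0 1 * mat γ 1 0
      rw [hu00, hu01]
      linear_combination (mat γ 0 0) * hd' - (mat γ' 0 0) * hd
    · show mat γ' 0 1 = mat u 0 0 * mat γ 0 1 + mat u 0 1 * mat γ 1 1
      rw [hu00, hu01]
      linear_combination (mat γ 0 1) * hd' - (mat γ' 0 1) * hd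
    · show mat γ' 1 0 = mat u 1 0 * mat γ 0 0 + mat u 1 1 * mat γ 1 0
      rw [hu10, hu11, ← h10]; ring
    · show mat γ' 1 1 = mat u 1 0 * mat γ 0 1 + mat u 1 1 * mat γ 1 1
      rw [hu10, hu11, ← h11]; ring
  rw [hmul', hmul, hup u hu10 hu11, zero_add]

/-- `ψ` only depends on the bottom row. -/
theorem lrSym_row (h : LrSymHyp N q ψ) (γ γ' : Gamma0 N) (h10 : mat γ 1 0 = mat γ' 1 0)
    (h11 : mat γ 1 1 = mat γ' 1 1) : ψ γ = ψ γ' :=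
  lrSym_row_aux h.mul h.up γ γ' h10 h11

/-- The symbol: the value of `ψ` on any element of `Γ₀(N)` with bottom row `(c, d)`. -/
noncomputable def lrSym (ψ : ↥(Gamma0 N) → A) (c d : ℤ) : A :=
  open Classical in
  if hcd : ∃ γ : Gamma0 N, mat γ 1 0 = c ∧ mat γ 1 1 = d then ψ hcd.choose else 0

theorem lrSym_eq (h : LrSymHyp N q ψ) (γ : Gamma0 N) :
    lrSym ψ (mat γ 1 0) (mat γ 1 1) = ψ γ := by
  have hex : ∃ γ' : Gamma0 N, mat γ' 1 0 = mat γ 1 0 ∧ mat γ' 1 1 = mat γ 1 1 := ⟨γ, rfl, rfl⟩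
  unfold lrSym
  rw [dif_pos hex]
  exact lrSym_row h _ _ hex.choose_spec.1 hex.choose_spec.2

theorem lrSym_eq' (h : LrSymHyp N q ψ) (γ : Gamma0 N) {c d : ℤ} (hc : mat γ 1 0 = c)
    (hd : mat γ 1 1 = d) : lrSym ψ c d = ψ γ := by
  rw [← hc, ← hd, lrSym_eq h]

theorem lrSym_one (h : LrSymHyp N q ψ) {c : ℤ} (hc : (N : ℤ) ∣ c) : lrSym ψ c 1 = 0 := by
  obtain ⟨γ, -, h01, h10, h11⟩ := lrSym_mk_exists (N := N) 1 0 c 1 (by ring) hc
  rw [lrSym_eq' h γ h10 h11, h.low γ h01 h11]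

/-- `(P1)`: `s(c, d + x c) = s(c, d)`. -/
theorem lrSym_P1 (h : LrSymHyp N q ψ) {c d : ℤ} (hc : (N : ℤ) ∣ c) (hcd : IsCoprime c d)
    (x : ℤ) : lrSym ψ c (d + x * c) = lrSym ψ c d := by
  obtain ⟨γ, h10, h11⟩ := lrSym_row_exists hc hcd
  obtain ⟨u, hu00, hu01, hu10, hu11⟩ := lrSym_mk_exists (N := N) 1 x 0 1 (by ring) (dvd_zero _)
  have e1 : mat (γ * u) 1 0 = c := by rw [lrSym_mul_apply, hu00, hu10, h10]; ring
  have e2 : mat (γ * u) 1 1 = d + x * c := by rw [lrSym_mul_apply, hu01, hu11, h10, h11]; ring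
  rw [lrSym_eq' h (γ * u) e1 e2, lrSym_eq' h γ h10 h11, h.mul, h.up u hu10 hu11, add_zero]

/-- `(P2)`: `s(c + N t d, d) = s(c, d)`. -/
theorem lrSym_P2 (h : LrSymHyp N q ψ) {c d : ℤ} (hc : (N : ℤ) ∣ c) (hcd : IsCoprime c d)
    (t : ℤ) : lrSym ψ (c + N * t * d) d = lrSym ψ c d := by
  obtain ⟨γ, h10, h11⟩ := lrSym_row_exists hc hcd
  obtain ⟨u, hu00, hu01, hu10, hu11⟩ := lrSym_mk_exists (N := N) 1 0 (N * t) 1 (by ring)
    (Dvd.intro _ rfl)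
  have e1 : mat (γ * u) 1 0 = c + N * t * d := by
    rw [lrSym_mul_apply, hu00, hu10, h10, h11]; ring
  have e2 : mat (γ * u) 1 1 = d := by rw [lrSym_mul_apply, hu01, hu11, h10, h11]; ring
  rw [lrSym_eq' h (γ * u) e1 e2, lrSym_eq' h γ h10 h11, h.mul, h.low u hu01 hu11, add_zero]

/-- `(T1)`: `s(c q^{2j}, d) = s(c, d)`. -/
theorem lrSym_T1 (h : LrSymHyp N q ψ) {c d : ℤ} (j : ℕ) (hc : (N : ℤ) ∣ c)
    (hcd : IsCoprime (c * (q : ℤ) ^ (2 * j)) d) :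
    lrSym ψ (c * (q : ℤ) ^ (2 * j)) d = lrSym ψ c d := by
  obtain ⟨γ, h10, h11⟩ := lrSym_row_exists (Dvd.dvd.mul_right hc _) hcd
  have hd := lrSym_det γ
  obtain ⟨γ', g00, g01, g10, g11⟩ := lrSym_mk_exists (N := N) (mat γ 0 0)
    ((q : ℤ) ^ (2 * j) * mat γ 0 1) c d (by rw [h10, h11] at hd; linarith) hc
  rw [lrSym_eq' h γ h10 h11, lrSym_eq' h γ' g10 g11]
  exact (h.t1 j γ γ' g00 (by rw [g11, h11]) (by rw [h10, g10]; ring) g01).symm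

/-- `(T2)`: `s(c, q^{2k} d) = s(c, q^{2k}) + s(c, d)`. -/
theorem lrSym_T2 (h : LrSymHyp N q ψ) {c d : ℤ} (k : ℕ) (hc : (N : ℤ) ∣ c)
    (hcd : IsCoprime c d) (hcq : IsCoprime c (q : ℤ)) :
    lrSym ψ c ((q : ℤ) ^ (2 * k) * d) = lrSym ψ c ((q : ℤ) ^ (2 * k)) + lrSym ψ c d := by
  obtain ⟨τ, hτ⟩ := h.t2 k
  have hcq' : IsCoprime c ((q : ℤ) ^ (2 * k)) := hcq.pow_right
  obtain ⟨γ, h10, h11⟩ := lrSym_row_exists hc hcd
  obtain ⟨γ', g10, g11⟩ := lrSym_row_exists hc (hcq'.mul_right hcd)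
  obtain ⟨γ₁, f01, f10, f11⟩ : ∃ γ₁ : Gamma0 N, mat γ₁ 0 1 = 0 ∧ mat γ₁ 1 0 = c ∧
      mat γ₁ 1 1 = 1 := by
    obtain ⟨γ₁, -, f01, f10, f11⟩ := lrSym_mk_exists (N := N) 1 0 c 1 (by ring) hc
    exact ⟨γ₁, f01, f10, f11⟩
  obtain ⟨γ₂, e10, e11⟩ := lrSym_row_exists hc hcq'
  have h1 : ψ γ' = ψ γ + τ := hτ γ γ' (by rw [g10, h10]) (by rw [g11, h11])
  have h2 : ψ γ₂ = ψ γ₁ + τ := hτ γ₁ γ₂ (by rw [e10, f10]) (by rw [e11, f11, mul_one])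
  rw [lrSym_eq' h γ' g10 g11, lrSym_eq' h γ₂ e10 e11, lrSym_eq' h γ h10 h11, h1, h2,
    h.low γ₁ f01 f11, zero_add, add_comm]

/-- **Lemma F** (product rule): if `κ a + δ = q^{2j}` and `a d ≡ 1 (mod c)` then
`s(c κ, δ) + s(c, d) = s(c, δ d)`. -/
theorem lrSym_F (h : LrSymHyp N q ψ) {c κ δ a b d : ℤ} (j : ℕ) (hc : (N : ℤ) ∣ c)
    (hw : κ * a + δ = (q : ℤ) ^ (2 * j)) (hcop : IsCoprime (c * κ) δ)
    (hdet : a * d - b * c = 1) :
    lrSym ψ (c * κ) δ + lrSym ψ c d = lrSym ψ c (δ * d) := by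
  obtain ⟨g, g10, g11⟩ := lrSym_row_exists (N := N) (Dvd.dvd.mul_right hc κ) hcop
  obtain ⟨γ, h00, h01, h10, h11⟩ := lrSym_mk_exists (N := N) a b c d hdet hc
  have e1 : mat (g * γ) 1 0 = c * (q : ℤ) ^ (2 * j) := by
    rw [lrSym_mul_apply, g10, g11, h00, h10, ← hw]; ring
  have e2 : mat (g * γ) 1 1 = δ * d + (κ * b) * c := by
    rw [lrSym_mul_apply, g10, g11, h01, h11]; ring
  have hcp := lrSym_row_coprime (g * γ)
  rw [e1, e2] at hcp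
  have hcp2 : IsCoprime c (δ * d + (κ * b) * c) := hcp.of_mul_left_left
  have hcp3 : IsCoprime c (δ * d) := by
    obtain ⟨u, v, huv⟩ := hcp2
    exact ⟨u + v * (κ * b), v, by linarith⟩
  rw [lrSym_eq' h g g10 g11, lrSym_eq' h γ h10 h11, ← h.mul, ← lrSym_eq' h (g * γ) e1 e2,
    lrSym_T1 h j hc hcp, lrSym_P1 h hc hcp3]

/-- Variant of `lrSym_F` with the congruence `a d ≡ 1 (mod c)` as a divisibility. -/
theorem lrSym_F' (h : LrSymHyp N q ψ) {c κ δ a d : ℤ} (j : ℕ) (hc : (N : ℤ) ∣ c)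
    (hw : κ * a + δ = (q : ℤ) ^ (2 * j)) (hcop : IsCoprime (c * κ) δ)
    (had : c ∣ a * d - 1) :
    lrSym ψ (c * κ) δ + lrSym ψ c d = lrSym ψ c (δ * d) := by
  obtain ⟨b, hb⟩ := had
  exact lrSym_F h (b := b) j hc hw hcop (by linarith)

/-- The hypotheses `LrSymHyp` from the single-step torus relations (`q²`-steps). -/
theorem lrSymHyp_of_steps (ψ : ↥(Gamma0 N) → A)
    (hmul : ∀ γ γ' : Gamma0 N, ψ (γ * γ') = ψ γ + ψ γ')
    (hup : ∀ γ : Gamma0 N, mat γ 1 0 = 0 → mat γ 1 1 = 1 → ψ γ = 0)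
    (hlow : ∀ γ : Gamma0 N, mat γ 0 1 = 0 → mat γ 1 1 = 1 → ψ γ = 0)
    (hT1 : ∀ γ γ' : Gamma0 N, mat γ' 0 0 = mat γ 0 0 → mat γ' 1 1 = mat γ 1 1 →
      mat γ 1 0 = (q : ℤ) ^ 2 * mat γ' 1 0 → mat γ' 0 1 = (q : ℤ) ^ 2 * mat γ 0 1 → ψ γ' = ψ γ)
    (τ : A) (hT2 : ∀ γ γ' : Gamma0 N, mat γ' 1 0 = mat γ 1 0 →
      mat γ' 1 1 = (q : ℤ) ^ 2 * mat γ 1 1 → ψ γ' = ψ γ + τ) :
    LrSymHyp N q ψ where
  mul := hmul
  up := hup
  low := hlow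
  t1 := by
    intro j
    induction j with
    | zero =>
      intro γ γ' h00 h11 h10 h01
      have e : γ' = γ := by
        apply mat_injective
        ext i k
        fin_cases i <;> fin_cases k
        · exact h00
        · show mat γ' 0 1 = mat γ 0 1
          rw [h01]; simp
        · show mat γ' 1 0 = mat γ 1 0
          rw [h10]; simp
        · exact h11
      rw [e]
    | succ j ih =>
      intro γ γ' h00 h11 h10 h01
      have hd := lrSym_det γ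
      obtain ⟨γ₁, f00, f01, f10, f11⟩ := lrSym_mk_exists (N := N) (mat γ 0 0)
        ((q : ℤ) ^ 2 * mat γ 0 1) ((q : ℤ) ^ (2 * j) * mat γ' 1 0) (mat γ 1 1)
        (by rw [h10] at hd; linear_combination hd) (Dvd.dvd.mul_left (mat_dvd γ') _)
      have s1 : ψ γ₁ = ψ γ := hT1 γ γ₁ f00 f11 (by rw [h10, f10]; ring) f01
      have s2 : ψ γ' = ψ γ₁ := ih γ₁ γ' (by rw [h00, f00]) (by rw [h11, f11]) f10
        (by rw [h01, f01]; ring)
      rw [s2, s1]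
  t2 := by
    intro k
    refine ⟨k • τ, ?_⟩
    induction k with
    | zero =>
      intro γ γ' h10 h11
      rw [zero_smul, add_zero]
      exact (lrSym_row_aux hmul hup γ γ' h10.symm (by rw [h11]; simp)).symm
    | succ k ih =>
      intro γ γ' h10 h11
      have hcp := lrSym_row_coprime γ'
      rw [h10, h11] at hcp
      have hcp1 : IsCoprime (mat γ 1 0) ((q : ℤ) ^ (2 * k) * mat γ 1 1) := by
        have e : (q : ℤ) ^ (2 * (k + 1)) * mat γ 1 1 =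
            (q : ℤ) ^ 2 * ((q : ℤ) ^ (2 * k) * mat γ 1 1) := by ring
        rw [e] at hcp
        exact hcp.of_mul_right_right
      obtain ⟨γ₁, f10, f11⟩ := lrSym_row_exists (N := N) (mat_dvd γ) hcp1
      have s1 : ψ γ₁ = ψ γ + k • τ := ih γ γ₁ f10 f11
      have s2 : ψ γ' = ψ γ₁ + τ := hT2 γ₁ γ' (by rw [h10, f10]) (by rw [h11, f11]; ring)
      rw [s2, s1, succ_nsmul, add_assoc]

end

end LR
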