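/-
S41 (level raising), stream S1 (Ihara's lemma): assembly of the integer route.

`LR.lr_ih_core_sym`: a `ZMod p`-valued character `χ` of `Γ₀(N)` (`p` odd) that kills the
triangular elements and satisfies the symbol hypotheses `LrSymHyp N q` (i.e. comes from a
character of `Γ₀(N)[1/q]` killing the unipotents) vanishes on all `γ` with `d ≡ 1 mod N`.

`LR.lr_ih_core_steps`: the same from the single `q²`-step torus relations.

Inputs: `LR_Symbol` (symbol calculus), `LR_SymArithZ` (number theory of relation (c)),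
`LR_SymHom` (cyclic lemma ⟹ the symbol at level `N r` vanishes), `LR_IhFinish` (endgame).
-/
import Fermat.Agent.Lib.LR_IhFinish
import Fermat.Agent.Lib.LR_Symbol
import Fermat.Agent.Lib.LR_SymHom
import Fermat.Agent.Lib.LR_SymArithZ

set_option autoImplicit false

namespace LR

open CongruenceSubgroup ModularCurve.Period
open scoped MatrixGroups

theorem lr_ih_core_sym (N q p : ℕ) [NeZero N] (hq : q.Prime) (hp : p.Prime) (hp2 : p ≠ 2)
    (hNq : N.Coprime q) (χ : X N (ZMod p)) (hpar : IhTri χ)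
    (h : LrSymHyp N q (fun γ : Gamma0 N => χ (Additive.ofMul γ))) :
    ∀ γ : Gamma0 N, dmod γ = 1 → χ (Additive.ofMul γ) = 0 := by
  have hN : N ≠ 0 := NeZero.ne N
  obtain ⟨k2, hk2pos, hg2⟩ : ∃ k2 : ℕ, 0 < k2 ∧ (N : ℤ) ^ 2 ∣ (q : ℤ) ^ (2 * k2) - 1 := by
    refine ⟨Nat.totient (N ^ 2), Nat.totient_pos.mpr (by positivity), ?_⟩
    have hcop : Nat.Coprime q (N ^ 2) := Nat.Coprime.pow_right 2 hNq.symm
    have h1 : q ^ Nat.totient (N ^ 2) ≡ 1 [MOD N ^ 2] := Nat.ModEq.pow_totient hcop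
    have h2 : (q ^ Nat.totient (N ^ 2)) ^ 2 ≡ 1 ^ 2 [MOD N ^ 2] := h1.pow 2
    have h3 : ((q ^ (2 * Nat.totient (N ^ 2)) : ℕ) : ℤ) ≡ ((1 : ℕ) : ℤ)
        [ZMOD ((N ^ 2 : ℕ) : ℤ)] := by
      rw [Int.natCast_modEq_iff, mul_comm, pow_mul]
      simpa using h2
    have h4 := Int.modEq_iff_dvd.mp h3.symm
    push_cast at h4
    exact h4
  apply lr_ih_endgame_zero N p hp hp2 χ hpar (max (max N q) (q ^ (2 * k2)))
  intro r hr hBr hpr γ h10 h11
  have hrNlt : N < r := lt_of_le_of_lt (le_trans (le_max_left _ _) (le_max_left _ _)) hBr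
  have hrqlt : q < r := lt_of_le_of_lt (le_trans (le_max_right _ _) (le_max_left _ _)) hBr
  have hrglt : q ^ (2 * k2) < r := lt_of_le_of_lt (le_max_right _ _) hBr
  have hrN : ¬ r ∣ N := fun hd => by
    have := Nat.le_of_dvd (Nat.pos_of_ne_zero hN) hd
    omega
  have hrq : r ≠ q := by omega
  have hrg : ¬ (r : ℤ) ∣ (q : ℤ) ^ (2 * k2) - 1 := by
    intro hd
    have h1 : (1 : ℤ) < (q : ℤ) ^ (2 * k2) :=
      one_lt_pow₀ (by exact_mod_cast hq.one_lt) (by omega)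
    have h2 := Int.le_of_dvd (by linarith) hd
    have h3 : (q : ℤ) ^ (2 * k2) < (r : ℤ) := by exact_mod_cast hrglt
    linarith
  have hcop := lrSym_row_coprime γ
  have hrD : ¬ (r : ℤ) ∣ mat γ 1 1 := by
    intro hd
    rw [h10] at hcop
    have hu : IsUnit (r : ℤ) := hcop.isUnit_of_dvd' (Dvd.intro_left _ rfl) hd
    exact (Nat.prime_iff_prime_int.mp hr).not_isUnit hu
  have hz := lr_sym_zero (N := N) (q := q) (r := r) hN hq hr hNq hrN hrq k2 hg2 hrg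
    (lrSym (fun γ : Gamma0 N => χ (Additive.ofMul γ)))
    (fun c d x hc _ hcd => lrSym_P1 h hc hcd x)
    (fun c hc _ => lrSym_one h hc)
    (fun c d k hc _ hcd hcq => lrSym_T2 h k hc hcd hcq)
    (fun c κ δ a d j hc _ hw hcop' _ had => lrSym_F' h j hc hw hcop' had)
    (fun x y hx => lr_sym_arithZ hN hq hr hrN hrq k2 hg2 x y hx)
    p (fun a => by rw [nsmul_eq_mul, ZMod.natCast_self, zero_mul]) hpr (mat γ 1 1) h11 hrD
  have e := lrSym_eq' h γ h10 rfl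
  rw [← e]
  exact hz

/-- [B] from the single `q²`-step torus relations. -/
theorem lr_ih_core_steps (N q p : ℕ) [NeZero N] (hq : q.Prime) (hp : p.Prime) (hp2 : p ≠ 2)
    (hNq : N.Coprime q) (ψ : X N (ZMod p))
    (hup : ∀ γ : Gamma0 N, mat γ 1 0 = 0 → ψ (Additive.ofMul γ) = 0)
    (hlow : ∀ γ : Gamma0 N, mat γ 0 1 = 0 → ψ (Additive.ofMul γ) = 0)
    (hT1 : ∀ γ γ' : Gamma0 N, mat γ' 0 0 = mat γ 0 0 → mat γ' 1 1 = mat γ 1 1 →
      mat γ 1 0 = (q : ℤ) ^ 2 * mat γ' 1 0 → mat γ' 0 1 = (q : ℤ) ^ 2 * mat γ 0 1 →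
      ψ (Additive.ofMul γ') = ψ (Additive.ofMul γ))
    (τ : ZMod p) (hT2 : ∀ γ γ' : Gamma0 N, mat γ' 1 0 = mat γ 1 0 →
      mat γ' 1 1 = (q : ℤ) ^ 2 * mat γ 1 1 →
      ψ (Additive.ofMul γ') = ψ (Additive.ofMul γ) + τ) :
    ∀ γ : Gamma0 N, dmod γ = 1 → ψ (Additive.ofMul γ) = 0 := by
  apply lr_ih_core_sym N q p hq hp hp2 hNq ψ ⟨hup, hlow⟩
  exact lrSymHyp_of_steps (fun γ : Gamma0 N => ψ (Additive.ofMul γ))
    (fun γ γ' => by
      show ψ (Additive.ofMul (γ * γ')) = ψ (Additive.ofMul γ) + ψ (Additive.ofMul γ')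
      rw [ofMul_mul, map_add])
    (fun γ h10 _ => hup γ h10) (fun γ h01 _ => hlow γ h01) hT1 τ hT2

/-- The same statement under the name `lr_ih_core` (helper6's interface). -/
theorem lr_ih_core (N q p : ℕ) [NeZero N] (hq : q.Prime) (hp : p.Prime) (hp2 : p ≠ 2)
    (hNq : N.Coprime q) (ψ : Additive ↥(Gamma0 N) →+ ZMod p)
    (hup : ∀ γ : Gamma0 N, mat γ 1 0 = 0 → ψ (Additive.ofMul γ) = 0)
    (hlow : ∀ γ : Gamma0 N, mat γ 0 1 = 0 → ψ (Additive.ofMul γ) = 0)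
    (hT1 : ∀ γ γ' : Gamma0 N, mat γ' 0 0 = mat γ 0 0 → mat γ' 1 1 = mat γ 1 1 →
      mat γ 1 0 = (q : ℤ) ^ 2 * mat γ' 1 0 → mat γ' 0 1 = (q : ℤ) ^ 2 * mat γ 0 1 →
      ψ (Additive.ofMul γ') = ψ (Additive.ofMul γ))
    (τ : ZMod p) (hT2 : ∀ γ γ' : Gamma0 N, mat γ' 1 0 = mat γ 1 0 →
      mat γ' 1 1 = (q : ℤ) ^ 2 * mat γ 1 1 →
      ψ (Additive.ofMul γ') = ψ (Additive.ofMul γ) + τ) :
    ∀ γ : Gamma0 N, dmod γ = 1 → ψ (Additive.ofMul γ) = 0 :=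
  lr_ih_core_steps N q p hq hp hp2 hNq ψ hup hlow hT1 τ hT2

end LR
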