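import Fermat.Agent.Lib.LR_Glue
import Fermat.Agent.Lib.LR_IhCore

/-!
# S41 (level raising), Ihara's lemma: the last link

`LR.lr_glue_B`: every homomorphism `φ : Γ₀(N)[1/q] → ℤ/p` (`p` odd) which kills the unipotent
elements is trivial on `{γ ∈ Γ₀(N) : d ≡ 1 mod N}` (statement [B]); this is `LR.lr_ih_core`
applied to the restriction of `φ` to `Γ₀(N)`: the torus relations `(T1)`, `(T2)` hold because
`φ` is conjugation invariant and kills the upper unipotents of `lrG N q`.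

`LR.lr_glue_hL1`: the mod `p` Ihara lemma in the exact shape of the hypothesis `hL1` of
`LR.lr_S41_of_ihara`.
-/

set_option autoImplicit false
set_option linter.unusedSimpArgs false

open CongruenceSubgroup Matrix ModularCurve.Period
open scoped MatrixGroups

namespace LR

section GlueB

variable {N q p : ℕ} [Fact q.Prime]

/-- conjugation invariance of a homomorphism to a commutative group -/
theorem lr_glueB_conj {F : Type*} [CommGroup F] (φ : ↥(lrG N q) →* F) (t g : ↥(lrG N q)) :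
    φ (t * g * t⁻¹) = φ g := by
  rw [map_mul, map_mul, map_inv, mul_comm, inv_mul_cancel_left]

/-- the inclusion `Γ₀(N) → lrG N q` -/
def lrGlueIncl (N q : ℕ) [Fact q.Prime] : ↥(Gamma0 N) →* ↥(lrG N q) where
  toFun γ := ⟨lrι (γ : SL(2, ℤ)), lrι_mem_G N q γ.2⟩
  map_one' := Subtype.ext (map_one lrι)
  map_mul' γ γ' := Subtype.ext (map_mul lrι (γ : SL(2, ℤ)) (γ' : SL(2, ℤ)))

theorem lrGlueIncl_coe (γ : Gamma0 N) :
    ((lrGlueIncl N q γ : ↥(lrG N q)) : SL(2, ℚ)) = lrι (γ : SL(2, ℤ)) := rfl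

theorem lr_glueB_mat (γ : Gamma0 N) (i j : Fin 2) :
    (lrι (γ : SL(2, ℤ))) i j = ((mat γ i j : ℤ) : ℚ) := lrι_apply _ i j

/-- the character of `Γ₀(N)` induced by a homomorphism on `lrG N q` -/
def lrGlueRes (φ : ↥(lrG N q) →* Multiplicative (ZMod p)) : Additive ↥(Gamma0 N) →+ ZMod p :=
  MonoidHom.toAdditiveLeft (φ.comp (lrGlueIncl N q))

theorem lrGlueRes_apply (φ : ↥(lrG N q) →* Multiplicative (ZMod p)) (γ : Gamma0 N) :
    lrGlueRes φ (Additive.ofMul γ) = Multiplicative.toAdd (φ (lrGlueIncl N q γ)) := rfl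

/-- triangular elements are killed -/
theorem lr_glueB_tri (hp : p.Prime) (hp2 : p ≠ 2) (φ : ↥(lrG N q) →* Multiplicative (ZMod p))
    (hφ : ∀ g : ↥(lrG N q), (g : SL(2, ℚ)) 0 0 + (g : SL(2, ℚ)) 1 1 = 2 → φ g = 1)
    (γ : Gamma0 N) (h : mat γ 1 0 = 0 ∨ mat γ 0 1 = 0) :
    lrGlueRes φ (Additive.ofMul γ) = 0 := by
  have : Fact p.Prime := Fact.mk hp
  have hdet : mat γ 0 0 * mat γ 1 1 - mat γ 0 1 * mat γ 1 0 = 1 := lr_am_det_int (γ : SL(2, ℤ))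
  have had : mat γ 0 0 * mat γ 1 1 = 1 := by
    rcases h with h | h
    · rw [h] at hdet; linarith
    · rw [h] at hdet; linarith
  have hbc : mat γ 0 1 * mat γ 1 0 = 0 := by
    rcases h with h | h
    · rw [h]; ring
    · rw [h]; ring
  have hsq : mat γ 0 0 * mat γ 0 0 + mat γ 1 1 * mat γ 1 1 = 2 := by
    rcases Int.eq_one_or_neg_one_of_mul_eq_one' had with ⟨h1, h2⟩ | ⟨h1, h2⟩ <;> rw [h1, h2] <;>
      norm_num
  have htr : ((lrGlueIncl N q (γ * γ) : ↥(lrG N q)) : SL(2, ℚ)) 0 0 +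
      ((lrGlueIncl N q (γ * γ) : ↥(lrG N q)) : SL(2, ℚ)) 1 1 = 2 := by
    rw [lrGlueIncl_coe, lr_glueB_mat, lr_glueB_mat, mat_mul, Matrix.mul_apply, Matrix.mul_apply,
      Fin.sum_univ_two, Fin.sum_univ_two]
    have h3 : mat γ 0 0 * mat γ 0 0 + mat γ 0 1 * mat γ 1 0 +
        (mat γ 1 0 * mat γ 0 1 + mat γ 1 1 * mat γ 1 1) = 2 := by
      linear_combination hsq + 2 * hbc
    exact_mod_cast h3
  have h0 := hφ (lrGlueIncl N q (γ * γ)) htr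
  have h1 : lrGlueRes φ (Additive.ofMul (γ * γ)) = 0 := by
    rw [lrGlueRes_apply, h0]
    rfl
  rw [ofMul_mul, map_add] at h1
  have h2 : (2 : ZMod p) * lrGlueRes φ (Additive.ofMul γ) = 0 := by rw [two_mul]; exact h1
  have h2ne : (2 : ZMod p) ≠ 0 := by
    intro h
    have h' : ((2 : ℕ) : ZMod p) = 0 := by exact_mod_cast h
    rw [ZMod.natCast_eq_zero_iff] at h'
    exact hp2 ((Nat.prime_dvd_prime_iff_eq hp Nat.prime_two).mp h')
  exact (mul_eq_zero.mp h2).resolve_left h2ne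

/-- the torus relation (T1) -/
theorem lr_glueB_T1 (hNq : N.Coprime q) (φ : ↥(lrG N q) →* Multiplicative (ZMod p))
    (γ γ' : Gamma0 N) (h00 : mat γ' 0 0 = mat γ 0 0) (h11 : mat γ' 1 1 = mat γ 1 1)
    (h10 : mat γ 1 0 = (q : ℤ) ^ 2 * mat γ' 1 0) (h01 : mat γ' 0 1 = (q : ℤ) ^ 2 * mat γ 0 1) :
    lrGlueRes φ (Additive.ofMul γ') = lrGlueRes φ (Additive.ofMul γ) := by
  have hq0 : (q : ℚ) ≠ 0 := Nat.cast_ne_zero.mpr (Fact.out : q.Prime).ne_zero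
  have e : lrι (γ' : SL(2, ℤ)) = lrTorus q * lrι (γ : SL(2, ℤ)) * (lrTorus q)⁻¹ := by
    obtain ⟨t00, t01, t10, t11⟩ := lrTorus_apply q
    obtain ⟨i00, i01, i10, i11⟩ := lr_am_inv_apply (lrTorus q)
    apply lr_glue_ext
    · rw [lr_am_mul3]
      simp only [t00, t01, t10, t11, i00, i01, i10, i11, lr_glueB_mat, h00]
      field_simp
      ring
    · rw [lr_am_mul3]
      simp only [t00, t01, t10, t11, i00, i01, i10, i11, lr_glueB_mat, h01]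
      push_cast
      field_simp
      ring
    · rw [lr_am_mul3]
      simp only [t00, t01, t10, t11, i00, i01, i10, i11, lr_glueB_mat, h10]
      push_cast
      field_simp
      ring
    · rw [lr_am_mul3]
      simp only [t00, t01, t10, t11, i00, i01, i10, i11, lr_glueB_mat, h11]
      field_simp
      ring
  have e' : lrGlueIncl N q γ' = (⟨lrTorus q, lrTorus_mem N q hNq⟩ : ↥(lrG N q)) *
      lrGlueIncl N q γ * (⟨lrTorus q, lrTorus_mem N q hNq⟩ : ↥(lrG N q))⁻¹ := Subtype.ext e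
  rw [lrGlueRes_apply, lrGlueRes_apply, e', lr_glueB_conj]

/-- the torus relation (T2) -/
theorem lr_glueB_T2 (hNq : N.Coprime q) (φ : ↥(lrG N q) →* Multiplicative (ZMod p))
    (hφ : ∀ g : ↥(lrG N q), (g : SL(2, ℚ)) 0 0 + (g : SL(2, ℚ)) 1 1 = 2 → φ g = 1)
    (γ γ' : Gamma0 N) (h10 : mat γ' 1 0 = mat γ 1 0)
    (h11 : mat γ' 1 1 = (q : ℤ) ^ 2 * mat γ 1 1) :
    lrGlueRes φ (Additive.ofMul γ') = lrGlueRes φ (Additive.ofMul γ) +
      Multiplicative.toAdd ((φ ⟨lrTorus q, lrTorus_mem N q hNq⟩)⁻¹ *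
        (φ ⟨lrTorus q, lrTorus_mem N q hNq⟩)⁻¹) := by
  have hq0 : (q : ℚ) ≠ 0 := Nat.cast_ne_zero.mpr (Fact.out : q.Prime).ne_zero
  obtain ⟨T, hT⟩ : ∃ T : ↥(lrG N q), T = ⟨lrTorus q, lrTorus_mem N q hNq⟩ := ⟨_, rfl⟩
  rw [← hT]
  have hTc : (T : SL(2, ℚ)) = lrTorus q := by rw [hT]
  obtain ⟨h, hh⟩ : ∃ h : ↥(lrG N q), h = T⁻¹ * lrGlueIncl N q γ * T⁻¹ := ⟨_, rfl⟩
  have hhc : (h : SL(2, ℚ)) = (lrTorus q)⁻¹ * lrι (γ : SL(2, ℤ)) * (lrTorus q)⁻¹ := by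
    rw [hh, ← hTc]; rfl
  have htr : ((lrGlueIncl N q γ' * h⁻¹ : ↥(lrG N q)) : SL(2, ℚ)) 0 0 +
      ((lrGlueIncl N q γ' * h⁻¹ : ↥(lrG N q)) : SL(2, ℚ)) 1 1 = 2 := by
    obtain ⟨t00, t01, t10, t11⟩ := lrTorus_apply q
    obtain ⟨i00, i01, i10, i11⟩ := lr_am_inv_apply (lrTorus q)
    obtain ⟨j00, j01, j10, j11⟩ := lr_am_inv_apply (h : SL(2, ℚ))
    have hd := lr_am_det (lrι (γ : SL(2, ℤ)))
    have hd' := lr_am_det (lrι (γ' : SL(2, ℤ)))
    have c10 : (lrι (γ' : SL(2, ℤ))) 1 0 = (lrι (γ : SL(2, ℤ))) 1 0 := by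
      rw [lr_glueB_mat, lr_glueB_mat, h10]
    have c11 : (lrι (γ' : SL(2, ℤ))) 1 1 = (q : ℚ) ^ 2 * (lrι (γ : SL(2, ℤ))) 1 1 := by
      rw [lr_glueB_mat, lr_glueB_mat, h11]
      push_cast
      ring
    rw [c10, c11] at hd'
    have m01 : (h : SL(2, ℚ)) 0 1 = (lrι (γ : SL(2, ℤ))) 0 1 := by
      rw [hhc, lr_am_mul3]
      simp only [t00, t01, t10, t11, i00, i01, i10, i11]
      field_simp
      ring
    have m10 : (h : SL(2, ℚ)) 1 0 = (lrι (γ : SL(2, ℤ))) 1 0 := by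
      rw [hhc, lr_am_mul3]
      simp only [t00, t01, t10, t11, i00, i01, i10, i11]
      field_simp
      ring
    have m11 : (h : SL(2, ℚ)) 1 1 = (q : ℚ) ^ 2 * (lrι (γ : SL(2, ℤ))) 1 1 := by
      rw [hhc, lr_am_mul3]
      simp only [t00, t01, t10, t11, i00, i01, i10, i11]
      field_simp
      ring
    have m00 : (q : ℚ) ^ 2 * (h : SL(2, ℚ)) 0 0 = (lrι (γ : SL(2, ℤ))) 0 0 := by
      rw [hhc, lr_am_mul3]
      simp only [t00, t01, t10, t11, i00, i01, i10, i11]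
      field_simp
      ring
    show (lrι (γ' : SL(2, ℤ)) * (h : SL(2, ℚ))⁻¹) 0 0 +
      (lrι (γ' : SL(2, ℤ)) * (h : SL(2, ℚ))⁻¹) 1 1 = 2
    rw [Matrix.SpecialLinearGroup.coe_mul, Matrix.mul_apply, Matrix.mul_apply, Fin.sum_univ_two,
      Fin.sum_univ_two]
    simp only [j00, j01, j10, j11, m01, m10, m11, c10, c11]
    linear_combination hd' + hd + (lrι (γ : SL(2, ℤ))) 1 1 * m00
  have h1 := hφ _ htr
  have h2 : φ (lrGlueIncl N q γ') = φ h := by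
    have e : lrGlueIncl N q γ' = (lrGlueIncl N q γ' * h⁻¹) * h := by group
    rw [e, map_mul, h1, one_mul]
  have h3 : φ h = φ (lrGlueIncl N q γ) * ((φ T)⁻¹ * (φ T)⁻¹) := by
    rw [hh, map_mul, map_mul, map_inv, mul_comm (φ T)⁻¹ (φ (lrGlueIncl N q γ)), mul_assoc]
  rw [lrGlueRes_apply, lrGlueRes_apply, h2, h3, toAdd_mul]

/-- **Statement [B].** A homomorphism `Γ₀(N)[1/q] → ℤ/p` (`p` odd) killing the unipotent elements
is trivial on `{γ ∈ Γ₀(N) : d ≡ 1 mod N}`. -/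
theorem lr_glue_B [NeZero N] (hNq : N.Coprime q) (hp : p.Prime) (hp2 : p ≠ 2)
    (φ : ↥(lrG N q) →* Multiplicative (ZMod p))
    (hφ : ∀ g : ↥(lrG N q), (g : SL(2, ℚ)) 0 0 + (g : SL(2, ℚ)) 1 1 = 2 → φ g = 1) :
    ∀ γ : Gamma0 N, dmod γ = 1 → ∀ hm : lrι (γ : SL(2, ℤ)) ∈ lrG N q, φ ⟨lrι γ, hm⟩ = 1 := by
  intro γ hγ hm
  have h := lr_ih_core N q p (Fact.out : q.Prime) hp hp2 hNq (lrGlueRes φ)
    (fun γ h => lr_glueB_tri hp hp2 φ hφ γ (Or.inl h))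
    (fun γ h => lr_glueB_tri hp hp2 φ hφ γ (Or.inr h))
    (fun γ γ' h00 h11 h10 h01 => lr_glueB_T1 hNq φ γ γ' h00 h11 h10 h01)
    _ (fun γ γ' h10 h11 => lr_glueB_T2 hNq φ hφ γ γ' h10 h11) γ hγ
  rw [lrGlueRes_apply] at h
  exact toAdd_eq_zero.mp h

/-- **The mod `p` Ihara lemma** (`p` odd, `q` prime not dividing `N`): the kernel of
`res1 + res2` on pairs of parabolic characters mod `p` of `Γ₀(N)` consists of characters vanishing
on `{d ≡ 1 mod N}`.  This is exactly the hypothesis `hL1` of `LR.lr_S41_of_ihara`. -/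
theorem lr_glue_hL1 [NeZero N] [NeZero q] (hNq : N.Coprime q) (hp : p.Prime) (hp2 : p ≠ 2) :
    ∀ χ₁ χ₂ : X N (ZMod p), IsParabolicHom (Gamma0 N) χ₁ → IsParabolicHom (Gamma0 N) χ₂ →
      res1 N q χ₁ + res2 N q χ₂ = 0 →
      (∀ γ : Gamma0 N, dmod γ = 1 → χ₁ (Additive.ofMul γ) = 0) ∧
        (∀ γ : Gamma0 N, dmod γ = 1 → χ₂ (Additive.ofMul γ) = 0) :=
  lr_hL1_of_B hNq (lr_glue_B hNq hp hp2)

end GlueB

end LR
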