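import Fermat.Agent.Lib.LR_Transfer
import Fermat.Prelude.Def_ModularCurve_PeriodMap

/-!
# S41 (level raising), leaf L0: Hecke correspondences on characters of `Γ₀(M)` via the transfer

All operators are "spans": for a subgroup `L₀` of `SL(2,ℤ)` and a partial map `F` which is a
homomorphism `L₀ ∩ Γ' → Γ`, the operator `lrOp` sends a character `χ` of `Γ` to the character
`transfer_{L₀ ∩ Γ' ≤ Γ'} (χ ∘ F)` of `Γ'`.
-/

set_option autoImplicit false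

open CongruenceSubgroup Matrix.SpecialLinearGroup
open scoped MatrixGroups

namespace LR

/-! ### entries of `SL(2,ℤ)` -/

theorem lrh_sl_ext (x y : SL(2, ℤ)) (h00 : x 0 0 = y 0 0) (h01 : x 0 1 = y 0 1)
    (h10 : x 1 0 = y 1 0) (h11 : x 1 1 = y 1 1) : x = y := by
  apply Matrix.SpecialLinearGroup.ext
  intro i j
  fin_cases i <;> fin_cases j <;> assumption

theorem lrh_sl_det (x : SL(2, ℤ)) : x 0 0 * x 1 1 - x 0 1 * x 1 0 = 1 := by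
  have := x.det_coe
  rw [Matrix.det_fin_two] at this
  exact this

theorem lrh_mul_00 (x y : SL(2, ℤ)) : (x * y) 0 0 = x 0 0 * y 0 0 + x 0 1 * y 1 0 := by
  rw [Matrix.SpecialLinearGroup.coe_mul, Matrix.mul_apply, Fin.sum_univ_two]

theorem lrh_mul_01 (x y : SL(2, ℤ)) : (x * y) 0 1 = x 0 0 * y 0 1 + x 0 1 * y 1 1 := by
  rw [Matrix.SpecialLinearGroup.coe_mul, Matrix.mul_apply, Fin.sum_univ_two]

theorem lrh_mul_10 (x y : SL(2, ℤ)) : (x * y) 1 0 = x 1 0 * y 0 0 + x 1 1 * y 1 0 := by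
  rw [Matrix.SpecialLinearGroup.coe_mul, Matrix.mul_apply, Fin.sum_univ_two]

theorem lrh_mul_11 (x y : SL(2, ℤ)) : (x * y) 1 1 = x 1 0 * y 0 1 + x 1 1 * y 1 1 := by
  rw [Matrix.SpecialLinearGroup.coe_mul, Matrix.mul_apply, Fin.sum_univ_two]

theorem lrh_inv_00 (x : SL(2, ℤ)) : (x⁻¹) 0 0 = x 1 1 := by
  rw [Matrix.SpecialLinearGroup.coe_inv, Matrix.adjugate_fin_two]; rfl

theorem lrh_inv_01 (x : SL(2, ℤ)) : (x⁻¹) 0 1 = - x 0 1 := by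
  rw [Matrix.SpecialLinearGroup.coe_inv, Matrix.adjugate_fin_two]; rfl

theorem lrh_inv_10 (x : SL(2, ℤ)) : (x⁻¹) 1 0 = - x 1 0 := by
  rw [Matrix.SpecialLinearGroup.coe_inv, Matrix.adjugate_fin_two]; rfl

theorem lrh_inv_11 (x : SL(2, ℤ)) : (x⁻¹) 1 1 = x 0 0 := by
  rw [Matrix.SpecialLinearGroup.coe_inv, Matrix.adjugate_fin_two]; rfl

theorem lrh_one_00 : (1 : SL(2, ℤ)) 0 0 = 1 := rfl
theorem lrh_one_01 : (1 : SL(2, ℤ)) 0 1 = 0 := rfl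
theorem lrh_one_10 : (1 : SL(2, ℤ)) 1 0 = 0 := rfl
theorem lrh_one_11 : (1 : SL(2, ℤ)) 1 1 = 1 := rfl

/-- an element of `SL(2,ℤ)` from its entries -/
def lrhMk (a b c d : ℤ) (h : a * d - b * c = 1) : SL(2, ℤ) :=
  ⟨!![a, b; c, d], by rw [Matrix.det_fin_two_of]; exact h⟩

theorem lrhMk_00 (a b c d : ℤ) (h : a * d - b * c = 1) : lrhMk a b c d h 0 0 = a := rfl
theorem lrhMk_01 (a b c d : ℤ) (h : a * d - b * c = 1) : lrhMk a b c d h 0 1 = b := rfl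
theorem lrhMk_10 (a b c d : ℤ) (h : a * d - b * c = 1) : lrhMk a b c d h 1 0 = c := rfl
theorem lrhMk_11 (a b c d : ℤ) (h : a * d - b * c = 1) : lrhMk a b c d h 1 1 = d := rfl

theorem lrh_mem_Gamma0 {N : ℕ} {x : SL(2, ℤ)} : x ∈ Gamma0 N ↔ (N : ℤ) ∣ x 1 0 := by
  rw [Gamma0_mem, ZMod.intCast_zmod_eq_zero_iff_dvd]

/-- `Γ⁰(m)`: the upper right entry is divisible by `m`. -/
def lrhGup (m : ℕ) : Subgroup SL(2, ℤ) where
  carrier := {x | (m : ℤ) ∣ x 0 1}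
  one_mem' := by
    show (m : ℤ) ∣ (1 : SL(2, ℤ)) 0 1
    rw [lrh_one_01]; exact dvd_zero _
  mul_mem' := by
    intro x y hx hy
    show (m : ℤ) ∣ (x * y) 0 1
    rw [lrh_mul_01]
    exact dvd_add (Dvd.dvd.mul_left hy _) (Dvd.dvd.mul_right hx _)
  inv_mem' := by
    intro x hx
    show (m : ℤ) ∣ (x⁻¹) 0 1
    rw [lrh_inv_01]
    exact (dvd_neg).mpr hx

theorem lrh_mem_Gup {m : ℕ} {x : SL(2, ℤ)} : x ∈ lrhGup m ↔ (m : ℤ) ∣ x 0 1 := Iff.rfl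

theorem lrh_Gamma_le_Gup (m : ℕ) : Gamma m ≤ lrhGup m := by
  intro x hx
  rw [Gamma_mem] at hx
  rw [lrh_mem_Gup]
  exact (ZMod.intCast_zmod_eq_zero_iff_dvd _ _).mp hx.2.1

instance lrhGup_finiteIndex (m : ℕ) [NeZero m] : (lrhGup m).FiniteIndex :=
  Subgroup.finiteIndex_of_le (lrh_Gamma_le_Gup m)

/-- the map `[a, b; c, d] ↦ [a, b / l; l c, d]` (conjugation by `diag(1, l)`), defined where
`l ∣ b` -/
def lrhUp (l : ℕ) (x : SL(2, ℤ)) : SL(2, ℤ) :=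
  if h : (l : ℤ) ∣ x 0 1 then
    lrhMk (x 0 0) (x 0 1 / l) (l * x 1 0) (x 1 1) (by
      have h1 := lrh_sl_det x
      have h2 : x 0 1 / (l : ℤ) * ((l : ℤ) * x 1 0) = x 0 1 * x 1 0 := by
        rw [← mul_assoc, Int.ediv_mul_cancel h]
      rw [h2]; exact h1)
  else 1

/-- the map `[a, b; c, d] ↦ [a, q b; c / q, d]` (conjugation by `diag(q, 1)`), defined where
`q ∣ c` -/
def lrhDn (q : ℕ) (x : SL(2, ℤ)) : SL(2, ℤ) :=
  if h : (q : ℤ) ∣ x 1 0 then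
    lrhMk (x 0 0) (q * x 0 1) (x 1 0 / q) (x 1 1) (by
      have h1 := lrh_sl_det x
      have h2 : (q : ℤ) * x 0 1 * (x 1 0 / (q : ℤ)) = x 0 1 * x 1 0 := by
        rw [mul_comm (q : ℤ), mul_assoc, Int.mul_ediv_cancel' h]
      rw [h2]; exact h1)
  else 1

section
variable {l : ℕ} {x : SL(2, ℤ)}

theorem lrhUp_00 (h : (l : ℤ) ∣ x 0 1) : lrhUp l x 0 0 = x 0 0 := by
  rw [lrhUp, dif_pos h]; rfl
theorem lrhUp_01 (h : (l : ℤ) ∣ x 0 1) : lrhUp l x 0 1 = x 0 1 / l := by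
  rw [lrhUp, dif_pos h]; rfl
theorem lrhUp_10 (h : (l : ℤ) ∣ x 0 1) : lrhUp l x 1 0 = l * x 1 0 := by
  rw [lrhUp, dif_pos h]; rfl
theorem lrhUp_11 (h : (l : ℤ) ∣ x 0 1) : lrhUp l x 1 1 = x 1 1 := by
  rw [lrhUp, dif_pos h]; rfl
theorem lrhDn_00 (h : (l : ℤ) ∣ x 1 0) : lrhDn l x 0 0 = x 0 0 := by
  rw [lrhDn, dif_pos h]; rfl
theorem lrhDn_01 (h : (l : ℤ) ∣ x 1 0) : lrhDn l x 0 1 = l * x 0 1 := by
  rw [lrhDn, dif_pos h]; rfl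
theorem lrhDn_10 (h : (l : ℤ) ∣ x 1 0) : lrhDn l x 1 0 = x 1 0 / l := by
  rw [lrhDn, dif_pos h]; rfl
theorem lrhDn_11 (h : (l : ℤ) ∣ x 1 0) : lrhDn l x 1 1 = x 1 1 := by
  rw [lrhDn, dif_pos h]; rfl

end

theorem lrhUp_mul (l : ℕ) (x y : SL(2, ℤ)) (hx : (l : ℤ) ∣ x 0 1) (hy : (l : ℤ) ∣ y 0 1) :
    lrhUp l (x * y) = lrhUp l x * lrhUp l y := by
  have hxy : (l : ℤ) ∣ (x * y) 0 1 := (lrhGup l).mul_mem hx hy
  obtain ⟨u, hu⟩ := hx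
  obtain ⟨v, hv⟩ := hy
  have hx' : (l : ℤ) ∣ x 0 1 := ⟨u, hu⟩
  have hy' : (l : ℤ) ∣ y 0 1 := ⟨v, hv⟩
  rcases eq_or_ne (l : ℤ) 0 with hl | hl
  · have hx0 : x 0 1 = 0 := by rw [hu, hl, zero_mul]
    have hy0 : y 0 1 = 0 := by rw [hv, hl, zero_mul]
    apply lrh_sl_ext
    · rw [lrhUp_00 hxy, lrh_mul_00, lrh_mul_00, lrhUp_00 hx', lrhUp_00 hy', lrhUp_01 hx', lrhUp_10 hy',
        hx0, hl]; simp
    · rw [lrhUp_01 hxy, lrh_mul_01, lrh_mul_01, lrhUp_00 hx', lrhUp_01 hy', lrhUp_01 hx', lrhUp_11 hy',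
        hx0, hy0, hl]; simp
    · rw [lrhUp_10 hxy, lrh_mul_10, lrh_mul_10, lrhUp_10 hx', lrhUp_00 hy', lrhUp_11 hx', lrhUp_10 hy',
        hl]; simp
    · rw [lrhUp_11 hxy, lrh_mul_11, lrh_mul_11, lrhUp_10 hx', lrhUp_01 hy', lrhUp_11 hx', lrhUp_11 hy',
        hy0, hl]; simp
  · have e1 : x 0 1 / (l : ℤ) = u := by rw [hu]; exact Int.mul_ediv_cancel_left _ hl
    have e2 : y 0 1 / (l : ℤ) = v := by rw [hv]; exact Int.mul_ediv_cancel_left _ hl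
    apply lrh_sl_ext
    · rw [lrhUp_00 hxy, lrh_mul_00, lrh_mul_00, lrhUp_00 hx', lrhUp_00 hy', lrhUp_01 hx', lrhUp_10 hy',
        e1, hu]; ring
    · rw [lrhUp_01 hxy, lrh_mul_01, lrh_mul_01, lrhUp_00 hx', lrhUp_01 hy', lrhUp_01 hx', lrhUp_11 hy',
        e1, e2, hu, hv]
      have : x 0 0 * ((l : ℤ) * v) + (l : ℤ) * u * y 1 1 = (l : ℤ) * (x 0 0 * v + u * y 1 1) := by
        ring
      rw [this, Int.mul_ediv_cancel_left _ hl]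
    · rw [lrhUp_10 hxy, lrh_mul_10, lrh_mul_10, lrhUp_10 hx', lrhUp_00 hy', lrhUp_11 hx', lrhUp_10 hy']
      ring
    · rw [lrhUp_11 hxy, lrh_mul_11, lrh_mul_11, lrhUp_10 hx', lrhUp_01 hy', lrhUp_11 hx', lrhUp_11 hy',
        e2, hv]; ring

theorem lrhDn_mul (l : ℕ) (x y : SL(2, ℤ)) (hx : (l : ℤ) ∣ x 1 0) (hy : (l : ℤ) ∣ y 1 0) :
    lrhDn l (x * y) = lrhDn l x * lrhDn l y := by
  have hxy : (l : ℤ) ∣ (x * y) 1 0 := by
    rw [lrh_mul_10]; exact dvd_add (Dvd.dvd.mul_right hx _) (Dvd.dvd.mul_left hy _)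
  obtain ⟨u, hu⟩ := hx
  obtain ⟨v, hv⟩ := hy
  have hx' : (l : ℤ) ∣ x 1 0 := ⟨u, hu⟩
  have hy' : (l : ℤ) ∣ y 1 0 := ⟨v, hv⟩
  rcases eq_or_ne (l : ℤ) 0 with hl | hl
  · have hx0 : x 1 0 = 0 := by rw [hu, hl, zero_mul]
    have hy0 : y 1 0 = 0 := by rw [hv, hl, zero_mul]
    apply lrh_sl_ext
    · rw [lrhDn_00 hxy, lrh_mul_00, lrh_mul_00, lrhDn_00 hx', lrhDn_00 hy', lrhDn_01 hx', lrhDn_10 hy',
        hy0, hl]; simp
    · rw [lrhDn_01 hxy, lrh_mul_01, lrh_mul_01, lrhDn_00 hx', lrhDn_01 hy', lrhDn_01 hx', lrhDn_11 hy',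
        hl]; simp
    · rw [lrhDn_10 hxy, lrh_mul_10, lrh_mul_10, lrhDn_10 hx', lrhDn_00 hy', lrhDn_11 hx', lrhDn_10 hy',
        hx0, hy0, hl]; simp
    · rw [lrhDn_11 hxy, lrh_mul_11, lrh_mul_11, lrhDn_10 hx', lrhDn_01 hy', lrhDn_11 hx', lrhDn_11 hy',
        hx0, hl]; simp
  · have e1 : x 1 0 / (l : ℤ) = u := by rw [hu]; exact Int.mul_ediv_cancel_left _ hl
    have e2 : y 1 0 / (l : ℤ) = v := by rw [hv]; exact Int.mul_ediv_cancel_left _ hl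
    apply lrh_sl_ext
    · rw [lrhDn_00 hxy, lrh_mul_00, lrh_mul_00, lrhDn_00 hx', lrhDn_00 hy', lrhDn_01 hx', lrhDn_10 hy',
        e2, hv]; ring
    · rw [lrhDn_01 hxy, lrh_mul_01, lrh_mul_01, lrhDn_00 hx', lrhDn_01 hy', lrhDn_01 hx', lrhDn_11 hy']
      ring
    · rw [lrhDn_10 hxy, lrh_mul_10, lrh_mul_10, lrhDn_10 hx', lrhDn_00 hy', lrhDn_11 hx', lrhDn_10 hy',
        e1, e2, hu, hv]
      have : (l : ℤ) * u * y 0 0 + x 1 1 * ((l : ℤ) * v) = (l : ℤ) * (u * y 0 0 + x 1 1 * v) := by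
        ring
      rw [this, Int.mul_ediv_cancel_left _ hl]
    · rw [lrhDn_11 hxy, lrh_mul_11, lrh_mul_11, lrhDn_10 hx', lrhDn_01 hy', lrhDn_11 hx', lrhDn_11 hy',
        e1, hu]; ring

/-! ### spans -/

/-- A span `Γ' ⊇ L ∩ Γ' → Γ`: a subgroup `L` of `SL(2,ℤ)` and a partial map `F` inducing a
homomorphism `L ∩ Γ' → Γ`, with `L ∩ Γ'` of finite index in `Γ'`. -/
structure LrSpan (Γ' Γ : Subgroup SL(2, ℤ)) where
  L : Subgroup SL(2, ℤ)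
  F : SL(2, ℤ) → SL(2, ℤ)
  F_mem : ∀ x, x ∈ Γ' → x ∈ L → F x ∈ Γ
  F_mul : ∀ x y, x ∈ Γ' → x ∈ L → y ∈ Γ' → y ∈ L → F (x * y) = F x * F y
  fin : (L.subgroupOf Γ').FiniteIndex

namespace LrSpan

variable {Γ'' Γ' Γ : Subgroup SL(2, ℤ)} {A : Type*} [CommGroup A]

/-- the homomorphism of a span -/
def hom (s : LrSpan Γ' Γ) : ↥(s.L.subgroupOf Γ') →* ↥Γ where
  toFun x := ⟨s.F x.1.1, s.F_mem _ x.1.2 x.2⟩
  map_one' := by
    apply Subtype.ext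
    have h := s.F_mul 1 1 Γ'.one_mem s.L.one_mem Γ'.one_mem s.L.one_mem
    rw [mul_one] at h
    show s.F 1 = 1
    exact left_eq_mul.mp h
  map_mul' x y := Subtype.ext (s.F_mul _ _ x.1.2 x.2 y.1.2 y.2)

theorem hom_coe (s : LrSpan Γ' Γ) (x : ↥(s.L.subgroupOf Γ')) :
    ((s.hom x : ↥Γ) : SL(2, ℤ)) = s.F x.1.1 := rfl

/-- the operator on characters attached to a span -/
noncomputable def op (s : LrSpan Γ' Γ) (χ : ↥Γ →* A) : ↥Γ' →* A :=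
  haveI := s.fin
  MonoidHom.transfer (χ.comp s.hom)

theorem op_mul (s : LrSpan Γ' Γ) (χ χ' : ↥Γ →* A) : s.op (χ * χ') = s.op χ * s.op χ' := by
  have := s.fin
  unfold op
  rw [← lr_transfer_mul]
  rfl

theorem op_one (s : LrSpan Γ' Γ) : s.op (1 : ↥Γ →* A) = 1 := by
  have := s.fin
  unfold op
  have h : (1 : ↥Γ →* A).comp s.hom = 1 := rfl
  rw [h, lr_transfer_one]

theorem op_comp_left (s : LrSpan Γ' Γ) {A' : Type*} [CommGroup A'] (u : A →* A')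
    (χ : ↥Γ →* A) : s.op (u.comp χ) = u.comp (s.op χ) := by
  have := s.fin
  unfold op
  rw [← lr_transfer_comp_left]
  rfl

/-- composition of spans, general double coset form -/
theorem op_comp_sum (s₂ : LrSpan Γ'' Γ') (s₁ : LrSpan Γ' Γ) {ι : Type*} [Fintype ι]
    (δ : ι → SL(2, ℤ)) (hδ : ∀ i, δ i ∈ Γ') (s₃ : ι → LrSpan Γ'' Γ)
    (hδs : ∀ x, x ∈ Γ' → ∃ i y, y ∈ Γ'' ∧ y ∈ s₂.L ∧ (s₂.F y * δ i)⁻¹ * x ∈ s₁.L)
    (hδi : ∀ i j y, y ∈ Γ'' → y ∈ s₂.L → (s₂.F y * δ i)⁻¹ * δ j ∈ s₁.L → i = j)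
    (hL : ∀ i y, y ∈ Γ'' → (y ∈ (s₃ i).L ↔ (y ∈ s₂.L ∧ (δ i)⁻¹ * s₂.F y * δ i ∈ s₁.L)))
    (hF : ∀ i y, y ∈ Γ'' → y ∈ (s₃ i).L → (s₃ i).F y = s₁.F ((δ i)⁻¹ * s₂.F y * δ i))
    (χ : ↥Γ →* A) :
    s₂.op (s₁.op χ) = ∏ i, (s₃ i).op χ := by
  have := s₂.fin
  have := s₁.fin
  have : ∀ i, ((s₃ i).L.subgroupOf Γ'').FiniteIndex := fun i => (s₃ i).fin
  unfold op
  refine lr_span_comp (s₂.L.subgroupOf Γ'') s₂.hom (s₁.L.subgroupOf Γ') (χ.comp s₁.hom)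
    (fun i => (⟨δ i, hδ i⟩ : ↥Γ')) ?_ ?_ (fun i => (s₃ i).L.subgroupOf Γ'') ?_
    (fun i => χ.comp (s₃ i).hom) ?_
  · intro x
    obtain ⟨i, y, hy, hyL, h⟩ := hδs x.1 x.2
    exact ⟨i, ⟨⟨y, hy⟩, hyL⟩, h⟩
  · intro i j y h
    exact hδi i j y.1.1 y.1.2 y.2 h
  · intro i y
    rw [Subgroup.mem_subgroupOf, hL i y.1 y.2]
    constructor
    · rintro ⟨h1, h2⟩
      exact ⟨h1, h2⟩
    · rintro ⟨h1, h2⟩
      exact ⟨h1, h2⟩
  · intro i y hy3 hy hy1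
    rw [MonoidHom.comp_apply, MonoidHom.comp_apply]
    congr 1
    apply Subtype.ext
    exact hF i y.1 y.2 hy3

/-- composition of spans when there is a single double coset -/
theorem op_comp (s₂ : LrSpan Γ'' Γ') (s₁ : LrSpan Γ' Γ) (s₃ : LrSpan Γ'' Γ)
    (hs : ∀ x, x ∈ Γ' → ∃ y, y ∈ Γ'' ∧ y ∈ s₂.L ∧ (s₂.F y)⁻¹ * x ∈ s₁.L)
    (hL : ∀ y, y ∈ Γ'' → (y ∈ s₃.L ↔ (y ∈ s₂.L ∧ s₂.F y ∈ s₁.L)))
    (hF : ∀ y, y ∈ Γ'' → y ∈ s₃.L → s₃.F y = s₁.F (s₂.F y))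
    (χ : ↥Γ →* A) :
    s₂.op (s₁.op χ) = s₃.op χ := by
  have key := op_comp_sum s₂ s₁ (ι := Unit) (fun _ => 1) (fun _ => Γ'.one_mem) (fun _ => s₃)
    (fun x hx => by
      obtain ⟨y, h1, h2, h3⟩ := hs x hx
      exact ⟨(), y, h1, h2, by simpa using h3⟩)
    (fun _ _ _ _ _ _ => rfl)
    (fun _ y hy => by simpa using hL y hy)
    (fun _ y hy hy3 => by simpa using hF y hy hy3) χ
  rw [key]
  simp

/-- invariance of the operator of a span under conjugation -/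
theorem op_conj (s s' : LrSpan Γ' Γ) (g : SL(2, ℤ)) (hg : g ∈ Γ') (k : SL(2, ℤ)) (hk : k ∈ Γ)
    (hL : ∀ y, y ∈ Γ' → (y ∈ s'.L ↔ g * y * g⁻¹ ∈ s.L))
    (hF : ∀ y, y ∈ Γ' → y ∈ s'.L → s'.F y = k * s.F (g * y * g⁻¹) * k⁻¹)
    (χ : ↥Γ →* A) : s'.op χ = s.op χ := by
  have := s.fin
  have := s'.fin
  unfold op
  refine lr_transfer_conj (s.L.subgroupOf Γ') (s'.L.subgroupOf Γ') ⟨g, hg⟩ ?_ _ _ ?_
  · intro y
    rw [Subgroup.mem_subgroupOf, Subgroup.mem_subgroupOf]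
    exact hL y.1 y.2
  · intro y hy' hy
    rw [MonoidHom.comp_apply, MonoidHom.comp_apply]
    have h1 : s'.hom ⟨y, hy'⟩ = ⟨k, hk⟩ * s.hom ⟨_, hy⟩ * ⟨k, hk⟩⁻¹ := by
      apply Subtype.ext
      exact hF y.1 y.2 hy'
    rw [h1, map_mul, map_mul, map_inv, mul_comm, ← mul_assoc, inv_mul_cancel, one_mul]

/-- two spans with the same data define the same operator -/
theorem op_congr (s s' : LrSpan Γ' Γ)
    (hL : ∀ y, y ∈ Γ' → (y ∈ s'.L ↔ y ∈ s.L))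
    (hF : ∀ y, y ∈ Γ' → y ∈ s'.L → s'.F y = s.F y)
    (χ : ↥Γ →* A) : s'.op χ = s.op χ :=
  op_conj s s' 1 Γ'.one_mem 1 Γ.one_mem (fun y hy => by simpa using hL y hy)
    (fun y hy hy' => by simpa using hF y hy hy') χ

/-- the operator of a span with `L = ⊤` is the composition with its homomorphism -/
theorem op_top (s : LrSpan Γ' Γ) (hL : ∀ y, y ∈ Γ' → y ∈ s.L) (χ : ↥Γ →* A) (γ : ↥Γ') :
    s.op χ γ = χ ⟨s.F γ.1, s.F_mem _ γ.2 (hL _ γ.2)⟩ := by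
  have := s.fin
  unfold op
  rw [lr_transfer_top (s.L.subgroupOf Γ') (fun g => hL g.1 g.2)]
  rfl

end LrSpan


/-! ### parabolic elements and parabolic characters -/

/-- the trace of an element of `SL(2,ℤ)` -/
def lrhTr (x : SL(2, ℤ)) : ℤ := x 0 0 + x 1 1

theorem lrhTr_eq_trace (x : SL(2, ℤ)) : (x : Matrix (Fin 2) (Fin 2) ℤ).trace = lrhTr x := by
  rw [Matrix.trace_fin_two]; rfl

theorem lrhTr_one : lrhTr 1 = 2 := by
  rw [lrhTr, lrh_one_00, lrh_one_11]; rfl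

theorem lrhTr_conj (g x : SL(2, ℤ)) : lrhTr (g⁻¹ * x * g) = lrhTr x := by
  have h := lrh_sl_det g
  simp only [lrhTr, lrh_mul_00, lrh_mul_11, lrh_mul_01, lrh_mul_10, lrh_inv_00, lrh_inv_01, lrh_inv_10,
    lrh_inv_11]
  linear_combination (x 0 0 + x 1 1) * h

theorem lrhTr_mul_succ (x y : SL(2, ℤ)) :
    lrhTr (y * x * x) = lrhTr x * lrhTr (y * x) - lrhTr y := by
  have h := lrh_sl_det x
  simp only [lrhTr, lrh_mul_00, lrh_mul_11, lrh_mul_01, lrh_mul_10]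
  linear_combination (-(y 0 0) - y 1 1) * h

theorem lrhTr_pow (x : SL(2, ℤ)) (hx : lrhTr x ^ 2 = 4) (n : ℕ) : lrhTr (x ^ n) ^ 2 = 4 := by
  have key : ∀ n : ℕ, 2 * lrhTr (x ^ (n + 1)) = lrhTr x * lrhTr (x ^ n) ∧ lrhTr (x ^ n) ^ 2 = 4 := by
    intro n
    induction n with
    | zero =>
      rw [pow_zero, zero_add, pow_one, lrhTr_one]
      exact ⟨by ring, by norm_num⟩
    | succ n ih =>
      obtain ⟨h1, h2⟩ := ih
      have h3 : lrhTr (x ^ (n + 1 + 1)) = lrhTr x * lrhTr (x ^ (n + 1)) - lrhTr (x ^ n) := by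
        rw [pow_succ, pow_succ]
        exact lrhTr_mul_succ x (x ^ n)
      constructor
      · rw [h3]
        have e1 : lrhTr x * (2 * lrhTr (x ^ (n + 1))) = lrhTr x * (lrhTr x * lrhTr (x ^ n)) := by
          rw [h1]
        have e2 : lrhTr x * (lrhTr x * lrhTr (x ^ n)) = 4 * lrhTr (x ^ n) := by
          rw [← mul_assoc, ← sq, hx]
        linarith
      · have e1 : (2 * lrhTr (x ^ (n + 1))) ^ 2 = (lrhTr x * lrhTr (x ^ n)) ^ 2 := by rw [h1]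
        rw [mul_pow, mul_pow, hx, h2] at e1
        linarith
  exact (key n).2

variable {Γ' Γ : Subgroup SL(2, ℤ)} {A : Type*} [CommGroup A]

/-- parabolic characters, multiplicative form -/
def lrhParChar (Γ : Subgroup SL(2, ℤ)) (χ : ↥Γ →* A) : Prop :=
  ∀ γ : ↥Γ, lrhTr γ.1 ^ 2 = 4 → χ γ = 1

/-- the operator of a trace-preserving span preserves parabolic characters -/
theorem LrSpan.op_par (s : LrSpan Γ' Γ)
    (hs : ∀ x, x ∈ Γ' → x ∈ s.L → lrhTr (s.F x) = lrhTr x) (χ : ↥Γ →* A)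
    (hχ : lrhParChar Γ χ) : lrhParChar Γ' (s.op χ) := by
  have := s.fin
  intro γ hγ
  unfold LrSpan.op
  refine lr_transfer_eq_one_of_class (χ.comp s.hom) (fun g : ↥Γ' => lrhTr g.1 ^ 2 = 4) ?_ ?_ ?_ γ hγ
  · intro g x hg
    show lrhTr ((x : SL(2, ℤ))⁻¹ * g.1 * x.1) ^ 2 = 4
    rw [lrhTr_conj]; exact hg
  · intro g n hg
    show lrhTr ((g : SL(2, ℤ)) ^ n) ^ 2 = 4
    exact lrhTr_pow _ hg n
  · intro h hh
    rw [MonoidHom.comp_apply]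
    apply hχ
    rw [LrSpan.hom_coe, hs _ h.1.2 h.2]
    exact hh


/-! ### spans of a given matrix type -/

theorem lrh_coe_inv_mul (x : SL(2, ℤ)) :
    ((x⁻¹ : SL(2, ℤ)) : Matrix (Fin 2) (Fin 2) ℤ) * (x : Matrix (Fin 2) (Fin 2) ℤ) = 1 := by
  rw [← Matrix.SpecialLinearGroup.coe_mul, inv_mul_cancel, Matrix.SpecialLinearGroup.coe_one]

theorem lrh_coe_mul_inv (x : SL(2, ℤ)) :
    (x : Matrix (Fin 2) (Fin 2) ℤ) * ((x⁻¹ : SL(2, ℤ)) : Matrix (Fin 2) (Fin 2) ℤ) = 1 := by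
  rw [← Matrix.SpecialLinearGroup.coe_mul, mul_inv_cancel, Matrix.SpecialLinearGroup.coe_one]

/-- right cancellation of an integer matrix of nonzero determinant -/
theorem lrh_mul_right_cancel {Y Z D : Matrix (Fin 2) (Fin 2) ℤ} (hD : D.det ≠ 0)
    (h : Y * D = Z * D) : Y = Z := by
  have h1 : D.det • Y = D.det • Z := by
    have := congrArg (fun W => W * D.adjugate) h
    simp only [Matrix.mul_assoc, Matrix.mul_adjugate, Matrix.mul_smul, Matrix.mul_one] at this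
    exact this
  ext i j
  have h2 := congrFun (congrFun h1 i) j
  simp only [Matrix.smul_apply, smul_eq_mul] at h2
  exact mul_left_cancel₀ hD h2

theorem lrh_ring_conj_iff {R : Type*} [Ring R] (K Ki G Gi D Y G1 : R) (hKiK : Ki * K = 1)
    (hKKi : K * Ki = 1) (hGGi : G * Gi = 1) (hGiG : Gi * G = 1) :
    K * D * G * Y = G1 * (K * D * G) ↔ D * (G * Y * Gi) = Ki * G1 * K * D := by
  constructor
  · intro e
    calc D * (G * Y * Gi) = Ki * K * D * (G * Y * Gi) := by rw [hKiK, one_mul]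
      _ = Ki * (K * D * G * Y) * Gi := by simp only [mul_assoc]
      _ = Ki * (G1 * (K * D * G)) * Gi := by rw [e]
      _ = Ki * G1 * K * D * (G * Gi) := by simp only [mul_assoc]
      _ = Ki * G1 * K * D := by rw [hGGi, mul_one]
  · intro e
    calc K * D * G * Y = K * (D * (G * Y * Gi)) * G := by
          simp only [mul_assoc]; rw [hGiG, mul_one]
      _ = K * (Ki * G1 * K * D) * G := by rw [e]
      _ = K * Ki * G1 * (K * D * G) := by simp only [mul_assoc]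
      _ = G1 * (K * D * G) := by rw [hKKi, one_mul]

variable {Γ' Γ : Subgroup SL(2, ℤ)} {A : Type*} [CommGroup A]

/-- `s` is a span of type `D`: `L ∩ Γ'` consists of the `y ∈ Γ'` with `D y D⁻¹ ∈ Γ`, and
`F y = D y D⁻¹` there. -/
structure LrSpan.IsOf (s : LrSpan Γ' Γ) (D : Matrix (Fin 2) (Fin 2) ℤ) : Prop where
  det_ne : D.det ≠ 0
  mem_iff : ∀ y, y ∈ Γ' → (y ∈ s.L ↔ ∃ g, g ∈ Γ ∧
    D * (y : Matrix (Fin 2) (Fin 2) ℤ) = (g : Matrix (Fin 2) (Fin 2) ℤ) * D)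
  inter : ∀ y, y ∈ Γ' → y ∈ s.L →
    D * (y : Matrix (Fin 2) (Fin 2) ℤ) = (s.F y : Matrix (Fin 2) (Fin 2) ℤ) * D

theorem LrSpan.IsOf.F_eq {s : LrSpan Γ' Γ} {D : Matrix (Fin 2) (Fin 2) ℤ} (hs : s.IsOf D)
    {y g : SL(2, ℤ)} (hy : y ∈ Γ') (hyL : y ∈ s.L)
    (h : D * (y : Matrix (Fin 2) (Fin 2) ℤ) = (g : Matrix (Fin 2) (Fin 2) ℤ) * D) :
    s.F y = g := by
  apply Subtype.ext
  exact lrh_mul_right_cancel hs.det_ne ((hs.inter y hy hyL).symm.trans h)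

/-- two spans whose types differ by elements of `Γ` and `Γ'` define the same operator -/
theorem LrSpan.op_eq_of_isOf (s s' : LrSpan Γ' Γ) {D D' : Matrix (Fin 2) (Fin 2) ℤ}
    (hs : s.IsOf D) (hs' : s'.IsOf D') (k g : SL(2, ℤ)) (hk : k ∈ Γ) (hg : g ∈ Γ')
    (h : D' = (k : Matrix (Fin 2) (Fin 2) ℤ) * D * (g : Matrix (Fin 2) (Fin 2) ℤ))
    (χ : ↥Γ →* A) : s'.op χ = s.op χ := by
  have key : ∀ (y g₁ : SL(2, ℤ)),
      D' * (y : Matrix (Fin 2) (Fin 2) ℤ) = (g₁ : Matrix (Fin 2) (Fin 2) ℤ) * D' ↔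
      D * ((g * y * g⁻¹ : SL(2, ℤ)) : Matrix (Fin 2) (Fin 2) ℤ) =
        ((k⁻¹ * g₁ * k : SL(2, ℤ)) : Matrix (Fin 2) (Fin 2) ℤ) * D := by
    intro y g₁
    simp only [Matrix.SpecialLinearGroup.coe_mul]
    rw [h]
    exact lrh_ring_conj_iff _ _ _ _ _ _ _ (lrh_coe_inv_mul k) (lrh_coe_mul_inv k)
      (lrh_coe_mul_inv g) (lrh_coe_inv_mul g)
  have hconj : ∀ y, y ∈ Γ' → g * y * g⁻¹ ∈ Γ' := fun y hy =>
    Γ'.mul_mem (Γ'.mul_mem hg hy) (Γ'.inv_mem hg)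
  have hL : ∀ y, y ∈ Γ' → (y ∈ s'.L ↔ g * y * g⁻¹ ∈ s.L) := by
    intro y hy
    rw [hs'.mem_iff y hy, hs.mem_iff _ (hconj y hy)]
    constructor
    · rintro ⟨g₁, hg₁, e⟩
      exact ⟨k⁻¹ * g₁ * k, Γ.mul_mem (Γ.mul_mem (Γ.inv_mem hk) hg₁) hk, (key y g₁).mp e⟩
    · rintro ⟨g₂, hg₂, e⟩
      refine ⟨k * g₂ * k⁻¹, Γ.mul_mem (Γ.mul_mem hk hg₂) (Γ.inv_mem hk), (key y _).mpr ?_⟩
      have : k⁻¹ * (k * g₂ * k⁻¹) * k = g₂ := by group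
      rw [this]; exact e
  refine LrSpan.op_conj s s' g hg k hk hL ?_ χ
  intro y hy hyL
  have h1 := hs'.inter y hy hyL
  have h2 := (key y (s'.F y)).mp h1
  have h3 := hs.F_eq (hconj y hy) ((hL y hy).mp hyL) h2
  rw [h3]
  group


/-! ### additive form -/

section additive

variable {Γ'' Γ' Γ : Subgroup SL(2, ℤ)} {B : Type*} [AddCommGroup B]

/-- the operator of a span on additive characters -/
noncomputable def LrSpan.aop (s : LrSpan Γ' Γ) :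
    (Additive ↥Γ →+ B) →+ (Additive ↥Γ' →+ B) where
  toFun χ := MonoidHom.toAdditiveLeft (s.op (AddMonoidHom.toMultiplicativeRight χ))
  map_zero' := by
    have h : AddMonoidHom.toMultiplicativeRight (0 : Additive ↥Γ →+ B) = 1 := rfl
    rw [h, s.op_one]; rfl
  map_add' χ χ' := by
    have h : AddMonoidHom.toMultiplicativeRight (χ + χ') =
        AddMonoidHom.toMultiplicativeRight χ * AddMonoidHom.toMultiplicativeRight χ' := rfl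
    rw [h, s.op_mul]; rfl

theorem LrSpan.aop_def (s : LrSpan Γ' Γ) (χ : Additive ↥Γ →+ B) :
    s.aop χ = MonoidHom.toAdditiveLeft (s.op (AddMonoidHom.toMultiplicativeRight χ)) := rfl

theorem LrSpan.toMul_aop (s : LrSpan Γ' Γ) (χ : Additive ↥Γ →+ B) :
    AddMonoidHom.toMultiplicativeRight (s.aop χ) =
      s.op (AddMonoidHom.toMultiplicativeRight χ) := rfl

theorem LrSpan.aop_comp_sum (s₂ : LrSpan Γ'' Γ') (s₁ : LrSpan Γ' Γ) {ι : Type*} [Fintype ι]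
    (δ : ι → SL(2, ℤ)) (hδ : ∀ i, δ i ∈ Γ') (s₃ : ι → LrSpan Γ'' Γ)
    (hδs : ∀ x, x ∈ Γ' → ∃ i y, y ∈ Γ'' ∧ y ∈ s₂.L ∧ (s₂.F y * δ i)⁻¹ * x ∈ s₁.L)
    (hδi : ∀ i j y, y ∈ Γ'' → y ∈ s₂.L → (s₂.F y * δ i)⁻¹ * δ j ∈ s₁.L → i = j)
    (hL : ∀ i y, y ∈ Γ'' → (y ∈ (s₃ i).L ↔ (y ∈ s₂.L ∧ (δ i)⁻¹ * s₂.F y * δ i ∈ s₁.L)))
    (hF : ∀ i y, y ∈ Γ'' → y ∈ (s₃ i).L → (s₃ i).F y = s₁.F ((δ i)⁻¹ * s₂.F y * δ i))
    (χ : Additive ↥Γ →+ B) :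
    s₂.aop (s₁.aop χ) = ∑ i, (s₃ i).aop χ := by
  rw [LrSpan.aop_def, LrSpan.toMul_aop, LrSpan.op_comp_sum s₂ s₁ δ hδ s₃ hδs hδi hL hF]
  refine AddMonoidHom.ext fun γ => ?_
  rw [AddMonoidHom.finsetSum_apply, MonoidHom.coe_toAdditiveLeft]
  simp only [Function.comp_apply, MonoidHom.finsetProd_apply, toAdd_prod]
  rfl

theorem LrSpan.aop_comp (s₂ : LrSpan Γ'' Γ') (s₁ : LrSpan Γ' Γ) (s₃ : LrSpan Γ'' Γ)
    (hs : ∀ x, x ∈ Γ' → ∃ y, y ∈ Γ'' ∧ y ∈ s₂.L ∧ (s₂.F y)⁻¹ * x ∈ s₁.L)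
    (hL : ∀ y, y ∈ Γ'' → (y ∈ s₃.L ↔ (y ∈ s₂.L ∧ s₂.F y ∈ s₁.L)))
    (hF : ∀ y, y ∈ Γ'' → y ∈ s₃.L → s₃.F y = s₁.F (s₂.F y))
    (χ : Additive ↥Γ →+ B) :
    s₂.aop (s₁.aop χ) = s₃.aop χ := by
  rw [LrSpan.aop_def, LrSpan.toMul_aop, LrSpan.op_comp s₂ s₁ s₃ hs hL hF]
  rfl

theorem LrSpan.aop_eq_of_isOf (s s' : LrSpan Γ' Γ) {D D' : Matrix (Fin 2) (Fin 2) ℤ}
    (hs : s.IsOf D) (hs' : s'.IsOf D') (k g : SL(2, ℤ)) (hk : k ∈ Γ) (hg : g ∈ Γ')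
    (h : D' = (k : Matrix (Fin 2) (Fin 2) ℤ) * D * (g : Matrix (Fin 2) (Fin 2) ℤ))
    (χ : Additive ↥Γ →+ B) : s'.aop χ = s.aop χ := by
  rw [LrSpan.aop_def, LrSpan.aop_def, LrSpan.op_eq_of_isOf s s' hs hs' k g hk hg h]

theorem LrSpan.aop_congr (s s' : LrSpan Γ' Γ)
    (hL : ∀ y, y ∈ Γ' → (y ∈ s'.L ↔ y ∈ s.L))
    (hF : ∀ y, y ∈ Γ' → y ∈ s'.L → s'.F y = s.F y)
    (χ : Additive ↥Γ →+ B) : s'.aop χ = s.aop χ := by
  rw [LrSpan.aop_def, LrSpan.aop_def, LrSpan.op_congr s s' hL hF]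

theorem LrSpan.aop_top (s : LrSpan Γ' Γ) (hL : ∀ y, y ∈ Γ' → y ∈ s.L)
    (χ : Additive ↥Γ →+ B) (γ : ↥Γ') :
    s.aop χ (Additive.ofMul γ) = χ (Additive.ofMul ⟨s.F γ.1, s.F_mem _ γ.2 (hL _ γ.2)⟩) := by
  rw [LrSpan.aop_def, MonoidHom.coe_toAdditiveLeft]
  simp only [Function.comp_apply, toMul_ofMul]
  rw [LrSpan.op_top s hL]
  rfl

theorem LrSpan.aop_comp_left (s : LrSpan Γ' Γ) {B' : Type*} [AddCommGroup B'] (φ : B →+ B')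
    (χ : Additive ↥Γ →+ B) : s.aop (φ.comp χ) = φ.comp (s.aop χ) := by
  have h : AddMonoidHom.toMultiplicativeRight (φ.comp χ) =
      (AddMonoidHom.toMultiplicative φ).comp (AddMonoidHom.toMultiplicativeRight χ) := rfl
  rw [LrSpan.aop_def, h, LrSpan.op_comp_left]
  rfl

/-- the operator of a trace-preserving span preserves parabolic characters -/
theorem LrSpan.aop_par (s : LrSpan Γ' Γ)
    (hs : ∀ x, x ∈ Γ' → x ∈ s.L → lrhTr (s.F x) = lrhTr x) (χ : Additive ↥Γ →+ B)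
    (hχ : ModularCurve.Period.IsParabolicHom Γ χ) :
    ModularCurve.Period.IsParabolicHom Γ' (s.aop χ) := by
  have h1 : lrhParChar Γ (AddMonoidHom.toMultiplicativeRight χ) := by
    intro γ hγ
    have := hχ γ (by rw [lrhTr_eq_trace]; exact hγ)
    show Multiplicative.ofAdd (χ (Additive.ofMul γ)) = 1
    rw [this]; rfl
  have h2 := s.op_par hs _ h1
  intro γ hγ
  have := h2 γ (by rw [← lrhTr_eq_trace]; exact hγ)
  rw [LrSpan.aop_def, MonoidHom.coe_toAdditiveLeft]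
  simp only [Function.comp_apply, toMul_ofMul]
  rw [this]; rfl

end additive


/-! ### concrete matrices, elements and spans -/

/-- `diag(1, l)` -/
def lrhD (l : ℕ) : Matrix (Fin 2) (Fin 2) ℤ := !![1, 0; 0, (l : ℤ)]

/-- `diag(q, 1)` -/
def lrhE (q : ℕ) : Matrix (Fin 2) (Fin 2) ℤ := !![(q : ℤ), 0; 0, 1]

theorem lrhD_det (l : ℕ) : (lrhD l).det = l := by simp [lrhD]

theorem lrhE_det (q : ℕ) : (lrhE q).det = q := by simp [lrhE]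

theorem lrhD_mul_eq_iff (l : ℕ) (y g : SL(2, ℤ)) :
    lrhD l * (y : Matrix (Fin 2) (Fin 2) ℤ) = (g : Matrix (Fin 2) (Fin 2) ℤ) * lrhD l ↔
      (y 0 0 = g 0 0 ∧ y 0 1 = g 0 1 * l ∧ (l : ℤ) * y 1 0 = g 1 0 ∧
        (l : ℤ) * y 1 1 = g 1 1 * l) := by
  constructor
  · intro h
    have h00 := congrFun (congrFun h 0) 0
    have h01 := congrFun (congrFun h 0) 1
    have h10 := congrFun (congrFun h 1) 0
    have h11 := congrFun (congrFun h 1) 1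
    simp only [lrhD, Matrix.mul_apply, Fin.sum_univ_two, Matrix.of_apply, Matrix.cons_val_zero,
      Matrix.cons_val_one, Matrix.cons_val', Matrix.cons_val_fin_one, one_mul, zero_mul, mul_one,
      mul_zero, add_zero, zero_add] at h00 h01 h10 h11
    exact ⟨h00, h01, h10, h11⟩
  · rintro ⟨h00, h01, h10, h11⟩
    ext i j
    fin_cases i <;> fin_cases j <;>
      simp only [lrhD, Matrix.mul_apply, Fin.sum_univ_two, Matrix.of_apply, Matrix.cons_val_zero,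
        Matrix.cons_val_one, Matrix.cons_val', Matrix.cons_val_fin_one, one_mul, zero_mul,
        mul_one, mul_zero, add_zero, zero_add, Fin.zero_eta, Fin.mk_one] <;> assumption

theorem lrhE_mul_eq_iff (q : ℕ) (y g : SL(2, ℤ)) :
    lrhE q * (y : Matrix (Fin 2) (Fin 2) ℤ) = (g : Matrix (Fin 2) (Fin 2) ℤ) * lrhE q ↔
      ((q : ℤ) * y 0 0 = g 0 0 * q ∧ (q : ℤ) * y 0 1 = g 0 1 ∧ y 1 0 = g 1 0 * q ∧
        y 1 1 = g 1 1) := by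
  constructor
  · intro h
    have h00 := congrFun (congrFun h 0) 0
    have h01 := congrFun (congrFun h 0) 1
    have h10 := congrFun (congrFun h 1) 0
    have h11 := congrFun (congrFun h 1) 1
    simp only [lrhE, Matrix.mul_apply, Fin.sum_univ_two, Matrix.of_apply, Matrix.cons_val_zero,
      Matrix.cons_val_one, Matrix.cons_val', Matrix.cons_val_fin_one, one_mul, zero_mul, mul_one,
      mul_zero, add_zero, zero_add] at h00 h01 h10 h11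
    exact ⟨h00, h01, h10, h11⟩
  · rintro ⟨h00, h01, h10, h11⟩
    ext i j
    fin_cases i <;> fin_cases j <;>
      simp only [lrhE, Matrix.mul_apply, Fin.sum_univ_two, Matrix.of_apply, Matrix.cons_val_zero,
        Matrix.cons_val_one, Matrix.cons_val', Matrix.cons_val_fin_one, one_mul, zero_mul,
        mul_one, mul_zero, add_zero, zero_add, Fin.zero_eta, Fin.mk_one] <;> assumption

/-- the "up" span of type `diag(1, l)` from level `M'` to level `M` (`M ∣ M' * l`) -/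
def lrSpanUp (M' M l : ℕ) [NeZero l] (h : M ∣ M' * l) : LrSpan (Gamma0 M') (Gamma0 M) where
  L := lrhGup l
  F := lrhUp l
  F_mem := by
    intro x hx hxL
    rw [lrh_mem_Gamma0] at hx ⊢
    rw [lrh_mem_Gup] at hxL
    rw [lrhUp_10 hxL]
    obtain ⟨k, hk⟩ := hx
    have h2 : ((M : ℕ) : ℤ) ∣ ((M' * l : ℕ) : ℤ) := Int.natCast_dvd_natCast.mpr h
    rw [hk]
    refine Dvd.dvd.trans h2 ⟨k, ?_⟩
    push_cast; ring
  F_mul := fun x y _ hx _ hy => lrhUp_mul l x y hx hy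
  fin := inferInstance

theorem lrSpanUp_isOf (M' M l : ℕ) [NeZero l] (h : M ∣ M' * l) :
    (lrSpanUp M' M l h).IsOf (lrhD l) := by
  have hl : (l : ℤ) ≠ 0 := by exact_mod_cast NeZero.ne l
  refine ⟨by rw [lrhD_det]; exact hl, ?_, ?_⟩
  · intro y hy
    constructor
    · intro hyL
      have hyL' : (l : ℤ) ∣ y 0 1 := hyL
      refine ⟨lrhUp l y, (lrSpanUp M' M l h).F_mem y hy hyL, ?_⟩
      rw [lrhD_mul_eq_iff, lrhUp_00 hyL', lrhUp_01 hyL', lrhUp_10 hyL', lrhUp_11 hyL']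
      exact ⟨rfl, (Int.ediv_mul_cancel hyL').symm, rfl, mul_comm _ _⟩
    · rintro ⟨g, -, hg⟩
      rw [lrhD_mul_eq_iff] at hg
      exact ⟨g 0 1, by rw [hg.2.1, mul_comm]⟩
  · intro y hy hyL
    have hyL' : (l : ℤ) ∣ y 0 1 := hyL
    show lrhD l * (y : Matrix (Fin 2) (Fin 2) ℤ) = (lrhUp l y : Matrix (Fin 2) (Fin 2) ℤ) * lrhD l
    rw [lrhD_mul_eq_iff, lrhUp_00 hyL', lrhUp_01 hyL', lrhUp_10 hyL', lrhUp_11 hyL']
    exact ⟨rfl, (Int.ediv_mul_cancel hyL').symm, rfl, mul_comm _ _⟩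

/-- the span of type `1` from level `M'` to level `M`: restriction if `M ∣ M'`, corestriction
(transfer) if `M' ∣ M` -/
def lrSpanOne (M' M : ℕ) [NeZero M] : LrSpan (Gamma0 M') (Gamma0 M) where
  L := Gamma0 M
  F := fun x => x
  F_mem := fun _ _ hx => hx
  F_mul := fun _ _ _ _ _ _ => rfl
  fin := inferInstance

theorem lrSpanOne_isOf (M' M : ℕ) [NeZero M] : (lrSpanOne M' M).IsOf 1 := by
  refine ⟨by simp, ?_, ?_⟩
  · intro y _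
    constructor
    · intro hyL
      exact ⟨y, hyL, by rw [Matrix.one_mul, Matrix.mul_one]⟩
    · rintro ⟨g, hg, e⟩
      rw [Matrix.one_mul, Matrix.mul_one] at e
      have : y = g := Subtype.ext e
      rw [this]; exact hg
  · intro y _ _
    show (1 : Matrix (Fin 2) (Fin 2) ℤ) * (y : Matrix (Fin 2) (Fin 2) ℤ) = _ * 1
    rw [Matrix.one_mul, Matrix.mul_one]; rfl

/-- the "down" span of type `diag(q, 1)` from level `M'` to level `M` (`M * q ∣ M'`) -/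
def lrSpanDn (M' M q : ℕ) [NeZero q] (h : M * q ∣ M') : LrSpan (Gamma0 M') (Gamma0 M) where
  L := ⊤
  F := lrhDn q
  F_mem := by
    intro x hx _
    rw [lrh_mem_Gamma0] at hx ⊢
    have h2 : ((M * q : ℕ) : ℤ) ∣ ((M' : ℕ) : ℤ) := Int.natCast_dvd_natCast.mpr h
    obtain ⟨k, hk⟩ := Dvd.dvd.trans h2 hx
    have hq : (q : ℤ) ≠ 0 := by exact_mod_cast NeZero.ne q
    have hk' : x 1 0 = (q : ℤ) * ((M : ℤ) * k) := by rw [hk]; push_cast; ring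
    have hqx : (q : ℤ) ∣ x 1 0 := ⟨_, hk'⟩
    rw [lrhDn_10 hqx, hk', Int.mul_ediv_cancel_left _ hq]
    exact Dvd.intro _ rfl
  F_mul := by
    intro x y hx _ hy _
    rw [lrh_mem_Gamma0] at hx hy
    have h2 : ((q : ℕ) : ℤ) ∣ ((M' : ℕ) : ℤ) :=
      Int.natCast_dvd_natCast.mpr (Dvd.dvd.trans (Dvd.intro_left _ rfl) h)
    exact lrhDn_mul q x y (h2.trans hx) (h2.trans hy)
  fin := inferInstance

theorem lrSpanDn_isOf (M' M q : ℕ) [NeZero q] (h : M * q ∣ M') :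
    (lrSpanDn M' M q h).IsOf (lrhE q) := by
  have hq : (q : ℤ) ≠ 0 := by exact_mod_cast NeZero.ne q
  have hdvd : ∀ y, y ∈ Gamma0 M' → (q : ℤ) ∣ y 1 0 := by
    intro y hy
    rw [lrh_mem_Gamma0] at hy
    have h2 : ((q : ℕ) : ℤ) ∣ ((M' : ℕ) : ℤ) :=
      Int.natCast_dvd_natCast.mpr (Dvd.dvd.trans (Dvd.intro_left _ rfl) h)
    exact h2.trans hy
  have hint : ∀ y, y ∈ Gamma0 M' → lrhE q * (y : Matrix (Fin 2) (Fin 2) ℤ) =
      (lrhDn q y : Matrix (Fin 2) (Fin 2) ℤ) * lrhE q := by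
    intro y hy
    have hqy := hdvd y hy
    rw [lrhE_mul_eq_iff, lrhDn_00 hqy, lrhDn_01 hqy, lrhDn_10 hqy, lrhDn_11 hqy]
    exact ⟨mul_comm _ _, rfl, (Int.ediv_mul_cancel hqy).symm, rfl⟩
  refine ⟨by rw [lrhE_det]; exact hq, ?_, ?_⟩
  · intro y hy
    constructor
    · intro _
      exact ⟨lrhDn q y, (lrSpanDn M' M q h).F_mem y hy (Subgroup.mem_top _), hint y hy⟩
    · intro _
      exact Subgroup.mem_top _
  · intro y hy _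
    exact hint y hy


/-! ### twisted composition of spans -/

section comp

variable {Γ'' Γ' Γ : Subgroup SL(2, ℤ)}

theorem LrSpan.F_one (s : LrSpan Γ' Γ) : s.F 1 = 1 := by
  have h := s.F_mul 1 1 Γ'.one_mem s.L.one_mem Γ'.one_mem s.L.one_mem
  rw [mul_one] at h
  exact left_eq_mul.mp h

theorem LrSpan.F_inv (s : LrSpan Γ' Γ) (x : SL(2, ℤ)) (hx : x ∈ Γ') (hxL : x ∈ s.L) :
    s.F x⁻¹ = (s.F x)⁻¹ := by
  have h := s.F_mul x⁻¹ x (Γ'.inv_mem hx) (s.L.inv_mem hxL) hx hxL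
  rw [inv_mul_cancel, s.F_one] at h
  exact eq_inv_of_mul_eq_one_left h.symm

/-- the twisted composite of two spans: `y ↦ F₁ (δ⁻¹ * F₂ y * δ)` -/
def LrSpan.compTw (s₂ : LrSpan Γ'' Γ') (s₁ : LrSpan Γ' Γ) (δ : SL(2, ℤ)) (hδ : δ ∈ Γ') :
    LrSpan Γ'' Γ where
  L :=
    { carrier := {y | y ∈ Γ'' ∧ y ∈ s₂.L ∧ δ⁻¹ * s₂.F y * δ ∈ s₁.L}
      one_mem' := by
        refine ⟨Γ''.one_mem, s₂.L.one_mem, ?_⟩
        rw [s₂.F_one, mul_one, inv_mul_cancel]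
        exact s₁.L.one_mem
      mul_mem' := by
        rintro a b ⟨ha, haL, ha1⟩ ⟨hb, hbL, hb1⟩
        refine ⟨Γ''.mul_mem ha hb, s₂.L.mul_mem haL hbL, ?_⟩
        rw [s₂.F_mul a b ha haL hb hbL]
        have : δ⁻¹ * (s₂.F a * s₂.F b) * δ = (δ⁻¹ * s₂.F a * δ) * (δ⁻¹ * s₂.F b * δ) := by group
        rw [this]
        exact s₁.L.mul_mem ha1 hb1
      inv_mem' := by
        rintro a ⟨ha, haL, ha1⟩
        refine ⟨Γ''.inv_mem ha, s₂.L.inv_mem haL, ?_⟩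
        rw [s₂.F_inv a ha haL]
        have : δ⁻¹ * (s₂.F a)⁻¹ * δ = (δ⁻¹ * s₂.F a * δ)⁻¹ := by group
        rw [this]
        exact s₁.L.inv_mem ha1 }
  F := fun y => s₁.F (δ⁻¹ * s₂.F y * δ)
  F_mem := by
    rintro x hx ⟨-, hxL, hx1⟩
    exact s₁.F_mem _ (Γ'.mul_mem (Γ'.mul_mem (Γ'.inv_mem hδ) (s₂.F_mem x hx hxL)) hδ) hx1
  F_mul := by
    rintro a b ha ⟨-, haL, ha1⟩ hb ⟨-, hbL, hb1⟩
    have hm : ∀ x, x ∈ Γ'' → x ∈ s₂.L → δ⁻¹ * s₂.F x * δ ∈ Γ' := fun x hx hxL =>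
      Γ'.mul_mem (Γ'.mul_mem (Γ'.inv_mem hδ) (s₂.F_mem x hx hxL)) hδ
    show s₁.F (δ⁻¹ * s₂.F (a * b) * δ) = _
    rw [s₂.F_mul a b ha haL hb hbL]
    have : δ⁻¹ * (s₂.F a * s₂.F b) * δ = (δ⁻¹ * s₂.F a * δ) * (δ⁻¹ * s₂.F b * δ) := by group
    rw [this]
    exact s₁.F_mul _ _ (hm a ha haL) ha1 (hm b hb hbL) hb1
  fin := by
    have := s₂.fin
    have := s₁.fin
    -- the subgroup of `L₂ ∩ Γ''` cut out by the condition
    let c : ↥(s₂.L.subgroupOf Γ'') →* ↥Γ' :=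
      (MulAut.conj (⟨δ, hδ⟩ : ↥Γ')⁻¹).toMonoidHom.comp s₂.hom
    have h1 : ((s₁.L.subgroupOf Γ').comap c).FiniteIndex := lr_finiteIndex_comap c _
    refine lr_finiteIndex_of_spec ((s₁.L.subgroupOf Γ').comap c) _ ?_
    intro x
    constructor
    · intro hx
      obtain ⟨-, hxL, hx1⟩ := (Subgroup.mem_subgroupOf.mp hx)
      refine ⟨hxL, ?_⟩
      rw [Subgroup.mem_comap, Subgroup.mem_subgroupOf]
      simpa [c, LrSpan.hom_coe] using hx1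
    · rintro ⟨hxL, hx1⟩
      rw [Subgroup.mem_comap, Subgroup.mem_subgroupOf] at hx1
      rw [Subgroup.mem_subgroupOf]
      refine ⟨x.2, hxL, ?_⟩
      simpa [c, LrSpan.hom_coe] using hx1

variable {A : Type*} [CommGroup A]

/-- composition of spans: the double coset formula with twisted composites -/
theorem LrSpan.op_comp_tw (s₂ : LrSpan Γ'' Γ') (s₁ : LrSpan Γ' Γ) {ι : Type*} [Fintype ι]
    (δ : ι → SL(2, ℤ)) (hδ : ∀ i, δ i ∈ Γ')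
    (hδs : ∀ x, x ∈ Γ' → ∃ i y, y ∈ Γ'' ∧ y ∈ s₂.L ∧ (s₂.F y * δ i)⁻¹ * x ∈ s₁.L)
    (hδi : ∀ i j y, y ∈ Γ'' → y ∈ s₂.L → (s₂.F y * δ i)⁻¹ * δ j ∈ s₁.L → i = j)
    (χ : ↥Γ →* A) :
    s₂.op (s₁.op χ) = ∏ i, (s₂.compTw s₁ (δ i) (hδ i)).op χ :=
  LrSpan.op_comp_sum s₂ s₁ δ hδ (fun i => s₂.compTw s₁ (δ i) (hδ i)) hδs hδi
    (fun _ _ hy => ⟨fun h => ⟨h.2.1, h.2.2⟩, fun h => ⟨hy, h.1, h.2⟩⟩)
    (fun _ _ _ _ => rfl) χ

/-- composition of spans when there is a single double coset -/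
theorem LrSpan.op_comp_tw_one (s₂ : LrSpan Γ'' Γ') (s₁ : LrSpan Γ' Γ)
    (hs : ∀ x, x ∈ Γ' → ∃ y, y ∈ Γ'' ∧ y ∈ s₂.L ∧ (s₂.F y)⁻¹ * x ∈ s₁.L)
    (χ : ↥Γ →* A) :
    s₂.op (s₁.op χ) = (s₂.compTw s₁ 1 Γ'.one_mem).op χ := by
  have key := LrSpan.op_comp_tw s₂ s₁ (ι := Unit) (fun _ => 1) (fun _ => Γ'.one_mem)
    (fun x hx => by
      obtain ⟨y, h1, h2, h3⟩ := hs x hx
      exact ⟨(), y, h1, h2, by simpa using h3⟩)
    (fun _ _ _ _ _ _ => rfl) χ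
  rw [key]
  simp

/-- the twisted composite of spans of types `D₂` and `D₁` is of type `D₁ δ⁻¹ D₂`, provided
its domain is as large as that type allows -/
theorem LrSpan.compTw_isOf (s₂ : LrSpan Γ'' Γ') (s₁ : LrSpan Γ' Γ) (δ : SL(2, ℤ)) (hδ : δ ∈ Γ')
    {D₂ D₁ : Matrix (Fin 2) (Fin 2) ℤ} (h₂ : s₂.IsOf D₂) (h₁ : s₁.IsOf D₁)
    (hmax : ∀ y, y ∈ Γ'' → (∃ g, g ∈ Γ ∧
      (D₁ * ((δ⁻¹ : SL(2, ℤ)) : Matrix (Fin 2) (Fin 2) ℤ) * D₂) * (y : Matrix (Fin 2) (Fin 2) ℤ)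
        = (g : Matrix (Fin 2) (Fin 2) ℤ) *
          (D₁ * ((δ⁻¹ : SL(2, ℤ)) : Matrix (Fin 2) (Fin 2) ℤ) * D₂)) →
      y ∈ s₂.L ∧ δ⁻¹ * s₂.F y * δ ∈ s₁.L) :
    (s₂.compTw s₁ δ hδ).IsOf
      (D₁ * ((δ⁻¹ : SL(2, ℤ)) : Matrix (Fin 2) (Fin 2) ℤ) * D₂) := by
  have hint : ∀ y, y ∈ Γ'' → y ∈ s₂.L → δ⁻¹ * s₂.F y * δ ∈ s₁.L →
      (D₁ * ((δ⁻¹ : SL(2, ℤ)) : Matrix (Fin 2) (Fin 2) ℤ) * D₂) * (y : Matrix (Fin 2) (Fin 2) ℤ)
        = (s₁.F (δ⁻¹ * s₂.F y * δ) : Matrix (Fin 2) (Fin 2) ℤ) *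
          (D₁ * ((δ⁻¹ : SL(2, ℤ)) : Matrix (Fin 2) (Fin 2) ℤ) * D₂) := by
    intro y hy hyL hy1
    have e2 := h₂.inter y hy hyL
    have hm : δ⁻¹ * s₂.F y * δ ∈ Γ' :=
      Γ'.mul_mem (Γ'.mul_mem (Γ'.inv_mem hδ) (s₂.F_mem y hy hyL)) hδ
    have e1 := h₁.inter _ hm hy1
    simp only [Matrix.SpecialLinearGroup.coe_mul] at e1
    calc D₁ * ((δ⁻¹ : SL(2, ℤ)) : Matrix (Fin 2) (Fin 2) ℤ) * D₂ * (y : Matrix (Fin 2) (Fin 2) ℤ)
        = D₁ * ((δ⁻¹ : SL(2, ℤ)) : Matrix (Fin 2) (Fin 2) ℤ) *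
            ((s₂.F y : Matrix (Fin 2) (Fin 2) ℤ) * D₂) := by
          rw [Matrix.mul_assoc, e2]
      _ = D₁ * (((δ⁻¹ : SL(2, ℤ)) : Matrix (Fin 2) (Fin 2) ℤ) *
            (s₂.F y : Matrix (Fin 2) (Fin 2) ℤ) * (δ : Matrix (Fin 2) (Fin 2) ℤ)) *
            (((δ⁻¹ : SL(2, ℤ)) : Matrix (Fin 2) (Fin 2) ℤ) * D₂) := by
          simp only [Matrix.mul_assoc]
          rw [← Matrix.mul_assoc (δ : Matrix (Fin 2) (Fin 2) ℤ), lrh_coe_mul_inv, Matrix.one_mul]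
      _ = _ := by
          rw [e1]
          simp only [Matrix.mul_assoc]
  have hdet : (D₁ * ((δ⁻¹ : SL(2, ℤ)) : Matrix (Fin 2) (Fin 2) ℤ) * D₂).det ≠ 0 := by
    rw [Matrix.det_mul, Matrix.det_mul, Matrix.SpecialLinearGroup.det_coe, mul_one]
    exact mul_ne_zero h₁.det_ne h₂.det_ne
  refine ⟨hdet, ?_, ?_⟩
  · intro y hy
    constructor
    · rintro ⟨-, hyL, hy1⟩
      exact ⟨_, (s₂.compTw s₁ δ hδ).F_mem y hy ⟨hy, hyL, hy1⟩, hint y hy hyL hy1⟩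
    · intro h
      obtain ⟨h1, h2⟩ := hmax y hy h
      exact ⟨hy, h1, h2⟩
  · rintro y hy ⟨-, hyL, hy1⟩
    exact hint y hy hyL hy1

end comp


/-! ### untwisted composition -/

section comp1

variable {Γ'' Γ' Γ : Subgroup SL(2, ℤ)}

/-- the composite of two spans -/
def LrSpan.comp (s₂ : LrSpan Γ'' Γ') (s₁ : LrSpan Γ' Γ) : LrSpan Γ'' Γ :=
  s₂.compTw s₁ 1 Γ'.one_mem

theorem LrSpan.comp_isOf (s₂ : LrSpan Γ'' Γ') (s₁ : LrSpan Γ' Γ)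
    {D₂ D₁ : Matrix (Fin 2) (Fin 2) ℤ} (h₂ : s₂.IsOf D₂) (h₁ : s₁.IsOf D₁)
    (hmax : ∀ y, y ∈ Γ'' → (∃ g, g ∈ Γ ∧
      (D₁ * D₂) * (y : Matrix (Fin 2) (Fin 2) ℤ) = (g : Matrix (Fin 2) (Fin 2) ℤ) * (D₁ * D₂)) →
      y ∈ s₂.L ∧ s₂.F y ∈ s₁.L) :
    (s₂.comp s₁).IsOf (D₁ * D₂) := by
  have e : D₁ * (((1 : SL(2, ℤ))⁻¹ : SL(2, ℤ)) : Matrix (Fin 2) (Fin 2) ℤ) * D₂ = D₁ * D₂ := by
    rw [inv_one, Matrix.SpecialLinearGroup.coe_one, Matrix.mul_one]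
  have key := LrSpan.compTw_isOf s₂ s₁ 1 Γ'.one_mem h₂ h₁ (by
    intro y hy h
    rw [e] at h
    obtain ⟨h1, h2⟩ := hmax y hy h
    refine ⟨h1, ?_⟩
    rw [inv_one, one_mul, mul_one]
    exact h2)
  rw [e] at key
  exact key

variable {B : Type*} [AddCommGroup B]

theorem LrSpan.aop_comp_one (s₂ : LrSpan Γ'' Γ') (s₁ : LrSpan Γ' Γ)
    (hs : ∀ x, x ∈ Γ' → ∃ y, y ∈ Γ'' ∧ y ∈ s₂.L ∧ (s₂.F y)⁻¹ * x ∈ s₁.L)
    (χ : Additive ↥Γ →+ B) :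
    s₂.aop (s₁.aop χ) = (s₂.comp s₁).aop χ := by
  rw [LrSpan.aop_def, LrSpan.toMul_aop, LrSpan.op_comp_tw_one s₂ s₁ hs]
  rfl

theorem LrSpan.aop_comp_tw (s₂ : LrSpan Γ'' Γ') (s₁ : LrSpan Γ' Γ) {ι : Type*} [Fintype ι]
    (δ : ι → SL(2, ℤ)) (hδ : ∀ i, δ i ∈ Γ')
    (hδs : ∀ x, x ∈ Γ' → ∃ i y, y ∈ Γ'' ∧ y ∈ s₂.L ∧ (s₂.F y * δ i)⁻¹ * x ∈ s₁.L)
    (hδi : ∀ i j y, y ∈ Γ'' → y ∈ s₂.L → (s₂.F y * δ i)⁻¹ * δ j ∈ s₁.L → i = j)
    (χ : Additive ↥Γ →+ B) :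
    s₂.aop (s₁.aop χ) = ∑ i, (s₂.compTw s₁ (δ i) (hδ i)).aop χ :=
  LrSpan.aop_comp_sum s₂ s₁ δ hδ (fun i => s₂.compTw s₁ (δ i) (hδ i)) hδs hδi
    (fun _ _ hy => ⟨fun h => ⟨h.2.1, h.2.2⟩, fun h => ⟨hy, h.1, h.2⟩⟩)
    (fun _ _ _ _ => rfl) χ

/-- two spans of the same type define the same operator -/
theorem LrSpan.aop_eq_of_isOf_same (s s' : LrSpan Γ' Γ) {D : Matrix (Fin 2) (Fin 2) ℤ}
    (hs : s.IsOf D) (hs' : s'.IsOf D) (χ : Additive ↥Γ →+ B) : s'.aop χ = s.aop χ :=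
  LrSpan.aop_eq_of_isOf s s' hs hs' 1 1 Γ.one_mem Γ'.one_mem
    (by rw [Matrix.SpecialLinearGroup.coe_one, Matrix.one_mul, Matrix.mul_one]) χ

theorem LrSpan.IsOf.smul {s : LrSpan Γ' Γ} {D : Matrix (Fin 2) (Fin 2) ℤ} (hs : s.IsOf D)
    {c : ℤ} (hc : c ≠ 0) : s.IsOf (c • D) := by
  have key : ∀ (y g : SL(2, ℤ)), (c • D) * (y : Matrix (Fin 2) (Fin 2) ℤ) =
      (g : Matrix (Fin 2) (Fin 2) ℤ) * (c • D) ↔
      D * (y : Matrix (Fin 2) (Fin 2) ℤ) = (g : Matrix (Fin 2) (Fin 2) ℤ) * D := by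
    intro y g
    rw [Matrix.smul_mul, Matrix.mul_smul]
    constructor
    · intro h
      ext i j
      have h2 := congrFun (congrFun h i) j
      simp only [Matrix.smul_apply, smul_eq_mul] at h2
      exact mul_left_cancel₀ hc h2
    · intro h
      rw [h]
  refine ⟨?_, ?_, ?_⟩
  · rw [Matrix.det_smul, Fintype.card_fin]
    exact mul_ne_zero (pow_ne_zero 2 hc) hs.det_ne
  · intro y hy
    rw [hs.mem_iff y hy]
    constructor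
    · rintro ⟨g, hg, e⟩
      exact ⟨g, hg, (key y g).mpr e⟩
    · rintro ⟨g, hg, e⟩
      exact ⟨g, hg, (key y g).mp e⟩
  · intro y hy hyL
    exact (key y _).mpr (hs.inter y hy hyL)

theorem LrSpan.IsOf.of_smul {s : LrSpan Γ' Γ} {D : Matrix (Fin 2) (Fin 2) ℤ} {c : ℤ}
    (hs : s.IsOf (c • D)) : s.IsOf D := by
  have hc : c ≠ 0 := by
    intro h
    have := hs.det_ne
    rw [h, zero_smul] at this
    simp at this
  have key : ∀ (y g : SL(2, ℤ)), (c • D) * (y : Matrix (Fin 2) (Fin 2) ℤ) =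
      (g : Matrix (Fin 2) (Fin 2) ℤ) * (c • D) ↔
      D * (y : Matrix (Fin 2) (Fin 2) ℤ) = (g : Matrix (Fin 2) (Fin 2) ℤ) * D := by
    intro y g
    rw [Matrix.smul_mul, Matrix.mul_smul]
    constructor
    · intro h
      ext i j
      have h2 := congrFun (congrFun h i) j
      simp only [Matrix.smul_apply, smul_eq_mul] at h2
      exact mul_left_cancel₀ hc h2
    · intro h
      rw [h]
  refine ⟨?_, ?_, ?_⟩
  · intro h
    have := hs.det_ne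
    rw [Matrix.det_smul, h, mul_zero] at this
    exact this rfl
  · intro y hy
    rw [hs.mem_iff y hy]
    constructor
    · rintro ⟨g, hg, e⟩
      exact ⟨g, hg, (key y g).mp e⟩
    · rintro ⟨g, hg, e⟩
      exact ⟨g, hg, (key y g).mpr e⟩
  · intro y hy hyL
    exact (key y _).mp (hs.inter y hy hyL)

end comp1

/-! ### the span of a homomorphism -/

section ofHom

variable {M' M : ℕ}

open Classical in
/-- the span (with `L = ⊤`) of a homomorphism `Γ₀(M') → Γ₀(M)` -/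
noncomputable def lrSpanOfHom (h : ↥(Gamma0 M') →* ↥(Gamma0 M)) : LrSpan (Gamma0 M') (Gamma0 M) where
  L := ⊤
  F := fun x => if hx : x ∈ Gamma0 M' then ((h ⟨x, hx⟩ : ↥(Gamma0 M)) : SL(2, ℤ)) else 1
  F_mem := by
    intro x hx _
    simp only [dif_pos hx]
    exact (h ⟨x, hx⟩).2
  F_mul := by
    intro x y hx _ hy _
    simp only [dif_pos hx, dif_pos hy, dif_pos ((Gamma0 M').mul_mem hx hy)]
    have : (⟨x * y, (Gamma0 M').mul_mem hx hy⟩ : ↥(Gamma0 M')) = ⟨x, hx⟩ * ⟨y, hy⟩ := rfl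
    rw [this, map_mul]
    rfl
  fin := inferInstance

open Classical in
theorem lrSpanOfHom_F (h : ↥(Gamma0 M') →* ↥(Gamma0 M)) (γ : ↥(Gamma0 M')) :
    (lrSpanOfHom h).F γ.1 = ((h γ : ↥(Gamma0 M)) : SL(2, ℤ)) := by
  show (if hx : γ.1 ∈ Gamma0 M' then ((h ⟨γ.1, hx⟩ : ↥(Gamma0 M)) : SL(2, ℤ)) else 1) = _
  rw [dif_pos γ.2]

theorem lrSpanOfHom_isOf (h : ↥(Gamma0 M') →* ↥(Gamma0 M)) (D : Matrix (Fin 2) (Fin 2) ℤ)
    (hD : D.det ≠ 0)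
    (hint : ∀ γ : ↥(Gamma0 M'), D * ((γ : SL(2, ℤ)) : Matrix (Fin 2) (Fin 2) ℤ) =
      (((h γ : ↥(Gamma0 M)) : SL(2, ℤ)) : Matrix (Fin 2) (Fin 2) ℤ) * D) :
    (lrSpanOfHom h).IsOf D := by
  refine ⟨hD, ?_, ?_⟩
  · intro y hy
    constructor
    · intro _
      exact ⟨_, (h ⟨y, hy⟩).2, hint ⟨y, hy⟩⟩
    · intro _
      exact Subgroup.mem_top _
  · intro y hy _
    rw [lrSpanOfHom_F h ⟨y, hy⟩]
    exact hint ⟨y, hy⟩

theorem lrSpanOfHom_aop {B : Type*} [AddCommGroup B] (h : ↥(Gamma0 M') →* ↥(Gamma0 M))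
    (χ : Additive ↥(Gamma0 M) →+ B) :
    (lrSpanOfHom h).aop χ = χ.comp (MonoidHom.toAdditive h) := by
  refine AddMonoidHom.ext fun γ => ?_
  have h1 := LrSpan.aop_top (lrSpanOfHom h) (fun _ _ => Subgroup.mem_top _) χ (Additive.toMul γ)
  rw [ofMul_toMul] at h1
  rw [h1]
  show χ _ = χ (Additive.ofMul (h (Additive.toMul γ)))
  congr 2
  exact Subtype.ext (lrSpanOfHom_F h _)

end ofHom


/-! ### unipotent elements, coset representatives -/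

/-- the upper unipotent element `[1, t; 0, 1]` -/
def lrhU (t : ℤ) : SL(2, ℤ) := lrhMk 1 t 0 1 (by ring)

/-- the lower unipotent element `[1, 0; m, 1]` -/
def lrhV (m : ℤ) : SL(2, ℤ) := lrhMk 1 0 m 1 (by ring)

theorem lrhU_00 (t : ℤ) : lrhU t 0 0 = 1 := rfl
theorem lrhU_01 (t : ℤ) : lrhU t 0 1 = t := rfl
theorem lrhU_10 (t : ℤ) : lrhU t 1 0 = 0 := rfl
theorem lrhU_11 (t : ℤ) : lrhU t 1 1 = 1 := rfl
theorem lrhV_00 (m : ℤ) : lrhV m 0 0 = 1 := rfl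
theorem lrhV_01 (m : ℤ) : lrhV m 0 1 = 0 := rfl
theorem lrhV_10 (m : ℤ) : lrhV m 1 0 = m := rfl
theorem lrhV_11 (m : ℤ) : lrhV m 1 1 = 1 := rfl

theorem lrhU_mem_Gamma0 (K : ℕ) (t : ℤ) : lrhU t ∈ Gamma0 K := by
  rw [lrh_mem_Gamma0, lrhU_10]; exact dvd_zero _

theorem lrh_prime_int {l : ℕ} (hl : l.Prime) : Prime (l : ℤ) := Nat.prime_iff_prime_int.mp hl

theorem lrh_exists_add_mul_dvd {l : ℕ} (hl : l.Prime) (e : ℤ) (he : ¬ (l : ℤ) ∣ e) (b : ℤ) :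
    ∃ t : ℤ, (l : ℤ) ∣ b + t * e := by
  have hcop : IsCoprime (l : ℤ) e := ((lrh_prime_int hl).irreducible.coprime_iff_not_dvd).mpr he
  obtain ⟨u, v, huv⟩ := hcop
  refine ⟨-b * v, ⟨b * u, ?_⟩⟩
  linear_combination (-b) * huv

/-- for a prime `l`: every `x` can be moved into `Γ⁰(l)` by left multiplication with an element
`y` with `K ∣ y₁₀`, `m ∣ y₀₁` (`l ∤ m`; `l ∤ K` or `l ∤ x₁₁`) -/
theorem lrh_coset_C1 {l : ℕ} (hl : l.Prime) (x : SL(2, ℤ)) (K m : ℤ) (hm : ¬ (l : ℤ) ∣ m)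
    (hK : ¬ (l : ℤ) ∣ K ∨ ¬ (l : ℤ) ∣ x 1 1) :
    ∃ y : SL(2, ℤ), K ∣ y 1 0 ∧ m ∣ y 0 1 ∧ (l : ℤ) ∣ (y * x) 0 1 := by
  have hp := lrh_prime_int hl
  have hs : ∃ s : ℤ, ¬ (l : ℤ) ∣ x 1 1 + K * s * x 0 1 := by
    by_cases hd : (l : ℤ) ∣ x 1 1
    · refine ⟨1, ?_⟩
      have hK' : ¬ (l : ℤ) ∣ K := hK.resolve_right (not_not.mpr hd)
      have hb : ¬ (l : ℤ) ∣ x 0 1 := by
        intro hb
        have h1 := lrh_sl_det x
        have : (l : ℤ) ∣ 1 := by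
          rw [← h1]; exact dvd_sub (Dvd.dvd.mul_left hd _) (Dvd.dvd.mul_right hb _)
        exact hp.not_dvd_one this
      intro h
      have h2 : (l : ℤ) ∣ K * x 0 1 := by
        have := dvd_sub h hd
        have e : x 1 1 + K * 1 * x 0 1 - x 1 1 = K * x 0 1 := by ring
        rwa [e] at this
      rcases hp.dvd_or_dvd h2 with h3 | h3
      · exact hK' h3
      · exact hb h3
    · exact ⟨0, by simpa using hd⟩
  obtain ⟨s, hs⟩ := hs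
  have hme : ¬ (l : ℤ) ∣ m * (x 1 1 + K * s * x 0 1) := by
    intro h
    rcases hp.dvd_or_dvd h with h3 | h3
    · exact hm h3
    · exact hs h3
  obtain ⟨t, ht⟩ := lrh_exists_add_mul_dvd hl _ hme (x 0 1)
  refine ⟨lrhU (m * t) * lrhV (K * s), ?_, ?_, ?_⟩
  · rw [lrh_mul_10, lrhU_10, lrhU_11, lrhV_00, lrhV_10]
    exact ⟨s, by ring⟩
  · rw [lrh_mul_01, lrhU_00, lrhU_01, lrhV_01, lrhV_11]
    exact ⟨t, by ring⟩
  · rw [lrh_mul_01, lrh_mul_00, lrh_mul_01, lrhU_00, lrhU_01, lrhV_00, lrhV_10, lrhV_01, lrhV_11]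
    have e : (1 * 1 + m * t * (K * s)) * x 0 1 + (1 * 0 + m * t * 1) * x 1 1 =
        x 0 1 + t * (m * (x 1 1 + K * s * x 0 1)) := by ring
    rw [e]; exact ht

/-- the index of `Γ₀(K) ∩ Γ⁰(q)` in `Γ₀(K)` is `q` if `q ∣ K` -/
theorem lrh_index_Gup (K q : ℕ) [NeZero q] (hqK : q ∣ K) :
    ((lrhGup q).subgroupOf (Gamma0 K)).index = q := by
  classical
  let f : ZMod q → (↥(Gamma0 K)) ⧸ ((lrhGup q).subgroupOf (Gamma0 K)) := fun j =>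
    ((⟨lrhU (j.val : ℤ), lrhU_mem_Gamma0 K _⟩ : ↥(Gamma0 K)) : _)
  have hf : Function.Bijective f := by
    constructor
    · intro i j hij
      have h1 := QuotientGroup.eq.mp hij
      rw [Subgroup.mem_subgroupOf] at h1
      have h2 : (q : ℤ) ∣ ((lrhU (i.val : ℤ))⁻¹ * lrhU (j.val : ℤ)) 0 1 := h1
      rw [lrh_mul_01, lrh_inv_00, lrh_inv_01, lrhU_11, lrhU_01, lrhU_01, lrhU_11] at h2
      have h3 : ((j.val : ℤ) : ZMod q) = ((i.val : ℤ) : ZMod q) := by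
        rw [← sub_eq_zero, ← Int.cast_sub, ZMod.intCast_zmod_eq_zero_iff_dvd]
        have e : (j.val : ℤ) - (i.val : ℤ) = 1 * (j.val : ℤ) + -(i.val : ℤ) * 1 := by ring
        rw [e]; exact h2
      simpa using h3.symm
    · intro x
      induction x using QuotientGroup.induction_on with
      | H x₀ =>
        have hc : (q : ℤ) ∣ (x₀ : SL(2, ℤ)) 1 0 :=
          (Int.natCast_dvd_natCast.mpr hqK).trans (lrh_mem_Gamma0.mp x₀.2)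
        obtain ⟨c', hc'⟩ := hc
        have hdet := lrh_sl_det (x₀ : SL(2, ℤ))
        let j : ZMod q := (((x₀ : SL(2, ℤ)) 0 1 * (x₀ : SL(2, ℤ)) 0 0 : ℤ) : ZMod q)
        have hj : (q : ℤ) ∣ (j.val : ℤ) - (x₀ : SL(2, ℤ)) 0 1 * (x₀ : SL(2, ℤ)) 0 0 := by
          rw [← ZMod.intCast_zmod_eq_zero_iff_dvd]
          push_cast
          simp [j]
        refine ⟨j, ?_⟩
        refine QuotientGroup.eq.mpr (Subgroup.mem_subgroupOf.mpr ?_)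
        show (q : ℤ) ∣ ((lrhU (j.val : ℤ))⁻¹ * (x₀ : SL(2, ℤ))) 0 1
        rw [lrh_mul_01, lrh_inv_00, lrh_inv_01, lrhU_11, lrhU_01]
        obtain ⟨w, hw⟩ := hj
        refine ⟨-(x₀ : SL(2, ℤ)) 0 1 * (x₀ : SL(2, ℤ)) 0 1 * c' - w * (x₀ : SL(2, ℤ)) 1 1, ?_⟩
        have hw' : (j.val : ℤ) = (x₀ : SL(2, ℤ)) 0 1 * (x₀ : SL(2, ℤ)) 0 0 + (q : ℤ) * w := by
          linarith
        rw [hw']
        rw [hc'] at hdet
        linear_combination (-(x₀ : SL(2, ℤ)) 0 1) * hdet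
  rw [Subgroup.index_eq_card, ← Nat.card_congr (Equiv.ofBijective f hf), Nat.card_zmod]


end LR
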