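import Fermat.Agent.Lib.LR_Hecke
import Fermat.Agent.Lib.LR_Level

/-!
# S41 (level raising), leaf L0: Hecke identities on characters

Bridge between the coset-system operators `LR.hecke` and the transfer model (`LR.LrSpan`), and
the identities between `hecke`, `res1`, `res2`, `atkin` and the corestriction `cores`.
-/

set_option autoImplicit false

open CongruenceSubgroup Matrix.SpecialLinearGroup
open scoped MatrixGroups

namespace LR

variable {A : Type*} [AddCommGroup A]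

/-! ### bridge between coset systems and spans -/

theorem lrh_mat_inv_mul {M : ℕ} (t : Gamma0 M) : mat t⁻¹ * mat t = 1 := by
  rw [← mat_mul, inv_mul_cancel, mat_one]

theorem lrh_mat_mul_inv {M : ℕ} (t : Gamma0 M) : mat t * mat t⁻¹ = 1 := by
  rw [← mat_mul, mul_inv_cancel, mat_one]

/-- **bridge**: the operator of a coset system whose representatives lie in the double coset
`Γ₀(M) D Γ₀(M)` is the operator of any span of type `D`. -/
theorem CosetSys.op_eq_aop {M : ℕ} {ι : Type} [Fintype ι] [Nonempty ι] (S : CosetSys M ι)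
    (s : LrSpan (Gamma0 M) (Gamma0 M)) {D : Matrix (Fin 2) (Fin 2) ℤ} (hs : s.IsOf D)
    (h3 : ∀ i, ∃ t' s' : Gamma0 M, S.A i = mat t' * D * mat s') (χ : X M A) :
    S.op χ = s.aop χ := by
  classical
  have hfin := s.fin
  let _ := (s.L.subgroupOf (Gamma0 M)).fintypeQuotientOfFiniteIndex
  have hex : ∀ k : (↥(Gamma0 M)) ⧸ (s.L.subgroupOf (Gamma0 M)),
      ∃ (i : ι) (t : Gamma0 M), D * mat (k.out⁻¹) = mat t * S.A i := by
    intro k
    obtain ⟨i₀⟩ := ‹Nonempty ι›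
    obtain ⟨t', s', h⟩ := h3 i₀
    have hD : D = mat t'⁻¹ * S.A i₀ * mat s'⁻¹ := by
      rw [h]
      calc D = (mat t'⁻¹ * mat t') * D * (mat s' * mat s'⁻¹) := by
            rw [lrh_mat_inv_mul, lrh_mat_mul_inv, Matrix.one_mul, Matrix.mul_one]
        _ = _ := by simp only [Matrix.mul_assoc]
    refine ⟨S.perm (s'⁻¹ * k.out⁻¹) i₀, t'⁻¹ * S.coc (s'⁻¹ * k.out⁻¹) i₀, ?_⟩
    calc D * mat (k.out⁻¹) = mat t'⁻¹ * (S.A i₀ * mat (s'⁻¹ * k.out⁻¹)) := by
          rw [mat_mul]; nth_rewrite 1 [hD]; simp only [Matrix.mul_assoc]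
      _ = _ := by rw [S.mul, mat_mul, Matrix.mul_assoc]
  choose σf tf hσt using hex
  have hinj : Function.Injective σf := by
    intro k k' hkk
    have h1 := hσt k
    have h2 := hσt k'
    rw [← hkk] at h2
    have h3' : D * mat (k.out⁻¹ * k'.out) = mat (tf k * (tf k')⁻¹) * D := by
      have e1 : S.A (σf k) * mat k'.out = mat (tf k')⁻¹ * D := by
        calc S.A (σf k) * mat k'.out = (mat (tf k')⁻¹ * mat (tf k')) * S.A (σf k) * mat k'.out := by
              rw [lrh_mat_inv_mul, Matrix.one_mul]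
          _ = mat (tf k')⁻¹ * (mat (tf k') * S.A (σf k)) * mat k'.out := by
              simp only [Matrix.mul_assoc]
          _ = mat (tf k')⁻¹ * (D * mat (k'.out⁻¹)) * mat k'.out := by rw [h2]
          _ = mat (tf k')⁻¹ * D * (mat (k'.out⁻¹) * mat k'.out) := by
              simp only [Matrix.mul_assoc]
          _ = _ := by rw [lrh_mat_inv_mul, Matrix.mul_one]
      calc D * mat (k.out⁻¹ * k'.out) = (D * mat (k.out⁻¹)) * mat k'.out := by
            rw [mat_mul, Matrix.mul_assoc]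
        _ = mat (tf k) * (S.A (σf k) * mat k'.out) := by rw [h1, Matrix.mul_assoc]
        _ = _ := by rw [e1, mat_mul, Matrix.mul_assoc]
    have hmem : (k.out⁻¹ * k'.out : ↥(Gamma0 M)) ∈ s.L.subgroupOf (Gamma0 M) := by
      rw [Subgroup.mem_subgroupOf, hs.mem_iff _ (SetLike.coe_mem _)]
      exact ⟨_, (tf k * (tf k')⁻¹).2, h3'⟩
    rw [← QuotientGroup.out_eq' k, ← QuotientGroup.out_eq' k']
    exact QuotientGroup.eq.mpr hmem
  have hsurj : Function.Surjective σf := by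
    intro i
    obtain ⟨t', s', h⟩ := h3 i
    let k : (↥(Gamma0 M)) ⧸ (s.L.subgroupOf (Gamma0 M)) := ((s'⁻¹ : ↥(Gamma0 M)) : _)
    have hl : (s'⁻¹)⁻¹ * k.out ∈ s.L.subgroupOf (Gamma0 M) := by
      rw [← QuotientGroup.eq, QuotientGroup.out_eq']
    rw [inv_inv] at hl
    have hl' : (s' * k.out)⁻¹ ∈ s.L.subgroupOf (Gamma0 M) := Subgroup.inv_mem _ hl
    have hint := hs.inter _ (SetLike.coe_mem _) (Subgroup.mem_subgroupOf.mp hl')
    refine ⟨k, ?_⟩
    -- D * mat k.out⁻¹ = mat X * A i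
    have hX : mat (tf k) * S.A (σf k) =
        mat ((s.hom ⟨(s' * k.out)⁻¹, hl'⟩) * t'⁻¹) * S.A i := by
      rw [← hσt k]
      have e0 : (k.out⁻¹ : ↥(Gamma0 M)) = (s' * k.out)⁻¹ * s' := by group
      have e1 : D * mat ((s' * k.out)⁻¹) = mat (s.hom ⟨(s' * k.out)⁻¹, hl'⟩) * D := hint
      calc D * mat (k.out⁻¹) = (D * mat ((s' * k.out)⁻¹)) * mat s' := by
            rw [e0, mat_mul, Matrix.mul_assoc]
        _ = mat (s.hom ⟨(s' * k.out)⁻¹, hl'⟩) * (D * mat s') := by rw [e1, Matrix.mul_assoc]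
        _ = mat (s.hom ⟨(s' * k.out)⁻¹, hl'⟩) * (mat t'⁻¹ * (mat t' * D * mat s')) := by
            congr 1
            calc D * mat s' = (mat t'⁻¹ * mat t') * D * mat s' := by
                  rw [lrh_mat_inv_mul, Matrix.one_mul]
              _ = _ := by simp only [Matrix.mul_assoc]
        _ = _ := by rw [← h, mat_mul, Matrix.mul_assoc]
    exact (S.cancel hX).1
  let σ : ((↥(Gamma0 M)) ⧸ (s.L.subgroupOf (Gamma0 M))) ≃ ι := Equiv.ofBijective σf ⟨hinj, hsurj⟩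
  refine AddMonoidHom.ext fun γa => ?_
  obtain ⟨γ, rfl⟩ : ∃ γ : ↥(Gamma0 M), Additive.ofMul γ = γa := ⟨Additive.toMul γa, rfl⟩
  have key := S.op_apply_of_data χ γ
    (fun k : (↥(Gamma0 M)) ⧸ (s.L.subgroupOf (Gamma0 M)) => D * mat (k.out⁻¹)) σ tf hσt
    (fun k => γ⁻¹ • k)
    (fun k => s.hom ⟨k.out⁻¹ * γ * (γ⁻¹ • k).out, lr_out_mem _ γ k⟩)
    (by
      intro k
      have hz := lr_out_mem (s.L.subgroupOf (Gamma0 M)) γ k
      have hint := hs.inter _ (SetLike.coe_mem _) (Subgroup.mem_subgroupOf.mp hz)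
      have e1 : D * mat (k.out⁻¹ * γ * (γ⁻¹ • k).out) =
          mat (s.hom ⟨k.out⁻¹ * γ * (γ⁻¹ • k).out, hz⟩) * D := hint
      have e0 : (k.out⁻¹ * γ : ↥(Gamma0 M)) = (k.out⁻¹ * γ * (γ⁻¹ • k).out) * ((γ⁻¹ • k).out)⁻¹ := by
        group
      calc D * mat (k.out⁻¹) * mat γ = D * mat (k.out⁻¹ * γ) := by
            rw [mat_mul, Matrix.mul_assoc]
        _ = (D * mat (k.out⁻¹ * γ * (γ⁻¹ • k).out)) * mat ((γ⁻¹ • k).out)⁻¹ := by
            rw [e0, mat_mul, Matrix.mul_assoc]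
            congr 2
            group
        _ = _ := by rw [e1, Matrix.mul_assoc])
  rw [key, LrSpan.aop_def, MonoidHom.coe_toAdditiveLeft]
  simp only [Function.comp_apply, toMul_ofMul]
  unfold LrSpan.op
  rw [lr_transfer_eq_prod_out, toAdd_prod]
  rfl

/-! ### `hecke` in the transfer model -/

theorem lrh_repU_eq (M l : ℕ) (x : ZMod l) :
    repU l x = mat (1 : Gamma0 M) * lrhD l *
      mat (mk (M := M) !![1, (x.val : ℤ); 0, 1] (by simp) (by simp)) := by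
  rw [mat_one, Matrix.one_mul, mat_mk]
  ext i j
  fin_cases i <;> fin_cases j <;> simp [repU, lrhD, Matrix.mul_apply, Fin.sum_univ_two]

theorem lrh_repT_infty_eq (M l : ℕ) (hMl : M.Coprime l) :
    repT l OnePoint.infty =
      mat (mk (M := M) !![(l : ℤ), -awY M l; -(M : ℤ), awX M l]
        (by
          have hb := aw_bezout hMl
          simp only [Matrix.det_fin_two_of]
          linear_combination hb) (by simp)) * lrhD l *
      mat (mk (M := M) !![(l : ℤ) * awX M l, awY M l; (M : ℤ), 1]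
        (by
          have hb := aw_bezout hMl
          simp only [Matrix.det_fin_two_of]
          linear_combination hb) (by simp)) := by
  have hb := aw_bezout hMl
  rw [mat_mk, mat_mk, repT_infty]
  ext i j
  fin_cases i <;> fin_cases j <;>
    simp [lrhD, Matrix.mul_apply, Fin.sum_univ_two] <;>
    first | ring1 | linear_combination (-(l : ℤ)) * hb | linear_combination (-1 : ℤ) * hb

/-- **`hecke M l` is the operator of the span of type `diag(1, l)`** -/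
theorem hecke_eq_aop (M l : ℕ) [Fact l.Prime] (χ : X M A) :
    hecke M l χ = (lrSpanUp M M l (Dvd.intro _ rfl)).aop χ := by
  have hl : l.Prime := Fact.out
  by_cases hlM : l ∣ M
  · rw [hecke_of_dvd M hlM]
    refine CosetSys.op_eq_aop (sysU M hlM) _ (lrSpanUp_isOf M M l _) ?_ χ
    intro x
    exact ⟨1, _, lrh_repU_eq M l x⟩
  · rw [hecke_of_not_dvd M hlM]
    have hMl : M.Coprime l := Nat.Coprime.symm ((Nat.Prime.coprime_iff_not_dvd hl).mpr hlM)
    refine CosetSys.op_eq_aop (sysT M hlM) _ (lrSpanUp_isOf M M l _) ?_ χ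
    intro x
    induction x using OnePoint.rec with
    | infty => exact ⟨_, _, lrh_repT_infty_eq M l hMl⟩
    | coe j => exact ⟨1, _, lrh_repU_eq M l j⟩


/-! ### `res1`, `res2`, `atkin` as spans -/

theorem lrh_incl_isOf (N q : ℕ) : (lrSpanOfHom (incl N q)).IsOf 1 :=
  lrSpanOfHom_isOf _ 1 det_one_ne (fun γ => by
    rw [Matrix.one_mul, Matrix.mul_one]; exact (mat_incl N q γ).symm)

theorem lrh_dconj_isOf (N q : ℕ) [NeZero q] : (lrSpanOfHom (dconj N q)).IsOf (lrhE q) :=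
  lrSpanOfHom_isOf _ (lrhE q) (delta_det_ne q) (fun γ => dconj_spec N q γ)

theorem lrh_atkin_isOf (N q : ℕ) [NeZero q] (hNq : N.Coprime q) :
    (lrSpanOfHom (atkinHom N q hNq)).IsOf (atkinW N q) :=
  lrSpanOfHom_isOf _ (atkinW N q) (atkinW_det_ne hNq) (fun γ => atkinHom_spec N q hNq γ)

theorem res1_eq_aop (N q : ℕ) (χ : X N A) :
    res1 N q χ = (lrSpanOfHom (incl N q)).aop χ := (lrSpanOfHom_aop _ χ).symm

theorem res2_eq_aop (N q : ℕ) [NeZero q] (χ : X N A) :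
    res2 N q χ = (lrSpanOfHom (dconj N q)).aop χ := (lrSpanOfHom_aop _ χ).symm

theorem atkin_eq_aop (N q : ℕ) [NeZero q] (hNq : N.Coprime q) (χ : X (N * q) A) :
    atkin N q hNq χ = (lrSpanOfHom (atkinHom N q hNq)).aop χ := (lrSpanOfHom_aop _ χ).symm

theorem lrh_incl_F (N q : ℕ) (y : SL(2, ℤ)) (hy : y ∈ Gamma0 (N * q)) :
    (lrSpanOfHom (incl N q)).F y = y := by
  rw [lrSpanOfHom_F (incl N q) ⟨y, hy⟩]
  exact Subtype.ext (mat_incl N q ⟨y, hy⟩)

theorem lrh_dconj_F_01 (N q : ℕ) [NeZero q] (y : SL(2, ℤ)) (hy : y ∈ Gamma0 (N * q)) :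
    (lrSpanOfHom (dconj N q)).F y 0 1 = (q : ℤ) * y 0 1 := by
  rw [lrSpanOfHom_F (dconj N q) ⟨y, hy⟩]
  exact mat_dconj_01 N q ⟨y, hy⟩

theorem lrh_not_dvd_11 {l : ℕ} (hl : l.Prime) (x : SL(2, ℤ)) (h : (l : ℤ) ∣ x 1 0) :
    ¬ (l : ℤ) ∣ x 1 1 := by
  intro h2
  have h1 := lrh_sl_det x
  have : (l : ℤ) ∣ 1 := by
    rw [← h1]; exact dvd_sub (Dvd.dvd.mul_left h2 _) (Dvd.dvd.mul_left h _)
  exact (lrh_prime_int hl).not_dvd_one this

theorem lrh_not_dvd_00 {l : ℕ} (hl : l.Prime) (x : SL(2, ℤ)) (h : (l : ℤ) ∣ x 1 0) :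
    ¬ (l : ℤ) ∣ x 0 0 := by
  intro h2
  have h1 := lrh_sl_det x
  have : (l : ℤ) ∣ 1 := by
    rw [← h1]; exact dvd_sub (Dvd.dvd.mul_right h2 _) (Dvd.dvd.mul_left h _)
  exact (lrh_prime_int hl).not_dvd_one this

/-- the condition needed for the coset lemma -/
theorem lrh_C1_cond {N q l : ℕ} (hlp : l.Prime) (hl : ¬ l ∣ N * q ∨ l ∣ N) (x : SL(2, ℤ))
    (hx : x ∈ Gamma0 N) :
    ¬ (l : ℤ) ∣ ((N * q : ℕ) : ℤ) ∨ ¬ (l : ℤ) ∣ x 1 1 := by
  rcases hl with h | h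
  · left
    rwa [Int.natCast_dvd_natCast]
  · right
    exact lrh_not_dvd_11 hlp x ((Int.natCast_dvd_natCast.mpr h).trans (lrh_mem_Gamma0.mp hx))

/-- **`T_l` (or `U_l`) commutes with `res1`** (`l ∤ N q`, or `l ∣ N`) -/
theorem hecke_res1 (N q l : ℕ) [Fact l.Prime] (hl : ¬ l ∣ N * q ∨ l ∣ N) (χ : X N A) :
    hecke (N * q) l (res1 N q χ) = res1 N q (hecke N l χ) := by
  have hlp : l.Prime := Fact.out
  rw [hecke_eq_aop, hecke_eq_aop, res1_eq_aop, res1_eq_aop]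
  have hR := lrh_incl_isOf N q
  have hRF := lrh_incl_F N q
  rw [LrSpan.aop_comp_one (lrSpanUp (N * q) (N * q) l (Dvd.intro _ rfl)) (lrSpanOfHom (incl N q))
    (by
      intro x hx
      exact ⟨1, Subgroup.one_mem _, Subgroup.one_mem _, Subgroup.mem_top _⟩)]
  rw [LrSpan.aop_comp_one (lrSpanOfHom (incl N q)) (lrSpanUp N N l (Dvd.intro _ rfl))
    (by
      intro x hx
      obtain ⟨y', h1, -, h3⟩ := lrh_coset_C1 hlp x ((N * q : ℕ) : ℤ) 1
        (lrh_prime_int hlp).not_dvd_one (lrh_C1_cond hlp hl x hx)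
      have hy' : y' ∈ Gamma0 (N * q) := lrh_mem_Gamma0.mpr h1
      refine ⟨y'⁻¹, Subgroup.inv_mem _ hy', Subgroup.mem_top _, ?_⟩
      rw [hRF _ (Subgroup.inv_mem _ hy'), inv_inv]
      exact h3)]
  have h1 : ((lrSpanUp (N * q) (N * q) l (Dvd.intro _ rfl)).comp
      (lrSpanOfHom (incl N q))).IsOf (1 * lrhD l) :=
    LrSpan.comp_isOf _ _ (lrSpanUp_isOf _ _ _ _) hR (by
      rintro y hy ⟨g, hg, e⟩
      rw [Matrix.one_mul, lrhD_mul_eq_iff] at e
      exact ⟨⟨g 0 1, by rw [e.2.1, mul_comm]⟩, Subgroup.mem_top _⟩)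
  have h2 : ((lrSpanOfHom (incl N q)).comp (lrSpanUp N N l (Dvd.intro _ rfl))).IsOf
      (lrhD l * 1) :=
    LrSpan.comp_isOf _ _ hR (lrSpanUp_isOf _ _ _ _) (by
      rintro y hy ⟨g, hg, e⟩
      rw [Matrix.mul_one, lrhD_mul_eq_iff] at e
      refine ⟨Subgroup.mem_top _, ?_⟩
      rw [hRF y hy]
      exact ⟨g 0 1, by rw [e.2.1, mul_comm]⟩)
  rw [Matrix.one_mul] at h1
  rw [Matrix.mul_one] at h2
  exact LrSpan.aop_eq_of_isOf_same _ _ h2 h1 χ


/-- intertwining of `lrhUp` with `diag(q,1)` -/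
theorem lrh_E_mul_up (q : ℕ) (z : SL(2, ℤ)) (hz : (q : ℤ) ∣ z 0 1) :
    lrhE q * (lrhUp q z : Matrix (Fin 2) (Fin 2) ℤ) = (z : Matrix (Fin 2) (Fin 2) ℤ) * lrhE q := by
  rw [lrhE_mul_eq_iff, lrhUp_00 hz, lrhUp_01 hz, lrhUp_10 hz, lrhUp_11 hz]
  exact ⟨mul_comm _ _, Int.mul_ediv_cancel' hz, mul_comm _ _, rfl⟩

theorem lrh_E_mul_D (q l : ℕ) : lrhE q * lrhD l = lrhD l * lrhE q := by
  ext i j
  fin_cases i <;> fin_cases j <;> simp [lrhE, lrhD, Matrix.mul_apply, Fin.sum_univ_two]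

theorem lrh_ED_01 (q l : ℕ) (y g : SL(2, ℤ))
    (e : (lrhE q * lrhD l) * (y : Matrix (Fin 2) (Fin 2) ℤ) =
      (g : Matrix (Fin 2) (Fin 2) ℤ) * (lrhE q * lrhD l)) :
    (q : ℤ) * y 0 1 = g 0 1 * l := by
  have h01 := congrFun (congrFun e 0) 1
  simpa [lrhE, lrhD, Matrix.mul_apply, Fin.sum_univ_two] using h01

/-- **`T_l` (or `U_l`) commutes with `res2`** (`l ∤ q`; `l ∤ N q` or `l ∣ N`) -/
theorem hecke_res2 (N q l : ℕ) [NeZero q] [Fact l.Prime] (hlq : ¬ l ∣ q)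
    (hl : ¬ l ∣ N * q ∨ l ∣ N) (χ : X N A) :
    hecke (N * q) l (res2 N q χ) = res2 N q (hecke N l χ) := by
  have hlp : l.Prime := Fact.out
  have hlq' : ¬ (l : ℤ) ∣ (q : ℤ) := by rwa [Int.natCast_dvd_natCast]
  rw [hecke_eq_aop, hecke_eq_aop, res2_eq_aop, res2_eq_aop]
  have hR := lrh_dconj_isOf N q
  rw [LrSpan.aop_comp_one (lrSpanUp (N * q) (N * q) l (Dvd.intro _ rfl))
    (lrSpanOfHom (dconj N q))
    (by
      intro x hx
      exact ⟨1, Subgroup.one_mem _, Subgroup.one_mem _, Subgroup.mem_top _⟩)]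
  rw [LrSpan.aop_comp_one (lrSpanOfHom (dconj N q)) (lrSpanUp N N l (Dvd.intro _ rfl))
    (by
      intro x hx
      have hK : ¬ (l : ℤ) ∣ ((N : ℕ) : ℤ) ∨ ¬ (l : ℤ) ∣ x 1 1 := by
        rcases hl with h | h
        · left
          rw [Int.natCast_dvd_natCast]
          exact fun h' => h (Dvd.dvd.mul_right h' _)
        · right
          exact lrh_not_dvd_11 hlp x
            ((Int.natCast_dvd_natCast.mpr h).trans (lrh_mem_Gamma0.mp hx))
      obtain ⟨y', h1, h2, h3⟩ := lrh_coset_C1 hlp x ((N : ℕ) : ℤ) (q : ℤ) hlq' hK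
      have hz : y'⁻¹ ∈ Gamma0 N := Subgroup.inv_mem _ (lrh_mem_Gamma0.mpr h1)
      have hzL : (q : ℤ) ∣ (y'⁻¹) 0 1 := by rw [lrh_inv_01]; exact (dvd_neg).mpr h2
      have hy : lrhUp q y'⁻¹ ∈ Gamma0 (N * q) :=
        (lrSpanUp N (N * q) q (dvd_refl _)).F_mem _ hz hzL
      refine ⟨lrhUp q y'⁻¹, hy, Subgroup.mem_top _, ?_⟩
      rw [hR.F_eq hy (Subgroup.mem_top _) (lrh_E_mul_up q _ hzL), inv_inv]
      exact h3)]
  have h1 : ((lrSpanUp (N * q) (N * q) l (Dvd.intro _ rfl)).comp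
      (lrSpanOfHom (dconj N q))).IsOf (lrhE q * lrhD l) :=
    LrSpan.comp_isOf _ _ (lrSpanUp_isOf _ _ _ _) hR (by
      rintro y hy ⟨g, hg, e⟩
      have e1 := lrh_ED_01 q l y g e
      refine ⟨?_, Subgroup.mem_top _⟩
      have h2 : (l : ℤ) ∣ (q : ℤ) * y 0 1 := ⟨g 0 1, by rw [e1, mul_comm]⟩
      exact ((lrh_prime_int hlp).dvd_or_dvd h2).resolve_left hlq')
  have h2 : ((lrSpanOfHom (dconj N q)).comp (lrSpanUp N N l (Dvd.intro _ rfl))).IsOf
      (lrhD l * lrhE q) :=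
    LrSpan.comp_isOf _ _ hR (lrSpanUp_isOf _ _ _ _) (by
      rintro y hy ⟨g, hg, e⟩
      rw [← lrh_E_mul_D] at e
      have e1 := lrh_ED_01 q l y g e
      refine ⟨Subgroup.mem_top _, ?_⟩
      show (l : ℤ) ∣ (lrSpanOfHom (dconj N q)).F y 0 1
      rw [lrh_dconj_F_01 N q y hy]
      exact ⟨g 0 1, by rw [e1, mul_comm]⟩)
  rw [← lrh_E_mul_D] at h2
  exact LrSpan.aop_eq_of_isOf_same _ _ h2 h1 χ


end LR
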