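import Fermat.Agent.Lib.LR_HeckeId

/-!
# S41 (level raising), leaf L0: Hecke identities on characters, part 2

`U_q ∘ res2 = q • res1`, `U_q ∘ res1 = res1 ∘ T_q − res2`, the corestriction `cores` with its
coset-data formula, `res1 ∘ cores = P1`, `res1 ∘ cores ∘ W = P2`.
-/

set_option autoImplicit false

open CongruenceSubgroup Matrix.SpecialLinearGroup
open scoped MatrixGroups

namespace LR

variable {A : Type*} [AddCommGroup A]

/-! ### `U_q ∘ res2 = q • res1` -/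

theorem lrh_Gamma0_mul_le (N q : ℕ) : Gamma0 (N * q) ≤ Gamma0 N := by
  intro x hx
  rw [lrh_mem_Gamma0] at hx ⊢
  exact Dvd.dvd.trans (by push_cast; exact Dvd.intro _ rfl) hx

/-- the span `Γ₀(N q) ⊇ Γ₀(N q) ∩ Γ⁰(q) → Γ₀(N)` given by the inclusion -/
def lrSpanIncl (N q : ℕ) [NeZero q] : LrSpan (Gamma0 (N * q)) (Gamma0 N) where
  L := lrhGup q
  F := fun x => x
  F_mem := fun _ hx _ => lrh_Gamma0_mul_le N q hx
  F_mul := fun _ _ _ _ _ _ => rfl
  fin := inferInstance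

theorem lrSpanIncl_aop (N q : ℕ) [NeZero q] (χ : X N A) :
    (lrSpanIncl N q).aop χ = q • res1 N q χ := by
  have hfin := (lrSpanIncl N q).fin
  have hidx : ((lrSpanIncl N q).L.subgroupOf (Gamma0 (N * q))).index = q :=
    lrh_index_Gup (N * q) q (Dvd.intro_left _ rfl)
  have hcomp : (AddMonoidHom.toMultiplicativeRight χ).comp (lrSpanIncl N q).hom =
      ((AddMonoidHom.toMultiplicativeRight χ).comp (incl N q)).comp
        ((lrSpanIncl N q).L.subgroupOf (Gamma0 (N * q))).subtype := by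
    ext x
    show (AddMonoidHom.toMultiplicativeRight χ) ((lrSpanIncl N q).hom x) =
      (AddMonoidHom.toMultiplicativeRight χ) (incl N q x.1)
    congr 1
    apply Subtype.ext
    apply Subtype.ext
    exact (mat_incl N q x.1).symm
  rw [LrSpan.aop_def]
  unfold LrSpan.op
  rw [hcomp, lr_transfer_restrict, hidx]
  refine AddMonoidHom.ext fun γ => ?_
  rw [MonoidHom.coe_toAdditiveLeft]
  simp only [Function.comp_apply, MonoidHom.pow_apply, toAdd_pow, AddMonoidHom.coe_smul,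
    Pi.smul_apply]
  rfl

/-- **`U_q ∘ res2 = q • res1`** -/
theorem hecke_q_res2 (N q : ℕ) [Fact q.Prime] (χ : X N A) :
    hecke (N * q) q (res2 N q χ) = q • res1 N q χ := by
  rw [hecke_eq_aop, res2_eq_aop]
  have hR := lrh_dconj_isOf N q
  rw [LrSpan.aop_comp_one (lrSpanUp (N * q) (N * q) q (Dvd.intro _ rfl))
    (lrSpanOfHom (dconj N q))
    (by
      intro x hx
      exact ⟨1, Subgroup.one_mem _, Subgroup.one_mem _, Subgroup.mem_top _⟩)]
  rw [← lrSpanIncl_aop]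
  refine LrSpan.aop_congr _ _ ?_ ?_ χ
  · intro y hy
    constructor
    · rintro ⟨-, h, -⟩
      exact h
    · intro h
      exact ⟨hy, h, Subgroup.mem_top _⟩
  · rintro y hy ⟨-, hyL, -⟩
    show (lrSpanOfHom (dconj N q)).F (1⁻¹ * lrhUp q y * 1) = y
    rw [inv_one, one_mul, mul_one]
    exact hR.F_eq ((lrSpanUp (N * q) (N * q) q (Dvd.intro _ rfl)).F_mem y hy hyL)
      (Subgroup.mem_top _) (lrh_E_mul_up q y hyL)

/-! ### `U_q ∘ res1 = res1 ∘ T_q − res2` -/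

theorem lrh_up_incl_isOf (N q l : ℕ) [NeZero l] :
    ((lrSpanUp (N * q) (N * q) l (Dvd.intro _ rfl)).comp (lrSpanOfHom (incl N q))).IsOf
      (lrhD l) := by
  have h1 : ((lrSpanUp (N * q) (N * q) l (Dvd.intro _ rfl)).comp
      (lrSpanOfHom (incl N q))).IsOf (1 * lrhD l) :=
    LrSpan.comp_isOf _ _ (lrSpanUp_isOf _ _ _ _) (lrh_incl_isOf N q) (by
      rintro y hy ⟨g, hg, e⟩
      rw [Matrix.one_mul, lrhD_mul_eq_iff] at e
      exact ⟨⟨g 0 1, by rw [e.2.1, mul_comm]⟩, Subgroup.mem_top _⟩)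
  rw [Matrix.one_mul] at h1
  exact h1

theorem lrh_incl_up_isOf (N q l : ℕ) [NeZero l] :
    ((lrSpanOfHom (incl N q)).comp (lrSpanUp N N l (Dvd.intro _ rfl))).IsOf (lrhD l) := by
  have h2 : ((lrSpanOfHom (incl N q)).comp (lrSpanUp N N l (Dvd.intro _ rfl))).IsOf
      (lrhD l * 1) :=
    LrSpan.comp_isOf _ _ (lrh_incl_isOf N q) (lrSpanUp_isOf _ _ _ _) (by
      rintro y hy ⟨g, hg, e⟩
      rw [Matrix.mul_one, lrhD_mul_eq_iff] at e
      refine ⟨Subgroup.mem_top _, ?_⟩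
      rw [lrh_incl_F N q y hy]
      exact ⟨g 0 1, by rw [e.2.1, mul_comm]⟩)
  rw [Matrix.mul_one] at h2
  exact h2

theorem lrh_hecke_res1_eq (N q l : ℕ) [Fact l.Prime] (χ : X N A) :
    hecke (N * q) l (res1 N q χ) =
      ((lrSpanUp (N * q) (N * q) l (Dvd.intro _ rfl)).comp (lrSpanOfHom (incl N q))).aop χ := by
  rw [hecke_eq_aop, res1_eq_aop]
  exact LrSpan.aop_comp_one _ _ (by
    intro x hx
    exact ⟨1, Subgroup.one_mem _, Subgroup.one_mem _, Subgroup.mem_top _⟩) χ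

theorem lrh_atkinS_00 (N q : ℕ) (hNq : N.Coprime q) :
    ((atkinS N q hNq : Gamma0 N) : SL(2, ℤ)) 0 0 = awX N q := rfl
theorem lrh_atkinS_01 (N q : ℕ) (hNq : N.Coprime q) :
    ((atkinS N q hNq : Gamma0 N) : SL(2, ℤ)) 0 1 = awY N q := rfl
theorem lrh_atkinS_10 (N q : ℕ) (hNq : N.Coprime q) :
    ((atkinS N q hNq : Gamma0 N) : SL(2, ℤ)) 1 0 = N := rfl
theorem lrh_atkinS_11 (N q : ℕ) (hNq : N.Coprime q) :
    ((atkinS N q hNq : Gamma0 N) : SL(2, ℤ)) 1 1 = q := rfl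

theorem lrh_not_dvd_awY {N q : ℕ} (hq : q.Prime) (hNq : N.Coprime q) :
    ¬ (q : ℤ) ∣ awY N q := by
  intro h
  have hb := aw_bezout hNq
  have : (q : ℤ) ∣ 1 := by
    rw [← hb]; exact dvd_sub (Dvd.intro _ rfl) (Dvd.dvd.mul_left h _)
  exact (lrh_prime_int hq).not_dvd_one this

/-- the element `[1, -y; -N, q x]` of `Γ₀(N)` -/
def lrhK (N q : ℕ) (hNq : N.Coprime q) : SL(2, ℤ) :=
  lrhMk 1 (-awY N q) (-(N : ℤ)) ((q : ℤ) * awX N q) (by
    have hb := aw_bezout hNq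
    linear_combination hb)

theorem lrhK_mem (N q : ℕ) (hNq : N.Coprime q) : lrhK N q hNq ∈ Gamma0 N := by
  rw [lrh_mem_Gamma0]
  show (N : ℤ) ∣ -(N : ℤ)
  exact (dvd_neg).mpr dvd_rfl

theorem lrhK_mul_E (N q : ℕ) (hNq : N.Coprime q) :
    lrhD q * (((atkinS N q hNq : Gamma0 N) : SL(2, ℤ))⁻¹ : SL(2, ℤ)) * 1 =
      (lrhK N q hNq : Matrix (Fin 2) (Fin 2) ℤ) * lrhE q *
        ((1 : SL(2, ℤ)) : Matrix (Fin 2) (Fin 2) ℤ) := by
  rw [Matrix.mul_one, Matrix.SpecialLinearGroup.coe_one, Matrix.mul_one]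
  have hinv : ((((atkinS N q hNq : Gamma0 N) : SL(2, ℤ))⁻¹ : SL(2, ℤ)) :
      Matrix (Fin 2) (Fin 2) ℤ) = !![(q : ℤ), -awY N q; -(N : ℤ), awX N q] := by
    rw [Matrix.SpecialLinearGroup.coe_inv, Matrix.adjugate_fin_two]
    rfl
  have hK : (lrhK N q hNq : Matrix (Fin 2) (Fin 2) ℤ) =
      !![1, -awY N q; -(N : ℤ), (q : ℤ) * awX N q] := rfl
  rw [hinv, hK]
  ext i j
  fin_cases i <;> fin_cases j <;> simp [lrhD, lrhE, Matrix.mul_apply, Fin.sum_univ_two] <;> ring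


/-- **`res1 ∘ T_q = U_q ∘ res1 + res2`** (`q` prime, `q ∤ N`) -/
theorem res1_hecke_q (N q : ℕ) [Fact q.Prime] (hNq : N.Coprime q) (χ : X N A) :
    res1 N q (hecke N q χ) = hecke (N * q) q (res1 N q χ) + res2 N q χ := by
  have hq : q.Prime := Fact.out
  have hqp := lrh_prime_int hq
  have hRF := lrh_incl_F N q
  set d₀ : SL(2, ℤ) := ((atkinS N q hNq : Gamma0 N) : SL(2, ℤ)) with hd₀
  have hd₀mem : d₀ ∈ Gamma0 N := (atkinS N q hNq).2
  have hdvdq : ∀ y, y ∈ Gamma0 (N * q) → (q : ℤ) ∣ y 1 0 := by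
    intro y hy
    exact Dvd.dvd.trans (by push_cast; exact Dvd.intro_left _ rfl) (lrh_mem_Gamma0.mp hy)
  let δ : Bool → SL(2, ℤ) := fun b => cond b d₀ 1
  have hδ : ∀ b, δ b ∈ Gamma0 N := by
    intro b; cases b
    · exact Subgroup.one_mem _
    · exact hd₀mem
  rw [hecke_eq_aop N q, res1_eq_aop N q (χ := (lrSpanUp N N q (Dvd.intro _ rfl)).aop χ)]
  rw [LrSpan.aop_comp_tw (lrSpanOfHom (incl N q)) (lrSpanUp N N q (Dvd.intro _ rfl)) δ hδ
    (by
      intro x hx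
      by_cases hx11 : (q : ℤ) ∣ x 1 1
      · refine ⟨true, 1, Subgroup.one_mem _, Subgroup.mem_top _, ?_⟩
        rw [LrSpan.F_one, one_mul]
        show (q : ℤ) ∣ (d₀⁻¹ * x) 0 1
        rw [lrh_mul_01, lrh_inv_00, lrh_inv_01, hd₀, lrh_atkinS_11, lrh_atkinS_01]
        exact dvd_add (Dvd.intro _ rfl) (Dvd.dvd.mul_left hx11 _)
      · obtain ⟨y', h1, -, h3⟩ := lrh_coset_C1 hq x ((N * q : ℕ) : ℤ) 1 hqp.not_dvd_one
          (Or.inr hx11)
        have hy' : y' ∈ Gamma0 (N * q) := lrh_mem_Gamma0.mpr h1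
        refine ⟨false, y'⁻¹, Subgroup.inv_mem _ hy', Subgroup.mem_top _, ?_⟩
        rw [hRF _ (Subgroup.inv_mem _ hy')]
        show (q : ℤ) ∣ ((y'⁻¹ * 1)⁻¹ * x) 0 1
        rw [mul_one, inv_inv]
        exact h3)
    (by
      intro i j y hy _ h
      rw [hRF y hy] at h
      cases i <;> cases j
      · rfl
      · exfalso
        have h' : (q : ℤ) ∣ ((y * 1)⁻¹ * d₀) 0 1 := h
        rw [mul_one, lrh_mul_01, lrh_inv_00, lrh_inv_01, hd₀, lrh_atkinS_01, lrh_atkinS_11] at h'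
        have h2 : (q : ℤ) ∣ y 1 1 * awY N q := by
          have := dvd_sub h' (Dvd.intro_left (-y 0 1) rfl)
          simpa using this
        rcases hqp.dvd_or_dvd h2 with h3 | h3
        · exact lrh_not_dvd_11 hq y (hdvdq y hy) h3
        · exact lrh_not_dvd_awY hq hNq h3
      · exfalso
        have h' : (y * d₀)⁻¹ * 1 ∈ lrhGup q := h
        rw [mul_one, Subgroup.inv_mem_iff] at h'
        have h'' : (q : ℤ) ∣ (y * d₀) 0 1 := h'
        rw [lrh_mul_01, hd₀, lrh_atkinS_01, lrh_atkinS_11] at h''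
        have h2 : (q : ℤ) ∣ y 0 0 * awY N q := by
          have := dvd_sub h'' (Dvd.intro_left (y 0 1) rfl)
          simpa using this
        rcases hqp.dvd_or_dvd h2 with h3 | h3
        · exact lrh_not_dvd_00 hq y (hdvdq y hy) h3
        · exact lrh_not_dvd_awY hq hNq h3
      · rfl)]
  rw [Fintype.sum_bool, add_comm]
  congr 1
  · -- the term of the trivial double coset
    rw [lrh_hecke_res1_eq]
    exact LrSpan.aop_eq_of_isOf_same _ _ (lrh_up_incl_isOf N q q) (lrh_incl_up_isOf N q q) χ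
  · -- the term of the other double coset
    rw [res2_eq_aop]
    have hterm : ((lrSpanOfHom (incl N q)).compTw (lrSpanUp N N q (Dvd.intro _ rfl)) d₀
        hd₀mem).IsOf (lrhD q * ((d₀⁻¹ : SL(2, ℤ)) : Matrix (Fin 2) (Fin 2) ℤ) * 1) :=
      LrSpan.compTw_isOf _ _ d₀ hd₀mem (lrh_incl_isOf N q) (lrSpanUp_isOf _ _ _ _) (by
        rintro y hy ⟨g, hg, e⟩
        refine ⟨Subgroup.mem_top _, ?_⟩
        rw [hRF y hy]
        have hz : d₀⁻¹ * y * d₀ ∈ Gamma0 N :=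
          Subgroup.mul_mem _ (Subgroup.mul_mem _ (Subgroup.inv_mem _ hd₀mem)
            (lrh_Gamma0_mul_le N q hy)) hd₀mem
        refine ((lrSpanUp_isOf N N q (Dvd.intro _ rfl)).mem_iff _ hz).mpr ⟨g, hg, ?_⟩
        rw [Matrix.mul_one] at e
        calc lrhD q * ((d₀⁻¹ * y * d₀ : SL(2, ℤ)) : Matrix (Fin 2) (Fin 2) ℤ)
            = (lrhD q * ((d₀⁻¹ : SL(2, ℤ)) : Matrix (Fin 2) (Fin 2) ℤ) *
                (y : Matrix (Fin 2) (Fin 2) ℤ)) * (d₀ : Matrix (Fin 2) (Fin 2) ℤ) := by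
              simp only [Matrix.SpecialLinearGroup.coe_mul, Matrix.mul_assoc]
          _ = (g : Matrix (Fin 2) (Fin 2) ℤ) * lrhD q *
                (((d₀⁻¹ : SL(2, ℤ)) : Matrix (Fin 2) (Fin 2) ℤ) *
                  (d₀ : Matrix (Fin 2) (Fin 2) ℤ)) := by
              rw [e]; simp only [Matrix.mul_assoc]
          _ = _ := by rw [lrh_coe_inv_mul, Matrix.mul_one])
    exact LrSpan.aop_eq_of_isOf (lrSpanOfHom (dconj N q)) _ (lrh_dconj_isOf N q) hterm
      (lrhK N q hNq) 1 (lrhK_mem N q hNq) (Subgroup.one_mem _) (lrhK_mul_E N q hNq) χ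

/-- **`U_q ∘ res1 = res1 ∘ T_q − res2`** -/
theorem hecke_q_res1 (N q : ℕ) [Fact q.Prime] (hNq : N.Coprime q) (χ : X N A) :
    hecke (N * q) q (res1 N q χ) = res1 N q (hecke N q χ) - res2 N q χ := by
  rw [res1_hecke_q N q hNq χ, add_sub_cancel_right]


/-! ### the corestriction -/

/-- **corestriction** (transfer) of characters from `Γ₀(N q)` to `Γ₀(N)` -/
noncomputable def cores (N q : ℕ) [NeZero N] [NeZero q] : X (N * q) A →+ X N A :=
  (lrSpanOne N (N * q)).aop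

theorem cores_def (N q : ℕ) [NeZero N] [NeZero q] (ψ : X (N * q) A) :
    cores N q ψ = (lrSpanOne N (N * q)).aop ψ := rfl

/-- naturality of `cores` in the coefficient group -/
theorem cores_comp {A' : Type*} [AddCommGroup A'] (N q : ℕ) [NeZero N] [NeZero q] (f : A →+ A')
    (ψ : X (N * q) A) : cores N q (f.comp ψ) = f.comp (cores N q ψ) :=
  LrSpan.aop_comp_left _ f ψ

/-- **coset-data formula for `cores`**: for any left transversal `t` of `Γ₀(N q)` in `Γ₀(N)` and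
any data `γ * t i = t (π i) * g' i` with `g' i ∈ Γ₀(N q)`: `cores ψ γ = ∑ i, ψ (g' i)`. -/
theorem cores_apply_of_data (N q : ℕ) [NeZero N] [NeZero q] (ψ : X (N * q) A)
    {ι : Type*} [Fintype ι] (t : ι → SL(2, ℤ)) (htΓ : ∀ i, t i ∈ Gamma0 N)
    (ht : ∀ γ, γ ∈ Gamma0 N → ∃! i, (t i)⁻¹ * γ ∈ Gamma0 (N * q))
    (γ : ↥(Gamma0 N)) (π : ι → ι) (g' : ι → ↥(Gamma0 (N * q)))
    (h : ∀ i, (γ : SL(2, ℤ)) * t i = t (π i) * (g' i : SL(2, ℤ))) :
    cores N q ψ (Additive.ofMul γ) = ∑ i, ψ (Additive.ofMul (g' i)) := by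
  classical
  have hfin := (lrSpanOne N (N * q)).fin
  let T : ι → ↥(Gamma0 N) := fun i => ⟨t i, htΓ i⟩
  have hmem : ∀ x : ↥(Gamma0 N), x ∈ (lrSpanOne N (N * q)).L.subgroupOf (Gamma0 N) ↔
      (x : SL(2, ℤ)) ∈ Gamma0 (N * q) := fun x => Subgroup.mem_subgroupOf
  have hT : Function.Bijective (fun i =>
      ((T i : ↥(Gamma0 N)) : ↥(Gamma0 N) ⧸ (lrSpanOne N (N * q)).L.subgroupOf (Gamma0 N))) := by
    constructor
    · intro i j hij
      have h1 := QuotientGroup.eq.mp hij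
      rw [hmem] at h1
      obtain ⟨i₀, -, hu⟩ := ht (t j) (htΓ j)
      have e1 := hu i h1
      have e2 := hu j (by
        show (t j)⁻¹ * t j ∈ Gamma0 (N * q)
        rw [inv_mul_cancel]; exact Subgroup.one_mem _)
      rw [e1, e2]
    · intro x
      induction x using QuotientGroup.induction_on with
      | H x₀ =>
        obtain ⟨i, hi, -⟩ := ht x₀.1 x₀.2
        exact ⟨i, QuotientGroup.eq.mpr ((hmem _).mpr hi)⟩
  have hπinj : Function.Injective π := by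
    intro i j hij
    have e1 := h i
    have e2 := h j
    rw [hij] at e1
    -- t i⁻¹ * t j ∈ Γ₀(N q)
    have h3 : (t i)⁻¹ * t j = (g' i : SL(2, ℤ))⁻¹ * (g' j : SL(2, ℤ)) := by
      have e1' : t i = (γ : SL(2, ℤ))⁻¹ * (t (π j) * (g' i : SL(2, ℤ))) := by
        rw [← e1]; group
      have e2' : t j = (γ : SL(2, ℤ))⁻¹ * (t (π j) * (g' j : SL(2, ℤ))) := by
        rw [← e2]; group
      rw [e1', e2']; group
    have h4 : (t i)⁻¹ * t j ∈ Gamma0 (N * q) := by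
      rw [h3]; exact Subgroup.mul_mem _ (Subgroup.inv_mem _ (g' i).2) (g' j).2
    obtain ⟨i₀, -, hu⟩ := ht (t j) (htΓ j)
    have e3 := hu i h4
    have e4 := hu j (by
      show (t j)⁻¹ * t j ∈ Gamma0 (N * q)
      rw [inv_mul_cancel]; exact Subgroup.one_mem _)
    rw [e3, e4]
  let πe : ι ≃ ι := Equiv.ofBijective π ⟨hπinj, Finite.injective_iff_surjective.mp hπinj⟩
  have hσ0 : ∀ i, ((T i)⁻¹ * γ * T (πe.symm i) : ↥(Gamma0 N)) =
      ⟨(g' (πe.symm i) : SL(2, ℤ)), lrh_Gamma0_mul_le N q (g' (πe.symm i)).2⟩ := by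
    intro i
    apply Subtype.ext
    show (t i)⁻¹ * (γ : SL(2, ℤ)) * t (πe.symm i) = (g' (πe.symm i) : SL(2, ℤ))
    have e := h (πe.symm i)
    have e' : π (πe.symm i) = i := πe.apply_symm_apply i
    rw [e'] at e
    rw [mul_assoc, e]; group
  have hσ : ∀ i, (T i)⁻¹ * γ * T (πe.symm i) ∈
      (lrSpanOne N (N * q)).L.subgroupOf (Gamma0 N) := by
    intro i
    rw [hmem, hσ0 i]
    exact (g' (πe.symm i)).2
  rw [cores_def, LrSpan.aop_def, MonoidHom.coe_toAdditiveLeft]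
  simp only [Function.comp_apply, toMul_ofMul]
  unfold LrSpan.op
  rw [lr_transfer_eq_prod _ T hT γ πe.symm hσ, toAdd_prod,
    ← Equiv.sum_comp πe.symm (fun i => ψ (Additive.ofMul (g' i)))]
  refine Finset.sum_congr rfl fun i _ => ?_
  have e5 : (lrSpanOne N (N * q)).hom ⟨_, hσ i⟩ = g' (πe.symm i) := by
    apply Subtype.ext
    exact congrArg (fun z : ↥(Gamma0 N) => (z : SL(2, ℤ))) (hσ0 i)
  refine Eq.trans (b := ψ (Additive.ofMul ((lrSpanOne N (N * q)).hom ⟨_, hσ i⟩))) rfl ?_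
  rw [e5]

/-! ### `res1 ∘ cores = P1` -/

theorem lrh_mul_dvd_of_coprime {N q : ℕ} (hNq : N.Coprime q) {a : ℤ} (h1 : (N : ℤ) ∣ a)
    (h2 : (q : ℤ) ∣ a) : ((N * q : ℕ) : ℤ) ∣ a := by
  have hc : IsCoprime (N : ℤ) (q : ℤ) := Nat.isCoprime_iff_coprime.mpr hNq
  rw [Nat.cast_mul]
  exact hc.mul_dvd h1 h2

theorem lrh_atkinS_not_mem (N q : ℕ) [NeZero N] (hq : q.Prime) (hNq : N.Coprime q) :
    ((atkinS N q hNq : Gamma0 N) : SL(2, ℤ)) ∉ Gamma0 (N * q) := by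
  intro h
  rw [lrh_mem_Gamma0, lrh_atkinS_10] at h
  have h1 : ((N * q : ℕ) : ℤ) ∣ ((N * 1 : ℕ) : ℤ) := by rwa [mul_one]
  rw [Int.natCast_dvd_natCast] at h1
  have h2 : q ∣ 1 := (Nat.mul_dvd_mul_iff_left (Nat.pos_of_ne_zero (NeZero.ne N))).mp h1
  exact hq.one_lt.ne' (Nat.dvd_one.mp h2)

theorem lrh_not_dvd_N {N q : ℕ} (hq : q.Prime) (hNq : N.Coprime q) : ¬ (q : ℤ) ∣ (N : ℤ) := by
  rw [Int.natCast_dvd_natCast]
  intro h
  have := Nat.Coprime.eq_one_of_dvd hNq.symm h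
  exact hq.one_lt.ne' this

theorem lrh_atkinW_mul_D (N q : ℕ) (hNq : N.Coprime q) :
    atkinW N q * lrhD q =
      (q : ℤ) • (((atkinS N q hNq : Gamma0 N) : SL(2, ℤ)) : Matrix (Fin 2) (Fin 2) ℤ) := by
  have hS : (((atkinS N q hNq : Gamma0 N) : SL(2, ℤ)) : Matrix (Fin 2) (Fin 2) ℤ) =
      !![awX N q, awY N q; (N : ℤ), (q : ℤ)] := rfl
  rw [hS]
  ext i j
  fin_cases i <;> fin_cases j <;>
    simp [atkinW, lrhD, Matrix.mul_apply, Fin.sum_univ_two] <;> ring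

/-- **`res1 ∘ cores = P1 = U_q ∘ W + 1`** -/
theorem res1_cores (N q : ℕ) [NeZero N] [Fact q.Prime] (hNq : N.Coprime q) (ψ : X (N * q) A) :
    res1 N q (cores N q ψ) = P1 N q hNq ψ := by
  have hq : q.Prime := Fact.out
  have hqp := lrh_prime_int hq
  have hRF := lrh_incl_F N q
  set d₀ : SL(2, ℤ) := ((atkinS N q hNq : Gamma0 N) : SL(2, ℤ)) with hd₀
  have hd₀mem : d₀ ∈ Gamma0 N := (atkinS N q hNq).2
  have hd₀not : d₀ ∉ Gamma0 (N * q) := lrh_atkinS_not_mem N q hq hNq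
  let δ : Bool → SL(2, ℤ) := fun b => cond b d₀⁻¹ 1
  have hδ : ∀ b, δ b ∈ Gamma0 N := by
    intro b; cases b
    · exact Subgroup.one_mem _
    · exact Subgroup.inv_mem _ hd₀mem
  rw [P1_apply, cores_def, res1_eq_aop]
  rw [LrSpan.aop_comp_tw (lrSpanOfHom (incl N q)) (lrSpanOne N (N * q)) δ hδ
    (by
      intro x hx
      have hxN : (N : ℤ) ∣ x 1 0 := lrh_mem_Gamma0.mp hx
      by_cases hx10 : (q : ℤ) ∣ x 1 0
      · refine ⟨false, 1, Subgroup.one_mem _, Subgroup.mem_top _, ?_⟩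
        rw [LrSpan.F_one]
        show (1 * 1 : SL(2, ℤ))⁻¹ * x ∈ Gamma0 (N * q)
        rw [mul_one, inv_one, one_mul, lrh_mem_Gamma0]
        exact lrh_mul_dvd_of_coprime hNq hxN hx10
      · obtain ⟨t, ht⟩ := lrh_exists_add_mul_dvd hq (x 1 0) hx10 (x 0 0)
        have hy : lrhU (-t) ∈ Gamma0 (N * q) := lrhU_mem_Gamma0 _ _
        refine ⟨true, lrhU (-t), hy, Subgroup.mem_top _, ?_⟩
        rw [hRF _ hy]
        show (lrhU (-t) * d₀⁻¹)⁻¹ * x ∈ Gamma0 (N * q)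
        rw [mul_inv_rev, inv_inv, lrh_mem_Gamma0, lrh_mul_10, lrh_mul_10, lrh_mul_11,
          lrh_inv_00, lrh_inv_01, lrh_inv_10, lrh_inv_11, lrhU_00, lrhU_01, lrhU_10, lrhU_11,
          hd₀, lrh_atkinS_10, lrh_atkinS_11]
        refine lrh_mul_dvd_of_coprime hNq ?_ ?_
        · obtain ⟨c, hc⟩ := hxN
          exact ⟨1 * x 0 0 + - -t * x 1 0 - (-0 * 1 + (q : ℤ) * 1) * 0 + (-0 * 1 + (q : ℤ) * 1) * c -
            (-0 * - -t) * c, by rw [hc]; ring⟩
        · obtain ⟨c, hc⟩ := ht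
          exact ⟨(N : ℤ) * c + x 1 0, by
            have : x 0 0 = (q : ℤ) * c - t * x 1 0 := by linarith
            rw [this]; ring⟩)
    (by
      intro i j y hy _ h
      rw [hRF y hy] at h
      cases i <;> cases j
      · rfl
      · exfalso
        have h' : (y * 1)⁻¹ * d₀⁻¹ ∈ Gamma0 (N * q) := h
        rw [mul_one] at h'
        have h2 := Subgroup.mul_mem _ hy h'
        rw [mul_inv_cancel_left, Subgroup.inv_mem_iff] at h2
        exact hd₀not h2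
      · exfalso
        have h' : (y * d₀⁻¹)⁻¹ * 1 ∈ Gamma0 (N * q) := h
        rw [mul_one, Subgroup.inv_mem_iff] at h'
        have h2 := Subgroup.mul_mem _ (Subgroup.inv_mem _ hy) h'
        rw [inv_mul_cancel_left, Subgroup.inv_mem_iff] at h2
        exact hd₀not h2
      · rfl)]
  rw [Fintype.sum_bool]
  congr 1
  · -- the nontrivial double coset: `U_q ∘ W`
    rw [hecke_eq_aop, atkin_eq_aop]
    rw [LrSpan.aop_comp_one (lrSpanUp (N * q) (N * q) q (Dvd.intro _ rfl))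
      (lrSpanOfHom (atkinHom N q hNq))
      (by
        intro x hx
        exact ⟨1, Subgroup.one_mem _, Subgroup.one_mem _, Subgroup.mem_top _⟩)]
    have hUW0 : ((lrSpanUp (N * q) (N * q) q (Dvd.intro _ rfl)).comp
        (lrSpanOfHom (atkinHom N q hNq))).IsOf (atkinW N q * lrhD q) :=
      LrSpan.comp_isOf _ _ (lrSpanUp_isOf _ _ _ _) (lrh_atkin_isOf N q hNq) (by
        rintro y hy ⟨g, hg, e⟩
        refine ⟨?_, Subgroup.mem_top _⟩
        rw [lrh_atkinW_mul_D N q hNq, Matrix.smul_mul, Matrix.mul_smul] at e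
        have e11 := congrFun (congrFun e 1) 1
        simp only [Matrix.smul_apply, smul_eq_mul] at e11
        have e11' := mul_left_cancel₀ (by exact_mod_cast hq.ne_zero : (q : ℤ) ≠ 0) e11
        rw [Matrix.mul_apply, Matrix.mul_apply, Fin.sum_univ_two, Fin.sum_univ_two] at e11'
        have e2 : (N : ℤ) * y 0 1 + (q : ℤ) * y 1 1 = g 1 0 * awY N q + g 1 1 * (q : ℤ) := e11'
        have hg10 : (q : ℤ) ∣ g 1 0 :=
          Dvd.dvd.trans (by push_cast; exact Dvd.intro_left _ rfl) (lrh_mem_Gamma0.mp hg)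
        obtain ⟨c, hc⟩ := hg10
        have h3 : (q : ℤ) ∣ (N : ℤ) * y 0 1 :=
          ⟨c * awY N q + g 1 1 - y 1 1, by rw [hc] at e2; linarith⟩
        exact (hqp.dvd_or_dvd h3).resolve_left (lrh_not_dvd_N hq hNq))
    rw [lrh_atkinW_mul_D N q hNq] at hUW0
    have hUW := hUW0.of_smul
    have hterm : ((lrSpanOfHom (incl N q)).compTw (lrSpanOne N (N * q)) d₀⁻¹
        (Subgroup.inv_mem _ hd₀mem)).IsOf
        (1 * (((d₀⁻¹)⁻¹ : SL(2, ℤ)) : Matrix (Fin 2) (Fin 2) ℤ) * 1) :=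
      LrSpan.compTw_isOf _ _ d₀⁻¹ _ (lrh_incl_isOf N q) (lrSpanOne_isOf _ _) (by
        rintro y hy ⟨g, hg, e⟩
        refine ⟨Subgroup.mem_top _, ?_⟩
        rw [hRF y hy]
        rw [Matrix.one_mul, Matrix.mul_one, ← Matrix.SpecialLinearGroup.coe_mul,
          ← Matrix.SpecialLinearGroup.coe_mul] at e
        have e' : (d₀⁻¹)⁻¹ * y = g * (d₀⁻¹)⁻¹ := Subtype.ext e
        have : (d₀⁻¹)⁻¹ * y * d₀⁻¹ = g := by rw [e']; group
        show (d₀⁻¹)⁻¹ * y * d₀⁻¹ ∈ Gamma0 (N * q)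
        rw [this]; exact hg)
    rw [Matrix.one_mul, Matrix.mul_one, inv_inv] at hterm
    exact (LrSpan.aop_eq_of_isOf_same _ _ hterm hUW ψ).symm
  · -- the trivial double coset: the identity
    have hterm : ((lrSpanOfHom (incl N q)).compTw (lrSpanOne N (N * q)) 1
        (Subgroup.one_mem _)).IsOf
        (1 * (((1 : SL(2, ℤ))⁻¹ : SL(2, ℤ)) : Matrix (Fin 2) (Fin 2) ℤ) * 1) :=
      LrSpan.compTw_isOf _ _ 1 _ (lrh_incl_isOf N q) (lrSpanOne_isOf _ _) (by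
        rintro y hy ⟨g, hg, e⟩
        refine ⟨Subgroup.mem_top _, ?_⟩
        rw [hRF y hy]
        show (1 : SL(2, ℤ))⁻¹ * y * 1 ∈ Gamma0 (N * q)
        rw [inv_one, one_mul, mul_one]; exact hy)
    rw [inv_one, Matrix.SpecialLinearGroup.coe_one, Matrix.one_mul, Matrix.mul_one] at hterm
    have hid : (lrSpanOfHom (MonoidHom.id ↥(Gamma0 (N * q)))).IsOf 1 :=
      lrSpanOfHom_isOf _ 1 det_one_ne (fun γ => by rw [Matrix.one_mul, Matrix.mul_one]; rfl)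
    refine (LrSpan.aop_eq_of_isOf_same _ _ hid hterm ψ).trans ?_
    rw [lrSpanOfHom_aop]
    rfl

/-- **`res1 ∘ cores ∘ W = P2 = U_q + W`** -/
theorem res1_cores_atkin (N q : ℕ) [NeZero N] [Fact q.Prime] (hNq : N.Coprime q)
    (ψ : X (N * q) A) :
    res1 N q (cores N q (atkin N q hNq ψ)) = P2 N q hNq ψ := by
  rw [res1_cores N q hNq, P1_apply, P2_apply, atkin_atkin]

end LR
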