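import Fermat.Agent.Lib.LR_SymBridge
import Fermat.Agent.Lib.LR_IhCore

/-!
# Statement [B] of the mod `p` Ihara lemma

A character of `Γ₀(N)[1/q] = lrG N q` with values in `ZMod p` (`p` odd) whose restriction to
`Γ₀(N)` kills the parabolic elements vanishes on `Γ₁(N)`:  `LR.lr_B_of_hom`.
-/

set_option autoImplicit false

open CongruenceSubgroup Matrix
open scoped MatrixGroups

namespace LR

theorem lr_ihB_trace_of_c {N : ℕ} (γ : Gamma0 N) (h : mat γ 1 0 = 0) :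
    (mat γ).trace ^ 2 = 4 := by
  have hd := lrSym_det γ
  rw [h, mul_zero, sub_zero] at hd
  rw [Matrix.trace_fin_two]
  rcases Int.eq_one_or_neg_one_of_mul_eq_one' hd with ⟨h1, h2⟩ | ⟨h1, h2⟩
  · rw [h1, h2]; norm_num
  · rw [h1, h2]; norm_num

theorem lr_ihB_trace_of_b {N : ℕ} (γ : Gamma0 N) (h : mat γ 0 1 = 0) :
    (mat γ).trace ^ 2 = 4 := by
  have hd := lrSym_det γ
  rw [h, zero_mul, sub_zero] at hd
  rw [Matrix.trace_fin_two]
  rcases Int.eq_one_or_neg_one_of_mul_eq_one' hd with ⟨h1, h2⟩ | ⟨h1, h2⟩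
  · rw [h1, h2]; norm_num
  · rw [h1, h2]; norm_num

/-- **Statement [B]**: a character `φ` of `Γ₀(N)[1/q]` with values in `ZMod p`, `p` odd, whose
restriction to `Γ₀(N)` kills the parabolic elements, is trivial on the `γ ∈ Γ₀(N)` with
`d ≡ 1 (mod N)`. -/
theorem lr_B_of_hom (N q p : ℕ) [NeZero N] [Fact q.Prime] (hNq : N.Coprime q) (hp : p.Prime)
    (hp2 : p ≠ 2) (φ : ↥(lrG N q) →* Multiplicative (ZMod p))
    (hpar : ∀ γ : Gamma0 N, (mat γ).trace ^ 2 = 4 →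
      φ ⟨lrι (γ : SL(2, ℤ)), lrι_mem_G N q γ.2⟩ = 1) :
    ∀ γ : Gamma0 N, dmod γ = 1 → φ ⟨lrι (γ : SL(2, ℤ)), lrι_mem_G N q γ.2⟩ = 1 := by
  have hq : q.Prime := Fact.out
  have hsym := lr_symhyp_of_hom N q hNq φ
    (fun γ h _ => hpar γ (lr_ihB_trace_of_c γ h)) (fun γ h _ => hpar γ (lr_ihB_trace_of_b γ h))
  let ψ : Additive ↥(Gamma0 N) →+ ZMod p := AddMonoidHom.mk'
    (fun x => Multiplicative.toAdd (φ ⟨lrι ((Additive.toMul x : Gamma0 N) : SL(2, ℤ)),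
      lrι_mem_G N q (Additive.toMul x).2⟩))
    (fun x y => hsym.mul (Additive.toMul x) (Additive.toMul y))
  have hψ : ∀ γ : Gamma0 N, ψ (Additive.ofMul γ)
      = Multiplicative.toAdd (φ ⟨lrι (γ : SL(2, ℤ)), lrι_mem_G N q γ.2⟩) := fun γ => rfl
  obtain ⟨τ, hτ⟩ := hsym.t2 1
  have key := lr_ih_core N q p hq hp hp2 hNq ψ
    (fun γ h => by rw [hψ, hpar γ (lr_ihB_trace_of_c γ h)]; rfl)
    (fun γ h => by rw [hψ, hpar γ (lr_ihB_trace_of_b γ h)]; rfl)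
    (fun γ γ' h00 h11 h10 h01 => by
      rw [hψ, hψ]
      exact hsym.t1 1 γ γ' h00 h11 (by rw [h10]) (by rw [h01]))
    τ
    (fun γ γ' h10 h11 => by
      rw [hψ, hψ]
      exact hτ γ γ' h10 (by rw [h11]))
  intro γ hγ
  have := key γ hγ
  rw [hψ] at this
  exact this

end LR
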