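/-
S41 (level raising), stream S1 (Ihara's lemma), leaf (L-D1): the number theory behind the
"fractional conjugation" step.

* `LR.lr_ih_dir`: Dirichlet + Fermat.  Given a prime `l ≡ 3 mod 4`, `l ≠ q`, integers `A`, `C`
  whose common prime factors are only `q` and such that the `q`-free part of `C` is prime to
  `(l - 1) / 2`, there is a large prime `a1` with `a1 ≡ A` modulo `C ℤ[1/q]` and an exponent
  `k ≥ 1` with `q ^ (2 k) ≡ 1 mod a1` and `q ^ (2 k) ≡ q ^ 2 mod l`.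
* `LR.lr_ih_premod`: the pre-modification `C ↦ C + M D y` making `C` prime to `m` away from `q`.
-/
import Mathlib

set_option autoImplicit false

namespace LR

theorem lr_ih_dir {q l : ℕ} (hq : q.Prime) (hl : l.Prime) (hl4 : l % 4 = 3) (hlq : l ≠ q)
    (A C : ℤ) (hC : C ≠ 0)
    (hAC : ∀ r : ℕ, r.Prime → (r : ℤ) ∣ A → (r : ℤ) ∣ C → r = q)
    (hCm : ∀ r : ℕ, r.Prime → r ∣ (l - 1) / 2 → r ≠ q → ¬ (r : ℤ) ∣ C) (B : ℕ) :
    ∃ a1 : ℕ, a1.Prime ∧ B < a1 ∧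
      (∃ (e : ℕ) (n : ℤ), (q : ℤ) ^ e * ((a1 : ℤ) - A) = n * C) ∧
      ∃ k : ℕ, 0 < k ∧ (a1 : ℤ) ∣ (q : ℤ) ^ (2 * k) - 1 ∧
        (l : ℤ) ∣ (q : ℤ) ^ (2 * k) - (q : ℤ) ^ 2 := by
  obtain ⟨m, hm⟩ : ∃ m, m = (l - 1) / 2 := ⟨_, rfl⟩
  rw [← hm] at hCm
  have hl2 : l - 1 = 2 * m := by omega
  have hmodd : m % 2 = 1 := by omega
  have hm0 : m ≠ 0 := by omega
  -- decompose `C`
  have hCn : C.natAbs ≠ 0 := Int.natAbs_ne_zero.mpr hC
  obtain ⟨e, C0, hqC0, hCe⟩ := Nat.exists_eq_pow_mul_and_not_dvd hCn q hq.ne_one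
  have hC0 : C0 ≠ 0 := by
    rintro rfl
    exact hqC0 (dvd_zero q)
  have hC0C : (C0 : ℤ) ∣ C := by
    rw [Int.natCast_dvd, hCe]
    exact Dvd.intro_left _ rfl
  -- coprimality of `C0` and `m`
  have hcop1 : Nat.Coprime C0 m := by
    by_contra hcon
    obtain ⟨r, hr, hr1, hr2⟩ := Nat.Prime.not_coprime_iff_dvd.mp hcon
    have hrq : r ≠ q := by
      rintro rfl
      exact hqC0 hr1
    exact hCm r hr hr2 hrq ((Int.natCast_dvd_natCast.mpr hr1).trans hC0C)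
  -- coprimality of `A` and `C0`
  have hcop2 : Nat.Coprime A.natAbs C0 := by
    by_contra hcon
    obtain ⟨r, hr, hr1, hr2⟩ := Nat.Prime.not_coprime_iff_dvd.mp hcon
    have h1 : (r : ℤ) ∣ A := Int.natCast_dvd.mpr hr1
    have h2 : (r : ℤ) ∣ C := (Int.natCast_dvd_natCast.mpr hr2).trans hC0C
    have := hAC r hr h1 h2
    subst this
    exact hqC0 hr2
  have hcop2' : IsCoprime A (C0 : ℤ) := by
    rw [Int.isCoprime_iff_gcd_eq_one, Int.gcd_eq_natAbs, Int.natAbs_natCast]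
    exact hcop2
  -- CRT
  obtain ⟨x, hx1, hx2⟩ := Nat.chineseRemainder hcop1 (A % (C0 : ℤ)).toNat 2
  have hApos : 0 ≤ A % (C0 : ℤ) := Int.emod_nonneg _ (by exact_mod_cast hC0)
  have hxA : (x : ℤ) ≡ A [ZMOD (C0 : ℤ)] := by
    have h1 : (x : ℤ) ≡ ((A % (C0 : ℤ)).toNat : ℤ) [ZMOD (C0 : ℤ)] :=
      Int.natCast_modEq_iff.mpr hx1
    rw [Int.toNat_of_nonneg hApos] at h1
    exact h1.trans (Int.mod_modEq A C0)
  have hxcop : Nat.Coprime x (C0 * m) := by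
    apply Nat.Coprime.mul_right
    · obtain ⟨t, ht⟩ := (Int.modEq_iff_dvd.mp hxA.symm)
      have hx : (x : ℤ) = A + (C0 : ℤ) * t := by linarith
      have h1 : IsCoprime (x : ℤ) (C0 : ℤ) := by
        rw [hx]
        exact hcop2'.add_mul_left_left t
      exact Nat.isCoprime_iff_coprime.mp h1
    · have h1 : Nat.gcd x m = Nat.gcd 2 m := Nat.ModEq.gcd_eq hx2
      have h2 : Nat.Coprime 2 m := (Nat.Prime.coprime_iff_not_dvd Nat.prime_two).mpr (by omega)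
      rw [Nat.Coprime, h1]
      exact h2
  -- Dirichlet
  have hC0m : C0 * m ≠ 0 := Nat.mul_ne_zero hC0 hm0
  obtain ⟨a1, ha1gt, ha1p, ha1x⟩ :=
    Nat.forall_exists_prime_gt_and_modEq (max (max B q) 2) hC0m hxcop
  have ha1B : B < a1 := lt_of_le_of_lt (le_trans (le_max_left _ _) (le_max_left _ _)) ha1gt
  have ha1q : q < a1 := lt_of_le_of_lt (le_trans (le_max_right _ _) (le_max_left _ _)) ha1gt
  have ha12 : 2 < a1 := lt_of_le_of_lt (le_max_right _ _) ha1gt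
  refine ⟨a1, ha1p, ha1B, ?_, ?_⟩
  · -- `a1 ≡ A` modulo `C ℤ[1/q]`
    have h1 : (a1 : ℤ) ≡ A [ZMOD (C0 : ℤ)] := by
      have h2 : a1 ≡ x [MOD C0] := ha1x.of_mul_right m
      exact (Int.natCast_modEq_iff.mpr h2).trans hxA
    obtain ⟨w, hw⟩ := Int.modEq_iff_dvd.mp h1.symm
    have hCabs : (C.natAbs : ℤ) = (q : ℤ) ^ e * (C0 : ℤ) := by
      rw [hCe]; push_cast; ring
    rcases Int.natAbs_eq C with hCC | hCC
    · refine ⟨e, w, ?_⟩
      rw [hw, hCC, hCabs]; ring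
    · refine ⟨e, -w, ?_⟩
      rw [hw, hCC, hCabs]; ring
  · -- the exponent
    have ha1m : Nat.Coprime (a1 - 1) m := by
      have h2 : a1 ≡ 2 [MOD m] := (ha1x.of_mul_left C0).trans hx2
      have h3 : a1 - 1 ≡ 1 [MOD m] := by
        have h4 : a1 - 1 + 1 ≡ 1 + 1 [MOD m] := by
          have : a1 - 1 + 1 = a1 := by omega
          rw [this]; exact h2
        exact Nat.ModEq.add_right_cancel' 1 h4
      have h5 : Nat.gcd (a1 - 1) m = Nat.gcd 1 m := Nat.ModEq.gcd_eq h3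
      rw [Nat.Coprime, h5]; exact Nat.gcd_one_left m
    obtain ⟨h, hh⟩ : ∃ h, a1 - 1 = 2 * h := by
      have hodd : a1 % 2 = 1 := by
        rcases Nat.Prime.eq_two_or_odd ha1p with h2 | h2
        · omega
        · exact h2
      exact ⟨(a1 - 1) / 2, by omega⟩
    have hh0 : 0 < h := by omega
    have hhm : Nat.Coprime h m := Nat.Coprime.coprime_dvd_left ⟨2, by rw [hh]; ring⟩ ha1m
    -- Bezout
    obtain ⟨i, j, hi0, hij⟩ : ∃ i j : ℕ, 0 < i ∧ h * i = 1 + m * j := by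
      by_cases hm1 : m = 1
      · refine ⟨1, h - 1, one_pos, ?_⟩
        rw [hm1]; omega
      · have hm1' : 1 < m := by omega
        obtain ⟨i, -, hi⟩ := Nat.exists_mul_mod_eq_one_of_coprime hhm hm1'
        refine ⟨i, h * i / m, ?_, ?_⟩
        · rcases Nat.eq_zero_or_pos i with h0 | h0
          · rw [h0] at hi; simp at hi
          · exact h0
        · have := Nat.div_add_mod (h * i) m
          rw [hi] at this
          omega
    refine ⟨h * i, Nat.mul_pos hh0 hi0, ?_, ?_⟩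
    · -- Fermat modulo `a1`
      have hcop : IsCoprime (q : ℤ) (a1 : ℤ) := by
        rw [Nat.isCoprime_iff_coprime]
        exact (Nat.coprime_primes hq ha1p).mpr (by omega)
      have hF := Int.ModEq.pow_card_sub_one_eq_one ha1p hcop
      have h1 : (q : ℤ) ^ (2 * (h * i)) = ((q : ℤ) ^ (a1 - 1)) ^ i := by
        rw [← pow_mul, hh]; ring_nf
      have h2 : ((q : ℤ) ^ (a1 - 1)) ^ i ≡ 1 ^ i [ZMOD (a1 : ℤ)] := hF.pow i
      rw [one_pow] at h2
      rw [h1]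
      exact (Int.modEq_iff_dvd.mp h2.symm)
    · -- Fermat modulo `l`
      have hcop : IsCoprime (q : ℤ) (l : ℤ) := by
        rw [Nat.isCoprime_iff_coprime]
        exact (Nat.coprime_primes hq hl).mpr (fun h => hlq h.symm)
      have hF := Int.ModEq.pow_card_sub_one_eq_one hl hcop
      have h1 : (q : ℤ) ^ (2 * (h * i)) = (q : ℤ) ^ 2 * ((q : ℤ) ^ (l - 1)) ^ j := by
        rw [← pow_mul, ← pow_add, hl2, hij]; ring_nf
      have h2 : (q : ℤ) ^ 2 * ((q : ℤ) ^ (l - 1)) ^ j ≡ (q : ℤ) ^ 2 * 1 ^ j [ZMOD (l : ℤ)] :=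
        Int.ModEq.mul_left _ (hF.pow j)
      rw [one_pow, mul_one] at h2
      rw [h1]
      exact (Int.modEq_iff_dvd.mp h2.symm)

theorem lr_ih_premod {q m : ℕ} (hm : m ≠ 0) (C D M : ℤ) (hM0 : M ≠ 0)
    (hM : ∀ r : ℕ, r.Prime → r ∣ m → r ≠ q → ¬ (r : ℤ) ∣ M)
    (hCD : ∀ r : ℕ, r.Prime → (r : ℤ) ∣ C → (r : ℤ) ∣ D → r = q) :
    ∃ y : ℤ, C + M * D * y ≠ 0 ∧
      ∀ r : ℕ, r.Prime → r ∣ m → r ≠ q → ¬ (r : ℤ) ∣ C + M * D * y := by
  classical
  obtain ⟨S, hS⟩ : ∃ S : Finset ℕ, S = m.primeFactors.filter (fun r : ℕ => r ≠ q) := ⟨_, rfl⟩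
  obtain ⟨y0, hy0⟩ : ∃ y0 : ℕ, y0 = ∏ r ∈ S.filter (fun r : ℕ => ¬ (r : ℤ) ∣ C), r := ⟨_, rfl⟩
  obtain ⟨P, hP⟩ : ∃ P : ℕ, P = ∏ r ∈ S, r := ⟨_, rfl⟩
  have hSmem : ∀ r : ℕ, r ∈ S ↔ r.Prime ∧ r ∣ m ∧ r ≠ q := by
    intro r
    rw [hS, Finset.mem_filter, Nat.mem_primeFactors]
    constructor
    · rintro ⟨⟨h1, h2, -⟩, h3⟩
      exact ⟨h1, h2, h3⟩
    · rintro ⟨h1, h2, h3⟩
      exact ⟨⟨h1, h2, hm⟩, h3⟩
  have key : ∀ z : ℤ, ∀ r : ℕ, r.Prime → r ∣ m → r ≠ q →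
      ¬ (r : ℤ) ∣ C + M * D * ((y0 : ℤ) + P * z) := by
    intro z r hr hrm hrq hdvd
    have hrS : r ∈ S := (hSmem r).mpr ⟨hr, hrm, hrq⟩
    have hrP : (r : ℤ) ∣ (P : ℤ) := by
      rw [hP]
      exact_mod_cast Finset.dvd_prod_of_mem (fun r => r) hrS
    have h1 : (r : ℤ) ∣ C + M * D * y0 := by
      have e : C + M * D * ((y0 : ℤ) + P * z) = (C + M * D * y0) + (P : ℤ) * (M * D * z) := by
        ring
      rw [e] at hdvd
      exact (dvd_add_left (Dvd.dvd.mul_right hrP _)).mp hdvd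
    have hrp : Prime (r : ℤ) := Nat.prime_iff_prime_int.mp hr
    by_cases hrC : (r : ℤ) ∣ C
    · have h2 : (r : ℤ) ∣ M * D * y0 := (dvd_add_right hrC).mp h1
      rcases hrp.dvd_or_dvd h2 with h3 | h3
      · rcases hrp.dvd_or_dvd h3 with h4 | h4
        · exact hM r hr hrm hrq h4
        · exact hrq (hCD r hr hrC h4)
      · have h5 : r ∣ y0 := by exact_mod_cast h3
        rw [hy0, Prime.dvd_finsetProd_iff hr.prime] at h5
        obtain ⟨r', hr'mem, hr'⟩ := h5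
        have hr'S : r' ∈ S := (Finset.mem_filter.mp hr'mem).1
        have hr'p : r'.Prime := ((hSmem r').mp hr'S).1
        have hrr : r = r' := (Nat.prime_dvd_prime_iff_eq hr hr'p).mp hr'
        subst hrr
        exact (Finset.mem_filter.mp hr'mem).2 hrC
    · have h5 : (r : ℤ) ∣ (y0 : ℤ) := by
        rw [hy0]
        exact_mod_cast Finset.dvd_prod_of_mem (fun r => r) (Finset.mem_filter.mpr ⟨hrS, hrC⟩)
      have h2 : (r : ℤ) ∣ M * D * y0 := Dvd.dvd.mul_left h5 _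
      exact hrC ((dvd_add_left h2).mp h1)
  by_cases h0 : C + M * D * (y0 : ℤ) = 0
  · refine ⟨(y0 : ℤ) + P * 1, ?_, key 1⟩
    have hD : D ≠ 0 := by
      rintro rfl
      have hC0 : C = 0 := by simpa using h0
      obtain ⟨r, hrgt, hr⟩ := Nat.exists_infinite_primes (q + 1)
      have := hCD r hr (by rw [hC0]; exact dvd_zero _) (dvd_zero _)
      omega
    have hP0 : (P : ℤ) ≠ 0 := by
      have : P ≠ 0 := by
        rw [hP]
        exact Finset.prod_ne_zero_iff.mpr (fun r hr => ((hSmem r).mp hr).1.ne_zero)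
      exact_mod_cast this
    have e : C + M * D * ((y0 : ℤ) + P * 1) = M * D * P := by linear_combination h0
    rw [e]
    exact mul_ne_zero (mul_ne_zero hM0 hD) hP0
  · refine ⟨(y0 : ℤ) + P * 0, ?_, key 0⟩
    simpa using h0

end LR
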