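/-
S41 (level raising), stream S1: the mod `p` Ihara lemma `hL1` of `LR.lr_S41_of_ihara`,
directly on `Γ₀(N)` and `Γ₀(N q)` (no `Γ₀(N)[1/q]`, no amalgam).

Let `χ₁, χ₂` be parabolic characters of `Γ₀(N)` with `res1 χ₁ + res2 χ₂ = 0` on `Γ₀(N q)`.
Applying the Atkin–Lehner operator gives also `res1 χ₂ + res2 χ₁ = 0`.  Writing `sᵢ(c,d)` for the
value of `χᵢ` on the bottom row `(c,d)`, the two relations say `s₁(q c, d) = - s₂(c, d)` and
`s₂(q c, d) = - s₁(c, d)`.  Hence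
* `(T1)`: `s₁(q² c, d) = s₁(c, d)` (`LR.lrd_T1`);
* half steps `s₁(c, q d) = - s₂(c, d) + κ₁`, `s₂(c, q d) = - s₁(c, d) + κ₂` (`LR.lrd_half`), so
* `(T2)`: `s₁(c, q² d) = s₁(c, d) + (κ₁ - κ₂)` (`LR.lrd_T2`),
which are the torus relations needed by `LR.lr_ih_core`.  `LR.lr_hL1_direct` is the result.
-/
import Fermat.Agent.Lib.LR_IhCore
import Fermat.Agent.Lib.LR_Level

set_option autoImplicit false

namespace LR

open CongruenceSubgroup ModularCurve.Period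
open scoped MatrixGroups

section Direct

variable {N q : ℕ} [NeZero q] {A : Type*} [AddCommGroup A]

theorem lrd_ext {M : ℕ} (γ γ' : Gamma0 M) (h00 : mat γ 0 0 = mat γ' 0 0)
    (h01 : mat γ 0 1 = mat γ' 0 1) (h10 : mat γ 1 0 = mat γ' 1 0)
    (h11 : mat γ 1 1 = mat γ' 1 1) : γ = γ' := by
  apply mat_injective
  ext i j
  fin_cases i <;> fin_cases j
  · exact h00
  · exact h01
  · exact h10
  · exact h11

omit [NeZero q] in
/-- lift of an element of `Γ₀(N)` with `N q ∣ c` to `Γ₀(N q)` -/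
theorem lrd_lift (γ : Gamma0 N) (h : ((N * q : ℕ) : ℤ) ∣ mat γ 1 0) :
    ∃ g : Gamma0 (N * q), incl N q g = γ ∧ mat g = mat γ := by
  refine ⟨mk (mat γ) (mat_det γ) h, ?_, mat_mk _ _ _⟩
  apply mat_injective
  rw [mat_incl, mat_mk]

theorem lrd_dconj_10 (g : Gamma0 (N * q)) (c : ℤ) (h : mat g 1 0 = (q : ℤ) * c) :
    mat (dconj N q g) 1 0 = c := by
  have h1 := mat_dconj_10 N q g
  have hq0 : (q : ℤ) ≠ 0 := by exact_mod_cast NeZero.ne q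
  apply mul_right_cancel₀ hq0
  rw [h1, h]; ring

/-- `(T1)`: `χ[a, q² b; c, d] = χ[a, b; q² c, d]`. -/
theorem lrd_T1 (χ χ' : X N A)
    (hR : ∀ g : Gamma0 (N * q),
      χ (Additive.ofMul (incl N q g)) + χ' (Additive.ofMul (dconj N q g)) = 0)
    (hR' : ∀ g : Gamma0 (N * q),
      χ' (Additive.ofMul (incl N q g)) + χ (Additive.ofMul (dconj N q g)) = 0)
    (γ γ' : Gamma0 N) (h00 : mat γ' 0 0 = mat γ 0 0) (h11 : mat γ' 1 1 = mat γ 1 1)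
    (h10 : mat γ 1 0 = (q : ℤ) ^ 2 * mat γ' 1 0) (h01 : mat γ' 0 1 = (q : ℤ) ^ 2 * mat γ 0 1) :
    χ (Additive.ofMul γ') = χ (Additive.ofMul γ) := by
  obtain ⟨c', hc'⟩ := mat_dvd γ'
  have hd := mat_det γ
  rw [Matrix.det_fin_two] at hd
  obtain ⟨g, hg1, hg2⟩ := lrd_lift (q := q) γ (by
    rw [h10, hc']; push_cast; exact ⟨(q : ℤ) * c', by ring⟩)
  obtain ⟨m, hm⟩ : ∃ m : Gamma0 (N * q),
      mat m = !![mat γ 0 0, (q : ℤ) * mat γ 0 1; (q : ℤ) * mat γ' 1 0, mat γ 1 1] := by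
    refine ⟨mk !![mat γ 0 0, (q : ℤ) * mat γ 0 1; (q : ℤ) * mat γ' 1 0, mat γ 1 1] ?_ ?_,
      mat_mk _ _ _⟩
    · rw [Matrix.det_fin_two_of]; rw [h10] at hd; linear_combination hd
    · show ((N * q : ℕ) : ℤ) ∣ (q : ℤ) * mat γ' 1 0
      rw [hc']; push_cast; exact ⟨c', by ring⟩
  have m00 : mat m 0 0 = mat γ 0 0 := by rw [hm]; rfl
  have m01 : mat m 0 1 = (q : ℤ) * mat γ 0 1 := by rw [hm]; rfl
  have m10 : mat m 1 0 = (q : ℤ) * mat γ' 1 0 := by rw [hm]; rfl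
  have m11 : mat m 1 1 = mat γ 1 1 := by rw [hm]; rfl
  have e2 : dconj N q g = incl N q m := by
    apply lrd_ext
    · rw [mat_dconj_00, mat_incl, hg2, m00]
    · rw [mat_dconj_01, mat_incl, hg2, m01]
    · rw [mat_incl, m10]
      exact lrd_dconj_10 g _ (by rw [hg2, h10]; ring)
    · rw [mat_dconj_11, mat_incl, hg2, m11]
  have e3 : dconj N q m = γ' := by
    apply lrd_ext
    · rw [mat_dconj_00, m00, h00]
    · rw [mat_dconj_01, m01, h01]; ring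
    · exact lrd_dconj_10 m _ m10
    · rw [mat_dconj_11, m11, h11]
  have r1 := hR g
  rw [hg1, e2] at r1
  have r2 := hR' m
  rw [e3] at r2
  rw [eq_neg_of_add_eq_zero_left r1, eq_neg_of_add_eq_zero_right r2]

/-- half step: for rows `(c, d)` of `g` and `(c, q d)` of `g'`,
`χ g' + χ A₀ + χ' g + χ' A♭ = 0`. -/
theorem lrd_half (χ χ' : X N A)
    (hup' : ∀ γ : Gamma0 N, mat γ 1 0 = 0 → mat γ 1 1 = 1 → χ' (Additive.ofMul γ) = 0)
    (hR : ∀ g : Gamma0 (N * q),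
      χ (Additive.ofMul (incl N q g)) + χ' (Additive.ofMul (dconj N q g)) = 0)
    (A₀ Ab : Gamma0 N) (hA00 : mat A₀ 0 0 = (q : ℤ) * mat Ab 0 0)
    (hA01 : mat Ab 0 1 = mat A₀ 0 1) (hA10 : mat Ab 1 0 = mat A₀ 1 0)
    (hA11 : mat Ab 1 1 = (q : ℤ) * mat A₀ 1 1)
    (g g' : Gamma0 N) (h10 : mat g' 1 0 = mat g 1 0) (h11 : mat g' 1 1 = (q : ℤ) * mat g 1 1) :
    χ (Additive.ofMul g') + χ (Additive.ofMul A₀) + χ' (Additive.ofMul g)
      + χ' (Additive.ofMul Ab) = 0 := by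
  obtain ⟨c₀, hc₀⟩ := mat_dvd g
  obtain ⟨n₀, hn₀⟩ := mat_dvd A₀
  have p10 : mat (g' * A₀) 1 0 = (q : ℤ) * (mat g 1 0 * mat Ab 0 0 + mat g 1 1 * mat A₀ 1 0) := by
    rw [lrSym_mul_apply, h10, h11, hA00]; ring
  have p11 : mat (g' * A₀) 1 1 = mat g 1 0 * mat A₀ 0 1 + (q : ℤ) * mat g 1 1 * mat A₀ 1 1 := by
    rw [lrSym_mul_apply, h10, h11]
  obtain ⟨h, hh1, hh2⟩ := lrd_lift (q := q) (g' * A₀) (by
    rw [p10, hc₀, hn₀]; push_cast
    exact ⟨c₀ * mat Ab 0 0 + mat g 1 1 * n₀, by ring⟩)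
  have d10 : mat (dconj N q h) 1 0 = mat (g * Ab) 1 0 := by
    rw [lrSym_mul_apply, hA10]
    exact lrd_dconj_10 h _ (by rw [hh2, p10])
  have d11 : mat (dconj N q h) 1 1 = mat (g * Ab) 1 1 := by
    rw [mat_dconj_11, hh2, p11, lrSym_mul_apply, hA01, hA11]; ring
  have hmul' : ∀ γ γ' : Gamma0 N, χ' (Additive.ofMul (γ * γ'))
      = χ' (Additive.ofMul γ) + χ' (Additive.ofMul γ') := fun γ γ' => by
    rw [ofMul_mul, map_add]
  have e1 : χ' (Additive.ofMul (dconj N q h)) = χ' (Additive.ofMul (g * Ab)) :=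
    lrSym_row_aux (ψ := fun γ : Gamma0 N => χ' (Additive.ofMul γ)) hmul' hup' _ _ d10 d11
  have r := hR h
  rw [hh1, e1, hmul', ofMul_mul, map_add] at r
  rw [← r]; abel

/-- `(T2)`: for rows `(c, d)` of `γ` and `(c, q² d)` of `γ'`, `χ γ' = χ γ + τ`. -/
theorem lrd_T2 (χ χ' : X N A)
    (hup : ∀ γ : Gamma0 N, mat γ 1 0 = 0 → mat γ 1 1 = 1 → χ (Additive.ofMul γ) = 0)
    (hup' : ∀ γ : Gamma0 N, mat γ 1 0 = 0 → mat γ 1 1 = 1 → χ' (Additive.ofMul γ) = 0)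
    (hR : ∀ g : Gamma0 (N * q),
      χ (Additive.ofMul (incl N q g)) + χ' (Additive.ofMul (dconj N q g)) = 0)
    (hR' : ∀ g : Gamma0 (N * q),
      χ' (Additive.ofMul (incl N q g)) + χ (Additive.ofMul (dconj N q g)) = 0)
    (A₀ Ab : Gamma0 N) (hA00 : mat A₀ 0 0 = (q : ℤ) * mat Ab 0 0)
    (hA01 : mat Ab 0 1 = mat A₀ 0 1) (hA10 : mat Ab 1 0 = mat A₀ 1 0)
    (hA11 : mat Ab 1 1 = (q : ℤ) * mat A₀ 1 1)
    (γ γ' : Gamma0 N) (h10 : mat γ' 1 0 = mat γ 1 0)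
    (h11 : mat γ' 1 1 = (q : ℤ) ^ 2 * mat γ 1 1) :
    χ (Additive.ofMul γ') = χ (Additive.ofMul γ)
      + ((χ' (Additive.ofMul A₀) + χ (Additive.ofMul Ab))
        - (χ (Additive.ofMul A₀) + χ' (Additive.ofMul Ab))) := by
  have hcop := lrSym_row_coprime γ'
  rw [h10, h11] at hcop
  have hcop1 : IsCoprime (mat γ 1 0) ((q : ℤ) * mat γ 1 1) := by
    have e : (q : ℤ) ^ 2 * mat γ 1 1 = (q : ℤ) * ((q : ℤ) * mat γ 1 1) := by ring
    rw [e] at hcop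
    exact hcop.of_mul_right_right
  obtain ⟨g₁, f10, f11⟩ := lrSym_row_exists (N := N) (mat_dvd γ) hcop1
  have e1 := lrd_half χ χ' hup' hR A₀ Ab hA00 hA01 hA10 hA11 g₁ γ' (by rw [h10, f10])
    (by rw [h11, f11]; ring)
  have e2 := lrd_half χ' χ hup hR' A₀ Ab hA00 hA01 hA10 hA11 γ g₁ f10 f11
  calc χ (Additive.ofMul γ')
      = (χ (Additive.ofMul γ') + χ (Additive.ofMul A₀) + χ' (Additive.ofMul g₁)
          + χ' (Additive.ofMul Ab))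
        - (χ' (Additive.ofMul g₁) + χ' (Additive.ofMul A₀) + χ (Additive.ofMul γ)
          + χ (Additive.ofMul Ab))
        + (χ (Additive.ofMul γ)
          + ((χ' (Additive.ofMul A₀) + χ (Additive.ofMul Ab))
            - (χ (Additive.ofMul A₀) + χ' (Additive.ofMul Ab)))) := by abel
    _ = χ (Additive.ofMul γ)
      + ((χ' (Additive.ofMul A₀) + χ (Additive.ofMul Ab))
        - (χ (Additive.ofMul A₀) + χ' (Additive.ofMul Ab))) := by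
      rw [e1, e2]; abel

end Direct

/-- **Ihara's lemma modulo `p`** in the form consumed by `LR.lr_S41_of_ihara`. -/
theorem lr_hL1_direct (N q p : ℕ) [NeZero N] [NeZero q] (hq : q.Prime) (hp : p.Prime)
    (hp2 : p ≠ 2) (hNq : N.Coprime q) (χ₁ χ₂ : X N (ZMod p))
    (h1 : IsParabolicHom (Gamma0 N) χ₁) (h2 : IsParabolicHom (Gamma0 N) χ₂)
    (hres : res1 N q χ₁ + res2 N q χ₂ = 0) :
    (∀ γ : Gamma0 N, dmod γ = 1 → χ₁ (Additive.ofMul γ) = 0) ∧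
      (∀ γ : Gamma0 N, dmod γ = 1 → χ₂ (Additive.ofMul γ) = 0) := by
  have t1 := ihTri_of_par χ₁ h1
  have t2 := ihTri_of_par χ₂ h2
  have hR1 : ∀ g : Gamma0 (N * q),
      χ₁ (Additive.ofMul (incl N q g)) + χ₂ (Additive.ofMul (dconj N q g)) = 0 := by
    intro g
    have h := congrArg (fun χ : X (N * q) (ZMod p) => χ (Additive.ofMul g)) hres
    simpa using h
  have hres' : res1 N q χ₂ + res2 N q χ₁ = 0 := by
    have h := congrArg (atkin N q hNq) hres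
    rw [map_add, atkin_res1, atkin_res2, map_zero] at h
    rw [add_comm]; exact h
  have hR2 : ∀ g : Gamma0 (N * q),
      χ₂ (Additive.ofMul (incl N q g)) + χ₁ (Additive.ofMul (dconj N q g)) = 0 := by
    intro g
    have h := congrArg (fun χ : X (N * q) (ZMod p) => χ (Additive.ofMul g)) hres'
    simpa using h
  have hb := aw_bezout hNq
  obtain ⟨A₀, a00, a01, a10, a11⟩ := lrSym_mk_exists (N := N) ((q : ℤ) * awX N q) (awY N q)
    (N : ℤ) 1 (by linarith) dvd_rfl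
  obtain ⟨Ab, b00, b01, b10, b11⟩ := lrSym_mk_exists (N := N) (awX N q) (awY N q)
    (N : ℤ) (q : ℤ) (by linarith) dvd_rfl
  have hA00 : mat A₀ 0 0 = (q : ℤ) * mat Ab 0 0 := by rw [a00, b00]
  have hA01 : mat Ab 0 1 = mat A₀ 0 1 := by rw [a01, b01]
  have hA10 : mat Ab 1 0 = mat A₀ 1 0 := by rw [a10, b10]
  have hA11 : mat Ab 1 1 = (q : ℤ) * mat A₀ 1 1 := by rw [a11, b11, mul_one]
  have up1 : ∀ γ : Gamma0 N, mat γ 1 0 = 0 → mat γ 1 1 = 1 → χ₁ (Additive.ofMul γ) = 0 :=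
    fun γ h _ => t1.1 γ h
  have up2 : ∀ γ : Gamma0 N, mat γ 1 0 = 0 → mat γ 1 1 = 1 → χ₂ (Additive.ofMul γ) = 0 :=
    fun γ h _ => t2.1 γ h
  constructor
  · exact lr_ih_core N q p hq hp hp2 hNq χ₁ t1.1 t1.2
      (fun γ γ' h00 h11 h10 h01 => lrd_T1 χ₁ χ₂ hR1 hR2 γ γ' h00 h11 h10 h01) _
      (fun γ γ' h10 h11 => lrd_T2 χ₁ χ₂ up1 up2 hR1 hR2 A₀ Ab hA00 hA01 hA10 hA11 γ γ' h10 h11)
  · exact lr_ih_core N q p hq hp hp2 hNq χ₂ t2.1 t2.2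
      (fun γ γ' h00 h11 h10 h01 => lrd_T1 χ₂ χ₁ hR2 hR1 γ γ' h00 h11 h10 h01) _
      (fun γ γ' h10 h11 => lrd_T2 χ₂ χ₁ up2 up1 hR2 hR1 A₀ Ab hA00 hA01 hA10 hA11 γ γ' h10 h11)

end LR
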