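import Fermat.Agent.Lib.LR_AmalgamGen
import Fermat.Agent.Lib.LR_Eis
import Fermat.Agent.Lib.LR_Level

/-!
# S41 (level raising), [S1] glue: the mod `p` Ihara lemma from the congruence statement [B]

Given parabolic characters `χ₁, χ₂` of `Γ₀(N)` with `res1 χ₁ + res2 χ₂ = 0` on `Γ₀(Nq)`, the
amalgam `Γ₀(N)[1/q] = Γ₀(N) *_{Γ₀(Nq)} δ⁻¹Γ₀(N)δ` (`lr_amalgam_ext`) glues `χ₁` and `-χ₂` to a
character `φ` of `lrG N q`; `φ` kills the parabolic elements of `Γ₀(N)` and all upper unipotents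
`u⁺(n/q^k)` (torus conjugation).  Hence statement [B] (such a character vanishes on `Γ₁(N)`)
gives `χ₁ = 0` on `Γ₁(N)`; the Atkin-Lehner symmetry gives the same for `χ₂`.
-/

set_option autoImplicit false

open CongruenceSubgroup Matrix ModularCurve.Period
open scoped MatrixGroups

namespace LR

section IhTop

variable {N q : ℕ} [Fact q.Prime]

theorem lr_top_q_ne (q : ℕ) [Fact q.Prime] : (q : ℚ) ≠ 0 :=
  Nat.cast_ne_zero.mpr (Fact.out : q.Prime).ne_zero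

theorem lr_top_congr {F : Type*} [CommGroup F] (φ : ↥(lrG N q) →* F) {g g' : SL(2, ℚ)}
    (h : g = g') (hm : g ∈ lrG N q) (hm' : g' ∈ lrG N q) : φ ⟨g, hm⟩ = φ ⟨g', hm'⟩ := by
  subst h; rfl

theorem lr_top_phi_conj {F : Type*} [CommGroup F] (φ : ↥(lrG N q) →* F) (t g g' : SL(2, ℚ))
    (ht : t ∈ lrG N q) (hg : g ∈ lrG N q) (hg' : g' ∈ lrG N q) (e : g' = t * g * t⁻¹) :
    φ ⟨g', hg'⟩ = φ ⟨g, hg⟩ := by
  subst e
  have : (⟨t * g * t⁻¹, hg'⟩ : ↥(lrG N q)) = ⟨t, ht⟩ * ⟨g, hg⟩ * ⟨t, ht⟩⁻¹ := rfl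
  rw [this, map_mul, map_mul, map_inv, mul_comm, inv_mul_cancel_left]

/-- `φ` kills `u⁺(n / q^(2j))` as soon as it kills the integral `u⁺(n)`. -/
theorem lr_top_up_even (hNq : N.Coprime q) {F : Type*} [CommGroup F] (φ : ↥(lrG N q) →* F)
    (h0 : ∀ (n : ℤ) (hm : lrUp (n : ℚ) ∈ lrG N q), φ ⟨lrUp n, hm⟩ = 1) :
    ∀ (j : ℕ) (n : ℤ) (hm : lrUp ((n : ℚ) / (q : ℚ) ^ (2 * j)) ∈ lrG N q),
      φ ⟨lrUp ((n : ℚ) / (q : ℚ) ^ (2 * j)), hm⟩ = 1 := by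
  have hq : (q : ℚ) ≠ 0 := lr_top_q_ne q
  intro j
  induction j with
  | zero =>
    intro n hm
    have e : lrUp ((n : ℚ) / (q : ℚ) ^ (2 * 0)) = lrUp (n : ℚ) := by simp
    have hm' : lrUp (n : ℚ) ∈ lrG N q := e ▸ hm
    rw [lr_top_congr φ e hm hm']
    exact h0 n hm'
  | succ j ih =>
    intro n hm
    have e0 : (q : ℚ) ^ 2 * ((n : ℚ) / (q : ℚ) ^ (2 * (j + 1))) = (n : ℚ) / (q : ℚ) ^ (2 * j) := by
      rw [show 2 * (j + 1) = 2 * j + 2 by ring, pow_add]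
      field_simp
    have hm2 : lrUp ((n : ℚ) / (q : ℚ) ^ (2 * j)) ∈ lrG N q := lrUp_mem N q hNq n (2 * j)
    have e : lrUp ((n : ℚ) / (q : ℚ) ^ (2 * j)) =
        lrTorus q * lrUp ((n : ℚ) / (q : ℚ) ^ (2 * (j + 1))) * (lrTorus q)⁻¹ := by
      rw [lrTorus_conj_up, e0]
    rw [← lr_top_phi_conj φ (lrTorus q) _ _ (lrTorus_mem N q hNq) hm hm2 e]
    exact ih n hm2

theorem lr_top_up (hNq : N.Coprime q) {F : Type*} [CommGroup F] (φ : ↥(lrG N q) →* F)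
    (h0 : ∀ (n : ℤ) (hm : lrUp (n : ℚ) ∈ lrG N q), φ ⟨lrUp n, hm⟩ = 1)
    (k : ℕ) (n : ℤ) (hm : lrUp ((n : ℚ) / (q : ℚ) ^ k) ∈ lrG N q) :
    φ ⟨lrUp ((n : ℚ) / (q : ℚ) ^ k), hm⟩ = 1 := by
  have hq : (q : ℚ) ≠ 0 := lr_top_q_ne q
  have e : lrUp ((n : ℚ) / (q : ℚ) ^ k) =
      lrUp (((n * (q : ℤ) ^ k : ℤ) : ℚ) / (q : ℚ) ^ (2 * k)) := by
    congr 1
    push_cast
    rw [two_mul, pow_add]
    field_simp
  have hm' := e ▸ hm
  rw [lr_top_congr φ e hm hm']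
  exact lr_top_up_even hNq φ h0 k _ hm'

/-- compatibility on `Γ₀(Nq)`: if `γ₁ = δ⁻¹ γ₂ δ` then `γ₁ = incl γ₀`, `γ₂ = dconj γ₀`. -/
theorem lr_top_compat [NeZero q] (γ₁ γ₂ : Gamma0 N)
    (e : lrι (γ₁ : SL(2, ℤ)) = lrConj q (lrι (γ₂ : SL(2, ℤ)))) :
    ∃ γ₀ : Gamma0 (N * q), incl N q γ₀ = γ₁ ∧ dconj N q γ₀ = γ₂ := by
  have hq : (q : ℚ) ≠ 0 := lr_top_q_ne q
  have e00 : mat γ₁ 0 0 = mat γ₂ 0 0 := by
    have := congrArg (fun g : SL(2, ℚ) => g 0 0) e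
    simp only [lrι_apply, lrConj_00] at this
    exact_mod_cast this
  have e01 : (q : ℤ) * mat γ₁ 0 1 = mat γ₂ 0 1 := by
    have := congrArg (fun g : SL(2, ℚ) => g 0 1) e
    simp only [lrι_apply, lrConj_01] at this
    have h2 : ((q : ℤ) : ℚ) * ((mat γ₁ 0 1 : ℤ) : ℚ) = ((mat γ₂ 0 1 : ℤ) : ℚ) := by
      show ((q : ℤ) : ℚ) * (((γ₁ : SL(2, ℤ)) 0 1 : ℤ) : ℚ) = (((γ₂ : SL(2, ℤ)) 0 1 : ℤ) : ℚ)
      rw [this]; push_cast; field_simp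
    exact_mod_cast h2
  have e10 : mat γ₁ 1 0 = (q : ℤ) * mat γ₂ 1 0 := by
    have := congrArg (fun g : SL(2, ℚ) => g 1 0) e
    simp only [lrι_apply, lrConj_10] at this
    exact_mod_cast this
  have e11 : mat γ₁ 1 1 = mat γ₂ 1 1 := by
    have := congrArg (fun g : SL(2, ℚ) => g 1 1) e
    simp only [lrι_apply, lrConj_11] at this
    exact_mod_cast this
  have hdvd : ((N * q : ℕ) : ℤ) ∣ mat γ₁ 1 0 := by
    obtain ⟨c, hc⟩ := mat_dvd γ₂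
    rw [e10, hc]
    exact ⟨c, by push_cast; ring⟩
  refine ⟨mk (mat γ₁) (mat_det γ₁) hdvd, ?_, ?_⟩
  · apply mat_injective
    rw [mat_incl, mat_mk]
  · apply mat_injective
    have hq' : (q : ℤ) ≠ 0 := by exact_mod_cast (Fact.out : q.Prime).ne_zero
    ext i j
    fin_cases i <;> fin_cases j
    · show mat (dconj N q _) 0 0 = mat γ₂ 0 0
      rw [mat_dconj_00, mat_mk, e00]
    · show mat (dconj N q _) 0 1 = mat γ₂ 0 1
      rw [mat_dconj_01, mat_mk, e01]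
    · show mat (dconj N q _) 1 0 = mat γ₂ 1 0
      have := mat_dconj_10 N q (mk (mat γ₁) (mat_det γ₁) hdvd)
      rw [mat_mk, e10] at this
      have h3 : mat (dconj N q (mk (mat γ₁) (mat_det γ₁) hdvd)) 1 0 * (q : ℤ) =
          mat γ₂ 1 0 * (q : ℤ) := by rw [this]; ring
      exact mul_right_cancel₀ hq' h3
    · show mat (dconj N q _) 1 1 = mat γ₂ 1 1
      rw [mat_dconj_11, mat_mk, e11]

/-- one half of [S1]: from the amalgam character, `χ₁` satisfies the hypotheses of [B]. -/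
theorem lr_top_half [NeZero q] (hNq : N.Coprime q) {p : ℕ}
    (hB : ∀ φ : ↥(lrG N q) →* Multiplicative (ZMod p),
      (∀ γ : Gamma0 N, (mat γ).trace ^ 2 = 4 → φ ⟨lrι γ, lrι_mem_G N q γ.2⟩ = 1) →
      (∀ (n : ℤ) (k : ℕ), φ ⟨lrUp (n / (q : ℚ) ^ k), lrUp_mem N q hNq n k⟩ = 1) →
      ∀ γ : Gamma0 N, dmod γ = 1 → φ ⟨lrι γ, lrι_mem_G N q γ.2⟩ = 1)
    (χ₁ χ₂ : X N (ZMod p)) (h1 : IsParabolicHom (Gamma0 N) χ₁)
    (h : res1 N q χ₁ + res2 N q χ₂ = 0) :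
    ∀ γ : Gamma0 N, dmod γ = 1 → χ₁ (Additive.ofMul γ) = 0 := by
  obtain ⟨φ, hφ1, -⟩ := lr_amalgam_ext N q hNq (AddMonoidHom.toMultiplicativeRight χ₁)
    (AddMonoidHom.toMultiplicativeRight (-χ₂)) (by
      intro γ₁ γ₂ e
      obtain ⟨γ₀, rfl, rfl⟩ := lr_top_compat γ₁ γ₂ e
      have h' := DFunLike.congr_fun h (Additive.ofMul γ₀)
      rw [AddMonoidHom.add_apply, res1_apply, res2_apply, AddMonoidHom.zero_apply] at h'
      show Multiplicative.ofAdd (χ₁ (Additive.ofMul (incl N q γ₀))) =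
        Multiplicative.ofAdd ((-χ₂) (Additive.ofMul (dconj N q γ₀)))
      rw [AddMonoidHom.neg_apply, eq_neg_of_add_eq_zero_left h'])
  have hφ1' : ∀ γ : Gamma0 N, φ ⟨lrι γ, lrι_mem_G N q γ.2⟩ =
      Multiplicative.ofAdd (χ₁ (Additive.ofMul γ)) := fun γ => hφ1 γ _
  have hpar : ∀ γ : Gamma0 N, (mat γ).trace ^ 2 = 4 → φ ⟨lrι γ, lrι_mem_G N q γ.2⟩ = 1 := by
    intro γ hγ
    rw [hφ1', h1 γ hγ]
    rfl
  have h0 : ∀ (n : ℤ) (hm : lrUp (n : ℚ) ∈ lrG N q), φ ⟨lrUp n, hm⟩ = 1 := by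
    intro n hm
    let u : Gamma0 N := mk !![1, n; 0, 1] (by simp [Matrix.det_fin_two_of]) (by simp)
    have e : lrUp (n : ℚ) = lrι (u : SL(2, ℤ)) := by
      apply Subtype.ext
      ext i j
      have := lrι_apply (u : SL(2, ℤ)) i j
      rw [this]
      fin_cases i <;> fin_cases j <;> simp [lrUp, u, mk]
    rw [lr_top_congr φ e hm (lrι_mem_G N q u.2)]
    refine hpar u ?_
    show (!![1, n; 0, 1] : Matrix (Fin 2) (Fin 2) ℤ).trace ^ 2 = 4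
    rw [Matrix.trace_fin_two_of]
    norm_num
  intro γ hγ
  have h3 := hB φ hpar (fun n k => lr_top_up hNq φ h0 k n _) γ hγ
  rw [hφ1'] at h3
  exact Multiplicative.ofAdd.injective h3

/-- **[S1] (mod `p` Ihara lemma in the shape consumed by `lr_S41_of_ihara`) from [B]**
(`lr_B_of_hom` shape: a character of `Γ₀(N)[1/q]` killing the parabolic elements of `Γ₀(N)`
and the upper unipotents vanishes on `Γ₁(N)`). -/
theorem lr_top_hL1 [NeZero q] (hNq : N.Coprime q) {p : ℕ}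
    (hB : ∀ φ : ↥(lrG N q) →* Multiplicative (ZMod p),
      (∀ γ : Gamma0 N, (mat γ).trace ^ 2 = 4 → φ ⟨lrι γ, lrι_mem_G N q γ.2⟩ = 1) →
      (∀ (n : ℤ) (k : ℕ), φ ⟨lrUp (n / (q : ℚ) ^ k), lrUp_mem N q hNq n k⟩ = 1) →
      ∀ γ : Gamma0 N, dmod γ = 1 → φ ⟨lrι γ, lrι_mem_G N q γ.2⟩ = 1)
    (χ₁ χ₂ : X N (ZMod p)) (h1 : IsParabolicHom (Gamma0 N) χ₁)
    (h2 : IsParabolicHom (Gamma0 N) χ₂) (h : res1 N q χ₁ + res2 N q χ₂ = 0) :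
    (∀ γ : Gamma0 N, dmod γ = 1 → χ₁ (Additive.ofMul γ) = 0) ∧
      (∀ γ : Gamma0 N, dmod γ = 1 → χ₂ (Additive.ofMul γ) = 0) := by
  refine ⟨lr_top_half hNq hB χ₁ χ₂ h1 h, lr_top_half hNq hB χ₂ χ₁ h2 ?_⟩
  have h' := congrArg (atkin N q hNq) h
  rw [map_add, atkin_res1, atkin_res2, map_zero] at h'
  rw [add_comm]
  exact h'

end IhTop

end LR
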