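import Fermat.Agent.Lib.LR_IhB
import Fermat.Agent.Lib.LR_IharaTop

/-!
# The mod `p` Ihara lemma [S1], in the exact shape `hL1` of `LR.lr_S41_of_ihara`
-/

set_option autoImplicit false

open CongruenceSubgroup Matrix ModularCurve.Period
open scoped MatrixGroups

namespace LR

/-- **Mod `p` Ihara lemma** (`p` odd, `q` prime not dividing `N`): if `χ₁, χ₂` are parabolic
characters of `Γ₀(N)` with values in `ZMod p` and `res1 χ₁ + res2 χ₂ = 0` on `Γ₀(Nq)`, then both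
vanish on the `γ` with `d ≡ 1 (mod N)`. -/
theorem lr_ihara_hL1 {N q p : ℕ} [NeZero N] [NeZero q] (hq : q.Prime) (hNq : N.Coprime q)
    (hp : p.Prime) (hp2 : p ≠ 2) (χ₁ χ₂ : X N (ZMod p))
    (h1 : IsParabolicHom (Gamma0 N) χ₁) (h2 : IsParabolicHom (Gamma0 N) χ₂)
    (h : res1 N q χ₁ + res2 N q χ₂ = 0) :
    (∀ γ : Gamma0 N, dmod γ = 1 → χ₁ (Additive.ofMul γ) = 0) ∧
      (∀ γ : Gamma0 N, dmod γ = 1 → χ₂ (Additive.ofMul γ) = 0) := by
  haveI : Fact q.Prime := ⟨hq⟩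
  exact lr_top_hL1 hNq (fun φ hpar _ => lr_B_of_hom N q p hNq hp hp2 φ hpar) χ₁ χ₂ h1 h2 h

end LR
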