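import Fermat.Agent.Lib.LR_AmalgamGen
import Fermat.Agent.Lib.LR_Symbol

/-!
# From a homomorphism on `Γ₀(N)[1/q]` to the symbol hypotheses

For `φ : lrG N q →* Multiplicative A` the function `ψ γ = φ (ι γ)` on `Γ₀(N)` satisfies the two
torus relations (conjugation by `T = diag(q, 1/q)`); if `ψ` kills the integral unipotents we get
`LrSymHyp N q ψ`.
-/

set_option autoImplicit false

open CongruenceSubgroup Matrix
open scoped MatrixGroups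

namespace LR

section

variable (N q : ℕ) [Fact q.Prime]

theorem lrSymB_mat (γ : Gamma0 N) (i j : Fin 2) :
    (lrι (γ : SL(2, ℤ))) i j = ((mat γ i j : ℤ) : ℚ) := lrι_apply _ i j

theorem lrSymB_mul_apply (g h : SL(2, ℚ)) (i j : Fin 2) :
    (g * h) i j = g i 0 * h 0 j + g i 1 * h 1 j := by
  rw [Matrix.SpecialLinearGroup.coe_mul, Matrix.mul_apply, Fin.sum_univ_two]

/-- `(T1)`-step as a matrix identity: `ι γ' * T = T * ι γ`. -/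
theorem lrSymB_T1_mat (γ γ' : Gamma0 N) (h00 : mat γ' 0 0 = mat γ 0 0)
    (h11 : mat γ' 1 1 = mat γ 1 1) (h10 : mat γ 1 0 = (q : ℤ) ^ 2 * mat γ' 1 0)
    (h01 : mat γ' 0 1 = (q : ℤ) ^ 2 * mat γ 0 1) :
    lrι (γ' : SL(2, ℤ)) * lrTorus q = lrTorus q * lrι (γ : SL(2, ℤ)) := by
  have hq : (q : ℚ) ≠ 0 := Nat.cast_ne_zero.mpr (Fact.out : q.Prime).ne_zero
  obtain ⟨t00, t01, t10, t11⟩ := lrTorus_apply q
  ext i j
  rw [lrSymB_mul_apply, lrSymB_mul_apply]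
  fin_cases i <;> fin_cases j
  · show (lrι (γ' : SL(2, ℤ))) 0 0 * (lrTorus q) 0 0 + (lrι (γ' : SL(2, ℤ))) 0 1 * (lrTorus q) 1 0
      = (lrTorus q) 0 0 * (lrι (γ : SL(2, ℤ))) 0 0 + (lrTorus q) 0 1 * (lrι (γ : SL(2, ℤ))) 1 0
    rw [t00, t01, t10, lrSymB_mat, lrSymB_mat, lrSymB_mat, lrSymB_mat, h00]
    ring
  · show (lrι (γ' : SL(2, ℤ))) 0 0 * (lrTorus q) 0 1 + (lrι (γ' : SL(2, ℤ))) 0 1 * (lrTorus q) 1 1
      = (lrTorus q) 0 0 * (lrι (γ : SL(2, ℤ))) 0 1 + (lrTorus q) 0 1 * (lrι (γ : SL(2, ℤ))) 1 1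
    rw [t00, t01, t11, lrSymB_mat, lrSymB_mat, lrSymB_mat, lrSymB_mat, h01]
    push_cast
    first | (field_simp; ring) | field_simp | ring
  · show (lrι (γ' : SL(2, ℤ))) 1 0 * (lrTorus q) 0 0 + (lrι (γ' : SL(2, ℤ))) 1 1 * (lrTorus q) 1 0
      = (lrTorus q) 1 0 * (lrι (γ : SL(2, ℤ))) 0 0 + (lrTorus q) 1 1 * (lrι (γ : SL(2, ℤ))) 1 0
    rw [t00, t10, t11, lrSymB_mat, lrSymB_mat, lrSymB_mat, lrSymB_mat, h10]
    push_cast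
    first | (field_simp; ring) | field_simp | ring
  · show (lrι (γ' : SL(2, ℤ))) 1 0 * (lrTorus q) 0 1 + (lrι (γ' : SL(2, ℤ))) 1 1 * (lrTorus q) 1 1
      = (lrTorus q) 1 0 * (lrι (γ : SL(2, ℤ))) 0 1 + (lrTorus q) 1 1 * (lrι (γ : SL(2, ℤ))) 1 1
    rw [t01, t10, t11, lrSymB_mat, lrSymB_mat, lrSymB_mat, lrSymB_mat, h11]
    ring

/-- `(T2)`-step as a matrix identity: `T * ι γ' * T = ι u * ι γ` with `u` an integral upper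
unipotent. -/
theorem lrSymB_T2_mat (γ γ' u : Gamma0 N) (h10 : mat γ' 1 0 = mat γ 1 0)
    (h11 : mat γ' 1 1 = (q : ℤ) ^ 2 * mat γ 1 1)
    (u00 : mat u 0 0 = 1)
    (u01 : mat u 0 1 = mat γ' 0 1 * mat γ 0 0 - mat γ' 0 0 * mat γ 0 1 * (q : ℤ) ^ 2)
    (u10 : mat u 1 0 = 0) (u11 : mat u 1 1 = 1) :
    lrTorus q * lrι (γ' : SL(2, ℤ)) * lrTorus q = lrι (u : SL(2, ℤ)) * lrι (γ : SL(2, ℤ)) := by
  have hq : (q : ℚ) ≠ 0 := Nat.cast_ne_zero.mpr (Fact.out : q.Prime).ne_zero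
  obtain ⟨t00, t01, t10, t11⟩ := lrTorus_apply q
  have hd : ((mat γ 0 0 : ℤ) : ℚ) * (mat γ 1 1 : ℤ) - (mat γ 0 1 : ℤ) * (mat γ 1 0 : ℤ) = 1 := by
    exact_mod_cast lrSym_det γ
  have hd' : ((mat γ' 0 0 : ℤ) : ℚ) * ((q : ℚ) ^ 2 * (mat γ 1 1 : ℤ))
      - (mat γ' 0 1 : ℤ) * (mat γ 1 0 : ℤ) = 1 := by
    have := lrSym_det γ'
    rw [h10, h11] at this
    exact_mod_cast this
  ext i j
  simp only [lrSymB_mul_apply]
  fin_cases i <;> fin_cases j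
  · show ((lrTorus q) 0 0 * (lrι (γ' : SL(2, ℤ))) 0 0 + (lrTorus q) 0 1 * (lrι (γ' : SL(2, ℤ))) 1 0)
        * (lrTorus q) 0 0
      + ((lrTorus q) 0 0 * (lrι (γ' : SL(2, ℤ))) 0 1 + (lrTorus q) 0 1 * (lrι (γ' : SL(2, ℤ))) 1 1)
        * (lrTorus q) 1 0
      = (lrι (u : SL(2, ℤ))) 0 0 * (lrι (γ : SL(2, ℤ))) 0 0
        + (lrι (u : SL(2, ℤ))) 0 1 * (lrι (γ : SL(2, ℤ))) 1 0
    simp only [t00, t01, t10, lrSymB_mat, u00, u01]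
    push_cast
    linear_combination (mat γ 0 0 : ℚ) * hd' - ((mat γ' 0 0 : ℤ) : ℚ) * (q : ℚ) ^ 2 * hd
  · show ((lrTorus q) 0 0 * (lrι (γ' : SL(2, ℤ))) 0 0 + (lrTorus q) 0 1 * (lrι (γ' : SL(2, ℤ))) 1 0)
        * (lrTorus q) 0 1
      + ((lrTorus q) 0 0 * (lrι (γ' : SL(2, ℤ))) 0 1 + (lrTorus q) 0 1 * (lrι (γ' : SL(2, ℤ))) 1 1)
        * (lrTorus q) 1 1
      = (lrι (u : SL(2, ℤ))) 0 0 * (lrι (γ : SL(2, ℤ))) 0 1
        + (lrι (u : SL(2, ℤ))) 0 1 * (lrι (γ : SL(2, ℤ))) 1 1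
    simp only [t00, t01, t11, lrSymB_mat, u00, u01]
    push_cast
    have hqi : (q : ℚ) * (q : ℚ)⁻¹ = 1 := mul_inv_cancel₀ hq
    linear_combination ((mat γ' 0 1 : ℤ) : ℚ) * hqi + (mat γ 0 1 : ℚ) * hd'
      - ((mat γ' 0 1 : ℤ) : ℚ) * hd
  · show ((lrTorus q) 1 0 * (lrι (γ' : SL(2, ℤ))) 0 0 + (lrTorus q) 1 1 * (lrι (γ' : SL(2, ℤ))) 1 0)
        * (lrTorus q) 0 0
      + ((lrTorus q) 1 0 * (lrι (γ' : SL(2, ℤ))) 0 1 + (lrTorus q) 1 1 * (lrι (γ' : SL(2, ℤ))) 1 1)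
        * (lrTorus q) 1 0
      = (lrι (u : SL(2, ℤ))) 1 0 * (lrι (γ : SL(2, ℤ))) 0 0
        + (lrι (u : SL(2, ℤ))) 1 1 * (lrι (γ : SL(2, ℤ))) 1 0
    simp only [t00, t10, t11, lrSymB_mat, u10, u11, h10]
    push_cast
    first | (field_simp; ring) | field_simp | ring
  · show ((lrTorus q) 1 0 * (lrι (γ' : SL(2, ℤ))) 0 0 + (lrTorus q) 1 1 * (lrι (γ' : SL(2, ℤ))) 1 0)
        * (lrTorus q) 0 1
      + ((lrTorus q) 1 0 * (lrι (γ' : SL(2, ℤ))) 0 1 + (lrTorus q) 1 1 * (lrι (γ' : SL(2, ℤ))) 1 1)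
        * (lrTorus q) 1 1
      = (lrι (u : SL(2, ℤ))) 1 0 * (lrι (γ : SL(2, ℤ))) 0 1
        + (lrι (u : SL(2, ℤ))) 1 1 * (lrι (γ : SL(2, ℤ))) 1 1
    simp only [t01, t10, t11, lrSymB_mat, u10, u11, h11]
    push_cast
    first | (field_simp; ring) | field_simp | ring

/-- **The symbol hypotheses for `ψ = φ ∘ ι`**, `φ` a homomorphism on `Γ₀(N)[1/q]` whose
restriction to `Γ₀(N)` kills the integral unipotents. -/
theorem lr_symhyp_of_hom (hNq : N.Coprime q) {A : Type*} [AddCommGroup A]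
    (φ : ↥(lrG N q) →* Multiplicative A)
    (hup : ∀ γ : Gamma0 N, mat γ 1 0 = 0 → mat γ 1 1 = 1 →
      φ ⟨lrι (γ : SL(2, ℤ)), lrι_mem_G N q γ.2⟩ = 1)
    (hlow : ∀ γ : Gamma0 N, mat γ 0 1 = 0 → mat γ 1 1 = 1 →
      φ ⟨lrι (γ : SL(2, ℤ)), lrι_mem_G N q γ.2⟩ = 1) :
    LrSymHyp N q (fun γ : Gamma0 N =>
      Multiplicative.toAdd (φ ⟨lrι (γ : SL(2, ℤ)), lrι_mem_G N q γ.2⟩)) := by
  set T : ↥(lrG N q) := ⟨lrTorus q, lrTorus_mem N q hNq⟩ with hT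
  have hmul : ∀ γ γ' : Gamma0 N,
      Multiplicative.toAdd (φ ⟨lrι ((γ * γ' : Gamma0 N) : SL(2, ℤ)), lrι_mem_G N q (γ * γ').2⟩)
      = Multiplicative.toAdd (φ ⟨lrι (γ : SL(2, ℤ)), lrι_mem_G N q γ.2⟩)
        + Multiplicative.toAdd (φ ⟨lrι (γ' : SL(2, ℤ)), lrι_mem_G N q γ'.2⟩) := by
    intro γ γ'
    rw [← toAdd_mul, ← map_mul]
    congr 2
    apply Subtype.ext
    show lrι ((γ : SL(2, ℤ)) * (γ' : SL(2, ℤ))) = lrι (γ : SL(2, ℤ)) * lrι (γ' : SL(2, ℤ))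
    exact map_mul _ _ _
  refine lrSymHyp_of_steps _ hmul ?_ ?_ ?_
    (Multiplicative.toAdd ((φ T ^ 2)⁻¹)) ?_
  · intro γ h10 h11
    rw [hup γ h10 h11]; rfl
  · intro γ h01 h11
    rw [hlow γ h01 h11]; rfl
  · intro γ γ' h00 h11 h10 h01
    have e : (⟨lrι (γ' : SL(2, ℤ)), lrι_mem_G N q γ'.2⟩ : ↥(lrG N q)) * T
        = T * ⟨lrι (γ : SL(2, ℤ)), lrι_mem_G N q γ.2⟩ :=
      Subtype.ext (lrSymB_T1_mat N q γ γ' h00 h11 h10 h01)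
    have e2 := congrArg φ e
    rw [map_mul, map_mul, mul_comm] at e2
    show Multiplicative.toAdd _ = Multiplicative.toAdd _
    rw [mul_left_cancel e2]
  · intro γ γ' h10 h11
    obtain ⟨u, u00, u01, u10, u11⟩ := lrSym_mk_exists (N := N) 1
      (mat γ' 0 1 * mat γ 0 0 - mat γ' 0 0 * mat γ 0 1 * (q : ℤ) ^ 2) 0 1 (by ring) (dvd_zero _)
    have e : T * (⟨lrι (γ' : SL(2, ℤ)), lrι_mem_G N q γ'.2⟩ : ↥(lrG N q)) * T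
        = ⟨lrι (u : SL(2, ℤ)), lrι_mem_G N q u.2⟩ * ⟨lrι (γ : SL(2, ℤ)), lrι_mem_G N q γ.2⟩ :=
      Subtype.ext (lrSymB_T2_mat N q γ γ' u h10 h11 u00 u01 u10 u11)
    have e2 := congrArg φ e
    rw [map_mul, map_mul, map_mul, hup u u10 u11, one_mul] at e2
    show Multiplicative.toAdd _ = Multiplicative.toAdd _ + Multiplicative.toAdd _
    rw [← toAdd_mul, ← e2]
    congr 1
    rw [sq]
    have : φ T * φ T * (φ T * φ T)⁻¹ = 1 := mul_inv_cancel _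
    calc φ ⟨lrι (γ' : SL(2, ℤ)), lrι_mem_G N q γ'.2⟩
        = φ ⟨lrι (γ' : SL(2, ℤ)), lrι_mem_G N q γ'.2⟩ * (φ T * φ T * (φ T * φ T)⁻¹) := by
          rw [this, mul_one]
      _ = φ T * φ ⟨lrι (γ' : SL(2, ℤ)), lrι_mem_G N q γ'.2⟩ * φ T * (φ T * φ T)⁻¹ := by
          rw [mul_comm (φ T) (φ ⟨lrι (γ' : SL(2, ℤ)), lrι_mem_G N q γ'.2⟩)]
          simp only [mul_assoc]

end

end LR
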