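import Fermat.Agent.Lib.LR_IharaTop
import Fermat.Agent.Lib.LR_IhCore
import Fermat.Agent.Lib.LR_SymBridge

/-!
# S41 (level raising), [S1]: the mod `p` Ihara lemma (final assembly)

`LR.lr_top_ihara`: for `q` prime, `(N, q) = 1`, `p` an odd prime: parabolic characters
`χ₁, χ₂ : Γ₀(N) → ZMod p` with `res1 χ₁ + res2 χ₂ = 0` on `Γ₀(Nq)` vanish on `Γ₁(N)`.
This is exactly the hypothesis `hL1` of `LR.lr_S41_of_ihara`.

Assembly: the amalgam glue (`lr_top_hL1`), the torus relations for a character of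
`Γ₀(N)[1/q]` (`lr_symhyp_of_hom`) and the core statement on `Γ₀(N)` (`lr_ih_core`).
-/

set_option autoImplicit false

open CongruenceSubgroup Matrix ModularCurve.Period
open scoped MatrixGroups

namespace LR

/-- statement [B]: a character of `Γ₀(N)[1/q]` killing the parabolic elements of `Γ₀(N)`
vanishes on `Γ₁(N)`. -/
theorem lr_top_B (N q p : ℕ) [NeZero N] [Fact q.Prime] (hp : p.Prime) (hp2 : p ≠ 2)
    (hNq : N.Coprime q) (φ : ↥(lrG N q) →* Multiplicative (ZMod p))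
    (hpar : ∀ γ : Gamma0 N, (mat γ).trace ^ 2 = 4 → φ ⟨lrι γ, lrι_mem_G N q γ.2⟩ = 1) :
    ∀ γ : Gamma0 N, dmod γ = 1 → φ ⟨lrι γ, lrι_mem_G N q γ.2⟩ = 1 := by
  have hq : q.Prime := Fact.out
  let φ₀ : ↥(Gamma0 N) →* Multiplicative (ZMod p) :=
    { toFun := fun γ => φ ⟨lrι γ, lrι_mem_G N q γ.2⟩
      map_one' := by
        have : (⟨lrι ((1 : Gamma0 N) : SL(2, ℤ)), lrι_mem_G N q (1 : Gamma0 N).2⟩ : ↥(lrG N q))
            = 1 := Subtype.ext (map_one lrι)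
        rw [this, map_one]
      map_mul' := fun γ γ' => by
        have : (⟨lrι ((γ * γ' : Gamma0 N) : SL(2, ℤ)), lrι_mem_G N q (γ * γ').2⟩ : ↥(lrG N q))
            = ⟨lrι γ, lrι_mem_G N q γ.2⟩ * ⟨lrι γ', lrι_mem_G N q γ'.2⟩ :=
          Subtype.ext (map_mul lrι _ _)
        rw [this, map_mul] }
  let ψ : X N (ZMod p) := MonoidHom.toAdditiveLeft φ₀
  have hψ : ∀ γ : Gamma0 N,
      ψ (Additive.ofMul γ) = Multiplicative.toAdd (φ ⟨lrι γ, lrι_mem_G N q γ.2⟩) := fun γ => rfl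
  have hψpar : IsParabolicHom (Gamma0 N) ψ := by
    intro γ hγ
    rw [hψ, hpar γ hγ]
    rfl
  obtain ⟨hup, hlow⟩ := ihTri_of_par ψ hψpar
  have hsym := lr_symhyp_of_hom N q hNq φ
    (fun γ h0 _ => by
      have := hup γ h0
      rw [hψ] at this
      exact Multiplicative.toAdd.injective this)
    (fun γ h0 _ => by
      have := hlow γ h0
      rw [hψ] at this
      exact Multiplicative.toAdd.injective this)
  obtain ⟨τ, hτ⟩ := hsym.t2 1
  intro γ hγ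
  have h0 := lr_ih_core N q p hq hp hp2 hNq ψ hup hlow
    (fun γ γ' h00 h11 h10 h01 => hsym.t1 1 γ γ' h00 h11 (by rw [h10, mul_one]) (by rw [h01, mul_one]))
    τ (fun γ γ' h10 h11 => hτ γ γ' h10 (by rw [h11, mul_one])) γ hγ
  rw [hψ] at h0
  exact Multiplicative.toAdd.injective h0

/-- **The mod `p` Ihara lemma [S1]**, in the shape consumed by `lr_S41_of_ihara`. -/
theorem lr_top_ihara (N q p : ℕ) [NeZero N] [NeZero q] (hq : q.Prime) (hp : p.Prime)
    (hp2 : p ≠ 2) (hNq : N.Coprime q) (χ₁ χ₂ : X N (ZMod p))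
    (h1 : IsParabolicHom (Gamma0 N) χ₁) (h2 : IsParabolicHom (Gamma0 N) χ₂)
    (h : res1 N q χ₁ + res2 N q χ₂ = 0) :
    (∀ γ : Gamma0 N, dmod γ = 1 → χ₁ (Additive.ofMul γ) = 0) ∧
      (∀ γ : Gamma0 N, dmod γ = 1 → χ₂ (Additive.ofMul γ) = 0) := by
  have : Fact q.Prime := ⟨hq⟩
  exact lr_top_hL1 hNq (fun φ hpar _ => lr_top_B N q p hp hp2 hNq φ hpar) χ₁ χ₂ h1 h2 h

end LR
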