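/-
S41 (level raising), stream S3: the algebraic core for operator families.

`LR.lr_stageA`: the congruence-module theorem `lr_two2` for lattices `H`, `B` carrying commuting
families of operators (indexed by the good primes; on `H` one more operator `TH none = T_q`),
with the "entry" condition expressed through an ideal `P` of the big polynomial ring containing
the annihilator of `H`.
-/
import Fermat.Agent.Lib.LR_Alg2
import Fermat.Agent.Lib.LR_Poly

set_option autoImplicit false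
set_option linter.style.haveILetI false

namespace LR

open MvPolynomial

theorem lr_stageA {ι : Type*} (𝔪 : Ideal (MvPolynomial ι ℤ)) [h𝔪 : 𝔪.IsMaximal]
    (p : ℕ) (hp : p.Prime) (hp𝔪 : (p : MvPolynomial ι ℤ) ∈ 𝔪)
    {H B : Type*} [AddCommGroup H] [AddCommGroup B] [Module.Finite ℤ H] [Module.Free ℤ B]
    [Module.Finite ℤ B]
    (TH : Option ι → Module.End ℤ H) (hTH : ∀ i j, Commute (TH i) (TH j))
    (TB : ι → Module.End ℤ B) (hTB : ∀ i j, Commute (TB i) (TB j))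
    (α₁ α₂ : H →+ B) (β₁ β₂ : B →+ H)
    (hα₁ : ∀ i x, α₁ (TH (some i) x) = TB i (α₁ x))
    (hα₂ : ∀ i x, α₂ (TH (some i) x) = TB i (α₂ x))
    (bH : H →ₗ[ℤ] H →ₗ[ℤ] ℤ) (bB : B →ₗ[ℤ] B →ₗ[ℤ] ℤ)
    (hbH : ∀ y : H, (∀ x, bH x y = 0) → y = 0)
    (cB : ℤ) (hcB : ¬ (p : ℤ) ∣ cB)
    (hbB : ∀ φ : B →ₗ[ℤ] ℤ, ∃ w : B, ∀ b, bB b w = cB * φ b)
    (sadjH : ∀ i x y, bH (TH (some i) x) y = bH x (TH (some i) y))
    (sadjB : ∀ i x y, bB (TB i x) y = bB x (TB i y))
    (adj₁ : ∀ x w, bB (α₁ x) w = bH x (β₁ w))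
    (adj₂ : ∀ x w, bB (α₂ x) w = bH x (β₂ w))
    (i₀ : ι) (c₀ : ℤ) (hs : (X i₀ - C c₀ : MvPolynomial ι ℤ) ∉ 𝔪)
    (hIh : ∀ x y w, α₁ x + α₂ y = (p : ℤ) • w →
      ∃ x' y', TH (some i₀) x - c₀ • x = (p : ℤ) • x' ∧ TH (some i₀) y - c₀ • y = (p : ℤ) • y')
    (qq : ℤ)
    (h11 : ∀ x, β₁ (α₁ x) = qq • x) (h12 : ∀ y, β₁ (α₂ y) = TH none y)
    (h21 : ∀ x, β₂ (α₁ x) = TH none x) (h22 : ∀ y, β₂ (α₂ y) = qq • y)
    (ε : ℤ) (hε : ε * ε = 1)
    (P : Ideal (MvPolynomial (Option ι) ℤ)) (hP : P ≠ ⊤)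
    (h𝔪P : ∀ r ∈ 𝔪, rename some r ∈ P)
    (hqP : (X none - C (ε * qq) : MvPolynomial (Option ι) ℤ) ∈ P)
    (hann : ∀ r : MvPolynomial (Option ι) ℤ, (∀ x : H, lrEval TH hTH r x = 0) → r ∈ P) :
    ∀ r : MvPolynomial ι ℤ, (∀ w : B, β₁ w = 0 → β₂ w = 0 → lrEval TB hTB r w = 0) → r ∈ 𝔪 := by
  classical
  have hTH' : ∀ i j : ι, Commute (TH (some i)) (TH (some j)) := fun i j => hTH _ _
  -- the three module structures
  letI modH : Module (MvPolynomial ι ℤ) H :=
    Module.compHom H (lrEval (fun i => TH (some i)) hTH')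
  letI modB : Module (MvPolynomial ι ℤ) B := Module.compHom B (lrEval TB hTB)
  letI modH' : Module (MvPolynomial (Option ι) ℤ) H := Module.compHom H (lrEval TH hTH)
  have smulH : ∀ (r : MvPolynomial ι ℤ) (x : H),
      r • x = lrEval (fun i => TH (some i)) hTH' r x := fun _ _ => rfl
  have smulB : ∀ (r : MvPolynomial ι ℤ) (w : B), r • w = lrEval TB hTB r w := fun _ _ => rfl
  have smulH' : ∀ (r : MvPolynomial (Option ι) ℤ) (x : H), r • x = lrEval TH hTH r x :=
    fun _ _ => rfl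
  have hren : ∀ (r : MvPolynomial ι ℤ) (x : H), (rename some r : MvPolynomial (Option ι) ℤ) • x
      = r • x := by
    intro r x
    rw [smulH', smulH, lrEval_rename]
  -- equivariance
  have eα₁ : ∀ (r : MvPolynomial ι ℤ) (x : H), α₁ (r • x) = r • α₁ x := fun r x =>
    lrEval_intertwine _ hTH' TB hTB α₁ hα₁ r x
  have eα₂ : ∀ (r : MvPolynomial ι ℤ) (x : H), α₂ (r • x) = r • α₂ x := fun r x =>
    lrEval_intertwine _ hTH' TB hTB α₂ hα₂ r x
  have sH : ∀ (r : MvPolynomial ι ℤ) (x y : H), bH (r • x) y = bH x (r • y) := fun r x y =>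
    lrEval_sadj _ hTH' bH sadjH r x y
  have sB : ∀ (r : MvPolynomial ι ℤ) (x y : B), bB (r • x) y = bB x (r • y) := fun r x y =>
    lrEval_sadj TB hTB bB sadjB r x y
  have eβ : ∀ (α : H →+ B) (β : B →+ H), (∀ (r : MvPolynomial ι ℤ) (x : H), α (r • x) = r • α x) →
      (∀ x w, bB (α x) w = bH x (β w)) →
      ∀ (r : MvPolynomial ι ℤ) (w : B), β (r • w) = r • β w := by
    intro α β eα adj r w
    rw [← sub_eq_zero]
    apply hbH
    intro x
    rw [map_sub, ← adj, ← sB, ← eα, adj, sH, sub_self]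
  let A₁ : H →ₗ[MvPolynomial ι ℤ] B := { toFun := α₁, map_add' := map_add α₁, map_smul' := eα₁ }
  let A₂ : H →ₗ[MvPolynomial ι ℤ] B := { toFun := α₂, map_add' := map_add α₂, map_smul' := eα₂ }
  let B₁ : B →ₗ[MvPolynomial ι ℤ] H :=
    { toFun := β₁, map_add' := map_add β₁, map_smul' := eβ α₁ β₁ eα₁ adj₁ }
  let B₂ : B →ₗ[MvPolynomial ι ℤ] H :=
    { toFun := β₂, map_add' := map_add β₂, map_smul' := eβ α₂ β₂ eα₂ adj₂ }
  -- the proper submodule
  have hCsmul : ∀ (n : ℤ) (x : H), (C n : MvPolynomial (Option ι) ℤ) • x = n • x := by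
    intro n x
    rw [smulH', lrEval_C]
    simp
  haveI : IsScalarTower ℤ (MvPolynomial (Option ι) ℤ) H := by
    refine ⟨fun n r x => ?_⟩
    rw [← hCsmul n (r • x), smul_smul]
    congr 1
    rw [MvPolynomial.C_mul']
  haveI : Module.Finite (MvPolynomial (Option ι) ℤ) H :=
    Module.Finite.of_restrictScalars_finite ℤ (MvPolynomial (Option ι) ℤ) H
  let N' : Submodule (MvPolynomial (Option ι) ℤ) H := P • ⊤
  have hN' : N' ≠ ⊤ := by
    intro htop
    obtain ⟨r, hr1, hr0⟩ := Submodule.exists_sub_one_mem_and_smul_eq_zero_of_fg_of_le_smul P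
      (⊤ : Submodule (MvPolynomial (Option ι) ℤ) H) Module.Finite.fg_top (le_of_eq htop.symm)
    have hrP : r ∈ P := hann r fun x => by rw [← smulH']; exact hr0 x Submodule.mem_top
    apply hP
    rw [Ideal.eq_top_iff_one]
    have : (1 : MvPolynomial (Option ι) ℤ) = r - (r - 1) := by ring
    rw [this]
    exact P.sub_mem hrP hr1
  let N : Submodule (MvPolynomial ι ℤ) H :=
    { carrier := {x | x ∈ N'}
      add_mem' := fun hx hy => N'.add_mem hx hy
      zero_mem' := N'.zero_mem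
      smul_mem' := by
        intro r x hx
        show r • x ∈ N'
        rw [← hren]
        exact N'.smul_mem _ hx }
  have hN : N ≠ ⊤ := by
    intro htop
    apply hN'
    rw [eq_top_iff]
    intro x _
    have : x ∈ N := by rw [htop]; exact Submodule.mem_top
    exact this
  have h𝔪N : 𝔪 • (⊤ : Submodule (MvPolynomial ι ℤ) H) ≤ N := by
    rw [Submodule.smul_le]
    intro r hr x _
    show r • x ∈ N'
    rw [← hren]
    exact Submodule.smul_mem_smul (h𝔪P r hr) Submodule.mem_top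
  have hp𝔪' : ((p : ℕ) : MvPolynomial ι ℤ) ∈ 𝔪 := hp𝔪
  intro r hr
  refine lr_two2 𝔪 p hp hp𝔪 A₁ A₂ B₁ B₂ bH bB hbH cB hcB hbB sH sB adj₁ adj₂ (X i₀ - C c₀) hs ?_
    N hN h𝔪N 1 (C (-ε)) (Or.inl ?_) ?_ r ?_
  · intro x y w hxy
    obtain ⟨x', y', hx', hy'⟩ := hIh x y w hxy
    refine ⟨x', y', ?_, ?_⟩
    · rw [← hx', smulH, map_sub, lrEval_X, lrEval_C]
      simp
    · rw [← hy', smulH, map_sub, lrEval_X, lrEval_C]
      simp
  · intro h1
    exact h𝔪.ne_top ((Ideal.eq_top_iff_one _).mpr h1)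
  · intro x y
    show (1 : MvPolynomial ι ℤ) • β₁ (α₁ x + α₂ y) + (C (-ε) : MvPolynomial ι ℤ) • β₂ (α₁ x + α₂ y)
      ∈ N'
    have hC : ∀ z : H, (C (-ε) : MvPolynomial ι ℤ) • z = (-ε) • z := by
      intro z
      rw [smulH, lrEval_C]
      simp
    rw [one_smul, hC, map_add, map_add, h11, h12, h21, h22]
    have key : qq • x + TH none y + -ε • (TH none x + qq • y)
        = (X none - C (ε * qq) : MvPolynomial (Option ι) ℤ) • (y - ε • x) := by
      have h0 : lrEval TH hTH (X none - C (ε * qq)) = TH none - ((ε * qq : ℤ) : Module.End ℤ H) := by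
        rw [map_sub, lrEval_X, lrEval_C]
      rw [smulH', h0]
      simp only [LinearMap.sub_apply, map_sub, map_smul, Module.End.intCast_apply]
      have h1 : ε • ((ε * qq) • x) = qq • x := by
        rw [smul_smul, ← mul_assoc, hε, one_mul]
      rw [smul_sub, h1, mul_smul, neg_smul, smul_add]
      abel
    rw [key]
    exact Submodule.smul_mem_smul hqP Submodule.mem_top
  · intro w hw1 hw2
    rw [smulB]
    exact hr w hw1 hw2

end LR
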