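/-
S41 (level raising), stream S3: assembly, part 1 (entry + core).

`LR.lr_main_core`: from a normalised eigenform `f` of level `N` congruent to the `a_ℓ(W)` modulo
`𝔪` with `a_q(f)² ≡ (q+1)²`, the Hecke-compatibility facts [L0], the pairing data [S2] and
Ihara's lemma [S1] at an auxiliary non-Eisenstein prime `l₀`: a maximal ideal `𝔪R` of the
polynomial ring over the good primes, containing `p` and all `t_ℓ - a_ℓ(W)`, such that every
polynomial killing `ker β₁ ∩ ker β₂ ⊆ Par(N q, ℤ)` lies in `𝔪R`.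
-/
import Fermat.Agent.Lib.LR_Aux
import Fermat.Agent.Lib.LR_StageA
import Fermat.Agent.Lib.LR_Entry
import Fermat.Agent.Lib.H6_DSAlg

set_option autoImplicit false
set_option linter.style.haveILetI false

open CongruenceSubgroup CuspForm ModularFormClass ModularCurve ModularCurve.Period

namespace LR

/-- the lattice of integral parabolic characters of level `M` -/
abbrev lrPar (M : ℕ) : Submodule ℤ (X M ℤ) := parabolicHoms ℤ (Gamma0 M) ℤ

/-- the Hecke operators on the lattice of integral parabolic characters -/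
noncomputable def lrHeckePar (M : ℕ)
    (hpar : ∀ (l : ℕ) (χ : X M ℤ), χ ∈ lrPar M → hecke M l χ ∈ lrPar M) (l : ℕ) :
    Module.End ℤ (lrPar M) :=
  ((hecke M l : X M ℤ →+ X M ℤ).toIntLinearMap).restrict (fun x hx => hpar l x hx)

theorem lrHeckePar_coe (M : ℕ)
    (hpar : ∀ (l : ℕ) (χ : X M ℤ), χ ∈ lrPar M → hecke M l χ ∈ lrPar M) (l : ℕ) (x : lrPar M) :
    ((lrHeckePar M hpar l x : lrPar M) : X M ℤ) = hecke M l (x : X M ℤ) := rfl

theorem lr_main_core {p N q : ℕ} [NeZero N] [NeZero q] (hp : p.Prime) (hq : q.Prime)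
    (hNq : N.Coprime q)
    (f : CuspForm (Gamma0 N) 2) (hf : f.IsNormalizedEigenform)
    (𝔪 : Ideal (integralClosure ℤ ℂ)) (hmax : 𝔪.IsMaximal) (hpm : (p : integralClosure ℤ ℂ) ∈ 𝔪)
    (G : Set ℕ) (hG : ∀ ℓ ∈ G, ℓ.Prime ∧ ¬ ℓ ∣ N * q)
    (aW : ℕ → ℤ)
    (hcong : ∀ ℓ ∈ G, ∃ a : integralClosure ℤ ℂ, (a : ℂ) = qCoeff ⇑f ℓ ∧
      a - ((aW ℓ : ℤ) : integralClosure ℤ ℂ) ∈ 𝔪)
    (hLR : ∃ a : integralClosure ℤ ℂ, (a : ℂ) = qCoeff ⇑f q ∧
      a ^ 2 - ((q : integralClosure ℤ ℂ) + 1) ^ 2 ∈ 𝔪)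
    -- [L0]
    (hparN : ∀ (l : ℕ) (χ : X N ℤ), χ ∈ lrPar N → hecke N l χ ∈ lrPar N)
    (hparM : ∀ (l : ℕ) (χ : X (N * q) ℤ), χ ∈ lrPar (N * q) → hecke (N * q) l χ ∈ lrPar (N * q))
    (hcommN : ∀ l l' : ℕ, l.Prime → l'.Prime → ¬ l ∣ N → ¬ l' ∣ N → ∀ χ : X N ℤ,
      χ ∈ lrPar N → hecke N l (hecke N l' χ) = hecke N l' (hecke N l χ))
    (hcommM : ∀ l l' : ℕ, l.Prime → l'.Prime → ¬ l ∣ N * q → ¬ l' ∣ N * q → ∀ χ : X (N * q) ℤ,
      χ ∈ lrPar (N * q) → hecke (N * q) l (hecke (N * q) l' χ)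
        = hecke (N * q) l' (hecke (N * q) l χ))
    (hres1 : ∀ l : ℕ, l.Prime → ¬ l ∣ N * q → ∀ χ : X N ℤ, χ ∈ lrPar N →
      hecke (N * q) l (res1 N q χ) = res1 N q (hecke N l χ))
    (hres2 : ∀ l : ℕ, l.Prime → ¬ l ∣ N * q → ∀ χ : X N ℤ, χ ∈ lrPar N →
      hecke (N * q) l (res2 N q χ) = res2 N q (hecke N l χ))
    (hU2 : ∀ χ : X N ℤ, χ ∈ lrPar N → hecke (N * q) q (res2 N q χ) = (q : ℤ) • res1 N q χ)
    (hU1 : ∀ χ : X N ℤ, χ ∈ lrPar N →
      hecke (N * q) q (res1 N q χ) = res1 N q (hecke N q χ) - res2 N q χ)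
    -- [S2]
    (bH : lrPar N →ₗ[ℤ] lrPar N →ₗ[ℤ] ℤ)
    (bB : lrPar (N * q) →ₗ[ℤ] lrPar (N * q) →ₗ[ℤ] ℤ)
    (hbH : ∀ y : lrPar N, (∀ x, bH x y = 0) → y = 0)
    (cB : ℤ) (hcB : ¬ (p : ℤ) ∣ cB)
    (hbB : ∀ φ : lrPar (N * q) →ₗ[ℤ] ℤ, ∃ w : lrPar (N * q), ∀ b, bB b w = cB * φ b)
    (sadjH : ∀ l ∈ G, ∀ x y x' y' : lrPar N, (x' : X N ℤ) = hecke N l (x : X N ℤ) →
      (y' : X N ℤ) = hecke N l (y : X N ℤ) → bH x' y = bH x y')
    (sadjB : ∀ l ∈ G, ∀ x y x' y' : lrPar (N * q),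
      (x' : X (N * q) ℤ) = hecke (N * q) l (x : X (N * q) ℤ) →
      (y' : X (N * q) ℤ) = hecke (N * q) l (y : X (N * q) ℤ) → bB x' y = bB x y')
    (β₁ β₂ : lrPar (N * q) →+ lrPar N)
    (adj₁ : ∀ (x : lrPar N) (x' w : lrPar (N * q)),
      (x' : X (N * q) ℤ) = res1 N q (x : X N ℤ) → bB x' w = bH x (β₁ w))
    (adj₂ : ∀ (x : lrPar N) (x' w : lrPar (N * q)),
      (x' : X (N * q) ℤ) = res2 N q (x : X N ℤ) → bB x' w = bH x (β₂ w))
    (hβ₁ : ∀ w : lrPar (N * q),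
      res1 N q ((β₁ w : lrPar N) : X N ℤ) = P1 N q hNq (w : X (N * q) ℤ))
    (hβ₂ : ∀ w : lrPar (N * q),
      res1 N q ((β₂ w : lrPar N) : X N ℤ) = P2 N q hNq (w : X (N * q) ℤ))
    -- [S1] + [S4]
    (l₀ : ℕ) (hl₀G : l₀ ∈ G) (hl₀ : ¬ (p : ℤ) ∣ ((l₀ : ℤ) + 1 - aW l₀))
    (hIh : ∀ x y : X N ℤ, x ∈ lrPar N → y ∈ lrPar N →
      (∀ γ, (p : ℤ) ∣ res1 N q x γ + res2 N q y γ) →
      (∀ γ, (p : ℤ) ∣ hecke N l₀ x γ - ((l₀ : ℤ) + 1) * x γ) ∧
        (∀ γ, (p : ℤ) ∣ hecke N l₀ y γ - ((l₀ : ℤ) + 1) * y γ)) :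
    ∃ 𝔪R : Ideal (MvPolynomial G ℤ), 𝔪R.IsMaximal ∧ (p : MvPolynomial G ℤ) ∈ 𝔪R ∧
      (∀ i : G, (MvPolynomial.X i - MvPolynomial.C (aW i) : MvPolynomial G ℤ) ∈ 𝔪R) ∧
      ∀ (hTB : ∀ i j : G, Commute (lrHeckePar (N * q) hparM i) (lrHeckePar (N * q) hparM j))
        (r : MvPolynomial G ℤ),
        (∀ w : lrPar (N * q), β₁ w = 0 → β₂ w = 0 →
          lrEval (fun i : G => lrHeckePar (N * q) hparM i) hTB r w = 0) → r ∈ 𝔪R := by
  classical
  have hqN : ¬ q ∣ N := fun h => hq.one_lt.ne' (Nat.Coprime.eq_one_of_dvd hNq.symm h)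
  have hGp : ∀ ℓ ∈ G, ℓ.Prime := fun ℓ h => (hG ℓ h).1
  have hGN : ∀ ℓ ∈ G, ¬ ℓ ∣ N := fun ℓ h hd => (hG ℓ h).2 (Dvd.dvd.mul_right hd q)
  haveI : NeZero (N * q) := ⟨Nat.mul_ne_zero (NeZero.ne N) (NeZero.ne q)⟩
  -- operators on the lattices
  let prN : Option G → ℕ := fun o => o.elim q (fun i => (i : ℕ))
  have hprN : ∀ o, (prN o).Prime := by
    rintro (_ | i)
    · exact hq
    · exact hGp _ i.2
  have hprNN : ∀ o, ¬ prN o ∣ N := by
    rintro (_ | i)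
    · exact hqN
    · exact hGN _ i.2
  let TH : Option G → Module.End ℤ (lrPar N) := fun o => lrHeckePar N hparN (prN o)
  have hTH : ∀ o o', Commute (TH o) (TH o') := by
    intro o o'
    apply LinearMap.ext
    intro x
    apply Subtype.ext
    exact hcommN _ _ (hprN o) (hprN o') (hprNN o) (hprNN o') x x.2
  let TB : G → Module.End ℤ (lrPar (N * q)) := fun i => lrHeckePar (N * q) hparM i
  have hTB : ∀ i j : G, Commute (TB i) (TB j) := by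
    intro i j
    apply LinearMap.ext
    intro x
    apply Subtype.ext
    exact hcommM _ _ (hGp _ i.2) (hGp _ j.2) (hG _ i.2).2 (hG _ j.2).2 x x.2
  -- the degeneracy maps
  let α₁ : lrPar N →+ lrPar (N * q) :=
    (((res1 N q : X N ℤ →+ X (N * q) ℤ).toIntLinearMap).restrict
      (fun x hx => lr_res1_par N q x hx)).toAddMonoidHom
  let α₂ : lrPar N →+ lrPar (N * q) :=
    (((res2 N q : X N ℤ →+ X (N * q) ℤ).toIntLinearMap).restrict
      (fun x hx => lr_res2_par N q x hx)).toAddMonoidHom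
  have α₁_coe : ∀ x : lrPar N, ((α₁ x : lrPar (N * q)) : X (N * q) ℤ) = res1 N q (x : X N ℤ) :=
    fun x => rfl
  have α₂_coe : ∀ x : lrPar N, ((α₂ x : lrPar (N * q)) : X (N * q) ℤ) = res2 N q (x : X N ℤ) :=
    fun x => rfl
  have hα₁ : ∀ (i : G) (x : lrPar N), α₁ (TH (some i) x) = TB i (α₁ x) := by
    intro i x
    apply Subtype.ext
    exact (hres1 i (hGp i i.2) (hG i i.2).2 x x.2).symm
  have hα₂ : ∀ (i : G) (x : lrPar N), α₂ (TH (some i) x) = TB i (α₂ x) := by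
    intro i x
    apply Subtype.ext
    exact (hres2 i (hGp i i.2) (hG i i.2).2 x x.2).symm
  -- pairings
  have sH : ∀ (i : G) (x y : lrPar N), bH (TH (some i) x) y = bH x (TH (some i) y) :=
    fun i x y => sadjH i i.2 x y _ _ rfl rfl
  have sB : ∀ (i : G) (x y : lrPar (N * q)), bB (TB i x) y = bB x (TB i y) :=
    fun i x y => sadjB i i.2 x y _ _ rfl rfl
  have a₁ : ∀ (x : lrPar N) (w : lrPar (N * q)), bB (α₁ x) w = bH x (β₁ w) :=
    fun x w => adj₁ x _ w rfl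
  have a₂ : ∀ (x : lrPar N) (w : lrPar (N * q)), bB (α₂ x) w = bH x (β₂ w) :=
    fun x w => adj₂ x _ w rfl
  -- Ihara
  let i₀ : G := ⟨l₀, hl₀G⟩
  have hIh' : ∀ (x y : lrPar N) (w : lrPar (N * q)), α₁ x + α₂ y = (p : ℤ) • w →
      ∃ x' y' : lrPar N, TH (some i₀) x - ((l₀ : ℤ) + 1) • x = (p : ℤ) • x' ∧
        TH (some i₀) y - ((l₀ : ℤ) + 1) • y = (p : ℤ) • y' := by
    intro x y w hw
    have hdiv : ∀ γ, (p : ℤ) ∣ res1 N q (x : X N ℤ) γ + res2 N q (y : X N ℤ) γ := by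
      intro γ
      have h1 := congrArg (fun z : lrPar (N * q) => (z : X (N * q) ℤ) γ) hw
      exact ⟨(w : X (N * q) ℤ) γ, h1⟩
    obtain ⟨hx, hy⟩ := hIh x y x.2 y.2 hdiv
    obtain ⟨x', hx'par, hx'⟩ := lr_par_div N (p : ℤ)
      ((TH (some i₀) x - ((l₀ : ℤ) + 1) • x : lrPar N) : X N ℤ) (Submodule.coe_mem _)
      (fun γ => hx γ)
    obtain ⟨y', hy'par, hy'⟩ := lr_par_div N (p : ℤ)
      ((TH (some i₀) y - ((l₀ : ℤ) + 1) • y : lrPar N) : X N ℤ) (Submodule.coe_mem _)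
      (fun γ => hy γ)
    exact ⟨⟨x', hx'par⟩, ⟨y', hy'par⟩, Subtype.ext hx', Subtype.ext hy'⟩
  -- `β ∘ α`
  have h11 : ∀ x : lrPar N, β₁ (α₁ x) = ((q : ℤ) + 1) • x := by
    intro x
    apply Subtype.ext
    apply lr_res1_injective N q
    rw [hβ₁, P1_apply, α₁_coe, atkin_res1, hU2 x x.2]
    show _ = res1 N q (((q : ℤ) + 1) • (x : X N ℤ))
    rw [map_zsmul, add_smul, one_smul]
  have h12 : ∀ y : lrPar N, β₁ (α₂ y) = TH none y := by
    intro y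
    apply Subtype.ext
    apply lr_res1_injective N q
    rw [hβ₁, P1_apply, α₂_coe, atkin_res2, hU1 y y.2, sub_add_cancel]
    rfl
  have h21 : ∀ x : lrPar N, β₂ (α₁ x) = TH none x := by
    intro x
    apply Subtype.ext
    apply lr_res1_injective N q
    rw [hβ₂, P2_apply, α₁_coe, atkin_res1, hU1 x x.2, sub_add_cancel]
    rfl
  have h22 : ∀ y : lrPar N, β₂ (α₂ y) = ((q : ℤ) + 1) • y := by
    intro y
    apply Subtype.ext
    apply lr_res1_injective N q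
    rw [hβ₂, P2_apply, α₂_coe, atkin_res2, hU2 y y.2]
    show _ = res1 N q (((q : ℤ) + 1) • (y : X N ℤ))
    rw [map_zsmul, add_smul, one_smul]
  -- the eigencharacter of `f`
  have hex : ∀ o : Option G, ∃ a : integralClosure ℤ ℂ, (a : ℂ) = qCoeff ⇑f (prN o) := by
    rintro (_ | i)
    · obtain ⟨a, ha, -⟩ := hLR
      exact ⟨a, ha⟩
    · obtain ⟨a, ha, -⟩ := hcong i i.2
      exact ⟨a, ha⟩
  choose aZ haZ using hex
  have haZG : ∀ i : G, aZ (some i) - ((aW i : ℤ) : integralClosure ℤ ℂ) ∈ 𝔪 := by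
    intro i
    obtain ⟨a, ha, ha2⟩ := hcong i i.2
    have : aZ (some i) = a := Subtype.ext ((haZ (some i)).trans ha.symm)
    rw [this]
    exact ha2
  have haZq : aZ none ^ 2 - ((q : integralClosure ℤ ℂ) + 1) ^ 2 ∈ 𝔪 := by
    obtain ⟨a, ha, ha2⟩ := hLR
    have : aZ none = a := Subtype.ext ((haZ none).trans ha.symm)
    rw [this]
    exact ha2
  let lamZ : MvPolynomial (Option G) ℤ →+* integralClosure ℤ ℂ :=
    MvPolynomial.eval₂Hom (Int.castRingHom _) aZ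
  have lamZ_X : ∀ o, lamZ (MvPolynomial.X o) = aZ o := fun o => MvPolynomial.eval₂Hom_X' _ _ _
  have lamZ_C : ∀ n : ℤ, lamZ (MvPolynomial.C n) = (n : integralClosure ℤ ℂ) :=
    fun n => MvPolynomial.eval₂Hom_C _ _ _
  let lam : MvPolynomial (Option G) ℤ →+* ℂ :=
    (algebraMap (integralClosure ℤ ℂ) ℂ).comp lamZ
  have hlam : ∀ k, lam (MvPolynomial.X k) = qCoeff ⇑f (prN k) := by
    intro k
    show ((lamZ (MvPolynomial.X k) : integralClosure ℤ ℂ) : ℂ) = _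
    rw [lamZ_X, haZ]
  let P : Ideal (MvPolynomial (Option G) ℤ) := Ideal.comap lamZ 𝔪
  let 𝔪R : Ideal (MvPolynomial G ℤ) :=
    Ideal.comap (lamZ.comp (MvPolynomial.rename some).toRingHom) 𝔪
  have mem𝔪R : ∀ r, r ∈ 𝔪R ↔ lamZ (MvPolynomial.rename some r) ∈ 𝔪 := fun r => Iff.rfl
  have h1𝔪 : (1 : integralClosure ℤ ℂ) ∉ 𝔪 := fun h => hmax.ne_top ((Ideal.eq_top_iff_one _).mpr h)
  have hintmem : ∀ n : ℤ, (n : integralClosure ℤ ℂ) ∈ 𝔪 → (p : ℤ) ∣ n := by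
    intro n hn
    by_contra hpn
    have hcop : IsCoprime (p : ℤ) n :=
      (Nat.prime_iff_prime_int.mp hp).irreducible.coprime_iff_not_dvd.mpr hpn
    obtain ⟨a, b, hab⟩ := hcop
    apply h1𝔪
    have h2 : ((a * p + b * n : ℤ) : integralClosure ℤ ℂ) ∈ 𝔪 := by
      push_cast
      exact 𝔪.add_mem (𝔪.mul_mem_left _ hpm) (𝔪.mul_mem_left _ hn)
    rw [hab] at h2
    simpa using h2
  have hXi : ∀ i : G, (MvPolynomial.X i - MvPolynomial.C (aW i) : MvPolynomial G ℤ) ∈ 𝔪R := by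
    intro i
    rw [mem𝔪R, map_sub, MvPolynomial.rename_X, MvPolynomial.rename_C, map_sub, lamZ_X, lamZ_C]
    exact haZG i
  have hp𝔪R : (p : MvPolynomial G ℤ) ∈ 𝔪R := by
    rw [mem𝔪R, map_natCast, map_natCast]
    exact hpm
  have h𝔪Rmax : 𝔪R.IsMaximal := by
    apply Fermat.Agent.Lib.H6.isMaximal_of_forall_exists_int 𝔪R hp hp𝔪R
    · rw [mem𝔪R, map_one, map_one]
      exact h1𝔪
    · intro r
      induction r using MvPolynomial.induction_on with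
      | C n =>
        refine ⟨n, ?_⟩
        rw [eq_intCast (MvPolynomial.C (σ := G)) n, sub_self]
        exact 𝔪R.zero_mem
      | add a b ha hb =>
        obtain ⟨m, hm⟩ := ha
        obtain ⟨n, hn⟩ := hb
        refine ⟨m + n, ?_⟩
        have h3 : a + b - ((m + n : ℤ) : MvPolynomial G ℤ)
            = (a - (m : MvPolynomial G ℤ)) + (b - (n : MvPolynomial G ℤ)) := by
          push_cast; ring
        rw [h3]
        exact 𝔪R.add_mem hm hn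
      | mul_X a i ha =>
        obtain ⟨m, hm⟩ := ha
        refine ⟨m * aW i, ?_⟩
        have h3 : a * MvPolynomial.X i - ((m * aW i : ℤ) : MvPolynomial G ℤ)
            = (a - (m : MvPolynomial G ℤ)) * MvPolynomial.X i
              + (m : MvPolynomial G ℤ) * (MvPolynomial.X i - MvPolynomial.C (aW i)) := by
          rw [eq_intCast (MvPolynomial.C (σ := G)) (aW i)]
          push_cast; ring
        rw [h3]
        exact 𝔪R.add_mem (𝔪R.mul_mem_right _ hm) (𝔪R.mul_mem_left _ (hXi i))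
  -- the sign
  obtain ⟨ε, hε, hεmem⟩ : ∃ ε : ℤ, ε * ε = 1 ∧
      aZ none - ((ε * ((q : ℤ) + 1) : ℤ) : integralClosure ℤ ℂ) ∈ 𝔪 := by
    have hfac : (aZ none - ((q : integralClosure ℤ ℂ) + 1)) * (aZ none + ((q : integralClosure ℤ ℂ) + 1))
        ∈ 𝔪 := by
      have h3 : (aZ none - ((q : integralClosure ℤ ℂ) + 1)) * (aZ none + ((q : integralClosure ℤ ℂ) + 1))
          = aZ none ^ 2 - ((q : integralClosure ℤ ℂ) + 1) ^ 2 := by ring
      rw [h3]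
      exact haZq
    rcases hmax.isPrime.mem_or_mem hfac with h | h
    · refine ⟨1, by norm_num, ?_⟩
      have h3 : aZ none - (((1 : ℤ) * ((q : ℤ) + 1) : ℤ) : integralClosure ℤ ℂ)
          = aZ none - ((q : integralClosure ℤ ℂ) + 1) := by push_cast; ring
      rw [h3]
      exact h
    · refine ⟨-1, by norm_num, ?_⟩
      have h3 : aZ none - (((-1 : ℤ) * ((q : ℤ) + 1) : ℤ) : integralClosure ℤ ℂ)
          = aZ none + ((q : integralClosure ℤ ℂ) + 1) := by push_cast; ring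
      rw [h3]
      exact h
  -- the hypotheses of the algebraic core
  have hs : (MvPolynomial.X i₀ - MvPolynomial.C ((l₀ : ℤ) + 1) : MvPolynomial G ℤ) ∉ 𝔪R := by
    intro h
    rw [mem𝔪R, map_sub, MvPolynomial.rename_X, MvPolynomial.rename_C, map_sub, lamZ_X, lamZ_C] at h
    have h2 := 𝔪.sub_mem (haZG i₀) h
    have h3 : aZ (some i₀) - ((aW (i₀ : ℕ) : ℤ) : integralClosure ℤ ℂ)
        - (aZ (some i₀) - (((l₀ : ℤ) + 1 : ℤ) : integralClosure ℤ ℂ))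
        = (((l₀ : ℤ) + 1 - aW l₀ : ℤ) : integralClosure ℤ ℂ) := by
      push_cast; ring
    rw [h3] at h2
    exact hl₀ (hintmem _ h2)
  have hP : P ≠ ⊤ := by
    intro h
    have h2 : (1 : MvPolynomial (Option G) ℤ) ∈ P := by rw [h]; trivial
    apply h1𝔪
    have h3 : lamZ 1 ∈ 𝔪 := h2
    rwa [map_one] at h3
  have h𝔪P : ∀ r ∈ 𝔪R, MvPolynomial.rename some r ∈ P := fun r hr => hr
  have hqP : (MvPolynomial.X none - MvPolynomial.C (ε * ((q : ℤ) + 1)) :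
      MvPolynomial (Option G) ℤ) ∈ P := by
    show lamZ _ ∈ 𝔪
    rw [map_sub, lamZ_X, lamZ_C]
    exact hεmem
  have hf0 : f ≠ 0 := by
    rintro rfl
    have h1 := hf.qCoeff_one
    rw [Fermat.Agent.S49.qc_zero] at h1
    exact zero_ne_one h1
  have hann : ∀ r : MvPolynomial (Option G) ℤ, (∀ x : lrPar N, lrEval TH hTH r x = 0) → r ∈ P := by
    intro r hr
    show lamZ r ∈ 𝔪
    have h1 : lam r = 0 := lr_entry N prN hprN hprNN f hf hf0 (fun o => lrHeckeC N (prN o))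
      (fun k g => periodMap_heckeT N (hprN k) (hprNN k) g)
      (fun k v => lr_hecke_charInv N (prN k) v) TH hTH
      (fun k x => lr_hecke_lrCoe N (prN k) x) lam hlam r hr
    have h2 : lamZ r = 0 := Subtype.ext h1
    rw [h2]
    exact 𝔪.zero_mem
  refine ⟨𝔪R, h𝔪Rmax, hp𝔪R, hXi, ?_⟩
  intro hTB' r hr
  haveI := h𝔪Rmax
  exact lr_stageA 𝔪R p hp hp𝔪R TH hTH TB hTB α₁ α₂ β₁ β₂ hα₁ hα₂ bH bB hbH cB hcB hbB sH sB a₁ a₂
    i₀ ((l₀ : ℤ) + 1) hs hIh' ((q : ℤ) + 1) h11 h12 h21 h22 ε hε P hP h𝔪P hqP hann r hr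

end LR
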