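/-
S41 (level raising), stream S3: assembly, part 2 (exit) — the main theorem of the stream.

`LR.lr_main`: level raising for a normalised eigenform `f` of level `N`, given
* [L0] the compatibilities of the Hecke operators of `LR_Defs` with the degeneracy maps,
* [S2] the pairings on the lattices of integral parabolic characters of levels `N` and `N q`
  with the adjoints `β₁, β₂` of the degeneracy maps,
* [S1] Ihara's lemma at an auxiliary prime `l₀` and [S4] `p ∤ l₀ + 1 - a_{l₀}(W)`.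
-/
import Fermat.Agent.Lib.LR_Main1
import Fermat.Agent.Lib.LR_Exit
import Fermat.Agent.Lib.LR_ExitEigen

set_option autoImplicit false
set_option linter.style.haveILetI false

open CongruenceSubgroup CuspForm ModularFormClass ModularCurve ModularCurve.Period

namespace LR

theorem lr_main {p N q : ℕ} [NeZero N] [NeZero q] (hp : p.Prime) (hq : q.Prime)
    (hNq : N.Coprime q)
    (f : CuspForm (Gamma0 N) 2) (hf : f.IsNormalizedEigenform)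
    (𝔪 : Ideal (integralClosure ℤ ℂ)) (hmax : 𝔪.IsMaximal) (hpm : (p : integralClosure ℤ ℂ) ∈ 𝔪)
    (G : Set ℕ) (hG : ∀ ℓ ∈ G, ℓ.Prime ∧ ¬ ℓ ∣ N * q)
    (aW : ℕ → ℤ)
    (hcong : ∀ ℓ ∈ G, ∃ a : integralClosure ℤ ℂ, (a : ℂ) = qCoeff ⇑f ℓ ∧
      a - ((aW ℓ : ℤ) : integralClosure ℤ ℂ) ∈ 𝔪)
    (hLR : ∃ a : integralClosure ℤ ℂ, (a : ℂ) = qCoeff ⇑f q ∧
      a ^ 2 - ((q : integralClosure ℤ ℂ) + 1) ^ 2 ∈ 𝔪)
    -- [L0]
    (hparN : ∀ (l : ℕ) (χ : X N ℤ), χ ∈ lrPar N → hecke N l χ ∈ lrPar N)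
    (hparM : ∀ (l : ℕ) (χ : X (N * q) ℤ), χ ∈ lrPar (N * q) → hecke (N * q) l χ ∈ lrPar (N * q))
    (hcommN : ∀ l l' : ℕ, l.Prime → l'.Prime → ¬ l ∣ N → ¬ l' ∣ N → ∀ χ : X N ℤ,
      χ ∈ lrPar N → hecke N l (hecke N l' χ) = hecke N l' (hecke N l χ))
    (hcommM : ∀ l l' : ℕ, l.Prime → l'.Prime → ¬ l ∣ N * q → ¬ l' ∣ N * q → ∀ χ : X (N * q) ℤ,
      χ ∈ lrPar (N * q) → hecke (N * q) l (hecke (N * q) l' χ)
        = hecke (N * q) l' (hecke (N * q) l χ))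
    (hres1 : ∀ l : ℕ, l.Prime → ¬ l ∣ N * q → ∀ χ : X N ℤ, χ ∈ lrPar N →
      hecke (N * q) l (res1 N q χ) = res1 N q (hecke N l χ))
    (hres2 : ∀ l : ℕ, l.Prime → ¬ l ∣ N * q → ∀ χ : X N ℤ, χ ∈ lrPar N →
      hecke (N * q) l (res2 N q χ) = res2 N q (hecke N l χ))
    (hU2 : ∀ χ : X N ℤ, χ ∈ lrPar N → hecke (N * q) q (res2 N q χ) = (q : ℤ) • res1 N q χ)
    (hU1 : ∀ χ : X N ℤ, χ ∈ lrPar N →
      hecke (N * q) q (res1 N q χ) = res1 N q (hecke N q χ) - res2 N q χ)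
    -- [S2]
    (bH : lrPar N →ₗ[ℤ] lrPar N →ₗ[ℤ] ℤ)
    (bB : lrPar (N * q) →ₗ[ℤ] lrPar (N * q) →ₗ[ℤ] ℤ)
    (hbH : ∀ y : lrPar N, (∀ x, bH x y = 0) → y = 0)
    (cB : ℤ) (hcB : ¬ (p : ℤ) ∣ cB)
    (hbB : ∀ φ : lrPar (N * q) →ₗ[ℤ] ℤ, ∃ w : lrPar (N * q), ∀ b, bB b w = cB * φ b)
    (sadjH : ∀ l ∈ G, ∀ x y x' y' : lrPar N, (x' : X N ℤ) = hecke N l (x : X N ℤ) →
      (y' : X N ℤ) = hecke N l (y : X N ℤ) → bH x' y = bH x y')
    (sadjB : ∀ l ∈ G, ∀ x y x' y' : lrPar (N * q),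
      (x' : X (N * q) ℤ) = hecke (N * q) l (x : X (N * q) ℤ) →
      (y' : X (N * q) ℤ) = hecke (N * q) l (y : X (N * q) ℤ) → bB x' y = bB x y')
    (β₁ β₂ : lrPar (N * q) →+ lrPar N)
    (adj₁ : ∀ (x : lrPar N) (x' w : lrPar (N * q)),
      (x' : X (N * q) ℤ) = res1 N q (x : X N ℤ) → bB x' w = bH x (β₁ w))
    (adj₂ : ∀ (x : lrPar N) (x' w : lrPar (N * q)),
      (x' : X (N * q) ℤ) = res2 N q (x : X N ℤ) → bB x' w = bH x (β₂ w))
    (hβ₁ : ∀ w : lrPar (N * q),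
      res1 N q ((β₁ w : lrPar N) : X N ℤ) = P1 N q hNq (w : X (N * q) ℤ))
    (hβ₂ : ∀ w : lrPar (N * q),
      res1 N q ((β₂ w : lrPar N) : X N ℤ) = P2 N q hNq (w : X (N * q) ℤ))
    -- [S1] + [S4]
    (l₀ : ℕ) (hl₀G : l₀ ∈ G) (hl₀ : ¬ (p : ℤ) ∣ ((l₀ : ℤ) + 1 - aW l₀))
    (hIh : ∀ x y : X N ℤ, x ∈ lrPar N → y ∈ lrPar N →
      (∀ γ, (p : ℤ) ∣ res1 N q x γ + res2 N q y γ) →
      (∀ γ, (p : ℤ) ∣ hecke N l₀ x γ - ((l₀ : ℤ) + 1) * x γ) ∧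
        (∀ γ, (p : ℤ) ∣ hecke N l₀ y γ - ((l₀ : ℤ) + 1) * y γ)) :
    ∃ (g : CuspForm (Gamma0 (N * q)) 2) (𝔪' : Ideal (integralClosure ℤ ℂ)),
      g.IsNormalizedEigenform ∧ 𝔪'.IsMaximal ∧ (p : integralClosure ℤ ℂ) ∈ 𝔪' ∧
      (∀ ℓ ∈ G, ∃ a : integralClosure ℤ ℂ, (a : ℂ) = qCoeff ⇑g ℓ ∧
        a - ((aW ℓ : ℤ) : integralClosure ℤ ℂ) ∈ 𝔪') ∧
      qCoeff ⇑g q ^ 2 = 1 := by
  classical
  obtain ⟨𝔪R, h𝔪Rmax, hp𝔪R, hXi, hA⟩ := lr_main_core hp hq hNq f hf 𝔪 hmax hpm G hG aW hcong hLR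
    hparN hparM hcommN hcommM hres1 hres2 hU2 hU1 bH bB hbH cB hcB hbB sadjH sadjB β₁ β₂ adj₁ adj₂
    hβ₁ hβ₂ l₀ hl₀G hl₀ hIh
  haveI := h𝔪Rmax
  haveI : NeZero (N * q) := ⟨Nat.mul_ne_zero (NeZero.ne N) (NeZero.ne q)⟩
  have hGp : ∀ ℓ ∈ G, ℓ.Prime := fun ℓ h => (hG ℓ h).1
  have hGM : ∀ ℓ ∈ G, ¬ ℓ ∣ N * q := fun ℓ h => (hG ℓ h).2
  have hGN : ∀ ℓ ∈ G, ¬ ℓ ∣ N := fun ℓ h hd => (hG ℓ h).2 (Dvd.dvd.mul_right hd q)
  let TB : G → Module.End ℤ (lrPar (N * q)) := fun i => lrHeckePar (N * q) hparM i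
  have hTB : ∀ i j : G, Commute (TB i) (TB j) := by
    intro i j
    apply LinearMap.ext
    intro x
    apply Subtype.ext
    exact hcommM _ _ (hGp _ i.2) (hGp _ j.2) (hG _ i.2).2 (hG _ j.2).2 x x.2
  let TN : G → Module.End ℤ (lrPar N) := fun i => lrHeckePar N hparN i
  have hTN : ∀ i j : G, Commute (TN i) (TN j) := by
    intro i j
    apply LinearMap.ext
    intro x
    apply Subtype.ext
    exact hcommN _ _ (hGp _ i.2) (hGp _ j.2) (hGN _ i.2) (hGN _ j.2) x x.2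
  -- Hecke-equivariance of the adjoints
  have hβT : ∀ (β : lrPar (N * q) →+ lrPar N) (res : X N ℤ →+ X (N * q) ℤ)
      (_ : ∀ l : ℕ, l.Prime → ¬ l ∣ N * q → ∀ χ : X N ℤ, χ ∈ lrPar N →
        hecke (N * q) l (res χ) = res (hecke N l χ))
      (_ : ∀ (x : lrPar N) (x' w : lrPar (N * q)),
        (x' : X (N * q) ℤ) = res (x : X N ℤ) → bB x' w = bH x (β w))
      (_ : ∀ x : X N ℤ, x ∈ lrPar N → res x ∈ lrPar (N * q)),
      ∀ (i : G) (w : lrPar (N * q)), β (TB i w) = TN i (β w) := by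
    intro β res hres adj hrespar i w
    rw [← sub_eq_zero]
    apply hbH
    intro x
    rw [map_sub]
    have e1 : bH x (β (TB i w)) = bB ⟨res x, hrespar x x.2⟩ (TB i w) :=
      (adj x ⟨res x, hrespar x x.2⟩ (TB i w) rfl).symm
    have e2 : bB ⟨res x, hrespar x x.2⟩ (TB i w) = bB (TB i ⟨res x, hrespar x x.2⟩) w :=
      (sadjB i i.2 ⟨res x, hrespar x x.2⟩ w _ _ rfl rfl).symm
    have e3 : bB (TB i ⟨res x, hrespar x x.2⟩) w = bH (TN i x) (β w) :=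
      adj (TN i x) _ w (hres i (hGp i i.2) (hGM i i.2) x x.2)
    have e4 : bH (TN i x) (β w) = bH x (TN i (β w)) := sadjH i i.2 x (β w) _ _ rfl rfl
    rw [e1, e2, e3, e4, sub_self]
  have hβ₁T := hβT β₁ (res1 N q) hres1 adj₁ (fun x hx => lr_res1_par N q x hx)
  have hβ₂T := hβT β₂ (res2 N q) hres2 adj₂ (fun x hx => lr_res2_par N q x hx)
  -- the kernel lattice
  let K₀ : Submodule ℤ (lrPar (N * q)) :=
    LinearMap.ker β₁.toIntLinearMap ⊓ LinearMap.ker β₂.toIntLinearMap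
  have hK₀ : ∀ w, w ∈ K₀ ↔ β₁ w = 0 ∧ β₂ w = 0 := fun w => Iff.rfl
  have hK₀stab : ∀ (r : MvPolynomial G ℤ) (w : lrPar (N * q)), w ∈ K₀ →
      lrEval TB hTB r w ∈ K₀ := by
    intro r w hw
    rw [hK₀] at hw ⊢
    constructor
    · rw [lrEval_intertwine TB hTB TN hTN β₁ hβ₁T r w, hw.1, map_zero]
    · rw [lrEval_intertwine TB hTB TN hTN β₂ hβ₂T r w, hw.2, map_zero]
  -- `U_q² = 1` on the kernel lattice
  have hU2K : ∀ w : lrPar (N * q), w ∈ K₀ →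
      hecke (N * q) q (hecke (N * q) q (w : X (N * q) ℤ)) = (w : X (N * q) ℤ) := by
    intro w hw
    rw [hK₀] at hw
    have e1 := hβ₁ w
    have e2 := hβ₂ w
    rw [hw.1, P1_apply] at e1
    rw [hw.2, P2_apply] at e2
    rw [Submodule.coe_zero, map_zero] at e1 e2
    have e3 : atkin N q hNq (w : X (N * q) ℤ) = - hecke (N * q) q (w : X (N * q) ℤ) :=
      eq_neg_of_add_eq_zero_right e2.symm
    rw [e3, map_neg] at e1
    have e4 := eq_neg_of_add_eq_zero_right e1.symm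
    rw [neg_neg] at e4
    exact e4.symm
  -- the complex side
  let V : Submodule ℂ (X (N * q) ℂ) :=
    Submodule.span ℂ (lrCoe (Gamma0 (N * q)) '' (lrPar (N * q) : Set (X (N * q) ℤ)))
  have hVstab : ∀ (l : ℕ) (v : X (N * q) ℂ), v ∈ V → lrHeckeC (N * q) l v ∈ V := by
    intro l v hv
    refine Submodule.span_induction (p := fun v _ => lrHeckeC (N * q) l v ∈ V) ?_ ?_ ?_ ?_ hv
    · rintro _ ⟨x, hx, rfl⟩
      rw [lrHeckeC_apply, lr_hecke_lrCoe]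
      exact Submodule.subset_span ⟨_, hparM l x hx, rfl⟩
    · rw [map_zero]; exact V.zero_mem
    · intro a b _ _ ha hb
      rw [map_add]; exact V.add_mem ha hb
    · intro c a _ ha
      rw [map_smul]; exact V.smul_mem c ha
  let TV : G → Module.End ℂ V := fun i => (lrHeckeC (N * q) i).restrict (hVstab i)
  have hTV : ∀ i j : G, Commute (TV i) (TV j) := by
    intro i j
    apply LinearMap.ext
    intro v
    apply Subtype.ext
    show lrHeckeC (N * q) i (lrHeckeC (N * q) j (v : X (N * q) ℂ))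
      = lrHeckeC (N * q) j (lrHeckeC (N * q) i (v : X (N * q) ℂ))
    have hv : (v : X (N * q) ℂ) ∈ V := v.2
    refine Submodule.span_induction (p := fun v _ => lrHeckeC (N * q) i (lrHeckeC (N * q) j v)
      = lrHeckeC (N * q) j (lrHeckeC (N * q) i v)) ?_ ?_ ?_ ?_ hv
    · rintro _ ⟨x, hx, rfl⟩
      simp only [lrHeckeC_apply, lr_hecke_lrCoe]
      rw [hcommM i j (hGp i i.2) (hGp j j.2) (hGM i i.2) (hGM j j.2) x hx]
    · simp
    · intro a b _ _ ha hb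
      rw [map_add, map_add, ha, hb, map_add, map_add]
    · intro c a _ ha
      rw [map_smul, map_smul, ha, map_smul, map_smul]
  let ρ : MvPolynomial G ℤ →+* Module.End ℂ V := lrEval TV hTV
  let jV : lrPar (N * q) →+ V :=
    { toFun := fun x => ⟨lrCoe (Gamma0 (N * q)) (x : X (N * q) ℤ),
        Submodule.subset_span ⟨_, x.2, rfl⟩⟩
      map_zero' := by
        apply Subtype.ext
        show lrCoe (Gamma0 (N * q)) ((0 : lrPar (N * q)) : X (N * q) ℤ) = 0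
        rw [Submodule.coe_zero, map_zero]
      map_add' := fun x y => by
        apply Subtype.ext
        show lrCoe (Gamma0 (N * q)) ((x + y : lrPar (N * q)) : X (N * q) ℤ)
          = lrCoe (Gamma0 (N * q)) (x : X (N * q) ℤ) + lrCoe (Gamma0 (N * q)) (y : X (N * q) ℤ)
        rw [Submodule.coe_add, map_add] }
  have hjV : ∀ (i : G) (w : lrPar (N * q)), jV (TB i w) = TV i (jV w) := by
    intro i w
    apply Subtype.ext
    show lrCoe (Gamma0 (N * q)) (hecke (N * q) i (w : X (N * q) ℤ))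
      = hecke (N * q) i (lrCoe (Gamma0 (N * q)) (w : X (N * q) ℤ))
    rw [lr_hecke_lrCoe]
  have hjVr : ∀ (r : MvPolynomial G ℤ) (w : lrPar (N * q)), jV (lrEval TB hTB r w) = ρ r (jV w) :=
    fun r w => lrEval_intertwine TB hTB TV hTV jV hjV r w
  have hjVinj : Function.Injective jV := by
    intro x y h
    apply Subtype.ext
    apply lrCoe_injective
    exact congrArg Subtype.val h
  let Xlat : Submodule ℤ V := K₀.map jV.toIntLinearMap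
  have hXlat : ∀ v, v ∈ Xlat ↔ ∃ w ∈ K₀, jV w = v := fun v => Iff.rfl
  have hXfg : Xlat.FG := by
    haveI : IsNoetherian ℤ (lrPar (N * q)) := isNoetherian_of_isNoetherianRing_of_finite ℤ _
    exact (IsNoetherian.noetherian K₀).map _
  have hXstab : ∀ r : MvPolynomial G ℤ, ∀ v ∈ Xlat, ρ r v ∈ Xlat := by
    intro r v hv
    obtain ⟨w, hw, rfl⟩ := (hXlat v).mp hv
    exact (hXlat _).mpr ⟨lrEval TB hTB r w, hK₀stab r w hw, hjVr r w⟩
  have hann : ∀ r : MvPolynomial G ℤ, (∀ v ∈ Xlat, ρ r v = 0) → r ∈ 𝔪R := by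
    intro r hr
    apply hA hTB r
    intro w hw1 hw2
    apply hjVinj
    rw [hjVr, map_zero]
    exact hr _ ((hXlat _).mpr ⟨w, (hK₀ w).mpr ⟨hw1, hw2⟩, rfl⟩)
  obtain ⟨v, χ, 𝔪', hv0, hvspan, hveig, h𝔪'max, hχ𝔪⟩ :=
    lr_exit_eigen 𝔪R ρ Xlat hXfg hXstab hann
  -- properties of the eigenclass
  have hvpar : (v : X (N * q) ℂ) ∈ parabolicHoms ℂ (Gamma0 (N * q)) ℂ := by
    have hle : V ≤ parabolicHoms ℂ (Gamma0 (N * q)) ℂ := by
      apply Submodule.span_le.mpr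
      rintro _ ⟨x, hx, rfl⟩
      exact lrCoe_mem_par (N * q) x hx
    exact hle v.2
  have hvU : lrHeckeC (N * q) q (lrHeckeC (N * q) q (v : X (N * q) ℂ)) = (v : X (N * q) ℂ) := by
    have key : ∀ u : V, u ∈ Submodule.span ℂ (Xlat : Set V) →
        lrHeckeC (N * q) q (lrHeckeC (N * q) q (u : X (N * q) ℂ)) = (u : X (N * q) ℂ) := by
      intro u hu
      refine Submodule.span_induction (p := fun (u : V) _ =>
        lrHeckeC (N * q) q (lrHeckeC (N * q) q (u : X (N * q) ℂ)) = (u : X (N * q) ℂ))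
        ?_ ?_ ?_ ?_ hu
      · intro u hu
        obtain ⟨w, hw, rfl⟩ := (hXlat u).mp hu
        show lrHeckeC (N * q) q (lrHeckeC (N * q) q (lrCoe (Gamma0 (N * q)) (w : X (N * q) ℤ)))
          = lrCoe (Gamma0 (N * q)) (w : X (N * q) ℤ)
        rw [lrHeckeC_apply, lrHeckeC_apply, lr_hecke_lrCoe, lr_hecke_lrCoe, hU2K w hw]
      · simp
      · intro a b _ _ ha hb
        rw [Submodule.coe_add, map_add, map_add, ha, hb]
      · intro c a _ ha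
        rw [Submodule.coe_smul, map_smul, map_smul, ha]
    exact key v hvspan
  -- eigenvalues
  let a : ℕ → ℂ := fun ℓ =>
    if h : ℓ ∈ G then ((χ (MvPolynomial.X ⟨ℓ, h⟩) : integralClosure ℤ ℂ) : ℂ) else 0
  have hvT : ∀ ℓ ∈ G, ℓ.Prime → ¬ ℓ ∣ N * q →
      lrHeckeC (N * q) ℓ (v : X (N * q) ℂ) = a ℓ • (v : X (N * q) ℂ) := by
    intro ℓ hℓ _ _
    have h1 := hveig (MvPolynomial.X ⟨ℓ, hℓ⟩)
    have h2 : ρ (MvPolynomial.X ⟨ℓ, hℓ⟩) = TV ⟨ℓ, hℓ⟩ := lrEval_X TV hTV _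
    rw [h2] at h1
    have h3 := congrArg Subtype.val h1
    simp only [a, dif_pos hℓ]
    exact h3
  obtain ⟨g, hg, hgT, hgq⟩ := lr_exit_form (N * q) G q hq (Dvd.intro_left N rfl)
    (fun ℓ => lrHeckeC (N * q) ℓ) (lrHeckeC (N * q) q)
    (fun ℓ hℓ hℓM _ f => periodMap_heckeT (N * q) hℓ hℓM f)
    (fun f => periodMap_heckeU (N * q) hq (Dvd.intro_left N rfl) f)
    (fun ℓ _ v => lr_hecke_charInv (N * q) ℓ v) (fun v => lr_hecke_charInv (N * q) q v) a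
    (v : X (N * q) ℂ) (fun h => hv0 (Subtype.ext h)) hvpar hvT hvU
  refine ⟨g, 𝔪', hg, h𝔪'max, ?_, ?_, hgq⟩
  · have h1 := hχ𝔪 _ hp𝔪R
    rwa [map_natCast] at h1
  · intro ℓ hℓ
    refine ⟨χ (MvPolynomial.X ⟨ℓ, hℓ⟩), ?_, ?_⟩
    · rw [hgT ℓ hℓ (hGp ℓ hℓ) (hGM ℓ hℓ)]
      simp only [a, dif_pos hℓ]
    · have h1 := hχ𝔪 _ (hXi ⟨ℓ, hℓ⟩)
      rw [map_sub, eq_intCast (MvPolynomial.C (σ := G)), map_intCast] at h1
      exact h1

end LR
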