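/-
S41 (level raising), stream S3: the Hecke operators on parabolic characters, via cusp forms.

The complex parabolic characters of `Γ₀(M)` are the image of the pair period map (Eichler–
Shimura, `S21`), which intertwines the Hecke operators on cusp forms with `LR.hecke`.  Hence
`LR.hecke M l` preserves parabolic characters and the `LR.hecke M l` commute on them — first
over `ℂ`, then over `ℤ` by the injectivity of the coefficient change.
-/
import Fermat.Agent.Lib.LR_Aux
import Fermat.Agent.S21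

set_option autoImplicit false
set_option linter.style.haveILetI false

open CongruenceSubgroup CuspForm ModularFormClass ModularCurve ModularCurve.Period

namespace LR

theorem lr_exists_formOp (M : ℕ) [NeZero M] {l : ℕ} (hl : l.Prime) :
    ∃ Tf ∈ CuspForm.heckeGenerators M 2 (∅ : Set ℕ), ∀ f : CuspForm (Gamma0 M) 2,
      periodMap M (Tf f) = hecke M l (periodMap M f) := by
  by_cases hlM : l ∣ M
  · exact ⟨CuspForm.heckeULin 2 hlM,
      CuspForm.heckeULin_mem_heckeGenerators hl hlM (Set.notMem_empty l),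
      fun f => periodMap_heckeU M hl hlM f⟩
  · exact ⟨CuspForm.heckeTLin 2 hl hlM,
      CuspForm.heckeTLin_mem_heckeGenerators hl hlM (Set.notMem_empty l),
      fun f => periodMap_heckeT M hl hlM f⟩

theorem lr_pair_hecke (M : ℕ) [NeZero M] (l : ℕ)
    (Tf : Module.End ℂ (CuspForm (Gamma0 M) 2))
    (h1 : ∀ f, periodMap M (Tf f) = hecke M l (periodMap M f)) (x y : CuspForm (Gamma0 M) 2) :
    periodHomPair M (Tf x, Tf y) = hecke M l (periodHomPair M (x, y)) := by
  obtain ⟨pml, hpml, hpair⟩ := periodHomPair_def M (Fermat.Agent.ES.existsPeriodMapLinear M)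
  have hform : ∀ x y : CuspForm (Gamma0 M) 2, periodHomPair M (x, y)
      = (periodMap M x + charInvolution M ℂ ℂ (periodMap M x))
        + (periodMap M y - charInvolution M ℂ ℂ (periodMap M y)) := by
    intro x y
    rw [hpair]
    simp [LinearMap.coprod_apply, hpml]
  rw [hform, hform, h1, h1, map_add, map_sub, map_add, lr_hecke_charInv, lr_hecke_charInv]

/-- `LR.hecke` preserves complex parabolic characters -/
theorem lr_hecke_parC (M : ℕ) [NeZero M] (l : ℕ) (v : X M ℂ)
    (hv : v ∈ parabolicHoms ℂ (Gamma0 M) ℂ) : hecke M l v ∈ parabolicHoms ℂ (Gamma0 M) ℂ := by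
  by_cases hl : l.Prime
  · obtain ⟨hinj, hrange⟩ := Fermat.Agent.S21.result M
    rw [← hrange] at hv ⊢
    obtain ⟨⟨x, y⟩, rfl⟩ := hv
    obtain ⟨Tf, -, hTf⟩ := lr_exists_formOp M hl
    exact ⟨(Tf x, Tf y), lr_pair_hecke M l Tf hTf x y⟩
  · rw [hecke_of_not_prime M hl]
    exact Submodule.zero_mem _

/-- the `LR.hecke M l` commute on complex parabolic characters -/
theorem lr_hecke_commC (M : ℕ) [NeZero M] (l l' : ℕ) (v : X M ℂ)
    (hv : v ∈ parabolicHoms ℂ (Gamma0 M) ℂ) :
    hecke M l (hecke M l' v) = hecke M l' (hecke M l v) := by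
  by_cases hl : l.Prime
  · by_cases hl' : l'.Prime
    · obtain ⟨hinj, hrange⟩ := Fermat.Agent.S21.result M
      rw [← hrange] at hv
      obtain ⟨⟨x, y⟩, rfl⟩ := hv
      obtain ⟨Tf, hTfmem, hTf⟩ := lr_exists_formOp M hl
      obtain ⟨Tf', hTfmem', hTf'⟩ := lr_exists_formOp M hl'
      have hc : Tf * Tf' = Tf' * Tf := CuspForm.commute_of_mem_heckeGenerators hTfmem hTfmem'
      have hc' : ∀ z, Tf (Tf' z) = Tf' (Tf z) := fun z =>
        congrArg (fun F : Module.End ℂ (CuspForm (Gamma0 M) 2) => F z) hc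
      rw [← lr_pair_hecke M l' Tf' hTf' x y, ← lr_pair_hecke M l Tf hTf (Tf' x) (Tf' y),
        ← lr_pair_hecke M l Tf hTf x y, ← lr_pair_hecke M l' Tf' hTf' (Tf x) (Tf y), hc', hc']
    · rw [hecke_of_not_prime M hl']
      simp
  · rw [hecke_of_not_prime M hl]
    simp

/-- `LR.hecke` preserves integral parabolic characters -/
theorem lr_hecke_par (M : ℕ) [NeZero M] (l : ℕ) (χ : X M ℤ)
    (hχ : χ ∈ parabolicHoms ℤ (Gamma0 M) ℤ) : hecke M l χ ∈ parabolicHoms ℤ (Gamma0 M) ℤ := by
  have h1 := lr_hecke_parC M l (lrCoe (Gamma0 M) χ) (lrCoe_mem_par M χ hχ)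
  rw [lr_hecke_lrCoe] at h1
  intro γ hγ
  have h2 := h1 γ hγ
  rw [lrCoe_apply] at h2
  exact_mod_cast h2

/-- the `LR.hecke M l` commute on integral parabolic characters -/
theorem lr_hecke_comm (M : ℕ) [NeZero M] (l l' : ℕ) (χ : X M ℤ)
    (hχ : χ ∈ parabolicHoms ℤ (Gamma0 M) ℤ) :
    hecke M l (hecke M l' χ) = hecke M l' (hecke M l χ) := by
  apply lrCoe_injective
  rw [← lr_hecke_lrCoe, ← lr_hecke_lrCoe, ← lr_hecke_lrCoe, ← lr_hecke_lrCoe]
  exact lr_hecke_commC M l l' _ (lrCoe_mem_par M χ hχ)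

end LR
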