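/-
S41 (level raising), stream S3: `LR.lr_main2` = `LR.lr_main` with all the Hecke-compatibility
hypotheses [L0] discharged (`LR_ParHecke`, `LR_HeckeId`, `LR_HeckeId2`), and the bridge
`LR.lr_ihara_bridge` from the mod `p` form of Ihara's lemma to the divisibility form consumed
by `lr_main`.
-/
import Fermat.Agent.Lib.LR_Main
import Fermat.Agent.Lib.LR_ParHecke
import Fermat.Agent.Lib.LR_HeckeId2
import Fermat.Agent.Lib.LR_Eis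

set_option autoImplicit false
set_option linter.style.haveILetI false

open CongruenceSubgroup CuspForm ModularFormClass ModularCurve ModularCurve.Period

namespace LR

theorem lr_main2 {p N q : ℕ} [NeZero N] [NeZero q] (hp : p.Prime) (hq : q.Prime)
    (hNq : N.Coprime q)
    (f : CuspForm (Gamma0 N) 2) (hf : f.IsNormalizedEigenform)
    (𝔪 : Ideal (integralClosure ℤ ℂ)) (hmax : 𝔪.IsMaximal) (hpm : (p : integralClosure ℤ ℂ) ∈ 𝔪)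
    (G : Set ℕ) (hG : ∀ ℓ ∈ G, ℓ.Prime ∧ ¬ ℓ ∣ N * q)
    (aW : ℕ → ℤ)
    (hcong : ∀ ℓ ∈ G, ∃ a : integralClosure ℤ ℂ, (a : ℂ) = qCoeff ⇑f ℓ ∧
      a - ((aW ℓ : ℤ) : integralClosure ℤ ℂ) ∈ 𝔪)
    (hLR : ∃ a : integralClosure ℤ ℂ, (a : ℂ) = qCoeff ⇑f q ∧
      a ^ 2 - ((q : integralClosure ℤ ℂ) + 1) ^ 2 ∈ 𝔪)
    -- [S2]
    (bH : lrPar N →ₗ[ℤ] lrPar N →ₗ[ℤ] ℤ)
    (bB : lrPar (N * q) →ₗ[ℤ] lrPar (N * q) →ₗ[ℤ] ℤ)
    (hbH : ∀ y : lrPar N, (∀ x, bH x y = 0) → y = 0)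
    (cB : ℤ) (hcB : ¬ (p : ℤ) ∣ cB)
    (hbB : ∀ φ : lrPar (N * q) →ₗ[ℤ] ℤ, ∃ w : lrPar (N * q), ∀ b, bB b w = cB * φ b)
    (sadjH : ∀ l ∈ G, ∀ x y x' y' : lrPar N, (x' : X N ℤ) = hecke N l (x : X N ℤ) →
      (y' : X N ℤ) = hecke N l (y : X N ℤ) → bH x' y = bH x y')
    (sadjB : ∀ l ∈ G, ∀ x y x' y' : lrPar (N * q),
      (x' : X (N * q) ℤ) = hecke (N * q) l (x : X (N * q) ℤ) →
      (y' : X (N * q) ℤ) = hecke (N * q) l (y : X (N * q) ℤ) → bB x' y = bB x y')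
    (β₁ β₂ : lrPar (N * q) →+ lrPar N)
    (adj₁ : ∀ (x : lrPar N) (x' w : lrPar (N * q)),
      (x' : X (N * q) ℤ) = res1 N q (x : X N ℤ) → bB x' w = bH x (β₁ w))
    (adj₂ : ∀ (x : lrPar N) (x' w : lrPar (N * q)),
      (x' : X (N * q) ℤ) = res2 N q (x : X N ℤ) → bB x' w = bH x (β₂ w))
    (hβ₁ : ∀ w : lrPar (N * q),
      res1 N q ((β₁ w : lrPar N) : X N ℤ) = P1 N q hNq (w : X (N * q) ℤ))
    (hβ₂ : ∀ w : lrPar (N * q),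
      res1 N q ((β₂ w : lrPar N) : X N ℤ) = P2 N q hNq (w : X (N * q) ℤ))
    -- [S1] + [S4]
    (l₀ : ℕ) (hl₀G : l₀ ∈ G) (hl₀ : ¬ (p : ℤ) ∣ ((l₀ : ℤ) + 1 - aW l₀))
    (hIh : ∀ x y : X N ℤ, x ∈ lrPar N → y ∈ lrPar N →
      (∀ γ, (p : ℤ) ∣ res1 N q x γ + res2 N q y γ) →
      (∀ γ, (p : ℤ) ∣ hecke N l₀ x γ - ((l₀ : ℤ) + 1) * x γ) ∧
        (∀ γ, (p : ℤ) ∣ hecke N l₀ y γ - ((l₀ : ℤ) + 1) * y γ)) :
    ∃ (g : CuspForm (Gamma0 (N * q)) 2) (𝔪' : Ideal (integralClosure ℤ ℂ)),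
      g.IsNormalizedEigenform ∧ 𝔪'.IsMaximal ∧ (p : integralClosure ℤ ℂ) ∈ 𝔪' ∧
      (∀ ℓ ∈ G, ∃ a : integralClosure ℤ ℂ, (a : ℂ) = qCoeff ⇑g ℓ ∧
        a - ((aW ℓ : ℤ) : integralClosure ℤ ℂ) ∈ 𝔪') ∧
      qCoeff ⇑g q ^ 2 = 1 := by
  haveI : Fact q.Prime := ⟨hq⟩
  haveI : NeZero (N * q) := ⟨Nat.mul_ne_zero (NeZero.ne N) (NeZero.ne q)⟩
  exact lr_main hp hq hNq f hf 𝔪 hmax hpm G hG aW hcong hLR
    (fun l χ hχ => lr_hecke_par N l χ hχ) (fun l χ hχ => lr_hecke_par (N * q) l χ hχ)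
    (fun l l' _ _ _ _ χ hχ => lr_hecke_comm N l l' χ hχ)
    (fun l l' _ _ _ _ χ hχ => lr_hecke_comm (N * q) l l' χ hχ)
    (fun l hl hlM χ _ => by
      haveI : Fact l.Prime := ⟨hl⟩
      exact hecke_res1 N q l (Or.inl hlM) χ)
    (fun l hl hlM χ _ => by
      haveI : Fact l.Prime := ⟨hl⟩
      exact hecke_res2 N q l (fun h => hlM (Dvd.dvd.mul_left h N)) (Or.inl hlM) χ)
    (fun χ _ => by rw [hecke_q_res2 N q χ, natCast_zsmul])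
    (fun χ _ => hecke_q_res1 N q hNq χ)
    bH bB hbH cB hcB hbB sadjH sadjB β₁ β₂ adj₁ adj₂ hβ₁ hβ₂ l₀ hl₀G hl₀ hIh

/-- **Ihara bridge**: the mod `p` form of Ihara's lemma (two parabolic characters mod `p` of
level `N` whose pull-backs to level `N q` cancel both kill `Γ₁(N)`) gives the divisibility form
consumed by `lr_main`, for every prime `l₀ ∤ N`. -/
theorem lr_ihara_bridge {p N q : ℕ} [NeZero q] (hp : p.Prime)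
    (hL1 : ∀ χ₁ χ₂ : X N (ZMod p), IsParabolicHom (Gamma0 N) χ₁ → IsParabolicHom (Gamma0 N) χ₂ →
      res1 N q χ₁ + res2 N q χ₂ = 0 →
      (∀ γ : Gamma0 N, dmod γ = 1 → χ₁ (Additive.ofMul γ) = 0) ∧
        (∀ γ : Gamma0 N, dmod γ = 1 → χ₂ (Additive.ofMul γ) = 0))
    (l₀ : ℕ) (hl₀ : l₀.Prime) (hl₀N : ¬ l₀ ∣ N) :
    ∀ x y : X N ℤ, x ∈ lrPar N → y ∈ lrPar N →
      (∀ γ, (p : ℤ) ∣ res1 N q x γ + res2 N q y γ) →
      (∀ γ, (p : ℤ) ∣ hecke N l₀ x γ - ((l₀ : ℤ) + 1) * x γ) ∧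
        (∀ γ, (p : ℤ) ∣ hecke N l₀ y γ - ((l₀ : ℤ) + 1) * y γ) := by
  haveI : NeZero p := ⟨hp.ne_zero⟩
  intro x y hx hy hdiv
  let φ : ℤ →+ ZMod p := Int.castAddHom (ZMod p)
  have hpar : ∀ z : X N ℤ, z ∈ lrPar N → IsParabolicHom (Gamma0 N) (φ.comp z) := by
    intro z hz γ hγ
    show φ (z (Additive.ofMul γ)) = 0
    rw [hz γ hγ, map_zero]
  have hsum : res1 N q (φ.comp x) + res2 N q (φ.comp y) = 0 := by
    refine AddMonoidHom.ext fun γ => ?_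
    show ((res1 N q x γ : ℤ) : ZMod p) + ((res2 N q y γ : ℤ) : ZMod p) = 0
    rw [← Int.cast_add, ZMod.intCast_zmod_eq_zero_iff_dvd]
    exact hdiv γ
  obtain ⟨h1, h2⟩ := hL1 (φ.comp x) (φ.comp y) (hpar x hx) (hpar y hy) hsum
  have key : ∀ z : X N ℤ, (∀ γ : Gamma0 N, dmod γ = 1 → (φ.comp z) (Additive.ofMul γ) = 0) →
      ∀ γ, (p : ℤ) ∣ hecke N l₀ z γ - ((l₀ : ℤ) + 1) * z γ := by
    intro z hz γ
    have e1 := hecke_eis N hl₀ hl₀N (φ.comp z) hz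
    rw [hecke_comp] at e1
    have e2 := DFunLike.congr_fun e1 γ
    have e3 : ((hecke N l₀ z γ : ℤ) : ZMod p) = (l₀ + 1) • ((z γ : ℤ) : ZMod p) := e2
    rw [← ZMod.intCast_zmod_eq_zero_iff_dvd]
    push_cast
    rw [e3]
    simp
  exact ⟨key x h1, key y h2⟩

end LR
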