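import Mathlib
import Fermat.Agent.Lib.TW_Wronski

/-!
# The Wronskian division polynomial over an arbitrary commutative ring (S41 / LR, stream S4 (b))

`LR.lrPhiR W p : R[X]` for a Weierstrass curve over any commutative ring `R`, compatible with
base change (`LR.lrPhiR_map`), and equal to `twPhi W (twD W) p` over a field (`LR.lrPhiR_eq_twPhi`).
In particular `LR.lrPhiZ W p : ℤ[X]` is ONE integer polynomial whose image in `K[X]` is
`twPhi (W.map (Int.castRingHom K)) (twD _) p` for every field `K` (`LR.lrPhiZ_map`).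
-/

set_option autoImplicit false

open Polynomial
open scoped Polynomial.Bivariate

namespace LR

open WeierstrassCurve WeierstrassCurve.Affine Fermat.Agent.TW

section General

variable {R : Type*} [CommRing R] (W : Affine R)

/-- the `1`-component of an element of the coordinate ring (any commutative ring) -/
noncomputable def lrPZ_P (f : W.CoordinateRing) : R[X] := (CoordinateRing.basis W).repr f 0

/-- the `Y`-component of an element of the coordinate ring (any commutative ring) -/
noncomputable def lrPZ_Q (f : W.CoordinateRing) : R[X] := (CoordinateRing.basis W).repr f 1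

theorem lrPZ_repr (f : W.CoordinateRing) :
    lrPZ_P W f • (1 : W.CoordinateRing) + lrPZ_Q W f • CoordinateRing.mk W Y = f := by
  have h := (CoordinateRing.basis W).sum_repr f
  rw [Fin.sum_univ_two, CoordinateRing.basis_zero, CoordinateRing.basis_one] at h
  exact h

theorem lrPZ_P_smul_basis (p q : R[X]) :
    lrPZ_P W (p • (1 : W.CoordinateRing) + q • CoordinateRing.mk W Y) = p := by
  have h := lrPZ_repr W (p • (1 : W.CoordinateRing) + q • CoordinateRing.mk W Y)
  have h2 : (lrPZ_P W (p • (1 : W.CoordinateRing) + q • CoordinateRing.mk W Y) - p) •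
      (1 : W.CoordinateRing) +
      (lrPZ_Q W (p • (1 : W.CoordinateRing) + q • CoordinateRing.mk W Y) - q) •
        CoordinateRing.mk W Y = 0 := by
    rw [sub_smul, sub_smul]
    linear_combination h
  exact sub_eq_zero.mp (CoordinateRing.smul_basis_eq_zero h2).1

theorem lrPZ_Q_smul_basis (p q : R[X]) :
    lrPZ_Q W (p • (1 : W.CoordinateRing) + q • CoordinateRing.mk W Y) = q := by
  have h := lrPZ_repr W (p • (1 : W.CoordinateRing) + q • CoordinateRing.mk W Y)
  have h2 : (lrPZ_P W (p • (1 : W.CoordinateRing) + q • CoordinateRing.mk W Y) - p) •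
      (1 : W.CoordinateRing) +
      (lrPZ_Q W (p • (1 : W.CoordinateRing) + q • CoordinateRing.mk W Y) - q) •
        CoordinateRing.mk W Y = 0 := by
    rw [sub_smul, sub_smul]
    linear_combination h
  exact sub_eq_zero.mp (CoordinateRing.smul_basis_eq_zero h2).2

/-- `D x = F_y = 2 y + a₁ x + a₃` -/
noncomputable def lrPZ_Dx : W.CoordinateRing :=
  2 * CoordinateRing.mk W Y + CoordinateRing.mk W (C (C W.a₁ * X + C W.a₃))

/-- `D y = - F_x = 3 x² + 2 a₂ x + a₄ - a₁ y` -/
noncomputable def lrPZ_Dy : W.CoordinateRing :=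
  CoordinateRing.mk W (C (C 3 * X ^ 2 + C (2 * W.a₂) * X + C W.a₄)) -
    CoordinateRing.mk W (C (C W.a₁)) * CoordinateRing.mk W Y

/-- the invariant derivation `D = F_y ∂/∂x - F_x ∂/∂y` (as a function), over any commutative
ring -/
noncomputable def lrPZ_D (f : W.CoordinateRing) : W.CoordinateRing :=
  derivative (lrPZ_P W f) • lrPZ_Dx W +
    derivative (lrPZ_Q W f) • (lrPZ_Dx W * CoordinateRing.mk W Y) + lrPZ_Q W f • lrPZ_Dy W

/-- the monomial of pole order `n` -/
noncomputable def lrPZ_Mon (n : ℕ) : W.CoordinateRing :=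
  if 2 ∣ n then (X ^ (n / 2) : R[X]) • (1 : W.CoordinateRing)
  else (X ^ ((n - 3) / 2) : R[X]) • CoordinateRing.mk W Y

/-- the Wronskian of `1, x, y, …` (pole orders `0, 2, 3, …, p`) -/
noncomputable def lrPZ_Wr (p : ℕ) : W.CoordinateRing :=
  (Matrix.of fun i j : Fin p => (lrPZ_D W)^[(i : ℕ)] (lrPZ_Mon W (twN (j : ℕ)))).det

/-- **the Wronskian division polynomial** over any commutative ring -/
noncomputable def lrPhiR (p : ℕ) : R[X] := Algebra.norm R[X] (lrPZ_Wr W p)

/-! ### Base change -/

variable {S : Type*} [CommRing S] (f : R →+* S)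

theorem lrPZ_map_smul_basis (p q : R[X]) :
    CoordinateRing.map W f (p • (1 : W.CoordinateRing) + q • CoordinateRing.mk W Y) =
      p.map f • (1 : (W.map f).toAffine.CoordinateRing) +
        q.map f • CoordinateRing.mk (W.map f).toAffine Y := by
  rw [map_add, CoordinateRing.map_smul, CoordinateRing.map_smul, map_one, CoordinateRing.map_mk,
    Polynomial.map_X]

theorem lrPZ_P_map (a : W.CoordinateRing) :
    lrPZ_P (W.map f).toAffine (CoordinateRing.map W f a) = (lrPZ_P W a).map f := by
  conv_lhs => rw [← lrPZ_repr W a, lrPZ_map_smul_basis, lrPZ_P_smul_basis]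

theorem lrPZ_Q_map (a : W.CoordinateRing) :
    lrPZ_Q (W.map f).toAffine (CoordinateRing.map W f a) = (lrPZ_Q W a).map f := by
  conv_lhs => rw [← lrPZ_repr W a, lrPZ_map_smul_basis, lrPZ_Q_smul_basis]

theorem lrPZ_Dx_map : CoordinateRing.map W f (lrPZ_Dx W) = lrPZ_Dx (W.map f).toAffine := by
  simp only [lrPZ_Dx, map_add, map_mul, map_ofNat, CoordinateRing.map_mk, Polynomial.map_X,
    Polynomial.map_C, coe_mapRingHom, WeierstrassCurve.map_a₁, WeierstrassCurve.map_a₃]

theorem lrPZ_Dy_map : CoordinateRing.map W f (lrPZ_Dy W) = lrPZ_Dy (W.map f).toAffine := by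
  simp only [lrPZ_Dy, map_add, map_sub, map_mul, map_ofNat, CoordinateRing.map_mk,
    Polynomial.map_X, Polynomial.map_C, Polynomial.map_pow, coe_mapRingHom,
    WeierstrassCurve.map_a₁, WeierstrassCurve.map_a₂, WeierstrassCurve.map_a₄]

theorem lrPZ_D_map (a : W.CoordinateRing) :
    CoordinateRing.map W f (lrPZ_D W a) = lrPZ_D (W.map f).toAffine (CoordinateRing.map W f a) := by
  rw [lrPZ_D, lrPZ_D, map_add, map_add, CoordinateRing.map_smul, CoordinateRing.map_smul,
    CoordinateRing.map_smul, map_mul, lrPZ_Dx_map, lrPZ_Dy_map, lrPZ_P_map, lrPZ_Q_map,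
    derivative_map, derivative_map, CoordinateRing.map_mk, Polynomial.map_X]

theorem lrPZ_D_iter_map (i : ℕ) (a : W.CoordinateRing) :
    CoordinateRing.map W f ((lrPZ_D W)^[i] a) =
      (lrPZ_D (W.map f).toAffine)^[i] (CoordinateRing.map W f a) := by
  induction i generalizing a with
  | zero => rfl
  | succ i ih => rw [Function.iterate_succ_apply, Function.iterate_succ_apply, ih, lrPZ_D_map]

theorem lrPZ_Mon_map (n : ℕ) :
    CoordinateRing.map W f (lrPZ_Mon W n) = lrPZ_Mon (W.map f).toAffine n := by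
  rw [lrPZ_Mon, lrPZ_Mon]
  split_ifs
  · rw [CoordinateRing.map_smul, map_one, Polynomial.map_pow, Polynomial.map_X]
  · rw [CoordinateRing.map_smul, CoordinateRing.map_mk, Polynomial.map_X, Polynomial.map_pow,
      Polynomial.map_X]

theorem lrPZ_Wr_map (p : ℕ) :
    CoordinateRing.map W f (lrPZ_Wr W p) = lrPZ_Wr (W.map f).toAffine p := by
  rw [lrPZ_Wr, lrPZ_Wr, RingHom.map_det]
  congr 1
  ext i j
  rw [RingHom.mapMatrix_apply, Matrix.map_apply, Matrix.of_apply, Matrix.of_apply,
    lrPZ_D_iter_map, lrPZ_Mon_map]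

theorem lrPZ_norm_map (a : W.CoordinateRing) :
    Algebra.norm S[X] (CoordinateRing.map W f a) = (Algebra.norm R[X] a).map f := by
  obtain ⟨p, q, rfl⟩ := CoordinateRing.exists_smul_basis_eq a
  rw [lrPZ_map_smul_basis, CoordinateRing.norm_smul_basis, CoordinateRing.norm_smul_basis]
  simp only [Polynomial.map_sub, Polynomial.map_mul, Polynomial.map_pow, Polynomial.map_add,
    Polynomial.map_X, Polynomial.map_C, WeierstrassCurve.map_a₁, WeierstrassCurve.map_a₂,
    WeierstrassCurve.map_a₃, WeierstrassCurve.map_a₄, WeierstrassCurve.map_a₆]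

/-- **base change** of the Wronskian division polynomial -/
theorem lrPhiR_map (p : ℕ) : (lrPhiR W p).map f = lrPhiR (W.map f).toAffine p := by
  rw [lrPhiR, lrPhiR, ← lrPZ_norm_map, lrPZ_Wr_map]

end General

section Field

variable {K : Type*} [Field K] (W : Affine K)

theorem lrPZ_D_eq_twD : lrPZ_D W = ⇑(twD W) := rfl

theorem lrPZ_Mon_eq_twMon (n : ℕ) : lrPZ_Mon W n = twMon W n := rfl

theorem lrPZ_Wr_eq_twWr (p : ℕ) : lrPZ_Wr W p = twWr W (twD W) p := rfl

/-- over a field, `lrPhiR` is `twPhi` for the invariant derivation `twD` -/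
theorem lrPhiR_eq_twPhi (p : ℕ) : lrPhiR W p = twPhi W (twD W) p := rfl

end Field

/-- **the integral Wronskian division polynomial** of a Weierstrass curve over `ℤ` -/
noncomputable def lrPhiZ (W : WeierstrassCurve ℤ) (p : ℕ) : Polynomial ℤ := lrPhiR W.toAffine p

/-- ONE integer polynomial reducing to `twPhi` over every field -/
theorem lrPhiZ_map (W : WeierstrassCurve ℤ) (p : ℕ) (K : Type*) [Field K] :
    (lrPhiZ W p).map (Int.castRingHom K) =
      twPhi (W.map (Int.castRingHom K)).toAffine (twD (W.map (Int.castRingHom K)).toAffine) p := by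
  rw [lrPhiZ, lrPhiR_map, lrPhiR_eq_twPhi]

end LR
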