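-- S13 WP-T [T6 counting] (lead): finiteness / card <= p^2 of the p-torsion and existence of a nonzero
-- p-torsion point, from an abstract polynomial Phi whose roots are the x-coordinates of torsion points.
import Mathlib

set_option autoImplicit false
set_option linter.style.haveILetI false
set_option linter.unusedSectionVars false

open Polynomial
open WeierstrassCurve WeierstrassCurve.Affine

namespace Fermat.Agent.TW

variable {K : Type*} [Field K] [DecidableEq K] (W : WeierstrassCurve.Affine K)

/-- the polynomial in `y` cutting out the points of the curve with a given `x` -/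
noncomputable def twcY (x : K) : K[X] :=
  X ^ 2 + C (W.a₁ * x + W.a₃) * X - C (x ^ 3 + W.a₂ * x ^ 2 + W.a₄ * x + W.a₆)

theorem twcY_eval (x y : K) : (twcY W x).eval y = 0 ↔ W.Equation x y := by
  rw [twcY, WeierstrassCurve.Affine.equation_iff]
  simp only [eval_sub, eval_add, eval_mul, eval_pow, eval_X, eval_C]
  constructor
  · intro h; linear_combination h
  · intro h; linear_combination h

theorem twcY_natDegree (x : K) : (twcY W x).natDegree = 2 := by
  rw [twcY]
  compute_degree!

theorem twcY_ne_zero (x : K) : twcY W x ≠ 0 := by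
  intro h
  have := twcY_natDegree W x
  rw [h, natDegree_zero] at this
  omega

/-- the finite set of candidate affine points over the roots of `Φ` -/
noncomputable def twcPairs (Φ : K[X]) : Finset (K × K) :=
  Φ.roots.toFinset.biUnion fun x => (twcY W x).roots.toFinset.image fun y => (x, y)

theorem twcPairs_card_le (Φ : K[X]) : (twcPairs W Φ).card ≤ 2 * Φ.natDegree := by
  classical
  rw [twcPairs]
  refine le_trans Finset.card_biUnion_le ?_
  have h1 : ∀ x ∈ Φ.roots.toFinset,
      ((twcY W x).roots.toFinset.image fun y => (x, y)).card ≤ 2 := by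
    intro x _
    refine le_trans Finset.card_image_le ?_
    refine le_trans (Multiset.toFinset_card_le _) ?_
    refine le_trans (Polynomial.card_roots' _) ?_
    rw [twcY_natDegree]
  refine le_trans (Finset.sum_le_card_nsmul _ _ 2 h1) ?_
  rw [smul_eq_mul, mul_comm]
  exact Nat.mul_le_mul_left 2 (le_trans (Multiset.toFinset_card_le _) (Polynomial.card_roots' _))

/-- the point attached to a pair (junk value `0` off the curve) -/
noncomputable def twcPt (xy : K × K) : W.Point := by
  classical
  exact if h : W.Nonsingular xy.1 xy.2 then Point.some xy.1 xy.2 h else 0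

theorem tw_torsion_subset (p : ℕ) (Φ : K[X]) (hΦ : Φ ≠ 0)
    (hroot : ∀ (x y : K) (h : W.Nonsingular x y), p • Point.some x y h = 0 → Φ.eval x = 0) :
    {Q : W.Point | p • Q = 0} ⊆ insert 0 ((twcPairs W Φ).image (twcPt W) : Set W.Point) := by
  classical
  intro Q hQ
  rcases Q with _ | ⟨x, y, h⟩
  · exact Set.mem_insert _ _
  · right
    rw [Finset.coe_image, Set.mem_image]
    refine ⟨(x, y), ?_, ?_⟩
    · rw [Finset.mem_coe, twcPairs, Finset.mem_biUnion]
      refine ⟨x, ?_, ?_⟩
      · rw [Multiset.mem_toFinset, mem_roots hΦ]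
        exact hroot x y h hQ
      · rw [Finset.mem_image]
        refine ⟨y, ?_, rfl⟩
        rw [Multiset.mem_toFinset, mem_roots (twcY_ne_zero W x)]
        exact (twcY_eval W x y).mpr h.1
    · rw [twcPt, dif_pos h]

/-- **finiteness and the bound `p²`** for the `p`-torsion, from a nonzero polynomial of degree
`≤ p² - 1` vanishing at the `x`-coordinates of all nonzero `p`-torsion points -/
theorem tw_card_le {p : ℕ} (hp : p.Prime) (Φ : K[X]) (hΦ : Φ ≠ 0) (hdeg : Φ.natDegree ≤ p ^ 2 - 1)
    (hroot : ∀ (x y : K) (h : W.Nonsingular x y), p • Point.some x y h = 0 → Φ.eval x = 0) :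
    Finite (Submodule.torsionBy ℤ W.Point (p : ℤ)) ∧
      Nat.card (Submodule.torsionBy ℤ W.Point (p : ℤ)) ≤ p ^ 2 := by
  classical
  have hsub := tw_torsion_subset W p Φ hΦ hroot
  have hfinS : (insert 0 ((twcPairs W Φ).image (twcPt W) : Set W.Point)).Finite :=
    (Finset.finite_toSet _).insert 0
  have hcarrier : ((Submodule.torsionBy ℤ W.Point (p : ℤ) : Submodule ℤ W.Point) : Set W.Point) =
      {Q : W.Point | p • Q = 0} := by
    ext Q
    simp only [SetLike.mem_coe, Submodule.mem_torsionBy_iff, Set.mem_ofPred_eq, natCast_zsmul]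
  have hfin : ((Submodule.torsionBy ℤ W.Point (p : ℤ) : Submodule ℤ W.Point) : Set W.Point).Finite := by
    rw [hcarrier]
    exact hfinS.subset hsub
  have hF : Finite (Submodule.torsionBy ℤ W.Point (p : ℤ)) := hfin.to_subtype
  refine ⟨hF, ?_⟩
  -- crude bound
  have hcrude : Nat.card (Submodule.torsionBy ℤ W.Point (p : ℤ)) ≤ 1 + 2 * Φ.natDegree := by
    have h1 : Nat.card (Submodule.torsionBy ℤ W.Point (p : ℤ)) =
        ((Submodule.torsionBy ℤ W.Point (p : ℤ) : Submodule ℤ W.Point) : Set W.Point).ncard :=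
      Nat.card_coe_set_eq _
    rw [h1, hcarrier]
    refine le_trans (Set.ncard_le_ncard hsub hfinS) ?_
    refine le_trans (Set.ncard_insert_le _ _) ?_
    rw [Set.ncard_coe_finset, add_comm]
    exact Nat.add_le_add_left (le_trans Finset.card_image_le (twcPairs_card_le W Φ)) 1
  -- the cardinality is a power of `p`
  have hfact : Fact p.Prime := ⟨hp⟩
  let inst : Module (ZMod p) (Submodule.torsionBy ℤ W.Point (p : ℤ)) :=
    AddCommGroup.zmodModule fun x => by
      rw [← Nat.cast_smul_eq_nsmul ℤ p x]
      exact Submodule.smul_torsionBy _ x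
  have hpow : Nat.card (Submodule.torsionBy ℤ W.Point (p : ℤ)) =
      p ^ @Module.finrank (ZMod p) (Submodule.torsionBy ℤ W.Point (p : ℤ)) _ _ inst :=
    (@FiniteField.pow_finrank_eq_natCard p hfact (Submodule.torsionBy ℤ W.Point (p : ℤ)) _ hF inst).symm
  have hp2 : 2 ≤ p := hp.two_le
  have hlt : p ^ @Module.finrank (ZMod p) (Submodule.torsionBy ℤ W.Point (p : ℤ)) _ _ inst <
      p ^ 3 := by
    rw [← hpow]
    have h2 : 1 + 2 * Φ.natDegree ≤ 1 + 2 * (p ^ 2 - 1) := by omega
    have h3 : 1 ≤ p ^ 2 := Nat.one_le_pow _ _ (by omega)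
    have h4 : 2 * p ^ 2 ≤ p ^ 3 := by
      have : p ^ 3 = p * p ^ 2 := by ring
      rw [this]
      exact Nat.mul_le_mul_right _ hp2
    omega
  have hd : @Module.finrank (ZMod p) (Submodule.torsionBy ℤ W.Point (p : ℤ)) _ _ inst ≤ 2 := by
    have := (Nat.pow_lt_pow_iff_right (by omega : 1 < p)).mp hlt
    omega
  rw [hpow]
  exact Nat.pow_le_pow_right (by omega) hd

/-- **existence of torsion**: over an algebraically closed field, if the roots of a nonconstant
polynomial `Φ` are `x`-coordinates of `p`-torsion points only, there is a nonzero `p`-torsion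
point (all points of the curve being nonsingular) -/
theorem tw_exists_point [IsAlgClosed K] (p : ℕ) (Φ : K[X]) (hdeg : Φ.natDegree ≠ 0)
    (hns : ∀ x y : K, W.Equation x y → W.Nonsingular x y)
    (hconv : ∀ (x y : K) (h : W.Nonsingular x y), Φ.eval x = 0 → p • Point.some x y h = 0) :
    ∃ Q : W.Point, Q ≠ 0 ∧ p • Q = 0 := by
  have hΦdeg : Φ.degree ≠ 0 :=
    (natDegree_pos_iff_degree_pos.mp (Nat.pos_of_ne_zero hdeg)).ne'
  obtain ⟨x, hx⟩ := IsAlgClosed.exists_root Φ hΦdeg
  have hYdeg : (twcY W x).degree ≠ 0 :=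
    (natDegree_pos_iff_degree_pos.mp (by rw [twcY_natDegree]; norm_num)).ne'
  obtain ⟨y, hy⟩ := IsAlgClosed.exists_root (twcY W x) hYdeg
  have hxy : W.Nonsingular x y := hns x y ((twcY_eval W x y).mp hy)
  exact ⟨Point.some x y hxy, Point.some_ne_zero hxy, hconv x y hxy hx⟩

end Fermat.Agent.TW
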