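import Mathlib
import Fermat.Agent.Lib.TW_Root
import Fermat.Agent.Lib.TW_Deg
import Fermat.Agent.Lib.TW_Card

/-!
# The `p`-torsion of an elliptic curve has exactly `p²` points (S41 / LR, stream S4 (i))

`K` algebraically closed of characteristic zero, `W` a Weierstrass curve with `Δ ≠ 0`, `p` an odd
prime: `Nat.card (W.Point[p]) = p ^ 2` (`LR.lr_card_torsion`), hence the `ZMod p`-dimension is `2`
(`LR.lr_finrank_torsion`).

Route: the TW Wronskian `twWr W D p` of `L(p·O)` has a SIMPLE zero at every affine `p`-torsion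
point (`lr_tc_simple`): its derivative is the determinant with rows `D^0, …, D^(p-2), D^p`
(`lr_tc_D_wr`), and a function of `L(p·O)` vanishing to order `p - 1` at a `p`-torsion point `P`
vanishes to order `p` (`lr_tc_no_gap`, by the norm/involution trick) but not to order `p + 1`
(`lr_tc_no_more`).  By Leibniz the norm `twPhi` of the Wronskian has all root multiplicities
`≤ 2` (`lr_tc_mult_le`); it has degree `p² - 1`, so there are at least `(p² - 1)/2` distinct
abscissae of nonzero `p`-torsion points, each carrying two points.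
-/

set_option autoImplicit false

open Polynomial WeierstrassCurve WeierstrassCurve.Affine
open scoped Polynomial.Bivariate
open Fermat.Agent.TW

namespace LR

section DetDeriv

variable {K R : Type*} [CommRing K] [CommRing R] [Algebra K R]

/-- Leibniz rule for finite products -/
theorem lr_tc_D_prod (D : Derivation K R R) {ι : Type*} [DecidableEq ι] (s : Finset ι)
    (a : ι → R) :
    D (∏ i ∈ s, a i) = ∑ k ∈ s, (∏ i ∈ s.erase k, a i) * D (a k) := by
  induction s using Finset.induction_on with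
  | empty => simp
  | insert j s hj ih =>
    rw [Finset.prod_insert hj, Derivation.leibniz, ih, Finset.sum_insert hj,
      Finset.erase_insert hj, Finset.smul_sum, smul_eq_mul, add_comm]
    congr 1
    refine Finset.sum_congr rfl fun k hk => ?_
    have hkj : k ≠ j := fun h => hj (h ▸ hk)
    rw [Finset.erase_insert_of_ne (Ne.symm hkj), Finset.prod_insert
      (fun h => hj (Finset.mem_of_mem_erase h)), smul_eq_mul]
    ring

/-- derivative of a determinant: sum over rows -/
theorem lr_tc_D_det (D : Derivation K R R) {n : ℕ} (M : Matrix (Fin n) (Fin n) R) :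
    D M.det = ∑ k : Fin n, (M.updateRow k (fun j => D (M k j))).det := by
  have hdet : ∀ N : Matrix (Fin n) (Fin n) R,
      N.det = ∑ σ : Equiv.Perm (Fin n), Equiv.Perm.sign σ • ∏ i, N i (σ i) := by
    intro N
    rw [← Matrix.det_transpose, Matrix.det_apply]
    rfl
  rw [hdet, map_sum]
  simp_rw [hdet]
  rw [Finset.sum_comm]
  refine Finset.sum_congr rfl fun σ _ => ?_
  rw [← Finset.smul_sum]
  rw [map_zsmul_unit, lr_tc_D_prod]
  congr 1
  refine Finset.sum_congr rfl fun k _ => ?_
  rw [← Finset.mul_prod_erase Finset.univ _ (Finset.mem_univ k), Matrix.updateRow_self, mul_comm]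
  congr 1
  refine Finset.prod_congr rfl fun i hi => ?_
  rw [Matrix.updateRow_ne (Finset.ne_of_mem_erase hi)]

/-- derivative of a Wronskian: only the last row is differentiated -/
theorem lr_tc_D_wr (D : Derivation K R R) {p : ℕ} (hp : 0 < p) (g : Fin p → R) :
    D (Matrix.of fun i j : Fin p => D^[(i : ℕ)] (g j)).det =
      ((Matrix.of fun i j : Fin p => D^[(i : ℕ)] (g j)).updateRow ⟨p - 1, by omega⟩
        (fun j => D^[p] (g j))).det := by
  rw [lr_tc_D_det]
  rw [Finset.sum_eq_single (⟨p - 1, by omega⟩ : Fin p)]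
  · congr 1
    congr 1
    funext j
    rw [Matrix.of_apply]
    have : p = (p - 1) + 1 := by omega
    conv_rhs => rw [this]
    rw [Function.iterate_succ_apply']
  · intro k _ hk
    have hk1 : (k : ℕ) + 1 < p := by
      have := k.2
      have h2 : (k : ℕ) ≠ p - 1 := fun h => hk (Fin.ext h)
      omega
    have hne : k ≠ ⟨(k : ℕ) + 1, hk1⟩ := by
      intro h
      have := congrArg Fin.val h
      simp at this
    apply Matrix.det_zero_of_row_eq hne
    funext j
    rw [Matrix.updateRow_self, Matrix.updateRow_ne (Ne.symm hne), Matrix.of_apply, Matrix.of_apply,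
      Function.iterate_succ_apply']
  · intro h
    exact absurd (Finset.mem_univ _) h

end DetDeriv

variable {K : Type*} [Field K] (W : WeierstrassCurve.Affine K)

/-- the norm of the conjugate is the norm -/
theorem lr_tc_norm_inv (f : W.CoordinateRing) :
    Algebra.norm K[X] (twInv W f) = Algebra.norm K[X] f := by
  have h1 := mul_twInv W f
  have h2 := mul_twInv W (twInv W f)
  rw [twInv_twInv, mul_comm] at h2
  have h3 : algebraMap K[X] W.CoordinateRing (Algebra.norm K[X] (twInv W f)) =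
      algebraMap K[X] W.CoordinateRing (Algebra.norm K[X] f) := by rw [← h1, ← h2]
  have d1 := twc_dvd_of_dvd W (dvd_of_eq h3)
  have d2 := twc_dvd_of_dvd W (dvd_of_eq h3.symm)
  -- both norms are... use injectivity
  exact (FaithfulSMul.algebraMap_injective K[X] W.CoordinateRing) h3

/-- norm of `XClass ^ n` -/
theorem lr_tc_norm_XClass_pow (x : K) (n : ℕ) :
    Algebra.norm K[X] (CoordinateRing.XClass W x ^ n) = ((X - C x) ^ n) ^ 2 := by
  rw [twc_XClass_pow, Algebra.norm_algebraMap_of_basis (CoordinateRing.basis W)]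
  simp

/-- the norm of a generator of `I_P ^ n` is `c (X - x)^n` -/
theorem lr_tc_norm_gen {x y : K} (h : W.Nonsingular x y) (n : ℕ) (f : W.CoordinateRing)
    (hf0 : f ≠ 0) (hI : CoordinateRing.XYIdeal W x (C y) ^ n = Ideal.span {f}) :
    ∃ c : K, c ≠ 0 ∧ Algebra.norm K[X] f = C c * (X - C x) ^ n := by
  have hN0 : Algebra.norm K[X] f ≠ 0 := fun h0 => hf0 (Algebra.norm_eq_zero_iff.mp h0)
  have hI' : CoordinateRing.XYIdeal W x (C (W.negY x y)) ^ n = Ideal.span {twInv W f} := by
    rw [← twInv_map_XYIdeal, ← Ideal.map_pow, hI, Ideal.map_span, Set.image_singleton]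
  have hprod := twc_prod W h n
  rw [hI', hI, Ideal.span_singleton_mul_span_singleton, mul_comm, mul_twInv, twc_XClass_pow]
    at hprod
  have d1 : (X - C x : K[X]) ^ n ∣ Algebra.norm K[X] f :=
    twc_dvd_of_dvd W (Ideal.span_singleton_le_span_singleton.mp hprod.le)
  have d2 : Algebra.norm K[X] f ∣ (X - C x : K[X]) ^ n :=
    twc_dvd_of_dvd W (Ideal.span_singleton_le_span_singleton.mp hprod.ge)
  obtain ⟨a, ha⟩ := d1
  have hX0 : (X - C x : K[X]) ^ n ≠ 0 := pow_ne_zero _ (X_sub_C_ne_zero x)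
  have ha0 : a ≠ 0 := by
    rintro rfl
    rw [mul_zero] at ha
    exact hN0 ha
  have e2 := natDegree_le_of_dvd d2 hX0
  have hdega : a.natDegree = 0 := by
    have h2 := congrArg natDegree ha
    rw [natDegree_mul hX0 ha0] at h2
    omega
  obtain ⟨c, rfl⟩ : ∃ c : K, a = C c := ⟨a.coeff 0, eq_C_of_natDegree_eq_zero hdega⟩
  have hc0 : c ≠ 0 := fun hc => ha0 (by rw [hc, C_0])
  exact ⟨c, hc0, by rw [ha, mul_comm]⟩

/-- a function with pole order `≤ p` cannot vanish to order `p + 1` at an affine point -/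
theorem lr_tc_no_more {x y : K} (h : W.Nonsingular x y) {p : ℕ} {f : W.CoordinateRing}
    (hfil : f ∈ twFil W p) (hf : f ∈ CoordinateRing.XYIdeal W x (C y) ^ (p + 1)) : f = 0 := by
  by_contra hf0
  have hN0 : Algebra.norm K[X] f ≠ 0 := fun h0 => hf0 (Algebra.norm_eq_zero_iff.mp h0)
  have h2 := Ideal.mul_mem_mul (twInv_mem_pow W hf) hf
  rw [twc_prod W h (p + 1), mul_comm (twInv W f) f, mul_twInv, twc_XClass_pow] at h2
  have d1 := twc_dvd_of_dvd W (Ideal.mem_span_singleton.mp h2)
  have e1 := natDegree_le_of_dvd d1 hN0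
  rw [natDegree_pow, natDegree_X_sub_C, mul_one] at e1
  have e2 : (Algebra.norm K[X] f).natDegree ≤ p := by
    rw [← twr_natDegree_tau]
    exact (mem_twFil_iff W).mp hfil
  omega

/-- elements of pole order `≤ 2` vanishing at a point with abscissa `x` are multiples of `X - x` -/
theorem lr_tc_fil_two {x y : K} (heq : W.Equation x y) {g : W.CoordinateRing}
    (hg2 : g ∈ twFil W 2) (hg : g ∈ CoordinateRing.XYIdeal W x (C y)) :
    ∃ b : K, g = algebraMap K W.CoordinateRing b * CoordinateRing.XClass W x := by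
  have hexp := twr_expand W (by norm_num : 0 < 2) hg2
  rw [Fin.sum_univ_two] at hexp
  simp only [Fin.val_zero, Fin.val_one, twN_zero] at hexp
  have e1 : twN 1 = 2 := rfl
  rw [e1, twMon_zero] at hexp
  have e2 : twMon W 2 = CoordinateRing.mk W (C X) := by
    rw [twMon, if_pos (dvd_refl 2)]
    simp [CoordinateRing.smul]
  rw [e2] at hexp
  set a := twLam W 0 g
  set b := twLam W 2 g
  have hev := (twfEv_eq_zero_iff W heq g).mp hg
  rw [hexp, map_add, map_smul, map_smul, map_one, twfEv_mk] at hev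
  simp only [evalEval_C, eval_X, smul_eq_mul, mul_one] at hev
  refine ⟨b, ?_⟩
  have ha : a = -(b * x) := by linear_combination hev
  rw [hexp, ha]
  have e3 : CoordinateRing.XClass W x =
      CoordinateRing.mk W (C X) - algebraMap K W.CoordinateRing x := by
    unfold CoordinateRing.XClass
    rw [C_sub, map_sub]; rfl
  rw [e3, Algebra.smul_def, Algebra.smul_def, map_neg, map_mul]
  ring

/-- **no gap at `p - 1`**: at a `p`-torsion point, a function of pole order `≤ p` vanishing to
order `p - 1` vanishes to order `p`. -/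
theorem lr_tc_no_gap [DecidableEq K] {x y : K} (h : W.Nonsingular x y) {p : ℕ} (hp : 1 ≤ p)
    (hP : p • Point.some x y h = 0) {f : W.CoordinateRing} (hfil : f ∈ twFil W p)
    (hf : f ∈ CoordinateRing.XYIdeal W x (C y) ^ (p - 1)) :
    f ∈ CoordinateRing.XYIdeal W x (C y) ^ p := by
  by_cases hf0 : f = 0
  · rw [hf0]; exact Ideal.zero_mem _
  obtain ⟨f₀, hf₀0, hI, hdeg⟩ := tw_exists_of_torsion W h p hP
  obtain ⟨c, hc0, hN⟩ := lr_tc_norm_gen W h p f₀ hf₀0 hI
  have hf₀mem : f₀ ∈ CoordinateRing.XYIdeal W x (C y) ^ p := by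
    rw [hI]; exact Ideal.subset_span rfl
  have hσ : twInv W f₀ ∈ CoordinateRing.XYIdeal W x (C (W.negY x y)) ^ p :=
    twInv_mem_pow W hf₀mem
  have hσ0 : twInv W f₀ ≠ 0 := fun h0 => hf₀0 (twInv_injective W (by rw [h0, map_zero]))
  have hp1 : p = (p - 1) + 1 := by omega
  have hmem : f * twInv W f₀ ∈ Ideal.span {CoordinateRing.XClass W x ^ (p - 1)} *
      CoordinateRing.XYIdeal W x (C (W.negY x y)) := by
    have h1 := Ideal.mul_mem_mul hσ hf
    have e : CoordinateRing.XYIdeal W x (C (W.negY x y)) ^ p *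
        CoordinateRing.XYIdeal W x (C y) ^ (p - 1) =
        Ideal.span {CoordinateRing.XClass W x ^ (p - 1)} *
          CoordinateRing.XYIdeal W x (C (W.negY x y)) := by
      conv_lhs => rw [hp1, pow_succ]
      rw [Nat.add_sub_cancel, ← twc_prod W h (p - 1)]
      ring
    rw [e, mul_comm (twInv W f₀) f] at h1
    exact h1
  obtain ⟨g, hg, hgeq⟩ := Ideal.mem_span_singleton_mul.mp hmem
  have hg0 : g ≠ 0 := by
    rintro rfl
    rw [mul_zero] at hgeq
    exact mul_ne_zero hf0 hσ0 hgeq.symm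
  -- degree of the norm of g
  have hNg : (Algebra.norm K[X] g).natDegree ≤ 2 := by
    have h1 := congrArg (Algebra.norm K[X]) hgeq
    rw [map_mul, map_mul, lr_tc_norm_XClass_pow, lr_tc_norm_inv] at h1
    have hNg0 : Algebra.norm K[X] g ≠ 0 := fun h0 => hg0 (Algebra.norm_eq_zero_iff.mp h0)
    have hNf0 : Algebra.norm K[X] f ≠ 0 := fun h0 => hf0 (Algebra.norm_eq_zero_iff.mp h0)
    have hNf₀0 : Algebra.norm K[X] f₀ ≠ 0 := fun h0 => hf₀0 (Algebra.norm_eq_zero_iff.mp h0)
    have hX0 : (((X - C x : K[X]) ^ (p - 1)) ^ 2) ≠ 0 :=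
      pow_ne_zero _ (pow_ne_zero _ (X_sub_C_ne_zero x))
    have h2 := congrArg natDegree h1
    rw [natDegree_mul hX0 hNg0, natDegree_mul hNf0 hNf₀0, natDegree_pow, natDegree_pow,
      natDegree_X_sub_C, hdeg] at h2
    have e2 : (Algebra.norm K[X] f).natDegree ≤ p := by
      rw [← twr_natDegree_tau]
      exact (mem_twFil_iff W).mp hfil
    omega
  have hg2 : g ∈ twFil W 2 := by
    rw [mem_twFil_iff, twr_natDegree_tau]
    exact hNg
  have heq' : W.Equation x (W.negY x y) := ((nonsingular_neg ..).mpr h).1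
  obtain ⟨b, hb⟩ := lr_tc_fil_two W heq' hg2 hg
  -- f * σ f₀ = b * XClass^p ; f₀ * σ f₀ = c * XClass^p
  have e1 : f * twInv W f₀ = algebraMap K W.CoordinateRing b * CoordinateRing.XClass W x ^ p := by
    rw [← hgeq, hb]
    conv_rhs => rw [hp1, pow_succ]
    ring
  have e2 : f₀ * twInv W f₀ = algebraMap K W.CoordinateRing c * CoordinateRing.XClass W x ^ p := by
    rw [mul_twInv, hN, map_mul, twc_XClass_pow]
    rfl
  have e3 : (algebraMap K W.CoordinateRing c * f - algebraMap K W.CoordinateRing b * f₀) *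
      twInv W f₀ = 0 := by
    linear_combination (algebraMap K W.CoordinateRing c) * e1 -
      (algebraMap K W.CoordinateRing b) * e2
  have e4 : algebraMap K W.CoordinateRing c * f = algebraMap K W.CoordinateRing b * f₀ := by
    rcases mul_eq_zero.mp e3 with h4 | h4
    · exact sub_eq_zero.mp h4
    · exact absurd h4 hσ0
  have e5 : f = algebraMap K W.CoordinateRing (c⁻¹ * b) * f₀ := by
    have h5 : algebraMap K W.CoordinateRing c⁻¹ * algebraMap K W.CoordinateRing c = 1 := by
      rw [← map_mul, inv_mul_cancel₀ hc0, map_one]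
    calc f = (algebraMap K W.CoordinateRing c⁻¹ * algebraMap K W.CoordinateRing c) * f := by
          rw [h5, one_mul]
      _ = algebraMap K W.CoordinateRing c⁻¹ * (algebraMap K W.CoordinateRing c * f) := by ring
      _ = algebraMap K W.CoordinateRing (c⁻¹ * b) * f₀ := by rw [e4, map_mul]; ring
  rw [e5]
  exact Ideal.mul_mem_left _ _ hf₀mem

variable (D : Derivation K W.CoordinateRing W.CoordinateRing)

/-- **simple zero**: the derivative of the Wronskian does not vanish at an affine `p`-torsion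
point. -/
theorem lr_tc_simple [CharZero K] [DecidableEq K]
    (hDx : D (CoordinateRing.mk W (C X)) = CoordinateRing.mk W W.polynomialY)
    (hDy : D (CoordinateRing.mk W Y) = -CoordinateRing.mk W W.polynomialX)
    {x y : K} (h : W.Nonsingular x y) {p : ℕ} (hp : 1 ≤ p) (hP : p • Point.some x y h = 0) :
    twfEv W h.1 (D (twWr W D p)) ≠ 0 := by
  intro h0
  rw [twWr_def, lr_tc_D_wr D hp, twr_ev_det] at h0
  obtain ⟨c, hc0, hc⟩ := Matrix.exists_mulVec_eq_zero_iff.mpr h0
  set f : W.CoordinateRing := ∑ j : Fin p, c j • twMon W (twN (j : ℕ)) with hfdef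
  have hf0 : f ≠ 0 := by
    intro h0
    apply hc0
    funext j
    have := twr_lam_comb W c j
    rw [← hfdef, h0, map_zero] at this
    exact this.symm
  have hfil : f ∈ twFil W p := twr_comb_mem W c
  have hrow : ∀ i : ℕ, i < p - 1 → twfEv W h.1 ((D^[i]) f) = 0 := by
    intro i hi
    have hip : i < p := by omega
    have h1 := congrFun hc ⟨i, hip⟩
    simp only [Matrix.mulVec, dotProduct, Matrix.map_apply, Pi.zero_apply] at h1
    rw [hfdef, twr_iter_sum, map_sum]
    refine (Finset.sum_congr rfl fun j _ => ?_).trans h1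
    have hne : (⟨i, hip⟩ : Fin p) ≠ ⟨p - 1, by omega⟩ := by
      intro h2
      have := congrArg Fin.val h2
      simp at this
      omega
    rw [Matrix.updateRow_ne hne, Matrix.of_apply, map_smul, smul_eq_mul, mul_comm]
  have hlast : twfEv W h.1 ((D^[p]) f) = 0 := by
    have h1 := congrFun hc ⟨p - 1, by omega⟩
    simp only [Matrix.mulVec, dotProduct, Matrix.map_apply, Pi.zero_apply] at h1
    rw [hfdef, twr_iter_sum, map_sum]
    refine (Finset.sum_congr rfl fun j _ => ?_).trans h1
    rw [Matrix.updateRow_self, map_smul, smul_eq_mul, mul_comm]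
  have hm1 : f ∈ CoordinateRing.XYIdeal W x (C y) ^ (p - 1) := by
    apply tw_filt_pow_of_mem W D hDx hDy h (p - 1)
    intro i hi
    rw [twfEv_eq_zero_iff W h.1]
    exact hrow i hi
  have hm2 : f ∈ CoordinateRing.XYIdeal W x (C y) ^ p := lr_tc_no_gap W h hp hP hfil hm1
  have hm3 : f ∈ CoordinateRing.XYIdeal W x (C y) ^ (p + 1) := by
    apply tw_filt_pow_of_mem W D hDx hDy h (p + 1)
    intro i hi
    rcases Nat.lt_or_ge i (p - 1) with h1 | h1
    · rw [twfEv_eq_zero_iff W h.1]
      exact hrow i h1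
    · rcases Nat.lt_or_ge i p with h2 | h2
      · exact tw_filt_mem_of_pow W D h2 hm2
      · have : i = p := by omega
        subst this
        rw [twfEv_eq_zero_iff W h.1]
        exact hlast
  exact hf0 (lr_tc_no_more W h hfil hm3)

/-- the Wronskian vanishes at an affine `p`-torsion point -/
theorem lr_tc_wr_mem [DecidableEq K] {p : ℕ} (hp : 0 < p) {x y : K} (h : W.Nonsingular x y)
    (hP : p • Point.some x y h = 0) :
    twWr W D p ∈ CoordinateRing.XYIdeal W x (C y) := by
  obtain ⟨f, hf0, hI, hdeg⟩ := tw_exists_of_torsion W h p hP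
  have hf : f ∈ CoordinateRing.XYIdeal W x (C y) ^ p := by
    rw [hI]; exact Ideal.subset_span rfl
  have hfil : f ∈ twFil W p := by
    rw [mem_twFil_iff, twr_natDegree_tau, hdeg]
  exact twr_det_mem W D h.1 hp hf0 hfil hf

/-- second derivative of a product at a common zero -/
theorem lr_tc_D2_mul {f g : W.CoordinateRing} (ev : W.CoordinateRing →ₐ[K] K) (hf : ev f = 0)
    (hg : ev g = 0) : ev (D (D (f * g))) = 2 * ev (D f) * ev (D g) := by
  rw [Derivation.leibniz, smul_eq_mul, smul_eq_mul, map_add, Derivation.leibniz,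
    Derivation.leibniz]
  simp only [smul_eq_mul, map_add, map_mul, hf, hg]
  ring

/-- **root multiplicities of the torsion polynomial are at most 2** -/
theorem lr_tc_mult_le [CharZero K] [DecidableEq K] [IsAlgClosed K] (hΔ : W.Δ ≠ 0)
    (hDx : D (CoordinateRing.mk W (C X)) = CoordinateRing.mk W W.polynomialY)
    (hDy : D (CoordinateRing.mk W Y) = -CoordinateRing.mk W W.polynomialX)
    {p : ℕ} (hp : p.Prime) (h3 : 3 ≤ p) (x₀ : K) :
    (twPhi W D p).rootMultiplicity x₀ ≤ 2 := by
  by_contra hcon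
  have hΦ0 : twPhi W D p ≠ 0 := twPhi_ne_zero W D hDx hDy hp h3
  have h3le : 3 ≤ (twPhi W D p).rootMultiplicity x₀ := by omega
  obtain ⟨q, hq⟩ := (le_rootMultiplicity_iff hΦ0).mp h3le
  have hx : (twPhi W D p).eval x₀ = 0 := by
    rw [hq]; simp
  -- a point above x₀
  have hYdeg : (twcY W x₀).degree ≠ 0 :=
    (natDegree_pos_iff_degree_pos.mp (by rw [twcY_natDegree]; norm_num)).ne'
  obtain ⟨y₀, hy⟩ := IsAlgClosed.exists_root (twcY W x₀) hYdeg
  have heq : W.Equation x₀ y₀ := (twcY_eval W x₀ y₀).mp hy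
  have h : W.Nonsingular x₀ y₀ := (W.equation_iff_nonsingular_of_Δ_ne_zero hΔ).mp heq
  have h' : W.Nonsingular x₀ (W.negY x₀ y₀) := (nonsingular_neg ..).mpr h
  have hP : p • Point.some x₀ y₀ h = 0 := twPhi_conv' W D hDx hDy h hx
  have hP' : p • Point.some x₀ (W.negY x₀ y₀) h' = 0 := twPhi_conv' W D hDx hDy h' hx
  have hp1 : 1 ≤ p := by omega
  set Wr := twWr W D p with hWr
  set ev := twfEv W h.1 with hev
  have e1 : ev Wr = 0 := (twfEv_eq_zero_iff W h.1 _).mp (lr_tc_wr_mem W D hp1 h hP)
  have e2 : ev (twInv W Wr) = 0 :=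
    (twr_neg_mem_iff W h.1 _).mp (lr_tc_wr_mem W D hp1 h' hP')
  have e3 : ev (D Wr) ≠ 0 := lr_tc_simple W D hDx hDy h hp1 hP
  have e4 : ev (D (twInv W Wr)) ≠ 0 := by
    intro h0
    have hm : twInv W Wr ∈ CoordinateRing.XYIdeal W x₀ (C y₀) ^ 2 := by
      apply tw_filt_pow_of_mem W D hDx hDy h 2
      intro i hi
      interval_cases i
      · exact (twfEv_eq_zero_iff W h.1 _).mpr e2
      · exact (twfEv_eq_zero_iff W h.1 _).mpr h0
    have hm2 := twInv_mem_pow W hm
    rw [twInv_twInv] at hm2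
    have hm3 : (D^[1]) Wr ∈ CoordinateRing.XYIdeal W x₀ (C (W.negY x₀ y₀)) :=
      tw_filt_mem_of_pow W D (by norm_num : 1 < 2) hm2
    exact lr_tc_simple W D hDx hDy h' hp1 hP' ((twfEv_eq_zero_iff W h'.1 _).mp hm3)
  -- the product lies in the cube of the maximal ideal
  have hprod : Wr * twInv W Wr ∈ CoordinateRing.XYIdeal W x₀ (C y₀) ^ 3 := by
    rw [mul_twInv]
    have : Algebra.norm K[X] Wr = twPhi W D p := rfl
    rw [this, hq, map_mul, ← twc_XClass_pow]
    exact Ideal.mul_mem_right _ _ (Ideal.pow_mem_pow (twf_XClass_mem W x₀ y₀) 3)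
  have hd2 : (D^[2]) (Wr * twInv W Wr) ∈ CoordinateRing.XYIdeal W x₀ (C y₀) :=
    tw_filt_mem_of_pow W D (by norm_num : 2 < 3) hprod
  have hd2' := (twfEv_eq_zero_iff W h.1 _).mp hd2
  have e5 : ev (D (D (Wr * twInv W Wr))) = 0 := hd2'
  rw [lr_tc_D2_mul W D ev e1 e2] at e5
  have h2 : (2 : K) ≠ 0 := two_ne_zero
  exact mul_ne_zero (mul_ne_zero h2 e3) e4 e5

/-- the abscissa of a point -/
def lr_tc_xc : W.Point → Option K
  | .zero => none
  | .some x _ _ => some x

theorem lr_tc_xc_neg [DecidableEq K] (P : W.Point) : lr_tc_xc W (-P) = lr_tc_xc W P := by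
  rcases P with _ | ⟨x, y, h⟩
  · rfl
  · rw [Point.neg_some]; rfl

/-- a point of odd order is not its own negative -/
theorem lr_tc_ne_neg [DecidableEq K] {p : ℕ} (hodd : Odd p) {P : W.Point} (hP0 : P ≠ 0)
    (hP : p • P = 0) : P ≠ -P := by
  intro h
  obtain ⟨k, rfl⟩ := hodd
  have h2 : 2 • P = 0 := by
    rw [two_nsmul]
    nth_rewrite 2 [h]
    exact add_neg_cancel P
  rw [add_smul, mul_comm, mul_smul, h2, smul_zero, zero_add, one_smul] at hP
  exact hP0 hP

/-- **the number of `p`-torsion points is `p²`** (algebraically closed field of characteristic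
zero, `p` an odd prime, nonzero discriminant). -/
theorem lr_card_torsion [IsAlgClosed K] [CharZero K] [DecidableEq K]
    (hΔ : W.Δ ≠ 0) {p : ℕ} (hp : p.Prime) (hp2 : p ≠ 2) :
    Nat.card (Submodule.torsionBy ℤ W.Point (p : ℤ)) = p ^ 2 := by
  classical
  obtain ⟨D, hDx, hDy⟩ := tw_exists_der W
  have h3 : 3 ≤ p := by
    have := hp.two_le
    omega
  have hodd : Odd p := hp.odd_of_ne_two hp2
  set Φ := twPhi W D p with hΦ
  have hΦ0 : Φ ≠ 0 := twPhi_ne_zero W D hDx hDy hp h3
  have hdeg : Φ.natDegree = p ^ 2 - 1 := twPhi_natDegree W D hDx hDy hp h3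
  obtain ⟨hfin, hle⟩ := tw_card_le W hp Φ hΦ0 hdeg.le
    (fun x y h hP => twPhi_root' W D hp.pos h hP)
  refine le_antisymm hle ?_
  -- many distinct roots
  set S := Φ.roots.toFinset with hS
  have hcard : p ^ 2 - 1 ≤ 2 * S.card := by
    have h1 : Φ.roots.card = p ^ 2 - 1 := by
      rw [IsAlgClosed.card_roots_eq_natDegree, hdeg]
    rw [← h1, ← Multiset.toFinset_sum_count_eq, mul_comm, ← smul_eq_mul]
    refine Finset.sum_le_card_nsmul _ _ 2 fun x _ => ?_
    rw [count_roots]
    exact lr_tc_mult_le W D hΔ hDx hDy hp h3 x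
  -- points above the roots
  have hex : ∀ x : K, ∃ y : K, W.Equation x y := by
    intro x
    have hYdeg : (twcY W x).degree ≠ 0 :=
      (natDegree_pos_iff_degree_pos.mp (by rw [twcY_natDegree]; norm_num)).ne'
    obtain ⟨y, hy⟩ := IsAlgClosed.exists_root (twcY W x) hYdeg
    exact ⟨y, (twcY_eval W x y).mp hy⟩
  choose yf hyf using hex
  have hns : ∀ x : K, W.Nonsingular x (yf x) := fun x =>
    (W.equation_iff_nonsingular_of_Δ_ne_zero hΔ).mp (hyf x)
  let Q : K → W.Point := fun x => Point.some x (yf x) (hns x)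
  have hQ0 : ∀ x, Q x ≠ 0 := fun x => Point.some_ne_zero (hns x)
  have hQxc : ∀ x, lr_tc_xc W (Q x) = some x := fun x => rfl
  have hQtor : ∀ x ∈ S, p • Q x = 0 := by
    intro x hx
    rw [hS, Multiset.mem_toFinset, mem_roots hΦ0] at hx
    exact twPhi_conv' W D hDx hDy (hns x) hx
  have hmem : ∀ P : W.Point, p • P = 0 → P ∈ Submodule.torsionBy ℤ W.Point (p : ℤ) := by
    intro P hP
    rw [Submodule.mem_torsionBy_iff, natCast_zsmul]
    exact hP
  let g : Option (↥S × Bool) → Submodule.torsionBy ℤ W.Point (p : ℤ) := fun o =>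
    match o with
    | none => 0
    | some (x, true) => ⟨Q x, hmem _ (hQtor x x.2)⟩
    | some (x, false) => ⟨-Q x, hmem _ (by rw [smul_neg, hQtor x x.2, neg_zero])⟩
  have hgxc : ∀ (x : ↥S) (b : Bool), lr_tc_xc W (g (some (x, b)) : W.Point) = some (x : K) := by
    intro x b
    cases b
    · show lr_tc_xc W (-Q x) = _
      rw [lr_tc_xc_neg, hQxc]
    · exact hQxc x
  have hgnone : lr_tc_xc W (g none : W.Point) = none := rfl
  have hginj : Function.Injective g := by
    intro a b hab
    rcases a with _ | ⟨x, s⟩ <;> rcases b with _ | ⟨x', s'⟩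
    · rfl
    · exfalso
      have h1 := congrArg (fun P : Submodule.torsionBy ℤ W.Point (p : ℤ) =>
        lr_tc_xc W (P : W.Point)) hab
      simp only [hgxc, hgnone] at h1
      exact absurd h1 (by simp)
    · exfalso
      have h1 := congrArg (fun P : Submodule.torsionBy ℤ W.Point (p : ℤ) =>
        lr_tc_xc W (P : W.Point)) hab
      simp only [hgxc, hgnone] at h1
      exact absurd h1 (by simp)
    · have h1 := congrArg (fun P : Submodule.torsionBy ℤ W.Point (p : ℤ) =>
        lr_tc_xc W (P : W.Point)) hab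
      simp only [hgxc, Option.some.injEq] at h1
      have hxx : x = x' := Subtype.ext h1
      subst hxx
      have hne := lr_tc_ne_neg W hodd (hQ0 x) (hQtor x x.2)
      have h2 := congrArg (fun P : Submodule.torsionBy ℤ W.Point (p : ℤ) => (P : W.Point)) hab
      cases s <;> cases s'
      · rfl
      · exfalso
        exact hne h2.symm
      · exfalso
        exact hne h2
      · rfl
  have hcount := Nat.card_le_card_of_injective g hginj
  have e1 : Nat.card (Option (↥S × Bool)) = 2 * S.card + 1 := by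
    rw [Nat.card_eq_fintype_card, Fintype.card_option, Fintype.card_prod, Fintype.card_bool,
      Fintype.card_coe, mul_comm]
  rw [e1] at hcount
  have hp1 : 1 ≤ p ^ 2 := Nat.one_le_pow _ _ hp.pos
  omega

/-- the `ZMod p`-dimension of the `p`-torsion is `2` (for any `ZMod p`-module structure on it) -/
theorem lr_finrank_torsion [IsAlgClosed K] [CharZero K] [DecidableEq K]
    (hΔ : W.Δ ≠ 0) {p : ℕ} [hpf : Fact p.Prime] (hp2 : p ≠ 2)
    [Module (ZMod p) (Submodule.torsionBy ℤ W.Point (p : ℤ))] :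
    Module.finrank (ZMod p) (Submodule.torsionBy ℤ W.Point (p : ℤ)) = 2 := by
  have hcard := lr_card_torsion W hΔ hpf.out hp2
  have hfin : Finite (Submodule.torsionBy ℤ W.Point (p : ℤ)) := by
    apply Nat.finite_of_card_ne_zero
    rw [hcard]
    exact pow_ne_zero 2 hpf.out.ne_zero
  have hpow := FiniteField.pow_finrank_eq_natCard p (Submodule.torsionBy ℤ W.Point (p : ℤ))
  rw [hcard] at hpow
  exact Nat.pow_right_injective hpf.out.two_le hpow

/-- the base change to `ℚ̄` of a curve over `ℚ` with nonzero discriminant: `p²` points of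
`p`-torsion -/
theorem lr_card_torsion_rat [DecidableEq (AlgebraicClosure ℚ)] (E : WeierstrassCurve ℚ)
    (hΔ : E.Δ ≠ 0) {p : ℕ} (hp : p.Prime) (hp2 : p ≠ 2) :
    Nat.card (Submodule.torsionBy ℤ (E⁄(AlgebraicClosure ℚ)).Point (p : ℤ)) = p ^ 2 := by
  have hΔ' : (E⁄(AlgebraicClosure ℚ)).Δ ≠ 0 := by
    show (E.map (algebraMap ℚ (AlgebraicClosure ℚ))).Δ ≠ 0
    rw [WeierstrassCurve.map_Δ]
    exact (_root_.map_ne_zero _).mpr hΔ
  exact lr_card_torsion (E⁄(AlgebraicClosure ℚ)) hΔ' hp hp2

/-- `ZMod p`-dimension `2` for the base change to `ℚ̄` of a curve over `ℚ` -/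
theorem lr_finrank_torsion_rat [DecidableEq (AlgebraicClosure ℚ)] (E : WeierstrassCurve ℚ)
    (hΔ : E.Δ ≠ 0) {p : ℕ} [hpf : Fact p.Prime] (hp2 : p ≠ 2)
    [Module (ZMod p) (Submodule.torsionBy ℤ (E⁄(AlgebraicClosure ℚ)).Point (p : ℤ))] :
    Module.finrank (ZMod p) (Submodule.torsionBy ℤ (E⁄(AlgebraicClosure ℚ)).Point (p : ℤ)) = 2 := by
  have hΔ' : (E⁄(AlgebraicClosure ℚ)).Δ ≠ 0 := by
    show (E.map (algebraMap ℚ (AlgebraicClosure ℚ))).Δ ≠ 0
    rw [WeierstrassCurve.map_Δ]
    exact (_root_.map_ne_zero _).mpr hΔ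
  exact lr_finrank_torsion (E⁄(AlgebraicClosure ℚ)) hΔ' hp2

end LR
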