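import Mathlib
import Fermat.Prelude.Def_FLTPrelim_ModularRep
import Fermat.Agent.Lib.LR_TorsCard
import Fermat.Agent.Lib.LR_PhiZ

/-!
# The `p`-torsion field (S41 / LR, stream S4 leaf (h1a))

`LR.lr_tors_field`: for an integral Weierstrass model `W` with `Δ ≠ 0` and an odd prime `p` there
is a finite normal subextension `Ω ⊆ ℚ̄` containing the coordinates of all `p`-torsion points of
`W` over `ℚ̄`, over which the integral Wronskian division polynomial `lrPhiZ W p` splits, and which
contains an ordinate over each of its roots.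
-/

set_option autoImplicit false

open Polynomial WeierstrassCurve WeierstrassCurve.Affine
open Fermat.Agent.TW

namespace LR

/-- base change of an integral model, computed in one step -/
theorem lr_tf_map_map (W : WeierstrassCurve ℤ) {L K : Type*} [Field L] [Field K] (f : L →+* K) :
    (W.map (Int.castRingHom L)).map f = W.map (Int.castRingHom K) := by
  rw [WeierstrassCurve.map_map]
  congr 1
  exact RingHom.ext_int _ _

/-- the integral polynomial over a field, via a subfield -/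
theorem lr_tf_poly_map (Φ : ℤ[X]) {L K : Type*} [Field L] [Field K] (f : L →+* K) :
    (Φ.map (Int.castRingHom L)).map f = Φ.map (Int.castRingHom K) := by
  rw [Polynomial.map_map]
  congr 1
  exact RingHom.ext_int _ _

/-- over an algebraically closed field of characteristic zero, a root of `twPhi` is the abscissa
of a `p`-torsion point -/
theorem lr_tf_root_torsion {K : Type*} [Field K] [IsAlgClosed K] [CharZero K] [DecidableEq K]
    (E : Affine K) (hΔ : E.Δ ≠ 0) {p : ℕ} {a : K} (ha : (twPhi E (twD E) p).eval a = 0) :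
    ∃ (y : K) (h : E.Nonsingular a y), (p : ℤ) • Point.some a y h = 0 := by
  have hYdeg : (twcY E a).degree ≠ 0 :=
    (natDegree_pos_iff_degree_pos.mp (by rw [twcY_natDegree]; norm_num)).ne'
  obtain ⟨y, hy⟩ := IsAlgClosed.exists_root (twcY E a) hYdeg
  have hxy : E.Nonsingular a y :=
    (E.equation_iff_nonsingular_of_Δ_ne_zero hΔ).mp ((twcY_eval E a y).mp hy)
  refine ⟨y, hxy, ?_⟩
  rw [natCast_zsmul]
  exact twPhi_conv' E (twD E) (twD_x_poly E) (twD_y_poly E) hxy ha

/-- **the `p`-torsion field** of an integral Weierstrass model -/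
theorem lr_tors_field (W : WeierstrassCurve ℤ) (hΔ : W.Δ ≠ 0) {p : ℕ} (hp : p.Prime)
    (hp2 : p ≠ 2) :
    ∃ Ω : IntermediateField ℚ (AlgebraicClosure ℚ), FiniteDimensional ℚ ↥Ω ∧ Normal ℚ ↥Ω ∧
      (∀ (x y : AlgebraicClosure ℚ)
        (h : ((W.map (Int.castRingHom ℚ))⁄(AlgebraicClosure ℚ)).Nonsingular x y),
        (p : ℤ) • Point.some x y h = 0 → x ∈ Ω ∧ y ∈ Ω) ∧
      ((lrPhiZ W p).map (Int.castRingHom ↥Ω)).Splits ∧
      (∀ x : ↥Ω, ((lrPhiZ W p).map (Int.castRingHom ↥Ω)).eval x = 0 →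
        ∃ y : ↥Ω, (W.map (Int.castRingHom ↥Ω)).toAffine.Equation x y) := by
  have halg : Algebra.IsAlgebraic ℚ (AlgebraicClosure ℚ) := AlgebraicClosure.isAlgebraic ℚ
  have hnormal : Normal ℚ (AlgebraicClosure ℚ) :=
    normal_iff.mpr fun x => ⟨IsAlgebraic.isIntegral (halg.isAlgebraic x), IsAlgClosed.splits _⟩
  set E : WeierstrassCurve ℚ := W.map (Int.castRingHom ℚ) with hE
  have hΔE : E.Δ ≠ 0 := by
    rw [hE, WeierstrassCurve.map_Δ]
    exact (_root_.map_ne_zero_iff _ (RingHom.injective_int _)).mpr hΔ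
  have hΔQ : (W.map (Int.castRingHom (AlgebraicClosure ℚ))).Δ ≠ 0 := by
    rw [WeierstrassCurve.map_Δ]
    exact (_root_.map_ne_zero_iff _ (RingHom.injective_int _)).mpr hΔ
  have hcurve : (E⁄(AlgebraicClosure ℚ)) = W.map (Int.castRingHom (AlgebraicClosure ℚ)) :=
    lr_tf_map_map W (algebraMap ℚ (AlgebraicClosure ℚ))
  have hcard := lr_card_torsion_rat E hΔE hp hp2
  have hfin : Finite (Submodule.torsionBy ℤ (E⁄(AlgebraicClosure ℚ)).Point (p : ℤ)) :=
    Nat.finite_of_card_ne_zero (by rw [hcard]; exact pow_ne_zero 2 hp.ne_zero)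
  let fx : (E⁄(AlgebraicClosure ℚ)).Point → AlgebraicClosure ℚ := fun P =>
    match P with
    | .zero => 0
    | .some x _ _ => x
  let fy : (E⁄(AlgebraicClosure ℚ)).Point → AlgebraicClosure ℚ := fun P =>
    match P with
    | .zero => 0
    | .some _ y _ => y
  let S : Set (E⁄(AlgebraicClosure ℚ)).Point := {P | (p : ℤ) • P = 0}
  have hS : S.Finite := by
    have h1 : S = (Submodule.torsionBy ℤ (E⁄(AlgebraicClosure ℚ)).Point (p : ℤ) :
        Set (E⁄(AlgebraicClosure ℚ)).Point) := by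
      ext P
      simp [S]
    rw [h1]
    exact Set.finite_coe_iff.mp hfin
  let T : Set (AlgebraicClosure ℚ) := fx '' S ∪ fy '' S
  have hT : T.Finite := (hS.image fx).union (hS.image fy)
  have hTf : Finite T := hT
  let Ω₀ : IntermediateField ℚ (AlgebraicClosure ℚ) := IntermediateField.adjoin ℚ T
  have hfd : FiniteDimensional ℚ Ω₀ :=
    IntermediateField.finiteDimensional_adjoin
      (fun x _ => IsAlgebraic.isIntegral (Algebra.IsAlgebraic.isAlgebraic x))
  let Ω : IntermediateField ℚ (AlgebraicClosure ℚ) :=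
    IntermediateField.normalClosure ℚ Ω₀ (AlgebraicClosure ℚ)
  have hle : Ω₀ ≤ Ω := IntermediateField.le_normalClosure Ω₀
  have hΩfd : FiniteDimensional ℚ ↥Ω := by
    show FiniteDimensional ℚ ↥(IntermediateField.normalClosure ℚ ↥Ω₀ (AlgebraicClosure ℚ))
    infer_instance
  have hΩn : Normal ℚ ↥Ω := by
    show Normal ℚ ↥(IntermediateField.normalClosure ℚ ↥Ω₀ (AlgebraicClosure ℚ))
    exact normalClosure.normal ℚ ↥Ω₀ (AlgebraicClosure ℚ)
  have hTΩ : ∀ a ∈ T, a ∈ Ω := fun a ha => hle (IntermediateField.subset_adjoin ℚ T ha)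
  have h3 : ∀ (x y : AlgebraicClosure ℚ) (h : (E⁄(AlgebraicClosure ℚ)).Nonsingular x y),
      (p : ℤ) • Point.some x y h = 0 → x ∈ Ω ∧ y ∈ Ω := by
    intro x y h hP
    exact ⟨hTΩ x (Or.inl ⟨Point.some x y h, hP, rfl⟩),
      hTΩ y (Or.inr ⟨Point.some x y h, hP, rfl⟩)⟩
  have hroot : ∀ a : AlgebraicClosure ℚ,
      ((lrPhiZ W p).map (Int.castRingHom (AlgebraicClosure ℚ))).eval a = 0 →
      ∃ (y : AlgebraicClosure ℚ) (h : (E⁄(AlgebraicClosure ℚ)).Nonsingular a y),
        (p : ℤ) • Point.some a y h = 0 := by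
    intro a ha
    rw [lrPhiZ_map] at ha
    have key : ∀ (E' : WeierstrassCurve (AlgebraicClosure ℚ)),
        E' = W.map (Int.castRingHom (AlgebraicClosure ℚ)) →
        ∃ (y : AlgebraicClosure ℚ) (h : E'.toAffine.Nonsingular a y),
          (p : ℤ) • Point.some a y h = 0 := by
      intro E' hE'
      subst hE'
      exact lr_tf_root_torsion _ hΔQ ha
    exact key _ hcurve
  have hmap : ((lrPhiZ W p).map (Int.castRingHom ↥Ω)).map (algebraMap ↥Ω (AlgebraicClosure ℚ)) =
      (lrPhiZ W p).map (Int.castRingHom (AlgebraicClosure ℚ)) := lr_tf_poly_map _ _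
  refine ⟨Ω, hΩfd, hΩn, h3, ?_, ?_⟩
  · apply Polynomial.Splits.of_splits_map (algebraMap ↥Ω (AlgebraicClosure ℚ))
    · rw [hmap]
      exact IsAlgClosed.splits _
    · intro a ha
      rw [hmap] at ha
      have ha0 : ((lrPhiZ W p).map (Int.castRingHom (AlgebraicClosure ℚ))).eval a = 0 :=
        (Polynomial.mem_roots'.mp ha).2
      obtain ⟨y, h, hP⟩ := hroot a ha0
      exact ⟨⟨a, (h3 a y h hP).1⟩, rfl⟩
  · intro x hx
    have ha0 : ((lrPhiZ W p).map (Int.castRingHom (AlgebraicClosure ℚ))).eval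
        (x : AlgebraicClosure ℚ) = 0 := by
      rw [← hmap]
      have h1 := Polynomial.eval_map_apply (algebraMap ↥Ω (AlgebraicClosure ℚ)) x
        (p := (lrPhiZ W p).map (Int.castRingHom ↥Ω))
      rw [hx, map_zero] at h1
      exact h1
    obtain ⟨y, h, hP⟩ := hroot (x : AlgebraicClosure ℚ) ha0
    refine ⟨⟨y, (h3 _ y h hP).2⟩, ?_⟩
    have heq : (E⁄(AlgebraicClosure ℚ)).Equation (x : AlgebraicClosure ℚ) y := h.1
    rw [hcurve] at heq
    have h2 : (W.map (Int.castRingHom (AlgebraicClosure ℚ))).toAffine.Equation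
        (x : AlgebraicClosure ℚ) y ↔
        (W.map (Int.castRingHom ↥Ω)).toAffine.Equation x ⟨y, (h3 _ y h hP).2⟩ := by
      rw [← lr_tf_map_map W (algebraMap ↥Ω (AlgebraicClosure ℚ))]
      exact WeierstrassCurve.Affine.map_equation (W := W.map (Int.castRingHom ↥Ω))
        (f := algebraMap ↥Ω (AlgebraicClosure ℚ)) (algebraMap ↥Ω (AlgebraicClosure ℚ)).injective x
        ⟨y, (h3 _ y h hP).2⟩
    exact h2.mp heq

end LR
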