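import Mathlib
import Fermat.Prelude.Def_FLTPrelim_ModularRep

/-!
# Change of variables on the points of a Weierstrass curve (S41 / LR, stream S4 (c))

* `LR.LrVC W W' u r s t`: `W'` is the curve obtained from `W` by `x = u²x' + r`,
  `y = u³y' + u²sx' + t` (coefficient relations as polynomial identities);
* `LR.lr_vc_equiv h : W'.Point ≃+ W.Point`, `(x', y') ↦ (u²x' + r, u³y' + u²sx' + t)`
  (additivity checked on the explicit group law: `slope ↦ u·slope + s`);
* `LR.lr_vc_of_smul`: `C • W` is such a change of variables; `LR.lr_vc_map`: base change;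
* `LR.lr_vcQ_equiv`, `LR.lr_vcQ_smul`: for curves over `ℚ` with `C • E = E'` and a field `K/ℚ`,
  the additive equivalence `(E'⁄K).Point ≃+ (E⁄K).Point` commutes with `K ≃ₐ[ℚ] K`;
* `LR.lr_irr_transfer`, `LR.lr_modRepIrr_of_integralModel`: irreducibility of the mod-`p`
  representation passes from `E` to an integral model `W` (Prelude's `ModRepIsIrreducible`).
-/

set_option autoImplicit false

open WeierstrassCurve WeierstrassCurve.Affine

namespace LR

variable {F : Type*} [Field F]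

/-- `W'` is obtained from `W` by the change of variables `x = u²x' + r`, `y = u³y' + u²sx' + t` -/
structure LrVC (W W' : WeierstrassCurve F) (u r s t : F) : Prop where
  hu : u ≠ 0
  h1 : u * W'.a₁ = W.a₁ + 2 * s
  h2 : u ^ 2 * W'.a₂ = W.a₂ - s * W.a₁ + 3 * r - s ^ 2
  h3 : u ^ 3 * W'.a₃ = W.a₃ + r * W.a₁ + 2 * t
  h4 : u ^ 4 * W'.a₄ = W.a₄ - s * W.a₃ + 2 * r * W.a₂ - (t + r * s) * W.a₁ + 3 * r ^ 2 -
    2 * s * t
  h6 : u ^ 6 * W'.a₆ = W.a₆ + r * W.a₄ + r ^ 2 * W.a₂ + r ^ 3 - t * W.a₃ - t ^ 2 -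
    r * t * W.a₁

/-- the change of variables attached to `C • W` -/
theorem lr_vc_of_smul (W : WeierstrassCurve F) (C : VariableChange F) :
    LrVC W (C • W) (C.u : F) C.r C.s C.t := by
  have hu : (C.u : F) ≠ 0 := C.u.ne_zero
  have hinv : ((C.u⁻¹ : Fˣ) : F) = (C.u : F)⁻¹ := Units.val_inv_eq_inv_val C.u
  refine ⟨hu, ?_, ?_, ?_, ?_, ?_⟩
  · rw [variableChange_a₁, hinv]; field_simp
  · rw [variableChange_a₂, hinv]; field_simp
  · rw [variableChange_a₃, hinv]; field_simp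
  · rw [variableChange_a₄, hinv]; field_simp
  · rw [variableChange_a₆, hinv]; field_simp

variable {W W' : WeierstrassCurve F} {u r s t : F}

theorem lr_vc_equation (h : LrVC W W' u r s t) (x y : F) :
    W.toAffine.Equation (u ^ 2 * x + r) (u ^ 3 * y + u ^ 2 * s * x + t) ↔
      W'.toAffine.Equation x y := by
  rw [equation_iff, equation_iff]
  have hu6 : u ^ 6 ≠ 0 := pow_ne_zero 6 h.hu
  have key : ((u ^ 3 * y + u ^ 2 * s * x + t) ^ 2 + W.a₁ * (u ^ 2 * x + r) *
        (u ^ 3 * y + u ^ 2 * s * x + t) + W.a₃ * (u ^ 3 * y + u ^ 2 * s * x + t)) -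
      ((u ^ 2 * x + r) ^ 3 + W.a₂ * (u ^ 2 * x + r) ^ 2 + W.a₄ * (u ^ 2 * x + r) + W.a₆) =
      u ^ 6 * ((y ^ 2 + W'.a₁ * x * y + W'.a₃ * y) -
        (x ^ 3 + W'.a₂ * x ^ 2 + W'.a₄ * x + W'.a₆)) := by
    linear_combination (-(u ^ 5 * x * y)) * h.h1 - u ^ 3 * y * h.h3 + u ^ 4 * x ^ 2 * h.h2 +
      u ^ 2 * x * h.h4 + h.h6
  constructor
  · intro h1
    have h2 := sub_eq_zero.mpr h1
    rw [key] at h2
    exact sub_eq_zero.mp ((mul_eq_zero.mp h2).resolve_left hu6)
  · intro h1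
    have h2 := sub_eq_zero.mpr h1
    apply sub_eq_zero.mp
    rw [key, h2, mul_zero]

theorem lr_vc_negY (h : LrVC W W' u r s t) (x y : F) :
    W.toAffine.negY (u ^ 2 * x + r) (u ^ 3 * y + u ^ 2 * s * x + t) =
      u ^ 3 * W'.toAffine.negY x y + u ^ 2 * s * x + t := by
  simp only [negY]
  linear_combination (u ^ 2 * x) * h.h1 + h.h3

theorem lr_vc_polyY (h : LrVC W W' u r s t) (x y : F) :
    (u ^ 3 * y + u ^ 2 * s * x + t) -
        W.toAffine.negY (u ^ 2 * x + r) (u ^ 3 * y + u ^ 2 * s * x + t) =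
      u ^ 3 * (y - W'.toAffine.negY x y) := by
  rw [lr_vc_negY h]
  ring

theorem lr_vc_polyX (h : LrVC W W' u r s t) (x y : F) :
    W.a₁ * (u ^ 3 * y + u ^ 2 * s * x + t) -
        (3 * (u ^ 2 * x + r) ^ 2 + 2 * W.a₂ * (u ^ 2 * x + r) + W.a₄) =
      u ^ 4 * (W'.a₁ * y - (3 * x ^ 2 + 2 * W'.a₂ * x + W'.a₄)) -
        s * u ^ 3 * (y - W'.toAffine.negY x y) := by
  simp only [negY]
  linear_combination (-(u ^ 3 * y) + s * u ^ 2 * x) * h.h1 + 2 * u ^ 2 * x * h.h2 + h.h4 + s * h.h3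

theorem lr_vc_nonsingular (h : LrVC W W' u r s t) (x y : F) :
    W.toAffine.Nonsingular (u ^ 2 * x + r) (u ^ 3 * y + u ^ 2 * s * x + t) ↔
      W'.toAffine.Nonsingular x y := by
  rw [nonsingular_iff, nonsingular_iff, lr_vc_equation h]
  refine and_congr_right fun _ => ?_
  have hu3 : u ^ 3 ≠ 0 := pow_ne_zero 3 h.hu
  have hu4 : u ^ 4 ≠ 0 := pow_ne_zero 4 h.hu
  have kX := lr_vc_polyX h x y
  have kY := lr_vc_polyY h x y
  simp only [negY] at kY kX
  rw [← sub_ne_zero, ← sub_ne_zero (a := u ^ 3 * y + u ^ 2 * s * x + t),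
    ← sub_ne_zero (a := W'.a₁ * y), ← sub_ne_zero (a := y), kX, kY]
  constructor
  · rintro (h1 | h1)
    · by_contra hcon
      rw [not_or, not_not, not_not] at hcon
      rw [hcon.1, hcon.2] at h1
      simp at h1
    · right
      intro h2
      rw [h2, mul_zero] at h1
      exact h1 rfl
  · rintro (h1 | h1)
    · by_cases h2 : y - (-y - W'.a₁ * x - W'.a₃) = 0
      · left
        rw [h2, mul_zero, sub_zero]
        exact mul_ne_zero hu4 h1
      · right
        exact mul_ne_zero hu3 h2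
    · right
      exact mul_ne_zero hu3 h1

section Slope

variable [DecidableEq F]

theorem lr_vc_slope (h : LrVC W W' u r s t) {x₁ x₂ y₁ y₂ : F}
    (h₁ : W'.toAffine.Equation x₁ y₁) (h₂ : W'.toAffine.Equation x₂ y₂)
    (hxy : ¬(x₁ = x₂ ∧ y₁ = W'.toAffine.negY x₂ y₂)) :
    W.toAffine.slope (u ^ 2 * x₁ + r) (u ^ 2 * x₂ + r) (u ^ 3 * y₁ + u ^ 2 * s * x₁ + t)
        (u ^ 3 * y₂ + u ^ 2 * s * x₂ + t) =
      u * W'.toAffine.slope x₁ x₂ y₁ y₂ + s := by
  have hu := h.hu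
  by_cases hx : x₁ = x₂
  · have hy : y₁ ≠ W'.toAffine.negY x₂ y₂ := fun hy => hxy ⟨hx, hy⟩
    have hyy : y₁ = y₂ := Y_eq_of_Y_ne h₁ h₂ hx hy
    subst hx hyy
    have hy' : u ^ 3 * y₁ + u ^ 2 * s * x₁ + t ≠
        W.toAffine.negY (u ^ 2 * x₁ + r) (u ^ 3 * y₁ + u ^ 2 * s * x₁ + t) := by
      rw [lr_vc_negY h]
      intro h3
      apply hy
      have h4 : u ^ 3 * (y₁ - W'.toAffine.negY x₁ y₁) = 0 := by linear_combination h3
      exact sub_eq_zero.mp ((mul_eq_zero.mp h4).resolve_left (pow_ne_zero 3 hu))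
    rw [slope_of_Y_ne rfl hy', slope_of_Y_ne rfl hy]
    have kX := lr_vc_polyX h x₁ y₁
    have kY := lr_vc_polyY h x₁ y₁
    have hd : y₁ - W'.toAffine.negY x₁ y₁ ≠ 0 := sub_ne_zero.mpr hy
    rw [kY]
    have e : 3 * (u ^ 2 * x₁ + r) ^ 2 + 2 * W.a₂ * (u ^ 2 * x₁ + r) + W.a₄ -
        W.a₁ * (u ^ 3 * y₁ + u ^ 2 * s * x₁ + t) =
        -(u ^ 4 * (W'.a₁ * y₁ - (3 * x₁ ^ 2 + 2 * W'.a₂ * x₁ + W'.a₄)) -
          s * u ^ 3 * (y₁ - W'.toAffine.negY x₁ y₁)) := by
      rw [← kX]; ring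
    rw [e]
    field_simp
    ring
  · have hx' : u ^ 2 * x₁ + r ≠ u ^ 2 * x₂ + r := by
      intro h3
      apply hx
      have h4 : u ^ 2 * (x₁ - x₂) = 0 := by linear_combination h3
      exact sub_eq_zero.mp ((mul_eq_zero.mp h4).resolve_left (pow_ne_zero 2 hu))
    rw [slope_of_X_ne hx', slope_of_X_ne hx]
    have hd : x₁ - x₂ ≠ 0 := sub_ne_zero.mpr hx
    have e : u ^ 2 * x₁ + r - (u ^ 2 * x₂ + r) = u ^ 2 * (x₁ - x₂) := by ring
    rw [e]
    field_simp
    ring

end Slope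

theorem lr_vc_addX (h : LrVC W W' u r s t) (x₁ x₂ ℓ : F) :
    W.toAffine.addX (u ^ 2 * x₁ + r) (u ^ 2 * x₂ + r) (u * ℓ + s) =
      u ^ 2 * W'.toAffine.addX x₁ x₂ ℓ + r := by
  simp only [addX]
  linear_combination (-(u * ℓ)) * h.h1 + h.h2

theorem lr_vc_addY (h : LrVC W W' u r s t) (x₁ x₂ y₁ ℓ : F) :
    W.toAffine.addY (u ^ 2 * x₁ + r) (u ^ 2 * x₂ + r) (u ^ 3 * y₁ + u ^ 2 * s * x₁ + t)
        (u * ℓ + s) =
      u ^ 3 * W'.toAffine.addY x₁ x₂ y₁ ℓ + u ^ 2 * s * W'.toAffine.addX x₁ x₂ ℓ + t := by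
  have e1 := lr_vc_addX h x₁ x₂ ℓ
  have e2 : W.toAffine.negAddY (u ^ 2 * x₁ + r) (u ^ 2 * x₂ + r)
      (u ^ 3 * y₁ + u ^ 2 * s * x₁ + t) (u * ℓ + s) =
      u ^ 3 * W'.toAffine.negAddY x₁ x₂ y₁ ℓ + u ^ 2 * s * W'.toAffine.addX x₁ x₂ ℓ + t := by
    rw [negAddY, negAddY, e1]
    ring
  rw [addY, addY, e1, e2, lr_vc_negY h]

/-- equality of affine points from equality of coordinates -/
theorem lr_vc_some_congr {V : WeierstrassCurve F} {x y x' y' : F} (hx : x = x') (hy : y = y')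
    (h : V.toAffine.Nonsingular x y) (h' : V.toAffine.Nonsingular x' y') :
    (Point.some x y h : V.toAffine.Point) = Point.some x' y' h' := by
  subst hx hy
  rfl

/-- the point map of a change of variables -/
def lr_vc_fun (h : LrVC W W' u r s t) : W'.toAffine.Point → W.toAffine.Point
  | .zero => 0
  | .some x y hxy => .some (u ^ 2 * x + r) (u ^ 3 * y + u ^ 2 * s * x + t)
      ((lr_vc_nonsingular h x y).mpr hxy)

theorem lr_vc_fun_zero (h : LrVC W W' u r s t) : lr_vc_fun h 0 = 0 := rfl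

theorem lr_vc_fun_some (h : LrVC W W' u r s t) {x y : F} (hxy : W'.toAffine.Nonsingular x y) :
    lr_vc_fun h (.some x y hxy) = .some (u ^ 2 * x + r) (u ^ 3 * y + u ^ 2 * s * x + t)
      ((lr_vc_nonsingular h x y).mpr hxy) := rfl

theorem lr_vc_fun_add [DecidableEq F] (h : LrVC W W' u r s t) (P Q : W'.toAffine.Point) :
    lr_vc_fun h (P + Q) = lr_vc_fun h P + lr_vc_fun h Q := by
  rcases P with _ | ⟨x₁, y₁, h₁⟩
  · change lr_vc_fun h (0 + Q) = 0 + lr_vc_fun h Q
    rw [zero_add, zero_add]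
  rcases Q with _ | ⟨x₂, y₂, h₂⟩
  · change lr_vc_fun h (Point.some x₁ y₁ h₁ + 0) = lr_vc_fun h (Point.some x₁ y₁ h₁) + 0
    rw [add_zero, add_zero]
  have hu := h.hu
  by_cases hxy : x₁ = x₂ ∧ y₁ = W'.toAffine.negY x₂ y₂
  · rw [Point.add_of_Y_eq hxy.1 hxy.2, lr_vc_fun_some, lr_vc_fun_some]
    have e1 : u ^ 2 * x₁ + r = u ^ 2 * x₂ + r := by rw [hxy.1]
    have e2 : u ^ 3 * y₁ + u ^ 2 * s * x₁ + t =
        W.toAffine.negY (u ^ 2 * x₂ + r) (u ^ 3 * y₂ + u ^ 2 * s * x₂ + t) := by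
      rw [lr_vc_negY h, hxy.2, hxy.1]
    rw [Point.add_of_Y_eq e1 e2]
    rfl
  · have hxy' : ¬(u ^ 2 * x₁ + r = u ^ 2 * x₂ + r ∧ u ^ 3 * y₁ + u ^ 2 * s * x₁ + t =
        W.toAffine.negY (u ^ 2 * x₂ + r) (u ^ 3 * y₂ + u ^ 2 * s * x₂ + t)) := by
      rintro ⟨e1, e2⟩
      apply hxy
      have hx : x₁ = x₂ := by
        have h4 : u ^ 2 * (x₁ - x₂) = 0 := by linear_combination e1
        exact sub_eq_zero.mp ((mul_eq_zero.mp h4).resolve_left (pow_ne_zero 2 hu))
      refine ⟨hx, ?_⟩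
      rw [lr_vc_negY h, hx] at e2
      have h4 : u ^ 3 * (y₁ - W'.toAffine.negY x₂ y₂) = 0 := by linear_combination e2
      exact sub_eq_zero.mp ((mul_eq_zero.mp h4).resolve_left (pow_ne_zero 3 hu))
    rw [Point.add_some hxy, lr_vc_fun_some, lr_vc_fun_some, lr_vc_fun_some, Point.add_some hxy']
    have hs := lr_vc_slope h h₁.1 h₂.1 hxy
    apply lr_vc_some_congr
    · rw [hs, lr_vc_addX h]
    · rw [hs, lr_vc_addY h]

/-- the inverse point map -/
def lr_vc_inv (h : LrVC W W' u r s t) : W.toAffine.Point → W'.toAffine.Point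
  | .zero => 0
  | .some x y hxy => .some ((x - r) / u ^ 2) ((y - s * (x - r) - t) / u ^ 3)
      ((lr_vc_nonsingular h _ _).mp (by
        have hu := h.hu
        have hx : u ^ 2 * ((x - r) / u ^ 2) + r = x := by field_simp; ring
        have hy : u ^ 3 * ((y - s * (x - r) - t) / u ^ 3) + u ^ 2 * s * ((x - r) / u ^ 2) + t =
            y := by field_simp; ring
        rw [hx, hy]
        exact hxy))

theorem lr_vc_inv_some (h : LrVC W W' u r s t) {x y : F} (hxy : W.toAffine.Nonsingular x y) :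
    ∃ hxy', lr_vc_inv h (.some x y hxy) =
      .some ((x - r) / u ^ 2) ((y - s * (x - r) - t) / u ^ 3) hxy' := ⟨_, rfl⟩

theorem lr_vc_left_inv (h : LrVC W W' u r s t) (P : W'.toAffine.Point) :
    lr_vc_inv h (lr_vc_fun h P) = P := by
  rcases P with _ | ⟨x, y, hxy⟩
  · rfl
  · rw [lr_vc_fun_some]
    obtain ⟨hxy', e⟩ := lr_vc_inv_some h ((lr_vc_nonsingular h x y).mpr hxy)
    rw [e]
    have hu := h.hu
    apply lr_vc_some_congr
    · field_simp; ring
    · field_simp; ring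

theorem lr_vc_right_inv (h : LrVC W W' u r s t) (P : W.toAffine.Point) :
    lr_vc_fun h (lr_vc_inv h P) = P := by
  rcases P with _ | ⟨x, y, hxy⟩
  · rfl
  · obtain ⟨hxy', e⟩ := lr_vc_inv_some h hxy
    rw [e, lr_vc_fun_some]
    have hu := h.hu
    apply lr_vc_some_congr
    · field_simp; ring
    · field_simp; ring

/-- **the additive equivalence of points** attached to a change of variables -/
def lr_vc_equiv [DecidableEq F] (h : LrVC W W' u r s t) :
    W'.toAffine.Point ≃+ W.toAffine.Point where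
  toFun := lr_vc_fun h
  invFun := lr_vc_inv h
  left_inv := lr_vc_left_inv h
  right_inv := lr_vc_right_inv h
  map_add' := lr_vc_fun_add h

@[simp]
theorem lr_vc_equiv_zero [DecidableEq F] (h : LrVC W W' u r s t) : lr_vc_equiv h 0 = 0 := rfl

theorem lr_vc_equiv_some [DecidableEq F] (h : LrVC W W' u r s t) {x y : F}
    (hxy : W'.toAffine.Nonsingular x y) :
    lr_vc_equiv h (.some x y hxy) = .some (u ^ 2 * x + r) (u ^ 3 * y + u ^ 2 * s * x + t)
      ((lr_vc_nonsingular h x y).mpr hxy) := rfl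

/-- base change of a change of variables along a ring homomorphism of fields -/
theorem lr_vc_map {K : Type*} [Field K] (φ : F →+* K) (h : LrVC W W' u r s t) :
    LrVC (W.map φ) (W'.map φ) (φ u) (φ r) (φ s) (φ t) := by
  refine ⟨(map_ne_zero φ).mpr h.hu, ?_, ?_, ?_, ?_, ?_⟩
  · have := congrArg φ h.h1
    simpa only [map_mul, map_add, map_sub, map_pow, map_ofNat, WeierstrassCurve.map_a₁,
      WeierstrassCurve.map_a₂, WeierstrassCurve.map_a₃, WeierstrassCurve.map_a₄,
      WeierstrassCurve.map_a₆] using this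
  · have := congrArg φ h.h2
    simpa only [map_mul, map_add, map_sub, map_pow, map_ofNat, WeierstrassCurve.map_a₁,
      WeierstrassCurve.map_a₂, WeierstrassCurve.map_a₃, WeierstrassCurve.map_a₄,
      WeierstrassCurve.map_a₆] using this
  · have := congrArg φ h.h3
    simpa only [map_mul, map_add, map_sub, map_pow, map_ofNat, WeierstrassCurve.map_a₁,
      WeierstrassCurve.map_a₂, WeierstrassCurve.map_a₃, WeierstrassCurve.map_a₄,
      WeierstrassCurve.map_a₆] using this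
  · have := congrArg φ h.h4
    simpa only [map_mul, map_add, map_sub, map_pow, map_ofNat, WeierstrassCurve.map_a₁,
      WeierstrassCurve.map_a₂, WeierstrassCurve.map_a₃, WeierstrassCurve.map_a₄,
      WeierstrassCurve.map_a₆] using this
  · have := congrArg φ h.h6
    simpa only [map_mul, map_add, map_sub, map_pow, map_ofNat, WeierstrassCurve.map_a₁,
      WeierstrassCurve.map_a₂, WeierstrassCurve.map_a₃, WeierstrassCurve.map_a₄,
      WeierstrassCurve.map_a₆] using this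

section Rat

open WeierstrassCurve.Affine.Point

variable {K : Type*} [Field K] [Algebra ℚ K] [DecidableEq K]

omit [DecidableEq K] in
/-- the change of variables between the base changes to `K` of two curves over `ℚ` -/
theorem lr_vcQ_vc {E E' : WeierstrassCurve ℚ} (C : VariableChange ℚ) (hC : C • E = E') :
    LrVC (E⁄K) (E'⁄K) (algebraMap ℚ K (C.u : ℚ))
      (algebraMap ℚ K C.r) (algebraMap ℚ K C.s) (algebraMap ℚ K C.t) := by
  subst hC
  exact lr_vc_map (algebraMap ℚ K) (lr_vc_of_smul E C)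

/-- for curves over `ℚ` related by a change of variables: the additive equivalence of `K`-points -/
def lr_vcQ_equiv {E E' : WeierstrassCurve ℚ} (C : VariableChange ℚ) (hC : C • E = E') :
    (E'⁄K).Point ≃+ (E⁄K).Point :=
  lr_vc_equiv (lr_vcQ_vc (K := K) C hC)

/-- the equivalence commutes with the maps induced by `ℚ`-algebra automorphisms of `K` -/
theorem lr_vcQ_map {E E' : WeierstrassCurve ℚ} (C : VariableChange ℚ) (hC : C • E = E')
    (σ : K ≃ₐ[ℚ] K) (P : (E'⁄K).Point) :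
    lr_vcQ_equiv C hC (Point.map (W' := E') σ.toAlgHom P) =
      Point.map (W' := E) σ.toAlgHom (lr_vcQ_equiv C hC P) := by
  rcases P with _ | ⟨x, y, hxy⟩
  · rfl
  · have e1 : ∃ hxy', Point.map (W' := E') σ.toAlgHom (Point.some x y hxy) =
        Point.some (σ x) (σ y) hxy' := ⟨_, rfl⟩
    obtain ⟨hxy', e1⟩ := e1
    rw [e1]
    unfold lr_vcQ_equiv
    rw [lr_vc_equiv_some, lr_vc_equiv_some]
    have e2 : ∀ (a b : K) (hab : (E⁄K).Nonsingular a b),
        ∃ hab', Point.map (W' := E) σ.toAlgHom (Point.some a b hab) =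
        Point.some (σ a) (σ b) hab' :=
      fun _ _ _ => ⟨_, rfl⟩
    obtain ⟨hab', e2⟩ := e2 _ _ ((lr_vc_nonsingular (lr_vcQ_vc (K := K) C hC) x y).mpr hxy)
    rw [e2]
    apply lr_vc_some_congr
    · simp only [map_add, map_mul, map_pow, AlgEquiv.commutes]
    · simp only [map_add, map_mul, map_pow, AlgEquiv.commutes]

/-- in terms of the Galois action of the Prelude -/
theorem lr_vcQ_smul {E E' : WeierstrassCurve ℚ} (C : VariableChange ℚ) (hC : C • E = E')
    (σ : K ≃ₐ[ℚ] K) (P : (E'⁄K).Point) :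
    lr_vcQ_equiv C hC (σ • P) = σ • lr_vcQ_equiv C hC P :=
  lr_vcQ_map C hC σ P

/-- **transfer of irreducibility** of the mod-`n` representation along a change of variables over
`ℚ` -/
theorem lr_irr_transfer {E E' : WeierstrassCurve ℚ} (C : VariableChange ℚ) (hC : C • E = E')
    (n : ℕ) (hirr : GaloisRepIsIrreducible (K := K) ℚ E n) :
    GaloisRepIsIrreducible (K := K) ℚ E' n := by
  obtain ⟨hnt, hN⟩ := hirr
  set e := lr_vcQ_equiv (K := K) C hC with he
  have hmem : ∀ P : (E'⁄K).Point, P ∈ Submodule.torsionBy ℤ (E'⁄K).Point n →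
      e P ∈ Submodule.torsionBy ℤ (E⁄K).Point n := by
    intro P hP
    rw [Submodule.mem_torsionBy_iff] at hP ⊢
    rw [← map_zsmul, hP, _root_.map_zero]
  have hmem' : ∀ Q : (E⁄K).Point, Q ∈ Submodule.torsionBy ℤ (E⁄K).Point n →
      e.symm Q ∈ Submodule.torsionBy ℤ (E'⁄K).Point n := by
    intro Q hQ
    rw [Submodule.mem_torsionBy_iff] at hQ ⊢
    rw [← map_zsmul, hQ, _root_.map_zero]
  let f : Submodule.torsionBy ℤ (E'⁄K).Point n →+ Submodule.torsionBy ℤ (E⁄K).Point n :=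
    { toFun := fun P => ⟨e (P : (E'⁄K).Point), hmem (P : (E'⁄K).Point) P.2⟩
      map_zero' := Subtype.ext (_root_.map_zero e)
      map_add' := fun P Q => Subtype.ext (map_add e (P : (E'⁄K).Point) (Q : (E'⁄K).Point)) }
  have hfinj : Function.Injective f := by
    intro P Q hPQ
    have h1 : e (P : (E'⁄K).Point) = e (Q : (E'⁄K).Point) := congrArg Subtype.val hPQ
    exact Subtype.ext (e.injective h1)
  have hfsurj : Function.Surjective f := by
    intro Q
    refine ⟨⟨e.symm (Q : (E⁄K).Point), hmem' (Q : (E⁄K).Point) Q.2⟩, Subtype.ext ?_⟩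
    exact e.apply_symm_apply _
  have hfσ : ∀ (σ : K ≃ₐ[ℚ] K) (P : Submodule.torsionBy ℤ (E'⁄K).Point n),
      f (σ • P) = σ • f P := by
    intro σ P
    exact Subtype.ext (lr_vcQ_smul C hC σ (P : (E'⁄K).Point))
  refine ⟨?_, ?_⟩
  · obtain ⟨x, y, hxy⟩ := hnt
    obtain ⟨x', rfl⟩ := hfsurj x
    obtain ⟨y', rfl⟩ := hfsurj y
    exact ⟨x', y', fun h => hxy (by rw [h])⟩
  · intro N hNst
    set N' : Submodule (ZMod n) (Submodule.torsionBy ℤ (E⁄K).Point n) :=
      N.map (f.toZModLinearMap n) with hN'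
    have hst' : IsGaloisStable ℚ N' := by
      intro σ y hy
      rw [hN', Submodule.mem_map] at hy ⊢
      obtain ⟨x, hx, rfl⟩ := hy
      exact ⟨σ • x, hNst σ x hx, hfσ σ x⟩
    rcases hN N' hst' with h0 | h1
    · left
      rw [Submodule.eq_bot_iff]
      intro x hx
      have h2 : f x ∈ N' := Submodule.mem_map_of_mem (f := f.toZModLinearMap n) hx
      rw [h0, Submodule.mem_bot] at h2
      exact hfinj (by rw [h2, _root_.map_zero])
    · right
      rw [Submodule.eq_top_iff']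
      intro x
      have h2 : f x ∈ N' := by rw [h1]; exact Submodule.mem_top
      rw [hN', Submodule.mem_map] at h2
      obtain ⟨x', hx', hxx⟩ := h2
      have : x' = x := hfinj hxx
      rw [← this]
      exact hx'

end Rat

/-- irreducibility of the mod-`p` representation passes to an integral model -/
theorem lr_modRepIrr_of_integralModel (E : WeierstrassCurve ℚ) {W : WeierstrassCurve ℤ}
    (hW : W.IsIntegralModelOf E) (p : ℕ)
    (hirr : WeierstrassCurve.Affine.Point.GaloisRepIsIrreducible (K := AlgebraicClosure ℚ) ℚ E p) :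
    W.ModRepIsIrreducible p := by
  obtain ⟨C, hC⟩ := hW
  exact lr_irr_transfer C hC p hirr

/-- the discriminant of an integral model of an elliptic curve is nonzero -/
theorem lr_integralModel_Δ_ne (E : WeierstrassCurve ℚ) [E.IsElliptic] {W : WeierstrassCurve ℤ}
    (hW : W.IsIntegralModelOf E) : (W.map (Int.castRingHom ℚ)).Δ ≠ 0 ∧ W.Δ ≠ 0 := by
  obtain ⟨C, hC⟩ := hW
  have h1 : (W.map (Int.castRingHom ℚ)).Δ ≠ 0 := by
    rw [← hC, variableChange_Δ]
    exact mul_ne_zero (pow_ne_zero 12 (Units.ne_zero _)) E.isUnit_Δ.ne_zero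
  refine ⟨h1, ?_⟩
  intro h0
  apply h1
  rw [WeierstrassCurve.map_Δ, h0, map_zero]

end LR
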