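import Mathlib
import Fermat.Agent.Lib.LR_TorsCard
import Fermat.Agent.Lib.LR_PhiZ
import Fermat.Agent.Lib.LR_VarChange
import Fermat.Agent.Lib.LR_GL2
import Fermat.Agent.Lib.LR_Cheb
import Fermat.Agent.Lib.LR_Arith
import Fermat.Agent.Lib.LR_TorsField

/-!
# S41 / LR stream S4: the non-Eisenstein prime (L7)

`LR.lr_nonEis`: if `E[p]` is an irreducible Galois module (`p` odd) and `W` is an integral model of
`E`, then outside any finite set there is a good prime `ℓ` with `p ∤ ℓ + 1 - a_ℓ(W)`.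
-/

set_option autoImplicit false

open WeierstrassCurve WeierstrassCurve.Affine WeierstrassCurve.Affine.Point
open scoped NumberField

namespace LR

theorem lr_some_congr {F : Type*} [CommRing F] {W : Affine F} {a b a' b' : F}
    (h₁ : W.Nonsingular a b) (h₂ : W.Nonsingular a' b') (ha : a = a') (hb : b = b') :
    Point.some a b h₁ = Point.some a' b' h₂ := by
  subst ha hb
  rfl

section descend

variable (E : WeierstrassCurve ℚ) (Ω : IntermediateField ℚ (AlgebraicClosure ℚ)) [Normal ℚ ↥Ω]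
  [DecidableEq ↥Ω]

/-- the inclusion of points over `Ω` into points over the algebraic closure is equivariant for
restriction of automorphisms -/
theorem lr_ne_equivariant (g : AlgebraicClosure ℚ ≃ₐ[ℚ] AlgebraicClosure ℚ)
    (P : (E⁄↥Ω).Point) :
    Point.map (W' := E) Ω.val ((g.restrictNormal ↥Ω) • P) = g • Point.map (W' := E) Ω.val P := by
  rcases P with _ | ⟨x, y, h⟩
  · rfl
  · have hx : Ω.val ((g.restrictNormal ↥Ω) x) = g (Ω.val x) :=
      AlgEquiv.restrictNormal_commutes g ↥Ω x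
    have hy : Ω.val ((g.restrictNormal ↥Ω) y) = g (Ω.val y) :=
      AlgEquiv.restrictNormal_commutes g ↥Ω y
    exact lr_some_congr _ _ hx hy

/-- descent of the irreducible torsion module to a finite Galois extension containing the
coordinates of the torsion points: an element without fixed torsion points whose order has at
most two prime factors -/
theorem lr_descend [FiniteDimensional ℚ ↥Ω] (hΔ : E.Δ ≠ 0) {p : ℕ} (hp : p.Prime) (hp2 : p ≠ 2)
    (hirr : GaloisRepIsIrreducible (K := AlgebraicClosure ℚ) ℚ E p)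
    (hΩ : ∀ (x y : AlgebraicClosure ℚ) (h : (E⁄(AlgebraicClosure ℚ)).Nonsingular x y),
      (p : ℤ) • Point.some x y h = 0 → x ∈ Ω ∧ y ∈ Ω) :
    ∃ σ : ↥Ω ≃ₐ[ℚ] ↥Ω, (orderOf σ).primeFactors.card ≤ 2 ∧ σ ≠ 1 ∧
      ∀ (x y : ↥Ω) (h : (E⁄↥Ω).Nonsingular x y), (p : ℤ) • Point.some x y h = 0 →
        σ x = x → σ y = y → False := by
  have : Fact p.Prime := ⟨hp⟩
  set f : (E⁄↥Ω).Point →+ (E⁄(AlgebraicClosure ℚ)).Point := Point.map (W' := E) Ω.val with hf
  have hfinj : Function.Injective f := Point.map_injective (W' := E) Ω.val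
  have hmem : ∀ v : Submodule.torsionBy ℤ (E⁄↥Ω).Point p,
      f v.1 ∈ Submodule.torsionBy ℤ (E⁄(AlgebraicClosure ℚ)).Point p := by
    intro v
    rw [Submodule.mem_torsionBy_iff, ← map_zsmul, (Submodule.mem_torsionBy_iff _ _).mp v.2,
      _root_.map_zero]
  let ψ : Submodule.torsionBy ℤ (E⁄↥Ω).Point p →+
      Submodule.torsionBy ℤ (E⁄(AlgebraicClosure ℚ)).Point p :=
    { toFun := fun v => ⟨f v.1, hmem v⟩
      map_zero' := Subtype.ext (_root_.map_zero f)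
      map_add' := fun v w => Subtype.ext (map_add f v.1 w.1) }
  have hψinj : Function.Injective ψ := fun v w h =>
    Subtype.ext (hfinj (congrArg Subtype.val h))
  have hψsurj : Function.Surjective ψ := by
    rintro ⟨P, hP⟩
    rw [Submodule.mem_torsionBy_iff] at hP
    rcases P with _ | ⟨x, y, h⟩
    · exact ⟨0, Subtype.ext (_root_.map_zero f)⟩
    · obtain ⟨hx, hy⟩ := hΩ x y h hP
      have h' : (E⁄↥Ω).Nonsingular (⟨x, hx⟩ : ↥Ω) ⟨y, hy⟩ :=
        (Affine.baseChange_nonsingular E (f := Ω.val) Ω.val.injective _ _).mp h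
      have hfP : f (Point.some _ _ h') = Point.some x y h := rfl
      refine ⟨⟨Point.some _ _ h', ?_⟩, Subtype.ext hfP⟩
      rw [Submodule.mem_torsionBy_iff]
      apply hfinj
      rw [map_zsmul, hfP, hP, _root_.map_zero]
  have hcardV : Nat.card (Submodule.torsionBy ℤ (E⁄(AlgebraicClosure ℚ)).Point (p : ℤ)) = p ^ 2 :=
    lr_card_torsion_rat E hΔ hp hp2
  have hcardV' : Nat.card (Submodule.torsionBy ℤ (E⁄↥Ω).Point (p : ℤ)) = p ^ 2 := by
    rw [← hcardV]
    exact Nat.card_eq_of_bijective ψ ⟨hψinj, hψsurj⟩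
  have hfinV' : Finite (Submodule.torsionBy ℤ (E⁄↥Ω).Point (p : ℤ)) :=
    Nat.finite_of_card_ne_zero (by rw [hcardV']; exact pow_ne_zero 2 hp.ne_zero)
  have hrank : Module.finrank (ZMod p) (Submodule.torsionBy ℤ (E⁄↥Ω).Point (p : ℤ)) = 2 := by
    have hpow := FiniteField.pow_finrank_eq_natCard p (Submodule.torsionBy ℤ (E⁄↥Ω).Point (p : ℤ))
    rw [hcardV'] at hpow
    exact Nat.pow_right_injective hp.two_le hpow
  -- irreducibility over `Ω`
  have hirr' : ∀ N : Submodule (ZMod p) (Submodule.torsionBy ℤ (E⁄↥Ω).Point (p : ℤ)),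
      (∀ (g : ↥Ω ≃ₐ[ℚ] ↥Ω), ∀ v ∈ N, g • v ∈ N) → N = ⊥ ∨ N = ⊤ := by
    intro N hN
    have hstab : IsGaloisStable ℚ (N.map (ψ.toZModLinearMap p)) := by
      rintro g _ ⟨v, hv, rfl⟩
      refine ⟨(g.restrictNormal ↥Ω) • v, hN _ v hv, ?_⟩
      apply Subtype.ext
      exact lr_ne_equivariant E Ω g v.1
    rcases hirr.2 _ hstab with h | h
    · left
      rw [eq_bot_iff]
      intro v hv
      have h1 : ψ v ∈ N.map (ψ.toZModLinearMap p) := ⟨v, hv, rfl⟩
      rw [h, Submodule.mem_bot] at h1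
      rw [Submodule.mem_bot]
      exact hψinj (h1.trans (_root_.map_zero ψ).symm)
    · right
      rw [eq_top_iff]
      intro v _
      have h1 : ψ v ∈ N.map (ψ.toZModLinearMap p) := by rw [h]; exact Submodule.mem_top
      obtain ⟨w, hw, hwv⟩ := h1
      have : w = v := hψinj hwv
      rwa [← this]
  obtain ⟨σ, hσfix, hσord⟩ := lr_gl2 (p := p) (G := ↥Ω ≃ₐ[ℚ] ↥Ω) hrank hirr'
  have hkey : ∀ (x y : ↥Ω) (h : (E⁄↥Ω).Nonsingular x y), (p : ℤ) • Point.some x y h = 0 →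
      σ x = x → σ y = y → False := by
    intro x y h hP hx hy
    have hv := hσfix ⟨Point.some x y h, (Submodule.mem_torsionBy_iff _ _).mpr hP⟩ (by
      apply Subtype.ext
      exact lr_some_congr _ _ hx hy)
    exact Point.some_ne_zero h (congrArg Subtype.val hv)
  refine ⟨σ, hσord, ?_, hkey⟩
  -- `σ ≠ 1`: there is a nonzero torsion point
  rintro rfl
  have hnt : Nontrivial (Submodule.torsionBy ℤ (E⁄↥Ω).Point (p : ℤ)) := by
    rw [← Finite.one_lt_card_iff_nontrivial, hcardV']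
    exact Nat.one_lt_pow (by norm_num) hp.one_lt
  obtain ⟨v, hv⟩ := exists_ne (0 : Submodule.torsionBy ℤ (E⁄↥Ω).Point (p : ℤ))
  obtain ⟨P, hP⟩ := v
  rcases P with _ | ⟨x, y, h⟩
  · exact hv rfl
  · exact hkey x y h ((Submodule.mem_torsionBy_iff _ _).mp hP) rfl rfl

end descend

/-- a power of an automorphism fixes what the automorphism fixes -/
theorem lr_pow_fix {L : Type*} [Field L] [Algebra ℚ L] (τ : L ≃ₐ[ℚ] L) (x : L) (hx : τ x = x) (m : ℕ) :
    (τ ^ m) x = x := by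
  induction m with
  | zero => rfl
  | succ m ih => rw [pow_succ, AlgEquiv.mul_apply, hx, ih]

/-- **the non-Eisenstein prime** (interface L7 of the level-raising blueprint) -/
theorem lr_nonEis (E : WeierstrassCurve ℚ) [E.IsElliptic] {W : WeierstrassCurve ℤ}
    (hW : W.IsIntegralModelOf E) {p : ℕ} (hp : p.Prime) (hp2 : p ≠ 2)
    (hirr : GaloisRepIsIrreducible (K := AlgebraicClosure ℚ) ℚ E p) (S : Finset ℕ) :
    ∃ ℓ : ℕ, ℓ.Prime ∧ ℓ ∉ S ∧ W.IsGoodPrimeFor ℓ ∧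
      ¬ (p : ℤ) ∣ ((ℓ : ℤ) + 1 - W.apOfModel ℓ) := by
  obtain ⟨hΔℚ, hΔ⟩ := lr_integralModel_Δ_ne E hW
  have hirrW : GaloisRepIsIrreducible (K := AlgebraicClosure ℚ) ℚ (W.map (Int.castRingHom ℚ)) p :=
    lr_modRepIrr_of_integralModel E hW p hirr
  obtain ⟨Ω, hfd, hnorm, hcoord, hsplit, hy⟩ := lr_tors_field W hΔ hp hp2
  have := hfd
  have := hnorm
  have : NumberField ↥Ω := { to_charZero := inferInstance, to_finiteDimensional := hfd }
  have : IsGalois ℚ ↥Ω := { to_isSeparable := inferInstance, to_normal := hnorm }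
  let instDec : DecidableEq ↥Ω := Classical.decEq _
  obtain ⟨σ, hord, hσ1, hfix⟩ :=
    lr_descend (W.map (Int.castRingHom ℚ)) Ω hΔℚ hp hp2 hirrW hcoord
  obtain ⟨B, hB0, hB⟩ := lr_arith (Ω := ↥Ω) W hΔ hp hp2 (lrPhiZ W p)
    (fun K _ => lrPhiZ_map W p K) hsplit hy
  -- the finite set of primes to avoid
  have hS' : ((S : Set ℕ) ∪ {ℓ | ℓ ∣ B} ∪ {ℓ | (ℓ : ℤ) ∣ W.Δ}).Finite := by
    refine (S.finite_toSet.union ?_).union ?_
    · exact (Set.finite_Iic B).subset fun ℓ hℓ => Nat.le_of_dvd (Nat.pos_of_ne_zero hB0) hℓ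
    · refine (Set.finite_Iic W.Δ.natAbs).subset fun ℓ hℓ => ?_
      exact Nat.le_of_dvd (Int.natAbs_pos.mpr hΔ) (Int.natCast_dvd.mp hℓ)
  obtain ⟨ℓ, 𝔏, t, hℓ, hℓS', h𝔏, hℓ𝔏, hcop, hF⟩ := lr_cheb ↥Ω σ hσ1 hord _ hS'
  simp only [Set.mem_union, Finset.mem_coe, Set.mem_ofPred_eq, not_or] at hℓS'
  obtain ⟨⟨hℓS, hℓB⟩, hℓΔ⟩ := hℓS'
  refine ⟨ℓ, hℓ, hℓS, hℓΔ, ?_⟩
  intro hdiv
  have hdvd : p ∣ Nat.card (W.map (Int.castRingHom (ZMod ℓ))).toAffine.Point := by
    have h1 : ((ℓ : ℤ) + 1 - W.apOfModel ℓ) =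
        ((Nat.card (W.map (Int.castRingHom (ZMod ℓ))).toAffine.Point : ℕ) : ℤ) := by
      rw [apOfModel, traceOfFrobenius, WeierstrassCurve.card, reductionMod, Nat.card_zmod]
      ring
    rw [h1] at hdiv
    exact Int.natCast_dvd_natCast.mp hdiv
  obtain ⟨x, y, h, hP, hx, hy'⟩ := hB ℓ 𝔏 (σ ^ t) hℓ hℓB h𝔏 hℓ𝔏 hF hdvd
  obtain ⟨m, hm⟩ := exists_pow_eq_self_of_coprime hcop
  have hσx : σ x = x := by
    have := lr_pow_fix (σ ^ t) x hx m
    rwa [hm] at this
  have hσy : σ y = y := by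
    have := lr_pow_fix (σ ^ t) y hy' m
    rwa [hm] at this
  -- transport along the identity of curves
  have hcurve : (W.map (Int.castRingHom ℚ))⁄↥Ω = W.map (Int.castRingHom ↥Ω) := by
    show (W.map (Int.castRingHom ℚ)).map (algebraMap ℚ ↥Ω) = _
    rw [WeierstrassCurve.map_map]
    congr 1
  have key : ∀ (W' : WeierstrassCurve ↥Ω), W' = W.map (Int.castRingHom ↥Ω) →
      (∀ (x y : ↥Ω) (h : W'.toAffine.Nonsingular x y), (p : ℤ) • Point.some x y h = 0 →
        σ x = x → σ y = y → False) → False := by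
    rintro W' rfl hfix'
    exact hfix' x y h (by rw [natCast_zsmul]; exact hP) hσx hσy
  exact key _ hcurve hfix

/-- variant: the prime avoids the divisors of a given nonzero integer -/
theorem lr_nonEis_not_dvd (E : WeierstrassCurve ℚ) [E.IsElliptic] {W : WeierstrassCurve ℤ}
    (hW : W.IsIntegralModelOf E) {p : ℕ} (hp : p.Prime) (hp2 : p ≠ 2)
    (hirr : GaloisRepIsIrreducible (K := AlgebraicClosure ℚ) ℚ E p) (M : ℕ) (hM : M ≠ 0) :
    ∃ ℓ : ℕ, ℓ.Prime ∧ ¬ ℓ ∣ M ∧ W.IsGoodPrimeFor ℓ ∧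
      ¬ (p : ℤ) ∣ ((ℓ : ℤ) + 1 - W.apOfModel ℓ) := by
  obtain ⟨ℓ, hℓ, hS, hg, hd⟩ := lr_nonEis E hW hp hp2 hirr M.primeFactors
  exact ⟨ℓ, hℓ, fun h => hS (Nat.mem_primeFactors.mpr ⟨hℓ, h, hM⟩), hg, hd⟩

end LR
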