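import Mathlib

/-!
# Ping-pong lemma for amalgamated products (level raising, Ihara's lemma, amalgam half)

Let `A`, `B` be subgroups of a group `𝔾` acting on a set `X`, `C = A ⊓ B`.  If there are disjoint
nonempty sets `V false`, `V true` with `(A \ C) • V false ⊆ V true`, `(B \ C) • V true ⊆ V false`,
`C` preserving both, and the inclusions being proper (witnesses), then the natural map
`A *_C B → 𝔾` is injective.  Consequently a pair of homomorphisms on `A` and `B` agreeing on `C`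
extends to a homomorphism on `A ⊔ B` (`lr_pingpong_ext`).
-/

set_option autoImplicit false

namespace LR

open Monoid

section PingPong

variable {𝔾 : Type*} [Group 𝔾]

/-- The two subgroups as a family indexed by `Bool`. -/
def lrAmS (A B : Subgroup 𝔾) : Bool → Subgroup 𝔾 := fun i => if i then B else A

theorem lrAmS_false (A B : Subgroup 𝔾) : lrAmS A B false = A := rfl

theorem lrAmS_true (A B : Subgroup 𝔾) : lrAmS A B true = B := rfl

theorem lr_am_inf_le (A B : Subgroup 𝔾) (i : Bool) : A ⊓ B ≤ lrAmS A B i := by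
  cases i
  · exact inf_le_left
  · exact inf_le_right

/-- The diagram of inclusions `A ⊓ B → A`, `A ⊓ B → B`. -/
def lrAmφ (A B : Subgroup 𝔾) : ∀ i : Bool, ↥(A ⊓ B) →* ↥(lrAmS A B i) :=
  fun i => Subgroup.inclusion (lr_am_inf_le A B i)

theorem lrAmφ_injective (A B : Subgroup 𝔾) (i : Bool) : Function.Injective (lrAmφ A B i) :=
  Subgroup.inclusion_injective _

/-- The natural map from the amalgam to the ambient group. -/
noncomputable def lrAmψ (A B : Subgroup 𝔾) : PushoutI (lrAmφ A B) →* 𝔾 :=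
  PushoutI.lift (fun i => (lrAmS A B i).subtype) (A ⊓ B).subtype (by
    intro i
    rfl)

theorem lrAmψ_of (A B : Subgroup 𝔾) (i : Bool) (g : ↥(lrAmS A B i)) :
    lrAmψ A B (PushoutI.of i g) = (g : 𝔾) :=
  PushoutI.lift_of (fun i => (lrAmS A B i).subtype) (A ⊓ B).subtype _ g

theorem lrAmψ_base (A B : Subgroup 𝔾) (c : ↥(A ⊓ B)) :
    lrAmψ A B (PushoutI.base (lrAmφ A B) c) = (c : 𝔾) :=
  PushoutI.lift_base (fun i => (lrAmS A B i).subtype) (A ⊓ B).subtype _ c

/-- Product in `𝔾` of a list of letters. -/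
def lrAmProd (A B : Subgroup 𝔾) (L : List (Σ i : Bool, ↥(lrAmS A B i))) : 𝔾 :=
  (L.map fun l => (l.2 : 𝔾)).prod

theorem lrAmProd_cons (A B : Subgroup 𝔾) (l : Σ i : Bool, ↥(lrAmS A B i))
    (L : List (Σ i : Bool, ↥(lrAmS A B i))) :
    lrAmProd A B (l :: L) = (l.2 : 𝔾) * lrAmProd A B L := by
  simp [lrAmProd]

theorem lrAmψ_word (A B : Subgroup 𝔾) (w : CoprodI.Word fun i : Bool => ↥(lrAmS A B i)) :
    lrAmψ A B (PushoutI.ofCoprodI w.prod) = lrAmProd A B w.toList := by
  rw [CoprodI.Word.prod, map_list_prod, map_list_prod, lrAmProd, List.map_map, List.map_map]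
  refine congrArg List.prod (List.map_congr_left fun l _ => ?_)
  show lrAmψ A B (PushoutI.ofCoprodI (CoprodI.of l.2)) = _
  rw [PushoutI.ofCoprodI_of, lrAmψ_of]

variable {X : Type*} [MulAction 𝔾 X]

/-- Ping-pong hypotheses. -/
structure LrAmPP (A B : Subgroup 𝔾) (V : Bool → Set X) : Prop where
  pp : ∀ i, ∀ g ∈ lrAmS A B i, g ∉ A ⊓ B → ∀ x ∈ V i, g • x ∈ V (!i)
  base : ∀ i, ∀ c ∈ A ⊓ B, ∀ x ∈ V i, c • x ∈ V i
  disj : ∀ x, x ∈ V false → x ∈ V true → False
  wit : ∀ i, ∀ g ∈ lrAmS A B i, g ∉ A ⊓ B → ∃ y ∈ V (!i), ∀ x ∈ V i, g • x ≠ y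
  ne : ∀ i, (V i).Nonempty

theorem lr_am_chain {A B : Subgroup 𝔾} {V : Bool → Set X} (h : LrAmPP A B V) :
    ∀ (L : List (Σ i : Bool, ↥(lrAmS A B i))) (l : Σ i : Bool, ↥(lrAmS A B i)),
      (l :: L).IsChain (fun l l' => l.1 ≠ l'.1) →
      (∀ m ∈ l :: L, (m.2 : 𝔾) ∉ A ⊓ B) →
      ∀ x ∈ V ((l :: L).getLast (List.cons_ne_nil _ _)).1,
        ∃ x' ∈ V l.1, lrAmProd A B (l :: L) • x = (l.2 : 𝔾) • x' := by
  intro L
  induction L with
  | nil =>
    intro l _ _ x hx
    refine ⟨x, by simpa using hx, ?_⟩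
    simp [lrAmProd]
  | cons l' L ih =>
    intro l hch hnot x hx
    have hch' : (l' :: L).IsChain (fun l l' => l.1 ≠ l'.1) := hch.tail
    have hne : l.1 ≠ l'.1 := by
      have := List.isChain_cons_cons.mp hch
      exact this.1
    have hx' : x ∈ V ((l' :: L).getLast (List.cons_ne_nil _ _)).1 := by
      simpa [List.getLast_cons (List.cons_ne_nil l' L)] using hx
    obtain ⟨x'', hx''V, hx''⟩ := ih l' hch' (fun m hm => hnot m (List.mem_cons_of_mem _ hm)) x hx'
    refine ⟨(l'.2 : 𝔾) • x'', ?_, ?_⟩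
    · have h1 := h.pp l'.1 l'.2 l'.2.2 (hnot l' (by simp)) x'' hx''V
      have h2 : (!l'.1) = l.1 := by
        revert hne
        cases l.1 <;> cases l'.1 <;> simp
      rw [h2] at h1
      exact h1
    · rw [lrAmProd_cons, mul_smul, hx'']

theorem lr_am_notMem {A B : Subgroup 𝔾} {V : Bool → Set X} (h : LrAmPP A B V)
    (L : List (Σ i : Bool, ↥(lrAmS A B i))) (hL : L ≠ [])
    (hch : L.IsChain (fun l l' => l.1 ≠ l'.1))
    (hnot : ∀ m ∈ L, (m.2 : 𝔾) ∉ A ⊓ B) : lrAmProd A B L ∉ A ⊓ B := by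
  obtain ⟨l, L', rfl⟩ := List.exists_cons_of_ne_nil hL
  intro hw
  set w := lrAmProd A B (l :: L') with hwdef
  set j := ((l :: L').getLast (List.cons_ne_nil _ _)).1 with hj
  have key := lr_am_chain h L' l hch hnot
  by_cases hjl : j = l.1
  · obtain ⟨x, hx⟩ := h.ne j
    obtain ⟨x', hx'V, hx'⟩ := key x hx
    have h1 : w • x ∈ V (!l.1) := by
      rw [hx']
      exact h.pp l.1 l.2 l.2.2 (hnot l (by simp)) x' hx'V
    have h2 : w • x ∈ V l.1 := by
      have := h.base j w hw x hx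
      rwa [hjl] at this
    revert h1 h2
    cases l.1
    · intro h1 h2
      exact h.disj _ h2 h1
    · intro h1 h2
      exact h.disj _ h1 h2
  · have hjl' : j = !l.1 := by
      revert hjl
      cases j <;> cases l.1 <;> simp
    obtain ⟨y, hyV, hy⟩ := h.wit l.1 l.2 l.2.2 (hnot l (by simp))
    have hy' : w⁻¹ • y ∈ V j := by
      rw [hjl']
      exact h.base _ w⁻¹ (inv_mem hw) y hyV
    obtain ⟨x', hx'V, hx'⟩ := key (w⁻¹ • y) hy'
    rw [smul_inv_smul] at hx'
    exact hy x' hx'V hx'.symm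

/-- Under the ping-pong hypotheses the natural map `A *_C B → 𝔾` is injective. -/
theorem lrAmψ_injective {A B : Subgroup 𝔾} {V : Bool → Set X} (h : LrAmPP A B V) :
    Function.Injective (lrAmψ A B) := by
  classical
  rw [injective_iff_map_eq_one]
  intro x hx
  obtain ⟨d⟩ := PushoutI.NormalWord.transversal_nonempty (lrAmφ A B) (lrAmφ_injective A B)
  set w := PushoutI.NormalWord.equiv (d := d) x with hw
  have hxw : x = w.prod := ((PushoutI.NormalWord.equiv (d := d)).symm_apply_apply x).symm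
  have hprod : lrAmψ A B x = (w.head : 𝔾) * lrAmProd A B w.toList := by
    rw [hxw, PushoutI.NormalWord.prod, map_mul, lrAmψ_base, lrAmψ_word]
  have hnot : ∀ m ∈ w.toList, (m.2 : 𝔾) ∉ A ⊓ B := by
    intro m hm hmC
    have hset : m.2 ∈ d.set m.1 := w.normalized m.1 m.2 (by simpa using hm)
    have hne1 : m.2 ≠ 1 := w.ne_one m hm
    have hrange : m.2 ∈ (lrAmφ A B m.1).range := ⟨⟨(m.2 : 𝔾), hmC⟩, Subtype.ext rfl⟩
    have hinj := (d.compl m.1).injective
    have := @hinj (⟨m.2, hrange⟩, ⟨1, d.one_mem m.1⟩) (⟨1, one_mem _⟩, ⟨m.2, hset⟩) (by simp)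
    have h3 := congrArg (fun p => (p.2 : ↥(lrAmS A B m.1))) this
    exact hne1 h3.symm
  by_cases hL : w.toList = []
  · rw [hprod, hL] at hx
    simp only [lrAmProd, List.map_nil, List.prod_nil, mul_one] at hx
    have hhead : w.head = 1 := Subtype.ext hx
    rw [hxw, PushoutI.NormalWord.prod, hhead, map_one, one_mul]
    have : w.toWord = CoprodI.Word.empty := by
      ext1
      simpa using hL
    rw [this]
    simp
  · exfalso
    have := lr_am_notMem h w.toList hL w.chain_ne hnot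
    apply this
    have h2 : lrAmProd A B w.toList = (w.head : 𝔾)⁻¹ := by
      rw [hprod] at hx
      exact eq_inv_of_mul_eq_one_right hx
    rw [h2]
    exact inv_mem w.head.2

/-- **Universal property of the amalgam inside `𝔾`** (Mayer–Vietoris in degree one):
under the ping-pong hypotheses, homomorphisms on `A` and `B` which agree on `A ⊓ B` extend to
`A ⊔ B`. -/
theorem lr_pingpong_ext {A B : Subgroup 𝔾} {V : Bool → Set X} (h : LrAmPP A B V)
    {F : Type*} [Group F] (χ₁ : ↥A →* F) (χ₂ : ↥B →* F)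
    (hχ : ∀ (a : ↥A) (b : ↥B), (a : 𝔾) = (b : 𝔾) → χ₁ a = χ₂ b) :
    ∃ χ : ↥(A ⊔ B) →* F,
      (∀ a : ↥A, χ ⟨a, (le_sup_left : A ≤ A ⊔ B) a.2⟩ = χ₁ a) ∧
      (∀ b : ↥B, χ ⟨b, (le_sup_right : B ≤ A ⊔ B) b.2⟩ = χ₂ b) := by
  classical
  let χf : ∀ i : Bool, ↥(lrAmS A B i) →* F := fun i =>
    match i with
    | false => χ₁
    | true => χ₂
  have hcompat : ∀ i, (χf i).comp (lrAmφ A B i) = χ₁.comp (lrAmφ A B false) := by
    intro i
    cases i
    · rfl
    · ext c
      exact (hχ ⟨c, c.2.1⟩ ⟨c, c.2.2⟩ rfl).symm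
  let Φ : PushoutI (lrAmφ A B) →* F := PushoutI.lift χf (χ₁.comp (lrAmφ A B false)) hcompat
  have hinj := lrAmψ_injective h
  let e : PushoutI (lrAmφ A B) ≃* (lrAmψ A B).range := MonoidHom.ofInjective hinj
  have hA : A ≤ (lrAmψ A B).range := by
    intro a ha
    exact ⟨PushoutI.of false (⟨a, ha⟩ : ↥(lrAmS A B false)), lrAmψ_of A B false _⟩
  have hB : B ≤ (lrAmψ A B).range := by
    intro b hb
    exact ⟨PushoutI.of true (⟨b, hb⟩ : ↥(lrAmS A B true)), lrAmψ_of A B true _⟩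
  have hle : A ⊔ B ≤ (lrAmψ A B).range := sup_le hA hB
  refine ⟨(Φ.comp e.symm.toMonoidHom).comp (Subgroup.inclusion hle), ?_, ?_⟩
  · intro a
    have h1 : e (PushoutI.of false (⟨a, a.2⟩ : ↥(lrAmS A B false))) =
        Subgroup.inclusion hle ⟨a, (le_sup_left : A ≤ A ⊔ B) a.2⟩ := by
      apply Subtype.ext
      exact lrAmψ_of A B false _
    simp only [MonoidHom.comp_apply, MulEquiv.coe_toMonoidHom]
    rw [← h1, MulEquiv.symm_apply_apply]
    simp only [Φ, PushoutI.lift_of]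
    rfl
  · intro b
    have h1 : e (PushoutI.of true (⟨b, b.2⟩ : ↥(lrAmS A B true))) =
        Subgroup.inclusion hle ⟨b, (le_sup_right : B ≤ A ⊔ B) b.2⟩ := by
      apply Subtype.ext
      exact lrAmψ_of A B true _
    simp only [MonoidHom.comp_apply, MulEquiv.coe_toMonoidHom]
    rw [← h1, MulEquiv.symm_apply_apply]
    simp only [Φ, PushoutI.lift_of]
    rfl

end PingPong

end LR
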