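/-
S41 (level raising), stream S3: the statement of S41 from the two remaining inputs.

`LR.lr_S41_of`: the conclusion of the frozen statement S41 (`exists_newAt_congruentEigenform_
of_levelRaisingCongruence`), under its hypotheses, from
* [S2] the pairing bundle on the lattices of integral parabolic characters of levels `N`, `N q'`;
* [S1] Ihara's lemma mod `p` for the pair `(N, q')`.
Everything else (entry, core, exit, Hecke compatibilities, the auxiliary non-Eisenstein prime)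
is discharged.
-/
import Fermat.Agent.Lib.LR_Main2
import Fermat.Agent.Lib.LR_NonEis
import Fermat.Prelude.Def_FLTPrelim_ModularRep
import Fermat.Prelude.Def_FreyPackage_LevelRaising

set_option autoImplicit false
set_option linter.style.haveILetI false

open CongruenceSubgroup CuspForm ModularFormClass ModularCurve ModularCurve.Period
open WeierstrassCurve WeierstrassCurve.Affine WeierstrassCurve.Affine.Point

namespace LR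

/-- the good primes of S41 -/
def lrGood (W : WeierstrassCurve ℤ) (p N q' : ℕ) : Set ℕ :=
  {ℓ | ℓ.Prime ∧ W.IsGoodPrimeFor ℓ ∧ ¬ ℓ ∣ N * q' ∧ ℓ ≠ p}

theorem lr_S41_of
    (E : WeierstrassCurve ℚ) [E.IsElliptic] {W : WeierstrassCurve ℤ} (hW : W.IsIntegralModelOf E)
    {p N q' : ℕ} [NeZero N] [NeZero q'] (hp : p.Prime) (hp2 : p ≠ 2) (hq' : q'.Prime)
    (hirr : GaloisRepIsIrreducible (K := AlgebraicClosure ℚ) ℚ E p)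
    (f : CuspForm (CongruenceSubgroup.Gamma0 N) 2) (𝔪 : Ideal (integralClosure ℤ ℂ))
    (hf : f.IsNormalizedEigenform) (hmax : 𝔪.IsMaximal) (hpm : (p : integralClosure ℤ ℂ) ∈ 𝔪)
    (hcong : ∀ ℓ : ℕ, ℓ.Prime → W.IsGoodPrimeFor ℓ → ¬ ℓ ∣ N → ℓ ≠ p →
      ∃ a : integralClosure ℤ ℂ, (a : ℂ) = ModularFormClass.qCoeff f ℓ ∧
        a - ((W.apOfModel ℓ : ℤ) : integralClosure ℤ ℂ) ∈ 𝔪)
    (hLR : ∃ a : integralClosure ℤ ℂ, (a : ℂ) = ModularFormClass.qCoeff f q' ∧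
      a ^ 2 - ((q' : integralClosure ℤ ℂ) + 1) ^ 2 ∈ 𝔪)
    (hNq : N.Coprime q')
    -- [S2]
    (bH : lrPar N →ₗ[ℤ] lrPar N →ₗ[ℤ] ℤ)
    (bB : lrPar (N * q') →ₗ[ℤ] lrPar (N * q') →ₗ[ℤ] ℤ)
    (hbH : ∀ y : lrPar N, (∀ x, bH x y = 0) → y = 0)
    (cB : ℤ) (hcB : ¬ (p : ℤ) ∣ cB)
    (hbB : ∀ φ : lrPar (N * q') →ₗ[ℤ] ℤ, ∃ w : lrPar (N * q'), ∀ b, bB b w = cB * φ b)
    (sadjH : ∀ l ∈ lrGood W p N q', ∀ x y x' y' : lrPar N, (x' : X N ℤ) = hecke N l (x : X N ℤ) →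
      (y' : X N ℤ) = hecke N l (y : X N ℤ) → bH x' y = bH x y')
    (sadjB : ∀ l ∈ lrGood W p N q', ∀ x y x' y' : lrPar (N * q'),
      (x' : X (N * q') ℤ) = hecke (N * q') l (x : X (N * q') ℤ) →
      (y' : X (N * q') ℤ) = hecke (N * q') l (y : X (N * q') ℤ) → bB x' y = bB x y')
    (β₁ β₂ : lrPar (N * q') →+ lrPar N)
    (adj₁ : ∀ (x : lrPar N) (x' w : lrPar (N * q')),
      (x' : X (N * q') ℤ) = res1 N q' (x : X N ℤ) → bB x' w = bH x (β₁ w))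
    (adj₂ : ∀ (x : lrPar N) (x' w : lrPar (N * q')),
      (x' : X (N * q') ℤ) = res2 N q' (x : X N ℤ) → bB x' w = bH x (β₂ w))
    (hβ₁ : ∀ w : lrPar (N * q'),
      res1 N q' ((β₁ w : lrPar N) : X N ℤ) = P1 N q' hNq (w : X (N * q') ℤ))
    (hβ₂ : ∀ w : lrPar (N * q'),
      res1 N q' ((β₂ w : lrPar N) : X N ℤ) = P2 N q' hNq (w : X (N * q') ℤ))
    -- [S1]
    (hL1 : ∀ χ₁ χ₂ : X N (ZMod p), IsParabolicHom (Gamma0 N) χ₁ → IsParabolicHom (Gamma0 N) χ₂ →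
      res1 N q' χ₁ + res2 N q' χ₂ = 0 →
      (∀ γ : Gamma0 N, dmod γ = 1 → χ₁ (Additive.ofMul γ) = 0) ∧
        (∀ γ : Gamma0 N, dmod γ = 1 → χ₂ (Additive.ofMul γ) = 0)) :
    ∃ (g : CuspForm (CongruenceSubgroup.Gamma0 (N * q')) 2) (𝔪' : Ideal (integralClosure ℤ ℂ)),
      g.IsNormalizedEigenform ∧ 𝔪'.IsMaximal ∧ (p : integralClosure ℤ ℂ) ∈ 𝔪' ∧
      (∀ ℓ : ℕ, ℓ.Prime → W.IsGoodPrimeFor ℓ → ¬ ℓ ∣ N * q' → ℓ ≠ p →
        ∃ a : integralClosure ℤ ℂ, (a : ℂ) = ModularFormClass.qCoeff g ℓ ∧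
          a - ((W.apOfModel ℓ : ℤ) : integralClosure ℤ ℂ) ∈ 𝔪') ∧
      g.IsNewAt q' := by
  have hM : N * q' * p ≠ 0 :=
    Nat.mul_ne_zero (Nat.mul_ne_zero (NeZero.ne N) (NeZero.ne q')) hp.ne_zero
  obtain ⟨l₀, hl₀p, hl₀M, hl₀good, hl₀⟩ := lr_nonEis_not_dvd E hW hp hp2 hirr (N * q' * p) hM
  have hl₀Nq : ¬ l₀ ∣ N * q' := fun h => hl₀M (Dvd.dvd.mul_right h p)
  have hl₀N : ¬ l₀ ∣ N := fun h => hl₀Nq (Dvd.dvd.mul_right h q')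
  have hl₀ne : l₀ ≠ p := by
    rintro rfl
    exact hl₀M (Dvd.intro_left _ rfl)
  have hl₀G : l₀ ∈ lrGood W p N q' := ⟨hl₀p, hl₀good, hl₀Nq, hl₀ne⟩
  obtain ⟨g, 𝔪', hg, hmax', hpm', hcong', hnew⟩ := lr_main2 hp hq' hNq f hf 𝔪 hmax hpm
    (lrGood W p N q') (fun ℓ hℓ => ⟨hℓ.1, hℓ.2.2.1⟩) (fun ℓ => W.apOfModel ℓ)
    (fun ℓ hℓ => hcong ℓ hℓ.1 hℓ.2.1 (fun h => hℓ.2.2.1 (Dvd.dvd.mul_right h q')) hℓ.2.2.2) hLR
    bH bB hbH cB hcB hbB sadjH sadjB β₁ β₂ adj₁ adj₂ hβ₁ hβ₂ l₀ hl₀G hl₀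
    (lr_ihara_bridge hp hL1 l₀ hl₀p hl₀N)
  exact ⟨g, 𝔪', hg, hmax', hpm', fun ℓ h1 h2 h3 h4 => hcong' ℓ ⟨h1, h2, h3, h4⟩, hnew⟩

end LR
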