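/-
S41 (level raising): the statement of S41 from Ihara's lemma alone.

`LR.lr_S41_of_ihara`: the conclusion of the frozen statement S41, under its hypotheses, from the
mod `p` Ihara lemma [S1] for the pair `(N, q')`; the pairing bundle [S2] of `LR.lr_S41_of` is
discharged by the cup product pairing `LR.lrdCup` of `LR_DualAsm`.
-/
import Fermat.Agent.Lib.LR_S41
import Fermat.Agent.Lib.LR_DualAsm

set_option autoImplicit false
set_option linter.style.haveILetI false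

open CongruenceSubgroup CuspForm ModularFormClass ModularCurve ModularCurve.Period
open WeierstrassCurve WeierstrassCurve.Affine WeierstrassCurve.Affine.Point

namespace LR

theorem lr_S41_of_ihara
    (E : WeierstrassCurve ℚ) [E.IsElliptic] {W : WeierstrassCurve ℤ} (hW : W.IsIntegralModelOf E)
    {p N q' : ℕ} [NeZero N] [NeZero q'] (hp : p.Prime) (hp2 : p ≠ 2) (hq' : q'.Prime)
    (hirr : GaloisRepIsIrreducible (K := AlgebraicClosure ℚ) ℚ E p)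
    (f : CuspForm (CongruenceSubgroup.Gamma0 N) 2) (𝔪 : Ideal (integralClosure ℤ ℂ))
    (hf : f.IsNormalizedEigenform) (hmax : 𝔪.IsMaximal) (hpm : (p : integralClosure ℤ ℂ) ∈ 𝔪)
    (hcong : ∀ ℓ : ℕ, ℓ.Prime → W.IsGoodPrimeFor ℓ → ¬ ℓ ∣ N → ℓ ≠ p →
      ∃ a : integralClosure ℤ ℂ, (a : ℂ) = ModularFormClass.qCoeff f ℓ ∧
        a - ((W.apOfModel ℓ : ℤ) : integralClosure ℤ ℂ) ∈ 𝔪)
    (hLR : ∃ a : integralClosure ℤ ℂ, (a : ℂ) = ModularFormClass.qCoeff f q' ∧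
      a ^ 2 - ((q' : integralClosure ℤ ℂ) + 1) ^ 2 ∈ 𝔪)
    (hNq : N.Coprime q')
    -- [S1]
    (hL1 : ∀ χ₁ χ₂ : X N (ZMod p), IsParabolicHom (Gamma0 N) χ₁ → IsParabolicHom (Gamma0 N) χ₂ →
      res1 N q' χ₁ + res2 N q' χ₂ = 0 →
      (∀ γ : Gamma0 N, dmod γ = 1 → χ₁ (Additive.ofMul γ) = 0) ∧
        (∀ γ : Gamma0 N, dmod γ = 1 → χ₂ (Additive.ofMul γ) = 0)) :
    ∃ (g : CuspForm (CongruenceSubgroup.Gamma0 (N * q')) 2) (𝔪' : Ideal (integralClosure ℤ ℂ)),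
      g.IsNormalizedEigenform ∧ 𝔪'.IsMaximal ∧ (p : integralClosure ℤ ℂ) ∈ 𝔪' ∧
      (∀ ℓ : ℕ, ℓ.Prime → W.IsGoodPrimeFor ℓ → ¬ ℓ ∣ N * q' → ℓ ≠ p →
        ∃ a : integralClosure ℤ ℂ, (a : ℂ) = ModularFormClass.qCoeff g ℓ ∧
          a - ((W.apOfModel ℓ : ℤ) : integralClosure ℤ ℂ) ∈ 𝔪') ∧
      g.IsNewAt q' := by
  haveI : Fact q'.Prime := ⟨hq'⟩
  have hcB : ¬ (p : ℤ) ∣ (2 : ℤ) := by
    intro h
    have h2 : p ∣ 2 := by exact_mod_cast h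
    exact hp2 ((Nat.prime_dvd_prime_iff_eq hp Nat.prime_two).mp h2)
  exact lr_S41_of E hW hp hp2 hq' hirr f 𝔪 hf hmax hpm hcong hLR hNq
    (lrdCup N) (lrdCup (N * q')) (lrdCup_nondeg N) 2 hcB (lrdCup_unimod (N * q'))
    (fun l hl x y x' y' hx hy =>
      lrd_sadj N l hl.1 (fun h => hl.2.2.1 (Dvd.dvd.mul_right h q')) x y x' y' hx hy)
    (fun l hl x y x' y' hx hy => lrd_sadj (N * q') l hl.1 hl.2.2.1 x y x' y' hx hy)
    (lrdBeta1 N q') (lrdBeta2 N q' hNq)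
    (lrd_adj1 N q') (lrd_adj2 N q' hNq) (lrd_beta1 N q' hNq) (lrd_beta2 N q' hNq) hL1

end LR
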