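/-
S41 (level raising), stream S1 (Ihara's lemma), leaf L3: the number theory of step (c) of the
integer route (Dirichlet + CRT + Fermat).

`LR.lr_sym_arith`: for a prime `r ∤ N q`, `g₂ = q ^ (2 k₂) ≡ 1 mod N²` and integers `x, y` prime to
`r` with `x ≢ 1 mod r`, there are integers `κ, δ, a, a'` and an exponent `j` with
`κ a + δ = 1`, `κ a' + δ = q ^ (2 j)`, `a ≡ a' ≡ δ ≡ 1 mod N`, `δ ≡ x`, `a y ≡ 1` and
`a' y (1 - x) ≡ g₂ - x mod r`.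
-/
import Mathlib

set_option autoImplicit false

namespace LR

theorem lr_sym_arith (N q r k₂ : ℕ) (hN : N ≠ 0) (hq : q.Prime) (hr : r.Prime) (hNq : N.Coprime q)
    (hrN : ¬ r ∣ N) (hrq : r ≠ q) (hk₂ : (N : ℤ) ^ 2 ∣ (q : ℤ) ^ (2 * k₂) - 1)
    (x y : ℤ) (hx : ¬ (r : ℤ) ∣ x) (hy : ¬ (r : ℤ) ∣ y) (hx1 : ¬ (r : ℤ) ∣ x - 1) :
    ∃ (κ δ a a' : ℤ) (j : ℕ),
      κ * a + δ = 1 ∧ κ * a' + δ = (q : ℤ) ^ (2 * j) ∧ IsCoprime ((N : ℤ) * r * κ) δ ∧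
      (N : ℤ) ∣ δ - 1 ∧ (N : ℤ) ∣ a - 1 ∧ (N : ℤ) ∣ a' - 1 ∧
      (r : ℤ) ∣ δ - x ∧ (r : ℤ) ∣ a * y - 1 ∧
      (r : ℤ) ∣ a' * y * (1 - x) - ((q : ℤ) ^ (2 * k₂) - x) := by
  have _ := hNq
  have hrp : Prime (r : ℤ) := Nat.prime_iff_prime_int.mp hr
  -- `r` is odd
  have hr2 : r ≠ 2 := by
    rintro rfl
    rcases Int.emod_two_eq_zero_or_one x with h | h
    · exact hx (by
        have : ((2 : ℕ) : ℤ) = 2 := by norm_num
        rw [this]; exact Int.dvd_of_emod_eq_zero h)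
    · exact hx1 (by
        have : ((2 : ℕ) : ℤ) = 2 := by norm_num
        rw [this]; omega)
  have hr3 : 3 ≤ r := by have := hr.two_le; omega
  -- inverse of `N` modulo `r`
  have hNr : IsCoprime (N : ℤ) (r : ℤ) := by
    rw [Nat.isCoprime_iff_coprime]
    exact (Nat.Coprime.symm ((Nat.Prime.coprime_iff_not_dvd hr).mpr hrN))
  obtain ⟨Ninv, vN, hNinv⟩ := hNr
  obtain ⟨M1, hM1⟩ : ∃ M1 : ℕ, M1 = 4 * N * (r - 1) := ⟨_, rfl⟩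
  have hM1pos : M1 ≠ 0 := by
    rw [hM1]
    have : r - 1 ≠ 0 := by omega
    positivity
  have hM1r : IsCoprime (M1 : ℤ) (r : ℤ) := by
    rw [Nat.isCoprime_iff_coprime]
    apply Nat.Coprime.symm
    rw [Nat.Prime.coprime_iff_not_dvd hr, hM1]
    intro hdvd
    rcases (Nat.Prime.dvd_mul hr).mp hdvd with h | h
    · rcases (Nat.Prime.dvd_mul hr).mp h with h' | h'
      · have h4 := Nat.le_of_dvd (by norm_num) h'
        interval_cases r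
        · omega
        · exact absurd hr (by decide)
      · exact hrN h'
    · have := Nat.le_of_dvd (by omega) h
      omega
  obtain ⟨u, v, huv⟩ := hM1r
  -- the residue class
  obtain ⟨zr, hzr⟩ : ∃ zr : ℤ, zr = y * (1 - x) * Ninv := ⟨_, rfl⟩
  obtain ⟨z, hz⟩ : ∃ z : ℤ, z = -(v * r) + zr * (u * M1) := ⟨_, rfl⟩
  have hz1 : (M1 : ℤ) ∣ z + 1 := ⟨u + zr * u, by rw [hz]; linear_combination (-1 : ℤ) * huv⟩
  have hz2 : (r : ℤ) ∣ z - zr := ⟨-v - zr * v, by rw [hz]; linear_combination zr * huv⟩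
  have hzM1 : IsCoprime z (M1 : ℤ) := by
    obtain ⟨s, hs⟩ := hz1
    exact ⟨-1, s, by linear_combination (-1 : ℤ) * hs⟩
  have hzr' : ¬ (r : ℤ) ∣ zr := by
    intro h
    rw [hzr] at h
    rcases hrp.dvd_or_dvd h with h1 | h1
    · rcases hrp.dvd_or_dvd h1 with h2 | h2
      · exact hy h2
      · exact hx1 (by
          have : x - 1 = -(1 - x) := by ring
          rw [this]; exact (dvd_neg.mpr h2))
    · have : (r : ℤ) ∣ 1 := by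
        rw [← hNinv]
        exact dvd_add (Dvd.dvd.mul_right h1 _) (Dvd.intro_left _ rfl)
      exact hrp.not_dvd_one this
  have hzr'' : IsCoprime z (r : ℤ) := by
    apply IsCoprime.symm
    rw [hrp.coprime_iff_not_dvd]
    intro h
    exact hzr' ((dvd_sub_right h).mp hz2)
  have hzM : IsCoprime z ((M1 * r : ℕ) : ℤ) := by
    push_cast
    exact hzM1.mul_right hzr''
  -- Dirichlet
  obtain ⟨k1, hk1gt, hk1p, hk1z⟩ := Nat.forall_exists_prime_gt_and_zmodEq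
    (max (max q r) (max N 2)) (Nat.mul_ne_zero hM1pos hr.ne_zero) hzM
  have hk1q : q < k1 := lt_of_le_of_lt (le_trans (le_max_left _ _) (le_max_left _ _)) hk1gt
  have hk1r : r < k1 := lt_of_le_of_lt (le_trans (le_max_right _ _) (le_max_left _ _)) hk1gt
  have hk1N : N < k1 := lt_of_le_of_lt (le_trans (le_max_left _ _) (le_max_right _ _)) hk1gt
  have hk12 : 2 < k1 := lt_of_le_of_lt (le_trans (le_max_right _ _) (le_max_right _ _)) hk1gt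
  have hk1p' : Prime (k1 : ℤ) := Nat.prime_iff_prime_int.mp hk1p
  -- congruences of `k1`
  have hk1z' : ((M1 * r : ℕ) : ℤ) ∣ (k1 : ℤ) - z := (Int.modEq_iff_dvd.mp hk1z.symm)
  have hk1M1 : (M1 : ℤ) ∣ (k1 : ℤ) + 1 := by
    have h1 : (M1 : ℤ) ∣ (k1 : ℤ) - z :=
      Dvd.dvd.trans ⟨(r : ℤ), by push_cast; ring⟩ hk1z'
    have e : (k1 : ℤ) + 1 = ((k1 : ℤ) - z) + (z + 1) := by ring
    rw [e]
    exact dvd_add h1 hz1
  have hk1zr : (r : ℤ) ∣ (k1 : ℤ) - zr := by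
    have h1 : (r : ℤ) ∣ (k1 : ℤ) - z :=
      Dvd.dvd.trans ⟨(M1 : ℤ), by push_cast; ring⟩ hk1z'
    have e : (k1 : ℤ) - zr = ((k1 : ℤ) - z) + (z - zr) := by ring
    rw [e]
    exact dvd_add h1 hz2
  have hNk1 : (r : ℤ) ∣ (N : ℤ) * k1 - y * (1 - x) := by
    have e : (N : ℤ) * k1 - y * (1 - x) = (N : ℤ) * ((k1 : ℤ) - zr) + (r : ℤ) * (-(y * (1 - x) * vN)) := by
      rw [hzr]; linear_combination (y * (1 - x)) * hNinv
    rw [e]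
    exact dvd_add (Dvd.dvd.mul_left hk1zr _) (Dvd.intro _ rfl)
  -- `k1 + 1 = 4 N (r - 1) e₀`
  obtain ⟨e₀, he₀⟩ : ∃ e₀ : ℕ, k1 + 1 = M1 * e₀ := by
    have h1 : ((M1 : ℕ) : ℤ) ∣ ((k1 + 1 : ℕ) : ℤ) := by push_cast; exact hk1M1
    exact Int.natCast_dvd_natCast.mp h1
  obtain ⟨t', ht'⟩ : ∃ t' : ℕ, t' + 2 = 2 * N * (r - 1) * e₀ := by
    refine ⟨2 * N * (r - 1) * e₀ - 2, ?_⟩
    have h1 : k1 + 1 = 2 * (2 * N * (r - 1) * e₀) := by rw [he₀, hM1]; ring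
    omega
  have hk1t : k1 - 1 = 2 * (t' + 1) := by
    have h1 : k1 + 1 = 2 * (2 * N * (r - 1) * e₀) := by rw [he₀, hM1]; ring
    omega
  obtain ⟨e', he'⟩ : ∃ e' : ℕ, (t' + 1) * (t' + 1) = 1 + (r - 1) * e' := by
    refine ⟨t' * (2 * N * e₀), ?_⟩
    have h1 : (t' + 1) * (t' + 1) = 1 + t' * (t' + 2) := by ring
    rw [h1, ht']; ring
  obtain ⟨j, hj⟩ : ∃ j : ℕ, j = k₂ * ((t' + 1) * (t' + 1)) := ⟨_, rfl⟩
  -- the three congruences of `w' = q ^ (2 j)`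
  have hqk1 : IsCoprime (q : ℤ) (k1 : ℤ) := by
    rw [Nat.isCoprime_iff_coprime]
    exact (Nat.coprime_primes hq hk1p).mpr (by omega)
  have hqr : IsCoprime (q : ℤ) (r : ℤ) := by
    rw [Nat.isCoprime_iff_coprime]
    exact (Nat.coprime_primes hq hr).mpr (fun h => hrq h.symm)
  have hwk1 : (k1 : ℤ) ∣ (q : ℤ) ^ (2 * j) - 1 := by
    have hF := Int.ModEq.pow_card_sub_one_eq_one hk1p (hqk1.pow_left (m := k₂ * (t' + 1)))
    have h1 : (q : ℤ) ^ (2 * j) = ((q : ℤ) ^ (k₂ * (t' + 1))) ^ (k1 - 1) := by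
      rw [← pow_mul, hk1t, hj]; ring_nf
    rw [h1]
    exact (Int.modEq_iff_dvd.mp hF.symm)
  have hwr : (r : ℤ) ∣ (q : ℤ) ^ (2 * j) - (q : ℤ) ^ (2 * k₂) := by
    have hF := Int.ModEq.pow_card_sub_one_eq_one hr (hqr.pow_left (m := 2 * k₂ * e'))
    have h1 : (q : ℤ) ^ (2 * j) = (q : ℤ) ^ (2 * k₂) * ((q : ℤ) ^ (2 * k₂ * e')) ^ (r - 1) := by
      rw [← pow_mul, ← pow_add, hj, he']; ring_nf
    have h2 : (q : ℤ) ^ (2 * k₂) * ((q : ℤ) ^ (2 * k₂ * e')) ^ (r - 1)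
        ≡ (q : ℤ) ^ (2 * k₂) * 1 [ZMOD (r : ℤ)] := Int.ModEq.mul_left _ hF
    rw [mul_one] at h2
    rw [h1]
    exact (Int.modEq_iff_dvd.mp h2.symm)
  have hwN : (N : ℤ) ^ 2 ∣ (q : ℤ) ^ (2 * j) - 1 := by
    have h0 : (q : ℤ) ^ (2 * k₂) ≡ 1 [ZMOD (N : ℤ) ^ 2] :=
      (Int.modEq_iff_dvd.mpr hk₂).symm
    have h1 : (q : ℤ) ^ (2 * j) = ((q : ℤ) ^ (2 * k₂)) ^ ((t' + 1) * (t' + 1)) := by
      rw [← pow_mul, hj]; ring_nf
    have h2 := h0.pow ((t' + 1) * (t' + 1))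
    rw [one_pow] at h2
    rw [h1]
    exact (Int.modEq_iff_dvd.mp h2.symm)
  -- coprimalities for the CRT
  have hk1rc : IsCoprime (k1 : ℤ) (r : ℤ) := by
    rw [Nat.isCoprime_iff_coprime]
    exact (Nat.coprime_primes hk1p hr).mpr (by omega)
  have hk1Nc : IsCoprime (k1 : ℤ) (N : ℤ) := by
    rw [Nat.isCoprime_iff_coprime, Nat.Prime.coprime_iff_not_dvd hk1p]
    intro h
    have := Nat.le_of_dvd (Nat.pos_of_ne_zero hN) h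
    omega
  have hrNc : IsCoprime (r : ℤ) (N : ℤ) := by
    rw [Nat.isCoprime_iff_coprime]
    exact (Nat.Prime.coprime_iff_not_dvd hr).mpr hrN
  obtain ⟨u1, v1, h1⟩ : IsCoprime ((r : ℤ) * (N : ℤ) ^ 2) (k1 : ℤ) :=
    (hk1rc.symm.mul_left hk1Nc.symm.pow_left)
  obtain ⟨u2, v2, h2⟩ : IsCoprime ((k1 : ℤ) * (N : ℤ) ^ 2) (r : ℤ) :=
    (hk1rc.mul_left hrNc.symm.pow_left)
  obtain ⟨u3, v3, h3⟩ : IsCoprime ((k1 : ℤ) * (r : ℤ)) ((N : ℤ) ^ 2) :=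
    (hk1Nc.pow_right.mul_left hrNc.pow_right)
  obtain ⟨δ, hδ⟩ : ∃ δ : ℤ, δ = u1 * ((r : ℤ) * (N : ℤ) ^ 2) + x * (u2 * ((k1 : ℤ) * (N : ℤ) ^ 2))
      + (1 + (N : ℤ)) * (u3 * ((k1 : ℤ) * (r : ℤ))) := ⟨_, rfl⟩
  have hδk : δ - 1 = (k1 : ℤ) * (-v1 + x * u2 * (N : ℤ) ^ 2 + (1 + (N : ℤ)) * u3 * r) := by
    rw [hδ]; linear_combination h1
  have hδr : δ - x = (r : ℤ) * (u1 * (N : ℤ) ^ 2 + (1 + (N : ℤ)) * u3 * k1 - x * v2) := by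
    rw [hδ]; linear_combination x * h2
  have hδN : δ - 1 - (N : ℤ) = (N : ℤ) ^ 2 * (u1 * r + x * u2 * k1 - (1 + (N : ℤ)) * v3) := by
    rw [hδ]; linear_combination (1 + (N : ℤ)) * h3
  obtain ⟨sδ, hsδ⟩ : ∃ sδ : ℤ, δ - 1 - (N : ℤ) = (N : ℤ) ^ 2 * sδ := ⟨_, hδN⟩
  obtain ⟨sw, hsw⟩ := hwN
  obtain ⟨cw, hcw⟩ := hwk1
  have hN0 : (N : ℤ) ≠ 0 := by exact_mod_cast hN
  have hNδ : (N : ℤ) ∣ δ - 1 := ⟨1 + (N : ℤ) * sδ, by linear_combination hsδ⟩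
  have hk1δ : (k1 : ℤ) ∣ δ - 1 := ⟨_, hδk⟩
  -- `a` and `a'`
  obtain ⟨a, ha⟩ : (N : ℤ) * (k1 : ℤ) ∣ 1 - δ := by
    apply hk1Nc.symm.mul_dvd
    · have e : (1 : ℤ) - δ = -(δ - 1) := by ring
      rw [e]; exact dvd_neg.mpr hNδ
    · have e : (1 : ℤ) - δ = -(δ - 1) := by ring
      rw [e]; exact dvd_neg.mpr hk1δ
  obtain ⟨a', ha'⟩ : (N : ℤ) * (k1 : ℤ) ∣ (q : ℤ) ^ (2 * j) - δ := by
    apply hk1Nc.symm.mul_dvd
    · have e : (q : ℤ) ^ (2 * j) - δ = ((q : ℤ) ^ (2 * j) - 1) - (δ - 1) := by ring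
      rw [e]
      exact dvd_sub ⟨(N : ℤ) * sw, by rw [hsw]; ring⟩ hNδ
    · have e : (q : ℤ) ^ (2 * j) - δ = ((q : ℤ) ^ (2 * j) - 1) - (δ - 1) := by ring
      rw [e]
      exact dvd_sub ⟨cw, hcw⟩ hk1δ
  obtain ⟨cM, hcM⟩ := hk1M1
  have hNk1' : (N : ℤ) ∣ (k1 : ℤ) + 1 := ⟨4 * ((r - 1 : ℕ) : ℤ) * cM, by
    rw [hcM, hM1]; push_cast; ring⟩
  obtain ⟨cN, hcN⟩ := hNk1'
  obtain ⟨cr, hcr⟩ := hNk1
  obtain ⟨cwr, hcwr⟩ := hwr
  refine ⟨(N : ℤ) * (k1 : ℤ), δ, a, a', j, ?_, ?_, ?_, hNδ, ?_, ?_, ⟨_, hδr⟩, ?_, ?_⟩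
  · linear_combination (-1 : ℤ) * ha
  · linear_combination (-1 : ℤ) * ha'
  · -- coprimality
    have c1 : IsCoprime (N : ℤ) δ := by
      obtain ⟨c, hc⟩ := hNδ
      exact ⟨-c, 1, by linear_combination hc⟩
    have c2 : IsCoprime (r : ℤ) δ := by
      rw [hrp.coprime_iff_not_dvd]
      intro h
      apply hx
      have e : x = δ - (δ - x) := by ring
      rw [e]
      exact dvd_sub h ⟨_, hδr⟩
    have c3 : IsCoprime (k1 : ℤ) δ := by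
      obtain ⟨c, hc⟩ := hk1δ
      exact ⟨-c, 1, by linear_combination hc⟩
    exact (c1.mul_left c2).mul_left (c1.mul_left c3)
  · -- `N ∣ a - 1`
    have e : (N : ℤ) * (a - 1) = (N : ℤ) * (((k1 : ℤ) + 1) * a + (N : ℤ) * sδ) := by
      linear_combination ha + hsδ
    have e2 := mul_left_cancel₀ hN0 e
    rw [e2, hcN]
    exact ⟨cN * a + sδ, by ring⟩
  · -- `N ∣ a' - 1`
    have e : (N : ℤ) * (a' - 1) = (N : ℤ) * (((k1 : ℤ) + 1) * a' - (N : ℤ) * (sw - sδ)) := by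
      linear_combination ha' - hsw + hsδ
    have e2 := mul_left_cancel₀ hN0 e
    rw [e2, hcN]
    exact ⟨cN * a' - (sw - sδ), by ring⟩
  · -- `r ∣ a y - 1`
    have h : (r : ℤ) ∣ (1 - x) * (a * y - 1) := by
      refine ⟨-a * cr - (u1 * (N : ℤ) ^ 2 + (1 + (N : ℤ)) * u3 * k1 - x * v2), ?_⟩
      linear_combination (-a) * hcr - hδr - ha
    rcases hrp.dvd_or_dvd h with h' | h'
    · exfalso
      apply hx1
      have e : x - 1 = -(1 - x) := by ring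
      rw [e]; exact dvd_neg.mpr h'
    · exact h'
  · -- `r ∣ a' y (1 - x) - (g₂ - x)`
    refine ⟨-a' * cr + cwr - (u1 * (N : ℤ) ^ 2 + (1 + (N : ℤ)) * u3 * k1 - x * v2), ?_⟩
    linear_combination (-a') * hcr + hcwr - hδr - ha'

end LR
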