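import Mathlib

set_option autoImplicit false

namespace LR

open Subgroup MonoidHom

variable {G : Type*} [Group G] {H : Subgroup G} {A : Type*} [CommGroup A]

/-- Explicit formula for the transfer with respect to an arbitrary indexed left transversal. -/
theorem lr_transfer_eq_prod [H.FiniteIndex] (ϕ : H →* A) {ι : Type*} [Fintype ι] (t : ι → G)
    (ht : Function.Bijective (fun i => (t i : G ⧸ H))) (g : G) (σ : ι → ι)
    (hσ : ∀ i, (t i)⁻¹ * g * t (σ i) ∈ H) :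
    MonoidHom.transfer ϕ g = ∏ i, ϕ ⟨(t i)⁻¹ * g * t (σ i), hσ i⟩ := by
  classical
  let e : ι ≃ G ⧸ H := Equiv.ofBijective _ ht
  have he : ∀ i, e i = (t i : G ⧸ H) := fun i => rfl
  let f : G ⧸ H → G := fun q => t (e.symm q)
  have hf : ∀ q, (f q : G ⧸ H) = q := fun q => e.apply_symm_apply q
  let T : H.LeftTransversal := ⟨Set.range f, isComplement_range_left hf⟩
  have hσ' : ∀ i, e.symm (g⁻¹ • e i) = σ i := by
    intro i
    rw [Equiv.symm_apply_eq, he, he, MulAction.Quotient.smul_mk, QuotientGroup.eq]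
    simpa [mul_assoc] using hσ i
  rw [transfer_def ϕ T g]
  unfold Subgroup.leftTransversals.diff
  let _ := H.fintypeQuotientOfFiniteIndex
  simp only
  rw [← e.prod_comp]
  refine Finset.prod_congr rfl fun i _ => ?_
  congr 1
  rw [Subtype.ext_iff]
  simp only
  rw [Subgroup.smul_apply_eq_smul_apply_inv_smul, IsComplement.leftQuotientEquiv_apply hf,
    IsComplement.leftQuotientEquiv_apply hf]
  simp only [f, hσ', Equiv.symm_apply_apply, smul_eq_mul, mul_assoc]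

theorem lr_out_mem (H : Subgroup G) (g : G) (q : G ⧸ H) :
    q.out⁻¹ * g * (g⁻¹ • q).out ∈ H := by
  have h1 : ((g⁻¹ * q.out : G) : G ⧸ H) = (((g⁻¹ • q).out : G) : G ⧸ H) := by
    rw [QuotientGroup.out_eq', ← smul_eq_mul, ← MulAction.Quotient.smul_mk, QuotientGroup.out_eq']
  have h2 := QuotientGroup.eq.mp h1
  simpa [mul_assoc] using h2

theorem lr_out_bij (H : Subgroup G) : Function.Bijective (fun q : G ⧸ H => ((q.out : G) : G ⧸ H)) := by
  have : (fun q : G ⧸ H => ((q.out : G) : G ⧸ H)) = _root_.id := by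
    funext q; exact QuotientGroup.out_eq' q
  rw [this]; exact Function.bijective_id

/-- The transfer, computed with the `Quotient.out` transversal. -/
theorem lr_transfer_eq_prod_out [H.FiniteIndex] [Fintype (G ⧸ H)] (ϕ : H →* A) (g : G) :
    MonoidHom.transfer ϕ g = ∏ q : G ⧸ H, ϕ ⟨q.out⁻¹ * g * (g⁻¹ • q).out, lr_out_mem H g q⟩ :=
  lr_transfer_eq_prod ϕ (fun q : G ⧸ H => q.out) (lr_out_bij H) g (fun q => g⁻¹ • q)
    (lr_out_mem H g)

theorem lr_transfer_mul [H.FiniteIndex] (ϕ ϕ' : H →* A) :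
    MonoidHom.transfer (ϕ * ϕ') = MonoidHom.transfer ϕ * MonoidHom.transfer ϕ' := by
  ext g
  let _ := H.fintypeQuotientOfFiniteIndex
  rw [MonoidHom.mul_apply, lr_transfer_eq_prod_out, lr_transfer_eq_prod_out,
    lr_transfer_eq_prod_out, ← Finset.prod_mul_distrib]
  rfl

theorem lr_transfer_one [H.FiniteIndex] :
    MonoidHom.transfer (1 : H →* A) = 1 := by
  ext g
  let _ := H.fintypeQuotientOfFiniteIndex
  rw [lr_transfer_eq_prod_out]
  simp

/-- The transfer as a homomorphism in the character. -/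
noncomputable def lrTransferHom (H : Subgroup G) [H.FiniteIndex] (A : Type*) [CommGroup A] :
    (H →* A) →* (G →* A) where
  toFun ϕ := MonoidHom.transfer ϕ
  map_one' := lr_transfer_one
  map_mul' := lr_transfer_mul

theorem lr_transfer_prod [H.FiniteIndex] {ι : Type*} (s : Finset ι) (ϕ : ι → (H →* A)) :
    MonoidHom.transfer (∏ i ∈ s, ϕ i) = ∏ i ∈ s, MonoidHom.transfer (ϕ i) :=
  map_prod (lrTransferHom H A) ϕ s

/-- Naturality of the transfer in the coefficient group. -/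
theorem lr_transfer_comp_left [H.FiniteIndex] {A' : Type*} [CommGroup A'] (u : A →* A')
    (ϕ : H →* A) : MonoidHom.transfer (u.comp ϕ) = u.comp (MonoidHom.transfer ϕ) := by
  ext g
  let _ := H.fintypeQuotientOfFiniteIndex
  rw [MonoidHom.comp_apply, lr_transfer_eq_prod_out, lr_transfer_eq_prod_out, map_prod]
  rfl

/-- The transfer of a restriction is the `index`-th power. -/
theorem lr_transfer_restrict [H.FiniteIndex] (χ : G →* A) :
    MonoidHom.transfer (χ.comp H.subtype) = χ ^ H.index := by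
  ext g
  let _ := H.fintypeQuotientOfFiniteIndex
  rw [lr_transfer_eq_prod_out]
  have h1 : ∀ q : G ⧸ H, (χ.comp H.subtype) ⟨q.out⁻¹ * g * (g⁻¹ • q).out, lr_out_mem H g q⟩
      = (χ q.out)⁻¹ * χ g * χ ((MulAction.toPerm g⁻¹ q).out) := by
    intro q
    simp [MonoidHom.comp_apply]
  rw [Finset.prod_congr rfl (fun q _ => h1 q), Finset.prod_mul_distrib, Finset.prod_mul_distrib,
    Equiv.prod_comp (MulAction.toPerm g⁻¹) (fun q : G ⧸ H => χ q.out), Finset.prod_inv_distrib,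
    Finset.prod_const, Finset.card_univ, MonoidHom.pow_apply, Subgroup.index_eq_card,
    Nat.card_eq_fintype_card]
  rw [mul_comm, ← mul_assoc, mul_inv_cancel, one_mul]

theorem lr_finiteIndex_of_spec [H.FiniteIndex] (L : Subgroup H) [L.FiniteIndex]
    (L' : Subgroup G) (hL' : ∀ x : G, x ∈ L' ↔ ∃ hx : x ∈ H, (⟨x, hx⟩ : H) ∈ L) :
    L'.FiniteIndex := by
  have h : L' = L.map H.subtype := by
    ext x
    rw [hL', Subgroup.mem_map]
    constructor
    · rintro ⟨hx, hxL⟩; exact ⟨⟨x, hx⟩, hxL, rfl⟩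
    · rintro ⟨y, hy, rfl⟩; exact ⟨y.2, hy⟩
  rw [h]
  refine ⟨?_⟩
  rw [Subgroup.index_map_subtype]
  exact mul_ne_zero (FiniteIndex.index_ne_zero (H := L)) (FiniteIndex.index_ne_zero (H := H))

/-- Transitivity of the transfer. -/
theorem lr_transfer_trans [H.FiniteIndex] (L : Subgroup H) [L.FiniteIndex] (ϕ : L →* A)
    (L' : Subgroup G) [L'.FiniteIndex]
    (hL' : ∀ x : G, x ∈ L' ↔ ∃ hx : x ∈ H, (⟨x, hx⟩ : H) ∈ L)
    (ϕ' : L' →* A)
    (hϕ' : ∀ (x : G) (hx' : x ∈ L') (hx : x ∈ H) (hxL : (⟨x, hx⟩ : H) ∈ L),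
      ϕ' ⟨x, hx'⟩ = ϕ ⟨⟨x, hx⟩, hxL⟩) :
    MonoidHom.transfer (MonoidHom.transfer ϕ) = MonoidHom.transfer ϕ' := by
  ext g
  let _ := H.fintypeQuotientOfFiniteIndex
  let _ := L.fintypeQuotientOfFiniteIndex
  let T : (G ⧸ H) × (H ⧸ L) → G := fun p => p.1.out * (p.2.out : G)
  have hT : Function.Bijective (fun p => (T p : G ⧸ L')) := by
    constructor
    · rintro ⟨i, j⟩ ⟨i', j'⟩ h
      have h1 := QuotientGroup.eq.mp h
      obtain ⟨hx, hxL⟩ := (hL' _).mp h1
      have hi : i = i' := by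
        rw [← QuotientGroup.out_eq' i, ← QuotientGroup.out_eq' i', QuotientGroup.eq]
        have := H.mul_mem (H.mul_mem j.out.2 hx) (H.inv_mem j'.out.2)
        convert this using 1
        simp only [T]; group
      subst hi
      have hj : j = j' := by
        rw [← QuotientGroup.out_eq' j, ← QuotientGroup.out_eq' j', QuotientGroup.eq]
        convert hxL using 1
        ext; simp [T, mul_assoc]
      subst hj; rfl
    · intro q
      induction q using QuotientGroup.induction_on with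
      | H g₀ =>
        have hh : ((g₀ : G ⧸ H)).out⁻¹ * g₀ ∈ H := by
          rw [← QuotientGroup.eq, QuotientGroup.out_eq']
        let h : H := ⟨_, hh⟩
        have hl : ((h : H ⧸ L)).out⁻¹ * h ∈ L := by
          rw [← QuotientGroup.eq, QuotientGroup.out_eq']
        refine ⟨((g₀ : G ⧸ H), (h : H ⧸ L)), ?_⟩
        show ((T _ : G) : G ⧸ L') = _
        rw [QuotientGroup.eq, hL']
        refine ⟨?_, ?_⟩
        · have := H.mul_mem (H.inv_mem ((h : H ⧸ L)).out.2) hh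
          convert this using 1
          simp only [T]; group
        · convert hl using 1
          ext; simp [T, h, mul_assoc]
  let hh : G ⧸ H → H := fun i => ⟨i.out⁻¹ * g * (g⁻¹ • i).out, lr_out_mem H g i⟩
  let σ : (G ⧸ H) × (H ⧸ L) → (G ⧸ H) × (H ⧸ L) := fun p => (g⁻¹ • p.1, (hh p.1)⁻¹ • p.2)
  have hσ0 : ∀ p : (G ⧸ H) × (H ⧸ L), (T p)⁻¹ * g * T (σ p) =
      (((p.2.out)⁻¹ * hh p.1 * ((hh p.1)⁻¹ • p.2).out : H) : G) := by
    intro p
    simp only [T, σ, hh, Subgroup.coe_mul, Subgroup.coe_inv]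
    group
  have hσ : ∀ p, (T p)⁻¹ * g * T (σ p) ∈ L' := by
    intro p
    rw [hσ0, hL']
    exact ⟨SetLike.coe_mem _, lr_out_mem L (hh p.1) p.2⟩
  rw [lr_transfer_eq_prod ϕ' T hT g σ hσ, lr_transfer_eq_prod_out, Fintype.prod_prod_type]
  refine Finset.prod_congr rfl fun i _ => ?_
  have : (⟨i.out⁻¹ * g * (g⁻¹ • i).out, lr_out_mem H g i⟩ : H) = hh i := rfl
  rw [this, lr_transfer_eq_prod_out]
  refine Finset.prod_congr rfl fun j _ => ?_
  symm
  have h3 := hσ0 (i, j)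
  have h4 := lr_out_mem L (hh i) j
  rw [hϕ' _ (hσ (i, j)) (by rw [h3]; exact SetLike.coe_mem _) (by
    convert h4 using 1
    exact Subtype.ext h3)]
  congr 1
  exact Subtype.ext (Subtype.ext h3)


/-- Mackey's double coset formula for the pull-back of a transfer along a homomorphism. -/
theorem lr_transfer_mackey {H' : Type*} [Group H'] (f : H' →* G) (K : Subgroup G) [K.FiniteIndex]
    (ψ : K →* A) {ι : Type*} [Fintype ι] (δ : ι → G)
    (hδs : ∀ g : G, ∃ i h, (f h * δ i)⁻¹ * g ∈ K)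
    (hδi : ∀ i j h, (f h * δ i)⁻¹ * δ j ∈ K → i = j)
    (L : ι → Subgroup H') [∀ i, (L i).FiniteIndex]
    (hL : ∀ i h, h ∈ L i ↔ (δ i)⁻¹ * f h * δ i ∈ K)
    (c : ∀ i, L i →* A)
    (hc : ∀ i h (hh : h ∈ L i) (hk : (δ i)⁻¹ * f h * δ i ∈ K), c i ⟨h, hh⟩ = ψ ⟨_, hk⟩) :
    (MonoidHom.transfer ψ).comp f = ∏ i, MonoidHom.transfer (c i) := by
  classical
  ext h
  rw [MonoidHom.comp_apply, MonoidHom.finsetProd_apply]
  let _ := fun i => (L i).fintypeQuotientOfFiniteIndex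
  let T : (Σ i, H' ⧸ L i) → G := fun p => f p.2.out * δ p.1
  have hT : Function.Bijective (fun p => (T p : G ⧸ K)) := by
    constructor
    · rintro ⟨i, q⟩ ⟨i', q'⟩ hqq
      have h1 := QuotientGroup.eq.mp hqq
      have hi : i = i' := by
        apply hδi i i' (q'.out⁻¹ * q.out)
        convert h1 using 1
        simp [T, mul_assoc]
      subst hi
      have hq : q = q' := by
        rw [← QuotientGroup.out_eq' q, ← QuotientGroup.out_eq' q', QuotientGroup.eq, hL]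
        convert h1 using 1
        simp [T, mul_assoc]
      subst hq; rfl
    · intro x
      induction x using QuotientGroup.induction_on with
      | H g₀ =>
        obtain ⟨i, h₀, hk⟩ := hδs g₀
        have hl : ((h₀ : H' ⧸ L i)).out⁻¹ * h₀ ∈ L i := by
          rw [← QuotientGroup.eq, QuotientGroup.out_eq']
        refine ⟨⟨i, (h₀ : H' ⧸ L i)⟩, ?_⟩
        show ((T _ : G) : G ⧸ K) = _
        rw [QuotientGroup.eq]
        have := K.mul_mem ((hL i _).mp hl) hk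
        convert this using 1
        simp [T, mul_assoc]
  let σ : (Σ i, H' ⧸ L i) → (Σ i, H' ⧸ L i) := fun p => ⟨p.1, h⁻¹ • p.2⟩
  have hσ0 : ∀ p : (Σ i, H' ⧸ L i), (T p)⁻¹ * f h * T (σ p) =
      (δ p.1)⁻¹ * f (p.2.out⁻¹ * h * (h⁻¹ • p.2).out) * δ p.1 := by
    intro p
    simp only [T, σ, map_mul, map_inv]
    group
  have hσ : ∀ p, (T p)⁻¹ * f h * T (σ p) ∈ K := by
    intro p
    rw [hσ0, ← hL]
    exact lr_out_mem (L p.1) h p.2
  rw [lr_transfer_eq_prod ψ T hT (f h) σ hσ, Fintype.prod_sigma]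
  refine Finset.prod_congr rfl fun i _ => ?_
  rw [lr_transfer_eq_prod_out]
  refine Finset.prod_congr rfl fun q _ => ?_
  symm
  have h3 := hσ0 ⟨i, q⟩
  rw [hc i _ (lr_out_mem (L i) h q) (by rw [← h3]; exact hσ ⟨i, q⟩)]
  congr 1
  exact Subtype.ext h3.symm

/-- Mackey's formula when there is a single double coset. -/
theorem lr_transfer_mackey_one {H' : Type*} [Group H'] (f : H' →* G) (K : Subgroup G)
    [K.FiniteIndex] (ψ : K →* A) (hs : ∀ g : G, ∃ h, (f h)⁻¹ * g ∈ K)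
    (L : Subgroup H') [L.FiniteIndex] (hL : ∀ h, h ∈ L ↔ f h ∈ K)
    (c : L →* A) (hc : ∀ h (hh : h ∈ L) (hk : f h ∈ K), c ⟨h, hh⟩ = ψ ⟨f h, hk⟩) :
    (MonoidHom.transfer ψ).comp f = MonoidHom.transfer c := by
  have key := lr_transfer_mackey f K ψ (ι := Unit) (fun _ => (1 : G))
    (fun g => by obtain ⟨h, hh⟩ := hs g; exact ⟨(), h, by simpa using hh⟩)
    (fun _ _ _ _ => rfl) (fun _ => L) (fun _ h => by simpa using hL h) (fun _ => c)
    (fun _ h hh hk => by
      have hk' : f h ∈ K := by simpa using hk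
      rw [hc h hh hk']
      congr 1
      exact Subtype.ext (by simp))
  rw [key]
  simp


/-- Composition of two "spans" (correspondences on characters): the general double coset form. -/
theorem lr_span_comp {H₂ H₁ : Type*} [Group H₂] [Group H₁]
    (L₂ : Subgroup H₂) [L₂.FiniteIndex] (c₂ : L₂ →* H₁)
    (L₁ : Subgroup H₁) [L₁.FiniteIndex] (ψ : L₁ →* A)
    {ι : Type*} [Fintype ι] (δ : ι → H₁)
    (hδs : ∀ x : H₁, ∃ i y, (c₂ y * δ i)⁻¹ * x ∈ L₁)
    (hδi : ∀ i j y, (c₂ y * δ i)⁻¹ * δ j ∈ L₁ → i = j)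
    (L₃ : ι → Subgroup H₂) [∀ i, (L₃ i).FiniteIndex]
    (hL₃ : ∀ i (y : H₂), y ∈ L₃ i ↔ ∃ hy : y ∈ L₂, (δ i)⁻¹ * c₂ ⟨y, hy⟩ * δ i ∈ L₁)
    (ψ₃ : ∀ i, L₃ i →* A)
    (hψ₃ : ∀ i (y : H₂) (hy3 : y ∈ L₃ i) (hy : y ∈ L₂)
      (hy1 : (δ i)⁻¹ * c₂ ⟨y, hy⟩ * δ i ∈ L₁), ψ₃ i ⟨y, hy3⟩ = ψ ⟨_, hy1⟩) :
    MonoidHom.transfer ((MonoidHom.transfer ψ).comp c₂) = ∏ i, MonoidHom.transfer (ψ₃ i) := by
  classical
  let M : ι → Subgroup L₂ := fun i => (L₃ i).subgroupOf L₂
  have hM : ∀ i (y : L₂), y ∈ M i ↔ (δ i)⁻¹ * c₂ y * δ i ∈ L₁ := by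
    intro i y
    show (y : H₂) ∈ L₃ i ↔ _
    rw [hL₃]
    exact ⟨fun ⟨_, h⟩ => h, fun h => ⟨y.2, h⟩⟩
  let c : ∀ i, M i →* A := fun i => (ψ₃ i).comp (L₂.subtype.subgroupComap (L₃ i))
  have hmk := lr_transfer_mackey c₂ L₁ ψ δ hδs hδi M hM c (by
    intro i y hy hk
    exact hψ₃ i y.1 hy y.2 hk)
  rw [hmk, lr_transfer_prod]
  refine Finset.prod_congr rfl fun i _ => ?_
  refine lr_transfer_trans (M i) (c i) (L₃ i) ?_ (ψ₃ i) ?_
  · intro x
    constructor
    · intro hx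
      obtain ⟨hy, -⟩ := (hL₃ i x).mp hx
      exact ⟨hy, hx⟩
    · rintro ⟨hx, hxM⟩
      exact hxM
  · intro x hx' hx hxL
    rfl

/-- Composition of two spans when there is a single double coset. -/
theorem lr_span_comp_one {H₂ H₁ : Type*} [Group H₂] [Group H₁]
    (L₂ : Subgroup H₂) [L₂.FiniteIndex] (c₂ : L₂ →* H₁)
    (L₁ : Subgroup H₁) [L₁.FiniteIndex] (ψ : L₁ →* A)
    (hs : ∀ x : H₁, ∃ y, (c₂ y)⁻¹ * x ∈ L₁)
    (L₃ : Subgroup H₂) [L₃.FiniteIndex]
    (hL₃ : ∀ y : H₂, y ∈ L₃ ↔ ∃ hy : y ∈ L₂, c₂ ⟨y, hy⟩ ∈ L₁)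
    (ψ₃ : L₃ →* A)
    (hψ₃ : ∀ (y : H₂) (hy3 : y ∈ L₃) (hy : y ∈ L₂) (hy1 : c₂ ⟨y, hy⟩ ∈ L₁),
      ψ₃ ⟨y, hy3⟩ = ψ ⟨_, hy1⟩) :
    MonoidHom.transfer ((MonoidHom.transfer ψ).comp c₂) = MonoidHom.transfer ψ₃ := by
  have key := lr_span_comp L₂ c₂ L₁ ψ (ι := Unit) (fun _ => (1 : H₁))
    (fun x => by obtain ⟨y, hy⟩ := hs x; exact ⟨(), y, by simpa using hy⟩)
    (fun _ _ _ _ => rfl) (fun _ => L₃) (fun _ y => by simpa using hL₃ y) (fun _ => ψ₃)
    (fun _ y hy3 hy hy1 => by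
      have hy1' : c₂ ⟨y, hy⟩ ∈ L₁ := by simpa using hy1
      rw [hψ₃ y hy3 hy hy1']
      congr 1
      exact Subtype.ext (by simp))
  rw [key]
  simp

/-- Vanishing of the transfer on a class of elements stable under conjugation and powers. -/
theorem lr_transfer_eq_one_of_class [H.FiniteIndex] (ϕ : H →* A) (P : G → Prop)
    (hPconj : ∀ g x : G, P g → P (x⁻¹ * g * x)) (hPpow : ∀ (g : G) (n : ℕ), P g → P (g ^ n))
    (hϕ : ∀ h : H, P (h : G) → ϕ h = 1) (g : G) (hg : P g) :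
    MonoidHom.transfer ϕ g = 1 := by
  classical
  let _ := H.fintypeQuotientOfFiniteIndex
  rw [MonoidHom.transfer_eq_prod_quotient_orbitRel_zpowers_quot]
  refine Finset.prod_eq_one fun q _ => ?_
  apply hϕ
  simp only
  rw [mul_assoc]
  have := hPconj _ (Quotient.out (Quotient.out q)) (hPpow g
    (Function.minimalPeriod (fun x => g • x) (Quotient.out q)) hg)
  rw [mul_assoc] at this
  exact this



theorem lr_finiteIndex_comap {H' : Type*} [Group H'] (f : H' →* G) (K : Subgroup G)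
    [K.FiniteIndex] : (K.comap f).FiniteIndex := by
  refine ⟨?_⟩
  rw [Subgroup.index_comap]
  exact (Subgroup.instFiniteIndex_subgroupOf K f.range).index_ne_zero

/-- The transfer from the full group is the identity. -/
theorem lr_transfer_top (L : Subgroup G) [L.FiniteIndex] (hL : ∀ g : G, g ∈ L) (ϕ : L →* A)
    (g : G) : MonoidHom.transfer ϕ g = ϕ ⟨g, hL g⟩ := by
  have hb : Function.Bijective (fun _ : Unit => (((1 : G)) : G ⧸ L)) := by
    constructor
    · intro a b _; rfl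
    · intro x
      induction x using QuotientGroup.induction_on with
      | H g₀ => exact ⟨(), by rw [QuotientGroup.eq]; exact hL _⟩
  rw [lr_transfer_eq_prod ϕ (fun _ : Unit => (1 : G)) hb g (fun _ => ()) (fun _ => hL _)]
  simp

/-- Invariance of the transfer under inner automorphisms of the big group. -/
theorem lr_transfer_conj (L L' : Subgroup G) [L.FiniteIndex] [L'.FiniteIndex] (g : G)
    (hL' : ∀ y : G, y ∈ L' ↔ g * y * g⁻¹ ∈ L) (ψ : L →* A) (ψ' : L' →* A)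
    (hψ' : ∀ (y : G) (hy' : y ∈ L') (hy : g * y * g⁻¹ ∈ L), ψ' ⟨y, hy'⟩ = ψ ⟨_, hy⟩) :
    MonoidHom.transfer ψ' = MonoidHom.transfer ψ := by
  have key := lr_transfer_mackey_one (MulAut.conj g).toMonoidHom L ψ
    (fun x => ⟨g⁻¹ * x * g, by
      have h1 : ((MulAut.conj g).toMonoidHom (g⁻¹ * x * g))⁻¹ * x = 1 := by
        simp only [MulEquiv.toMonoidHom_eq_coe, MonoidHom.coe_coe, MulAut.conj_apply]
        group
      rw [h1]; exact L.one_mem⟩) L' (fun h => by simpa using hL' h) ψ'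
    (fun h hh hk => hψ' h hh (by simpa using hk))
  rw [← key]
  ext x
  simp [MonoidHom.comp_apply]

end LR
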