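/-
S41 (level raising), stream S1 (Ihara): shared definitions for the centrality argument.

* `LR.lrzF N q`  : the order of `q²` modulo `N (q² - 1)`;
* `LR.lrzC N q`  : the centrality level `N (q² - 1)² f₀`, `f₀` the prime-to-`q` part of `lrzF`;
* `LR.LrzKill`   : a homomorphism on `Γ₀(N)[1/q]` killing every unipotent element;
* `LR.LrzExt`    : a character of `Γ₀(N)` extending to such a homomorphism.
-/
import Fermat.Agent.Lib.LR_AmalgamGen
import Fermat.Agent.Lib.LR_Eis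

set_option autoImplicit false

open CongruenceSubgroup
open scoped MatrixGroups

namespace LR

/-- the order of `q²` modulo `N (q² - 1)` -/
noncomputable def lrzF (N q : ℕ) : ℕ := orderOf ((q : ZMod (N * (q ^ 2 - 1))) ^ 2)

/-- the centrality level -/
noncomputable def lrzC (N q : ℕ) : ℕ := N * (q ^ 2 - 1) ^ 2 * (ordCompl[q] (lrzF N q))

/-- `Φ` kills the unipotent elements of `Γ₀(N)[1/q]` -/
def LrzKill (N q : ℕ) [Fact q.Prime] {A : Type*} [AddCommGroup A]
    (Φ : Additive ↥(lrG N q) →+ A) : Prop :=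
  ∀ g : ↥(lrG N q), (g : SL(2, ℚ)) 0 0 + (g : SL(2, ℚ)) 1 1 = 2 → Φ (Additive.ofMul g) = 0

/-- `χ` extends to a homomorphism of `Γ₀(N)[1/q]` killing the unipotent elements -/
def LrzExt (N q : ℕ) [Fact q.Prime] {A : Type*} [AddCommGroup A] (χ : X N A) : Prop :=
  ∃ Φ : Additive ↥(lrG N q) →+ A, LrzKill N q Φ ∧
    ∀ (γ : Gamma0 N) (hm : lrι (γ : SL(2, ℤ)) ∈ lrG N q),
      Φ (Additive.ofMul ⟨lrι (γ : SL(2, ℤ)), hm⟩) = χ (Additive.ofMul γ)

end LR
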