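/-
T24 [C] (helper4): descent of linear relations between Laurent series along a coefficientwise
embedding `k → ℂ`.
-/
import Mathlib
import Fermat.Prelude.Def_ModularCurve_LaurentCoeff

set_option autoImplicit false

namespace Fermat.Agent.MC

open ModularCurve

/-- Laurent series over `k` that become `ℂ`-linearly dependent after the coefficientwise
embedding `φ : k → ℂ` are already `k`-linearly dependent. -/
theorem exists_rel_of_coeffMap {k : Type*} [Field k] (φ : k →+* ℂ) {ι : Type*} [Fintype ι]
    (v : ι → LaurentSeries k) (c : ι → ℂ) (hc : c ≠ 0)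
    (h : ∑ i, HahnSeries.C (c i) * coeffMap φ (v i) = 0) :
    ∃ c' : ι → k, c' ≠ 0 ∧ ∑ i, HahnSeries.C (c' i) * v i = 0 := by
  let _inst : Algebra k ℂ := φ.toAlgebra
  obtain ⟨i₀, hi₀⟩ : ∃ i₀, c i₀ ≠ 0 := by
    by_contra hcon
    exact hc (funext fun i => not_not.mp ((not_exists.mp hcon) i))
  obtain ⟨f, hf⟩ : ∃ f : Module.Dual k ℂ, f (c i₀) ≠ 0 := by
    by_contra hcon
    exact hi₀ ((Module.forall_dual_apply_eq_zero_iff k (c i₀)).mp
      fun g => not_not.mp ((not_exists.mp hcon) g))
  refine ⟨fun i => f (c i), fun h0 => hf (congrFun h0 i₀), ?_⟩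
  ext m
  have hm := congrArg (fun x : LaurentSeries ℂ => x.coeff m) h
  simp only [HahnSeries.coeff_sum, HahnSeries.C_mul_eq_smul, HahnSeries.coeff_smul,
    HahnSeries.coeff_zero, coeffMap_coeff, smul_eq_mul] at hm ⊢
  have key : ∀ i, f (c i * φ ((v i).coeff m)) = f (c i) * (v i).coeff m := by
    intro i
    have e : c i * φ ((v i).coeff m) = ((v i).coeff m) • c i := by
      rw [Algebra.smul_def, mul_comm]; rfl
    rw [e, map_smul, smul_eq_mul, mul_comm]
  have h2 := congrArg f hm
  rw [map_sum, map_zero] at h2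
  rw [← h2]
  exact Finset.sum_congr rfl fun i _ => (key i).symm

end Fermat.Agent.MC
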