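import Fermat.Agent.Lib.MC_J

set_option autoImplicit false

/-!
# T20 [MF-S]: the derivative of `j` as a weight-2 function (helper8)
-/

noncomputable section

namespace Fermat.Agent.MF

open UpperHalfPlane ModularForm EisensteinSeries Complex Filter Fermat.Agent.MC CongruenceSubgroup
open scoped MatrixGroups Real Manifold Topology

/-- the derivative `dj/dτ` as a function on the upper half plane -/
def jprime (τ : ℍ) : ℂ := deriv (jfun ∘ ofComplex) τ

theorem jprime_eq (τ : ℍ) :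
    jprime τ = -(2 * π * Complex.I) * E₄ τ ^ 2 * E₆ τ / ModularForm.discriminant τ :=
  deriv_jfun τ

theorem jprime_pow_six (τ : ℍ) :
    jprime τ ^ 6 = (-(2 * π * Complex.I)) ^ 6 * jfun τ ^ 4 * (jfun τ - 1728) ^ 3 *
      ModularForm.discriminant τ := by
  have hΔ : ModularForm.discriminant τ ≠ 0 := discriminant_ne_zero τ
  rw [jprime_eq, jfun_sub_1728, jfun]
  field_simp

theorem jprime_smul (γ : SL(2, ℤ)) (τ : ℍ) : jprime (γ • τ) = denom γ τ ^ 2 * jprime τ := by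
  have hΔ : ModularForm.discriminant τ ≠ 0 := discriminant_ne_zero τ
  have hd : denom γ τ ≠ 0 := denom_ne_zero γ τ
  rw [jprime_eq, jprime_eq, mcj_levelOne_smul E₄ γ τ, mcj_levelOne_smul E₆ γ τ, mcj_disc_smul]
  have h4 : denom γ τ ^ (4 : ℤ) = denom γ τ ^ 4 := by norm_cast
  have h6 : denom γ τ ^ (6 : ℤ) = denom γ τ ^ 6 := by norm_cast
  have h12 : denom γ τ ^ (12 : ℤ) = denom γ τ ^ 12 := by norm_cast
  rw [h4, h6, h12]
  field_simp

theorem jprime_mdifferentiable : MDiff jprime := by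
  have h4 : MDiff (E₄ : ℍ → ℂ) := E₄.holo'
  have h6 : MDiff (E₆ : ℍ → ℂ) := E₆.holo'
  have hfun : jprime =
      fun τ => -(2 * π * Complex.I) * E₄ τ ^ 2 * E₆ τ / ModularForm.discriminant τ :=
    funext jprime_eq
  rw [hfun, UpperHalfPlane.mdifferentiable_iff]
  rw [UpperHalfPlane.mdifferentiable_iff] at h4 h6
  have hΔ := UpperHalfPlane.mdifferentiable_iff.mp mcj_disc_mdifferentiable
  refine ((((differentiableOn_const (-(2 * (π : ℂ) * Complex.I))).mul (h4.pow 2)).mul h6).div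
    hΔ ?_).congr ?_
  · intro x hx
    simp only [Function.comp_apply]
    exact discriminant_ne_zero _
  · intro x hx
    simp [Function.comp_apply]

theorem jprime_ne_zero : jprime ≠ 0 := by
  intro h
  obtain ⟨τ, hτ⟩ := jfun_surjective 1
  have h0 : jfun τ ≠ 0 := by rw [hτ]; exact one_ne_zero
  have h1 : jfun τ ≠ 1728 := by rw [hτ]; norm_num
  have h2 := deriv_jfun_ne_zero τ h0 h1
  exact h2 (congrFun h τ)

/-- `Δ · j'` is bounded at `i∞` -/
theorem disc_mul_jprime_isBounded :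
    IsBoundedAtImInfty (fun τ : ℍ => ModularForm.discriminant τ * jprime τ) := by
  have hfun : (fun τ : ℍ => ModularForm.discriminant τ * jprime τ) =
      fun τ => -(2 * π * Complex.I) * E₄ τ ^ 2 * E₆ τ := by
    funext τ
    have hΔ : ModularForm.discriminant τ ≠ 0 := discriminant_ne_zero τ
    rw [jprime_eq]
    field_simp
  rw [hfun]
  have h4 : IsBoundedAtImInfty (E₄ : ℍ → ℂ) := ModularFormClass.bdd_at_infty E₄
  have h6 : IsBoundedAtImInfty (E₆ : ℍ → ℂ) := ModularFormClass.bdd_at_infty E₆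
  have hc : IsBoundedAtImInfty (fun _ : ℍ => -(2 * (π : ℂ) * Complex.I)) :=
    Filter.const_boundedAtFilter _ _
  have h := (hc.mul (h4.mul h4)).mul h6
  have e : (fun τ : ℍ => -(2 * π * Complex.I) * E₄ τ ^ 2 * E₆ τ) =
      (fun _ : ℍ => -(2 * (π : ℂ) * Complex.I)) * ((E₄ : ℍ → ℂ) * (E₄ : ℍ → ℂ)) * (E₆ : ℍ → ℂ) := by
    funext τ
    simp only [Pi.mul_apply]
    ring
  rw [e]
  exact h

/-- packaging: a holomorphic function which is `Γ₀(N)`-invariant of weight `k` and all of whose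
`SL(2, ℤ)`-translates vanish at `i∞` is a cusp form of level `Γ₀(N)` -/
def mkCuspG (N : ℕ) [NeZero N] (F : ℍ → ℂ) (k : ℤ)
    (hinv : ∀ γ : SL(2, ℤ), γ ∈ Gamma0 N → F ∣[k] γ = F) (hol : MDiff F)
    (h0 : ∀ γ : SL(2, ℤ), IsZeroAtImInfty (F ∣[k] γ)) : CuspForm (Gamma0 N) k where
  toFun := F
  slash_action_eq' := by
    rintro _ ⟨γ, hγ, rfl⟩
    exact hinv γ hγ
  holo' := hol
  zero_at_cusps' := fun {c} hc => by
    rw [Subgroup.IsArithmetic.isCusp_iff_isCusp_SL2Z] at hc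
    rw [OnePoint.isZeroAt_iff_forall_SL2Z hc]
    intro γ _
    exact h0 γ

@[simp] theorem mkCuspG_apply (N : ℕ) [NeZero N] (F : ℍ → ℂ) (k : ℤ)
    (hinv : ∀ γ : SL(2, ℤ), γ ∈ Gamma0 N → F ∣[k] γ = F) (hol : MDiff F)
    (h0 : ∀ γ : SL(2, ℤ), IsZeroAtImInfty (F ∣[k] γ)) (z : ℍ) :
    mkCuspG N F k hinv hol h0 z = F z := rfl

theorem coe_mkCuspG (N : ℕ) [NeZero N] (F : ℍ → ℂ) (k : ℤ)
    (hinv : ∀ γ : SL(2, ℤ), γ ∈ Gamma0 N → F ∣[k] γ = F) (hol : MDiff F)
    (h0 : ∀ γ : SL(2, ℤ), IsZeroAtImInfty (F ∣[k] γ)) :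
    ⇑(mkCuspG N F k hinv hol h0) = F := rfl

/-- the slash action in pointwise form -/
theorem slash_eq_iff (F : ℍ → ℂ) (k : ℤ) (γ : SL(2, ℤ)) :
    F ∣[k] γ = F ↔ ∀ τ : ℍ, F (γ • τ) = denom γ τ ^ k * F τ := by
  constructor
  · intro h τ
    have h1 := congrFun h τ
    rw [ModularForm.SL_slash_apply] at h1
    have hd : denom γ τ ≠ 0 := denom_ne_zero γ τ
    rw [← h1, mul_comm (F (γ • τ)), ← mul_assoc, ← zpow_add₀ hd, add_neg_cancel, zpow_zero, one_mul]
  · intro h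
    funext τ
    rw [ModularForm.SL_slash_apply, h τ]
    have hd : denom γ τ ≠ 0 := denom_ne_zero γ τ
    rw [mul_comm, ← mul_assoc, ← zpow_add₀ hd, neg_add_cancel, zpow_zero, one_mul]

/-- `j'` is invariant of weight 2 under `SL(2, ℤ)` -/
theorem jprime_slash (γ : SL(2, ℤ)) : jprime ∣[(2 : ℤ)] γ = jprime := by
  rw [slash_eq_iff]
  intro τ
  rw [jprime_smul]
  norm_cast

end Fermat.Agent.MF
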