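import Fermat.Agent.Lib.MF_Field
import Fermat.Agent.Lib.MF_JPrime

set_option autoImplicit false

/-!
# T20 [MF-S]: from pointwise existence of `j' · y` to an injective linear map (helper8)
-/

noncomputable section

namespace Fermat.Agent.MF

open UpperHalfPlane ModularForm Complex Fermat.Agent.MC CongruenceSubgroup
open scoped MatrixGroups Real Manifold

variable (N : ℕ) [NeZero N]

/-- `f` is the function `j' · y` on the upper half plane, for `y` in the function field -/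
def IsJPrimeMul (y : FC N) (f : ℍ → ℂ) : Prop :=
  ∃ G H : AN N, H ≠ 0 ∧ y * algebraMap (AN N) (FC N) H = algebraMap (AN N) (FC N) G ∧
    ∀ τ : ℍ, (H : ℍ → ℂ) τ * f τ = jprime τ * (G : ℍ → ℂ) τ

variable {N}

omit [NeZero N] in
theorem AN_coe_ne_zero {H : AN N} (hH : H ≠ 0) : (H : ℍ → ℂ) ≠ 0 := fun h =>
  hH (Subtype.ext h)

omit [NeZero N] in
theorem IsJPrimeMul.unique {y : FC N} {f g : ℍ → ℂ} (hf : MDiff f) (hg : MDiff g)
    (h1 : IsJPrimeMul N y f) (h2 : IsJPrimeMul N y g) : f = g := by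
  obtain ⟨G, H, hH, hy, hfun⟩ := h1
  obtain ⟨G', H', hH', hy', hfun'⟩ := h2
  have hinj : Function.Injective (algebraMap (AN N) (FC N)) := IsFractionRing.injective _ _
  have hGH : G * H' = G' * H := by
    apply hinj
    rw [map_mul, map_mul, ← hy, ← hy']
    ring
  have hGH' : ∀ τ, (G : ℍ → ℂ) τ * (H' : ℍ → ℂ) τ = (G' : ℍ → ℂ) τ * (H : ℍ → ℂ) τ := fun τ =>
    congrFun (congrArg Subtype.val hGH) τ
  have hmul : ∀ τ, ((H * H' : AN N) : ℍ → ℂ) τ * (f - g) τ = 0 := by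
    intro τ
    have e : ((H * H' : AN N) : ℍ → ℂ) τ = (H : ℍ → ℂ) τ * (H' : ℍ → ℂ) τ := rfl
    rw [e, Pi.sub_apply]
    have a1 := hfun τ
    have a2 := hfun' τ
    have a3 := hGH' τ
    linear_combination (H' : ℍ → ℂ) τ * a1 - (H : ℍ → ℂ) τ * a2 + jprime τ * a3
  have hsub : MDiff (f - g) := by
    rw [UpperHalfPlane.mdifferentiable_iff] at hf hg ⊢
    exact hf.sub hg
  rcases mf_mdiff_mul_eq_zero (AN_mdiff N (H * H').2) hsub hmul with h | h
  · exact absurd h (AN_coe_ne_zero (mul_ne_zero hH hH'))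
  · exact sub_eq_zero.mp h

omit [NeZero N] in
theorem IsJPrimeMul.add {y₁ y₂ : FC N} {f₁ f₂ : ℍ → ℂ} (h1 : IsJPrimeMul N y₁ f₁)
    (h2 : IsJPrimeMul N y₂ f₂) : IsJPrimeMul N (y₁ + y₂) (f₁ + f₂) := by
  obtain ⟨G, H, hH, hy, hfun⟩ := h1
  obtain ⟨G', H', hH', hy', hfun'⟩ := h2
  refine ⟨G * H' + G' * H, H * H', mul_ne_zero hH hH', ?_, ?_⟩
  · rw [map_add, map_mul, map_mul, map_mul, ← hy, ← hy']
    ring
  · intro τ
    have e1 : ((H * H' : AN N) : ℍ → ℂ) τ = (H : ℍ → ℂ) τ * (H' : ℍ → ℂ) τ := rfl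
    have e2 : ((G * H' + G' * H : AN N) : ℍ → ℂ) τ =
        (G : ℍ → ℂ) τ * (H' : ℍ → ℂ) τ + (G' : ℍ → ℂ) τ * (H : ℍ → ℂ) τ := rfl
    rw [e1, e2, Pi.add_apply]
    have a1 := hfun τ
    have a2 := hfun' τ
    linear_combination (H' : ℍ → ℂ) τ * a1 + (H : ℍ → ℂ) τ * a2

omit [NeZero N] in
theorem IsJPrimeMul.smul {y : FC N} {f : ℍ → ℂ} (c : ℂ) (h : IsJPrimeMul N y f) :
    IsJPrimeMul N (c • y) (c • f) := by
  obtain ⟨G, H, hH, hy, hfun⟩ := h
  refine ⟨c • G, H, hH, ?_, ?_⟩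
  · rw [smul_mul_assoc, hy, Algebra.smul_def, Algebra.smul_def, map_mul]
    congr 1
  · intro τ
    have e : ((c • G : AN N) : ℍ → ℂ) τ = c * (G : ℍ → ℂ) τ := rfl
    rw [e, Pi.smul_apply, smul_eq_mul]
    have a1 := hfun τ
    linear_combination c * a1

omit [NeZero N] in
theorem IsJPrimeMul.eq_zero {y : FC N} (h : IsJPrimeMul N y 0) : y = 0 := by
  obtain ⟨G, H, hH, hy, hfun⟩ := h
  have hG : (G : ℍ → ℂ) = 0 := by
    have hmul : ∀ τ, jprime τ * (G : ℍ → ℂ) τ = 0 := by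
      intro τ
      rw [← hfun τ]
      simp
    rcases mf_mdiff_mul_eq_zero jprime_mdifferentiable (AN_mdiff N G.2) hmul with h | h
    · exact absurd h jprime_ne_zero
    · exact h
  have hG0 : G = 0 := Subtype.ext hG
  rw [hG0, map_zero] at hy
  have hinj : Function.Injective (algebraMap (AN N) (FC N)) := IsFractionRing.injective _ _
  have hH0 : algebraMap (AN N) (FC N) H ≠ 0 := by
    intro h0
    exact hH (hinj (by rw [h0, map_zero]))
  exact (mul_eq_zero.mp hy).resolve_right hH0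

variable (N)

omit [NeZero N] in
/-- **glue**: if every `y ∈ V` has a cusp form equal to `j' · y`, then `V` embeds linearly into
the cusp forms -/
theorem exists_injective_of_isJPrimeMul (V : Submodule ℂ (FC N))
    (h : ∀ y ∈ V, ∃ g : CuspForm (Gamma0 N) 2, IsJPrimeMul N y ⇑g) :
    ∃ Φ : V →ₗ[ℂ] CuspForm (Gamma0 N) 2, Function.Injective Φ := by
  classical
  choose φ hφ using fun y : V => h y.1 y.2
  have hmd : ∀ g : CuspForm (Gamma0 N) 2, MDiff (g : ℍ → ℂ) := fun g => g.holo'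
  let Φ : V →ₗ[ℂ] CuspForm (Gamma0 N) 2 :=
    { toFun := φ
      map_add' := by
        intro y₁ y₂
        apply DFunLike.coe_injective
        have h1 : IsJPrimeMul N ((y₁ + y₂ : V) : FC N) ⇑(φ (y₁ + y₂)) := hφ (y₁ + y₂)
        have h2 : IsJPrimeMul N ((y₁ + y₂ : V) : FC N) (⇑(φ y₁) + ⇑(φ y₂)) := by
          have := (hφ y₁).add (hφ y₂)
          simpa using this
        have h3 : (⇑(φ y₁ + φ y₂) : ℍ → ℂ) = ⇑(φ y₁) + ⇑(φ y₂) := rfl
        rw [h3]
        exact IsJPrimeMul.unique (hmd _) (mdiff_add (hmd _) (hmd _)) h1 h2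
      map_smul' := by
        intro c y
        apply DFunLike.coe_injective
        have h1 : IsJPrimeMul N ((c • y : V) : FC N) ⇑(φ (c • y)) := hφ (c • y)
        have h2 : IsJPrimeMul N ((c • y : V) : FC N) (c • ⇑(φ y)) := by
          have := (hφ y).smul c
          simpa using this
        have h3 : (⇑(c • φ y) : ℍ → ℂ) = c • ⇑(φ y) := rfl
        rw [RingHom.id_apply, h3]
        refine IsJPrimeMul.unique (hmd _) ?_ h1 h2
        have := hmd (c • φ y)
        rwa [h3] at this }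
  refine ⟨Φ, ?_⟩
  rw [← LinearMap.ker_eq_bot, LinearMap.ker_eq_bot']
  intro y hy
  have h1 : IsJPrimeMul N (y : FC N) ⇑(φ y) := hφ y
  have h2 : φ y = 0 := hy
  rw [h2] at h1
  have h3 : (⇑(0 : CuspForm (Gamma0 N) 2) : ℍ → ℂ) = 0 := rfl
  rw [h3] at h1
  exact Subtype.ext h1.eq_zero

end Fermat.Agent.MF
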