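/-
S13 support (helper9), WP-2 (N-c): the arithmetic of the Frey curve at the prime `2`.

* `n2c_a2_exists`, `n2c_a4_exists` : the coefficients `a₂`, `a₄` of the Frey curve are integers,
  `a₄ = 2 ^ m * c` with `m ≥ 1`, `c` odd, and `p` prime to `2 m`.
* `n2c_alpha_exists` : a root `α` of `T² + T - a₂` in `ℚ̄` with `2 α + 1` a unit at every place
  over `2`; `n2c_sigma_alpha` : inertia at `2` fixes `α`.
-/
import Mathlib
import Fermat.Prelude.Def_FLTPrelim_Ramification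
import Fermat.Agent.Lib.F5_Defs
import Fermat.Agent.Lib.F5_RVal

set_option autoImplicit false

namespace Fermat.Agent.N2

open Fermat.Agent.F5

local notation "Qb" => AlgebraicClosure ℚ

/-! ### Integer arithmetic -/

/-- `a ^ p ≡ 3 (mod 4)` -/
theorem n2c_apow_mod4 (P : FreyPackage) : ((P.a ^ P.p : ℤ) : ZMod 4) = 3 := by
  have h := P.ha4
  push_cast
  rw [h]
  have h3 : (3 : ZMod 4) = -1 := by decide
  rw [h3, P.hp_odd.neg_one_pow]

theorem n2c_two_dvd_b (P : FreyPackage) : (2 : ℤ) ∣ P.b :=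
  (ZMod.intCast_zmod_eq_zero_iff_dvd P.b 2).1 P.hb2

/-- `a` is odd -/
theorem n2c_a_odd (P : FreyPackage) : ¬ (2 : ℤ) ∣ P.a := by
  intro h
  obtain ⟨k, hk⟩ := h
  have h4 := P.ha4
  rw [hk] at h4
  push_cast at h4
  have : ∀ z : ZMod 4, (2 : ZMod 4) * z ≠ 3 := by decide
  exact this _ h4

/-- the decomposition `b = 2 ^ k * b'` with `b'` odd and `k ≥ 1` -/
theorem n2c_b_decomp (P : FreyPackage) :
    ∃ (k : ℕ) (b' : ℤ), 1 ≤ k ∧ ¬ (2 : ℤ) ∣ b' ∧ P.b = 2 ^ k * b' := by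
  have hfin : FiniteMultiplicity (2 : ℤ) P.b :=
    Int.finiteMultiplicity_iff.mpr ⟨by decide, P.hb0⟩
  obtain ⟨b', hb'⟩ := pow_multiplicity_dvd (2 : ℤ) P.b
  refine ⟨multiplicity (2 : ℤ) P.b, b', ?_, ?_, hb'⟩
  · have := hfin.le_multiplicity_of_pow_dvd (k := 1) (by simpa using n2c_two_dvd_b P)
    exact this
  · intro h
    obtain ⟨c, hc⟩ := h
    have h1 : (2 : ℤ) ^ (multiplicity (2 : ℤ) P.b + 1) ∣ P.b :=
      ⟨c, by
        have e : P.b = 2 ^ multiplicity (2 : ℤ) P.b * (2 * c) := by rw [← hc]; exact hb'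
        rw [pow_succ, mul_assoc]; exact e⟩
    exact hfin.not_pow_dvd_of_multiplicity_lt (Nat.lt_succ_self _) h1

/-- `a₂` is an integer -/
theorem n2c_a2_exists (P : FreyPackage) : ∃ a2 : ℤ, P.b ^ P.p - 1 - P.a ^ P.p = 4 * a2 := by
  have h4 : (4 : ℤ) ∣ P.b ^ P.p - 1 - P.a ^ P.p := by
    have h44 : ((4 : ℕ) : ℤ) ∣ P.b ^ P.p - 1 - P.a ^ P.p → (4 : ℤ) ∣ P.b ^ P.p - 1 - P.a ^ P.p :=
      fun h => by simpa using h
    apply h44
    rw [← ZMod.intCast_zmod_eq_zero_iff_dvd _ 4]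
    have hb : ((P.b ^ P.p : ℤ) : ZMod 4) = 0 := by
      obtain ⟨c, hc⟩ := n2c_two_dvd_b P
      have hp2 : 2 ≤ P.p := le_trans (by norm_num) P.hp5
      obtain ⟨n, hn⟩ := Nat.exists_eq_add_of_le hp2
      rw [hc, mul_pow, hn, pow_add]
      push_cast
      have : ((4 : ZMod 4)) = 0 := by decide
      rw [this, zero_mul, zero_mul]
    have ha := n2c_apow_mod4 P
    push_cast at hb ha ⊢
    rw [hb, ha]
    decide
  obtain ⟨a2, h⟩ := h4
  exact ⟨a2, h⟩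

/-- `a₄ = 2 ^ m * c` with `m ≥ 1`, `c` odd, `p` prime to `2 m` -/
theorem n2c_a4_exists (P : FreyPackage) :
    ∃ (m : ℕ) (c : ℤ), 1 ≤ m ∧ ¬ (2 : ℤ) ∣ c ∧ Nat.Coprime P.p (2 * m) ∧
      -(P.a ^ P.p) * (P.b ^ P.p) = 16 * (2 ^ m * c) := by
  obtain ⟨k, b', hk, hb', hb⟩ := n2c_b_decomp P
  have hp5 := P.hp5
  have hpk : 5 ≤ P.p * k := le_trans hp5 (Nat.le_mul_of_pos_right _ hk)
  refine ⟨P.p * k - 4, -(P.a ^ P.p) * b' ^ P.p, by omega, ?_, ?_, ?_⟩
  · intro h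
    have h2 : Prime (2 : ℤ) := Int.prime_two
    rcases h2.dvd_mul.mp h with h | h
    · rw [dvd_neg] at h
      exact n2c_a_odd P (h2.dvd_of_dvd_pow h)
    · exact hb' (h2.dvd_of_dvd_pow h)
  · rw [Nat.coprime_mul_iff_right]
    constructor
    · rw [Nat.coprime_primes P.pp Nat.prime_two]
      omega
    · rw [Nat.Prime.coprime_iff_not_dvd P.pp]
      intro h
      have h4 : P.p ∣ 4 := by
        have h1 : P.p ∣ P.p * k := dvd_mul_right _ _
        have h2 : P.p * k - (P.p * k - 4) = 4 := by omega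
        rw [← h2]
        exact Nat.dvd_sub h1 h
      have := Nat.le_of_dvd (by norm_num) h4
      omega
  · have h16 : (16 : ℤ) = 2 ^ 4 := by norm_num
    have e : P.p * k = 4 + (P.p * k - 4) := by omega
    rw [hb, mul_pow, ← pow_mul, mul_comm k P.p]
    conv_lhs => rw [e, pow_add]
    rw [h16]
    ring

/-! ### Valuations of integers at a place over `2` -/

section val

variable {A : ValuationSubring Qb} (hA : A.LiesOverPrime 2)

/-- the valuation normalised by `w 2 = 1` -/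
noncomputable def n2cV (A : ValuationSubring Qb) (hA : A.LiesOverPrime 2) : RVal A :=
  rvalOf A Nat.prime_two hA

theorem n2c_w_two : (n2cV A hA).w (2 : Qb) = 1 := by
  have := rvalOf_q A Nat.prime_two hA
  simpa [n2cV] using this

theorem n2c_w_odd {n : ℤ} (hn : ¬ (2 : ℤ) ∣ n) : (n2cV A hA).w (n : Qb) = 0 :=
  rvalOf_intCast A Nat.prime_two hA (by simpa using hn)

theorem n2c_w_inertia {σ : Qb ≃ₐ[ℚ] Qb} (hσ : σ ∈ A.inertiaSubgroupIn ℚ) (x : Qb) :
    (n2cV A hA).w (σ x) = (n2cV A hA).w x :=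
  rvalOf_apply_inertia A Nat.prime_two hA hσ x

theorem n2c_wge_int (n : ℤ) : (n2cV A hA).Wge (n : Qb) 0 :=
  RVal.mem_iff_wge.mp (intCast_mem A n)

/-- `w (2 ^ m * c) = m` for `c` odd -/
theorem n2c_w_pow_mul {m : ℕ} {c : ℤ} (hc : ¬ (2 : ℤ) ∣ c) :
    (n2cV A hA).w (((2 ^ m * c : ℤ)) : Qb) = m := by
  have hc0 : (c : Qb) ≠ 0 := by
    intro h
    have : c = 0 := by exact_mod_cast h
    exact hc (this ▸ dvd_zero _)
  have h2 : (2 : Qb) ≠ 0 := two_ne_zero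
  push_cast
  rw [(n2cV A hA).w_mul _ _ (pow_ne_zero _ h2) hc0, (n2cV A hA).w_pow h2, n2c_w_two hA,
    n2c_w_odd hA hc]
  ring

/-- inertia moves integral elements by elements of positive valuation -/
theorem n2c_sigma_wgt {σ : Qb ≃ₐ[ℚ] Qb} (hσ : σ ∈ A.inertiaSubgroupIn ℚ) {x : Qb}
    (hx : (n2cV A hA).Wge x 0) : (n2cV A hA).Wgt (σ x - x) 0 :=
  RVal.mem_nonunits_iff_wgt.mp (inertia_mem A σ hσ x (RVal.mem_iff_wge.mpr hx)).2

end val

/-! ### The tangent directions at the node -/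

/-- a root `α` of `T² + T - a₂`, with `γ = 2 α + 1` a square root of the odd integer `1 + 4 a₂` -/
theorem n2c_alpha_exists (a2 : ℤ) :
    ∃ α : Qb, α ^ 2 + α = (a2 : Qb) ∧ (2 * α + 1) ^ 2 = ((1 + 4 * a2 : ℤ) : Qb) := by
  obtain ⟨s, hs⟩ := IsAlgClosed.exists_pow_nat_eq (((1 + 4 * a2 : ℤ)) : Qb) (n := 2) (by norm_num)
  refine ⟨(s - 1) / 2, ?_, ?_⟩
  · push_cast at hs
    field_simp
    linear_combination hs
  · rw [← hs]
    congr 1
    ring

section alpha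

variable {A : ValuationSubring Qb} (hA : A.LiesOverPrime 2) {a2 : ℤ} {α : Qb}

theorem n2c_gamma_ne (hγ : (2 * α + 1) ^ 2 = ((1 + 4 * a2 : ℤ) : Qb)) : 2 * α + 1 ≠ 0 := by
  intro h
  rw [h] at hγ
  have h1 : ((1 + 4 * a2 : ℤ) : Qb) = 0 := by rw [← hγ]; ring
  have h2 : (1 + 4 * a2 : ℤ) = 0 := by exact_mod_cast h1
  omega

include hA in
/-- `γ = 2 α + 1` is a unit -/
theorem n2c_gamma_unit (hγ : (2 * α + 1) ^ 2 = ((1 + 4 * a2 : ℤ) : Qb)) :
    (n2cV A hA).w (2 * α + 1) = 0 := by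
  have h0 := n2c_gamma_ne hγ
  have h1 := (n2cV A hA).w_sq h0
  rw [hγ, n2c_w_odd hA (by omega)] at h1
  linarith

include hA in
/-- `α` is integral -/
theorem n2c_alpha_wge (hα : α ^ 2 + α = (a2 : Qb)) : (n2cV A hA).Wge α 0 := by
  set v := n2cV A hA
  by_contra hcon
  have hα0 : α ≠ 0 := fun h => hcon (Or.inl h)
  have hlt : v.w α < 0 := not_le.mp fun h => hcon (Or.inr h)
  have h1 : v.Wgt (1 : Qb) (v.w α) := Or.inr (by rw [v.w_one]; exact hlt)
  obtain ⟨h2, h3⟩ := RVal.w_add_of_wgt hα0 h1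
  have h4 : α * (α + 1) = (a2 : Qb) := by rw [← hα]; ring
  have h5 : v.w (α * (α + 1)) = 2 * v.w α := by
    rw [v.w_mul _ _ hα0 h2, h3]; ring
  have h6 : α * (α + 1) ≠ 0 := mul_ne_zero hα0 h2
  have h7 := (n2c_wge_int hA a2).le (by rw [← h4]; exact h6)
  rw [← h4, h5] at h7
  linarith

include hA in
/-- inertia at `2` fixes `α` -/
theorem n2c_sigma_alpha (hα : α ^ 2 + α = (a2 : Qb))
    (hγ : (2 * α + 1) ^ 2 = ((1 + 4 * a2 : ℤ) : Qb)) {σ : Qb ≃ₐ[ℚ] Qb}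
    (hσ : σ ∈ A.inertiaSubgroupIn ℚ) : σ α = α := by
  have h1 : (σ α) ^ 2 + σ α = (a2 : Qb) := by
    have := congrArg σ hα
    rwa [map_add, map_pow, map_intCast] at this
  have h2 : (σ α - α) * (σ α + α + 1) = 0 := by linear_combination h1 - hα
  rcases mul_eq_zero.mp h2 with h | h
  · exact sub_eq_zero.mp h
  · exfalso
    have h3 := n2c_sigma_wgt hA hσ (n2c_alpha_wge hA hα)
    have h4 : σ α - α = -(2 * α + 1) := by linear_combination h
    rw [h4] at h3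
    have h5 := h3.lt (neg_ne_zero.mpr (n2c_gamma_ne hγ))
    rw [(n2cV A hA).w_neg, n2c_gamma_unit hA hγ] at h5
    exact lt_irrefl _ h5

end alpha

end Fermat.Agent.N2
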