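import Fermat.Agent.Lib.N2_Node
import Fermat.Agent.Lib.F5_NearNode

set_option autoImplicit false

/-!
# S13, WP-2 (the node at `2`): the class map on Mathlib points (helper1)

For a curve `W : y² + x y = x³ + a₂ x² + a₄ x` (`IsN2W W`) with node data
`N2Node v W.a₂ W.a₄ α`, the class `n2cls v α : W.Point → ℝ` is additive modulo `2 (w a₄)`:
`n2_cls_add`, `n2_cls_neg`, `n2_cls_nsmul`; it takes values in `(-m, m]` (`n2_cls_range`), vanishes
exactly at `0` and at the affine points with `x ≠ 0`, `w x ≤ 0` (`n2_cls_eq_zero_iff`), and two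
points of the same class have a difference of class `0` (`n2_cls_sub_eq_zero`).
-/

namespace Fermat.Agent.N2

open Fermat.Agent.F5 WeierstrassCurve.Affine

variable {K : Type*} [Field K] {A : ValuationSubring K} {W : WeierstrassCurve.Affine K} {α : K}

/-- the class always lies in `(-m, m]`, `m = w a₄` -/
theorem n2_cls_range (v : RVal A) (h : N2Node v W.a₂ W.a₄ α) (P : W.Point) :
    -v.w W.a₄ < n2cls v α P ∧ n2cls v α P ≤ v.w W.a₄ := by
  rcases P with _ | ⟨x, y, hxy⟩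
  · show -v.w W.a₄ < (0 : ℝ) ∧ (0 : ℝ) ≤ v.w W.a₄
    exact ⟨by linarith [h.a4_pos], h.a4_pos.le⟩
  · exact n2_cval_range v h.a4_pos x y

/-- the class of an affine point vanishes iff `x ≠ 0` and `w x ≤ 0` -/
theorem n2_cls_eq_zero_iff (v : RVal A) (h : N2Node v W.a₂ W.a₄ α) {x y : K}
    (hxy : W.Nonsingular x y) :
    n2cls v α (Point.some x y hxy) = 0 ↔ x ≠ 0 ∧ v.w x ≤ 0 :=
  n2_cval_eq_zero_iff v h.a4_pos

/-- the possible values of the class of an affine point -/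
theorem n2_cls_some_cases (v : RVal A) (h : N2Node v W.a₂ W.a₄ α) {x y : K}
    (hxy : W.Nonsingular x y) :
    n2cls v α (Point.some x y hxy) = 0 ∨ n2cls v α (Point.some x y hxy) = v.w W.a₄ ∨
      (x ≠ 0 ∧ (n2cls v α (Point.some x y hxy) = v.w x ∨
        n2cls v α (Point.some x y hxy) = -v.w x)) :=
  n2_cval_cases v h.a4_pos x y

variable [DecidableEq K]

/-- the class of `-P` -/
theorem n2_cls_neg (hW : IsN2W W) (v : RVal A) (h : N2Node v W.a₂ W.a₄ α) (P : W.Point) :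
    ∃ k : ℤ, n2cls v α (-P) = -n2cls v α P + 2 * v.w W.a₄ * k := by
  rcases P with _ | ⟨x, y, hxy⟩
  · refine ⟨0, ?_⟩
    rw [← Point.zero_def, neg_zero, n2cls_zero]
    simp
  · rw [Point.neg_some, n2cls_some, n2cls_some, n2_negY hW]
    obtain ⟨j, hj⟩ := n2_cval_negY v h (n2_eqn hW hxy.1)
    exact ⟨j, by rw [hj]; ring⟩

/-- **the class map is additive modulo `2 w a₄`** -/
theorem n2_cls_add (hW : IsN2W W) (v : RVal A) (h : N2Node v W.a₂ W.a₄ α) (P Q : W.Point) :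
    ∃ k : ℤ, n2cls v α (P + Q) = n2cls v α P + n2cls v α Q + 2 * v.w W.a₄ * k := by
  rcases P with _ | ⟨x₁, y₁, h₁⟩
  · refine ⟨0, ?_⟩
    rw [← Point.zero_def, zero_add, n2cls_zero]
    simp
  rcases Q with _ | ⟨x₂, y₂, h₂⟩
  · refine ⟨0, ?_⟩
    rw [← Point.zero_def, add_zero, n2cls_zero]
    simp
  rcases hR : Point.some x₁ y₁ h₁ + Point.some x₂ y₂ h₂ with _ | ⟨x₃, y₃, h₃⟩
  · -- the sum is zero
    have hQ : Point.some x₂ y₂ h₂ = -Point.some x₁ y₁ h₁ := by
      rw [← Point.zero_def] at hR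
      exact eq_neg_of_add_eq_zero_right hR
    obtain ⟨k, hk⟩ := n2_cls_neg hW v h (Point.some x₁ y₁ h₁)
    refine ⟨-k, ?_⟩
    rw [hQ, hk]
    show (0 : ℝ) = _
    push_cast
    ring
  · have hsum : Point.some x₁ y₁ h₁ + Point.some x₂ y₂ h₂ +
        Point.some x₃ (W.negY x₃ y₃) ((nonsingular_neg x₃ y₃).mpr h₃) = 0 := by
      rw [← Point.neg_some h₃, hR]
      exact add_neg_cancel _
    obtain ⟨t, hX1, hX2, hX3, hY1, hY2, hY3⟩ :=
      n2_triple hW h₁ h₂ ((nonsingular_neg x₃ y₃).mpr h₃) hsum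
    obtain ⟨k, hk⟩ := n2_node_triple v h t
    rw [hX1, hX2, hX3, hY1, hY2, hY3, n2_negY hW] at hk
    obtain ⟨k', hk'⟩ := n2_cval_negY v h (n2_eqn hW h₃.1)
    refine ⟨k' - k, ?_⟩
    rw [n2cls_some, n2cls_some, n2cls_some]
    rw [hk'] at hk
    push_cast
    linarith

/-- the class of a multiple -/
theorem n2_cls_nsmul (hW : IsN2W W) (v : RVal A) (h : N2Node v W.a₂ W.a₄ α) (n : ℕ)
    (P : W.Point) : ∃ k : ℤ, n2cls v α (n • P) = n * n2cls v α P + 2 * v.w W.a₄ * k := by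
  induction n with
  | zero =>
    refine ⟨0, ?_⟩
    rw [zero_nsmul, n2cls_zero]
    simp
  | succ n ih =>
    obtain ⟨k, hk⟩ := ih
    obtain ⟨k', hk'⟩ := n2_cls_add hW v h (n • P) P
    refine ⟨k + k', ?_⟩
    rw [succ_nsmul, hk', hk]
    push_cast
    ring

/-- an element of `2 m ℤ` in `(-m, m]` is zero -/
theorem n2_int_aux {m c : ℝ} (hm : 0 < m) {k : ℤ} (hc : c = 2 * m * k) (h1 : -m < c)
    (h2 : c ≤ m) : c = 0 := by
  have hk1 : (-1 : ℝ) < 2 * k := by
    by_contra hh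
    push Not at hh
    nlinarith
  have hk2 : 2 * (k : ℝ) ≤ 1 := by
    by_contra hh
    push Not at hh
    nlinarith
  have hk1' : (-1 : ℤ) < 2 * k := by exact_mod_cast hk1
  have hk2' : 2 * k ≤ (1 : ℤ) := by exact_mod_cast hk2
  have hk0 : k = 0 := by omega
  rw [hc, hk0]
  simp

/-- two points of the same class have a difference of class `0` -/
theorem n2_cls_sub_eq_zero (hW : IsN2W W) (v : RVal A) (h : N2Node v W.a₂ W.a₄ α)
    {P Q : W.Point} (hPQ : n2cls v α P = n2cls v α Q) : n2cls v α (P - Q) = 0 := by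
  obtain ⟨k, hk⟩ := n2_cls_neg hW v h Q
  obtain ⟨k', hk'⟩ := n2_cls_add hW v h P (-Q)
  have hr := n2_cls_range v h (P - Q)
  rw [sub_eq_add_neg] at hr ⊢
  refine n2_int_aux h.a4_pos (k := k + k') ?_ hr.1 hr.2
  rw [hk', hk, hPQ]
  push_cast
  ring

/-- a multiple of the class of a torsion point is in `2 m ℤ` -/
theorem n2_cls_torsion (hW : IsN2W W) (v : RVal A) (h : N2Node v W.a₂ W.a₄ α) {n : ℕ}
    {P : W.Point} (hP : n • P = 0) : ∃ k : ℤ, n * n2cls v α P = 2 * v.w W.a₄ * k := by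
  obtain ⟨k, hk⟩ := n2_cls_nsmul hW v h n P
  rw [hP, n2cls_zero] at hk
  exact ⟨-k, by push_cast; linarith⟩

end Fermat.Agent.N2
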