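import Fermat.Agent.Lib.F5_Defs

set_option autoImplicit false

/-!
# S13, WP-2 (the node at `2`): shared definitions (helper1)

The curve `y² + x y = x³ + a₂ x² + a₄ x` over a valued field `(K, A, v)` with `a₂` integral,
`w a₄ = m > 0`, and `α ∈ A` with `α² + α = a₂`, `γ = 2 α + 1` a unit.  With `α' = -1 - α`,
`u = y - α x`, `u' = y - α' x` one has `u u' = x (x² + a₄)`.

* `N2Node v a2 a4 α` : the node data;
* `N2Triple a2 a4` : a collinear triple `(Xᵢ, L Xᵢ + ν)` on the curve (three symmetric identities);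
* `IsN2W W` : `W.a₁ = 1`, `W.a₃ = 0`, `W.a₆ = 0`;
* `n2_triple` : three affine points of sum `0` give an `N2Triple W.a₂ W.a₄`;
* `n2E1 A` : the kernel of reduction (`P = 0` or `x ∉ A`);
* `n2cls v α` : the class of a point, `= F5.cval v W.a₄ α x y` on affine points, `0` at `0`.
-/

namespace Fermat.Agent.N2

open Fermat.Agent.F5

variable {K : Type*} [Field K] {A : ValuationSubring K}

/-- node data for `y² + x y = x³ + a2 x² + a4 x`: `w a4 > 0`, `α² + α = a2`, `α` integral,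
`2 α + 1` a unit -/
structure N2Node (v : RVal A) (a2 a4 α : K) : Prop where
  a4_ne : a4 ≠ 0
  a4_pos : 0 < v.w a4
  α_eq : α ^ 2 + α = a2
  α_int : v.Wge α 0
  γ_ne : 2 * α + 1 ≠ 0
  γ_unit : v.w (2 * α + 1) = 0

/-- the other tangent direction `α' = -1 - α` -/
theorem N2Node.conj {v : RVal A} {a2 a4 α : K} (h : N2Node v a2 a4 α) :
    N2Node v a2 a4 (-1 - α) where
  a4_ne := h.a4_ne
  a4_pos := h.a4_pos
  α_eq := by linear_combination h.α_eq
  α_int := RVal.Wge.sub (Or.inr (by rw [v.w_neg, v.w_one])) h.α_int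
  γ_ne := by
    have e : 2 * (-1 - α) + 1 = -(2 * α + 1) := by ring
    rw [e]; exact neg_ne_zero.mpr h.γ_ne
  γ_unit := by
    have e : 2 * (-1 - α) + 1 = -(2 * α + 1) := by ring
    rw [e, v.w_neg]; exact h.γ_unit

/-- three collinear points `(Xᵢ, L Xᵢ + ν)` on `y² + x y = x³ + a2 x² + a4 x`, encoded by
`T³ + a2 T² + a4 T - (L T + ν)² - T (L T + ν) = (T - X₁) (T - X₂) (T - X₃)` -/
structure N2Triple (a2 a4 : K) where
  L : K
  ν : K
  X₁ : K
  X₂ : K
  X₃ : K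
  s1 : X₁ + X₂ + X₃ = L ^ 2 + L - a2
  s2 : X₁ * X₂ + X₁ * X₃ + X₂ * X₃ = a4 - 2 * L * ν - ν
  s3 : X₁ * X₂ * X₃ = ν ^ 2

namespace N2Triple

variable {a2 a4 : K} (t : N2Triple a2 a4)

/-- the `y`-coordinate of the first point -/
def Y₁ : K := t.L * t.X₁ + t.ν

/-- the `y`-coordinate of the second point -/
def Y₂ : K := t.L * t.X₂ + t.ν

/-- the `y`-coordinate of the third point -/
def Y₃ : K := t.L * t.X₃ + t.ν

theorem poly_id (T : K) :
    T ^ 3 + a2 * T ^ 2 + a4 * T - (t.L * T + t.ν) ^ 2 - T * (t.L * T + t.ν) =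
      (T - t.X₁) * (T - t.X₂) * (T - t.X₃) := by
  linear_combination T ^ 2 * t.s1 - T * t.s2 + t.s3

theorem eq₁ : t.Y₁ ^ 2 + t.X₁ * t.Y₁ = t.X₁ ^ 3 + a2 * t.X₁ ^ 2 + a4 * t.X₁ := by
  have h := t.poly_id t.X₁
  rw [sub_self, zero_mul, zero_mul] at h
  rw [Y₁]
  linear_combination -h

theorem eq₂ : t.Y₂ ^ 2 + t.X₂ * t.Y₂ = t.X₂ ^ 3 + a2 * t.X₂ ^ 2 + a4 * t.X₂ := by
  have h := t.poly_id t.X₂
  rw [sub_self, mul_zero, zero_mul] at h
  rw [Y₂]
  linear_combination -h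

theorem eq₃ : t.Y₃ ^ 2 + t.X₃ * t.Y₃ = t.X₃ ^ 3 + a2 * t.X₃ ^ 2 + a4 * t.X₃ := by
  have h := t.poly_id t.X₃
  rw [sub_self, mul_zero] at h
  rw [Y₃]
  linear_combination -h

/-- exchange the first two points -/
def swap12 : N2Triple a2 a4 where
  L := t.L
  ν := t.ν
  X₁ := t.X₂
  X₂ := t.X₁
  X₃ := t.X₃
  s1 := by linear_combination t.s1
  s2 := by linear_combination t.s2
  s3 := by linear_combination t.s3

/-- exchange the last two points -/
def swap23 : N2Triple a2 a4 where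
  L := t.L
  ν := t.ν
  X₁ := t.X₁
  X₂ := t.X₃
  X₃ := t.X₂
  s1 := by linear_combination t.s1
  s2 := by linear_combination t.s2
  s3 := by linear_combination t.s3

/-- exchange the first and the last point -/
def swap13 : N2Triple a2 a4 where
  L := t.L
  ν := t.ν
  X₁ := t.X₃
  X₂ := t.X₂
  X₃ := t.X₁
  s1 := by linear_combination t.s1
  s2 := by linear_combination t.s2
  s3 := by linear_combination t.s3

/-- cyclic rotation `(1, 2, 3) ↦ (2, 3, 1)` -/
def rot : N2Triple a2 a4 where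
  L := t.L
  ν := t.ν
  X₁ := t.X₂
  X₂ := t.X₃
  X₃ := t.X₁
  s1 := by linear_combination t.s1
  s2 := by linear_combination t.s2
  s3 := by linear_combination t.s3

end N2Triple

/-- `W` is a curve `y² + x y = x³ + a₂ x² + a₄ x` -/
structure IsN2W (W : WeierstrassCurve.Affine K) : Prop where
  a1 : W.a₁ = 1
  a3 : W.a₃ = 0
  a6 : W.a₆ = 0

section points

open WeierstrassCurve.Affine

variable {W : WeierstrassCurve.Affine K}

/-- the curve equation in the `N2` shape -/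
theorem n2_eqn (hW : IsN2W W) {x y : K} (h : W.Equation x y) :
    y ^ 2 + x * y = x ^ 3 + W.a₂ * x ^ 2 + W.a₄ * x := by
  rw [equation_iff, hW.a1, hW.a3, hW.a6] at h
  linear_combination h

/-- negation of a point: `-(x, y) = (x, -y - x)` -/
theorem n2_negY (hW : IsN2W W) (x y : K) : W.negY x y = -y - x := by
  rw [negY, hW.a1, hW.a3]
  ring

/-- **group law ⇒ collinear triple**: three affine points with sum `0` -/
theorem n2_triple [DecidableEq K] (hW : IsN2W W) {x₁ y₁ x₂ y₂ x₃ y₃ : K}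
    (h₁ : W.Nonsingular x₁ y₁) (h₂ : W.Nonsingular x₂ y₂) (h₃ : W.Nonsingular x₃ y₃)
    (hsum : Point.some x₁ y₁ h₁ + Point.some x₂ y₂ h₂ + Point.some x₃ y₃ h₃ = 0) :
    ∃ t : N2Triple W.a₂ W.a₄, t.X₁ = x₁ ∧ t.X₂ = x₂ ∧ t.X₃ = x₃ ∧
      t.Y₁ = y₁ ∧ t.Y₂ = y₂ ∧ t.Y₃ = y₃ := by
  have hne : ¬(x₁ = x₂ ∧ y₁ = W.negY x₂ y₂) := by
    rintro ⟨hx, hy⟩
    rw [Point.add_of_Y_eq hx hy, zero_add] at hsum
    exact Point.some_ne_zero h₃ hsum
  have hadd : Point.some x₁ y₁ h₁ + Point.some x₂ y₂ h₂ = -Point.some x₃ y₃ h₃ :=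
    eq_neg_of_add_eq_zero_left hsum
  rw [Point.add_some hne, Point.neg_some, Point.some.injEq] at hadd
  obtain ⟨hx3, hy3⟩ := hadd
  set ℓ := W.slope x₁ x₂ y₁ y₂ with hℓ
  have hy3' : y₃ = ℓ * (x₃ - x₁) + y₁ := by
    have h := congrArg (W.negY x₃) hy3
    rw [WeierstrassCurve.Affine.negY_negY] at h
    rw [← h, addY, hx3, WeierstrassCurve.Affine.negY_negY, negAddY, hx3]
  have hy2' : y₂ = ℓ * (x₂ - x₁) + y₁ := by
    by_cases hx : x₁ = x₂
    · have hy : y₁ ≠ W.negY x₂ y₂ := fun h => hne ⟨hx, h⟩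
      have := Y_eq_of_Y_ne h₁.1 h₂.1 hx hy
      rw [← hx, sub_self, mul_zero, zero_add, this]
    · rw [hℓ, slope_of_X_ne hx]
      have : x₁ - x₂ ≠ 0 := sub_ne_zero.mpr hx
      field_simp
      ring
  have hpoly := addPolynomial_slope h₁.1 h₂.1 hne
  rw [← hℓ, hx3, addPolynomial_eq] at hpoly
  have e0 := congrArg (Polynomial.eval 0) hpoly
  have e1 := congrArg (Polynomial.eval 1) hpoly
  simp only [Cubic.toPoly, Polynomial.eval_neg, Polynomial.eval_add, Polynomial.eval_mul,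
    Polynomial.eval_C, Polynomial.eval_pow, Polynomial.eval_X, Polynomial.eval_sub,
    hW.a1, hW.a3, hW.a6] at e0 e1
  have hx3' : x₃ = ℓ ^ 2 + ℓ - W.a₂ - x₁ - x₂ := by
    rw [← hx3, addX, hW.a1]; ring
  refine ⟨⟨ℓ, y₁ - ℓ * x₁, x₁, x₂, x₃, ?_, ?_, ?_⟩, rfl, rfl, rfl, ?_, ?_, ?_⟩
  · linear_combination hx3'
  · linear_combination e1 - e0 + hx3'
  · linear_combination (-1 : K) * e0
  · show ℓ * x₁ + (y₁ - ℓ * x₁) = y₁
    ring
  · show ℓ * x₂ + (y₁ - ℓ * x₁) = y₂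
    rw [hy2']; ring
  · show ℓ * x₃ + (y₁ - ℓ * x₁) = y₃
    rw [hy3']; ring

/-- the kernel of reduction: the zero point and the affine points with non-integral `x` -/
def n2E1 (A : ValuationSubring K) : W.Point → Prop
  | .zero => True
  | .some x _ _ => x ∉ A

@[simp] theorem n2E1_zero : n2E1 A (0 : W.Point) := trivial

@[simp] theorem n2E1_some {x y : K} (h : W.Nonsingular x y) :
    n2E1 A (Point.some x y h) ↔ x ∉ A := Iff.rfl

/-- the class of a point: `0` at the zero point and `F5.cval v W.a₄ α x y` at `(x, y)`, i.e.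
`w a₄` if `x = 0` or `w x ≥ w a₄`, `0` if `w x ≤ 0`, and `± w x` otherwise
(sign `+` iff `w (y - α x) > w x`) -/
noncomputable def n2cls (v : RVal A) (α : K) : W.Point → ℝ
  | .zero => 0
  | .some x y _ => cval v W.a₄ α x y

@[simp] theorem n2cls_zero (v : RVal A) (α : K) : n2cls v α (0 : W.Point) = 0 := rfl

@[simp] theorem n2cls_some (v : RVal A) (α : K) {x y : K} (h : W.Nonsingular x y) :
    n2cls v α (Point.some x y h) = cval v W.a₄ α x y := rfl

end points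

end Fermat.Agent.N2
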