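/-
S13 support (helper9), WP-2 (N-c): the two consequences of the node theory at `2`, over a general
valued field, from the class map (`N-a`) and the kernel of reduction (`N-b`) taken as hypotheses.

* `n2c_unip_core` : an additive endomorphism `τ` of the points which preserves the class map and
  moves integral coordinates by elements of positive valuation satisfies `(τ - 1)² = 0` on the
  `p`-torsion.
* `n2c_norat_core` : a subgroup of points whose coordinates behave like rational numbers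
  (integer valuations, residue field `𝔽₂`) contains no point of order `p` (`p ≥ 5`, prime to
  `2 m`, `m = w a₄`).
-/
import Fermat.Agent.Lib.N2_Defs

set_option autoImplicit false

namespace Fermat.Agent.N2

open Fermat.Agent.F5 WeierstrassCurve.Affine

variable {K : Type*} [Field K] {A : ValuationSubring K}

/-! ### The values of the class map -/

section cval

variable (v : RVal A) (a4 α x y : K)

theorem n2c_cval_range (hm : 0 < v.w a4) :
    -v.w a4 < cval v a4 α x y ∧ cval v a4 α x y ≤ v.w a4 := by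
  unfold cval
  split_ifs with h1 h2 h3 h4
  · exact ⟨by linarith, le_rfl⟩
  · exact ⟨by linarith, hm.le⟩
  · exact ⟨by linarith [not_le.mp h2], h3.le⟩
  · exact ⟨by linarith, by linarith [not_le.mp h2]⟩
  · exact ⟨by linarith, le_rfl⟩

theorem n2c_cval_eq_zero_iff (hm : 0 < v.w a4) :
    cval v a4 α x y = 0 ↔ x ≠ 0 ∧ v.w x ≤ 0 := by
  unfold cval
  split_ifs with h1 h2 h3 h4
  · exact ⟨fun h => absurd h hm.ne', fun h => absurd h1 h.1⟩
  · exact ⟨fun _ => ⟨h1, h2⟩, fun _ => rfl⟩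
  · exact ⟨fun h => absurd h (not_le.mp h2).ne', fun h => absurd h.2 h2⟩
  · constructor
    · intro h
      have := not_le.mp h2
      linarith
    · intro h
      exact absurd h.2 h2
  · exact ⟨fun h => absurd h hm.ne', fun h => absurd h.2 h2⟩

/-- the class is an integer as soon as `w a₄` and `w x` are -/
theorem n2c_cval_int {m : ℕ} (hm : v.w a4 = m) (hx : x ≠ 0 → ∃ e : ℤ, v.w x = e) :
    ∃ j : ℤ, cval v a4 α x y = j := by
  unfold cval
  split_ifs with h1 h2 h3 h4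
  · exact ⟨m, by rw [hm]; norm_num⟩
  · exact ⟨0, by norm_num⟩
  · obtain ⟨e, he⟩ := hx h1
    exact ⟨e, he⟩
  · obtain ⟨e, he⟩ := hx h1
    exact ⟨-e, by rw [he]; push_cast; ring⟩
  · exact ⟨m, by rw [hm]; norm_num⟩

/-- invariance of the class under a valuation-preserving ring endomorphism fixing `α` -/
theorem n2c_cval_map (σ : K →+* K) (hσ : ∀ z, v.w (σ z) = v.w z) (hα : σ α = α) :
    cval v a4 α (σ x) (σ y) = cval v a4 α x y := by
  have h0 : ∀ z : K, σ z = 0 ↔ z = 0 := fun z => map_eq_zero σ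
  have hs : SgnPos v α (σ x) (σ y) ↔ SgnPos v α x y := by
    have e : σ y - α * σ x = σ (y - α * x) := by rw [map_sub, map_mul, hα]
    unfold SgnPos
    rw [e, hσ x]
    unfold RVal.Wgt
    rw [h0, hσ]
  by_cases hx : x = 0
  · subst hx
    rw [map_zero]
    unfold cval
    rw [if_pos rfl, if_pos rfl]
  have hx' : σ x ≠ 0 := fun h => hx ((h0 x).mp h)
  unfold cval
  rw [if_neg hx, if_neg hx', hσ x]
  by_cases h2 : v.w x ≤ 0
  · rw [if_pos h2, if_pos h2]
  rw [if_neg h2, if_neg h2]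
  by_cases h3 : v.w x < v.w a4
  · rw [if_pos h3, if_pos h3]
    by_cases h4 : SgnPos v α x y
    · rw [if_pos h4, if_pos (hs.mpr h4)]
    · rw [if_neg h4, if_neg (fun h => h4 (hs.mp h))]
  · rw [if_neg h3, if_neg h3]

end cval

section cpt

variable (v : RVal A) {W : WeierstrassCurve.Affine K} (α : K)

theorem n2c_cls_range (hm : 0 < v.w W.a₄) (P : W.Point) :
    -v.w W.a₄ < n2cls v α P ∧ n2cls v α P ≤ v.w W.a₄ := by
  rcases P with _ | ⟨x, y, hxy⟩
  · show -v.w W.a₄ < (0 : ℝ) ∧ (0 : ℝ) ≤ v.w W.a₄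
    exact ⟨by linarith, hm.le⟩
  · exact n2c_cval_range v W.a₄ α x y hm

/-- a class which is a multiple of `2 w(a₄)` vanishes -/
theorem n2c_cls_eq_zero_of_mul (hm : 0 < v.w W.a₄) (P : W.Point) (k : ℤ)
    (hk : n2cls v α P = 2 * v.w W.a₄ * k) : n2cls v α P = 0 := by
  obtain ⟨h1, h2⟩ := n2c_cls_range v α hm P
  rw [hk] at h1 h2 ⊢
  have hk0 : k = 0 := by
    by_contra hne
    rcases lt_or_gt_of_ne hne with hlt | hgt
    · have : (k : ℝ) ≤ -1 := by exact_mod_cast Int.le_sub_one_of_lt hlt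
      nlinarith
    · have : (1 : ℝ) ≤ k := by exact_mod_cast hgt
      nlinarith
  rw [hk0]
  simp

/-- class `0`: a point with `w x ≤ 0` -/
theorem n2c_cls_eq_zero (hm : 0 < v.w W.a₄) {x y : K} (h : W.Nonsingular x y)
    (hc : n2cls v α (Point.some x y h) = 0) : x ≠ 0 ∧ v.w x ≤ 0 :=
  (n2c_cval_eq_zero_iff v W.a₄ α x y hm).mp hc

end cpt

/-! ### Integrality of `y` -/

theorem n2c_wge_y {v : RVal A} {W : WeierstrassCurve.Affine K} (hW : IsN2W W)
    (ha2 : v.Wge W.a₂ 0) (ha4 : v.Wge W.a₄ 0) {x y : K} (hxy : W.Equation x y)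
    (hx : v.Wge x 0) : v.Wge y 0 := by
  have hxy := n2_eqn hW hxy
  by_contra hcon
  have hy0 : y ≠ 0 := fun h0 => hcon (Or.inl h0)
  have hlt : v.w y < 0 := not_le.mp fun hle => hcon (Or.inr hle)
  -- `y (y + x) = x³ + a₂ x² + a₄ x`
  have h1 : v.Wgt x (v.w y) := by
    rcases hx with rfl | hx
    · exact RVal.wgt_zero _
    · exact Or.inr (lt_of_lt_of_le hlt hx)
  obtain ⟨h2, h3⟩ := RVal.w_add_of_wgt hy0 h1
  have h4 : y * (y + x) = x ^ 3 + W.a₂ * x ^ 2 + W.a₄ * x := by linear_combination hxy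
  have h5 : v.w (y * (y + x)) = 2 * v.w y := by rw [v.w_mul _ _ hy0 h2, h3]; ring
  have hx2 : v.Wge (x ^ 2) 0 := by simpa using hx.pow 2
  have hx3 : v.Wge (x ^ 3) 0 := by simpa using hx.pow 3
  have h6 : v.Wge (x ^ 3 + W.a₂ * x ^ 2 + W.a₄ * x) 0 := by
    have e1 : v.Wge (W.a₂ * x ^ 2) 0 := by simpa using ha2.mul hx2
    have e2 : v.Wge (W.a₄ * x) 0 := by simpa using ha4.mul hx
    exact (hx3.add e1).add e2
  rw [← h4] at h6
  have h7 := h6.le (mul_ne_zero hy0 h2)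
  rw [h5] at h7
  linarith

/-! ### The unipotent statement -/

section unip

variable [DecidableEq K] {v : RVal A} {W : WeierstrassCurve.Affine K} {α : K}

/-- **`(τ - 1)² = 0` on the `p`-torsion**, from the additivity of the class map (`hadd`, `hneg`),
the absence of `p`-torsion in the kernel of reduction (`hnt`) and the "same reduction" lemma
(`hsr`) -/
theorem n2c_unip_core (hW : IsN2W W) (hm : 0 < v.w W.a₄) (ha2 : v.Wge W.a₂ 0) {p : ℕ}
    (hadd : ∀ P Q : W.Point, ∃ k : ℤ,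
      n2cls v α (P + Q) = n2cls v α P + n2cls v α Q + 2 * v.w W.a₄ * k)
    (hneg : ∀ P : W.Point, ∃ k : ℤ, n2cls v α (-P) = -n2cls v α P + 2 * v.w W.a₄ * k)
    (hnt : ∀ R : W.Point, n2E1 A R → p • R = 0 → R = 0)
    (hsr : ∀ (x₁ y₁ x₂ y₂ : K) (h₁ : W.Nonsingular x₁ y₁) (h₂ : W.Nonsingular x₂ y₂),
      x₁ ≠ 0 → v.w x₁ = 0 → v.Wge y₁ 0 → v.Wgt (x₁ - x₂) 0 → v.Wgt (y₁ - y₂) 0 →
        n2E1 A (Point.some x₁ y₁ h₁ - Point.some x₂ y₂ h₂))
    (τ : W.Point →+ W.Point) (hτc : ∀ P : W.Point, n2cls v α (τ P) = n2cls v α P)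
    (hτ : ∀ (x y : K) (hxy : W.Nonsingular x y), ∃ (x' y' : K) (hxy' : W.Nonsingular x' y'),
      τ (Point.some x y hxy) = Point.some x' y' hxy' ∧ (v.Wge x 0 → v.Wgt (x' - x) 0) ∧
        (v.Wge y 0 → v.Wgt (y' - y) 0))
    (Q : W.Point) (hQ : p • Q = 0) : τ (τ Q - Q) = τ Q - Q := by
  have hτp : ∀ R : W.Point, p • R = 0 → p • τ R = 0 := by
    intro R hR
    rw [← map_nsmul, hR, map_zero]
  set R := τ Q - Q with hRdef
  have hR : p • R = 0 := by rw [hRdef, smul_sub, hτp Q hQ, hQ, sub_zero]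
  -- the class of `R` vanishes
  have hc : n2cls v α R = 0 := by
    obtain ⟨k1, hk1⟩ := hadd (τ Q) (-Q)
    obtain ⟨k2, hk2⟩ := hneg Q
    apply n2c_cls_eq_zero_of_mul v α hm R (k1 + k2)
    rw [hRdef, sub_eq_add_neg, hk1, hk2, hτc]
    push_cast
    ring
  rcases hRc : R with _ | ⟨x, y, hxy⟩
  · exact map_zero τ
  · rw [hRc] at hc hR
    obtain ⟨hx0, hxle⟩ := n2c_cls_eq_zero v α hm hxy hc
    have hxA : x ∈ A := by
      by_contra hxA
      exact Point.some_ne_zero hxy (hnt _ ((n2E1_some hxy).mpr hxA) hR)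
    have hxge : v.Wge x 0 := RVal.mem_iff_wge.mp hxA
    have hw0 : v.w x = 0 := le_antisymm hxle (hxge.le hx0)
    have hyge : v.Wge y 0 := n2c_wge_y hW ha2 (Or.inr hm.le) hxy.1 hxge
    obtain ⟨x', y', hxy', hτR, hx', hy'⟩ := hτ x y hxy
    have hR' : p • Point.some x' y' hxy' = 0 := by rw [← hτR]; exact hτp _ hR
    rw [hτR]
    have hx'' : v.Wgt (x - x') 0 := by
      have := (hx' hxge).neg
      rwa [neg_sub] at this
    have hy'' : v.Wgt (y - y') 0 := by
      have := (hy' hyge).neg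
      rwa [neg_sub] at this
    have key := hsr x y x' y' hxy hxy' hx0 hw0 hyge hx'' hy''
    have hS : Point.some x y hxy - Point.some x' y' hxy' = 0 :=
      hnt _ key (by rw [smul_sub, hR, hR', sub_zero])
    exact (sub_eq_zero.mp hS).symm

end unip

/-! ### No rational point of order `p` -/

section norat

variable [DecidableEq K] {v : RVal A} {W : WeierstrassCurve.Affine K} {α : K}

/-- the shape of a nonzero "rational" `p`-torsion point: `x ≡ 1`, `y` integral -/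
theorem n2c_norat_red (hW : IsN2W W) (hmpos : 0 < v.w W.a₄) (ha2 : v.Wge W.a₂ 0) {p : ℕ}
    (hnsmul : ∀ (n : ℕ) (P : W.Point), ∃ k : ℤ,
      n2cls v α (n • P) = n * n2cls v α P + 2 * v.w W.a₄ * k)
    (hnt : ∀ R : W.Point, n2E1 A R → p • R = 0 → R = 0)
    {m : ℕ} (hm : v.w W.a₄ = m) (hcop : Nat.Coprime p (2 * m))
    {x y : K} (hxy : W.Nonsingular x y) (hP : p • Point.some x y hxy = 0)
    (hxe : x ≠ 0 → ∃ e : ℤ, v.w x = e) (hxr : v.Wge x 0 → v.Wgt x 0 ∨ v.Wgt (x - 1) 0) :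
    x ≠ 0 ∧ v.w x = 0 ∧ v.Wge y 0 ∧ v.Wgt (x - 1) 0 := by
  have hm1 : 0 < m := by
    rw [hm] at hmpos
    exact_mod_cast hmpos
  -- the class is an integer `j` with `2 m ∣ p j`
  obtain ⟨j, hj⟩ := n2c_cval_int v W.a₄ α x y hm hxe
  obtain ⟨k, hk⟩ := hnsmul p (Point.some x y hxy)
  rw [hP, n2cls_zero, n2cls_some, hj, hm] at hk
  have hk' : (p : ℤ) * j + 2 * m * k = 0 := by
    have : ((0 : ℤ) : ℝ) = (((p : ℤ) * j + 2 * m * k : ℤ) : ℝ) := by
      push_cast
      linarith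
    exact_mod_cast this.symm
  have hdvd : ((2 * m : ℕ) : ℤ) ∣ j := by
    have h1 : ((2 * m : ℕ) : ℤ) ∣ (p : ℤ) * j := ⟨-k, by push_cast; linarith⟩
    have h2 : IsCoprime ((2 * m : ℕ) : ℤ) (p : ℤ) := by
      exact_mod_cast (Nat.isCoprime_iff_coprime.mpr hcop.symm)
    exact h2.dvd_of_dvd_mul_left h1
  have hrange := n2c_cval_range v W.a₄ α x y hmpos
  rw [hj, hm] at hrange
  have hj0 : j = 0 := by
    obtain ⟨t, ht⟩ := hdvd
    have h1 : -(m : ℤ) < j := by exact_mod_cast hrange.1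
    have h2 : j ≤ (m : ℤ) := by exact_mod_cast hrange.2
    have hmZ : (0 : ℤ) < m := by exact_mod_cast hm1
    push_cast at ht
    have ht0 : t = 0 := by
      by_contra hne
      rcases lt_or_gt_of_ne hne with hlt | hgt
      · have : t ≤ -1 := Int.le_sub_one_of_lt hlt
        nlinarith
      · have : 1 ≤ t := hgt
        nlinarith
    rw [ht, ht0, mul_zero]
  have hc : cval v W.a₄ α x y = 0 := by rw [hj, hj0]; norm_num
  obtain ⟨hx0, hxle⟩ := (n2c_cval_eq_zero_iff v W.a₄ α x y hmpos).mp hc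
  have hxA : x ∈ A := by
    by_contra hxA
    exact Point.some_ne_zero hxy (hnt _ ((n2E1_some hxy).mpr hxA) hP)
  have hxge : v.Wge x 0 := RVal.mem_iff_wge.mp hxA
  have hw0 : v.w x = 0 := le_antisymm hxle (hxge.le hx0)
  refine ⟨hx0, hw0, n2c_wge_y hW ha2 (Or.inr hmpos.le) hxy.1 hxge, ?_⟩
  rcases hxr hxge with h1 | h1
  · have := h1.lt hx0
    linarith
  · exact h1

/-- **no "rational" point of order `p`** -/
theorem n2c_norat_core (hW : IsN2W W) (hmpos : 0 < v.w W.a₄) (ha2 : v.Wge W.a₂ 0) {p : ℕ}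
    (hnsmul : ∀ (n : ℕ) (P : W.Point), ∃ k : ℤ,
      n2cls v α (n • P) = n * n2cls v α P + 2 * v.w W.a₄ * k)
    (hnt : ∀ R : W.Point, n2E1 A R → p • R = 0 → R = 0)
    (hsr : ∀ (x₁ y₁ x₂ y₂ : K) (h₁ : W.Nonsingular x₁ y₁) (h₂ : W.Nonsingular x₂ y₂),
      x₁ ≠ 0 → v.w x₁ = 0 → v.Wge y₁ 0 → v.Wgt (x₁ - x₂) 0 → v.Wgt (y₁ - y₂) 0 →
        n2E1 A (Point.some x₁ y₁ h₁ - Point.some x₂ y₂ h₂))
    (hp : p.Prime) (hp5 : 5 ≤ p) (h2 : v.Wgt (2 : K) 0) {m : ℕ} (hm : v.w W.a₄ = m)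
    (hcop : Nat.Coprime p (2 * m)) (G : AddSubgroup W.Point)
    (hG : ∀ (x y : K) (hxy : W.Nonsingular x y), Point.some x y hxy ∈ G →
      (x ≠ 0 → ∃ e : ℤ, v.w x = e) ∧ (v.Wge x 0 → v.Wgt x 0 ∨ v.Wgt (x - 1) 0) ∧
        (v.Wge y 0 → v.Wgt y 0 ∨ v.Wgt (y - 1) 0))
    {Q : W.Point} (hQG : Q ∈ G) (hQ : p • Q = 0) : Q = 0 := by
  by_contra hQ0
  -- the order of `Q` is `p`
  have hord : ∀ n : ℕ, Nat.Coprime n p → n • Q ≠ 0 := by
    intro n hn h0
    have h1 : addOrderOf Q ∣ n := addOrderOf_dvd_of_nsmul_eq_zero h0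
    have h2 : addOrderOf Q ∣ p := addOrderOf_dvd_of_nsmul_eq_zero hQ
    have h3 : addOrderOf Q = 1 := Nat.eq_one_of_dvd_coprimes hn h1 h2
    exact hQ0 (AddMonoid.addOrderOf_eq_one_iff.mp h3)
  have hc2 : Nat.Coprime 2 p := by
    rw [Nat.coprime_primes Nat.prime_two hp]; omega
  have hc3 : Nat.Coprime 3 p := by
    rw [Nat.coprime_primes Nat.prime_three hp]; omega
  have h2Q : (2 : ℕ) • Q ≠ 0 := hord 2 hc2
  have h3Q : (3 : ℕ) • Q ≠ 0 := hord 3 hc3
  have h2G : (2 : ℕ) • Q ∈ G := G.nsmul_mem hQG 2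
  have h2p : p • ((2 : ℕ) • Q) = 0 := by rw [smul_comm, hQ, smul_zero]
  have h3p : p • ((3 : ℕ) • Q) = 0 := by rw [smul_comm, hQ, smul_zero]
  rcases hQc : Q with _ | ⟨x, y, hxy⟩
  · exact hQ0 hQc
  rcases hQ2c : (2 : ℕ) • Q with _ | ⟨x', y', hxy'⟩
  · exact h2Q hQ2c
  rw [hQc] at hQG hQ
  rw [hQ2c] at h2G h2p
  obtain ⟨hxe, hxr, hyr⟩ := hG x y hxy hQG
  obtain ⟨hxe', hxr', hyr'⟩ := hG x' y' hxy' h2G
  obtain ⟨hx0, hw0, hyge, hx1⟩ :=
    n2c_norat_red hW hmpos ha2 hnsmul hnt hm hcop hxy hQ hxe hxr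
  obtain ⟨hx0', hw0', hyge', hx1'⟩ :=
    n2c_norat_red hW hmpos ha2 hnsmul hnt hm hcop hxy' h2p hxe' hxr'
  have hxx : v.Wgt (x' - x) 0 := by
    have := hx1'.sub hx1
    rwa [sub_sub_sub_cancel_right] at this
  -- the two cases for the reductions of `y` and `y'`
  have hcases : v.Wgt (y' - y) 0 ∨ v.Wgt (y' - W.negY x y) 0 := by
    rw [n2_negY hW]
    rcases hyr hyge with h1 | h1 <;> rcases hyr' hyge' with h1' | h1'
    · exact Or.inl (h1'.sub h1)
    · right
      have e : y' - (-y - x) = (y' - 1) + y + (x - 1) + 2 := by ring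
      rw [e]
      exact ((h1'.add h1).add hx1).add h2
    · right
      have e : y' - (-y - x) = y' + (y - 1) + (x - 1) + 2 := by ring
      rw [e]
      exact ((h1'.add h1).add hx1).add h2
    · left
      have := h1'.sub h1
      rwa [sub_sub_sub_cancel_right] at this
  rcases hcases with hyy | hyy
  · -- `2 Q` and `Q` have the same reduction: `Q = 2 Q - Q` is in the kernel of reduction
    have hd : Point.some x' y' hxy' - Point.some x y hxy = Point.some x y hxy := by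
      rw [← hQ2c, hQc, two_nsmul, add_sub_cancel_right]
    have key := hsr x' y' x y hxy' hxy hx0' hw0' hyge' hxx hyy
    rw [hd] at key
    exact Point.some_ne_zero hxy (hnt _ key hQ)
  · -- `2 Q` and `-Q` have the same reduction: `3 Q = 2 Q - (-Q)` is in the kernel of reduction
    have hneg : -Point.some x y hxy = Point.some x (W.negY x y) ((nonsingular_neg x y).mpr hxy) :=
      Point.neg_some hxy
    have h3 : Point.some x' y' hxy' -
        Point.some x (W.negY x y) ((nonsingular_neg x y).mpr hxy) = (3 : ℕ) • Q := by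
      rw [← hneg, ← hQ2c, hQc, sub_neg_eq_add, ← succ_nsmul]
    have key := hsr x' y' x (W.negY x y) hxy' ((nonsingular_neg x y).mpr hxy) hx0' hw0' hyge'
      hxx hyy
    rw [h3] at key
    exact h3Q (hnt _ key h3p)

end norat

end Fermat.Agent.N2
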