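import Fermat.Agent.Lib.F5_E1
import Fermat.Agent.Lib.N2_Defs

set_option autoImplicit false

/-!
# S13, WP-2 (N-b): the kernel of reduction of `y² + x y = x³ + a₂ x² + a₄ x` (helper7)

Weierstrass coordinates, `v : RVal A`, `a₂`, `a₄` integral; no assumption on the residue
characteristic for the kernel of reduction (in particular `2` need not be a unit).

* `n2e_closed` : two points of an `N2Triple` in the kernel of reduction ⇒ so is the third;
* `n2e_add` : `z = X / Y` is additive on the kernel of reduction up to second order;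
* `n2_e1_neg`, `n2_e1_add` : `n2E1 A` is stable under negation and addition;
* `n2_e1_no_torsion` : no `n`-torsion in the kernel of reduction when `w n = 0`;
* `n2e_same_red` : (`w 2 > 0`) two integral points with the same reduction, `x` a unit, differ by
  a point of the kernel of reduction (same statement as helper8's `n2_same_red` in `N2_SameRed`).
-/

namespace Fermat.Agent.N2

open Fermat.Agent.F5 Fermat.Agent.F5.RVal

variable {K : Type*} [Field K] {A : ValuationSubring K}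

/-! ### Single points -/

/-- the `Y`-coordinate of a point of the kernel of reduction: `2 w(Y) = 3 w(X)` -/
theorem n2e_w_Y {v : RVal A} {a₂ a₄ X Y : K} (h2 : v.Wge a₂ 0) (h4 : v.Wge a₄ 0) (hX : IsK v X)
    (hY : Y ^ 2 + X * Y = X ^ 3 + a₂ * X ^ 2 + a₄ * X) :
    Y ≠ 0 ∧ 2 * v.w Y = 3 * v.w X ∧ Y + X ≠ 0 ∧ v.w (Y + X) = v.w Y := by
  obtain ⟨hX0, hXw⟩ := hX
  -- the right-hand side has valuation `3 w X`
  have hX3 : X ^ 3 ≠ 0 := pow_ne_zero 3 hX0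
  have hwX3 : v.w (X ^ 3) = 3 * v.w X := by rw [v.w_pow hX0]; norm_num
  have hrest : v.Wgt (a₂ * X ^ 2 + a₄ * X) (v.w (X ^ 3)) := by
    rw [hwX3]
    have r1 : v.Wge (a₂ * X ^ 2) (2 * v.w X) := by
      have := h2.mul ((wge_self (v := v) (x := X)).pow 2)
      simpa using this
    have r2 : v.Wge (a₄ * X) (v.w X) := by
      have := h4.mul (wge_self (v := v) (x := X))
      simpa using this
    exact ((r1.mono (show 2 * v.w X ≤ 2 * v.w X from le_rfl)).add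
      (r2.mono (by linarith))).wgt_of_lt (by linarith)
  have hR := w_add_of_wgt hX3 hrest
  have eR : X ^ 3 + (a₂ * X ^ 2 + a₄ * X) = Y * (Y + X) := by linear_combination -hY
  rw [eR, hwX3] at hR
  obtain ⟨hne, hw⟩ := hR
  have hY0 : Y ≠ 0 := by
    rintro rfl
    exact hne (zero_mul _)
  have hYX0 : Y + X ≠ 0 := by
    intro h
    exact hne (by rw [h, mul_zero])
  have hw' : v.w Y + v.w (Y + X) = 3 * v.w X := by
    rw [← v.w_mul _ _ hY0 hYX0]; exact hw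
  -- `w Y < w X`
  have hlt : v.w Y < v.w X := by
    by_contra hge
    have hge' : v.w X ≤ v.w Y := not_lt.mp hge
    have := v.w_add Y X hY0 hX0 hYX0
    rw [min_eq_right hge'] at this
    linarith
  have hdom := w_add_of_wgt hY0 (show v.Wgt X (v.w Y) from Or.inr hlt)
  exact ⟨hY0, by rw [hdom.2] at hw'; linarith, hYX0, hdom.2⟩

/-- an integral point has an integral `Y`-coordinate -/
theorem n2e_wge_Y {v : RVal A} {a₂ a₄ X Y : K} (h2 : v.Wge a₂ 0) (h4 : v.Wge a₄ 0)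
    (hX : v.Wge X 0) (hY : Y ^ 2 + X * Y = X ^ 3 + a₂ * X ^ 2 + a₄ * X) : v.Wge Y 0 := by
  by_contra hcon
  have hY0 : Y ≠ 0 := fun h => hcon (Or.inl h)
  have hYw : v.w Y < 0 := not_le.mp fun h => hcon (Or.inr h)
  have hY2 : Y ^ 2 ≠ 0 := pow_ne_zero 2 hY0
  have hc : v.Wge (X ^ 3 + a₂ * X ^ 2 + a₄ * X) 0 := by
    have r1 : v.Wge (X ^ 3) 0 := by have := hX.pow 3; simpa using this
    have r2 : v.Wge (a₂ * X ^ 2) 0 := by have := h2.mul (hX.pow 2); simpa using this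
    have r3 : v.Wge (a₄ * X) 0 := by have := h4.mul hX; simpa using this
    exact (r1.add r2).add r3
  have hXY : v.Wge (X * Y) (v.w Y) := by
    have := hX.mul (wge_self (v := v) (x := Y))
    simpa using this
  have e : Y ^ 2 = (X ^ 3 + a₂ * X ^ 2 + a₄ * X) - X * Y := by linear_combination hY
  have h1 : v.Wge (Y ^ 2) (v.w Y) := by
    rw [e]
    exact (hc.mono hYw.le).sub hXY
  have := h1.le hY2
  rw [v.w_sq hY0] at this
  linarith

/-! ### Triples -/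

/-- **the kernel of reduction is closed**: if two points of a collinear triple lie in the kernel
of reduction, so does the third. -/
theorem n2e_closed {v : RVal A} {a₂ a₄ : K} (h2 : v.Wge a₂ 0) (h4 : v.Wge a₄ 0)
    (t : N2Triple a₂ a₄) (h1 : IsK v t.X₁) (h2' : IsK v t.X₂) : IsK v t.X₃ := by
  by_contra hK
  have h3 : v.Wge t.X₃ 0 := e1_not_isK hK
  obtain ⟨hY1, hwY1, -, -⟩ := n2e_w_Y h2 h4 h1 t.eq₁
  obtain ⟨hY2, hwY2, -, -⟩ := n2e_w_Y h2 h4 h2' t.eq₂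
  have hY3 : v.Wge t.Y₃ 0 := n2e_wge_Y h2 h4 h3 t.eq₃
  have e13 : t.Y₁ - t.Y₃ = t.L * (t.X₁ - t.X₃) := by
    simp only [N2Triple.Y₁, N2Triple.Y₃]; ring
  have e23 : t.Y₂ - t.Y₃ = t.L * (t.X₂ - t.X₃) := by
    simp only [N2Triple.Y₂, N2Triple.Y₃]; ring
  have a1 := w_sub_of_wgt hY1 (hY3.wgt_of_lt (show v.w t.Y₁ < 0 by linarith [h1.2]))
  have b1 := w_sub_of_wgt h1.1 (h3.wgt_of_lt h1.2)
  have a2 := w_sub_of_wgt hY2 (hY3.wgt_of_lt (show v.w t.Y₂ < 0 by linarith [h2'.2]))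
  have b2 := w_sub_of_wgt h2'.1 (h3.wgt_of_lt h2'.2)
  have hL : t.L ≠ 0 := by
    intro h
    rw [h, zero_mul] at e13
    exact a1.1 e13
  have hwL1 : 2 * v.w t.L = v.w t.X₁ := by
    have := v.w_mul _ _ hL b1.1
    rw [← e13, a1.2, b1.2] at this
    linarith
  have hwL2 : 2 * v.w t.L = v.w t.X₂ := by
    have := v.w_mul _ _ hL b2.1
    rw [← e23, a2.2, b2.2] at this
    linarith
  have hμ : v.w t.L < 0 := by linarith [h1.2]
  have hν : v.Wge t.ν (v.w t.L) := by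
    have e : t.ν = t.Y₃ - t.L * t.X₃ := by simp only [N2Triple.Y₃]; ring
    rw [e]
    refine (hY3.mono hμ.le).sub ?_
    have := (wge_self (v := v) (x := t.L)).mul h3
    simpa using this
  have hX12 : t.X₁ * t.X₂ ≠ 0 := mul_ne_zero h1.1 h2'.1
  have hw12 : v.w (t.X₁ * t.X₂) = 4 * v.w t.L := by
    rw [v.w_mul _ _ h1.1 h2'.1]; linarith
  have hrest : v.Wgt (t.X₁ * t.X₃ + t.X₂ * t.X₃) (v.w (t.X₁ * t.X₂)) := by
    rw [hw12]
    have r1 := (wge_self (v := v) (x := t.X₁)).mul h3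
    have r2 := (wge_self (v := v) (x := t.X₂)).mul h3
    have r3 := (r1.mono (s := 2 * v.w t.L) (by linarith)).add
      (r2.mono (s := 2 * v.w t.L) (by linarith))
    exact r3.wgt_of_lt (by linarith)
  have hlhs := w_add_of_wgt hX12 hrest
  have hrhs : v.Wge (a₄ - 2 * t.L * t.ν - t.ν) (2 * v.w t.L) := by
    refine Wge.sub (Wge.sub (h4.mono (by linarith)) ?_) (hν.mono (by linarith))
    have := ((e1_wge_two v).mul (wge_self (v := v) (x := t.L))).mul hν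
    exact this.mono (by linarith)
  have e : t.X₁ * t.X₂ + (t.X₁ * t.X₃ + t.X₂ * t.X₃) = a₄ - 2 * t.L * t.ν - t.ν := by
    rw [← t.s2]; ring
  rw [e] at hlhs
  have := hrhs.le hlhs.1
  linarith [hlhs.2]

/-- the exact identity behind the additivity of `z = X / Y` -/
theorem n2e_sum_identity {a₂ a₄ : K} (t : N2Triple a₂ a₄) :
    t.X₁ * t.Y₂ * t.Y₃ + t.X₂ * t.Y₁ * t.Y₃ + t.X₃ * t.Y₁ * t.Y₂ =
      t.ν * (2 * t.L * a₄ - t.L * t.ν - a₂ * t.ν) := by
  simp only [N2Triple.Y₁, N2Triple.Y₂, N2Triple.Y₃]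
  linear_combination 3 * t.L ^ 2 * t.s3 + 2 * t.L * t.ν * t.s2 + t.ν ^ 2 * t.s1

/-- **additivity of `z = X / Y` on the kernel of reduction up to higher order**: for a collinear
triple in the kernel of reduction, with `hᵢ = - w Xᵢ / 2 = w zᵢ` and `M ≥ hᵢ` for all `i`,
`w (z₁ + z₂ + z₃) ≥ h₁ + h₂ + h₃ - M`. -/
theorem n2e_add {v : RVal A} {a₂ a₄ : K} (h2 : v.Wge a₂ 0) (h4 : v.Wge a₄ 0) (t : N2Triple a₂ a₄)
    (h1 : IsK v t.X₁) (h2' : IsK v t.X₂) (h3 : IsK v t.X₃) {M : ℝ}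
    (hM1 : -v.w t.X₁ / 2 ≤ M) (hM2 : -v.w t.X₂ / 2 ≤ M) (hM3 : -v.w t.X₃ / 2 ≤ M) :
    v.Wge (t.X₁ / t.Y₁ + t.X₂ / t.Y₂ + t.X₃ / t.Y₃)
      (-(v.w t.X₁ + v.w t.X₂ + v.w t.X₃) / 2 - M) := by
  obtain ⟨hY1, hwY1, -, -⟩ := n2e_w_Y h2 h4 h1 t.eq₁
  obtain ⟨hY2, hwY2, -, -⟩ := n2e_w_Y h2 h4 h2' t.eq₂
  obtain ⟨hY3, hwY3, -, -⟩ := n2e_w_Y h2 h4 h3 t.eq₃
  set H : ℝ := -(v.w t.X₁ + v.w t.X₂ + v.w t.X₃) / 2 with hH
  have hH0 : 0 ≤ H := by rw [hH]; linarith [h1.2, h2'.2, h3.2]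
  have hM0 : 0 ≤ M := by linarith [h1.2]
  have hX123 : t.X₁ * t.X₂ * t.X₃ ≠ 0 := mul_ne_zero (mul_ne_zero h1.1 h2'.1) h3.1
  have hν0 : t.ν ≠ 0 := by
    intro h
    apply hX123
    rw [t.s3, h]; ring
  have hwν : v.w t.ν = -H := by
    have := v.w_sq hν0
    rw [← t.s3, v.w_mul _ _ (mul_ne_zero h1.1 h2'.1) h3.1, v.w_mul _ _ h1.1 h2'.1] at this
    rw [hH]; linarith
  have hν : v.Wge t.ν (-H) := Or.inr hwν.ge
  have hL : v.Wge t.L (-M) := by
    by_contra hcon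
    have hL0 : t.L ≠ 0 := fun h => hcon (Or.inl h)
    have hLw : v.w t.L < -M := not_le.mp fun h => hcon (Or.inr h)
    have hL2 : t.L ^ 2 ≠ 0 := pow_ne_zero 2 hL0
    have hwL2 : v.w (t.L ^ 2) = 2 * v.w t.L := v.w_sq hL0
    have hdom := w_add_of_wgt hL2
      (show v.Wgt t.L (v.w (t.L ^ 2)) from Or.inr (by rw [hwL2]; linarith))
    have e : t.L ^ 2 + t.L = t.X₁ + t.X₂ + t.X₃ + a₂ := by linear_combination -t.s1
    rw [e, hwL2] at hdom
    have r1 : v.Wge t.X₁ (-(2 * M)) := Or.inr (by linarith)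
    have r2 : v.Wge t.X₂ (-(2 * M)) := Or.inr (by linarith)
    have r3 : v.Wge t.X₃ (-(2 * M)) := Or.inr (by linarith)
    have r := (((r1.add r2).add r3).add (h2.mono (by linarith))).le hdom.1
    linarith [hdom.2]
  have hnum : v.Wge (t.ν * (2 * t.L * a₄ - t.L * t.ν - a₂ * t.ν)) (-H + (-M + -H)) := by
    refine hν.mul (Wge.sub (Wge.sub ?_ ?_) ?_)
    · have := ((e1_wge_two v).mul hL).mul h4
      exact this.mono (by linarith)
    · exact hL.mul hν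
    · have := h2.mul hν
      exact this.mono (by linarith)
  have hY123 : t.Y₁ * t.Y₂ * t.Y₃ ≠ 0 := mul_ne_zero (mul_ne_zero hY1 hY2) hY3
  have hwY : v.w (t.Y₁ * t.Y₂ * t.Y₃) = -3 * H := by
    rw [v.w_mul _ _ (mul_ne_zero hY1 hY2) hY3, v.w_mul _ _ hY1 hY2, hH]; linarith
  have e : t.X₁ / t.Y₁ + t.X₂ / t.Y₂ + t.X₃ / t.Y₃ =
      t.ν * (2 * t.L * a₄ - t.L * t.ν - a₂ * t.ν) / (t.Y₁ * t.Y₂ * t.Y₃) := by
    rw [← n2e_sum_identity t]
    field_simp
  rw [e]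
  have := e1_wge_div hnum hY123
  rw [hwY] at this
  exact this.mono (by linarith)

/-- non-integral = in the kernel of reduction -/
theorem n2e_not_mem_iff {v : RVal A} {x : K} : x ∉ A ↔ IsK v x := by
  rw [v.mem_iff_wge]
  constructor
  · intro h
    exact ⟨fun h0 => h (Or.inl h0), not_le.mp fun hle => h (Or.inr hle)⟩
  · rintro ⟨h0, hlt⟩ (h | h)
    · exact h0 h
    · linarith

/-! ### Group level -/

section Group

open WeierstrassCurve.Affine

set_option linter.unusedSectionVars false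

variable [DecidableEq K] {W : WeierstrassCurve.Affine K}

/-- the `x`-coordinate of a point (`0` at the origin) -/
def n2eX : W.Point → K
  | .zero => 0
  | .some x _ _ => x

/-- the `y`-coordinate of a point (`0` at the origin) -/
def n2eY : W.Point → K
  | .zero => 0
  | .some _ y _ => y

/-- the local parameter `z = x / y` at the origin (`0` at the origin) -/
def n2eZ (P : W.Point) : K := n2eX P / n2eY P

@[simp] theorem n2eX_zero : n2eX (0 : W.Point) = 0 := rfl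

@[simp] theorem n2eY_zero : n2eY (0 : W.Point) = 0 := rfl

@[simp] theorem n2eZ_zero : n2eZ (0 : W.Point) = 0 := by simp [n2eZ]

@[simp] theorem n2eX_some {x y : K} (h : W.Nonsingular x y) : n2eX (Point.some x y h) = x := rfl

@[simp] theorem n2eY_some {x y : K} (h : W.Nonsingular x y) : n2eY (Point.some x y h) = y := rfl

theorem n2eX_neg (P : W.Point) : n2eX (-P) = n2eX P := by
  cases P with
  | zero => rfl
  | some x y h => rw [Point.neg_some]; rfl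

theorem n2eY_neg (hW : IsN2W W) (P : W.Point) : n2eY (-P) = -n2eY P - n2eX P := by
  cases P with
  | zero =>
    show n2eY (-(0 : W.Point)) = -n2eY (0 : W.Point) - n2eX (0 : W.Point)
    simp
  | some x y h =>
    rw [Point.neg_some, n2eY_some, n2eY_some, n2eX_some, n2_negY hW]

/-- the curve equation in coordinates -/
theorem n2e_equation (hW : IsN2W W) (P : W.Point) :
    n2eY P ^ 2 + n2eX P * n2eY P = n2eX P ^ 3 + W.a₂ * n2eX P ^ 2 + W.a₄ * n2eX P := by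
  cases P with
  | zero =>
    show n2eY (0 : W.Point) ^ 2 + n2eX (0 : W.Point) * n2eY (0 : W.Point) =
      n2eX (0 : W.Point) ^ 3 + W.a₂ * n2eX (0 : W.Point) ^ 2 + W.a₄ * n2eX (0 : W.Point)
    simp
  | some x y h => exact n2_eqn hW h.1

/-- `n2E1 A` in terms of `IsK` -/
theorem n2e_E1_iff {v : RVal A} {P : W.Point} : n2E1 A P ↔ P = 0 ∨ IsK v (n2eX P) := by
  cases P with
  | zero => exact ⟨fun _ => Or.inl rfl, fun _ => trivial⟩
  | some x y h =>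
    rw [n2E1_some, n2e_not_mem_iff (v := v)]
    constructor
    · intro hk; exact Or.inr hk
    · rintro (h0 | hk)
      · exact absurd h0 (Point.some_ne_zero h)
      · exact hk

/-- three non-zero points with sum `0` form a collinear triple -/
theorem n2e_exists_triple (hW : IsN2W W) {P Q R : W.Point} (hP : P ≠ 0) (hQ : Q ≠ 0)
    (hR : R ≠ 0) (h : P + Q + R = 0) :
    ∃ t : N2Triple W.a₂ W.a₄, t.X₁ = n2eX P ∧ t.X₂ = n2eX Q ∧ t.X₃ = n2eX R ∧
      t.Y₁ = n2eY P ∧ t.Y₂ = n2eY Q ∧ t.Y₃ = n2eY R := by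
  cases P with
  | zero => exact absurd rfl hP
  | some x₁ y₁ h₁ =>
  cases Q with
  | zero => exact absurd rfl hQ
  | some x₂ y₂ h₂ =>
  cases R with
  | zero => exact absurd rfl hR
  | some x₃ y₃ h₃ => exact n2_triple hW h₁ h₂ h₃ h

/-- **the kernel of reduction is stable under negation** -/
theorem n2_e1_neg (_hW : IsN2W W) {P : W.Point} (hP : n2E1 A P) : n2E1 A (-P) := by
  cases P with
  | zero =>
    show n2E1 A (-(0 : W.Point))
    rw [neg_zero]; exact n2E1_zero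
  | some x y h => rw [Point.neg_some]; exact hP

/-- **the kernel of reduction is stable under addition** -/
theorem n2_e1_add (hW : IsN2W W) (v : RVal A) (ha2 : v.Wge W.a₂ 0) (ha4 : v.Wge W.a₄ 0)
    {P Q : W.Point} (hP : n2E1 A P) (hQ : n2E1 A Q) : n2E1 A (P + Q) := by
  rw [n2e_E1_iff (v := v)] at hP hQ ⊢
  rcases hP with rfl | hP
  · rw [zero_add]; exact hQ
  rcases hQ with rfl | hQ
  · rw [add_zero]; exact Or.inr hP
  by_cases hR : P + Q = 0
  · exact Or.inl hR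
  have hP0 : P ≠ 0 := by rintro rfl; exact hP.1 rfl
  have hQ0 : Q ≠ 0 := by rintro rfl; exact hQ.1 rfl
  obtain ⟨t, tX1, tX2, tX3, -, -, -⟩ := n2e_exists_triple hW hP0 hQ0 (neg_ne_zero.mpr hR)
    (add_neg_cancel (P + Q))
  have := n2e_closed ha2 ha4 t (by rwa [tX1]) (by rwa [tX2])
  rw [tX3, n2eX_neg] at this
  exact Or.inr this

/-- `z` of a non-zero point of the kernel of reduction -/
theorem n2e_w_Z (hW : IsN2W W) {v : RVal A} (ha2 : v.Wge W.a₂ 0) (ha4 : v.Wge W.a₄ 0)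
    {P : W.Point} (hP : IsK v (n2eX P)) : n2eZ P ≠ 0 ∧ v.w (n2eZ P) = -v.w (n2eX P) / 2 := by
  obtain ⟨hY0, hw, -, -⟩ := n2e_w_Y ha2 ha4 hP (n2e_equation hW P)
  refine ⟨div_ne_zero hP.1 hY0, ?_⟩
  rw [n2eZ, v.w_div hP.1 hY0]
  linarith

/-- `z (P) + z (-P)` is of second order -/
theorem n2e_Z_neg (hW : IsN2W W) {v : RVal A} (ha2 : v.Wge W.a₂ 0) (ha4 : v.Wge W.a₄ 0)
    {P : W.Point} (hP : IsK v (n2eX P)) : v.Wge (n2eZ P + n2eZ (-P)) (-v.w (n2eX P)) := by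
  obtain ⟨hY0, hw, hYX0, hwYX⟩ := n2e_w_Y ha2 ha4 hP (n2e_equation hW P)
  have h' : -n2eY P - n2eX P ≠ 0 := by
    intro h; apply hYX0; linear_combination -h
  have e : n2eZ P + n2eZ (-P) = n2eX P ^ 2 / (n2eY P * (n2eY P + n2eX P)) := by
    rw [n2eZ, n2eZ, n2eX_neg, n2eY_neg hW]
    field_simp
    ring
  rw [e]
  refine Or.inr ?_
  rw [v.w_div (pow_ne_zero 2 hP.1) (mul_ne_zero hY0 hYX0), v.w_sq hP.1, v.w_mul _ _ hY0 hYX0,
    hwYX]
  linarith

/-- **`z` is additive on the kernel of reduction up to second order** -/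
theorem n2e_Z_add (hW : IsN2W W) {v : RVal A} (ha2 : v.Wge W.a₂ 0) (ha4 : v.Wge W.a₄ 0)
    {P Q : W.Point} {h : ℝ} (_hh : 0 < h) (hP : n2E1 A P) (hQ : n2E1 A Q)
    (hPh : v.Wge (n2eZ P) h) (hQh : v.Wge (n2eZ Q) h) :
    v.Wge (n2eZ (P + Q) - n2eZ P - n2eZ Q) (2 * h) := by
  rw [n2e_E1_iff (v := v)] at hP hQ
  rcases hP with rfl | hP
  · simp [wge_zero]
  rcases hQ with rfl | hQ
  · simp [wge_zero]
  have hP0 : P ≠ 0 := by rintro rfl; exact hP.1 rfl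
  have hQ0 : Q ≠ 0 := by rintro rfl; exact hQ.1 rfl
  have zP := n2e_w_Z hW ha2 ha4 hP
  have zQ := n2e_w_Z hW ha2 ha4 hQ
  have hhP : h ≤ -v.w (n2eX P) / 2 := by rw [← zP.2]; exact hPh.le zP.1
  have hhQ : h ≤ -v.w (n2eX Q) / 2 := by rw [← zQ.2]; exact hQh.le zQ.1
  by_cases hR : P + Q = 0
  · have hQ' : Q = -P := (neg_eq_of_add_eq_zero_right hR).symm
    rw [hR, hQ', n2eZ_zero]
    have := (n2e_Z_neg hW ha2 ha4 hP).neg
    have e : (0 : K) - n2eZ P - n2eZ (-P) = -(n2eZ P + n2eZ (-P)) := by ring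
    rw [e]
    exact this.mono (by linarith)
  obtain ⟨t, tX1, tX2, tX3, tY1, tY2, tY3⟩ := n2e_exists_triple hW hP0 hQ0 (neg_ne_zero.mpr hR)
    (add_neg_cancel (P + Q))
  have hK3 := n2e_closed ha2 ha4 t (by rwa [tX1]) (by rwa [tX2])
  have hK3' : IsK v (n2eX (P + Q)) := by rw [tX3, n2eX_neg] at hK3; exact hK3
  have hKn : IsK v (n2eX (-(P + Q))) := by rwa [n2eX_neg]
  have zN := n2e_w_Z hW ha2 ha4 hKn
  rw [n2eX_neg] at zN
  -- the sum over the triple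
  have key : ∀ M : ℝ, -v.w (n2eX P) / 2 ≤ M → -v.w (n2eX Q) / 2 ≤ M →
      -v.w (n2eX (P + Q)) / 2 ≤ M →
      v.Wge (n2eZ P + n2eZ Q + n2eZ (-(P + Q)))
        (-(v.w (n2eX P) + v.w (n2eX Q) + v.w (n2eX (P + Q))) / 2 - M) := by
    intro M h1 h2 h3
    have := n2e_add ha2 ha4 t (by rwa [tX1]) (by rwa [tX2]) hK3 (M := M) (by rwa [tX1])
      (by rwa [tX2]) (by rwa [tX3, n2eX_neg])
    rw [tX1, tX2, tX3, tY1, tY2, tY3, n2eX_neg] at this
    have e : n2eZ (-(P + Q)) = n2eX (P + Q) / n2eY (-(P + Q)) := by rw [n2eZ, n2eX_neg]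
    rw [e]
    exact this
  -- `h ≤ h_S`
  have hhS : h ≤ -v.w (n2eX (P + Q)) / 2 := by
    by_contra hcon
    have hlt : -v.w (n2eX (P + Q)) / 2 < h := not_le.mp hcon
    have k1 := key (max (-v.w (n2eX P) / 2) (-v.w (n2eX Q) / 2)) (le_max_left _ _)
      (le_max_right _ _)
      (by linarith [le_max_left (-v.w (n2eX P) / 2) (-v.w (n2eX Q) / 2)])
    have k2 : v.Wge (n2eZ P + n2eZ Q + n2eZ (-(P + Q))) h := by
      refine k1.mono ?_
      rcases max_choice (-v.w (n2eX P) / 2) (-v.w (n2eX Q) / 2) with e | e <;> rw [e] <;>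
        linarith [hK3'.2]
    have k3 : v.Wge (n2eZ (-(P + Q))) h := by
      have := (k2.sub hPh).sub hQh
      have e : n2eZ P + n2eZ Q + n2eZ (-(P + Q)) - n2eZ P - n2eZ Q = n2eZ (-(P + Q)) := by ring
      rwa [e] at this
    have := k3.le zN.1
    rw [zN.2] at this
    linarith
  have hMc : ∃ M : ℝ, -v.w (n2eX P) / 2 ≤ M ∧ -v.w (n2eX Q) / 2 ≤ M ∧
      -v.w (n2eX (P + Q)) / 2 ≤ M ∧ (M = -v.w (n2eX P) / 2 ∨ M = -v.w (n2eX Q) / 2 ∨
        M = -v.w (n2eX (P + Q)) / 2) := by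
    refine ⟨max (-v.w (n2eX P) / 2) (max (-v.w (n2eX Q) / 2) (-v.w (n2eX (P + Q)) / 2)),
      le_max_left _ _, (le_max_left _ _).trans (le_max_right _ _),
      (le_max_right _ _).trans (le_max_right _ _), ?_⟩
    rcases max_choice (-v.w (n2eX P) / 2)
      (max (-v.w (n2eX Q) / 2) (-v.w (n2eX (P + Q)) / 2)) with e | e
    · left; exact e
    · rcases max_choice (-v.w (n2eX Q) / 2) (-v.w (n2eX (P + Q)) / 2) with e' | e'
      · right; left; rw [e, e']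
      · right; right; rw [e, e']
  obtain ⟨M, hM1, hM2, hM3, hMc⟩ := hMc
  have k2 : v.Wge (n2eZ P + n2eZ Q + n2eZ (-(P + Q))) (2 * h) := by
    refine (key M hM1 hM2 hM3).mono ?_
    rcases hMc with e | e | e <;> rw [e] <;> linarith
  have k3 := (n2e_Z_neg hW ha2 ha4 hK3').mono (show 2 * h ≤ -v.w (n2eX (P + Q)) by linarith)
  have e : n2eZ (P + Q) - n2eZ P - n2eZ Q =
      (n2eZ (P + Q) + n2eZ (-(P + Q))) - (n2eZ P + n2eZ Q + n2eZ (-(P + Q))) := by ring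
  rw [e]
  exact k3.sub k2

/-- multiples of a point of the kernel of reduction: `z (k • P) ≡ k z(P)` up to second order -/
theorem n2e_nsmul (hW : IsN2W W) {v : RVal A} (ha2 : v.Wge W.a₂ 0) (ha4 : v.Wge W.a₄ 0)
    {P : W.Point} (hP : IsK v (n2eX P)) (k : ℕ) :
    n2E1 A (k • P) ∧ v.Wge (n2eZ (k • P) - k * n2eZ P) (2 * (-v.w (n2eX P) / 2)) := by
  have zP := n2e_w_Z hW ha2 ha4 hP
  set h : ℝ := -v.w (n2eX P) / 2 with hh
  have hpos : 0 < h := by rw [hh]; linarith [hP.2]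
  have hPh : v.Wge (n2eZ P) h := Or.inr zP.2.ge
  have hPE : n2E1 A P := (n2e_E1_iff (v := v)).mpr (Or.inr hP)
  induction k with
  | zero => simp [wge_zero]
  | succ k ih =>
    obtain ⟨ihE, ihZ⟩ := ih
    rw [succ_nsmul]
    refine ⟨n2_e1_add hW v ha2 ha4 ihE hPE, ?_⟩
    have hkP : v.Wge ((k : K) * n2eZ P) h := by
      have := (e1_wge_natCast v k).mul hPh
      simpa using this
    have hQh : v.Wge (n2eZ (k • P)) h := by
      have := (ihZ.mono (show h ≤ 2 * h by linarith)).add hkP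
      rwa [sub_add_cancel] at this
    have hadd := n2e_Z_add hW ha2 ha4 hpos ihE hPE hQh hPh
    have e : n2eZ (k • P + P) - ((k + 1 : ℕ) : K) * n2eZ P =
        (n2eZ (k • P + P) - n2eZ (k • P) - n2eZ P) + (n2eZ (k • P) - k * n2eZ P) := by
      push_cast; ring
    rw [e]
    exact hadd.add ihZ

/-- **the kernel of reduction has no `n`-torsion for `n` a unit** -/
theorem n2_e1_no_torsion (hW : IsN2W W) (v : RVal A) (ha2 : v.Wge W.a₂ 0) (ha4 : v.Wge W.a₄ 0)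
    {n : ℕ} (hn : (n : K) ≠ 0) (hn0 : v.w (n : K) = 0) {P : W.Point} (hP : n2E1 A P)
    (hnP : n • P = 0) : P = 0 := by
  rcases (n2e_E1_iff (v := v)).mp hP with hP | hP
  · exact hP
  exfalso
  have zP := n2e_w_Z hW ha2 ha4 hP
  have key := (n2e_nsmul hW ha2 ha4 hP n).2
  rw [hnP, n2eZ_zero, zero_sub] at key
  have hne : -((n : K) * n2eZ P) ≠ 0 := neg_ne_zero.mpr (mul_ne_zero hn zP.1)
  have := key.le hne
  rw [v.w_neg, v.w_mul _ _ hn zP.1, hn0, zP.2] at this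
  linarith [hP.2]

/-- a torsion point of order prime to the residue characteristic has integral `x` -/
theorem n2_no_torsion_x (hW : IsN2W W) (v : RVal A) (ha2 : v.Wge W.a₂ 0) (ha4 : v.Wge W.a₄ 0)
    {n : ℕ} (hn : (n : K) ≠ 0) (hn0 : v.w (n : K) = 0) {x y : K} (hxy : W.Nonsingular x y)
    (hP : n • Point.some x y hxy = 0) : v.Wge x 0 := by
  by_contra hcon
  have hE : n2E1 A (Point.some x y hxy) := by
    rw [n2E1_some, v.mem_iff_wge]; exact hcon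
  exact Point.some_ne_zero hxy (n2_e1_no_torsion hW v ha2 ha4 hn hn0 hE hP)

/-- **same reduction, `x` a unit ⇒ the difference lies in the kernel of reduction**
(residue characteristic `2`: `w 2 > 0`) -/
theorem n2e_same_red (hW : IsN2W W) (v : RVal A) (ha2 : v.Wge W.a₂ 0) (ha4 : v.Wge W.a₄ 0)
    (h2 : v.Wgt (2 : K) 0) {x₁ y₁ x₂ y₂ : K} (h₁ : W.Nonsingular x₁ y₁)
    (h₂ : W.Nonsingular x₂ y₂) (hx₁ : x₁ ≠ 0) (hw₁ : v.w x₁ = 0) (hx : v.Wgt (x₁ - x₂) 0)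
    (hy : v.Wgt (y₁ - y₂) 0) : n2E1 A (Point.some x₁ y₁ h₁ - Point.some x₂ y₂ h₂) := by
  have hX1 : v.Wge x₁ 0 := Or.inr hw₁.ge
  have hx2 := w_sub_of_wgt hx₁ (show v.Wgt (x₁ - x₂) (v.w x₁) by rwa [hw₁])
  rw [sub_sub_cancel, hw₁] at hx2
  obtain ⟨hx₂, hw₂⟩ := hx2
  have hX2 : v.Wge x₂ 0 := Or.inr hw₂.ge
  have hY2 : v.Wge y₂ 0 := n2e_wge_Y ha2 ha4 hX2 (n2_eqn hW h₂.1)
  have h2y : v.Wgt (2 * y₂) 0 := by
    have := h2.mul_wge hY2
    simpa using this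
  rw [sub_eq_add_neg, Point.neg_some]
  by_cases hne : x₁ = x₂ ∧ y₁ = W.negY x₂ (W.negY x₂ y₂)
  · rw [Point.add_of_Y_eq hne.1 hne.2]; exact n2E1_zero
  rw [Point.add_some hne, n2E1_some, n2e_not_mem_iff (v := v)]
  have hL : W.slope x₁ x₂ y₁ (W.negY x₂ y₂) ≠ 0 ∧ v.w (W.slope x₁ x₂ y₁ (W.negY x₂ y₂)) < 0 := by
    by_cases hxx : x₁ = x₂
    · exfalso
      have hyy : y₁ ≠ y₂ := fun h =>
        hne ⟨hxx, by rw [WeierstrassCurve.Affine.negY_negY]; exact h⟩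
      have hy1 : y₁ = W.negY x₂ y₂ := (Y_eq_of_X_eq h₁.1 h₂.1 hxx).resolve_left hyy
      rw [n2_negY hW] at hy1
      have e : x₂ = -(y₁ - y₂) - 2 * y₂ := by rw [hy1]; ring
      have hx2' : v.Wgt x₂ 0 := by
        rw [e]
        exact hy.neg.sub h2y
      have := hx2'.lt hx₂
      linarith
    · have hd : x₁ - x₂ ≠ 0 := sub_ne_zero.mpr hxx
      have hnum : y₁ - W.negY x₂ y₂ = x₂ + (2 * y₂ + (y₁ - y₂)) := by
        rw [n2_negY hW]; ring
      have hsmall : v.Wgt (2 * y₂ + (y₁ - y₂)) (v.w x₂) := by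
        rw [hw₂]
        exact h2y.add hy
      have hn := w_add_of_wgt hx₂ hsmall
      rw [← hnum, hw₂] at hn
      rw [slope_of_X_ne hxx]
      refine ⟨div_ne_zero hn.1 hd, ?_⟩
      rw [v.w_div hn.1 hd, hn.2]
      linarith [hx.lt hd]
  obtain ⟨hL0, hwL⟩ := hL
  generalize W.slope x₁ x₂ y₁ (W.negY x₂ y₂) = ℓ at hL0 hwL ⊢
  have e3 : W.addX x₁ x₂ ℓ = ℓ ^ 2 + (ℓ - W.a₂ - x₁ - x₂) := by
    rw [addX, hW.a1]; ring
  have hL2 : ℓ ^ 2 ≠ 0 := pow_ne_zero 2 hL0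
  have hwL2 : v.w (ℓ ^ 2) = 2 * v.w ℓ := v.w_sq hL0
  have hrest : v.Wgt (ℓ - W.a₂ - x₁ - x₂) (v.w (ℓ ^ 2)) := by
    rw [hwL2]
    have r : v.Wge (ℓ - W.a₂ - x₁ - x₂) (v.w ℓ) :=
      (((wge_self (v := v) (x := ℓ)).sub (ha2.mono hwL.le)).sub (hX1.mono hwL.le)).sub
        (hX2.mono hwL.le)
    exact r.wgt_of_lt (by linarith)
  have h := w_add_of_wgt hL2 hrest
  rw [← e3] at h
  exact ⟨h.1, by rw [h.2, hwL2]; linarith⟩

/-- `n2e_same_red` in coordinates -/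
theorem n2_same_red_x (hW : IsN2W W) (v : RVal A) (ha2 : v.Wge W.a₂ 0) (ha4 : v.Wge W.a₄ 0)
    (h2 : v.Wgt (2 : K) 0) {x₁ y₁ x₂ y₂ : K} (h₁ : W.Nonsingular x₁ y₁)
    (h₂ : W.Nonsingular x₂ y₂) (hx₁ : x₁ ≠ 0) (hw₁ : v.w x₁ = 0) (hx : v.Wgt (x₁ - x₂) 0)
    (hy : v.Wgt (y₁ - y₂) 0) {x₃ y₃ : K} (h₃ : W.Nonsingular x₃ y₃)
    (h3 : Point.some x₃ y₃ h₃ = Point.some x₁ y₁ h₁ - Point.some x₂ y₂ h₂) :
    x₃ ≠ 0 ∧ v.w x₃ < 0 := by
  have := n2e_same_red hW v ha2 ha4 h2 h₁ h₂ hx₁ hw₁ hx hy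
  rw [← h3, n2E1_some, n2e_not_mem_iff (v := v)] at this
  exact this

end Group

end Fermat.Agent.N2
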