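/-
S13 support (helper9), WP-2 (N-c): the two deliverables at the prime `2` for the Frey curve.

* `n2_unip` : inertia at `2` acts unipotently on the `p`-torsion: `σ (σ Q - Q) = σ Q - Q`.
* `n2_norat` : the Frey curve has no nonzero `Gal(ℚ̄/ℚ)`-fixed `p`-torsion point.
-/
import Fermat.Agent.Lib.N2_Core
import Fermat.Agent.Lib.N2_Cls
import Fermat.Agent.Lib.N2_E1
import Fermat.Agent.Lib.N2_Arith
import Fermat.Agent.Lib.F5_Frey
import Fermat.Agent.Lib.H8_Frobenius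
import Fermat.Agent.Lib.T51_Fixed
import Fermat.Prelude.Def_FLTPrelim_GaloisRep

set_option autoImplicit false

namespace Fermat.Agent.N2

open Fermat.Agent.F5 WeierstrassCurve WeierstrassCurve.Affine WeierstrassCurve.Affine.Point

local notation "Qb" => AlgebraicClosure ℚ

/-! ### Rational numbers at a place over `2` -/

/-- `n = 2 ^ k * n'` with `n'` odd -/
theorem n2c_int_decomp (n : ℤ) (hn : n ≠ 0) :
    ∃ (k : ℕ) (n' : ℤ), ¬ (2 : ℤ) ∣ n' ∧ n = 2 ^ k * n' := by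
  have hfin : FiniteMultiplicity (2 : ℤ) n :=
    Int.finiteMultiplicity_iff.mpr ⟨by decide, hn⟩
  obtain ⟨n', hn'⟩ := pow_multiplicity_dvd (2 : ℤ) n
  refine ⟨multiplicity (2 : ℤ) n, n', ?_, hn'⟩
  intro h
  obtain ⟨c, hc⟩ := h
  have h1 : (2 : ℤ) ^ (multiplicity (2 : ℤ) n + 1) ∣ n :=
    ⟨c, by
      have e : n = 2 ^ multiplicity (2 : ℤ) n * (2 * c) := by rw [← hc]; exact hn'
      rw [pow_succ, mul_assoc]; exact e⟩
  exact hfin.not_pow_dvd_of_multiplicity_lt (Nat.lt_succ_self _) h1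

section rat

variable {A : ValuationSubring Qb} (hA : A.LiesOverPrime 2)

include hA in
theorem n2c_w_int (n : ℤ) (hn : n ≠ 0) : ∃ e : ℕ, (n2cV A hA).w (n : Qb) = e := by
  obtain ⟨k, n', hn', rfl⟩ := n2c_int_decomp n hn
  exact ⟨k, n2c_w_pow_mul hA hn'⟩

theorem n2c_rat_eq (q : ℚ) : algebraMap ℚ Qb q = (q.num : Qb) / (q.den : Qb) := by
  rw [eq_ratCast, Rat.cast_def]

include hA in
theorem n2c_w_rat (q : ℚ) (hq : algebraMap ℚ Qb q ≠ 0) :
    ∃ e : ℤ, (n2cV A hA).w (algebraMap ℚ Qb q) = e := by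
  have hq0 : q ≠ 0 := by
    rintro rfl
    exact hq (map_zero _)
  have hnum : q.num ≠ 0 := Rat.num_ne_zero.mpr hq0
  have hden : (q.den : ℤ) ≠ 0 := by exact_mod_cast q.den_ne_zero
  obtain ⟨e1, he1⟩ := n2c_w_int hA q.num hnum
  obtain ⟨e2, he2⟩ := n2c_w_int hA (q.den : ℤ) hden
  refine ⟨(e1 : ℤ) - e2, ?_⟩
  have hnumQ : (q.num : Qb) ≠ 0 := Int.cast_ne_zero.mpr hnum
  have hdenQ : (q.den : Qb) ≠ 0 := by exact_mod_cast q.den_ne_zero
  have he2' : (n2cV A hA).w (q.den : Qb) = e2 := by exact_mod_cast he2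
  rw [n2c_rat_eq, (n2cV A hA).w_div hnumQ hdenQ, he1, he2']
  push_cast
  ring

include hA in
theorem n2c_wgt_two : (n2cV A hA).Wgt (2 : Qb) 0 :=
  Or.inr (by rw [n2c_w_two hA]; exact one_pos)

include hA in
/-- `2 t / d` has positive valuation for `d` odd -/
theorem n2c_wgt_two_mul_div (t d : ℤ) (hd : ¬ (2 : ℤ) ∣ d) :
    (n2cV A hA).Wgt ((2 : Qb) * t / d) 0 := by
  have hd0 : (d : Qb) ≠ 0 := by
    intro h
    have : d = 0 := by exact_mod_cast h
    exact hd (this ▸ dvd_zero _)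
  have h1 : (n2cV A hA).Wge ((d : Qb)⁻¹) 0 :=
    Or.inr (by rw [(n2cV A hA).w_inv hd0, n2c_w_odd hA hd]; simp)
  have h2 := (n2c_wgt_two hA).mul_wge ((n2c_wge_int hA t).mul h1)
  have e : (2 : Qb) * t / d = 2 * ((t : Qb) * (d : Qb)⁻¹) := by
    rw [div_eq_mul_inv, mul_assoc]
  rw [e]
  simpa using h2

include hA in
/-- the residue field of `ℚ` at `2` is `𝔽₂` -/
theorem n2c_rat_red (q : ℚ) (h : (n2cV A hA).Wge (algebraMap ℚ Qb q) 0) :
    (n2cV A hA).Wgt (algebraMap ℚ Qb q) 0 ∨ (n2cV A hA).Wgt (algebraMap ℚ Qb q - 1) 0 := by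
  have hdenQ : (q.den : Qb) ≠ 0 := by exact_mod_cast q.den_ne_zero
  by_cases hd : (2 : ℤ) ∣ (q.den : ℤ)
  · -- impossible: the denominator is even
    exfalso
    have hn : ¬ (2 : ℤ) ∣ q.num := by
      intro hn
      have h1 : (2 : ℕ) ∣ q.num.natAbs := by
        have := Int.natAbs_dvd_natAbs.mpr hn
        simpa using this
      have h2 : (2 : ℕ) ∣ q.den := by exact_mod_cast hd
      have := Nat.eq_one_of_dvd_coprimes q.reduced h1 h2
      omega
    have hnum : q.num ≠ 0 := fun h0 => hn (h0 ▸ dvd_zero _)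
    have hnumQ : (q.num : Qb) ≠ 0 := Int.cast_ne_zero.mpr hnum
    obtain ⟨d', hd'⟩ := hd
    have hd'0 : d' ≠ 0 := by
      rintro rfl
      have : (q.den : ℤ) = 0 := by rw [hd']; ring
      exact q.den_ne_zero (by exact_mod_cast this)
    have hd'Q : (d' : Qb) ≠ 0 := Int.cast_ne_zero.mpr hd'0
    have hdenw : 1 ≤ (n2cV A hA).w (q.den : Qb) := by
      have e : (q.den : Qb) = 2 * (d' : Qb) := by
        have := congrArg (Int.cast : ℤ → Qb) hd'
        push_cast at this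
        exact this
      rw [e, (n2cV A hA).w_mul _ _ two_ne_zero hd'Q, n2c_w_two hA]
      have := (n2c_wge_int hA d').le hd'Q
      linarith
    have hx0 : algebraMap ℚ Qb q ≠ 0 := by
      rw [n2c_rat_eq]
      exact div_ne_zero hnumQ hdenQ
    have hw := h.le hx0
    rw [n2c_rat_eq, (n2cV A hA).w_div hnumQ hdenQ, n2c_w_odd hA hn] at hw
    linarith
  · by_cases hn : (2 : ℤ) ∣ q.num
    · left
      obtain ⟨t, ht⟩ := hn
      have e : algebraMap ℚ Qb q = (2 : Qb) * t / ((q.den : ℤ) : Qb) := by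
        rw [n2c_rat_eq, ht]
        push_cast
        ring
      rw [e]
      exact n2c_wgt_two_mul_div hA t _ hd
    · right
      have h2 : (2 : ℤ) ∣ q.num - q.den := by
        have h1 : q.num % 2 = 1 := Int.emod_two_eq_zero_or_one q.num |>.resolve_left
          (fun h0 => hn (Int.dvd_of_emod_eq_zero h0))
        have h2 : (q.den : ℤ) % 2 = 1 := Int.emod_two_eq_zero_or_one (q.den : ℤ) |>.resolve_left
          (fun h0 => hd (Int.dvd_of_emod_eq_zero h0))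
        omega
      obtain ⟨t, ht⟩ := h2
      have e : algebraMap ℚ Qb q - 1 = (2 : Qb) * t / ((q.den : ℤ) : Qb) := by
        rw [n2c_rat_eq]
        have h3 : (q.num : Qb) - (q.den : Qb) = 2 * (t : Qb) := by
          have := congrArg (Int.cast : ℤ → Qb) ht
          push_cast at this
          exact this
        push_cast
        field_simp
        linear_combination h3
      rw [e]
      exact n2c_wgt_two_mul_div hA t _ hd

end rat

/-! ### The Frey curve at a place over `2` -/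

/-- the node data of the Frey curve at a place over `2` -/
theorem n2c_frey_data (P : FreyPackage) {A : ValuationSubring Qb} (hA : A.LiesOverPrime 2) :
    ∃ (α : Qb) (m : ℕ), IsN2W (P.freyCurve⁄Qb) ∧
      N2Node (n2cV A hA) (P.freyCurve⁄Qb).a₂ (P.freyCurve⁄Qb).a₄ α ∧
      (n2cV A hA).Wge (P.freyCurve⁄Qb).a₂ 0 ∧
      (n2cV A hA).w (P.freyCurve⁄Qb).a₄ = m ∧ Nat.Coprime P.p (2 * m) ∧
      ∀ σ : Qb ≃ₐ[ℚ] Qb, σ ∈ A.inertiaSubgroupIn ℚ → σ α = α := by
  obtain ⟨a2, ha2⟩ := n2c_a2_exists P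
  obtain ⟨m, c, hm1, hc, hcop, ha4⟩ := n2c_a4_exists P
  obtain ⟨α, hα, hγ⟩ := n2c_alpha_exists a2
  have hW := frey_isFreyW P
  have e2 : (P.freyCurve⁄Qb).a₂ = (a2 : Qb) := by
    rw [hW.a2]
    have := congrArg (Int.cast : ℤ → Qb) ha2
    push_cast at this
    rw [this]
    ring
  have e4 : (P.freyCurve⁄Qb).a₄ = (((2 ^ m * c : ℤ)) : Qb) := by
    rw [hW.a4]
    have := congrArg (Int.cast : ℤ → Qb) ha4
    push_cast at this ⊢
    linear_combination this / 16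
  have hw4 : (n2cV A hA).w (P.freyCurve⁄Qb).a₄ = m := by
    rw [e4]
    exact n2c_w_pow_mul hA hc
  refine ⟨α, m, ⟨hW.a1, hW.a3, hW.a6⟩, ⟨?_, ?_, ?_, n2c_alpha_wge hA hα, n2c_gamma_ne hγ,
    n2c_gamma_unit hA hγ⟩, ?_, hw4, hcop, fun σ hσ => n2c_sigma_alpha hA hα hγ hσ⟩
  · rw [e4]
    have hc0 : c ≠ 0 := fun h0 => hc (h0 ▸ dvd_zero _)
    exact Int.cast_ne_zero.mpr (mul_ne_zero (pow_ne_zero _ (by norm_num)) hc0)
  · rw [hw4]
    exact_mod_cast hm1
  · rw [e2]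
    exact hα
  · rw [e2]
    exact n2c_wge_int hA a2

theorem n2c_w_p (P : FreyPackage) {A : ValuationSubring Qb} (hA : A.LiesOverPrime 2) :
    (n2cV A hA).w ((P.p : ℕ) : Qb) = 0 := by
  have h : ¬ (2 : ℤ) ∣ (P.p : ℤ) := by
    intro h
    have h2 : 2 ∣ P.p := by exact_mod_cast h
    exact (Nat.not_even_iff_odd.mpr P.hp_odd) (even_iff_two_dvd.mpr h2)
  have := n2c_w_odd hA h
  exact_mod_cast this

theorem n2c_p_ne (P : FreyPackage) : ((P.p : ℕ) : Qb) ≠ 0 := by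
  exact_mod_cast P.hp0

/-- **inertia at `2` is unipotent on the `p`-torsion of the Frey curve** -/
theorem n2_unip (P : FreyPackage) (A : ValuationSubring (AlgebraicClosure ℚ))
    (hA : A.LiesOverPrime 2) (σ : AlgebraicClosure ℚ ≃ₐ[ℚ] AlgebraicClosure ℚ)
    (hσ : σ ∈ A.inertiaSubgroupIn ℚ) (Q : (P.freyCurve⁄(AlgebraicClosure ℚ)).Point)
    (hQ : P.p • Q = 0) : σ • (σ • Q - Q) = σ • Q - Q := by
  obtain ⟨α, m, hW, hD, ha2, hm, hcop, hα⟩ := n2c_frey_data P hA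
  have hσα : (σ.toAlgHom : Qb →+* Qb) α = α := hα σ hσ
  have ha4 : (n2cV A hA).Wge (P.freyCurve⁄Qb).a₄ 0 := Or.inr hD.a4_pos.le
  refine n2c_unip_core (α := α) hW hD.a4_pos ha2
    (fun R S => n2_cls_add hW (n2cV A hA) hD R S) (fun R => n2_cls_neg hW (n2cV A hA) hD R)
    (fun R hR hpR => n2_e1_no_torsion hW (n2cV A hA) ha2 ha4 (n2c_p_ne P) (n2c_w_p P hA) hR hpR)
    (fun x₁ y₁ x₂ y₂ h₁ h₂ hx₁ hw₁ _ hx hy =>
      n2e_same_red hW (n2cV A hA) ha2 ha4 (n2c_wgt_two hA) h₁ h₂ hx₁ hw₁ hx hy)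
    (Point.map (W' := P.freyCurve) σ.toAlgHom) ?_ ?_ Q hQ
  · intro R
    rcases R with _ | ⟨x, y, hxy⟩
    · rfl
    · rw [Point.map_some, n2cls_some, n2cls_some]
      exact n2c_cval_map (n2cV A hA) _ α x y (σ.toAlgHom : Qb →+* Qb)
        (fun z => n2c_w_inertia hA hσ z) hσα
  · intro x y hxy
    exact ⟨σ.toAlgHom x, σ.toAlgHom y, _, Point.map_some _ hxy,
      fun hx => n2c_sigma_wgt hA hσ hx, fun hy => n2c_sigma_wgt hA hσ hy⟩

/-- **the Frey curve has no nonzero rational `p`-torsion point** -/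
theorem n2_norat (P : FreyPackage) (Q : (P.freyCurve⁄(AlgebraicClosure ℚ)).Point)
    (hQ : P.p • Q = 0)
    (hfix : ∀ σ : AlgebraicClosure ℚ ≃ₐ[ℚ] AlgebraicClosure ℚ, σ • Q = Q) : Q = 0 := by
  obtain ⟨A, hA⟩ := Fermat.Agent.H8.exists_valuationSubring_liesOver 2 Nat.prime_two
  obtain ⟨α, m, hW, hD, ha2, hm, hcop, -⟩ := n2c_frey_data P hA
  have ha4 : (n2cV A hA).Wge (P.freyCurve⁄Qb).a₄ 0 := Or.inr hD.a4_pos.le
  let G : AddSubgroup (P.freyCurve⁄Qb).Point :=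
    { carrier := {R | ∀ σ : Qb ≃ₐ[ℚ] Qb, σ • R = R}
      add_mem' := fun {R S} hR hS σ => by
        show Point.map (W' := P.freyCurve) σ.toAlgHom (R + S) = R + S
        rw [map_add]
        exact congrArg₂ (· + ·) (hR σ) (hS σ)
      zero_mem' := fun σ => map_zero (Point.map (W' := P.freyCurve) σ.toAlgHom)
      neg_mem' := fun {R} hR σ => by
        show Point.map (W' := P.freyCurve) σ.toAlgHom (-R) = -R
        rw [map_neg]
        exact congrArg Neg.neg (hR σ) }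
  refine n2c_norat_core (α := α) hW hD.a4_pos ha2
    (fun n R => n2_cls_nsmul hW (n2cV A hA) hD n R)
    (fun R hR hpR => n2_e1_no_torsion hW (n2cV A hA) ha2 ha4 (n2c_p_ne P) (n2c_w_p P hA) hR hpR)
    (fun x₁ y₁ x₂ y₂ h₁ h₂ hx₁ hw₁ _ hx hy =>
      n2e_same_red hW (n2cV A hA) ha2 ha4 (n2c_wgt_two hA) h₁ h₂ hx₁ hw₁ hx hy)
    P.pp P.hp5 (n2c_wgt_two hA) hm hcop G ?_ (show Q ∈ G from hfix) hQ
  intro x y hxy hmem
  have hxy' : ∀ σ : Qb ≃ₐ[ℚ] Qb, σ x = x ∧ σ y = y := by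
    intro σ
    have h1 : σ • Point.some x y hxy = Point.some x y hxy := hmem σ
    rw [algEquiv_smul_def, Point.map_some, Point.some.injEq] at h1
    exact h1
  obtain ⟨qx, rfl⟩ := Fermat.Agent.T51.fixed_rat x (fun σ => (hxy' σ).1)
  obtain ⟨qy, rfl⟩ := Fermat.Agent.T51.fixed_rat y (fun σ => (hxy' σ).2)
  exact ⟨fun h0 => n2c_w_rat hA qx h0, n2c_rat_red hA qx, n2c_rat_red hA qy⟩

end Fermat.Agent.N2
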