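import Fermat.Agent.Lib.N2_Defs
import Fermat.Agent.Lib.F5_Node

set_option autoImplicit false

/-!
# S13, WP-2 (the node at `2`): the class is additive on collinear triples (helper1)

`n2_node_triple` : for a collinear triple on `y² + x y = x³ + a2 x² + a4 x` (`w a4 > 0`,
`α² + α = a2`, `α` integral, `2 α + 1` a unit) the classes `F5.cval v a4 α Xᵢ Yᵢ` satisfy
`c₁ + c₂ + c₃ ∈ 2 (w a4) ℤ`.  Transplant of `F5_Node` to Weierstrass coordinates: no division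
by `2` anywhere.
-/

namespace Fermat.Agent.N2

open Fermat.Agent.F5

variable {K : Type*} [Field K] {A : ValuationSubring K}

/-! ### small tools -/

theorem n2_wge_two (v : RVal A) : v.Wge (2 : K) 0 := by
  have h : ((2 : ℕ) : K) ∈ A := natCast_mem A 2
  have := RVal.mem_iff_wge (v := v) |>.mp h
  simpa using this

theorem n2_wge_four (v : RVal A) : v.Wge (4 : K) 0 := by
  have h : ((4 : ℕ) : K) ∈ A := natCast_mem A 4
  have := RVal.mem_iff_wge (v := v) |>.mp h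
  simpa using this

/-! ### the basic obstruction -/

/-- if `X₁` is of class `0`, `w X₁ ≤ w X₂`, `w X₁ + w X₂ < w a4` and `w X₃ > w X₂`
(or `X₃ = 0`), the triple cannot exist. -/
theorem n2_obstruction (v : RVal A) {a2 a4 α : K} (h : N2Node v a2 a4 α) (t : N2Triple a2 a4)
    (hX1 : t.X₁ ≠ 0) (hX2 : t.X₂ ≠ 0) (ht1 : v.w t.X₁ ≤ 0) (h12 : v.w t.X₁ ≤ v.w t.X₂)
    (ha : v.w t.X₁ + v.w t.X₂ < v.w a4) (h3 : v.Wgt t.X₃ (v.w t.X₂)) : False := by
  have hX12 : t.X₁ * t.X₂ ≠ 0 := mul_ne_zero hX1 hX2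
  have hw12 : v.w (t.X₁ * t.X₂) = v.w t.X₁ + v.w t.X₂ := v.w_mul _ _ hX1 hX2
  have e2 : t.X₁ * t.X₂ + (t.X₃ * (t.X₁ + t.X₂) - a4) = -((2 * t.L + 1) * t.ν) := by
    linear_combination t.s2
  have hsum : v.Wge (t.X₁ + t.X₂) (v.w t.X₁) :=
    RVal.Wge.add RVal.wge_self (node_wge_of_eq h12)
  have hrest : v.Wgt (t.X₃ * (t.X₁ + t.X₂) - a4) (v.w (t.X₁ * t.X₂)) := by
    apply RVal.Wgt.sub
    · have := h3.mul_wge hsum
      exact this.mono (by rw [hw12]; linarith)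
    · exact Or.inr (by rw [hw12]; linarith)
  obtain ⟨hne, hw⟩ := RVal.w_add_of_wgt hX12 hrest
  rw [e2] at hne hw
  have hLν : (2 * t.L + 1) * t.ν ≠ 0 := neg_ne_zero.mp hne
  have hL : 2 * t.L + 1 ≠ 0 := fun h0 => hLν (by rw [h0]; ring)
  have hν : t.ν ≠ 0 := fun h0 => hLν (by rw [h0]; ring)
  have hX3 : t.X₃ ≠ 0 := by
    intro h0
    have h3' := t.s3
    rw [h0, mul_zero] at h3'
    exact hν (pow_eq_zero_iff two_ne_zero |>.mp h3'.symm)
  have ht3 : v.w t.X₂ < v.w t.X₃ := h3.lt hX3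
  have hn : 2 * v.w t.ν = v.w t.X₁ + v.w t.X₂ + v.w t.X₃ := by
    have := congrArg v.w t.s3
    rw [v.w_sq hν, node_w_mul3 v hX1 hX2 hX3] at this
    linarith
  have hl : v.w (2 * t.L + 1) + v.w t.ν = v.w t.X₁ + v.w t.X₂ := by
    rw [v.w_neg, v.w_mul _ _ hL hν, hw12] at hw
    linarith
  have e1 : (2 * t.L + 1) ^ 2 = 4 * (t.X₁ + t.X₂ + t.X₃) + (2 * α + 1) ^ 2 := by
    linear_combination (-4 : K) * t.s1 - 4 * h.α_eq
  have hge : v.Wge ((2 * t.L + 1) ^ 2) (v.w t.X₁) := by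
    rw [e1]
    refine RVal.Wge.add ?_ ?_
    · have h4 := (n2_wge_four v).mul
        (RVal.Wge.add hsum (node_wge_of_eq (show v.w t.X₁ ≤ v.w t.X₃ by linarith)))
      exact h4.mono (by linarith)
    · exact Or.inr (by rw [v.w_sq h.γ_ne, h.γ_unit]; linarith)
  have := hge.le (pow_ne_zero 2 hL)
  rw [v.w_sq hL] at this
  linarith

/-- two points of class `0` force the third one to be of class `0` -/
theorem n2_isE_of_isE (v : RVal A) {a2 a4 α : K} (h : N2Node v a2 a4 α) (t : N2Triple a2 a4)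
    (h1 : IsE v t.X₁) (h2 : IsE v t.X₂) : IsE v t.X₃ := by
  by_contra h3
  have h3' : v.Wgt t.X₃ 0 := by
    by_cases hX : t.X₃ = 0
    · exact Or.inl hX
    · exact Or.inr (not_le.mp fun hle => h3 ⟨hX, hle⟩)
  rcases le_total (v.w t.X₁) (v.w t.X₂) with h12 | h12
  · exact n2_obstruction v h t h1.1 h2.1 h1.2 h12 (by linarith [h1.2, h2.2, h.a4_pos])
      (h3'.mono h2.2)
  · exact n2_obstruction v h t.swap12 h2.1 h1.1 h2.2 h12
      (show v.w t.X₂ + v.w t.X₁ < v.w a4 by linarith [h1.2, h2.2, h.a4_pos]) (h3'.mono h1.2)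

/-! ### signs -/

/-- a point near the node lies on one of the two branches -/
theorem n2_sgn_dich (v : RVal A) {a2 a4 α : K} (h : N2Node v a2 a4 α) {X Y : K}
    (hN : IsN v a4 X) (heq : Y ^ 2 + X * Y = X ^ 3 + a2 * X ^ 2 + a4 * X) :
    SgnPos v α X Y ∨ SgnPos v (-1 - α) X Y := by
  by_cases hs : SgnPos v α X Y
  · exact Or.inl hs
  right
  have hprod : (Y - α * X) * (Y - (-1 - α) * X) = X * (X ^ 2 + a4) := by
    linear_combination heq - X ^ 2 * h.α_eq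
  obtain ⟨hX, ht0, hta⟩ := hN
  have h1 : v.Wgt (X ^ 2 + a4) (v.w X) := by
    refine RVal.Wgt.add ?_ ?_
    · exact Or.inr (by rw [v.w_sq hX]; linarith)
    · exact Or.inr hta
  have h2 : v.Wgt ((Y - α * X) * (Y - (-1 - α) * X)) (v.w X + v.w X) := by
    rw [hprod]; exact RVal.wge_self.mul_wgt h1
  have hne : Y - α * X ≠ 0 := fun h0 => hs (Or.inl h0)
  have hle : v.w (Y - α * X) ≤ v.w X := not_lt.mp fun hlt => hs (Or.inr hlt)
  show v.Wgt (Y - (-1 - α) * X) (v.w X)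
  by_cases h0 : Y - (-1 - α) * X = 0
  · exact Or.inl h0
  · have := h2.lt (mul_ne_zero hne h0)
    rw [v.w_mul _ _ hne h0] at this
    exact Or.inr (by linarith)

theorem n2_I1 {a2 a4 : K} (t : N2Triple a2 a4) :
    (t.Y₂ * t.X₃ + t.Y₃ * t.X₂ + t.X₂ * t.X₃) * t.ν =
      t.X₂ * t.X₃ * (a4 - t.X₂ * t.X₃) := by
  simp only [N2Triple.Y₂, N2Triple.Y₃]
  linear_combination (t.X₂ * t.X₃) * t.s2 - (t.X₂ + t.X₃) * t.s3

theorem n2_I2 {a2 a4 : K} (t : N2Triple a2 a4) :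
    t.Y₂ * t.X₃ - t.Y₃ * t.X₂ = t.ν * (t.X₃ - t.X₂) := by
  simp only [N2Triple.Y₂, N2Triple.Y₃]; ring

/-- `ν ≠ 0` and `2 w ν = w X₁ + w X₂ + w X₃` when the three abscissas are nonzero -/
theorem n2_w_nu (v : RVal A) {a2 a4 : K} (t : N2Triple a2 a4)
    (hX1 : t.X₁ ≠ 0) (hX2 : t.X₂ ≠ 0) (hX3 : t.X₃ ≠ 0) :
    t.ν ≠ 0 ∧ 2 * v.w t.ν = v.w t.X₁ + v.w t.X₂ + v.w t.X₃ := by
  have hν : t.ν ≠ 0 := by
    intro h0
    have h3 := t.s3
    rw [h0] at h3
    exact mul_ne_zero (mul_ne_zero hX1 hX2) hX3 (by rw [h3]; ring)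
  refine ⟨hν, ?_⟩
  have := congrArg v.w t.s3
  rw [v.w_sq hν, node_w_mul3 v hX1 hX2 hX3] at this
  linarith

/-- class `0` plus two points near the node on the same branch: impossible -/
theorem n2_B_same (v : RVal A) {a2 a4 α : K} (h : N2Node v a2 a4 α) (t : N2Triple a2 a4)
    (h1 : IsE v t.X₁) (h2 : IsN v a4 t.X₂) (h3 : IsN v a4 t.X₃)
    (s2 : SgnPos v α t.X₂ t.Y₂) (s3 : SgnPos v α t.X₃ t.Y₃) : False := by
  obtain ⟨hX1, ht1⟩ := h1
  obtain ⟨hX2, ht2, hta2⟩ := h2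
  obtain ⟨hX3, ht3, hta3⟩ := h3
  obtain ⟨hν, hn⟩ := n2_w_nu v t hX1 hX2 hX3
  have hX23 : t.X₂ * t.X₃ ≠ 0 := mul_ne_zero hX2 hX3
  have hmain : (2 * α + 1) * (t.X₂ * t.X₃) ≠ 0 := mul_ne_zero h.γ_ne hX23
  have hwmain : v.w ((2 * α + 1) * (t.X₂ * t.X₃)) = v.w t.X₂ + v.w t.X₃ := by
    rw [v.w_mul _ _ h.γ_ne hX23, h.γ_unit, v.w_mul _ _ hX2 hX3]
    ring
  have e : t.Y₂ * t.X₃ + t.Y₃ * t.X₂ + t.X₂ * t.X₃ = (2 * α + 1) * (t.X₂ * t.X₃) +
      ((t.Y₂ - α * t.X₂) * t.X₃ + (t.Y₃ - α * t.X₃) * t.X₂) := by ring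
  have hsmall : v.Wgt ((t.Y₂ - α * t.X₂) * t.X₃ + (t.Y₃ - α * t.X₃) * t.X₂)
      (v.w ((2 * α + 1) * (t.X₂ * t.X₃))) := by
    rw [hwmain]
    refine RVal.Wgt.add (s2.mul_wge RVal.wge_self) ?_
    have := s3.mul_wge (RVal.wge_self (v := v) (x := t.X₂))
    exact this.mono (by linarith)
  obtain ⟨hne, hw⟩ := RVal.w_add_of_wgt hmain hsmall
  rw [← e, hwmain] at hw
  rw [← e] at hne
  have hI := n2_I1 t
  have hlhs : (t.Y₂ * t.X₃ + t.Y₃ * t.X₂ + t.X₂ * t.X₃) * t.ν ≠ 0 := mul_ne_zero hne hν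
  have hwl : v.w ((t.Y₂ * t.X₃ + t.Y₃ * t.X₂ + t.X₂ * t.X₃) * t.ν) =
      v.w t.X₂ + v.w t.X₃ + v.w t.ν := by
    rw [v.w_mul _ _ hne hν, hw]
  rw [hI] at hlhs hwl
  have hq : a4 - t.X₂ * t.X₃ ≠ 0 := fun h0 => hlhs (by rw [h0]; ring)
  rw [v.w_mul _ _ hX23 hq, v.w_mul _ _ hX2 hX3] at hwl
  have hge : v.Wge (a4 - t.X₂ * t.X₃) (min (v.w a4) (v.w t.X₂ + v.w t.X₃)) := by
    refine RVal.Wge.sub ?_ ?_
    · exact Or.inr (by simp)
    · exact Or.inr (by rw [v.w_mul _ _ hX2 hX3]; simp)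
  have h4 := hge.le hq
  rcases min_le_iff.mp h4 with h5 | h5 <;> linarith

/-- class `0` plus two points near the node on opposite branches: same depth -/
theorem n2_B_opp (v : RVal A) {a2 a4 α : K} (h : N2Node v a2 a4 α) (t : N2Triple a2 a4)
    (h1 : IsE v t.X₁) (h2 : IsN v a4 t.X₂) (h3 : IsN v a4 t.X₃)
    (s2 : SgnPos v α t.X₂ t.Y₂) (s3 : SgnPos v (-1 - α) t.X₃ t.Y₃) : v.w t.X₂ = v.w t.X₃ := by
  obtain ⟨hX1, ht1⟩ := h1
  obtain ⟨hX2, ht2, hta2⟩ := h2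
  obtain ⟨hX3, ht3, hta3⟩ := h3
  obtain ⟨hν, hn⟩ := n2_w_nu v t hX1 hX2 hX3
  have hX23 : t.X₂ * t.X₃ ≠ 0 := mul_ne_zero hX2 hX3
  have hmain : (2 * α + 1) * (t.X₂ * t.X₃) ≠ 0 := mul_ne_zero h.γ_ne hX23
  have hwmain : v.w ((2 * α + 1) * (t.X₂ * t.X₃)) = v.w t.X₂ + v.w t.X₃ := by
    rw [v.w_mul _ _ h.γ_ne hX23, h.γ_unit, v.w_mul _ _ hX2 hX3]
    ring
  have e : t.Y₂ * t.X₃ - t.Y₃ * t.X₂ = (2 * α + 1) * (t.X₂ * t.X₃) +
      ((t.Y₂ - α * t.X₂) * t.X₃ - (t.Y₃ - (-1 - α) * t.X₃) * t.X₂) := by ring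
  have hsmall : v.Wgt ((t.Y₂ - α * t.X₂) * t.X₃ - (t.Y₃ - (-1 - α) * t.X₃) * t.X₂)
      (v.w ((2 * α + 1) * (t.X₂ * t.X₃))) := by
    rw [hwmain]
    refine RVal.Wgt.sub (s2.mul_wge RVal.wge_self) ?_
    have := s3.mul_wge (RVal.wge_self (v := v) (x := t.X₂))
    exact this.mono (by linarith)
  obtain ⟨hne, hw⟩ := RVal.w_add_of_wgt hmain hsmall
  rw [← e, hwmain] at hw
  rw [← e] at hne
  rw [n2_I2 t] at hne hw
  have hd : t.X₃ - t.X₂ ≠ 0 := fun h0 => hne (by rw [h0]; ring)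
  rw [v.w_mul _ _ hν hd] at hw
  by_contra hneq
  rcases lt_or_gt_of_ne hneq with hlt | hlt
  · have := node_w_sub_of_lt v hX2 hlt
    linarith
  · have h6 := node_w_sub_of_lt v hX3 hlt
    have h7 : v.w (t.X₃ - t.X₂) = v.w (t.X₂ - t.X₃) := by
      rw [← v.w_neg]; congr 1; ring
    linarith

/-- one point of class `0`: the classes of the two others are opposite modulo `2 w a4` -/
theorem n2_B (v : RVal A) {a2 a4 α : K} (h : N2Node v a2 a4 α) (t : N2Triple a2 a4)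
    (h1 : IsE v t.X₁) (h2 : ¬IsE v t.X₂) (h3 : ¬IsE v t.X₃) :
    cval v a4 α t.X₂ t.Y₂ + cval v a4 α t.X₃ t.Y₃ = 0 ∨
      cval v a4 α t.X₂ t.Y₂ + cval v a4 α t.X₃ t.Y₃ = 2 * v.w a4 := by
  have hαα : -1 - (-1 - α) = α := by ring
  rcases type_cases v a4 t.X₂ with h2' | h2' | h2'
  · exact absurd h2' h2
  · rcases type_cases v a4 t.X₃ with h3' | h3' | h3'
    · exact absurd h3' h3
    · -- both near the node
      left
      have hm : N2Node v a2 a4 (-1 - α) := h.conj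
      by_cases s2 : SgnPos v α t.X₂ t.Y₂
      · by_cases s3 : SgnPos v α t.X₃ t.Y₃
        · exact (n2_B_same v h t h1 h2' h3' s2 s3).elim
        · have s3' := (n2_sgn_dich v h h3' t.eq₃).resolve_left s3
          rw [cval_of_isN_pos h2' s2, cval_of_isN_neg h3' s3, n2_B_opp v h t h1 h2' h3' s2 s3']
          ring
      · have s2' := (n2_sgn_dich v h h2' t.eq₂).resolve_left s2
        by_cases s3 : SgnPos v α t.X₃ t.Y₃
        · have s3' : SgnPos v (-1 - (-1 - α)) t.X₃ t.Y₃ := by rw [hαα]; exact s3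
          rw [cval_of_isN_neg h2' s2, cval_of_isN_pos h3' s3,
            n2_B_opp v hm t h1 h2' h3' s2' s3']
          ring
        · have s3' := (n2_sgn_dich v h h3' t.eq₃).resolve_left s3
          exact (n2_B_same v hm t h1 h2' h3' s2' s3').elim
    · -- near the node / middle : impossible
      exfalso
      refine n2_obstruction v h t h1.1 h2'.1 h1.2 (by linarith [h1.2, h2'.2.1])
        (by linarith [h1.2, h2'.2.2]) ?_
      rcases h3' with h0 | h0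
      · exact Or.inl h0
      · exact Or.inr (by linarith [h2'.2.2])
  · rcases type_cases v a4 t.X₃ with h3' | h3' | h3'
    · exact absurd h3' h3
    · exfalso
      refine n2_obstruction v h t.swap23 h1.1 h3'.1 h1.2
        (show v.w t.X₁ ≤ v.w t.X₃ by linarith [h1.2, h3'.2.1])
        (show v.w t.X₁ + v.w t.X₃ < v.w a4 by linarith [h1.2, h3'.2.2]) ?_
      show v.Wgt t.X₂ (v.w t.X₃)
      rcases h2' with h0 | h0
      · exact Or.inl h0
      · exact Or.inr (by linarith [h3'.2.2])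
    · right
      rw [cval_of_isM h.a4_pos h2', cval_of_isM h.a4_pos h3']
      ring

/-! ### no point of class `0`: the line has slope `≡ α` or `≡ -1 - α` -/

theorem n2_C_L (v : RVal A) {a2 a4 α : K} (h : N2Node v a2 a4 α) {L : K}
    (hL : v.Wgt (L - α) 0) :
    (L - (-1 - α) ≠ 0 ∧ v.w (L - (-1 - α)) = 0) ∧ (2 * L + 1 ≠ 0 ∧ v.w (2 * L + 1) = 0) := by
  constructor
  · have := RVal.w_add_of_wgt (v := v) h.γ_ne (y := L - α) (by rw [h.γ_unit]; exact hL)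
    have e : 2 * α + 1 + (L - α) = L - (-1 - α) := by ring
    rw [e, h.γ_unit] at this
    exact this
  · have h2 : v.Wgt (2 * (L - α)) 0 := by
      have := (n2_wge_two v).mul_wgt hL
      exact this.mono (by norm_num)
    have := RVal.w_add_of_wgt (v := v) h.γ_ne (y := 2 * (L - α)) (by rw [h.γ_unit]; exact h2)
    have e : 2 * α + 1 + 2 * (L - α) = 2 * L + 1 := by ring
    rw [e, h.γ_unit] at this
    exact this

/-- a point near the node on a line of slope `≡ α`: either `ν` is deeper than `X` (branch `α`)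
or exactly as deep as `X` (branch `-1 - α`) -/
theorem n2_C_pt (v : RVal A) {a2 a4 α : K} (h : N2Node v a2 a4 α) {L ν X : K}
    (hL : v.Wgt (L - α) 0) (hN : IsN v a4 X)
    (heq : (L * X + ν) ^ 2 + X * (L * X + ν) = X ^ 3 + a2 * X ^ 2 + a4 * X) :
    (v.Wgt ν (v.w X) ∧ cval v a4 α X (L * X + ν) = v.w X) ∨
    (ν ≠ 0 ∧ v.w ν = v.w X ∧ cval v a4 α X (L * X + ν) = -v.w X) := by
  by_cases hs : SgnPos v α X (L * X + ν)
  · left
    refine ⟨?_, cval_of_isN_pos hN hs⟩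
    have e : ν = (L * X + ν - α * X) - (L - α) * X := by ring
    rw [e]
    refine RVal.Wgt.sub hs ?_
    have := hL.mul_wge (RVal.wge_self (v := v) (x := X))
    rwa [zero_add] at this
  · right
    have hs' := (n2_sgn_dich v h hN heq).resolve_left hs
    obtain ⟨⟨hLp0, hLpw⟩, -⟩ := n2_C_L v h hL
    have hx : -((L - (-1 - α)) * X) ≠ 0 := neg_ne_zero.mpr (mul_ne_zero hLp0 hN.1)
    have hwx : v.w (-((L - (-1 - α)) * X)) = v.w X := by
      rw [v.w_neg, v.w_mul _ _ hLp0 hN.1, hLpw, zero_add]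
    have e : ν = -((L - (-1 - α)) * X) + (L * X + ν - (-1 - α) * X) := by ring
    have := RVal.w_add_of_wgt (v := v) hx (y := L * X + ν - (-1 - α) * X)
      (by rw [hwx]; exact hs')
    rw [← e, hwx] at this
    exact ⟨this.1, this.2, cval_of_isN_neg hN hs⟩

/-- three points near the node -/
theorem n2_C0 (v : RVal A) {a2 a4 α : K} (h : N2Node v a2 a4 α) (t : N2Triple a2 a4)
    (hL : v.Wgt (t.L - α) 0) (h1 : IsN v a4 t.X₁) (h2 : IsN v a4 t.X₂) (h3 : IsN v a4 t.X₃) :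
    ∃ k : ℤ, cval v a4 α t.X₁ t.Y₁ + cval v a4 α t.X₂ t.Y₂ + cval v a4 α t.X₃ t.Y₃ =
      2 * k * v.w a4 := by
  obtain ⟨hν, hn⟩ := n2_w_nu v t h1.1 h2.1 h3.1
  obtain ⟨-, hL0, hLw⟩ := n2_C_L v h hL
  have e2 : (2 * t.L + 1) * t.ν =
      a4 - (t.X₁ * t.X₂ + t.X₁ * t.X₃ + t.X₂ * t.X₃) := by
    linear_combination t.s2
  have hlhs : (2 * t.L + 1) * t.ν ≠ 0 := mul_ne_zero hL0 hν
  have hwl : v.w ((2 * t.L + 1) * t.ν) = v.w t.ν := by
    rw [v.w_mul _ _ hL0 hν, hLw, zero_add]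
  have hall : v.w t.X₁ < v.w t.ν → v.w t.X₂ < v.w t.ν → v.w t.X₃ < v.w t.ν →
      v.w t.ν = v.w a4 := by
    intro g1 g2 g3
    apply le_antisymm
    · by_contra hlt
      rw [not_le] at hlt
      have hr : v.Wgt (t.X₁ * t.X₂ + t.X₁ * t.X₃ + t.X₂ * t.X₃) (v.w a4) := by
        refine RVal.Wgt.add (RVal.Wgt.add ?_ ?_) ?_
        · exact Or.inr (by rw [v.w_mul _ _ h1.1 h2.1]; linarith)
        · exact Or.inr (by rw [v.w_mul _ _ h1.1 h3.1]; linarith)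
        · exact Or.inr (by rw [v.w_mul _ _ h2.1 h3.1]; linarith)
      have := (RVal.w_sub_of_wgt (v := v) h.a4_ne hr).2
      rw [← e2, hwl] at this
      linarith
    · by_contra hlt
      rw [not_le] at hlt
      have hr : v.Wgt (a4 - (t.X₁ * t.X₂ + t.X₁ * t.X₃ + t.X₂ * t.X₃)) (v.w t.ν) := by
        refine RVal.Wgt.sub (Or.inr hlt) (RVal.Wgt.add (RVal.Wgt.add ?_ ?_) ?_)
        · exact Or.inr (by rw [v.w_mul _ _ h1.1 h2.1]; linarith)
        · exact Or.inr (by rw [v.w_mul _ _ h1.1 h3.1]; linarith)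
        · exact Or.inr (by rw [v.w_mul _ _ h2.1 h3.1]; linarith)
      rw [← e2] at hr
      have := hr.lt hlhs
      rw [hwl] at this
      exact lt_irrefl _ this
  have p1 : (v.Wgt t.ν (v.w t.X₁) ∧ cval v a4 α t.X₁ t.Y₁ = v.w t.X₁) ∨
      (t.ν ≠ 0 ∧ v.w t.ν = v.w t.X₁ ∧ cval v a4 α t.X₁ t.Y₁ = -v.w t.X₁) :=
    n2_C_pt v h hL h1 t.eq₁
  have p2 : (v.Wgt t.ν (v.w t.X₂) ∧ cval v a4 α t.X₂ t.Y₂ = v.w t.X₂) ∨
      (t.ν ≠ 0 ∧ v.w t.ν = v.w t.X₂ ∧ cval v a4 α t.X₂ t.Y₂ = -v.w t.X₂) :=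
    n2_C_pt v h hL h2 t.eq₂
  have p3 : (v.Wgt t.ν (v.w t.X₃) ∧ cval v a4 α t.X₃ t.Y₃ = v.w t.X₃) ∨
      (t.ν ≠ 0 ∧ v.w t.ν = v.w t.X₃ ∧ cval v a4 α t.X₃ t.Y₃ = -v.w t.X₃) :=
    n2_C_pt v h hL h3 t.eq₃
  have g1 := h1.2.1
  have g2 := h2.2.1
  have g3 := h3.2.1
  rcases p1 with ⟨q1, c1⟩ | ⟨-, q1, c1⟩ <;> rcases p2 with ⟨q2, c2⟩ | ⟨-, q2, c2⟩ <;>
    rcases p3 with ⟨q3, c3⟩ | ⟨-, q3, c3⟩ <;> rw [c1, c2, c3]
  · have e := hall (q1.lt hν) (q2.lt hν) (q3.lt hν)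
    exact ⟨1, by push_cast; linarith⟩
  · exact ⟨0, by push_cast; linarith⟩
  · exact ⟨0, by push_cast; linarith⟩
  · exfalso; linarith
  · exact ⟨0, by push_cast; linarith⟩
  · exfalso; linarith
  · exfalso; linarith
  · exfalso; linarith

/-- two points near the node and one in the middle class -/
theorem n2_C1 (v : RVal A) {a2 a4 α : K} (h : N2Node v a2 a4 α) (t : N2Triple a2 a4)
    (hL : v.Wgt (t.L - α) 0) (h1 : IsN v a4 t.X₁) (h2 : IsN v a4 t.X₂) (h3 : IsM v a4 t.X₃) :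
    cval v a4 α t.X₁ t.Y₁ + cval v a4 α t.X₂ t.Y₂ = v.w a4 := by
  obtain ⟨-, hL0, hLw⟩ := n2_C_L v h hL
  have p1 : (v.Wgt t.ν (v.w t.X₁) ∧ cval v a4 α t.X₁ t.Y₁ = v.w t.X₁) ∨
      (t.ν ≠ 0 ∧ v.w t.ν = v.w t.X₁ ∧ cval v a4 α t.X₁ t.Y₁ = -v.w t.X₁) :=
    n2_C_pt v h hL h1 t.eq₁
  have p2 : (v.Wgt t.ν (v.w t.X₂) ∧ cval v a4 α t.X₂ t.Y₂ = v.w t.X₂) ∨
      (t.ν ≠ 0 ∧ v.w t.ν = v.w t.X₂ ∧ cval v a4 α t.X₂ t.Y₂ = -v.w t.X₂) :=
    n2_C_pt v h hL h2 t.eq₂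
  have hw12 : v.w (t.X₁ * t.X₂) = v.w t.X₁ + v.w t.X₂ := v.w_mul _ _ h1.1 h2.1
  by_cases hX3 : t.X₃ = 0
  · have hν : t.ν = 0 := by
      have := t.s3
      rw [hX3, mul_zero] at this
      exact pow_eq_zero_iff two_ne_zero |>.mp this.symm
    have e2 : t.X₁ * t.X₂ = a4 := by
      have := t.s2
      rw [hX3, hν] at this
      linear_combination this
    have hw : v.w t.X₁ + v.w t.X₂ = v.w a4 := by
      rw [← hw12, e2]
    rcases p1 with ⟨-, c1⟩ | ⟨q1, -, -⟩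
    · rcases p2 with ⟨-, c2⟩ | ⟨q2, -, -⟩
      · rw [c1, c2, hw]
      · exact absurd hν q2
    · exact absurd hν q1
  · have ht3 : v.w a4 ≤ v.w t.X₃ := h3.resolve_left hX3
    obtain ⟨hν, hn⟩ := n2_w_nu v t h1.1 h2.1 hX3
    have hwl : v.w ((2 * t.L + 1) * t.ν) = v.w t.ν := by
      rw [v.w_mul _ _ hL0 hν, hLw, zero_add]
    have c1 : cval v a4 α t.X₁ t.Y₁ = v.w t.X₁ ∧ v.w t.X₁ < v.w t.ν := by
      rcases p1 with ⟨q1, c1⟩ | ⟨-, q1, -⟩
      · exact ⟨c1, q1.lt hν⟩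
      · exfalso; linarith [h1.2.2, h2.2.1]
    have c2 : cval v a4 α t.X₂ t.Y₂ = v.w t.X₂ ∧ v.w t.X₂ < v.w t.ν := by
      rcases p2 with ⟨q2, c2⟩ | ⟨-, q2, -⟩
      · exact ⟨c2, q2.lt hν⟩
      · exfalso; linarith [h2.2.2, h1.2.1]
    rw [c1.1, c2.1]
    apply le_antisymm
    · by_contra hlt
      rw [not_le] at hlt
      have e : a4 = t.X₁ * t.X₂ + t.X₁ * t.X₃ + t.X₂ * t.X₃ + (2 * t.L + 1) * t.ν := by
        linear_combination -t.s2
      have hr : v.Wgt (t.X₁ * t.X₂ + t.X₁ * t.X₃ + t.X₂ * t.X₃ + (2 * t.L + 1) * t.ν)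
          (v.w a4) := by
        refine RVal.Wgt.add (RVal.Wgt.add (RVal.Wgt.add ?_ ?_) ?_) ?_
        · exact Or.inr (by rw [hw12]; exact hlt)
        · exact Or.inr (by rw [v.w_mul _ _ h1.1 hX3]; linarith [h1.2.1])
        · exact Or.inr (by rw [v.w_mul _ _ h2.1 hX3]; linarith [h2.2.1])
        · exact Or.inr (by rw [hwl]; linarith)
      rw [← e] at hr
      exact lt_irrefl _ (hr.lt h.a4_ne)
    · by_contra hlt
      rw [not_le] at hlt
      have e2 : t.X₁ * t.X₂ = a4 - (2 * t.L + 1) * t.ν - t.X₁ * t.X₃ - t.X₂ * t.X₃ := by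
        linear_combination t.s2
      have hr : v.Wgt (a4 - (2 * t.L + 1) * t.ν - t.X₁ * t.X₃ - t.X₂ * t.X₃)
          (v.w t.X₁ + v.w t.X₂) := by
        refine RVal.Wgt.sub (RVal.Wgt.sub (RVal.Wgt.sub ?_ ?_) ?_) ?_
        · exact Or.inr hlt
        · exact Or.inr (by rw [hwl]; linarith)
        · exact Or.inr (by rw [v.w_mul _ _ h1.1 hX3]; linarith [h2.2.2])
        · exact Or.inr (by rw [v.w_mul _ _ h2.1 hX3]; linarith [h1.2.2])
      rw [← e2] at hr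
      have := hr.lt (mul_ne_zero h1.1 h2.1)
      rw [hw12] at this
      exact lt_irrefl _ this

/-- two points in the middle class and a third one not of class `0`: impossible -/
theorem n2_C2 (v : RVal A) {a2 a4 α : K} (h : N2Node v a2 a4 α) (t : N2Triple a2 a4)
    (hL : v.Wgt (t.L - α) 0) (h1 : v.Wgt t.X₁ 0) (h2 : IsM v a4 t.X₂) (h3 : IsM v a4 t.X₃) :
    False := by
  obtain ⟨-, hL0, hLw⟩ := n2_C_L v h hL
  have h2' : v.Wge t.X₂ (v.w a4) := h2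
  have h3' : v.Wge t.X₃ (v.w a4) := h3
  have e2 : (2 * t.L + 1) * t.ν =
      a4 - (t.X₁ * t.X₂ + t.X₁ * t.X₃ + t.X₂ * t.X₃) := by
    linear_combination t.s2
  have hr : v.Wgt (t.X₁ * t.X₂ + t.X₁ * t.X₃ + t.X₂ * t.X₃) (v.w a4) := by
    refine RVal.Wgt.add (RVal.Wgt.add ?_ ?_) ?_
    · exact (h1.mul_wge h2').mono (by linarith)
    · exact (h1.mul_wge h3').mono (by linarith)
    · exact (h2'.mul h3').wgt_of_lt (by linarith [h.a4_pos])
  obtain ⟨hne, hw⟩ := RVal.w_sub_of_wgt (v := v) h.a4_ne hr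
  rw [← e2] at hne hw
  have hν : t.ν ≠ 0 := fun h0 => hne (by rw [h0]; ring)
  rw [v.w_mul _ _ hL0 hν, hLw, zero_add] at hw
  have hprod : t.X₁ * t.X₂ * t.X₃ ≠ 0 := by rw [t.s3]; exact pow_ne_zero 2 hν
  have hX1 : t.X₁ ≠ 0 := fun h0 => hprod (by rw [h0]; ring)
  have hX2 : t.X₂ ≠ 0 := fun h0 => hprod (by rw [h0]; ring)
  have hX3 : t.X₃ ≠ 0 := fun h0 => hprod (by rw [h0]; ring)
  obtain ⟨-, hn⟩ := n2_w_nu v t hX1 hX2 hX3
  have g1 := h1.lt hX1
  have g2 := h2.resolve_left hX2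
  have g3 := h3.resolve_left hX3
  linarith

/-- no point of class `0`, slope `≡ α` -/
theorem n2_C (v : RVal A) {a2 a4 α : K} (h : N2Node v a2 a4 α) (t : N2Triple a2 a4)
    (hL : v.Wgt (t.L - α) 0) (h1 : ¬IsE v t.X₁) (h2 : ¬IsE v t.X₂) (h3 : ¬IsE v t.X₃) :
    ∃ k : ℤ, cval v a4 α t.X₁ t.Y₁ + cval v a4 α t.X₂ t.Y₂ + cval v a4 α t.X₃ t.Y₃ =
      2 * k * v.w a4 := by
  rcases type_cases v a4 t.X₁ with h1' | h1' | h1'
  · exact absurd h1' h1
  · rcases type_cases v a4 t.X₂ with h2' | h2' | h2'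
    · exact absurd h2' h2
    · rcases type_cases v a4 t.X₃ with h3' | h3' | h3'
      · exact absurd h3' h3
      · exact n2_C0 v h t hL h1' h2' h3'
      · have e := n2_C1 v h t hL h1' h2' h3'
        exact ⟨1, by rw [cval_of_isM h.a4_pos h3']; push_cast; linarith⟩
    · rcases type_cases v a4 t.X₃ with h3' | h3' | h3'
      · exact absurd h3' h3
      · have e : cval v a4 α t.X₁ t.Y₁ + cval v a4 α t.X₃ t.Y₃ = v.w a4 :=
          n2_C1 v h t.swap23 hL h1' h3' h2'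
        exact ⟨1, by rw [cval_of_isM h.a4_pos h2']; push_cast; linarith⟩
      · exact (n2_C2 v h t hL (node_wgt_of_not_isE h1) h2' h3').elim
  · rcases type_cases v a4 t.X₂ with h2' | h2' | h2'
    · exact absurd h2' h2
    · rcases type_cases v a4 t.X₃ with h3' | h3' | h3'
      · exact absurd h3' h3
      · have e : cval v a4 α t.X₂ t.Y₂ + cval v a4 α t.X₃ t.Y₃ = v.w a4 :=
          n2_C1 v h t.rot hL h2' h3' h1'
        exact ⟨1, by rw [cval_of_isM h.a4_pos h1']; push_cast; linarith⟩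
      · exact (n2_C2 v h t.swap12 hL (node_wgt_of_not_isE h2) h1' h3').elim
    · exact (n2_C2 v h t.swap13 hL (node_wgt_of_not_isE h3) h2' h1').elim

/-- a point near the node is not on both branches -/
theorem n2_sgn_excl (v : RVal A) {a2 a4 α : K} (h : N2Node v a2 a4 α) {X Y : K}
    (hN : IsN v a4 X) : ¬(SgnPos v α X Y ∧ SgnPos v (-1 - α) X Y) := by
  rintro ⟨hs, hs'⟩
  have hd : v.Wgt ((Y - (-1 - α) * X) - (Y - α * X)) (v.w X) := RVal.Wgt.sub hs' hs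
  have e : (Y - (-1 - α) * X) - (Y - α * X) = (2 * α + 1) * X := by ring
  rw [e] at hd
  have hne : (2 * α + 1) * X ≠ 0 := mul_ne_zero h.γ_ne hN.1
  have := hd.lt hne
  rw [v.w_mul _ _ h.γ_ne hN.1, h.γ_unit] at this
  linarith

/-- changing the branch `α ↦ -1 - α` changes the class by a sign modulo `2 w a4` -/
theorem n2_cval_conj (v : RVal A) {a2 a4 α : K} (h : N2Node v a2 a4 α) {X Y : K}
    (heq : Y ^ 2 + X * Y = X ^ 3 + a2 * X ^ 2 + a4 * X) :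
    ∃ j : ℤ, cval v a4 (-1 - α) X Y = -cval v a4 α X Y + 2 * j * v.w a4 := by
  rcases type_cases v a4 X with hE | hN | hM
  · exact ⟨0, by rw [cval_of_isE hE, cval_of_isE hE]; simp⟩
  · refine ⟨0, ?_⟩
    by_cases hs : SgnPos v α X Y
    · have hs' : ¬SgnPos v (-1 - α) X Y := fun hs' => n2_sgn_excl v h hN ⟨hs, hs'⟩
      rw [cval_of_isN_pos hN hs, cval_of_isN_neg hN hs']
      simp
    · have hs' := (n2_sgn_dich v h hN heq).resolve_left hs
      rw [cval_of_isN_neg hN hs, cval_of_isN_pos hN hs']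
      simp
  · exact ⟨1, by rw [cval_of_isM h.a4_pos hM, cval_of_isM h.a4_pos hM]; push_cast; ring⟩

/-- **additivity of the class on collinear triples** -/
theorem n2_node_triple (v : RVal A) {a2 a4 α : K} (h : N2Node v a2 a4 α) (t : N2Triple a2 a4) :
    ∃ k : ℤ, cval v a4 α t.X₁ t.Y₁ + cval v a4 α t.X₂ t.Y₂ + cval v a4 α t.X₃ t.Y₃ =
      2 * k * v.w a4 := by
  by_cases h1 : IsE v t.X₁
  · by_cases h2 : IsE v t.X₂
    · have h3 := n2_isE_of_isE v h t h1 h2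
      exact ⟨0, by rw [cval_of_isE h1, cval_of_isE h2, cval_of_isE h3]; simp⟩
    · by_cases h3 : IsE v t.X₃
      · exact absurd (n2_isE_of_isE v h t.swap23 h1 h3) h2
      · rcases n2_B v h t h1 h2 h3 with hb | hb
        · exact ⟨0, by rw [cval_of_isE h1]; push_cast; linarith⟩
        · exact ⟨1, by rw [cval_of_isE h1]; push_cast; linarith⟩
  · by_cases h2 : IsE v t.X₂
    · by_cases h3 : IsE v t.X₃
      · exact absurd (n2_isE_of_isE v h t.rot h2 h3) h1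
      · have hb : cval v a4 α t.X₁ t.Y₁ + cval v a4 α t.X₃ t.Y₃ = 0 ∨
            cval v a4 α t.X₁ t.Y₁ + cval v a4 α t.X₃ t.Y₃ = 2 * v.w a4 :=
          n2_B v h t.swap12 h2 h1 h3
        rcases hb with hb | hb
        · exact ⟨0, by rw [cval_of_isE h2]; push_cast; linarith⟩
        · exact ⟨1, by rw [cval_of_isE h2]; push_cast; linarith⟩
    · by_cases h3 : IsE v t.X₃
      · have hb : cval v a4 α t.X₂ t.Y₂ + cval v a4 α t.X₁ t.Y₁ = 0 ∨
            cval v a4 α t.X₂ t.Y₂ + cval v a4 α t.X₁ t.Y₁ = 2 * v.w a4 :=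
          n2_B v h t.swap13 h3 h2 h1
        rcases hb with hb | hb
        · exact ⟨0, by rw [cval_of_isE h3]; push_cast; linarith⟩
        · exact ⟨1, by rw [cval_of_isE h3]; push_cast; linarith⟩
      · by_cases hL : v.Wgt (t.L - α) 0
        · exact n2_C v h t hL h1 h2 h3
        · have hL' : v.Wgt (t.L - (-1 - α)) 0 := by
            have hne : t.L - α ≠ 0 := fun h0 => hL (Or.inl h0)
            have hle : v.w (t.L - α) ≤ 0 := not_lt.mp fun hlt => hL (Or.inr hlt)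
            by_cases h0 : t.L - (-1 - α) = 0
            · exact Or.inl h0
            have hprod : (t.L - α) * (t.L - (-1 - α)) = t.X₁ + t.X₂ + t.X₃ := by
              linear_combination -t.s1 - h.α_eq
            have hsm : v.Wgt (t.X₁ + t.X₂ + t.X₃) 0 :=
              RVal.Wgt.add (RVal.Wgt.add (node_wgt_of_not_isE h1)
                (node_wgt_of_not_isE h2)) (node_wgt_of_not_isE h3)
            rw [← hprod] at hsm
            have := hsm.lt (mul_ne_zero hne h0)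
            rw [v.w_mul _ _ hne h0] at this
            exact Or.inr (by linarith)
          obtain ⟨k, hk⟩ := n2_C v h.conj t hL' h1 h2 h3
          obtain ⟨j1, e1⟩ := n2_cval_conj v h t.eq₁
          obtain ⟨j2, e2⟩ := n2_cval_conj v h t.eq₂
          obtain ⟨j3, e3⟩ := n2_cval_conj v h t.eq₃
          exact ⟨j1 + j2 + j3 - k, by push_cast; linarith⟩

/-! ### negation of a point: `-(X, Y) = (X, -Y - X)` -/

theorem n2_sgnPos_negY (v : RVal A) (α X Y : K) :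
    SgnPos v α X (-Y - X) ↔ SgnPos v (-1 - α) X Y := by
  unfold SgnPos
  have e : -Y - X - α * X = -(Y - (-1 - α) * X) := by ring
  rw [e]
  constructor
  · intro hh
    have := hh.neg
    rwa [neg_neg] at this
  · intro hh
    exact hh.neg

theorem n2_cval_negY_eq (v : RVal A) (a4 α X Y : K) :
    cval v a4 α X (-Y - X) = cval v a4 (-1 - α) X Y := by
  unfold cval
  by_cases hs : SgnPos v α X (-Y - X)
  · rw [if_pos hs, if_pos ((n2_sgnPos_negY v α X Y).mp hs)]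
  · rw [if_neg hs, if_neg (fun h' => hs ((n2_sgnPos_negY v α X Y).mpr h'))]

/-- the class of the opposite point `(X, -Y - X)` -/
theorem n2_cval_negY (v : RVal A) {a2 a4 α : K} (h : N2Node v a2 a4 α) {X Y : K}
    (heq : Y ^ 2 + X * Y = X ^ 3 + a2 * X ^ 2 + a4 * X) :
    ∃ j : ℤ, cval v a4 α X (-Y - X) = -cval v a4 α X Y + 2 * j * v.w a4 := by
  rw [n2_cval_negY_eq]
  exact n2_cval_conj v h heq

/-- the class is `0` exactly for the points of class `0` (`X ≠ 0`, `w X ≤ 0`) -/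
theorem n2_cval_eq_zero_iff (v : RVal A) {a4 α : K} (ha4 : 0 < v.w a4) {X Y : K} :
    cval v a4 α X Y = 0 ↔ IsE v X := by
  constructor
  · intro hc
    rcases type_cases v a4 X with hE | hN | hM
    · exact hE
    · exfalso
      by_cases hs : SgnPos v α X Y
      · rw [cval_of_isN_pos hN hs] at hc
        linarith [hN.2.1]
      · rw [cval_of_isN_neg hN hs] at hc
        linarith [hN.2.1]
    · exfalso
      rw [cval_of_isM ha4 hM] at hc
      linarith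
  · intro hE
    exact cval_of_isE hE

/-- the class always lies in `(-m, m]`, `m = w a4` -/
theorem n2_cval_range (v : RVal A) {a4 α : K} (ha4 : 0 < v.w a4) (X Y : K) :
    -v.w a4 < cval v a4 α X Y ∧ cval v a4 α X Y ≤ v.w a4 := by
  rcases type_cases v a4 X with hE | hN | hM
  · rw [cval_of_isE hE]
    exact ⟨by linarith, ha4.le⟩
  · by_cases hs : SgnPos v α X Y
    · rw [cval_of_isN_pos hN hs]
      exact ⟨by linarith [hN.2.1, hN.2.2], hN.2.2.le⟩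
    · rw [cval_of_isN_neg hN hs]
      exact ⟨by linarith [hN.2.1, hN.2.2], by linarith [hN.2.1, hN.2.2]⟩
  · rw [cval_of_isM ha4 hM]
    exact ⟨by linarith, le_rfl⟩

/-- the possible values of the class -/
theorem n2_cval_cases (v : RVal A) {a4 α : K} (ha4 : 0 < v.w a4) (X Y : K) :
    cval v a4 α X Y = 0 ∨ cval v a4 α X Y = v.w a4 ∨
      (X ≠ 0 ∧ (cval v a4 α X Y = v.w X ∨ cval v a4 α X Y = -v.w X)) := by
  rcases type_cases v a4 X with hE | hN | hM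
  · exact Or.inl (cval_of_isE hE)
  · by_cases hs : SgnPos v α X Y
    · exact Or.inr (Or.inr ⟨hN.1, Or.inl (cval_of_isN_pos hN hs)⟩)
    · exact Or.inr (Or.inr ⟨hN.1, Or.inr (cval_of_isN_neg hN hs)⟩)
  · exact Or.inr (Or.inl (cval_of_isM ha4 hM))

end Fermat.Agent.N2
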