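import Fermat.Agent.Lib.N2_Defs

set_option autoImplicit false

/-!
# S13, WP-2 (the node at `2`): the same-reduction lemma (helper8)

On `y² + x y = x³ + a₂ x² + a₄ x` with `a₂, a₄` integral and `w 2 > 0`: two affine points with
unit `x`-coordinate and the same reduction differ by an element of the kernel of reduction.
-/

namespace Fermat.Agent.N2

open Fermat.Agent.F5 WeierstrassCurve.Affine

variable {K : Type*} [Field K] {A : ValuationSubring K} {W : WeierstrassCurve.Affine K}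

/-- integrality of `y` from integrality of `x` -/
theorem n2sr_y_wge (hW : IsN2W W) (v : RVal A) (ha2 : v.Wge W.a₂ 0) (ha4 : v.Wge W.a₄ 0)
    {x y : K} (h : W.Equation x y) (hx : v.Wge x 0) : v.Wge y 0 := by
  by_contra hcon
  have hy0 : y ≠ 0 := fun h0 => hcon (Or.inl h0)
  have hwy : v.w y < 0 := by
    by_contra h1
    exact hcon (Or.inr (not_lt.mp h1))
  have heq := n2_eqn hW h
  have hdom : v.Wgt x (v.w y) := hx.wgt_of_lt hwy
  obtain ⟨hyx, hwyx⟩ := RVal.w_add_of_wgt hy0 hdom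
  have hprod : y * (y + x) ≠ 0 := mul_ne_zero hy0 hyx
  have hwprod : v.w (y * (y + x)) = 2 * v.w y := by
    rw [v.w_mul _ _ hy0 hyx, hwyx]; ring
  have hrhs : v.Wge (x ^ 3 + W.a₂ * x ^ 2 + W.a₄ * x) 0 := by
    have e1 : v.Wge (x ^ 3) 0 := by simpa using hx.pow 3
    have e2 : v.Wge (W.a₂ * x ^ 2) 0 := by
      have := ha2.mul (hx.pow 2)
      simpa using this
    have e3 : v.Wge (W.a₄ * x) 0 := by
      have := ha4.mul hx
      simpa using this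
    exact (e1.add e2).add e3
  have e : x ^ 3 + W.a₂ * x ^ 2 + W.a₄ * x = y * (y + x) := by linear_combination -heq
  rw [e] at hrhs
  have := hrhs.le hprod
  rw [hwprod] at this
  linarith

/-- **same reduction**: two affine points with unit `x`-coordinate whose coordinates are
congruent modulo the maximal ideal differ by an element of the kernel of reduction -/
theorem n2sr_same_red [DecidableEq K] (hW : IsN2W W) (v : RVal A) (ha2 : v.Wge W.a₂ 0)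
    (ha4 : v.Wge W.a₄ 0) (h2 : v.Wgt (2 : K) 0) {x₁ y₁ x₂ y₂ : K}
    (h₁ : W.Nonsingular x₁ y₁) (h₂ : W.Nonsingular x₂ y₂) (hx₁ : x₁ ≠ 0) (hw₁ : v.w x₁ = 0)
    (hx : v.Wgt (x₁ - x₂) 0) (hy : v.Wgt (y₁ - y₂) 0) :
    n2E1 A (Point.some x₁ y₁ h₁ - Point.some x₂ y₂ h₂) := by
  -- `x₂` is a unit
  have hx₂' : v.Wgt (-(x₁ - x₂)) (v.w x₁) := by rw [hw₁]; exact hx.neg
  obtain ⟨hx₂0', hwx₂'⟩ := RVal.w_add_of_wgt hx₁ hx₂'
  have ex₂ : x₁ + -(x₁ - x₂) = x₂ := by ring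
  rw [ex₂] at hx₂0' hwx₂'
  rw [hw₁] at hwx₂'
  have hx₂int : v.Wge x₂ 0 := Or.inr hwx₂'.ge
  have hy₂int : v.Wge y₂ 0 := n2sr_y_wge hW v ha2 ha4 h₂.1 hx₂int
  -- the quantity `x₂ + 2 y₂ + (y₁ - y₂)` is a unit
  have h2y : v.Wgt (2 * y₂) 0 := by
    have := h2.mul_wge hy₂int
    simpa using this
  have hnum' : v.Wgt (2 * y₂ + (y₁ - y₂)) (v.w x₂) := by rw [hwx₂']; exact h2y.add hy
  obtain ⟨hnum0, hwnum⟩ := RVal.w_add_of_wgt hx₂0' hnum'
  have enum : x₂ + (2 * y₂ + (y₁ - y₂)) = y₁ - W.negY x₂ y₂ := by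
    rw [n2_negY hW]; ring
  rw [enum] at hnum0 hwnum
  rw [hwx₂'] at hwnum
  rw [sub_eq_add_neg, Point.neg_some]
  by_cases hxy : x₁ = x₂ ∧ y₁ = W.negY x₂ (W.negY x₂ y₂)
  · rw [Point.add_of_Y_eq hxy.1 hxy.2]
    exact n2E1_zero
  · rw [Point.add_some hxy, n2E1_some]
    have hxne : x₁ ≠ x₂ := by
      intro hxe
      -- then `y₁ = y₂` or `y₁ = negY x₂ y₂`
      have hyy : y₁ ≠ W.negY x₂ (W.negY x₂ y₂) := fun h => hxy ⟨hxe, h⟩
      rw [WeierstrassCurve.Affine.negY_negY] at hyy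
      have e1 := n2_eqn hW h₁.1
      have e2 := n2_eqn hW h₂.1
      have e3 : (y₁ - y₂) * (y₁ - W.negY x₂ y₂) = 0 := by
        rw [n2_negY hW]
        rw [hxe] at e1
        linear_combination e1 - e2
      rcases mul_eq_zero.mp e3 with h0 | h0
      · exact hyy (sub_eq_zero.mp h0)
      · exact hnum0 h0
    have hd0 : x₁ - x₂ ≠ 0 := sub_ne_zero.mpr hxne
    have hwd : 0 < v.w (x₁ - x₂) := hx.lt hd0
    set ℓ := W.slope x₁ x₂ y₁ (W.negY x₂ y₂) with hℓ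
    have hℓeq : ℓ = (y₁ - W.negY x₂ y₂) / (x₁ - x₂) := by
      rw [hℓ, slope_of_X_ne hxne]
    have hℓ0 : ℓ ≠ 0 := by
      rw [hℓeq]; exact div_ne_zero hnum0 hd0
    have hwℓ : v.w ℓ < 0 := by
      rw [hℓeq, v.w_div hnum0 hd0, hwnum]; linarith
    -- `x₃ = ℓ² + ℓ - a₂ - x₁ - x₂`
    have hX : W.addX x₁ x₂ ℓ = ℓ ^ 2 + (ℓ + (-W.a₂ + (-x₁ + -x₂))) := by
      rw [addX, hW.a1]; ring
    have hℓ2 : ℓ ^ 2 ≠ 0 := pow_ne_zero 2 hℓ0
    have hwℓ2 : v.w (ℓ ^ 2) = 2 * v.w ℓ := v.w_sq hℓ0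
    have hrest : v.Wgt (ℓ + (-W.a₂ + (-x₁ + -x₂))) (v.w (ℓ ^ 2)) := by
      rw [hwℓ2]
      have c1 : v.Wgt ℓ (2 * v.w ℓ) := Or.inr (by linarith)
      have c2 : v.Wgt (-W.a₂) (2 * v.w ℓ) := (ha2.wgt_of_lt (by linarith)).neg
      have c3 : v.Wgt (-x₁) (2 * v.w ℓ) := by
        refine RVal.Wgt.neg (Or.inr ?_)
        rw [hw₁]; linarith
      have c4 : v.Wgt (-x₂) (2 * v.w ℓ) := (hx₂int.wgt_of_lt (by linarith)).neg
      exact c1.add (c2.add (c3.add c4))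
    obtain ⟨hX0, hwX⟩ := RVal.w_add_of_wgt hℓ2 hrest
    rw [← hX] at hX0 hwX
    rw [v.mem_iff _ hX0, hwX, hwℓ2]
    linarith

end Fermat.Agent.N2
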