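import Mathlib

set_option autoImplicit false

/-!
# T20 [RR-L]: Birkhoff reduction of a matrix over `K((t))`, `t = x⁻¹`

For an invertible matrix `M` over the Laurent series in `t = x⁻¹` there is a unimodular
polynomial matrix `E` (in `x`) such that the rows of `E * M` have independent leading vectors.
-/

noncomputable section

namespace Fermat.Agent.RR

open HahnSeries Polynomial

variable {K : Type*} [Field K]

/-- all coefficients below `a` vanish -/
def LowerBd (f : LaurentSeries K) (a : ℤ) : Prop := ∀ k < a, f.coeff k = 0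

theorem lowerBd_iff {f : LaurentSeries K} {a : ℤ} :
    LowerBd f a ↔ (a : WithTop ℤ) ≤ f.orderTop := by
  rw [le_orderTop_iff_forall]
  constructor
  · intro h j hj; exact h j (by exact_mod_cast hj)
  · intro h k hk; exact h k (by exact_mod_cast hk)

theorem lowerBd_zero (a : ℤ) : LowerBd (0 : LaurentSeries K) a := fun k _ => by simp

theorem LowerBd.mono {f : LaurentSeries K} {a b : ℤ} (h : LowerBd f a) (hab : b ≤ a) :
    LowerBd f b := fun k hk => h k (lt_of_lt_of_le hk hab)

theorem LowerBd.add {f g : LaurentSeries K} {a : ℤ} (hf : LowerBd f a) (hg : LowerBd g a) :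
    LowerBd (f + g) a := fun k hk => by
  rw [HahnSeries.coeff_add, hf k hk, hg k hk, add_zero]

theorem LowerBd.neg {f : LaurentSeries K} {a : ℤ} (hf : LowerBd f a) :
    LowerBd (-f) a := fun k hk => by
  rw [HahnSeries.coeff_neg, hf k hk, neg_zero]

theorem LowerBd.mul {f g : LaurentSeries K} {a b : ℤ} (hf : LowerBd f a) (hg : LowerBd g b) :
    LowerBd (f * g) (a + b) := by
  rw [lowerBd_iff] at *
  rw [orderTop_mul]
  push_cast
  exact add_le_add hf hg

theorem LowerBd.sum {ι : Type*} (s : Finset ι) (f : ι → LaurentSeries K) (a : ℤ)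
    (h : ∀ i ∈ s, LowerBd (f i) a) : LowerBd (∑ i ∈ s, f i) a := by
  classical
  induction s using Finset.induction_on with
  | empty => simpa using lowerBd_zero a
  | insert i s hi ih =>
    rw [Finset.sum_insert hi]
    exact (h i (Finset.mem_insert_self _ _)).add
      (ih fun j hj => h j (Finset.mem_insert_of_mem hj))

theorem lowerBd_one : LowerBd (1 : LaurentSeries K) 0 := by
  intro k hk
  rw [HahnSeries.coeff_one, if_neg (ne_of_lt hk)]

theorem lowerBd_single (e : ℤ) (c : K) : LowerBd (single e c) e := by
  intro k hk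
  rw [HahnSeries.coeff_single_of_ne (ne_of_lt hk)]

theorem LowerBd.prod {ι : Type*} (s : Finset ι) (f : ι → LaurentSeries K) (a : ι → ℤ)
    (h : ∀ i ∈ s, LowerBd (f i) (a i)) : LowerBd (∏ i ∈ s, f i) (∑ i ∈ s, a i) := by
  classical
  induction s using Finset.induction_on with
  | empty => simpa using lowerBd_one
  | insert i s hi ih =>
    rw [Finset.prod_insert hi, Finset.sum_insert hi]
    exact (h i (Finset.mem_insert_self _ _)).mul
      (ih fun j hj => h j (Finset.mem_insert_of_mem hj))

theorem LowerBd.le_order {f : LaurentSeries K} {a : ℤ} (hf : LowerBd f a) (h0 : f ≠ 0) :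
    a ≤ f.order := (le_order_iff_forall h0).mpr hf

/-- `x = t⁻¹` -/
def Xinf (K : Type*) [Field K] : LaurentSeries K := single (-1) 1

/-- polynomials in `x` as Laurent series in `t = x⁻¹` -/
def polyToLS : K[X] →+* LaurentSeries K := Polynomial.eval₂RingHom HahnSeries.C (Xinf K)

theorem Xinf_pow (n : ℕ) : (Xinf K) ^ n = single (-(n : ℤ)) 1 := by
  rw [Xinf, HahnSeries.single_pow, one_pow]
  congr 1
  simp

theorem polyToLS_monomial (n : ℕ) (a : K) :
    polyToLS (Polynomial.monomial n a) = single (-(n : ℤ)) a := by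
  rw [polyToLS, Polynomial.coe_eval₂RingHom, Polynomial.eval₂_monomial, Xinf_pow,
    HahnSeries.C_mul_eq_smul]
  ext k
  rw [HahnSeries.coeff_smul]
  by_cases h : k = -(n : ℤ)
  · subst h; simp
  · rw [HahnSeries.coeff_single_of_ne h, HahnSeries.coeff_single_of_ne h, smul_zero]

/-- the coefficients of a polynomial in `x` -/
theorem polyToLS_coeff (p : K[X]) (k : ℕ) : (polyToLS p).coeff (-(k : ℤ)) = p.coeff k := by
  induction p using Polynomial.induction_on' with
  | add p q hp hq => rw [map_add, HahnSeries.coeff_add, hp, hq, Polynomial.coeff_add]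
  | monomial n a =>
    rw [polyToLS_monomial, Polynomial.coeff_monomial]
    by_cases h : n = k
    · subst h; simp
    · rw [if_neg h, HahnSeries.coeff_single_of_ne]
      intro h'
      apply h
      omega

theorem polyToLS_coeff_pos (p : K[X]) {k : ℤ} (hk : 0 < k) : (polyToLS p).coeff k = 0 := by
  induction p using Polynomial.induction_on' with
  | add p q hp hq => rw [map_add, HahnSeries.coeff_add, hp, hq, add_zero]
  | monomial n a =>
    rw [polyToLS_monomial, HahnSeries.coeff_single_of_ne]
    omega

theorem polyToLS_C (a : K) : polyToLS (Polynomial.C a) = HahnSeries.C a := by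
  rw [polyToLS, Polynomial.coe_eval₂RingHom, Polynomial.eval₂_C]

section Reduction

variable {ι : Type*} [Fintype ι] [DecidableEq ι]

/-- `d` is the degree in `x` of the row `r`: all entries have order `≥ -d` in `t` and some
coefficient at `t^(-d)` does not vanish -/
def IsDeg (r : ι → LaurentSeries K) (d : ℤ) : Prop :=
  (∀ j, LowerBd (r j) (-d)) ∧ ∃ j, (r j).coeff (-d) ≠ 0

omit [DecidableEq ι] in
theorem exists_isDeg {r : ι → LaurentSeries K} (hr : r ≠ 0) : ∃ d, IsDeg r d := by
  classical
  have hne : (Finset.univ.filter fun j => r j ≠ 0).Nonempty := by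
    by_contra h
    rw [Finset.not_nonempty_iff_eq_empty] at h
    apply hr
    funext j
    by_contra hj
    have hj' : r j ≠ 0 := hj
    have : j ∈ (Finset.univ.filter fun j => r j ≠ 0) := by simp [hj']
    rw [h] at this
    simp at this
  obtain ⟨j₁, hj₁, hmin⟩ := Finset.exists_min_image _ (fun j => (r j).order) hne
  rw [Finset.mem_filter] at hj₁
  refine ⟨-(r j₁).order, ?_, j₁, ?_⟩
  · intro j
    rw [neg_neg]
    by_cases hj : r j = 0
    · rw [hj]; exact lowerBd_zero _
    · intro k hk
      exact coeff_eq_zero_of_lt_order (lt_of_lt_of_le hk (hmin j (by simp [hj])))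
  · rw [neg_neg]
    exact fun h => hj₁.2 (coeff_order_eq_zero.mp h)

/-- lower bound for the sum of the row degrees -/
theorem sum_deg_add_order_nonneg (M : Matrix ι ι (LaurentSeries K)) (d : ι → ℤ)
    (hd : ∀ i j, LowerBd (M i j) (-(d i))) (hM : M.det ≠ 0) :
    0 ≤ (∑ i, d i) + M.det.order := by
  have h : LowerBd M.det (-(∑ i, d i)) := by
    rw [Matrix.det_apply]
    apply LowerBd.sum
    intro σ _
    have h1 : LowerBd (∏ i, M (σ i) i) (∑ i, -(d (σ i))) :=
      LowerBd.prod _ _ _ (fun i _ => hd (σ i) i)
    have h2 : ∑ i, -(d (σ i)) = -(∑ i, d i) := by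
      rw [Finset.sum_neg_distrib, Equiv.sum_comp σ d]
    rw [h2] at h1
    rcases Int.units_eq_one_or (Equiv.Perm.sign σ) with hs | hs
    · rw [hs, one_smul]; exact h1
    · rw [hs, Units.neg_smul, one_smul]; exact h1.neg
  have := h.le_order hM
  linarith

theorem reduction_step (M : Matrix ι ι (LaurentSeries K)) (d : ι → ℤ) (hM : M.det ≠ 0)
    (hd : ∀ i, IsDeg (M i) (d i))
    (hsing : (Matrix.of fun i j => (M i j).coeff (-(d i))).det = 0) :
    ∃ (E : Matrix ι ι K[X]) (d' : ι → ℤ), IsUnit E.det ∧ (E.map polyToLS * M).det ≠ 0 ∧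
      (E.map polyToLS * M).det.order = M.det.order ∧
      (∀ i, IsDeg ((E.map polyToLS * M) i) (d' i)) ∧ ∑ i, d' i < ∑ i, d i := by
  classical
  obtain ⟨a, ha0, ha⟩ := Matrix.exists_vecMul_eq_zero_iff.mpr hsing
  have hne : (Finset.univ.filter fun i => a i ≠ 0).Nonempty := by
    by_contra h
    rw [Finset.not_nonempty_iff_eq_empty] at h
    apply ha0
    funext j
    by_contra hj
    have hj' : a j ≠ 0 := hj
    have : j ∈ (Finset.univ.filter fun i => a i ≠ 0) := by simp [hj']
    rw [h] at this
    simp at this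
  obtain ⟨i₀, hi₀, hmax⟩ := Finset.exists_max_image _ d hne
  have hai₀ : a i₀ ≠ 0 := (Finset.mem_filter.mp hi₀).2
  let u : ι → K[X] := fun j => Polynomial.monomial (d i₀ - d j).toNat (a j)
  let E : Matrix ι ι K[X] := (1 : Matrix ι ι K[X]).updateRow i₀ u
  have hEdet : E.det = Polynomial.C (a i₀) := by
    have hu : u = ∑ k, u k • (1 : Matrix ι ι K[X]) k := by
      funext j
      simp [Finset.sum_apply, Matrix.one_apply]
    show ((1 : Matrix ι ι K[X]).updateRow i₀ u).det = _
    rw [hu, Matrix.det_updateRow_sum, Matrix.det_one, smul_eq_mul, mul_one]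
    simp [u]
  -- the new row
  let r : ι → LaurentSeries K := fun l => ∑ k, polyToLS (u k) * M k l
  have hEM : E.map polyToLS * M = M.updateRow i₀ r := by
    have h1 : E.map polyToLS =
        (1 : Matrix ι ι (LaurentSeries K)).updateRow i₀ (fun k => polyToLS (u k)) := by
      ext i j
      simp only [E, Matrix.map_apply, Matrix.updateRow_apply]
      split_ifs with h
      · rfl
      · by_cases hij : i = j
        · subst hij; simp
        · simp [Matrix.one_apply_ne hij]
    rw [h1, Matrix.updateRow_mul, Matrix.one_mul]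
    congr 1
  have hdet : (E.map polyToLS * M).det = HahnSeries.C (a i₀) * M.det := by
    have h1 : (E.map polyToLS).det = polyToLS E.det := (RingHom.map_det polyToLS E).symm
    rw [Matrix.det_mul, h1, hEdet, polyToLS_C]
  have hC : (HahnSeries.C (a i₀) : LaurentSeries K) ≠ 0 := by
    intro h
    have := congrArg (fun f => HahnSeries.coeff f 0) h
    simp at this
    exact hai₀ this
  have hdet0 : (E.map polyToLS * M).det ≠ 0 := by
    rw [hdet]; exact mul_ne_zero hC hM
  have hr0 : r ≠ 0 := by
    intro h
    apply hdet0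
    rw [hEM]
    exact Matrix.det_eq_zero_of_row_eq_zero i₀ (fun j => by simp [h])
  obtain ⟨d₀, hd₀⟩ := exists_isDeg hr0
  -- the new row has smaller degree
  have hlow : ∀ l, LowerBd (r l) (-(d i₀) + 1) := by
    intro l k hk
    have hterm : ∀ j, (polyToLS (u j) * M j l).coeff k =
        if k = -(d i₀) then a j * (M j l).coeff (-(d j)) else 0 := by
      intro j
      simp only [u, polyToLS_monomial]
      rw [HahnSeries.coeff_single_mul]
      by_cases haj : a j = 0
      · simp [haj]
      · have hdj : d j ≤ d i₀ := hmax j (by simp; exact haj)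
        have he : ((d i₀ - d j).toNat : ℤ) = d i₀ - d j := Int.toNat_of_nonneg (by omega)
        rw [he]
        split_ifs with hk'
        · subst hk'
          congr 2
          ring
        · have : (M j l).coeff (k - -(d i₀ - d j)) = 0 := (hd j).1 l _ (by omega)
          rw [this, mul_zero]
    show (∑ j, polyToLS (u j) * M j l).coeff k = 0
    rw [HahnSeries.coeff_sum]
    simp only [hterm]
    split_ifs with hk'
    · have := congrFun ha l
      simpa [Matrix.vecMul, dotProduct] using this
    · simp
  have hd₀lt : d₀ < d i₀ := by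
    obtain ⟨l, hl⟩ := hd₀.2
    by_contra hcon
    exact hl (hlow l _ (by omega))
  refine ⟨E, Function.update d i₀ d₀, ?_, hdet0, ?_, ?_, ?_⟩
  · rw [hEdet]
    exact (Polynomial.isUnit_C).mpr (isUnit_iff_ne_zero.mpr hai₀)
  · rw [hdet, HahnSeries.order_mul hC hM]
    have : (HahnSeries.C (a i₀) : LaurentSeries K).order = 0 := HahnSeries.order_single hai₀
    rw [this, zero_add]
  · intro i
    rw [hEM]
    by_cases hi : i = i₀
    · subst hi
      simpa using hd₀
    · have : M.updateRow i₀ r i = M i := by
        funext j; simp [Matrix.updateRow_apply, hi]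
      rw [this, Function.update_of_ne hi]
      exact hd i
  · apply Finset.sum_lt_sum
    · intro i _
      by_cases hi : i = i₀
      · subst hi; simp; exact hd₀lt.le
      · rw [Function.update_of_ne hi]
    · exact ⟨i₀, Finset.mem_univ _, by simpa using hd₀lt⟩

/-- **Birkhoff reduction**: a unimodular polynomial row transformation makes the leading
matrix invertible. -/
theorem exists_reduced (M : Matrix ι ι (LaurentSeries K)) (hM : M.det ≠ 0) :
    ∃ (E : Matrix ι ι K[X]) (d : ι → ℤ), IsUnit E.det ∧
      (∀ i j, LowerBd ((E.map polyToLS * M) i j) (-(d i))) ∧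
      (Matrix.of fun i j => ((E.map polyToLS * M) i j).coeff (-(d i))).det ≠ 0 := by
  have hrow : ∀ i, M i ≠ 0 := fun i h =>
    hM (Matrix.det_eq_zero_of_row_eq_zero i (fun j => congrFun h j))
  choose d₀ hd₀ using fun i => exists_isDeg (hrow i)
  suffices H : ∀ (n : ℕ) (M : Matrix ι ι (LaurentSeries K)) (d : ι → ℤ), M.det ≠ 0 →
      (∀ i, IsDeg (M i) (d i)) → (∑ i, d i) + M.det.order ≤ n →
      ∃ (E : Matrix ι ι K[X]) (d' : ι → ℤ), IsUnit E.det ∧
        (∀ i j, LowerBd ((E.map polyToLS * M) i j) (-(d' i))) ∧
        (Matrix.of fun i j => ((E.map polyToLS * M) i j).coeff (-(d' i))).det ≠ 0 from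
    H ((∑ i, d₀ i) + M.det.order).toNat M d₀ hM hd₀ (Int.self_le_toNat _)
  intro n
  induction n with
  | zero =>
    intro M d hM hd hn
    by_cases hs : (Matrix.of fun i j => (M i j).coeff (-(d i))).det = 0
    · obtain ⟨E, d', hE, hdet, hord, hd', hlt⟩ := reduction_step M d hM hd hs
      have := sum_deg_add_order_nonneg (E.map polyToLS * M) d' (fun i j => (hd' i).1 j) hdet
      rw [hord] at this
      simp only [Nat.cast_zero] at hn
      omega
    · refine ⟨1, d, by simp, ?_, ?_⟩
      · simpa using fun i j => (hd i).1 j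
      · simpa using hs
  | succ n ih =>
    intro M d hM hd hn
    by_cases hs : (Matrix.of fun i j => (M i j).coeff (-(d i))).det = 0
    · obtain ⟨E₁, d', hE₁, hdet, hord, hd', hlt⟩ := reduction_step M d hM hd hs
      obtain ⟨E₂, d'', hE₂, h1, h2⟩ := ih (E₁.map polyToLS * M) d' hdet hd' (by
        rw [hord]; push_cast at hn; omega)
      have hmul : (E₂ * E₁).map polyToLS * M = E₂.map polyToLS * (E₁.map polyToLS * M) := by
        rw [Matrix.map_mul, Matrix.mul_assoc]
      refine ⟨E₂ * E₁, d'', ?_, ?_, ?_⟩
      · rw [Matrix.det_mul]; exact hE₂.mul hE₁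
      · rw [hmul]; exact h1
      · rw [hmul]; exact h2
    · refine ⟨1, d, by simp, ?_, ?_⟩
      · simpa using fun i j => (hd i).1 j
      · simpa using hs

/-- a Laurent series without negative part is a power series -/
theorem exists_ofPowerSeries {f : LaurentSeries K} (hf : LowerBd f 0) :
    HahnSeries.ofPowerSeries ℤ K (PowerSeries.mk fun k => f.coeff k) = f := by
  ext k
  by_cases hk : 0 ≤ k
  · obtain ⟨n, rfl⟩ := Int.eq_ofNat_of_zero_le hk
    rw [HahnSeries.ofPowerSeries_apply_coeff, PowerSeries.coeff_mk]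
  · rw [hf k (by omega), HahnSeries.ofPowerSeries_apply]
    refine HahnSeries.embDomain_of_notMem_range ?_
    rintro ⟨m, rfl⟩
    exact hk (Int.natCast_nonneg m)

theorem lowerBd_ofPowerSeries (p : PowerSeries K) :
    LowerBd (HahnSeries.ofPowerSeries ℤ K p) 0 := by
  intro k hk
  rw [HahnSeries.ofPowerSeries_apply]
  refine HahnSeries.embDomain_of_notMem_range ?_
  rintro ⟨m, rfl⟩
  exact absurd hk (not_lt.mpr (Int.natCast_nonneg m))

/-- a reduced matrix is `diag(x^d)` times an invertible matrix of power series in `t` -/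
theorem exists_powerSeries_matrix (M : Matrix ι ι (LaurentSeries K)) (d : ι → ℤ)
    (h1 : ∀ i j, LowerBd (M i j) (-(d i)))
    (h2 : (Matrix.of fun i j => (M i j).coeff (-(d i))).det ≠ 0) :
    ∃ B C : Matrix ι ι (PowerSeries K), B * C = 1 ∧ C * B = 1 ∧
      ∀ i j, M i j = single (-(d i)) 1 * HahnSeries.ofPowerSeries ℤ K (B i j) := by
  let B : Matrix ι ι (PowerSeries K) := fun i j =>
    PowerSeries.mk fun k => (single (d i) (1 : K) * M i j).coeff k
  have hlow : ∀ i j, LowerBd (single (d i) (1 : K) * M i j) 0 := by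
    intro i j
    have := (lowerBd_single (d i) (1 : K)).mul (h1 i j)
    simpa using this
  have hB : ∀ i j, M i j = single (-(d i)) 1 * HahnSeries.ofPowerSeries ℤ K (B i j) := by
    intro i j
    show M i j = single (-(d i)) 1 * HahnSeries.ofPowerSeries ℤ K
      (PowerSeries.mk fun k => (single (d i) (1 : K) * M i j).coeff k)
    rw [exists_ofPowerSeries (hlow i j), ← mul_assoc, HahnSeries.single_mul_single]
    simp
  have hconst : B.map (PowerSeries.constantCoeff (R := K)) =
      Matrix.of fun i j => (M i j).coeff (-(d i)) := by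
    ext i j
    show PowerSeries.constantCoeff (R := K)
      (PowerSeries.mk fun k => (single (d i) (1 : K) * M i j).coeff k) = (M i j).coeff (-(d i))
    rw [← PowerSeries.coeff_zero_eq_constantCoeff_apply, PowerSeries.coeff_mk,
      HahnSeries.coeff_single_mul]
    simp
  have hdet : IsUnit B.det := by
    rw [PowerSeries.isUnit_iff_constantCoeff]
    have : PowerSeries.constantCoeff (R := K) B.det =
        (B.map (PowerSeries.constantCoeff (R := K))).det :=
      RingHom.map_det (PowerSeries.constantCoeff (R := K)) B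
    rw [this, hconst]
    exact isUnit_iff_ne_zero.mpr h2
  exact ⟨B, B⁻¹, Matrix.mul_nonsing_inv B hdet, Matrix.nonsing_inv_mul B hdet, hB⟩

end Reduction

end Fermat.Agent.RR
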