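import Fermat.Agent.Lib.RR_Defs

set_option autoImplicit false

/-!
# T20 [RR-L]: the lattice pair in reduced form (helper8)

If `Λ = ⊕ K[x] u_i` and `Λ∞ = ⊕ R∞ x^(-d_i) u_i` for a `K(x)`-basis `u` of `F` and integers
`d_i`, then `Λ ∩ x^m Λ∞` and `Λ* ∩ x^(m-2) Λ∞*` (trace duals) are boxes of polynomial
coordinates, of dimensions `∑ (m - d_i + 1)⁺` and `∑ (m - 1 + d_i)⁺`
(`primal_spec`, `dual_spec`), and the conclusion of `lattice_pair` follows
(`lattice_pair_of_reduced`).
-/

noncomputable section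

namespace Fermat.Agent.RR

open Polynomial IntermediateField

variable {K : Type*} {F : Type*} [Field K] [Field F] [Algebra K F]

/-! ### the rings `K[x]` and `R∞` inside `F` -/

theorem rd_aeval_mem_adjoin (x : F) (p : K[X]) : Polynomial.aeval x p ∈ K⟮x⟯ := by
  rw [Polynomial.aeval_eq_sum_range]
  refine sum_mem fun i _ => ?_
  rw [Algebra.smul_def]
  exact mul_mem (IntermediateField.algebraMap_mem _ _) (pow_mem (mem_adjoin_simple_self K x) i)

theorem rd_polyRing_subset (x : F) : polyRing K x ⊆ (K⟮x⟯ : Set F) := by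
  rintro _ ⟨p, rfl⟩
  exact rd_aeval_mem_adjoin x p

theorem rd_inftyRing_subset (x : F) : inftyRing K x ⊆ (K⟮x⟯ : Set F) := by
  rintro _ ⟨p, q, _, _, rfl⟩
  exact div_mem (rd_aeval_mem_adjoin x p) (rd_aeval_mem_adjoin x q)

theorem rd_polyRing_zero (x : F) : (0 : F) ∈ polyRing K x := ⟨0, by simp⟩

theorem rd_polyRing_one (x : F) : (1 : F) ∈ polyRing K x := ⟨1, by simp⟩

theorem rd_polyRing_add {x a b : F} (ha : a ∈ polyRing K x) (hb : b ∈ polyRing K x) :
    a + b ∈ polyRing K x := by
  obtain ⟨p, rfl⟩ := ha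
  obtain ⟨q, rfl⟩ := hb
  exact ⟨p + q, by simp⟩

theorem rd_polyRing_mul {x a b : F} (ha : a ∈ polyRing K x) (hb : b ∈ polyRing K x) :
    a * b ∈ polyRing K x := by
  obtain ⟨p, rfl⟩ := ha
  obtain ⟨q, rfl⟩ := hb
  exact ⟨p * q, by simp⟩

theorem rd_polyRing_sum {x : F} {ι : Type*} (s : Finset ι) (a : ι → F)
    (h : ∀ i ∈ s, a i ∈ polyRing K x) : ∑ i ∈ s, a i ∈ polyRing K x := by
  classical
  induction s using Finset.induction_on with
  | empty => simpa using rd_polyRing_zero (K := K) x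
  | insert i s hi ih =>
    rw [Finset.sum_insert hi]
    exact rd_polyRing_add (h i (Finset.mem_insert_self _ _))
      (ih fun j hj => h j (Finset.mem_insert_of_mem hj))

theorem rd_inftyRing_zero (x : F) : (0 : F) ∈ inftyRing K x :=
  ⟨0, 1, one_ne_zero, by simp, by simp⟩

theorem rd_inftyRing_one (x : F) : (1 : F) ∈ inftyRing K x :=
  ⟨1, 1, one_ne_zero, le_rfl, by simp⟩

theorem rd_inftyRing_add {x : F} (hx : Transcendental K x) {a b : F} (ha : a ∈ inftyRing K x)
    (hb : b ∈ inftyRing K x) : a + b ∈ inftyRing K x := by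
  obtain ⟨p, q, hq, hpq, rfl⟩ := ha
  obtain ⟨p', q', hq', hpq', rfl⟩ := hb
  have hinj : Function.Injective (Polynomial.aeval (R := K) x) :=
    transcendental_iff_injective.mp hx
  have hq0 : Polynomial.aeval x q ≠ 0 := by
    intro h; exact hq (hinj (by rw [h, map_zero]))
  have hq0' : Polynomial.aeval x q' ≠ 0 := by
    intro h; exact hq' (hinj (by rw [h, map_zero]))
  refine ⟨p * q' + p' * q, q * q', mul_ne_zero hq hq', ?_, ?_⟩
  · rw [Polynomial.natDegree_mul hq hq']
    refine (Polynomial.natDegree_add_le _ _).trans (max_le ?_ ?_)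
    · exact (Polynomial.natDegree_mul_le).trans (by omega)
    · exact (Polynomial.natDegree_mul_le).trans (by omega)
  · simp only [map_add, map_mul]
    field_simp

theorem rd_inftyRing_mul {x : F} {a b : F} (ha : a ∈ inftyRing K x)
    (hb : b ∈ inftyRing K x) : a * b ∈ inftyRing K x := by
  obtain ⟨p, q, hq, hpq, rfl⟩ := ha
  obtain ⟨p', q', hq', hpq', rfl⟩ := hb
  refine ⟨p * p', q * q', mul_ne_zero hq hq', ?_, ?_⟩
  · rw [Polynomial.natDegree_mul hq hq']
    exact (Polynomial.natDegree_mul_le).trans (by omega)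
  · simp only [map_mul]
    rw [div_mul_div_comm]

theorem rd_inftyRing_sum {x : F} (hx : Transcendental K x) {ι : Type*} (s : Finset ι) (a : ι → F)
    (h : ∀ i ∈ s, a i ∈ inftyRing K x) : ∑ i ∈ s, a i ∈ inftyRing K x := by
  classical
  induction s using Finset.induction_on with
  | empty => simpa using rd_inftyRing_zero (K := K) x
  | insert i s hi ih =>
    rw [Finset.sum_insert hi]
    exact rd_inftyRing_add hx (h i (Finset.mem_insert_self _ _))
      (ih fun j hj => h j (Finset.mem_insert_of_mem hj))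

/-- polynomials of degree `≤ b` (zero if `b < 0`): the degree criterion -/
theorem mem_poly_infty_iff {x : F} (hx : Transcendental K x) (a : F) (b : ℤ) :
    (a ∈ polyRing K x ∧ x ^ (-b) * a ∈ inftyRing K x) ↔
      ∃ c : K[X], c ∈ Polynomial.degreeLT K (b + 1).toNat ∧ a = Polynomial.aeval x c := by
  have hinj : Function.Injective (Polynomial.aeval (R := K) x) :=
    transcendental_iff_injective.mp hx
  have hx0 : x ≠ 0 := by
    rintro rfl
    exact hx ⟨Polynomial.X, Polynomial.X_ne_zero, by simp⟩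
  constructor
  · rintro ⟨⟨c, rfl⟩, p, q, hq, hpq, h⟩
    refine ⟨c, ?_, rfl⟩
    rw [Polynomial.mem_degreeLT]
    rcases eq_or_ne c 0 with rfl | hc
    · rw [Polynomial.degree_zero]
      exact WithBot.bot_lt_coe _
    have hq0 : Polynomial.aeval x q ≠ 0 := by
      intro h; exact hq (hinj (by rw [h, map_zero]))
    rw [eq_div_iff hq0] at h
    rw [Polynomial.degree_eq_natDegree hc]
    rcases le_or_gt 0 b with hb | hb
    · obtain ⟨n, rfl⟩ := Int.eq_ofNat_of_zero_le hb
      -- `c q = X ^ n p`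
      have h2 : Polynomial.aeval x (c * q) = Polynomial.aeval x (Polynomial.X ^ n * p) := by
        simp only [map_mul, map_pow, Polynomial.aeval_X]
        rw [zpow_neg, zpow_natCast] at h
        field_simp at h
        linear_combination h
      have h3 := hinj h2
      have hp : p ≠ 0 := by
        rintro rfl
        rw [mul_zero] at h3
        exact mul_ne_zero hc hq h3
      have h4 := congrArg Polynomial.natDegree h3
      rw [Polynomial.natDegree_mul hc hq, Polynomial.natDegree_mul (pow_ne_zero n Polynomial.X_ne_zero) hp,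
        Polynomial.natDegree_X_pow] at h4
      have : (n + 1 : ℤ).toNat = n + 1 := by omega
      rw [this]
      exact_mod_cast (by omega : c.natDegree < n + 1)
    · exfalso
      obtain ⟨n, hn⟩ := Int.eq_ofNat_of_zero_le (by omega : 0 ≤ -b)
      rw [hn, zpow_natCast] at h
      have h2 : Polynomial.aeval x (Polynomial.X ^ n * c * q) = Polynomial.aeval x p := by
        simp only [map_mul, map_pow, Polynomial.aeval_X]
        exact h
      have h3 := hinj h2
      have h4 := congrArg Polynomial.natDegree h3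
      rw [Polynomial.natDegree_mul (mul_ne_zero (pow_ne_zero n Polynomial.X_ne_zero) hc) hq,
        Polynomial.natDegree_mul (pow_ne_zero n Polynomial.X_ne_zero) hc,
        Polynomial.natDegree_X_pow] at h4
      omega
  · rintro ⟨c, hc, rfl⟩
    refine ⟨⟨c, rfl⟩, ?_⟩
    rw [Polynomial.mem_degreeLT] at hc
    rcases eq_or_ne c 0 with rfl | hc0
    · simpa using rd_inftyRing_zero (K := K) x
    rw [Polynomial.degree_eq_natDegree hc0] at hc
    have hc' : c.natDegree < (b + 1).toNat := by exact_mod_cast hc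
    have hb : 0 ≤ b := by omega
    obtain ⟨n, rfl⟩ := Int.eq_ofNat_of_zero_le hb
    refine ⟨c, Polynomial.X ^ n, pow_ne_zero n Polynomial.X_ne_zero, ?_, ?_⟩
    · rw [Polynomial.natDegree_X_pow]
      omega
    · simp only [map_pow, Polynomial.aeval_X]
      rw [zpow_neg, zpow_natCast]
      field_simp

/-! ### coordinates with respect to a `K(x)`-basis -/

section Coord

variable {ι : Type} [Fintype ι] {x : F} (b : Module.Basis ι K⟮x⟯ F)

theorem rd_sum_repr_mul (f : F) : ∑ i, ((b.repr f i : K⟮x⟯) : F) * b i = f := by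
  conv_rhs => rw [← b.sum_repr f]
  refine Finset.sum_congr rfl fun i _ => ?_
  rw [IntermediateField.smul_def, smul_eq_mul]

theorem rd_repr_sum_mul (a : ι → F) (ha : ∀ i, a i ∈ K⟮x⟯) (i : ι) :
    ((b.repr (∑ j, a j * b j) i : K⟮x⟯) : F) = a i := by
  have h : ∑ j, a j * b j = ∑ j, (⟨a j, ha j⟩ : K⟮x⟯) • b j := by
    refine Finset.sum_congr rfl fun j _ => ?_
    rw [IntermediateField.smul_def, smul_eq_mul]
  rw [h]
  have h2 := congrFun (b.repr_sum_self (fun j => (⟨a j, ha j⟩ : K⟮x⟯))) i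
  rw [h2]

omit [Fintype ι] in
theorem rd_repr_mul (a : F) (ha : a ∈ K⟮x⟯) (f : F) (i : ι) :
    ((b.repr (a * f) i : K⟮x⟯) : F) = a * ((b.repr f i : K⟮x⟯) : F) := by
  have h : a * f = (⟨a, ha⟩ : K⟮x⟯) • f := by
    rw [IntermediateField.smul_def, smul_eq_mul]
  rw [h, map_smul]
  simp

theorem rd_mem_latFin_iff (f : F) :
    f ∈ latFin K x (fun i => b i) ↔ ∀ i, ((b.repr f i : K⟮x⟯) : F) ∈ polyRing K x := by
  constructor
  · rintro ⟨c, hc, rfl⟩ i
    rw [rd_repr_sum_mul b c (fun j => rd_polyRing_subset x (hc j))]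
    exact hc i
  · intro h
    exact ⟨fun i => ((b.repr f i : K⟮x⟯) : F), h, (rd_sum_repr_mul b f).symm⟩

theorem rd_mem_latInf_iff (hx0 : x ≠ 0) (d : ι → ℤ) (f : F) :
    f ∈ latInf K x (fun i => x ^ (-d i) * b i) ↔
      ∀ i, x ^ (d i) * ((b.repr f i : K⟮x⟯) : F) ∈ inftyRing K x := by
  have hxm : ∀ n : ℤ, x ^ n ∈ K⟮x⟯ := fun n => zpow_mem (mem_adjoin_simple_self K x) n
  constructor
  · rintro ⟨c, hc, rfl⟩ i
    have h1 : ∑ j, c j * (x ^ (-d j) * b j) = ∑ j, (c j * x ^ (-d j)) * b j :=
      Finset.sum_congr rfl fun j _ => by ring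
    rw [h1, rd_repr_sum_mul b _ (fun j => mul_mem (rd_inftyRing_subset x (hc j)) (hxm _))]
    have h2 : x ^ d i * (c i * x ^ (-d i)) = c i := by
      rw [zpow_neg]
      field_simp
    rw [h2]
    exact hc i
  · intro h
    refine ⟨fun i => x ^ (d i) * ((b.repr f i : K⟮x⟯) : F), h, ?_⟩
    conv_lhs => rw [← rd_sum_repr_mul b f]
    refine Finset.sum_congr rfl fun i _ => ?_
    show ((b.repr f i : K⟮x⟯) : F) * b i =
      (x ^ (d i) * ((b.repr f i : K⟮x⟯) : F)) * (x ^ (-d i) * b i)
    rw [zpow_neg]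
    field_simp

/-- the parametrisation of a box of polynomial coordinates -/
def boxMap (β : ι → ℕ) : (∀ i, Polynomial.degreeLT K (β i)) →ₗ[K] F where
  toFun c := ∑ i, Polynomial.aeval x (c i : K[X]) * b i
  map_add' c c' := by
    simp only [Pi.add_apply, Submodule.coe_add, map_add, add_mul, Finset.sum_add_distrib]
  map_smul' r c := by
    simp only [Pi.smul_apply, Submodule.coe_smul, map_smul, RingHom.id_apply, Finset.smul_sum,
      smul_mul_assoc]

theorem boxMap_apply (β : ι → ℕ) (c : ∀ i, Polynomial.degreeLT K (β i)) :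
    boxMap b β c = ∑ i, Polynomial.aeval x (c i : K[X]) * b i := rfl

theorem boxMap_injective (hx : Transcendental K x) (β : ι → ℕ) :
    Function.Injective (boxMap b β) := by
  have hinj : Function.Injective (Polynomial.aeval (R := K) x) :=
    transcendental_iff_injective.mp hx
  rw [← LinearMap.ker_eq_bot, LinearMap.ker_eq_bot']
  intro c hc
  funext i
  have h1 := rd_repr_sum_mul b (fun i => Polynomial.aeval x (c i : K[X]))
    (fun i => rd_aeval_mem_adjoin x _) i
  rw [boxMap_apply] at hc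
  rw [hc] at h1
  simp only [map_zero, Finsupp.coe_zero, Pi.zero_apply, ZeroMemClass.coe_zero] at h1
  apply Subtype.ext
  apply hinj
  rw [← h1]
  simp

theorem mem_range_boxMap_iff (β : ι → ℕ) (f : F) :
    f ∈ LinearMap.range (boxMap b β) ↔
      ∀ i, ∃ c : K[X], c ∈ Polynomial.degreeLT K (β i) ∧
        ((b.repr f i : K⟮x⟯) : F) = Polynomial.aeval x c := by
  constructor
  · rintro ⟨c, rfl⟩ i
    refine ⟨c i, (c i).2, ?_⟩
    rw [boxMap_apply]
    exact rd_repr_sum_mul b (fun i => Polynomial.aeval x (c i : K[X]))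
      (fun i => rd_aeval_mem_adjoin x _) i
  · intro h
    choose c hc hc' using h
    refine ⟨fun i => ⟨c i, hc i⟩, ?_⟩
    rw [boxMap_apply]
    conv_rhs => rw [← rd_sum_repr_mul b f]
    refine Finset.sum_congr rfl fun i _ => ?_
    rw [hc' i]

theorem rd_finrank_degreeLT (n : ℕ) : Module.finrank K (Polynomial.degreeLT K n) = n := by
  rw [(Polynomial.degreeLTEquiv K n).finrank_eq, Module.finrank_fin_fun]

/-- **box lemma**: the functions whose `i`-th coordinate is a polynomial of degree `≤ β i`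
(zero if `β i < 0`) form a `K`-subspace of dimension `∑ (β i + 1)⁺` -/
theorem box_spec (hx : Transcendental K x) (β : ι → ℤ) :
    ∃ V : Submodule K F,
      (∀ f, f ∈ V ↔ ∀ i, ((b.repr f i : K⟮x⟯) : F) ∈ polyRing K x ∧
        x ^ (-(β i)) * ((b.repr f i : K⟮x⟯) : F) ∈ inftyRing K x) ∧
      FiniteDimensional K V ∧ Module.finrank K V = ∑ i, (β i + 1).toNat := by
  refine ⟨LinearMap.range (boxMap b fun i => (β i + 1).toNat), ?_, ?_, ?_⟩
  · intro f
    rw [mem_range_boxMap_iff]
    refine forall_congr' fun i => ?_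
    exact (mem_poly_infty_iff hx _ (β i)).symm
  · exact LinearMap.finiteDimensional_range _
  · rw [LinearMap.finrank_range_of_inj (boxMap_injective b hx _), Module.finrank_pi_fintype]
    simp only [rd_finrank_degreeLT]

end Coord

/-! ### the trace dual in coordinates -/

section Dual

variable {ι : Type} [Fintype ι] {x : F} (b : Module.Basis ι K⟮x⟯ F)

omit [Fintype ι] in
theorem rd_trace_mul_of_mem (a : F) (ha : a ∈ K⟮x⟯) (z : F) :
    algebraMap K⟮x⟯ F (Algebra.trace K⟮x⟯ F (a * z)) =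
      a * algebraMap K⟮x⟯ F (Algebra.trace K⟮x⟯ F z) := by
  have h : a * z = (⟨a, ha⟩ : K⟮x⟯) • z := by
    rw [IntermediateField.smul_def, smul_eq_mul]
  rw [h, map_smul, smul_eq_mul, map_mul]
  rfl

theorem rd_self_mem_latFin (i : ι) : b i ∈ latFin K x (fun i => b i) := by
  classical
  refine ⟨fun j => if j = i then 1 else 0, fun j => ?_, ?_⟩
  · by_cases h : j = i
    · simp only [h, if_true]; exact rd_polyRing_one x
    · simp only [h, if_false]; exact rd_polyRing_zero x
  · simp

theorem rd_self_mem_latInf (d : ι → ℤ) (i : ι) :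
    x ^ (-d i) * b i ∈ latInf K x (fun i => x ^ (-d i) * b i) := by
  classical
  refine ⟨fun j => if j = i then 1 else 0, fun j => ?_, ?_⟩
  · by_cases h : j = i
    · simp only [h, if_true]; exact rd_inftyRing_one x
    · simp only [h, if_false]; exact rd_inftyRing_zero x
  · simp

theorem rd_mem_dualFin_iff (y : F) :
    y ∈ dualFin K x (latFin K x (fun i => b i)) ↔
      ∀ i, algebraMap K⟮x⟯ F (Algebra.trace K⟮x⟯ F (y * b i)) ∈ polyRing K x := by
  constructor
  · intro h i
    exact h _ (rd_self_mem_latFin b i)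
  · rintro h _ ⟨c, hc, rfl⟩
    have h1 : y * ∑ i, c i * b i = ∑ i, c i * (y * b i) := by
      rw [Finset.mul_sum]
      exact Finset.sum_congr rfl fun i _ => by ring
    rw [h1, map_sum, map_sum]
    refine rd_polyRing_sum _ _ fun i _ => ?_
    rw [rd_trace_mul_of_mem _ (rd_polyRing_subset x (hc i))]
    exact rd_polyRing_mul (hc i) (h i)

theorem rd_mem_dualInf_iff (hx : Transcendental K x) (d : ι → ℤ) (y : F) :
    y ∈ dualInf K x (latInf K x (fun i => x ^ (-d i) * b i)) ↔
      ∀ i, x ^ (-d i) * algebraMap K⟮x⟯ F (Algebra.trace K⟮x⟯ F (y * b i)) ∈ inftyRing K x := by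
  have hxm : ∀ n : ℤ, x ^ n ∈ K⟮x⟯ := fun n => zpow_mem (mem_adjoin_simple_self K x) n
  constructor
  · intro h i
    have h1 := h _ (rd_self_mem_latInf b d i)
    have h2 : y * (x ^ (-d i) * b i) = x ^ (-d i) * (y * b i) := by ring
    rw [h2, rd_trace_mul_of_mem _ (hxm _)] at h1
    exact h1
  · rintro h _ ⟨c, hc, rfl⟩
    have h1 : y * ∑ i, c i * (x ^ (-d i) * b i) = ∑ i, (c i * x ^ (-d i)) * (y * b i) := by
      rw [Finset.mul_sum]
      exact Finset.sum_congr rfl fun i _ => by ring
    rw [h1, map_sum, map_sum]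
    refine rd_inftyRing_sum hx _ _ fun i _ => ?_
    rw [rd_trace_mul_of_mem _ (mul_mem (rd_inftyRing_subset x (hc i)) (hxm _)), mul_assoc]
    exact rd_inftyRing_mul (hc i) (h i)

end Dual

/-! ### the three spaces for a reduced pair of bases -/

section Reduced

variable {ι : Type} [Fintype ι] {x : F} (b : Module.Basis ι K⟮x⟯ F)

/-- the space `Λ ∩ x^m Λ∞` -/
theorem primal_spec (hx : Transcendental K x) (d : ι → ℤ) (m : ℤ) :
    ∃ V : Submodule K F,
      (∀ f, f ∈ V ↔ f ∈ latFin K x (fun i => b i) ∧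
        x ^ (-m) * f ∈ latInf K x (fun i => x ^ (-d i) * b i)) ∧
      FiniteDimensional K V ∧ Module.finrank K V = ∑ i, (m - d i + 1).toNat := by
  have hx0 : x ≠ 0 := by
    rintro rfl
    exact hx ⟨Polynomial.X, Polynomial.X_ne_zero, by simp⟩
  have hxm : ∀ n : ℤ, x ^ n ∈ K⟮x⟯ := fun n => zpow_mem (mem_adjoin_simple_self K x) n
  obtain ⟨V, hV, hfd, hdim⟩ := box_spec b hx (fun i => m - d i)
  refine ⟨V, fun f => ?_, hfd, hdim⟩
  rw [hV, rd_mem_latFin_iff, rd_mem_latInf_iff b hx0, ← forall_and]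
  refine forall_congr' fun i => ?_
  rw [rd_repr_mul b _ (hxm _), ← mul_assoc, ← zpow_add₀ hx0]
  have : d i + -m = -(m - d i) := by ring
  rw [this]

/-- the space `Λ* ∩ x^(m-2) Λ∞*` -/
theorem dual_spec [FiniteDimensional K⟮x⟯ F] [Algebra.IsSeparable K⟮x⟯ F]
    (hx : Transcendental K x) (d : ι → ℤ) (m : ℤ) :
    ∃ V : Submodule K F,
      (∀ y, y ∈ V ↔ y ∈ dualFin K x (latFin K x (fun i => b i)) ∧
        x ^ (2 - m) * y ∈ dualInf K x (latInf K x (fun i => x ^ (-d i) * b i))) ∧
      FiniteDimensional K V ∧ Module.finrank K V = ∑ i, (m - 2 + d i + 1).toNat := by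
  classical
  have hx0 : x ≠ 0 := by
    rintro rfl
    exact hx ⟨Polynomial.X, Polynomial.X_ne_zero, by simp⟩
  have hxm : ∀ n : ℤ, x ^ n ∈ K⟮x⟯ := fun n => zpow_mem (mem_adjoin_simple_self K x) n
  let b' : Module.Basis ι K⟮x⟯ F :=
    (Algebra.traceForm K⟮x⟯ F).dualBasis (traceForm_nondegenerate K⟮x⟯ F) b
  have hb' : ∀ (y : F) (i : ι), ((b'.repr y i : K⟮x⟯) : F) =
      algebraMap K⟮x⟯ F (Algebra.trace K⟮x⟯ F (y * b i)) := by
    intro y i
    rw [LinearMap.BilinForm.dualBasis_repr_apply, Algebra.traceForm_apply]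
    rfl
  obtain ⟨V, hV, hfd, hdim⟩ := box_spec b' hx (fun i => m - 2 + d i)
  refine ⟨V, fun y => ?_, hfd, hdim⟩
  rw [hV, rd_mem_dualFin_iff, rd_mem_dualInf_iff b hx, ← forall_and]
  refine forall_congr' fun i => ?_
  rw [hb' y i, mul_assoc, rd_trace_mul_of_mem _ (hxm _), ← mul_assoc, ← zpow_add₀ hx0]
  have : -d i + (2 - m) = -(m - 2 + d i) := by ring
  rw [this]

end Reduced

/-- **Dedekind-Weber for a reduced pair of bases**: if `Λ = ⊕ K[x] u_i` and
`Λ∞ = ⊕ R∞ x^(-d_i) u_i`, the conclusion of `lattice_pair` holds. -/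
theorem lattice_pair_of_reduced {ι : Type} [Fintype ι] (x : F) (hx : Transcendental K x)
    [FiniteDimensional K⟮x⟯ F] [CharZero K]
    (hn : Module.finrank K⟮x⟯ F = Fintype.card ι) (v w : ι → F) (u : ι → F)
    (hu : LinearIndependent K⟮x⟯ u) (d : ι → ℤ)
    (hfin : latFin K x v = latFin K x u)
    (hinf : latInf K x w = latInf K x (fun i => x ^ (-d i) * u i))
    (h1 : (1 : F) ∈ latFin K x v) (h1' : (1 : F) ∈ latInf K x w)
    (h0 : ∀ f, f ∈ latFin K x v → f ∈ latInf K x w → f ∈ Set.range (algebraMap K F)) :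
    ∃ (g : ℕ) (M : ℤ),
      (∃ V : Submodule K F,
        (∀ y, y ∈ V ↔ y ∈ dualFin K x (latFin K x v) ∧ x ^ 2 * y ∈ dualInf K x (latInf K x w)) ∧
        FiniteDimensional K V ∧ Module.finrank K V = g) ∧
      ∀ m : ℤ, M ≤ m →
        (∃ V : Submodule K F,
          (∀ f, f ∈ V ↔ f ∈ latFin K x v ∧ x ^ (-m) * f ∈ latInf K x w) ∧
          FiniteDimensional K V ∧ (Module.finrank K V : ℤ) = Fintype.card ι * m + 1 - g) ∧
        (∃ V : Submodule K F,
          (∀ y, y ∈ V ↔ y ∈ dualFin K x (latFin K x v) ∧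
            x ^ (2 - m) * y ∈ dualInf K x (latInf K x w)) ∧
          FiniteDimensional K V ∧ (Module.finrank K V : ℤ) = Fintype.card ι * m + g - 1) := by
  classical
  have hchar : CharZero F := charZero_of_injective_algebraMap (algebraMap K F).injective
  have hsep : Algebra.IsSeparable K⟮x⟯ F := inferInstance
  have hne : Nonempty ι := by
    have h : 0 < Fintype.card ι := by
      rw [← hn]
      exact Module.finrank_pos
    exact Fintype.card_pos_iff.mp h
  let b : Module.Basis ι K⟮x⟯ F := basisOfLinearIndependentOfCardEqFinrank hu hn.symm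
  have hbu : ∀ i, b i = u i := fun i => by
    simp only [b, coe_basisOfLinearIndependentOfCardEqFinrank]
  have hfin' : latFin K x v = latFin K x (fun i => b i) := by
    rw [hfin]
    congr 1
    funext i
    exact (hbu i).symm
  have hinf' : latInf K x w = latInf K x (fun i => x ^ (-d i) * b i) := by
    rw [hinf]
    congr 1
    funext i
    rw [hbu i]
  rw [hfin', hinf']
  rw [hfin'] at h1 h0
  rw [hinf'] at h1' h0
  -- the intersection `Λ ∩ Λ∞` is `K`
  obtain ⟨V₀, hV₀, hfd₀, hdim₀⟩ := primal_spec b hx d 0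
  have hV₀eq : V₀ = Submodule.span K {(1 : F)} := by
    apply le_antisymm
    · intro f hf
      rw [hV₀] at hf
      have hf2 : f ∈ latInf K x (fun i => x ^ (-d i) * b i) := by
        have := hf.2
        simpa using this
      obtain ⟨c, rfl⟩ := h0 f hf.1 hf2
      rw [Submodule.mem_span_singleton]
      exact ⟨c, by rw [Algebra.smul_def, mul_one]⟩
    · rw [Submodule.span_le, Set.singleton_subset_iff, SetLike.mem_coe, hV₀]
      exact ⟨h1, by simpa using h1'⟩
  have hsum1 : ∑ i, (0 - d i + 1).toNat = 1 := by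
    rw [← hdim₀, hV₀eq, finrank_span_singleton one_ne_zero]
  have hd0 : ∀ i, 0 ≤ d i := by
    intro i
    have h := Finset.single_le_sum (f := fun i => (0 - d i + 1).toNat)
      (fun j _ => Nat.zero_le _) (Finset.mem_univ i)
    rw [hsum1] at h
    have h' : (0 - d i + 1).toNat ≤ 1 := h
    omega
  have hdle : ∀ i, d i ≤ ∑ j, d j := fun i =>
    Finset.single_le_sum (f := d) (fun j _ => hd0 j) (Finset.mem_univ i)
  have hg : (((∑ i, (d i - 1).toNat : ℕ)) : ℤ) = 1 + ∑ i, d i - Fintype.card ι := by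
    have hpt : ∀ i, (((d i - 1).toNat : ℕ) : ℤ) = ((0 - d i + 1).toNat : ℤ) + (d i - 1) := by
      intro i
      omega
    have hsum1' : ∑ i, (((0 - d i + 1).toNat : ℕ) : ℤ) = 1 := by
      exact_mod_cast hsum1
    push_cast
    rw [Finset.sum_congr rfl (fun i _ => hpt i), Finset.sum_add_distrib, hsum1',
      Finset.sum_sub_distrib]
    simp
    ring
  refine ⟨∑ i, (d i - 1).toNat, 1 + ∑ i, d i, ?_, ?_⟩
  · obtain ⟨V, hV, hfd, hdim⟩ := dual_spec b hx d 0
    refine ⟨V, fun y => ?_, hfd, ?_⟩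
    · rw [hV]
      have : x ^ ((2 : ℤ) - 0) = x ^ 2 := by
        rw [sub_zero]
        exact zpow_ofNat x 2
      rw [this]
    · rw [hdim]
      refine Finset.sum_congr rfl fun i _ => ?_
      congr 1
      ring
  · intro m hm
    constructor
    · obtain ⟨V, hV, hfd, hdim⟩ := primal_spec b hx d m
      refine ⟨V, hV, hfd, ?_⟩
      rw [hdim, hg]
      push_cast
      have hpt : ∀ i, (((m - d i + 1).toNat : ℕ) : ℤ) = m - d i + 1 := by
        intro i
        have := hdle i
        omega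
      rw [Finset.sum_congr rfl (fun i _ => hpt i), Finset.sum_add_distrib,
        Finset.sum_sub_distrib]
      simp
      ring
    · obtain ⟨V, hV, hfd, hdim⟩ := dual_spec b hx d m
      refine ⟨V, hV, hfd, ?_⟩
      rw [hdim, hg]
      push_cast
      have hpt : ∀ i, (((m - 2 + d i + 1).toNat : ℕ) : ℤ) = m - 2 + d i + 1 := by
        intro i
        have := hd0 i
        have := hdle i
        omega
      rw [Finset.sum_congr rfl (fun i _ => hpt i), Finset.sum_add_distrib,
        Finset.sum_add_distrib]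
      simp
      ring

end Fermat.Agent.RR
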