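import Fermat.Agent.Lib.RR_Phi
import Fermat.Agent.Lib.RR_Reduced

set_option autoImplicit false

/-!
# T20 [RR-L]: the pair of lattices `(Λ, Λ∞)` and its trace dual

`lattice_pair` (Dedekind-Weber): Birkhoff reduction (`RR_Birkhoff.exists_reduced`) brings an
arbitrary pair of bases `(v, w)` to the reduced form `(u, x^(-d) u)` treated in `RR_Reduced`.
-/

noncomputable section

namespace Fermat.Agent.RR

open Polynomial IntermediateField HahnSeries

variable {K : Type*} {F : Type*} [Field K] [Field F] [Algebra K F]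

section Glue

variable {ι : Type} [Fintype ι] (x : F)

omit [Fintype ι] in
theorem lp_smul_eq (c : K⟮x⟯) (z : F) : c • z = (c : F) * z := by
  rw [IntermediateField.smul_def, smul_eq_mul]

theorem lp_sum_smul_sum_smul [DecidableEq ι] (T S : Matrix ι ι K⟮x⟯) (b : ι → F) (i : ι) :
    ∑ k, T i k • ∑ j, S k j • b j = ∑ j, (T * S) i j • b j := by
  simp only [Finset.smul_sum, smul_smul, Matrix.mul_apply, Finset.sum_smul]
  exact Finset.sum_comm

theorem lp_sum_one_smul [DecidableEq ι] (b : ι → F) (i : ι) :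
    ∑ j, (1 : Matrix ι ι K⟮x⟯) i j • b j = b i := by
  simp [Matrix.one_apply, ite_smul]

/-- a change of family by a matrix with entries in `K[x]` shrinks the `K[x]`-span -/
theorem lp_latFin_subset (a b : ι → F) (T : Matrix ι ι K⟮x⟯)
    (hT : ∀ i k, (T i k : F) ∈ polyRing K x) (hab : ∀ i, a i = ∑ k, T i k • b k) :
    latFin K x a ⊆ latFin K x b := by
  rintro f ⟨c, hc, rfl⟩
  refine ⟨fun k => ∑ i, c i * (T i k : F),
    fun k => rd_polyRing_sum _ _ (fun i _ => rd_polyRing_mul (hc i) (hT i k)), ?_⟩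
  simp only [hab, lp_smul_eq, Finset.mul_sum, Finset.sum_mul]
  rw [Finset.sum_comm]
  exact Finset.sum_congr rfl fun k _ => Finset.sum_congr rfl fun i _ => by ring

/-- a change of family by a matrix with entries in `R∞` shrinks the `R∞`-span -/
theorem lp_latInf_subset (hx : Transcendental K x) (a b : ι → F) (T : Matrix ι ι K⟮x⟯)
    (hT : ∀ i k, (T i k : F) ∈ inftyRing K x) (hab : ∀ i, a i = ∑ k, T i k • b k) :
    latInf K x a ⊆ latInf K x b := by
  rintro f ⟨c, hc, rfl⟩
  refine ⟨fun k => ∑ i, c i * (T i k : F),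
    fun k => rd_inftyRing_sum hx _ _ (fun i _ => rd_inftyRing_mul (hc i) (hT i k)), ?_⟩
  simp only [hab, lp_smul_eq, Finset.mul_sum, Finset.sum_mul]
  rw [Finset.sum_comm]
  exact Finset.sum_congr rfl fun k _ => Finset.sum_congr rfl fun i _ => by ring

end Glue

/-- **Dedekind-Weber**: dimensions of `L(mX)`, `L(W + mX)` and `L(W)` in lattice form. -/
theorem lattice_pair {ι : Type} [Fintype ι] (x : F) (hx : Transcendental K x)
    [FiniteDimensional K⟮x⟯ F] [CharZero K]
    (hn : Module.finrank K⟮x⟯ F = Fintype.card ι) (v w : ι → F)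
    (hv : LinearIndependent K⟮x⟯ v) (hw : LinearIndependent K⟮x⟯ w)
    (h1 : (1 : F) ∈ latFin K x v) (h1' : (1 : F) ∈ latInf K x w)
    (h0 : ∀ f, f ∈ latFin K x v → f ∈ latInf K x w → f ∈ Set.range (algebraMap K F)) :
    ∃ (g : ℕ) (M : ℤ),
      (∃ V : Submodule K F,
        (∀ y, y ∈ V ↔ y ∈ dualFin K x (latFin K x v) ∧ x ^ 2 * y ∈ dualInf K x (latInf K x w)) ∧
        FiniteDimensional K V ∧ Module.finrank K V = g) ∧
      ∀ m : ℤ, M ≤ m →
        (∃ V : Submodule K F,
          (∀ f, f ∈ V ↔ f ∈ latFin K x v ∧ x ^ (-m) * f ∈ latInf K x w) ∧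
          FiniteDimensional K V ∧ (Module.finrank K V : ℤ) = Fintype.card ι * m + 1 - g) ∧
        (∃ V : Submodule K F,
          (∀ y, y ∈ V ↔ y ∈ dualFin K x (latFin K x v) ∧
            x ^ (2 - m) * y ∈ dualInf K x (latInf K x w)) ∧
          FiniteDimensional K V ∧ (Module.finrank K V : ℤ) = Fintype.card ι * m + g - 1) := by
  classical
  have hne : Nonempty ι := by
    have h : 0 < Fintype.card ι := by
      rw [← hn]
      exact Module.finrank_pos
    exact Fintype.card_pos_iff.mp h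
  let bv : Module.Basis ι K⟮x⟯ F := basisOfLinearIndependentOfCardEqFinrank hv hn.symm
  let bw : Module.Basis ι K⟮x⟯ F := basisOfLinearIndependentOfCardEqFinrank hw hn.symm
  have hbv : ⇑bv = v := coe_basisOfLinearIndependentOfCardEqFinrank hv hn.symm
  have hbw : ⇑bw = w := coe_basisOfLinearIndependentOfCardEqFinrank hw hn.symm
  -- the matrix of `v` in the basis `w`
  let P : Matrix ι ι K⟮x⟯ := fun i j => bw.repr (v i) j
  have hP : ∀ i, v i = ∑ j, P i j • w j := by
    intro i
    conv_lhs => rw [← bw.sum_repr (v i)]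
    rw [hbw]
  have hPdet : P.det ≠ 0 := by
    have h1 : P = Matrix.transpose (bw.toMatrix bv) := by
      ext i j
      simp only [P, Matrix.transpose_apply, Module.Basis.toMatrix_apply, hbv]
    have h2 : (bw.toMatrix bv) * (bv.toMatrix bw) = 1 := Module.Basis.toMatrix_mul_toMatrix_flip bw bv
    have h3 := congrArg Matrix.det h2
    rw [Matrix.det_mul, Matrix.det_one] at h3
    rw [h1, Matrix.det_transpose]
    intro h
    rw [h, zero_mul] at h3
    exact zero_ne_one h3
  let φ : K⟮x⟯ →+* LaurentSeries K := phi x hx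
  let M : Matrix ι ι (LaurentSeries K) := P.map φ
  have hM : M.det ≠ 0 := by
    have : M.det = φ P.det := by
      rw [RingHom.map_det]; rfl
    rw [this]
    exact fun h => hPdet ((phi_injective x hx) (by rw [h, map_zero]))
  obtain ⟨E, d, hE, hlow, hlead⟩ := exists_reduced M hM
  obtain ⟨B, C, hBC, hCB, hB⟩ := exists_powerSeries_matrix (E.map polyToLS * M) d hlow hlead
  -- the polynomial matrices, evaluated in `K(x)`
  let gen : K⟮x⟯ := AdjoinSimple.gen K x
  let ev : K[X] →+* K⟮x⟯ := (Polynomial.aeval gen : K[X] →ₐ[K] K⟮x⟯).toRingHom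
  have hev : ∀ p : K[X], φ (ev p) = polyToLS p := fun p => phi_aeval x hx p
  have hevmem : ∀ p : K[X], ((ev p : K⟮x⟯) : F) ∈ polyRing K x := fun p =>
    ⟨p, (coe_aeval_gen x p).symm⟩
  let Ex : Matrix ι ι K⟮x⟯ := E.map ev
  let Ex' : Matrix ι ι K⟮x⟯ := (E⁻¹).map ev
  have hEx1 : Ex' * Ex = 1 := by
    show (E⁻¹).map ev * E.map ev = 1
    rw [← Matrix.map_mul, Matrix.nonsing_inv_mul E hE, Matrix.map_one _ (map_zero ev) (map_one ev)]
  have hExφ : Ex.map φ = E.map polyToLS := by
    funext i j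
    exact hev (E i j)
  -- the new basis
  let u : ι → F := fun i => ∑ k, Ex i k • v k
  have hvu : ∀ k, v k = ∑ i, Ex' k i • u i := by
    intro k
    show v k = ∑ i, Ex' k i • ∑ l, Ex i l • v l
    rw [lp_sum_smul_sum_smul, hEx1, lp_sum_one_smul]
  -- (a) `u` is a basis
  have hu : LinearIndependent K⟮x⟯ u := by
    apply linearIndependent_of_top_le_span_of_card_eq_finrank _ hn.symm
    have hsp : Submodule.span K⟮x⟯ (Set.range v) = ⊤ := by
      rw [← hbv]; exact bv.span_eq
    rw [← hsp]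
    apply Submodule.span_le.mpr
    rintro _ ⟨k, rfl⟩
    rw [hvu k]
    exact Submodule.sum_mem _ fun i _ =>
      Submodule.smul_mem _ _ (Submodule.subset_span ⟨i, rfl⟩)
  -- (b) the finite lattices agree
  have hfin : latFin K x v = latFin K x u := by
    apply Set.Subset.antisymm
    · exact lp_latFin_subset x v u Ex' (fun i k => hevmem _) hvu
    · exact lp_latFin_subset x u v Ex (fun i k => hevmem _) (fun i => rfl)
  -- (c) the lattices at infinity
  let Q : Matrix ι ι K⟮x⟯ := Ex * P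
  have hQ : ∀ i, u i = ∑ j, Q i j • w j := by
    intro i
    show ∑ k, Ex i k • v k = _
    simp only [hP]
    rw [lp_sum_smul_sum_smul]
  have hQφ : Q.map φ = E.map polyToLS * M := by
    show (Ex * P).map φ = _
    rw [Matrix.map_mul, hExφ]
  let β : Matrix ι ι K⟮x⟯ := fun i j => gen ^ (-(d i)) * Q i j
  have hgen : φ gen = Xinf K := phi_gen x hx
  have hβφ : β.map φ = B.map (HahnSeries.ofPowerSeries ℤ K) := by
    funext i j
    show φ (gen ^ (-(d i)) * Q i j) = HahnSeries.ofPowerSeries ℤ K (B i j)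
    have h3 : φ (Q i j) = (E.map polyToLS * M) i j := by
      rw [← hQφ]; rfl
    rw [map_mul, map_zpow₀, hgen, Xinf_zpow, h3, hB i j, ← mul_assoc,
      HahnSeries.single_mul_single]
    simp
  have hBCφ : B.map (HahnSeries.ofPowerSeries ℤ K) * C.map (HahnSeries.ofPowerSeries ℤ K) = 1 := by
    rw [← Matrix.map_mul, hBC, Matrix.map_one _ (map_zero _) (map_one _)]
  have hβdet : β.det ≠ 0 := by
    intro h
    have h3 := congrArg Matrix.det hBCφ
    rw [Matrix.det_mul, Matrix.det_one, ← hβφ] at h3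
    have h4 : (β.map φ).det = φ β.det := by
      rw [RingHom.map_det]; rfl
    rw [h4, h, map_zero, zero_mul] at h3
    exact zero_ne_one h3
  have hβ1 : β⁻¹ * β = 1 := Matrix.nonsing_inv_mul β (isUnit_iff_ne_zero.mpr hβdet)
  have hβinvφ : (β⁻¹).map φ = C.map (HahnSeries.ofPowerSeries ℤ K) := by
    have h3 : (β⁻¹).map φ * β.map φ = 1 := by
      rw [← Matrix.map_mul, hβ1, Matrix.map_one _ (map_zero _) (map_one _)]
    calc (β⁻¹).map φ = (β⁻¹).map φ * (B.map (HahnSeries.ofPowerSeries ℤ K) *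
          C.map (HahnSeries.ofPowerSeries ℤ K)) := by rw [hBCφ, Matrix.mul_one]
      _ = ((β⁻¹).map φ * β.map φ) * C.map (HahnSeries.ofPowerSeries ℤ K) := by
          rw [← hβφ, Matrix.mul_assoc]
      _ = C.map (HahnSeries.ofPowerSeries ℤ K) := by rw [h3, Matrix.one_mul]
  have hβmem : ∀ i j, ((β i j : K⟮x⟯) : F) ∈ inftyRing K x := by
    intro i j
    rw [mem_inftyRing_iff x hx]
    have h3 : φ (β i j) = HahnSeries.ofPowerSeries ℤ K (B i j) := by
      have := congrFun (congrFun hβφ i) j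
      exact this
    show LowerBd (φ (β i j)) 0
    rw [h3]
    exact lowerBd_ofPowerSeries _
  have hβinvmem : ∀ i j, ((β⁻¹ i j : K⟮x⟯) : F) ∈ inftyRing K x := by
    intro i j
    rw [mem_inftyRing_iff x hx]
    have h3 : φ (β⁻¹ i j) = HahnSeries.ofPowerSeries ℤ K (C i j) := by
      have := congrFun (congrFun hβinvφ i) j
      exact this
    show LowerBd (φ (β⁻¹ i j)) 0
    rw [h3]
    exact lowerBd_ofPowerSeries _
  let u' : ι → F := fun i => x ^ (-d i) * u i
  have hu' : ∀ i, u' i = ∑ j, β i j • w j := by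
    intro i
    show x ^ (-d i) * u i = ∑ j, (gen ^ (-(d i)) * Q i j) • w j
    rw [hQ i, Finset.mul_sum]
    refine Finset.sum_congr rfl fun j _ => ?_
    have hz : ((gen ^ (-(d i)) : K⟮x⟯) : F) = x ^ (-d i) := by
      have := map_zpow₀ (algebraMap K⟮x⟯ F) gen (-(d i))
      rw [IntermediateField.algebraMap_apply, IntermediateField.algebraMap_apply] at this
      rw [this, AdjoinSimple.coe_gen]
    rw [lp_smul_eq, lp_smul_eq, IntermediateField.coe_mul, hz, mul_assoc]
  have hwu' : ∀ j, w j = ∑ i, β⁻¹ j i • u' i := by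
    intro j
    simp only [hu']
    rw [lp_sum_smul_sum_smul, hβ1, lp_sum_one_smul]
  have hinf : latInf K x w = latInf K x (fun i => x ^ (-d i) * u i) := by
    apply Set.Subset.antisymm
    · exact lp_latInf_subset x hx w u' β⁻¹ hβinvmem hwu'
    · exact lp_latInf_subset x hx u' w β hβmem hu'
  exact lattice_pair_of_reduced x hx hn v w u hu d hfin hinf h1 h1' h0

end Fermat.Agent.RR
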