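import Fermat.Agent.Lib.RR_Birkhoff
import Fermat.Agent.Lib.RR_Defs

set_option autoImplicit false

/-!
# T20 [RR-L]: the expansion `K(x) → K((1/x))` of the rational functions at infinity
-/

noncomputable section

namespace Fermat.Agent.RR

open HahnSeries Polynomial IntermediateField

variable {K : Type*} {F : Type*} [Field K] [Field F] [Algebra K F]

theorem polyToLS_ne_zero {p : K[X]} (hp : p ≠ 0) : polyToLS p ≠ 0 := by
  intro h
  have h1 := polyToLS_coeff p p.natDegree
  rw [h] at h1
  simp only [HahnSeries.coeff_zero] at h1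
  exact hp (Polynomial.leadingCoeff_eq_zero.mp h1.symm)

theorem polyToLS_injective : Function.Injective (polyToLS : K[X] →+* LaurentSeries K) := by
  rw [injective_iff_map_eq_zero]
  intro p hp
  by_contra h
  exact polyToLS_ne_zero h hp

theorem polyToLS_lowerBd (p : K[X]) : LowerBd (polyToLS p) (-(p.natDegree : ℤ)) := by
  intro k hk
  obtain ⟨n, rfl⟩ : ∃ n : ℕ, k = -(n : ℤ) := ⟨(-k).toNat, by omega⟩
  rw [polyToLS_coeff]
  exact Polynomial.coeff_eq_zero_of_natDegree_lt (by omega)

theorem polyToLS_order {p : K[X]} (hp : p ≠ 0) : (polyToLS p).order = -(p.natDegree : ℤ) := by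
  apply le_antisymm
  · apply HahnSeries.order_le_of_coeff_ne_zero
    rw [polyToLS_coeff]
    exact Polynomial.leadingCoeff_ne_zero.mpr hp
  · exact (polyToLS_lowerBd p).le_order (polyToLS_ne_zero hp)

theorem Xinf_zpow (e : ℤ) : (Xinf K) ^ e = single (-e) 1 := by
  have hinv : (Xinf K)⁻¹ = single (1 : ℤ) (1 : K) := by
    apply inv_eq_of_mul_eq_one_right
    rw [Xinf, HahnSeries.single_mul_single]
    simp
  obtain ⟨n, rfl | rfl⟩ := Int.eq_nat_or_neg e
  · rw [zpow_natCast, Xinf_pow]
  · rw [zpow_neg, zpow_natCast, ← inv_pow, hinv, HahnSeries.single_pow, one_pow]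
    congr 1
    simp

theorem polyToLS_X : polyToLS (Polynomial.X : K[X]) = Xinf K := by
  rw [polyToLS, Polynomial.coe_eval₂RingHom, Polynomial.eval₂_X]

/-- the criterion for a shifted polynomial to have no pole at infinity -/
theorem lowerBd_polyToLS_mul_single (p : K[X]) (e : ℤ) :
    LowerBd (polyToLS p * single e 1) 0 ↔ ∀ k : ℕ, e < k → p.coeff k = 0 := by
  constructor
  · intro h k hk
    have := h (e - k) (by omega)
    rw [HahnSeries.coeff_mul_single, mul_one] at this
    rw [← polyToLS_coeff]
    convert this using 2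
    ring
  · intro h j hj
    rw [HahnSeries.coeff_mul_single, mul_one]
    by_cases hpos : 0 < j - e
    · exact polyToLS_coeff_pos p hpos
    · obtain ⟨n, hn⟩ : ∃ n : ℕ, j - e = -(n : ℤ) := ⟨(e - j).toNat, by omega⟩
      rw [hn, polyToLS_coeff]
      exact h n (by omega)

/-- `K(X) → K((1/X))` -/
def ratToLS : RatFunc K →+* LaurentSeries K :=
  RatFunc.liftRingHom polyToLS
    (nonZeroDivisors_le_comap_nonZeroDivisors_of_injective _ polyToLS_injective)

theorem ratToLS_algebraMap (p : K[X]) : ratToLS (algebraMap K[X] (RatFunc K) p) = polyToLS p :=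
  RatFunc.liftRingHom_algebraMap _ _ _

variable (x : F) (hx : Transcendental K x)

/-- the expansion at infinity of the elements of `K(x) ⊆ F` -/
def phi : K⟮x⟯ →+* LaurentSeries K :=
  (ratToLS).comp ((RatFunc.algEquivOfTranscendental x hx).symm : K⟮x⟯ →+* RatFunc K)

theorem phi_aeval (p : K[X]) : phi x hx (Polynomial.aeval (AdjoinSimple.gen K x) p) = polyToLS p := by
  show ratToLS ((RatFunc.algEquivOfTranscendental x hx).symm
    (Polynomial.aeval (AdjoinSimple.gen K x) p)) = _
  rw [RatFunc.algEquivOfTranscendental_symm_aeval, ratToLS_algebraMap]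

theorem phi_gen : phi x hx (AdjoinSimple.gen K x) = Xinf K := by
  have := phi_aeval x hx (Polynomial.X : K[X])
  rwa [Polynomial.aeval_X, polyToLS_X] at this

theorem phi_algebraMap (c : K) : phi x hx (algebraMap K K⟮x⟯ c) = HahnSeries.C c := by
  have := phi_aeval x hx (Polynomial.C c : K[X])
  rwa [Polynomial.aeval_C, polyToLS_C] at this

theorem phi_injective : Function.Injective (phi x hx) := (phi x hx).injective

theorem coe_aeval_gen (p : K[X]) :
    ((Polynomial.aeval (AdjoinSimple.gen K x) p : K⟮x⟯) : F) = Polynomial.aeval x p := by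
  have h := Polynomial.aeval_algebraMap_apply F (AdjoinSimple.gen K x) p
  rw [AdjoinSimple.algebraMap_gen] at h
  exact h.symm

include hx in
/-- every element of `K(x)` is a quotient of polynomials in `x` -/
theorem exists_num_denom (c : K⟮x⟯) : ∃ p q : K[X], q ≠ 0 ∧
    c = Polynomial.aeval (AdjoinSimple.gen K x) p / Polynomial.aeval (AdjoinSimple.gen K x) q := by
  let u := (RatFunc.algEquivOfTranscendental x hx).symm c
  refine ⟨u.num, u.denom, RatFunc.denom_ne_zero u, ?_⟩
  have h1 : c = RatFunc.algEquivOfTranscendental x hx u := by simp [u]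
  rw [h1]
  conv_lhs => rw [← RatFunc.num_div_denom u]
  rw [map_div₀, RatFunc.algEquivOfTranscendental_algebraMap,
    RatFunc.algEquivOfTranscendental_algebraMap]

include hx in
theorem aeval_gen_ne_zero {q : K[X]} (hq : q ≠ 0) :
    Polynomial.aeval (AdjoinSimple.gen K x) q ≠ 0 := by
  intro h
  have h1 := phi_aeval x hx q
  rw [h, map_zero] at h1
  exact polyToLS_ne_zero hq h1.symm

/-- the elements of `K(x)` without pole at infinity -/
theorem mem_inftyRing_iff (c : K⟮x⟯) : (c : F) ∈ inftyRing K x ↔ LowerBd (phi x hx c) 0 := by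
  constructor
  · rintro ⟨p, q, hq, hdeg, hc⟩
    have hc' : c = Polynomial.aeval (AdjoinSimple.gen K x) p /
        Polynomial.aeval (AdjoinSimple.gen K x) q := by
      apply Subtype.ext
      rw [hc, IntermediateField.coe_div, coe_aeval_gen, coe_aeval_gen]
    rw [hc', map_div₀, phi_aeval, phi_aeval]
    by_cases hp : p = 0
    · rw [hp, map_zero, zero_div]; exact lowerBd_zero 0
    · have hq' := polyToLS_ne_zero hq
      have hp' := polyToLS_ne_zero hp
      have hne : polyToLS p / polyToLS q ≠ 0 := div_ne_zero hp' hq'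
      have hord : (polyToLS p).order = (polyToLS p / polyToLS q).order + (polyToLS q).order := by
        rw [← HahnSeries.order_mul hne hq', div_mul_cancel₀ _ hq']
      rw [polyToLS_order hp, polyToLS_order hq] at hord
      intro k hk
      exact HahnSeries.coeff_eq_zero_of_lt_order (by omega)
  · intro h
    obtain ⟨p, q, hq, hc⟩ := exists_num_denom x hx c
    by_cases hp : p = 0
    · refine ⟨0, 1, one_ne_zero, by simp, ?_⟩
      rw [hc, hp]
      simp
    · refine ⟨p, q, hq, ?_, ?_⟩
      · have hq' := polyToLS_ne_zero hq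
        have hp' := polyToLS_ne_zero hp
        rw [hc, map_div₀, phi_aeval, phi_aeval] at h
        have hne : polyToLS p / polyToLS q ≠ 0 := div_ne_zero hp' hq'
        have hord : (polyToLS p).order = (polyToLS p / polyToLS q).order + (polyToLS q).order := by
          rw [← HahnSeries.order_mul hne hq', div_mul_cancel₀ _ hq']
        rw [polyToLS_order hp, polyToLS_order hq] at hord
        have := h.le_order hne
        omega
      · rw [hc, IntermediateField.coe_div, coe_aeval_gen, coe_aeval_gen]

/-- the polynomials in `x` -/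
theorem mem_polyRing_iff (c : K⟮x⟯) : (c : F) ∈ polyRing K x ↔
    ∃ p : K[X], c = Polynomial.aeval (AdjoinSimple.gen K x) p := by
  constructor
  · rintro ⟨p, hp⟩
    exact ⟨p, Subtype.ext (by rw [coe_aeval_gen]; exact hp.symm)⟩
  · rintro ⟨p, rfl⟩
    exact ⟨p, (coe_aeval_gen x p).symm⟩

end Fermat.Agent.RR
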