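-- S13 assembly (lead): the top-level argument, as a function of the work-package deliverables.
import Fermat.Statements.S13
import Fermat.Agent.Lib.H8_Frobenius

set_option autoImplicit false
open WeierstrassCurve WeierstrassCurve.Affine WeierstrassCurve.Affine.Point
open FreyPackage

namespace Fermat.Agent.A13

local notation "Qb" => AlgebraicClosure ℚ

section LA

variable {V : Type*} [AddCommGroup V]

/-- a subgroup of a subgroup of prime order is trivial or everything -/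
theorem la_sub_prime {p : ℕ} (hp : p.Prime) (N H : AddSubgroup V) (hN : Nat.card N = p)
    (hle : H ≤ N) : H = ⊥ ∨ H = N := by
  have : Finite N := Nat.finite_of_card_ne_zero (by rw [hN]; exact hp.ne_zero)
  have hdvd : Nat.card H ∣ Nat.card N := AddSubgroup.card_dvd_of_le hle
  rw [hN] at hdvd
  rcases (Nat.dvd_prime hp).mp hdvd with h1 | h1
  · left
    exact AddSubgroup.card_eq_one.mp h1
  · right
    exact AddSubgroup.eq_of_le_of_card_ge hle (by rw [hN, h1])

/-- a subgroup of a group of order `p²` containing a subgroup of order `p` is that subgroup or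
everything -/
theorem la_sup_prime {p : ℕ} (hp : p.Prime) (hV : Nat.card V = p ^ 2) (N H : AddSubgroup V)
    (hN : Nat.card N = p) (hle : N ≤ H) : H = N ∨ H = ⊤ := by
  have hVfin : Finite V := Nat.finite_of_card_ne_zero (by rw [hV]; exact pow_ne_zero _ hp.ne_zero)
  have hdvd : Nat.card H ∣ Nat.card V := AddSubgroup.card_addSubgroup_dvd_card H
  rw [hV] at hdvd
  obtain ⟨k, hk, hk'⟩ := (Nat.dvd_prime_pow hp).mp hdvd
  have hNH : Nat.card N ∣ Nat.card H := AddSubgroup.card_dvd_of_le hle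
  rw [hN, hk'] at hNH
  have hk1 : 1 ≤ k := by
    rcases Nat.eq_zero_or_pos k with h0 | h0
    · rw [h0, pow_zero] at hNH
      exact absurd (Nat.le_of_dvd one_pos hNH) (by have := hp.two_le; omega)
    · exact h0
  interval_cases k
  · left
    exact (AddSubgroup.eq_of_le_of_card_ge hle (by rw [hN, hk', pow_one])).symm
  · right
    exact AddSubgroup.eq_top_of_card_eq H (by rw [hk', hV])

/-- a subgroup of a group of order `p²`, not everything, has order `1` or `p` -/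
theorem la_card_proper {p : ℕ} (hp : p.Prime) (hV : Nat.card V = p ^ 2) (H : AddSubgroup V)
    (hH : H ≠ ⊤) : H = ⊥ ∨ Nat.card H = p := by
  have hVfin : Finite V := Nat.finite_of_card_ne_zero (by rw [hV]; exact pow_ne_zero _ hp.ne_zero)
  have hdvd : Nat.card H ∣ Nat.card V := AddSubgroup.card_addSubgroup_dvd_card H
  rw [hV] at hdvd
  obtain ⟨k, hk, hk'⟩ := (Nat.dvd_prime_pow hp).mp hdvd
  interval_cases k
  · left
    exact AddSubgroup.card_eq_one.mp (by rw [hk', pow_zero])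
  · right
    rw [hk', pow_one]
  · exact absurd (AddSubgroup.eq_top_of_card_eq H (by rw [hk', hV])) hH

/-- **unipotent case**: if `(σ - 1)² = 0` on `V` (of order `p²`) and `σ` preserves the line `N`,
then `σ` fixes `N` pointwise and `(σ - 1) V ⊆ N` -/
theorem la_unip {p : ℕ} (hp : p.Prime) (hV : Nat.card V = p ^ 2) (N : AddSubgroup V)
    (hN : Nat.card N = p) (σ : V →+ V) (hσN : ∀ x ∈ N, σ x ∈ N)
    (hσ : ∀ x, σ (σ x - x) = σ x - x) :
    (∀ x ∈ N, σ x = x) ∧ (∀ x, σ x - x ∈ N) := by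
  -- the fixed subgroup
  let F : AddSubgroup V := (σ - AddMonoidHom.id V).ker
  have hF : ∀ z, z ∈ F ↔ σ z = z := by
    intro z
    simp only [F, AddMonoidHom.mem_ker, AddMonoidHom.sub_apply, AddMonoidHom.id_apply, sub_eq_zero]
  have h1 : ∀ x ∈ N, σ x = x := by
    intro x hx
    by_contra hne
    have hy : σ x - x ∈ N ⊓ F := ⟨N.sub_mem (hσN x hx) hx, (hF _).mpr (hσ x)⟩
    rcases la_sub_prime hp N (N ⊓ F) hN inf_le_left with h | h
    · rw [h, AddSubgroup.mem_bot, sub_eq_zero] at hy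
      exact hne hy
    · have : x ∈ N ⊓ F := by rw [h]; exact hx
      exact hne ((hF x).mp this.2)
  refine ⟨h1, ?_⟩
  have hNF : N ≤ F := fun x hx => (hF x).mpr (h1 x hx)
  intro x
  rcases la_sup_prime hp hV N F hN hNF with h | h
  · rw [← h]
    exact (hF _).mpr (hσ x)
  · have : x ∈ F := by rw [h]; exact AddSubgroup.mem_top x
    rw [(hF x).mp this, sub_self]
    exact N.zero_mem

/-- **the local dichotomy**: `V` of order `p²`, `N` a line, `Wb ≤ Wa` subgroups, `Wb ≠ ⊤`, and a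
family of endomorphisms preserving `N` with `(σ - 1) V ⊆ Wa`, `(σ - 1) Wa ⊆ Wb`. Then all of them
fix `N` pointwise, or all of them act trivially on `V / N`. -/
theorem la_local {p : ℕ} (hp : p.Prime) (hV : Nat.card V = p ^ 2) (N : AddSubgroup V)
    (hN : Nat.card N = p) (Wa Wb : AddSubgroup V) (hba : Wb ≤ Wa) (hb : Wb ≠ ⊤)
    (I : Set (V →+ V)) (hIN : ∀ σ ∈ I, ∀ x ∈ N, σ x ∈ N)
    (hIa : ∀ σ ∈ I, ∀ x, σ x - x ∈ Wa) (hIb : ∀ σ ∈ I, ∀ x ∈ Wa, σ x - x ∈ Wb) :
    (∀ σ ∈ I, ∀ x ∈ N, σ x = x) ∨ (∀ σ ∈ I, ∀ x, σ x - x ∈ N) := by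
  rcases la_card_proper hp hV Wb hb with h0 | hcard
  · -- unipotent
    left
    intro σ hσ
    have hu : ∀ x, σ (σ x - x) = σ x - x := by
      intro x
      have := hIb σ hσ (σ x - x) (hIa σ hσ x)
      rw [h0, AddSubgroup.mem_bot, sub_eq_zero] at this
      exact this
    exact (la_unip hp hV N hN σ (hIN σ hσ) hu).1
  · -- `Wb` is a line and `(σ - 1) V ⊆ Wb`
    have hall : ∀ σ ∈ I, ∀ x, σ x - x ∈ Wb := by
      intro σ hσ x
      rcases la_sup_prime hp hV Wb Wa hcard hba with h | h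
      · rw [← h]; exact hIa σ hσ x
      · exact hIb σ hσ x (by rw [h]; exact AddSubgroup.mem_top x)
    by_cases hNW : N = Wb
    · right
      intro σ hσ x
      rw [hNW]; exact hall σ hσ x
    · left
      intro σ hσ x hx
      have hy : σ x - x ∈ N ⊓ Wb := ⟨N.sub_mem (hIN σ hσ x hx) hx, hall σ hσ x⟩
      rcases la_sub_prime hp N (N ⊓ Wb) hN inf_le_left with h | h
      · rw [h, AddSubgroup.mem_bot, sub_eq_zero] at hy
        exact hy
      · exfalso
        apply hNW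
        have hle : N ≤ Wb := by
          intro z hz
          have : z ∈ N ⊓ Wb := by rw [h]; exact hz
          exact this.2
        have : Finite Wb := Nat.finite_of_card_ne_zero (by rw [hcard]; exact hp.ne_zero)
        exact AddSubgroup.eq_of_le_of_card_ge hle (by rw [hN, hcard])

end LA


section Defs

variable (P : FreyPackage)

/-- subgroup of the Galois group fixing the stable submodule `N` pointwise -/
def u1 (N : Submodule (ZMod P.p) (Submodule.torsionBy ℤ (P.freyCurve⁄Qb).Point P.p)) :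
    Subgroup (Qb ≃ₐ[ℚ] Qb) where
  carrier := {σ | ∀ x ∈ N, σ • x = x}
  mul_mem' := fun {a b} ha hb x hx => by rw [mul_smul, hb x hx, ha x hx]
  one_mem' := fun x _ => one_smul _ x
  inv_mem' := fun {a} ha x hx => by
    rw [inv_smul_eq_iff]
    exact (ha x hx).symm

/-- subgroup of the Galois group acting trivially modulo the stable submodule `N` -/
def u2 (N : Submodule (ZMod P.p) (Submodule.torsionBy ℤ (P.freyCurve⁄Qb).Point P.p))
    (hN : IsGaloisStable ℚ N) : Subgroup (Qb ≃ₐ[ℚ] Qb) where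
  carrier := {σ | ∀ x, σ • x - x ∈ N}
  mul_mem' := fun {a b} ha hb x => by
    have h1 : (a * b) • x - x = a • (b • x - x) + (a • x - x) := by
      rw [mul_smul, smul_sub]; abel
    rw [h1]
    exact N.add_mem (hN a _ (hb x)) (ha x)
  one_mem' := fun x => by rw [one_smul, sub_self]; exact N.zero_mem
  inv_mem' := fun {a} ha x => by
    have h1 : a⁻¹ • x - x = -(a⁻¹ • (a • x - x)) := by
      rw [smul_sub, inv_smul_smul]; abel
    rw [h1]
    exact N.neg_mem (hN a⁻¹ _ (ha x))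

end Defs


section Cards

variable (P : FreyPackage)

/-- cardinalities: a proper nonzero submodule of `E[p]` (of card `≤ p²`) has `p` elements and
`E[p]` has `p²` -/
theorem a13_cards (hfin : Finite (Submodule.torsionBy ℤ (P.freyCurve⁄Qb).Point P.p))
    (hcard : Nat.card (Submodule.torsionBy ℤ (P.freyCurve⁄Qb).Point P.p) ≤ P.p ^ 2)
    (N : Submodule (ZMod P.p) (Submodule.torsionBy ℤ (P.freyCurve⁄Qb).Point P.p))
    (hbot : N ≠ ⊥) (htop : N ≠ ⊤) :
    Nat.card N = P.p ∧ Nat.card (Submodule.torsionBy ℤ (P.freyCurve⁄Qb).Point P.p) = P.p ^ 2 := by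
  have : Fact P.p.Prime := ⟨P.pp⟩
  have hp1 : 1 < P.p := P.pp.one_lt
  have hV := Module.natCard_eq_pow_finrank (K := ZMod P.p)
    (V := Submodule.torsionBy ℤ (P.freyCurve⁄Qb).Point P.p)
  have hNc := Module.natCard_eq_pow_finrank (K := ZMod P.p) (V := N)
  rw [Nat.card_zmod] at hV hNc
  have h2 : Module.finrank (ZMod P.p) (Submodule.torsionBy ℤ (P.freyCurve⁄Qb).Point P.p) ≤ 2 := by
    rw [hV] at hcard
    exact (Nat.pow_le_pow_iff_right hp1).mp hcard
  have h3 : Module.finrank (ZMod P.p) N <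
      Module.finrank (ZMod P.p) (Submodule.torsionBy ℤ (P.freyCurve⁄Qb).Point P.p) :=
    Submodule.finrank_lt htop
  have h4 : 0 < Module.finrank (ZMod P.p) N := by
    rw [Module.finrank_pos_iff]
    exact (Submodule.nontrivial_iff_ne_bot).mpr hbot
  have h5 : Module.finrank (ZMod P.p) N = 1 := by omega
  have h6 : Module.finrank (ZMod P.p) (Submodule.torsionBy ℤ (P.freyCurve⁄Qb).Point P.p) = 2 := by
    omega
  rw [hNc, hV, h5, h6, pow_one]
  exact ⟨rfl, rfl⟩

end Cards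


section Coords

variable (P : FreyPackage)

/-- the coordinates of a point -/
noncomputable def coords : (P.freyCurve⁄Qb).Point → Finset Qb
  | .zero => ∅
  | .some x y _ => {x, y}

theorem smul_eq_of_coords (σ : Qb ≃ₐ[ℚ] Qb) (Q : (P.freyCurve⁄Qb).Point)
    (hs : ∀ s ∈ coords P Q, σ s = s) : σ • Q = Q := by
  cases Q with
  | zero => rfl
  | some x y h =>
    have hx : σ x = x := hs x (by simp [coords])
    have hy : σ y = y := hs y (by simp [coords])
    rw [algEquiv_smul_def, Point.map_some]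
    simp only [Point.some.injEq]
    exact ⟨hx, hy⟩

theorem exists_finset_fix (hfin : Finite (Submodule.torsionBy ℤ (P.freyCurve⁄Qb).Point P.p)) :
    ∃ S : Finset Qb, ∀ σ : Qb ≃ₐ[ℚ] Qb, (∀ s ∈ S, σ s = s) →
      ∀ x : Submodule.torsionBy ℤ (P.freyCurve⁄Qb).Point P.p, σ • x = x := by
  classical
  let _ := Fintype.ofFinite (Submodule.torsionBy ℤ (P.freyCurve⁄Qb).Point P.p)
  refine ⟨Finset.univ.biUnion fun x : Submodule.torsionBy ℤ (P.freyCurve⁄Qb).Point P.p =>
    coords P (x : (P.freyCurve⁄Qb).Point), fun σ hσ x => ?_⟩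
  apply Subtype.ext
  change σ • (x : (P.freyCurve⁄Qb).Point) = x
  apply smul_eq_of_coords
  intro s hs
  exact hσ s (Finset.mem_biUnion.mpr ⟨x, Finset.mem_univ x, hs⟩)

end Coords


section Main

variable (P : FreyPackage)

/-- **S13 from the work packages.** -/
theorem a13_main
    (hfin : Finite (Submodule.torsionBy ℤ (P.freyCurve⁄Qb).Point P.p))
    (hcard : Nat.card (Submodule.torsionBy ℤ (P.freyCurve⁄Qb).Point P.p) ≤ P.p ^ 2)
    (hex : ∃ Q : (P.freyCurve⁄Qb).Point, Q ≠ 0 ∧ P.p • Q = 0)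
    (hGM : ∀ U : Subgroup (Qb ≃ₐ[ℚ] Qb), U.Normal → ∀ S : Finset Qb,
      (∀ σ : Qb ≃ₐ[ℚ] Qb, (∀ s ∈ S, σ s = s) → σ ∈ U) → U ≠ ⊤ →
      ∃ ℓ : ℕ, ℓ.Prime ∧ ∀ A : ValuationSubring Qb, A.LiesOverPrime ℓ →
        ∃ σ ∈ A.inertiaSubgroupIn ℚ, σ ∉ U)
    (hS05 : ∀ q : ℕ, q.Prime → q ≠ 2 → q ≠ P.p → P.GaloisRepUnramifiedAt q)
    (hN2u : ∀ A : ValuationSubring Qb, A.LiesOverPrime 2 → ∀ σ ∈ A.inertiaSubgroupIn ℚ,
      ∀ Q : (P.freyCurve⁄Qb).Point, P.p • Q = 0 → σ • (σ • Q - Q) = σ • Q - Q)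
    (hN2r : ∀ Q : (P.freyCurve⁄Qb).Point, P.p • Q = 0 →
      (∀ σ : Qb ≃ₐ[ℚ] Qb, σ • Q = Q) → Q = 0)
    (hLP : ∀ A : ValuationSubring Qb, A.LiesOverPrime P.p →
      ∃ E0 E1 : AddSubgroup (P.freyCurve⁄Qb).Point, E1 ≤ E0 ∧
        (∀ (x y : Qb) (h : (P.freyCurve⁄Qb).Nonsingular x y), Point.some x y h ∈ E1 ↔ x ∉ A) ∧
        (∀ σ ∈ A.inertiaSubgroupIn ℚ, ∀ Q : (P.freyCurve⁄Qb).Point, σ • Q - Q ∈ E0) ∧
        (∀ σ ∈ A.inertiaSubgroupIn ℚ, ∀ Q ∈ E0, σ • Q - Q ∈ E1))
    (hSS : ∀ A : ValuationSubring Qb, A.LiesOverPrime P.p →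
      ∀ N : AddSubgroup (P.freyCurve⁄Qb).Point, (∀ Q ∈ N, P.p • Q = 0) →
        (∀ σ : Qb ≃ₐ[ℚ] Qb, ∀ Q ∈ N, σ • Q ∈ N) → (∃ Q ∈ N, Q ≠ 0) →
        (∃ Q : (P.freyCurve⁄Qb).Point, P.p • Q = 0 ∧ Q ∉ N) →
        ∃ (x y : Qb) (h : (P.freyCurve⁄Qb).Nonsingular x y),
          P.p • Point.some x y h = 0 ∧ x ∈ A)
    (hred : ¬ GaloisRepIsIrreducible (K := Qb) ℚ P.freyCurve P.p) :
    HasGaloisStableCofixedLine (K := Qb) ℚ P.freyCurve P.p := by
  classical
  have htors : ∀ x : Submodule.torsionBy ℤ (P.freyCurve⁄Qb).Point P.p,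
      P.p • (x : (P.freyCurve⁄Qb).Point) = 0 := by
    intro x
    have := x.2
    rw [Submodule.mem_torsionBy_iff, natCast_zsmul] at this
    exact this
  -- Step 1: `E[p]` is nontrivial
  have hnt : Nontrivial (Submodule.torsionBy ℤ (P.freyCurve⁄Qb).Point P.p) := by
    obtain ⟨Q, hQ0, hQ⟩ := hex
    have hmem : Q ∈ Submodule.torsionBy ℤ (P.freyCurve⁄Qb).Point P.p := by
      rw [Submodule.mem_torsionBy_iff, natCast_zsmul]; exact hQ
    exact ⟨⟨⟨Q, hmem⟩, 0, fun h => hQ0 (congrArg Subtype.val h)⟩⟩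
  -- Step 2: a stable line
  have hN : ∃ N : Submodule (ZMod P.p) (Submodule.torsionBy ℤ (P.freyCurve⁄Qb).Point P.p),
      IsGaloisStable ℚ N ∧ N ≠ ⊥ ∧ N ≠ ⊤ := by
    by_contra hcon
    apply hred
    refine ⟨hnt, fun N hN => ?_⟩
    by_contra h
    rw [not_or] at h
    exact hcon ⟨N, hN, h.1, h.2⟩
  obtain ⟨N, hNst, hbot, htop⟩ := hN
  obtain ⟨hNcard, hVcard⟩ := a13_cards P hfin hcard N hbot htop
  have hNcard' : Nat.card N.toAddSubgroup = P.p := hNcard
  -- Step 3: the key claim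
  have key : u1 P N = ⊤ ∨ u2 P N hNst = ⊤ := by
    by_contra hcon
    rw [not_or] at hcon
    obtain ⟨hU1, hU2⟩ := hcon
    have hn1 : (u1 P N).Normal := ⟨fun n hn g x hx => by
      rw [mul_smul, mul_smul, hn (g⁻¹ • x) (hNst g⁻¹ x hx), smul_inv_smul]⟩
    have hn2 : (u2 P N hNst).Normal := ⟨fun n hn g x => by
      have h1 : (g * n * g⁻¹) • x - x = g • (n • (g⁻¹ • x) - g⁻¹ • x) := by
        rw [mul_smul, mul_smul, smul_sub, smul_inv_smul]
      rw [h1]
      exact hNst g _ (hn _)⟩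
    obtain ⟨S, hS⟩ := exists_finset_fix P hfin
    have hS1 : ∀ σ : Qb ≃ₐ[ℚ] Qb, (∀ s ∈ S, σ s = s) → σ ∈ u1 P N :=
      fun σ h x _ => hS σ h x
    have hS2 : ∀ σ : Qb ≃ₐ[ℚ] Qb, (∀ s ∈ S, σ s = s) → σ ∈ u2 P N hNst := by
      intro σ h x
      rw [hS σ h x, sub_self]
      exact N.zero_mem
    obtain ⟨l1, hl1, hr1⟩ := hGM _ hn1 S hS1 hU1
    obtain ⟨l2, hl2, hr2⟩ := hGM _ hn2 S hS2 hU2
    -- inertia at primes `≠ p` lies in `u1 ⊓ u2`
    have hin : ∀ ℓ : ℕ, ℓ.Prime → ℓ ≠ P.p → ∀ A : ValuationSubring Qb, A.LiesOverPrime ℓ →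
        ∀ σ ∈ A.inertiaSubgroupIn ℚ, σ ∈ u1 P N ∧ σ ∈ u2 P N hNst := by
      intro ℓ hℓ hℓp A hA σ hσ
      by_cases h2 : ℓ = 2
      · subst h2
        have hu : ∀ x : Submodule.torsionBy ℤ (P.freyCurve⁄Qb).Point P.p,
            σ • (σ • x - x) = σ • x - x :=
          fun x => Subtype.ext (hN2u A hA σ hσ x (htors x))
        have := la_unip P.pp hVcard N.toAddSubgroup hNcard'
          (DistribSMul.toAddMonoidHom _ σ) (fun x hx => hNst σ x hx) hu
        exact ⟨this.1, this.2⟩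
      · have h5 : ∀ x : Submodule.torsionBy ℤ (P.freyCurve⁄Qb).Point P.p, σ • x = x :=
          fun x => hS05 ℓ hℓ h2 hℓp A hA σ hσ x
        refine ⟨fun x _ => h5 x, fun x => ?_⟩
        rw [h5 x, sub_self]
        exact N.zero_mem
    have hl1p : l1 = P.p := by
      by_contra hne
      obtain ⟨A, hA⟩ := Fermat.Agent.H8.exists_valuationSubring_liesOver l1 hl1
      obtain ⟨σ, hσ, hσU⟩ := hr1 A hA
      exact hσU (hin l1 hl1 hne A hA σ hσ).1
    have hl2p : l2 = P.p := by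
      by_contra hne
      obtain ⟨A, hA⟩ := Fermat.Agent.H8.exists_valuationSubring_liesOver l2 hl2
      obtain ⟨σ, hσ, hσU⟩ := hr2 A hA
      exact hσU (hin l2 hl2 hne A hA σ hσ).2
    rw [hl1p] at hr1
    rw [hl2p] at hr2
    obtain ⟨A, hA⟩ := Fermat.Agent.H8.exists_valuationSubring_liesOver P.p P.pp
    obtain ⟨E0, E1, h10, hE1, hI0, hI1⟩ := hLP A hA
    let ι : Submodule.torsionBy ℤ (P.freyCurve⁄Qb).Point P.p →+ (P.freyCurve⁄Qb).Point :=
      (Submodule.torsionBy ℤ (P.freyCurve⁄Qb).Point P.p).subtype.toAddMonoidHom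
    let Wa : AddSubgroup (Submodule.torsionBy ℤ (P.freyCurve⁄Qb).Point P.p) := E0.comap ι
    let Wb : AddSubgroup (Submodule.torsionBy ℤ (P.freyCurve⁄Qb).Point P.p) := E1.comap ι
    have hba : Wb ≤ Wa := fun x hx => h10 hx
    have hb : Wb ≠ ⊤ := by
      obtain ⟨x, y, h, hP, hxA⟩ := hSS A hA (N.toAddSubgroup.map ι)
        (by
          rintro _ ⟨z, -, rfl⟩
          exact htors z)
        (by
          rintro σ _ ⟨z, hz, rfl⟩
          exact ⟨σ • z, hNst σ z hz, rfl⟩)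
        (by
          obtain ⟨z, hzN, hz0⟩ := (Submodule.ne_bot_iff N).mp hbot
          exact ⟨ι z, ⟨z, hzN, rfl⟩, fun h0 => hz0 (Subtype.ext h0)⟩)
        (by
          obtain ⟨z, -, hzN⟩ := SetLike.exists_of_lt (lt_top_iff_ne_top.mpr htop)
          refine ⟨ι z, htors z, ?_⟩
          rintro ⟨z', hz', hzz⟩
          have : z' = z := Subtype.ext hzz
          rw [this] at hz'
          exact hzN hz')
      intro htop'
      have hmem : Point.some x y h ∈ Submodule.torsionBy ℤ (P.freyCurve⁄Qb).Point P.p := by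
        rw [Submodule.mem_torsionBy_iff, natCast_zsmul]; exact hP
      have : (⟨Point.some x y h, hmem⟩ : Submodule.torsionBy ℤ (P.freyCurve⁄Qb).Point P.p) ∈ Wb := by
        rw [htop']; exact AddSubgroup.mem_top _
      exact ((hE1 x y h).mp this) hxA
    have hloc := la_local P.pp hVcard N.toAddSubgroup hNcard' Wa Wb hba hb
      {f | ∃ σ ∈ A.inertiaSubgroupIn ℚ, f = DistribSMul.toAddMonoidHom _ σ}
      (by
        rintro _ ⟨σ, -, rfl⟩ x hx
        exact hNst σ x hx)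
      (by
        rintro _ ⟨σ, hσ, rfl⟩ x
        exact hI0 σ hσ x)
      (by
        rintro _ ⟨σ, hσ, rfl⟩ x hx
        exact hI1 σ hσ x hx)
    rcases hloc with h | h
    · obtain ⟨σ, hσ, hσU⟩ := hr1 A hA
      exact hσU (fun x hx => h _ ⟨σ, hσ, rfl⟩ x hx)
    · obtain ⟨σ, hσ, hσU⟩ := hr2 A hA
      exact hσU (fun x => h _ ⟨σ, hσ, rfl⟩ x)
  rcases key with h1 | h2
  · exfalso
    obtain ⟨x, hxN, hx0⟩ := (Submodule.ne_bot_iff N).mp hbot
    have hfix : ∀ σ : Qb ≃ₐ[ℚ] Qb, σ • x = x := by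
      intro σ
      have : σ ∈ u1 P N := by rw [h1]; exact Subgroup.mem_top σ
      exact this x hxN
    have := hN2r (x : (P.freyCurve⁄Qb).Point) (htors x)
      (fun σ => congrArg Subtype.val (hfix σ))
    exact hx0 (Subtype.ext this)
  · refine ⟨N, hNst, hbot, htop, fun σ x => ?_⟩
    have : σ ∈ u2 P N hNst := by rw [h2]; exact Subgroup.mem_top σ
    exact this x

end Main

end Fermat.Agent.A13
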