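import Mathlib
import Fermat.Prelude.Def_CuspForm_IntegralStructure
import Fermat.Prelude.Def_ModularForm_HeckeOperator
import Fermat.Prelude.Thm_CongruenceSubgroup_one_mem_strictPeriods_Gamma0

/-!
# T23 (S23): basic definitions

`QNice F`: `F : ℍ → ℂ` is `1`-periodic, holomorphic and bounded at `i∞`, so that it has a
`q`-expansion which determines it.  `QConj σ F G`: both are nice and the `q`-expansion of `G` is
the coefficientwise image of the `q`-expansion of `F` under the ring homomorphism `σ`.
-/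

set_option autoImplicit false

open UpperHalfPlane ModularForm CuspForm ModularFormClass
open scoped MatrixGroups Manifold

namespace Fermat.Agent.T23

/-- `1`-periodic, holomorphic, bounded at `i∞`. -/
structure QNice (F : ℍ → ℂ) : Prop where
  per : Function.Periodic (F ∘ UpperHalfPlane.ofComplex) 1
  hol : MDiff F
  bdd : IsBoundedAtImInfty F

theorem QNice.analyticAt {F : ℍ → ℂ} (h : QNice F) : AnalyticAt ℂ (cuspFunction 1 F) 0 :=
  UpperHalfPlane.analyticAt_cuspFunction_zero one_pos (by simpa using h.per) h.hol h.bdd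

theorem QNice.zero : QNice (0 : ℍ → ℂ) where
  per := fun x => by simp
  hol := mdifferentiable_const
  bdd := by
    have : IsBoundedAtImInfty (fun _ : ℍ => (0 : ℂ)) :=
      Filter.const_boundedAtFilter _ _
    exact this

theorem QNice.const (c : ℂ) : QNice (fun _ : ℍ => c) where
  per := fun x => by simp
  hol := mdifferentiable_const
  bdd := Filter.const_boundedAtFilter _ _

theorem QNice.one : QNice (1 : ℍ → ℂ) := QNice.const 1

theorem QNice.add {F G : ℍ → ℂ} (hF : QNice F) (hG : QNice G) : QNice (F + G) where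
  per := fun x => by
    have h1 := hF.per x
    have h2 := hG.per x
    simp only [Function.comp_apply, Pi.add_apply] at h1 h2 ⊢
    rw [h1, h2]
  hol := hF.hol.add hG.hol
  bdd := hF.bdd.add hG.bdd

theorem QNice.mul {F G : ℍ → ℂ} (hF : QNice F) (hG : QNice G) : QNice (F * G) where
  per := fun x => by
    have h1 := hF.per x
    have h2 := hG.per x
    simp only [Function.comp_apply, Pi.mul_apply] at h1 h2 ⊢
    rw [h1, h2]
  hol := hF.hol.mul hG.hol
  bdd := hF.bdd.mul hG.bdd

theorem QNice.neg {F : ℍ → ℂ} (hF : QNice F) : QNice (-F) := by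
  have : -F = (fun _ : ℍ => (-1 : ℂ)) * F := by
    ext z; simp
  rw [this]
  exact (QNice.const (-1)).mul hF

theorem QNice.sub {F G : ℍ → ℂ} (hF : QNice F) (hG : QNice G) : QNice (F - G) := by
  rw [sub_eq_add_neg]
  exact hF.add hG.neg

theorem QNice.smul {F : ℍ → ℂ} (c : ℂ) (hF : QNice F) : QNice (c • F) := by
  have : c • F = (fun _ : ℍ => c) * F := by
    ext z; simp
  rw [this]
  exact (QNice.const c).mul hF

theorem QNice.pow {F : ℍ → ℂ} (hF : QNice F) (n : ℕ) : QNice (F ^ n) := by
  induction n with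
  | zero => simpa using QNice.one
  | succ n ih => rw [pow_succ]; exact ih.mul hF

theorem QNice.sum {ι : Type*} (s : Finset ι) {F : ι → ℍ → ℂ} (hF : ∀ i ∈ s, QNice (F i)) :
    QNice (∑ i ∈ s, F i) := by
  classical
  induction s using Finset.induction_on with
  | empty => simpa using QNice.zero
  | insert a s ha ih =>
    rw [Finset.sum_insert ha]
    exact (hF a (Finset.mem_insert_self a s)).add
      (ih fun i hi => hF i (Finset.mem_insert_of_mem hi))

theorem QNice.prod {ι : Type*} (s : Finset ι) {F : ι → ℍ → ℂ} (hF : ∀ i ∈ s, QNice (F i)) :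
    QNice (∏ i ∈ s, F i) := by
  classical
  induction s using Finset.induction_on with
  | empty => simpa using QNice.one
  | insert a s ha ih =>
    rw [Finset.prod_insert ha]
    exact (hF a (Finset.mem_insert_self a s)).mul
      (ih fun i hi => hF i (Finset.mem_insert_of_mem hi))

/-- A modular form for a group containing the translation `T` (strict period `1`) with `∞` a
cusp is nice. -/
theorem QNice.of_modularForm {Γ : Subgroup (GL (Fin 2) ℝ)} {k : ℤ}
    (hΓ : (1 : ℝ) ∈ Γ.strictPeriods) [Fact (IsCusp OnePoint.infty Γ)]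
    (f : ModularForm Γ k) : QNice f where
  per := by
    have := SlashInvariantFormClass.periodic_comp_ofComplex f hΓ
    simpa using this
  hol := f.holo'
  bdd := ModularFormClass.bdd_at_infty f

theorem one_mem_strictPeriods_SL' : (1 : ℝ) ∈ (𝒮ℒ).strictPeriods :=
  _root_.one_mem_strictPeriods_SL

theorem QNice.of_levelOne {k : ℤ} (f : ModularForm 𝒮ℒ k) : QNice f :=
  QNice.of_modularForm one_mem_strictPeriods_SL' f

/-- `σ`-conjugacy of `q`-expansions. -/
def QConj (σ : ℂ →+* ℂ) (F G : ℍ → ℂ) : Prop :=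
  QNice F ∧ QNice G ∧ qExpansion 1 G = PowerSeries.map σ (qExpansion 1 F)

end Fermat.Agent.T23

namespace Fermat.Agent.T23

variable {σ : ℂ →+* ℂ}

theorem QConj.nice_left {F G : ℍ → ℂ} (h : QConj σ F G) : QNice F := h.1

theorem QConj.nice_right {F G : ℍ → ℂ} (h : QConj σ F G) : QNice G := h.2.1

theorem QConj.qExp {F G : ℍ → ℂ} (h : QConj σ F G) :
    qExpansion 1 G = PowerSeries.map σ (qExpansion 1 F) := h.2.2

theorem QConj.qCoeff {F G : ℍ → ℂ} (h : QConj σ F G) (n : ℕ) :
    ModularFormClass.qCoeff G n = σ (ModularFormClass.qCoeff F n) := by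
  unfold ModularFormClass.qCoeff
  rw [h.qExp, PowerSeries.coeff_map]

theorem QConj.add {F G F' G' : ℍ → ℂ} (h : QConj σ F G) (h' : QConj σ F' G') :
    QConj σ (F + F') (G + G') := by
  refine ⟨h.1.add h'.1, h.2.1.add h'.2.1, ?_⟩
  rw [qExpansion_add h.2.1.analyticAt h'.2.1.analyticAt,
    qExpansion_add h.1.analyticAt h'.1.analyticAt, map_add, h.qExp, h'.qExp]

theorem QConj.mul {F G F' G' : ℍ → ℂ} (h : QConj σ F G) (h' : QConj σ F' G') :
    QConj σ (F * F') (G * G') := by
  refine ⟨h.1.mul h'.1, h.2.1.mul h'.2.1, ?_⟩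
  rw [qExpansion_mul h.2.1.analyticAt h'.2.1.analyticAt,
    qExpansion_mul h.1.analyticAt h'.1.analyticAt, map_mul, h.qExp, h'.qExp]

theorem QConj.zero : QConj σ (0 : ℍ → ℂ) 0 := by
  refine ⟨QNice.zero, QNice.zero, ?_⟩
  rw [qExpansion_zero, map_zero]

theorem QConj.one : QConj σ (1 : ℍ → ℂ) 1 := by
  refine ⟨QNice.one, QNice.one, ?_⟩
  rw [qExpansion_one, map_one]

theorem QConj.const (c : ℂ) : QConj σ (fun _ : ℍ => c) (fun _ : ℍ => σ c) := by
  refine ⟨QNice.const c, QNice.const _, ?_⟩
  have h1 : (fun _ : ℍ => c) = c • (1 : ℍ → ℂ) := by ext z; simp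
  have h2 : (fun _ : ℍ => σ c) = σ c • (1 : ℍ → ℂ) := by ext z; simp
  rw [h1, h2, qExpansion_smul QNice.one.analyticAt, qExpansion_smul QNice.one.analyticAt,
    qExpansion_one]
  ext n
  simp [PowerSeries.coeff_one]
  split_ifs <;> simp

theorem QConj.smul {F G : ℍ → ℂ} (c : ℂ) (h : QConj σ F G) : QConj σ (c • F) (σ c • G) := by
  have h1 : c • F = (fun _ : ℍ => c) * F := by ext z; simp
  have h2 : σ c • G = (fun _ : ℍ => σ c) * G := by ext z; simp
  rw [h1, h2]
  exact (QConj.const c).mul h

theorem QConj.neg {F G : ℍ → ℂ} (h : QConj σ F G) : QConj σ (-F) (-G) := by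
  have := h.smul (-1)
  simpa using this

theorem QConj.sub {F G F' G' : ℍ → ℂ} (h : QConj σ F G) (h' : QConj σ F' G') :
    QConj σ (F - F') (G - G') := by
  rw [sub_eq_add_neg, sub_eq_add_neg]
  exact h.add h'.neg

theorem QConj.pow {F G : ℍ → ℂ} (h : QConj σ F G) (n : ℕ) : QConj σ (F ^ n) (G ^ n) := by
  induction n with
  | zero => simpa using QConj.one
  | succ n ih => rw [pow_succ, pow_succ]; exact ih.mul h

theorem QConj.sum {ι : Type*} (s : Finset ι) {F G : ι → ℍ → ℂ}
    (h : ∀ i ∈ s, QConj σ (F i) (G i)) : QConj σ (∑ i ∈ s, F i) (∑ i ∈ s, G i) := by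
  classical
  induction s using Finset.induction_on with
  | empty => simpa using QConj.zero
  | insert a s ha ih =>
    rw [Finset.sum_insert ha, Finset.sum_insert ha]
    exact (h a (Finset.mem_insert_self a s)).add
      (ih fun i hi => h i (Finset.mem_insert_of_mem hi))

theorem QConj.prod {ι : Type*} (s : Finset ι) {F G : ι → ℍ → ℂ}
    (h : ∀ i ∈ s, QConj σ (F i) (G i)) : QConj σ (∏ i ∈ s, F i) (∏ i ∈ s, G i) := by
  classical
  induction s using Finset.induction_on with
  | empty => simpa using QConj.one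
  | insert a s ha ih =>
    rw [Finset.prod_insert ha, Finset.prod_insert ha]
    exact (h a (Finset.mem_insert_self a s)).mul
      (ih fun i hi => h i (Finset.mem_insert_of_mem hi))

/-- A nice function whose `q`-expansion is fixed by `σ` is self-conjugate. -/
theorem QConj.of_fixed {F : ℍ → ℂ} (hF : QNice F)
    (h : PowerSeries.map σ (qExpansion 1 F) = qExpansion 1 F) : QConj σ F F :=
  ⟨hF, hF, h.symm⟩

theorem QNice.eq_zero_of_qExpansion {F : ℍ → ℂ} (hF : QNice F) (h : qExpansion 1 F = 0) :
    F = 0 :=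
  (qExpansion_eq_zero_iff one_pos (by simpa using hF.per) hF.hol hF.bdd).mp h

theorem QNice.qExpansion_ne_zero {F : ℍ → ℂ} (hF : QNice F) (h : F ≠ 0) :
    qExpansion 1 F ≠ 0 := fun h0 => h (hF.eq_zero_of_qExpansion h0)

/-- The conjugate of `0` is `0`. -/
theorem QConj.eq_zero {G : ℍ → ℂ} (h : QConj σ 0 G) : G = 0 := by
  apply h.nice_right.eq_zero_of_qExpansion
  rw [h.qExp, qExpansion_zero, map_zero]

theorem map_injective (σ : ℂ →+* ℂ) : Function.Injective (PowerSeries.map σ) := by
  intro p q hpq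
  ext n
  have := congrArg (PowerSeries.coeff n) hpq
  rw [PowerSeries.coeff_map, PowerSeries.coeff_map] at this
  exact σ.injective this

/-- The conjugate of a nonzero function is nonzero. -/
theorem QConj.ne_zero {F G : ℍ → ℂ} (h : QConj σ F G) (hF : F ≠ 0) : G ≠ 0 := by
  intro hG
  apply h.nice_left.qExpansion_ne_zero hF
  apply map_injective σ
  rw [← h.qExp, hG, qExpansion_zero, map_zero]

/-- Conjugates are unique. -/
theorem QConj.unique {F G G' : ℍ → ℂ} (h : QConj σ F G) (h' : QConj σ F G') : G = G' := by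
  have h0 : QConj σ 0 (G - G') := by
    have := h.sub h'
    rwa [sub_self] at this
  exact sub_eq_zero.mp h0.eq_zero

end Fermat.Agent.T23

namespace Fermat.Agent.T23

theorem QNice.of_Gamma0 {N : ℕ} [NeZero N] {k : ℤ}
    (f : ModularForm (CongruenceSubgroup.Gamma0 N) k) : QNice f :=
  QNice.of_modularForm (CongruenceSubgroup.one_mem_strictPeriods_Gamma0 N) f

end Fermat.Agent.T23
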