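import Mathlib

/-!
# T23 piece (1): the only complex numbers fixed by all ring endomorphisms of `ℂ` are rational
-/

set_option autoImplicit false

namespace Fermat.Agent.T23

/-- A ring automorphism of the polynomial ring on a transcendence basis of `ℂ` over a field `F`
extends to a ring automorphism of `ℂ`. -/
theorem field_exists_extend {F : Type*} [Field F] [Algebra F ℂ] {ι : Type*} (v : ι → ℂ)
    (hv : IsTranscendenceBasis F v) (e : MvPolynomial ι F ≃+* MvPolynomial ι F) :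
    ∃ σ : ℂ ≃+* ℂ, ∀ p : MvPolynomial ι F,
      σ (MvPolynomial.aeval v p) = MvPolynomial.aeval v (e p) := by
  letI := IsAlgClosed.isAlgClosure_of_transcendence_basis v hv
  let e' : Algebra.adjoin F (Set.range v) ≃+* Algebra.adjoin F (Set.range v) :=
    hv.1.aevalEquiv.symm.toRingEquiv.trans (e.trans hv.1.aevalEquiv.toRingEquiv)
  refine ⟨IsAlgClosure.equivOfEquiv ℂ ℂ e', fun p => ?_⟩
  rw [← hv.1.algebraMap_aevalEquiv p, IsAlgClosure.equivOfEquiv_algebraMap,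
    ← hv.1.algebraMap_aevalEquiv (e p)]
  congr 1
  simp [e']

/-- The transcendental case. -/
theorem field_transcendental_case (x : ℂ) (hx : Transcendental ℚ x) :
    ∃ σ : ℂ →+* ℂ, σ x ≠ x := by
  have hs : AlgebraicIndepOn ℚ (id : ℂ → ℂ) ({x} : Set ℂ) :=
    (algebraicIndependent_singleton_iff (⟨x, rfl⟩ : ({x} : Set ℂ))).mpr hx
  obtain ⟨t, hxt, ht⟩ := exists_isTranscendenceBasis_superset hs
  let f : MvPolynomial t ℚ →ₐ[ℚ] MvPolynomial t ℚ :=
    MvPolynomial.aeval (fun s => (2 : ℚ) • MvPolynomial.X s)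
  let g : MvPolynomial t ℚ →ₐ[ℚ] MvPolynomial t ℚ :=
    MvPolynomial.aeval (fun s => (1 / 2 : ℚ) • MvPolynomial.X s)
  let e : MvPolynomial t ℚ ≃ₐ[ℚ] MvPolynomial t ℚ :=
    AlgEquiv.ofAlgHom f g (by ext; simp [f, g]) (by ext; simp [f, g])
  obtain ⟨σ, hσ⟩ := field_exists_extend ((↑) : t → ℂ) ht e.toRingEquiv
  refine ⟨σ.toRingHom, ?_⟩
  have h1 := hσ (MvPolynomial.X ⟨x, hxt rfl⟩)
  have h2 : σ x = 2 * x := by
    simpa [e, f, Algebra.smul_def] using h1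
  have hx0 : x ≠ 0 := by
    rintro rfl
    exact hx isAlgebraic_zero
  intro h3
  have h4 : σ x = x := h3
  rw [h2] at h4
  apply hx0
  linear_combination h4

/-- The algebraic case. -/
theorem field_algebraic_case (x : ℂ) (hx : IsAlgebraic ℚ x)
    (hq : x ∉ Set.range ((↑) : ℚ → ℂ)) : ∃ σ : ℂ →+* ℂ, σ x ≠ x := by
  have hxK : x ∈ algebraicClosure ℚ ℂ := mem_algebraicClosure_iff.mpr hx
  obtain ⟨x₀, hx₀⟩ : ∃ x₀ : algebraicClosure ℚ ℂ, (x₀ : ℂ) = x := ⟨⟨x, hxK⟩, rfl⟩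
  have hcl : IsAlgClosure ℚ (algebraicClosure ℚ ℂ) := algebraicClosure.isAlgClosure ℚ ℂ
  have hgal : IsGalois ℚ (algebraicClosure ℚ ℂ) := IsAlgClosure.isGalois ℚ (algebraicClosure ℚ ℂ)
  have hmove : ∃ τ : (algebraicClosure ℚ ℂ) ≃ₐ[ℚ] (algebraicClosure ℚ ℂ), τ x₀ ≠ x₀ := by
    by_contra hcon
    push_neg at hcon
    obtain ⟨q, hq'⟩ := (InfiniteGalois.mem_range_algebraMap_iff_fixed (k := ℚ)
      (K := algebraicClosure ℚ ℂ) x₀).mpr hcon
    apply hq
    refine ⟨q, ?_⟩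
    rw [← hx₀, ← hq']
    simp
  obtain ⟨τ, hτ⟩ := hmove
  obtain ⟨s, hs⟩ := exists_isTranscendenceBasis (algebraicClosure ℚ ℂ) ℂ
  obtain ⟨σ, hσ⟩ := field_exists_extend ((↑) : s → ℂ) hs
    (MvPolynomial.mapEquiv s τ.toRingEquiv)
  refine ⟨σ.toRingHom, ?_⟩
  have h1 := hσ (MvPolynomial.C x₀)
  have h2 : σ x = ((τ x₀ : algebraicClosure ℚ ℂ) : ℂ) := by
    simpa [hx₀] using h1
  intro h3
  have h4 : σ x = x := h3
  rw [h2, ← hx₀] at h4
  exact hτ (Subtype.ext h4)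

/-- (1) For every non-rational complex number there is a ring homomorphism `ℂ →+* ℂ` moving it. -/
theorem exists_ringHom_ne (x : ℂ) (hx : x ∉ Set.range ((↑) : ℚ → ℂ)) :
    ∃ σ : ℂ →+* ℂ, σ x ≠ x := by
  by_cases h : IsAlgebraic ℚ x
  · exact field_algebraic_case x h hx
  · exact field_transcendental_case x h

end Fermat.Agent.T23
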