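import Fermat.Agent.Lib.T23_Stable
import Fermat.Agent.Lib.T23_Field
import Fermat.Agent.Lib.T23_Bdd
import Fermat.Prelude.Thm_ModularForm_sturm_bound_Gamma0

/-!
# T23 piece (8): cusp forms of level `Γ₀(N)` are spanned by forms with rational `q`-expansion

Descent by induction on the number of nonzero coefficients below the Sturm bound: a nonzero form
whose support (below the Sturm bound) is minimal and which is normalised at one coefficient is
fixed by every conjugation, hence has rational coefficients.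
-/

set_option autoImplicit false

open UpperHalfPlane ModularForm CuspForm ModularFormClass
open scoped MatrixGroups Manifold

namespace Fermat.Agent.T23

/-- The Sturm bound. -/
noncomputable def sturmB (N : ℕ) (k : ℤ) : ℕ :=
  (k * (CongruenceSubgroup.Gamma0 N).index).toNat / 12

open scoped Classical in
/-- The set of indices `n` up to the Sturm bound with nonzero `n`-th coefficient. -/
noncomputable def csupp {N : ℕ} {k : ℤ} (f : CuspForm (CongruenceSubgroup.Gamma0 N) k) :
    Finset ℕ :=
  (Finset.range (sturmB N k + 1)).filter (fun n => ModularFormClass.qCoeff f n ≠ 0)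

theorem mem_csupp {N : ℕ} {k : ℤ} (f : CuspForm (CongruenceSubgroup.Gamma0 N) k) (n : ℕ) :
    n ∈ csupp f ↔ n < sturmB N k + 1 ∧ ModularFormClass.qCoeff f n ≠ 0 := by
  classical
  unfold csupp
  rw [Finset.mem_filter, Finset.mem_range]

theorem qcoeff_sub {N : ℕ} {k : ℤ} (f g : CuspForm (CongruenceSubgroup.Gamma0 N) k) (n : ℕ) :
    qCoeff ⇑(f - g) n = qCoeff ⇑f n - qCoeff ⇑g n := by
  have h : f - g = f + (-1 : ℂ) • g := by
    rw [neg_one_smul, sub_eq_add_neg]
  rw [h, qcoeff_add, qcoeff_smul]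
  ring

theorem eq_zero_of_csupp {N : ℕ} [NeZero N] {k : ℤ}
    (f : CuspForm (CongruenceSubgroup.Gamma0 N) k) (h : csupp f = ∅) : f = 0 := by
  have h1 : cuspToModG f = 0 := by
    apply ModularForm.sturm_bound_Gamma0 N (cuspToModG f)
    intro n hn
    by_contra hne
    have hmem : n ∈ csupp f := by
      rw [mem_csupp]
      exact ⟨Nat.lt_succ_of_le hn, hne⟩
    rw [h] at hmem
    exact absurd hmem (Finset.notMem_empty n)
  ext z
  have := congrArg (fun g : ModularForm (CongruenceSubgroup.Gamma0 N) k => g z) h1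
  simpa using this

theorem csupp_zero {N : ℕ} {k : ℤ} :
    csupp (0 : CuspForm (CongruenceSubgroup.Gamma0 N) k) = ∅ := by
  ext n
  rw [mem_csupp, qcoeff_zero]
  simp

theorem mem_span_rational (N : ℕ) [NeZero N] (k : ℤ) :
    ∀ (n : ℕ) (f : CuspForm (CongruenceSubgroup.Gamma0 N) k), (csupp f).card ≤ n →
      f ∈ Submodule.span ℂ {f : CuspForm (CongruenceSubgroup.Gamma0 N) k | RatForm f} := by
  intro n
  induction n with
  | zero =>
    intro f hf
    have : csupp f = ∅ := Finset.card_eq_zero.mp (Nat.le_zero.mp hf)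
    rw [eq_zero_of_csupp f this]
    exact Submodule.zero_mem _
  | succ n ih =>
    intro f hf
    by_cases hf0 : csupp f = ∅
    · rw [eq_zero_of_csupp f hf0]
      exact Submodule.zero_mem _
    obtain ⟨S, hS⟩ : ∃ S : Set (CuspForm (CongruenceSubgroup.Gamma0 N) k),
        S = {u | u ≠ 0 ∧ csupp u ⊆ csupp f} := ⟨_, rfl⟩
    have hfS : f ∈ S := by
      rw [hS]
      exact ⟨fun h => hf0 (by rw [h]; exact csupp_zero), subset_rfl⟩
    obtain ⟨u, huS, hmin⟩ := WellFounded.has_min
      (measure fun u : CuspForm (CongruenceSubgroup.Gamma0 N) k => (csupp u).card).wf S ⟨f, hfS⟩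
    have hmin' : ∀ x ∈ S, ¬ (csupp x).card < (csupp u).card := hmin
    rw [hS] at huS
    have hu0 : csupp u ≠ ∅ := fun h => huS.1 (eq_zero_of_csupp u h)
    obtain ⟨i, hi⟩ := Finset.nonempty_iff_ne_empty.mpr hu0
    have ha : qCoeff ⇑u i ≠ 0 := ((mem_csupp u i).mp hi).2
    obtain ⟨u₁, hu₁⟩ : ∃ u₁ : CuspForm (CongruenceSubgroup.Gamma0 N) k,
        u₁ = (qCoeff ⇑u i)⁻¹ • u := ⟨_, rfl⟩
    have hu₁c : ∀ j, qCoeff ⇑u₁ j = (qCoeff ⇑u i)⁻¹ * qCoeff ⇑u j := fun j => by
      rw [hu₁, qcoeff_smul]
    have hu₁i : qCoeff ⇑u₁ i = 1 := by rw [hu₁c, inv_mul_cancel₀ ha]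
    have hsupp : ∀ j, qCoeff ⇑u₁ j ≠ 0 → j < sturmB N k + 1 → j ∈ csupp f := by
      intro j hj hlt
      apply huS.2
      rw [mem_csupp]
      refine ⟨hlt, fun h => hj ?_⟩
      rw [hu₁c, h, mul_zero]
    have hsuppu : ∀ j, qCoeff ⇑u₁ j ≠ 0 → j < sturmB N k + 1 → j ∈ csupp u := by
      intro j hj hlt
      rw [mem_csupp]
      refine ⟨hlt, fun h => hj ?_⟩
      rw [hu₁c, h, mul_zero]
    have hrat : RatForm u₁ := by
      intro j
      by_contra hne
      have hx : qCoeff ⇑u₁ j ∉ Set.range ((↑) : ℚ → ℂ) := by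
        rintro ⟨r, hr⟩
        exact hne ⟨r, hr.symm⟩
      obtain ⟨σ, hσ⟩ := exists_ringHom_ne _ hx
      obtain ⟨g, hg⟩ := cuspForm_conj N σ u₁
      have hh : ∀ l, qCoeff ⇑(g - u₁) l = σ (qCoeff ⇑u₁ l) - qCoeff ⇑u₁ l := by
        intro l
        rw [qcoeff_sub, hg]
      by_cases h0 : g - u₁ = 0
      · have := hh j
        rw [h0, qcoeff_zero] at this
        exact hσ (sub_eq_zero.mp this.symm)
      · have hsub : csupp (g - u₁) ⊆ (csupp u).erase i := by
          intro l hl
          rw [mem_csupp] at hl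
          rw [Finset.mem_erase]
          refine ⟨?_, ?_⟩
          · rintro rfl
            apply hl.2
            rw [hh, hu₁i, map_one, sub_self]
          · apply hsuppu l _ hl.1
            intro h
            apply hl.2
            rw [hh, h, map_zero, sub_self]
        have hmem : g - u₁ ∈ S := by
          rw [hS]
          exact ⟨h0, hsub.trans ((Finset.erase_subset _ _).trans huS.2)⟩
        apply hmin' _ hmem
        calc (csupp (g - u₁)).card ≤ ((csupp u).erase i).card := Finset.card_le_card hsub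
          _ < (csupp u).card := Finset.card_erase_lt_of_mem hi
    -- reduce `f`
    obtain ⟨f', hf'⟩ : ∃ f' : CuspForm (CongruenceSubgroup.Gamma0 N) k,
        f' = f - qCoeff ⇑f i • u₁ := ⟨_, rfl⟩
    have hf'c : ∀ j, qCoeff ⇑f' j = qCoeff ⇑f j - qCoeff ⇑f i * qCoeff ⇑u₁ j := by
      intro j
      rw [hf', qcoeff_sub, qcoeff_smul]
    have hif : i ∈ csupp f := huS.2 hi
    have hsub : csupp f' ⊆ (csupp f).erase i := by
      intro j hj
      rw [mem_csupp] at hj
      rw [Finset.mem_erase]
      refine ⟨?_, ?_⟩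
      · rintro rfl
        apply hj.2
        rw [hf'c, hu₁i, mul_one, sub_self]
      · by_contra hjf
        have h1 : qCoeff ⇑u₁ j = 0 := by
          by_contra hne
          exact hjf (hsupp j hne hj.1)
        have h2 : qCoeff ⇑f j = 0 := by
          by_contra hne
          exact hjf ((mem_csupp f j).mpr ⟨hj.1, hne⟩)
        apply hj.2
        rw [hf'c, h1, h2, mul_zero, sub_zero]
    have hcard : (csupp f').card ≤ n := by
      have h1 := Finset.card_le_card hsub
      have h2 := Finset.card_erase_lt_of_mem hif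
      omega
    have h1 := ih f' hcard
    have h2 : f = f' + qCoeff ⇑f i • u₁ := by
      rw [hf', sub_add_cancel]
    rw [h2]
    exact Submodule.add_mem _ h1 (Submodule.smul_mem _ _ (Submodule.subset_span hrat))

/-- (8) -/
theorem span_rational (N : ℕ) [NeZero N] (k : ℤ) :
    Submodule.span ℂ {f : CuspForm (CongruenceSubgroup.Gamma0 N) k |
      ∀ n : ℕ, ∃ r : ℚ, ModularFormClass.qCoeff f n = (r : ℂ)} = ⊤ := by
  rw [eq_top_iff]
  intro f _
  exact mem_span_rational N k _ f le_rfl

end Fermat.Agent.T23
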