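import Fermat.Agent.Lib.T23_HN
import Fermat.Agent.Lib.T23_Coset

/-!
# T23 piece (4): interpolation of a level `Γ₀(N)` form through level one forms and `H`
-/

set_option autoImplicit false

open UpperHalfPlane ModularForm CuspForm ModularFormClass SlashInvariantForm
open scoped MatrixGroups Manifold

namespace Fermat.Agent.T23

open Matrix.SpecialLinearGroup

/-- Function-level predicate: `F` is a level one modular form of weight `w`. -/
structure IsMF1 (w : ℤ) (F : ℍ → ℂ) : Prop where
  inv : ∀ γ : SL(2, ℤ), F ∣[w] γ = F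
  hol : MDiff F
  bdd : IsBoundedAtImInfty F

/-- The modular form attached to `IsMF1`. -/
noncomputable def IsMF1.toMod {w : ℤ} {F : ℍ → ℂ} (h : IsMF1 w F) : ModularForm 𝒮ℒ w :=
  mkMod1 F w h.inv h.hol h.bdd

@[simp] theorem IsMF1.toMod_apply {w : ℤ} {F : ℍ → ℂ} (h : IsMF1 w F) (z : ℍ) :
    h.toMod z = F z := rfl

theorem IsMF1.of_mod {w : ℤ} (f : ModularForm 𝒮ℒ w) : IsMF1 w f where
  inv γ := by
    rw [ModularForm.SL_slash]
    exact f.slash_action_eq' _ ⟨γ, rfl⟩
  hol := f.holo'
  bdd := (QNice.of_levelOne f).bdd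

theorem IsMF1.congr {a b : ℤ} {F : ℍ → ℂ} (h : IsMF1 a F) (hab : a = b) : IsMF1 b F := hab ▸ h

theorem IsMF1.mul {a b : ℤ} {F G : ℍ → ℂ} (hF : IsMF1 a F) (hG : IsMF1 b G) :
    IsMF1 (a + b) (F * G) where
  inv γ := by rw [ModularForm.mul_slash_SL2, hF.inv, hG.inv]
  hol := hF.hol.mul hG.hol
  bdd := hF.bdd.mul hG.bdd

theorem IsMF1.add {a : ℤ} {F G : ℍ → ℂ} (hF : IsMF1 a F) (hG : IsMF1 a G) :
    IsMF1 a (F + G) where
  inv γ := by rw [SlashAction.add_slash, hF.inv, hG.inv]
  hol := hF.hol.add hG.hol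
  bdd := hF.bdd.add hG.bdd

theorem IsMF1.zero (a : ℤ) : IsMF1 a (0 : ℍ → ℂ) where
  inv γ := by rw [SlashAction.zero_slash]
  hol := mdifferentiable_const
  bdd := QNice.zero.bdd

theorem IsMF1.one : IsMF1 0 (1 : ℍ → ℂ) where
  inv γ := ModularForm.is_invariant_one γ
  hol := mdifferentiable_const
  bdd := QNice.one.bdd

theorem IsMF1.smul {a : ℤ} {F : ℍ → ℂ} (c : ℂ) (hF : IsMF1 a F) : IsMF1 a (c • F) where
  inv γ := by rw [ModularForm.SL_smul_slash, hF.inv]
  hol := hF.hol.const_smul c
  bdd := by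
    have h := (QNice.const c).bdd.mul hF.bdd
    have e : c • F = (fun _ : ℍ => c) * F := by ext z; simp
    rw [e]
    exact h

theorem IsMF1.pow {a : ℤ} {F : ℍ → ℂ} (hF : IsMF1 a F) (n : ℕ) : IsMF1 ((n : ℤ) * a) (F ^ n) := by
  induction n with
  | zero => simpa using IsMF1.one
  | succ n ih =>
    rw [pow_succ]
    exact (ih.mul hF).congr (by push_cast; ring)

theorem IsMF1.sum {ι : Type*} {a : ℤ} (s : Finset ι) {F : ι → ℍ → ℂ}
    (h : ∀ i ∈ s, IsMF1 a (F i)) : IsMF1 a (∑ i ∈ s, F i) := by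
  classical
  induction s using Finset.induction_on with
  | empty => simpa using IsMF1.zero a
  | insert x s hx ih =>
    rw [Finset.sum_insert hx]
    exact (h x (Finset.mem_insert_self x s)).add
      (ih fun i hi => h i (Finset.mem_insert_of_mem hi))

theorem IsMF1.prod {ι : Type*} (s : Finset ι) (v : ι → ℤ) {F : ι → ℍ → ℂ}
    (h : ∀ i ∈ s, IsMF1 (v i) (F i)) : IsMF1 (∑ i ∈ s, v i) (∏ i ∈ s, F i) := by
  classical
  induction s using Finset.induction_on with
  | empty => simpa using IsMF1.one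
  | insert x s hx ih =>
    rw [Finset.sum_insert hx, Finset.prod_insert hx]
    exact (h x (Finset.mem_insert_self x s)).mul
      (ih fun i hi => h i (Finset.mem_insert_of_mem hi))

/-- The determinant of a matrix of level one forms with column weights `v`. -/
theorem IsMF1.det {n : Type} [Fintype n] [DecidableEq n] (M : n → n → ℍ → ℂ) (v : n → ℤ)
    (h : ∀ a b, IsMF1 (v b) (M a b)) :
    IsMF1 (∑ b, v b) (fun z => Matrix.det (Matrix.of fun a b => M a b z)) := by
  have h1 : (fun z => Matrix.det (Matrix.of fun a b => M a b z)) =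
      ∑ π : Equiv.Perm n, ((Equiv.Perm.sign π : ℤ) : ℂ) • ∏ b, M (π b) b := by
    funext z
    rw [Matrix.det_apply]
    simp only [Finset.sum_apply, Pi.smul_apply, Finset.prod_apply, Matrix.of_apply]
    refine Finset.sum_congr rfl fun π _ => ?_
    rw [Units.smul_def, zsmul_eq_mul, smul_eq_mul]
  rw [h1]
  exact IsMF1.sum _ fun π _ => (IsMF1.prod _ v fun b _ => h (π b) b).smul _


section gram

open Matrix

variable {K : Type*} [Field K] {J : Type*} [Fintype J] (m : ℕ) (e : J ≃ Fin (m + 1))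
  (H φ : J → K) (D : K)

/-- Homogeneous Gram matrix of the power sums. -/
def gramMat : Matrix (Fin (m + 1)) (Fin (m + 1)) K :=
  Matrix.of fun i i' => D ^ (2 * m - (i : ℕ) - (i' : ℕ)) * ∑ j, H j ^ ((i : ℕ) + (i' : ℕ))

/-- Homogeneous trace vector. -/
def traceVec : Fin (m + 1) → K :=
  fun i => D ^ (m - (i : ℕ)) * ∑ j, φ j * H j ^ (i : ℕ)

/-- Homogeneous Vandermonde matrix. -/
def hvand : Matrix (Fin (m + 1)) (Fin (m + 1)) K :=
  Matrix.of fun a i => D ^ (m - (i : ℕ)) * H (e.symm a) ^ (i : ℕ)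

theorem gramMat_eq : gramMat m H D = (hvand m e H D)ᵀ * hvand m e H D := by
  ext i i'
  simp only [gramMat, hvand, Matrix.mul_apply, Matrix.transpose_apply, Matrix.of_apply]
  rw [← Equiv.sum_comp e.symm (fun j => H j ^ ((i : ℕ) + (i' : ℕ))), Finset.mul_sum]
  refine Finset.sum_congr rfl fun a _ => ?_
  have hi : (i : ℕ) ≤ m := Nat.lt_succ_iff.mp i.2
  have hi' : (i' : ℕ) ≤ m := Nat.lt_succ_iff.mp i'.2
  have h1 : 2 * m - (i : ℕ) - (i' : ℕ) = (m - (i : ℕ)) + (m - (i' : ℕ)) := by omega
  rw [h1, pow_add, pow_add]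
  ring

theorem traceVec_eq : traceVec m H φ D = (hvand m e H D)ᵀ *ᵥ (φ ∘ e.symm) := by
  ext i
  simp only [traceVec, hvand, Matrix.mulVec, dotProduct, Matrix.transpose_apply, Matrix.of_apply,
    Function.comp_apply]
  rw [← Equiv.sum_comp e.symm (fun j => φ j * H j ^ (i : ℕ)), Finset.mul_sum]
  refine Finset.sum_congr rfl fun a _ => ?_
  ring

theorem det_gramMat : (gramMat m H D).det = (hvand m e H D).det ^ 2 := by
  rw [gramMat_eq m e, Matrix.det_mul, Matrix.det_transpose, sq]

include e in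
/-- The interpolation identity. -/
theorem gram_cramer (j : J) :
    ∑ i : Fin (m + 1), Matrix.cramer (gramMat m H D) (traceVec m H φ D) i *
      D ^ (m - (i : ℕ)) * H j ^ (i : ℕ) = (gramMat m H D).det * φ j := by
  classical
  set W := hvand m e H D with hW
  have h1 : Matrix.cramer (gramMat m H D) (traceVec m H φ D) =
      W.det • (W.adjugate *ᵥ (φ ∘ e.symm)) := by
    rw [Matrix.cramer_eq_adjugate_mulVec, gramMat_eq m e, traceVec_eq m e, ← hW,
      Matrix.adjugate_mul_distrib, ← Matrix.mulVec_mulVec,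
      Matrix.mulVec_mulVec (φ ∘ e.symm) (adjugate Wᵀ) Wᵀ,
      Matrix.adjugate_mul, Matrix.det_transpose, Matrix.smul_mulVec, Matrix.one_mulVec,
      Matrix.mulVec_smul]
  have h2 : W *ᵥ Matrix.cramer (gramMat m H D) (traceVec m H φ D) =
      (W.det * W.det) • (φ ∘ e.symm) := by
    rw [h1, Matrix.mulVec_smul, Matrix.mulVec_mulVec, Matrix.mul_adjugate, Matrix.smul_mulVec,
      Matrix.one_mulVec, smul_smul]
  have h3 := congrFun h2 (e j)
  rw [det_gramMat m e, sq]
  simp only [Matrix.mulVec, dotProduct, Pi.smul_apply, Function.comp_apply, Equiv.symm_apply_apply,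
    smul_eq_mul] at h3
  rw [← h3]
  refine Finset.sum_congr rfl fun i _ => ?_
  simp only [hW, hvand, Matrix.of_apply, Equiv.symm_apply_apply]
  ring

omit [Fintype J] in
theorem det_hvand_ne_zero (hD : D ≠ 0) (hH : Function.Injective H) :
    (hvand m e H D).det ≠ 0 := by
  have h1 : hvand m e H D = D ^ m • Matrix.vandermonde (fun a => H (e.symm a) / D) := by
    ext a i
    simp only [hvand, Matrix.of_apply, Matrix.smul_apply, Matrix.vandermonde_apply, smul_eq_mul]
    have hi : (i : ℕ) ≤ m := Nat.lt_succ_iff.mp i.2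
    rw [div_pow]
    have : D ^ m = D ^ (m - (i : ℕ)) * D ^ (i : ℕ) := by rw [← pow_add]; congr 1; omega
    rw [this]
    field_simp
  rw [h1, Matrix.det_smul]
  refine mul_ne_zero (pow_ne_zero _ (pow_ne_zero _ hD)) ?_
  rw [Matrix.det_vandermonde_ne_zero_iff]
  intro a b hab
  simp only at hab
  have := hH ((div_left_inj' hD).mp hab)
  exact e.symm.injective this

include e in
theorem det_gramMat_ne_zero (hD : D ≠ 0) (hH : Function.Injective H) :
    (gramMat m H D).det ≠ 0 := by
  rw [det_gramMat m e]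
  exact pow_ne_zero _ (det_hvand_ne_zero m e H D hD hH)

end gram


/-- Holomorphic functions on `ℍ` form a domain. -/
theorem mdiff_mul_eq_zero {F G : ℍ → ℂ} (hF : MDiff F) (hG : MDiff G)
    (h : ∀ z, F z * G z = 0) : F = 0 ∨ G = 0 := by
  have hU : IsOpen {z : ℂ | 0 < z.im} := UpperHalfPlane.isOpen_upperHalfPlaneSet
  have hF' := (UpperHalfPlane.mdifferentiable_iff.mp hF).analyticOnNhd hU
  have hG' := (UpperHalfPlane.mdifferentiable_iff.mp hG).analyticOnNhd hU
  have hpre : IsPreconnected {z : ℂ | 0 < z.im} := (convex_halfSpace_im_gt 0).isPreconnected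
  have hmul : ∀ z ∈ {z : ℂ | 0 < z.im}, (F ∘ ofComplex) z * (G ∘ ofComplex) z = 0 := by
    intro z _
    exact h _
  rcases hF'.eq_zero_or_eq_zero_of_mul_eq_zero hG' hmul hpre with h1 | h1
  · left
    funext τ
    have := h1 (τ : ℂ) τ.im_pos
    simpa using this
  · right
    funext τ
    have := h1 (τ : ℂ) τ.im_pos
    simpa using this

theorem mdiff_finset_prod {ι : Type*} (T : Finset ι) (F : ι → ℍ → ℂ)
    (h : ∀ s ∈ T, MDiff (F s)) : MDiff (fun z => ∏ s ∈ T, F s z) := by
  classical
  induction T using Finset.induction_on with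
  | empty =>
    simp only [Finset.prod_empty]
    exact mdifferentiable_const
  | insert a T ha ih =>
    have e : (fun z => ∏ s ∈ insert a T, F s z) = F a * fun z => ∏ s ∈ T, F s z := by
      funext z
      rw [Finset.prod_insert ha]
      rfl
    rw [e]
    exact (h a (Finset.mem_insert_self a T)).mul
      (ih fun s hs => h s (Finset.mem_insert_of_mem hs))

theorem mdiff_finset_sum {ι : Type*} (T : Finset ι) (F : ι → ℍ → ℂ)
    (h : ∀ s ∈ T, MDiff (F s)) : MDiff (fun z => ∑ s ∈ T, F s z) := by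
  classical
  induction T using Finset.induction_on with
  | empty =>
    simp only [Finset.sum_empty]
    exact mdifferentiable_const
  | insert a T ha ih =>
    have e : (fun z => ∑ s ∈ insert a T, F s z) = F a + fun z => ∑ s ∈ T, F s z := by
      funext z
      rw [Finset.sum_insert ha]
      rfl
    rw [e]
    exact (h a (Finset.mem_insert_self a T)).add
      (ih fun s hs => h s (Finset.mem_insert_of_mem hs))

theorem bdd_finset_sum {ι : Type*} (T : Finset ι) (F : ι → ℍ → ℂ)
    (h : ∀ s ∈ T, IsBoundedAtImInfty (F s)) : IsBoundedAtImInfty (fun z => ∑ s ∈ T, F s z) := by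
  classical
  induction T using Finset.induction_on with
  | empty =>
    simp only [Finset.sum_empty]
    exact QNice.zero.bdd
  | insert a T ha ih =>
    have e : (fun z => ∑ s ∈ insert a T, F s z) = F a + fun z => ∑ s ∈ T, F s z := by
      funext z
      rw [Finset.sum_insert ha]
      rfl
    rw [e]
    exact (h a (Finset.mem_insert_self a T)).add
      (ih fun s hs => h s (Finset.mem_insert_of_mem hs))

/-- Finitely many nonzero holomorphic functions on `ℍ` have a common non-zero. -/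
theorem exists_forall_ne_zero {ι : Type*} (S : Finset ι) (F : ι → ℍ → ℂ)
    (hF : ∀ s ∈ S, MDiff (F s)) (hne : ∀ s ∈ S, F s ≠ 0) : ∃ z, ∀ s ∈ S, F s z ≠ 0 := by
  classical
  by_contra hcon
  push Not at hcon
  have hprod : ∀ T : Finset ι, T ⊆ S → (∀ z, ∏ s ∈ T, F s z = 0) → ∃ s ∈ T, F s = 0 := by
    intro T
    induction T using Finset.induction_on with
    | empty =>
      intro _ h0
      have := h0 UpperHalfPlane.I
      simp at this
    | insert a T ha ih =>
      intro hTS h0
      have hmd : MDiff (fun z => ∏ s ∈ T, F s z) :=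
        mdiff_finset_prod T F fun s hs => hF s (hTS (Finset.mem_insert_of_mem hs))
      have h1 : ∀ z, F a z * (fun z => ∏ s ∈ T, F s z) z = 0 := by
        intro z
        have := h0 z
        rwa [Finset.prod_insert ha] at this
      rcases mdiff_mul_eq_zero (hF a (hTS (Finset.mem_insert_self a T))) hmd h1 with h2 | h2
      · exact ⟨a, Finset.mem_insert_self a T, h2⟩
      · obtain ⟨s, hs, hs0⟩ := ih (fun x hx => hTS (Finset.mem_insert_of_mem hx))
          (fun z => congrFun h2 z)
        exact ⟨s, Finset.mem_insert_of_mem hs, hs0⟩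
  obtain ⟨s, hs, hs0⟩ := hprod S (Finset.Subset.refl S) (fun z => by
    obtain ⟨s, hs, hsz⟩ := hcon z
    exact Finset.prod_eq_zero hs hsz)
  exact hne s hs hs0

variable {N : ℕ} [NeZero N]

/-- The translates of `H` are pairwise distinct. -/
theorem qf_HN_injective : Function.Injective (fun j : J N => quotientFunc (HNform N) j) := by
  intro j j' hjj
  simp only at hjj
  induction j using Quotient.inductionOn with
  | h r =>
  induction j' using Quotient.inductionOn with
  | h r' =>
  rw [quotientFunc_mk, quotientFunc_mk, HNform_coe] at hjj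
  have h1 : HN N ∣[(12 : ℤ)] (r.val⁻¹ * r'.val) = HN N := by
    rw [SlashAction.slash_mul, hjj, ← SlashAction.slash_mul, inv_mul_cancel, SlashAction.slash_one]
  obtain ⟨ρ, hρ⟩ := r.2
  obtain ⟨ρ', hρ'⟩ := r'.2
  have h2 : r.val⁻¹ * r'.val = mapGL ℝ (ρ⁻¹ * ρ') := by
    rw [map_mul, map_inv, hρ, hρ']
  have h3 : ρ⁻¹ * ρ' ∈ CongruenceSubgroup.Gamma0 N := by
    by_contra hnot
    apply HN_slash_ne N _ hnot
    rw [ModularForm.SL_slash]
    have : ((ρ⁻¹ * ρ' : SL(2, ℤ)) : GL (Fin 2) ℝ) = r.val⁻¹ * r'.val := h2.symm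
    rw [this]
    exact h1
  apply Quotient.sound
  refine QuotientGroup.leftRel_apply.mpr ?_
  rw [Subgroup.mem_subgroupOf, Subgroup.coe_mul, Subgroup.coe_inv, h2]
  exact ⟨_, h3, rfl⟩


theorem bdd_pow {F : ℍ → ℂ} (h : IsBoundedAtImInfty F) (n : ℕ) : IsBoundedAtImInfty (F ^ n) := by
  induction n with
  | zero => simpa using QNice.one.bdd
  | succ n ih => rw [pow_succ]; exact ih.mul h

/-- Symmetric sums of two permuted families are level one forms. -/
theorem isMF1_family {ka kb : ℤ} (A B : J N → ℍ → ℂ)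
    (hA : ∀ (γ : SL(2, ℤ)) (j : J N), A j ∣[ka] γ = A ((toSL γ)⁻¹ • j))
    (hB : ∀ (γ : SL(2, ℤ)) (j : J N), B j ∣[kb] γ = B ((toSL γ)⁻¹ • j))
    (hAh : ∀ j, MDiff (A j)) (hBh : ∀ j, MDiff (B j))
    (hAb : ∀ j, IsBoundedAtImInfty (A j)) (hBb : ∀ j, IsBoundedAtImInfty (B j)) (i : ℕ) :
    IsMF1 (ka + kb * i) (fun z => ∑ j, A j z * B j z ^ i) where
  inv γ := by
    funext z
    rw [ModularForm.SL_slash_apply, Finset.sum_mul]
    rw [← Equiv.sum_comp (MulAction.toPerm (toSL γ)⁻¹ : Equiv.Perm (J N))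
      (fun j => A j z * B j z ^ i)]
    refine Finset.sum_congr rfl fun j _ => ?_
    have h1 := congrFun (hA γ j) z
    have h2 := congrFun (hB γ j) z
    rw [ModularForm.SL_slash_apply] at h1 h2
    simp only [MulAction.toPerm_apply]
    rw [← h1, ← h2]
    have hd : denom (toGL ((map (Int.castRingHom ℝ)) γ)) (z : ℂ) ≠ 0 :=
      UpperHalfPlane.denom_ne_zero _ z
    rw [mul_pow, ← zpow_natCast (denom _ _ ^ (-kb)) i, ← zpow_mul, neg_add, zpow_add₀ hd]
    have : -(kb * (i : ℤ)) = -kb * (i : ℤ) := by ring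
    rw [this]
    ring
  hol := by
    refine mdiff_finset_sum _ (fun j z => A j z * B j z ^ i) fun j _ => ?_
    exact (hAh j).mul ((hBh j).pow i)
  bdd := by
    refine bdd_finset_sum _ (fun j z => A j z * B j z ^ i) fun j _ => ?_
    exact (hAb j).mul (bdd_pow (hBb j) i)


/-- (4) There is a nonzero level one form `δ` such that for every `f ∈ M_k(Γ₀(N))`,
`δ · f = ∑ i ≤ m, R i · Δ ^ (m - i) · H ^ i` with level one forms `R i`. -/
theorem exists_interpolation (N : ℕ) [NeZero N] :
    ∃ (w : ℤ) (m : ℕ) (δ : ModularForm 𝒮ℒ w), δ ≠ 0 ∧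
      ∀ (k : ℤ) (f : ModularForm (CongruenceSubgroup.Gamma0 N) k),
        ∃ R : Fin (m + 1) → ModularForm 𝒮ℒ (w + k - 12 * m),
          ∀ z : ℍ, δ z * f z =
            ∑ i : Fin (m + 1),
              R i z * ModularForm.discriminant z ^ (m - (i : ℕ)) * HN N z ^ (i : ℕ) := by
  classical
  have hcard : 0 < Fintype.card (J N) := Fintype.card_pos_iff.mpr ⟨⟦1⟧⟩
  obtain ⟨m, hm⟩ : ∃ m, Fintype.card (J N) = m + 1 := ⟨Fintype.card (J N) - 1, by omega⟩
  let e : J N ≃ Fin (m + 1) := Fintype.equivFinOfCardEq hm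
  let Hq : J N → ℍ → ℂ := fun j => quotientFunc (HNform N) j
  let GM : ℍ → Matrix (Fin (m + 1)) (Fin (m + 1)) ℂ :=
    fun z => gramMat m (fun j => Hq j z) (ModularForm.discriminant z)
  have hΔ : IsMF1 12 ModularForm.discriminant := IsMF1.of_mod DeltaMF
  have hHslash : ∀ (γ : SL(2, ℤ)) (j : J N), Hq j ∣[(12 : ℤ)] γ = Hq ((toSL γ)⁻¹ • j) :=
    fun γ j => qf_slash (HNform N) γ j
  have hP : ∀ n : ℕ, IsMF1 (12 * n) (fun z => ∑ j, Hq j z ^ n) := by
    intro n
    have h := isMF1_family (ka := 0) (kb := 12) (fun _ : J N => (1 : ℍ → ℂ)) Hq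
      (fun γ j => ModularForm.is_invariant_one γ) hHslash
      (fun _ => mdifferentiable_const) (fun j => qf_mdiff _ j)
      (fun _ => QNice.one.bdd) (fun j => qf_bdd _ j) n
    simpa using h
  have hG : ∀ i i' : Fin (m + 1), IsMF1 (24 * m) (fun z => GM z i i') := by
    intro i i'
    have h1 := (hΔ.pow (2 * m - (i : ℕ) - (i' : ℕ))).mul (hP ((i : ℕ) + (i' : ℕ)))
    have hi : (i : ℕ) ≤ m := Nat.lt_succ_iff.mp i.2
    have hi' : (i' : ℕ) ≤ m := Nat.lt_succ_iff.mp i'.2
    refine h1.congr ?_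
    have : ((2 * m - (i : ℕ) - (i' : ℕ) : ℕ) : ℤ) = 2 * (m : ℤ) - (i : ℕ) - (i' : ℕ) := by
      omega
    rw [this]
    push_cast
    ring
  obtain ⟨w, hw⟩ : ∃ w : ℤ, w = ∑ _b : Fin (m + 1), (24 * (m : ℤ)) := ⟨_, rfl⟩
  have hδ : IsMF1 w (fun z => (GM z).det) := by
    rw [hw]
    exact IsMF1.det (fun i i' z => GM z i i') (fun _ => 24 * (m : ℤ)) (fun a b => hG a b)
  refine ⟨w, m, hδ.toMod, ?_, ?_⟩
  · -- `δ ≠ 0`
    obtain ⟨z₀, hz₀⟩ := exists_forall_ne_zero
      ((Finset.univ : Finset (J N × J N)).filter fun p => p.1 ≠ p.2)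
      (fun p => Hq p.1 - Hq p.2)
      (fun p _ => (qf_mdiff _ p.1).sub (qf_mdiff _ p.2))
      (fun p hp => by
        rw [Finset.mem_filter] at hp
        intro h0
        exact hp.2 (qf_HN_injective (sub_eq_zero.mp h0)))
    intro h0
    have h1 : hδ.toMod z₀ = 0 := by rw [h0]; rfl
    rw [IsMF1.toMod_apply] at h1
    refine det_gramMat_ne_zero m e (fun j => Hq j z₀) (ModularForm.discriminant z₀)
      (ModularForm.discriminant_ne_zero z₀) ?_ h1
    intro j j' hjj
    by_contra hne
    exact hz₀ (j, j') (by simp [hne]) (by simpa [sub_eq_zero] using hjj)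
  · intro k f
    let fq : J N → ℍ → ℂ := fun j => quotientFunc f j
    let TV : ℍ → Fin (m + 1) → ℂ :=
      fun z => traceVec m (fun j => Hq j z) (fun j => fq j z) (ModularForm.discriminant z)
    have ht : ∀ i : Fin (m + 1), IsMF1 (k + 12 * m) (fun z => TV z i) := by
      intro i
      have h1 := (hΔ.pow (m - (i : ℕ))).mul
        (isMF1_family (ka := k) (kb := 12) fq Hq (fun γ j => qf_slash f γ j) hHslash
          (fun j => qf_mdiff f j) (fun j => qf_mdiff _ j)
          (fun j => qf_bdd f j) (fun j => qf_bdd _ j) (i : ℕ))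
      have hi : (i : ℕ) ≤ m := Nat.lt_succ_iff.mp i.2
      refine h1.congr ?_
      have : ((m - (i : ℕ) : ℕ) : ℤ) = (m : ℤ) - (i : ℕ) := by omega
      rw [this]
      ring
    have hR : ∀ i : Fin (m + 1),
        IsMF1 (w + k - 12 * m) (fun z => Matrix.cramer (GM z) (TV z) i) := by
      intro i
      have h1 := IsMF1.det (fun a b z => if b = i then TV z a else GM z a b)
        (fun b => if b = i then k + 12 * (m : ℤ) else 24 * (m : ℤ))
        (fun a b => by
          by_cases hb : b = i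
          · simp only [hb, if_true]
            exact ht a
          · simp only [hb, if_false]
            exact hG a b)
      have h2 : (fun z => Matrix.det (Matrix.of fun a b => if b = i then TV z a else GM z a b)) =
          fun z => Matrix.cramer (GM z) (TV z) i := by
        funext z
        rw [Matrix.cramer_apply]
        congr 1
        ext a b
        rw [Matrix.updateCol_apply]
        rfl
      rw [h2] at h1
      refine h1.congr ?_
      have h3 : ∀ b : Fin (m + 1), (if b = i then k + 12 * (m : ℤ) else 24 * (m : ℤ)) =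
          24 * (m : ℤ) + if b = i then k - 12 * (m : ℤ) else 0 := by
        intro b
        split_ifs <;> ring
      simp only [h3]
      rw [Finset.sum_add_distrib, Finset.sum_ite_eq' Finset.univ i, if_pos (Finset.mem_univ i),
        ← hw]
      ring
    refine ⟨fun i => (hR i).toMod, fun z => ?_⟩
    simp only [IsMF1.toMod_apply]
    have h := gram_cramer m e (fun j => Hq j z) (fun j => fq j z) (ModularForm.discriminant z)
      (⟦1⟧ : J N)
    have e1 : Hq (⟦1⟧ : J N) z = HN N z := by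
      show quotientFunc (HNform N) (⟦1⟧ : J N) z = HN N z
      rw [qf_one_coset, HNform_coe]
    have e2 : fq (⟦1⟧ : J N) z = f z := by
      show quotientFunc f (⟦1⟧ : J N) z = f z
      rw [qf_one_coset]
    simp only [e1, e2] at h
    exact h.symm

end Fermat.Agent.T23
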