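import Fermat.Agent.Lib.T23_Defs

/-!
# T23 piece (2): level one modular forms are stable under conjugation of `q`-expansions
-/

set_option autoImplicit false

open UpperHalfPlane ModularForm CuspForm ModularFormClass
open scoped MatrixGroups Manifold

namespace Fermat.Agent.T23

/-- The `q`-expansion of the normalised Eisenstein series `E_n` has rational coefficients. -/
theorem levelOne_E_qExpansion_map (σ : ℂ →+* ℂ) {n : ℕ} (hn : 3 ≤ n) (hn2 : Even n) :
    PowerSeries.map σ (qExpansion 1 (E hn)) = qExpansion 1 (E hn) := by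
  ext m
  rw [PowerSeries.coeff_map, EisensteinSeries.E_qExpansion_coeff hn hn2 m]
  split_ifs with h
  · simp
  · simp [map_ratCast, map_ofNat]

/-- `E_n` is self-conjugate. -/
theorem levelOne_E_qConj (σ : ℂ →+* ℂ) {n : ℕ} (hn : 3 ≤ n) (hn2 : Even n) :
    QConj σ (E hn) (E hn) :=
  QConj.of_fixed (QNice.of_levelOne (E hn)) (levelOne_E_qExpansion_map σ hn hn2)

/-- `Δ` is nice. -/
theorem levelOne_discriminant_nice : QNice ModularForm.discriminant := by
  have := QNice.of_levelOne (CuspForm.toModularFormₗ CuspForm.discriminant)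
  exact this

/-- `Δ` is self-conjugate. -/
theorem levelOne_discriminant_qConj (σ : ℂ →+* ℂ) :
    QConj σ ModularForm.discriminant ModularForm.discriminant := by
  have h4 := levelOne_E_qConj σ (n := 4) (by norm_num) ⟨2, rfl⟩
  have h6 := levelOne_E_qConj σ (n := 6) (by norm_num) ⟨3, rfl⟩
  have h := ((h4.pow 3).sub (h6.pow 2)).smul (1 / 1728 : ℂ)
  have hσ : σ (1 / 1728 : ℂ) = 1 / 1728 := by rw [map_div₀, map_one, map_ofNat]
  rw [hσ] at h
  have hΔ : ModularForm.discriminant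
      = (1 / 1728 : ℂ) • ((E₄ : ℍ → ℂ) ^ 3 - (E₆ : ℍ → ℂ) ^ 2) := by
    ext z
    rw [discriminant_eq_E₄_cube_sub_E₆_sq z]
    simp only [Pi.smul_apply, Pi.sub_apply, Pi.pow_apply, smul_eq_mul]
    ring
  rw [hΔ]
  exact h

/-- (2a) The `q`-expansion of `Δ` is fixed by every ring endomorphism of `ℂ`. -/
theorem discriminant_qExpansion_map (σ : ℂ →+* ℂ) :
    PowerSeries.map σ (qExpansion 1 ModularForm.discriminant) =
      qExpansion 1 ModularForm.discriminant :=
  (levelOne_discriminant_qConj σ).qExp.symm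

/-- The zero form is a conjugate of any form whose underlying function vanishes. -/
theorem levelOne_conj_of_eq_zero (σ : ℂ →+* ℂ) {k : ℤ} (f : ModularForm 𝒮ℒ k)
    (hf : (f : ℍ → ℂ) = 0) :
    ∃ g : ModularForm 𝒮ℒ k, qExpansion 1 g = PowerSeries.map σ (qExpansion 1 f) := by
  refine ⟨0, ?_⟩
  rw [hf, ModularForm.coe_zero, qExpansion_zero, map_zero]

/-- Auxiliary strong induction for `levelOne_conj`. -/
theorem levelOne_conj_aux (σ : ℂ →+* ℂ) (n : ℕ) :
    ∀ k : ℤ, k < n → ∀ f : ModularForm 𝒮ℒ k,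
      ∃ g : ModularForm 𝒮ℒ k, qExpansion 1 g = PowerSeries.map σ (qExpansion 1 f) := by
  induction n with
  | zero =>
    intro k hk f
    exact levelOne_conj_of_eq_zero σ f (levelOne_neg_weight_eq_zero (by simpa using hk) f)
  | succ n ih =>
    intro k hk f
    by_cases hkn : k < n
    · exact ih k hkn f
    have hk' : k = n := by push_cast at hk; omega
    by_cases hodd : Odd k
    · refine levelOne_conj_of_eq_zero σ f ?_
      rw [levelOne_odd_weight_eq_zero hodd f]; rfl
    have heven : Even k := Int.not_odd_iff_even.mp hodd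
    by_cases h0 : k = 0
    · subst h0
      obtain ⟨c, hc⟩ := levelOne_weight_zero_const f
      refine ⟨ModularForm.const (σ c), ?_⟩
      rw [hc, ModularForm.coe_const]
      exact (QConj.const (σ := σ) c).qExp
    by_cases h2 : k = 2
    · subst h2
      refine levelOne_conj_of_eq_zero σ f ?_
      rw [rank_zero_iff_forall_zero.mp levelOne_weight_two_rank_zero f]; rfl
    -- now `k = n ≥ 4` is even
    subst hk'
    have hn4 : 4 ≤ n := by
      rcases heven with ⟨r, hr⟩
      omega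
    have hn3 : 3 ≤ n := by omega
    have hn2 : Even n := by exact_mod_cast heven
    obtain ⟨a₀, ha₀⟩ : ∃ a₀ : ℂ, a₀ = (qExpansion 1 f).coeff 0 := ⟨_, rfl⟩
    have hcoeff : (qExpansion 1 ⇑(f - a₀ • E hn3)).coeff 0 = 0 := by
      rw [ha₀]
      exact (isCuspForm_iff_coeffZero_eq_zero _).mp
        (sub_smul_isCuspForm f (E hn3) (EisensteinSeries.E_qExpansion_coeff_zero hn3 hn2))
    obtain ⟨f₂, hf₂⟩ : ∃ f₂ : ModularForm 𝒮ℒ ((n : ℤ) - 12),
        f₂ = CuspForm.discriminantEquiv (toCuspForm (f - a₀ • E hn3) hcoeff) := ⟨_, rfl⟩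
    obtain ⟨g₂, hg₂⟩ := ih ((n : ℤ) - 12) (by omega) f₂
    have hfdecomp : (f : ℍ → ℂ)
        = a₀ • (E hn3 : ℍ → ℂ) + ModularForm.discriminant * (f₂ : ℍ → ℂ) := by
      rw [hf₂, discriminant_mul_discriminantEquiv]
      ext z
      simp
    refine ⟨σ a₀ • E hn3 + CuspForm.toModularFormₗ (CuspForm.ofMulDiscriminant g₂), ?_⟩
    have hgdecomp : ((σ a₀ • E hn3 + CuspForm.toModularFormₗ (CuspForm.ofMulDiscriminant g₂)
        : ModularForm 𝒮ℒ (n : ℤ)) : ℍ → ℂ)
        = σ a₀ • (E hn3 : ℍ → ℂ) + ModularForm.discriminant * (g₂ : ℍ → ℂ) := by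
      ext z
      simp [CuspForm.toModularFormₗ_apply]
    have hconj : QConj σ (a₀ • (E hn3 : ℍ → ℂ) + ModularForm.discriminant * (f₂ : ℍ → ℂ))
        (σ a₀ • (E hn3 : ℍ → ℂ) + ModularForm.discriminant * (g₂ : ℍ → ℂ)) :=
      ((levelOne_E_qConj σ hn3 hn2).smul a₀).add
        ((levelOne_discriminant_qConj σ).mul
          ⟨QNice.of_levelOne f₂, QNice.of_levelOne g₂, hg₂⟩)
    rw [hgdecomp, hfdecomp]
    exact hconj.qExp

/-- (2b) Level one modular forms are stable under `σ`. -/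
theorem levelOne_conj (σ : ℂ →+* ℂ) {k : ℤ} (f : ModularForm 𝒮ℒ k) :
    ∃ g : ModularForm 𝒮ℒ k, qExpansion 1 g = PowerSeries.map σ (qExpansion 1 f) :=
  levelOne_conj_aux σ (k.toNat + 1) k (by push_cast; omega) f

/-- (2c) Level one cusp forms are stable under `σ`. -/
theorem levelOne_conj_cusp (σ : ℂ →+* ℂ) {k : ℤ} (f : CuspForm 𝒮ℒ k) :
    ∃ g : CuspForm 𝒮ℒ k, qExpansion 1 g = PowerSeries.map σ (qExpansion 1 f) := by
  obtain ⟨g, hg⟩ := levelOne_conj σ (CuspForm.toModularFormₗ f)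
  have hcoe : ((CuspForm.toModularFormₗ f : ModularForm 𝒮ℒ k) : ℍ → ℂ) = f := rfl
  rw [hcoe] at hg
  have h0 : (qExpansion 1 g).coeff 0 = 0 := by
    rw [hg, PowerSeries.coeff_map,
      CuspFormClass.qExpansion_coeff_zero f one_pos one_mem_strictPeriods_SL', map_zero]
  refine ⟨toCuspForm g h0, ?_⟩
  have hcoe' : ((toCuspForm g h0 : CuspForm 𝒮ℒ k) : ℍ → ℂ) = g := rfl
  rw [hcoe', hg]

end Fermat.Agent.T23
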