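import Fermat.Agent.Lib.T23_Coset

/-!
# T23 piece (5): a cusp form of level `Γ₀(N)` is integral over level one cusp forms
-/

set_option autoImplicit false

open UpperHalfPlane ModularForm CuspForm ModularFormClass SlashInvariantForm
open scoped MatrixGroups Manifold

namespace Fermat.Agent.T23

open Matrix.SpecialLinearGroup

variable {N : ℕ} [NeZero N] {k : ℤ}

/-- The `n`-th elementary symmetric function of the `SL(2, ℤ)`-translates of `f`. -/
noncomputable def esymmFun (f : CuspForm (CongruenceSubgroup.Gamma0 N) k) (n : ℕ) : ℍ → ℂ :=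
  ∑ t ∈ Finset.powersetCard n (Finset.univ : Finset (J N)), ∏ j ∈ t, quotientFunc f j

theorem esymmFun_slash_GL (f : CuspForm (CongruenceSubgroup.Gamma0 N) k) (n : ℕ)
    (g : GL (Fin 2) ℝ) (hg : g ∈ (𝒮ℒ : Subgroup (GL (Fin 2) ℝ))) :
    esymmFun f n ∣[k * (n : ℤ)] g = esymmFun f n := by
  classical
  unfold esymmFun
  rw [SlashAction.sum_slash]
  have h1 : ∀ t ∈ Finset.powersetCard n (Finset.univ : Finset (J N)),
      (∏ j ∈ t, quotientFunc f j) ∣[k * (n : ℤ)] g =
        ∏ j ∈ t.map (MulAction.toPerm (⟨g, hg⟩ : (𝒮ℒ : Subgroup (GL (Fin 2) ℝ)))⁻¹ :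
          Equiv.Perm (J N)).toEmbedding, quotientFunc f j := by
    intro t ht
    rw [Finset.mem_powersetCard] at ht
    rw [← ht.2, ModularForm.prod_slash, Finset.prod_map,
      Subgroup.HasDetPlusMinusOne.abs_det hg, one_zpow, one_smul]
    refine Finset.prod_congr rfl fun j _ => ?_
    rw [quotientFunc_smul f hg j]
    rfl
  rw [Finset.sum_congr rfl h1]
  exact sum_powersetCard_map
    (MulAction.toPerm (⟨g, hg⟩ : (𝒮ℒ : Subgroup (GL (Fin 2) ℝ)))⁻¹ : Equiv.Perm (J N)) n
    (fun t => ∏ j ∈ t, quotientFunc f j)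

theorem esymmFun_slash (f : CuspForm (CongruenceSubgroup.Gamma0 N) k) (n : ℕ) (γ : SL(2, ℤ)) :
    esymmFun f n ∣[k * (n : ℤ)] γ = esymmFun f n := by
  rw [ModularForm.SL_slash]
  exact esymmFun_slash_GL f n _ ⟨γ, rfl⟩

theorem esymmFun_mdiff (f : CuspForm (CongruenceSubgroup.Gamma0 N) k) (n : ℕ) :
    MDiff (esymmFun f n) := by
  unfold esymmFun
  refine MDifferentiable.sum fun t _ => ?_
  refine MDifferentiable.prod fun j _ => ?_
  induction j using Quotient.inductionOn with
  | h r => exact (CuspForm.translate f r.val⁻¹).holo'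

theorem esymmFun_zero (f : CuspForm (CongruenceSubgroup.Gamma0 N) k) (n : ℕ) :
    IsZeroAtImInfty (esymmFun f (n + 1)) := by
  classical
  unfold esymmFun
  rw [IsZeroAtImInfty, Filter.ZeroAtFilter]
  have h0 : (0 : ℂ) = ∑ t ∈ Finset.powersetCard (n + 1) (Finset.univ : Finset (J N)), (0 : ℂ) := by
    simp
  rw [h0]
  simp only [Finset.sum_fn]
  refine tendsto_finsetSum _ fun t ht => ?_
  rw [Finset.mem_powersetCard] at ht
  obtain ⟨j0, hj0⟩ : t.Nonempty := by
    rw [← Finset.card_pos, ht.2]; omega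
  have h1 : (0 : ℂ) = ∏ j ∈ t, (0 : ℂ) := (Finset.prod_eq_zero hj0 rfl).symm
  rw [h1]
  simp only [Finset.prod_fn]
  exact tendsto_finsetProd _ fun j _ => qf_zero f j

/-- Vieta at a point. -/
theorem vieta_point {ι : Type*} [Fintype ι] [DecidableEq ι] (φ : ι → ℂ) (j0 : ι) :
    φ j0 ^ Fintype.card ι + ∑ i : Fin (Fintype.card ι),
      ((-1) ^ ((i : ℕ) + 1) * ∑ t ∈ Finset.powersetCard ((i : ℕ) + 1) (Finset.univ : Finset ι),
        ∏ j ∈ t, φ j) * φ j0 ^ (Fintype.card ι - 1 - (i : ℕ)) = 0 := by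
  have h := Multiset.prod_X_sub_X_eq_sum_esymm ((Finset.univ : Finset ι).val.map φ)
  have h2 := congrArg (Polynomial.eval (φ j0)) h
  rw [Multiset.card_map, Finset.card_val, Finset.card_univ] at h2
  have hl : Polynomial.eval (φ j0)
      (Multiset.map (fun t => Polynomial.X - Polynomial.C t)
        (Multiset.map φ (Finset.univ : Finset ι).val)).prod = 0 := by
    rw [Multiset.map_map, Finset.prod_map_val, Polynomial.eval_prod]
    exact Finset.prod_eq_zero (Finset.mem_univ j0) (by simp)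
  rw [hl, Polynomial.eval_finsetSum, Finset.sum_range_succ'] at h2
  simp only [Polynomial.eval_mul, Polynomial.eval_pow, Polynomial.eval_neg, Polynomial.eval_one,
    Polynomial.eval_C, Polynomial.eval_X, Finset.esymm_map_val, pow_zero, one_mul,
    Finset.powersetCard_zero, Finset.sum_singleton, Finset.prod_empty, Nat.sub_zero] at h2
  rw [Finset.sum_range] at h2
  rw [h2]
  rw [add_comm]
  congr 1
  refine Finset.sum_congr rfl fun i _ => ?_
  rw [show Fintype.card ι - ((i : ℕ) + 1) = Fintype.card ι - 1 - (i : ℕ) by omega]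
  ring

/-- The level one cusp form `(-1)^(n+1) e_{n+1}` of the translates of `f`. -/
noncomputable def esymmCusp (f : CuspForm (CongruenceSubgroup.Gamma0 N) k) (n : ℕ) :
    CuspForm 𝒮ℒ (k * ((n : ℤ) + 1)) :=
  mkCusp1 (esymmFun f (n + 1)) (k * ((n : ℤ) + 1))
    (fun γ => by
      have h := esymmFun_slash f (n + 1) γ
      rw [Nat.cast_add, Nat.cast_one] at h
      exact h)
    (esymmFun_mdiff f (n + 1)) (esymmFun_zero f n)

/-- (5) `f` is a root of a monic polynomial whose lower coefficients are level one cusp forms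
(the elementary symmetric functions of the `SL(2, ℤ)`-translates of `f`). -/
theorem exists_monic_equation (N : ℕ) [NeZero N] {k : ℤ}
    (f : CuspForm (CongruenceSubgroup.Gamma0 N) k) :
    ∃ (m : ℕ) (c : (i : Fin m) → CuspForm 𝒮ℒ (k * ((i : ℕ) + 1))),
      ∀ z : ℍ, f z ^ m + ∑ i : Fin m, c i z * f z ^ (m - 1 - (i : ℕ)) = 0 := by
  classical
  refine ⟨Fintype.card (J N), fun i => ((-1 : ℂ) ^ ((i : ℕ) + 1)) • esymmCusp f (i : ℕ), ?_⟩
  intro z
  have h := vieta_point (fun j : J N => quotientFunc f j z) (⟦1⟧ : J N)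
  have h1 : quotientFunc f (⟦1⟧ : J N) z = f z := by rw [qf_one_coset]
  simp only [h1] at h
  rw [← h]
  congr 1
  refine Finset.sum_congr rfl fun i _ => ?_
  congr 1
  show (-1 : ℂ) ^ ((i : ℕ) + 1) * esymmFun f ((i : ℕ) + 1) z = _
  congr 1
  unfold esymmFun
  simp only [Finset.sum_apply, Finset.prod_apply]

end Fermat.Agent.T23
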