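import Fermat.Agent.Lib.T23_LevelOne
import Fermat.Agent.Lib.T23_Interp
import Fermat.Agent.Lib.T23_Monic
import Fermat.Agent.Lib.T23_Div

/-!
# T23 piece (7): cusp forms of level `Γ₀(N)` are stable under conjugation of `q`-expansions
-/

set_option autoImplicit false

open UpperHalfPlane ModularForm CuspForm ModularFormClass
open scoped MatrixGroups Manifold

namespace Fermat.Agent.T23

open Matrix.SpecialLinearGroup

/-- A cusp form viewed as a modular form. -/
noncomputable def cuspToModG {Γ : Subgroup (GL (Fin 2) ℝ)} {k : ℤ} (f : CuspForm Γ k) :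
    ModularForm Γ k :=
  { toSlashInvariantForm := f.toSlashInvariantForm
    holo' := f.holo'
    bdd_at_cusps' := fun hc γ hγ => (f.zero_at_cusps' hc γ hγ).isBoundedAtImInfty }

@[simp] theorem cuspToModG_apply {Γ : Subgroup (GL (Fin 2) ℝ)} {k : ℤ} (f : CuspForm Γ k)
    (z : ℍ) : cuspToModG f z = f z := rfl

theorem coe_cuspToModG {Γ : Subgroup (GL (Fin 2) ℝ)} {k : ℤ} (f : CuspForm Γ k) :
    ⇑(cuspToModG f) = ⇑f := rfl

theorem QNice.of_cusp_levelOne {k : ℤ} (f : CuspForm 𝒮ℒ k) : QNice f :=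
  QNice.of_levelOne (cuspToModG f)

theorem QNice.of_cusp_Gamma0 {N : ℕ} [NeZero N] {k : ℤ}
    (f : CuspForm (CongruenceSubgroup.Gamma0 N) k) : QNice f :=
  QNice.of_Gamma0 (cuspToModG f)

/-- Function-level invariance under `Γ₀(N)`. -/
def InvG (N : ℕ) (w : ℤ) (F : ℍ → ℂ) : Prop :=
  ∀ γ : SL(2, ℤ), γ ∈ CongruenceSubgroup.Gamma0 N → F ∣[w] γ = F

theorem InvG.congr {N : ℕ} {a b : ℤ} {F : ℍ → ℂ} (h : InvG N a F) (hab : a = b) : InvG N b F :=
  hab ▸ h

theorem InvG.mul {N : ℕ} {a b : ℤ} {F G : ℍ → ℂ} (hF : InvG N a F) (hG : InvG N b G) :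
    InvG N (a + b) (F * G) := fun γ hγ => by
  rw [ModularForm.mul_slash_SL2, hF γ hγ, hG γ hγ]

theorem InvG.add {N : ℕ} {a : ℤ} {F G : ℍ → ℂ} (hF : InvG N a F) (hG : InvG N a G) :
    InvG N a (F + G) := fun γ hγ => by
  rw [SlashAction.add_slash, hF γ hγ, hG γ hγ]

theorem InvG.zero (N : ℕ) (a : ℤ) : InvG N a (0 : ℍ → ℂ) := fun γ _ => by
  rw [SlashAction.zero_slash]

theorem InvG.one (N : ℕ) : InvG N 0 (1 : ℍ → ℂ) := fun γ _ => ModularForm.is_invariant_one γ

theorem InvG.pow {N : ℕ} {a : ℤ} {F : ℍ → ℂ} (hF : InvG N a F) (n : ℕ) :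
    InvG N ((n : ℤ) * a) (F ^ n) := by
  induction n with
  | zero => simpa using InvG.one N
  | succ n ih =>
    rw [pow_succ]
    exact (ih.mul hF).congr (by push_cast; ring)

theorem InvG.sum {N : ℕ} {ι : Type*} {a : ℤ} (s : Finset ι) {F : ι → ℍ → ℂ}
    (h : ∀ i ∈ s, InvG N a (F i)) : InvG N a (∑ i ∈ s, F i) := by
  classical
  induction s using Finset.induction_on with
  | empty => simpa using InvG.zero N a
  | insert x s hx ih =>
    rw [Finset.sum_insert hx]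
    exact (h x (Finset.mem_insert_self x s)).add
      (ih fun i hi => h i (Finset.mem_insert_of_mem hi))

theorem InvG.of_levelOne {N : ℕ} {w : ℤ} (f : ModularForm 𝒮ℒ w) : InvG N w f :=
  fun γ _ => (IsMF1.of_mod f).inv γ

theorem InvG.of_Gamma0 {N : ℕ} {w : ℤ} (f : ModularForm (CongruenceSubgroup.Gamma0 N) w) :
    InvG N w f := fun γ hγ => by
  rw [ModularForm.SL_slash]
  exact f.slash_action_eq' _ ⟨γ, hγ, rfl⟩

theorem InvG.HN (N : ℕ) [NeZero N] : InvG N 12 (HN N) := by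
  rw [← HNform_coe]
  exact InvG.of_Gamma0 _

/-- (7) Cusp forms of level `Γ₀(N)` are stable under conjugation of `q`-expansions. -/
theorem cuspForm_conj (N : ℕ) [NeZero N] (σ : ℂ →+* ℂ) {k : ℤ}
    (f : CuspForm (CongruenceSubgroup.Gamma0 N) k) :
    ∃ g : CuspForm (CongruenceSubgroup.Gamma0 N) k,
      ∀ n : ℕ, ModularFormClass.qCoeff g n = σ (ModularFormClass.qCoeff f n) := by
  classical
  obtain ⟨w, m, δ, hδ, hI⟩ := exists_interpolation N
  obtain ⟨R, hR⟩ := hI k (cuspToModG f)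
  obtain ⟨μ, c, hc⟩ := exists_monic_equation N f
  obtain ⟨δ', hδ'⟩ := levelOne_conj σ δ
  choose R' hR' using fun i => levelOne_conj σ (R i)
  choose c' hc' using fun i => levelOne_conj_cusp σ (c i)
  have hQδ : QConj σ δ δ' := ⟨QNice.of_levelOne δ, QNice.of_levelOne δ', hδ'⟩
  have hQR : ∀ i, QConj σ (R i) (R' i) :=
    fun i => ⟨QNice.of_levelOne _, QNice.of_levelOne _, hR' i⟩
  have hQc : ∀ i, QConj σ (c i) (c' i) :=
    fun i => ⟨QNice.of_cusp_levelOne _, QNice.of_cusp_levelOne _, hc' i⟩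
  have hQΔ : QConj σ ModularForm.discriminant ModularForm.discriminant :=
    levelOne_discriminant_qConj σ
  have hQH : QConj σ (HN N) (HN N) := QConj.of_fixed (HN_qnice N) (HN_qExpansion_map N σ)
  -- the conjugate of `δ f`
  obtain ⟨gfun, hgfun⟩ : ∃ gfun : ℍ → ℂ, gfun = ∑ i : Fin (m + 1),
      (R' i : ℍ → ℂ) * ModularForm.discriminant ^ (m - (i : ℕ)) * HN N ^ (i : ℕ) := ⟨_, rfl⟩
  have hδf : (δ : ℍ → ℂ) * f = ∑ i : Fin (m + 1),
      (R i : ℍ → ℂ) * ModularForm.discriminant ^ (m - (i : ℕ)) * HN N ^ (i : ℕ) := by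
    funext z
    simp only [Pi.mul_apply, Finset.sum_apply, Pi.pow_apply]
    exact hR z
  have hQg : QConj σ ((δ : ℍ → ℂ) * f) gfun := by
    rw [hδf, hgfun]
    exact QConj.sum _ fun i _ => ((hQR i).mul (hQΔ.pow _)).mul (hQH.pow _)
  -- the monic equation for `δ f`
  have hmon : ((δ : ℍ → ℂ) * f) ^ μ + ∑ i : Fin μ,
      (c i : ℍ → ℂ) * (δ : ℍ → ℂ) ^ ((i : ℕ) + 1) * ((δ : ℍ → ℂ) * f) ^ (μ - 1 - (i : ℕ))
        = 0 := by
    funext z
    simp only [Pi.add_apply, Pi.mul_apply, Finset.sum_apply, Pi.pow_apply, Pi.zero_apply]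
    have h1 := hc z
    have h2 : (δ z * f z) ^ μ + ∑ i : Fin μ,
        c i z * δ z ^ ((i : ℕ) + 1) * (δ z * f z) ^ (μ - 1 - (i : ℕ))
        = δ z ^ μ * (f z ^ μ + ∑ i : Fin μ, c i z * f z ^ (μ - 1 - (i : ℕ))) := by
      rw [mul_add, Finset.mul_sum, mul_pow]
      congr 1
      apply Finset.sum_congr rfl
      intro i _
      have hpow : δ z ^ μ = δ z ^ ((i : ℕ) + 1) * δ z ^ (μ - 1 - (i : ℕ)) := by
        rw [← pow_add]
        congr 1
        have := i.2
        omega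
      rw [mul_pow, hpow]
      ring
    rw [h2, h1, mul_zero]
  have hQmon : QConj σ (((δ : ℍ → ℂ) * f) ^ μ + ∑ i : Fin μ,
      (c i : ℍ → ℂ) * (δ : ℍ → ℂ) ^ ((i : ℕ) + 1) * ((δ : ℍ → ℂ) * f) ^ (μ - 1 - (i : ℕ)))
      (gfun ^ μ + ∑ i : Fin μ,
        (c' i : ℍ → ℂ) * (δ' : ℍ → ℂ) ^ ((i : ℕ) + 1) * gfun ^ (μ - 1 - (i : ℕ))) :=
    (hQg.pow μ).add (QConj.sum _ fun i _ => ((hQc i).mul (hQδ.pow _)).mul (hQg.pow _))
  rw [hmon] at hQmon
  have hmon' := hQmon.eq_zero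
  have hδ0 : (δ : ℍ → ℂ) ≠ 0 := fun h => hδ (DFunLike.ext _ _ fun z => by
    simpa using congrFun h z)
  have hδ'0 : (δ' : ℍ → ℂ) ≠ 0 := hQδ.ne_zero hδ0
  obtain ⟨F, hFmd, hFeq, hFmon⟩ := exists_div_of_monic gfun δ' (fun i => (c' i : ℍ → ℂ))
    hQg.nice_right.hol hQδ.nice_right.hol (fun i => (hQc i).nice_right.hol) hδ'0
    (fun z => by
      have := congrFun hmon' z
      simpa only [Pi.add_apply, Pi.mul_apply, Finset.sum_apply, Pi.pow_apply, Pi.zero_apply]
        using this)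
  -- invariance of `F`
  have hInvg : InvG N (w + k) gfun := by
    rw [hgfun]
    refine InvG.sum _ fun i _ => ?_
    have h1 : InvG N (w + k - 12 * m) (R' i) := InvG.of_levelOne (R' i)
    have h2 : InvG N (((m - (i : ℕ) : ℕ) : ℤ) * 12)
        (ModularForm.discriminant ^ (m - (i : ℕ))) := by
      have := (InvG.of_levelOne (N := N) DeltaMF).pow (m - (i : ℕ))
      rwa [coe_DeltaMF] at this
    have h3 : InvG N (((i : ℕ) : ℤ) * 12) (HN N ^ (i : ℕ)) := (InvG.HN N).pow i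
    refine ((h1.mul h2).mul h3).congr ?_
    have hi : (i : ℕ) ≤ m := Nat.lt_succ_iff.mp i.2
    push_cast [Nat.cast_sub hi]
    ring
  have hInvδ : InvG N w δ' := InvG.of_levelOne δ'
  have hgF : gfun = (δ' : ℍ → ℂ) * F := funext hFeq
  have hInvF : InvG N k F := by
    intro γ hγ
    have h1 := hInvg γ hγ
    rw [hgF, ModularForm.mul_slash_SL2, hInvδ γ hγ] at h1
    have h2 : ∀ z, (δ' : ℍ → ℂ) z * ((F ∣[k] γ - F) z) = 0 := by
      intro z
      have := congrFun h1 z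
      simp only [Pi.mul_apply] at this
      rw [Pi.sub_apply, mul_sub, this, sub_self]
    have hmd : MDiff (F ∣[k] γ - F) := by
      refine MDifferentiable.sub ?_ hFmd
      rw [ModularForm.SL_slash]
      exact hFmd.slash k _
    rcases mdiff_mul_eq_zero hQδ.nice_right.hol hmd h2 with h | h
    · exact absurd h hδ'0
    · exact sub_eq_zero.mp h
  -- vanishing at the cusps
  have hzero : ∀ γ : SL(2, ℤ), IsZeroAtImInfty (F ∣[k] γ) := by
    intro γ
    apply isZeroAtImInfty_of_monic (F ∣[k] γ) (fun i => (c' i : ℍ → ℂ))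
      (fun i => CuspFormClass.zero_at_infty (c' i))
    intro z
    have hmz := hFmon (γ • z)
    obtain ⟨D, hD⟩ : ∃ D : ℂ, D = denom γ z ^ (-k) := ⟨_, rfl⟩
    have hFs : (F ∣[k] γ) z = F (γ • z) * D := by
      rw [hD]; exact ModularForm.SL_slash_apply F γ z
    have hcs : ∀ i : Fin μ, c' i z = c' i (γ • z) * D ^ ((i : ℕ) + 1) := by
      intro i
      have h1 : ((c' i : ℍ → ℂ) ∣[k * ((i : ℕ) + 1)] γ) = c' i :=
        (c' i).slash_action_eq' _ ⟨γ, rfl⟩
      have h2 := congrFun h1 z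
      rw [ModularForm.SL_slash_apply] at h2
      rw [← h2, hD, ← zpow_natCast, ← zpow_mul]
      congr 2
      push_cast
      ring
    have h3 : (F ∣[k] γ) z ^ μ + ∑ i : Fin μ, c' i z * (F ∣[k] γ) z ^ (μ - 1 - (i : ℕ))
        = D ^ μ * (F (γ • z) ^ μ + ∑ i : Fin μ, c' i (γ • z) * F (γ • z) ^ (μ - 1 - (i : ℕ))) := by
      rw [mul_add, Finset.mul_sum, hFs, mul_pow]
      congr 1
      · ring
      apply Finset.sum_congr rfl
      intro i _
      have hpow : D ^ μ = D ^ ((i : ℕ) + 1) * D ^ (μ - 1 - (i : ℕ)) := by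
        rw [← pow_add]
        congr 1
        have := i.2
        omega
      rw [mul_pow, hpow, hcs i]
      ring
    rw [h3, hmz, mul_zero]
  -- the cusp form
  let g : CuspForm (CongruenceSubgroup.Gamma0 N) k :=
    { toFun := F
      slash_action_eq' := by
        rintro _ ⟨γ, hγ, rfl⟩
        exact hInvF γ hγ
      holo' := hFmd
      zero_at_cusps' := fun {c} hc => by
        rw [Subgroup.IsArithmetic.isCusp_iff_isCusp_SL2Z] at hc
        rw [OnePoint.isZeroAt_iff_forall_SL2Z hc]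
        intro γ _
        exact hzero γ }
  have hgcoe : (g : ℍ → ℂ) = F := rfl
  refine ⟨g, fun n => ?_⟩
  have hFnice : QNice F := by
    rw [← hgcoe]; exact QNice.of_cusp_Gamma0 g
  have hfnice : QNice (f : ℍ → ℂ) := QNice.of_cusp_Gamma0 f
  have hq1 : qExpansion 1 gfun = qExpansion 1 (δ' : ℍ → ℂ) * qExpansion 1 F := by
    rw [hgF, qExpansion_mul hQδ.nice_right.analyticAt hFnice.analyticAt]
  have hq2 : qExpansion 1 gfun
      = qExpansion 1 (δ' : ℍ → ℂ) * PowerSeries.map σ (qExpansion 1 (f : ℍ → ℂ)) := by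
    rw [hQg.qExp, qExpansion_mul hQδ.nice_left.analyticAt hfnice.analyticAt, map_mul, hδ']
  have hq3 : qExpansion 1 F = PowerSeries.map σ (qExpansion 1 (f : ℍ → ℂ)) :=
    mul_left_cancel₀ (hQδ.nice_right.qExpansion_ne_zero hδ'0) (hq1.symm.trans hq2)
  unfold ModularFormClass.qCoeff
  rw [hgcoe, hq3, PowerSeries.coeff_map]

end Fermat.Agent.T23
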