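import Mathlib

/-!
# T51 (S51): abstract torsion analysis from the duplication formula

Short Weierstrass form `y² = x³ + A x + B`.  An "x-coordinate function" `X : G → F` on an
abelian group `G` satisfying the duplication formula (`DblData`) is all that is needed to
analyse the 3- and 5-torsion.
-/

set_option autoImplicit false

namespace Fermat.Agent.T51

open Polynomial

section Alg

variable {F : Type*} [Field F]

/-- the cubic `x³ + A x + B` -/
def wS (A B x : F) : F := x ^ 3 + A * x + B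

/-- numerator of the duplication formula -/
def phS (A B x : F) : F := x ^ 4 - 2 * A * x ^ 2 - 8 * B * x + A ^ 2

/-- the 3-division polynomial -/
def psi3S (A B x : F) : F := 3 * x ^ 4 + 6 * A * x ^ 2 + 12 * B * x - A ^ 2

/-- the 5-division polynomial -/
def psi5S (A B x : F) : F :=
  5 * x ^ 12 + 62 * A * x ^ 10 + 380 * B * x ^ 9 - 105 * A ^ 2 * x ^ 8 + 240 * A * B * x ^ 7
    - (300 * A ^ 3 + 240 * B ^ 2) * x ^ 6 - 696 * A ^ 2 * B * x ^ 5
    - (125 * A ^ 4 + 1920 * A * B ^ 2) * x ^ 4 - (80 * A ^ 3 * B + 1600 * B ^ 3) * x ^ 3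
    - (50 * A ^ 5 + 240 * A ^ 2 * B ^ 2) * x ^ 2 - (100 * A ^ 4 * B + 640 * A * B ^ 3) * x
    + (A ^ 6 - 32 * A ^ 3 * B ^ 2 - 256 * B ^ 4)

/-- the polynomial whose roots are the `x` with `x(4P) = x(P)` -/
def fourS (A B x : F) : F :=
  (phS A B x ^ 4 - 2 * A * phS A B x ^ 2 * (4 * wS A B x) ^ 2
      - 8 * B * phS A B x * (4 * wS A B x) ^ 3 + A ^ 2 * (4 * wS A B x) ^ 4)
    - x * (4 * (4 * wS A B x) * (phS A B x ^ 3 + A * phS A B x * (4 * wS A B x) ^ 2
      + B * (4 * wS A B x) ^ 3))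

theorem psi3S_eq (A B x : F) : psi3S A B x = x * (4 * wS A B x) - phS A B x := by
  simp only [psi3S, wS, phS]; ring

theorem coprime_cert (A B x : F) :
    (3 * x ^ 2 + 4 * A) * phS A B x - (3 * x ^ 3 - 5 * A * x - 27 * B) * wS A B x
      = 4 * A ^ 3 + 27 * B ^ 2 := by
  simp only [phS, wS]; ring

theorem phS_ne_zero_of_wS {A B : F} (hd : 4 * A ^ 3 + 27 * B ^ 2 ≠ 0) {x : F}
    (hw : wS A B x = 0) : phS A B x ≠ 0 := by
  intro hp
  apply hd
  rw [← coprime_cert A B x, hw, hp]; ring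

theorem fourS_eq (A B x : F) : fourS A B x = - (psi3S A B x * psi5S A B x) := by
  simp only [fourS, psi3S, psi5S, wS, phS]; ring

theorem psi5S_mod (A B x : F) :
    psi5S A B x + (4 * wS A B x) ^ 4 = psi3S A B x *
      (87 * x ^ 8 + 188 * A * x ^ 6 + 120 * B * x ^ 5 + 130 * A ^ 2 * x ^ 4 + 112 * A * B * x ^ 3
        + (44 * A ^ 3 - 48 * B ^ 2) * x ^ 2 + 88 * A ^ 2 * B * x - A ^ 4 + 32 * A * B ^ 2) := by
  simp only [psi3S, psi5S, wS]; ring

theorem wS_of_dbl (A B : F) {x₂ u v : F} (h : x₂ * u = v) :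
    u ^ 3 * wS A B x₂ = v ^ 3 + A * v * u ^ 2 + B * u ^ 3 := by
  simp only [wS]
  linear_combination ((x₂ * u) ^ 2 + x₂ * u * v + v ^ 2 + A * u ^ 2) * h

theorem phS_of_dbl (A B : F) {x₂ u v : F} (h : x₂ * u = v) :
    u ^ 4 * phS A B x₂ = v ^ 4 - 2 * A * v ^ 2 * u ^ 2 - 8 * B * v * u ^ 3 + A ^ 2 * u ^ 4 := by
  simp only [phS]
  linear_combination ((x₂ * u + v) * ((x₂ * u) ^ 2 + v ^ 2) - 2 * A * (x₂ * u + v) * u ^ 2
    - 8 * B * u ^ 3) * h

/-- the algebra behind the 5-isogeny condition: if `x₁ ≠ x₂` are exchanged by duplication,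
then `s = x₁ + x₂`, `t = x₁ x₂` satisfy two explicit equations. -/
theorem five_alg {A B x₁ x₂ : F} (hne : x₁ ≠ x₂)
    (r1 : x₂ * (4 * wS A B x₁) = phS A B x₁) (r2 : x₁ * (4 * wS A B x₂) = phS A B x₂) :
    (x₁ + x₂) ^ 2 ≠ 4 * (x₁ * x₂) ∧
    (x₁ + x₂) ^ 3 - 6 * (x₁ + x₂) * (x₁ * x₂) - 2 * A * (x₁ + x₂) - 4 * B = 0 ∧
    5 * (x₁ * x₂) ^ 2 - (x₁ + x₂) ^ 2 * (x₁ * x₂) - 2 * A * (x₁ * x₂) + A ^ 2
      - 4 * (x₁ + x₂) * B = 0 := by
  have hsub : x₁ - x₂ ≠ 0 := sub_ne_zero.mpr hne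
  simp only [wS, phS] at r1 r2
  have h1 : (x₁ + x₂) ^ 3 - 6 * (x₁ + x₂) * (x₁ * x₂) - 2 * A * (x₁ + x₂) - 4 * B = 0 := by
    have : ((x₁ + x₂) ^ 3 - 6 * (x₁ + x₂) * (x₁ * x₂) - 2 * A * (x₁ + x₂) - 4 * B)
        * (x₁ - x₂) = 0 := by
      linear_combination (-1 : F) * r1 + r2
    exact (mul_eq_zero.mp this).resolve_right hsub
  refine ⟨?_, h1, ?_⟩
  · intro h
    apply hsub
    have : (x₁ - x₂) ^ 2 = 0 := by linear_combination h
    exact pow_eq_zero_iff (two_ne_zero) |>.mp this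
  · linear_combination (-1 : F) * r1 - x₁ * h1

/-- polynomial version of `psi3S` -/
noncomputable def psi3P (A B : F) : F[X] :=
  C 3 * X ^ 4 + C (6 * A) * X ^ 2 + C (12 * B) * X - C (A ^ 2)

/-- polynomial version of `psi5S` -/
noncomputable def psi5P (A B : F) : F[X] :=
  C 5 * X ^ 12 + C (62 * A) * X ^ 10 + C (380 * B) * X ^ 9 - C (105 * A ^ 2) * X ^ 8
    + C (240 * A * B) * X ^ 7
    - C (300 * A ^ 3 + 240 * B ^ 2) * X ^ 6 - C (696 * A ^ 2 * B) * X ^ 5
    - C (125 * A ^ 4 + 1920 * A * B ^ 2) * X ^ 4 - C (80 * A ^ 3 * B + 1600 * B ^ 3) * X ^ 3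
    - C (50 * A ^ 5 + 240 * A ^ 2 * B ^ 2) * X ^ 2 - C (100 * A ^ 4 * B + 640 * A * B ^ 3) * X
    + C (A ^ 6 - 32 * A ^ 3 * B ^ 2 - 256 * B ^ 4)

theorem psi3P_eval (A B x : F) : (psi3P A B).eval x = psi3S A B x := by
  simp [psi3P, psi3S]

theorem psi5P_eval (A B x : F) : (psi5P A B).eval x = psi5S A B x := by
  simp [psi5P, psi5S]

theorem psi3P_natDegree [CharZero F] (A B : F) : (psi3P A B).natDegree = 4 := by
  unfold psi3P; compute_degree!

theorem psi5P_natDegree [CharZero F] (A B : F) : (psi5P A B).natDegree = 12 := by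
  unfold psi5P; compute_degree!

theorem psi3P_ne_zero [CharZero F] (A B : F) : psi3P A B ≠ 0 := by
  intro h
  have := psi3P_natDegree A B
  rw [h] at this
  simp at this

theorem psi5P_ne_zero [CharZero F] (A B : F) : psi5P A B ≠ 0 := by
  intro h
  have := psi5P_natDegree A B
  rw [h] at this
  simp at this

end Alg

section Grp

variable {G : Type*} [AddCommGroup G] {F : Type*} [Field F]

/-- An x-coordinate function `X` on an abelian group satisfying the duplication formula of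
the curve `y² = x³ + A x + B`. -/
structure DblData (X : G → F) (A B : F) : Prop where
  disc : 4 * A ^ 3 + 27 * B ^ 2 ≠ 0
  neg : ∀ P : G, X (-P) = X P
  inj : ∀ P Q : G, P ≠ 0 → Q ≠ 0 → X P = X Q → P = Q ∨ P = -Q
  two : ∀ P : G, P ≠ 0 → (2 • P = 0 ↔ wS A B (X P) = 0)
  dbl : ∀ P : G, P ≠ 0 → 2 • P ≠ 0 → X (2 • P) * (4 * wS A B (X P)) = phS A B (X P)

variable {X : G → F} {A B : F}

theorem DblData.three_iff [CharZero F] (D : DblData X A B) {P : G} (hP : P ≠ 0) :
    3 • P = 0 ↔ psi3S A B (X P) = 0 := by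
  constructor
  · intro h3
    have h2 : 2 • P = -P := by
      have : 2 • P + P = 0 := by rw [← h3]; abel
      exact eq_neg_of_add_eq_zero_left this
    have h2' : 2 • P ≠ 0 := by rw [h2]; exact neg_ne_zero.mpr hP
    have e := D.dbl P hP h2'
    rw [h2, D.neg] at e
    rw [psi3S_eq, e, sub_self]
  · intro hψ
    have hw : wS A B (X P) ≠ 0 := by
      intro hw
      apply phS_ne_zero_of_wS D.disc hw
      have := psi3S_eq A B (X P)
      rw [hψ, hw] at this
      linear_combination this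
    have h2' : 2 • P ≠ 0 := fun h => hw ((D.two P hP).mp h)
    have e := D.dbl P hP h2'
    have e' : X (2 • P) = X P := by
      have h4 : (4 : F) * wS A B (X P) ≠ 0 := mul_ne_zero (by norm_num) hw
      apply mul_right_cancel₀ h4
      rw [e]
      have := psi3S_eq A B (X P)
      rw [hψ] at this
      linear_combination this
    rcases D.inj (2 • P) P h2' hP e' with h | h
    · exfalso; apply hP
      have : P + P = P := by rw [← two_nsmul]; exact h
      simpa using this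
    · have : 3 • P = 2 • P + P := by abel
      rw [this, h]; simp

theorem DblData.five_rel [CharZero F] (D : DblData X A B) {P : G} (hP : P ≠ 0)
    (h5 : 5 • P = 0) :
    2 • P ≠ 0 ∧ X P ≠ X (2 • P) ∧ X (2 • P) * (4 * wS A B (X P)) = phS A B (X P) ∧
      X P * (4 * wS A B (X (2 • P))) = phS A B (X (2 • P)) := by
  have e5 : 5 • P = 2 • (2 • P) + P := by abel
  have h2 : 2 • P ≠ 0 := by
    intro h
    apply hP
    rw [e5, h] at h5
    simpa using h5
  have h4 : 2 • (2 • P) = -P := by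
    rw [e5] at h5
    exact eq_neg_of_add_eq_zero_left h5
  have h4' : 2 • (2 • P) ≠ 0 := by rw [h4]; exact neg_ne_zero.mpr hP
  have r1 := D.dbl P hP h2
  have r2 := D.dbl (2 • P) h2 h4'
  rw [h4, D.neg] at r2
  refine ⟨h2, ?_, r1, r2⟩
  intro e
  apply hP
  rcases D.inj P (2 • P) hP h2 e with h | h
  · have : P + P = P := by rw [← two_nsmul]; exact h.symm
    simpa using this
  · have h3 : P + 2 • P = 0 := eq_neg_iff_add_eq_zero.mp h
    have : P = 2 • (P + 2 • P) - 5 • P := by abel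
    rw [this, h3, h5]; simp

/-- the `x`-coordinates of a point of order 5 and of its double give a rational point on the
"5-isogeny" variety. -/
theorem DblData.five_st [CharZero F] (D : DblData X A B) {P : G} (hP : P ≠ 0)
    (h5 : 5 • P = 0) :
    (X P + X (2 • P)) ^ 2 ≠ 4 * (X P * X (2 • P)) ∧
    (X P + X (2 • P)) ^ 3 - 6 * (X P + X (2 • P)) * (X P * X (2 • P))
      - 2 * A * (X P + X (2 • P)) - 4 * B = 0 ∧
    5 * (X P * X (2 • P)) ^ 2 - (X P + X (2 • P)) ^ 2 * (X P * X (2 • P))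
      - 2 * A * (X P * X (2 • P)) + A ^ 2 - 4 * (X P + X (2 • P)) * B = 0 := by
  obtain ⟨-, hne, r1, r2⟩ := D.five_rel hP h5
  exact five_alg hne r1 r2

theorem DblData.five_psi5 [CharZero F] (D : DblData X A B) {P : G} (hP : P ≠ 0)
    (h5 : 5 • P = 0) : psi5S A B (X P) = 0 := by
  obtain ⟨-, -, r1, r2⟩ := D.five_rel hP h5
  have hF : fourS A B (X P) = 0 := by
    have e1 := wS_of_dbl A B r1
    have e2 := phS_of_dbl A B r1
    simp only [fourS]
    rw [← e1, ← e2]
    linear_combination (-(4 * wS A B (X P)) ^ 4) * r2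
  rw [fourS_eq, neg_eq_zero] at hF
  rcases mul_eq_zero.mp hF with h | h
  · exfalso
    have h3 : 3 • P = 0 := (D.three_iff hP).mpr h
    apply hP
    have : P = 2 • (3 • P) - 5 • P := by abel
    rw [this, h3, h5]; simp
  · exact h

theorem DblData.exists_three [CharZero F] [IsAlgClosed F] (D : DblData X A B)
    (hs : ∀ x : F, ∃ P : G, P ≠ 0 ∧ X P = x) : ∃ P : G, P ≠ 0 ∧ 3 • P = 0 := by
  have hdeg : (psi3P A B).degree ≠ 0 := by
    rw [Polynomial.degree_eq_natDegree (psi3P_ne_zero A B), psi3P_natDegree]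
    norm_num
  obtain ⟨r, hr⟩ := IsAlgClosed.exists_root (psi3P A B) hdeg
  obtain ⟨P, hP, rfl⟩ := hs r
  refine ⟨P, hP, (D.three_iff hP).mpr ?_⟩
  rw [← psi3P_eval]; exact hr

theorem DblData.exists_five [CharZero F] [IsAlgClosed F] (D : DblData X A B)
    (hs : ∀ x : F, ∃ P : G, P ≠ 0 ∧ X P = x) : ∃ P : G, P ≠ 0 ∧ 5 • P = 0 := by
  have hdeg : (psi5P A B).degree ≠ 0 := by
    rw [Polynomial.degree_eq_natDegree (psi5P_ne_zero A B), psi5P_natDegree]
    norm_num
  obtain ⟨r, hr⟩ := IsAlgClosed.exists_root (psi5P A B) hdeg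
  obtain ⟨P, hP, rfl⟩ := hs r
  have hψ5 : psi5S A B (X P) = 0 := by rw [← psi5P_eval]; exact hr
  have hF : fourS A B (X P) = 0 := by rw [fourS_eq, hψ5]; ring
  -- `w(x₁) ≠ 0`
  have hw1 : wS A B (X P) ≠ 0 := by
    intro hw
    apply phS_ne_zero_of_wS D.disc hw
    have : fourS A B (X P) = phS A B (X P) ^ 4 := by
      simp only [fourS, hw]; ring
    rw [this] at hF
    exact pow_eq_zero_iff (by norm_num) |>.mp hF
  have hu : (4 : F) * wS A B (X P) ≠ 0 := mul_ne_zero (by norm_num) hw1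
  have h2 : 2 • P ≠ 0 := fun h => hw1 ((D.two P hP).mp h)
  have r1 := D.dbl P hP h2
  have e1 := wS_of_dbl A B r1
  have e2 := phS_of_dbl A B r1
  -- `φ(x₂) = x₁ · 4 w(x₂)`
  have r2 : X P * (4 * wS A B (X (2 • P))) = phS A B (X (2 • P)) := by
    have : (4 * wS A B (X P)) ^ 4 * (X P * (4 * wS A B (X (2 • P))) - phS A B (X (2 • P)))
        = 0 := by
      simp only [fourS] at hF
      rw [← e1, ← e2] at hF
      linear_combination -hF
    rcases mul_eq_zero.mp this with h | h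
    · exact absurd (pow_eq_zero_iff (by norm_num) |>.mp h) hu
    · exact sub_eq_zero.mp h
  have hw2 : wS A B (X (2 • P)) ≠ 0 := by
    intro hw
    apply phS_ne_zero_of_wS D.disc hw
    rw [← r2, hw]; ring
  have h4 : 2 • (2 • P) ≠ 0 := fun h => hw2 ((D.two (2 • P) h2).mp h)
  have r3 := D.dbl (2 • P) h2 h4
  have e' : X (2 • (2 • P)) = X P := by
    have hu2 : (4 : F) * wS A B (X (2 • P)) ≠ 0 := mul_ne_zero (by norm_num) hw2
    apply mul_right_cancel₀ hu2
    rw [r3, r2]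
  refine ⟨P, hP, ?_⟩
  rcases D.inj (2 • (2 • P)) P h4 hP e' with h | h
  · exfalso
    have h3 : 3 • P = 0 := by
      have : 2 • (2 • P) = 3 • P + P := by abel
      rw [this] at h
      simpa using h
    have hψ3 := (D.three_iff hP).mp h3
    have := psi5S_mod A B (X P)
    rw [hψ5, hψ3] at this
    have : (4 * wS A B (X P)) ^ 4 = 0 := by linear_combination this
    exact hu (pow_eq_zero_iff (by norm_num) |>.mp this)
  · have : 5 • P = 2 • (2 • P) + P := by abel
    rw [this, h]; simp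

/-- a set of points whose nonzero members have `x`-coordinate a root of a fixed nonzero
polynomial is finite, with at most `1 + 2 deg` elements. -/
theorem DblData.finite_of_poly (D : DblData X A B) (p : F[X]) (hp : p ≠ 0) (S : Set G)
    (hS : ∀ P ∈ S, P ≠ 0 → p.eval (X P) = 0) :
    S.Finite ∧ S.ncard ≤ 1 + 2 * p.natDegree := by
  classical
  have hT : ∀ r : F, ∃ t : Finset G, t.card ≤ 2 ∧ ∀ P : G, P ≠ 0 → X P = r → P ∈ t := by
    intro r
    by_cases h : ∃ P₀ : G, P₀ ≠ 0 ∧ X P₀ = r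
    · obtain ⟨P₀, h0, hr⟩ := h
      refine ⟨{P₀, -P₀}, Finset.card_le_two, ?_⟩
      intro P hP hPr
      rcases D.inj P P₀ hP h0 (hPr.trans hr.symm) with h | h <;> simp [h]
    · exact ⟨∅, by simp, fun P hP hPr => (h ⟨P, hP, hPr⟩).elim⟩
  choose t ht1 ht2 using hT
  have hSU : S ⊆ ↑(insert 0 (p.roots.toFinset.biUnion t)) := by
    intro P hPS
    by_cases hP : P = 0
    · simp [hP]
    · have hr := hS P hPS hP
      have : X P ∈ p.roots.toFinset := by
        rw [Multiset.mem_toFinset, Polynomial.mem_roots hp]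
        exact hr
      simp only [Finset.coe_insert, Finset.coe_biUnion, Set.mem_insert_iff, Set.mem_iUnion]
      exact Or.inr ⟨X P, this, ht2 (X P) P hP rfl⟩
  have hcard : (insert 0 (p.roots.toFinset.biUnion t)).card ≤ 1 + 2 * p.natDegree := by
    calc (insert 0 (p.roots.toFinset.biUnion t)).card
        ≤ (p.roots.toFinset.biUnion t).card + 1 := Finset.card_insert_le _ _
      _ ≤ p.roots.toFinset.card * 2 + 1 := by
          gcongr
          exact Finset.card_biUnion_le_card_mul _ _ _ (fun r _ => ht1 r)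
      _ ≤ p.natDegree * 2 + 1 := by
          gcongr
          exact (Multiset.toFinset_card_le _).trans (Polynomial.card_roots' p)
      _ = 1 + 2 * p.natDegree := by ring
  refine ⟨(Finset.finite_toSet _).subset hSU, ?_⟩
  calc S.ncard ≤ (↑(insert 0 (p.roots.toFinset.biUnion t)) : Set G).ncard :=
        Set.ncard_le_ncard hSU (Finset.finite_toSet _)
    _ = (insert 0 (p.roots.toFinset.biUnion t)).card := Set.ncard_coe_finset _
    _ ≤ _ := hcard

theorem DblData.card_three [CharZero F] (D : DblData X A B) :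
    {P : G | 3 • P = 0}.Finite ∧ {P : G | 3 • P = 0}.ncard ≤ 9 := by
  have := D.finite_of_poly (psi3P A B) (psi3P_ne_zero A B) {P : G | 3 • P = 0}
    (fun P hP h0 => by rw [psi3P_eval]; exact (D.three_iff h0).mp hP)
  rw [psi3P_natDegree] at this
  exact this

theorem DblData.card_five [CharZero F] (D : DblData X A B) :
    {P : G | 5 • P = 0}.Finite ∧ {P : G | 5 • P = 0}.ncard ≤ 25 := by
  have := D.finite_of_poly (psi5P A B) (psi5P_ne_zero A B) {P : G | 5 • P = 0}
    (fun P hP h0 => by rw [psi5P_eval]; exact D.five_psi5 h0 hP)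
  rw [psi5P_natDegree] at this
  exact this

end Grp

end Fermat.Agent.T51
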