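/-
T51 (S51), part (c)+(e): pure algebra over ℚ and ℤ.

Short Weierstrass invariants `A = -27 c₄`, `B = -54 c₆`.  From a rational root `X` of the
3-division polynomial and from the data `(s, m)` of a rational 5-isogeny we produce the two
Hauptmodul values `h` (level 3) and `t` (level 5) with
`j h = (h+27)(h+3)^3`, `j t = (t^2+10t+5)^3`, map the resulting point of `X₀(15)` to the
curve `Y^2 = X (X-16) (X+9)`, and use its rational points to pin down `t`, hence `j`.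
-/
import Mathlib

set_option autoImplicit false

namespace Fermat.Agent.T51

/-- There is no rational number whose square is `5`. -/
theorem alg_no_sq_five (q : ℚ) : q ^ 2 ≠ 5 := by
  intro h
  have h5 : Irrational (Real.sqrt 5) := by
    have := Nat.Prime.irrational_sqrt (p := 5) (by norm_num)
    simpa using this
  apply h5
  have hq : ((q : ℝ)) ^ 2 = 5 := by exact_mod_cast h
  have : Real.sqrt 5 = ((|q| : ℚ) : ℝ) := by
    rw [← hq, Real.sqrt_sq_eq_abs, Rat.cast_abs]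
  rw [this]
  exact ⟨|q|, rfl⟩

/-- Level 3: a rational root of the 3-division polynomial gives `h` with
`j h = (h+27)(h+3)^3`. -/
theorem alg_three (A B X : ℚ) (hD : 4 * A ^ 3 + 27 * B ^ 2 ≠ 0)
    (hX : 3 * X ^ 4 + 6 * A * X ^ 2 + 12 * B * X - A ^ 2 = 0) :
    ∃ h : ℚ, h ≠ 0 ∧
      6912 * A ^ 3 * h = (h + 27) * (h + 3) ^ 3 * (4 * A ^ 3 + 27 * B ^ 2) := by
  obtain ⟨a₄, ha₄⟩ : ∃ a₄ : ℚ, a₄ = 3 * X ^ 2 + A := ⟨_, rfl⟩
  obtain ⟨a₆, ha₆⟩ : ∃ a₆ : ℚ, a₆ = X ^ 3 + A * X + B := ⟨_, rfl⟩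
  have hψ : 12 * X * a₆ = a₄ ^ 2 := by rw [ha₄, ha₆]; linear_combination hX
  have ha₆0 : a₆ ≠ 0 := by
    intro h0
    have h4 : a₄ = 0 := by
      have : a₄ ^ 2 = 0 := by rw [← hψ, h0]; ring
      exact pow_eq_zero_iff (two_ne_zero) |>.mp this
    apply hD
    have : 4 * A ^ 3 + 27 * B ^ 2
        = (6 * A * X ^ 2 - 9 * B * X + 4 * A ^ 2) * a₄ - (18 * A * X - 27 * B) * a₆ := by
      rw [ha₄, ha₆]; ring
    rw [this, h4, h0]; ring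
  have hD2 : 2 * (4 * A ^ 3 + 27 * B ^ 2) = 54 * a₆ ^ 2 - a₄ ^ 3 := by
    rw [ha₄, ha₆]; linear_combination (-9 * (X ^ 2 + A)) * hX
  have key : 48 * A * a₆ ^ 2 = 48 * a₄ * a₆ ^ 2 - a₄ ^ 4 := by
    have h1 : a₄ - A = 3 * X ^ 2 := by rw [ha₄]; ring
    linear_combination (-(12 * X * a₆ + a₄ ^ 2)) * hψ + (-48 * a₆ ^ 2) * h1
  have h2a : (2 * a₆ ^ 2) ≠ 0 := mul_ne_zero two_ne_zero (pow_ne_zero 2 ha₆0)
  obtain ⟨h, hh⟩ : ∃ h : ℚ, h = a₄ ^ 3 / (2 * a₆ ^ 2) - 27 := ⟨_, rfl⟩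
  have e0 : h * (2 * a₆ ^ 2) = a₄ ^ 3 - 54 * a₆ ^ 2 := by rw [hh]; field_simp; ring
  have e1 : (h + 27) * (2 * a₆ ^ 2) = a₄ ^ 3 := by linear_combination e0
  have e2 : (h + 3) * (2 * a₆ ^ 2) = a₄ ^ 3 - 48 * a₆ ^ 2 := by linear_combination e0
  have e3 : 4 * A ^ 3 + 27 * B ^ 2 = -a₆ ^ 2 * h := by
    linear_combination (1 / 2) * hD2 + (1 / 2) * e0
  have hh0 : h ≠ 0 := by
    intro h0; apply hD; rw [e3, h0]; ring
  have e4 : 110592 * A ^ 3 * a₆ ^ 6 = (48 * a₄ * a₆ ^ 2 - a₄ ^ 4) ^ 3 := by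
    rw [← key]; ring
  refine ⟨h, hh0, ?_⟩
  have h16 : (2 * a₆ ^ 2) ^ 4 ≠ 0 := pow_ne_zero 4 h2a
  apply mul_right_cancel₀ h16
  have e5 : (h + 27) * (h + 3) ^ 3 * (4 * A ^ 3 + 27 * B ^ 2) * (2 * a₆ ^ 2) ^ 4
      = ((h + 27) * (2 * a₆ ^ 2)) * ((h + 3) * (2 * a₆ ^ 2)) ^ 3
          * (4 * A ^ 3 + 27 * B ^ 2) := by ring
  rw [e5, e1, e2, e3]
  linear_combination (a₆ ^ 2 * h) * e4

/-- Level 5: the data `(s, m)` of a rational cyclic subgroup of order 5 give `t` with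
`j t = (t^2+10t+5)^3`. -/
theorem alg_five (A B s m : ℚ) (hD : 4 * A ^ 3 + 27 * B ^ 2 ≠ 0) (hsm : s ^ 2 ≠ 4 * m)
    (h2 : 4 * B = s * (s ^ 2 - 6 * m - 2 * A))
    (h3 : A ^ 2 + 2 * (s ^ 2 - m) * A - s ^ 4 + 5 * m * s ^ 2 + 5 * m ^ 2 = 0) :
    ∃ t : ℚ, t ≠ 0 ∧
      6912 * A ^ 3 * t = (t ^ 2 + 10 * t + 5) ^ 3 * (4 * A ^ 3 + 27 * B ^ 2) := by
  obtain ⟨δ, hδ⟩ : ∃ δ : ℚ, δ = s ^ 2 - 4 * m := ⟨_, rfl⟩
  have hδ0 : δ ≠ 0 := by rw [hδ]; exact sub_ne_zero.mpr hsm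
  obtain ⟨r, hr⟩ : ∃ r : ℚ, r = A + s ^ 2 - m := ⟨_, rfl⟩
  obtain ⟨t, ht⟩ : ∃ t : ℚ, t = 4 * r / δ - 11 := ⟨_, rfl⟩
  have e1 : t * δ = 4 * r - 11 * δ := by rw [ht]; field_simp
  have e2 : (t ^ 2 + 10 * t + 5) * δ = -48 * A := by
    have h1 : (t ^ 2 + 10 * t + 5) * δ ^ 2 = -48 * A * δ := by
      have h0 : (t ^ 2 + 10 * t + 5) * δ ^ 2
          = (t * δ) ^ 2 + 10 * (t * δ) * δ + 5 * δ ^ 2 := by ring
      rw [h0, e1, hr, hδ]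
      linear_combination 16 * h3
    apply mul_right_cancel₀ hδ0
    linear_combination h1
  have e3 : 16 * (4 * A ^ 3 + 27 * B ^ 2) = -(δ ^ 3 * t) := by
    have h0 : δ ^ 3 * t = δ ^ 2 * (t * δ) := by ring
    rw [h0, e1, hr, hδ]
    linear_combination 27 * (4 * B + s * (s ^ 2 - 6 * m - 2 * A)) * h2
      + (64 * A - 20 * s ^ 2 + 128 * m) * h3
  have ht0 : t ≠ 0 := by
    intro h0; apply hD
    have : 16 * (4 * A ^ 3 + 27 * B ^ 2) = 0 := by rw [e3, h0]; ring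
    linarith
  refine ⟨t, ht0, ?_⟩
  have hδ3 : δ ^ 3 ≠ 0 := pow_ne_zero 3 hδ0
  apply mul_right_cancel₀ hδ3
  have e5 : (t ^ 2 + 10 * t + 5) ^ 3 * (4 * A ^ 3 + 27 * B ^ 2) * δ ^ 3
      = ((t ^ 2 + 10 * t + 5) * δ) ^ 3 * (4 * A ^ 3 + 27 * B ^ 2) := by ring
  rw [e5, e2]
  linear_combination (6912 * A ^ 3) * e3

/-- The map from `X₀(15)` (coordinates `h`, `t`) to the elliptic curve `15a1`, and the
resulting list of possible values of `t`. -/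
theorem alg_map
    (hdesc : ∀ X Y : ℚ, Y ^ 2 = X * (X - 16) * (X + 9) →
      X = 0 ∨ X = 16 ∨ X = -9 ∨ X = 36 ∨ X = -4)
    (j h t : ℚ) (hh : h ≠ 0) (ht : t ≠ 0) (hjh : j * h = (h + 27) * (h + 3) ^ 3)
    (hjt : j * t = (t ^ 2 + 10 * t + 5) ^ 3) :
    t = -10 ∨ t = -40 ∨ t = -25 / 2 ∨ t = -25 / 8 := by
  have hq : t ^ 2 + 10 * t + 5 ≠ 0 := by
    intro h0
    apply alg_no_sq_five ((t + 5) / 2)
    linear_combination (1 / 4) * h0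
  have hd : t ^ 2 + 4 * t - 1 ≠ 0 := by
    intro h0
    apply alg_no_sq_five (t + 2)
    linear_combination h0
  have hj : j ≠ 0 := by
    intro h0
    rw [h0, zero_mul] at hjt
    exact hq ((pow_eq_zero_iff three_ne_zero).mp hjt.symm)
  have hh3 : h + 3 ≠ 0 := by
    intro h0
    rw [h0] at hjh
    have h1 : j * h = 0 := by rw [hjh]; ring
    exact (mul_ne_zero hj hh) h1
  obtain ⟨v, hv⟩ : ∃ v : ℚ, v = (t ^ 2 + 10 * t + 5) / (h + 3) := ⟨_, rfl⟩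
  have ev : v * (h + 3) = t ^ 2 + 10 * t + 5 := by rw [hv]; field_simp
  have ev3 : v ^ 3 * h = t * (h + 27) := by
    have h1 : (v * (h + 3)) ^ 3 * h = t * (h + 27) * (h + 3) ^ 3 := by
      rw [ev]; linear_combination (-h) * hjt + t * hjh
    have h33 : (h + 3) ^ 3 ≠ 0 := pow_ne_zero 3 hh3
    apply mul_right_cancel₀ h33
    linear_combination h1
  have hF : t ^ 3 + (10 - v ^ 3) * t ^ 2 + (5 + 24 * v - 10 * v ^ 3) * t
      + 3 * v ^ 4 - 5 * v ^ 3 = 0 := by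
    linear_combination (v ^ 3 - t) * ev - v * ev3
  obtain ⟨d, hdd⟩ : ∃ d : ℚ, d = t ^ 2 + 4 * t - 1 := ⟨_, rfl⟩
  have hd0 : d ≠ 0 := by rw [hdd]; exact hd
  obtain ⟨g, hg⟩ : ∃ g : ℚ, g = 9 * (1 + (1 - v) * (v - t)) / d := ⟨_, rfl⟩
  have eg : g * d = 9 * (1 + (1 - v) * (v - t)) := by rw [hg]; field_simp
  have hC : 9 * g * v ^ 2 + (6 * g ^ 2 + 9 * g) * v + g ^ 3 + 12 * g ^ 2 + 18 * g - 81 = 0 := by
    have hd3 : d ^ 3 ≠ 0 := pow_ne_zero 3 hd0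
    apply mul_right_cancel₀ hd3
    have h0 : (9 * g * v ^ 2 + (6 * g ^ 2 + 9 * g) * v + g ^ 3 + 12 * g ^ 2 + 18 * g - 81) * d ^ 3
        = 9 * (g * d) * v ^ 2 * d ^ 2 + (6 * (g * d) ^ 2 * d + 9 * (g * d) * d ^ 2) * v
          + (g * d) ^ 3 + 12 * (g * d) ^ 2 * d + 18 * (g * d) * d ^ 2 - 81 * d ^ 3 := by ring
    rw [h0, eg, hdd]
    linear_combination (-81 * t ^ 3 + 81 * t ^ 2 * v - 324 * t ^ 2 + 567 * t * v - 162 * t
      - 243 * v ^ 2 + 162 * v + 243) * hF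
  have hT : t * g + (g ^ 2 / 3 + 4 * g + 9) - (9 - g) * v = 0 := by
    have hd2 : d ^ 2 ≠ 0 := pow_ne_zero 2 hd0
    apply mul_right_cancel₀ hd2
    have h0 : (t * g + (g ^ 2 / 3 + 4 * g + 9) - (9 - g) * v) * d ^ 2
        = t * (g * d) * d + ((g * d) ^ 2 / 3 + 4 * (g * d) * d + 9 * d ^ 2)
          - (9 * d - g * d) * v * d := by ring
    rw [h0, eg, hdd]
    linear_combination 9 * hF
  have hW : (8 * g * v + 8 / 3 * g ^ 2 + 4 * g) ^ 2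
      = (-4 * g) * ((-4 * g) - 16) * ((-4 * g) + 9) := by
    linear_combination (64 / 9 * g) * hC
  rcases hdesc _ _ hW with h0 | h0 | h0 | h0 | h0
  · -- g = 0
    have hg0 : g = 0 := by linarith
    rw [hg0] at hC
    norm_num at hC
  · -- g = -4
    have hg0 : g = -4 := by linarith
    rw [hg0] at hC hT
    have hv0 : v = 5 / 6 := by
      have h1 : (6 * v - 5) ^ 2 = 0 := by linear_combination (-1) * hC
      have h2 : 6 * v - 5 = 0 := (pow_eq_zero_iff two_ne_zero).mp h1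
      linarith
    rw [hv0] at hT
    right; right; right
    linarith
  · -- g = 9/4
    have hg0 : g = 9 / 4 := by linarith
    rw [hg0] at hC hT
    have hv0 : v = -5 / 4 := by
      have h1 : (4 * v + 5) ^ 2 = 0 := by linear_combination (64 / 81) * hC
      have h2 : 4 * v + 5 = 0 := (pow_eq_zero_iff two_ne_zero).mp h1
      linarith
    rw [hv0] at hT
    right; right; left
    linarith
  · -- g = -9
    have hg0 : g = -9 := by linarith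
    rw [hg0] at hC hT
    have hv0 : v * (v - 5) = 0 := by linear_combination (-1 / 81) * hC
    rcases mul_eq_zero.mp hv0 with h1 | h1
    · rw [h1] at hT
      exfalso; apply ht; linarith
    · have hv1 : v = 5 := by linarith
      rw [hv1] at hT
      left
      linarith
  · -- g = 1
    have hg0 : g = 1 := by linarith
    rw [hg0] at hC hT
    have hv0 : (3 * v - 5) * (3 * v + 10) = 0 := by linear_combination hC
    rcases mul_eq_zero.mp hv0 with h1 | h1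
    · have hv1 : v = 5 / 3 := by linarith
      rw [hv1] at hT
      exfalso; apply ht; linarith
    · have hv1 : v = -10 / 3 := by linarith
      rw [hv1] at hT
      right; left
      linarith

/-- If `a c^3 = b Δ` with `5 ∤ a`, `5 ∣ b`, `125 ∤ b`, then `5 ∣ c` and `5 ∣ Δ`. -/
theorem alg_five_dvd (c Δ a b : ℤ) (h : a * c ^ 3 = b * Δ) (ha : ¬ (5 : ℤ) ∣ a)
    (hb : (5 : ℤ) ∣ b) (hb' : ¬ (125 : ℤ) ∣ b) : (5 : ℤ) ∣ c ∧ (5 : ℤ) ∣ Δ := by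
  have hp : Prime (5 : ℤ) := Int.prime_iff_natAbs_prime.mpr (by norm_num)
  have h1 : (5 : ℤ) ∣ a * c ^ 3 := by rw [h]; exact Dvd.dvd.mul_right hb Δ
  have hc : (5 : ℤ) ∣ c := by
    rcases hp.dvd_or_dvd h1 with h2 | h2
    · exact absurd h2 ha
    · exact hp.dvd_of_dvd_pow h2
  refine ⟨hc, ?_⟩
  by_contra hΔ
  obtain ⟨k, rfl⟩ := hc
  have h2 : (125 : ℤ) ∣ b * Δ := by
    rw [← h]; exact ⟨a * k ^ 3, by ring⟩
  have hcop : IsCoprime (125 : ℤ) Δ := by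
    have h5 : IsCoprime (5 : ℤ) Δ := (Prime.coprime_iff_not_dvd hp).mpr hΔ
    have : IsCoprime ((5 : ℤ) ^ 3) Δ := h5.pow_left
    norm_num at this
    exact this
  exact hb' (hcop.dvd_of_dvd_mul_right h2)

/-- The endgame: none of the four `j`-invariants is the `j`-invariant of a semistable model. -/
theorem alg_fin (c₄ c₆ Δ : ℤ) (hrel : 1728 * Δ = c₄ ^ 3 - c₆ ^ 2)
    (hss : ∀ p : ℕ, p.Prime → (p : ℤ) ∣ Δ → ¬ (p : ℤ) ∣ c₄)
    (t : ℚ) (ht : t = -10 ∨ t = -40 ∨ t = -25 / 2 ∨ t = -25 / 8)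
    (hj : 6912 * (-27 * (c₄ : ℚ)) ^ 3 * t
      = (t ^ 2 + 10 * t + 5) ^ 3 * (4 * (-27 * (c₄ : ℚ)) ^ 3 + 27 * (-54 * (c₆ : ℚ)) ^ 2)) :
    False := by
  have hrelQ : (1728 : ℚ) * (Δ : ℚ) = (c₄ : ℚ) ^ 3 - (c₆ : ℚ) ^ 2 := by exact_mod_cast hrel
  have hj' : (c₄ : ℚ) ^ 3 * t = (t ^ 2 + 10 * t + 5) ^ 3 * (Δ : ℚ) := by
    linear_combination (-1 / 136048896 : ℚ) * hj
      + (-(t ^ 2 + 10 * t + 5) ^ 3 / 1728) * hrelQ
  have key : ∀ a b : ℤ, a * c₄ ^ 3 = b * Δ → ¬ (5 : ℤ) ∣ a → (5 : ℤ) ∣ b → ¬ (125 : ℤ) ∣ b →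
      False := by
    intro a b h ha hb hb'
    obtain ⟨h1, h2⟩ := alg_five_dvd c₄ Δ a b h ha hb hb'
    exact hss 5 Nat.prime_five (by exact_mod_cast h2) (by exact_mod_cast h1)
  rcases ht with rfl | rfl | rfl | rfl
  · refine key 2 (-25) ?_ (by norm_num) (by norm_num) (by norm_num)
    have : (2 : ℚ) * (c₄ : ℚ) ^ 3 = (-25 : ℚ) * (Δ : ℚ) := by linear_combination (-1 / 5 : ℚ) * hj'
    exact_mod_cast this
  · refine key 8 (-349938025) ?_ (by norm_num) (by norm_num) (by norm_num)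
    have : (8 : ℚ) * (c₄ : ℚ) ^ 3 = (-349938025 : ℚ) * (Δ : ℚ) := by
      linear_combination (-1 / 5 : ℚ) * hj'
    exact_mod_cast this
  · refine key 32 (-121945) ?_ (by norm_num) (by norm_num) (by norm_num)
    have : (32 : ℚ) * (c₄ : ℚ) ^ 3 = (-121945 : ℚ) * (Δ : ℚ) := by
      linear_combination (-64 / 25 : ℚ) * hj'
    exact_mod_cast this
  · refine key 32768 46969655 ?_ (by norm_num) (by norm_num) (by norm_num)
    have : (32768 : ℚ) * (c₄ : ℚ) ^ 3 = (46969655 : ℚ) * (Δ : ℚ) := by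
      linear_combination (-262144 / 25 : ℚ) * hj'
    exact_mod_cast this

/-- (c)+(e) assembled: the rational data produced by a reducible mod 3 and a reducible
mod 5 representation are incompatible with semistability. -/
theorem alg_core
    (hdesc : ∀ X Y : ℚ, Y ^ 2 = X * (X - 16) * (X + 9) →
      X = 0 ∨ X = 16 ∨ X = -9 ∨ X = 36 ∨ X = -4)
    (c₄ c₆ Δ : ℤ) (hrel : 1728 * Δ = c₄ ^ 3 - c₆ ^ 2) (hΔ : Δ ≠ 0)
    (hss : ∀ p : ℕ, p.Prime → (p : ℤ) ∣ Δ → ¬ (p : ℤ) ∣ c₄)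
    (X : ℚ)
    (hX : 3 * X ^ 4 + 6 * (-27 * (c₄ : ℚ)) * X ^ 2 + 12 * (-54 * (c₆ : ℚ)) * X
      - (-27 * (c₄ : ℚ)) ^ 2 = 0)
    (s m : ℚ) (hsm : s ^ 2 ≠ 4 * m)
    (h2 : 4 * (-54 * (c₆ : ℚ)) = s * (s ^ 2 - 6 * m - 2 * (-27 * (c₄ : ℚ))))
    (h3 : (-27 * (c₄ : ℚ)) ^ 2 + 2 * (s ^ 2 - m) * (-27 * (c₄ : ℚ)) - s ^ 4 + 5 * m * s ^ 2
      + 5 * m ^ 2 = 0) : False := by
  have hrelQ : (1728 : ℚ) * (Δ : ℚ) = (c₄ : ℚ) ^ 3 - (c₆ : ℚ) ^ 2 := by exact_mod_cast hrel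
  have hΔQ : (Δ : ℚ) ≠ 0 := by exact_mod_cast hΔ
  have hDeq : 4 * (-27 * (c₄ : ℚ)) ^ 3 + 27 * (-54 * (c₆ : ℚ)) ^ 2 = -136048896 * (Δ : ℚ) := by
    linear_combination (78732 : ℚ) * hrelQ
  have hD : 4 * (-27 * (c₄ : ℚ)) ^ 3 + 27 * (-54 * (c₆ : ℚ)) ^ 2 ≠ 0 := by
    rw [hDeq]; exact mul_ne_zero (by norm_num) hΔQ
  obtain ⟨h, hh0, hh⟩ := alg_three _ _ X hD hX
  obtain ⟨t, ht0, ht⟩ := alg_five _ _ s m hD hsm h2 h3
  obtain ⟨D, hDD⟩ : ∃ D : ℚ, D = 4 * (-27 * (c₄ : ℚ)) ^ 3 + 27 * (-54 * (c₆ : ℚ)) ^ 2 :=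
    ⟨_, rfl⟩
  rw [← hDD] at hD hh ht
  obtain ⟨j, hj⟩ : ∃ j : ℚ, j = 6912 * (-27 * (c₄ : ℚ)) ^ 3 / D := ⟨_, rfl⟩
  have hjD : j * D = 6912 * (-27 * (c₄ : ℚ)) ^ 3 := by rw [hj]; exact div_mul_cancel₀ _ hD
  have hjh : j * h = (h + 27) * (h + 3) ^ 3 := by
    apply mul_right_cancel₀ hD
    linear_combination h * hjD + hh
  have hjt : j * t = (t ^ 2 + 10 * t + 5) ^ 3 := by
    apply mul_right_cancel₀ hD
    linear_combination t * hjD + ht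
  have ht' := alg_map hdesc j h t hh0 ht0 hjh hjt
  rw [hDD] at ht
  exact alg_fin c₄ c₆ Δ hrel hss t ht' ht

end Fermat.Agent.T51
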