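import Mathlib

/-
T51 (S51), step (d): the Diophantine core.

Main results (namespace `Fermat.Agent.T51`):

* `ratpoints_15a2 (x y : ℚ) (h : y ^ 2 = x * (x - 1) * (x - 81)) : y = 0`
* `ratpoints_15a (x y : ℚ) (h : y ^ 2 = x * (x - 16) * (x + 9)) :
    x = 0 ∨ x = 16 ∨ x = -9 ∨ x = 36 ∨ x = -4`

Method: complete 2-descent on `y² = x(x-1)(x-81)` (four square classes, the others are
excluded 2-adically and 3-adically), translation by the 2-division points into the trivial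
class, and infinite descent on `a² - e² = b²`, `a² - 81 e² = c²` by explicit halving.
The second curve is reduced to the first one by an explicit 2-isogeny.
-/

set_option autoImplicit false

namespace Fermat.Agent.T51

/-- Squarefree-part lemma: if `A * R = N ^ 2` with `N ≠ 0` then `A` and `R` have the same
squarefree part. -/
theorem desc_sqfree_part (A R N : ℤ) (hN : N ≠ 0) (h : A * R = N ^ 2) :
    ∃ δ s t : ℤ, Squarefree δ ∧ s ≠ 0 ∧ t ≠ 0 ∧ A = δ * s ^ 2 ∧ R = δ * t ^ 2 := by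
  have hA : A ≠ 0 := by rintro rfl; simp at h; exact hN (by simpa using h.symm)
  have hR : R ≠ 0 := by rintro rfl; simp at h; exact hN (by simpa using h.symm)
  obtain ⟨d, s, hds, hd⟩ := Nat.sq_mul_squarefree A.natAbs
  have hs0 : s ≠ 0 := by
    rintro rfl
    simp at hds
    exact hA (by simpa using hds.symm)
  have hd0 : d ≠ 0 := by
    rintro rfl
    simp at hds
    exact hA (by simpa using hds.symm)
  -- sign of A
  obtain ⟨ε, hε, hAε⟩ : ∃ ε : ℤ, (ε = 1 ∨ ε = -1) ∧ A = ε * ((s : ℤ) ^ 2 * d) := by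
    rcases Int.natAbs_eq A with h1 | h1
    · exact ⟨1, Or.inl rfl, by rw [h1, ← hds]; push_cast; ring⟩
    · exact ⟨-1, Or.inr rfl, by rw [h1, ← hds]; push_cast; ring⟩
  have hε2 : ε * ε = 1 := by rcases hε with rfl | rfl <;> norm_num
  -- s ∣ N
  have hsN : (s : ℤ) ∣ N := by
    have : (s : ℤ) ^ 2 ∣ N ^ 2 := ⟨ε * d * R, by rw [← h, hAε]; ring⟩
    exact (Int.pow_dvd_pow_iff (by norm_num)).mp this
  obtain ⟨N₁, rfl⟩ := hsN
  have hsz : (s : ℤ) ≠ 0 := by exact_mod_cast hs0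
  have hdz : (d : ℤ) ≠ 0 := by exact_mod_cast hd0
  have h1 : ε * d * R = N₁ ^ 2 := by
    have : (s : ℤ) ^ 2 * (ε * d * R) = (s : ℤ) ^ 2 * N₁ ^ 2 := by
      rw [hAε] at h; linear_combination h
    exact mul_left_cancel₀ (pow_ne_zero 2 hsz) this
  have hsqd : Squarefree (d : ℤ) := Int.squarefree_natCast.mpr hd
  have hdN : (d : ℤ) ∣ N₁ := by
    have : (d : ℤ) ∣ N₁ ^ 2 := ⟨ε * R, by rw [← h1]; ring⟩
    exact (hsqd.dvd_pow_iff_dvd (by norm_num)).mp this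
  obtain ⟨N₂, rfl⟩ := hdN
  have h2 : ε * R = d * N₂ ^ 2 := by
    have : (d : ℤ) * (ε * R) = d * (d * N₂ ^ 2) := by linear_combination h1
    exact mul_left_cancel₀ hdz this
  have hN2 : N₂ ≠ 0 := by
    rintro rfl
    simp at hN
  refine ⟨ε * d, s, N₂, ?_, hsz, hN2, by rw [hAε]; ring, ?_⟩
  · rcases hε with rfl | rfl
    · simpa using hsqd
    · exact Int.squarefree_natAbs.mp (by simpa using hd)
  · have : R = ε * (ε * R) := by rw [← mul_assoc, hε2, one_mul]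
    rw [this, h2]; ring
theorem desc_zmod3_aux : ∀ a e n : ZMod 3, e ≠ 0 →
    n ^ 2 = (3 * a ^ 2 - e ^ 2) * (a ^ 2 - 27 * e ^ 2) → n = 0 ∧ a = 0 := by decide

theorem desc_zmod3_aux' : ∀ a e n : ZMod 3, e ≠ 0 →
    n ^ 2 = (27 * a ^ 2 - e ^ 2) * (a ^ 2 - 3 * e ^ 2) → n = 0 ∧ a = 0 := by decide

theorem desc_zmod3_aux'' : ∀ a e n : ZMod 3,
    3 * n ^ 2 = (243 * a ^ 2 - e ^ 2) * (3 * a ^ 2 - e ^ 2) → e = 0 := by decide

/-- 3-adic obstruction. -/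
theorem desc_three (a e n : ℤ) (he : ¬ (3 : ℤ) ∣ e)
    (h : n ^ 2 = (3 * a ^ 2 - e ^ 2) * (a ^ 2 - 27 * e ^ 2)) : False := by
  have he3 : (e : ZMod 3) ≠ 0 := by
    intro h0
    exact he ((ZMod.intCast_zmod_eq_zero_iff_dvd e 3).mp h0)
  have h1 := congrArg (Int.cast : ℤ → ZMod 3) h
  push_cast at h1
  obtain ⟨hn, ha⟩ := desc_zmod3_aux _ _ _ he3 h1
  obtain ⟨n₁, rfl⟩ := (ZMod.intCast_zmod_eq_zero_iff_dvd n 3).mp hn
  obtain ⟨a₁, rfl⟩ := (ZMod.intCast_zmod_eq_zero_iff_dvd a 3).mp ha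
  have h2 : n₁ ^ 2 = (27 * a₁ ^ 2 - e ^ 2) * (a₁ ^ 2 - 3 * e ^ 2) := by
    push_cast at h; linarith
  have h2' := congrArg (Int.cast : ℤ → ZMod 3) h2
  push_cast at h2'
  obtain ⟨hn, ha⟩ := desc_zmod3_aux' _ _ _ he3 h2'
  obtain ⟨n₂, rfl⟩ := (ZMod.intCast_zmod_eq_zero_iff_dvd n₁ 3).mp hn
  obtain ⟨a₂, rfl⟩ := (ZMod.intCast_zmod_eq_zero_iff_dvd a₁ 3).mp ha
  have h3 : 3 * n₂ ^ 2 = (243 * a₂ ^ 2 - e ^ 2) * (3 * a₂ ^ 2 - e ^ 2) := by
    push_cast at h2; linarith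
  have h3' := congrArg (Int.cast : ℤ → ZMod 3) h3
  push_cast at h3'
  exact he3 (desc_zmod3_aux'' _ _ _ h3')

theorem desc_zmod8_aux1 : ∀ δ a e b : ZMod 8, 4 * δ ≠ 0 →
    ¬ (4 * a = 0 ∧ 4 * e = 0) → a ^ 2 - e ^ 2 = 2 * δ * b ^ 2 → 4 * b = 0 ∧ 4 * e ≠ 0 := by decide

theorem desc_zmod8_aux2 : ∀ δ a e c : ZMod 8, 4 * δ ≠ 0 →
    ¬ (4 * a = 0 ∧ 4 * e = 0) → a ^ 2 - 81 * e ^ 2 = 2 * δ * c ^ 2 → 4 * c = 0 := by decide

theorem desc_zmod8_aux3 : ∀ δ e b c : ZMod 8, 4 * δ ≠ 0 → 4 * e ≠ 0 →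
    10 * e ^ 2 = δ * (b ^ 2 - c ^ 2) → False := by decide

/-- 2-adic obstruction. -/
theorem desc_two (a e b c δ : ℤ) (hδ : δ = 1 ∨ δ = -1 ∨ δ = 5 ∨ δ = -5) (hae : IsCoprime a e)
    (h1 : a ^ 2 - e ^ 2 = 2 * δ * b ^ 2) (h2 : a ^ 2 - 81 * e ^ 2 = 2 * δ * c ^ 2) : False := by
  have hδ8 : 4 * (δ : ZMod 8) ≠ 0 := by
    rcases hδ with rfl | rfl | rfl | rfl <;> push_cast <;> decide
  have hae8 : ¬ (4 * (a : ZMod 8) = 0 ∧ 4 * (e : ZMod 8) = 0) := by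
    rintro ⟨ha, he⟩
    obtain ⟨u, v, huv⟩ := hae
    have := congrArg (Int.cast : ℤ → ZMod 8) huv
    push_cast at this
    have h4 : (4 : ZMod 8) = (u : ZMod 8) * (4 * a) + v * (4 * e) := by
      linear_combination (-4 : ZMod 8) * this
    rw [ha, he] at h4
    revert h4
    simp
    decide
  have h1' := congrArg (Int.cast : ℤ → ZMod 8) h1
  have h2' := congrArg (Int.cast : ℤ → ZMod 8) h2
  push_cast at h1' h2'
  obtain ⟨hb, he⟩ := desc_zmod8_aux1 _ _ _ _ hδ8 hae8 h1'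
  have hc := desc_zmod8_aux2 _ _ _ _ hδ8 hae8 h2'
  have hb2 : (2 : ℤ) ∣ b := by
    have : ((4 * b : ℤ) : ZMod 8) = 0 := by push_cast; exact hb
    have := (ZMod.intCast_zmod_eq_zero_iff_dvd (4 * b) 8).mp this
    omega
  have hc2 : (2 : ℤ) ∣ c := by
    have : ((4 * c : ℤ) : ZMod 8) = 0 := by push_cast; exact hc
    have := (ZMod.intCast_zmod_eq_zero_iff_dvd (4 * c) 8).mp this
    omega
  obtain ⟨b₁, rfl⟩ := hb2
  obtain ⟨c₁, rfl⟩ := hc2
  have h3 : 10 * e ^ 2 = δ * (b₁ ^ 2 - c₁ ^ 2) := by linarith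
  have h3' := congrArg (Int.cast : ℤ → ZMod 8) h3
  push_cast at h3'
  exact desc_zmod8_aux3 _ _ _ _ hδ8 he h3'

/-- Clearing denominators on `y² = x(x-1)(x-81)`. -/
theorem desc_integral (x y : ℚ) (hy : y ≠ 0) (h : y ^ 2 = x * (x - 1) * (x - 81)) :
    ∃ p e N : ℤ, e ≠ 0 ∧ N ≠ 0 ∧ IsCoprime p e ∧ x = (p : ℚ) / (e : ℚ) ^ 2 ∧
      p * ((p - e ^ 2) * (p - 81 * e ^ 2)) = N ^ 2 := by
  have hq0 : (0 : ℤ) < (x.den : ℤ) := by exact_mod_cast x.den_pos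
  have hx : x = (x.num : ℚ) / ((x.den : ℤ) : ℚ) := by
    simpa using (Rat.num_div_den x).symm
  have hcop : IsCoprime x.num (x.den : ℤ) := by
    rw [Int.isCoprime_iff_gcd_eq_one]
    simpa [Int.gcd] using x.reduced
  generalize x.num = p at hx hcop
  generalize (x.den : ℤ) = q at hx hcop hq0
  have hqQ : (q : ℚ) ≠ 0 := by exact_mod_cast hq0.ne'
  have hT : ((q * (p * ((p - q) * (p - 81 * q))) : ℤ) : ℚ) = (q ^ 2 * y) * (q ^ 2 * y) := by
    have : ((q : ℚ) ^ 2 * y) * (q ^ 2 * y) = q ^ 4 * y ^ 2 := by ring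
    rw [this, h, hx]
    push_cast
    field_simp
  obtain ⟨N, hN⟩ : IsSquare (q * (p * ((p - q) * (p - 81 * q)))) :=
    Rat.isSquare_intCast_iff.mp ⟨_, hT⟩
  have hN0 : N ≠ 0 := by
    rintro rfl
    rw [hN] at hT
    have : (q : ℚ) ^ 2 * y ≠ 0 := mul_ne_zero (pow_ne_zero 2 hqQ) hy
    exact mul_self_ne_zero.mpr this (by simpa using hT.symm)
  have hcop2 : IsCoprime q (p * ((p - q) * (p - 81 * q))) := by
    have h1 : IsCoprime q p := hcop.symm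
    have h2 : IsCoprime q (p - q) := by
      have h2' : IsCoprime q (p + q * (-1)) := h1.add_mul_left_right (-1)
      have e2 : p + q * (-1) = p - q := by ring
      rwa [e2] at h2'
    have h3 : IsCoprime q (p - 81 * q) := by
      have h3' : IsCoprime q (p + q * (-81)) := h1.add_mul_left_right (-81)
      have e3 : p + q * (-81) = p - 81 * q := by ring
      rwa [e3] at h3'
    exact h1.mul_right (h2.mul_right h3)
  obtain ⟨e, he⟩ := Int.sq_of_isCoprime hcop2 (by rw [hN]; ring)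
  have hqe : q = e ^ 2 := by
    rcases he with he | he
    · exact he
    · exfalso
      have : 0 ≤ e ^ 2 := sq_nonneg e
      linarith
  subst hqe
  have he0 : e ≠ 0 := by
    rintro rfl
    simp at hq0
  have heN : e ∣ N := by
    have : e ^ 2 ∣ N ^ 2 := ⟨p * ((p - e ^ 2) * (p - 81 * e ^ 2)), by rw [hN]; ring⟩
    exact (Int.pow_dvd_pow_iff (by norm_num)).mp this
  obtain ⟨N₁, rfl⟩ := heN
  have hN1 : N₁ ≠ 0 := by
    rintro rfl
    simp at hN0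
  refine ⟨p, e, N₁, he0, hN1, ?_, hx.trans (by push_cast; ring), ?_⟩
  · exact IsCoprime.of_mul_right_left (by simpa [pow_two] using hcop)
  · have : e ^ 2 * (p * ((p - e ^ 2) * (p - 81 * e ^ 2))) = e ^ 2 * N₁ ^ 2 := by
      rw [hN]; ring
    exact mul_left_cancel₀ (pow_ne_zero 2 he0) this

theorem desc_dvd_ten (δ : ℤ) (h : δ ∣ 10) :
    δ = 1 ∨ δ = -1 ∨ δ = 5 ∨ δ = -5 ∨ δ = 2 * 1 ∨ δ = 2 * (-1) ∨ δ = 2 * 5 ∨ δ = 2 * (-5) := by
  have hδle : δ ≤ 10 := Int.le_of_dvd (by norm_num) h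
  have hδge : -10 ≤ δ := by
    have : -δ ≤ 10 := Int.le_of_dvd (by norm_num) ((neg_dvd).mpr h)
    linarith
  interval_cases δ <;> first | (simp; done) | (exfalso; revert h; decide)

/-- Complete 2-descent on `y² = x(x-1)(x-81)`: every rational point with `y ≠ 0` lies in one
of the four square classes of the 2-torsion points. -/
theorem desc_class (x y : ℚ) (hy : y ≠ 0) (h : y ^ 2 = x * (x - 1) * (x - 81)) :
    ∃ a e b c δ : ℤ, e ≠ 0 ∧ b ≠ 0 ∧ c ≠ 0 ∧ IsCoprime a e ∧ x = (a : ℚ) ^ 2 / (e : ℚ) ^ 2 ∧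
      (δ = 1 ∨ δ = -1 ∨ δ = 5 ∨ δ = -5) ∧ a ^ 2 - e ^ 2 = δ * b ^ 2 ∧
      a ^ 2 - 81 * e ^ 2 = δ * c ^ 2 := by
  obtain ⟨p, e, N, he0, hN0, hcop, hx, hN⟩ := desc_integral x y hy h
  have hp : 0 < p := by
    by_contra hp
    push Not at hp
    have h1 : p - e ^ 2 ≤ 0 := by nlinarith [sq_nonneg e]
    have h2 : p - 81 * e ^ 2 ≤ 0 := by nlinarith [sq_nonneg e]
    have h3 : 0 ≤ (p - e ^ 2) * (p - 81 * e ^ 2) := mul_nonneg_of_nonpos_of_nonpos h1 h2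
    have h4 : p * ((p - e ^ 2) * (p - 81 * e ^ 2)) ≤ 0 := mul_nonpos_of_nonpos_of_nonneg hp h3
    have h5 : 0 < N ^ 2 := by positivity
    linarith
  obtain ⟨δ₁, a, t, hsq1, ha0, ht0, hpa, hRt⟩ := desc_sqfree_part _ _ _ hN0 hN
  have hδ1pos : 0 < δ₁ := by
    by_contra hc
    push Not at hc
    have : δ₁ * a ^ 2 ≤ 0 := mul_nonpos_of_nonpos_of_nonneg hc (sq_nonneg a)
    linarith
  have hδ1e : IsCoprime δ₁ e := IsCoprime.of_isCoprime_of_dvd_left hcop ⟨a ^ 2, hpa⟩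
  have hδ1_81 : δ₁ ∣ 81 := by
    have h1 : δ₁ ∣ 81 * e ^ 4 := by
      have : (81 : ℤ) * e ^ 4 = (p - e ^ 2) * (p - 81 * e ^ 2) - p * (p - 82 * e ^ 2) := by ring
      rw [this, hRt, hpa]
      exact ⟨t ^ 2 - a ^ 2 * (δ₁ * a ^ 2 - 82 * e ^ 2), by ring⟩
    exact (hδ1e.pow_right (n := 4)).dvd_of_dvd_mul_right h1
  have hδ1_3 : δ₁ ∣ 3 := by
    have : δ₁ ∣ 3 ^ 4 := by norm_num; exact hδ1_81
    exact (hsq1.dvd_pow_iff_dvd (by norm_num)).mp this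
  have hδ1 : δ₁ = 1 ∨ δ₁ = 3 := by
    have h3 : δ₁ ≤ 3 := Int.le_of_dvd (by norm_num) hδ1_3
    interval_cases δ₁
    · exact Or.inl rfl
    · exfalso; omega
    · exact Or.inr rfl
  rcases hδ1 with rfl | rfl
  · -- the class of `x` is trivial
    rw [one_mul] at hpa hRt
    subst hpa
    obtain ⟨δ, b, c, hsq, hb0, hc0, hb, hc⟩ := desc_sqfree_part _ _ _ ht0 hRt
    have hae : IsCoprime a e := IsCoprime.of_mul_left_left (by simpa [pow_two] using hcop)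
    have hδe : IsCoprime δ e := by
      have h1 : IsCoprime (a ^ 2 - e ^ 2) e := by
        have h1' : IsCoprime (a ^ 2 + e * (-e)) e := hcop.add_mul_left_left (-e)
        have e1 : a ^ 2 + e * (-e) = a ^ 2 - e ^ 2 := by ring
        rwa [e1] at h1'
      exact IsCoprime.of_isCoprime_of_dvd_left h1 ⟨b ^ 2, hb⟩
    have hδ80 : δ ∣ 80 := by
      have h1 : δ ∣ 80 * e ^ 2 := by
        have : (80 : ℤ) * e ^ 2 = (a ^ 2 - e ^ 2) - (a ^ 2 - 81 * e ^ 2) := by ring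
        rw [this, hb, hc]
        exact ⟨b ^ 2 - c ^ 2, by ring⟩
      exact (hδe.pow_right (n := 2)).dvd_of_dvd_mul_right h1
    have hδ10 : δ ∣ 10 := by
      have : δ ∣ 10 ^ 4 := Dvd.dvd.trans hδ80 ⟨125, by norm_num⟩
      exact (hsq.dvd_pow_iff_dvd (by norm_num)).mp this
    have hxa : x = (a : ℚ) ^ 2 / (e : ℚ) ^ 2 := by rw [hx]; push_cast; ring
    rcases desc_dvd_ten δ hδ10 with h1 | h1 | h1 | h1 | h1 | h1 | h1 | h1
    · exact ⟨a, e, b, c, δ, he0, hb0, hc0, hae, hxa, Or.inl h1, hb, hc⟩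
    · exact ⟨a, e, b, c, δ, he0, hb0, hc0, hae, hxa, Or.inr (Or.inl h1), hb, hc⟩
    · exact ⟨a, e, b, c, δ, he0, hb0, hc0, hae, hxa, Or.inr (Or.inr (Or.inl h1)), hb, hc⟩
    · exact ⟨a, e, b, c, δ, he0, hb0, hc0, hae, hxa, Or.inr (Or.inr (Or.inr h1)), hb, hc⟩
    · rw [h1] at hb hc
      exact (desc_two a e b c 1 (Or.inl rfl) hae hb hc).elim
    · rw [h1] at hb hc
      exact (desc_two a e b c (-1) (Or.inr (Or.inl rfl)) hae hb hc).elim
    · rw [h1] at hb hc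
      exact (desc_two a e b c 5 (Or.inr (Or.inr (Or.inl rfl))) hae hb hc).elim
    · rw [h1] at hb hc
      exact (desc_two a e b c (-5) (Or.inr (Or.inr (Or.inr rfl))) hae hb hc).elim
  · -- the class `3` is excluded 3-adically
    exfalso
    have he3 : ¬ (3 : ℤ) ∣ e := by
      intro h3
      have hu : IsUnit (3 : ℤ) := hcop.isUnit_of_dvd' ⟨a ^ 2, hpa⟩ h3
      rw [Int.isUnit_iff] at hu
      omega
    have h3 : t ^ 2 = (3 * a ^ 2 - e ^ 2) * (a ^ 2 - 27 * e ^ 2) := by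
      rw [hpa] at hRt
      have : (3 : ℤ) * t ^ 2 = 3 * ((3 * a ^ 2 - e ^ 2) * (a ^ 2 - 27 * e ^ 2)) := by
        rw [← hRt]; ring
      exact mul_left_cancel₀ (by norm_num) this
    exact desc_three a e t he3 h3
/-- Explicit halving on `y² = x(x-1)(x-81)`. -/
theorem desc_halving (u v w : ℚ) (h1 : u ^ 2 - v ^ 2 = 1) (h2 : u ^ 2 - w ^ 2 = 81) :
    ((u + v) * (u + w) * (v + w)) ^ 2 =
      ((u + v) * (u + w)) * ((u + v) * (u + w) - 1) * ((u + v) * (u + w) - 81) := by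
  linear_combination (-(((u + v) * (u + w)) * ((u + v) * (u + w) - 81))) * h1 -
    ((u + v) * (u + w)) * ((u + v) * (v + w)) * h2

theorem desc_not_sq_five (r : ℚ) : r ^ 2 ≠ 5 := by
  intro h
  have h5 : IsSquare (5 : ℚ) := ⟨r, by rw [← pow_two, h]⟩
  have h5' : ¬ IsSquare (5 : ℚ) := by norm_num
  exact h5' h5

/-- Size bound for the halved point. -/
theorem desc_size (a₁ e₁ m k : ℤ) (hcop : IsCoprime a₁ e₁) (he₁ : e₁ ≠ 0) (hm : 0 < m)
    (hk : k ≠ 0) (h : (a₁ : ℚ) ^ 2 / (e₁ : ℚ) ^ 2 * (k : ℚ) = (m : ℚ)) : a₁ ^ 2 ≤ m := by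
  have he₁Q : (e₁ : ℚ) ≠ 0 := by exact_mod_cast he₁
  have h' : a₁ ^ 2 * k = e₁ ^ 2 * m := by
    have : (a₁ : ℚ) ^ 2 * (k : ℚ) = (e₁ : ℚ) ^ 2 * (m : ℚ) := by
      rw [← h]; field_simp
    exact_mod_cast this
  have hdvd : a₁ ^ 2 ∣ m := by
    have hc2 : IsCoprime (a₁ ^ 2) (e₁ ^ 2) := hcop.pow
    exact hc2.dvd_of_dvd_mul_left ⟨k, h'.symm⟩
  exact Int.le_of_dvd hm hdvd

theorem desc_classA_aux : ∀ (n : ℕ) (a e b c : ℤ), 0 < a → 0 < e → 0 < b → 0 < c →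
    a.natAbs = n → a ^ 2 - e ^ 2 = b ^ 2 → a ^ 2 - 81 * e ^ 2 = c ^ 2 → False := by
  intro n
  induction n using Nat.strong_induction_on with
  | _ n ih =>
  intro a e b c ha he hb hc han h1 h2
  have hba : b < a := by nlinarith
  have hcb : c < b := by nlinarith
  -- the final step: a smaller solution contradicts the induction hypothesis
  have fin : ∀ a₁ e₁ b₁ c₁ : ℤ, e₁ ≠ 0 → b₁ ≠ 0 → c₁ ≠ 0 → a₁ ^ 2 - e₁ ^ 2 = b₁ ^ 2 →
      a₁ ^ 2 - 81 * e₁ ^ 2 = c₁ ^ 2 → a₁ ^ 2 < 2 * a → False := by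
    intro a₁ e₁ b₁ c₁ he₁ hb₁ hc₁ hA hB hlt
    have ha₁ : a₁ ≠ 0 := by
      rintro rfl
      have : 0 < e₁ ^ 2 := by positivity
      have : 0 ≤ b₁ ^ 2 := sq_nonneg _
      linarith
    have hlt' : |a₁| < a := by
      apply abs_lt_of_sq_lt_sq _ ha.le
      nlinarith
    have hnn := abs_nonneg a₁
    exact ih (|a₁|).natAbs (by omega) |a₁| |e₁| |b₁| |c₁| (abs_pos.mpr ha₁) (abs_pos.mpr he₁)
      (abs_pos.mpr hb₁) (abs_pos.mpr hc₁) rfl (by simpa only [sq_abs] using hA)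
      (by simpa only [sq_abs] using hB)
  have haQ : (0 : ℚ) < a := by exact_mod_cast ha
  have heQ : (0 : ℚ) < e := by exact_mod_cast he
  have hbQ : (0 : ℚ) < b := by exact_mod_cast hb
  have hcQ : (0 : ℚ) < c := by exact_mod_cast hc
  have hbaQ : (b : ℚ) < a := by exact_mod_cast hba
  have hcbQ : (c : ℚ) < b := by exact_mod_cast hcb
  have h1Q : (a : ℚ) ^ 2 - (e : ℚ) ^ 2 = (b : ℚ) ^ 2 := by exact_mod_cast h1
  have h2Q : (a : ℚ) ^ 2 - 81 * (e : ℚ) ^ 2 = (c : ℚ) ^ 2 := by exact_mod_cast h2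
  have hu : ((a : ℚ) / e) ^ 2 - ((b : ℚ) / e) ^ 2 = 1 := by
    field_simp
    linarith
  have hw : ((a : ℚ) / e) ^ 2 - ((c : ℚ) / e) ^ 2 = 81 := by
    field_simp
    linarith
  have hupos : (0 : ℚ) < (a : ℚ) / e := div_pos haQ heQ
  have hvpos : (0 : ℚ) < (b : ℚ) / e := div_pos hbQ heQ
  have hwpos : (0 : ℚ) < (c : ℚ) / e := div_pos hcQ heQ
  have hwv : (c : ℚ) / e < (b : ℚ) / e := div_lt_div_of_pos_right hcbQ heQ
  have hvu : (b : ℚ) / e < (a : ℚ) / e := div_lt_div_of_pos_right hbaQ heQ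
  have hab : ((a : ℚ) + b) * ((a : ℚ) - b) = (e : ℚ) ^ 2 := by linear_combination h1Q
  have he2 : (e : ℚ) ^ 2 ≠ 0 := pow_ne_zero 2 heQ.ne'
  have hS₁ : ((a : ℚ) / e + (b : ℚ) / e) * ((a : ℚ) / e + (c : ℚ) / e) * ((a - b : ℤ) : ℚ) =
      ((a + c : ℤ) : ℚ) := by
    have h0 : ((a : ℚ) / e + (b : ℚ) / e) * ((a : ℚ) / e + (c : ℚ) / e) * ((a - b : ℤ) : ℚ) =
        ((a : ℚ) + c) * ((((a : ℚ) + b) * ((a : ℚ) - b)) / (e : ℚ) ^ 2) := by
      push_cast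
      rw [← add_div, ← add_div, div_mul_div_comm, ← pow_two]
      ring
    rw [h0, hab, div_self he2, mul_one]
    push_cast
    ring
  have hS₂ : ((a : ℚ) / e + (b : ℚ) / e) * ((a : ℚ) / e + -((c : ℚ) / e)) * ((a - b : ℤ) : ℚ) =
      ((a - c : ℤ) : ℚ) := by
    have h0 : ((a : ℚ) / e + (b : ℚ) / e) * ((a : ℚ) / e + -((c : ℚ) / e)) * ((a - b : ℤ) : ℚ) =
        ((a : ℚ) - c) * ((((a : ℚ) + b) * ((a : ℚ) - b)) / (e : ℚ) ^ 2) := by
      push_cast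
      rw [← neg_div, ← add_div, ← add_div, div_mul_div_comm, ← pow_two]
      ring
    rw [h0, hab, div_self he2, mul_one]
    push_cast
    ring
  generalize (a : ℚ) / e = u at *
  generalize (b : ℚ) / e = v at *
  generalize (c : ℚ) / e = w at *
  have hw' : u ^ 2 - (-w) ^ 2 = 81 := by rw [neg_sq]; exact hw
  have key₁ := desc_halving _ _ _ hu hw
  have key₂ := desc_halving _ _ _ hu hw'
  have huw : (0 : ℚ) < u + -w := by linarith
  have hvw : (0 : ℚ) < v + -w := by linarith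
  have hY₁ : (u + v) * (u + w) * (v + w) ≠ 0 := by positivity
  have hY₂ : (u + v) * (u + -w) * (v + -w) ≠ 0 := by positivity
  obtain ⟨a₁, e₁, b₁, c₁, δ₁, he₁, hb₁, hc₁, hcop₁, hX₁, hδ₁, hA₁, hB₁⟩ :=
    desc_class _ _ hY₁ key₁
  obtain ⟨a₂, e₂, b₂, c₂, δ₂, he₂, hb₂, hc₂, hcop₂, hX₂, hδ₂, hA₂, hB₂⟩ :=
    desc_class _ _ hY₂ key₂
  have he₁Q : (e₁ : ℚ) ≠ 0 := by exact_mod_cast he₁
  have he₂Q : (e₂ : ℚ) ≠ 0 := by exact_mod_cast he₂
  -- sizes
  have hsz₁ : a₁ ^ 2 ≤ a + c :=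
    desc_size a₁ e₁ (a + c) (a - b) hcop₁ he₁ (by omega) (by omega) (by rw [← hX₁]; exact hS₁)
  have hsz₂ : a₂ ^ 2 ≤ a - c :=
    desc_size a₂ e₂ (a - c) (a - b) hcop₂ he₂ (by omega) (by omega) (by rw [← hX₂]; exact hS₂)
  -- the classes
  have hβ₁ : (δ₁ : ℚ) * ((b₁ : ℚ) / e₁) ^ 2 = (u + v) * (v + w) := by
    have hA₁Q : (a₁ : ℚ) ^ 2 - (e₁ : ℚ) ^ 2 = δ₁ * (b₁ : ℚ) ^ 2 := by exact_mod_cast hA₁
    have : (δ₁ : ℚ) * ((b₁ : ℚ) / e₁) ^ 2 = (a₁ : ℚ) ^ 2 / (e₁ : ℚ) ^ 2 - 1 := by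
      field_simp
      linarith
    rw [this, ← hX₁]
    linear_combination hu
  have hβ₂ : (δ₂ : ℚ) * ((b₂ : ℚ) / e₂) ^ 2 = (u + v) * (v + -w) := by
    have hA₂Q : (a₂ : ℚ) ^ 2 - (e₂ : ℚ) ^ 2 = δ₂ * (b₂ : ℚ) ^ 2 := by exact_mod_cast hA₂
    have : (δ₂ : ℚ) * ((b₂ : ℚ) / e₂) ^ 2 = (a₂ : ℚ) ^ 2 / (e₂ : ℚ) ^ 2 - 1 := by
      field_simp
      linarith
    rw [this, ← hX₂]
    linear_combination hu
  generalize (b₁ : ℚ) / e₁ = β₁ at hβ₁
  generalize (b₂ : ℚ) / e₂ = β₂ at hβ₂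
  have hpos₁ : (0 : ℚ) < (u + v) * (v + w) := by positivity
  have hpos₂ : (0 : ℚ) < (u + v) * (v + -w) := by positivity
  have hδ₁pos : 0 < δ₁ := by
    by_contra hneg
    push Not at hneg
    have : (δ₁ : ℚ) ≤ 0 := by exact_mod_cast hneg
    have : (δ₁ : ℚ) * β₁ ^ 2 ≤ 0 := mul_nonpos_of_nonpos_of_nonneg this (sq_nonneg _)
    linarith
  have hδ₂pos : 0 < δ₂ := by
    by_contra hneg
    push Not at hneg
    have : (δ₂ : ℚ) ≤ 0 := by exact_mod_cast hneg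
    have : (δ₂ : ℚ) * β₂ ^ 2 ≤ 0 := mul_nonpos_of_nonpos_of_nonneg this (sq_nonneg _)
    linarith
  have hprod : ((δ₁ : ℚ) * β₁ ^ 2) * ((δ₂ : ℚ) * β₂ ^ 2) = 80 * (u + v) ^ 2 := by
    rw [hβ₁, hβ₂]
    linear_combination ((u + v) ^ 2) * hw - ((u + v) ^ 2) * hu
  have huv0 : u + v ≠ 0 := by positivity
  have hδ₁' : δ₁ = 1 ∨ δ₁ = 5 := by
    rcases hδ₁ with h | h | h | h
    · exact Or.inl h
    · omega
    · exact Or.inr h
    · omega
  have hδ₂' : δ₂ = 1 ∨ δ₂ = 5 := by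
    rcases hδ₂ with h | h | h | h
    · exact Or.inl h
    · omega
    · exact Or.inr h
    · omega
  rcases hδ₁' with rfl | rfl
  · rcases hδ₂' with rfl | rfl
    · -- both trivial: 5 would be a square
      refine desc_not_sq_five (β₁ * β₂ / (4 * (u + v))) ?_
      push_cast at hprod
      rw [div_pow, div_eq_iff (pow_ne_zero 2 (mul_ne_zero (by norm_num) huv0))]
      linear_combination hprod
    · -- the first half-point is of class A
      rw [one_mul] at hA₁ hB₁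
      exact fin a₁ e₁ b₁ c₁ he₁ hb₁ hc₁ hA₁ hB₁ (by omega)
  · rcases hδ₂' with rfl | rfl
    · -- the second half-point is of class A
      rw [one_mul] at hA₂ hB₂
      exact fin a₂ e₂ b₂ c₂ he₂ hb₂ hc₂ hA₂ hB₂ (by omega)
    · -- both of class C: 5 would be a square
      refine desc_not_sq_five (5 * β₁ * β₂ / (4 * (u + v))) ?_
      push_cast at hprod
      rw [div_pow, div_eq_iff (pow_ne_zero 2 (mul_ne_zero (by norm_num) huv0))]
      linear_combination hprod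

/-- No nontrivial simultaneous solution of `a² - e² = b²`, `a² - 81 e² = c²`. -/
theorem desc_classA (a e b c : ℤ) (he : e ≠ 0) (hc : c ≠ 0) (h1 : a ^ 2 - e ^ 2 = b ^ 2)
    (h2 : a ^ 2 - 81 * e ^ 2 = c ^ 2) : False := by
  have he2 : 0 < e ^ 2 := by positivity
  have hc2 : 0 < c ^ 2 := by positivity
  have hb : b ≠ 0 := by
    rintro rfl
    nlinarith
  have ha : a ≠ 0 := by
    rintro rfl
    nlinarith
  exact desc_classA_aux (|a|).natAbs |a| |e| |b| |c| (abs_pos.mpr ha) (abs_pos.mpr he)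
    (abs_pos.mpr hb) (abs_pos.mpr hc) rfl (by simpa only [sq_abs] using h1)
    (by simpa only [sq_abs] using h2)

/-- The curve `y² = x(x-1)(x-81)` (15a2) has only the 2-torsion points as rational points. -/
theorem ratpoints_15a2 (x y : ℚ) (h : y ^ 2 = x * (x - 1) * (x - 81)) : y = 0 := by
  by_contra hy
  obtain ⟨a, e, b, c, δ, he, hb, hc, -, hx, hδ, h1, h2⟩ := desc_class x y hy h
  have ha : a ≠ 0 := by
    rintro rfl
    have hx0 : x = 0 := by rw [hx]; simp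
    rw [hx0] at h
    simp at h
    exact hy h
  rcases hδ with rfl | rfl | rfl | rfl
  · exact desc_classA a e b c he hc (by linarith) (by linarith)
  · exact desc_classA (9 * e) a c (9 * b) ha (mul_ne_zero (by norm_num) hb)
      (by linarith) (by linarith)
  · exact desc_classA (9 * b) c (4 * a) (36 * e) hc (mul_ne_zero (by norm_num) he)
      (by linarith) (by linarith)
  · exact desc_classA c b (4 * e) (4 * a) hb (mul_ne_zero (by norm_num) ha)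
      (by linarith) (by linarith)

/-- Rational points of `y² = x(x-16)(x+9)` (the curve 15a1, a model of `X₀(15)`). -/
theorem ratpoints_15a (x y : ℚ) (h : y ^ 2 = x * (x - 16) * (x + 9)) :
    x = 0 ∨ x = 16 ∨ x = -9 ∨ x = 36 ∨ x = -4 := by
  by_cases hx : x = 16
  · exact Or.inr (Or.inl hx)
  have hX : x - 16 ≠ 0 := sub_ne_zero.mpr hx
  obtain ⟨X, hXdef⟩ : ∃ X : ℚ, X = x - 16 := ⟨_, rfl⟩
  have hxX : x = X + 16 := by rw [hXdef]; ring
  rw [← hXdef] at hX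
  subst hxX
  have h' : y ^ 2 = X * (X + 16) * (X + 25) := by rw [h]; ring
  have key : (y * (400 - X ^ 2) / X ^ 2) ^ 2 =
      ((X + 16) * (X + 25) / X) * ((X + 16) * (X + 25) / X - 1) *
        ((X + 16) * (X + 25) / X - 81) := by
    rw [div_pow, mul_pow, h']
    field_simp
    ring
  have h0 := ratpoints_15a2 _ _ key
  rw [div_eq_zero_iff] at h0
  rcases h0 with h0 | h0
  · rcases mul_eq_zero.mp h0 with hy | hX2
    · rw [hy] at h'
      have : X * (X + 16) * (X + 25) = 0 := by rw [← h']; ring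
      rcases mul_eq_zero.mp this with h3 | h3
      · rcases mul_eq_zero.mp h3 with h4 | h4
        · exact absurd h4 hX
        · left; linarith
      · right; right; left; linarith
    · have : (X - 20) * (X + 20) = 0 := by linear_combination -hX2
      rcases mul_eq_zero.mp this with h3 | h3
      · right; right; right; left; linarith
      · right; right; right; right; linarith
  · exact absurd ((pow_eq_zero_iff two_ne_zero).mp h0) hX

end Fermat.Agent.T51
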