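import Mathlib
import Fermat.Prelude.Def_FLTPrelim_GaloisRep

set_option autoImplicit false

/-!
# T51 [L]: a proper nonzero subspace of a small `ZMod p`-module is a line

* `exists_generator_of_card_lt` : general linear algebra.
* `card_le_of_fibers` : counting through a map with bounded fibres.
* `torsion_card_le` : the `n`-torsion of a Weierstrass curve over a field is finite of
  cardinality `≤ 2 * (natDegree f + 1)` as soon as a nonzero polynomial `f` vanishes at the
  `x`-coordinates of all affine `n`-torsion points.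
* `torsion_exists_generator` : the combination, for the Prelude `ZMod p`-module structure.
-/

namespace Fermat.Agent.T51

open WeierstrassCurve WeierstrassCurve.Affine WeierstrassCurve.Affine.Point

/-- A proper nonzero subspace of a `ZMod p`-module with fewer than `p ^ 3` elements is generated
by one element (and every element is a natural multiple of the generator). -/
theorem exists_generator_of_card_lt {p : ℕ} [Fact p.Prime] {M : Type*} [AddCommGroup M]
    [Module (ZMod p) M] [Finite M] (hcard : Nat.card M < p ^ 3) (N : Submodule (ZMod p) M)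
    (h0 : N ≠ ⊥) (h1 : N ≠ ⊤) : ∃ P ∈ N, P ≠ 0 ∧ ∀ Q ∈ N, ∃ c : ℕ, Q = c • P := by
  have hp : 1 < p := (Fact.out : p.Prime).one_lt
  have hfin : Module.Finite (ZMod p) M := Module.Finite.of_finite
  have hM : Module.finrank (ZMod p) M < 3 := by
    have h := Module.natCard_eq_pow_finrank (K := ZMod p) (V := M)
    rw [Nat.card_zmod] at h
    rw [h] at hcard
    exact (Nat.pow_lt_pow_iff_right hp).mp hcard
  have hN1 : Module.finrank (ZMod p) N < Module.finrank (ZMod p) M := Submodule.finrank_lt h1
  have hN0 : 0 < Module.finrank (ZMod p) N := by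
    rw [Module.finrank_pos_iff]
    exact (Submodule.nontrivial_iff_ne_bot).mpr h0
  have hN : Module.finrank (ZMod p) N = 1 := by omega
  obtain ⟨v, hv, hspan⟩ := finrank_eq_one_iff'.mp hN
  refine ⟨v.1, v.2, fun h => hv (Subtype.ext h), fun Q hQ => ?_⟩
  obtain ⟨c, hc⟩ := hspan ⟨Q, hQ⟩
  refine ⟨c.val, ?_⟩
  have h2 : (c • v : N).1 = Q := congrArg Subtype.val hc
  rw [← h2, Submodule.coe_smul, ← Nat.cast_smul_eq_nsmul (ZMod p) c.val v.1, ZMod.natCast_zmod_val]

/-- Counting through a map with bounded fibres into a finite set. -/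
theorem card_le_of_fibers {α β : Type*} [DecidableEq β] (f : α → β) (S : Finset β)
    (hS : ∀ a, f a ∈ S) (n : ℕ)
    (hfib : ∀ a : α, ∃ T : Finset α, T.card ≤ n ∧ ∀ a', f a' = f a → a' ∈ T) :
    Finite α ∧ Nat.card α ≤ n * S.card := by
  classical
  have hfin : Finite α := by
    have h : (Set.univ : Set α).Finite := by
      have hsub : (Set.univ : Set α) ⊆ ⋃ b ∈ S, f ⁻¹' {b} := by
        intro a _
        simp only [Set.mem_iUnion, Set.mem_preimage, Set.mem_singleton_iff, exists_prop]
        exact ⟨f a, hS a, rfl⟩
      refine Set.Finite.subset (Set.Finite.biUnion S.finite_toSet ?_) hsub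
      intro b _
      by_cases hb : ∃ a, f a = b
      · obtain ⟨a, rfl⟩ := hb
        obtain ⟨T, -, hT⟩ := hfib a
        exact Set.Finite.subset T.finite_toSet (fun a' ha' => hT a' ha')
      · have : f ⁻¹' {b} = ∅ := by
          ext a
          simp only [Set.mem_preimage, Set.mem_singleton_iff, Set.mem_empty_iff_false, iff_false]
          exact fun h => hb ⟨a, h⟩
        rw [this]
        exact Set.finite_empty
    exact Set.finite_univ_iff.mp h
  refine ⟨hfin, ?_⟩
  have := Fintype.ofFinite α
  rw [Nat.card_eq_fintype_card, ← Finset.card_univ]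
  have h1 : (Finset.univ : Finset α).card ≤ n * ((Finset.univ : Finset α).image f).card := by
    apply Finset.card_le_mul_card_image
    intro b hb
    obtain ⟨a, -, rfl⟩ := Finset.mem_image.mp hb
    obtain ⟨T, hTn, hT⟩ := hfib a
    refine le_trans (Finset.card_le_card ?_) hTn
    intro a' ha'
    exact hT a' (Finset.mem_filter.mp ha').2
  refine le_trans h1 (Nat.mul_le_mul_left n (Finset.card_le_card ?_))
  intro b hb
  obtain ⟨a, -, rfl⟩ := Finset.mem_image.mp hb
  exact hS a

section Curve

variable {K : Type*} [Field K] [DecidableEq K] (W : Affine K)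

/-- The `x`-coordinate with values in `Option K` (`none` at the point at infinity). -/
def optX : W.Point → Option K
  | .zero => none
  | .some x _ _ => some x

omit [DecidableEq K] in
theorem optX_eq_imp (P Q : W.Point) (h : optX W Q = optX W P) : Q = P ∨ Q = -P := by
  rcases P with _ | ⟨x₁, y₁, h₁⟩ <;> rcases Q with _ | ⟨x₂, y₂, h₂⟩
  · exact Or.inl rfl
  · simp [optX] at h
  · simp [optX] at h
  · simp only [optX, Option.some.injEq] at h
    exact (Point.X_eq_iff (h₁ := h₂) (h₂ := h₁)).mp h

/-- If a nonzero polynomial `f` vanishes at the `x`-coordinates of all affine `n`-torsion points,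
the `n`-torsion is finite with at most `2 * (natDegree f + 1)` elements. -/
theorem torsion_card_le (n : ℕ) (f : Polynomial K) (hf : f ≠ 0)
    (h : ∀ (x y : K) (hxy : W.Nonsingular x y),
      (Point.some x y hxy : W.Point) ∈ Submodule.torsionBy ℤ W.Point n → f.IsRoot x) :
    Finite (Submodule.torsionBy ℤ W.Point n) ∧
      Nat.card (Submodule.torsionBy ℤ W.Point n) ≤ 2 * (f.natDegree + 1) := by
  classical
  have key := card_le_of_fibers (α := Submodule.torsionBy ℤ W.Point n) (β := Option K)
    (fun P => optX W P.1) (insert none (f.roots.toFinset.map Function.Embedding.some))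
    (by
      rintro ⟨P, hP⟩
      rcases P with _ | ⟨x, y, hxy⟩
      · exact Finset.mem_insert_self _ _
      · refine Finset.mem_insert_of_mem (Finset.mem_map.mpr ⟨x, ?_, rfl⟩)
        rw [Multiset.mem_toFinset, Polynomial.mem_roots hf]
        exact h x y hxy hP) 2
    (by
      intro P
      refine ⟨{P, -P}, Finset.card_le_two, fun Q hQ => ?_⟩
      rcases optX_eq_imp W P.1 Q.1 hQ with h1 | h1
      · exact Finset.mem_insert.mpr (Or.inl (Subtype.ext h1))
      · exact Finset.mem_insert.mpr (Or.inr (Finset.mem_singleton.mpr (Subtype.ext h1))))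
  refine ⟨key.1, le_trans key.2 (Nat.mul_le_mul_left 2 ?_)⟩
  refine le_trans (Finset.card_insert_le _ _) ?_
  rw [Finset.card_map]
  exact Nat.succ_le_succ (le_trans (Multiset.toFinset_card_le _) (Polynomial.card_roots' f))

end Curve

section Prelude

variable {R : Type*} {K : Type*} [CommRing R] [Field K] [DecidableEq K] [Algebra R K]
  (W' : Affine R)

/-- A proper nonzero `ZMod p`-subspace of the `p`-torsion (Prelude module structure) is generated
by one point, as soon as a nonzero polynomial `f` with `2 * (natDegree f + 1) < p ^ 3` vanishes at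
the `x`-coordinates of all affine `p`-torsion points. -/
theorem torsion_exists_generator (p : ℕ) [Fact p.Prime] (f : Polynomial K) (hf : f ≠ 0)
    (hdeg : 2 * (f.natDegree + 1) < p ^ 3)
    (h : ∀ (x y : K) (hxy : (W'⁄K).Nonsingular x y),
      (Point.some x y hxy : (W'⁄K).Point) ∈ Submodule.torsionBy ℤ (W'⁄K).Point p → f.IsRoot x)
    (N : Submodule (ZMod p) (Submodule.torsionBy ℤ (W'⁄K).Point p)) (h0 : N ≠ ⊥) (h1 : N ≠ ⊤) :
    ∃ P ∈ N, P ≠ 0 ∧ ∀ Q ∈ N, ∃ c : ℕ, Q = c • P := by
  obtain ⟨hfin, hcard⟩ := torsion_card_le (W'⁄K) p f hf h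
  exact exists_generator_of_card_lt (lt_of_le_of_lt hcard hdeg) N h0 h1

end Prelude

end Fermat.Agent.T51
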