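/-
S51 project (T51), module [P] (helper2): short Weierstrass coordinates on the points of a
Weierstrass curve, the duplication formula in these coordinates, and the Galois plumbing.

For a Weierstrass curve `W` over a field `K` of characteristic zero put
`A := -27 c₄`, `B := -54 c₆`, and for an affine point `(x, y)` put `X := 36 x + 3 b₂`.
Then `4 (X³ + A X + B) = 4 · 108² · (2y + a₁x + a₃)²` and `X(2P) · M(X) = N(X)` with
`M(X) = 4 (X³ + A X + B)`, `N(X) = X⁴ - 2 A X² - 8 B X + A²`.
-/
import Mathlib
import Fermat.Prelude.Def_FLTPrelim_GaloisRep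

set_option autoImplicit false
set_option linter.unusedSectionVars false

noncomputable section

namespace Fermat.Agent.T51

open WeierstrassCurve WeierstrassCurve.Affine

section Field

variable {K : Type} [Field K] (W : WeierstrassCurve.Affine K)

/-- The coefficient `A` of the short Weierstrass model `Y² = X³ + A X + B`. -/
def sA : K := -27 * W.c₄

/-- The coefficient `B` of the short Weierstrass model `Y² = X³ + A X + B`. -/
def sB : K := -54 * W.c₆

/-- The short `X`-coordinate `36 x + 3 b₂` of a point (`0` for the point at infinity). -/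
def sX : W.Point → K
  | .zero => 0
  | .some x _ _ => 36 * x + 3 * W.b₂

/-- `M(X) = 4 (X³ + A X + B)`: the denominator of the duplication formula. -/
def sM (A B X : K) : K := 4 * (X ^ 3 + A * X + B)

/-- `N(X) = X⁴ - 2 A X² - 8 B X + A²`: the numerator of the duplication formula. -/
def sN (A B X : K) : K := X ^ 4 - 2 * A * X ^ 2 - 8 * B * X + A ^ 2

@[simp] theorem sX_zero : sX W 0 = 0 := rfl

@[simp] theorem sX_some {x y : K} (h : W.Nonsingular x y) :
    sX W (.some x y h) = 36 * x + 3 * W.b₂ := rfl

theorem sX_neg (P : W.Point) : sX W (-P) = sX W P := by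
  cases P with
  | zero => rfl
  | some x y h => rfl

/-- The discriminant of the short model. -/
theorem sDisc : 4 * sA W ^ 3 + 27 * sB W ^ 2 = -(78732 * 1728) * W.Δ := by
  simp only [sA, sB, WeierstrassCurve.c₄, WeierstrassCurve.c₆, WeierstrassCurve.Δ,
    WeierstrassCurve.b₂, WeierstrassCurve.b₄, WeierstrassCurve.b₆, WeierstrassCurve.b₈]
  ring

/-- `M` at the short coordinate is `4 · 108²` times the `2`-division polynomial in `x`. -/
theorem sM_eq (x : K) :
    sM (sA W) (sB W) (36 * x + 3 * W.b₂) =
      4 * 108 ^ 2 * (4 * x ^ 3 + W.b₂ * x ^ 2 + 2 * W.b₄ * x + W.b₆) := by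
  simp only [sM, sA, sB, WeierstrassCurve.c₄, WeierstrassCurve.c₆,
    WeierstrassCurve.b₂, WeierstrassCurve.b₄, WeierstrassCurve.b₆]
  ring

/-- On the curve, `(2y + a₁x + a₃)² = 4x³ + b₂x² + 2b₄x + b₆`. -/
theorem sq_eta {x y : K} (h : W.Equation x y) :
    (2 * y + W.a₁ * x + W.a₃) ^ 2 = 4 * x ^ 3 + W.b₂ * x ^ 2 + 2 * W.b₄ * x + W.b₆ := by
  rw [Affine.equation_iff] at h
  simp only [WeierstrassCurve.b₂, WeierstrassCurve.b₄, WeierstrassCurve.b₆]
  linear_combination 4 * h

section Double

variable [DecidableEq K] [CharZero K]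

/-- A nonzero point is `2`-torsion iff `M` vanishes at its short coordinate. -/
theorem two_nsmul_eq_zero_iff {P : W.Point} (hP : P ≠ 0) :
    2 • P = 0 ↔ sM (sA W) (sB W) (sX W P) = 0 := by
  cases P with
  | zero => exact absurd rfl hP
  | some x y h =>
    rw [sX_some, sM_eq, ← sq_eta W h.1, two_nsmul]
    have h108 : (4 * 108 ^ 2 : K) ≠ 0 := by norm_num
    constructor
    · intro h2
      by_cases hy : y = W.negY x y
      · have : 2 * y + W.a₁ * x + W.a₃ = 0 := by
          rw [Affine.negY] at hy
          linear_combination hy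
        rw [this]; ring
      · rw [Point.add_self_of_Y_ne hy] at h2
        exact absurd h2 (Point.some_ne_zero _)
    · intro h2
      have h3 : 2 * y + W.a₁ * x + W.a₃ = 0 := by
        rcases mul_eq_zero.mp h2 with h4 | h4
        · exact absurd h4 h108
        · exact pow_eq_zero_iff (two_ne_zero) |>.mp h4
      exact Point.add_self_of_Y_eq (by rw [Affine.negY]; linear_combination h3)

/-- The duplication formula in short coordinates. -/
theorem sX_two_nsmul {P : W.Point} (hP : P ≠ 0) (h2 : 2 • P ≠ 0) :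
    sX W (2 • P) * sM (sA W) (sB W) (sX W P) = sN (sA W) (sB W) (sX W P) := by
  cases P with
  | zero => exact absurd rfl hP
  | some x y h =>
    have hy : y ≠ W.negY x y := by
      intro hy
      exact h2 (by rw [two_nsmul]; exact Point.add_self_of_Y_eq hy)
    have hη : 2 * y + W.a₁ * x + W.a₃ ≠ 0 := by
      intro h0
      exact hy (by rw [Affine.negY]; linear_combination h0)
    rw [two_nsmul, Point.add_self_of_Y_ne hy, sX_some, sX_some, sM_eq]
    have hsq := sq_eta W h.1
    rw [Affine.slope_of_Y_ne rfl hy]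
    have hden : y - W.negY x y = 2 * y + W.a₁ * x + W.a₃ := by rw [Affine.negY]; ring
    rw [hden]
    set η := 2 * y + W.a₁ * x + W.a₃ with hηdef
    set Ω := 4 * x ^ 3 + W.b₂ * x ^ 2 + 2 * W.b₄ * x + W.b₆ with hΩdef
    -- the `x`-coordinate of `2P`, times `η²`
    have key : W.addX x x ((3 * x ^ 2 + 2 * W.a₂ * x + W.a₄ - W.a₁ * y) / η) * Ω =
        (6 * x ^ 2 + W.b₂ * x + W.b₄) ^ 2 / 4 - (W.b₂ / 4 + 2 * x) * Ω := by
      rw [← hsq]
      simp only [Affine.addX]
      field_simp
      simp only [hηdef, WeierstrassCurve.b₂, WeierstrassCurve.b₄]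
      ring
    simp only [sN, sA, sB, WeierstrassCurve.c₄, WeierstrassCurve.c₆]
    simp only [hΩdef, WeierstrassCurve.b₂, WeierstrassCurve.b₄, WeierstrassCurve.b₆] at key ⊢
    linear_combination (4 * 108 ^ 2 * 36 : K) * key

end Double

section Same

variable [CharZero K]

/-- Two nonzero points have the same short coordinate iff they are equal up to sign. -/
theorem sX_eq_iff {P Q : W.Point} (hP : P ≠ 0) (hQ : Q ≠ 0) :
    sX W P = sX W Q ↔ Q = P ∨ Q = -P := by
  cases P with
  | zero => exact absurd rfl hP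
  | some x₁ y₁ h₁ =>
    cases Q with
    | zero => exact absurd rfl hQ
    | some x₂ y₂ h₂ =>
      rw [sX_some, sX_some]
      have h36 : (36 : K) ≠ 0 := by norm_num
      constructor
      · intro h
        have hx : x₂ = x₁ := by
          have : 36 * (x₂ - x₁) = 0 := by linear_combination -h
          rcases mul_eq_zero.mp this with h' | h'
          · exact absurd h' h36
          · exact sub_eq_zero.mp h'
        exact Point.X_eq_iff.mp hx
      · intro h
        have hx : x₂ = x₁ := Point.X_eq_iff.mpr h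
        rw [hx]

/-- Over an algebraically closed field every value is the short coordinate of a nonzero point. -/
theorem exists_point_sX [IsAlgClosed K] (hΔ : W.Δ ≠ 0) (X : K) :
    ∃ P : W.Point, P ≠ 0 ∧ sX W P = X := by
  set x : K := (X - 3 * W.b₂) / 36 with hx
  obtain ⟨η, hη⟩ := IsAlgClosed.exists_eq_mul_self
    (4 * x ^ 3 + W.b₂ * x ^ 2 + 2 * W.b₄ * x + W.b₆)
  set y : K := (η - W.a₁ * x - W.a₃) / 2 with hy
  have heq : W.Equation x y := by
    rw [Affine.equation_iff]
    simp only [WeierstrassCurve.b₂, WeierstrassCurve.b₄, WeierstrassCurve.b₆] at hη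
    rw [hy]
    field_simp
    linear_combination -hη
  have hns : W.Nonsingular x y := (Affine.equation_iff_nonsingular_of_Δ_ne_zero hΔ).mp heq
  refine ⟨.some x y hns, Point.some_ne_zero _, ?_⟩
  rw [sX_some, hx]
  field_simp
  ring

end Same

end Field

/-! ### Galois plumbing -/

section Galois

variable (E : WeierstrassCurve.Affine ℚ) {K : Type} [Field K] [Algebra ℚ K] [DecidableEq K]

theorem sA_baseChange : sA (E⁄K) = algebraMap ℚ K (sA E) := by
  simp only [sA, Affine.baseChange, WeierstrassCurve.baseChange, WeierstrassCurve.map_c₄]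
  rw [map_mul, map_neg, map_ofNat]

theorem sB_baseChange : sB (E⁄K) = algebraMap ℚ K (sB E) := by
  simp only [sB, Affine.baseChange, WeierstrassCurve.baseChange, WeierstrassCurve.map_c₆]
  rw [map_mul, map_neg, map_ofNat]

/-- The short coordinate is Galois equivariant. -/
theorem sX_smul (σ : K ≃ₐ[ℚ] K) (P : (E⁄K).Point) :
    sX (E⁄K) (σ • P) = σ (sX (E⁄K) P) := by
  rw [Point.algEquiv_smul_def]
  cases P with
  | zero =>
    show sX (E⁄K) 0 = σ (sX (E⁄K) 0)
    rw [sX_zero, map_zero]
  | some x y h =>
    rw [Point.map_some, sX_some, sX_some]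
    have hb : (E⁄K).b₂ = algebraMap ℚ K E.b₂ := by
      simp only [Affine.baseChange, WeierstrassCurve.baseChange, WeierstrassCurve.map_b₂]
    rw [hb, map_add, map_mul, map_mul, map_ofNat, map_ofNat, AlgEquiv.commutes]
    rfl

/-- An element of `ℚ̄` fixed by the absolute Galois group is rational. -/
theorem rat_of_fixed (z : AlgebraicClosure ℚ)
    (h : ∀ σ : AlgebraicClosure ℚ ≃ₐ[ℚ] AlgebraicClosure ℚ, σ z = z) :
    ∃ q : ℚ, algebraMap ℚ (AlgebraicClosure ℚ) q = z := by
  have : Algebra.IsAlgebraic ℚ (AlgebraicClosure ℚ) := AlgebraicClosure.isAlgebraic ℚ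
  have : IsAlgClosure ℚ (AlgebraicClosure ℚ) := ⟨inferInstance, inferInstance⟩
  have : IsGalois ℚ (AlgebraicClosure ℚ) := IsAlgClosure.isGalois ℚ (AlgebraicClosure ℚ)
  have h1 : z ∈ (⊥ : IntermediateField ℚ (AlgebraicClosure ℚ)) := by
    rw [InfiniteGalois.mem_bot_iff_fixed]
    exact h
  exact IntermediateField.mem_bot.mp h1

end Galois

end Fermat.Agent.T51
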