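import Mathlib
import Fermat.Prelude.Def_FLTPrelim_GaloisRep
import Fermat.Prelude.Def_FLTPrelim_ModularRep
import Fermat.Agent.Lib.T51_Abs
import Fermat.Agent.Lib.T51_Point
import Fermat.Agent.Lib.T51_Line
import Fermat.Agent.Lib.T51_Fixed

/-!
# T51 (S51): reducibility of `E[3]`, `E[5]` gives rational points

* `red3` : if `E[3]` is reducible, the 3-division polynomial (short form) has a rational root.
* `red5` : if `E[5]` is reducible, there are rational `s, t` with `s² ≠ 4t` such that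
  `X² - sX + t` divides `5X⁴ - 4sX³ + 2AX² - (4B+4sA)X + (A² - 4sB)`.
-/

set_option autoImplicit false

namespace Fermat.Agent.T51

open WeierstrassCurve WeierstrassCurve.Affine WeierstrassCurve.Affine.Point

section General

variable {K : Type} [Field K] [DecidableEq K] [CharZero K] (W : Affine K)

/-- the duplication data of a Weierstrass curve in short coordinates -/
theorem dblData (hΔ : W.Δ ≠ 0) : DblData (sX W) (sA W) (sB W) where
  disc := by rw [sDisc]; exact mul_ne_zero (by norm_num) hΔ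
  neg := sX_neg W
  inj := fun P Q hP hQ h => by
    rcases (sX_eq_iff W hP hQ).mp h with h | h
    · exact Or.inl h.symm
    · right; rw [h, neg_neg]
  two := fun P hP => by
    rw [two_nsmul_eq_zero_iff W hP]
    simp only [sM, wS]
    constructor
    · intro h
      rcases mul_eq_zero.mp h with h | h
      · exact absurd h (by norm_num)
      · exact h
    · intro h; rw [h, mul_zero]
  dbl := fun P hP h2 => by
    have := sX_two_nsmul W hP h2
    simpa only [sM, sN, wS, phS] using this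

omit [CharZero K] in
/-- the `n`-torsion submodule, as a set -/
theorem torsionBy_card_of_set (n m : ℕ) (hfin : {P : W.Point | n • P = 0}.Finite)
    (hc : {P : W.Point | n • P = 0}.ncard ≤ m) :
    Finite (Submodule.torsionBy ℤ W.Point n) ∧
      Nat.card (Submodule.torsionBy ℤ W.Point n) ≤ m := by
  have hset : ((Submodule.torsionBy ℤ W.Point n : Submodule ℤ W.Point) : Set W.Point)
      = {P : W.Point | n • P = 0} := by
    ext P
    simp only [SetLike.mem_coe, Submodule.mem_torsionBy_iff, Set.mem_ofPred_eq, natCast_zsmul]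
  have hfin' : ((Submodule.torsionBy ℤ W.Point n : Submodule ℤ W.Point) : Set W.Point).Finite := by
    rw [hset]; exact hfin
  refine ⟨hfin'.to_subtype, ?_⟩
  have : Nat.card (Submodule.torsionBy ℤ W.Point n)
      = ((Submodule.torsionBy ℤ W.Point n : Submodule ℤ W.Point) : Set W.Point).ncard :=
    Nat.card_coe_set_eq _
  rw [this, hset]
  exact hc

end General

section Orbit

variable {G : Type*} [AddCommGroup G] {F : Type*} (X : G → F)

theorem three_orbit (hneg : ∀ P : G, X (-P) = X P) {P : G} (h3 : 3 • P = 0) (c : ℕ)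
    (hc : c • P ≠ 0) : X (c • P) = X P := by
  have hmod : c • P = (c % 3) • P := nsmul_eq_mod_nsmul c h3
  have hlt : c % 3 < 3 := Nat.mod_lt _ (by norm_num)
  rw [hmod] at hc ⊢
  have h2 : 2 • P = -P := by
    have : 2 • P + P = 0 := by rw [← h3]; abel
    exact eq_neg_of_add_eq_zero_left this
  interval_cases (c % 3)
  · simp at hc
  · rw [one_nsmul]
  · rw [h2, hneg]

theorem five_orbit (hneg : ∀ P : G, X (-P) = X P) {P : G} (h5 : 5 • P = 0) (c : ℕ)
    (hc : c • P ≠ 0) :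
    (X (c • P) = X P ∧ X (2 • (c • P)) = X (2 • P)) ∨
      (X (c • P) = X (2 • P) ∧ X (2 • (c • P)) = X P) := by
  have hmod : c • P = (c % 5) • P := nsmul_eq_mod_nsmul c h5
  have hlt : c % 5 < 5 := Nat.mod_lt _ (by norm_num)
  rw [hmod] at hc ⊢
  have h4 : 4 • P = -P := by
    have : 4 • P + P = 0 := by rw [← h5]; abel
    exact eq_neg_of_add_eq_zero_left this
  have h3 : (3 • P : G) = -((2 • P : G)) := by
    have : (3 • P : G) + (2 • P : G) = 0 := by rw [← h5]; abel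
    exact eq_neg_of_add_eq_zero_left this
  interval_cases (c % 5)
  · simp at hc
  · left; rw [one_nsmul]; exact ⟨rfl, rfl⟩
  · right
    refine ⟨rfl, ?_⟩
    have : 2 • (2 • P) = 4 • P := by abel
    rw [this, h4, hneg]
  · right
    refine ⟨by rw [h3, hneg], ?_⟩
    have : 2 • (3 • P) = 5 • P + P := by abel
    rw [this, h5, zero_add]
  · left
    refine ⟨by rw [h4, hneg], ?_⟩
    have : 2 • (4 • P) = 5 • P + 3 • P := by abel
    rw [this, h5, zero_add, h3, hneg]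

end Orbit

section Main

variable (E : Affine ℚ)

theorem baseChange_Δ_ne (hΔ : E.Δ ≠ 0) : (E⁄(AlgebraicClosure ℚ)).Δ ≠ 0 := by
  simp only [Affine.baseChange, WeierstrassCurve.baseChange, WeierstrassCurve.map_Δ]
  exact (map_ne_zero_iff _ (algebraMap ℚ (AlgebraicClosure ℚ)).injective).mpr hΔ

/-- a reducible `E[n]` with a point of order `n` has a proper nonzero stable subspace -/
theorem exists_stable_of_not_irr (n : ℕ)
    (hnt : Nontrivial (Submodule.torsionBy ℤ (E⁄(AlgebraicClosure ℚ)).Point n))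
    (h : ¬ GaloisRepIsIrreducible (K := AlgebraicClosure ℚ) ℚ E n) :
    ∃ N : Submodule (ZMod n) (Submodule.torsionBy ℤ (E⁄(AlgebraicClosure ℚ)).Point n),
      IsGaloisStable ℚ N ∧ N ≠ ⊥ ∧ N ≠ ⊤ := by
  by_contra hcon
  apply h
  refine ⟨hnt, fun N hN => ?_⟩
  by_contra hN'
  push Not at hN'
  exact hcon ⟨N, hN, hN'.1, hN'.2⟩

/-- the Galois orbit of a generator of a stable line consists of multiples -/
theorem smul_eq_nsmul_of_generator (n : ℕ)
    (N : Submodule (ZMod n) (Submodule.torsionBy ℤ (E⁄(AlgebraicClosure ℚ)).Point n))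
    (hstab : IsGaloisStable ℚ N)
    (P : Submodule.torsionBy ℤ (E⁄(AlgebraicClosure ℚ)).Point n) (hPN : P ∈ N)
    (hP0 : P ≠ 0) (hgen : ∀ Q ∈ N, ∃ c : ℕ, Q = c • P)
    (σ : AlgebraicClosure ℚ ≃ₐ[ℚ] AlgebraicClosure ℚ) :
    ∃ c : ℕ, σ • (P : (E⁄(AlgebraicClosure ℚ)).Point) = c • (P : (E⁄(AlgebraicClosure ℚ)).Point)
      ∧ c • (P : (E⁄(AlgebraicClosure ℚ)).Point) ≠ 0 := by
  obtain ⟨c, hc⟩ := hgen (σ • P) (hstab σ P hPN)
  have hc' : σ • (P : (E⁄(AlgebraicClosure ℚ)).Point)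
      = c • (P : (E⁄(AlgebraicClosure ℚ)).Point) := by
    have := congrArg Subtype.val hc
    rw [AddSubmonoidClass.coe_nsmul] at this
    exact this
  refine ⟨c, hc', ?_⟩
  rw [← hc']
  intro h0
  apply hP0
  apply Subtype.ext
  exact (smul_eq_zero_iff_eq σ).mp h0

/-- If `E[3]` is reducible, the 3-division polynomial in short form has a rational root. -/
theorem red3 (hΔ : E.Δ ≠ 0)
    (h : ¬ GaloisRepIsIrreducible (K := AlgebraicClosure ℚ) ℚ E 3) :
    ∃ x : ℚ, psi3S (sA E) (sB E) x = 0 := by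
  have hΔK := baseChange_Δ_ne E hΔ
  have D := dblData (E⁄(AlgebraicClosure ℚ)) hΔK
  have : Fact (Nat.Prime 3) := ⟨by norm_num⟩
  obtain ⟨P₁, hP₁, h3P₁⟩ := D.exists_three (exists_point_sX _ hΔK)
  have hnt : Nontrivial (Submodule.torsionBy ℤ (E⁄(AlgebraicClosure ℚ)).Point (3 : ℕ)) := by
    refine ⟨⟨⟨P₁, ?_⟩, 0, ?_⟩⟩
    · rw [Submodule.mem_torsionBy_iff, natCast_zsmul]; exact h3P₁
    · intro h0; exact hP₁ (congrArg Subtype.val h0)
  obtain ⟨N, hstab, h0, h1⟩ := exists_stable_of_not_irr E 3 hnt h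
  obtain ⟨hfin, hcard⟩ := torsionBy_card_of_set (E⁄(AlgebraicClosure ℚ)) 3 9
    D.card_three.1 D.card_three.2
  have := hfin
  obtain ⟨P, hPN, hP0, hgen⟩ := exists_generator_of_card_lt (p := 3)
    (lt_of_le_of_lt hcard (by norm_num)) N h0 h1
  have hP0' : (P : (E⁄(AlgebraicClosure ℚ)).Point) ≠ 0 := fun h => hP0 (Subtype.ext h)
  have h3P : 3 • (P : (E⁄(AlgebraicClosure ℚ)).Point) = 0 := by
    have := P.2
    rwa [Submodule.mem_torsionBy_iff, natCast_zsmul] at this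
  have hfix : ∀ σ : AlgebraicClosure ℚ ≃ₐ[ℚ] AlgebraicClosure ℚ,
      σ (sX (E⁄(AlgebraicClosure ℚ)) P.1) = sX (E⁄(AlgebraicClosure ℚ)) P.1 := by
    intro σ
    obtain ⟨c, hc, hne⟩ := smul_eq_nsmul_of_generator E 3 N hstab P hPN hP0 hgen σ
    rw [← sX_smul, hc]
    exact three_orbit _ D.neg h3P c hne
  obtain ⟨q, hq⟩ := fixed_rat _ hfix
  refine ⟨q, ?_⟩
  have h3 := (D.three_iff hP0').mp h3P
  rw [sA_baseChange, sB_baseChange, ← hq] at h3
  apply (algebraMap ℚ (AlgebraicClosure ℚ)).injective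
  rw [_root_.map_zero, ← h3]
  simp only [psi3S, map_add, map_sub, map_mul, map_pow, map_ofNat]

/-- If `E[5]` is reducible, there is a rational point on the "5-isogeny variety". -/
theorem red5 (hΔ : E.Δ ≠ 0)
    (h : ¬ GaloisRepIsIrreducible (K := AlgebraicClosure ℚ) ℚ E 5) :
    ∃ s t : ℚ, s ^ 2 ≠ 4 * t ∧ s ^ 3 - 6 * s * t - 2 * sA E * s - 4 * sB E = 0 ∧
      5 * t ^ 2 - s ^ 2 * t - 2 * sA E * t + sA E ^ 2 - 4 * s * sB E = 0 := by
  have hΔK := baseChange_Δ_ne E hΔ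
  have D := dblData (E⁄(AlgebraicClosure ℚ)) hΔK
  have : Fact (Nat.Prime 5) := ⟨by norm_num⟩
  obtain ⟨P₁, hP₁, h5P₁⟩ := D.exists_five (exists_point_sX _ hΔK)
  have hnt : Nontrivial (Submodule.torsionBy ℤ (E⁄(AlgebraicClosure ℚ)).Point (5 : ℕ)) := by
    refine ⟨⟨⟨P₁, ?_⟩, 0, ?_⟩⟩
    · rw [Submodule.mem_torsionBy_iff, natCast_zsmul]; exact h5P₁
    · intro h0; exact hP₁ (congrArg Subtype.val h0)
  obtain ⟨N, hstab, h0, h1⟩ := exists_stable_of_not_irr E 5 hnt h
  obtain ⟨hfin, hcard⟩ := torsionBy_card_of_set (E⁄(AlgebraicClosure ℚ)) 5 25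
    D.card_five.1 D.card_five.2
  have := hfin
  obtain ⟨P, hPN, hP0, hgen⟩ := exists_generator_of_card_lt (p := 5)
    (lt_of_le_of_lt hcard (by norm_num)) N h0 h1
  have hP0' : (P : (E⁄(AlgebraicClosure ℚ)).Point) ≠ 0 := fun h => hP0 (Subtype.ext h)
  have h5P : 5 • (P : (E⁄(AlgebraicClosure ℚ)).Point) = 0 := by
    have := P.2
    rwa [Submodule.mem_torsionBy_iff, natCast_zsmul] at this
  have hpair : ∀ σ : AlgebraicClosure ℚ ≃ₐ[ℚ] AlgebraicClosure ℚ,
      (σ (sX (E⁄(AlgebraicClosure ℚ)) P.1) = sX (E⁄(AlgebraicClosure ℚ)) P.1 ∧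
        σ (sX (E⁄(AlgebraicClosure ℚ)) (2 • P.1)) = sX (E⁄(AlgebraicClosure ℚ)) (2 • P.1)) ∨
      (σ (sX (E⁄(AlgebraicClosure ℚ)) P.1) = sX (E⁄(AlgebraicClosure ℚ)) (2 • P.1) ∧
        σ (sX (E⁄(AlgebraicClosure ℚ)) (2 • P.1)) = sX (E⁄(AlgebraicClosure ℚ)) P.1) := by
    intro σ
    obtain ⟨c, hc, hne⟩ := smul_eq_nsmul_of_generator E 5 N hstab P hPN hP0 hgen σ
    have h2 : σ • (2 • (P : (E⁄(AlgebraicClosure ℚ)).Point))
        = 2 • (c • (P : (E⁄(AlgebraicClosure ℚ)).Point)) := by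
      rw [← hc]
      exact map_nsmul (DistribSMul.toAddMonoidHom _ σ) 2 _
    rw [← sX_smul, ← sX_smul, hc, h2]
    exact five_orbit _ D.neg h5P c hne
  obtain ⟨s, t, hs, ht⟩ := fixed_rat_pair _ _ hpair
  refine ⟨s, t, ?_⟩
  obtain ⟨e0, e1, e2⟩ := D.five_st hP0' h5P
  rw [← hs, ← ht] at e0
  rw [sA_baseChange, sB_baseChange, ← hs, ← ht] at e1 e2
  have hinj := (algebraMap ℚ (AlgebraicClosure ℚ)).injective
  refine ⟨?_, ?_, ?_⟩
  · intro hst
    apply e0
    have := congrArg (algebraMap ℚ (AlgebraicClosure ℚ)) hst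
    simpa only [map_mul, map_pow, map_ofNat] using this
  · apply hinj
    rw [_root_.map_zero, ← e1]
    simp only [map_sub, map_mul, map_pow, map_ofNat]
  · apply hinj
    rw [_root_.map_zero, ← e2]
    simp only [map_add, map_sub, map_mul, map_pow, map_ofNat]

end Main

section IntModel

/-- `red3` for an integral model, with everything written out. -/
theorem red3_int (W : WeierstrassCurve ℤ) (hΔ : W.Δ ≠ 0) (h : ¬ W.ModRepIsIrreducible 3) :
    ∃ x : ℚ, 3 * x ^ 4 + 6 * (-27 * (W.c₄ : ℚ)) * x ^ 2 + 12 * (-54 * (W.c₆ : ℚ)) * x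
      - (-27 * (W.c₄ : ℚ)) ^ 2 = 0 := by
  have hΔ' : (W.map (Int.castRingHom ℚ)).Δ ≠ 0 := by
    rw [WeierstrassCurve.map_Δ]
    simpa using hΔ
  obtain ⟨x, hx⟩ := red3 (W.map (Int.castRingHom ℚ)) hΔ' h
  refine ⟨x, ?_⟩
  simpa only [psi3S, sA, sB, WeierstrassCurve.map_c₄, WeierstrassCurve.map_c₆,
    eq_intCast] using hx

/-- `red5` for an integral model, with everything written out. -/
theorem red5_int (W : WeierstrassCurve ℤ) (hΔ : W.Δ ≠ 0) (h : ¬ W.ModRepIsIrreducible 5) :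
    ∃ s t : ℚ, s ^ 2 ≠ 4 * t ∧
      s ^ 3 - 6 * s * t - 2 * (-27 * (W.c₄ : ℚ)) * s - 4 * (-54 * (W.c₆ : ℚ)) = 0 ∧
      5 * t ^ 2 - s ^ 2 * t - 2 * (-27 * (W.c₄ : ℚ)) * t + (-27 * (W.c₄ : ℚ)) ^ 2
        - 4 * s * (-54 * (W.c₆ : ℚ)) = 0 := by
  have hΔ' : (W.map (Int.castRingHom ℚ)).Δ ≠ 0 := by
    rw [WeierstrassCurve.map_Δ]
    simpa using hΔ
  obtain ⟨s, t, h0, h1, h2⟩ := red5 (W.map (Int.castRingHom ℚ)) hΔ' h
  refine ⟨s, t, h0, ?_, ?_⟩
  · simpa only [sA, sB, WeierstrassCurve.map_c₄, WeierstrassCurve.map_c₆, eq_intCast] using h1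
  · simpa only [sA, sB, WeierstrassCurve.map_c₄, WeierstrassCurve.map_c₆, eq_intCast] using h2

end IntModel

end Fermat.Agent.T51
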