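-- S13 WP-T [T7] (lead): the torsion polynomial of the Frey curve, finiteness/cardinality/existence
-- of its p-torsion.
import Fermat.Agent.Lib.TW_Deg
import Fermat.Agent.Lib.TW_Root
import Fermat.Agent.Lib.TW_Card
import Fermat.Agent.Lib.N2_Ell
import Fermat.Agent.Lib.N2_Arith

set_option autoImplicit false

open Polynomial
open scoped Polynomial.Bivariate
open WeierstrassCurve WeierstrassCurve.Affine

namespace Fermat.Agent.TW

local notation "Qb" => AlgebraicClosure ℚ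

/-- the Frey curve over `ℚ̄` has integer coefficients -/
theorem frey_twIntCoeff (P : FreyPackage) : TwIntCoeff (P.freyCurve⁄Qb) := by
  obtain ⟨a2, h2⟩ := Fermat.Agent.N2.n2c_a2_exists P
  obtain ⟨m, c, -, -, -, h4⟩ := Fermat.Agent.N2.n2c_a4_exists P
  have q2 : ((P.b : ℚ) ^ P.p - 1 - (P.a : ℚ) ^ P.p) / 4 = (a2 : ℚ) := by
    have := congrArg (Int.cast : ℤ → ℚ) h2
    push_cast at this
    rw [this]
    ring
  have q4 : -((P.a : ℚ) ^ P.p) * ((P.b : ℚ) ^ P.p) / 16 = ((2 ^ m * c : ℤ) : ℚ) := by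
    have := congrArg (Int.cast : ℤ → ℚ) h4
    push_cast at this
    rw [this]
    push_cast
    ring
  refine ⟨⟨1, ?_⟩, ⟨a2, ?_⟩, ⟨0, ?_⟩, ⟨2 ^ m * c, ?_⟩, ⟨0, ?_⟩⟩
  · simp [FreyPackage.freyCurve, WeierstrassCurve.baseChange, WeierstrassCurve.map]
  · change algebraMap ℚ Qb (((P.b : ℚ) ^ P.p - 1 - (P.a : ℚ) ^ P.p) / 4) = _
    rw [q2]
    simp
  · simp [FreyPackage.freyCurve, WeierstrassCurve.baseChange, WeierstrassCurve.map]
  · change algebraMap ℚ Qb (-((P.a : ℚ) ^ P.p) * ((P.b : ℚ) ^ P.p) / 16) = _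
    rw [q4]
    simp
  · simp [FreyPackage.freyCurve, WeierstrassCurve.baseChange, WeierstrassCurve.map]

section Main

variable (P : FreyPackage)

/-- the roots of the Wronskian norm are the `x`-coordinates of the `p`-torsion points -/
theorem frey_hroot
    (D : Derivation Qb (P.freyCurve⁄Qb).CoordinateRing (P.freyCurve⁄Qb).CoordinateRing)
    (hDx : D (CoordinateRing.mk (P.freyCurve⁄Qb) (C X)) =
      CoordinateRing.mk (P.freyCurve⁄Qb) (P.freyCurve⁄Qb).polynomialY)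
    (hDy : D (CoordinateRing.mk (P.freyCurve⁄Qb) Y) =
      -CoordinateRing.mk (P.freyCurve⁄Qb) (P.freyCurve⁄Qb).polynomialX)
    (x y : Qb) (h : (P.freyCurve⁄Qb).Nonsingular x y) :
    P.p • Point.some x y h = 0 ↔ (twPhi (P.freyCurve⁄Qb) D P.p).eval x = 0 :=
  twPhi_root_iff (P.freyCurve⁄Qb) D hDx hDy P.pp.pos h

/-- **the torsion polynomial of the Frey curve** -/
theorem frey_phi : ∃ Φ : ℤ[X], Φ.natDegree = P.p ^ 2 - 1 ∧
    Φ.leadingCoeff = (twVand P.p) ^ 2 ∧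
    ∀ (x y : Qb) (h : (P.freyCurve⁄Qb).Nonsingular x y),
      P.p • Point.some x y h = 0 ↔ (Φ.map (Int.castRingHom Qb)).eval x = 0 := by
  obtain ⟨D, hDx, hDy⟩ := tw_exists_der (P.freyCurve⁄Qb)
  have hp3 : 3 ≤ P.p := le_trans (by norm_num) P.hp5
  obtain ⟨g, hg⟩ := twPhi_int (D := D) (frey_twIntCoeff P) hDx hDy P.p
  have hinj : Function.Injective (Int.castRingHom Qb) := (Int.castRingHom Qb).injective_int
  refine ⟨g, ?_, ?_, ?_⟩
  · rw [← natDegree_map_eq_of_injective hinj, ← hg]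
    exact twPhi_natDegree (P.freyCurve⁄Qb) D hDx hDy P.pp hp3
  · have h1 := twPhi_leadingCoeff (P.freyCurve⁄Qb) D hDx hDy P.pp hp3
    rw [hg, leadingCoeff_map_of_injective hinj] at h1
    have h2 : (Int.castRingHom Qb) g.leadingCoeff = (Int.castRingHom Qb) ((twVand P.p) ^ 2) := by
      rw [h1]
      simp
    exact hinj h2
  · intro x y h
    rw [← hg]
    exact frey_hroot P D hDx hDy x y h

/-- finiteness and the bound `p²` for the `p`-torsion of the Frey curve -/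
theorem frey_tors_card :
    Finite (Submodule.torsionBy ℤ (P.freyCurve⁄Qb).Point (P.p : ℤ)) ∧
      Nat.card (Submodule.torsionBy ℤ (P.freyCurve⁄Qb).Point (P.p : ℤ)) ≤ P.p ^ 2 := by
  obtain ⟨D, hDx, hDy⟩ := tw_exists_der (P.freyCurve⁄Qb)
  have hp3 : 3 ≤ P.p := le_trans (by norm_num) P.hp5
  exact tw_card_le (P.freyCurve⁄Qb) P.pp (twPhi (P.freyCurve⁄Qb) D P.p)
    (twPhi_ne_zero (P.freyCurve⁄Qb) D hDx hDy P.pp hp3)
    (twPhi_natDegree (P.freyCurve⁄Qb) D hDx hDy P.pp hp3).le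
    (fun x y h hP => (frey_hroot P D hDx hDy x y h).mp hP)

/-- a nonzero `p`-torsion point on the Frey curve -/
theorem frey_tors_exists : ∃ Q : (P.freyCurve⁄Qb).Point, Q ≠ 0 ∧ P.p • Q = 0 := by
  obtain ⟨D, hDx, hDy⟩ := tw_exists_der (P.freyCurve⁄Qb)
  have hp3 : 3 ≤ P.p := le_trans (by norm_num) P.hp5
  have hp5 := P.hp5
  refine tw_exists_point (P.freyCurve⁄Qb) P.p (twPhi (P.freyCurve⁄Qb) D P.p) ?_
    (fun x y hxy => (Fermat.Agent.N2.frey_nonsingular_iff P).mp hxy)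
    (fun x y h hx => (frey_hroot P D hDx hDy x y h).mpr hx)
  rw [twPhi_natDegree (P.freyCurve⁄Qb) D hDx hDy P.pp hp3]
  have : 25 ≤ P.p ^ 2 := by nlinarith
  omega

end Main

end Fermat.Agent.TW
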