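import Mathlib
import Fermat.Agent.Lib.TW_Symbol
import Fermat.Agent.Lib.TW_Vand

set_option autoImplicit false

open Polynomial
open scoped Polynomial.Bivariate

namespace Fermat.Agent.TW

open WeierstrassCurve WeierstrassCurve.Affine

variable {K : Type*} [Field K] (W : Affine K)

/-! ## Norms and pole orders -/

theorem twn_norm_eq (f : W.CoordinateRing) :
    Algebra.norm K[X] f = twP W f ^ 2 - twP W f * twQ W f * (C W.a₁ * X + C W.a₃) -
      twQ W f ^ 2 * (X ^ 3 + C W.a₂ * X ^ 2 + C W.a₄ * X + C W.a₆) := by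
  conv_lhs => rw [← tw_repr W f]
  exact CoordinateRing.norm_smul_basis (twP W f) (twQ W f)

theorem twn_degP {n : ℕ} {f : W.CoordinateRing} (h : (twTau W f).natDegree ≤ n) :
    2 * (twP W f).natDegree ≤ n := by
  have h1 := tw_natDegree_even_part W h
  rw [natDegree_expand] at h1
  omega

theorem twn_degQ {n : ℕ} {f : W.CoordinateRing} (h : (twTau W f).natDegree ≤ n)
    (hq : twQ W f ≠ 0) : 2 * (twQ W f).natDegree + 3 ≤ n := by
  have h1 := tw_natDegree_odd_part W h
  have h0 : expand K 2 (twQ W f) ≠ 0 := by rwa [Ne, expand_eq_zero (by norm_num)]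
  rw [natDegree_X_pow_mul (n := 3) h0, natDegree_expand] at h1
  omega

theorem twn_cubic_natDegree :
    (X ^ 3 + C W.a₂ * X ^ 2 + C W.a₄ * X + C W.a₆ : K[X]).natDegree ≤ 3 := by
  compute_degree

theorem twn_lin_natDegree : (C W.a₁ * X + C W.a₃ : K[X]).natDegree ≤ 1 := by
  compute_degree

theorem twn_cubic_coeff :
    (X ^ 3 + C W.a₂ * X ^ 2 + C W.a₄ * X + C W.a₆ : K[X]).coeff 3 = 1 := by
  simp [coeff_X_pow]

/-- The norm of an element of pole order `≤ n` has degree `≤ n`. -/
theorem tw_norm_natDegree_le {n : ℕ} {f : W.CoordinateRing} (h : (twTau W f).natDegree ≤ n) :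
    (Algebra.norm K[X] f).natDegree ≤ n := by
  rw [twn_norm_eq]
  have hp := twn_degP W h
  have h1 : (twP W f ^ 2).natDegree ≤ n := natDegree_pow_le.trans (by omega)
  by_cases hq0 : twQ W f = 0
  · rw [hq0]; simpa using h1
  have hq := twn_degQ W h hq0
  have h2 : (twP W f * twQ W f * (C W.a₁ * X + C W.a₃)).natDegree ≤ n := by
    refine natDegree_mul_le.trans ?_
    have h3 := natDegree_mul_le (p := twP W f) (q := twQ W f)
    have h4 := twn_lin_natDegree W
    omega
  have h3 : (twQ W f ^ 2 * (X ^ 3 + C W.a₂ * X ^ 2 + C W.a₄ * X + C W.a₆)).natDegree ≤ n := by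
    refine natDegree_mul_le.trans ?_
    have h4 := natDegree_pow_le (p := twQ W f) (n := 2)
    have h5 := twn_cubic_natDegree W
    omega
  exact (natDegree_sub_le_of_le (natDegree_sub_le_of_le h1 h2) h3).trans (by simp)

/-- The coefficient of the norm at an even pole order is the square of the symbol. -/
theorem tw_norm_coeff_even {k : ℕ} {f : W.CoordinateRing}
    (h : (twTau W f).natDegree ≤ 2 * k) :
    (Algebra.norm K[X] f).coeff (2 * k) = (twLam W (2 * k) f) ^ 2 := by
  rw [twLam_apply, twTau_coeff_even, twn_norm_eq]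
  have hp := twn_degP W h
  have h1 : (twP W f ^ 2).coeff (2 * k) = (twP W f).coeff k ^ 2 := by
    rw [two_mul, sq, sq]
    exact coeff_mul_add_eq_of_natDegree_le (by omega) (by omega)
  by_cases hq0 : twQ W f = 0
  · rw [hq0]; simpa using h1
  have hq := twn_degQ W h hq0
  have h2 : (twP W f * twQ W f * (C W.a₁ * X + C W.a₃)).coeff (2 * k) = 0 := by
    apply coeff_eq_zero_of_natDegree_lt
    refine lt_of_le_of_lt natDegree_mul_le ?_
    have h3 := natDegree_mul_le (p := twP W f) (q := twQ W f)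
    have h4 := twn_lin_natDegree W
    omega
  have h3 : (twQ W f ^ 2 * (X ^ 3 + C W.a₂ * X ^ 2 + C W.a₄ * X + C W.a₆)).coeff (2 * k) = 0 := by
    apply coeff_eq_zero_of_natDegree_lt
    refine lt_of_le_of_lt natDegree_mul_le ?_
    have h4 := natDegree_pow_le (p := twQ W f) (n := 2)
    have h5 := twn_cubic_natDegree W
    omega
  rw [coeff_sub, coeff_sub, h1, h2, h3, sub_zero, sub_zero]

/-- The coefficient of the norm at an odd pole order is minus the square of the symbol. -/
theorem tw_norm_coeff_odd {k : ℕ} {f : W.CoordinateRing}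
    (h : (twTau W f).natDegree ≤ 2 * k + 3) :
    (Algebra.norm K[X] f).coeff (2 * k + 3) = -(twLam W (2 * k + 3) f) ^ 2 := by
  rw [twLam_apply, twTau_coeff_odd, twn_norm_eq]
  have hp := twn_degP W h
  have hq : (twQ W f).natDegree ≤ k := by
    by_cases hq0 : twQ W f = 0
    · rw [hq0]; simp
    · have h1 := twn_degQ W h hq0
      omega
  have h1 : (twP W f ^ 2).coeff (2 * k + 3) = 0 := by
    apply coeff_eq_zero_of_natDegree_lt
    refine lt_of_le_of_lt natDegree_pow_le ?_
    omega
  have h2 : (twP W f * twQ W f * (C W.a₁ * X + C W.a₃)).coeff (2 * k + 3) = 0 := by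
    apply coeff_eq_zero_of_natDegree_lt
    refine lt_of_le_of_lt natDegree_mul_le ?_
    have h3 := natDegree_mul_le (p := twP W f) (q := twQ W f)
    have h4 := twn_lin_natDegree W
    omega
  have h3 : (twQ W f ^ 2 * (X ^ 3 + C W.a₂ * X ^ 2 + C W.a₄ * X + C W.a₆)).coeff (2 * k + 3) =
      (twQ W f).coeff k ^ 2 := by
    have h4 : (twQ W f ^ 2).coeff (k + k) = (twQ W f).coeff k ^ 2 := by
      rw [sq, sq]
      exact coeff_mul_add_eq_of_natDegree_le hq hq
    have h5 : (twQ W f ^ 2).natDegree ≤ k + k := natDegree_pow_le.trans (by omega)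
    rw [show 2 * k + 3 = (k + k) + 3 by ring,
      coeff_mul_add_eq_of_natDegree_le h5 (twn_cubic_natDegree W), h4, twn_cubic_coeff, mul_one]
  rw [coeff_sub, coeff_sub, h1, h2, h3, sub_zero, zero_sub]

theorem twTau_eq_zero_iff {f : W.CoordinateRing} : twTau W f = 0 ↔ f = 0 := by
  constructor
  · intro h
    have hp : twP W f = 0 := by
      ext k
      rw [← twTau_coeff_even, h]
      simp
    have hq : twQ W f = 0 := by
      ext k
      rw [← twTau_coeff_odd, h]
      simp
    rw [← tw_repr W f, hp, hq]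
    simp
  · rintro rfl
    exact map_zero _

theorem tw_norm_coeff_top_ne_zero {f : W.CoordinateRing} (hf : f ≠ 0) :
    (Algebra.norm K[X] f).coeff (twTau W f).natDegree ≠ 0 := by
  have hτ : twTau W f ≠ 0 := fun h => hf ((twTau_eq_zero_iff W).1 h)
  have hl : (twTau W f).coeff (twTau W f).natDegree ≠ 0 := by
    rwa [coeff_natDegree, Ne, leadingCoeff_eq_zero]
  obtain ⟨n, hn⟩ : ∃ n, n = (twTau W f).natDegree := ⟨_, rfl⟩
  rw [← hn] at hl ⊢
  have hle : (twTau W f).natDegree ≤ n := hn.ge
  rcases Nat.even_or_odd' n with ⟨k, rfl | rfl⟩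
  · rw [tw_norm_coeff_even W hle, twLam_apply]
    exact pow_ne_zero 2 hl
  · rcases k with _ | k
    · exact absurd (twTau_coeff_one W f) hl
    · have e : 2 * (k + 1) + 1 = 2 * k + 3 := by ring
      rw [e] at hl hle ⊢
      rw [tw_norm_coeff_odd W hle, twLam_apply]
      exact neg_ne_zero.2 (pow_ne_zero 2 hl)

theorem tw_norm_zero : Algebra.norm K[X] (0 : W.CoordinateRing) = 0 := by
  rw [twn_norm_eq]
  simp [twP, twQ]

theorem tw_norm_ne_zero {f : W.CoordinateRing} (hf : f ≠ 0) : Algebra.norm K[X] f ≠ 0 := by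
  intro h
  have h1 := tw_norm_coeff_top_ne_zero W hf
  rw [h] at h1
  simp at h1

theorem tw_norm_eq_zero_iff {f : W.CoordinateRing} : Algebra.norm K[X] f = 0 ↔ f = 0 := by
  constructor
  · intro h
    by_contra hf
    exact tw_norm_ne_zero W hf h
  · rintro rfl
    exact tw_norm_zero W

/-- The degree of the norm is the pole order. -/
theorem tw_norm_natDegree (f : W.CoordinateRing) :
    (Algebra.norm K[X] f).natDegree = (twTau W f).natDegree := by
  by_cases hf : f = 0
  · rw [hf, tw_norm_zero, map_zero]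
  exact le_antisymm (tw_norm_natDegree_le W le_rfl)
    (le_natDegree_of_ne_zero (tw_norm_coeff_top_ne_zero W hf))

/-- Membership in the pole-order filtration in terms of the degree of the norm. -/
theorem mem_twFil_iff_norm {n : ℕ} {f : W.CoordinateRing} :
    f ∈ twFil W n ↔ (Algebra.norm K[X] f).natDegree ≤ n := by
  rw [mem_twFil_iff, tw_norm_natDegree]

theorem tw_norm_natDegree_eq {n : ℕ} {f : W.CoordinateRing}
    (hf : f ∈ twFil W n) (hl : twLam W n f ≠ 0) : (Algebra.norm K[X] f).natDegree = n := by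
  rw [tw_norm_natDegree]
  rw [mem_twFil_iff] at hf
  exact le_antisymm hf (le_natDegree_of_ne_zero hl)

theorem tw_norm_leadingCoeff_even {n : ℕ} (hn : Even n) {f : W.CoordinateRing}
    (hf : f ∈ twFil W n) (hl : twLam W n f ≠ 0) :
    (Algebra.norm K[X] f).leadingCoeff = twLam W n f ^ 2 := by
  rw [leadingCoeff, tw_norm_natDegree_eq W hf hl]
  obtain ⟨k, rfl⟩ := hn
  rw [← two_mul] at hf ⊢
  exact tw_norm_coeff_even W ((mem_twFil_iff W).1 hf)

/-- Evaluation of the norm at the `x`-coordinate of a point. -/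
theorem tw_norm_eval (f : W.CoordinateRing) {x₀ y₀ : K} (h : W.Equation x₀ y₀) :
    (Algebra.norm K[X] f).eval x₀ =
      ((twP W f).eval x₀ + (twQ W f).eval x₀ * y₀) *
        ((twP W f).eval x₀ + (twQ W f).eval x₀ * W.negY x₀ y₀) := by
  rw [twn_norm_eq, negY]
  have h1 := (equation_iff x₀ y₀).1 h
  simp only [eval_sub, eval_mul, eval_pow, eval_add, eval_C, eval_X]
  linear_combination (eval x₀ (twQ W f)) ^ 2 * h1

/-! ## The filtration is spanned by the monomials -/

theorem tw_fil_eq_sum {n : ℕ} {f : W.CoordinateRing} (hf : f ∈ twFil W n) :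
    f = ∑ m ∈ Finset.range (n + 1), twLam W m f • twMon W m := by
  rw [mem_twFil_iff] at hf
  have h : twTau W (f - ∑ m ∈ Finset.range (n + 1), twLam W m f • twMon W m) = 0 := by
    rw [map_sub, map_sum]
    have h1 : ∀ m ∈ Finset.range (n + 1), twTau W (twLam W m f • twMon W m) =
        monomial m ((twTau W f).coeff m) := by
      intro m _
      rw [map_smul, twLam_apply]
      by_cases hm : m = 1
      · subst hm
        rw [twTau_coeff_one]
        simp
      · rw [twTau_twMon W hm, smul_eq_C_mul, C_mul_X_pow_eq_monomial]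
    rw [Finset.sum_congr rfl h1, ← as_sum_range' (twTau W f) (n + 1) (by omega), sub_self]
  exact sub_eq_zero.1 ((twTau_eq_zero_iff W).1 h)

theorem tw_fil_eq_sum_twN {p : ℕ} (hp : 0 < p) {f : W.CoordinateRing} (hf : f ∈ twFil W p) :
    f = ∑ j : Fin p, twLam W (twN j) f • twMon W (twN j) := by
  conv_lhs => rw [tw_fil_eq_sum W hf]
  rw [Fin.sum_univ_eq_sum_range (fun j => twLam W (twN j) f • twMon W (twN j)) p]
  obtain ⟨q, rfl⟩ : ∃ q, p = q + 1 := ⟨p - 1, by omega⟩
  have e1 : ∑ m ∈ Finset.range (q + 1 + 1), twLam W m f • twMon W m =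
      ∑ m ∈ Finset.range q, twLam W (m + 2) f • twMon W (m + 2) +
        twLam W 1 f • twMon W 1 + twLam W 0 f • twMon W 0 := by
    rw [Finset.sum_range_succ', Finset.sum_range_succ']
  have e2 : ∑ j ∈ Finset.range (q + 1), twLam W (twN j) f • twMon W (twN j) =
      ∑ m ∈ Finset.range q, twLam W (m + 2) f • twMon W (m + 2) +
        twLam W 0 f • twMon W 0 := by
    rw [Finset.sum_range_succ']
    rfl
  rw [e1, e2, twLam_one, zero_smul, add_zero]

/-- The filtration step `n` is the span of the monomials of pole order `≤ n`. -/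
theorem tw_fil_mem_span {n : ℕ} {f : W.CoordinateRing} (hf : f ∈ twFil W n) :
    f ∈ Submodule.span K (Set.range fun m : Fin (n + 1) => twMon W (m : ℕ)) := by
  rw [tw_fil_eq_sum W hf]
  refine Submodule.sum_mem _ fun m hm => Submodule.smul_mem _ _ (Submodule.subset_span ?_)
  exact ⟨⟨m, Finset.mem_range.1 hm⟩, rfl⟩

end Fermat.Agent.TW
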